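import Mathlib
import Fermat.Prelude.Def_GroupCohomology_ContinuousUnramified
import Fermat.Prelude.Def_ModularForm_HeckeOperator
import Fermat.Prelude.Def_GaloisRep_Residual
import Fermat.Prelude.Def_GaloisRep_Adic
import Mathlib.NumberTheory.ModularForms.LevelOne.GradedRing
import Mathlib.Analysis.Complex.LocallyUniformLimit
import Mathlib.Analysis.Complex.TaylorSeries
import Mathlib.Analysis.Calculus.Deriv.Polynomial
import Mathlib.RingTheory.PowerSeries.PiTopology
import Fermat.Prelude.Def_ModularCurve_X0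
import Fermat.Prelude.Def_ModularCurve_LaurentCoeff
import Fermat.Prelude.Def_AlgebraicCurve_DivisorClassGroup
import Fermat.Prelude.Def_AlgebraicCurve_Repartitions
import Fermat.Prelude.Def_ModularCurve_PeriodHomPair

-- ===== PACK-BEGIN S55/Bridge/Level.lean
section



/-!
# S55 bridge, part B2a: a representation as in S55 factors through a finite Galois level
unramified outside `S`.
-/

set_option autoImplicit false

namespace Fermat.Agent.S55.Bridge

open IntermediateField

/-- `ℚ̄/ℚ` is algebraic (for the `Algebra ℚ ℚ̄` instance found by instance search). -/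
theorem isAlgebraic_Qbar : Algebra.IsAlgebraic ℚ (AlgebraicClosure ℚ) :=
  AlgebraicClosure.isAlgebraic ℚ

/-- `ℚ̄/ℚ` is Galois (for the `Algebra ℚ ℚ̄` instance found by instance search). -/
theorem isGalois_Qbar : IsGalois ℚ (AlgebraicClosure ℚ) := by
  haveI : Algebra.IsAlgebraic ℚ (AlgebraicClosure ℚ) := isAlgebraic_Qbar
  haveI : IsAlgClosure ℚ (AlgebraicClosure ℚ) := ⟨inferInstance, inferInstance⟩
  haveI : Normal ℚ (AlgebraicClosure ℚ) := IsAlgClosure.normal ℚ (AlgebraicClosure ℚ)
  exact isGalois_iff.mpr ⟨inferInstance, inferInstance⟩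

attribute [local instance] isAlgebraic_Qbar isGalois_Qbar

/-- A subgroup of `G_ℚ` containing `G_F` for a finite `F/ℚ` and all inertia groups outside `S`
is `G_L` for a finite `L/ℚ` unramified outside `S`. -/
theorem exists_level_of_subgroup (S : Finset Nat.Primes)
    (N : Subgroup (AlgebraicClosure ℚ ≃ₐ[ℚ] AlgebraicClosure ℚ))
    (F : IntermediateField ℚ (AlgebraicClosure ℚ)) (hFfin : FiniteDimensional ℚ F)
    (hF : F.fixingSubgroup ≤ N)
    (hur : ∀ q : Nat.Primes, q ∉ S → ∀ A : ValuationSubring (AlgebraicClosure ℚ),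
      A.LiesOverPrime (q : ℕ) → A.inertiaSubgroupIn ℚ ≤ N) :
    ∃ L : IntermediateField ℚ (AlgebraicClosure ℚ),
      L.IsUnramifiedOutside S ∧ L.fixingSubgroup = N ∧ L ≤ F := by
  have hopenF : IsOpen (F.fixingSubgroup : Set (AlgebraicClosure ℚ ≃ₐ[ℚ] AlgebraicClosure ℚ)) :=
    IntermediateField.fixingSubgroup_isOpen F
  have hopen : IsOpen (N : Set (AlgebraicClosure ℚ ≃ₐ[ℚ] AlgebraicClosure ℚ)) :=
    Subgroup.isOpen_mono hF hopenF
  have hclosed : IsClosed (N : Set (AlgebraicClosure ℚ ≃ₐ[ℚ] AlgebraicClosure ℚ)) :=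
    Subgroup.isClosed_of_isOpen N hopen
  have hfix : (IntermediateField.fixedField N).fixingSubgroup = N :=
    InfiniteGalois.fixingSubgroup_fixedField ⟨N, hclosed⟩
  have hle : IntermediateField.fixedField N ≤ F := by
    rw [← InfiniteGalois.fixedField_fixingSubgroup F]
    exact IntermediateField.fixedField_antitone hF
  refine ⟨IntermediateField.fixedField N, ⟨?_, ?_⟩, hfix, hle⟩
  · exact FiniteDimensional.of_injective (IntermediateField.inclusion hle).toLinearMap
      (IntermediateField.inclusion_injective hle)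
  · intro q hq A hA
    rw [hfix]
    exact hur q hq A hA

/-- If moreover the subgroup is normal, the level is Galois over `ℚ`. -/
theorem exists_galois_level_of_subgroup (S : Finset Nat.Primes)
    (N : Subgroup (AlgebraicClosure ℚ ≃ₐ[ℚ] AlgebraicClosure ℚ)) [N.Normal]
    (F : IntermediateField ℚ (AlgebraicClosure ℚ)) (hFfin : FiniteDimensional ℚ F)
    (hF : F.fixingSubgroup ≤ N)
    (hur : ∀ q : Nat.Primes, q ∉ S → ∀ A : ValuationSubring (AlgebraicClosure ℚ),
      A.LiesOverPrime (q : ℕ) → A.inertiaSubgroupIn ℚ ≤ N) :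
    ∃ L : IntermediateField ℚ (AlgebraicClosure ℚ),
      L.IsUnramifiedOutside S ∧ IsGalois ℚ L ∧ L.fixingSubgroup = N ∧ L ≤ F := by
  obtain ⟨L, hL, hfix, hle⟩ := exists_level_of_subgroup S N F hFfin hF hur
  refine ⟨L, hL, ?_, hfix, hle⟩
  have h := (InfiniteGalois.normal_iff_isGalois L).1 (by rw [hfix]; infer_instance)
  convert h
  exact Subsingleton.elim _ _

section Rep

variable {k : Type} [Field k]
  (M : Rep k (AlgebraicClosure ℚ ≃ₐ[ℚ] AlgebraicClosure ℚ)) [FiniteDimensional k M]

/-- Pointwise smoothness plus finite-dimensionality gives a uniform finite level. -/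
theorem exists_finite_level_of_smooth
    (hsm : ∀ m : M, ∃ F : IntermediateField ℚ (AlgebraicClosure ℚ), FiniteDimensional ℚ F ∧
      ∀ s ∈ F.fixingSubgroup, M.ρ s m = m) :
    ∃ F : IntermediateField ℚ (AlgebraicClosure ℚ), FiniteDimensional ℚ F ∧
      ∀ s ∈ F.fixingSubgroup, M.ρ s = 1 := by
  classical
  choose F hFfin hFfix using hsm
  let b := Module.finBasis k M
  refine ⟨⨆ i, F (b i), ?_, ?_⟩
  · haveI : ∀ i, FiniteDimensional ℚ (F (b i)) := fun i => hFfin (b i)
    exact IntermediateField.finiteDimensional_iSup_of_finite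
  · intro s hs
    apply b.ext
    intro i
    have hle : F (b i) ≤ ⨆ i, F (b i) := le_iSup (fun i => F (b i)) i
    exact hFfix (b i) s (IntermediateField.fixingSubgroup_antitone hle hs)

/-- **B2a.** The representation `M` of S55 factors through `Gal(L/ℚ)` for a finite Galois
extension `L/ℚ` unramified outside `S`; in fact `G_L = ker ρ`. -/
theorem exists_galois_level_of_rep (S : Finset Nat.Primes)
    (hsm : ∀ m : M, ∃ F : IntermediateField ℚ (AlgebraicClosure ℚ), FiniteDimensional ℚ F ∧
      ∀ s ∈ F.fixingSubgroup, M.ρ s m = m)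
    (hMur : ∀ q : Nat.Primes, q ∉ S → ∀ A : ValuationSubring (AlgebraicClosure ℚ),
      A.LiesOverPrime (q : ℕ) → ∀ g ∈ A.inertiaSubgroupIn ℚ, M.ρ g = 1) :
    ∃ L : IntermediateField ℚ (AlgebraicClosure ℚ),
      L.IsUnramifiedOutside S ∧ IsGalois ℚ L ∧ ∀ s, s ∈ L.fixingSubgroup ↔ M.ρ s = 1 := by
  obtain ⟨F, hFfin, hF⟩ := exists_finite_level_of_smooth M hsm
  obtain ⟨L, hL, hgal, hfix, -⟩ := exists_galois_level_of_subgroup S (MonoidHom.ker M.ρ) F hFfin
    (fun s hs => MonoidHom.mem_ker.2 (hF s hs))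
    (fun q hq A hA g hg => MonoidHom.mem_ker.2 (hMur q hq A hA g hg))
  refine ⟨L, hL, hgal, fun s => ?_⟩
  rw [hfix, MonoidHom.mem_ker]

end Rep

end Fermat.Agent.S55.Bridge

end
-- ===== PACK-END S55/Bridge/Level.lean

-- ===== PACK-BEGIN Lib/Cheb/H764/Orbit.lean
section


/-!
# CHEB / piece A: decomposition groups and primes of a fixed field (orbit count)

Abstract setting: `R ⊆ T ⊆ S` Dedekind-like rings, `G` a finite Galois group of `S/R`,
`H ≤ G` a Galois group of `S/T`.
-/

set_option autoImplicit false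
set_option linter.unusedSectionVars false

namespace Fermat.Agent.Lib.Cheb.H764

open Ideal MulAction
open scoped Pointwise

section abstract

variable {R T S : Type*} [CommRing R] [CommRing T] [CommRing S]
  [IsDomain R] [IsDomain T] [IsDomain S]
  [Algebra R T] [Algebra T S] [Algebra R S] [IsScalarTower R T S]
  [Module.Finite R S] [Module.Finite T S]
  [Module.Flat R S] [Module.Flat T S]
  {G : Type*} [Group G] [Finite G] [MulSemiringAction G S] [IsGaloisGroup G R S]
  (H : Subgroup G) [IsGaloisGroup H T S]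

/-- the stabilizer in the subgroup is the intersection with the subgroup -/
lemma stabilizer_subgroup_eq (Q : Ideal S) :
    stabilizer H Q = (stabilizer G Q).subgroupOf H := by
  ext h
  simp [Subgroup.mem_subgroupOf, Subgroup.smul_def]

lemma card_stabilizer_eq_mul (p : Ideal R) [p.IsPrime] [PerfectField p.ResidueField]
    (Q : Ideal S) [Q.IsPrime] [Q.LiesOver p] :
    Nat.card (stabilizer G Q) = Q.ramificationIdx R * Q.inertiaDeg R := by
  rw [Ideal.card_stabilizer_eq (G := G) p Q, ramificationIdxIn_eq_ramificationIdx p Q G,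
    inertiaDegIn_eq_inertiaDeg p Q G]

/-- `|D_Q(G)| = e(𝔮|p) f(𝔮|p) |D_Q(H)|` for `𝔮 = Q ∩ T`. -/
lemma card_stabilizer_eq_mul_card_stabilizer (p : Ideal R) [p.IsPrime]
    [PerfectField p.ResidueField]
    (q : Ideal T) [q.IsPrime] [q.LiesOver p] [PerfectField q.ResidueField]
    (Q : Ideal S) [Q.IsPrime] [Q.LiesOver q] [Q.LiesOver p] :
    Nat.card (stabilizer G Q) =
      (q.ramificationIdx R * q.inertiaDeg R) * Nat.card (stabilizer H Q) := by
  have h1 : Nat.card (stabilizer H Q) = Q.ramificationIdx T * Q.inertiaDeg T :=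
    card_stabilizer_eq_mul (G := H) q Q
  rw [card_stabilizer_eq_mul (G := G) p Q, h1,
    ramificationIdx_tower (R := R) q Q, inertiaDeg_tower (R := R) q Q]
  ring

lemma card_subgroupOf_eq_iff (A B : Subgroup G) :
    Nat.card (A.subgroupOf B) = Nat.card A ↔ A ≤ B := by
  constructor
  · intro h
    have h1 : Nat.card (A.subgroupOf B) = Nat.card (A ⊓ B : Subgroup G) := by
      rw [← Subgroup.inf_subgroupOf_right]
      exact Nat.card_congr (Subgroup.subgroupOfEquivOfLe inf_le_right).toEquiv
    rw [h1] at h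
    have h2 : (A ⊓ B : Subgroup G) = A :=
      Subgroup.eq_of_le_of_card_ge inf_le_left h.ge
    rw [← h2]
    exact inf_le_right
  · intro h
    exact Nat.card_congr (Subgroup.subgroupOfEquivOfLe h).toEquiv

/-- `e(𝔮|p) f(𝔮|p) = 1` iff the decomposition group of `Q` is contained in `H`. -/
lemma ramificationIdx_mul_inertiaDeg_eq_one_iff (p : Ideal R) [p.IsPrime]
    [PerfectField p.ResidueField]
    (q : Ideal T) [q.IsPrime] [q.LiesOver p] [PerfectField q.ResidueField]
    (Q : Ideal S) [Q.IsPrime] [Q.LiesOver q] [Q.LiesOver p] :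
    q.ramificationIdx R * q.inertiaDeg R = 1 ↔ stabilizer G Q ≤ H := by
  have key := card_stabilizer_eq_mul_card_stabilizer H p q Q
  have hpos : 0 < Nat.card (stabilizer H Q) := Nat.card_pos
  rw [stabilizer_subgroup_eq H Q] at key hpos
  rw [← card_subgroupOf_eq_iff]
  constructor
  · intro h
    rw [key, h, one_mul]
  · intro h
    rw [← h] at key
    have h3 : 1 * Nat.card ((stabilizer G Q).subgroupOf H) =
        (q.ramificationIdx R * q.inertiaDeg R) * Nat.card ((stabilizer G Q).subgroupOf H) := by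
      rw [one_mul]; exact key
    exact (Nat.eq_of_mul_eq_mul_right hpos h3).symm

/-- orbit-stabilizer for the primes above `p` -/
lemma ncard_primesOver_mul_card_stabilizer_aux
    (p : Ideal R) [p.IsPrime] (P : Ideal S) [P.IsPrime] [P.LiesOver p] :
    (p.primesOver S).ncard * Nat.card (stabilizer G P) = Nat.card G := by
  rw [← Algebra.IsInvariant.orbit_eq_primesOver R S G p P]
  simpa using Nat.card_congr (MulAction.orbitProdStabilizerEquivGroup G P)

/-- the number of primes of `S` above `𝔮` times the order of the decomposition group in `H` -/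
lemma ncard_primesOver_mul_card_stabilizer
    (q : Ideal T) [q.IsPrime] (Q : Ideal S) [Q.IsPrime] [Q.LiesOver q] :
    (q.primesOver S).ncard * Nat.card (stabilizer H Q) = Nat.card H :=
  ncard_primesOver_mul_card_stabilizer_aux (G := H) q Q

/-- inner sum of the orbit count: the primes of `S` above a prime `𝔮` of `T` with `e f = 1`
contribute `|H|`. -/
lemma finsum_card_stabilizer_primesOver (p : Ideal R) [p.IsPrime] [PerfectField p.ResidueField]
    (q : Ideal T) [q.IsPrime] [q.LiesOver p] [PerfectField q.ResidueField]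
    (hq : q.ramificationIdx R * q.inertiaDeg R = 1) (hfin : (q.primesOver S).Finite)
    (hne : (q.primesOver S).Nonempty) :
    ∑ᶠ Q ∈ q.primesOver S, Nat.card (stabilizer G Q) = Nat.card H := by
  classical
  have key : ∀ Q ∈ q.primesOver S,
      (q.primesOver S).ncard * Nat.card (stabilizer G Q) = Nat.card H := by
    intro Q hQ
    haveI : Q.IsPrime := hQ.1
    haveI : Q.LiesOver q := hQ.2
    haveI : Q.LiesOver p := LiesOver.trans Q q p
    rw [card_stabilizer_eq_mul_card_stabilizer H p q Q, hq, one_mul]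
    exact ncard_primesOver_mul_card_stabilizer H q Q
  have hn : 0 < (q.primesOver S).ncard := (Set.ncard_pos hfin).mpr hne
  have hconst : ∀ Q ∈ q.primesOver S,
      Nat.card (stabilizer G Q) = Nat.card H / (q.primesOver S).ncard := by
    intro Q hQ
    rw [← key Q hQ, Nat.mul_div_cancel_left _ hn]
  rw [finsum_mem_congr rfl hconst, finsum_mem_eq_finite_toFinset_sum _ hfin, Finset.sum_const,
    smul_eq_mul, ← Set.ncard_eq_toFinset_card _ hfin]
  obtain ⟨Q, hQ⟩ := hne
  rw [← hconst Q hQ]
  exact key Q hQ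

end abstract

end Fermat.Agent.Lib.Cheb.H764

end
-- ===== PACK-END Lib/Cheb/H764/Orbit.lean

-- ===== PACK-BEGIN Lib/Pet695/Cosets.lean
section



/-!
# The Hecke double coset of a prime `ℓ ∤ N` for `Γ₀(N)`

`DeltaZ N ℓ = {M ∈ M₂(ℤ) : det M = ℓ, N ∣ M 1 0}` is the disjoint union of the cosets
`Γ₀(N) · r`, `r ∈ {[[1,j],[0,ℓ]] : j < ℓ} ∪ {[[ℓ,0],[0,1]]}`, and it is stable under the adjugate.
-/

set_option autoImplicit false

open Matrix
open scoped MatrixGroups

noncomputable section

namespace Fermat.Agent.Lib.Pet695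

variable (N ℓ : ℕ)

/-- integer matrices of determinant `ℓ` with lower left entry divisible by `N` -/
def DeltaZ : Set (Matrix (Fin 2) (Fin 2) ℤ) := {M | M.det = (ℓ : ℤ) ∧ (N : ℤ) ∣ M 1 0}

/-- the standard representatives -/
def repZ : Option (Fin ℓ) → Matrix (Fin 2) (Fin 2) ℤ
  | none => !![(ℓ : ℤ), 0; 0, 1]
  | some j => !![1, ((j : ℕ) : ℤ); 0, (ℓ : ℤ)]

variable {N ℓ}

theorem det_repZ (x : Option (Fin ℓ)) : (repZ ℓ x).det = (ℓ : ℤ) := by
  cases x <;> simp [repZ, Matrix.det_fin_two_of]

theorem sl_det_eq (g : SL(2, ℤ)) : g 0 0 * g 1 1 - g 0 1 * g 1 0 = 1 := by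
  have h := g.det_coe
  rwa [Matrix.det_fin_two] at h

theorem gamma0_dvd {g : SL(2, ℤ)} (hg : g ∈ CongruenceSubgroup.Gamma0 N) : (N : ℤ) ∣ g 1 0 :=
  (ZMod.intCast_zmod_eq_zero_iff_dvd _ _).mp (CongruenceSubgroup.Gamma0_mem.mp hg)

theorem mem_gamma0_of_dvd {g : SL(2, ℤ)} (hg : (N : ℤ) ∣ g 1 0) :
    g ∈ CongruenceSubgroup.Gamma0 N :=
  CongruenceSubgroup.Gamma0_mem.mpr ((ZMod.intCast_zmod_eq_zero_iff_dvd _ _).mpr hg)

theorem mul_repZ_none (A : Matrix (Fin 2) (Fin 2) ℤ) :
    A * repZ ℓ none = !![A 0 0 * ℓ, A 0 1; A 1 0 * ℓ, A 1 1] := by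
  ext i j
  fin_cases i <;> fin_cases j <;> simp [repZ, Matrix.mul_apply, Fin.sum_univ_two]

theorem mul_repZ_some (A : Matrix (Fin 2) (Fin 2) ℤ) (j : Fin ℓ) :
    A * repZ ℓ (some j) =
      !![A 0 0, A 0 0 * ((j : ℕ) : ℤ) + A 0 1 * ℓ; A 1 0, A 1 0 * ((j : ℕ) : ℤ) + A 1 1 * ℓ] := by
  ext i j'
  fin_cases i <;> fin_cases j' <;> simp [repZ, Matrix.mul_apply, Fin.sum_univ_two]

theorem mul_repZ_mem (g : CongruenceSubgroup.Gamma0 N) (x : Option (Fin ℓ)) :
    (g : SL(2, ℤ)).val * repZ ℓ x ∈ DeltaZ N ℓ := by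
  refine ⟨by rw [Matrix.det_mul, det_repZ, (g : SL(2, ℤ)).det_coe, one_mul], ?_⟩
  have h := gamma0_dvd g.2
  cases x with
  | none => rw [mul_repZ_none]; simpa using h.mul_right _
  | some j => rw [mul_repZ_some]; simpa using h

/-- the map `(γ, r) ↦ γ r` -/
def mulRep (p : CongruenceSubgroup.Gamma0 N × Option (Fin ℓ)) : DeltaZ N ℓ :=
  ⟨(p.1 : SL(2, ℤ)).val * repZ ℓ p.2, mul_repZ_mem p.1 p.2⟩

theorem sl_ext {g h : SL(2, ℤ)} (h00 : g 0 0 = h 0 0) (h01 : g 0 1 = h 0 1)
    (h10 : g 1 0 = h 1 0) (h11 : g 1 1 = h 1 1) : g = h := by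
  ext i j
  fin_cases i <;> fin_cases j <;> assumption

theorem not_dvd_col (hℓ : ℓ.Prime) (g : SL(2, ℤ)) : ¬ ((ℓ : ℤ) ∣ g 0 0 ∧ (ℓ : ℤ) ∣ g 1 0) := by
  rintro ⟨h1, h2⟩
  have h3 : (ℓ : ℤ) ∣ g 0 0 * g 1 1 - g 0 1 * g 1 0 :=
    dvd_sub (h1.mul_right _) (h2.mul_left _)
  rw [sl_det_eq] at h3
  have := Int.natAbs_dvd_natAbs.mpr h3
  simp at this
  exact hℓ.one_lt.ne' this

theorem mulRep_injective (hℓ : ℓ.Prime) : Function.Injective (mulRep (N := N) (ℓ := ℓ)) := by
  have hℓ0 : (ℓ : ℤ) ≠ 0 := by exact_mod_cast hℓ.ne_zero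
  rintro ⟨⟨g, hg⟩, x⟩ ⟨⟨g', hg'⟩, x'⟩ h
  have hM : g.val * repZ ℓ x = g'.val * repZ ℓ x' := congrArg Subtype.val h
  have e00 := congrFun (congrFun hM 0) 0
  have e01 := congrFun (congrFun hM 0) 1
  have e10 := congrFun (congrFun hM 1) 0
  have e11 := congrFun (congrFun hM 1) 1
  cases x with
  | none =>
    cases x' with
    | none =>
      simp only [mul_repZ_none, Matrix.of_apply, Matrix.cons_val', Matrix.cons_val_zero,
        Matrix.cons_val_one, Matrix.cons_val_fin_one] at e00 e01 e10 e11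
      have : g = g' := sl_ext (mul_right_cancel₀ hℓ0 e00) e01 (mul_right_cancel₀ hℓ0 e10) e11
      subst this
      rfl
    | some j' =>
      simp only [mul_repZ_none, mul_repZ_some, Matrix.of_apply, Matrix.cons_val',
        Matrix.cons_val_zero, Matrix.cons_val_one, Matrix.cons_val_fin_one] at e00 e01 e10 e11
      exact absurd ⟨⟨_, by rw [← e00, mul_comm]⟩, ⟨_, by rw [← e10, mul_comm]⟩⟩
        (not_dvd_col hℓ g')
  | some j =>
    cases x' with
    | none =>
      simp only [mul_repZ_none, mul_repZ_some, Matrix.of_apply, Matrix.cons_val',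
        Matrix.cons_val_zero, Matrix.cons_val_one, Matrix.cons_val_fin_one] at e00 e01 e10 e11
      exact absurd ⟨⟨_, by rw [e00, mul_comm]⟩, ⟨_, by rw [e10, mul_comm]⟩⟩
        (not_dvd_col hℓ g)
    | some j' =>
      simp only [mul_repZ_some, Matrix.of_apply, Matrix.cons_val',
        Matrix.cons_val_zero, Matrix.cons_val_one, Matrix.cons_val_fin_one] at e00 e01 e10 e11
      -- ℓ ∣ a (j - j'), ℓ ∣ c (j - j')
      have d1 : (ℓ : ℤ) ∣ g 0 0 * (((j : ℕ) : ℤ) - ((j' : ℕ) : ℤ)) :=
        ⟨g' 0 1 - g 0 1, by rw [e00] at e01 ⊢; linear_combination e01⟩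
      have d2 : (ℓ : ℤ) ∣ g 1 0 * (((j : ℕ) : ℤ) - ((j' : ℕ) : ℤ)) :=
        ⟨g' 1 1 - g 1 1, by rw [e10] at e11 ⊢; linear_combination e11⟩
      have hp : Prime (ℓ : ℤ) := Nat.prime_iff_prime_int.mp hℓ
      have hjj : (ℓ : ℤ) ∣ ((j : ℕ) : ℤ) - ((j' : ℕ) : ℤ) := by
        by_contra hn
        exact not_dvd_col hℓ g ⟨(hp.dvd_or_dvd d1).resolve_right hn,
          (hp.dvd_or_dvd d2).resolve_right hn⟩
      have hjeq : (j : ℕ) = (j' : ℕ) := by
        have h1 : ((j : ℕ) : ℤ) ≡ ((j' : ℕ) : ℤ) [ZMOD (ℓ : ℤ)] :=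
          (Int.modEq_iff_dvd.mpr hjj).symm
        have h2 : (j : ℕ) ≡ (j' : ℕ) [MOD ℓ] := Int.natCast_modEq_iff.mp h1
        exact Nat.ModEq.eq_of_lt_of_lt h2 j.2 j'.2
      have hj : j = j' := Fin.ext hjeq
      subst hj
      have : g = g' := sl_ext e00
        (mul_right_cancel₀ hℓ0 (by rw [e00] at e01; linear_combination e01)) e10
        (mul_right_cancel₀ hℓ0 (by rw [e10] at e11; linear_combination e11))
      subst this
      rfl

theorem mulRep_surjective (hℓ : ℓ.Prime) (hℓN : ¬ ℓ ∣ N) :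
    Function.Surjective (mulRep (N := N) (ℓ := ℓ)) := by
  have : Fact ℓ.Prime := ⟨hℓ⟩
  have hℓ0 : (ℓ : ℤ) ≠ 0 := by exact_mod_cast hℓ.ne_zero
  rintro ⟨M, hdet, hN⟩
  rw [Matrix.det_fin_two] at hdet
  by_cases hcase : (ℓ : ℤ) ∣ M 0 0 ∧ (ℓ : ℤ) ∣ M 1 0
  · obtain ⟨⟨a', ha'⟩, ⟨c', hc'⟩⟩ := hcase
    have hdet1 : a' * M 1 1 - M 0 1 * c' = 1 := by
      apply mul_left_cancel₀ hℓ0
      rw [ha', hc'] at hdet
      linear_combination hdet
    have hNc : (N : ℤ) ∣ c' := by
      have hcop : IsCoprime (N : ℤ) (ℓ : ℤ) := by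
        rw [Int.isCoprime_iff_gcd_eq_one, Int.gcd_natCast_natCast]
        exact (Nat.coprime_comm.mp ((Nat.Prime.coprime_iff_not_dvd hℓ).mpr hℓN))
      rw [hc'] at hN
      exact hcop.dvd_of_dvd_mul_left hN
    let g : SL(2, ℤ) := ⟨!![a', M 0 1; c', M 1 1], by rw [Matrix.det_fin_two_of]; exact hdet1⟩
    have hg : g ∈ CongruenceSubgroup.Gamma0 N := mem_gamma0_of_dvd (by simpa [g] using hNc)
    refine ⟨(⟨g, hg⟩, none), Subtype.ext ?_⟩
    show g.val * repZ ℓ none = M
    rw [mul_repZ_none]
    ext i j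
    fin_cases i <;> fin_cases j <;> simp [g, ha', hc', mul_comm]
  · -- find `j`
    have hz : ((M 0 0 : ℤ) : ZMod ℓ) * ((M 1 1 : ℤ) : ZMod ℓ)
        = ((M 0 1 : ℤ) : ZMod ℓ) * ((M 1 0 : ℤ) : ZMod ℓ) := by
      have h := congrArg (fun x : ℤ => (x : ZMod ℓ)) hdet
      simp only [Int.cast_sub, Int.cast_mul, Int.cast_natCast, ZMod.natCast_self] at h
      exact sub_eq_zero.mp h
    obtain ⟨t, ht1, ht2⟩ : ∃ t : ZMod ℓ, ((M 0 1 : ℤ) : ZMod ℓ) = ((M 0 0 : ℤ) : ZMod ℓ) * t ∧
        ((M 1 1 : ℤ) : ZMod ℓ) = ((M 1 0 : ℤ) : ZMod ℓ) * t := by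
      by_cases ha : ((M 0 0 : ℤ) : ZMod ℓ) = 0
      · have hc : ((M 1 0 : ℤ) : ZMod ℓ) ≠ 0 := by
          intro hc
          exact hcase ⟨(ZMod.intCast_zmod_eq_zero_iff_dvd _ _).mp ha,
            (ZMod.intCast_zmod_eq_zero_iff_dvd _ _).mp hc⟩
        refine ⟨((M 1 1 : ℤ) : ZMod ℓ) / ((M 1 0 : ℤ) : ZMod ℓ), ?_, ?_⟩
        · rw [ha, zero_mul] at hz ⊢
          exact (mul_eq_zero.mp hz.symm).resolve_right hc
        · field_simp
      · refine ⟨((M 0 1 : ℤ) : ZMod ℓ) / ((M 0 0 : ℤ) : ZMod ℓ), ?_, ?_⟩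
        · field_simp
        · field_simp
          rw [mul_comm, hz, mul_comm]
    have hj1 : (ℓ : ℤ) ∣ M 0 1 - M 0 0 * ((t.val : ℕ) : ℤ) := by
      rw [← ZMod.intCast_zmod_eq_zero_iff_dvd]
      push_cast
      rw [ZMod.natCast_zmod_val, ht1, sub_self]
    have hj2 : (ℓ : ℤ) ∣ M 1 1 - M 1 0 * ((t.val : ℕ) : ℤ) := by
      rw [← ZMod.intCast_zmod_eq_zero_iff_dvd]
      push_cast
      rw [ZMod.natCast_zmod_val, ht2, sub_self]
    obtain ⟨b', hb'⟩ := hj1
    obtain ⟨d', hd'⟩ := hj2
    have hdet1 : M 0 0 * d' - b' * M 1 0 = 1 := by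
      apply mul_left_cancel₀ hℓ0
      linear_combination hdet - M 0 0 * hd' + M 1 0 * hb'
    let g : SL(2, ℤ) := ⟨!![M 0 0, b'; M 1 0, d'], by rw [Matrix.det_fin_two_of]; exact hdet1⟩
    have hg : g ∈ CongruenceSubgroup.Gamma0 N := mem_gamma0_of_dvd (by simpa [g] using hN)
    refine ⟨(⟨g, hg⟩, some ⟨t.val, ZMod.val_lt t⟩), Subtype.ext ?_⟩
    show g.val * repZ ℓ (some ⟨t.val, ZMod.val_lt t⟩) = M
    rw [mul_repZ_some]
    ext i j
    fin_cases i <;> fin_cases j
    · simp [g]
    · simp only [g, Fin.mk_one, Matrix.of_apply, Matrix.cons_val', Matrix.cons_val_zero,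
        Matrix.cons_val_one, Matrix.cons_val_fin_one]
      show M 0 0 * ((t.val : ℕ) : ℤ) + b' * ℓ = M 0 1
      linear_combination -hb'
    · simp [g]
    · simp only [g, Fin.mk_one, Matrix.of_apply, Matrix.cons_val', Matrix.cons_val_zero,
        Matrix.cons_val_one, Matrix.cons_val_fin_one]
      show M 1 0 * ((t.val : ℕ) : ℤ) + d' * ℓ = M 1 1
      linear_combination -hd'

/-- The coset decomposition `Γ₀(N) × R ≃ Δ`. -/
def eZ (hℓ : ℓ.Prime) (hℓN : ¬ ℓ ∣ N) :
    CongruenceSubgroup.Gamma0 N × Option (Fin ℓ) ≃ DeltaZ N ℓ :=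
  Equiv.ofBijective mulRep ⟨mulRep_injective hℓ, mulRep_surjective hℓ hℓN⟩

theorem eZ_apply (hℓ : ℓ.Prime) (hℓN : ¬ ℓ ∣ N) (g : CongruenceSubgroup.Gamma0 N)
    (x : Option (Fin ℓ)) : ((eZ hℓ hℓN (g, x) : DeltaZ N ℓ) : Matrix (Fin 2) (Fin 2) ℤ)
      = (g : SL(2, ℤ)).val * repZ ℓ x := rfl

theorem adjugate_mem {M : Matrix (Fin 2) (Fin 2) ℤ} (hM : M ∈ DeltaZ N ℓ) :
    M.adjugate ∈ DeltaZ N ℓ := by
  refine ⟨?_, ?_⟩
  · rw [Matrix.det_adjugate, hM.1]; simp
  · rw [Matrix.adjugate_fin_two]
    simpa using hM.2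

/-- The adjugate involution of `Δ`. -/
def starZ : DeltaZ N ℓ ≃ DeltaZ N ℓ where
  toFun M := ⟨M.1.adjugate, adjugate_mem M.2⟩
  invFun M := ⟨M.1.adjugate, adjugate_mem M.2⟩
  left_inv M := Subtype.ext (by
    show M.1.adjugate.adjugate = M.1
    rw [Matrix.adjugate_adjugate _ (by simp)]; simp)
  right_inv M := Subtype.ext (by
    show M.1.adjugate.adjugate = M.1
    rw [Matrix.adjugate_adjugate _ (by simp)]; simp)

end Fermat.Agent.Lib.Pet695

end
end
-- ===== PACK-END Lib/Pet695/Cosets.lean

-- ===== PACK-BEGIN S18/H845/EtaleVal.lean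
section


/-!
# S18 / d1(c): constant-field extensions are unramified — the valuation-theoretic core

`R` a discrete valuation ring with uniformiser `π`, `L ⊇ R` a field, `B ⊆ L` a valuation subring
containing `R` in which `π` is not a unit.  Let `α ∈ L` be a root of a monic `p ∈ R[X]` whose
reduction modulo `π` is separable.  Then the value group of `B` on `Frac(R)[α]` is generated by
the value of `π`: for every `g ∈ R[X]` with `g(α) ≠ 0`, `v (g α) = v π ^ j` for some `j : ℕ`.
-/

set_option autoImplicit false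
set_option linter.unusedSectionVars false

namespace Fermat.Agent.S18.H845

open Polynomial IsLocalRing

section FL

variable {R L : Type*} [CommRing R] [IsDomain R] [IsDiscreteValuationRing R] [Field L]
  [Algebra R L]

/-- A polynomial over a DVR whose reduction vanishes is divisible by the uniformiser. -/
lemma exists_C_mul_of_map_residue_eq_zero {π : R} (hπ : Irreducible π) {q : R[X]}
    (hq : q.map (residue R) = 0) : ∃ G : R[X], q = C π * G := by
  have h : C π ∣ q := by
    rw [Polynomial.C_dvd_iff_dvd_coeff]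
    intro i
    have hi : residue R (q.coeff i) = 0 := by
      have := congrArg (fun f => f.coeff i) hq
      simpa using this
    rw [residue_eq_zero_iff, hπ.maximalIdeal_eq, Ideal.mem_span_singleton] at hi
    exact hi
  exact h

variable (B : ValuationSubring L)

omit [IsDomain R] [IsDiscreteValuationRing R] in
/-- Evaluation at an element of `B` of a polynomial with coefficients in `R ⊆ B` lies in `B`. -/
lemma aeval_mem_of_mem (hRB : ∀ r : R, algebraMap R L r ∈ B) {f : L} (hf : f ∈ B) (q : R[X]) :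
    aeval f q ∈ B := by
  induction q using Polynomial.induction_on' with
  | add p q hp hq => rw [map_add]; exact B.add_mem _ _ hp hq
  | monomial n a =>
    rw [aeval_monomial]
    exact B.mul_mem _ _ (hRB a) (pow_mem hf n)

omit [IsDomain R] [IsDiscreteValuationRing R] in
/-- A root of a monic polynomial over `R ⊆ B` lies in `B`. -/
lemma mem_of_monic_root (hRB : ∀ r : R, algebraMap R L r ∈ B) {α : L} {p : R[X]}
    (hp : p.Monic) (hpα : aeval α p = 0) : α ∈ B := by
  let fRB : R →+* B := (algebraMap R L).codRestrict B hRB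
  have hint : IsIntegral B α := by
    refine ⟨p.map fRB, hp.map _, ?_⟩
    rw [Polynomial.eval₂_map]
    have : (algebraMap B L).comp fRB = algebraMap R L := RingHom.ext fun _ => rfl
    rw [this]
    exact hpα
  obtain ⟨y, hy⟩ := (IsIntegrallyClosed.isIntegral_iff (R := B) (K := L)).mp hint
  rw [← hy]
  exact y.2

variable (hRB : ∀ r : R, algebraMap R L r ∈ B)
  {π : R} (hπ : Irreducible π) (hπB : B.valuation (algebraMap R L π) < 1)
  {α : L} {p : R[X]} (hp : p.Monic) (hpα : aeval α p = 0)
  (hsep : (p.map (residue R)).Separable)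

omit [IsDomain R] [IsDiscreteValuationRing R] in
include hRB in
lemma val_aeval_le_one {f : L} (hf : f ∈ B) (q : R[X]) : B.valuation (aeval f q) ≤ 1 :=
  (B.valuation_le_one_iff _).mpr (aeval_mem_of_mem B hRB hf q)

include hRB hπ hπB in
/-- `R → B` is a local homomorphism. -/
lemma isLocalHom_codRestrict : IsLocalHom ((algebraMap R L).codRestrict B hRB) := by
  refine ⟨fun a ha => ?_⟩
  by_contra hna
  have hmem : a ∈ maximalIdeal R := (mem_maximalIdeal a).mpr hna
  rw [hπ.maximalIdeal_eq, Ideal.mem_span_singleton] at hmem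
  obtain ⟨b, rfl⟩ := hmem
  have h1 : B.valuation (algebraMap R L (π * b)) = 1 := by
    have := (B.valuation_eq_one_iff ((algebraMap R L).codRestrict B hRB (π * b))).mp ha
    exact this
  rw [map_mul, map_mul] at h1
  have h2 : B.valuation (algebraMap R L b) ≤ 1 := (B.valuation_le_one_iff _).mpr (hRB b)
  have h3 : B.valuation (algebraMap R L π) * B.valuation (algebraMap R L b) < 1 :=
    mul_lt_one_of_lt_of_le hπB h2
  exact absurd h1 h3.ne

include hRB hπ hπB hp hpα hsep in
/-- Key step: an element `g(α)` of positive valuation is `π` times another such element, up to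
a unit of `B`. -/
lemma key_step (g : R[X]) (hg : B.valuation (aeval α g) < 1) :
    ∃ g₁ : R[X], B.valuation (aeval α g) =
      B.valuation (algebraMap R L π) * B.valuation (aeval α g₁) := by
  classical
  have hαB : α ∈ B := mem_of_monic_root B hRB hp hpα
  let fRB : R →+* B := (algebraMap R L).codRestrict B hRB
  have : IsLocalHom fRB := isLocalHom_codRestrict B hRB hπ hπB
  let αB : B := ⟨α, hαB⟩
  let κ := ResidueField R
  let κB := ResidueField B
  let fκ : κ →+* κB := ResidueField.map fRB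
  let ψ' : κ[X] →+* κB := Polynomial.eval₂RingHom fκ (residue B αB)
  -- compatibility
  have hcompat : ∀ q : R[X], ψ' (q.map (residue R)) =
      residue B ⟨aeval α q, aeval_mem_of_mem B hRB hαB q⟩ := by
    intro q
    have e1 : ψ' (q.map (residue R)) = Polynomial.eval₂ (fκ.comp (residue R)) (residue B αB) q := by
      show Polynomial.eval₂ fκ (residue B αB) (q.map (residue R)) = _
      rw [Polynomial.eval₂_map]
    have e2 : fκ.comp (residue R) = (residue B).comp fRB := by
      ext r
      exact ResidueField.map_residue fRB r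
    have e3 : Polynomial.eval₂ ((residue B).comp fRB) (residue B αB) q =
        residue B (Polynomial.eval₂ fRB αB q) := by
      rw [Polynomial.hom_eval₂]
    have e4 : Polynomial.eval₂ fRB αB q = ⟨aeval α q, aeval_mem_of_mem B hRB hαB q⟩ := by
      apply Subtype.ext
      have : (B.subtype : B →+* L) (Polynomial.eval₂ fRB αB q) =
          Polynomial.eval₂ (B.subtype.comp fRB) (B.subtype αB) q := by
        rw [Polynomial.hom_eval₂]
      rw [show ((Polynomial.eval₂ fRB αB q : B) : L) = B.subtype (Polynomial.eval₂ fRB αB q)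
        from rfl, this]
      rfl
    rw [e1, e2, e3, e4]
  -- vanishing
  have hres_zero : ∀ q : R[X], ψ' (q.map (residue R)) = 0 ↔ B.valuation (aeval α q) < 1 := by
    intro q
    rw [hcompat, residue_eq_zero_iff, B.valuation_lt_one_iff]
  set gb := g.map (residue R) with hgb
  set pb := p.map (residue R) with hpb
  have hψg : ψ' gb = 0 := (hres_zero g).mpr hg
  have hψp : ψ' pb = 0 := (hres_zero p).mpr (by rw [hpα, map_zero]; exact zero_lt_one)
  -- gcd
  set d := EuclideanDomain.gcd gb pb with hd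
  have hψd : ψ' d = 0 := by
    rw [hd, EuclideanDomain.gcd_eq_gcd_ab, map_add, map_mul, map_mul, hψg, hψp]
    simp
  obtain ⟨e, he⟩ : d ∣ pb := EuclideanDomain.gcd_dvd_right gb pb
  obtain ⟨h, hh⟩ : d ∣ gb := EuclideanDomain.gcd_dvd_left gb pb
  have hcop : IsCoprime d e := by
    have : (d * e).Separable := by rw [← he]; exact hsep
    exact this.isCoprime
  have hψe : ψ' e ≠ 0 := by
    obtain ⟨a, b, hab⟩ := hcop
    intro h0
    have := congrArg ψ' hab
    rw [map_add, map_mul, map_mul, hψd, h0, map_one] at this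
    simp at this
  -- lifts
  obtain ⟨D, hD⟩ := Polynomial.map_surjective (residue R) (residue_surjective) d
  obtain ⟨E, hE⟩ := Polynomial.map_surjective (residue R) (residue_surjective) e
  obtain ⟨H, hH⟩ := Polynomial.map_surjective (residue R) (residue_surjective) h
  obtain ⟨G, hG⟩ := exists_C_mul_of_map_residue_eq_zero hπ (q := g - D * H) (by
    rw [Polynomial.map_sub, Polynomial.map_mul, hD, hH, ← hh, sub_self])
  obtain ⟨T, hT⟩ := exists_C_mul_of_map_residue_eq_zero hπ (q := D * E - p) (by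
    rw [Polynomial.map_sub, Polynomial.map_mul, hD, hE, ← he, sub_self])
  refine ⟨H * T + G * E, ?_⟩
  have hpoly : g * E = H * p + C π * (H * T + G * E) := by
    have h1 : g = D * H + C π * G := by rw [← hG]; ring
    have h2 : D * E = p + C π * T := by rw [← hT]; ring
    calc g * E = (D * H + C π * G) * E := by rw [← h1]
      _ = H * (D * E) + C π * (G * E) := by ring
      _ = H * (p + C π * T) + C π * (G * E) := by rw [h2]
      _ = H * p + C π * (H * T + G * E) := by ring
  have hev := congrArg (aeval α) hpoly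
  rw [map_mul, map_add, map_mul, map_mul, hpα, mul_zero, zero_add, aeval_C] at hev
  have hEunit : B.valuation (aeval α E) = 1 := by
    have h1 : B.valuation (aeval α E) ≤ 1 := val_aeval_le_one B hRB hαB E
    have h2 : ¬ B.valuation (aeval α E) < 1 := by
      rw [← hres_zero, hE]
      exact hψe
    exact le_antisymm h1 (not_lt.mp h2)
  have := congrArg B.valuation hev
  rw [map_mul, map_mul, hEunit, mul_one] at this
  exact this


include hRB in
/-- Units of `R` have valuation one. -/
lemma val_unit_eq_one (u : Rˣ) : B.valuation (algebraMap R L (u : R)) = 1 := by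
  have h1 : B.valuation (algebraMap R L (u : R)) ≤ 1 := (B.valuation_le_one_iff _).mpr (hRB _)
  have h2 : B.valuation (algebraMap R L ((u⁻¹ : Rˣ) : R)) ≤ 1 :=
    (B.valuation_le_one_iff _).mpr (hRB _)
  have h3 : B.valuation (algebraMap R L (u : R)) * B.valuation (algebraMap R L ((u⁻¹ : Rˣ) : R))
      = 1 := by
    rw [← map_mul, ← map_mul, Units.mul_inv, map_one, map_one]
  by_contra hne
  have hlt : B.valuation (algebraMap R L (u : R)) < 1 := lt_of_le_of_ne h1 hne
  have : B.valuation (algebraMap R L (u : R)) * B.valuation (algebraMap R L ((u⁻¹ : Rˣ) : R))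
      < 1 := mul_lt_one_of_lt_of_le hlt h2
  exact absurd h3 this.ne

include hRB hπ in
/-- Nonzero elements of `R` have valuation a power of `v π`. -/
lemma val_algebraMap_eq_pow {c : R} (hc : c ≠ 0) :
    ∃ k : ℕ, B.valuation (algebraMap R L c) = B.valuation (algebraMap R L π) ^ k := by
  obtain ⟨n, u, hu⟩ := IsDiscreteValuationRing.eq_unit_mul_pow_irreducible hc hπ
  refine ⟨n, ?_⟩
  rw [hu, map_mul, map_mul, val_unit_eq_one B hRB, one_mul, map_pow, map_pow]

include hRB hπ in
/-- Archimedean property: a nonzero element integral over `R` has valuation at least a power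
of `v π`. -/
lemma exists_pow_le_val {f : L} (hf0 : f ≠ 0) (hfint : IsIntegral R f) :
    ∃ k : ℕ, B.valuation (algebraMap R L π) ^ k ≤ B.valuation f := by
  obtain ⟨a, ha, haf⟩ := hfint
  have haf' : aeval f a = 0 := haf
  have hfB : f ∈ B := mem_of_monic_root B hRB ha haf'
  obtain ⟨a', ha', hnd⟩ :=
    Polynomial.exists_eq_pow_rootMultiplicity_mul_and_not_dvd a ha.ne_zero (0 : R)
  rw [map_zero, sub_zero] at ha' hnd
  have ha'f : aeval f a' = 0 := by
    have := haf'
    rw [ha', map_mul, map_pow, aeval_X] at this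
    rcases mul_eq_zero.mp this with h | h
    · exact absurd (pow_eq_zero_iff'.mp h).1 hf0
    · exact h
  have hc0 : a'.coeff 0 ≠ 0 := fun h0 => hnd (Polynomial.X_dvd_iff.mpr h0)
  obtain ⟨k, hk⟩ := val_algebraMap_eq_pow B hRB hπ hc0
  refine ⟨k, ?_⟩
  have hdec : a'.divX * X + C (a'.coeff 0) = a' := Polynomial.divX_mul_X_add a'
  have hev : aeval f a'.divX * f + algebraMap R L (a'.coeff 0) = 0 := by
    have := congrArg (aeval f) hdec
    rw [map_add, map_mul, aeval_X, aeval_C, ha'f] at this
    exact this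
  have hc : algebraMap R L (a'.coeff 0) = -(aeval f a'.divX * f) := by
    rw [eq_neg_iff_add_eq_zero, add_comm]; exact hev
  rw [← hk, hc, Valuation.map_neg, map_mul]
  exact mul_le_of_le_one_left' (val_aeval_le_one B hRB hfB _)

include hRB hp hpα in
lemma isIntegral_aeval (g : R[X]) : IsIntegral R (aeval α g) := by
  have hα : IsIntegral R α := ⟨p, hp, hpα⟩
  have h1 : aeval α g ∈ Algebra.adjoin R {α} := Polynomial.aeval_mem_adjoin_singleton R α
  have h2 : Algebra.adjoin R {α} ≤ integralClosure R L :=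
    Algebra.adjoin_le (by rintro x ⟨rfl⟩; exact hα)
  exact h2 h1

include hRB hπ hπB hp hpα hsep in
lemma val_eq_pow_of_le (hinj : Function.Injective (algebraMap R L)) (k : ℕ) :
    ∀ g : R[X], aeval α g ≠ 0 →
      B.valuation (algebraMap R L π) ^ k ≤ B.valuation (aeval α g) →
      ∃ j : ℕ, B.valuation (aeval α g) = B.valuation (algebraMap R L π) ^ j := by
  have hαB : α ∈ B := mem_of_monic_root B hRB hp hpα
  have hπ0 : B.valuation (algebraMap R L π) ≠ 0 := by
    rw [Valuation.ne_zero_iff]
    intro h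
    exact hπ.ne_zero (hinj (by rw [h, map_zero]))
  induction k with
  | zero =>
    intro g _ hle
    refine ⟨0, ?_⟩
    rw [pow_zero] at hle ⊢
    exact le_antisymm (val_aeval_le_one B hRB hαB g) hle
  | succ k ih =>
    intro g hg0 hle
    by_cases h1 : B.valuation (aeval α g) < 1
    · obtain ⟨g₁, hg₁⟩ := key_step B hRB hπ hπB hp hpα hsep g h1
      have hg₁0 : aeval α g₁ ≠ 0 := by
        intro h0
        rw [h0, map_zero, mul_zero] at hg₁
        exact hg0 ((Valuation.zero_iff _).mp hg₁)
      have hle' : B.valuation (algebraMap R L π) ^ k ≤ B.valuation (aeval α g₁) := by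
        rw [hg₁, pow_succ'] at hle
        exact le_of_mul_le_mul_left hle (zero_lt_iff.mpr hπ0)
      obtain ⟨j, hj⟩ := ih g₁ hg₁0 hle'
      exact ⟨j + 1, by rw [hg₁, hj, pow_succ']⟩
    · refine ⟨0, ?_⟩
      rw [pow_zero]
      exact le_antisymm (val_aeval_le_one B hRB hαB g) (not_lt.mp h1)

include hRB hπ hπB hp hpα hsep in
/-- **Unramifiedness, integral form.** -/
theorem val_aeval_eq_pow (hinj : Function.Injective (algebraMap R L)) (g : R[X])
    (hg : aeval α g ≠ 0) :
    ∃ j : ℕ, B.valuation (aeval α g) = B.valuation (algebraMap R L π) ^ j := by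
  obtain ⟨k, hk⟩ := exists_pow_le_val B hRB hπ hg (isIntegral_aeval B hRB hp hpα g)
  exact val_eq_pow_of_le B hRB hπ hπB hp hpα hsep hinj k g hg hk

end FL

end Fermat.Agent.S18.H845

end
-- ===== PACK-END S18/H845/EtaleVal.lean

-- ===== PACK-BEGIN S18/H845/PrimElt.lean
section


/-!
# S18 / d1(c): compositum with algebraic constants, elementwise

`E ⊆ K ⊆ L`, `E` perfect.  If `L` is generated over `K` by elements algebraic over `E`, then every
element of `L` lies in `K[α]` for a single `α` algebraic over `E`.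
-/

set_option autoImplicit false
set_option linter.unusedSectionVars false

namespace Fermat.Agent.S18.H845

open IntermediateField

section PE

variable {E K L : Type*} [Field E] [Field K] [Field L] [Algebra E K] [Algebra K L] [Algebra E L]
  [IsScalarTower E K L] [PerfectField E]

omit [PerfectField E] in
lemma adjoin_E_le_adjoin_K (α : L) :
    ((Algebra.adjoin E {α} : Subalgebra E L) : Set L) ⊆ (Algebra.adjoin K {α} : Subalgebra K L) := by
  have h : Algebra.adjoin E {α} ≤ (Algebra.adjoin K {α}).restrictScalars E :=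
    Algebra.adjoin_le (by
      rintro x ⟨rfl⟩
      exact Algebra.self_mem_adjoin_singleton K _)
  exact h

/-- Two algebraic constants lie in `E[α]` for a single algebraic constant `α`. -/
lemma exists_common_adjoin {α₁ α₂ : L} (h₁ : IsAlgebraic E α₁) (h₂ : IsAlgebraic E α₂) :
    ∃ α : L, IsAlgebraic E α ∧ α₁ ∈ Algebra.adjoin K {α} ∧ α₂ ∈ Algebra.adjoin K {α} := by
  let M : IntermediateField E L := IntermediateField.adjoin E {α₁, α₂}
  have hfin : FiniteDimensional E M :=
    IntermediateField.finiteDimensional_adjoin_pair h₁.isIntegral h₂.isIntegral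
  have halg : Algebra.IsAlgebraic E M := Algebra.IsAlgebraic.of_finite E M
  obtain ⟨β, hβ⟩ := Field.exists_primitive_element E M
  have hβalg : IsAlgebraic E (β : L) := by
    have := halg.isAlgebraic β
    exact (isAlgebraic_algebraMap_iff (algebraMap M L).injective).mpr this
  have hM : E⟮(β : L)⟯ = M := by
    have h1 := congrArg (IntermediateField.map M.val) hβ
    rw [IntermediateField.adjoin_map, Set.image_singleton] at h1
    rw [show M.val β = (β : L) from rfl] at h1
    rw [h1]
    ext x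
    simp only [IntermediateField.mem_map, IntermediateField.mem_top, true_and]
    constructor
    · rintro ⟨y, rfl⟩
      exact y.2
    · intro hx
      exact ⟨⟨x, hx⟩, rfl⟩
  have hsub : ∀ x ∈ M, x ∈ Algebra.adjoin K {(β : L)} := by
    intro x hx
    rw [← hM] at hx
    have hx' : x ∈ (E⟮(β : L)⟯).toSubalgebra := hx
    rw [IntermediateField.adjoin_simple_toSubalgebra_of_isAlgebraic hβalg] at hx'
    exact adjoin_E_le_adjoin_K (K := K) (β : L) hx'
  refine ⟨β, hβalg, hsub _ ?_, hsub _ ?_⟩
  · exact IntermediateField.subset_adjoin E _ (by simp)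
  · exact IntermediateField.subset_adjoin E _ (by simp)

/-- If `L` is generated over `K` by elements algebraic over `E`, every element of `L` lies in
`K[α]` for one `α` algebraic over `E`. -/
theorem exists_mem_adjoin_singleton
    (hgen : IntermediateField.adjoin K {α : L | IsAlgebraic E α} = ⊤) (f : L) :
    ∃ α : L, IsAlgebraic E α ∧ f ∈ Algebra.adjoin K {α} := by
  have hf : f ∈ IntermediateField.adjoin K {α : L | IsAlgebraic E α} := by
    rw [hgen]; exact IntermediateField.mem_top
  induction hf using IntermediateField.adjoin_induction with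
  | mem x hx => exact ⟨x, hx, Algebra.self_mem_adjoin_singleton K x⟩
  | algebraMap x => exact ⟨0, isAlgebraic_zero, Subalgebra.algebraMap_mem _ x⟩
  | add x y _ _ hx hy =>
    obtain ⟨α₁, h₁, hx⟩ := hx
    obtain ⟨α₂, h₂, hy⟩ := hy
    obtain ⟨α, hα, ha₁, ha₂⟩ := exists_common_adjoin (K := K) h₁ h₂
    have l₁ : Algebra.adjoin K {α₁} ≤ Algebra.adjoin K {α} :=
      Algebra.adjoin_le (by rintro z ⟨rfl⟩; exact ha₁)
    have l₂ : Algebra.adjoin K {α₂} ≤ Algebra.adjoin K {α} :=
      Algebra.adjoin_le (by rintro z ⟨rfl⟩; exact ha₂)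
    exact ⟨α, hα, add_mem (l₁ hx) (l₂ hy)⟩
  | mul x y _ _ hx hy =>
    obtain ⟨α₁, h₁, hx⟩ := hx
    obtain ⟨α₂, h₂, hy⟩ := hy
    obtain ⟨α, hα, ha₁, ha₂⟩ := exists_common_adjoin (K := K) h₁ h₂
    have l₁ : Algebra.adjoin K {α₁} ≤ Algebra.adjoin K {α} :=
      Algebra.adjoin_le (by rintro z ⟨rfl⟩; exact ha₁)
    have l₂ : Algebra.adjoin K {α₂} ≤ Algebra.adjoin K {α} :=
      Algebra.adjoin_le (by rintro z ⟨rfl⟩; exact ha₂)
    exact ⟨α, hα, mul_mem (l₁ hx) (l₂ hy)⟩
  | inv x _ hx =>
    obtain ⟨α, hα, hx⟩ := hx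
    refine ⟨α, hα, ?_⟩
    have hαK : IsAlgebraic K α := hα.tower_top K
    rw [← IntermediateField.adjoin_simple_toSubalgebra_of_isAlgebraic hαK] at hx ⊢
    have hx' : x ∈ K⟮α⟯ := hx
    exact (show x⁻¹ ∈ K⟮α⟯ from inv_mem hx')

end PE

end Fermat.Agent.S18.H845

end
-- ===== PACK-END S18/H845/PrimElt.lean

-- ===== PACK-BEGIN S29/Defs.lean
section
/-
S29 row — FROZEN interface definitions (row-lead helper269).
Namespace `Fermat.Agent.S29`.  Do not edit; propose changes via a note kind='question' stmt='S29'.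
-/



set_option autoImplicit false

namespace Fermat.Agent.S29

open Polynomial

/-- The absolute Galois group of `ℚ`, as used by every frozen statement. -/
abbrev GQ : Type := AlgebraicClosure ℚ ≃ₐ[ℚ] AlgebraicClosure ℚ

/-- Valuation subrings of `ℚ̄` (the "places" of the frozen statements). -/
abbrev VQ : Type := ValuationSubring (AlgebraicClosure ℚ)

section Module

variable {F : Type} [Field F] {M : Type} [AddCommGroup M] [Module F M]

/-- Every vector is fixed by an open subgroup `Gal(ℚ̄/L)`, `L/ℚ` finite. -/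
def IsSmoothRep (ρ : GQ →* Module.End F M) : Prop :=
  ∀ x : M, ∃ L : IntermediateField ℚ (AlgebraicClosure ℚ), FiniteDimensional ℚ L ∧
    ∀ σ : GQ, (∀ y ∈ L, σ y = y) → ρ σ x = x

/-- Inertia at every prime `ℓ ∤ S` (all places above `ℓ`) acts trivially. -/
def IsUnramOutside (ρ : GQ →* Module.End F M) (S : ℕ) : Prop :=
  ∀ ℓ : ℕ, ℓ.Prime → ¬ ℓ ∣ S → ∀ A : VQ, A.LiesOverPrime ℓ →
    ∀ σ ∈ A.inertiaSubgroupIn ℚ, ρ σ = 1

/-- Every Frobenius element at every place above every prime `ℓ ∤ S` satisfies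
`σ² - a ℓ • σ + ℓ = 0` on the module. -/
def IsFrobQuadratic (ρ : GQ →* Module.End F M) (S : ℕ) (a : ℕ → F) : Prop :=
  ∀ ℓ : ℕ, ℓ.Prime → ¬ ℓ ∣ S → ∀ A : VQ, A.LiesOverPrime ℓ →
    ∀ σ : GQ, A.IsFrobeniusAt σ ℓ →
      ρ σ * ρ σ - a ℓ • ρ σ + (ℓ : F) • (1 : Module.End F M) = 0

end Module

/-- (UNUSED since skeleton v2: the assembly consumes CHEB Tier 1
`Fermat.Agent.Lib.Cheb.Spec.FrobeniusDivisionStatement` instead.)  Qualitative Chebotarev:
every element of `Gal(L/ℚ)` (`L/ℚ` finite) is the restriction of a Frobenius element at a place over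
some prime `ℓ ∤ S`. -/
def ChebStatement : Prop :=
  ∀ (L : IntermediateField ℚ (AlgebraicClosure ℚ)), FiniteDimensional ℚ L →
    ∀ (σ : GQ) (S : ℕ), S ≠ 0 →
      ∃ (ℓ : ℕ) (A : VQ) (τ : GQ), ℓ.Prime ∧ ¬ ℓ ∣ S ∧ A.LiesOverPrime ℓ ∧
        A.IsFrobeniusAt τ ℓ ∧ ∀ x ∈ L, τ x = σ x

/-- The conclusion of the assembly layer for a coefficient field `F` and a system `a`. -/
def HasAttachedRep (F : Type) [Field F] (S : ℕ) (a : ℕ → F) : Prop :=
  ∃ r : ResidualGaloisRep F,
    (∀ ℓ : ℕ, ℓ.Prime → ¬ ℓ ∣ S → ∀ A : VQ, A.LiesOverPrime ℓ →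
      ∀ σ : GQ, A.IsFrobeniusAt σ ℓ →
        LinearMap.charpoly (r.ρ σ) = X ^ 2 - C (a ℓ) * X + C ((ℓ : F))) ∧
    (∀ ℓ : ℕ, ℓ.Prime → ¬ ℓ ∣ S → r.IsUnramifiedAt ℓ)

/-- The output of the module layer ("torsion module"): a nonzero smooth `F[G_ℚ]`-module,
unramified outside `S`, on which all Frobenii at `ℓ ∤ S` satisfy the Eichler–Shimura relation. -/
def HasFrobModule (F : Type) [Field F] (S : ℕ) (a : ℕ → F) : Prop :=
  ∃ (M : Type) (_ : AddCommGroup M) (_ : Module F M) (ρ : GQ →* Module.End F M),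
    Nontrivial M ∧ IsSmoothRep ρ ∧ IsUnramOutside ρ S ∧ IsFrobQuadratic ρ S a

end Fermat.Agent.S29

end
-- ===== PACK-END S29/Defs.lean

-- ===== PACK-BEGIN S30/H330/AdicAlg.lean
section
/-
S30 -- ADIC MODULE LAYER, piece 1 (pure algebra).  helper330.

For a complete discrete valuation ring `O` (char 0, residue characteristic `p`, finite residue
field), `L = Frac O`, and an abelian group `J` with finite `p`-torsion, the group
`Hom_ℤ(L/O, J)` with `O` acting through the source is a finite free `O`-module.  Its simultaneous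
eigen-submodule `M` for a family of endomorphisms of `J` inherits a Galois action which is
adically continuous, and relations valid on `J[p^∞]` pass to `M`.
-/



set_option autoImplicit false

noncomputable section

namespace Fermat.Agent.S30.H330

/-! ### `Hom_ℤ(Frac O, J)` as an `O`-module through the source -/

section SrcHom

variable (O : Type) [CommRing O] (J : Type) [AddCommGroup J]

/-- `Hom_ℤ(Frac O, J)`, with `O` acting by multiplication on the source. -/
def SrcHom : Type := FractionRing O →+ J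

namespace SrcHom

variable {O J}

/-- The underlying additive map. -/
def hom (g : SrcHom O J) : FractionRing O →+ J := g

/-- Constructor. -/
def of (g : FractionRing O →+ J) : SrcHom O J := g

@[simp] theorem hom_of (g : FractionRing O →+ J) : (of g : SrcHom O J).hom = g := rfl

@[ext] theorem ext {g h : SrcHom O J} (H : ∀ x, g.hom x = h.hom x) : g = h :=
  AddMonoidHom.ext H

instance : AddCommGroup (SrcHom O J) := inferInstanceAs (AddCommGroup (FractionRing O →+ J))

@[simp] theorem hom_add (g h : SrcHom O J) (x : FractionRing O) :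
    (g + h).hom x = g.hom x + h.hom x := rfl

@[simp] theorem hom_zero (x : FractionRing O) : (0 : SrcHom O J).hom x = 0 := rfl

@[simp] theorem hom_neg (g : SrcHom O J) (x : FractionRing O) : (-g).hom x = -g.hom x := rfl

@[simp] theorem hom_sub (g h : SrcHom O J) (x : FractionRing O) :
    (g - h).hom x = g.hom x - h.hom x := rfl

instance : SMul O (SrcHom O J) :=
  ⟨fun a g => of (g.hom.comp (AddMonoidHom.mulLeft (algebraMap O (FractionRing O) a)))⟩

@[simp] theorem hom_smul (a : O) (g : SrcHom O J) (x : FractionRing O) :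
    (a • g).hom x = g.hom (algebraMap O (FractionRing O) a * x) := rfl

instance : Module O (SrcHom O J) where
  one_smul g := by ext x; simp
  mul_smul a b g := by
    ext x
    simp only [hom_smul, map_mul]
    congr 1
    ring
  smul_zero a := by ext x; simp
  smul_add a g h := by ext x; simp
  add_smul a b g := by ext x; simp [add_mul]
  zero_smul g := by ext x; simp

end SrcHom

end SrcHom

/-! ### Precompleteness of finite powers -/

open Submodule in
/-- Finite powers of a precomplete ring are precomplete. -/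
theorem isPrecomplete_pi {R : Type*} [CommRing R] (I : Ideal R) [IsPrecomplete I R]
    (k : ℕ) : IsPrecomplete I (Fin k → R) := by
  refine ⟨fun f hf => ?_⟩
  have hcomp : ∀ (n : ℕ) (g : Fin k → R), g ∈ (I ^ n • ⊤ : Submodule R (Fin k → R)) →
      ∀ i, g i ∈ (I ^ n • ⊤ : Submodule R R) := by
    intro n g hg i
    refine Submodule.smul_induction_on hg (fun r hr m _ => ?_) (fun x y hx hy => ?_)
    · exact Submodule.smul_mem_smul hr trivial
    · exact Submodule.add_mem _ hx hy
  have hC : ∀ i, ∃ L : R, ∀ n, f n i ≡ L [SMOD (I ^ n • ⊤ : Submodule R R)] := by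
    intro i
    refine IsPrecomplete.prec ‹_› (f := fun n => f n i) ?_
    intro m n hmn
    have := hf hmn
    rw [SModEq.sub_mem] at this ⊢
    exact hcomp m _ this i
  choose L hL using hC
  refine ⟨L, fun n => ?_⟩
  rw [SModEq.sub_mem]
  have hsum : f n - L = ∑ i, (f n i - L i) • (Pi.single i (1 : R) : Fin k → R) := by
    funext j
    simp [Finset.sum_apply, Pi.single_apply]
  rw [hsum]
  refine Submodule.sum_mem _ fun i _ => ?_
  have hi := hL i n
  rw [SModEq.sub_mem] at hi
  have hi' : f n i - L i ∈ I ^ n := by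
    simpa using hi
  exact Submodule.smul_mem_smul hi' trivial

/-! ### The eigen-submodule -/

section Main

variable {O : Type} [CommRing O]
variable {J : Type} [AddCommGroup J]
variable {ι : Type} (t : ι → J →+ J) (a : ι → O)

/-- The simultaneous eigen-submodule of `Hom_ℤ(L/O, J)`. -/
def eigenSub : Submodule O (SrcHom O J) where
  carrier := {g | (∀ r : O, g.hom (algebraMap O (FractionRing O) r) = 0) ∧
    ∀ i x, t i (g.hom x) = g.hom (algebraMap O (FractionRing O) (a i) * x)}
  add_mem' := by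
    rintro g h ⟨g0, ge⟩ ⟨h0, he⟩
    refine ⟨fun r => by simp [g0, h0], fun i x => ?_⟩
    simp only [SrcHom.hom_add, map_add, ge, he]
  zero_mem' := ⟨fun r => rfl, fun i x => by simp⟩
  smul_mem' := by
    rintro c g ⟨g0, ge⟩
    refine ⟨fun r => ?_, fun i x => ?_⟩
    · rw [SrcHom.hom_smul, ← map_mul]; exact g0 _
    · rw [SrcHom.hom_smul, SrcHom.hom_smul, ge]
      congr 1
      ring

theorem mem_eigenSub {g : SrcHom O J} : g ∈ eigenSub t a ↔
    (∀ r : O, g.hom (algebraMap O (FractionRing O) r) = 0) ∧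
    ∀ i x, t i (g.hom x) = g.hom (algebraMap O (FractionRing O) (a i) * x) := Iff.rfl

variable {t a}
variable [IsDomain O] [IsDiscreteValuationRing O]

/-- Every element of `L` is `y / ϖ ^ n`. -/
theorem exists_eq_div_pow {ϖ : O} (hϖ : Irreducible ϖ) (x : FractionRing O) :
    ∃ (n : ℕ) (y : O), x = algebraMap O (FractionRing O) y /
      algebraMap O (FractionRing O) ϖ ^ n := by
  obtain ⟨c, d, hd, rfl⟩ := IsFractionRing.div_surjective O x
  have hd0 : d ≠ 0 := nonZeroDivisors.ne_zero hd
  obtain ⟨n, u, hu⟩ := IsDiscreteValuationRing.associated_pow_irreducible hd0 hϖ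
  refine ⟨n, c * u, ?_⟩
  have hϖ0 : algebraMap O (FractionRing O) ϖ ≠ 0 := by
    simpa using hϖ.ne_zero
  have hd0' : algebraMap O (FractionRing O) d ≠ 0 := by
    simpa using hd0
  rw [div_eq_div_iff hd0' (pow_ne_zero _ hϖ0), ← map_pow, ← hu]
  simp only [map_mul]
  ring

/-- Division lemma: an element of the eigen-submodule killing `ϖ⁻ⁿ O` is divisible by `ϖ ^ n`. -/
theorem exists_eq_pow_smul {ϖ : O} (hϖ : Irreducible ϖ) (n : ℕ) {g : SrcHom O J}
    (hg : g ∈ eigenSub t a)
    (hkill : ∀ y : O, g.hom (algebraMap O (FractionRing O) y /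
      algebraMap O (FractionRing O) ϖ ^ n) = 0) :
    ∃ g' ∈ eigenSub t a, g = ϖ ^ n • g' := by
  have hϖ0 : algebraMap O (FractionRing O) ϖ ≠ 0 := by
    simpa using hϖ.ne_zero
  have hpow : algebraMap O (FractionRing O) ϖ ^ n ≠ 0 := pow_ne_zero _ hϖ0
  refine ⟨SrcHom.of (g.hom.comp (AddMonoidHom.mulLeft ((algebraMap O (FractionRing O) ϖ ^ n)⁻¹))),
    ⟨fun r => ?_, fun i x => ?_⟩, ?_⟩
  · show g.hom ((algebraMap O (FractionRing O) ϖ ^ n)⁻¹ * algebraMap O (FractionRing O) r) = 0
    rw [mul_comm, ← div_eq_mul_inv]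
    exact hkill r
  · show t i (g.hom ((algebraMap O (FractionRing O) ϖ ^ n)⁻¹ * x)) =
      g.hom ((algebraMap O (FractionRing O) ϖ ^ n)⁻¹ * (algebraMap O (FractionRing O) (a i) * x))
    rw [hg.2]
    congr 1
    ring
  · ext x
    show g.hom x = g.hom ((algebraMap O (FractionRing O) ϖ ^ n)⁻¹ *
      (algebraMap O (FractionRing O) (ϖ ^ n) * x))
    congr 1
    rw [map_pow]
    field_simp

end Main

/-! ### Separatedness and torsion-freeness -/

section Finite

variable {O : Type} [CommRing O] [IsDomain O] [IsDiscreteValuationRing O]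
variable {J : Type} [AddCommGroup J]
variable {ι : Type} {t : ι → J →+ J} {a : ι → O}

omit [IsDomain O] [IsDiscreteValuationRing O] in
theorem algebraMap_irreducible_ne_zero {ϖ : O} (hϖ : Irreducible ϖ) :
    algebraMap O (FractionRing O) ϖ ≠ 0 := by
  simpa using hϖ.ne_zero

/-- Elements of `𝔪ⁿ M` kill `ϖ⁻ⁿ O`. -/
theorem kill_of_mem_pow_smul_top {ϖ : O} (hϖ : Irreducible ϖ) (n : ℕ)
    {x : eigenSub t a}
    (hx : x ∈ (IsLocalRing.maximalIdeal O ^ n • ⊤ : Submodule O (eigenSub t a))) (y : O) :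
    x.1.hom (algebraMap O (FractionRing O) y / algebraMap O (FractionRing O) ϖ ^ n) = 0 := by
  have hϖ0 := algebraMap_irreducible_ne_zero hϖ
  revert y
  refine Submodule.smul_induction_on hx (fun r hr m _ y => ?_) (fun u v hu hv y => ?_)
  · rw [hϖ.maximalIdeal_eq, Ideal.span_singleton_pow, Ideal.mem_span_singleton'] at hr
    obtain ⟨b, rfl⟩ := hr
    show (m.1).hom (algebraMap O (FractionRing O) (b * ϖ ^ n) *
      (algebraMap O (FractionRing O) y / algebraMap O (FractionRing O) ϖ ^ n)) = 0
    have : algebraMap O (FractionRing O) (b * ϖ ^ n) *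
        (algebraMap O (FractionRing O) y / algebraMap O (FractionRing O) ϖ ^ n) =
        algebraMap O (FractionRing O) (b * y) := by
      simp only [map_mul, map_pow]
      field_simp
    rw [this]
    exact m.2.1 _
  · show (u.1 + v.1).hom _ = 0
    rw [SrcHom.hom_add, hu y, hv y, add_zero]

/-- Conversely, elements killing `ϖ⁻ⁿ O` lie in `𝔪ⁿ M`. -/
theorem mem_pow_smul_top_of_kill {ϖ : O} (hϖ : Irreducible ϖ) (n : ℕ)
    {x : eigenSub t a}
    (hx : ∀ y : O, x.1.hom (algebraMap O (FractionRing O) y /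
      algebraMap O (FractionRing O) ϖ ^ n) = 0) :
    x ∈ (IsLocalRing.maximalIdeal O ^ n • ⊤ : Submodule O (eigenSub t a)) := by
  obtain ⟨g', hg', hgg'⟩ := exists_eq_pow_smul hϖ n x.2 hx
  have hxe : x = ϖ ^ n • (⟨g', hg'⟩ : eigenSub t a) := Subtype.ext hgg'
  rw [hxe]
  refine Submodule.smul_mem_smul ?_ trivial
  exact Ideal.pow_mem_pow (hϖ.maximalIdeal_eq ▸ Ideal.mem_span_singleton_self ϖ) n

/-- The eigen-submodule is `𝔪`-adically separated. -/
theorem isHausdorff_eigenSub : IsHausdorff (IsLocalRing.maximalIdeal O) (eigenSub t a) := by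
  obtain ⟨ϖ, hϖ⟩ := IsDiscreteValuationRing.exists_irreducible O
  refine ⟨fun x hx => ?_⟩
  apply Subtype.ext
  apply SrcHom.ext
  intro z
  obtain ⟨n, y, rfl⟩ := exists_eq_div_pow hϖ z
  have h := hx n
  rw [SModEq.zero] at h
  exact kill_of_mem_pow_smul_top hϖ n h y

/-- The eigen-submodule is torsion-free. -/
theorem isTorsionFree_eigenSub : Module.IsTorsionFree O (eigenSub t a) := by
  refine ⟨fun r hr x y hxy => ?_⟩
  have hr0 : r ≠ 0 := hr.ne_zero
  have hr0' : algebraMap O (FractionRing O) r ≠ 0 := by simpa using hr0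
  apply Subtype.ext
  apply SrcHom.ext
  intro z
  have h := congrArg (fun w : eigenSub t a => w.1.hom ((algebraMap O (FractionRing O) r)⁻¹ * z)) hxy
  simp only [Submodule.coe_smul, SrcHom.hom_smul] at h
  rwa [mul_inv_cancel_left₀ hr0'] at h

end Finite

/-! ### Finiteness of `M / 𝔪 M` -/

section Finiteness

variable {O : Type} [CommRing O] [IsDomain O] [IsDiscreteValuationRing O]
variable {J : Type} [AddCommGroup J]
variable {ι : Type} {t : ι → J →+ J} {a : ι → O}

/-- Values on `ϖ⁻ⁿ O` are killed by `pⁿ`. -/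
theorem pow_smul_hom_div_eq_zero {p : ℕ} (hpO : (p : O) ∈ IsLocalRing.maximalIdeal O)
    {ϖ : O} (hϖ : Irreducible ϖ) (n : ℕ) {g : SrcHom O J} (hg : g ∈ eigenSub t a) (y : O) :
    p ^ n • g.hom (algebraMap O (FractionRing O) y / algebraMap O (FractionRing O) ϖ ^ n) = 0 := by
  have hϖ0 := algebraMap_irreducible_ne_zero hϖ
  rw [hϖ.maximalIdeal_eq, Ideal.mem_span_singleton'] at hpO
  obtain ⟨b, hb⟩ := hpO
  rw [← map_nsmul]
  have : p ^ n • (algebraMap O (FractionRing O) y / algebraMap O (FractionRing O) ϖ ^ n) =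
      algebraMap O (FractionRing O) (b ^ n * y) := by
    rw [nsmul_eq_mul]
    have hp : ((p ^ n : ℕ) : FractionRing O) = algebraMap O (FractionRing O) ((b * ϖ) ^ n) := by
      rw [hb]; simp
    rw [hp]
    simp only [map_mul, map_pow]
    field_simp
    ring
  rw [this]
  exact hg.1 _

/-- Every value of an element of the eigen-submodule is `p`-power torsion. -/
theorem exists_pow_smul_hom_eq_zero {p : ℕ} (hpO : (p : O) ∈ IsLocalRing.maximalIdeal O)
    {g : SrcHom O J} (hg : g ∈ eigenSub t a) (z : FractionRing O) :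
    ∃ n : ℕ, p ^ n • g.hom z = 0 := by
  obtain ⟨ϖ, hϖ⟩ := IsDiscreteValuationRing.exists_irreducible O
  obtain ⟨n, y, rfl⟩ := exists_eq_div_pow hϖ z
  exact ⟨n, pow_smul_hom_div_eq_zero hpO hϖ n hg y⟩

variable [Finite (IsLocalRing.ResidueField O)]

/-- `M / 𝔪 M` is finite when `J[p]` is. -/
theorem finite_quotient_eigenSub {p : ℕ} (hpO : (p : O) ∈ IsLocalRing.maximalIdeal O)
    (hfin : {x : J | p • x = 0}.Finite) :
    Finite ((eigenSub t a) ⧸
      (IsLocalRing.maximalIdeal O • ⊤ : Submodule O (eigenSub t a))) := by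
  classical
  obtain ⟨ϖ, hϖ⟩ := IsDiscreteValuationRing.exists_irreducible O
  have hϖ0 := algebraMap_irreducible_ne_zero hϖ
  have : Finite {x : J | p • x = 0} := hfin.to_subtype
  -- a section of the residue map
  let sec : IsLocalRing.ResidueField O → O := Function.surjInv IsLocalRing.residue_surjective
  have hsec : ∀ x, IsLocalRing.residue O (sec x) = x :=
    Function.surjInv_eq IsLocalRing.residue_surjective
  -- the restriction map
  let res : eigenSub t a → (IsLocalRing.ResidueField O → {x : J | p • x = 0}) := fun g x =>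
    ⟨g.1.hom (algebraMap O (FractionRing O) (sec x) / algebraMap O (FractionRing O) ϖ ^ 1), by
      have := pow_smul_hom_div_eq_zero hpO hϖ 1 g.2 (sec x)
      simpa using this⟩
  have hres : ∀ g h : eigenSub t a, res g = res h →
      (Submodule.Quotient.mk g : (eigenSub t a) ⧸
        (IsLocalRing.maximalIdeal O • ⊤ : Submodule O (eigenSub t a))) =
        Submodule.Quotient.mk h := by
    intro g h hgh
    rw [Submodule.Quotient.eq]
    have hpow : (IsLocalRing.maximalIdeal O • ⊤ : Submodule O (eigenSub t a)) =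
        (IsLocalRing.maximalIdeal O ^ 1 • ⊤ : Submodule O (eigenSub t a)) := by
      rw [pow_one]
    rw [hpow]
    apply mem_pow_smul_top_of_kill hϖ 1
    intro y
    -- y = sec (residue y) + ϖ z
    have hy : y - sec (IsLocalRing.residue O y) ∈ IsLocalRing.maximalIdeal O := by
      rw [← Ideal.Quotient.eq_zero_iff_mem]
      change IsLocalRing.residue O (y - sec (IsLocalRing.residue O y)) = 0
      rw [map_sub, hsec, sub_self]
    rw [hϖ.maximalIdeal_eq, Ideal.mem_span_singleton'] at hy
    obtain ⟨z, hz⟩ := hy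
    have hyz : algebraMap O (FractionRing O) y / algebraMap O (FractionRing O) ϖ ^ 1 =
        algebraMap O (FractionRing O) (sec (IsLocalRing.residue O y)) /
          algebraMap O (FractionRing O) ϖ ^ 1 + algebraMap O (FractionRing O) z := by
      have : y = sec (IsLocalRing.residue O y) + z * ϖ := by rw [hz]; ring
      conv_lhs => rw [this]
      simp only [map_add, map_mul, pow_one]
      field_simp
    have hval := congrArg (fun F => (F (IsLocalRing.residue O y) : J)) hgh
    simp only [res] at hval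
    show ((g : SrcHom O J) - (h : SrcHom O J)).hom _ = 0
    rw [SrcHom.hom_sub, hyz, map_add, map_add, g.2.1, h.2.1, hval]
    simp
  let F : Set.range res → (eigenSub t a) ⧸
      (IsLocalRing.maximalIdeal O • ⊤ : Submodule O (eigenSub t a)) :=
    fun v => Submodule.Quotient.mk (Classical.choose v.2)
  refine Finite.of_surjective F ?_
  intro q
  obtain ⟨g, rfl⟩ := Submodule.Quotient.mk_surjective _ q
  refine ⟨⟨res g, g, rfl⟩, ?_⟩
  exact hres _ _ (Classical.choose_spec (⟨g, rfl⟩ : res g ∈ Set.range res))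

end Finiteness

/-! ### Finite generation and freeness -/

section FiniteFree

variable {O : Type} [CommRing O] [IsDomain O] [IsDiscreteValuationRing O]
  [IsAdicComplete (IsLocalRing.maximalIdeal O) O] [Finite (IsLocalRing.ResidueField O)]
variable {J : Type} [AddCommGroup J]
variable {ι : Type} {t : ι → J →+ J} {a : ι → O}

/-- The eigen-submodule is a finitely generated `O`-module. -/
theorem finite_eigenSub {p : ℕ} (hpO : (p : O) ∈ IsLocalRing.maximalIdeal O)
    (hfin : {x : J | p • x = 0}.Finite) : Module.Finite O (eigenSub t a) := by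
  classical
  have hq := finite_quotient_eigenSub (t := t) (a := a) hpO hfin
  obtain ⟨k, ⟨e⟩⟩ := Finite.exists_equiv_fin ((eigenSub t a) ⧸
      (IsLocalRing.maximalIdeal O • ⊤ : Submodule O (eigenSub t a)))
  let s : Fin k → eigenSub t a := fun i => Quotient.out (e.symm i)
  have hs : ∀ i, (Submodule.Quotient.mk (s i) : (eigenSub t a) ⧸
      (IsLocalRing.maximalIdeal O • ⊤ : Submodule O (eigenSub t a))) = e.symm i := fun i =>
    Quotient.out_eq (e.symm i)
  let φ : (Fin k → O) →ₗ[O] eigenSub t a := Fintype.linearCombination O s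
  have hsurj : Function.Surjective
      ((IsLocalRing.maximalIdeal O • ⊤ : Submodule O (eigenSub t a)).mkQ ∘ₗ φ) := by
    intro q
    refine ⟨Pi.single (e q) 1, ?_⟩
    simp only [LinearMap.coe_comp, Function.comp_apply, Submodule.mkQ_apply, φ]
    rw [Fintype.linearCombination_apply_single, one_smul, hs, Equiv.symm_apply_apply]
  have h1 : IsPrecomplete (IsLocalRing.maximalIdeal O) (Fin k → O) :=
    isPrecomplete_pi (IsLocalRing.maximalIdeal O) k
  have h2 : IsHausdorff (IsLocalRing.maximalIdeal O) (eigenSub t a) := isHausdorff_eigenSub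
  have := surjective_of_mkQ_comp_surjective (I := IsLocalRing.maximalIdeal O) hsurj
  exact Module.Finite.of_surjective φ this

/-- The eigen-submodule is free. -/
theorem free_eigenSub {p : ℕ} (hpO : (p : O) ∈ IsLocalRing.maximalIdeal O)
    (hfin : {x : J | p • x = 0}.Finite) : Module.Free O (eigenSub t a) := by
  have h1 : Module.Finite O (eigenSub t a) := finite_eigenSub hpO hfin
  have h2 : Module.IsTorsionFree O (eigenSub t a) := isTorsionFree_eigenSub
  exact Module.free_of_finite_type_torsion_free'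

end FiniteFree

/-- Finiteness of `J[pⁿ]` from finiteness of `J[p]`. -/
theorem finite_pow_torsion {J : Type} [AddCommGroup J] {p : ℕ}
    (hfin : {x : J | p • x = 0}.Finite) (n : ℕ) : {x : J | p ^ n • x = 0}.Finite := by
  induction n with
  | zero =>
    refine (Set.finite_singleton (0 : J)).subset ?_
    intro x hx
    simpa using hx
  | succ n ih =>
    have hsub : {x : J | p ^ (n + 1) • x = 0} ⊆ (fun x : J => p • x) ⁻¹' {x : J | p ^ n • x = 0} := by
      intro x hx
      simp only [Set.mem_preimage, Set.mem_ofPred_eq] at hx ⊢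
      rw [← mul_smul, ← pow_succ]
      exact hx
    refine (Set.Finite.preimage' ih fun b _ => ?_).subset hsub
    by_cases hb : ∃ x₀ : J, p • x₀ = b
    · obtain ⟨x₀, hx₀⟩ := hb
      refine (hfin.image (fun z => x₀ + z)).subset ?_
      intro x hx
      simp only [Set.mem_preimage, Set.mem_singleton_iff] at hx
      refine ⟨x - x₀, ?_, by simp⟩
      simp only [Set.mem_ofPred_eq, smul_sub, hx, hx₀, sub_self]
    · refine Set.Finite.subset Set.finite_empty ?_
      intro x hx
      exact (hb ⟨x, hx⟩).elim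

/-! ### The Galois action and the main theorem -/

section Galois

variable {O : Type} [CommRing O]
variable {J : Type} [AddCommGroup J]
variable {G : Type} [Monoid G] [DistribMulAction G J]
variable {ι : Type} {t : ι → J →+ J} {a : ι → O}

/-- The action of `G` on `Hom_ℤ(L, J)` through the target. -/
def galSrc (σ : G) (g : SrcHom O J) : SrcHom O J :=
  SrcHom.of ((DistribSMul.toAddMonoidHom J σ).comp g.hom)

@[simp] theorem galSrc_hom (σ : G) (g : SrcHom O J) (x : FractionRing O) :
    (galSrc σ g).hom x = σ • g.hom x := rfl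

theorem galSrc_mem (ht : ∀ i (σ : G) (x : J), σ • t i x = t i (σ • x)) (σ : G)
    {g : SrcHom O J} (hg : g ∈ eigenSub t a) : galSrc σ g ∈ eigenSub t a := by
  refine ⟨fun r => ?_, fun i x => ?_⟩
  · rw [galSrc_hom, hg.1, smul_zero]
  · rw [galSrc_hom, galSrc_hom, ← ht, hg.2]

/-- The action of `G` on the eigen-submodule, as `O`-linear endomorphisms. -/
def galEnd (ht : ∀ i (σ : G) (x : J), σ • t i x = t i (σ • x)) (σ : G) :
    Module.End O (eigenSub t a) where
  toFun g := ⟨galSrc σ g.1, galSrc_mem ht σ g.2⟩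
  map_add' g h := by
    apply Subtype.ext
    apply SrcHom.ext
    intro x
    simp [smul_add]
  map_smul' c g := by
    apply Subtype.ext
    apply SrcHom.ext
    intro x
    simp

@[simp] theorem galEnd_hom (ht : ∀ i (σ : G) (x : J), σ • t i x = t i (σ • x)) (σ : G)
    (g : eigenSub t a) (x : FractionRing O) :
    ((galEnd ht σ g : eigenSub t a) : SrcHom O J).hom x = σ • (g : SrcHom O J).hom x := rfl

/-- The representation of `G` on the eigen-submodule. -/
def galRep (ht : ∀ i (σ : G) (x : J), σ • t i x = t i (σ • x)) :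
    G →* Module.End O (eigenSub t a) where
  toFun := galEnd ht
  map_one' := by
    apply LinearMap.ext
    intro g
    apply Subtype.ext
    apply SrcHom.ext
    intro x
    simp
  map_mul' σ τ := by
    apply LinearMap.ext
    intro g
    apply Subtype.ext
    apply SrcHom.ext
    intro x
    simp [mul_smul]

@[simp] theorem galRep_hom (ht : ∀ i (σ : G) (x : J), σ • t i x = t i (σ • x)) (σ : G)
    (g : eigenSub t a) (x : FractionRing O) :
    ((galRep ht σ g : eigenSub t a) : SrcHom O J).hom x = σ • (g : SrcHom O J).hom x := rfl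

end Galois

/-- PIECE 1 of the adic module layer (pure algebra). -/
theorem adicModule_of_torsion
    {p : ℕ} (_hp : p.Prime)
    {O : Type} [CommRing O] [IsDomain O] [IsDiscreteValuationRing O]
    [IsAdicComplete (IsLocalRing.maximalIdeal O) O] [Finite (IsLocalRing.ResidueField O)]
    [CharZero O] (hpO : (p : O) ∈ IsLocalRing.maximalIdeal O)
    {J : Type} [AddCommGroup J]
    [DistribMulAction (AlgebraicClosure ℚ ≃ₐ[ℚ] AlgebraicClosure ℚ) J]
    (hsm : ∀ x : J, ∃ L : IntermediateField ℚ (AlgebraicClosure ℚ), FiniteDimensional ℚ L ∧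
      ∀ σ : AlgebraicClosure ℚ ≃ₐ[ℚ] AlgebraicClosure ℚ, (∀ y ∈ L, σ y = y) → σ • x = x)
    (hfin : {x : J | p • x = 0}.Finite)
    {ι : Type} (t : ι → J →+ J)
    (ht : ∀ i (σ : AlgebraicClosure ℚ ≃ₐ[ℚ] AlgebraicClosure ℚ) (x : J), σ • t i x = t i (σ • x))
    (a : ι → O)
    (f : FractionRing O →+ J) (hf0 : ∀ r : O, f (algebraMap O (FractionRing O) r) = 0)
    (hf : f ≠ 0)
    (hfe : ∀ i x, t i (f x) = f (algebraMap O (FractionRing O) (a i) * x)) :
    ∃ (M : Type) (_ : AddCommGroup M) (_ : Module O M) (_ : Module.Free O M)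
      (_ : Module.Finite O M)
      (ρ : (AlgebraicClosure ℚ ≃ₐ[ℚ] AlgebraicClosure ℚ) →* Module.End O M),
      Nontrivial M ∧ GaloisActionIsAdicContinuous O ρ ∧
      (∀ σ : AlgebraicClosure ℚ ≃ₐ[ℚ] AlgebraicClosure ℚ,
        (∀ x : J, (∃ n : ℕ, p ^ n • x = 0) → σ • x = x) → ρ σ = 1) ∧
      (∀ (i : ι) (n : ℕ) (σ : AlgebraicClosure ℚ ≃ₐ[ℚ] AlgebraicClosure ℚ),
        (∀ x : J, (∃ k : ℕ, p ^ k • x = 0) → σ • σ • x - t i (σ • x) + n • x = 0) →
        ρ σ * ρ σ - a i • ρ σ + (n : O) • (1 : Module.End O M) = 0) := by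
  classical
  obtain ⟨ϖ, hϖ⟩ := IsDiscreteValuationRing.exists_irreducible O
  refine ⟨eigenSub t a, inferInstance, inferInstance, free_eigenSub hpO hfin,
    finite_eigenSub hpO hfin, galRep ht, ?_, ?_, ?_, ?_⟩
  · -- nontrivial
    have hfm : SrcHom.of f ∈ eigenSub t a := ⟨hf0, hfe⟩
    refine ⟨⟨⟨SrcHom.of f, hfm⟩, 0, ?_⟩⟩
    intro h
    apply hf
    have := congrArg (fun w : eigenSub t a => (w : SrcHom O J)) h
    exact this
  · -- adic continuity
    intro n
    have hfinn := finite_pow_torsion hfin n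
    choose Lx hLx using hsm
    have hfd : ∀ x, FiniteDimensional ℚ (Lx x) := fun x => (hLx x).1
    refine ⟨⨆ x ∈ hfinn.toFinset, Lx x,
      IntermediateField.finiteDimensional_iSup_of_finset, ?_⟩
    intro σ hσ v
    have hfix : ∀ x : J, p ^ n • x = 0 → σ • x = x := by
      intro x hx
      refine (hLx x).2 σ fun y hy => hσ y ?_
      have hle : Lx x ≤ ⨆ x ∈ hfinn.toFinset, Lx x := by
        refine le_iSup₂_of_le x ?_ le_rfl
        simpa using hx
      exact hle hy
    have hmem : galRep ht σ v - v ∈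
        (IsLocalRing.maximalIdeal O ^ n • ⊤ : Submodule O (eigenSub t a)) := by
      apply mem_pow_smul_top_of_kill hϖ n
      intro y
      show ((galRep ht σ v : eigenSub t a) : SrcHom O J).hom _ - (v : SrcHom O J).hom _ = 0
      rw [galRep_hom, hfix _ (pow_smul_hom_div_eq_zero hpO hϖ n v.2 y), sub_self]
    exact hmem
  · -- unramified
    intro σ hσ
    apply LinearMap.ext
    intro g
    apply Subtype.ext
    apply SrcHom.ext
    intro x
    rw [galRep_hom]
    exact hσ _ (exists_pow_smul_hom_eq_zero hpO g.2 x)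
  · -- quadratic relation
    intro i n σ hσ
    apply LinearMap.ext
    intro g
    simp only [LinearMap.add_apply, LinearMap.sub_apply, LinearMap.smul_apply,
      Module.End.mul_apply, Module.End.one_apply, LinearMap.zero_apply]
    apply Subtype.ext
    apply SrcHom.ext
    intro x
    have h := hσ _ (exists_pow_smul_hom_eq_zero hpO g.2 x)
    show σ • σ • (g : SrcHom O J).hom x -
          σ • (g : SrcHom O J).hom (algebraMap O (FractionRing O) (a i) * x) +
          (g : SrcHom O J).hom (algebraMap O (FractionRing O) (n : O) * x) = 0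
    rw [← g.2.2, ht]
    have e2 : (g : SrcHom O J).hom (algebraMap O (FractionRing O) (n : O) * x) =
        n • (g : SrcHom O J).hom x := by
      rw [map_natCast, ← nsmul_eq_mul, map_nsmul]
    rw [e2]
    exact h

end Fermat.Agent.S30.H330

end
end
-- ===== PACK-END S30/H330/AdicAlg.lean

-- ===== PACK-BEGIN S24/JFun/EtaProd.lean
section







/-!
# Formal versus analytic Euler product

The Taylor coefficients at `0` of the analytic function `q ↦ ∏' n, (1 - q ^ (n + 1))` on the unit
disc are the coefficients of the formal product `ModularCurve.etaProd`.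
-/

set_option autoImplicit false

namespace Fermat.Agent.S24.JFun

open Filter Topology Complex Metric
open scoped PowerSeries.WithPiTopology

/-- Iterated derivatives of a locally uniform limit of holomorphic functions. -/
theorem tendstoLocallyUniformlyOn_iteratedDeriv {ι : Type*} {φ : Filter ι} {F : ι → ℂ → ℂ}
    {f : ℂ → ℂ} {U : Set ℂ} (hU : IsOpen U) (hf : TendstoLocallyUniformlyOn F f φ U)
    (hF : ∀ᶠ n in φ, DifferentiableOn ℂ (F n) U) (m : ℕ) :
    TendstoLocallyUniformlyOn (fun n => iteratedDeriv m (F n)) (iteratedDeriv m f) φ U ∧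
      ∀ᶠ n in φ, DifferentiableOn ℂ (iteratedDeriv m (F n)) U := by
  induction m with
  | zero => simpa [iteratedDeriv_zero] using And.intro hf hF
  | succ m ih =>
    obtain ⟨h1, h2⟩ := ih
    refine ⟨?_, ?_⟩
    · have := h1.deriv h2 hU
      simpa [iteratedDeriv_succ, Function.comp_def] using this
    · filter_upwards [h2] with n hn
      rw [iteratedDeriv_succ]
      exact hn.deriv hU

theorem iteratedDeriv_polynomial_eval (P : Polynomial ℂ) (m : ℕ) :
    iteratedDeriv m (fun x : ℂ => P.eval x) = fun x => (Polynomial.derivative^[m] P).eval x := by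
  induction m generalizing P with
  | zero => simp [iteratedDeriv_zero]
  | succ m ih =>
    rw [iteratedDeriv_succ', Function.iterate_succ_apply]
    have : deriv (fun x : ℂ => P.eval x) = fun x => (Polynomial.derivative P).eval x := by
      funext x
      exact Polynomial.deriv P
    rw [this, ih]

theorem iteratedDeriv_polynomial_eval_zero (P : Polynomial ℂ) (m : ℕ) :
    iteratedDeriv m (fun x : ℂ => P.eval x) 0 = (m.factorial : ℂ) * P.coeff m := by
  rw [iteratedDeriv_polynomial_eval]
  simp only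
  rw [← Polynomial.coeff_zero_eq_eval_zero, Polynomial.coeff_iterate_derivative]
  simp [Nat.descFactorial_self, nsmul_eq_mul]

/-- The partial Euler products as integer polynomials. -/
noncomputable def eulerPartial (s : Finset ℕ) : Polynomial ℤ :=
  ∏ n ∈ s, (1 - Polynomial.X ^ (n + 1))

theorem eval_map_eulerPartial (s : Finset ℕ) (q : ℂ) :
    ((eulerPartial s).map (Int.castRingHom ℂ)).eval q = ∏ n ∈ s, (1 - q ^ (n + 1)) := by
  simp [eulerPartial, Polynomial.map_prod, Polynomial.eval_prod]

theorem coe_eulerPartial (s : Finset ℕ) :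
    ((eulerPartial s : Polynomial ℤ) : PowerSeries ℤ) = ∏ n ∈ s, (1 - PowerSeries.X ^ (n + 1)) := by
  have h := map_prod (Polynomial.coeToPowerSeries.ringHom (R := ℤ))
    (fun n : ℕ => (1 - Polynomial.X ^ (n + 1) : Polynomial ℤ)) s
  rw [eulerPartial]
  refine h.trans (Finset.prod_congr rfl fun n _ => ?_)
  simp

theorem tendsto_coeff_eulerPartial (m : ℕ) :
    Tendsto (fun s : Finset ℕ => (((eulerPartial s).coeff m : ℤ) : ℂ)) atTop
      (𝓝 ((ModularCurve.etaProd.coeff m : ℤ) : ℂ)) := by
  have h1 : HasProd (fun n : ℕ => (1 - PowerSeries.X ^ (n + 1) : PowerSeries ℤ))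
      ModularCurve.etaProd :=
    (PowerSeries.WithPiTopology.multipliable_one_sub_X_pow ℤ).hasProd
  have h2 : Tendsto (fun s : Finset ℕ => ∏ n ∈ s, (1 - PowerSeries.X ^ (n + 1) : PowerSeries ℤ))
      atTop (𝓝 ModularCurve.etaProd) := h1
  have h3 := (PowerSeries.WithPiTopology.tendsto_iff_coeff_tendsto ℤ _ _ _).1 h2 m
  have h4 : Continuous (fun z : ℤ => (z : ℂ)) := continuous_of_discreteTopology
  have h5 := (h4.tendsto _).comp h3
  refine h5.congr (fun s => ?_)
  simp only [Function.comp_apply]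
  rw [← coe_eulerPartial, Polynomial.coeff_coe]

/-- The Taylor coefficients at `0` of the analytic Euler product are the coefficients of the
formal Euler product `ModularCurve.etaProd`. -/
theorem iteratedDeriv_tprod_one_sub_pow (m : ℕ) :
    iteratedDeriv m (fun q : ℂ => ∏' n : ℕ, (1 - q ^ (n + 1))) 0
      = (m.factorial : ℂ) * ((ModularCurve.etaProd.coeff m : ℤ) : ℂ) := by
  have hU : IsOpen (ball (0 : ℂ) 1) := isOpen_ball
  have h0 : (0 : ℂ) ∈ ball (0 : ℂ) 1 := mem_ball_self one_pos
  have hloc : TendstoLocallyUniformlyOn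
      (fun (s : Finset ℕ) (q : ℂ) => ∏ n ∈ s, (1 - q ^ (n + 1)))
      (fun q : ℂ => ∏' n : ℕ, (1 - q ^ (n + 1))) atTop (ball (0 : ℂ) 1) := by
    have := ModularForm.multipliableLocallyUniformlyOn_one_sub_pow.hasProdLocallyUniformlyOn
    exact this
  have hF : ∀ᶠ s : Finset ℕ in atTop,
      DifferentiableOn ℂ (fun q : ℂ => ∏ n ∈ s, (1 - q ^ (n + 1))) (ball (0 : ℂ) 1) :=
    Eventually.of_forall fun s => by fun_prop
  have key := (tendstoLocallyUniformlyOn_iteratedDeriv hU hloc hF m).1.tendsto_at h0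
  have hval : ∀ s : Finset ℕ,
      iteratedDeriv m (fun q : ℂ => ∏ n ∈ s, (1 - q ^ (n + 1))) 0
        = (m.factorial : ℂ) * (((eulerPartial s).coeff m : ℤ) : ℂ) := by
    intro s
    have : (fun q : ℂ => ∏ n ∈ s, (1 - q ^ (n + 1)))
        = fun q => ((eulerPartial s).map (Int.castRingHom ℂ)).eval q := by
      funext q
      rw [eval_map_eulerPartial]
    rw [this, iteratedDeriv_polynomial_eval_zero, Polynomial.coeff_map]
    simp
  have key2 : Tendsto (fun s : Finset ℕ =>
      (m.factorial : ℂ) * (((eulerPartial s).coeff m : ℤ) : ℂ)) atTop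
      (𝓝 (iteratedDeriv m (fun q : ℂ => ∏' n : ℕ, (1 - q ^ (n + 1))) 0)) :=
    key.congr hval
  exact tendsto_nhds_unique key2 ((tendsto_coeff_eulerPartial m).const_mul _)

/-- The analytic Euler product is the sum of the formal Euler product on the open unit disc. -/
theorem hasSum_etaProd {q : ℂ} (hq : ‖q‖ < 1) :
    HasSum (fun m : ℕ => ((ModularCurve.etaProd.coeff m : ℤ) : ℂ) * q ^ m)
      (∏' n : ℕ, (1 - q ^ (n + 1))) := by
  have h := Complex.hasSum_taylorSeries_on_ball
    (f := fun q : ℂ => ∏' n : ℕ, (1 - q ^ (n + 1))) (c := 0) (r := 1)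
    ModularForm.differentiableOn_tprod_one_sub_pow (z := q) (by simpa using hq)
  have heq : (fun n : ℕ => ((n.factorial : ℂ))⁻¹ • (q - 0) ^ n •
      iteratedDeriv n (fun q : ℂ => ∏' n : ℕ, (1 - q ^ (n + 1))) 0)
      = fun m : ℕ => ((ModularCurve.etaProd.coeff m : ℤ) : ℂ) * q ^ m := by
    funext m
    rw [iteratedDeriv_tprod_one_sub_pow]
    have hm : (m.factorial : ℂ) ≠ 0 := by exact_mod_cast Nat.factorial_ne_zero m
    simp only [sub_zero, smul_eq_mul]
    field_simp
  rw [heq] at h
  exact h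

end Fermat.Agent.S24.JFun

end
-- ===== PACK-END S24/JFun/EtaProd.lean

-- ===== PACK-BEGIN S24/Inf/Twist.lean
section



/-!
# S24 / MOD-INF — formal operations on Laurent series

* `infTwist u` : the ring endomorphism `∑ aₙ zⁿ ↦ ∑ aₙ uⁿ zⁿ` of `LaurentSeries R` (`u` a unit);
* order / leading coefficient of `infTwist u φ` and of `ModularCurve.qExpand R e φ`.
-/

set_option autoImplicit false

noncomputable section

open HahnSeries ModularCurve

namespace Fermat.Agent.S24

section General

variable {R : Type*} [CommRing R]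

/-- A Hahn series over `ℤ` whose coefficients below `n` vanish and whose `n`-th coefficient is
nonzero has order `n`. -/
theorem inf_order_eq_of_coeff {x : LaurentSeries R} {n : ℤ} (hn : x.coeff n ≠ 0)
    (hlt : ∀ m < n, x.coeff m = 0) : x.order = n := by
  apply le_antisymm (order_le_of_coeff_ne_zero hn)
  by_contra h
  rw [not_le] at h
  have hx : x ≠ 0 := ne_zero_of_coeff_ne_zero hn
  exact (coeff_order_eq_zero.not.mpr hx) (hlt _ h)

theorem inf_leadingCoeff_eq_of_coeff {x : LaurentSeries R} {n : ℤ} (hn : x.coeff n ≠ 0)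
    (hlt : ∀ m < n, x.coeff m = 0) : x.leadingCoeff = x.coeff n := by
  rw [leadingCoeff_eq, inf_order_eq_of_coeff hn hlt]

/-- The underlying function of the twist. -/
def infTwistFun (u : Rˣ) (x : LaurentSeries R) : LaurentSeries R where
  coeff n := x.coeff n * ((u ^ n : Rˣ) : R)
  isPWO_support' := x.isPWO_support.mono (fun n hn => by
    simp only [Function.mem_support, ne_eq] at hn
    rw [mem_support]
    intro h
    exact hn (by rw [h, zero_mul]))

@[simp]
theorem infTwistFun_coeff (u : Rˣ) (x : LaurentSeries R) (n : ℤ) :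
    (infTwistFun u x).coeff n = x.coeff n * ((u ^ n : Rˣ) : R) := rfl

theorem infTwistFun_support (u : Rˣ) (x : LaurentSeries R) :
    (infTwistFun u x).support = x.support := by
  ext n
  simp only [mem_support, infTwistFun_coeff, ne_eq]
  constructor
  · intro h h0
    exact h (by rw [h0, zero_mul])
  · intro h h0
    exact h ((Units.mul_left_eq_zero _).mp h0)

/-- The twist `∑ aₙ zⁿ ↦ ∑ aₙ uⁿ zⁿ` as a ring homomorphism. -/
def infTwist (u : Rˣ) : LaurentSeries R →+* LaurentSeries R where
  toFun := infTwistFun u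
  map_zero' := by
    ext n
    simp
  map_one' := by
    ext n
    simp only [infTwistFun_coeff, coeff_one]
    split_ifs with h
    · subst h
      simp
    · simp
  map_add' x y := by
    ext n
    simp [add_mul]
  map_mul' x y := by
    ext n
    simp only [infTwistFun_coeff, coeff_mul]
    rw [Finset.sum_mul]
    refine Finset.sum_congr ?_ ?_
    · ext ij
      simp only [Finset.mem_antidiagonal, infTwistFun_support]
    · intro ij hij
      have h : ij.1 + ij.2 = n := (Finset.mem_antidiagonal.mp hij).2.2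
      rw [← h, zpow_add, Units.val_mul]
      ring

@[simp]
theorem infTwist_coeff (u : Rˣ) (x : LaurentSeries R) (n : ℤ) :
    (infTwist u x).coeff n = x.coeff n * ((u ^ n : Rˣ) : R) := rfl

theorem infTwist_support (u : Rˣ) (x : LaurentSeries R) :
    (infTwist u x).support = x.support := infTwistFun_support u x

theorem infTwist_eq_zero_iff (u : Rˣ) (x : LaurentSeries R) : infTwist u x = 0 ↔ x = 0 := by
  rw [← support_eq_empty_iff, infTwist_support, support_eq_empty_iff]

theorem infTwist_injective (u : Rˣ) : Function.Injective (infTwist (R := R) u) :=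
  (injective_iff_map_eq_zero _).mpr fun x hx => (infTwist_eq_zero_iff u x).mp hx

@[simp]
theorem infTwist_one (x : LaurentSeries R) : infTwist (1 : Rˣ) x = x := by
  ext n
  simp

theorem infTwist_mul (u v : Rˣ) (x : LaurentSeries R) :
    infTwist (u * v) x = infTwist u (infTwist v x) := by
  ext n
  simp only [infTwist_coeff, mul_zpow, Units.val_mul]
  ring

@[simp]
theorem infTwist_single (u : Rˣ) (k : ℤ) (r : R) :
    infTwist u (single k r) = single k (r * ((u ^ k : Rˣ) : R)) := by
  ext n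
  rcases eq_or_ne n k with rfl | hn
  · simp
  · simp [coeff_single_of_ne hn]

@[simp]
theorem infTwist_C (u : Rˣ) (r : R) : infTwist u (HahnSeries.C r) = HahnSeries.C r := by
  rw [C_apply, infTwist_single]
  simp

theorem infTwist_order (u : Rˣ) (x : LaurentSeries R) : (infTwist u x).order = x.order := by
  rcases eq_or_ne x 0 with rfl | hx
  · simp
  · refine inf_order_eq_of_coeff ?_ ?_
    · rw [infTwist_coeff]
      intro h
      exact (coeff_order_eq_zero.not.mpr hx) ((Units.mul_left_eq_zero _).mp h)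
    · intro m hm
      rw [infTwist_coeff, coeff_eq_zero_of_lt_order hm, zero_mul]

theorem infTwist_leadingCoeff (u : Rˣ) (x : LaurentSeries R) :
    (infTwist u x).leadingCoeff = x.leadingCoeff * ((u ^ x.order : Rˣ) : R) := by
  rw [leadingCoeff_eq, leadingCoeff_eq, infTwist_order, infTwist_coeff]

end General

section QExpand

variable {R : Type*} [CommRing R] (e : ℕ) [NeZero e]

theorem inf_qExpand_eq_zero_iff (x : LaurentSeries R) : qExpand R e x = 0 ↔ x = 0 :=
  ⟨fun h => qExpand_injective e (by rw [h, map_zero]), fun h => by rw [h, map_zero]⟩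

theorem inf_qExpand_order (x : LaurentSeries R) :
    (qExpand R e x).order = (e : ℤ) * x.order := by
  rcases eq_or_ne x 0 with rfl | hx
  · simp
  · have he : (0 : ℤ) < e := by exact_mod_cast Nat.pos_of_ne_zero (NeZero.ne e)
    refine inf_order_eq_of_coeff ?_ ?_
    · rw [qExpand_coeff_mul]
      exact coeff_order_eq_zero.not.mpr hx
    · intro m hm
      by_cases hdvd : (e : ℤ) ∣ m
      · obtain ⟨k, rfl⟩ := hdvd
        rw [qExpand_coeff_mul]
        exact coeff_eq_zero_of_lt_order (lt_of_mul_lt_mul_left hm he.le)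
      · exact qExpand_coeff_of_not_dvd e x hdvd

theorem inf_qExpand_leadingCoeff (x : LaurentSeries R) :
    (qExpand R e x).leadingCoeff = x.leadingCoeff := by
  rw [leadingCoeff_eq, leadingCoeff_eq, inf_qExpand_order, qExpand_coeff_mul]

end QExpand

section CoeffMap

variable {R S : Type*} [CommRing R] [CommRing S]

theorem inf_coeffMap_injective {f : R →+* S} (hf : Function.Injective f) :
    Function.Injective (coeffMap f) := by
  intro x y h
  ext n
  apply hf
  have := congrArg (fun z => z.coeff n) h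
  simpa using this

theorem inf_coeffMap_order {f : R →+* S} (hf : Function.Injective f) (x : LaurentSeries R) :
    (coeffMap f x).order = x.order := by
  rcases eq_or_ne x 0 with rfl | hx
  · simp
  · refine inf_order_eq_of_coeff ?_ ?_
    · rw [coeffMap_coeff]
      intro h
      exact (coeff_order_eq_zero.not.mpr hx) (hf (by rw [h, map_zero]))
    · intro m hm
      rw [coeffMap_coeff, coeff_eq_zero_of_lt_order hm, map_zero]

theorem inf_coeffMap_leadingCoeff {f : R →+* S} (hf : Function.Injective f)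
    (x : LaurentSeries R) : (coeffMap f x).leadingCoeff = f x.leadingCoeff := by
  rw [leadingCoeff_eq, leadingCoeff_eq, inf_coeffMap_order hf, coeffMap_coeff]

end CoeffMap

end Fermat.Agent.S24

end
end
-- ===== PACK-END S24/Inf/Twist.lean

-- ===== PACK-BEGIN Lib/RR/Defs.lean
section




/-!
# Shared library RR: Riemann's theorem and the Riemann–Roch theorem for function fields

Language: the Prelude's `AlgebraicCurve.Place`, `Divisor`, `riemannRochSpace`, `repartitions`,
`repartitionsOf`, `principalRepartitions`, `H1`, `genusFF`.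

Standing hypotheses (`FF1 K F`): every nonzero function has a divisor of degree `0`
(`HasPrincipalDivisors`), every place has degree one (e.g. `K` algebraically closed and finite
residue fields), there is at least one place, and `F` is finite over `K(x)` for some
transcendental `x`.
-/

set_option autoImplicit false

noncomputable section

open AlgebraicCurve

namespace Fermat.Agent.Lib.RR

variable (K F : Type*) [Field K] [Field F] [Algebra K F]

/-- Standing hypotheses of the RR library: a function field of one variable over `K`, all of whose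
places have degree one. -/
class FF1 : Prop where
  /-- every nonzero function has a divisor, of degree zero -/
  hpd : HasPrincipalDivisors K F
  /-- every place has degree one -/
  deg_eq_one : ∀ v : Place K F, v.deg = 1
  /-- there is a place -/
  nonempty_place : Nonempty (Place K F)
  /-- `F` is a finite extension of a rational function field -/
  exists_finite : ∃ x : F, Transcendental K x ∧
    FiniteDimensional (IntermediateField.adjoin K {x}) F

variable {K F}

/-- `ℓ(D) = dim_K L(D)`. -/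
def ell (D : Divisor K F) : ℕ := Module.finrank K (riemannRochSpace D)

/-- The prime divisor of a place. -/
def prim (v : Place K F) : Divisor K F := Finsupp.single v 1

end Fermat.Agent.Lib.RR

end
end
-- ===== PACK-END Lib/RR/Defs.lean

-- ===== PACK-BEGIN S30/H709/EigenAlg.lean
section


/-!
# S30-OCC, algebra: a ring homomorphism from a faithfully acting commutative ring occurs

`T` a commutative ring acting faithfully on a finitely generated module `L`, `χ : T →+* K` a ring
homomorphism to a field: there is a nonzero additive `μ : L → K` with `μ (t • x) = χ t * μ x`.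
No hypothesis on the kernel of `χ` (maximality is not needed), no characteristic hypothesis.

Lattice form: if `L` is a free `ℤ`-module of finite rank with basis `b`, and `χ` takes values in a
domain `A`, there is a nonzero vector `w` of elements of `A` which is a left eigenvector with
eigenvalue `χ t` of the integer matrix of every `t` in the basis `b`.
-/

set_option autoImplicit false

namespace Fermat.Agent.S30.H709

open scoped TensorProduct

/-- A ring homomorphism `χ : T →+* K` to a field occurs in every faithful finitely generated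
`T`-module: there is a nonzero `χ`-semilinear additive functional. -/
theorem exists_semilinear_functional {T : Type*} [CommRing T] {L : Type*} [AddCommGroup L]
    [Module T L] [Module.Finite T L] (hfaith : ∀ t : T, (∀ x : L, t • x = 0) → t = 0)
    {K : Type*} [Field K] (χ : T →+* K) :
    ∃ μ : L →+ K, μ ≠ 0 ∧ ∀ (t : T) (x : L), μ (t • x) = χ t * μ x := by
  classical
  let 𝔭 : Ideal T := RingHom.ker χ
  have h𝔭 : 𝔭.IsPrime := RingHom.ker_isPrime χ
  let P : PrimeSpectrum T := ⟨𝔭, h𝔭⟩
  have hsupp : P ∈ Module.support T L := by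
    rw [Module.mem_support_iff_of_finite]
    intro t ht
    rw [Module.mem_annihilator] at ht
    rw [hfaith t ht]
    exact zero_mem _
  have hnt : Nontrivial (𝔭.ResidueField ⊗[T] L) :=
    (Module.mem_support_iff_nontrivial_residueField_tensorProduct P).mp hsupp
  obtain ⟨v, hv⟩ := exists_ne (0 : 𝔭.ResidueField ⊗[T] L)
  obtain ⟨φ, hφ⟩ := Module.Projective.exists_dual_ne_zero 𝔭.ResidueField hv
  have hunit : 𝔭.primeCompl ≤ (IsUnit.submonoid K).comap χ := by
    intro t ht
    rw [Submonoid.mem_comap, IsUnit.mem_submonoid_iff]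
    exact IsUnit.mk0 _ (fun h => ht (RingHom.mem_ker.mpr h))
  let ι : 𝔭.ResidueField →+* K := Ideal.ResidueField.lift 𝔭 χ le_rfl hunit
  have hι : ∀ t : T, ι (algebraMap T 𝔭.ResidueField t) = χ t := fun t =>
    Ideal.ResidueField.lift_algebraMap 𝔭 χ le_rfl hunit t
  let μ : L →+ K :=
    { toFun := fun x => ι (φ ((1 : 𝔭.ResidueField) ⊗ₜ[T] x))
      map_zero' := by rw [TensorProduct.tmul_zero, map_zero, map_zero]
      map_add' := fun x y => by rw [TensorProduct.tmul_add, map_add, map_add] }
  have hμ : ∀ x, μ x = ι (φ ((1 : 𝔭.ResidueField) ⊗ₜ[T] x)) := fun _ => rfl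
  refine ⟨μ, ?_, ?_⟩
  · intro h0
    apply hφ
    have hzero : ∀ x : L, φ ((1 : 𝔭.ResidueField) ⊗ₜ[T] x) = 0 := by
      intro x
      have := congrArg (fun m : L →+ K => m x) h0
      simp only [hμ, AddMonoidHom.zero_apply] at this
      exact (map_eq_zero ι).mp this
    have hall : ∀ w : 𝔭.ResidueField ⊗[T] L, φ w = 0 := by
      intro w
      induction w using TensorProduct.induction_on with
      | zero => exact map_zero φ
      | tmul a x =>
        have : a ⊗ₜ[T] x = a • ((1 : 𝔭.ResidueField) ⊗ₜ[T] x) := by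
          rw [TensorProduct.smul_tmul', smul_eq_mul, mul_one]
        rw [this, map_smul, hzero, smul_zero]
      | add x y hx hy => rw [map_add, hx, hy, add_zero]
    exact hall v
  · intro t x
    rw [hμ, hμ, ← hι t, ← map_mul]
    congr 1
    have : (1 : 𝔭.ResidueField) ⊗ₜ[T] (t • x)
        = (algebraMap T 𝔭.ResidueField t) • ((1 : 𝔭.ResidueField) ⊗ₜ[T] x) := by
      rw [TensorProduct.tmul_smul, TensorProduct.smul_tmul', TensorProduct.smul_tmul',
        smul_eq_mul, mul_one, Algebra.smul_def, mul_one]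
    rw [this, map_smul, smul_eq_mul]

/-- Auxiliary form of `exists_eigen_coeffs` with an arbitrary fraction field. -/
theorem exists_eigen_coeffs_aux {T : Type*} [CommRing T] {L : Type*} [AddCommGroup L]
    (ρ : T →+* Module.End ℤ L) (hρ : Function.Injective ρ)
    {ι : Type*} [Fintype ι] (b : Module.Basis ι ℤ L)
    {A : Type*} [CommRing A] [IsDomain A] (K : Type*) [Field K] [Algebra A K]
    [IsFractionRing A K] (χ : T →+* A) :
    ∃ w : ι → A, w ≠ 0 ∧
      ∀ (t : T) (k : ι), ∑ j, w j * ((b.repr (ρ t (b k)) j : ℤ) : A) = χ t * w k := by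
  classical
  let _ : Module T L := Module.compHom L ρ
  have hsmul : ∀ (t : T) (x : L), t • x = ρ t x := fun _ _ => rfl
  have : Module.Finite T L := by
    refine ⟨⟨Finset.univ.image b, ?_⟩⟩
    rw [eq_top_iff]
    intro x _
    rw [← b.sum_repr x]
    refine Submodule.sum_mem _ fun j _ => ?_
    have hb : b j ∈ Submodule.span T ((Finset.univ.image b : Finset L) : Set L) :=
      Submodule.subset_span (by simp)
    have : (b.repr x j) • b j = ((b.repr x j : ℤ) : T) • b j := by
      rw [hsmul, map_intCast]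
      rfl
    rw [this]
    exact Submodule.smul_mem _ _ hb
  have hfaith : ∀ t : T, (∀ x : L, t • x = 0) → t = 0 := by
    intro t ht
    apply hρ
    rw [map_zero]
    exact LinearMap.ext fun x => ht x
  obtain ⟨μ, hμ0, hμ⟩ := exists_semilinear_functional hfaith ((algebraMap A K).comp χ)
  obtain ⟨d, hd⟩ := IsLocalization.exist_integer_multiples_of_finite (nonZeroDivisors A)
    (fun j : ι => μ (b j))
  choose w hw using hd
  have hd0 : algebraMap A K (d : A) ≠ 0 := by
    intro h
    exact nonZeroDivisors.coe_ne_zero d ((IsFractionRing.injective A K) (by rw [h, map_zero]))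
  have hw' : ∀ j, algebraMap A K (w j) = algebraMap A K (d : A) * μ (b j) := by
    intro j
    rw [hw j, Algebra.smul_def]
  refine ⟨w, ?_, ?_⟩
  · intro hw0
    apply hμ0
    have hb0 : ∀ j, μ (b j) = 0 := by
      intro j
      have h1 := hw' j
      rw [hw0, Pi.zero_apply, map_zero] at h1
      rcases mul_eq_zero.mp h1.symm with h | h
      · exact absurd h hd0
      · exact h
    have hall : ∀ x : L, μ x = 0 := by
      intro x
      rw [← b.sum_repr x, map_sum]
      refine Finset.sum_eq_zero fun j _ => ?_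
      rw [map_zsmul, hb0, smul_zero]
    exact AddMonoidHom.ext hall
  · intro t k
    apply IsFractionRing.injective A K
    have h1 : μ (ρ t (b k)) = algebraMap A K (χ t) * μ (b k) := hμ t (b k)
    have h2 : μ (ρ t (b k)) = ∑ j, ((b.repr (ρ t (b k)) j : ℤ) : K) * μ (b j) := by
      conv_lhs => rw [← b.sum_repr (ρ t (b k))]
      rw [map_sum]
      refine Finset.sum_congr rfl fun j _ => ?_
      rw [map_zsmul, zsmul_eq_mul]
    rw [map_sum, map_mul, hw' k]
    calc ∑ j, algebraMap A K (w j * ((b.repr (ρ t (b k)) j : ℤ) : A))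
        = ∑ j, algebraMap A K (d : A) * (((b.repr (ρ t (b k)) j : ℤ) : K) * μ (b j)) := by
          refine Finset.sum_congr rfl fun j _ => ?_
          rw [map_mul, hw' j, map_intCast]
          ring
      _ = algebraMap A K (d : A) * μ (ρ t (b k)) := by rw [h2, Finset.mul_sum]
      _ = algebraMap A K (χ t) * (algebraMap A K (d : A) * μ (b k)) := by rw [h1]; ring

/-- Lattice form of `exists_semilinear_functional`: a commutative ring `T` acting faithfully
(through `ρ`) on a free abelian group `L` of finite rank with basis `b`, and a ring homomorphism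
`χ` from `T` to a domain `A`.  There is a nonzero `w : ι → A` with
`∑ j, w j * [ρ t]_{j k} = χ t * w k` for all `t`, where `[ρ t]_{j k} = b.repr (ρ t (b k)) j`. -/
theorem exists_eigen_coeffs {T : Type*} [CommRing T] {L : Type*} [AddCommGroup L]
    (ρ : T →+* Module.End ℤ L) (hρ : Function.Injective ρ)
    {ι : Type*} [Fintype ι] (b : Module.Basis ι ℤ L)
    {A : Type*} [CommRing A] [IsDomain A] (χ : T →+* A) :
    ∃ w : ι → A, w ≠ 0 ∧
      ∀ (t : T) (k : ι), ∑ j, w j * ((b.repr (ρ t (b k)) j : ℤ) : A) = χ t * w k :=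
  exists_eigen_coeffs_aux ρ hρ b (FractionRing A) χ

end Fermat.Agent.S30.H709

end
-- ===== PACK-END S30/H709/EigenAlg.lean

-- ===== PACK-BEGIN S21/H381/Primitive.lean
section



/-!
# S21, piece A (part 1): decaying primitives of periodic holomorphic functions on `ℍ`

`exists_disc_primitive`: if `g : ℍ → ℂ` is holomorphic, `h`-periodic and tends to `0` at `i∞`,
there is `Ψ` holomorphic on the open unit disc with `Ψ 0 = 0` such that `z ↦ Ψ (𝕢 h z)` is a
primitive of `g` on `ℍ`.
-/

set_option autoImplicit false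

namespace Fermat.Agent.S21.H381

open Filter Topology Function Complex
open UpperHalfPlane hiding I
open scoped Manifold

/-- On the upper half plane, `G ∘ ofComplex` and `G' := fun z => Ψ (𝕢 h z)` agree near any point
as soon as `G τ = Ψ (𝕢 h τ)` on `ℍ`. -/
theorem comp_ofComplex_eventuallyEq {G : ℍ → ℂ} {P : ℂ → ℂ} (hGP : ∀ τ : ℍ, G τ = P ↑τ)
    (τ : ℍ) : G ∘ ofComplex =ᶠ[𝓝 (τ : ℂ)] P := by
  have hopen : IsOpen {z : ℂ | 0 < z.im} := isOpen_lt continuous_const Complex.continuous_im
  filter_upwards [hopen.mem_nhds τ.2] with z hz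
  simp only [Function.comp_apply, ofComplex_apply_of_im_pos hz, hGP]

/-- **One-step decaying primitive.** -/
theorem exists_disc_primitive {g : ℍ → ℂ} {h : ℝ} (hh : 0 < h)
    (hper : Periodic (g ∘ ofComplex) h) (hhol : MDiff g) (hzero : IsZeroAtImInfty g) :
    ∃ Ψ : ℂ → ℂ, DifferentiableOn ℂ Ψ (Metric.ball 0 1) ∧ Ψ 0 = 0 ∧
      ∀ τ : ℍ, HasDerivAt (fun z : ℂ => (h / (2 * Real.pi * I)) * Ψ (Periodic.qParam h z))
        (g τ) ↑τ := by
  have hbdd : IsBoundedAtImInfty g := hzero.isBoundedAtImInfty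
  set φ : ℂ → ℂ := cuspFunction h g with hφ
  have hφdiff : DifferentiableOn ℂ φ (Metric.ball 0 1) :=
    differentiableOn_cuspFunction_ball hh hper hhol hbdd
  have hφ0 : φ 0 = 0 := by
    have h1 := cuspFunction_apply_zero hh
      (analyticAt_cuspFunction_zero hh hper hhol hbdd) hper
    rw [hφ, h1]
    exact hzero.valueAtInfty_eq_zero
  have hball : Metric.ball (0 : ℂ) 1 ∈ 𝓝 (0 : ℂ) := Metric.ball_mem_nhds 0 one_pos
  have hψdiff : DifferentiableOn ℂ (dslope φ 0) (Metric.ball 0 1) :=
    (Complex.differentiableOn_dslope hball).2 hφdiff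
  obtain ⟨Ψ, hΨ0, hΨ⟩ := (hψdiff.isExactOn_ball).with_val_at 0 0
  refine ⟨Ψ, ?_, hΨ0, ?_⟩
  · intro z hz
    exact (hΨ z hz).differentiableAt.differentiableWithinAt
  · intro τ
    set q : ℂ := Periodic.qParam h ↑τ with hq
    have hqball : q ∈ Metric.ball (0 : ℂ) 1 := by
      rw [mem_ball_zero_iff]
      exact Periodic.norm_qParam_lt_one hh τ.2
    have hq0 : q ≠ 0 := Periodic.qParam_ne_zero _
    have hqd : HasDerivAt (Periodic.qParam h) (q * (2 * Real.pi * I / h)) ↑τ := by
      have hs : HasStrictDerivAt (Periodic.qParam h) (q * (2 * Real.pi * I / h)) (τ : ℂ) := by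
        simpa only [id_eq, mul_one] using!
          (((hasStrictDerivAt_id (τ : ℂ)).const_mul _).div_const _).cexp
      exact hs.hasDerivAt
    have hcomp := (hΨ q hqball).comp (τ : ℂ) hqd
    have hval : (h / (2 * Real.pi * I) : ℂ) * (dslope φ 0 q * (q * (2 * Real.pi * I / h)))
        = g τ := by
      have hφq : φ q = g τ := eq_cuspFunction τ hh.ne' hper
      rw [dslope_of_ne _ hq0, slope_def_field, hφ0, sub_zero, sub_zero, hφq]
      have hh' : (h : ℂ) ≠ 0 := by exact_mod_cast hh.ne'
      have hpi : (2 * Real.pi * I : ℂ) ≠ 0 := Complex.two_pi_I_ne_zero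
      field_simp
    have h3 := hcomp.const_mul (h / (2 * Real.pi * I) : ℂ)
    rw [hval] at h3
    exact h3

end Fermat.Agent.S21.H381

end
-- ===== PACK-END S21/H381/Primitive.lean

-- ===== PACK-BEGIN S21/H81/InjCore.lean
section



/-!
# S21, piece C (core): a holomorphic function on `ℍ` whose real part is `Γ₀(N)`-invariant and
which has a limit at every cusp has vanishing derivative.
-/

set_option autoImplicit false

open UpperHalfPlane CongruenceSubgroup Filter Topology Complex
open scoped MatrixGroups Manifold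

namespace Fermat.Agent.S21.H81

/-- `SL(2,ℤ)` acts holomorphically on `ℍ`. -/
theorem injCore_mdiff_smul (g : SL(2, ℤ)) : MDiff (fun τ : ℍ => g • τ) := by
  have h : (0 : ℝ) < ((g : GL (Fin 2) ℝ).det : ℝ) := by simp
  exact mdifferentiable_smul h

theorem injCore_mdiff_of_differentiableAt {A : ℍ → ℂ}
    (hol : ∀ τ : ℍ, DifferentiableAt ℂ (A ∘ ofComplex) (τ : ℂ)) : MDiff A := by
  intro τ
  exact UpperHalfPlane.mdifferentiableAt_iff.mpr (hol τ)

/-- `T ^ N` conjugated by anything lies in `Γ₀(N)`. -/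
theorem injCore_conj_T_pow_mem (N : ℕ) (δ : SL(2, ℤ)) :
    δ * ModularGroup.T ^ (N : ℤ) * δ⁻¹ ∈ Gamma0 N := by
  have h1 : ModularGroup.T ^ (N : ℤ) ∈ CongruenceSubgroup.Gamma N := by
    rw [Gamma_mem, ModularGroup.coe_T_zpow]
    simp
  have h2 : δ * ModularGroup.T ^ (N : ℤ) * δ⁻¹ ∈ CongruenceSubgroup.Gamma N :=
    (Gamma_normal N).conj_mem _ h1 δ
  exact Gamma0_mem.mpr (Gamma_mem.mp h2).2.2.1

theorem injCore_tendsto_vadd (x : ℝ) :
    Tendsto (fun w : ℍ => x +ᵥ w) atImInfty atImInfty := by
  rw [atImInfty, tendsto_comap_iff]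
  have : (UpperHalfPlane.im ∘ fun w : ℍ => x +ᵥ w) = UpperHalfPlane.im := by
    funext w; simp
  rw [this]
  exact tendsto_comap


section core

variable {N : ℕ} {A : ℍ → ℂ}

theorem injCore_vadd_eq
    (hinv : ∀ γ ∈ Gamma0 N, ∃ c : ℂ, c.re = 0 ∧ ∀ z : ℍ, A (γ • z) - A z = c)
    (hcusp : ∀ δ : SL(2, ℤ), ∃ L : ℂ, Tendsto (fun w : ℍ => A (δ • w)) atImInfty (𝓝 L))
    (δ : SL(2, ℤ)) (w : ℍ) : A (δ • ((N : ℝ) +ᵥ w)) = A (δ • w) := by
  obtain ⟨c, -, hc⟩ := hinv _ (injCore_conj_T_pow_mem N δ)
  have key : ∀ w : ℍ, A (δ • ((N : ℝ) +ᵥ w)) - A (δ • w) = c := by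
    intro w
    have h := hc (δ • w)
    have e : (δ * ModularGroup.T ^ (N : ℤ) * δ⁻¹) • (δ • w) = δ • ((N : ℝ) +ᵥ w) := by
      rw [mul_smul, mul_smul, inv_smul_smul, modular_T_zpow_smul]
      simp
    rwa [e] at h
  obtain ⟨L, hL⟩ := hcusp δ
  have h1 : Tendsto (fun w : ℍ => A (δ • ((N : ℝ) +ᵥ w))) atImInfty (𝓝 L) :=
    hL.comp (injCore_tendsto_vadd (N : ℝ))
  have h2 : Tendsto (fun w : ℍ => A (δ • ((N : ℝ) +ᵥ w)) - A (δ • w)) atImInfty (𝓝 (L - L)) :=
    h1.sub hL
  have h3 : Tendsto (fun _ : ℍ => c) atImInfty (𝓝 (L - L)) := by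
    refine h2.congr ?_
    intro w
    exact key w
  have hc0 : c = 0 := by
    have := tendsto_nhds_unique h3 tendsto_const_nhds
    simpa using this.symm
  have := key w
  rw [hc0, sub_eq_zero] at this
  exact this

/-- The functions `E δ w = exp (A (δ • w))`. -/
noncomputable def injCoreE (A : ℍ → ℂ) (δ : SL(2, ℤ)) : ℍ → ℂ := fun w => cexp (A (δ • w))

theorem injCoreE_mdiff (hA : MDiff A) (δ : SL(2, ℤ)) : MDiff (injCoreE A δ) := by
  have h1 : MDiff (fun w : ℍ => A (δ • w)) := hA.comp (injCore_mdiff_smul δ)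
  exact (Complex.differentiable_exp.mdifferentiable).comp h1

theorem injCoreE_periodic [NeZero N]
    (hinv : ∀ γ ∈ Gamma0 N, ∃ c : ℂ, c.re = 0 ∧ ∀ z : ℍ, A (γ • z) - A z = c)
    (hcusp : ∀ δ : SL(2, ℤ), ∃ L : ℂ, Tendsto (fun w : ℍ => A (δ • w)) atImInfty (𝓝 L))
    (δ : SL(2, ℤ)) : Function.Periodic (injCoreE A δ ∘ ofComplex) ((N : ℝ) : ℂ) := by
  intro w
  by_cases hw : 0 < im w
  · have hw' : 0 < im (w + ((N : ℝ) : ℂ)) := by simpa using hw
    simp only [Function.comp_apply, ofComplex_apply_of_im_pos hw', ofComplex_apply_of_im_pos hw]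
    have e : (⟨w + ((N : ℝ) : ℂ), hw'⟩ : ℍ) = (N : ℝ) +ᵥ (⟨w, hw⟩ : ℍ) := by
      ext
      simp [add_comm]
    rw [e]
    unfold injCoreE
    rw [injCore_vadd_eq hinv hcusp δ]
  · have hw' : im (w + ((N : ℝ) : ℂ)) ≤ 0 := by simpa using not_lt.mp hw
    simp only [Function.comp_apply]
    rw [ofComplex_apply_of_im_nonpos hw', ofComplex_apply_of_im_nonpos (not_lt.mp hw)]

theorem injCoreE_bdd
    (hcusp : ∀ δ : SL(2, ℤ), ∃ L : ℂ, Tendsto (fun w : ℍ => A (δ • w)) atImInfty (𝓝 L))
    (δ : SL(2, ℤ)) : IsBoundedAtImInfty (injCoreE A δ) := by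
  obtain ⟨L, hL⟩ := hcusp δ
  have h : Tendsto (injCoreE A δ) atImInfty (𝓝 (cexp L)) :=
    (Complex.continuous_exp.tendsto L).comp hL
  exact h.isBigO_one ℝ


theorem injCore_norm_qParam_le (hN : (0 : ℝ) < N) {w : ℍ} (hw : 1 / 2 ≤ w.im) :
    ‖Function.Periodic.qParam (N : ℝ) (w : ℂ)‖ ≤ Real.exp (-Real.pi / N) := by
  rw [Function.Periodic.norm_qParam, Real.exp_le_exp]
  have hpi := Real.pi_pos
  rw [div_le_div_iff_of_pos_right hN]
  have : (w : ℂ).im = w.im := rfl
  rw [this]
  nlinarith

theorem injCore_exp_const [NeZero N] (hol : MDiff A)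
    (hinv : ∀ γ ∈ Gamma0 N, ∃ c : ℂ, c.re = 0 ∧ ∀ z : ℍ, A (γ • z) - A z = c)
    (hcusp : ∀ δ : SL(2, ℤ), ∃ L : ℂ, Tendsto (fun w : ℍ => A (δ • w)) atImInfty (𝓝 L)) :
    ∃ K : ℂ, ∀ z : ℍ, cexp (A z) = K := by
  have hNpos : (0 : ℝ) < N := Nat.cast_pos.mpr (NeZero.pos N)
  set r := Real.exp (-Real.pi / N) with hr
  have hr0 : 0 ≤ r := (Real.exp_pos _).le
  have hr1 : r < 1 := by
    rw [hr, ← Real.exp_zero, Real.exp_lt_exp]
    exact div_neg_of_neg_of_pos (neg_lt_zero.mpr Real.pi_pos) hNpos
  -- cusp functions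
  let Et : SL(2, ℤ) → ℂ → ℂ := fun δ => cuspFunction (N : ℝ) (injCoreE A δ)
  have hdiff : ∀ δ, DifferentiableOn ℂ (Et δ) (Metric.ball 0 1) := fun δ =>
    differentiableOn_cuspFunction_ball hNpos (injCoreE_periodic hinv hcusp δ)
      (injCoreE_mdiff hol δ) (injCoreE_bdd hcusp δ)
  have heq : ∀ δ (w : ℍ), Et δ (Function.Periodic.qParam (N : ℝ) (w : ℂ)) = cexp (A (δ • w)) :=
    fun δ w => eq_cuspFunction w hNpos.ne' (injCoreE_periodic hinv hcusp δ)
  -- maxima on the closed ball
  have hmax : ∀ δ, ∃ q ∈ Metric.closedBall (0 : ℂ) r,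
      IsMaxOn (norm ∘ Et δ) (Metric.closedBall 0 r) q := fun δ =>
    (isCompact_closedBall 0 r).exists_isMaxOn (Metric.nonempty_closedBall.mpr hr0)
      ((hdiff δ).continuousOn.mono (Metric.closedBall_subset_ball hr1)).norm
  choose qmax hqmem hqmax using hmax
  -- finite quotient
  let δof : SL(2, ℤ) ⧸ Gamma0 N → SL(2, ℤ) := fun c => (Quotient.out c)⁻¹
  obtain ⟨c₀, hc₀⟩ := Finite.exists_max
    (fun c : SL(2, ℤ) ⧸ Gamma0 N => ‖Et (δof c) (qmax (δof c))‖)
  -- key bound
  have hbound : ∀ z : ℍ, ‖cexp (A z)‖ ≤ ‖Et (δof c₀) (qmax (δof c₀))‖ := by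
    intro z
    obtain ⟨g, hg⟩ := ModularGroup.exists_smul_mem_fd z
    have him : 1 / 2 ≤ (g • z).im := by
      have := ModularGroup.three_le_four_mul_im_sq_of_mem_fd hg
      nlinarith [(g • z).im_pos]
    set c : SL(2, ℤ) ⧸ Gamma0 N := (g : SL(2, ℤ) ⧸ Gamma0 N) with hcdef
    have hγ : (Quotient.out c)⁻¹ * g ∈ Gamma0 N :=
      QuotientGroup.eq.mp (QuotientGroup.out_eq' c)
    obtain ⟨c', hc're, hc'⟩ := hinv _ ((Gamma0 N).inv_mem hγ)
    have hz : ((Quotient.out c)⁻¹ * g)⁻¹ • (δof c • (g • z)) = z := by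
      simp only [δof, mul_inv_rev, inv_inv, mul_smul, smul_inv_smul, inv_smul_smul]
    have h1 := hc' (δof c • (g • z))
    rw [hz] at h1
    have hre : (A z).re = (A (δof c • (g • z))).re := by
      have := congrArg Complex.re h1
      simp only [Complex.sub_re] at this
      linarith
    have hnorm : ‖cexp (A z)‖ = ‖cexp (A (δof c • (g • z)))‖ := by
      rw [Complex.norm_exp, Complex.norm_exp, hre]
    rw [hnorm, ← heq]
    have hmem : Function.Periodic.qParam (N : ℝ) ((g • z : ℍ) : ℂ) ∈ Metric.closedBall (0 : ℂ) r := by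
      rw [mem_closedBall_zero_iff]
      exact injCore_norm_qParam_le hNpos him
    exact (hqmax (δof c) hmem).trans (hc₀ c)
  -- max on the open ball
  have hmaxball : IsMaxOn (norm ∘ Et (δof c₀)) (Metric.ball 0 1) (qmax (δof c₀)) := by
    intro q hq
    show ‖Et (δof c₀) q‖ ≤ ‖Et (δof c₀) (qmax (δof c₀))‖
    by_cases hq0 : q = 0
    · subst hq0
      exact hqmax _ (Metric.mem_closedBall_self hr0)
    · have him := Function.Periodic.im_invQParam_pos_of_norm_lt_one hNpos
        (mem_ball_zero_iff.mp hq) hq0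
      have h2 := heq (δof c₀) ⟨_, him⟩
      rw [UpperHalfPlane.coe_mk, Function.Periodic.qParam_right_inv hNpos.ne' hq0] at h2
      rw [h2]
      exact hbound _
  have hconst := Complex.eq_const_of_exists_max (hdiff (δof c₀))
    (Metric.closedBall_subset_ball hr1 (hqmem _)) hmaxball
  refine ⟨Et (δof c₀) (qmax (δof c₀)), fun z => ?_⟩
  have h3 := heq (δof c₀) ((δof c₀)⁻¹ • z)
  rw [smul_inv_smul] at h3
  rw [← h3]
  refine hconst ?_
  rw [mem_ball_zero_iff]
  exact Function.Periodic.norm_qParam_lt_one hNpos (UpperHalfPlane.im_pos _)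

/-- **Core of the injectivity argument.** A holomorphic function on `ℍ` whose real part is
`Γ₀(N)`-invariant and which has a limit at every cusp has vanishing derivative. -/
theorem injCore_deriv_eq_zero [NeZero N]
    (hol : ∀ τ : ℍ, DifferentiableAt ℂ (A ∘ ofComplex) (τ : ℂ))
    (hinv : ∀ γ ∈ Gamma0 N, ∃ c : ℂ, c.re = 0 ∧ ∀ z : ℍ, A (γ • z) - A z = c)
    (hcusp : ∀ δ : SL(2, ℤ), ∃ L : ℂ, Tendsto (fun w : ℍ => A (δ • w)) atImInfty (𝓝 L))
    (τ : ℍ) : deriv (A ∘ ofComplex) (τ : ℂ) = 0 := by
  obtain ⟨K, hK⟩ := injCore_exp_const (injCore_mdiff_of_differentiableAt hol) hinv hcusp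
  have h1 : (fun z : ℂ => cexp ((A ∘ ofComplex) z)) =ᶠ[𝓝 (τ : ℂ)] fun _ => K := by
    have hopen : {z : ℂ | 0 < z.im} ∈ 𝓝 (τ : ℂ) :=
      isOpen_upperHalfPlaneSet.mem_nhds τ.im_pos
    filter_upwards [hopen] with z hz
    simp only [Function.comp_apply]
    exact hK _
  have h2 : deriv (fun z : ℂ => cexp ((A ∘ ofComplex) z)) (τ : ℂ) = 0 := by
    rw [h1.deriv_eq]
    simp
  have h3 : HasDerivAt (fun z : ℂ => cexp ((A ∘ ofComplex) z))
      (cexp ((A ∘ ofComplex) (τ : ℂ)) * deriv (A ∘ ofComplex) (τ : ℂ)) (τ : ℂ) :=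
    (hol τ).hasDerivAt.cexp
  rw [h3.deriv] at h2
  exact (mul_eq_zero.mp h2).resolve_left (Complex.exp_ne_zero _)

end core

end Fermat.Agent.S21.H81

end
-- ===== PACK-END S21/H81/InjCore.lean

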