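import Mathlib
import Fermat.Prelude.Def_CuspForm_HeckeGaloisRepDatum
import Fermat.Prelude.Def_EllipticCurve_FrobeniusTrace
import Fermat.Prelude.Def_CuspForm_HeckeAlgebra
import Fermat.Statements.S22
import Fermat.Prelude.Thm_ModularForm_sturm_bound_Gamma0
import Fermat.Prelude.Thm_CongruenceSubgroup_one_mem_strictPeriods_Gamma0
import Fermat.Prelude.Def_ModularCurve_ArithmeticGalois
import Fermat.Prelude.Def_FLTPrelim_Ramification
import Mathlib.NumberTheory.ModularForms.QExpansion
import Mathlib.RingTheory.LaurentSeries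
import Mathlib.NumberTheory.ModularForms.LevelOne.GradedRing
import Mathlib.NumberTheory.ModularForms.Derivative
import Fermat.Prelude.Def_AlgebraicCurve_Correspondence

-- ===== PACK-BEGIN S30/H990/Sat.lean
section
/-
S30 top glue (helper990): pure algebra, part 2: saturation of a submodule of a torsion-free module
and the rank of the saturation of a free submodule.
-/


set_option autoImplicit false

namespace Fermat.Agent.S30.H990

open Module

section Sat

variable {R M : Type*} [CommRing R] [IsDomain R] [AddCommGroup M] [Module R M]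

/-- The saturation of a submodule: all `m` some nonzero multiple of which lies in `N`. -/
def sat (N : Submodule R M) : Submodule R M where
  carrier := {m | ∃ r : R, r ≠ 0 ∧ r • m ∈ N}
  zero_mem' := ⟨1, one_ne_zero, by simp⟩
  add_mem' := by
    rintro x y ⟨r, hr, hx⟩ ⟨s, hs, hy⟩
    refine ⟨r * s, mul_ne_zero hr hs, ?_⟩
    rw [smul_add]
    refine N.add_mem ?_ ?_
    · rw [mul_comm, mul_smul]; exact N.smul_mem s hx
    · rw [mul_smul]; exact N.smul_mem r hy
  smul_mem' := by
    rintro c x ⟨r, hr, hx⟩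
    exact ⟨r, hr, by rw [smul_comm]; exact N.smul_mem c hx⟩

theorem mem_sat {N : Submodule R M} {m : M} : m ∈ sat N ↔ ∃ r : R, r ≠ 0 ∧ r • m ∈ N := Iff.rfl

theorem le_sat (N : Submodule R M) : N ≤ sat N := fun x hx => ⟨1, one_ne_zero, by simpa using hx⟩

/-- The saturation is saturated. -/
theorem mem_sat_of_smul_mem {N : Submodule R M} {r : R} (hr : r ≠ 0) {m : M}
    (h : r • m ∈ sat N) : m ∈ sat N := by
  obtain ⟨s, hs, hm⟩ := h
  exact ⟨s * r, mul_ne_zero hs hr, by rwa [mul_smul]⟩

/-- A linear map sending `N` into `sat N` preserves `sat N`. -/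
theorem map_mem_sat {N : Submodule R M} (f : M →ₗ[R] M) (hf : ∀ x ∈ N, f x ∈ sat N)
    {m : M} (hm : m ∈ sat N) : f m ∈ sat N := by
  obtain ⟨r, hr, hrm⟩ := hm
  have := hf _ hrm
  rw [map_smul] at this
  exact mem_sat_of_smul_mem hr this

/-- To check that `f` maps `span s` into `sat (span s)` it suffices to check generators. -/
theorem map_span_le_sat {s : Set M} (f : M →ₗ[R] M) (hf : ∀ x ∈ s, f x ∈ sat (Submodule.span R s))
    {x : M} (hx : x ∈ Submodule.span R s) : f x ∈ sat (Submodule.span R s) := by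
  induction hx using Submodule.span_induction with
  | mem x hx => exact hf x hx
  | zero => rw [map_zero]; exact Submodule.zero_mem _
  | add x y _ _ hx hy => rw [map_add]; exact Submodule.add_mem _ hx hy
  | smul a x _ hx => rw [map_smul]; exact Submodule.smul_mem _ a hx

/-- A finitely generated submodule of `sat N` is carried into `N` by a single nonzero scalar. -/
theorem exists_smul_le_of_fg {N : Submodule R M} {P : Submodule R M} (hP : P.FG) (hle : P ≤ sat N) :
    ∃ r : R, r ≠ 0 ∧ ∀ x ∈ P, r • x ∈ N := by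
  classical
  obtain ⟨S, rfl⟩ := hP
  induction S using Finset.induction_on with
  | empty =>
    refine ⟨1, one_ne_zero, fun x hx => ?_⟩
    simp only [Finset.coe_empty, Submodule.span_empty, Submodule.mem_bot] at hx
    rw [hx, smul_zero]; exact N.zero_mem
  | insert a S _ ih =>
    have hS : Submodule.span R (S : Set M) ≤ sat N :=
      (Submodule.span_mono (by simp)).trans hle
    obtain ⟨r, hr, hrS⟩ := ih hS
    have ha : a ∈ sat N := hle (Submodule.subset_span (by simp))
    obtain ⟨s, hs, hsa⟩ := ha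
    refine ⟨r * s, mul_ne_zero hr hs, fun x hx => ?_⟩
    rw [Finset.coe_insert, Submodule.mem_span_insert] at hx
    obtain ⟨c, y, hy, rfl⟩ := hx
    rw [smul_add]
    refine N.add_mem ?_ ?_
    · rw [smul_comm, mul_smul]
      exact N.smul_mem _ (N.smul_mem _ hsa)
    · rw [mul_comm, mul_smul]
      exact N.smul_mem _ (hrS y hy)

end Sat

section Rank

variable {R M : Type*} [CommRing R] [IsDomain R] [IsPrincipalIdealRing R]
  [AddCommGroup M] [Module R M] [Module.Finite R M] [Module.Free R M]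

/-- The saturation of the span of a linearly independent family of `n` vectors is free of
rank `n`. -/
theorem finrank_sat_span {n : ℕ} (v : Fin n → M) (hv : LinearIndependent R v) :
    Module.finrank R (sat (Submodule.span R (Set.range v))) = n := by
  set N := Submodule.span R (Set.range v) with hN
  set Λ := sat N with hΛ
  have hvN : ∀ i, v i ∈ N := fun i => Submodule.subset_span (Set.mem_range_self i)
  apply le_antisymm
  · -- upper bound
    have hfg : Λ.FG := IsNoetherian.noetherian Λ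
    obtain ⟨r, hr, hrΛ⟩ := exists_smul_le_of_fg hfg (le_refl Λ)
    let f : Λ →ₗ[R] N :=
      { toFun := fun x => ⟨r • (x : M), hrΛ x x.2⟩
        map_add' := fun x y => by ext; simp [smul_add]
        map_smul' := fun c x => by ext; simp [smul_comm r c] }
    have hf : Function.Injective f := by
      intro x y hxy
      have : r • (x : M) = r • (y : M) := congrArg Subtype.val hxy
      exact Subtype.ext (smul_right_injective M hr this)
    have h1 := LinearMap.finrank_le_finrank_of_injective hf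
    have h2 : Module.finrank R N = n := by
      rw [hN, finrank_span_eq_card hv, Fintype.card_fin]
    omega
  · -- lower bound
    let v' : Fin n → Λ := fun i => ⟨v i, le_sat N (hvN i)⟩
    have hv' : LinearIndependent R v' := by
      apply LinearIndependent.of_comp Λ.subtype
      exact hv
    have := hv'.fintype_card_le_finrank
    simpa using this

end Rank

end Fermat.Agent.S30.H990

end
-- ===== PACK-END S30/H990/Sat.lean

-- ===== PACK-BEGIN S30/H990/Interface.lean
section
/-
S30 top glue (helper990): interface.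

`ChebWeak`       : weak qualitative Chebotarev (hypothesis, to be supplied by the CHEB library).
`AdicEigenModule`: the output expected from the Galois tower for an eigencharacter `χ`:
                   a nonzero finite free `𝒪`-module with continuous Galois action, unramified
                   outside `N p`, on which Frobenius elements satisfy the Eichler–Shimura relation.
-/


set_option autoImplicit false

namespace Fermat.Agent.S30.H990

/-- The absolute Galois group of `ℚ`. -/
abbrev GQ : Type := AlgebraicClosure ℚ ≃ₐ[ℚ] AlgebraicClosure ℚ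

/-- Weak qualitative Chebotarev: for every finite subextension `L`, every `σ` and every finite set
`T` of primes there is a Frobenius element `τ` at a prime `ℓ ∉ T` such that `σ` agrees on `L`
with a power of `τ`.  (The usual qualitative Chebotarev theorem gives `j = 1`.) -/
def ChebWeak : Prop :=
  ∀ L : IntermediateField ℚ (AlgebraicClosure ℚ), FiniteDimensional ℚ L →
    ∀ (σ : GQ) (T : Finset ℕ),
      ∃ ℓ : ℕ, ℓ.Prime ∧ ℓ ∉ T ∧
        ∃ A : ValuationSubring (AlgebraicClosure ℚ), A.LiesOverPrime ℓ ∧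
          ∃ τ : GQ, A.IsFrobeniusAt τ ℓ ∧ ∃ j : ℕ, ∀ x ∈ L, σ x = (τ ^ j) x

/-- The adic eigenmodule attached to an eigencharacter `χ` of the Hecke algebra away from `S`. -/
structure AdicEigenModule (p N : ℕ) [NeZero N] (S : Finset ℕ)
    (𝒪 : Type) [CommRing 𝒪] [IsLocalRing 𝒪]
    (χ : CuspForm.heckeAlgebra N 2 (↑S : Set ℕ) →+* 𝒪) : Type 1 where
  M : Type
  [instAddCommGroup : AddCommGroup M]
  [instModule : Module 𝒪 M]
  [instFree : Module.Free 𝒪 M]
  [instFinite : Module.Finite 𝒪 M]
  [instNontrivial : Nontrivial M]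
  ρ : GQ →* Module.End 𝒪 M
  cont : GaloisActionIsAdicContinuous 𝒪 ρ
  unram : ∀ q : ℕ, q.Prime → ¬ q ∣ N → q ≠ p →
    ∀ P : ValuationSubring (AlgebraicClosure ℚ), P.LiesOverPrime q →
      ∀ σ ∈ P.inertiaSubgroupIn ℚ, ρ σ = 1
  frob : ∀ (ℓ : ℕ) (hℓ : ℓ.Prime) (hℓN : ¬ ℓ ∣ N) (hℓS : ℓ ∉ (↑S : Set ℕ)),
    ∀ A : ValuationSubring (AlgebraicClosure ℚ), A.LiesOverPrime ℓ →
      ∀ σ : GQ, A.IsFrobeniusAt σ ℓ →
        ρ σ * ρ σ - χ (CuspForm.heckeAlgebra.T hℓ hℓN hℓS) • ρ σ + (ℓ : 𝒪) • 1 = 0

attribute [instance] AdicEigenModule.instAddCommGroup AdicEigenModule.instModule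
  AdicEigenModule.instFree AdicEigenModule.instFinite AdicEigenModule.instNontrivial

/-- The tower hypothesis: every eigencharacter has an adic eigenmodule. -/
def HasAdicEigenModules : Prop :=
  ∀ (p : ℕ) [Fact p.Prime] (N : ℕ) [NeZero N] (S : Finset ℕ)
    (_hpS : p ∈ S) (_hNS : ∀ q : ℕ, q.Prime → q ∣ N → q ∈ S)
    (𝒪' : Type) [CommRing 𝒪'] [IsDomain 𝒪'] [IsDiscreteValuationRing 𝒪']
    [IsAdicComplete (IsLocalRing.maximalIdeal 𝒪') 𝒪'] [Finite (IsLocalRing.ResidueField 𝒪')]
    [CharZero 𝒪'] (_hp𝒪' : (p : 𝒪') ∈ IsLocalRing.maximalIdeal 𝒪')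
    (χ : CuspForm.heckeAlgebra N 2 (↑S : Set ℕ) →+* 𝒪'),
    Nonempty (AdicEigenModule p N S 𝒪' χ)

end Fermat.Agent.S30.H990

end
-- ===== PACK-END S30/H990/Interface.lean

-- ===== PACK-BEGIN Lib/Cheb/Spec.lean
section



/-!
# Shared library CHEB — frozen interface statements

Tier 1 ("FROB", Frobenius' density theorem, qualitative): every `σ ∈ Gal(ℚ̄/ℚ)` generates, on any
finite extension, the same cyclic group as some Frobenius element at a prime outside a given
finite set.  Needs only the simple pole of Dedekind zeta functions.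

Tier 2 (exact qualitative Chebotarev): `σ` itself is a Frobenius.  Needs Dirichlet `L`-series
over number fields (statement `CycStatement`).

All blocks prove one of the `Prop`s below, e.g. `theorem primeSum : Spec.PrimeSumStatement`.
Plan, owners, status: `coord/CHEB.md` on branch `origin/helper993`.
-/

set_option autoImplicit false

open NumberField
open scoped Pointwise

namespace Fermat.Agent.Lib.Cheb.Spec

/-- `ℚ̄`. -/
abbrev Qb : Type := AlgebraicClosure ℚ

/-- `Gal(ℚ̄/ℚ)`. -/
abbrev GQ : Type := Qb ≃ₐ[ℚ] Qb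

/-- Number of prime ideals of `𝓞 F` of absolute norm `p` (the degree-one primes above `p`). -/
noncomputable def primeCount (F : Type) [Field F] [NumberField F] (p : ℕ) : ℕ :=
  Nat.card {𝔮 : Ideal (𝓞 F) // 𝔮.IsPrime ∧ Ideal.absNorm 𝔮 = p}

/-- The decomposition group of a prime `P` of `𝓞 L` in `Gal(L/ℚ)`. -/
abbrev decomp (L : Type) [Field L] [NumberField L] (P : Ideal (𝓞 L)) :
    Subgroup (L ≃ₐ[ℚ] L) :=
  MulAction.stabilizer (L ≃ₐ[ℚ] L) P

/-- The primes `P` of `𝓞 L` above `p` whose decomposition group is contained in `H`. -/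
def primesLe (L : Type) [Field L] [NumberField L] (H : Subgroup (L ≃ₐ[ℚ] L)) (p : ℕ) :
    Set (Ideal (𝓞 L)) :=
  {P | P.IsPrime ∧ (p : 𝓞 L) ∈ P ∧ decomp L P ≤ H}

/-- `∑_{P ∣ p, D_P ≤ H} |D_P|`. -/
noncomputable def decompWeight (L : Type) [Field L] [NumberField L]
    (H : Subgroup (L ≃ₐ[ℚ] L)) (p : ℕ) : ℕ :=
  ∑ᶠ P : primesLe L H p, Nat.card (decomp L P.1)

/-- The inertia group of `P` is trivial. -/
def InertiaTrivial (L : Type) [Field L] [NumberField L] (P : Ideal (𝓞 L)) : Prop :=
  ∀ ι : L ≃ₐ[ℚ] L, (∀ x : 𝓞 L, ι • x - x ∈ P) → ι = 1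

/-! ## Tier 1 -/

/-- (Z) = F1 = W1: prime sums of degree-one primes, any number field. -/
def PrimeSumStatement : Prop :=
  ∀ (F : Type) [Field F] [NumberField F], ∃ C : ℝ, ∀ s : ℝ, 1 < s → s ≤ 2 →
    |(∑' p : Nat.Primes, (primeCount F p : ℝ) * (p : ℝ) ^ (-s)) - Real.log (1 / (s - 1))| ≤ C

/-- (B0): at most `[F:ℚ]` primes of norm `p`. -/
def PrimeCountBoundStatement : Prop :=
  ∀ (F : Type) [Field F] [NumberField F] (p : ℕ), primeCount F p ≤ Module.finrank ℚ F

/-- (A) = F2+F3: degree-one primes of the fixed field `L^H` versus decomposition groups. -/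
def CountStatement : Prop :=
  ∀ (L : Type) [Field L] [NumberField L] [IsGalois ℚ L] (H : Subgroup (L ≃ₐ[ℚ] L)),
    ∃ B : Finset ℕ, ∀ p : ℕ, p.Prime → p ∉ B →
      primeCount (IntermediateField.fixedField H) p * Nat.card H = decompWeight L H p

/-- (D) = F5: outside a finite set of primes the decomposition group is generated by an
arithmetic Frobenius and the inertia group is trivial. -/
def FrobStatement : Prop :=
  ∀ (L : Type) [Field L] [NumberField L] [IsGalois ℚ L],
    ∃ B : Finset ℕ, ∀ p : ℕ, p.Prime → p ∉ B →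
      ∀ P : Ideal (𝓞 L), P.IsPrime → (p : 𝓞 L) ∈ P →
        InertiaTrivial L P ∧
        ∃ τ : L ≃ₐ[ℚ] L, IsArithFrobAt ℤ τ P ∧ decomp L P = Subgroup.zpowers τ

/-- (M) = F4: finite-level Frobenius density theorem (qualitative). -/
def FrobFiniteStatement : Prop :=
  ∀ (L : Type) [Field L] [NumberField L] [IsGalois ℚ L] (σ : L ≃ₐ[ℚ] L) (S : Finset ℕ),
    ∃ (p : ℕ) (P : Ideal (𝓞 L)) (τ : L ≃ₐ[ℚ] L),
      p.Prime ∧ p ∉ S ∧ P.IsPrime ∧ (p : 𝓞 L) ∈ P ∧ InertiaTrivial L P ∧
      IsArithFrobAt ℤ τ P ∧ Subgroup.zpowers τ = Subgroup.zpowers σ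

/-- FROB, Prelude level: on every finite extension `E` of `ℚ` inside `ℚ̄`, `σ` and some Frobenius
element `τ` (at a prime `ℓ ∉ S`, with inertia acting trivially on `E`) are powers of each other. -/
def FrobeniusDivisionStatement : Prop :=
  ∀ (E : IntermediateField ℚ Qb), FiniteDimensional ℚ E → ∀ (σ : GQ) (S : Finset ℕ),
    ∃ (ℓ : ℕ) (A : ValuationSubring Qb) (τ : GQ) (k j : ℕ),
      ℓ.Prime ∧ ℓ ∉ S ∧ A.LiesOverPrime ℓ ∧ A.IsFrobeniusAt τ ℓ ∧
      (∀ ι ∈ A.inertiaSubgroupIn ℚ, ∀ x ∈ E, ι x = x) ∧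
      (∀ x ∈ E, τ x = (σ ^ k) x) ∧ (∀ x ∈ E, (τ ^ j) x = σ x)

/-- F6 = W5 (bridge), Tier 1. -/
def BridgeDivisionStatement : Prop :=
  FrobFiniteStatement → FrobeniusDivisionStatement

/-! ## Tier 2 -/

/-- Number of ideals of `𝓞 F` of absolute norm `n`. -/
noncomputable def idealCount (F : Type) [Field F] [NumberField F] (n : ℕ) : ℕ :=
  Nat.card {I : Ideal (𝓞 F) // Ideal.absNorm I = n}

/-- (AN) analytic core of Tier 2: for a Dirichlet character `χ` mod `m` such that `χ ∘ N` is not
trivial on the ideals of `𝓞 F` prime to `m`, the series `L_F(s, χ ∘ N) = ∑_I χ(N I) N I ^ (-s)`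
has a limit as `s → 1⁺`. -/
def DirichletLimitStatement : Prop :=
  ∀ (F : Type) [Field F] [NumberField F] (m : ℕ) [NeZero m] (χ : DirichletCharacter ℂ m),
    (∃ I : Ideal (𝓞 F), χ (Ideal.absNorm I : ZMod m) ≠ 0 ∧ χ (Ideal.absNorm I : ZMod m) ≠ 1) →
    ∃ c : ℂ, Filter.Tendsto
      (fun s : ℝ => LSeries (fun n => χ (n : ZMod m) * (idealCount F n : ℂ)) (s : ℂ))
      (nhdsWithin 1 (Set.Ioi 1)) (nhds c)

/-- (CYC) cyclotomic case, stated inside a Galois number field `L ∋ ζ_m`: if the cyclic group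
`⟨g⟩` acts faithfully on `ζ`, then `g` is an arithmetic Frobenius at a prime outside `S`. -/
def CycStatement : Prop :=
  ∀ (L : Type) [Field L] [NumberField L] [IsGalois ℚ L] (m : ℕ) (ζ : L), 0 < m →
    IsPrimitiveRoot ζ m → ∀ g : L ≃ₐ[ℚ] L, (∀ k : ℕ, (g ^ k) ζ = ζ → g ^ k = 1) →
    ∀ S : Finset ℕ, ∃ (p : ℕ) (P : Ideal (𝓞 L)),
      p.Prime ∧ p ∉ S ∧ P.IsPrime ∧ (p : 𝓞 L) ∈ P ∧ InertiaTrivial L P ∧ IsArithFrobAt ℤ g P

/-- Finite-level qualitative Chebotarev. -/
def ChebFiniteStatement : Prop :=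
  ∀ (L : Type) [Field L] [NumberField L] [IsGalois ℚ L] (σ : L ≃ₐ[ℚ] L) (S : Finset ℕ),
    ∃ (p : ℕ) (P : Ideal (𝓞 L)),
      p.Prime ∧ p ∉ S ∧ P.IsPrime ∧ (p : 𝓞 L) ∈ P ∧ InertiaTrivial L P ∧ IsArithFrobAt ℤ σ P

/-- (CROSS) field crossing (may use (D) to discard ramified primes). -/
def CrossStatement : Prop :=
  FrobStatement → CycStatement → ChebFiniteStatement

/-- Qualitative Chebotarev, Prelude level. -/
def ChebotarevStatement : Prop :=
  ∀ (E : IntermediateField ℚ Qb), FiniteDimensional ℚ E → ∀ (σ : GQ) (S : Finset ℕ),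
    ∃ (ℓ : ℕ) (A : ValuationSubring Qb) (τ : GQ),
      ℓ.Prime ∧ ℓ ∉ S ∧ A.LiesOverPrime ℓ ∧ A.IsFrobeniusAt τ ℓ ∧
      (∀ ι ∈ A.inertiaSubgroupIn ℚ, ∀ x ∈ E, ι x = x) ∧ (∀ x ∈ E, τ x = σ x)

/-- Bridge, Tier 2. -/
def BridgeStatement : Prop :=
  ChebFiniteStatement → ChebotarevStatement

end Fermat.Agent.Lib.Cheb.Spec

end
-- ===== PACK-END Lib/Cheb/Spec.lean

-- ===== PACK-BEGIN A2/H129/GaussTwice.lean
section


/-!
# A2 / K2 (abstract part): applying `τ - 1` twice makes a function `≡ 1` along every component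

Pure valuation theory, Mathlib only.

`F` is a field (in the application: the function field `Q̄(X₀(N))`), `Kc` the subfield of
constants, `V` a valuation subring of `F` (a Gauss valuation = a component of the special fibre),
`τ` a ring automorphism of `F` (the action of an element of the inertia group through the
coefficients).

* `InInertia V τ` : `τ` acts trivially on the residue field of `V`
  (`v (τ u - u) < 1` for all `u` with `v u ≤ 1`).
* `HasConstValues Kc V` : every nonzero `f` is a constant times a unit of `V`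
  (the value group of `V` is the value group of the constants).
* `PreservesConstValues Kc V τ` : `τ c / c` is a unit of `V` for every nonzero constant `c`.

Main results (multiplicative notation: `tauSubOne τ f = τ f / f`):

* `oneAddNonunits_tauSubOne` : `u` unit of `V` ⟹ `τ u / u ∈ 1 + 𝔪_V`.
* `exists_const_twice` : for every `f ≠ 0` there is a constant `c ≠ 0` with
  `(τ - 1)² f / c ∈ 1 + 𝔪_V`.
* `exists_const_twice_two` : the same for two valuation subrings `V∞`, `V₀`
  SIMULTANEOUSLY (one constant `c` for both).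
* `exists_const_once_two` : `(τ - 1) f / c ∈ 1 + 𝔪_{V∞}` and `(τ - 1) f / (c c') ∈ 1 + 𝔪_{V₀}` with a
  constant `c'` which is a unit of `V₀`.
-/

set_option autoImplicit false

namespace Fermat.Agent.A2.H129

variable {F : Type*} [Field F]

/-- `u` is a unit of the valuation subring `V`. -/
def IsUnitOf (V : ValuationSubring F) (u : F) : Prop := V.valuation u = 1

/-- `g ∈ 1 + 𝔪_V`. -/
def OneAddNonunits (V : ValuationSubring F) (g : F) : Prop := V.valuation (g - 1) < 1

/-- `τ` acts trivially on the residue field of `V` (and hence maps `V` to itself). -/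
def InInertia (V : ValuationSubring F) (τ : F ≃+* F) : Prop :=
  ∀ u : F, V.valuation u ≤ 1 → V.valuation (τ u - u) < 1

/-- every nonzero element of `F` is a constant times a unit of `V`. -/
def HasConstValues (Kc : Subfield F) (V : ValuationSubring F) : Prop :=
  ∀ f : F, f ≠ 0 → ∃ c ∈ Kc, c ≠ 0 ∧ IsUnitOf V (f * c⁻¹)

/-- `τ` preserves the valuation of the constants. -/
def PreservesConstValues (Kc : Subfield F) (V : ValuationSubring F) (τ : F ≃+* F) : Prop :=
  ∀ c ∈ Kc, c ≠ 0 → IsUnitOf V (τ c * c⁻¹)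

/-- the multiplicative version of `τ - 1`. -/
def tauSubOne (τ : F ≃+* F) (f : F) : F := τ f * f⁻¹

section basic

variable {V : ValuationSubring F} {τ : F ≃+* F}

theorem IsUnitOf.ne_zero {u : F} (hu : IsUnitOf V u) : u ≠ 0 := by
  rintro rfl
  simp [IsUnitOf] at hu

theorem IsUnitOf.mul {u w : F} (hu : IsUnitOf V u) (hw : IsUnitOf V w) : IsUnitOf V (u * w) := by
  simp only [IsUnitOf, map_mul] at *
  rw [hu, hw, one_mul]

theorem IsUnitOf.inv {u : F} (hu : IsUnitOf V u) : IsUnitOf V u⁻¹ := by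
  simp only [IsUnitOf, map_inv₀] at *
  rw [hu, inv_one]

theorem OneAddNonunits.isUnitOf {g : F} (hg : OneAddNonunits V g) : IsUnitOf V g := by
  have h1 : V.valuation (1 : F) = 1 := map_one _
  have h : V.valuation (1 + (g - 1)) = V.valuation (1 : F) :=
    Valuation.map_add_eq_of_lt_left _ (by rw [h1]; exact hg)
  have e : (1 : F) + (g - 1) = g := by ring
  rw [e, h1] at h
  exact h

theorem OneAddNonunits.one : OneAddNonunits V (1 : F) := by
  simp [OneAddNonunits]

theorem OneAddNonunits.mul {g h : F} (hg : OneAddNonunits V g) (hh : OneAddNonunits V h) :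
    OneAddNonunits V (g * h) := by
  have e : g * h - 1 = (g - 1) * h + (h - 1) := by ring
  have hh1 : V.valuation h = 1 := hh.isUnitOf
  have h1 : V.valuation ((g - 1) * h) < 1 := by
    rw [map_mul, hh1, mul_one]; exact hg
  unfold OneAddNonunits at *
  rw [e]
  exact lt_of_le_of_lt (Valuation.map_add _ _ _) (max_lt h1 hh)

theorem OneAddNonunits.inv {g : F} (hg : OneAddNonunits V g) : OneAddNonunits V g⁻¹ := by
  have hg1 : V.valuation g = 1 := hg.isUnitOf
  have hg0 : g ≠ 0 := (hg.isUnitOf).ne_zero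
  have e : g⁻¹ - 1 = -((g - 1) * g⁻¹) := by field_simp; ring
  unfold OneAddNonunits at *
  rw [e, Valuation.map_neg, map_mul, map_inv₀, hg1, inv_one, mul_one]
  exact hg

/-- `τ` maps units of `V` to units of `V`. -/
theorem InInertia.isUnitOf (hτ : InInertia V τ) {u : F} (hu : IsUnitOf V u) :
    IsUnitOf V (τ u) := by
  have h := hτ u (le_of_eq hu)
  have h' : V.valuation (u + (τ u - u)) = V.valuation u :=
    Valuation.map_add_eq_of_lt_left _ (by rw [hu]; exact h)
  have e : u + (τ u - u) = τ u := by ring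
  rw [e] at h'
  exact h'.trans hu

/-- **Lemma B.** For a unit `u` of `V`, `τ u / u ∈ 1 + 𝔪_V`. -/
theorem oneAddNonunits_tauSubOne (hτ : InInertia V τ) {u : F} (hu : IsUnitOf V u) :
    OneAddNonunits V (tauSubOne τ u) := by
  have hu0 : u ≠ 0 := hu.ne_zero
  have e : tauSubOne τ u - 1 = (τ u - u) * u⁻¹ := by
    unfold tauSubOne; field_simp
  unfold OneAddNonunits
  rw [e, map_mul, map_inv₀, hu, inv_one, mul_one]
  exact hτ u (le_of_eq hu)

theorem tauSubOne_mul (τ : F ≃+* F) (f g : F) :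
    tauSubOne τ (f * g) = tauSubOne τ f * tauSubOne τ g := by
  unfold tauSubOne
  rw [map_mul, mul_inv]
  ring

theorem tauSubOne_inv (τ : F ≃+* F) (f : F) :
    tauSubOne τ f⁻¹ = (tauSubOne τ f)⁻¹ := by
  unfold tauSubOne
  rw [map_inv₀, mul_inv]

theorem tauSubOne_ne_zero (τ : F ≃+* F) {f : F} (hf : f ≠ 0) : tauSubOne τ f ≠ 0 := by
  unfold tauSubOne
  exact mul_ne_zero (by simpa using hf) (inv_ne_zero hf)

theorem tauSubOne_mem (Kc : Subfield F) (hK : ∀ c ∈ Kc, τ c ∈ Kc) {c : F} (hc : c ∈ Kc) :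
    tauSubOne τ c ∈ Kc :=
  Kc.mul_mem (hK c hc) (Kc.inv_mem hc)

end basic

section main

variable {Kc : Subfield F} {τ : F ≃+* F}

/-- **One valuation.** For every `f ≠ 0` there is a constant `c ≠ 0` such that
`(τ - 1) f / c ∈ 1 + 𝔪_V`. -/
theorem exists_const_once {V : ValuationSubring F}
    (hK : ∀ c ∈ Kc, τ c ∈ Kc) (hV : HasConstValues Kc V) (hτ : InInertia V τ)
    {f : F} (hf : f ≠ 0) :
    ∃ c ∈ Kc, c ≠ 0 ∧ OneAddNonunits V (tauSubOne τ f * c⁻¹) := by
  obtain ⟨c, hc, hc0, hu⟩ := hV f hf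
  refine ⟨tauSubOne τ c, tauSubOne_mem Kc hK hc, tauSubOne_ne_zero τ hc0, ?_⟩
  have e : tauSubOne τ f * (tauSubOne τ c)⁻¹ = tauSubOne τ (f * c⁻¹) := by
    rw [tauSubOne_mul, tauSubOne_inv]
  rw [e]
  exact oneAddNonunits_tauSubOne hτ hu

/-- **Two valuations, once.**  For every `f ≠ 0` there are constants `c`, `c'` with
`(τ-1) f / c ∈ 1 + 𝔪_{V₁}`, `(τ-1) f / (c c') ∈ 1 + 𝔪_{V₀}`, and `c'` a unit of `V₀`. -/
theorem exists_const_once_two {V₁ V₀ : ValuationSubring F}
    (hK : ∀ c ∈ Kc, τ c ∈ Kc)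
    (hV₁ : HasConstValues Kc V₁) (hτ₁ : InInertia V₁ τ)
    (hV₀ : HasConstValues Kc V₀) (hτ₀ : InInertia V₀ τ)
    (hP₀ : PreservesConstValues Kc V₀ τ)
    {f : F} (hf : f ≠ 0) :
    ∃ c ∈ Kc, c ≠ 0 ∧ ∃ c' ∈ Kc, IsUnitOf V₀ c' ∧
      OneAddNonunits V₁ (tauSubOne τ f * c⁻¹) ∧
      OneAddNonunits V₀ (tauSubOne τ f * c⁻¹ * c'⁻¹) := by
  obtain ⟨c, hc, hc0, hu⟩ := hV₁ f hf
  have hfc : f * c⁻¹ ≠ 0 := hu.ne_zero
  obtain ⟨d, hd, hd0, hud⟩ := hV₀ (f * c⁻¹) hfc
  refine ⟨tauSubOne τ c, tauSubOne_mem Kc hK hc, tauSubOne_ne_zero τ hc0,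
    tauSubOne τ d, tauSubOne_mem Kc hK hd, hP₀ d hd hd0, ?_, ?_⟩
  · have e : tauSubOne τ f * (tauSubOne τ c)⁻¹ = tauSubOne τ (f * c⁻¹) := by
      rw [tauSubOne_mul, tauSubOne_inv]
    rw [e]
    exact oneAddNonunits_tauSubOne hτ₁ hu
  · have e : tauSubOne τ f * (tauSubOne τ c)⁻¹ * (tauSubOne τ d)⁻¹
        = tauSubOne τ (f * c⁻¹ * d⁻¹) := by
      rw [tauSubOne_mul, tauSubOne_mul, tauSubOne_inv, tauSubOne_inv]
    rw [e]
    exact oneAddNonunits_tauSubOne hτ₀ hud

/-- **Two valuations, twice (K2).**  For every `f ≠ 0` there is ONE constant `c ≠ 0` such that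
`(τ - 1)² f / c` lies in `1 + 𝔪_{V₁}` and in `1 + 𝔪_{V₀}`. -/
theorem exists_const_twice_two {V₁ V₀ : ValuationSubring F}
    (hK : ∀ c ∈ Kc, τ c ∈ Kc)
    (hV₁ : HasConstValues Kc V₁) (hτ₁ : InInertia V₁ τ)
    (hV₀ : HasConstValues Kc V₀) (hτ₀ : InInertia V₀ τ)
    (hP₀ : PreservesConstValues Kc V₀ τ)
    {f : F} (hf : f ≠ 0) :
    ∃ c ∈ Kc, c ≠ 0 ∧
      OneAddNonunits V₁ (tauSubOne τ (tauSubOne τ f) * c⁻¹) ∧
      OneAddNonunits V₀ (tauSubOne τ (tauSubOne τ f) * c⁻¹) := by
  obtain ⟨c, hc, hc0, c', hc', hu', h₁, h₀⟩ :=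
    exists_const_once_two hK hV₁ hτ₁ hV₀ hτ₀ hP₀ hf
  have hc'0 : c' ≠ 0 := hu'.ne_zero
  -- `g₁ := (τ-1) f / c ∈ 1 + 𝔪_{V₁}`, and `g₁ / c' ∈ 1 + 𝔪_{V₀}`
  refine ⟨tauSubOne τ c, tauSubOne_mem Kc hK hc, tauSubOne_ne_zero τ hc0, ?_, ?_⟩
  · have e : tauSubOne τ (tauSubOne τ f) * (tauSubOne τ c)⁻¹
        = tauSubOne τ (tauSubOne τ f * c⁻¹) := by
      rw [tauSubOne_mul, tauSubOne_inv]
    rw [e]
    exact oneAddNonunits_tauSubOne hτ₁ h₁.isUnitOf
  · have e : tauSubOne τ (tauSubOne τ f) * (tauSubOne τ c)⁻¹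
        = tauSubOne τ (tauSubOne τ f * c⁻¹ * c'⁻¹) * tauSubOne τ c' := by
      rw [tauSubOne_mul, tauSubOne_mul, tauSubOne_inv, tauSubOne_inv]
      have : tauSubOne τ c' ≠ 0 := tauSubOne_ne_zero τ hc'0
      field_simp
    rw [e]
    exact (oneAddNonunits_tauSubOne hτ₀ h₀.isUnitOf).mul (oneAddNonunits_tauSubOne hτ₀ hu')

end main

end Fermat.Agent.A2.H129

end
-- ===== PACK-END A2/H129/GaussTwice.lean

-- ===== PACK-BEGIN S31/H22/SSAlg.lean
section



/-!
# S31 piece SS, algebraic half (helper22): anisotropic Hecke-symmetric pairing ⟹ reduced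

`PeterssonData N` is the ONLY thing the analytic owners of piece SS have to deliver:
a biadditive pairing `B` on `S₂(Γ₀(N))` with `B f f = 0 → f = 0` for which every `T_ℓ` (`ℓ ∤ N`)
is symmetric.  (No linearity over `ℂ`, no positivity, no conjugate symmetry is needed.)

`isReduced_of_petersson` : `PeterssonData N` ⟹ `IsReduced (heckeAlgebra N 2 S)` whenever `S` contains
the primes dividing `N`.
-/

set_option autoImplicit false

namespace Fermat.Agent.S31.H22

/-- The interface of the analytic part of SS. -/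
structure PeterssonData (N : ℕ) [NeZero N] where
  /-- the pairing (e.g. the Petersson inner product) -/
  B : CuspForm (CongruenceSubgroup.Gamma0 N) 2 →+ CuspForm (CongruenceSubgroup.Gamma0 N) 2 →+ ℂ
  /-- anisotropy -/
  definite : ∀ f, B f f = 0 → f = 0
  /-- `T_ℓ` is symmetric for `ℓ ∤ N` -/
  symm_T : ∀ (ℓ : ℕ) (hℓ : ℓ.Prime) (hℓN : ¬ ℓ ∣ N)
    (f g : CuspForm (CongruenceSubgroup.Gamma0 N) 2),
    B (CuspForm.heckeTLin 2 hℓ hℓN f) g = B f (CuspForm.heckeTLin 2 hℓ hℓN g)

section

variable {N : ℕ} [NeZero N]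

/-- every element of the anemic Hecke algebra is symmetric for `B` -/
theorem symm_of_mem_heckeAlgebra (P : PeterssonData N) (S : Set ℕ)
    (hNS : ∀ q : ℕ, q.Prime → q ∣ N → q ∈ S)
    {t : Module.End ℂ (CuspForm (CongruenceSubgroup.Gamma0 N) 2)}
    (ht : t ∈ CuspForm.heckeAlgebra N 2 S) (f g : CuspForm (CongruenceSubgroup.Gamma0 N) 2) :
    P.B (t f) g = P.B f (t g) := by
  induction ht using Algebra.adjoin_induction generalizing f g with
  | mem x hx =>
    rcases hx with ⟨ℓ, hℓ, hℓN, -, rfl⟩ | ⟨q, hqN, hq, hqS, rfl⟩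
    · exact P.symm_T ℓ hℓ hℓN f g
    · exact absurd (hNS q hq hqN) hqS
  | algebraMap r =>
    simp only [Algebra.algebraMap_eq_smul_one, LinearMap.smul_apply, Module.End.one_apply]
    rw [map_zsmul, map_zsmul, AddMonoidHom.coe_smul, Pi.smul_apply]
  | add x y _ _ hx hy =>
    rw [LinearMap.add_apply, LinearMap.add_apply, map_add, map_add, AddMonoidHom.add_apply,
      hx, hy]
  | mul x y hxm hym hx hy =>
    have hcomm : x * y = y * x := by
      have := mul_comm (⟨x, hxm⟩ : CuspForm.heckeAlgebra N 2 S) ⟨y, hym⟩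
      exact congrArg Subtype.val this
    rw [Module.End.mul_apply, hx, hy, ← Module.End.mul_apply, hcomm]

/-- **SS from the analytic input.** -/
theorem isReduced_of_petersson (P : PeterssonData N) (S : Set ℕ)
    (hNS : ∀ q : ℕ, q.Prime → q ∣ N → q ∈ S) : IsReduced (CuspForm.heckeAlgebra N 2 S) := by
  -- a symmetric endomorphism with `y * y = 0` vanishes
  have hsq : ∀ y : Module.End ℂ (CuspForm (CongruenceSubgroup.Gamma0 N) 2),
      y ∈ CuspForm.heckeAlgebra N 2 S → y * y = 0 → y = 0 := by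
    intro y hy hyy
    refine LinearMap.ext fun f => ?_
    apply P.definite
    rw [symm_of_mem_heckeAlgebra P S hNS hy, ← Module.End.mul_apply, hyy]
    simp
  -- nilpotent elements vanish, by strong induction on the exponent
  have hnil : ∀ n : ℕ, ∀ x : Module.End ℂ (CuspForm (CongruenceSubgroup.Gamma0 N) 2),
      x ∈ CuspForm.heckeAlgebra N 2 S → x ^ n = 0 → x = 0 := by
    intro n
    induction n using Nat.strong_induction_on with
    | _ n ih =>
      intro x hx hxn
      rcases Nat.lt_or_ge n 2 with hn | hn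
      · interval_cases n
        · -- `1 = 0`
          rw [pow_zero] at hxn
          calc x = x * 1 := (mul_one x).symm
            _ = 0 := by rw [hxn, mul_zero]
        · simpa using hxn
      · -- `m = ⌈n/2⌉ < n`
        set m := (n + 1) / 2 with hm
        have hmn : m < n := by omega
        have h2m : n ≤ m + m := by omega
        have hy : x ^ m * x ^ m = 0 := by
          rw [← pow_add]
          obtain ⟨c, hc⟩ := Nat.exists_eq_add_of_le h2m
          rw [hc, pow_add, hxn, zero_mul]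
        exact ih m hmn x hx (hsq _ (Subalgebra.pow_mem _ hx m) hy)
  refine ⟨fun x hx => ?_⟩
  obtain ⟨n, hn⟩ := hx
  apply Subtype.ext
  refine hnil n x.1 x.2 ?_
  have := congrArg Subtype.val hn
  simpa using this

end

end Fermat.Agent.S31.H22

end
-- ===== PACK-END S31/H22/SSAlg.lean

-- ===== PACK-BEGIN S22/H262/EasyCases.lean
section




set_option autoImplicit false

/-!
# S22: cusp forms of weight `k ≤ 1` on `Γ₀(N)` vanish.
-/

namespace Fermat.Agent.S22.H262

open CuspForm UpperHalfPlane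
open scoped MatrixGroups

/-- Cusp forms of non-positive weight on `Γ₀(N)` vanish (Sturm bound from the prelude). -/
theorem cuspForm_eq_zero_of_nonpos {N : ℕ} [NeZero N] {k : ℤ} (hk : k ≤ 0)
    (f : CuspForm (CongruenceSubgroup.Gamma0 N) k) : f = 0 := by
  have h0 : (CuspForm.toModularFormₗ f) = 0 := by
    apply ModularForm.sturm_bound_Gamma0 N
    intro n hn
    have hz : (k * ((CongruenceSubgroup.Gamma0 N).index : ℤ)).toNat = 0 := by
      rw [Int.toNat_eq_zero]
      exact mul_nonpos_of_nonpos_of_nonneg hk (by positivity)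
    rw [hz, Nat.zero_div, Nat.le_zero] at hn
    subst hn
    exact CuspFormClass.qExpansion_coeff_zero (f := f) one_pos
      (CongruenceSubgroup.one_mem_strictPeriods_Gamma0 N)
  exact CuspForm.toModularFormₗ_injective (by rw [h0, map_zero])

/-- Cusp forms of odd weight on `Γ₀(N)` vanish, since `-1 ∈ Γ₀(N)`. -/
theorem cuspForm_eq_zero_of_odd {N : ℕ} {k : ℤ} (hk : Odd k)
    (f : CuspForm (CongruenceSubgroup.Gamma0 N) k) : f = 0 := by
  have hmem : (-1 : GL (Fin 2) ℝ) ∈
      (Subgroup.map (Matrix.SpecialLinearGroup.mapGL ℝ) (CongruenceSubgroup.Gamma0 N)) := by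
    refine ⟨-1, ?_, ?_⟩
    · simp [CongruenceSubgroup.Gamma0_mem]
    · ext i j
      simp
  have h0 : (CuspForm.toModularFormₗ f) = 0 :=
    ModularForm.eq_zero_of_neg_one_mem hmem hk _
  exact CuspForm.toModularFormₗ_injective (by rw [h0, map_zero])

/-- Cusp forms of weight `k ≤ 1` on `Γ₀(N)` vanish. -/
theorem cuspForm_eq_zero_of_le_one {N : ℕ} [NeZero N] {k : ℤ} (hk : k ≤ 1)
    (f : CuspForm (CongruenceSubgroup.Gamma0 N) k) : f = 0 := by
  rcases hk.lt_or_eq with h | h
  · exact cuspForm_eq_zero_of_nonpos (by omega) f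
  · exact cuspForm_eq_zero_of_odd (by rw [h]; exact odd_one) f

end Fermat.Agent.S22.H262

end
-- ===== PACK-END S22/H262/EasyCases.lean

-- ===== PACK-BEGIN S22/H262/Prim.lean
section


set_option autoImplicit false

/-!
# Primitive towers on the upper half plane

For a holomorphic periodic function `h` on `ℍ` vanishing at `i∞` we construct the tower
`E 0 = h`, `(E (r+1))' = E r`, with every `E (r+1)` vanishing at `i∞`, and prove uniqueness.
(The one-step primitive lemma is due to helper502.)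
-/

open Complex Filter Function Metric Set
open UpperHalfPlane hiding I
open scoped Real Topology Manifold

namespace Fermat.Agent.S22.H262

/-- One-step primitive: a holomorphic `h`-periodic function on `ℍ` that is zero at `i∞` has a
holomorphic `h`-periodic primitive that is zero at `i∞`. -/
theorem exists_primitive_isZeroAtImInfty {f : ℍ → ℂ} {h : ℝ} (hh : 0 < h)
    (hfper : Periodic (f ∘ ofComplex) h) (hfhol : MDiff f) (hfzero : IsZeroAtImInfty f) :
    ∃ F : ℍ → ℂ, Periodic (F ∘ ofComplex) h ∧ MDiff F ∧ IsZeroAtImInfty F ∧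
      ∀ τ : ℍ, HasDerivAt (F ∘ ofComplex) (f τ) (τ : ℂ) := by
  set φ := cuspFunction h f with hφ
  have hφd : DifferentiableOn ℂ φ (ball 0 1) :=
    differentiableOn_cuspFunction_ball hh hfper hfhol hfzero.isBoundedAtImInfty
  have hφ0 : φ 0 = 0 := hfzero.cuspFunction_apply_zero hh
  have hball : ball (0 : ℂ) 1 ∈ 𝓝 (0 : ℂ) := ball_mem_nhds _ one_pos
  have hψd : DifferentiableOn ℂ (dslope φ 0) (ball 0 1) :=
    (differentiableOn_dslope hball).2 hφd
  obtain ⟨Ψ, hΨ0, hΨ⟩ := (hψd.isExactOn_ball).with_val_at 0 0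
  have hq : ∀ z : ℂ, 0 < z.im → Periodic.qParam h z ∈ ball (0 : ℂ) 1 := fun z hz ↦ by
    simpa using Periodic.norm_qParam_lt_one hh hz
  -- the primitive as a function on `ℂ`
  set G : ℂ → ℂ := fun z ↦ (h / (2 * π * I)) * Ψ (Periodic.qParam h z) with hG
  have hGderiv : ∀ τ : ℍ, HasDerivAt G (f τ) (τ : ℂ) := by
    intro τ
    have hqτ := hq τ τ.im_pos
    have h1 : HasDerivAt (Periodic.qParam h) (Periodic.qParam h τ * (2 * π * I / h)) (τ : ℂ) := by
      simpa only [id_eq, mul_one] using!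
        (((hasDerivAt_id (τ : ℂ)).const_mul (2 * π * I)).div_const (h : ℂ)).cexp
    have h2 := (hΨ _ hqτ).comp (τ : ℂ) h1
    have h3 := h2.const_mul ((h : ℂ) / (2 * π * I))
    have hne : Periodic.qParam h (τ : ℂ) ≠ 0 := Periodic.qParam_ne_zero _
    have hval : (h : ℂ) / (2 * π * I) *
        (dslope φ 0 (Periodic.qParam h τ) * (Periodic.qParam h τ * (2 * π * I / h))) = f τ := by
      rw [dslope_of_ne _ hne, slope_def_field, hφ0, sub_zero, sub_zero]
      have hh' : (h : ℂ) ≠ 0 := by exact_mod_cast hh.ne'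
      have : φ (Periodic.qParam h τ) = f τ := eq_cuspFunction τ hh.ne' hfper
      rw [this]
      field_simp [two_pi_I_ne_zero]
    rw [← hval]
    exact h3
  refine ⟨fun τ ↦ G τ, ?_, ?_, ?_, ?_⟩
  · intro w
    by_cases hw : 0 < im w
    · have hw' : 0 < im (w + h) := by simpa using hw
      simp only [comp_apply, ofComplex_apply_of_im_pos hw', ofComplex_apply_of_im_pos hw, hG]
      congr 2
      simp only [Periodic.qParam]
      have hh' : (h : ℂ) ≠ 0 := by exact_mod_cast hh.ne'
      rw [show 2 * π * I * (w + h) / h = 2 * π * I * w / h + 2 * π * I by field_simp,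
        Complex.exp_add, Complex.exp_two_pi_mul_I, mul_one]
    · have hw' : im (w + h) ≤ 0 := by simpa using not_lt.mp hw
      simp [ofComplex_apply_of_im_nonpos hw', ofComplex_apply_of_im_nonpos (not_lt.mp hw)]
  · rw [UpperHalfPlane.mdifferentiable_iff]
    intro z hz
    have := hGderiv ⟨z, hz⟩
    refine (this.differentiableAt.differentiableWithinAt).congr ?_ ?_
    · intro w hw
      simp [ofComplex_apply_of_im_pos hw]
    · simp [ofComplex_apply_of_im_pos hz]
  · have hΨc : ContinuousAt Ψ 0 := (hΨ 0 (mem_ball_self one_pos)).continuousAt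
    have h1 : Tendsto (fun τ : ℍ ↦ Ψ (Periodic.qParam h τ)) atImInfty (𝓝 0) := by
      have := hΨc.tendsto.comp (qParam_tendsto_atImInfty hh)
      rwa [hΨ0] at this
    have h2 := h1.const_mul ((h : ℂ) / (2 * π * I))
    rw [mul_zero] at h2
    exact h2
  · intro τ
    refine (hGderiv τ).congr_of_eventuallyEq ?_
    have hopen : {z : ℂ | 0 < z.im} ∈ 𝓝 (τ : ℂ) :=
      (isOpen_lt continuous_const Complex.continuous_im).mem_nhds τ.im_pos
    filter_upwards [hopen] with z hz
    simp [ofComplex_apply_of_im_pos hz]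

/-- A *primitive tower* of `h`: `E 0 = h`, `E (r+1)` is a primitive of `E r` on `ℍ`
which vanishes at `i∞`. -/
structure IsTower (h : ℍ → ℂ) (E : ℕ → ℍ → ℂ) : Prop where
  zero : E 0 = h
  hasDeriv : ∀ (r : ℕ) (z : ℍ), HasDerivAt (E (r + 1) ∘ ofComplex) (E r z) (z : ℂ)
  isZero : ∀ r : ℕ, IsZeroAtImInfty (E (r + 1))

/-- A function on `ℍ` with vanishing derivative everywhere is constant. -/
theorem const_of_hasDerivAt_zero {D : ℍ → ℂ}
    (hD : ∀ z : ℍ, HasDerivAt (D ∘ ofComplex) 0 (z : ℂ)) (z w : ℍ) : D z = D w := by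
  have hopen : IsOpen {z : ℂ | 0 < z.im} := isOpen_lt continuous_const Complex.continuous_im
  have hconv : Convex ℝ {z : ℂ | 0 < z.im} := by
    intro x hx y hy a b ha hb hab
    simp only [Set.mem_ofPred_eq, add_im, smul_im] at *
    rcases ha.eq_or_lt with rfl | ha'
    · simp only [zero_add] at hab
      subst hab
      simpa using hy
    · have : 0 < a * x.im := mul_pos ha' hx
      have : 0 ≤ b * y.im := mul_nonneg hb hy.le
      simpa using by linarith
  have hdiff : DifferentiableOn ℂ (D ∘ ofComplex) {z : ℂ | 0 < z.im} := fun z hz =>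
    (hD ⟨z, hz⟩).differentiableAt.differentiableWithinAt
  have hderiv : EqOn (deriv (D ∘ ofComplex)) 0 {z : ℂ | 0 < z.im} := fun z hz =>
    (hD ⟨z, hz⟩).deriv
  have := hopen.is_const_of_deriv_eq_zero hconv.isPreconnected hdiff hderiv z.im_pos w.im_pos
  simpa using this

/-- A function on `ℍ` with vanishing derivative which tends to zero at `i∞` is zero. -/
theorem eq_zero_of_hasDerivAt_zero_of_isZero {D : ℍ → ℂ}
    (hD : ∀ z : ℍ, HasDerivAt (D ∘ ofComplex) 0 (z : ℂ)) (h0 : IsZeroAtImInfty D) : D = 0 := by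
  funext z
  have hconst : D = fun _ => D z := funext fun w => const_of_hasDerivAt_zero hD w z
  have h1 : Tendsto D atImInfty (𝓝 0) := h0
  have h2 : Tendsto D atImInfty (𝓝 (D z)) := by
    conv => enter [1]; rw [hconst]
    exact tendsto_const_nhds
  exact tendsto_nhds_unique h2 h1

theorem IsTower.unique {h : ℍ → ℂ} {E E' : ℕ → ℍ → ℂ} (hE : IsTower h E) (hE' : IsTower h E') :
    E = E' := by
  funext r
  induction r with
  | zero => rw [hE.zero, hE'.zero]
  | succ r ih =>
    have hD : ∀ z : ℍ, HasDerivAt ((E (r + 1) - E' (r + 1)) ∘ ofComplex) 0 (z : ℂ) := by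
      intro z
      have := (hE.hasDeriv r z).sub (hE'.hasDeriv r z)
      rw [ih, sub_self] at this
      exact this
    have h0 : IsZeroAtImInfty (E (r + 1) - E' (r + 1)) := by
      have : Tendsto (fun z => E (r + 1) z - E' (r + 1) z) atImInfty (𝓝 (0 - 0)) :=
        Tendsto.sub (hE.isZero r) (hE'.isZero r)
      rw [sub_zero] at this
      exact this
    have := eq_zero_of_hasDerivAt_zero_of_isZero hD h0
    exact sub_eq_zero.mp this

theorem IsTower.mdiff {h : ℍ → ℂ} {E : ℕ → ℍ → ℂ} (hE : IsTower h E) (r : ℕ) :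
    MDiff (E (r + 1)) := by
  rw [UpperHalfPlane.mdifferentiable_iff]
  intro z hz
  exact (hE.hasDeriv r ⟨z, hz⟩).differentiableAt.differentiableWithinAt

theorem IsTower.add {h₁ h₂ : ℍ → ℂ} {E₁ E₂ : ℕ → ℍ → ℂ} (h1 : IsTower h₁ E₁)
    (h2 : IsTower h₂ E₂) : IsTower (h₁ + h₂) (E₁ + E₂) where
  zero := by rw [Pi.add_apply, h1.zero, h2.zero]
  hasDeriv r z := (h1.hasDeriv r z).add (h2.hasDeriv r z)
  isZero r := by
    have : Tendsto (fun z => E₁ (r + 1) z + E₂ (r + 1) z) atImInfty (𝓝 (0 + 0)) :=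
      Tendsto.add (h1.isZero r) (h2.isZero r)
    rw [add_zero] at this
    exact this

theorem IsTower.smul {h : ℍ → ℂ} {E : ℕ → ℍ → ℂ} (hE : IsTower h E) (c : ℂ) :
    IsTower (c • h) (c • E) where
  zero := by rw [Pi.smul_apply, hE.zero]
  hasDeriv r z := (hE.hasDeriv r z).const_smul c
  isZero r := by
    have : Tendsto (fun z => c * E (r + 1) z) atImInfty (𝓝 (c * 0)) :=
      (hE.isZero r).const_mul c
    rw [mul_zero] at this
    exact this

theorem isTower_zero : IsTower 0 0 where
  zero := rfl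
  hasDeriv _ z := by
    have : ((0 : ℕ → ℍ → ℂ) 0 ∘ ofComplex) = fun _ => (0 : ℂ) := rfl
    simp
  isZero _ := tendsto_const_nhds

/-- Existence of towers for holomorphic periodic functions vanishing at `i∞`. -/
theorem exists_isTower {h : ℍ → ℂ} {p : ℝ} (hp : 0 < p)
    (hper : Periodic (h ∘ ofComplex) p) (hhol : MDiff h) (hzero : IsZeroAtImInfty h) :
    ∃ E : ℕ → ℍ → ℂ, IsTower h E := by
  classical
  let X := {F : ℍ → ℂ // Periodic (F ∘ ofComplex) p ∧ MDiff F ∧ IsZeroAtImInfty F}
  have step : ∀ F : X, ∃ F' : X, ∀ τ : ℍ, HasDerivAt (F'.1 ∘ ofComplex) (F.1 τ) (τ : ℂ) := by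
    rintro ⟨F, h1, h2, h3⟩
    obtain ⟨F', h1', h2', h3', h4'⟩ := exists_primitive_isZeroAtImInfty hp h1 h2 h3
    exact ⟨⟨F', h1', h2', h3'⟩, h4'⟩
  choose next hnext using step
  let E : ℕ → X := fun r => Nat.rec ⟨h, hper, hhol, hzero⟩ (fun _ F => next F) r
  refine ⟨fun r => (E r).1, rfl, fun r z => ?_, fun r => ?_⟩
  · exact hnext (E r) z
  · exact (E (r + 1)).2.2.2

/-- The chosen tower of a function (junk value `0` if no tower exists). -/
noncomputable def tower (h : ℍ → ℂ) : ℕ → ℍ → ℂ :=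
  open Classical in if hex : ∃ E, IsTower h E then hex.choose else 0

/-- `h` admits a tower. -/
def HasTower (h : ℍ → ℂ) : Prop := ∃ E, IsTower h E

theorem HasTower.isTower {h : ℍ → ℂ} (hh : HasTower h) : IsTower h (tower h) := by
  unfold tower
  have hh' : ∃ E, IsTower h E := hh
  rw [dif_pos hh']
  exact hh'.choose_spec

theorem IsTower.tower_eq {h : ℍ → ℂ} {E : ℕ → ℍ → ℂ} (hE : IsTower h E) : tower h = E :=
  (HasTower.isTower ⟨E, hE⟩).unique hE

theorem HasTower.add {h₁ h₂ : ℍ → ℂ} (h1 : HasTower h₁) (h2 : HasTower h₂) :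
    HasTower (h₁ + h₂) := ⟨_, h1.isTower.add h2.isTower⟩

theorem HasTower.smul {h : ℍ → ℂ} (hh : HasTower h) (c : ℂ) : HasTower (c • h) :=
  ⟨_, hh.isTower.smul c⟩

theorem hasTower_zero : HasTower 0 := ⟨_, isTower_zero⟩

theorem tower_add {h₁ h₂ : ℍ → ℂ} (h1 : HasTower h₁) (h2 : HasTower h₂) :
    tower (h₁ + h₂) = tower h₁ + tower h₂ :=
  (h1.isTower.add h2.isTower).tower_eq

theorem tower_smul {h : ℍ → ℂ} (hh : HasTower h) (c : ℂ) : tower (c • h) = c • tower h :=
  (hh.isTower.smul c).tower_eq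

theorem tower_zero_fun : tower 0 = 0 := isTower_zero.tower_eq

theorem tower_sum {ι : Type*} (s : Finset ι) (h : ι → ℍ → ℂ) (hh : ∀ i ∈ s, HasTower (h i)) :
    HasTower (∑ i ∈ s, h i) ∧ tower (∑ i ∈ s, h i) = ∑ i ∈ s, tower (h i) := by
  classical
  induction s using Finset.induction_on with
  | empty => exact ⟨by simpa using hasTower_zero, by simpa using tower_zero_fun⟩
  | insert a s ha ih =>
    have ih' := ih fun i hi => hh i (Finset.mem_insert_of_mem hi)
    have ha' := hh a (Finset.mem_insert_self a s)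
    rw [Finset.sum_insert ha, Finset.sum_insert ha]
    exact ⟨ha'.add ih'.1, by rw [tower_add ha' ih'.1, ih'.2]⟩

end Fermat.Agent.S22.H262

end
-- ===== PACK-END S22/H262/Prim.lean

-- ===== PACK-BEGIN A2/Spec.lean
section




/-!
# WALL A2 — frozen interfaces (row-lead helper13)

Goal (`Target N q m`): for `q ‖ N`, `q ∤ m`, every `τ` in an inertia group at `q` satisfies
`(τ - 1)² = 0` on `JZero N [m]` (`JZero N = Pic⁰(ℚ̄(X₀(N)))`, Prelude language).

Layers (see `coord/A2.md` on `origin/helper13`):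

* `Target`        : the wall, Prelude language.
* `KummerTarget`  : the same on Kummer generators (`div f ∈ m·Div ⇒ (τ-1)² f ∈ (F̄ˣ)^m`).
* `SSChart`, `SepCoord`, `AlgSSConclusion` : the abstract semistable theorem ALG (Mathlib only).
* `GoodField`     : the finite levels `E' ⊇ ℚ̄^{I}` over which ALG is applied (piece IF).

This file contains only definitions (no `sorry`).  The interface theorems are the `Prop`s
`AlgSSStatement`, `IFStatement` (this file) and `ModSSStatement` (`ModDefs.lean`).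

v2 (19:10Z, LANDED, never to change again):
* `SSChart` has the two incomparability fields `not_le₁₂`, `not_le₂₁` (audit helper154: without
  them the good-reduction case `p₁ = (w) < p₂` was admitted);
* `GoodField` has the field `finite_order` and `AlgSSStatement` the hypothesis `hfo` (the lift
  `τ` has finite order on the finite level; asked for by route G, helper12 `H12.wallG`).
-/

set_option autoImplicit false

noncomputable section

namespace Fermat.Agent.A2

open ModularCurve AlgebraicCurve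

/-- The field `ℚ̄`. -/
abbrev Qb : Type := AlgebraicClosure ℚ

/-- **The wall A2** at `(N, q, m)`: unipotent inertia on the `m`-torsion of `J₀(N)`. -/
def Target (N q m : ℕ) : Prop :=
  ∀ P : ValuationSubring Qb, P.LiesOverPrime q →
    ∀ τ ∈ P.inertiaSubgroupIn ℚ, ∀ x : JZero N, m • x = 0 →
      τ • (τ • x) + x = 2 • (τ • x)

/-- The automorphism of `F̄_N = ℚ̄(X₀(N))` induced by `τ ∈ G_ℚ` (action on coefficients). -/
abbrev act (N : ℕ) (τ : Qb ≃ₐ[ℚ] Qb) :
    modularFunctionFieldBar N ≃+* modularFunctionFieldBar N :=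
  arithmeticRingAut (modularFunctionFieldFull N) τ

/-- **Kummer form of the wall**: if `div f ∈ m · Div`, then `τ²(f) · f / τ(f)²` is an `m`-th
power in `F̄_N`. -/
def KummerTarget (N q m : ℕ) : Prop :=
  ∀ P : ValuationSubring Qb, P.LiesOverPrime q →
    ∀ τ ∈ P.inertiaSubgroupIn ℚ, ∀ f : modularFunctionFieldBar N, f ≠ 0 →
      (∀ v : Place Qb (modularFunctionFieldBar N), (m : ℤ) ∣ v.ord f) →
      ∃ h : modularFunctionFieldBar N, h ≠ 0 ∧
        act N τ (act N τ f) * f = h ^ m * (act N τ f) ^ 2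

/-! ## ALG: abstract semistable two-chart models (Mathlib only) -/

section Alg

variable {R F : Type*} [CommRing R] [Field F] [Algebra R F]

/-- A chart `B ⊆ F` of a model over `R` whose special fibre `B / wB` is reduced with exactly two
components `p₁`, `p₂`, both normal, meeting transversally (`p₁ + p₂` radical, i.e. every common
point is an ordinary double point). -/
structure SSChart (w : R) (B : Subalgebra R F) where
  /-- first component -/
  p₁ : Ideal B
  /-- second component -/
  p₂ : Ideal B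
  prime₁ : p₁.IsPrime
  prime₂ : p₂.IsPrime
  ne : p₁ ≠ p₂
  not_le₁₂ : ¬ p₁ ≤ p₂
  not_le₂₁ : ¬ p₂ ≤ p₁
  inf_eq : p₁ ⊓ p₂ = Ideal.span {algebraMap R B w}
  normal₁ : IsIntegrallyClosed (B ⧸ p₁)
  normal₂ : IsIntegrallyClosed (B ⧸ p₂)
  transversal : (p₁ ⊔ p₂).IsRadical

variable (R) in
/-- `x` is a separating coordinate for the special fibre: some `E(x)`-basis of `F` consisting of
elements of the chart `B` has a discriminant `d(x)`, `d ∈ R[X]`, which is nonzero modulo the
maximal ideal. -/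
def SepCoord [IsLocalRing R] (E : Type*) [Field E] [Algebra E F] (x : F) (B : Subalgebra R F) :
    Prop :=
  ∃ (n : ℕ) (b : Fin n → F), (∀ i, b i ∈ B) ∧
    LinearIndependent (IntermediateField.adjoin E ({x} : Set F)) b ∧
    n = Module.finrank (IntermediateField.adjoin E ({x} : Set F)) F ∧
    ∃ d : Polynomial R, d.map (IsLocalRing.residue R) ≠ 0 ∧
      Polynomial.aeval x d =
        algebraMap (IntermediateField.adjoin E ({x} : Set F)) F
          (Algebra.discr (IntermediateField.adjoin E ({x} : Set F)) b)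

/-- `m ∣ div f` on every discrete valuation ring of `F` containing `E`, in Mathlib-only form:
locally `f = u · h ^ m` with `u` a unit. -/
def DivisibleDiv (E : Type*) [Field E] [Algebra E F] (m : ℕ) (f : F) : Prop :=
  ∀ V : ValuationSubring F, IsDiscreteValuationRing V → (∀ e : E, algebraMap E F e ∈ V) →
    ∃ h u : F, h ≠ 0 ∧ u ∈ V ∧ u⁻¹ ∈ V ∧ f = u * h ^ m

/-- The conclusion of ALG: `(τ - 1)²` kills the Kummer classes with `m ∣ div`. -/
def AlgSSConclusion (E : Type*) [Field E] [Algebra E F] (m : ℕ) (τ : F ≃+* F) : Prop :=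
  ∀ f : F, f ≠ 0 → DivisibleDiv E m f →
    ∃ h : F, h ≠ 0 ∧ τ (τ f) * f = h ^ m * (τ f) ^ 2

/-- **ALG (interface statement).**  Henselian DVR `R` with algebraically closed residue field of
characteristic `q`, `F / E` a function field with coordinate `x`, `Bf`, `Bi` the integral closures
of `R[x]`, `R[1/x]` in `F`, both semistable with two components (`SSChart`) and separating
coordinate, `τ` a semilinear automorphism of finite order fixing `x` and acting trivially modulo
`w` on both charts.  Then `(τ - 1)²` kills every Kummer class `f` with `m ∣ div f`, `q ∤ m`. -/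
def AlgSSStatement : Prop :=
  ∀ {R E F : Type} [CommRing R] [IsDomain R] [IsDiscreteValuationRing R] [HenselianLocalRing R]
    [IsAlgClosed (IsLocalRing.ResidueField R)]
    [Field E] [CharZero E] [Algebra R E] [IsFractionRing R E]
    [Field F] [Algebra E F] [Algebra R F] [IsScalarTower R E F]
    (w : R) (_ : Irreducible w) (q m : ℕ) (_ : q.Prime)
    (_ : (q : R) ∈ IsLocalRing.maximalIdeal R) (_ : 0 < m) (_ : ¬ q ∣ m)
    (x : F) (_ : Transcendental E x)
    (_ : FiniteDimensional (IntermediateField.adjoin E ({x} : Set F)) F)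
    (_ : ∀ f : F, IsAlgebraic E f → f ∈ (algebraMap E F).range)
    (Bf Bi : Subalgebra R F)
    (_ : ∀ f : F, f ∈ Bf ↔ IsIntegral (Algebra.adjoin R ({x} : Set F)) f)
    (_ : ∀ f : F, f ∈ Bi ↔ IsIntegral (Algebra.adjoin R ({x⁻¹} : Set F)) f)
    (_ : SSChart w Bf) (_ : SSChart w Bi)
    (_ : SepCoord R E x Bf) (_ : SepCoord R E x⁻¹ Bi)
    (τ : F ≃+* F) (τE : E ≃+* E) (τR : R ≃+* R)
    (_ : ∀ e : E, τ (algebraMap E F e) = algebraMap E F (τE e))
    (_ : ∀ r : R, τE (algebraMap R E r) = algebraMap R E (τR r))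
    (_ : τ x = x)
    (_ : ∃ r : ℕ, 0 < r ∧ ∀ f : F, (⇑τ)^[r] f = f)
    (_ : ∀ b ∈ Bf, ∃ c ∈ Bf, τ b - b = algebraMap R F w * c)
    (_ : ∀ b ∈ Bi, ∃ c ∈ Bi, τ b - b = algebraMap R F w * c),
    AlgSSConclusion E m τ

end Alg

/-! ## IF: good levels -/

/-- `R_E := P ∩ E`. -/
abbrev RE (P : ValuationSubring Qb) (E : IntermediateField ℚ Qb) : ValuationSubring E :=
  P.comap (algebraMap E Qb)

/-- A *good level* for `P`: an intermediate field `E ⊆ ℚ̄`, stable under the inertia group of
`P`, such that `R_E = P ∩ E` is a henselian discrete valuation ring with algebraically closed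
residue field on which the inertia group acts trivially modulo the maximal ideal.
(Example: every finite extension of the inertia field `ℚ̄^{I_P}` inside `ℚ̄`.) -/
structure GoodField (P : ValuationSubring Qb) (E : IntermediateField ℚ Qb) : Prop where
  stable : ∀ τ ∈ P.inertiaSubgroupIn ℚ, ∀ e : Qb, e ∈ E → τ e ∈ E
  dvr : IsDiscreteValuationRing (RE P E)
  henselian : HenselianLocalRing (RE P E)
  algClosed : IsAlgClosed (IsLocalRing.ResidueField (RE P E))
  trivial_mod : ∀ τ ∈ P.inertiaSubgroupIn ℚ, ∀ e : Qb, e ∈ E → e ∈ P →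
    τ e - e ∈ P.nonunits
  finite_order : ∀ τ ∈ P.inertiaSubgroupIn ℚ, ∃ r : ℕ, 0 < r ∧ ∀ e : Qb, e ∈ E →
    (⇑τ)^[r] e = e

/-- **IF (interface statement).**  Every finite set of algebraic numbers lies in a good level for
`P` (`E` = compositum of the inertia field `ℚ̄^{I_P}` and a finite normal extension of `ℚ`). -/
def IFStatement : Prop :=
  ∀ (q : ℕ) (_ : q.Prime) (P : ValuationSubring Qb) (_ : P.LiesOverPrime q) (S : Finset Qb),
    ∃ E : IntermediateField ℚ Qb, (∀ s ∈ S, s ∈ E) ∧ GoodField P E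

end Fermat.Agent.A2

end
end
-- ===== PACK-END A2/Spec.lean

-- ===== PACK-BEGIN A2/H708/Tame.lean
section



/-!
# A2 (helper708): the tame character of an inertia group

`L/K` an algebraic field extension, `A` a valuation subring of `L`,
`τ ∈ A.inertiaSubgroupIn K` (Prelude definition).  For `c ∈ Lˣ` the quotient `τ c / c` is a
unit of `A`; its residue class `tameHom A hτ c ∈ kˣ` (`k` the residue field of `A`)

* is multiplicative in `c` (it is a monoid hom `Lˣ →* kˣ`),
* is trivial on units of `A` (`tameHom_eq_one_of_valuation_eq_one`), hence depends only on the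
  valuation of `c` (`tameHom_eq_of_valuation_eq`),
* is trivial on `K` (`tameHom_algebraMap`),
* is multiplicative in `τ` (`tameHom_mul`),
* takes values in roots of unity: `c ^ n ∈ Kˣ · Aˣ → tame(c) ^ n = 1` (`tameHom_pow_eq_one`),
* `tameHom A hτ c = 1 ↔ v (τ c - c) < v c` (`tameHom_eq_one_iff`).

Also: elementwise facts on decomposition / inertia groups for arbitrary `L/K`
(`apply_mem_iff_of_mem_decomposition`, `valuation_apply_of_mem_decomposition` (algebraic case),
`sub_mem_nonunits_of_mem_inertiaIn`).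
-/

set_option autoImplicit false

open scoped Pointwise

namespace Fermat.Agent.A2.H708

variable {K L : Type*} [Field K] [Field L] [Algebra K L] (A : ValuationSubring L)

/-- Elements of the inertia group (Prelude form) lie in the decomposition group. -/
theorem mem_decomposition_of_mem_inertiaIn {τ : L ≃ₐ[K] L} (hτ : τ ∈ A.inertiaSubgroupIn K) :
    τ ∈ A.decompositionSubgroup K := by
  obtain ⟨g, -, rfl⟩ := hτ
  exact g.2

/-- Elements of the decomposition group preserve `A`. -/
theorem apply_mem_of_mem_decomposition {τ : L ≃ₐ[K] L} (hτ : τ ∈ A.decompositionSubgroup K)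
    {x : L} (hx : x ∈ A) : τ x ∈ A := by
  have h : τ • A = A := MulAction.mem_stabilizer_iff.mp hτ
  have h1 : τ • x ∈ τ • A := ValuationSubring.smul_mem_pointwise_smul τ x A hx
  rw [h] at h1
  exact h1

/-- Elements of the decomposition group reflect `A`. -/
theorem mem_of_apply_mem_of_mem_decomposition {τ : L ≃ₐ[K] L}
    (hτ : τ ∈ A.decompositionSubgroup K) {x : L} (hx : τ x ∈ A) : x ∈ A := by
  have hinv : τ⁻¹ ∈ A.decompositionSubgroup K := inv_mem hτ
  have := apply_mem_of_mem_decomposition A hinv hx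
  have h2 : τ⁻¹ (τ x) = x := by
    show (τ⁻¹ * τ) x = x
    rw [inv_mul_cancel]; rfl
  rwa [h2] at this

theorem apply_mem_iff_of_mem_decomposition {τ : L ≃ₐ[K] L}
    (hτ : τ ∈ A.decompositionSubgroup K) {x : L} : τ x ∈ A ↔ x ∈ A :=
  ⟨mem_of_apply_mem_of_mem_decomposition A hτ, apply_mem_of_mem_decomposition A hτ⟩

/-- Elements of the decomposition group preserve the order of valuations. -/
theorem valuation_apply_le_iff_of_mem_decomposition {τ : L ≃ₐ[K] L}
    (hτ : τ ∈ A.decompositionSubgroup K) (x y : L) :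
    A.valuation (τ x) ≤ A.valuation (τ y) ↔ A.valuation x ≤ A.valuation y := by
  rcases eq_or_ne y 0 with rfl | hy
  · simp
  have hτy : τ y ≠ 0 := by simpa using hy
  have h1 : A.valuation x ≤ A.valuation y ↔ x / y ∈ A := by
    rw [← A.valuation_le_one_iff, map_div₀,
      div_le_one₀ (pos_iff_ne_zero.mpr ((Valuation.ne_zero_iff _).mpr hy))]
  have h2 : A.valuation (τ x) ≤ A.valuation (τ y) ↔ τ x / τ y ∈ A := by
    rw [← A.valuation_le_one_iff, map_div₀,
      div_le_one₀ (pos_iff_ne_zero.mpr ((Valuation.ne_zero_iff _).mpr hτy))]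
  rw [h1, h2, ← map_div₀]
  exact apply_mem_iff_of_mem_decomposition A hτ

theorem valuation_apply_lt_iff_of_mem_decomposition {τ : L ≃ₐ[K] L}
    (hτ : τ ∈ A.decompositionSubgroup K) (x y : L) :
    A.valuation (τ x) < A.valuation (τ y) ↔ A.valuation x < A.valuation y := by
  rw [← not_le, ← not_le, valuation_apply_le_iff_of_mem_decomposition A hτ]

/-- In an algebraic extension every element is fixed by a positive power of any automorphism. -/
theorem exists_pow_apply_eq [Algebra.IsAlgebraic K L] (τ : L ≃ₐ[K] L) (x : L) :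
    ∃ n : ℕ, 0 < n ∧ (τ ^ n) x = x := by
  have hfin : ((minpoly K x).rootSet L).Finite := Polynomial.rootSet_finite _ _
  have hmem : ∀ n : ℕ, (τ ^ n) x ∈ (minpoly K x).rootSet L := by
    intro n
    rw [Polynomial.mem_rootSet]
    refine ⟨minpoly.ne_zero (Algebra.IsIntegral.isIntegral x), ?_⟩
    have := Polynomial.aeval_algHom_apply ((τ ^ n : L ≃ₐ[K] L) : L →ₐ[K] L) x (minpoly K x)
    rw [minpoly.aeval, map_zero] at this
    exact this
  obtain ⟨a, b, hab, h⟩ := hfin.exists_lt_map_eq_of_forall_mem hmem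
  refine ⟨b - a, Nat.sub_pos_of_lt hab, ?_⟩
  have hb : b = (b - a) + a := by omega
  have h3 : (τ ^ a) ((τ ^ (b - a)) x) = (τ ^ a) x := by
    have : (τ ^ b) x = (τ ^ a) ((τ ^ (b - a)) x) := by
      conv_lhs => rw [hb, add_comm, pow_add]
      rfl
    rw [← this, ← h]
  exact (τ ^ a).injective h3

/-- Elements of the decomposition group preserve the valuation (algebraic extensions). -/
theorem valuation_apply_of_mem_decomposition [Algebra.IsAlgebraic K L] {τ : L ≃ₐ[K] L}
    (hτ : τ ∈ A.decompositionSubgroup K) (x : L) :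
    A.valuation (τ x) = A.valuation x := by
  obtain ⟨n, hn, hx⟩ := exists_pow_apply_eq τ x
  have hstep : ∀ k : ℕ, (τ ^ (k + 1)) x = τ ((τ ^ k) x) := by
    intro k
    rw [pow_succ']
    rfl
  rcases lt_trichotomy (A.valuation (τ x)) (A.valuation x) with h | h | h
  · exfalso
    have hk : ∀ k : ℕ, A.valuation ((τ ^ (k + 1)) x) < A.valuation x := by
      intro k
      induction k with
      | zero => simpa using h
      | succ k ih =>
        rw [hstep]
        refine lt_trans ?_ h
        exact (valuation_apply_lt_iff_of_mem_decomposition A hτ _ _).mpr ih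
    have := hk (n - 1)
    rw [Nat.sub_add_cancel hn, hx] at this
    exact lt_irrefl _ this
  · exact h
  · exfalso
    have hk : ∀ k : ℕ, A.valuation x < A.valuation ((τ ^ (k + 1)) x) := by
      intro k
      induction k with
      | zero => simpa using h
      | succ k ih =>
        rw [hstep (k + 1)]
        refine lt_trans h ?_
        exact (valuation_apply_lt_iff_of_mem_decomposition A hτ _ _).mpr ih
    have := hk (n - 1)
    rw [Nat.sub_add_cancel hn, hx] at this
    exact lt_irrefl _ this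

/-- Elements of the inertia group move elements of `A` by nonunits. -/
theorem sub_mem_nonunits_of_mem_inertiaIn {τ : L ≃ₐ[K] L} (hτ : τ ∈ A.inertiaSubgroupIn K)
    {a : L} (ha : a ∈ A) : τ a - a ∈ A.nonunits := by
  obtain ⟨ι', hι', rfl⟩ := hτ
  have h1 : ι' • IsLocalRing.residue A ⟨a, ha⟩ = IsLocalRing.residue A ⟨a, ha⟩ := by
    have := congrArg (fun f => f (IsLocalRing.residue A ⟨a, ha⟩)) (MonoidHom.mem_ker.mp hι')
    simpa using this
  rw [← IsLocalRing.ResidueField.residue_smul, ← sub_eq_zero, ← map_sub,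
    IsLocalRing.residue_eq_zero_iff, ← ValuationSubring.coe_mem_nonunits_iff] at h1
  exact h1

theorem valuation_sub_lt_one_of_mem_inertiaIn {τ : L ≃ₐ[K] L} (hτ : τ ∈ A.inertiaSubgroupIn K)
    {a : L} (ha : A.valuation a ≤ 1) : A.valuation (τ a - a) < 1 :=
  A.mem_nonunits_iff.mp
    (sub_mem_nonunits_of_mem_inertiaIn A hτ ((A.valuation_le_one_iff a).mp ha))

/-- Inertia moves every element by something of strictly smaller valuation... up to the
valuation of the element: `v (τ a - a) < v a` for units `a` of `A`. -/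
theorem valuation_sub_lt_of_mem_inertiaIn_of_unit {τ : L ≃ₐ[K] L}
    (hτ : τ ∈ A.inertiaSubgroupIn K) {a : L} (ha : A.valuation a = 1) :
    A.valuation (τ a - a) < A.valuation a := by
  rw [ha]
  exact valuation_sub_lt_one_of_mem_inertiaIn A hτ ha.le

section tame

variable [Algebra.IsAlgebraic K L]

/-- `τ c / c` is a unit of `A` for `τ` in the decomposition group. -/
theorem valuation_apply_div_self {τ : L ≃ₐ[K] L} (hτ : τ ∈ A.decompositionSubgroup K)
    {c : L} (hc : c ≠ 0) : A.valuation (τ c / c) = 1 := by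
  rw [map_div₀, valuation_apply_of_mem_decomposition A hτ,
    div_self ((Valuation.ne_zero_iff _).mpr hc)]

/-- The raw symbol `c ↦ τ c / c` as a monoid hom `Lˣ →* A.unitGroup`. -/
noncomputable def ratioHom {τ : L ≃ₐ[K] L} (hτ : τ ∈ A.decompositionSubgroup K) : Lˣ →* A.unitGroup where
  toFun c := ⟨Units.map (τ : L →* L) c / c, by
    rw [ValuationSubring.mem_unitGroup_iff]
    simpa using valuation_apply_div_self A hτ c.ne_zero⟩
  map_one' := by
    apply Subtype.ext
    simp
  map_mul' c d := by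
    apply Subtype.ext
    simp only [map_mul, Subgroup.coe_mul]
    rw [mul_div_mul_comm]

@[simp]
theorem coe_ratioHom {τ : L ≃ₐ[K] L} (hτ : τ ∈ A.decompositionSubgroup K) (c : Lˣ) :
    (((ratioHom A hτ c : A.unitGroup) : Lˣ) : L) = τ c / c := by
  simp [ratioHom]

/-- **The tame character** `Lˣ →* kˣ`, `c ↦ (τ c / c mod 𝔪_A)`, of an element `τ` of the
inertia group. -/
noncomputable def tameHom {τ : L ≃ₐ[K] L} (hτ : τ ∈ A.inertiaSubgroupIn K) :
    Lˣ →* (IsLocalRing.ResidueField A)ˣ :=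
  A.unitGroupToResidueFieldUnits.comp (ratioHom A (mem_decomposition_of_mem_inertiaIn A hτ))

/-- `tameHom c = 1 ↔ v (τ c - c) < v c`. -/
theorem tameHom_eq_one_iff {τ : L ≃ₐ[K] L} (hτ : τ ∈ A.inertiaSubgroupIn K) (c : Lˣ) :
    tameHom A hτ c = 1 ↔ A.valuation (τ c - c) < A.valuation (c : L) := by
  have hc0 : A.valuation (c : L) ≠ 0 := (Valuation.ne_zero_iff _).mpr c.ne_zero
  have h1 : tameHom A hτ c = 1 ↔
      ratioHom A (mem_decomposition_of_mem_inertiaIn A hτ) c ∈
        A.unitGroupToResidueFieldUnits.ker := by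
    rw [MonoidHom.mem_ker]; rfl
  rw [h1, ker_unitGroupToResidueFieldUnits, Subgroup.mem_comap, Subgroup.coe_subtype,
    ValuationSubring.mem_principalUnitGroup_iff, coe_ratioHom]
  have h2 : τ c / c - 1 = (τ c - c) / c := by
    field_simp
  rw [h2, map_div₀, div_lt_one₀ (pos_iff_ne_zero.mpr hc0)]
where
  ker_unitGroupToResidueFieldUnits := A.ker_unitGroupToResidueFieldUnits

/-- The tame character is trivial on units of `A`. -/
theorem tameHom_eq_one_of_valuation_eq_one {τ : L ≃ₐ[K] L} (hτ : τ ∈ A.inertiaSubgroupIn K)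
    (c : Lˣ) (hc : A.valuation (c : L) = 1) : tameHom A hτ c = 1 :=
  (tameHom_eq_one_iff A hτ c).mpr (valuation_sub_lt_of_mem_inertiaIn_of_unit A hτ hc)

/-- The tame character depends only on the valuation. -/
theorem tameHom_eq_of_valuation_eq {τ : L ≃ₐ[K] L} (hτ : τ ∈ A.inertiaSubgroupIn K)
    (c d : Lˣ) (h : A.valuation (c : L) = A.valuation (d : L)) :
    tameHom A hτ c = tameHom A hτ d := by
  have h1 : tameHom A hτ (c / d) = 1 := by
    apply tameHom_eq_one_of_valuation_eq_one
    rw [Units.val_div_eq_div_val, map_div₀, h,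
      div_self ((Valuation.ne_zero_iff _).mpr d.ne_zero)]
  rw [map_div, div_eq_one] at h1
  exact h1

/-- The tame character is trivial on the base field. -/
theorem tameHom_algebraMap {τ : L ≃ₐ[K] L} (hτ : τ ∈ A.inertiaSubgroupIn K)
    (c : Lˣ) (a : K) (hc : (c : L) = algebraMap K L a) : tameHom A hτ c = 1 := by
  rw [tameHom_eq_one_iff, hc, AlgEquiv.commutes, sub_self, map_zero, ← hc]
  exact pos_iff_ne_zero.mpr ((Valuation.ne_zero_iff _).mpr c.ne_zero)

/-- More generally the tame character is trivial on elements fixed by `τ`. -/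
theorem tameHom_eq_one_of_fixed {τ : L ≃ₐ[K] L} (hτ : τ ∈ A.inertiaSubgroupIn K)
    (c : Lˣ) (hc : τ c = c) : tameHom A hτ c = 1 := by
  rw [tameHom_eq_one_iff, hc, sub_self, map_zero]
  exact pos_iff_ne_zero.mpr ((Valuation.ne_zero_iff _).mpr c.ne_zero)

/-- Values of the tame character are roots of unity: if `c ^ n = a * u` with `a ∈ K` and `u` a
unit of `A`, then `tame(c) ^ n = 1`. -/
theorem tameHom_pow_eq_one {τ : L ≃ₐ[K] L} (hτ : τ ∈ A.inertiaSubgroupIn K)
    (c : Lˣ) (n : ℕ) (a : K) (u : L) (hu : A.valuation u = 1)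
    (h : (c : L) ^ n = algebraMap K L a * u) : tameHom A hτ c ^ n = 1 := by
  have hu0 : u ≠ 0 := by
    rintro rfl
    simp at hu
  have ha0 : algebraMap K L a ≠ 0 := by
    intro h0
    rw [h0, zero_mul] at h
    exact pow_ne_zero n c.ne_zero h
  have hcn : c ^ n = Units.mk0 _ ha0 * Units.mk0 u hu0 := by
    apply Units.ext
    simpa using h
  rw [← map_pow, hcn, map_mul, tameHom_algebraMap A hτ _ a rfl,
    tameHom_eq_one_of_valuation_eq_one A hτ _ hu, one_mul]

/-- `στ c / c = (σ (τ c) / τ c) · (τ c / c)`. -/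
theorem ratioHom_mul {σ τ : L ≃ₐ[K] L} (hσ : σ ∈ A.decompositionSubgroup K)
    (hτ : τ ∈ A.decompositionSubgroup K) (c : Lˣ) :
    ratioHom A (mul_mem hσ hτ) c =
      ratioHom A hσ (Units.map (τ : L →* L) c) * ratioHom A hτ c := by
  apply Subtype.ext
  apply Units.ext
  rw [Subgroup.coe_mul, Units.val_mul, coe_ratioHom, coe_ratioHom, coe_ratioHom]
  have hc0 : (c : L) ≠ 0 := c.ne_zero
  have hd0 : τ (c : L) ≠ 0 := by simp
  have h1 : ((Units.map (τ : L →* L) c : Lˣ) : L) = τ c := rfl
  have h2 : (σ * τ) (c : L) = σ (τ c) := rfl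
  rw [h1, h2]
  field_simp

/-- The tame character is multiplicative in `τ`. -/
theorem tameHom_mul {σ τ : L ≃ₐ[K] L} (hσ : σ ∈ A.inertiaSubgroupIn K)
    (hτ : τ ∈ A.inertiaSubgroupIn K) (c : Lˣ) :
    tameHom A (mul_mem hσ hτ) c = tameHom A hσ c * tameHom A hτ c := by
  set d : Lˣ := Units.map (τ : L →* L) c with hd
  have hdv : A.valuation (d : L) = A.valuation (c : L) :=
    valuation_apply_of_mem_decomposition A (mem_decomposition_of_mem_inertiaIn A hτ) (c : L)
  have h1 : tameHom A hσ d = tameHom A hσ c := tameHom_eq_of_valuation_eq A hσ d c hdv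
  rw [← h1]
  show A.unitGroupToResidueFieldUnits (ratioHom A _ c) = _
  rw [ratioHom_mul A (mem_decomposition_of_mem_inertiaIn A hσ)
    (mem_decomposition_of_mem_inertiaIn A hτ), map_mul]
  rfl

/-- The tame character of the inverse. -/
theorem tameHom_inv {τ : L ≃ₐ[K] L} (hτ : τ ∈ A.inertiaSubgroupIn K) (c : Lˣ) :
    tameHom A (inv_mem hτ) c = (tameHom A hτ c)⁻¹ := by
  have h1 : tameHom A (mul_mem (inv_mem hτ) hτ) c = 1 := by
    apply tameHom_eq_one_of_fixed
    show (τ⁻¹ * τ) (c : L) = c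
    rw [inv_mul_cancel]; rfl
  rw [tameHom_mul A (inv_mem hτ) hτ] at h1
  exact eq_inv_of_mul_eq_one_left h1

end tame

end Fermat.Agent.A2.H708

end
-- ===== PACK-END A2/H708/Tame.lean

-- ===== PACK-BEGIN S24/Mod/H708QInf.lean
section



/-!
# S24 / MOD-QINF (helper708): Laurent `q^(1/h)`-expansions at `i∞`

For `h : ℕ`, `h ≠ 0`, we consider functions `f : ℍ → ℂ` which are holomorphic, `h`-periodic and
meromorphic at `i∞` (`f * q_h ^ M` bounded at `i∞` for some `M`, `q_h τ = exp (2 π i τ / h)`).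
They form a subalgebra `merInf h`, and the Laurent expansion in `q_h` is an injective algebra
homomorphism `qexpInf h : merInf h →ₐ[ℂ] LaurentSeries ℂ`.

Everything is over `ℂ`, Mathlib only.
-/

set_option autoImplicit false
set_option linter.unusedSectionVars false

noncomputable section

namespace Fermat.Agent.S24.H708

open Complex Function Filter
open UpperHalfPlane hiding I
open scoped Manifold Real Topology

/-- The local parameter `q_h τ = exp (2 π i τ / h)` at `i∞`, as a function on `ℍ`. -/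
def qh (h : ℕ) : ℍ → ℂ := fun τ => Function.Periodic.qParam (h : ℝ) (τ : ℂ)

lemma qh_apply (h : ℕ) (τ : ℍ) : qh h τ = Function.Periodic.qParam (h : ℝ) (τ : ℂ) := rfl

lemma qh_ne_zero (h : ℕ) (τ : ℍ) : qh h τ ≠ 0 := Function.Periodic.qParam_ne_zero _

lemma qh_pow_ne_zero (h : ℕ) (M : ℕ) (τ : ℍ) : (qh h ^ M) τ ≠ 0 := by
  simpa using pow_ne_zero M (qh_ne_zero h τ)

section basic

variable (h : ℕ) [NeZero h]

lemma hpos : (0 : ℝ) < (h : ℝ) := by exact_mod_cast Nat.pos_of_ne_zero (NeZero.ne h)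

lemma norm_qh_lt_one (τ : ℍ) : ‖qh h τ‖ < 1 :=
  Function.Periodic.norm_qParam_lt_one (hpos h) τ.im_pos

omit [NeZero h] in
lemma mdiff_qh : MDiff (qh h) := by
  rw [UpperHalfPlane.mdifferentiable_iff]
  have hd : DifferentiableOn ℂ (Function.Periodic.qParam (h : ℝ)) {z : ℂ | 0 < z.im} :=
    (Function.Periodic.differentiable_qParam (h := (h : ℝ))).differentiableOn
  refine hd.congr ?_
  intro z hz
  simp only [comp_apply, qh_apply, ofComplex_apply_of_im_pos hz]

lemma periodic_qh : Periodic (qh h ∘ ofComplex) (h : ℝ) := by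
  intro w
  by_cases hw : 0 < im w
  · have hw' : 0 < im (w + (h : ℝ)) := by simpa using hw
    simp only [comp_apply, qh_apply, ofComplex_apply_of_im_pos hw',
      ofComplex_apply_of_im_pos hw]
    simp only [Function.Periodic.qParam]
    have hh : ((h : ℝ) : ℂ) ≠ 0 := by
      exact_mod_cast (NeZero.ne h)
    rw [show 2 * (π : ℂ) * I * (w + ((h : ℝ) : ℂ)) / ((h : ℝ) : ℂ)
        = 2 * (π : ℂ) * I * w / ((h : ℝ) : ℂ) + 2 * π * I by field_simp]
    rw [Complex.exp_add, Complex.exp_two_pi_mul_I, mul_one]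
  · have hw0 : im w ≤ 0 := not_lt.mp hw
    have hw' : im (w + (h : ℝ)) ≤ 0 := by simpa using hw0
    simp only [comp_apply]
    rw [ofComplex_apply_of_im_nonpos hw', ofComplex_apply_of_im_nonpos hw0]

lemma isBounded_qh : IsBoundedAtImInfty (qh h) := by
  rw [UpperHalfPlane.isBoundedAtImInfty_iff]
  exact ⟨1, 0, fun τ _ => (norm_qh_lt_one h τ).le⟩

end basic

/-- The class of holomorphic `h`-periodic functions bounded at `i∞`. -/
structure IsHolInf (h : ℕ) (f : ℍ → ℂ) : Prop where
  hol : MDiff f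
  per : Periodic (f ∘ ofComplex) (h : ℝ)
  bdd : IsBoundedAtImInfty f

namespace IsHolInf

variable {h : ℕ} {f g : ℍ → ℂ}

lemma mul (hf : IsHolInf h f) (hg : IsHolInf h g) : IsHolInf h (f * g) :=
  ⟨hf.hol.mul hg.hol, hf.per.mul hg.per, hf.bdd.mul hg.bdd⟩

lemma add (hf : IsHolInf h f) (hg : IsHolInf h g) : IsHolInf h (f + g) :=
  ⟨hf.hol.add hg.hol, hf.per.add hg.per, hf.bdd.add hg.bdd⟩

lemma const (h : ℕ) (c : ℂ) : IsHolInf h (fun _ => c) :=
  ⟨mdifferentiable_const, fun _ => rfl, Filter.const_boundedAtFilter _ c⟩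

lemma one (h : ℕ) : IsHolInf h (1 : ℍ → ℂ) := const h 1

lemma qh (h : ℕ) [NeZero h] : IsHolInf h (_root_.Fermat.Agent.S24.H708.qh h) :=
  ⟨mdiff_qh h, periodic_qh h, isBounded_qh h⟩

lemma pow (hf : IsHolInf h f) (n : ℕ) : IsHolInf h (f ^ n) := by
  induction n with
  | zero => simpa using one h
  | succ n ih => rw [pow_succ]; exact ih.mul hf

lemma analyticAt [NeZero h] (hf : IsHolInf h f) : AnalyticAt ℂ (cuspFunction (h : ℝ) f) 0 :=
  analyticAt_cuspFunction_zero (hpos h) hf.per hf.hol hf.bdd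

lemma qExpansion_mul [NeZero h] (hf : IsHolInf h f) (hg : IsHolInf h g) :
    qExpansion (h : ℝ) (f * g) = qExpansion (h : ℝ) f * qExpansion (h : ℝ) g :=
  UpperHalfPlane.qExpansion_mul hf.analyticAt hg.analyticAt

lemma qExpansion_add [NeZero h] (hf : IsHolInf h f) (hg : IsHolInf h g) :
    qExpansion (h : ℝ) (f + g) = qExpansion (h : ℝ) f + qExpansion (h : ℝ) g :=
  UpperHalfPlane.qExpansion_add hf.analyticAt hg.analyticAt

lemma hasSum [NeZero h] (hf : IsHolInf h f) (τ : ℍ) :
    HasSum (fun m : ℕ => (qExpansion (h : ℝ) f).coeff m * H708.qh h τ ^ m) (f τ) := by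
  simpa [smul_eq_mul, qh_apply] using hasSum_qExpansion (hpos h) hf.per hf.hol hf.bdd τ

lemma qExpansion_eq_zero_iff [NeZero h] (hf : IsHolInf h f) :
    qExpansion (h : ℝ) f = 0 ↔ f = 0 :=
  UpperHalfPlane.qExpansion_eq_zero_iff (hpos h) hf.per hf.hol hf.bdd

end IsHolInf


section qExpansion_qh

variable (h : ℕ) [NeZero h]

omit [NeZero h] in
/-- `UpperHalfPlane.qExpansion_coeff_unique` for plain functions. -/
lemma qExpansion_coeff_unique_fun {g : ℍ → ℂ} (hh : (0 : ℝ) < (h : ℝ)) (hcont : Continuous g)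
    {c : ℕ → ℂ} (hg : AnalyticAt ℂ (cuspFunction (h : ℝ) g) 0)
    (hs : ∀ τ : ℍ, HasSum (fun m ↦ c m • Function.Periodic.qParam (h : ℝ) (τ : ℂ) ^ m) (g τ))
    (m : ℕ) : c m = (qExpansion (h : ℝ) g).coeff m :=
  UpperHalfPlane.qExpansion_coeff_unique (ContinuousMap.mk g hcont) hh hg hs m

omit [NeZero h] in
lemma hasSum_qh_aux (τ : ℍ) : HasSum (fun m : ℕ => (if m = 1 then (1 : ℂ) else 0) •
      Function.Periodic.qParam (h : ℝ) (τ : ℂ) ^ m) (qh h τ) := by
  have h1 := hasSum_ite_eq (1 : ℕ) (qh h τ)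
  have h2 : (fun m : ℕ => (if m = 1 then (1 : ℂ) else 0) •
      Function.Periodic.qParam (h : ℝ) (τ : ℂ) ^ m) = fun m : ℕ => if m = 1 then qh h τ else 0 := by
    funext m
    by_cases hm : m = 1
    · subst hm; simp [qh_apply]
    · simp [hm]
  rw [h2]
  exact h1

lemma qExpansion_qh : qExpansion (h : ℝ) (qh h) = PowerSeries.X := by
  ext m
  have h3 := qExpansion_coeff_unique_fun h (hpos h) (mdiff_qh h).continuous
    (IsHolInf.qh h).analyticAt (hasSum_qh_aux h) m
  rw [PowerSeries.coeff_X]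
  exact h3.symm

end qExpansion_qh

/-- `f` is holomorphic on `ℍ`, `h`-periodic, and meromorphic at `i∞`. -/
structure IsMerInf (h : ℕ) (f : ℍ → ℂ) : Prop where
  hol : MDiff f
  per : Periodic (f ∘ ofComplex) (h : ℝ)
  bdd : ∃ M : ℕ, IsBoundedAtImInfty (f * qh h ^ M)

/-- The candidate Laurent expansion of `f` computed with pole order bound `M`. -/
def lau (h : ℕ) (M : ℕ) (f : ℍ → ℂ) : LaurentSeries ℂ :=
  HahnSeries.single (-(M : ℤ)) (1 : ℂ) *
    HahnSeries.ofPowerSeries ℤ ℂ (qExpansion (h : ℝ) (f * qh h ^ M))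

namespace IsMerInf

variable {h : ℕ} {f g : ℍ → ℂ}

lemma isHolInf_mul_pow [NeZero h] (hf : IsMerInf h f) {M : ℕ}
    (hM : IsBoundedAtImInfty (f * qh h ^ M)) : IsHolInf h (f * qh h ^ M) :=
  ⟨hf.hol.mul ((mdiff_qh h).pow M), hf.per.mul ((IsHolInf.qh h).pow M).per, hM⟩

lemma of_isHolInf [NeZero h] (hf : IsHolInf h f) : IsMerInf h f :=
  ⟨hf.hol, hf.per, 0, by simpa using hf.bdd⟩

lemma bdd_succ [NeZero h] {M : ℕ}
    (hM : IsBoundedAtImInfty (f * qh h ^ M)) : IsBoundedAtImInfty (f * qh h ^ (M + 1)) := by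
  rw [pow_succ, ← mul_assoc]
  exact hM.mul (isBounded_qh h)

lemma bdd_of_le [NeZero h] {M M' : ℕ} (hle : M ≤ M')
    (hM : IsBoundedAtImInfty (f * qh h ^ M)) : IsBoundedAtImInfty (f * qh h ^ M') := by
  induction M', hle using Nat.le_induction with
  | base => exact hM
  | succ n _ ih => exact bdd_succ ih

lemma lau_succ [NeZero h] (hf : IsMerInf h f) {M : ℕ}
    (hM : IsBoundedAtImInfty (f * qh h ^ M)) : lau h (M + 1) f = lau h M f := by
  unfold lau
  have h1 : f * qh h ^ (M + 1) = (f * qh h ^ M) * qh h := by rw [pow_succ, mul_assoc]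
  rw [h1, (hf.isHolInf_mul_pow hM).qExpansion_mul (IsHolInf.qh h), qExpansion_qh, map_mul,
    HahnSeries.ofPowerSeries_X, mul_comm (HahnSeries.ofPowerSeries ℤ ℂ _), ← mul_assoc,
    HahnSeries.single_mul_single]
  have h2 : (-((M + 1 : ℕ) : ℤ) + 1) = -(M : ℤ) := by push_cast; ring1
  rw [h2, mul_one]

lemma lau_of_le [NeZero h] (hf : IsMerInf h f) {M M' : ℕ} (hle : M ≤ M')
    (hM : IsBoundedAtImInfty (f * qh h ^ M)) : lau h M' f = lau h M f := by
  induction M', hle using Nat.le_induction with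
  | base => rfl
  | succ n hn ih => rw [hf.lau_succ (bdd_of_le hn hM), ih]

lemma lau_eq [NeZero h] (hf : IsMerInf h f) {M M' : ℕ}
    (hM : IsBoundedAtImInfty (f * qh h ^ M)) (hM' : IsBoundedAtImInfty (f * qh h ^ M')) :
    lau h M f = lau h M' f := by
  rcases le_total M M' with hle | hle
  · exact (hf.lau_of_le hle hM).symm
  · exact hf.lau_of_le hle hM'


lemma mul [NeZero h] (hf : IsMerInf h f) (hg : IsMerInf h g) : IsMerInf h (f * g) := by
  obtain ⟨M, hM⟩ := hf.bdd
  obtain ⟨M', hM'⟩ := hg.bdd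
  refine ⟨hf.hol.mul hg.hol, hf.per.mul hg.per, M + M', ?_⟩
  have : f * g * qh h ^ (M + M') = (f * qh h ^ M) * (g * qh h ^ M') := by
    rw [pow_add]; ring1
  rw [this]
  exact hM.mul hM'

lemma add [NeZero h] (hf : IsMerInf h f) (hg : IsMerInf h g) : IsMerInf h (f + g) := by
  obtain ⟨M, hM⟩ := hf.bdd
  obtain ⟨M', hM'⟩ := hg.bdd
  refine ⟨hf.hol.add hg.hol, hf.per.add hg.per, max M M', ?_⟩
  rw [add_mul]
  exact (bdd_of_le (le_max_left _ _) hM).add (bdd_of_le (le_max_right _ _) hM')

lemma const (h : ℕ) [NeZero h] (c : ℂ) : IsMerInf h (fun _ => c) :=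
  of_isHolInf (IsHolInf.const h c)

lemma one (h : ℕ) [NeZero h] : IsMerInf h (1 : ℍ → ℂ) := const h 1

lemma zero (h : ℕ) [NeZero h] : IsMerInf h (0 : ℍ → ℂ) := const h 0

lemma neg [NeZero h] (hf : IsMerInf h f) : IsMerInf h (-f) := by
  have := (const h (-1)).mul hf
  convert this using 1
  ext τ; simp

lemma sub [NeZero h] (hf : IsMerInf h f) (hg : IsMerInf h g) : IsMerInf h (f - g) := by
  rw [sub_eq_add_neg]; exact hf.add hg.neg

lemma pow [NeZero h] (hf : IsMerInf h f) (n : ℕ) : IsMerInf h (f ^ n) := by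
  induction n with
  | zero => simpa using one h
  | succ n ih => rw [pow_succ]; exact ih.mul hf

end IsMerInf

/-- The Laurent `q_h`-expansion of a function (junk value `0` outside `IsMerInf`). -/
def qexpFun (h : ℕ) (f : ℍ → ℂ) : LaurentSeries ℂ := by
  classical
  exact if hf : IsMerInf h f then lau h hf.bdd.choose f else 0

section qexpFun

variable {h : ℕ} [NeZero h] {f g : ℍ → ℂ}

lemma qexpFun_eq_lau (hf : IsMerInf h f) {M : ℕ} (hM : IsBoundedAtImInfty (f * qh h ^ M)) :
    qexpFun h f = lau h M f := by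
  classical
  rw [qexpFun, dif_pos hf]
  exact hf.lau_eq hf.bdd.choose_spec hM

lemma qexpFun_of_isHolInf (hf : IsHolInf h f) :
    qexpFun h f = HahnSeries.ofPowerSeries ℤ ℂ (qExpansion (h : ℝ) f) := by
  have hb : IsBoundedAtImInfty (f * qh h ^ 0) := by simpa using hf.bdd
  rw [qexpFun_eq_lau (IsMerInf.of_isHolInf hf) hb, lau]
  simp

lemma qexpFun_mul (hf : IsMerInf h f) (hg : IsMerInf h g) :
    qexpFun h (f * g) = qexpFun h f * qexpFun h g := by
  obtain ⟨M, hM⟩ := hf.bdd
  obtain ⟨M', hM'⟩ := hg.bdd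
  have hfg : f * g * qh h ^ (M + M') = (f * qh h ^ M) * (g * qh h ^ M') := by
    rw [pow_add]; ring1
  have hb : IsBoundedAtImInfty (f * g * qh h ^ (M + M')) := by
    rw [hfg]; exact hM.mul hM'
  rw [qexpFun_eq_lau (hf.mul hg) hb, qexpFun_eq_lau hf hM, qexpFun_eq_lau hg hM']
  unfold lau
  rw [hfg, (hf.isHolInf_mul_pow hM).qExpansion_mul (hg.isHolInf_mul_pow hM'), map_mul]
  have hs : (HahnSeries.single (-((M + M' : ℕ) : ℤ)) (1 : ℂ) : LaurentSeries ℂ)
      = HahnSeries.single (-(M : ℤ)) 1 * HahnSeries.single (-(M' : ℤ)) 1 := by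
    rw [HahnSeries.single_mul_single, mul_one]
    have h2 : (-((M + M' : ℕ) : ℤ)) = -(M : ℤ) + -(M' : ℤ) := by push_cast; ring1
    rw [h2]
  rw [hs]
  ring1

lemma qexpFun_add (hf : IsMerInf h f) (hg : IsMerInf h g) :
    qexpFun h (f + g) = qexpFun h f + qexpFun h g := by
  obtain ⟨M, hM⟩ := hf.bdd
  obtain ⟨M', hM'⟩ := hg.bdd
  have hM1 := IsMerInf.bdd_of_le (le_max_left M M') hM
  have hM2 := IsMerInf.bdd_of_le (le_max_right M M') hM'
  have hb : IsBoundedAtImInfty ((f + g) * qh h ^ (max M M')) := by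
    rw [add_mul]; exact hM1.add hM2
  rw [qexpFun_eq_lau (hf.add hg) hb, qexpFun_eq_lau hf hM1, qexpFun_eq_lau hg hM2]
  unfold lau
  rw [add_mul, (hf.isHolInf_mul_pow hM1).qExpansion_add (hg.isHolInf_mul_pow hM2), map_add,
    mul_add]

lemma qExpansion_const (h : ℕ) [NeZero h] (c : ℂ) :
    qExpansion (h : ℝ) (fun _ : ℍ => c) = PowerSeries.C c := by
  have h1 : (fun _ : ℍ => c) = c • (1 : ℍ → ℂ) := by
    ext τ; simp
  rw [h1, UpperHalfPlane.qExpansion_smul (IsHolInf.one h).analyticAt, qExpansion_one]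
  ext n
  simp [PowerSeries.coeff_C, PowerSeries.coeff_one]

lemma qexpFun_const (h : ℕ) [NeZero h] (c : ℂ) :
    qexpFun h (fun _ : ℍ => c) = HahnSeries.C c := by
  rw [qexpFun_of_isHolInf (IsHolInf.const h c), qExpansion_const, HahnSeries.ofPowerSeries_C]

lemma qexpFun_eq_zero_iff (hf : IsMerInf h f) : qexpFun h f = 0 ↔ f = 0 := by
  obtain ⟨M, hM⟩ := hf.bdd
  rw [qexpFun_eq_lau hf hM, lau]
  have hne : (HahnSeries.single (-(M : ℤ)) (1 : ℂ) : LaurentSeries ℂ) ≠ 0 := by
    simp
  rw [mul_eq_zero, or_iff_right hne, map_eq_zero_iff _ HahnSeries.ofPowerSeries_injective,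
    (hf.isHolInf_mul_pow hM).qExpansion_eq_zero_iff]
  constructor
  · intro h0
    ext τ
    have := congrFun h0 τ
    simp only [Pi.mul_apply, Pi.zero_apply, mul_eq_zero] at this
    exact this.resolve_right (qh_pow_ne_zero h M τ)
  · rintro rfl; simp

end qexpFun

/-- The algebra of holomorphic `h`-periodic functions on `ℍ`, meromorphic at `i∞`. -/
def merInf (h : ℕ) [NeZero h] : Subalgebra ℂ (ℍ → ℂ) where
  carrier := {f | IsMerInf h f}
  mul_mem' := fun hf hg => IsMerInf.mul hf hg
  add_mem' := fun hf hg => IsMerInf.add hf hg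
  algebraMap_mem' := fun c => IsMerInf.const h c

lemma mem_merInf {h : ℕ} [NeZero h] {f : ℍ → ℂ} : f ∈ merInf h ↔ IsMerInf h f := Iff.rfl

/-- The Laurent expansion in `q_h = exp (2 π i τ / h)` at `i∞`. -/
def qexpInf (h : ℕ) [NeZero h] : merInf h →ₐ[ℂ] LaurentSeries ℂ where
  toFun f := qexpFun h (f : ℍ → ℂ)
  map_one' := by
    show qexpFun h (1 : ℍ → ℂ) = 1
    have := qexpFun_const h (1 : ℂ)
    rw [show (1 : ℍ → ℂ) = fun _ => (1 : ℂ) from rfl, this]
    simp
  map_mul' f g := qexpFun_mul f.2 g.2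
  map_zero' := by
    show qexpFun h (0 : ℍ → ℂ) = 0
    exact (qexpFun_eq_zero_iff (IsMerInf.zero h)).mpr rfl
  map_add' f g := qexpFun_add f.2 g.2
  commutes' c := by
    show qexpFun h (fun _ : ℍ => c) = algebraMap ℂ (LaurentSeries ℂ) c
    rw [qexpFun_const]
    have h1 : algebraMap ℂ (PowerSeries ℂ) c = PowerSeries.C c := by simp
    rw [HahnSeries.algebraMap_apply', h1, HahnSeries.ofPowerSeries_C]

lemma qexpInf_apply {h : ℕ} [NeZero h] (f : merInf h) : qexpInf h f = qexpFun h (f : ℍ → ℂ) := rfl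

lemma qexpInf_injective (h : ℕ) [NeZero h] : Function.Injective (qexpInf h) := by
  rw [injective_iff_map_eq_zero]
  intro f hf
  have := (qexpFun_eq_zero_iff f.2).mp hf
  exact Subtype.ext this


/-! ### Convergence of the Laurent expansion and uniqueness -/

section hasSum

/-- Reindexing a Laurent-type sum over `ℤ` (vanishing below `-M`) as a sum over `ℕ`. -/
lemma hasSum_int_iff_nat (φ : ℤ → ℂ) (M : ℕ) (hφ : ∀ n : ℤ, n < -(M : ℤ) → φ n = 0)
    (x : ℂ) (hx : x ≠ 0) (s : ℂ) :
    HasSum (fun n : ℤ => φ n * x ^ n) s ↔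
      HasSum (fun m : ℕ => φ ((m : ℤ) - M) * x ^ m) (s * x ^ M) := by
  have hinj : Function.Injective (fun m : ℕ => (m : ℤ) - (M : ℤ)) := by
    intro a b hab
    simp only [sub_left_inj] at hab
    exact_mod_cast hab
  have hrange : ∀ n : ℤ, n ∉ Set.range (fun m : ℕ => (m : ℤ) - (M : ℤ)) →
      (fun n : ℤ => φ n * x ^ n) n = 0 := by
    intro n hn
    have hlt : n < -(M : ℤ) := by
      by_contra hge
      rw [not_lt] at hge
      apply hn
      refine ⟨(n + M).toNat, ?_⟩
      simp only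
      rw [Int.toNat_of_nonneg (by omega)]
      ring
    simp [hφ n hlt]
  rw [← hinj.hasSum_iff hrange]
  have hxM : x ^ M ≠ 0 := pow_ne_zero M hx
  rw [← hasSum_mul_right_iff hxM]
  have hfun : (fun i : ℕ => ((fun n : ℤ => φ n * x ^ n) ∘ fun m : ℕ => (m : ℤ) - (M : ℤ)) i * x ^ M)
      = fun m : ℕ => φ ((m : ℤ) - M) * x ^ m := by
    funext m
    simp only [comp_apply]
    rw [zpow_sub₀ hx, zpow_natCast, zpow_natCast]
    field_simp
  rw [hfun]

variable {h : ℕ} [NeZero h] {f : ℍ → ℂ}

lemma lau_coeff (M : ℕ) (f : ℍ → ℂ) (n : ℤ) :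
    (lau h M f).coeff n = (HahnSeries.ofPowerSeries ℤ ℂ
      (qExpansion (h : ℝ) (f * qh h ^ M))).coeff (n + M) := by
  rw [lau, HahnSeries.coeff_single_mul, one_mul, sub_neg_eq_add]

lemma lau_coeff_of_lt (M : ℕ) (f : ℍ → ℂ) {n : ℤ} (hn : n < -(M : ℤ)) :
    (lau h M f).coeff n = 0 := by
  rw [lau_coeff, PowerSeries.coeff_coe, if_pos (by omega)]

lemma lau_coeff_natCast_sub (M : ℕ) (f : ℍ → ℂ) (m : ℕ) :
    (lau h M f).coeff ((m : ℤ) - M) = (qExpansion (h : ℝ) (f * qh h ^ M)).coeff m := by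
  rw [lau_coeff, sub_add_cancel, HahnSeries.ofPowerSeries_apply_coeff]

/-- The Laurent expansion converges to `f` on all of `ℍ`. -/
theorem hasSum_qexpFun (hf : IsMerInf h f) (τ : ℍ) :
    HasSum (fun n : ℤ => (qexpFun h f).coeff n * qh h τ ^ n) (f τ) := by
  obtain ⟨M, hM⟩ := hf.bdd
  rw [qexpFun_eq_lau hf hM,
    hasSum_int_iff_nat _ M (fun n hn => lau_coeff_of_lt M f hn) _ (qh_ne_zero h τ)]
  have := (hf.isHolInf_mul_pow hM).hasSum τ
  simpa [lau_coeff_natCast_sub] using this

/-- If a Laurent series converges to a holomorphic `f` on all of `ℍ`, then `f` is `h`-periodic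
and meromorphic at `i∞`. -/
theorem IsMerInf.of_hasSum (hol : MDiff f) (φ : LaurentSeries ℂ)
    (hs : ∀ τ : ℍ, HasSum (fun n : ℤ => φ.coeff n * qh h τ ^ n) (f τ)) : IsMerInf h f := by
  refine ⟨hol, ?_, ?_⟩
  · intro w
    by_cases hw : 0 < im w
    · have hw' : 0 < im (w + (h : ℝ)) := by simpa using hw
      have hq : qh h (ofComplex (w + (h : ℝ))) = qh h (ofComplex w) := periodic_qh h w
      have h1 := hs (ofComplex (w + (h : ℝ)))
      rw [hq] at h1
      exact h1.unique (hs (ofComplex w))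
    · have hw0 : im w ≤ 0 := not_lt.mp hw
      have hw' : im (w + (h : ℝ)) ≤ 0 := by simpa using hw0
      simp only [comp_apply]
      rw [ofComplex_apply_of_im_nonpos hw', ofComplex_apply_of_im_nonpos hw0]
  · refine ⟨(-φ.order).toNat, ?_⟩
    set M := (-φ.order).toNat with hMdef
    have hφ : ∀ n : ℤ, n < -(M : ℤ) → φ.coeff n = 0 := by
      intro n hn
      apply HahnSeries.coeff_eq_zero_of_lt_order
      have : -φ.order ≤ (M : ℤ) := by rw [hMdef]; exact Int.self_le_toNat _
      omega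
    have hs' : ∀ τ : ℍ, HasSum (fun m : ℕ => φ.coeff ((m : ℤ) - M) •
        Function.Periodic.qParam (h : ℝ) (τ : ℂ) ^ m) ((f * qh h ^ M) τ) := by
      intro τ
      have := (hasSum_int_iff_nat _ M hφ _ (qh_ne_zero h τ) _).mp (hs τ)
      simpa [smul_eq_mul, qh_apply] using this
    exact isBoundedAtImInfty_of_hasSum_qExpansion (hpos h) hs'

/-- Uniqueness of the Laurent expansion. -/
theorem qexpFun_eq_of_hasSum (hol : MDiff f) (φ : LaurentSeries ℂ)
    (hs : ∀ τ : ℍ, HasSum (fun n : ℤ => φ.coeff n * qh h τ ^ n) (f τ)) : qexpFun h f = φ := by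
  have hf := IsMerInf.of_hasSum hol φ hs
  obtain ⟨M₀, hM₀⟩ := hf.bdd
  set M := max M₀ (-φ.order).toNat with hMdef
  have hM : IsBoundedAtImInfty (f * qh h ^ M) := IsMerInf.bdd_of_le (le_max_left _ _) hM₀
  have hφ : ∀ n : ℤ, n < -(M : ℤ) → φ.coeff n = 0 := by
    intro n hn
    apply HahnSeries.coeff_eq_zero_of_lt_order
    have h1 : -φ.order ≤ ((-φ.order).toNat : ℤ) := Int.self_le_toNat _
    have h2 : ((-φ.order).toNat : ℤ) ≤ (M : ℤ) := by
      exact_mod_cast le_max_right M₀ (-φ.order).toNat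
    omega
  have hs' : ∀ τ : ℍ, HasSum (fun m : ℕ => φ.coeff ((m : ℤ) - M) •
      Function.Periodic.qParam (h : ℝ) (τ : ℂ) ^ m) ((f * qh h ^ M) τ) := by
    intro τ
    have := (hasSum_int_iff_nat _ M hφ _ (qh_ne_zero h τ) _).mp (hs τ)
    simpa [smul_eq_mul, qh_apply] using this
  have hco := qExpansion_coeff_unique_fun h (hpos h)
    (hf.isHolInf_mul_pow hM).hol.continuous (hf.isHolInf_mul_pow hM).analyticAt hs'
  rw [qexpFun_eq_lau hf hM]
  ext n
  by_cases hn : n < -(M : ℤ)
  · rw [lau_coeff_of_lt M f hn, hφ n hn]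
  · rw [not_lt] at hn
    obtain ⟨m, rfl⟩ : ∃ m : ℕ, n = (m : ℤ) - M := ⟨(n + M).toNat, by
      rw [Int.toNat_of_nonneg (by omega)]; ring⟩
    rw [lau_coeff_natCast_sub, ← hco m]

end hasSum

/-- `HasQExp h f φ`: `f` is holomorphic on `ℍ`, `h`-periodic, meromorphic at `i∞` and `φ` is its
Laurent expansion in `q_h = exp (2 π i τ / h)`. -/
def HasQExp (h : ℕ) (f : ℍ → ℂ) (φ : LaurentSeries ℂ) : Prop :=
  IsMerInf h f ∧ qexpFun h f = φ

namespace HasQExp

variable {h : ℕ} [NeZero h] {f g : ℍ → ℂ} {φ ψ : LaurentSeries ℂ}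

lemma isMerInf (hf : HasQExp h f φ) : IsMerInf h f := hf.1

lemma qexpFun_eq (hf : HasQExp h f φ) : qexpFun h f = φ := hf.2

lemma mdiff (hf : HasQExp h f φ) : MDiff f := hf.1.hol

lemma of_isMerInf (hf : IsMerInf h f) : HasQExp h f (qexpFun h f) := ⟨hf, rfl⟩

lemma hasSum (hf : HasQExp h f φ) (τ : ℍ) :
    HasSum (fun n : ℤ => φ.coeff n * qh h τ ^ n) (f τ) := by
  have := hasSum_qexpFun hf.1 τ
  rwa [hf.2] at this

lemma of_hasSum (hol : MDiff f)
    (hs : ∀ τ : ℍ, HasSum (fun n : ℤ => φ.coeff n * qh h τ ^ n) (f τ)) : HasQExp h f φ :=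
  ⟨IsMerInf.of_hasSum hol φ hs, qexpFun_eq_of_hasSum hol φ hs⟩

lemma iff_hasSum (hol : MDiff f) :
    HasQExp h f φ ↔ ∀ τ : ℍ, HasSum (fun n : ℤ => φ.coeff n * qh h τ ^ n) (f τ) :=
  ⟨fun hf => hf.hasSum, of_hasSum hol⟩

lemma mul (hf : HasQExp h f φ) (hg : HasQExp h g ψ) : HasQExp h (f * g) (φ * ψ) :=
  ⟨hf.1.mul hg.1, by rw [qexpFun_mul hf.1 hg.1, hf.2, hg.2]⟩

lemma add (hf : HasQExp h f φ) (hg : HasQExp h g ψ) : HasQExp h (f + g) (φ + ψ) :=
  ⟨hf.1.add hg.1, by rw [qexpFun_add hf.1 hg.1, hf.2, hg.2]⟩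

lemma const (h : ℕ) [NeZero h] (c : ℂ) : HasQExp h (fun _ => c) (HahnSeries.C c) :=
  ⟨IsMerInf.const h c, qexpFun_const h c⟩

lemma one (h : ℕ) [NeZero h] : HasQExp h (1 : ℍ → ℂ) 1 := by
  have := const h 1
  rwa [map_one] at this

lemma zero (h : ℕ) [NeZero h] : HasQExp h (0 : ℍ → ℂ) 0 := by
  have := const h 0
  rwa [map_zero] at this

lemma neg (hf : HasQExp h f φ) : HasQExp h (-f) (-φ) := by
  have := (const h (-1)).mul hf
  have e1 : (fun _ : ℍ => (-1 : ℂ)) * f = -f := by ext τ; simp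
  have e2 : (HahnSeries.C (-1 : ℂ) : LaurentSeries ℂ) * φ = -φ := by
    rw [map_neg, map_one, neg_one_mul]
  rwa [e1, e2] at this

lemma sub (hf : HasQExp h f φ) (hg : HasQExp h g ψ) : HasQExp h (f - g) (φ - ψ) := by
  rw [sub_eq_add_neg, sub_eq_add_neg]; exact hf.add hg.neg

lemma pow (hf : HasQExp h f φ) (n : ℕ) : HasQExp h (f ^ n) (φ ^ n) := by
  induction n with
  | zero => simpa using one h
  | succ n ih => rw [pow_succ, pow_succ]; exact ih.mul hf

/-- The expansion determines the function. -/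
lemma eq_of_eq (hf : HasQExp h f φ) (hg : HasQExp h g φ) : f = g := by
  ext τ
  exact (hf.hasSum τ).unique (hg.hasSum τ)

/-- The function determines the expansion. -/
lemma unique (hf : HasQExp h f φ) (hg : HasQExp h f ψ) : φ = ψ := hf.2.symm.trans hg.2

lemma eq_zero_iff (hf : HasQExp h f φ) : φ = 0 ↔ f = 0 := by
  rw [← hf.2]; exact qexpFun_eq_zero_iff hf.1

lemma qexpInf_eq (hf : HasQExp h f φ) : qexpInf h ⟨f, hf.1⟩ = φ := hf.2

end HasQExp

lemma hasQExp_qh (h : ℕ) [NeZero h] : HasQExp h (qh h) (HahnSeries.single 1 1) := by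
  refine ⟨IsMerInf.of_isHolInf (IsHolInf.qh h), ?_⟩
  rw [qexpFun_of_isHolInf (IsHolInf.qh h), qExpansion_qh, HahnSeries.ofPowerSeries_X]

end Fermat.Agent.S24.H708

end
end
-- ===== PACK-END S24/Mod/H708QInf.lean

-- ===== PACK-BEGIN S24/JFun/Basic.lean
section



/-!
# The analytic `j`-function on the upper half plane (shared analytic core for S24 / S28)

`jFun τ = E₄ τ ^ 3 / Δ τ`.  Basic properties: holomorphy, `SL(2,ℤ)`-invariance, periodicity.
-/

set_option autoImplicit false

namespace Fermat.Agent.S24.JFun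

open UpperHalfPlane ModularForm EisensteinSeries MatrixGroups Complex
open scoped Manifold

/-- The analytic `j`-function `E₄³ / Δ` on the upper half plane. -/
noncomputable def jFun (τ : ℍ) : ℂ := E₄ τ ^ 3 / ModularForm.discriminant τ

theorem jFun_def (τ : ℍ) : jFun τ = E₄ τ ^ 3 / ModularForm.discriminant τ := rfl

theorem jFun_mul_discriminant (τ : ℍ) : jFun τ * ModularForm.discriminant τ = E₄ τ ^ 3 := by
  rw [jFun, div_mul_cancel₀ _ (discriminant_ne_zero τ)]

theorem E₄_smul (γ : SL(2, ℤ)) (τ : ℍ) : E₄ (γ • τ) = denom γ τ ^ (4 : ℤ) * E₄ τ := by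
  have h := SlashInvariantForm.slash_action_eqn'' E₄
    (show ((γ : SL(2, ℤ)) : GL (Fin 2) ℝ) ∈ 𝒮ℒ from ⟨γ, rfl⟩) τ
  simpa using h

theorem E₆_smul (γ : SL(2, ℤ)) (τ : ℍ) : E₆ (γ • τ) = denom γ τ ^ (6 : ℤ) * E₆ τ := by
  have h := SlashInvariantForm.slash_action_eqn'' E₆
    (show ((γ : SL(2, ℤ)) : GL (Fin 2) ℝ) ∈ 𝒮ℒ from ⟨γ, rfl⟩) τ
  simpa using h

theorem discriminant_smul (γ : SL(2, ℤ)) (τ : ℍ) :
    ModularForm.discriminant (γ • τ) = denom γ τ ^ (12 : ℤ) * ModularForm.discriminant τ := by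
  have h := SlashInvariantForm.slash_action_eqn'' CuspForm.discriminant
    (show ((γ : SL(2, ℤ)) : GL (Fin 2) ℝ) ∈ 𝒮ℒ from ⟨γ, rfl⟩) τ
  simpa using h

/-- `j` is invariant under `SL(2,ℤ)`. -/
theorem jFun_smul (γ : SL(2, ℤ)) (τ : ℍ) : jFun (γ • τ) = jFun τ := by
  have hd : denom γ τ ≠ 0 := denom_ne_zero _ _
  rw [jFun, jFun, E₄_smul, discriminant_smul, mul_pow, ← zpow_natCast, ← zpow_mul]
  have h12 : ((4 : ℤ) * ((3 : ℕ) : ℤ)) = 12 := by norm_num
  rw [h12, mul_div_mul_left _ _ (zpow_ne_zero _ hd)]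

/-- `j` is holomorphic on the upper half plane. -/
theorem jFun_mdifferentiable : MDiff jFun := by
  have h4 : MDiff (fun τ : ℍ => E₄ τ ^ 3) := by
    have := (E₄.holo'.pow 3)
    exact this
  exact h4.div CuspForm.discriminant.holo' discriminant_ne_zero

theorem jFun_eq_zero_iff (τ : ℍ) : jFun τ = 0 ↔ E₄ τ = 0 := by
  rw [jFun, div_eq_zero_iff]
  simp [discriminant_ne_zero τ]

theorem jFun_sub_1728 (τ : ℍ) :
    jFun τ - 1728 = E₆ τ ^ 2 / ModularForm.discriminant τ := by
  have hΔ := discriminant_ne_zero τ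
  have h := discriminant_eq_E₄_cube_sub_E₆_sq τ
  rw [jFun]
  field_simp
  rw [h]
  ring

theorem jFun_eq_1728_iff (τ : ℍ) : jFun τ = 1728 ↔ E₆ τ = 0 := by
  rw [← sub_eq_zero, jFun_sub_1728, div_eq_zero_iff]
  simp [discriminant_ne_zero τ]

end Fermat.Agent.S24.JFun

end
-- ===== PACK-END S24/JFun/Basic.lean

-- ===== PACK-BEGIN S24/H117/OrbitCount.lean
section


/-!
# S24 / H117 — an abstract orbit-counting squeeze

Let `perm` be a permutation of a finite set `X`, `φ : X → β` a `perm`-invariant map and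
`e : β → ℕ` such that `e (φ x)` divides every period of `x`.  If `#X ≤ ∑_{v ∈ range φ} e v`, then
`φ` induces a bijection between the cycles of `perm` and `range φ`, and the cycle through `x`
has exactly `e (φ x)` elements.
-/

set_option autoImplicit false

noncomputable section

open MulAction

namespace Fermat.Agent.S24.H117

variable {X β : Type*}

theorem map_eq_of_mem_orbit_zpowers (perm : Equiv.Perm X) (φ : X → β)
    (hperm : ∀ x, φ (perm x) = φ x) {x y : X}
    (h : y ∈ orbit (Subgroup.zpowers perm) x) : φ y = φ x := by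
  obtain ⟨⟨g, hg⟩, rfl⟩ := h
  obtain ⟨k, rfl⟩ := Subgroup.mem_zpowers_iff.mp hg
  show φ ((perm ^ k) x) = φ x
  have hinv : ∀ z, φ (perm⁻¹ z) = φ z := fun z => by
    have := hperm (perm⁻¹ z)
    simpa using this.symm
  induction k using Int.induction_on generalizing x with
  | zero => simp
  | succ n ih =>
    rw [zpow_add_one, Equiv.Perm.mul_apply, ih (x := perm x), hperm]
    exact Subgroup.zpow_mem _ (Subgroup.mem_zpowers perm) _
  | pred n ih =>
    rw [zpow_sub_one, Equiv.Perm.mul_apply, ih (x := perm⁻¹ x), hinv]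
    exact Subgroup.zpow_mem _ (Subgroup.mem_zpowers perm) _

theorem orbit_count_squeeze [Fintype X] [DecidableEq β] (perm : Equiv.Perm X) (φ : X → β)
    (e : β → ℕ)
    (hperm : ∀ x, φ (perm x) = φ x)
    (hdiv : ∀ x (i : ℕ), (perm ^ i) x = x → e (φ x) ∣ i)
    (hsum : Fintype.card X ≤ ∑ v ∈ Finset.univ.image φ, e v) :
    Nat.card (orbitRel.Quotient (Subgroup.zpowers perm) X) = (Finset.univ.image φ).card ∧
      (∀ x, Nat.card (orbit (Subgroup.zpowers perm) x) = e (φ x)) ∧
      (∑ v ∈ Finset.univ.image φ, e v = Fintype.card X) := by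
  classical
  -- orbit sizes
  have hper : ∀ x, e (φ x) ≤ Fintype.card (orbit (Subgroup.zpowers perm) x) := by
    intro x
    have h1 : Function.minimalPeriod (perm • ·) x
        = Fintype.card (orbit (Subgroup.zpowers perm) x) := minimalPeriod_eq_card perm x
    have h2 : (perm ^ Function.minimalPeriod (perm • ·) x) x = x := by
      have := Function.iterate_minimalPeriod (f := (perm • ·)) (x := x)
      rw [smul_iterate] at this
      exact this
    have h3 := hdiv x _ h2
    rw [h1] at h3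
    have : Nonempty (orbit (Subgroup.zpowers perm) x) := (nonempty_orbit x).to_subtype
    exact Nat.le_of_dvd Fintype.card_pos h3
  -- the orbit is inside the fibre
  have hsub : ∀ x, (Finset.univ.filter (fun y : X => y ∈ orbit (Subgroup.zpowers perm) x))
      ⊆ Finset.univ.filter (fun y : X => φ y = φ x) := by
    intro x y hy
    simp only [Finset.mem_filter, Finset.mem_univ, true_and] at hy ⊢
    exact map_eq_of_mem_orbit_zpowers perm φ hperm hy
  have hcardO : ∀ x, (Finset.univ.filter (fun y : X => y ∈ orbit (Subgroup.zpowers perm) x)).card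
      = Fintype.card (orbit (Subgroup.zpowers perm) x) := by
    intro x
    rw [Fintype.card_subtype]
  have hle : ∀ v ∈ Finset.univ.image φ, e v ≤ (Finset.univ.filter (fun y : X => φ y = v)).card := by
    intro v hv
    obtain ⟨x, -, rfl⟩ := Finset.mem_image.mp hv
    calc e (φ x) ≤ Fintype.card (orbit (Subgroup.zpowers perm) x) := hper x
      _ = _ := (hcardO x).symm
      _ ≤ _ := Finset.card_le_card (hsub x)
  have htot : Fintype.card X = ∑ v ∈ Finset.univ.image φ, (Finset.univ.filter (fun y : X => φ y = v)).card := by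
    rw [← Finset.card_univ]
    exact Finset.card_eq_sum_card_fiberwise (fun x _ => Finset.mem_image_of_mem φ (Finset.mem_univ x))
  have hsumeq : ∑ v ∈ Finset.univ.image φ, e v
      = ∑ v ∈ Finset.univ.image φ, (Finset.univ.filter (fun y : X => φ y = v)).card := by
    apply le_antisymm (Finset.sum_le_sum hle)
    rw [← htot]
    exact hsum
  have hfib : ∀ v ∈ Finset.univ.image φ, e v = (Finset.univ.filter (fun y : X => φ y = v)).card :=
    (Finset.sum_eq_sum_iff_of_le hle).mp hsumeq
  have hOeq : ∀ x, (Finset.univ.filter (fun y : X => y ∈ orbit (Subgroup.zpowers perm) x))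
      = Finset.univ.filter (fun y : X => φ y = φ x) := by
    intro x
    apply Finset.eq_of_subset_of_card_le (hsub x)
    rw [← hfib _ (Finset.mem_image_of_mem φ (Finset.mem_univ x)), hcardO]
    exact hper x
  refine ⟨?_, ?_, ?_⟩
  · -- bijection between orbits and the image
    let Φ : orbitRel.Quotient (Subgroup.zpowers perm) X → (Finset.univ.image φ : Finset β) :=
      fun ω => Quotient.liftOn' ω
        (fun x => (⟨φ x, Finset.mem_image_of_mem φ (Finset.mem_univ x)⟩ :
          (Finset.univ.image φ : Finset β)))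
        (fun a b hab => Subtype.ext (map_eq_of_mem_orbit_zpowers perm φ hperm hab))
    have hΦbij : Function.Bijective Φ := by
      constructor
      · intro ω₁ ω₂ h
        induction ω₁ using Quotient.inductionOn' with | _ x
        induction ω₂ using Quotient.inductionOn' with | _ y
        have hxy : φ x = φ y := congrArg Subtype.val h
        apply Quotient.sound'
        show x ∈ orbit (Subgroup.zpowers perm) y
        have : x ∈ Finset.univ.filter (fun z : X => φ z = φ y) := by simp [hxy]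
        rw [← hOeq y] at this
        simpa using this
      · rintro ⟨v, hv⟩
        obtain ⟨x, -, rfl⟩ := Finset.mem_image.mp hv
        exact ⟨Quotient.mk'' x, rfl⟩
    rw [Nat.card_congr (Equiv.ofBijective Φ hΦbij), Nat.card_eq_fintype_card, Fintype.card_coe]
  · intro x
    rw [Nat.card_eq_fintype_card, ← hcardO, hOeq, hfib _ (Finset.mem_image_of_mem φ (Finset.mem_univ x))]
  · rw [hsumeq, ← htot]

end Fermat.Agent.S24.H117

end
end
-- ===== PACK-END S24/H117/OrbitCount.lean

-- ===== PACK-BEGIN S29/H571/Equivariant.lean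
section


/-!
# Equivariance of pull-back / push-forward / correspondences of divisors
under semilinear automorphisms (helper571, piece GEQ of the S29 route)

If `φ : F →ₐ[K] F'` and semilinear automorphisms `g` of `F`, `g'` of `F'` satisfy
`g' (φ x) = φ (g x)` (`SemilinearAut.IntertwinesAlong`), then restriction of places,
ramification indices, inertia degrees, pull-back and push-forward of divisors along `φ`
commute with the actions of `g`, `g'`.  Consequently a correspondence
`Pic0.correspondence φ ψ` commutes with `(g, g')` as soon as both legs intertwine.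
-/

set_option autoImplicit false
set_option linter.style.haveILetI false

noncomputable section

namespace Fermat.Agent.S29.H571

open AlgebraicCurve
open scoped Pointwise

variable {K F F' : Type*} [Field K] [Field F] [Field F'] [Algebra K F] [Algebra K F']

section PlaceLemmas

variable (φ : F →ₐ[K] F') (hφ : φ.toRingHom.IsIntegral)
  {g : SemilinearAut K F} {g' : SemilinearAut K F'}

theorem mem_restrictAlong_iff (w : Place K F') (x : F) :
    x ∈ (w.restrictAlong φ hφ).toValuationSubring ↔ φ x ∈ w.toValuationSubring :=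
  Iff.rfl

theorem restrictAlong_smul (h : SemilinearAut.IntertwinesAlong (φ : F →+* F') g g')
    (w : Place K F') :
    (g' • w).restrictAlong φ hφ = g • (w.restrictAlong φ hφ) := by
  apply Place.ext
  ext x
  rw [mem_restrictAlong_iff, SemilinearAut.smul_toValuationSubring,
    SemilinearAut.smul_toValuationSubring,
    ValuationSubring.mem_pointwise_smul_iff_inv_smul_mem,
    ValuationSubring.mem_pointwise_smul_iff_inv_smul_mem, mem_restrictAlong_iff]
  have := h.inv x
  rw [show (φ : F →+* F') x = φ x from rfl] at this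
  rw [this]
  rfl

theorem ord_smul_apply (h : SemilinearAut.IntertwinesAlong (φ : F →+* F') g g')
    (w : Place K F') (f : F) :
    (g' • w).ord (φ (g • f)) = w.ord (φ f) := by
  have h1 : φ (g • f) = g' • (φ f) := (h f).symm
  rw [h1, SemilinearAut.ord_smul]

theorem ramificationIndexAlong_smul
    (h : SemilinearAut.IntertwinesAlong (φ : F →+* F') g g') (w : Place K F') :
    (g' • w).ramificationIndexAlong φ = w.ramificationIndexAlong φ := by
  unfold Place.ramificationIndexAlong Place.ramificationIndex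
  congr 1
  ext n
  simp only [Set.mem_ofPred_eq]
  constructor
  · rintro ⟨hn, f, hf, hfn⟩
    refine ⟨hn, g⁻¹ • f, by simpa using hf, ?_⟩
    rw [← hfn]
    have := ord_smul_apply φ h w (g⁻¹ • f)
    rw [smul_inv_smul] at this
    exact this.symm
  · rintro ⟨hn, f, hf, hfn⟩
    refine ⟨hn, g • f, by simpa using hf, ?_⟩
    rw [← hfn]
    exact ord_smul_apply φ h w f

/-- The ring isomorphism between the valuation rings of `w.restrictAlong φ` and
`(g' • w).restrictAlong φ` induced by `g`. -/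
def restrictSMulEquiv (h : SemilinearAut.IntertwinesAlong (φ : F →+* F') g g')
    (w : Place K F') :
    (w.restrictAlong φ hφ).toValuationSubring ≃+*
      ((g' • w).restrictAlong φ hφ).toValuationSubring where
  toFun x := ⟨g • (x : F), by
    rw [mem_restrictAlong_iff, SemilinearAut.smul_toValuationSubring,
      show φ (g • (x : F)) = g' • φ (x : F) from (h (x : F)).symm]
    exact ValuationSubring.smul_mem_pointwise_smul g' _ _ ((mem_restrictAlong_iff φ hφ w _).mp x.2)⟩
  invFun y := ⟨g⁻¹ • (y : F), by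
    rw [mem_restrictAlong_iff,
      show φ (g⁻¹ • (y : F)) = g'⁻¹ • φ (y : F) from (h.inv (y : F)).symm]
    have hy := (mem_restrictAlong_iff φ hφ (g' • w) _).mp y.2
    rw [SemilinearAut.smul_toValuationSubring,
      ValuationSubring.mem_pointwise_smul_iff_inv_smul_mem] at hy
    exact hy⟩
  left_inv x := Subtype.ext (inv_smul_smul g (x : F))
  right_inv y := Subtype.ext (smul_inv_smul g (y : F))
  map_mul' x y := Subtype.ext (smul_mul' g (x : F) (y : F))
  map_add' x y := Subtype.ext (smul_add g (x : F) (y : F))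

@[simp]
theorem coe_restrictSMulEquiv_apply (h : SemilinearAut.IntertwinesAlong (φ : F →+* F') g g')
    (w : Place K F') (x : (w.restrictAlong φ hφ).toValuationSubring) :
    ((restrictSMulEquiv φ hφ h w x :
      ((g' • w).restrictAlong φ hφ).toValuationSubring) : F) = g • (x : F) := rfl

theorem inertiaDegAlong_smul (h : SemilinearAut.IntertwinesAlong (φ : F →+* F') g g')
    (w : Place K F') :
    (g' • w).inertiaDegAlong φ hφ = w.inertiaDegAlong φ hφ := by
  letI := algebraAlong φ
  haveI := isScalarTower_along φ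
  haveI := isIntegral_along φ hφ
  show Module.finrank ((g' • w).restrict F).ResidueField (g' • w).ResidueField
    = Module.finrank (w.restrict F).ResidueField w.ResidueField
  symm
  let e : (Place.restrict F w).toValuationSubring ≃+*
      (Place.restrict F (g' • w)).toValuationSubring := restrictSMulEquiv φ hφ h w
  refine Algebra.finrank_eq_of_equiv_equiv
    (IsLocalRing.ResidueField.mapEquiv e)
    (SemilinearAut.smulResidueRingEquiv g' w) ?_
  refine Ideal.Quotient.ringHom_ext (RingHom.ext fun x => ?_)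
  show algebraMap ((g' • w).restrict F).ResidueField (g' • w).ResidueField
      (IsLocalRing.ResidueField.mapEquiv e
        (IsLocalRing.residue (Place.restrict F w).toValuationSubring x))
    = SemilinearAut.smulResidueRingEquiv g' w
        (algebraMap (w.restrict F).ResidueField w.ResidueField
          (IsLocalRing.residue (Place.restrict F w).toValuationSubring x))
  rw [IsLocalRing.ResidueField.mapEquiv_apply, IsLocalRing.ResidueField.map_residue,
    Place.algebraMap_residueField_eq, Place.algebraMap_residueField_eq,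
    Place.restrictResidueMap_residue, Place.restrictResidueMap_residue]
  show IsLocalRing.residue _ _ = IsLocalRing.ResidueField.mapEquiv _ (IsLocalRing.residue _ _)
  rw [IsLocalRing.ResidueField.mapEquiv_apply, IsLocalRing.ResidueField.map_residue]
  refine congrArg _ (Subtype.ext ?_)
  exact (h (x : F)).symm

end PlaceLemmas

section DivisorLemmas

variable (φ : F →ₐ[K] F') (hφ : φ.toRingHom.IsIntegral)
  {g : SemilinearAut K F} {g' : SemilinearAut K F'}

theorem pushforwardAlong_smul (h : SemilinearAut.IntertwinesAlong (φ : F →+* F') g g')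
    (D : Divisor K F') :
    Divisor.pushforwardAlong φ hφ (g' • D) = g • Divisor.pushforwardAlong φ hφ D := by
  induction D using Finsupp.induction with
  | zero => simp
  | single_add w n D _ _ ih =>
    rw [smul_add, map_add, map_add, smul_add, ih, SemilinearAut.smul_single,
      Divisor.pushforwardAlong_single, Divisor.pushforwardAlong_single,
      SemilinearAut.smul_single, restrictAlong_smul φ hφ h, inertiaDegAlong_smul φ hφ h]

theorem pullbackAlong_smul [HasPrincipalDivisors K F']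
    (h : SemilinearAut.IntertwinesAlong (φ : F →+* F') g g') (D : Divisor K F) :
    Divisor.pullbackAlong φ hφ (g • D) = g' • Divisor.pullbackAlong φ hφ D := by
  ext w
  rw [Divisor.pullbackAlong_apply, SemilinearAut.divisor_smul_apply,
    SemilinearAut.divisor_smul_apply, Divisor.pullbackAlong_apply,
    restrictAlong_smul φ hφ h.inv, ramificationIndexAlong_smul φ h.inv]

end DivisorLemmas

section CorrespondenceLemmas

variable [HasPrincipalDivisors K F']
variable (φ ψ : F →ₐ[K] F') (hφ : φ.toRingHom.IsIntegral) (hψ : ψ.toRingHom.IsIntegral)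
  {g : SemilinearAut K F} {g' : SemilinearAut K F'}

theorem divisor_correspondence_smul
    (h₁ : SemilinearAut.IntertwinesAlong (φ : F →+* F') g g')
    (h₂ : SemilinearAut.IntertwinesAlong (ψ : F →+* F') g g') (D : Divisor K F) :
    Divisor.correspondence φ ψ hφ hψ (g • D) = g • Divisor.correspondence φ ψ hφ hψ D := by
  rw [Divisor.correspondence_apply, Divisor.correspondence_apply,
    pullbackAlong_smul φ hφ h₁, pushforwardAlong_smul ψ hψ h₂]

theorem pic0_correspondence_smul
    (hFI : FundamentalIdentityAlong K φ hφ)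
    (hfin : FiniteAlong K ψ) (hN : NormFormulaAlong K ψ hfin)
    (h₁ : SemilinearAut.IntertwinesAlong (φ : F →+* F') g g')
    (h₂ : SemilinearAut.IntertwinesAlong (ψ : F →+* F') g g') (x : Pic0 K F) :
    Pic0.correspondence φ ψ hφ hψ hFI hfin hN (g • x)
      = g • Pic0.correspondence φ ψ hφ hψ hFI hfin hN x := by
  obtain ⟨D, rfl⟩ := Pic0.mk_surjective x
  rw [SemilinearAut.pic0_smul_mk, Pic0.correspondence_mk, Pic0.correspondence_mk,
    SemilinearAut.pic0_smul_mk]
  refine congrArg Pic0.mk (Subtype.ext ?_)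
  rw [Pic0.coe_degZeroCorrespondence, SemilinearAut.coe_degZeroSMulHom,
    SemilinearAut.coe_degZeroSMulHom, Pic0.coe_degZeroCorrespondence]
  exact divisor_correspondence_smul φ ψ hφ hψ h₁ h₂ (D : Divisor K F)

end CorrespondenceLemmas

end Fermat.Agent.S29.H571

end
end
-- ===== PACK-END S29/H571/Equivariant.lean

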