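import Mathlib
import Fermat.Prelude.Def_EllipticCurve_FrobeniusTrace
import Fermat.Statements.S22
import Fermat.Statements.S21
import Fermat.Statements.S24
import Fermat.Prelude.Def_AlgebraicCurve_DivisorClassGroup
import Fermat.Prelude.Def_ModularForm_HeckeOperatorForms
import Fermat.Prelude.Thm_ModularForm_heckeT_slash_eq_self_of_mem_Gamma0
import Fermat.Prelude.Def_ModularCurve_PeriodMap

-- ===== PACK-BEGIN S30/H990/Quad.lean
section
/-
S30 top glue (helper990): pure algebra, part 1.

* `lucas`           : `h² - a h + b = 0`  ⟹  `(h^j)² - t (h^j) + b^j = 0` for some scalar `t`.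
* `anticomm_of_rel` : quadratic relations for `x`, `x y` with `y² = 1` and "determinants" `d`, `-d`
                      give `x y + y x = a' + a y`.
* `Matrix` lemmas for `2 × 2` matrices satisfying a quadratic relation.
-/


set_option autoImplicit false

namespace Fermat.Agent.S30.H990

section Lucas

variable {R A : Type*} [CommRing R] [Ring A] [Algebra R A]

/-- If `h` satisfies `X² - aX + b`, then `h ^ j` satisfies `X² - tX + b ^ j` for some `t`. -/
theorem lucas (h : A) (a b : R) (hrel : h * h - a • h + b • (1 : A) = 0) (j : ℕ) :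
    ∃ t : R, h ^ j * h ^ j - t • h ^ j + (b ^ j) • (1 : A) = 0 := by
  -- the "conjugate" of `h`
  set k : A := a • (1 : A) - h with hk
  have hcomm : Commute h k := by
    have : Commute h (a • (1 : A)) := (Commute.one_right h).smul_right a
    exact this.sub_right (Commute.refl h)
  have hhk : h * k = b • (1 : A) := by
    have : h * k = a • h - h * h := by
      rw [hk, mul_sub, mul_smul_comm, mul_one]
    rw [this]
    calc a • h - h * h = b • (1 : A) - (h * h - a • h + b • (1 : A)) := by abel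
      _ = b • (1 : A) := by rw [hrel, sub_zero]
  have hsum : h + k = a • (1 : A) := by rw [hk]; abel
  -- power sums are scalars
  have key : ∀ n : ℕ, (∃ t : R, h ^ n + k ^ n = t • (1 : A)) ∧
      (∃ t : R, h ^ (n + 1) + k ^ (n + 1) = t • (1 : A)) := by
    intro n
    induction n with
    | zero =>
      refine ⟨⟨2, ?_⟩, ⟨a, ?_⟩⟩
      · rw [pow_zero, pow_zero, two_smul]
      · rw [zero_add, pow_one, pow_one, hsum]
    | succ n ih =>
      obtain ⟨⟨t0, h0⟩, ⟨t1, h1⟩⟩ := ih
      refine ⟨⟨t1, h1⟩, ⟨a * t1 - b * t0, ?_⟩⟩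
      have e1 : h ^ (n + 1 + 1) + k ^ (n + 1 + 1)
          = (h + k) * (h ^ (n + 1) + k ^ (n + 1)) - (h * k) * (h ^ n + k ^ n) := by
        have c1 : k * h ^ (n + 1) = (h * k) * h ^ n := by
          rw [pow_succ', ← mul_assoc, hcomm.eq]
        have c2 : h * k ^ (n + 1) = (h * k) * k ^ n := by
          rw [pow_succ', ← mul_assoc]
        rw [add_mul, mul_add, mul_add, mul_add, c1, c2, pow_succ' h (n + 1), pow_succ' k (n + 1)]
        abel
      rw [e1, hsum, hhk, h1, h0]
      simp only [mul_smul_comm, mul_one, smul_smul, sub_smul]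
      rw [mul_comm t1 a, mul_comm t0 b]
  obtain ⟨t, ht⟩ := (key j).1
  refine ⟨t, ?_⟩
  have hprod : h ^ j * k ^ j = (b ^ j) • (1 : A) := by
    rw [← hcomm.mul_pow, hhk, smul_pow, one_pow]
  have : h ^ j * h ^ j - t • h ^ j + (b ^ j) • (1 : A) = h ^ j * (h ^ j + k ^ j - t • (1 : A)) := by
    rw [mul_sub, mul_add, hprod, mul_smul_comm, mul_one]
    abel
  rw [this, ht, sub_self, mul_zero]

end Lucas

section Anticomm

variable {R A : Type*} [CommRing R] [Ring A] [Algebra R A]

/-- The anticommutator identity. -/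
theorem anticomm_of_rel (x y : A) (a a' : R) (d : Rˣ) (hy : y * y = 1)
    (hx : x * x - a • x + (d : R) • (1 : A) = 0)
    (hxy : (x * y) * (x * y) - a' • (x * y) + (-(d : R)) • (1 : A) = 0) :
    x * y + y * x = a' • (1 : A) + a • y := by
  -- `x y x = a' x + d y`
  have h1 : x * y * x = a' • x + (d : R) • y := by
    have := congrArg (· * y) hxy
    simp only [zero_mul, add_mul, sub_mul, smul_mul_assoc, neg_smul, neg_mul, one_mul] at this
    have e : x * y * (x * y) * y = x * y * x := by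
      rw [mul_assoc (x * y) (x * y) y, mul_assoc x y y, hy, mul_one]
    have e' : x * y * y = x := by rw [mul_assoc, hy, mul_one]
    rw [e, e'] at this
    calc x * y * x = (x * y * x - a' • x + -((d : R) • y)) + (a' • x + (d : R) • y) := by abel
      _ = a' • x + (d : R) • y := by rw [this, zero_add]
  -- `(a - x) x = d`
  have h2 : (a • (1 : A) - x) * x = (d : R) • (1 : A) := by
    rw [sub_mul, smul_mul_assoc, one_mul]
    calc a • x - x * x = (d : R) • (1 : A) - (x * x - a • x + (d : R) • (1 : A)) := by abel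
      _ = (d : R) • (1 : A) := by rw [hx, sub_zero]
  have h3 : (d : R) • (y * x) = (d : R) • (a' • (1 : A) + a • y - x * y) := by
    have : (a • (1 : A) - x) * (x * y * x) = (d : R) • (y * x) := by
      rw [← mul_assoc, ← mul_assoc, h2, smul_mul_assoc, one_mul, smul_mul_assoc]
    rw [← this, h1, mul_add, mul_smul_comm, mul_smul_comm, h2, sub_mul, smul_mul_assoc, one_mul]
    simp only [smul_add, smul_sub, smul_smul]
    rw [mul_comm a' (d : R), mul_comm (d : R) a]
    abel
  have h4 : y * x = a' • (1 : A) + a • y - x * y := by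
    have := congrArg (fun z => ((d⁻¹ : Rˣ) : R) • z) h3
    simpa only [smul_smul, Units.inv_mul, one_smul] using this
  rw [h4]; abel

end Anticomm

end Fermat.Agent.S30.H990

namespace Fermat.Agent.S30.H990

section Mat2

open Matrix

variable {R : Type*} [CommRing R]

/-- Cayley–Hamilton for `2 × 2` matrices, by hand. -/
theorem mat2_cayley (X : Matrix (Fin 2) (Fin 2) R) :
    X * X - X.trace • X + X.det • (1 : Matrix (Fin 2) (Fin 2) R) = 0 := by
  ext i j
  fin_cases i <;> fin_cases j <;>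
    simp [Matrix.mul_apply, Fin.sum_univ_two, Matrix.trace_fin_two, Matrix.det_fin_two] <;> ring

variable [IsDomain R]

/-- A `2 × 2` matrix satisfying `X² - aX + d = 0` has trace `a` and determinant `d`,
or it is a scalar matrix. -/
theorem mat2_dichotomy (X : Matrix (Fin 2) (Fin 2) R) (a d : R)
    (h : X * X - a • X + d • (1 : Matrix (Fin 2) (Fin 2) R) = 0) :
    (X.trace = a ∧ X.det = d) ∨ ∃ l : R, X = l • (1 : Matrix (Fin 2) (Fin 2) R) := by
  have hc := mat2_cayley X
  have key : (X.trace - a) • X = (X.det - d) • (1 : Matrix (Fin 2) (Fin 2) R) := by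
    have : (X.trace - a) • X - (X.det - d) • (1 : Matrix (Fin 2) (Fin 2) R)
        = (X * X - a • X + d • (1 : Matrix (Fin 2) (Fin 2) R))
          - (X * X - X.trace • X + X.det • (1 : Matrix (Fin 2) (Fin 2) R)) := by
      simp only [sub_smul]; abel
    rw [h, hc, sub_zero] at this
    exact sub_eq_zero.mp this
  by_cases ht : X.trace = a
  · left
    refine ⟨ht, ?_⟩
    have h00 := congrFun (congrFun key 0) 0
    simp only [ht, sub_self, Matrix.smul_apply, Matrix.one_apply_eq,
      smul_eq_mul, mul_one, zero_mul] at h00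
    exact (sub_eq_zero.mp h00.symm)
  · right
    have hne : X.trace - a ≠ 0 := sub_ne_zero.mpr ht
    have h00 := congrFun (congrFun key 0) 0
    have h01 := congrFun (congrFun key 0) 1
    have h10 := congrFun (congrFun key 1) 0
    have h11 := congrFun (congrFun key 1) 1
    simp only [Matrix.smul_apply, smul_eq_mul, Matrix.one_apply_eq, mul_one] at h00 h11
    simp only [Matrix.smul_apply, smul_eq_mul, ne_eq, zero_ne_one, not_false_eq_true,
      Matrix.one_apply_ne, mul_zero, mul_eq_zero, hne, false_or] at h01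
    simp only [Matrix.smul_apply, smul_eq_mul, ne_eq, one_ne_zero, not_false_eq_true,
      Matrix.one_apply_ne, mul_zero, mul_eq_zero, hne, false_or] at h10
    have hd : X 0 0 = X 1 1 := mul_left_cancel₀ hne (h00.trans h11.symm)
    refine ⟨X 0 0, ?_⟩
    ext i j
    fin_cases i <;> fin_cases j <;> simp [h01, h10, hd]

/-- If `l • C` is scalar with `l ≠ 0`, then `C` is scalar. -/
theorem mat2_scalar_of_smul_scalar (C : Matrix (Fin 2) (Fin 2) R) (l m : R) (hl : l ≠ 0)
    (h : l • C = m • (1 : Matrix (Fin 2) (Fin 2) R)) :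
    ∃ n : R, C = n • (1 : Matrix (Fin 2) (Fin 2) R) := by
  have h00 := congrFun (congrFun h 0) 0
  have h01 := congrFun (congrFun h 0) 1
  have h10 := congrFun (congrFun h 1) 0
  have h11 := congrFun (congrFun h 1) 1
  simp only [Matrix.smul_apply, smul_eq_mul, Matrix.one_apply_eq, mul_one] at h00 h11
  simp only [Matrix.smul_apply, smul_eq_mul, ne_eq, zero_ne_one, not_false_eq_true,
    Matrix.one_apply_ne, mul_zero, mul_eq_zero, hl, false_or] at h01
  simp only [Matrix.smul_apply, smul_eq_mul, ne_eq, one_ne_zero, not_false_eq_true,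
    Matrix.one_apply_ne, mul_zero, mul_eq_zero, hl, false_or] at h10
  have hd : C 0 0 = C 1 1 := mul_left_cancel₀ hl (h00.trans h11.symm)
  refine ⟨C 0 0, ?_⟩
  ext i j
  fin_cases i <;> fin_cases j <;> simp [h01, h10, hd]

/-- Trace and determinant of a two-dimensional matrix representation all of whose elements
satisfy quadratic relations with multiplicative constant term, in the presence of a non-scalar
element `c` with `d c = -1`. -/
theorem mat2_trace_det_of_rel {G : Type*} [Group G] (A : G →* Matrix (Fin 2) (Fin 2) R)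
    (d : G →* Rˣ)
    (hrel : ∀ g, ∃ a : R, A g * A g - a • A g + ((d g : Rˣ) : R) • 1 = 0)
    (c : G) (hdc : d c = -1) (hcns : ¬ ∃ l : R, A c = l • (1 : Matrix (Fin 2) (Fin 2) R))
    (g : G) (a : R) (hg : A g * A g - a • A g + ((d g : Rˣ) : R) • 1 = 0) :
    (A g).trace = a ∧ (A g).det = ((d g : Rˣ) : R) := by
  rcases mat2_dichotomy (A g) a _ hg with h | ⟨l, hl⟩
  · exact h
  -- scalar case
  have hdetc : (A c).det = -1 := by
    obtain ⟨ac, hac⟩ := hrel c
    rcases mat2_dichotomy (A c) ac _ hac with h | h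
    · rw [h.2, hdc]; simp
    · exact absurd h hcns
  have hl0 : l ≠ 0 := by
    intro h0
    have h1 : A g * A g⁻¹ = 1 := by rw [← map_mul, mul_inv_cancel, map_one]
    rw [hl, h0, zero_smul, zero_mul] at h1
    exact zero_ne_one h1
  have hgc : A (g * c) = l • A c := by rw [map_mul, hl, smul_mul_assoc, one_mul]
  obtain ⟨a', ha'⟩ := hrel (g * c)
  have hdetgc : (A (g * c)).det = -((d g : Rˣ) : R) := by
    rcases mat2_dichotomy (A (g * c)) a' _ ha' with h | ⟨m, hm⟩
    · rw [h.2, map_mul, hdc]; simp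
    · rw [hgc] at hm
      exact absurd (mat2_scalar_of_smul_scalar (A c) l m hl0 hm) hcns
  have hd : ((d g : Rˣ) : R) = l ^ 2 := by
    rw [hgc, Matrix.det_smul, hdetc, Fintype.card_fin] at hdetgc
    linear_combination hdetgc
  have ha : a = 2 * l := by
    have h00 := congrFun (congrFun hg 0) 0
    rw [hl, hd] at h00
    simp only [Matrix.add_apply, Matrix.sub_apply, Matrix.mul_apply, Fin.sum_univ_two,
      Matrix.smul_apply, Matrix.one_apply_eq, smul_eq_mul, mul_one, Matrix.zero_apply, ne_eq,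
      zero_ne_one, not_false_eq_true, Matrix.one_apply_ne, mul_zero, add_zero] at h00
    have : l * (2 * l - a) = 0 := by linear_combination h00
    rcases mul_eq_zero.mp this with h | h
    · exact absurd h hl0
    · exact (sub_eq_zero.mp h).symm
  constructor
  · rw [hl, Matrix.trace_fin_two]; simp [ha]; ring
  · rw [hl, hd, Matrix.det_fin_two]; simp; ring

end Mat2

end Fermat.Agent.S30.H990

end
-- ===== PACK-END S30/H990/Quad.lean

-- ===== PACK-BEGIN S55/H414/CycloOrder.lean
section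


/-!
# S55, leaf CYC-INF (helper414), part 2: orders of integers modulo `p ^ n`

Elementary number theory: if `q ≥ 2` then the `p`-part of the multiplicative order of `q`
modulo `p ^ n` tends to infinity with `n`.
-/

set_option autoImplicit false

namespace Fermat.Agent.S55.H414

/-- If `o ∣ (p - 1) * p ^ m` and `p ^ k ∤ o` (with `k ≥ 1`), then `o ∣ (p - 1) * p ^ (k - 1)`. -/
theorem dvd_pred_mul_pow_of_not_pow_dvd {p : ℕ} (hp : p.Prime) {o m k : ℕ}
    (ho : o ∣ (p - 1) * p ^ m) (hk : ¬ p ^ k ∣ o) : o ∣ (p - 1) * p ^ (k - 1) := by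
  have ho0 : o ≠ 0 := by
    rintro rfl
    exact hk (dvd_zero _)
  obtain ⟨j, a, ha, rfl⟩ := Nat.exists_eq_pow_mul_and_not_dvd ho0 p hp.ne_one
  have hcop : Nat.Coprime a (p ^ m) := Nat.Coprime.pow_right _
    ((Nat.Prime.coprime_iff_not_dvd hp).2 ha).symm
  have ha1 : a ∣ p - 1 := by
    have : a ∣ (p - 1) * p ^ m := (Dvd.intro_left _ rfl).trans ho
    exact hcop.dvd_of_dvd_mul_right this
  have hj : j < k := by
    by_contra hjk
    exact hk ((pow_dvd_pow p (Nat.le_of_not_lt hjk)).trans (Dvd.intro _ rfl))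
  have hj' : p ^ j ∣ p ^ (k - 1) := pow_dvd_pow p (by omega)
  rw [mul_comm (p - 1)]
  exact Nat.mul_dvd_mul hj' ha1

/-- For `q ≥ 2` and every `k`, for all large `n`, every unit of `ZMod (p ^ n)` which is the class
of `q` has order divisible by `p ^ k`. -/
theorem exists_forall_pow_dvd_orderOf (p q : ℕ) (hp : p.Prime) (hq : 2 ≤ q) (k : ℕ) :
    ∃ n₀ : ℕ, ∀ n, n₀ ≤ n → ∀ u : (ZMod (p ^ n))ˣ, (u : ZMod (p ^ n)) = (q : ZMod (p ^ n)) →
      p ^ k ∣ orderOf u := by
  set E : ℕ := (p - 1) * p ^ (k - 1) with hE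
  have hE0 : 0 < E := Nat.mul_pos (Nat.sub_pos_of_lt hp.one_lt) (pow_pos hp.pos _)
  set m : ℕ := q ^ E with hm
  have hm2 : 2 ≤ m := by
    calc 2 ≤ q := hq
      _ = q ^ 1 := (pow_one q).symm
      _ ≤ q ^ E := Nat.pow_le_pow_right (by omega) hE0
  refine ⟨m, fun n hn u hu => ?_⟩
  by_contra hk
  haveI : NeZero (p ^ n) := ⟨pow_ne_zero _ hp.ne_zero⟩
  have hn0 : n ≠ 0 := by
    rintro rfl
    omega
  have hcard : Nat.card (ZMod (p ^ n))ˣ = (p - 1) * p ^ (n - 1) := by
    rw [Nat.card_eq_fintype_card, ZMod.card_units_eq_totient,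
      Nat.totient_prime_pow hp (Nat.pos_of_ne_zero hn0), mul_comm]
  have ho : orderOf u ∣ (p - 1) * p ^ (n - 1) := by
    rw [← hcard]
    exact orderOf_dvd_natCard u
  have hoE : orderOf u ∣ E := dvd_pred_mul_pow_of_not_pow_dvd hp ho hk
  have h1 : u ^ E = 1 := orderOf_dvd_iff_pow_eq_one.1 hoE
  have h2 : ((m : ℕ) : ZMod (p ^ n)) = 1 := by
    have := congrArg (fun v : (ZMod (p ^ n))ˣ => (v : ZMod (p ^ n))) h1
    simp only [Units.val_pow_eq_pow_val, Units.val_one, hu] at this
    rw [hm, Nat.cast_pow]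
    exact this
  have h3 : ((m - 1 : ℕ) : ZMod (p ^ n)) = 0 := by
    rw [Nat.cast_sub (by omega), h2]
    simp
  have h4 : p ^ n ∣ m - 1 := (ZMod.natCast_eq_zero_iff _ _).1 h3
  have h5 : p ^ n ≤ m - 1 := Nat.le_of_dvd (by omega) h4
  have h6 : m < p ^ m := Nat.lt_pow_self hp.one_lt
  have h7 : p ^ m ≤ p ^ n := Nat.pow_le_pow_right hp.pos hn
  omega

end Fermat.Agent.S55.H414

end
-- ===== PACK-END S55/H414/CycloOrder.lean

-- ===== PACK-BEGIN S54/FrobLift.lean
section


set_option autoImplicit false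
set_option linter.style.haveILetI false

open scoped Pointwise

namespace Fermat.Agent.S54

/-- The absolute Galois group acts continuously on the (discrete) ring of all algebraic
integers. -/
theorem continuousSMul_integralClosure :
    letI : TopologicalSpace (integralClosure ℤ (AlgebraicClosure ℚ)) := ⊥
    ContinuousSMul (AlgebraicClosure ℚ ≃ₐ[ℚ] AlgebraicClosure ℚ)
      (integralClosure ℤ (AlgebraicClosure ℚ)) := by
  letI : TopologicalSpace (integralClosure ℤ (AlgebraicClosure ℚ)) := ⊥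
  haveI : DiscreteTopology (integralClosure ℤ (AlgebraicClosure ℚ)) := ⟨rfl⟩
  haveI : Algebra.IsAlgebraic ℚ (AlgebraicClosure ℚ) := AlgebraicClosure.isAlgebraic ℚ
  refine ⟨?_⟩
  rw [continuous_prod_of_discrete_right]
  intro b
  rw [continuous_discrete_rng]
  intro c
  rw [isOpen_iff_mem_nhds]
  intro g hg
  let E : IntermediateField ℚ (AlgebraicClosure ℚ) :=
    IntermediateField.adjoin ℚ {(b : AlgebraicClosure ℚ)}
  haveI : FiniteDimensional ℚ E :=
    IntermediateField.adjoin.finiteDimensional (Algebra.IsIntegral.isIntegral _)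
  have hopen : IsOpen ((g • (E.fixingSubgroup : Set (AlgebraicClosure ℚ ≃ₐ[ℚ] AlgebraicClosure ℚ)))) :=
    (E.fixingSubgroup_isOpen).smul g
  refine Filter.mem_of_superset (hopen.mem_nhds ⟨1, one_mem _, by simp⟩) ?_
  rintro _ ⟨h, hh, rfl⟩
  simp only [Set.mem_preimage, Set.mem_singleton_iff] at hg ⊢
  rw [← hg]
  apply Subtype.ext
  have hb : h (b : AlgebraicClosure ℚ) = b := by
    have := (IntermediateField.mem_fixingSubgroup_iff E h).mp hh b
      (IntermediateField.subset_adjoin ℚ _ (Set.mem_singleton _))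
    exact this
  show (g * h) (b : AlgebraicClosure ℚ) = g (b : AlgebraicClosure ℚ)
  rw [AlgEquiv.mul_apply, hb]

/-- `ℚ̄/ℚ` is Galois. -/
theorem isGalois_algebraicClosure_rat : IsGalois ℚ (AlgebraicClosure ℚ) := by
  haveI : Algebra.IsAlgebraic ℚ (AlgebraicClosure ℚ) := AlgebraicClosure.isAlgebraic ℚ
  haveI : IsAlgClosure ℚ (AlgebraicClosure ℚ) := ⟨inferInstance, inferInstance⟩
  haveI : Normal ℚ (AlgebraicClosure ℚ) := IsAlgClosure.normal ℚ (AlgebraicClosure ℚ)
  exact isGalois_iff.mpr ⟨inferInstance, inferInstance⟩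

/-- The algebraic integers fixed by the whole absolute Galois group are the rational
integers. -/
theorem isInvariant_integralClosure :
    Algebra.IsInvariant ℤ (integralClosure ℤ (AlgebraicClosure ℚ))
      (AlgebraicClosure ℚ ≃ₐ[ℚ] AlgebraicClosure ℚ) := by
  haveI := isGalois_algebraicClosure_rat
  refine ⟨fun b hb => ?_⟩
  have hfix : (b : AlgebraicClosure ℚ) ∈
      IntermediateField.fixedField (⊤ : Subgroup (AlgebraicClosure ℚ ≃ₐ[ℚ] AlgebraicClosure ℚ)) := by
    rintro ⟨g, -⟩
    exact congrArg Subtype.val (hb g)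
  rw [InfiniteGalois.fixedField_bot, IntermediateField.mem_bot] at hfix
  obtain ⟨q, hq⟩ := hfix
  have hint : IsIntegral ℤ (b : AlgebraicClosure ℚ) := b.2
  rw [← hq, isIntegral_algebraMap_iff (FaithfulSMul.algebraMap_injective ℚ (AlgebraicClosure ℚ))]
    at hint
  obtain ⟨n, hn⟩ := IsIntegrallyClosed.algebraMap_eq_of_integral hint
  refine ⟨n, Subtype.ext ?_⟩
  rw [← hq, ← hn]
  simp

/-- Existence of Frobenius lifts on the ring of all algebraic integers: for every prime ideal
`Q` of `ℤ̄` containing the prime number `ℓ` there is `σ ∈ Gal(ℚ̄/ℚ)` stabilising `Q` and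
inducing `x ↦ x ^ ℓ` on `ℤ̄ / Q`. -/
theorem exists_frob_integralClosure (ℓ : ℕ) (hℓ : ℓ.Prime)
    (Q : Ideal (integralClosure ℤ (AlgebraicClosure ℚ))) [Q.IsPrime]
    (hQ : (ℓ : integralClosure ℤ (AlgebraicClosure ℚ)) ∈ Q) :
    ∃ σ : AlgebraicClosure ℚ ≃ₐ[ℚ] AlgebraicClosure ℚ,
      σ • Q = Q ∧
      ∀ x : integralClosure ℤ (AlgebraicClosure ℚ), σ • x - x ^ ℓ ∈ Q := by
  haveI := isGalois_algebraicClosure_rat
  haveI : Algebra.IsAlgebraic ℚ (AlgebraicClosure ℚ) := AlgebraicClosure.isAlgebraic ℚ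
  letI : TopologicalSpace (integralClosure ℤ (AlgebraicClosure ℚ)) := ⊥
  haveI : DiscreteTopology (integralClosure ℤ (AlgebraicClosure ℚ)) := ⟨rfl⟩
  haveI := continuousSMul_integralClosure
  haveI := isInvariant_integralClosure
  haveI hℓfact : Fact ℓ.Prime := ⟨hℓ⟩
  -- the prime `P = (ℓ)` of `ℤ`
  let P : Ideal ℤ := Ideal.span {(ℓ : ℤ)}
  haveI hPmax : P.IsMaximal :=
    PrincipalIdealRing.isMaximal_of_irreducible
      (Nat.prime_iff_prime_int.mp hℓ).irreducible
  haveI hlies : Q.LiesOver P := by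
    refine ⟨?_⟩
    have hle : P ≤ Q.under ℤ := by
      rw [Ideal.span_le, Set.singleton_subset_iff]
      show algebraMap ℤ (integralClosure ℤ (AlgebraicClosure ℚ)) (ℓ : ℤ) ∈ Q
      simpa using hQ
    have hne : Q.under ℤ ≠ ⊤ := (Ideal.IsPrime.under ℤ Q).ne_top
    exact (hPmax.eq_of_le hne hle)
  -- characteristic of the quotient
  haveI : IsDomain (integralClosure ℤ (AlgebraicClosure ℚ) ⧸ Q) := Ideal.Quotient.isDomain Q
  have hzero : ((ℓ : ℕ) : integralClosure ℤ (AlgebraicClosure ℚ) ⧸ Q) = 0 := by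
    have : (Ideal.Quotient.mk Q) (ℓ : integralClosure ℤ (AlgebraicClosure ℚ)) = 0 :=
      Ideal.Quotient.eq_zero_iff_mem.mpr hQ
    simpa using this
  haveI hchar : CharP (integralClosure ℤ (AlgebraicClosure ℚ) ⧸ Q) ℓ :=
    (CharP.charP_iff_prime_eq_zero hℓ).mpr hzero
  -- the Frobenius as an algebra automorphism
  let f : (integralClosure ℤ (AlgebraicClosure ℚ) ⧸ Q) →ₐ[ℤ ⧸ P]
      (integralClosure ℤ (AlgebraicClosure ℚ) ⧸ Q) :=
    { toRingHom := frobenius (integralClosure ℤ (AlgebraicClosure ℚ) ⧸ Q) ℓ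
      commutes' := by
        intro y
        obtain ⟨n, rfl⟩ := Ideal.Quotient.mk_surjective y
        show frobenius _ ℓ (algebraMap (ℤ ⧸ P) _ (Ideal.Quotient.mk P n)) =
          algebraMap (ℤ ⧸ P) _ (Ideal.Quotient.mk P n)
        have h1 : algebraMap (ℤ ⧸ P) (integralClosure ℤ (AlgebraicClosure ℚ) ⧸ Q)
            (Ideal.Quotient.mk P n) = ((n : ℤ) : integralClosure ℤ (AlgebraicClosure ℚ) ⧸ Q) := by
          rw [← Ideal.Quotient.algebraMap_eq, ← IsScalarTower.algebraMap_apply]
          simp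
        rw [h1, map_intCast] }
  have hinj : Function.Injective f := frobenius_inj _ ℓ
  have hsurj : Function.Surjective f := by
    intro y
    obtain ⟨b, rfl⟩ := Ideal.Quotient.mk_surjective y
    obtain ⟨c, hc⟩ := IsAlgClosed.exists_pow_nat_eq (b : AlgebraicClosure ℚ) hℓ.pos
    have hcint : IsIntegral ℤ c := by
      have hb : IsIntegral ℤ (c ^ ℓ) := hc ▸ b.2
      exact IsIntegral.of_pow hℓ.pos hb
    refine ⟨Ideal.Quotient.mk Q ⟨c, hcint⟩, ?_⟩
    show frobenius _ ℓ (Ideal.Quotient.mk Q ⟨c, hcint⟩) = _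
    rw [frobenius_def, ← map_pow]
    congr 1
    exact Subtype.ext hc
  let e : (integralClosure ℤ (AlgebraicClosure ℚ) ⧸ Q) ≃ₐ[ℤ ⧸ P]
      (integralClosure ℤ (AlgebraicClosure ℚ) ⧸ Q) :=
    AlgEquiv.ofBijective f ⟨hinj, hsurj⟩
  obtain ⟨σ, hσ⟩ := Ideal.Quotient.stabilizerHom_surjective_of_profinite
    (G := AlgebraicClosure ℚ ≃ₐ[ℚ] AlgebraicClosure ℚ) P Q e
  refine ⟨σ.1, σ.2, fun x => ?_⟩
  have h2 := congrArg (fun t => t (Ideal.Quotient.mk Q x)) hσ
  simp only [Ideal.Quotient.stabilizerHom_apply] at h2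
  have h3 : e (Ideal.Quotient.mk Q x) = Ideal.Quotient.mk Q (x ^ ℓ) := by
    show frobenius _ ℓ (Ideal.Quotient.mk Q x) = _
    rw [frobenius_def, map_pow]
  rw [h3] at h2
  rw [← Ideal.Quotient.eq]
  exact h2

end Fermat.Agent.S54

end
-- ===== PACK-END S54/FrobLift.lean

-- ===== PACK-BEGIN S54/ValRing.lean
section



set_option autoImplicit false

namespace Fermat.Agent.S54

open Polynomial

/-- Valuation subrings contain all algebraic integers. -/
theorem isIntegral_mem_valuationSubring {K : Type*} [Field K] (A : ValuationSubring K)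
    {b : K} (hb : IsIntegral ℤ b) : b ∈ A := by
  have h1 : IsIntegral A.toSubring b := by
    obtain ⟨p, hp, hpb⟩ := hb
    refine ⟨p.map (algebraMap ℤ A.toSubring), hp.map _, ?_⟩
    rw [Polynomial.eval₂_map]
    have : (algebraMap A.toSubring K).comp (algebraMap ℤ A.toSubring) = algebraMap ℤ K := by
      ext; simp
    rw [this]
    exact hpb
  have h2 := (IsIntegrallyClosed.isIntegral_iff (R := A) (K := K)).mp h1
  obtain ⟨y, hy⟩ := h2
  rw [← hy]
  exact y.2

/-- An element lying in every valuation subring is integral over `ℤ`. -/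
theorem isIntegral_of_forall_mem_valuationSubring {K : Type*} [Field K] (y : K)
    (H : ∀ V : ValuationSubring K, y ∈ V) : IsIntegral ℤ y := by
  by_contra hy
  let R : Subring K := (integralClosure ℤ K).toSubring
  have hyR : y ∉ R := hy
  have : IsIntegrallyClosedIn R K := inferInstanceAs (IsIntegrallyClosedIn (integralClosure ℤ K) K)
  obtain ⟨V, -, hV⟩ := R.exists_le_valuationSubring_of_isIntegrallyClosedIn hyR
  exact hV (H V)

theorem aeval_mem_valuationSubring {K : Type*} [Field K] (V : ValuationSubring K) {x : K}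
    (hx : x ∈ V) (q : ℤ[X]) : aeval x q ∈ V := by
  induction q using Polynomial.induction_on with
  | C a => simp
  | add p q hp hq => rw [map_add]; exact V.add_mem _ _ hp hq
  | monomial n a h =>
    rw [pow_succ, ← mul_assoc, map_mul, aeval_X]
    exact V.mul_mem _ _ h hx

theorem coeff_iterate_divX (p : ℤ[X]) (r n : ℕ) :
    ((divX^[r]) p).coeff n = p.coeff (n + r) := by
  induction r generalizing n with
  | zero => simp
  | succ r ih =>
    rw [Function.iterate_succ_apply', coeff_divX, ih]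
    congr 1
    ring

/-- The Horner recursion for the tails `divX^[r] p` of a polynomial. -/
theorem aeval_iterate_divX {K : Type*} [Field K] (x : K) (p : ℤ[X]) (r : ℕ) :
    aeval x ((divX^[r]) p) = aeval x ((divX^[r + 1]) p) * x + (p.coeff r : K) := by
  conv_lhs => rw [← divX_mul_X_add ((divX^[r]) p)]
  rw [map_add, map_mul, aeval_X, aeval_C, coeff_iterate_divX, zero_add,
    Function.iterate_succ_apply']
  simp

/-- The Horner tails of an integer polynomial killing `x` lie in every valuation subring. -/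
theorem horner_mem_valuationSubring {K : Type*} [Field K] (x : K) (p : ℤ[X])
    (hp : aeval x p = 0) (V : ValuationSubring K) (r : ℕ) :
    aeval x ((divX^[r]) p) ∈ V := by
  rcases V.mem_or_inv_mem x with hx | hx
  · exact aeval_mem_valuationSubring V hx _
  · induction r with
    | zero => simp [hp]
    | succ r ih =>
      have h := aeval_iterate_divX x p r
      by_cases hx0 : x = 0
      · exact aeval_mem_valuationSubring V (hx0 ▸ V.zero_mem) _
      have : aeval x ((divX^[r + 1]) p) = x⁻¹ * (aeval x ((divX^[r]) p) - (p.coeff r : K)) := by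
        rw [h]; field_simp; ring
      rw [this]
      exact V.mul_mem _ _ hx (sub_mem ih (intCast_mem V _))

theorem horner_isIntegral {K : Type*} [Field K] (x : K) (p : ℤ[X])
    (hp : aeval x p = 0) (r : ℕ) :
    IsIntegral ℤ (aeval x ((divX^[r]) p)) :=
  isIntegral_of_forall_mem_valuationSubring _ fun V => horner_mem_valuationSubring x p hp V r

theorem horner_mul_isIntegral {K : Type*} [Field K] (x : K) (p : ℤ[X])
    (hp : aeval x p = 0) (r : ℕ) :
    IsIntegral ℤ (x * aeval x ((divX^[r + 1]) p)) := by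
  have h := aeval_iterate_divX x p r
  have : x * aeval x ((divX^[r + 1]) p) = aeval x ((divX^[r]) p) - (p.coeff r : K) := by
    rw [h]; ring
  rw [this]
  exact (horner_isIntegral x p hp r).sub isIntegral_algebraMap

/-- An integer which is a non-unit of a valuation subring over `ℓ` is divisible by `ℓ`. -/
theorem dvd_of_intCast_mem_nonunits {K : Type*} [Field K] (A : ValuationSubring K) (ℓ : ℕ)
    (hℓ : ℓ.Prime) (hA : A.LiesOverPrime ℓ) (a : ℤ) (ha : (a : K) ∈ A.nonunits) :
    (ℓ : ℤ) ∣ a := by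
  by_contra hdvd
  have hcop : IsCoprime (ℓ : ℤ) a :=
    (Nat.prime_iff_prime_int.mp hℓ).coprime_iff_not_dvd.mpr hdvd
  obtain ⟨u, v, huv⟩ := hcop
  have h1 : ((u * ℓ + v * a : ℤ) : K) ∈ A.nonunits := by
    push_cast
    refine A.nonunits.add_mem ?_ ?_
    · obtain ⟨h1, h2⟩ := ValuationSubring.mem_nonunits_iff_exists_mem_maximalIdeal.mp hA
      have := Ideal.mul_mem_left _ (⟨(u : K), intCast_mem A u⟩ : A) h2
      exact ValuationSubring.mem_nonunits_iff_exists_mem_maximalIdeal.mpr ⟨_, this⟩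
    · obtain ⟨h1, h2⟩ := ValuationSubring.mem_nonunits_iff_exists_mem_maximalIdeal.mp ha
      have := Ideal.mul_mem_left _ (⟨(v : K), intCast_mem A v⟩ : A) h2
      exact ValuationSubring.mem_nonunits_iff_exists_mem_maximalIdeal.mpr ⟨_, this⟩
  rw [huv, ValuationSubring.mem_nonunits_iff] at h1
  simp at h1

/-- (4b) A valuation subring over `ℓ` of an algebraic extension of `ℚ` is the localisation of
the ring of algebraic integers at the prime below it. -/
theorem mem_valuationSubring_iff {K : Type*} [Field K] [CharZero K] [Algebra.IsAlgebraic ℚ K]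
    (A : ValuationSubring K) (ℓ : ℕ)
    (hℓ : ℓ.Prime) (hA : A.LiesOverPrime ℓ) (x : K) :
    x ∈ A ↔ ∃ b s, IsIntegral ℤ b ∧ IsIntegral ℤ s ∧ s ∉ A.nonunits ∧ x * s = b := by
  constructor
  · intro hx
    -- a primitive integer polynomial killing `x`
    have halg : IsAlgebraic ℤ x :=
      (IsFractionRing.isAlgebraic_iff ℤ ℚ K).mpr (Algebra.IsAlgebraic.isAlgebraic x)
    obtain ⟨f, hf0, hfx⟩ := halg
    set p := f.primPart with hp
    have hpprim : p.IsPrimitive := f.isPrimitive_primPart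
    have hpx : aeval x p = 0 := by
      have h1 : f = C f.content * p := f.eq_C_content_mul_primPart
      rw [h1, map_mul, aeval_C] at hfx
      rcases mul_eq_zero.mp hfx with h | h
      · exfalso
        have : f.content = 0 := by simpa using h
        exact hf0 (Polynomial.content_eq_zero_iff.mp this)
      · exact h
    -- some coefficient is not in the maximal ideal
    have hcoeff : ∃ i, ((p.coeff i : ℤ) : K) ∉ A.nonunits := by
      by_contra hcon
      push Not at hcon
      have hdvd : C (ℓ : ℤ) ∣ p := by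
        rw [Polynomial.C_dvd_iff_dvd_coeff]
        intro i
        exact dvd_of_intCast_mem_nonunits A ℓ hℓ hA _ (hcon i)
      have hu := hpprim _ hdvd
      rw [Int.isUnit_iff] at hu
      have := hℓ.one_lt
      omega
    -- some Horner tail is a unit
    have hex : ∃ r, aeval x ((divX^[r + 1]) p) ∉ A.nonunits := by
      by_contra hcon
      push Not at hcon
      obtain ⟨i, hi⟩ := hcoeff
      apply hi
      have h := aeval_iterate_divX x p i
      have h2 : ((p.coeff i : ℤ) : K) =
          aeval x ((divX^[i]) p) - aeval x ((divX^[i + 1]) p) * x := by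
        rw [h]; ring
      rw [h2]
      have hmul : aeval x ((divX^[i + 1]) p) * x ∈ A.nonunits := by
        obtain ⟨h1, h2⟩ := ValuationSubring.mem_nonunits_iff_exists_mem_maximalIdeal.mp (hcon i)
        have := Ideal.mul_mem_right (⟨x, hx⟩ : A) _ h2
        exact ValuationSubring.mem_nonunits_iff_exists_mem_maximalIdeal.mpr ⟨_, this⟩
      refine A.nonunits.sub_mem ?_ hmul
      rcases i with _ | i
      · simp [hpx, A.nonunits.zero_mem]
      · exact hcon i
    obtain ⟨r, hr⟩ := hex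
    exact ⟨x * aeval x ((divX^[r + 1]) p), aeval x ((divX^[r + 1]) p),
      horner_mul_isIntegral x p hpx r, horner_isIntegral x p hpx (r + 1), hr, rfl⟩
  · rintro ⟨b, s, hb, hs, hsA, hxs⟩
    have hbA : b ∈ A := isIntegral_mem_valuationSubring A hb
    have hs0 : s ≠ 0 := fun h => hsA (h ▸ A.nonunits.zero_mem)
    have hsinv : s⁻¹ ∈ A := by
      by_contra h
      exact hsA (A.mem_nonunits_iff_or.mpr (Or.inr h))
    have : x = b * s⁻¹ := by
      rw [← hxs]; field_simp
    rw [this]
    exact A.mul_mem _ _ hbA hsinv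

end Fermat.Agent.S54

end
-- ===== PACK-END S54/ValRing.lean

-- ===== PACK-BEGIN S30/H529/TateCore.lean
section


/-!
# S30 helper (helper529): abstract Tate modules, core algebra

For a module `X` over a complete discrete valuation ring `O`, an element `ϖ ≠ 0` of the maximal
ideal, `O`-linear operators `t i` and scalars `a i`, the module `tateEigen ϖ t a` of compatible
sequences `v n ∈ X[ϖ ^ (n + 1)]`, `ϖ • v (n + 1) = v n`, `t i (v n) = a i • v n` is torsion free,
separated, and finitely generated (hence free) as soon as `X[ϖ]` is finitely generated.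
-/

set_option autoImplicit false
set_option linter.unusedSectionVars false

namespace Fermat.Agent.S30.H529

open IsLocalRing

noncomputable section

/-! ### Precompleteness of finite free modules -/

section Pi

variable {R : Type*} [CommRing R] (I : Ideal R) {r : ℕ}

theorem mem_smul_top_pi (x : Fin r → R) :
    x ∈ (I • ⊤ : Submodule R (Fin r → R)) ↔ ∀ i, x i ∈ I := by
  constructor
  · intro hx i
    refine Submodule.smul_induction_on hx ?_ ?_
    · intro a ha m _
      simp only [Pi.smul_apply, smul_eq_mul]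
      exact Ideal.mul_mem_right _ _ ha
    · intro y z hy hz
      simp only [Pi.add_apply]
      exact I.add_mem hy hz
  · intro hx
    have h1 : x = ∑ i, x i • (Pi.single i (1 : R) : Fin r → R) := by
      funext j
      simp [Finset.sum_apply, Pi.single_apply]
    rw [h1]
    exact Submodule.sum_mem _ fun i _ => Submodule.smul_mem_smul (hx i) Submodule.mem_top

theorem isPrecomplete_pi [IsPrecomplete I R] : IsPrecomplete I (Fin r → R) := by
  constructor
  intro f hf
  have hcomp : ∀ i : Fin r, ∃ L : R, ∀ n, f n i ≡ L [SMOD (I ^ n • ⊤ : Submodule R R)] := by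
    intro i
    apply IsPrecomplete.prec' (fun n => f n i)
    intro m n hmn
    have h1 := hf hmn
    rw [SModEq.sub_mem] at h1 ⊢
    rw [mem_smul_top_pi] at h1
    have h2 := h1 i
    simp only [smul_eq_mul, Ideal.mul_top]
    simpa using h2
  choose L hL using hcomp
  refine ⟨L, fun n => ?_⟩
  rw [SModEq.sub_mem, mem_smul_top_pi]
  intro i
  have h1 := hL i n
  rw [SModEq.sub_mem] at h1
  simpa using h1

/-- Topological Nakayama: a Hausdorff module over a precomplete ring is finitely generated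
if its reduction is. -/
theorem finite_of_finite_quotient (M : Type*) [AddCommGroup M] [Module R M] [IsPrecomplete I R]
    [IsHausdorff I M] (h : Module.Finite R (M ⧸ (I • ⊤ : Submodule R M))) :
    Module.Finite R M := by
  obtain ⟨r, g, hg⟩ := Module.Finite.exists_fin' R (M ⧸ (I • ⊤ : Submodule R M))
  have hlift : ∀ i : Fin r, ∃ m : M, (I • ⊤ : Submodule R M).mkQ m
      = g (Pi.single i (1 : R)) :=
    fun i => Submodule.mkQ_surjective _ _
  choose m hm using hlift
  let f : (Fin r → R) →ₗ[R] M := (Pi.basisFun R (Fin r)).constr R m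
  have hfg : (I • ⊤ : Submodule R M).mkQ ∘ₗ f = g := by
    apply (Pi.basisFun R (Fin r)).ext
    intro i
    have h1 : f ((Pi.basisFun R (Fin r)) i) = m i := Module.Basis.constr_basis _ _ _ _
    rw [LinearMap.comp_apply, h1, hm i, Pi.basisFun_apply]
  have := isPrecomplete_pi (r := r) I
  have hsurj : Function.Surjective f := by
    apply surjective_of_mkQ_comp_surjective (I := I)
    rw [hfg]
    exact hg
  exact Module.Finite.of_surjective f hsurj

end Pi

/-! ### Discrete valuation rings -/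

section DVR

variable {O : Type*} [CommRing O] [IsDomain O] [IsDiscreteValuationRing O]

theorem exists_pow_maximalIdeal_le_span {x : O} (hx : x ≠ 0) :
    ∃ N : ℕ, maximalIdeal O ^ N ≤ Ideal.span {x} := by
  obtain ⟨π, hπ⟩ := IsDiscreteValuationRing.exists_irreducible O
  obtain ⟨n, u, rfl⟩ := IsDiscreteValuationRing.eq_unit_mul_pow_irreducible hx hπ
  refine ⟨n, ?_⟩
  rw [hπ.maximalIdeal_eq, Ideal.span_singleton_pow, Ideal.span_singleton_le_span_singleton]
  exact ⟨(u⁻¹ : Oˣ), by rw [mul_comm, ← mul_assoc, Units.inv_mul, one_mul]⟩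

theorem exists_dvd_pow_of_mem_maximalIdeal {ϖ : O} (hϖ : ϖ ∈ maximalIdeal O) {r : O}
    (hr : r ≠ 0) : ∃ k : ℕ, r ∣ ϖ ^ k := by
  obtain ⟨π, hπ⟩ := IsDiscreteValuationRing.exists_irreducible O
  obtain ⟨n, u, rfl⟩ := IsDiscreteValuationRing.eq_unit_mul_pow_irreducible hr hπ
  rw [hπ.maximalIdeal_eq, Ideal.mem_span_singleton] at hϖ
  refine ⟨n, ?_⟩
  obtain ⟨c, hc⟩ := pow_dvd_pow_of_dvd hϖ n
  refine ⟨(u⁻¹ : Oˣ) * c, ?_⟩
  have h1 : (u : O) * π ^ n * (((u⁻¹ : Oˣ) : O) * c) = ((u : O) * ((u⁻¹ : Oˣ) : O)) * (π ^ n * c) := by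
    ring
  rw [h1, Units.mul_inv, one_mul, hc]

end DVR

/-! ### The Tate module -/

section Tate

variable {O : Type*} [CommRing O]
variable {X : Type*} [AddCommGroup X] [Module O X]
variable {ι : Type*}
variable (ϖ : O) (t : ι → X →ₗ[O] X) (a : ι → O)

/-- The eigen-part of the Tate module of `X` with respect to `ϖ`: compatible sequences
`v n ∈ X[ϖ ^ (n + 1)]` with `t i (v n) = a i • v n`. -/
def tateEigen : Submodule O (ℕ → X) where
  carrier := {v | ϖ • v 0 = 0 ∧ (∀ n, ϖ • v (n + 1) = v n) ∧ ∀ i n, t i (v n) = a i • v n}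
  zero_mem' := by simp
  add_mem' := by
    rintro v w ⟨hv0, hv1, hv2⟩ ⟨hw0, hw1, hw2⟩
    refine ⟨?_, ?_, ?_⟩
    · simp [smul_add, hv0, hw0]
    · intro n
      simp [smul_add, hv1 n, hw1 n]
    · intro i n
      simp [map_add, hv2 i n, hw2 i n, smul_add]
  smul_mem' := by
    rintro c v ⟨hv0, hv1, hv2⟩
    refine ⟨?_, ?_, ?_⟩
    · simp [smul_comm ϖ c, hv0]
    · intro n
      simp [smul_comm ϖ c, hv1 n]
    · intro i n
      simp [map_smul, hv2 i n, smul_comm (a i) c]

variable {ϖ t a}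

theorem mem_tateEigen {v : ℕ → X} :
    v ∈ tateEigen ϖ t a ↔
      ϖ • v 0 = 0 ∧ (∀ n, ϖ • v (n + 1) = v n) ∧ ∀ i n, t i (v n) = a i • v n :=
  Iff.rfl

theorem tate_pow_smul {v : ℕ → X} (hv : v ∈ tateEigen ϖ t a) (k n : ℕ) :
    ϖ ^ k • v (n + k) = v n := by
  induction k with
  | zero => simp
  | succ k ih =>
    rw [pow_succ, mul_smul, ← add_assoc, hv.2.1 (n + k), ih]

theorem tate_pow_succ_smul {v : ℕ → X} (hv : v ∈ tateEigen ϖ t a) (n : ℕ) :
    ϖ ^ (n + 1) • v n = 0 := by
  have h := tate_pow_smul hv n 0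
  rw [zero_add] at h
  rw [pow_succ', mul_smul, h, hv.1]

theorem tate_pow_smul_eq_zero {v : ℕ → X} (hv : v ∈ tateEigen ϖ t a) {m n : ℕ} (hmn : m < n) :
    ϖ ^ n • v m = 0 := by
  obtain ⟨k, rfl⟩ : ∃ k, n = k + (m + 1) := ⟨n - (m + 1), by omega⟩
  rw [pow_add, mul_smul, tate_pow_succ_smul hv, smul_zero]

/-- The shifted sequence. -/
theorem tate_shift_mem {v : ℕ → X} (hv : v ∈ tateEigen ϖ t a) (k : ℕ)
    (hk : ∀ m, m < k → v m = 0) : (fun n => v (n + k)) ∈ tateEigen ϖ t a := by
  refine ⟨?_, ?_, ?_⟩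
  · rcases Nat.eq_zero_or_pos k with rfl | hk0
    · exact hv.1
    · obtain ⟨j, rfl⟩ : ∃ j, k = j + 1 := ⟨k - 1, by omega⟩
      show ϖ • v (0 + (j + 1)) = 0
      rw [zero_add, hv.2.1 j]
      exact hk j (by omega)
  · intro n
    show ϖ • v (n + 1 + k) = v (n + k)
    rw [show n + 1 + k = (n + k) + 1 by omega]
    exact hv.2.1 (n + k)
  · intro i n
    exact hv.2.2 i (n + k)

theorem tate_eq_pow_smul_shift {v : ℕ → X} (hv : v ∈ tateEigen ϖ t a) (k : ℕ) :
    v = ϖ ^ k • (fun n => v (n + k)) := by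
  funext n
  simp only [Pi.smul_apply]
  exact (tate_pow_smul hv k n).symm

/-- Elements vanishing in degrees `< k` are divisible by `ϖ ^ k`. -/
theorem tate_exists_eq_pow_smul {v : ℕ → X} (hv : v ∈ tateEigen ϖ t a) (k : ℕ)
    (hk : ∀ m, m < k → v m = 0) : ∃ w ∈ tateEigen ϖ t a, v = ϖ ^ k • w :=
  ⟨_, tate_shift_mem hv k hk, tate_eq_pow_smul_shift hv k⟩

end Tate

/-! ### Structure of the Tate module over a complete discrete valuation ring -/

section Structure

variable {O : Type*} [CommRing O] [IsDomain O] [IsDiscreteValuationRing O]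
variable {X : Type*} [AddCommGroup X] [Module O X]
variable {ι : Type*}
variable {ϖ : O} {t : ι → X →ₗ[O] X} {a : ι → O}

theorem tateEigen_isTorsionFree (hϖ : ϖ ∈ maximalIdeal O) :
    Module.IsTorsionFree O (tateEigen ϖ t a) := by
  apply Module.IsTorsionFree.of_smul_eq_zero
  intro r v hrv
  by_cases hr : r = 0
  · exact Or.inl hr
  right
  obtain ⟨k, c, hc⟩ := exists_dvd_pow_of_mem_maximalIdeal hϖ hr
  have h1 : (ϖ ^ k) • (v : ℕ → X) = 0 := by
    have h2 : r • (v : ℕ → X) = 0 := by
      have := congrArg (Subtype.val) hrv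
      simpa using this
    rw [hc, mul_comm, mul_smul, h2, smul_zero]
  apply Subtype.ext
  funext n
  have h3 := tate_pow_smul v.2 k n
  have h4 := congrFun h1 (n + k)
  simp only [Pi.smul_apply, Pi.zero_apply] at h4
  rw [← h3, h4]
  rfl

/-- Evaluation at the `m`-th component. -/
def tateEval (ϖ : O) (t : ι → X →ₗ[O] X) (a : ι → O) (m : ℕ) : tateEigen ϖ t a →ₗ[O] X :=
  (LinearMap.proj m).comp (tateEigen ϖ t a).subtype

@[simp] theorem tateEval_apply (m : ℕ) (v : tateEigen ϖ t a) :
    tateEval ϖ t a m v = (v : ℕ → X) m := rfl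

theorem tateEigen_isHausdorff (hϖ0 : ϖ ≠ 0) :
    IsHausdorff (maximalIdeal O) (tateEigen ϖ t a) := by
  constructor
  intro x hx
  apply Subtype.ext
  funext m
  obtain ⟨N, hN⟩ := exists_pow_maximalIdeal_le_span (pow_ne_zero (m + 1) hϖ0)
  have h1 : (maximalIdeal O ^ N • ⊤ : Submodule O (tateEigen ϖ t a))
      ≤ LinearMap.ker (tateEval ϖ t a m) := by
    rw [Submodule.smul_le]
    intro c hc v _
    obtain ⟨b, rfl⟩ := Ideal.mem_span_singleton'.mp (hN hc)
    rw [LinearMap.mem_ker, map_smul, tateEval_apply, mul_smul, tate_pow_succ_smul v.2,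
      smul_zero]
  have h2 := hx N
  rw [SModEq.zero] at h2
  exact LinearMap.mem_ker.mp (h1 h2)

theorem tateEval_zero_ker_le (hϖ : ϖ ∈ maximalIdeal O) :
    LinearMap.ker (tateEval ϖ t a 0)
      ≤ (maximalIdeal O • ⊤ : Submodule O (tateEigen ϖ t a)) := by
  intro v hv
  rw [LinearMap.mem_ker, tateEval_apply] at hv
  obtain ⟨w, hw, hvw⟩ := tate_exists_eq_pow_smul v.2 1 (fun m hm => by
    obtain rfl : m = 0 := by omega
    exact hv)
  have h1 : v = ϖ • (⟨w, hw⟩ : tateEigen ϖ t a) := by
    apply Subtype.ext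
    rw [hvw, pow_one]
    rfl
  rw [h1]
  exact Submodule.smul_mem_smul hϖ Submodule.mem_top

theorem tateEigen_finite [IsAdicComplete (maximalIdeal O) O] (hϖ : ϖ ∈ maximalIdeal O)
    (hϖ0 : ϖ ≠ 0) (hX : ∃ Y : Submodule O X, Y.FG ∧ ∀ x : X, ϖ • x = 0 → x ∈ Y) :
    Module.Finite O (tateEigen ϖ t a) := by
  obtain ⟨Y, hY, hYX⟩ := hX
  have := tateEigen_isHausdorff (t := t) (a := a) hϖ0
  apply finite_of_finite_quotient (maximalIdeal O)
  -- the range of the evaluation at `0` is finitely generated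
  have hrange : LinearMap.range (tateEval ϖ t a 0) ≤ Y := by
    rintro _ ⟨v, rfl⟩
    exact hYX _ v.2.1
  have hYn : IsNoetherian O Y := isNoetherian_of_fg_of_noetherian Y hY
  have hfg : (LinearMap.range (tateEval ϖ t a 0)).FG := by
    have h1 : (Submodule.comap Y.subtype (LinearMap.range (tateEval ϖ t a 0))).FG :=
      IsNoetherian.noetherian _
    have h2 := h1.map Y.subtype
    rwa [Submodule.map_comap_subtype, inf_eq_right.mpr hrange] at h2
  have hfin1 : Module.Finite O (LinearMap.range (tateEval ϖ t a 0)) :=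
    Module.Finite.of_fg hfg
  have hfin2 : Module.Finite O (tateEigen ϖ t a ⧸ LinearMap.ker (tateEval ϖ t a 0)) :=
    Module.Finite.equiv (LinearMap.quotKerEquivRange (tateEval ϖ t a 0)).symm
  exact Module.Finite.of_surjective
    (Submodule.factor (tateEval_zero_ker_le (t := t) (a := a) hϖ))
    (Submodule.factor_surjective _)

theorem tateEigen_free [IsAdicComplete (maximalIdeal O) O] (hϖ : ϖ ∈ maximalIdeal O)
    (hϖ0 : ϖ ≠ 0) (hX : ∃ Y : Submodule O X, Y.FG ∧ ∀ x : X, ϖ • x = 0 → x ∈ Y) :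
    Module.Free O (tateEigen ϖ t a) := by
  have := tateEigen_finite (t := t) (a := a) hϖ hϖ0 hX
  have := tateEigen_isTorsionFree (t := t) (a := a) hϖ
  exact Module.free_of_finite_type_torsion_free'

end Structure

/-! ### The induced action -/

section Action

variable {O : Type*} [CommRing O]
variable {X : Type*} [AddCommGroup X] [Module O X]
variable {ι : Type*}
variable {ϖ : O} {t : ι → X →ₗ[O] X} {a : ι → O}

/-- The map induced on the Tate module by an endomorphism commuting with the operators. -/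
def tateMap (g : X →ₗ[O] X) (hg : ∀ i x, g (t i x) = t i (g x)) :
    tateEigen ϖ t a →ₗ[O] tateEigen ϖ t a where
  toFun v := ⟨fun n => g ((v : ℕ → X) n), by
    refine ⟨?_, ?_, ?_⟩
    · rw [← map_smul, v.2.1, map_zero]
    · intro n
      rw [← map_smul, v.2.2.1 n]
    · intro i n
      rw [← hg, v.2.2.2 i n, map_smul]⟩
  map_add' v w := by
    apply Subtype.ext
    funext n
    simp
  map_smul' c v := by
    apply Subtype.ext
    funext n
    simp

@[simp] theorem tateMap_apply_coe (g : X →ₗ[O] X) (hg : ∀ i x, g (t i x) = t i (g x))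
    (v : tateEigen ϖ t a) (n : ℕ) :
    ((tateMap g hg v : tateEigen ϖ t a) : ℕ → X) n = g ((v : ℕ → X) n) := rfl

variable {G : Type*} [Monoid G] (ρ : G →* Module.End O X)
  (hρ : ∀ (γ : G) (i : ι) (x : X), ρ γ (t i x) = t i (ρ γ x))

/-- The representation on the Tate module. -/
def tateRep : G →* Module.End O (tateEigen ϖ t a) where
  toFun γ := tateMap (ρ γ) (hρ γ)
  map_one' := by
    apply LinearMap.ext
    intro v
    apply Subtype.ext
    funext n
    simp
  map_mul' γ δ := by
    apply LinearMap.ext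
    intro v
    apply Subtype.ext
    funext n
    simp

@[simp] theorem tateRep_apply_coe (γ : G) (v : tateEigen ϖ t a) (n : ℕ) :
    ((tateRep ρ hρ γ v : tateEigen ϖ t a) : ℕ → X) n = ρ γ ((v : ℕ → X) n) := rfl

theorem tateRep_eq_one (γ : G) (hγ : ∀ x : X, (∃ n : ℕ, ϖ ^ n • x = 0) → ρ γ x = x) :
    tateRep (ϖ := ϖ) (a := a) ρ hρ γ = 1 := by
  apply LinearMap.ext
  intro v
  apply Subtype.ext
  funext n
  rw [tateRep_apply_coe]
  exact hγ _ ⟨n + 1, tate_pow_succ_smul v.2 n⟩

theorem tateRep_quadratic (γ : G) (i : ι) (c : O)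
    (hγ : ∀ x : X, (∃ n : ℕ, ϖ ^ n • x = 0) → ρ γ (ρ γ x) - t i (ρ γ x) + c • x = 0) :
    tateRep (ϖ := ϖ) (a := a) ρ hρ γ * tateRep ρ hρ γ - a i • tateRep ρ hρ γ
      + c • (1 : Module.End O (tateEigen ϖ t a)) = 0 := by
  apply LinearMap.ext
  intro v
  apply Subtype.ext
  funext n
  have h1 := hγ ((v : ℕ → X) n) ⟨n + 1, tate_pow_succ_smul v.2 n⟩
  have h2 : t i (ρ γ ((v : ℕ → X) n)) = a i • ρ γ ((v : ℕ → X) n) := by
    rw [← hρ, v.2.2.2 i n, map_smul]
  rw [h2] at h1
  simpa using h1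

theorem tateRep_sub_mem [IsLocalRing O] (hϖ : ϖ ∈ maximalIdeal O) (n : ℕ) (γ : G)
    (hγ : ∀ x : X, ϖ ^ n • x = 0 → ρ γ x = x) (v : tateEigen ϖ t a) :
    tateRep ρ hρ γ v - v ∈ (maximalIdeal O ^ n • ⊤ : Submodule O (tateEigen ϖ t a)) := by
  set w : tateEigen ϖ t a := tateRep ρ hρ γ v - v with hw
  have hw0 : ∀ m, m < n → (w : ℕ → X) m = 0 := by
    intro m hm
    have h1 : (w : ℕ → X) m = ρ γ ((v : ℕ → X) m) - (v : ℕ → X) m := rfl
    rw [h1, hγ _ (tate_pow_smul_eq_zero v.2 hm), sub_self]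
  obtain ⟨w', hw', hww'⟩ := tate_exists_eq_pow_smul w.2 n hw0
  have h2 : w = ϖ ^ n • (⟨w', hw'⟩ : tateEigen ϖ t a) := by
    apply Subtype.ext
    rw [hww']
    rfl
  rw [h2]
  exact Submodule.smul_mem_smul (Ideal.pow_mem_pow hϖ n) Submodule.mem_top

end Action

end

end Fermat.Agent.S30.H529

end
-- ===== PACK-END S30/H529/TateCore.lean

-- ===== PACK-BEGIN S31/H262/Reduced.lean
section


/-!
# S31 / SS6 (helper262): `ℚ_[p] ⊗[ℤ] B` is reduced for a reduced ring `B`, finite over `ℤ`

Route: `ℚ ⊗[ℤ] B` is a localisation of `B`, hence reduced; it is a finite-dimensional reduced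
`ℚ`-algebra, hence a finite product of (separable) field extensions of `ℚ`, hence formally
unramified over `ℚ`; base change to `ℚ_[p]` stays formally unramified, hence reduced.
-/

set_option autoImplicit false
set_option linter.unusedSectionVars false
set_option linter.style.haveILetI false

noncomputable section

namespace Fermat.Agent.S31.H262

open scoped TensorProduct

section Reduced

variable (B : Type) [CommRing B] [Module.Finite ℤ B] [IsReduced B]

attribute [local instance] Algebra.TensorProduct.rightAlgebra in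
theorem isReduced_rat_tensor : IsReduced (ℚ ⊗[ℤ] B) := by
  haveI : IsLocalization (Algebra.algebraMapSubmonoid B (nonZeroDivisors ℤ)) (ℚ ⊗[ℤ] B) :=
    IsLocalization.tensorRight (R := ℤ) (S := B) ℚ (nonZeroDivisors ℤ)
  exact isReduced_localizationPreserves
    (Algebra.algebraMapSubmonoid B (nonZeroDivisors ℤ)) (ℚ ⊗[ℤ] B) inferInstance

theorem isArtinianRing_rat_tensor : IsArtinianRing (ℚ ⊗[ℤ] B) :=
  isArtinian_of_tower ℚ inferInstance

attribute [local instance] IsArtinianRing.fieldOfSubtypeIsMaximal in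
theorem formallyEtale_rat_tensor : Algebra.FormallyEtale ℚ (ℚ ⊗[ℤ] B) := by
  haveI := isReduced_rat_tensor B
  haveI := isArtinianRing_rat_tensor B
  rw [Algebra.FormallyEtale.iff_exists_algEquiv_prod]
  exact ⟨MaximalSpectrum (ℚ ⊗[ℤ] B), inferInstance, fun I => (ℚ ⊗[ℤ] B) ⧸ I.asIdeal,
    inferInstance, inferInstance, (IsArtinianRing.equivPi (ℚ ⊗[ℤ] B)).restrictScalars ℚ,
    fun I => inferInstance⟩

variable (K : Type) [Field K] [CharZero K]

/-- `K ⊗[ℤ] B` is reduced for every field `K` of characteristic zero. -/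
theorem isReduced_field_tensor : IsReduced (K ⊗[ℤ] B) := by
  letI : Algebra ℚ K := DivisionRing.toRatAlgebra
  haveI := formallyEtale_rat_tensor B
  haveI : Algebra.FormallyUnramified K (K ⊗[ℚ] (ℚ ⊗[ℤ] B)) := inferInstance
  haveI : IsReduced (K ⊗[ℚ] (ℚ ⊗[ℤ] B)) :=
    Algebra.FormallyUnramified.isReduced_of_field K (K ⊗[ℚ] (ℚ ⊗[ℤ] B))
  exact isReduced_of_injective
    (Algebra.TensorProduct.cancelBaseChange ℤ ℚ K K B).symm.toRingEquiv
    (Algebra.TensorProduct.cancelBaseChange ℤ ℚ K K B).symm.injective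

end Reduced

end Fermat.Agent.S31.H262

end
end
-- ===== PACK-END S31/H262/Reduced.lean

-- ===== PACK-BEGIN Lib/EulerProd/EulerUFM.lean
section


/-!
# Euler products over a unique factorization monoid with trivial units

`Fermat.Agent.Lib.EulerProd.hasProd_one_sub_inv`: if `M` is a commutative monoid with
zero which is a unique factorization monoid with trivial unit group (e.g. the ideals of a
Dedekind domain), `F` is a complete normed field and `f : M → F` is completely multiplicative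
(`f 0 = 0`, `f 1 = 1`, `f (a * b) = f a * f b`) and norm-summable, then
`∏ p prime, (1 - f p)⁻¹ = ∑ m, f m`.

The proof follows `Mathlib/NumberTheory/EulerProduct/Basic.lean` (the case `M = ℕ`).
-/

set_option autoImplicit false
set_option linter.unusedSectionVars false
set_option linter.overlappingInstances false

namespace Fermat.Agent.Lib.EulerProd

open Finset

variable {M : Type*} [CommMonoidWithZero M] [UniqueFactorizationMonoid M]
  [Subsingleton Mˣ] [Nontrivial M]

/-- The nonzero elements of `M` all of whose prime divisors lie in `T`. -/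
def smoothSet (T : Set M) : Set M := {m | m ≠ 0 ∧ ∀ p, Prime p → p ∣ m → p ∈ T}

theorem mem_smoothSet {T : Set M} {m : M} :
    m ∈ smoothSet T ↔ m ≠ 0 ∧ ∀ p, Prime p → p ∣ m → p ∈ T := Iff.rfl

theorem smoothSet_mono {T T' : Set M} (h : T ⊆ T') : smoothSet T ⊆ smoothSet T' :=
  fun _ hm => ⟨hm.1, fun p hp hpm => h (hm.2 p hp hpm)⟩

theorem zero_notMem_smoothSet (T : Set M) : (0 : M) ∉ smoothSet T := fun h => h.1 rfl

theorem eq_one_of_forall_prime_not_dvd {m : M} (hm : m ≠ 0) (h : ∀ p, Prime p → ¬ p ∣ m) :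
    m = 1 := by
  by_contra hne
  have hu : ¬ IsUnit m := fun hu => hne (by
    obtain ⟨u, rfl⟩ := hu
    rw [Subsingleton.elim u 1, Units.val_one])
  obtain ⟨i, hi, hdvd⟩ := WfDvdMonoid.exists_irreducible_factor hu hm
  exact h i (UniqueFactorizationMonoid.irreducible_iff_prime.mp hi) hdvd

theorem smoothSet_empty : smoothSet (∅ : Set M) = {1} := by
  ext m
  simp only [mem_smoothSet, Set.mem_empty_iff_false, imp_false, Set.mem_singleton_iff]
  constructor
  · rintro ⟨hm, h⟩
    exact eq_one_of_forall_prime_not_dvd hm h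
  · rintro rfl
    exact ⟨one_ne_zero, fun p hp hdvd => hp.not_isUnit (isUnit_of_dvd_one hdvd)⟩

/-- Inserting a non-prime does not change the smooth set. -/
theorem smoothSet_insert_of_not_prime {T : Set M} {p : M} (hp : ¬ Prime p) :
    smoothSet (insert p T) = smoothSet T := by
  ext m
  simp only [mem_smoothSet, Set.mem_insert_iff]
  refine and_congr_right fun _ => forall_congr' fun q => ?_
  constructor
  · intro h hq hqm
    rcases h hq hqm with rfl | h'
    · exact absurd hq hp
    · exact h'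
  · intro h hq hqm
    exact Or.inr (h hq hqm)

theorem pow_mul_mem_smoothSet {T : Set M} {p : M} (hp : Prime p) (e : ℕ) {m : M}
    (hm : m ∈ smoothSet T) : p ^ e * m ∈ smoothSet (insert p T) := by
  refine ⟨mul_ne_zero (pow_ne_zero _ hp.ne_zero) hm.1, fun q hq hqd => ?_⟩
  rcases hq.dvd_or_dvd hqd with h | h
  · have := hq.dvd_of_dvd_pow h
    exact Or.inl ((prime_dvd_prime_iff_eq hq hp).mp this)
  · exact Or.inr (hm.2 q hq h)

/-- The bijection `(e, m) ↦ p ^ e * m`. -/
theorem bijective_pow_mul {T : Set M} {p : M} (hp : Prime p) (hpT : p ∉ T) :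
    Function.Bijective (fun x : ℕ × smoothSet T =>
      (⟨p ^ x.1 * x.2.1, pow_mul_mem_smoothSet hp x.1 x.2.2⟩ : smoothSet (insert p T))) := by
  have hnd : ∀ m ∈ smoothSet T, ¬ p ∣ m := fun m hm hd => hpT (hm.2 p hp hd)
  have key : ∀ (e e' : ℕ) (m m' : M), m ∈ smoothSet T → m' ∈ smoothSet T → e ≤ e' →
      p ^ e * m = p ^ e' * m' → e = e' ∧ m = m' := by
    intro e e' m m' hm hm' hle h
    obtain ⟨k, rfl⟩ := Nat.exists_eq_add_of_le hle
    rw [pow_add, mul_assoc] at h
    have h2 : m = p ^ k * m' := mul_left_cancel₀ (pow_ne_zero _ hp.ne_zero) h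
    rcases Nat.eq_zero_or_pos k with rfl | hk
    · simpa using h2
    · exfalso
      apply hnd m hm
      rw [h2]
      exact Dvd.dvd.mul_right (dvd_pow_self p hk.ne') _
  constructor
  · rintro ⟨e, m, hm⟩ ⟨e', m', hm'⟩ h
    simp only [Subtype.mk.injEq] at h
    rcases le_total e e' with hle | hle
    · obtain ⟨rfl, rfl⟩ := key e e' m m' hm hm' hle h
      rfl
    · obtain ⟨rfl, rfl⟩ := key e' e m' m hm' hm hle h.symm
      rfl
  · rintro ⟨m, hm⟩
    have hfin : FiniteMultiplicity p m := FiniteMultiplicity.of_not_isUnit hp.not_isUnit hm.1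
    obtain ⟨c, hc, hnd'⟩ := hfin.exists_eq_pow_mul_and_not_dvd
    have hc0 : c ≠ 0 := by
      rintro rfl
      exact hm.1 (by rw [hc, mul_zero])
    have hcs : c ∈ smoothSet T := by
      refine ⟨hc0, fun q hq hqc => ?_⟩
      have hqm : q ∣ m := by
        rw [hc]
        exact Dvd.dvd.mul_left hqc _
      rcases hm.2 q hq hqm with rfl | h
      · exact absurd hqc hnd'
      · exact h
    exact ⟨(multiplicity p m, ⟨c, hcs⟩), Subtype.ext hc.symm⟩

/-- The equivalence `ℕ × smoothSet T ≃ smoothSet (insert p T)`, `(e, m) ↦ p ^ e * m`. -/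
noncomputable def equivProdNatSmooth {T : Set M} {p : M} (hp : Prime p) (hpT : p ∉ T) :
    ℕ × smoothSet T ≃ smoothSet (insert p T) :=
  Equiv.ofBijective _ (bijective_pow_mul hp hpT)

@[simp]
theorem equivProdNatSmooth_apply {T : Set M} {p : M} (hp : Prime p) (hpT : p ∉ T)
    (x : ℕ × smoothSet T) : ((equivProdNatSmooth hp hpT x : smoothSet (insert p T)) : M) =
      p ^ x.1 * x.2.1 := rfl


/-! ### The analytic part -/

section Analytic

variable {F : Type*} [NormedField F] [CompleteSpace F] {f : M → F}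

open Classical in
/-- A finite product over primes in `T` is the sum over `T`-smooth elements. -/
theorem summable_and_hasSum_smoothSet (hf₁ : f 1 = 1) (hmul : ∀ a b, f (a * b) = f a * f b)
    (hlt : ∀ p, Prime p → ‖f p‖ < 1) (T : Finset M) :
    Summable (fun m : smoothSet (T : Set M) ↦ ‖f m‖) ∧
      HasSum (fun m : smoothSet (T : Set M) ↦ f m) (∏ p ∈ T with Prime p, (1 - f p)⁻¹) := by
  induction T using Finset.induction with
  | empty =>
    rw [Finset.coe_empty, smoothSet_empty]
    simp only [Finset.filter_empty, Finset.prod_empty]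
    exact ⟨(Set.finite_singleton 1).summable (‖f ·‖), hf₁ ▸ hasSum_singleton 1 f⟩
  | insert p T hp ih =>
    rw [Finset.coe_insert, Finset.filter_insert]
    split_ifs with hpp
    · have hpT : p ∉ (T : Set M) := by simpa using hp
      have hpow : ∀ e : ℕ, f (p ^ e) = f p ^ e := by
        intro e
        induction e with
        | zero => simp [hf₁]
        | succ e ihe => rw [pow_succ, hmul, ihe, pow_succ]
      have hgeo : Summable (fun e : ℕ => ‖f p ^ e‖) := by
        simp only [norm_pow]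
        exact summable_geometric_of_lt_one (norm_nonneg _) (hlt p hpp)
      constructor
      · rw [← (equivProdNatSmooth hpp hpT).summable_iff]
        simp only [Function.comp_def, equivProdNatSmooth_apply, hmul, hpow]
        refine Summable.of_nonneg_of_le (fun _ ↦ norm_nonneg _) (fun _ ↦ norm_mul_le ..) ?_
        apply Summable.mul_of_nonneg hgeo ih.1 <;> exact fun n ↦ norm_nonneg _
      · have hp' : p ∉ {p ∈ T | Prime p} := mt (Finset.mem_of_mem_filter p) hp
        rw [Finset.prod_insert hp', ← (equivProdNatSmooth hpp hpT).hasSum_iff, Function.comp_def]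
        simp only [equivProdNatSmooth_apply, hmul, hpow]
        apply (hasSum_geometric_of_norm_lt_one (hlt p hpp)).mul ih.2
        apply summable_mul_of_summable_norm hgeo ih.1
    · rwa [smoothSet_insert_of_not_prime hpp]


open Classical in
/-- Finitely many elements are simultaneously smooth for a finite set of primes. -/
theorem exists_finset_smooth (S : Finset M) :
    ∃ T : Finset M, ∀ m ∈ S, m ≠ 0 → m ∈ smoothSet (T : Set M) := by
  refine ⟨S.biUnion fun m => (UniqueFactorizationMonoid.factors m).toFinset, fun m hm hm0 => ?_⟩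
  refine ⟨hm0, fun p hp hpm => ?_⟩
  obtain ⟨q, hq, hpq⟩ := UniqueFactorizationMonoid.exists_mem_factors_of_dvd hm0 hp.irreducible hpm
  rw [associated_iff_eq] at hpq
  subst hpq
  simp only [Finset.coe_biUnion, Set.mem_iUnion, Finset.mem_coe, Multiset.mem_toFinset]
  exact ⟨m, hm, hq⟩

/-- Summing over `T`-smooth elements for `T` large gets arbitrarily close to the full sum. -/
theorem norm_tsum_smoothSet_sub_tsum_lt (hsum : Summable f) (hf₀ : f 0 = 0) {ε : ℝ}
    (εpos : 0 < ε) :
    ∃ T₀ : Finset M, ∀ T : Finset M, T₀ ⊆ T →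
      ‖(∑' m : M, f m) - ∑' m : smoothSet (T : Set M), f m‖ < ε := by
  obtain ⟨S, hS⟩ := hsum.tsum_vanishing (Metric.ball_mem_nhds 0 εpos)
  obtain ⟨T₀, hT₀⟩ := exists_finset_smooth S
  refine ⟨T₀, fun T hT => ?_⟩
  have hdisj : Disjoint ((smoothSet (T : Set M))ᶜ \ {0}) (S : Set M) := by
    rw [Set.disjoint_left]
    rintro m ⟨hm, hm0⟩ hmS
    exact hm (smoothSet_mono (by exact_mod_cast hT) (hT₀ m hmS hm0))
  have := hS _ hdisj
  rw [mem_ball_zero_iff] at this
  rwa [← hsum.tsum_subtype_add_tsum_subtype_compl (smoothSet (T : Set M)),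
    add_sub_cancel_left, tsum_eq_tsum_sdiff_singleton (smoothSet (T : Set M))ᶜ hf₀]

theorem norm_lt_one_of_summable (hf₁ : f 1 = 1) (hmul : ∀ a b, f (a * b) = f a * f b)
    (hsum : Summable (‖f ·‖)) {p : M} (hp : Prime p) : ‖f p‖ < 1 := by
  have hpow : ∀ e : ℕ, f (p ^ e) = f p ^ e := by
    intro e
    induction e with
    | zero => simp [hf₁]
    | succ e ihe => rw [pow_succ, hmul, ihe, pow_succ]
  have h1 : Summable (fun e : ℕ => ‖f (p ^ e)‖) :=
    hsum.comp_injective (pow_injective_of_not_isUnit hp.not_isUnit hp.ne_zero)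
  simp only [hpow, norm_pow] at h1
  have := summable_geometric_iff_norm_lt_one.mp h1
  simpa using this

open Classical in
/-- **Euler product** for a completely multiplicative norm-summable function on a unique
factorization monoid with trivial units. -/
theorem hasProd_one_sub_inv (hf₀ : f 0 = 0) (hf₁ : f 1 = 1)
    (hmul : ∀ a b, f (a * b) = f a * f b) (hsum : Summable (‖f ·‖)) :
    HasProd (fun p : {p : M // Prime p} ↦ (1 - f p)⁻¹) (∑' m, f m) := by
  have hlt : ∀ p, Prime p → ‖f p‖ < 1 := fun p hp => norm_lt_one_of_summable hf₁ hmul hsum hp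
  let G : M → F := fun p ↦ (1 - f p)⁻¹
  change HasProd (G ∘ Subtype.val (p := (· ∈ {x | Prime x}))) _
  rw [hasProd_subtype_iff_mulIndicator, HasProd, SummationFilter.unconditional,
    Metric.tendsto_atTop]
  intro ε hε
  obtain ⟨T₀, hT₀⟩ := norm_tsum_smoothSet_sub_tsum_lt hsum.of_norm hf₀ hε
  refine ⟨T₀, fun T hT ↦ ?_⟩
  have : ∏ p ∈ T, {p | Prime p}.mulIndicator G p = ∏ p ∈ T with Prime p, G p :=
    Finset.prod_mulIndicator_eq_prod_filter T (fun _ ↦ G) _ id
  rw [this, dist_eq_norm, ← (summable_and_hasSum_smoothSet hf₁ hmul hlt T).2.tsum_eq,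
    norm_sub_rev]
  exact hT₀ T hT

/-- Finite partial Euler products are sums over smooth elements. -/
theorem prod_one_sub_inv_eq_tsum_smoothSet (hf₁ : f 1 = 1)
    (hmul : ∀ a b, f (a * b) = f a * f b) (hsum : Summable (‖f ·‖)) (T : Finset M)
    (hT : ∀ p ∈ T, Prime p) :
    ∏ p ∈ T, (1 - f p)⁻¹ = ∑' m : smoothSet (T : Set M), f m := by
  classical
  have hlt : ∀ p, Prime p → ‖f p‖ < 1 := fun p hp => norm_lt_one_of_summable hf₁ hmul hsum hp
  rw [(summable_and_hasSum_smoothSet hf₁ hmul hlt T).2.tsum_eq, Finset.filter_true_of_mem hT]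

end Analytic

end Fermat.Agent.Lib.EulerProd

end
-- ===== PACK-END Lib/EulerProd/EulerUFM.lean

-- ===== PACK-BEGIN S22/H262/Glue.lean
section


set_option autoImplicit false

/-!
# S22 glue: a finitely generated, Hecke-stable, separating lattice of functionals
forces the Hecke algebra to be a finite `ℤ`-module.
-/

namespace Fermat.Agent.S22.H262

open CuspForm

section Abstract

variable {V : Type*} [AddCommGroup V] [Module ℂ V]

/-- The `ℤ`-subalgebra of endomorphisms `t` such that `l ∘ t ∈ Λ` for all `l ∈ Λ`. -/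
def stabAlg (Λ : Submodule ℤ (Module.Dual ℂ V)) : Subalgebra ℤ (Module.End ℂ V) where
  carrier := {t | ∀ l ∈ Λ, l ∘ₗ t ∈ Λ}
  mul_mem' := by
    intro a b ha hb l hl
    have : l ∘ₗ (a * b) = (l ∘ₗ a) ∘ₗ b := rfl
    rw [this]
    exact hb _ (ha _ hl)
  one_mem' := by
    intro l hl
    have : l ∘ₗ (1 : Module.End ℂ V) = l := rfl
    rw [this]
    exact hl
  add_mem' := by
    intro a b ha hb l hl
    rw [LinearMap.comp_add]
    exact Λ.add_mem (ha _ hl) (hb _ hl)
  zero_mem' := by
    intro l _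
    rw [LinearMap.comp_zero]
    exact Λ.zero_mem
  algebraMap_mem' := by
    intro n l hl
    have : l ∘ₗ (algebraMap ℤ (Module.End ℂ V) n) = n • l := by
      ext v
      simp
    rw [this]
    exact Λ.smul_mem n hl

theorem mem_stabAlg {Λ : Submodule ℤ (Module.Dual ℂ V)} {t : Module.End ℂ V} :
    t ∈ stabAlg Λ ↔ ∀ l ∈ Λ, l ∘ₗ t ∈ Λ := Iff.rfl

/-- The transpose action of the stabiliser algebra on the lattice, as a `ℤ`-linear map. -/
def stabAct (Λ : Submodule ℤ (Module.Dual ℂ V)) : stabAlg Λ →ₗ[ℤ] (Λ →ₗ[ℤ] Λ) where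
  toFun t :=
    { toFun := fun l => ⟨(l : Module.Dual ℂ V) ∘ₗ (t : Module.End ℂ V), t.2 _ l.2⟩
      map_add' := fun l l' => Subtype.ext (by simp [LinearMap.add_comp])
      map_smul' := fun n l => Subtype.ext (by
        ext v
        simp) }
  map_add' := fun t t' => LinearMap.ext fun l => Subtype.ext (by
    simp [LinearMap.comp_add])
  map_smul' := fun n t => LinearMap.ext fun l => Subtype.ext (by
    ext v
    simp)

theorem stabAct_injective (Λ : Submodule ℤ (Module.Dual ℂ V))
    (hsep : ∀ v : V, (∀ l ∈ Λ, l v = 0) → v = 0) : Function.Injective (stabAct Λ) := by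
  rw [injective_iff_map_eq_zero]
  intro t ht
  apply Subtype.ext
  apply LinearMap.ext
  intro v
  apply hsep
  intro l hl
  have := congrArg (fun (φ : Λ →ₗ[ℤ] Λ) => ((φ ⟨l, hl⟩ : Λ) : Module.Dual ℂ V) v) ht
  simpa [stabAct] using this

theorem moduleFinite_stabAlg (Λ : Submodule ℤ (Module.Dual ℂ V)) (hfg : Λ.FG)
    (hsep : ∀ v : V, (∀ l ∈ Λ, l v = 0) → v = 0) : Module.Finite ℤ (stabAlg Λ) := by
  have : Module.Finite ℤ Λ := Module.Finite.iff_fg.mpr hfg
  have : IsAddTorsionFree (Module.Dual ℂ V) := .of_isTorsionFree ℂ _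
  have : Module.Free ℤ Λ := Module.free_of_finite_type_torsion_free'
  have : Module.Finite ℤ (Λ →ₗ[ℤ] Λ) := Module.Finite.linearMap ℤ ℤ Λ Λ
  exact Module.Finite.of_injective (stabAct Λ) (stabAct_injective Λ hsep)

end Abstract

/-- **Glue lemma**: a finitely generated `ℤ`-lattice of functionals on `S_k(Γ₀(N))` which is
stable under precomposition with the Hecke generators and separates points
forces the Hecke algebra to be module-finite over `ℤ`. -/
theorem moduleFinite_heckeAlgebra_of_lattice {N : ℕ} [NeZero N] {k : ℤ} {S : Set ℕ}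
    (Λ : Submodule ℤ (Module.Dual ℂ (CuspForm (CongruenceSubgroup.Gamma0 N) k)))
    (hfg : Λ.FG)
    (hstab : ∀ T ∈ heckeGenerators N k S, ∀ l ∈ Λ, l ∘ₗ T ∈ Λ)
    (hsep : ∀ f : CuspForm (CongruenceSubgroup.Gamma0 N) k, (∀ l ∈ Λ, l f = 0) → f = 0) :
    Module.Finite ℤ (heckeAlgebra N k S) := by
  have hle : heckeAlgebra N k S ≤ stabAlg Λ := Algebra.adjoin_le fun T hT => hstab T hT
  have := moduleFinite_stabAlg Λ hfg hsep
  exact Module.Finite.of_injective (Subalgebra.inclusion hle).toLinearMap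
    (Subalgebra.inclusion_injective hle)

/-- If the space of cusp forms is trivial, the Hecke algebra is module-finite. -/
theorem moduleFinite_heckeAlgebra_of_subsingleton {N : ℕ} [NeZero N] {k : ℤ} {S : Set ℕ}
    (h : ∀ f : CuspForm (CongruenceSubgroup.Gamma0 N) k, f = 0) :
    Module.Finite ℤ (heckeAlgebra N k S) :=
  moduleFinite_heckeAlgebra_of_lattice ⊥ Submodule.fg_bot
    (fun T _ l hl => by
      rw [Submodule.mem_bot] at hl ⊢
      rw [hl, LinearMap.zero_comp])
    (fun f _ => h f)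

end Fermat.Agent.S22.H262

end
-- ===== PACK-END S22/H262/Glue.lean

-- ===== PACK-BEGIN Lib/Pet695/Fold.lean
section


/-!
# Petersson pairing via partition functions: abstract adjointness

`IsPartFn a χ`: `χ ≥ 0` is measurable, integrable for the invariant measure of the upper half
plane and `∑ i, χ (a i • τ) = 1` for a countable family `a i` of elements of `GL(2,ℝ)`.
`pet k χ f g = ∫ χ · conj f · g · y^k dμ`.

Main result `pet_sum_slash_adjoint`: if `Δ = ⊔ (a i) (r j)` is stable under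
`δ ↦ c • δ⁻¹` and `det δ = c` on `Δ`, then `∑ j, · ∣[k] r j` is self-adjoint for `pet`.
-/

set_option autoImplicit false

open UpperHalfPlane MeasureTheory
open scoped MatrixGroups ModularForm ComplexConjugate

noncomputable section

namespace Fermat.Agent.Lib.Pet695

/-- partition function with respect to a family of elements of `GL(2,ℝ)` -/
structure IsPartFn {I : Type*} (a : I → GL (Fin 2) ℝ) (χ : ℍ → ℝ) : Prop where
  meas : Measurable χ
  nonneg : ∀ τ, 0 ≤ χ τ
  hasSum : ∀ τ, HasSum (fun i => χ (a i • τ)) 1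
  integrable : Integrable χ

/-- The Petersson pairing computed with the partition function `χ`
(conjugate-linear in the first variable, as Mathlib's `petersson`). -/
def pet (k : ℤ) (χ : ℍ → ℝ) (f g : ℍ → ℂ) : ℂ :=
  ∫ τ, (χ τ : ℂ) * petersson k f g τ

/-- Admissible functions: continuous with bounded Petersson norm. -/
structure IsAdm (k : ℤ) (f : ℍ → ℂ) : Prop where
  cont : Continuous f
  bdd : ∃ C, ∀ τ, ‖petersson k f f τ‖ ≤ C

section basic

variable {I : Type*} {a : I → GL (Fin 2) ℝ} {χ : ℍ → ℝ}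

theorem IsPartFn.le_one (hχ : IsPartFn a χ) (i : I) (τ : ℍ) : χ (a i • τ) ≤ 1 :=
  le_hasSum (hχ.hasSum τ) i (fun _ _ => hχ.nonneg _)

theorem IsPartFn.sum_le_one (hχ : IsPartFn a χ) (s : Finset I) (τ : ℍ) :
    ∑ i ∈ s, χ (a i • τ) ≤ 1 :=
  sum_le_hasSum s (fun _ _ => hχ.nonneg _) (hχ.hasSum τ)

theorem measurable_smul_uhp (δ : GL (Fin 2) ℝ) : Measurable fun τ : ℍ => δ • τ :=
  (continuous_const_smul δ).measurable

theorem norm_petersson (k : ℤ) (f g : ℍ → ℂ) (τ : ℍ) :
    ‖petersson k f g τ‖ = ‖f τ‖ * ‖g τ‖ * τ.im ^ k := by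
  have h : (0 : ℝ) < τ.im ^ k := zpow_pos τ.im_pos k
  simp only [petersson, norm_mul, Complex.norm_conj, norm_zpow, Complex.norm_real,
    Real.norm_of_nonneg τ.im_pos.le]

theorem norm_petersson_sq (k : ℤ) (f g : ℍ → ℂ) (τ : ℍ) :
    ‖petersson k f g τ‖ ^ 2 = ‖petersson k f f τ‖ * ‖petersson k g g τ‖ := by
  rw [norm_petersson, norm_petersson, norm_petersson]; ring

theorem norm_petersson_le {k : ℤ} {f g : ℍ → ℂ} {Cf Cg : ℝ} (τ : ℍ)
    (hf : ‖petersson k f f τ‖ ≤ Cf) (hg : ‖petersson k g g τ‖ ≤ Cg) :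
    ‖petersson k f g τ‖ ≤ Real.sqrt (Cf * Cg) := by
  apply Real.le_sqrt_of_sq_le
  rw [norm_petersson_sq]
  exact mul_le_mul hf hg (norm_nonneg _) ((norm_nonneg _).trans hf)

theorem continuous_slash (k : ℤ) {f : ℍ → ℂ} (hf : Continuous f) (δ : GL (Fin 2) ℝ) :
    Continuous (f ∣[k] δ) := by
  have h : (f ∣[k] δ) = fun τ : ℍ =>
      σ δ (f (δ • τ)) * |δ.det.val| ^ (k - 1) * denom δ τ ^ (-k) := by
    funext τ; exact ModularForm.slash_apply ..
  rw [h]
  have h1 : Continuous fun τ : ℍ => σ δ (f (δ • τ)) :=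
    (σ δ).continuous.comp (hf.comp (continuous_const_smul δ))
  have h2 : Continuous fun τ : ℍ => denom δ τ ^ (-k) := by
    refine Continuous.zpow₀ ?_ _ (fun τ => Or.inl (denom_ne_zero δ τ))
    unfold denom; fun_prop
  exact (h1.mul continuous_const).mul h2

theorem IsAdm.slash {k : ℤ} {f : ℍ → ℂ} (hf : IsAdm k f) (δ : GL (Fin 2) ℝ) :
    IsAdm k (f ∣[k] δ) := by
  refine ⟨continuous_slash k hf.cont δ, ?_⟩
  obtain ⟨C, hC⟩ := hf.bdd
  refine ⟨|δ.det.val| ^ (k - 2) * C, fun τ => ?_⟩
  rw [petersson_slash, norm_mul, norm_σ, norm_zpow, Complex.norm_real, Real.norm_eq_abs, abs_abs]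
  exact mul_le_mul_of_nonneg_left (hC _) (zpow_nonneg (abs_nonneg _) _)

theorem IsAdm.exists_bound {k : ℤ} {f g : ℍ → ℂ} (hf : IsAdm k f) (hg : IsAdm k g) :
    ∃ B, 0 ≤ B ∧ ∀ τ, ‖petersson k f g τ‖ ≤ B := by
  obtain ⟨Cf, hCf⟩ := hf.bdd
  obtain ⟨Cg, hCg⟩ := hg.bdd
  exact ⟨Real.sqrt (Cf * Cg), Real.sqrt_nonneg _, fun τ => norm_petersson_le τ (hCf τ) (hCg τ)⟩

theorem IsAdm.continuous_petersson {k : ℤ} {f g : ℍ → ℂ} (hf : IsAdm k f) (hg : IsAdm k g) :
    Continuous (petersson k f g) :=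
  petersson_continuous k hf.cont hg.cont

end basic

section unfold

variable {I : Type*} {a : I → GL (Fin 2) ℝ} {χ : ℍ → ℝ}

theorem IsPartFn.integrable_mul (hχ : IsPartFn a χ) {Ψ : ℍ → ℂ} (hΨ : Measurable Ψ) {B : ℝ}
    (hB : ∀ τ, ‖Ψ τ‖ ≤ B) : Integrable (fun w => (χ w : ℂ) * Ψ w) := by
  have h1 : Integrable (fun w => B * χ w) := hχ.integrable.const_mul B
  refine h1.mono' ((Complex.measurable_ofReal.comp hχ.meas).mul hΨ).aestronglyMeasurable
    (Filter.Eventually.of_forall fun w => ?_)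
  rw [norm_mul, Complex.norm_real, Real.norm_of_nonneg (hχ.nonneg w), mul_comm]
  exact mul_le_mul_of_nonneg_right (hB w) (hχ.nonneg w)

theorem IsPartFn.integrable_mul_mul (hχ : IsPartFn a χ) (i : I) (r : GL (Fin 2) ℝ)
    {Ψ : ℍ → ℂ} (hΨ : Measurable Ψ) {B : ℝ} (hB : ∀ τ, ‖Ψ τ‖ ≤ B) :
    Integrable (fun w => (χ w : ℂ) * (χ (a i • r • w) : ℂ) * Ψ w) := by
  have hm : Measurable fun w : ℍ => (χ (a i • r • w) : ℂ) :=
    Complex.measurable_ofReal.comp (hχ.meas.comp
      ((measurable_smul_uhp (a i)).comp (measurable_smul_uhp r)))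
  have h := hχ.integrable_mul (Ψ := fun w => (χ (a i • r • w) : ℂ) * Ψ w) (hm.mul hΨ) (B := B)
    (fun w => by
      rw [norm_mul, Complex.norm_real, Real.norm_of_nonneg (hχ.nonneg _)]
      calc χ (a i • r • w) * ‖Ψ w‖ ≤ 1 * B :=
            mul_le_mul (hχ.le_one i _) (hB w) (norm_nonneg _) zero_le_one
        _ = B := one_mul B)
  refine h.congr (Filter.Eventually.of_forall fun w => ?_)
  simp only [mul_assoc]

/-- Unfolding against the partition function. -/
theorem IsPartFn.hasSum_integral [Countable I] (hχ : IsPartFn a χ) (r : GL (Fin 2) ℝ)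
    {Ψ : ℍ → ℂ} (hΨ : Measurable Ψ) {B : ℝ} (hB : ∀ τ, ‖Ψ τ‖ ≤ B) :
    HasSum (fun i => ∫ w, (χ w : ℂ) * (χ (a i • r • w) : ℂ) * Ψ w)
      (∫ w, (χ w : ℂ) * Ψ w) := by
  have hB0 : 0 ≤ B := (norm_nonneg _).trans (hB UpperHalfPlane.I)
  set F : I → ℍ → ℂ := fun i w => (χ w : ℂ) * (χ (a i • r • w) : ℂ) * Ψ w with hF
  have hint : ∀ i, Integrable (F i) := fun i => hχ.integrable_mul_mul i r hΨ hB
  have hnorm : ∀ i w, ‖F i w‖ = χ w * χ (a i • r • w) * ‖Ψ w‖ := by
    intro i w
    simp only [hF, norm_mul, Complex.norm_real, Real.norm_of_nonneg (hχ.nonneg _)]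
  have hsum : Summable fun i => ∫ w, ‖F i w‖ := by
    refine summable_of_sum_le (c := B * ∫ w, χ w) (fun i => integral_nonneg fun w => norm_nonneg _)
      (fun s => ?_)
    rw [← integral_finsetSum _ (fun i _ => (hint i).norm), ← integral_const_mul]
    refine integral_mono (integrable_finsetSum _ fun i _ => (hint i).norm)
      (hχ.integrable.const_mul B) (fun w => ?_)
    simp only [hnorm]
    calc ∑ i ∈ s, χ w * χ (a i • r • w) * ‖Ψ w‖
        = (∑ i ∈ s, χ (a i • r • w)) * (χ w * ‖Ψ w‖) := by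
          rw [Finset.sum_mul]; exact Finset.sum_congr rfl fun i _ => by ring
      _ ≤ 1 * (χ w * B) := by
          refine mul_le_mul (hχ.sum_le_one s _) ?_ (mul_nonneg (hχ.nonneg _) (norm_nonneg _))
            zero_le_one
          exact mul_le_mul_of_nonneg_left (hB w) (hχ.nonneg w)
      _ = B * χ w := by ring
  have h := hasSum_integral_of_summable_integral_norm hint hsum
  have h2 : ∀ w, ∑' i, F i w = (χ w : ℂ) * Ψ w := by
    intro w
    have h3 : HasSum (fun i => (χ (a i • r • w) : ℂ)) ((1 : ℝ) : ℂ) :=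
      Complex.hasSum_ofReal.mpr (hχ.hasSum (r • w))  -- placeholder name
    have h4 : HasSum (fun i => F i w) ((χ w : ℂ) * ((1 : ℝ) : ℂ) * Ψ w) :=
      (h3.mul_left (χ w : ℂ)).mul_right (Ψ w)
    rw [h4.tsum_eq]; simp
  simpa only [h2] using h

end unfold

section scalar

variable {A B : GL (Fin 2) ℝ} {c : ℝ}

theorem det_of_val_eq_smul (h : A.val = c • B.val) : A.det.val = c ^ 2 * B.det.val := by
  rw [Matrix.GeneralLinearGroup.val_det_apply, Matrix.GeneralLinearGroup.val_det_apply, h,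
    Matrix.det_smul, Fintype.card_fin]

theorem σ_of_val_eq_smul (hc : c ≠ 0) (h : A.val = c • B.val) : σ A = σ B := by
  have hc2 : 0 < c ^ 2 := by positivity
  unfold σ
  rw [det_of_val_eq_smul h]
  by_cases hB : 0 < B.det.val
  · rw [if_pos hB, if_pos (mul_pos hc2 hB)]
  · rw [if_neg hB, if_neg]
    intro h'
    exact hB ((mul_pos_iff_of_pos_left hc2).mp h')

theorem num_of_val_eq_smul (h : A.val = c • B.val) (z : ℂ) : num A z = c * num B z := by
  simp only [num, h, Matrix.smul_apply, smul_eq_mul, Complex.ofReal_mul]; ring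

theorem denom_of_val_eq_smul (h : A.val = c • B.val) (z : ℂ) : denom A z = c * denom B z := by
  simp only [denom, h, Matrix.smul_apply, smul_eq_mul, Complex.ofReal_mul]; ring

theorem smul_of_val_eq_smul (hc : c ≠ 0) (h : A.val = c • B.val) (τ : ℍ) : A • τ = B • τ := by
  ext : 1
  rw [coe_smul, coe_smul, σ_of_val_eq_smul hc h, num_of_val_eq_smul h, denom_of_val_eq_smul h]
  congr 1
  have hc' : (c : ℂ) ≠ 0 := by exact_mod_cast hc
  rw [mul_div_mul_left _ _ hc']

theorem slash_of_val_eq_smul (k : ℤ) (hc : 0 < c) (h : A.val = c • B.val) (f : ℍ → ℂ) :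
    f ∣[k] A = ((c : ℂ) ^ (k - 2)) • (f ∣[k] B) := by
  have hc' : (c : ℂ) ≠ 0 := by exact_mod_cast hc.ne'
  funext τ
  rw [Pi.smul_apply, ModularForm.slash_apply, ModularForm.slash_apply,
    σ_of_val_eq_smul hc.ne' h, smul_of_val_eq_smul hc.ne' h, denom_of_val_eq_smul h,
    det_of_val_eq_smul h, abs_mul, abs_of_pos (by positivity : (0 : ℝ) < c ^ 2), smul_eq_mul,
    Complex.ofReal_mul, mul_zpow, mul_zpow, Complex.ofReal_pow]
  have e1 : ((c : ℂ) ^ 2) ^ (k - 1) * (c : ℂ) ^ (-k) = (c : ℂ) ^ (k - 2) := by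
    rw [← zpow_natCast, ← zpow_mul, ← zpow_add₀ hc']
    congr 1
    push_cast; ring
  calc (σ B) (f (B • τ)) * (((c : ℂ) ^ 2) ^ (k - 1) * ((|B.det.val| : ℝ) : ℂ) ^ (k - 1))
        * ((c : ℂ) ^ (-k) * denom B τ ^ (-k))
      = (((c : ℂ) ^ 2) ^ (k - 1) * (c : ℂ) ^ (-k))
        * ((σ B) (f (B • τ)) * ((|B.det.val| : ℝ) : ℂ) ^ (k - 1) * denom B τ ^ (-k)) := by ring
    _ = _ := by rw [e1]

end scalar

section adjoint

variable {k : ℤ} {I : Type*} {a : I → GL (Fin 2) ℝ} {χ : ℍ → ℝ}

theorem petersson_smul_left (k : ℤ) (c : ℂ) (f g : ℍ → ℂ) (τ : ℍ) :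
    petersson k (c • f) g τ = conj c * petersson k f g τ := by
  simp only [petersson, Pi.smul_apply, smul_eq_mul, map_mul]; ring

theorem petersson_sum_left (k : ℤ) {ι : Type*} (s : Finset ι) (f : ι → ℍ → ℂ) (g : ℍ → ℂ)
    (τ : ℍ) : petersson k (∑ j ∈ s, f j) g τ = ∑ j ∈ s, petersson k (f j) g τ := by
  simp only [petersson, Finset.sum_apply, map_sum, Finset.sum_mul]

theorem petersson_sum_right (k : ℤ) {ι : Type*} (s : Finset ι) (f : ℍ → ℂ) (g : ι → ℍ → ℂ)
    (τ : ℍ) : petersson k f (∑ j ∈ s, g j) τ = ∑ j ∈ s, petersson k f (g j) τ := by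
  simp only [petersson, Finset.sum_apply, Finset.mul_sum, Finset.sum_mul]

/-- The key pointwise identity behind adjointness. -/
theorem petersson_star {δ δ' : GL (Fin 2) ℝ} {c : ℝ} (hc : 0 < c) (hdet : δ.det.val = c)
    (h : δ'.val = c • (δ⁻¹).val) (f g : ℍ → ℂ) (u : ℍ) :
    petersson k f (g ∣[k] δ) (δ⁻¹ • u) = petersson k (f ∣[k] δ') g u := by
  have hc' : (c : ℂ) ≠ 0 := by exact_mod_cast hc.ne'
  have h1 := petersson_slash k f (g ∣[k] δ) δ⁻¹ u
  have h2 : (g ∣[k] δ) ∣[k] δ⁻¹ = g := by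
    rw [← SlashAction.slash_mul, mul_inv_cancel, SlashAction.slash_one]
  have hdet' : (δ⁻¹).det.val = c⁻¹ := by
    rw [map_inv, Units.val_inv_eq_inv_val, hdet]
  have hσ : σ δ⁻¹ = .refl ℝ ℂ := by
    unfold σ; rw [if_pos]; rw [hdet']; exact inv_pos.mpr hc
  rw [h2, hσ, hdet', abs_of_pos (inv_pos.mpr hc)] at h1
  rw [slash_of_val_eq_smul k hc h f, petersson_smul_left, h1]
  simp only [ContinuousAlgEquiv.refl_apply, map_zpow₀, Complex.conj_ofReal, Complex.ofReal_inv]
  rw [← mul_assoc, ← mul_zpow, mul_inv_cancel₀ hc', one_zpow, one_mul]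

theorem integral_star_eq {δ δ' : GL (Fin 2) ℝ} {c : ℝ} (hc : 0 < c) (hdet : δ.det.val = c)
    (h : δ'.val = c • (δ⁻¹).val) (χ : ℍ → ℝ) (f g : ℍ → ℂ) :
    ∫ w, (χ w : ℂ) * (χ (δ • w) : ℂ) * petersson k f (g ∣[k] δ) w
      = ∫ u, (χ u : ℂ) * (χ (δ' • u) : ℂ) * petersson k (f ∣[k] δ') g u := by
  have h1 := integral_smul_eq_self (μ := (volume : Measure ℍ))
    (fun u : ℍ => (χ (δ⁻¹ • u) : ℂ) * (χ u : ℂ) * petersson k f (g ∣[k] δ) (δ⁻¹ • u)) (g := δ)
  simp only [inv_smul_smul] at h1
  rw [h1]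
  congr 1
  funext u
  rw [petersson_star hc hdet h, smul_of_val_eq_smul hc.ne' h]
  ring

theorem hasSum_prod_of_fintype {α ι E : Type*} [Fintype ι] [AddCommMonoid E]
    [TopologicalSpace E] [ContinuousAdd E] {G : α × ι → E} {S : ι → E}
    (h : ∀ j, HasSum (fun i => G (i, j)) (S j)) : HasSum G (∑ j, S j) := by
  classical
  have h1 : ∀ j, HasSum (fun p : α × ι => if p.2 = j then G p else 0) (S j) := by
    intro j
    have hinj : Function.Injective fun i : α => (i, j) := fun x y hxy => (Prod.mk.inj hxy).1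
    refine (hinj.hasSum_iff ?_).mp ?_
    · rintro ⟨x, y⟩ hx
      have : y ≠ j := by
        rintro rfl
        exact hx ⟨x, rfl⟩
      simp [this]
    · simpa [Function.comp_def] using h j
  have h2 := hasSum_sum (s := Finset.univ) fun j _ => h1 j
  have h3 : (fun p : α × ι => ∑ j : ι, if p.2 = j then G p else 0) = G := by
    funext p
    rw [Finset.sum_ite_eq]
    simp
  rwa [h3] at h2

/-- Sum over `Δ = ⊔ a i * r j` of the unfolded integrals. -/
theorem IsPartFn.hasSum_integral_Delta [Countable I] (hχ : IsPartFn a χ) {ι : Type*} [Fintype ι]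
    (r : ι → GL (Fin 2) ℝ) (Δ : Set (GL (Fin 2) ℝ)) (e : I × ι ≃ Δ)
    (he : ∀ i j, (e (i, j) : GL (Fin 2) ℝ) = a i * r j)
    (Φ : GL (Fin 2) ℝ → ℍ → ℂ) (hΦ : ∀ i j, Φ (a i * r j) = Φ (r j))
    (hΦm : ∀ j, Measurable (Φ (r j))) {B : ℝ} (hΦB : ∀ j τ, ‖Φ (r j) τ‖ ≤ B) :
    HasSum (fun δ : Δ => ∫ w, (χ w : ℂ) * (χ ((δ : GL (Fin 2) ℝ) • w) : ℂ) * Φ δ w)
      (∑ j, ∫ w, (χ w : ℂ) * Φ (r j) w) := by
  rw [← e.hasSum_iff]
  refine hasSum_prod_of_fintype fun j => ?_
  have h := hχ.hasSum_integral (r j) (hΦm j) (hΦB j)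
  have hfun : (fun i => ((fun δ : Δ =>
        ∫ w, (χ w : ℂ) * (χ ((δ : GL (Fin 2) ℝ) • w) : ℂ) * Φ δ w) ∘ e) (i, j))
      = fun i => ∫ w, (χ w : ℂ) * (χ (a i • r j • w) : ℂ) * Φ (r j) w := by
    funext i
    simp only [Function.comp_apply, he, hΦ, mul_smul]
  rw [hfun]
  exact h

/-- **Abstract adjointness.**  If `Δ = ⊔ᵢⱼ a i * r j` consists of matrices of determinant `c > 0`
and is stable under `δ ↦ c • δ⁻¹`, then `f ↦ ∑ j, f ∣[k] r j` is self-adjoint for the Petersson
pairing on admissible functions invariant under all `a i`. -/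
theorem pet_sum_slash_adjoint [Countable I] (hχ : IsPartFn a χ) {ι : Type*} [Fintype ι]
    (r : ι → GL (Fin 2) ℝ) {c : ℝ} (hc : 0 < c) (Δ : Set (GL (Fin 2) ℝ))
    (hΔdet : ∀ δ ∈ Δ, δ.det.val = c)
    (e : I × ι ≃ Δ) (he : ∀ i j, (e (i, j) : GL (Fin 2) ℝ) = a i * r j)
    (star : Δ ≃ Δ)
    (hstar : ∀ δ : Δ, (star δ : GL (Fin 2) ℝ).val = c • ((δ : GL (Fin 2) ℝ)⁻¹).val)
    {f g : ℍ → ℂ} (hf : IsAdm k f) (hg : IsAdm k g)
    (hfa : ∀ i, f ∣[k] a i = f) (hga : ∀ i, g ∣[k] a i = g) :
    pet k χ (∑ j, f ∣[k] r j) g = pet k χ f (∑ j, g ∣[k] r j) := by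
  -- bounds
  have hB1 : ∀ j, ∃ B, ∀ τ, ‖petersson k f (g ∣[k] r j) τ‖ ≤ B := fun j => by
    obtain ⟨B, -, hB⟩ := hf.exists_bound (hg.slash (r j))
    exact ⟨B, hB⟩
  have hB2 : ∀ j, ∃ B, ∀ τ, ‖petersson k (f ∣[k] r j) g τ‖ ≤ B := fun j => by
    obtain ⟨B, -, hB⟩ := (hf.slash (r j)).exists_bound hg
    exact ⟨B, hB⟩
  choose B1 hB1 using hB1
  choose B2 hB2 using hB2
  obtain ⟨M1, hM1⟩ : ∃ M, ∀ j, B1 j ≤ M := (Finite.bddAbove_range B1).imp fun M hM j =>
    hM ⟨j, rfl⟩
  obtain ⟨M2, hM2⟩ : ∃ M, ∀ j, B2 j ≤ M := (Finite.bddAbove_range B2).imp fun M hM j =>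
    hM ⟨j, rfl⟩
  have hS1 := hχ.hasSum_integral_Delta r Δ e he (fun δ => petersson k f (g ∣[k] δ))
    (fun i j => by rw [SlashAction.slash_mul, hga i])
    (fun j => (hf.continuous_petersson (hg.slash (r j))).measurable)
    (B := M1) (fun j τ => (hB1 j τ).trans (hM1 j))
  have hS2 := hχ.hasSum_integral_Delta r Δ e he (fun δ => petersson k (f ∣[k] δ) g)
    (fun i j => by rw [SlashAction.slash_mul, hfa i])
    (fun j => ((hf.slash (r j)).continuous_petersson hg).measurable)
    (B := M2) (fun j τ => (hB2 j τ).trans (hM2 j))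
  have hfun : (fun δ : Δ => ∫ w, (χ w : ℂ) * (χ ((δ : GL (Fin 2) ℝ) • w) : ℂ)
        * petersson k f (g ∣[k] (δ : GL (Fin 2) ℝ)) w)
      = (fun δ : Δ => ∫ w, (χ w : ℂ) * (χ ((δ : GL (Fin 2) ℝ) • w) : ℂ)
        * petersson k (f ∣[k] (δ : GL (Fin 2) ℝ)) g w) ∘ star := by
    funext δ
    exact integral_star_eq hc (hΔdet δ δ.2) (hstar δ) χ f g
  rw [hfun, star.hasSum_iff] at hS1
  have hEq := hS1.unique hS2
  -- linearity
  have hL : pet k χ (∑ j, f ∣[k] r j) g = ∑ j, ∫ w, (χ w : ℂ) * petersson k (f ∣[k] r j) g w := by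
    unfold pet
    rw [← integral_finsetSum]
    · congr 1; funext w; rw [petersson_sum_left, Finset.mul_sum]
    · intro j _
      exact hχ.integrable_mul ((hf.slash (r j)).continuous_petersson hg).measurable (hB2 j)
  have hR : pet k χ f (∑ j, g ∣[k] r j) = ∑ j, ∫ w, (χ w : ℂ) * petersson k f (g ∣[k] r j) w := by
    unfold pet
    rw [← integral_finsetSum]
    · congr 1; funext w; rw [petersson_sum_right, Finset.mul_sum]
    · intro j _
      exact hχ.integrable_mul (hf.continuous_petersson (hg.slash (r j))).measurable (hB1 j)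
  rw [hL, hR, hEq]

end adjoint

end Fermat.Agent.Lib.Pet695

end
end
-- ===== PACK-END Lib/Pet695/Fold.lean

-- ===== PACK-BEGIN S21/Defs.lean
section


/-!
# S21 — common definitions for the Hodge (Dirichlet principle) part D'
-/

set_option autoImplicit false

open UpperHalfPlane
open scoped MatrixGroups

namespace Fermat.Agent.S21

/-- The upper half plane as an open subset of `ℂ`. -/
def Uhp : Set ℂ := {z : ℂ | 0 < z.im}

theorem mem_Uhp {z : ℂ} : z ∈ Uhp ↔ 0 < z.im := Iff.rfl

theorem isOpen_Uhp : IsOpen Uhp := isOpen_lt continuous_const Complex.continuous_im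

theorem coe_mem_Uhp (z : ℍ) : (z : ℂ) ∈ Uhp := z.im_pos

/-- `2 ∂/∂z = ∂_x - i ∂_y` of a real-valued function on `ℂ`. -/
noncomputable def dz (u : ℂ → ℝ) (z : ℂ) : ℂ :=
  ((fderiv ℝ u z 1 : ℝ) : ℂ) - Complex.I * ((fderiv ℝ u z Complex.I : ℝ) : ℂ)

/-- The Möbius action of `SL(2,ℤ)` written on `ℂ` (junk value off the upper half plane). -/
noncomputable def mob (g : SL(2, ℤ)) (z : ℂ) : ℂ := ((g • ofComplex z : ℍ) : ℂ)

/-- The automorphy factor `c z + d`. -/
def cd (g : SL(2, ℤ)) (z : ℂ) : ℂ := ((g 1 0 : ℤ) : ℂ) * z + ((g 1 1 : ℤ) : ℂ)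

/-- The compact cusp strip `{ |Re z| ≤ 1, 2 ≤ Im z ≤ Y }`. -/
def strip (Y : ℝ) : Set ℂ := {z : ℂ | |z.re| ≤ 1 ∧ 2 ≤ z.im ∧ z.im ≤ Y}

end Fermat.Agent.S21

end
-- ===== PACK-END S21/Defs.lean

-- ===== PACK-BEGIN S24/Defs.lean
section


/-!
# S24 — shared interface definitions

`LocalData` packages, for a local parameter `t` of the rational subfield `K(t) ⊆ F`,
a full set of `K(t)`-embeddings of `F` into a Laurent series field together with the
"monodromy" permutation.  See `Fermat/Agent/S24/Alg.lean` (algebraic side) and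
`Fermat/Agent/S24/Mod.lean` (modular side).
-/

set_option autoImplicit false

noncomputable section

open AlgebraicCurve ModularCurve
open scoped MatrixGroups

namespace Fermat.Agent.S24

/-- Number of orbits (cycles, fixed points included) of a permutation. -/
def numOrbits {X : Type*} (π : Equiv.Perm X) : ℕ :=
  Nat.card (MulAction.orbitRel.Quotient (Subgroup.zpowers π) X)

/-- Local uniformisation data of `F/K` at the zero of `t`: a family `σ x` (`x : X`) of pairwise
distinct field embeddings `F → C((z))`, all restricting to the same embedding of `K(t)`, with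
`ord_z (σ x t) = m > 0`, and a permutation `perm` of `X` realising `z ↦ ζ z`
(`ζ` a primitive `m`-th root of unity). -/
structure LocalData (K F : Type*) [Field K] [Field F] [Algebra K F] (C : Type*) [Field C]
    (X : Type*) (t : F) where
  m : ℕ
  m_pos : 0 < m
  ζ : C
  hζ : IsPrimitiveRoot ζ m
  ι : K →+* C
  perm : Equiv.Perm X
  σ : X → (F →+* LaurentSeries C)
  σ_inj : Function.Injective σ
  σ_const : ∀ (x : X) (c : K), σ x (algebraMap K F c) = HahnSeries.C (ι c)
  σ_t_eq : ∀ x y : X, σ x t = σ y t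
  σ_t_order : ∀ x : X, (σ x t).order = (m : ℤ)
  σ_perm_order : ∀ (x : X) (f : F), (σ (perm x) f).order = (σ x f).order
  σ_perm_leadingCoeff : ∀ (x : X) (f : F),
    (σ (perm x) f).leadingCoeff = ζ ^ (σ x f).order * (σ x f).leadingCoeff

section Modular

variable (N : ℕ) [NeZero N]

/-- The base field `ℚ̄`. -/
abbrev Kbar : Type := AlgebraicClosure ℚ

/-- The function field of `X₀(N)` over `ℚ̄` (as a type). -/
abbrev FF : Type := ↥(modularFunctionFieldBar N)

/-- The `j`-function as an element of the function field of `X₀(N)` over `ℚ̄`. -/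
def jF : FF N :=
  ⟨coeffEmb Kbar jq,
    coeffEmb_mem_laurentBaseChange Kbar (modularFunctionField_le_full N (jq_mem N))⟩

/-- The coset space `SL₂(ℤ) / Γ₀(N)`. -/
abbrev XX : Type := SL(2, ℤ) ⧸ CongruenceSubgroup.Gamma0 N

/-- The permutation of `SL₂(ℤ) / Γ₀(N)` induced by left multiplication by `g`. -/
def permOf (g : SL(2, ℤ)) : Equiv.Perm (XX N) := MulAction.toPerm g

end Modular

end Fermat.Agent.S24

end
end
-- ===== PACK-END S24/Defs.lean

-- ===== PACK-BEGIN S24/FFBasic.lean
section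



/-!
# S24 / FF layer: basic facts on `AlgebraicCurve.Place`

Embedding-free algebraic core (helper804).
-/

set_option autoImplicit false

namespace Fermat.Agent.S24.FF

open AlgebraicCurve

variable {K F : Type*} [Field K] [Field F] [Algebra K F]

section Basic

variable (v : Place K F)

theorem exists_irreducible_coe :
    ∃ π : v.toValuationSubring, Irreducible π ∧ v.ord (π : F) = 1 := by
  obtain ⟨π, hπ⟩ := IsDiscreteValuationRing.exists_irreducible v.toValuationSubring
  exact ⟨π, hπ, v.ord_coe_irreducible hπ⟩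

theorem mem_of_ord_nonneg {f : F} (h : 0 ≤ v.ord f) : f ∈ v.toValuationSubring := by
  rcases eq_or_ne f 0 with rfl | hf
  · exact zero_mem _
  obtain ⟨π, hπ⟩ := IsDiscreteValuationRing.exists_irreducible v.toValuationSubring
  obtain ⟨u, hu⟩ := v.exists_unit_mul_zpow hf hπ
  rw [hu]
  refine mul_mem (u : v.toValuationSubring).2 ?_
  obtain ⟨n, hn⟩ := Int.eq_ofNat_of_zero_le h
  rw [hn, zpow_natCast]
  exact pow_mem π.2 n

theorem ord_nonneg_of_mem {f : F} (h : f ∈ v.toValuationSubring) : 0 ≤ v.ord f := by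
  rcases eq_or_ne f 0 with rfl | hf
  · simp
  by_contra hneg
  rw [not_le] at hneg
  obtain ⟨π, hπ⟩ := IsDiscreteValuationRing.exists_irreducible v.toValuationSubring
  obtain ⟨u, hu⟩ := v.exists_unit_mul_zpow hf hπ
  have hπF : (π : F) ≠ 0 := by
    simpa [ne_eq, ZeroMemClass.coe_eq_zero] using hπ.ne_zero
  -- `f * π ^ (-ord f) = u`
  obtain ⟨n, hn⟩ := Int.eq_ofNat_of_zero_le (show 0 ≤ -v.ord f - 1 by omega)
  have hord : v.ord f = -((n : ℤ) + 1) := by omega
  have key : f * (π : F) ^ (n + 1) = ((u : v.toValuationSubring) : F) := by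
    conv_lhs => rw [hu, hord]
    rw [zpow_neg, mul_assoc, ← zpow_natCast (π : F) (n + 1)]
    push_cast
    rw [inv_mul_cancel₀ (zpow_ne_zero _ hπF), mul_one]
  have hmem : (⟨f, h⟩ : v.toValuationSubring) * π ^ (n + 1) = (u : v.toValuationSubring) :=
    Subtype.ext (by simpa using key)
  have hunit : IsUnit ((⟨f, h⟩ : v.toValuationSubring) * π ^ (n + 1)) := hmem ▸ u.isUnit
  have := (IsUnit.mul_iff.mp hunit).2
  rw [pow_succ] at this
  exact hπ.not_isUnit (IsUnit.mul_iff.mp this).2

theorem mem_iff_ord_nonneg {f : F} : f ∈ v.toValuationSubring ↔ 0 ≤ v.ord f :=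
  ⟨ord_nonneg_of_mem v, mem_of_ord_nonneg v⟩

theorem ord_algebraMap (a : K) : v.ord (algebraMap K F a) = 0 := by
  rcases eq_or_ne a 0 with rfl | ha
  · simp
  have h1 := ord_nonneg_of_mem v (v.algebraMap_mem' a)
  have h2 := ord_nonneg_of_mem v (v.algebraMap_mem' a⁻¹)
  rw [map_inv₀, v.ord_inv] at h2
  omega

theorem ord_pos_iff_mem_nonunits {f : F} (hf : f ≠ 0) :
    0 < v.ord f ↔ f ∈ v.toValuationSubring.nonunits := by
  rw [ValuationSubring.mem_nonunits_iff_exists_mem_maximalIdeal]
  constructor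
  · intro h
    refine ⟨mem_of_ord_nonneg v h.le, ?_⟩
    rw [IsLocalRing.mem_maximalIdeal, mem_nonunits_iff]
    intro hu
    have := v.ord_coe_unit hu.unit
    simp only [IsUnit.unit_spec] at this
    omega
  · rintro ⟨hmem, hmax⟩
    have h0 := ord_nonneg_of_mem v hmem
    rcases h0.lt_or_eq with h | h
    · exact h
    exfalso
    have hinv : f⁻¹ ∈ v.toValuationSubring := mem_of_ord_nonneg v (by rw [v.ord_inv]; omega)
    rw [IsLocalRing.mem_maximalIdeal, mem_nonunits_iff] at hmax
    apply hmax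
    refine IsUnit.of_mul_eq_one (⟨f⁻¹, hinv⟩ : v.toValuationSubring) (Subtype.ext ?_)
    simp [hf]

theorem ord_add_ge {f g : F} (hfg : f + g ≠ 0) :
    min (v.ord f) (v.ord g) ≤ v.ord (f + g) := by
  rcases eq_or_ne f 0 with rfl | hf
  · simp
  rcases eq_or_ne g 0 with rfl | hg
  · simp
  obtain ⟨π, hπ⟩ := IsDiscreteValuationRing.exists_irreducible v.toValuationSubring
  have hπF : (π : F) ≠ 0 := by
    simpa [ne_eq, ZeroMemClass.coe_eq_zero] using hπ.ne_zero
  set m := min (v.ord f) (v.ord g) with hm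
  have hf' : (π : F) ^ (-m) * f ∈ v.toValuationSubring := by
    apply mem_of_ord_nonneg v
    rw [v.ord_mul (zpow_ne_zero _ hπF) hf, v.ord_zpow, v.ord_coe_irreducible hπ]
    have := min_le_left (v.ord f) (v.ord g)
    omega
  have hg' : (π : F) ^ (-m) * g ∈ v.toValuationSubring := by
    apply mem_of_ord_nonneg v
    rw [v.ord_mul (zpow_ne_zero _ hπF) hg, v.ord_zpow, v.ord_coe_irreducible hπ]
    have := min_le_right (v.ord f) (v.ord g)
    omega
  have hsum := ord_nonneg_of_mem v (add_mem hf' hg')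
  rw [← mul_add, v.ord_mul (zpow_ne_zero _ hπF) hfg, v.ord_zpow, v.ord_coe_irreducible hπ] at hsum
  omega

end Basic

end Fermat.Agent.S24.FF

end
-- ===== PACK-END S24/FFBasic.lean

-- ===== PACK-BEGIN S24/H84/LaurentDeriv.lean
section


/-!
# `d/dz` on Laurent series as a derivation (helper84, S24 piece KD3)

Mathlib has `LaurentSeries.derivative` only as a linear map.  We prove the Leibniz rule,
package it as a `Derivation`, and compute orders.
-/

set_option autoImplicit false

noncomputable section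

namespace Fermat.Agent.S24.H84

open HahnSeries

section Ring

variable {C : Type*} [CommRing C]

theorem laurent_derivative_coeff (f : LaurentSeries C) (n : ℤ) :
    (LaurentSeries.derivative C f).coeff n = ((n + 1 : ℤ) : C) * f.coeff (n + 1) := by
  rw [LaurentSeries.derivative_apply, LaurentSeries.hasseDeriv_coeff]
  simp [zsmul_eq_mul]

theorem laurent_derivative_ofPowerSeries (P : PowerSeries C) :
    LaurentSeries.derivative C (P : LaurentSeries C) =
      ((PowerSeries.derivative C P : PowerSeries C) : LaurentSeries C) := by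
  ext n
  rw [laurent_derivative_coeff, PowerSeries.coeff_coe, PowerSeries.coeff_coe]
  by_cases hn : n < 0
  · rw [if_pos hn]
    by_cases hn1 : n + 1 < 0
    · rw [if_pos hn1, mul_zero]
    · have : n + 1 = 0 := by omega
      rw [this]; simp
  · rw [if_neg hn, if_neg (by omega)]
    obtain ⟨k, rfl⟩ := Int.eq_ofNat_of_zero_le (not_lt.mp hn)
    have h1 : ((k : ℤ) + 1).natAbs = k + 1 := by omega
    rw [h1, Int.natAbs_natCast, PowerSeries.coeff_derivative]
    push_cast
    ring

theorem laurent_derivative_single_mul (n : ℤ) (h : LaurentSeries C) :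
    LaurentSeries.derivative C (single n (1 : C) * h) =
      (n : C) • (single (n - 1) (1 : C) * h) + single n (1 : C) * LaurentSeries.derivative C h := by
  ext k
  rw [laurent_derivative_coeff, HahnSeries.coeff_add, HahnSeries.coeff_smul,
    coeff_single_mul, coeff_single_mul, coeff_single_mul, laurent_derivative_coeff]
  have e1 : k - (n - 1) = k + 1 - n := by ring
  have e2 : k - n + 1 = k + 1 - n := by ring
  rw [e1, e2]
  simp only [one_mul, smul_eq_mul]
  push_cast
  ring

theorem laurent_derivative_mul (f g : LaurentSeries C) :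
    LaurentSeries.derivative C (f * g) =
      f * LaurentSeries.derivative C g + g * LaurentSeries.derivative C f := by
  obtain ⟨a, P, rfl⟩ : ∃ (a : ℤ) (P : PowerSeries C), f = single a (1 : C) * (P : LaurentSeries C) :=
    ⟨_, _, (LaurentSeries.single_order_mul_powerSeriesPart f).symm⟩
  obtain ⟨b, Q, rfl⟩ : ∃ (b : ℤ) (Q : PowerSeries C), g = single b (1 : C) * (Q : LaurentSeries C) :=
    ⟨_, _, (LaurentSeries.single_order_mul_powerSeriesPart g).symm⟩
  have hfg : single a (1 : C) * (P : LaurentSeries C) * (single b (1 : C) * (Q : LaurentSeries C))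
      = single (a + b) (1 : C) * ((P * Q : PowerSeries C) : LaurentSeries C) := by
    have : single (a + b) (1 : C) = single a (1 : C) * single b (1 : C) := by
      rw [single_mul_single, one_mul]
    rw [this]
    push_cast
    ring
  rw [hfg, laurent_derivative_single_mul, laurent_derivative_single_mul,
    laurent_derivative_single_mul, laurent_derivative_ofPowerSeries,
    laurent_derivative_ofPowerSeries, laurent_derivative_ofPowerSeries,
    Derivation.leibniz, smul_eq_mul, smul_eq_mul]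
  have h1 : single (a + b - 1) (1 : C) = single (a - 1) (1 : C) * single b (1 : C) := by
    rw [single_mul_single, one_mul, show a - 1 + b = a + b - 1 by omega]
  have h2 : single (a + b - 1) (1 : C) = single a (1 : C) * single (b - 1) (1 : C) := by
    rw [single_mul_single, one_mul, show a + (b - 1) = a + b - 1 by omega]
  have h3 : single (a + b) (1 : C) = single a (1 : C) * single b (1 : C) := by
    rw [single_mul_single, one_mul]
  simp only [← HahnSeries.C_mul_eq_smul, PowerSeries.coe_add, PowerSeries.coe_mul]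
  push_cast
  rw [h3]
  have h4 : (HahnSeries.C ((a : C) + (b : C)) : LaurentSeries C) * single (a + b - 1) (1 : C)
      = HahnSeries.C (a : C) * (single (a - 1) (1 : C) * single b (1 : C))
        + HahnSeries.C (b : C) * (single a (1 : C) * single (b - 1) (1 : C)) := by
    rw [← h1, ← h2, map_add]; ring
  linear_combination ((P : LaurentSeries C) * (Q : LaurentSeries C)) * h4

theorem laurent_algebraMap_eq_C (c : C) :
    algebraMap C (LaurentSeries C) c = HahnSeries.C c := by
  rw [HahnSeries.algebraMap_apply', ← HahnSeries.ofPowerSeries_C]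
  rfl

/-- The two `C`-actions on `C((z))` (via `Algebra.toModule` and via `HahnSeries.instModule`)
agree. -/
theorem laurent_algebra_smul_eq (c : C) (f : LaurentSeries C) :
    (@HSMul.hSMul C (LaurentSeries C) _
      (@instHSMul C (LaurentSeries C) (Algebra.toModule.toSMul)) c f) = HahnSeries.C c * f := by
  rw [Algebra.smul_def, laurent_algebraMap_eq_C]

/-- `d/dz` on `C((z))` as a `C`-derivation. -/
def laurentD (C : Type*) [CommRing C] : Derivation C (LaurentSeries C) (LaurentSeries C) where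
  toFun f := LaurentSeries.derivative C f
  map_add' f g := map_add _ f g
  map_smul' c f := by
    ext n
    simp only [RingHom.id_apply, laurent_derivative_coeff]
    rw [laurent_algebra_smul_eq,
      HahnSeries.C_mul_eq_smul, HahnSeries.coeff_smul,
      HahnSeries.coeff_smul, laurent_derivative_coeff]
    simp only [smul_eq_mul]
    ring
  map_one_eq_zero' := by
    ext n
    show (LaurentSeries.derivative C (1 : LaurentSeries C)).coeff n = _
    rw [laurent_derivative_coeff]
    by_cases hn : n + 1 = 0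
    · rw [hn]; simp
    · rw [HahnSeries.coeff_one, if_neg hn]; simp
  leibniz' f g := by
    show LaurentSeries.derivative C (f * g) = _
    rw [laurent_derivative_mul]
    simp [smul_eq_mul]

@[simp] theorem laurentD_apply (f : LaurentSeries C) :
    laurentD C f = LaurentSeries.derivative C f := rfl

theorem laurentD_coeff (f : LaurentSeries C) (n : ℤ) :
    (laurentD C f).coeff n = ((n + 1 : ℤ) : C) * f.coeff (n + 1) :=
  laurent_derivative_coeff f n

theorem laurentD_C (c : C) : laurentD C (HahnSeries.C c) = 0 := by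
  ext n
  rw [laurentD_coeff, HahnSeries.C_apply, HahnSeries.coeff_single]
  by_cases hn : n + 1 = 0
  · rw [hn]; simp
  · rw [if_neg hn]; simp

end Ring

section Field

variable {C : Type*} [Field C] [CharZero C]

/-- In characteristic zero, `ord (df/dz) = ord f - 1` whenever `ord f ≠ 0`. -/
theorem laurentD_order {f : LaurentSeries C} (hf : f.order ≠ 0) :
    (laurentD C f).order = f.order - 1 := by
  have hf0 : f ≠ 0 := by rintro rfl; simp at hf
  have hc : (laurentD C f).coeff (f.order - 1) ≠ 0 := by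
    rw [laurentD_coeff, sub_add_cancel]
    refine mul_ne_zero (by exact_mod_cast hf) ?_
    rw [← HahnSeries.leadingCoeff_eq]
    exact HahnSeries.leadingCoeff_ne_zero.2 hf0
  have hne : laurentD C f ≠ 0 := by
    intro h; rw [h] at hc; simp at hc
  refine le_antisymm (HahnSeries.order_le_of_coeff_ne_zero hc) ?_
  by_contra hlt
  rw [not_le] at hlt
  have h2 : (laurentD C f).coeff (laurentD C f).order ≠ 0 := by
    rw [← HahnSeries.leadingCoeff_eq]
    exact HahnSeries.leadingCoeff_ne_zero.2 hne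
  apply h2
  rw [laurentD_coeff, HahnSeries.coeff_eq_zero_of_lt_order (by omega), mul_zero]

theorem laurentD_ne_zero {f : LaurentSeries C} (hf : f.order ≠ 0) : laurentD C f ≠ 0 := by
  have hf0 : f ≠ 0 := by rintro rfl; simp at hf
  intro h
  have hc : (laurentD C f).coeff (f.order - 1) ≠ 0 := by
    rw [laurentD_coeff, sub_add_cancel]
    refine mul_ne_zero (by exact_mod_cast hf) ?_
    rw [← HahnSeries.leadingCoeff_eq]
    exact HahnSeries.leadingCoeff_ne_zero.2 hf0
  rw [h] at hc
  simp at hc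

omit [CharZero C] in
/-- In general `ord (df/dz) ≥ ord f - 1` (when `df/dz ≠ 0`). -/
theorem laurentD_order_ge {f : LaurentSeries C} (hdf : laurentD C f ≠ 0) :
    f.order - 1 ≤ (laurentD C f).order := by
  by_contra hlt
  rw [not_le] at hlt
  have h2 : (laurentD C f).coeff (laurentD C f).order ≠ 0 := by
    rw [← HahnSeries.leadingCoeff_eq]
    exact HahnSeries.leadingCoeff_ne_zero.2 hdf
  apply h2
  rw [laurentD_coeff, HahnSeries.coeff_eq_zero_of_lt_order (by omega), mul_zero]

/-- `df/dz = 0` iff `f` is constant (characteristic zero). -/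
theorem laurentD_eq_zero_iff {f : LaurentSeries C} :
    laurentD C f = 0 ↔ f = HahnSeries.C (f.coeff 0) := by
  constructor
  · intro h
    ext n
    rw [HahnSeries.C_apply, HahnSeries.coeff_single]
    by_cases hn : n = 0
    · rw [if_pos hn, hn]
    · rw [if_neg hn]
      have := congrArg (fun g : LaurentSeries C => g.coeff (n - 1)) h
      simp only [laurentD_coeff, sub_add_cancel, HahnSeries.coeff_zero] at this
      rcases mul_eq_zero.1 this with h1 | h1
      · exact absurd (by exact_mod_cast h1) hn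
      · exact h1
  · intro h
    rw [h, laurentD_C]

end Field

end Fermat.Agent.S24.H84

end
end
-- ===== PACK-END S24/H84/LaurentDeriv.lean

-- ===== PACK-BEGIN S29/H201/Transfer.lean
section





/-!
# S29 / P5-E2 (helper201) — the Hecke operator `T_p` on `Hom(Γ₀(N), A)` (transfer formula)

For a prime `p ∤ N`, the Prelude's coset representatives `heckeRep p x`
(`x : OnePoint (ZMod p)`, i.e. `(1 j; 0 p)` and `(p 0; 0 1)`) satisfy
`heckeRep p x * γ = t * heckeRep p (redMatrix p γ • x)` with a unique `t ∈ Γ₀(N)`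
(`heckeRep_mul` of the Prelude).  We call it `trf hpN γ x` and define
`(heckeHom p hpN A φ) γ = ∑ x, φ (trf hpN γ x)`.
-/

set_option autoImplicit false

open CongruenceSubgroup Matrix.SpecialLinearGroup
open scoped MatrixGroups
open P2MW.S_ModularForm_heckeT_slash_eq_self_of_mem_Gamma0.ModularForm.HeckeSlashInvariance

namespace Fermat.Agent.S29.H201

variable {N : ℕ} {p : ℕ} [Fact p.Prime]

theorem dvd_of_mem_Gamma0 (γ : Gamma0 N) : (N : ℤ) ∣ (γ : SL(2, ℤ)) 1 0 :=
  (ZMod.intCast_zmod_eq_zero_iff_dvd _ _).mp (Gamma0_mem.mp γ.2)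

theorem exists_trf (hpN : ¬ p ∣ N) (γ : Gamma0 N) (x : OnePoint (ZMod p)) :
    ∃ t : Gamma0 N, _root_.P2MW.S_ModularForm_heckeT_slash_eq_self_of_mem_Gamma0.ModularForm.HeckeSlashInvariance.heckeRep p x * mapGL ℝ (γ : SL(2, ℤ))
      = mapGL ℝ (t : SL(2, ℤ)) * _root_.P2MW.S_ModularForm_heckeT_slash_eq_self_of_mem_Gamma0.ModularForm.HeckeSlashInvariance.heckeRep p (redMatrix p (γ : SL(2, ℤ)) • x) := by
  obtain ⟨g', hg', h⟩ := heckeRep_mul hpN (γ : SL(2, ℤ)) (dvd_of_mem_Gamma0 γ) x
  exact ⟨⟨g', Gamma0_mem.mpr ((ZMod.intCast_zmod_eq_zero_iff_dvd _ _).mpr hg')⟩, h⟩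

/-- The transfer element: `heckeRep p x * γ = trf γ x * heckeRep p (redMatrix p γ • x)`. -/
noncomputable def trf (hpN : ¬ p ∣ N) (γ : Gamma0 N) (x : OnePoint (ZMod p)) : Gamma0 N :=
  (exists_trf hpN γ x).choose

theorem trf_spec (hpN : ¬ p ∣ N) (γ : Gamma0 N) (x : OnePoint (ZMod p)) :
    _root_.P2MW.S_ModularForm_heckeT_slash_eq_self_of_mem_Gamma0.ModularForm.HeckeSlashInvariance.heckeRep p x * mapGL ℝ (γ : SL(2, ℤ))
      = mapGL ℝ ((trf hpN γ x : Gamma0 N) : SL(2, ℤ))
        * _root_.P2MW.S_ModularForm_heckeT_slash_eq_self_of_mem_Gamma0.ModularForm.HeckeSlashInvariance.heckeRep p (redMatrix p (γ : SL(2, ℤ)) • x) :=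
  (exists_trf hpN γ x).choose_spec

theorem trf_unique (hpN : ¬ p ∣ N) (γ t : Gamma0 N) (x : OnePoint (ZMod p))
    (h : _root_.P2MW.S_ModularForm_heckeT_slash_eq_self_of_mem_Gamma0.ModularForm.HeckeSlashInvariance.heckeRep p x * mapGL ℝ (γ : SL(2, ℤ))
      = mapGL ℝ (t : SL(2, ℤ)) * _root_.P2MW.S_ModularForm_heckeT_slash_eq_self_of_mem_Gamma0.ModularForm.HeckeSlashInvariance.heckeRep p (redMatrix p (γ : SL(2, ℤ)) • x)) :
    t = trf hpN γ x := by
  have h2 := trf_spec hpN γ x
  rw [h] at h2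
  have h3 := mul_right_cancel h2
  exact Subtype.ext (mapGL_injective h3)

theorem redMatrix_mul (g g' : SL(2, ℤ)) :
    redMatrix p (g * g') = redMatrix p g' * redMatrix p g := by
  apply Matrix.GeneralLinearGroup.ext
  intro i j
  rw [Matrix.GeneralLinearGroup.coe_mul]
  fin_cases i <;> fin_cases j <;>
    simp [redMatrix, Matrix.mul_apply, Fin.sum_univ_two] <;> ring

theorem redMatrix_one : redMatrix p (1 : SL(2, ℤ)) = 1 := by
  apply Matrix.GeneralLinearGroup.ext
  intro i j
  fin_cases i <;> fin_cases j <;> simp [redMatrix]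

theorem trf_one (hpN : ¬ p ∣ N) (x : OnePoint (ZMod p)) : trf hpN (1 : Gamma0 N) x = 1 := by
  symm
  apply trf_unique
  simp [redMatrix_one]

theorem trf_mul (hpN : ¬ p ∣ N) (γ γ' : Gamma0 N) (x : OnePoint (ZMod p)) :
    trf hpN (γ * γ') x
      = trf hpN γ x * trf hpN γ' (redMatrix p (γ : SL(2, ℤ)) • x) := by
  symm
  apply trf_unique
  have h1 := trf_spec hpN γ x
  have h2 := trf_spec hpN γ' (redMatrix p (γ : SL(2, ℤ)) • x)
  calc _root_.P2MW.S_ModularForm_heckeT_slash_eq_self_of_mem_Gamma0.ModularForm.HeckeSlashInvariance.heckeRep p x * mapGL ℝ ((γ * γ' : Gamma0 N) : SL(2, ℤ))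
      = (_root_.P2MW.S_ModularForm_heckeT_slash_eq_self_of_mem_Gamma0.ModularForm.HeckeSlashInvariance.heckeRep p x * mapGL ℝ (γ : SL(2, ℤ))) * mapGL ℝ (γ' : SL(2, ℤ)) := by
        rw [Subgroup.coe_mul, map_mul, mul_assoc]
    _ = mapGL ℝ ((trf hpN γ x : Gamma0 N) : SL(2, ℤ)) *
          (_root_.P2MW.S_ModularForm_heckeT_slash_eq_self_of_mem_Gamma0.ModularForm.HeckeSlashInvariance.heckeRep p (redMatrix p (γ : SL(2, ℤ)) • x) * mapGL ℝ (γ' : SL(2, ℤ))) := by
        rw [h1, mul_assoc]
    _ = mapGL ℝ ((trf hpN γ x : Gamma0 N) : SL(2, ℤ)) *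
          (mapGL ℝ ((trf hpN γ' (redMatrix p (γ : SL(2, ℤ)) • x) : Gamma0 N) : SL(2, ℤ)) *
            _root_.P2MW.S_ModularForm_heckeT_slash_eq_self_of_mem_Gamma0.ModularForm.HeckeSlashInvariance.heckeRep p (redMatrix p (γ' : SL(2, ℤ)) • redMatrix p (γ : SL(2, ℤ)) • x)) := by
        rw [h2]
    _ = _ := by
        rw [Subgroup.coe_mul, map_mul, Subgroup.coe_mul, redMatrix_mul, mul_smul, mul_assoc]

instance instNeZeroOfFactPrime : NeZero p := ⟨(Fact.out : p.Prime).ne_zero⟩

/-- The permutation of `ℙ¹(𝔽_p)` induced by `γ` (a right action). -/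
noncomputable def permOf (γ : Gamma0 N) : Equiv.Perm (OnePoint (ZMod p)) :=
  MulAction.toPerm (redMatrix p (γ : SL(2, ℤ)))

theorem permOf_apply (γ : Gamma0 N) (x : OnePoint (ZMod p)) :
    permOf γ x = redMatrix p (γ : SL(2, ℤ)) • x := rfl

/-- The Hecke operator `T_p` on `Hom(Γ₀(N), A)` defined by the transfer formula. -/
noncomputable def heckeHom (p : ℕ) [Fact p.Prime] (hpN : ¬ p ∣ N) (A : Type*) [AddCommGroup A] :
    (Additive (Gamma0 N) →+ A) →+ (Additive (Gamma0 N) →+ A) where
  toFun φ :=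
    { toFun := fun γ => ∑ x : OnePoint (ZMod p), φ (Additive.ofMul (trf hpN (Additive.toMul γ) x))
      map_zero' := by
        show ∑ x : OnePoint (ZMod p), φ (Additive.ofMul (trf hpN (1 : Gamma0 N) x)) = 0
        simp [trf_one]
      map_add' := fun γ γ' => by
        show ∑ x : OnePoint (ZMod p),
            φ (Additive.ofMul (trf hpN (Additive.toMul γ * Additive.toMul γ') x)) = _
        simp only [trf_mul, ofMul_mul, map_add, Finset.sum_add_distrib]
        congr 1
        exact Equiv.sum_comp (permOf (Additive.toMul γ))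
          (fun y => φ (Additive.ofMul (trf hpN (Additive.toMul γ') y))) }
  map_zero' := by
    ext γ
    simp
  map_add' φ ψ := by
    ext γ
    simp [Finset.sum_add_distrib]

theorem heckeHom_apply (hpN : ¬ p ∣ N) {A : Type*} [AddCommGroup A]
    (φ : Additive (Gamma0 N) →+ A) (γ : Gamma0 N) :
    heckeHom p hpN A φ (Additive.ofMul γ)
      = ∑ x : OnePoint (ZMod p), φ (Additive.ofMul (trf hpN γ x)) := rfl

/-- Functoriality of `heckeHom` in the coefficient group. -/
theorem heckeHom_comp (hpN : ¬ p ∣ N) {A B : Type*} [AddCommGroup A] [AddCommGroup B]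
    (u : A →+ B) (φ : Additive (Gamma0 N) →+ A) :
    heckeHom p hpN B (u.comp φ) = u.comp (heckeHom p hpN A φ) := by
  ext γ
  show ∑ x : OnePoint (ZMod p), u (φ _) = u (∑ x : OnePoint (ZMod p), φ _)
  rw [map_sum]

end Fermat.Agent.S29.H201

end
-- ===== PACK-END S29/H201/Transfer.lean

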