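import Mathlib
import Mathlib.RingTheory.SimpleModule.Basic
import Mathlib.RepresentationTheory.AlgebraRepresentation.Basic
import Mathlib.LinearAlgebra.FiniteDimensional.Basic
import Mathlib.Algebra.Algebra.Subalgebra.Basic
import Fermat.Prelude.Thm_IsLocalRing_isAdicComplete_of_module_finite
import Fermat.Prelude.Thm_Algebra_finite_maximalSpectrum_and_bijective_localization_of_module_finite
import Fermat.Prelude.Thm_ModularForm_sturm_bound_Gamma0
import Fermat.Prelude.Def_ModularCurve_ReductionModL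
import Fermat.Prelude.Def_AlgebraicCurve_Correspondence
import Mathlib.NumberTheory.ModularForms.QExpansion
import Mathlib.Analysis.Complex.TaylorSeries
import Mathlib.NumberTheory.ModularForms.Derivative
import Mathlib.NumberTheory.ModularForms.LevelOne.DimensionFormula
import Mathlib.NumberTheory.ModularForms.LevelOne.GradedRing
import Mathlib.Analysis.Complex.Liouville

-- ===== PACK-BEGIN Lib/Cheb/H761/Sieve.lean
section


/-!
# Euler products over the prime ideals of a Dedekind domain, sieve form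

Let `R` be a Dedekind domain and `f : Ideal R → 𝕜` a summable, completely multiplicative function
(`f (I * J) = f I * f J`, `f ⊤ = 1`).  For a set `S` of nonzero primes let `sieveSet S` be the set
of nonzero ideals divisible by no prime of `S`.  Then

* `tsum_sieve_finset` : `∑_{I ∈ sieveSet T} f I = ∏_{𝔭 ∈ T} (1 - f 𝔭) * ∑_{I ≠ 0} f I`
  for every finite set `T` of primes;
* `tendsto_tsum_sieve` : `∑_{I ∈ sieveSet T} f I → 1` along `T → all primes`;
* `tendsto_prod_one_sub` : `∏_{𝔭 ∈ T} (1 - f 𝔭) → (∑_{I ≠ 0} f I)⁻¹`, and `∑_{I ≠ 0} f I ≠ 0`.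
-/

set_option autoImplicit false

namespace Fermat.Agent.Lib.Cheb.H761

open IsDedekindDomain Filter Topology

section Sieve

set_option linter.unusedSectionVars false

variable {R : Type*} [CommRing R] [IsDedekindDomain R]

/-- nonzero ideals not divisible by any prime of `S` -/
def sieveSet (S : Set (HeightOneSpectrum R)) : Set (Ideal R) :=
  {I | I ≠ ⊥ ∧ ∀ 𝔭 ∈ S, ¬ I ≤ 𝔭.asIdeal}

lemma mem_sieveSet {S : Set (HeightOneSpectrum R)} {I : Ideal R} :
    I ∈ sieveSet S ↔ I ≠ ⊥ ∧ ∀ 𝔭 ∈ S, ¬ I ≤ 𝔭.asIdeal := Iff.rfl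

lemma mem_sieveSet_empty {I : Ideal R} :
    I ∈ sieveSet (∅ : Set (HeightOneSpectrum R)) ↔ I ≠ ⊥ := by
  simp [sieveSet]

lemma top_mem_sieveSet (S : Set (HeightOneSpectrum R)) : (⊤ : Ideal R) ∈ sieveSet S := by
  refine ⟨top_ne_bot, fun 𝔭 _ h => ?_⟩
  exact 𝔭.isPrime.ne_top (top_le_iff.mp h)

lemma sieveSet_anti {S T : Set (HeightOneSpectrum R)} (h : S ⊆ T) : sieveSet T ⊆ sieveSet S :=
  fun _ hI => ⟨hI.1, fun 𝔭 h𝔭 => hI.2 𝔭 (h h𝔭)⟩

lemma mul_mem_sieveSet {S : Set (HeightOneSpectrum R)} {𝔭 : HeightOneSpectrum R} (h𝔭 : 𝔭 ∉ S)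
    {J : Ideal R} (hJ : J ∈ sieveSet S) : 𝔭.asIdeal * J ∈ sieveSet S := by
  refine ⟨?_, fun 𝔮 h𝔮 hle => ?_⟩
  · rw [← Ideal.zero_eq_bot]
    exact mul_ne_zero (by rw [Ideal.zero_eq_bot]; exact 𝔭.ne_bot)
      (by rw [Ideal.zero_eq_bot]; exact hJ.1)
  · rcases 𝔮.isPrime.mul_le.mp hle with h | h
    · have : 𝔭 = 𝔮 := by
        apply HeightOneSpectrum.ext
        exact (𝔭.isMaximal.eq_of_le 𝔮.isPrime.ne_top h)
      exact h𝔭 (this ▸ h𝔮)
    · exact hJ.2 𝔮 h𝔮 h

lemma sieveSet_eq_union (S : Set (HeightOneSpectrum R)) {𝔭 : HeightOneSpectrum R} (h𝔭 : 𝔭 ∉ S) :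
    sieveSet S = sieveSet (insert 𝔭 S) ∪ (fun I => 𝔭.asIdeal * I) '' sieveSet S := by
  ext I
  constructor
  · intro hI
    by_cases hle : I ≤ 𝔭.asIdeal
    · right
      obtain ⟨J, rfl⟩ := Ideal.dvd_iff_le.mpr hle
      refine ⟨J, ⟨?_, fun 𝔮 h𝔮 hJ => ?_⟩, rfl⟩
      · rintro rfl
        exact hI.1 (by simp)
      · exact hI.2 𝔮 h𝔮 (Ideal.mul_le_right.trans hJ)
    · left
      refine ⟨hI.1, fun 𝔮 h𝔮 => ?_⟩
      rcases Set.mem_insert_iff.mp h𝔮 with rfl | h
      · exact hle
      · exact hI.2 𝔮 h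
  · rintro (hI | ⟨J, hJ, rfl⟩)
    · exact sieveSet_anti (Set.subset_insert _ _) hI
    · exact mul_mem_sieveSet h𝔭 hJ

lemma disjoint_sieveSet_image (S : Set (HeightOneSpectrum R)) (𝔭 : HeightOneSpectrum R) :
    Disjoint (sieveSet (insert 𝔭 S)) ((fun I => 𝔭.asIdeal * I) '' sieveSet S) := by
  rw [Set.disjoint_left]
  rintro I hI ⟨J, -, rfl⟩
  exact hI.2 𝔭 (Set.mem_insert _ _) (show 𝔭.asIdeal * J ≤ 𝔭.asIdeal from Ideal.mul_le_left)

lemma injOn_mul (S : Set (HeightOneSpectrum R)) (𝔭 : HeightOneSpectrum R) :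
    Set.InjOn (fun I => 𝔭.asIdeal * I) (sieveSet S) := by
  intro I _ J _ h
  have h0 : 𝔭.asIdeal ≠ 0 := by rw [Ideal.zero_eq_bot]; exact 𝔭.ne_bot
  exact mul_left_cancel₀ h0 h

variable {𝕜 : Type*} [NormedField 𝕜] [CompleteSpace 𝕜] {f : Ideal R → 𝕜}

/-- One sieve step. -/
theorem tsum_sieve_insert (hf : Summable f) (hmul : ∀ I J, f (I * J) = f I * f J)
    (S : Set (HeightOneSpectrum R)) {𝔭 : HeightOneSpectrum R} (h𝔭 : 𝔭 ∉ S) :
    ∑' I : sieveSet (insert 𝔭 S), f I = (1 - f 𝔭.asIdeal) * ∑' I : sieveSet S, f I := by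
  have h1 : ∑' I : sieveSet S, f I =
      ∑' I : ↥(sieveSet (insert 𝔭 S) ∪ (fun I => 𝔭.asIdeal * I) '' sieveSet S), f I :=
    tsum_congr_set_coe f (sieveSet_eq_union S h𝔭)
  rw [(hf.subtype _).tsum_union_disjoint (disjoint_sieveSet_image S 𝔭) (hf.subtype _),
    tsum_image f (injOn_mul S 𝔭)] at h1
  simp only [hmul] at h1
  rw [tsum_mul_left] at h1
  linear_combination -h1

/-- Finitely many sieve steps. -/
theorem tsum_sieve_finset (hf : Summable f) (hmul : ∀ I J, f (I * J) = f I * f J)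
    (T : Finset (HeightOneSpectrum R)) :
    ∑' I : sieveSet (T : Set (HeightOneSpectrum R)), f I =
      (∏ 𝔭 ∈ T, (1 - f 𝔭.asIdeal)) * ∑' I : sieveSet (∅ : Set (HeightOneSpectrum R)), f I := by
  classical
  induction T using Finset.induction_on with
  | empty =>
    rw [Finset.prod_empty, one_mul]
    exact tsum_congr_set_coe f (by rw [Finset.coe_empty])
  | insert 𝔭 T h𝔭 ih =>
    rw [Finset.coe_insert, tsum_sieve_insert hf hmul _ (by simpa using h𝔭), ih,
      Finset.prod_insert h𝔭, mul_assoc]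

/-- Every nonzero proper ideal is contained in a nonzero prime. -/
lemma exists_le_heightOneSpectrum {I : Ideal R} (h0 : I ≠ ⊥) (h1 : I ≠ ⊤) :
    ∃ 𝔭 : HeightOneSpectrum R, I ≤ 𝔭.asIdeal := by
  obtain ⟨M, hM, hle⟩ := Ideal.exists_le_maximal I h1
  refine ⟨⟨M, hM.isPrime, ?_⟩, hle⟩
  rintro rfl
  exact h0 (le_bot_iff.mp hle)

/-- The sieved sums tend to `1`. -/
theorem tendsto_tsum_sieve (hf : Summable f) (h1 : f ⊤ = 1) :
    Tendsto (fun T : Finset (HeightOneSpectrum R) =>
      ∑' I : sieveSet (T : Set (HeightOneSpectrum R)), f I) atTop (𝓝 1) := by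
  classical
  rw [tendsto_nhds]
  intro e he_open he1
  have he0 : (fun x : 𝕜 => 1 + x) ⁻¹' e ∈ 𝓝 (0 : 𝕜) := by
    apply (continuous_const.add continuous_id).continuousAt.preimage_mem_nhds
    simpa using he_open.mem_nhds he1
  obtain ⟨A, hA⟩ := hf.tsum_vanishing he0
  -- a prime above each nonzero proper ideal of `A`
  let g : Ideal R → Finset (HeightOneSpectrum R) := fun I =>
    if h : I ≠ ⊥ ∧ I ≠ ⊤ then {(exists_le_heightOneSpectrum h.1 h.2).choose} else ∅
  have hg : ∀ I, I ≠ ⊥ → I ≠ ⊤ → ∃ 𝔭 ∈ g I, I ≤ 𝔭.asIdeal := by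
    intro I h0 h1
    refine ⟨(exists_le_heightOneSpectrum h0 h1).choose, ?_,
      (exists_le_heightOneSpectrum h0 h1).choose_spec⟩
    simp only [g, dif_pos (And.intro h0 h1), Finset.mem_singleton]
  rw [Filter.mem_atTop_sets]
  refine ⟨A.biUnion g, fun T hT => ?_⟩
  rw [Set.mem_preimage]
  -- split off the unit ideal
  have hsplit : sieveSet (T : Set (HeightOneSpectrum R)) =
      {⊤} ∪ (sieveSet (T : Set (HeightOneSpectrum R)) \ {⊤}) := by
    rw [Set.union_sdiff_self, Set.union_eq_self_of_subset_left]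
    exact Set.singleton_subset_iff.mpr (top_mem_sieveSet _)
  have hdisj : Disjoint ({⊤} : Set (Ideal R))
      (sieveSet (T : Set (HeightOneSpectrum R)) \ {⊤}) := Set.disjoint_sdiff_right
  have hsum : ∑' I : sieveSet (T : Set (HeightOneSpectrum R)), f I =
      1 + ∑' I : ↥(sieveSet (T : Set (HeightOneSpectrum R)) \ {⊤}), f I := by
    rw [tsum_congr_set_coe f hsplit,
      (hf.subtype _).tsum_union_disjoint hdisj (hf.subtype _), tsum_singleton (⊤ : Ideal R) f, h1]
  rw [hsum]
  apply hA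
  rw [Set.disjoint_left]
  rintro I ⟨hI, hItop⟩ hIA
  obtain ⟨𝔭, h𝔭, hle⟩ := hg I hI.1 (by simpa using hItop)
  exact hI.2 𝔭 (Finset.mem_coe.mpr (hT (Finset.mem_biUnion.mpr ⟨I, hIA, h𝔭⟩))) hle

/-- The sum over all nonzero ideals is nonzero. -/
theorem tsum_sieve_empty_ne_zero (hf : Summable f) (hmul : ∀ I J, f (I * J) = f I * f J)
    (h1 : f ⊤ = 1) : ∑' I : sieveSet (∅ : Set (HeightOneSpectrum R)), f I ≠ 0 := by
  intro h0
  have h := tendsto_tsum_sieve hf h1
  simp only [tsum_sieve_finset hf hmul, h0, mul_zero] at h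
  exact zero_ne_one (tendsto_nhds_unique tendsto_const_nhds h)

/-- **Euler product**: the finite products `∏_{𝔭 ∈ T} (1 - f 𝔭)` tend to the inverse of the sum of
`f` over all nonzero ideals. -/
theorem tendsto_prod_one_sub (hf : Summable f) (hmul : ∀ I J, f (I * J) = f I * f J)
    (h1 : f ⊤ = 1) :
    Tendsto (fun T : Finset (HeightOneSpectrum R) => ∏ 𝔭 ∈ T, (1 - f 𝔭.asIdeal)) atTop
      (𝓝 (∑' I : sieveSet (∅ : Set (HeightOneSpectrum R)), f I)⁻¹) := by
  have hZ := tsum_sieve_empty_ne_zero hf hmul h1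
  have h := (tendsto_tsum_sieve hf h1).mul_const
    (∑' I : sieveSet (∅ : Set (HeightOneSpectrum R)), f I)⁻¹
  simp only [tsum_sieve_finset hf hmul, one_mul] at h
  refine h.congr fun T => ?_
  rw [mul_assoc, mul_inv_cancel₀ hZ, mul_one]

/-- **Euler product**, `HasProd` form. -/
theorem hasProd_one_sub (hf : Summable f) (hmul : ∀ I J, f (I * J) = f I * f J)
    (h1 : f ⊤ = 1) :
    HasProd (fun 𝔭 : HeightOneSpectrum R => 1 - f 𝔭.asIdeal)
      (∑' I : sieveSet (∅ : Set (HeightOneSpectrum R)), f I)⁻¹ := by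
  simpa [HasProd] using tendsto_prod_one_sub hf hmul h1

end Sieve

end Fermat.Agent.Lib.Cheb.H761

end
-- ===== PACK-END Lib/Cheb/H761/Sieve.lean

-- ===== PACK-BEGIN Lib/Cheb/H993/LogAsymp.lean
section


/-!
# `f = a · log (1/(s-1)) + O(1)` on `(1, 2]`, and prime Dirichlet sums

Small calculus used by the glue piece `M` of the shared library CHEB.
-/

set_option autoImplicit false

namespace Fermat.Agent.Lib.Cheb.H993

noncomputable section

/-- The main term `log (1 / (s - 1))`. -/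
def ell (s : ℝ) : ℝ := Real.log (1 / (s - 1))

/-- `f = a · ell + O(1)` on `(1, 2]`. -/
def LogAsymp (f : ℝ → ℝ) (a : ℝ) : Prop :=
  ∃ C : ℝ, ∀ s : ℝ, 1 < s → s ≤ 2 → |f s - a * ell s| ≤ C

theorem LogAsymp.congr {f g : ℝ → ℝ} {a : ℝ} (hf : LogAsymp f a)
    (h : ∀ s : ℝ, 1 < s → s ≤ 2 → g s = f s) : LogAsymp g a := by
  obtain ⟨C, hC⟩ := hf
  exact ⟨C, fun s h1 h2 => by rw [h s h1 h2]; exact hC s h1 h2⟩

theorem LogAsymp.add {f g : ℝ → ℝ} {a b : ℝ} (hf : LogAsymp f a) (hg : LogAsymp g b) :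
    LogAsymp (fun s => f s + g s) (a + b) := by
  obtain ⟨C, hC⟩ := hf
  obtain ⟨D, hD⟩ := hg
  refine ⟨C + D, fun s h1 h2 => ?_⟩
  have e : f s + g s - (a + b) * ell s = (f s - a * ell s) + (g s - b * ell s) := by ring
  rw [e]
  exact (abs_add_le _ _).trans (add_le_add (hC s h1 h2) (hD s h1 h2))

theorem LogAsymp.sub {f g : ℝ → ℝ} {a b : ℝ} (hf : LogAsymp f a) (hg : LogAsymp g b) :
    LogAsymp (fun s => f s - g s) (a - b) := by
  obtain ⟨C, hC⟩ := hf
  obtain ⟨D, hD⟩ := hg
  refine ⟨C + D, fun s h1 h2 => ?_⟩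
  have e : f s - g s - (a - b) * ell s = (f s - a * ell s) - (g s - b * ell s) := by ring
  rw [e]
  exact (abs_sub _ _).trans (add_le_add (hC s h1 h2) (hD s h1 h2))

theorem LogAsymp.const_mul {f : ℝ → ℝ} {a : ℝ} (c : ℝ) (hf : LogAsymp f a) :
    LogAsymp (fun s => c * f s) (c * a) := by
  obtain ⟨C, hC⟩ := hf
  refine ⟨|c| * C, fun s h1 h2 => ?_⟩
  have e : c * f s - c * a * ell s = c * (f s - a * ell s) := by ring
  rw [e, abs_mul]
  exact mul_le_mul_of_nonneg_left (hC s h1 h2) (abs_nonneg c)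

theorem LogAsymp.zero_of_bounded {f : ℝ → ℝ} {K : ℝ}
    (h : ∀ s : ℝ, 1 < s → s ≤ 2 → |f s| ≤ K) : LogAsymp f 0 :=
  ⟨K, fun s h1 h2 => by simpa using h s h1 h2⟩

theorem LogAsymp.sum {ι : Type*} (t : Finset ι) {f : ι → ℝ → ℝ} {a : ι → ℝ}
    (h : ∀ i ∈ t, LogAsymp (f i) (a i)) :
    LogAsymp (fun s => ∑ i ∈ t, f i s) (∑ i ∈ t, a i) := by
  classical
  induction t using Finset.induction_on with
  | empty =>
    exact ⟨0, fun s _ _ => by simp⟩
  | insert i t hi ih =>
    have h1 := h i (Finset.mem_insert_self i t)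
    have h2 := ih (fun j hj => h j (Finset.mem_insert_of_mem hj))
    have h3 := h1.add h2
    rw [Finset.sum_insert hi]
    exact h3.congr (fun s _ _ => Finset.sum_insert hi)

/-- `ell` is unbounded above on `(1, 2]`. -/
theorem exists_ell_gt (M : ℝ) : ∃ s : ℝ, 1 < s ∧ s ≤ 2 ∧ M < ell s := by
  refine ⟨1 + Real.exp (-(|M| + 1)), ?_, ?_, ?_⟩
  · have := Real.exp_pos (-(|M| + 1)); linarith
  · have h : Real.exp (-(|M| + 1)) ≤ 1 := by
      rw [Real.exp_le_one_iff]; have := abs_nonneg M; linarith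
    linarith
  · unfold ell
    have e : (1 + Real.exp (-(|M| + 1)) - 1) = Real.exp (-(|M| + 1)) := by ring
    rw [e, one_div, ← Real.exp_neg, Real.log_exp]
    have := le_abs_self M
    linarith

/-- If `f = a · ell + O(1)` with `a > 0` then `f` takes arbitrarily large values. -/
theorem LogAsymp.exists_gt {f : ℝ → ℝ} {a : ℝ} (hf : LogAsymp f a) (ha : 0 < a) (M : ℝ) :
    ∃ s : ℝ, 1 < s ∧ s ≤ 2 ∧ M < f s := by
  obtain ⟨C, hC⟩ := hf
  obtain ⟨s, h1, h2, hs⟩ := exists_ell_gt ((M + C) / a)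
  refine ⟨s, h1, h2, ?_⟩
  have := (abs_le.mp (hC s h1 h2)).1
  have h3 : M + C < a * ell s := by
    rw [div_lt_iff₀ ha] at hs
    linarith
  linarith

/-- The prime Dirichlet sum `∑_p a(p) p^{-s}`. -/
def pSum (a : ℕ → ℝ) (s : ℝ) : ℝ := ∑' p : Nat.Primes, a p * ((p : ℕ) : ℝ) ^ (-s)

theorem summable_pSum {a : ℕ → ℝ} {K : ℝ} (h0 : ∀ p, 0 ≤ a p) (hK : ∀ p, a p ≤ K)
    {s : ℝ} (hs : 1 < s) : Summable (fun p : Nat.Primes => a p * ((p : ℕ) : ℝ) ^ (-s)) := by
  have hsum : Summable (fun p : Nat.Primes => K * ((p : ℕ) : ℝ) ^ (-s)) :=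
    (Nat.Primes.summable_rpow.mpr (by linarith)).mul_left K
  refine Summable.of_nonneg_of_le (fun p => ?_) (fun p => ?_) hsum
  · exact mul_nonneg (h0 p) (Real.rpow_nonneg (Nat.cast_nonneg _) _)
  · exact mul_le_mul_of_nonneg_right (hK p) (Real.rpow_nonneg (Nat.cast_nonneg _) _)

theorem pSum_nonneg {a : ℕ → ℝ} (h0 : ∀ p, 0 ≤ a p) (s : ℝ) : 0 ≤ pSum a s :=
  tsum_nonneg fun p => mul_nonneg (h0 p) (Real.rpow_nonneg (Nat.cast_nonneg _) _)

theorem pSum_finset_sum {ι : Type*} (t : Finset ι) {a : ι → ℕ → ℝ} {K : ℝ}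
    (h0 : ∀ i p, 0 ≤ a i p) (hK : ∀ i p, a i p ≤ K) {s : ℝ} (hs : 1 < s) :
    pSum (fun p => ∑ i ∈ t, a i p) s = ∑ i ∈ t, pSum (a i) s := by
  unfold pSum
  rw [← Summable.tsum_finsetSum (fun i _ => summable_pSum (h0 i) (hK i) hs)]
  congr 1
  funext p
  rw [Finset.sum_mul]

/-- A prime sum supported on a finite set of primes is bounded. -/
theorem abs_pSum_le_of_support {a : ℕ → ℝ} {K : ℝ} (B : Finset ℕ) (h0 : ∀ p, 0 ≤ a p)
    (hK : ∀ p, a p ≤ K) (hB : ∀ p, p ∉ B → a p = 0) {s : ℝ} (hs : 1 < s) :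
    |pSum a s| ≤ K * B.card := by
  have hK0 : 0 ≤ K := (h0 0).trans (hK 0)
  rw [abs_of_nonneg (pSum_nonneg h0 s)]
  unfold pSum
  -- compare with the finite sum over `B`
  let T : Finset Nat.Primes := (B.filter Nat.Prime).attach.map
    ⟨fun p => ⟨p.1, (Finset.mem_filter.mp p.2).2⟩, fun p q h => by
      apply Subtype.ext; simpa using congrArg Subtype.val h⟩
  have hT : ∀ p : Nat.Primes, p ∉ T → a p * ((p : ℕ) : ℝ) ^ (-s) = 0 := by
    intro p hp
    have : (p : ℕ) ∉ B := by
      intro hpB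
      apply hp
      simp only [T, Finset.mem_map, Finset.mem_attach, true_and]
      exact ⟨⟨p.1, Finset.mem_filter.mpr ⟨hpB, p.2⟩⟩, rfl⟩
    rw [hB _ this, zero_mul]
  rw [tsum_eq_sum hT]
  have hcard : T.card ≤ B.card := by
    simp only [T, Finset.card_map, Finset.card_attach]
    exact Finset.card_filter_le _ _
  calc ∑ p ∈ T, a p * ((p : ℕ) : ℝ) ^ (-s) ≤ ∑ _p ∈ T, K := by
        refine Finset.sum_le_sum fun p _ => ?_
        have h1 : ((p : ℕ) : ℝ) ^ (-s) ≤ 1 := by
          apply Real.rpow_le_one_of_one_le_of_nonpos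
          · exact_mod_cast p.2.one_lt.le
          · linarith
        calc a p * ((p : ℕ) : ℝ) ^ (-s) ≤ K * 1 :=
              mul_le_mul (hK p) h1 (Real.rpow_nonneg (Nat.cast_nonneg _) _) hK0
          _ = K := mul_one K
    _ = K * T.card := by rw [Finset.sum_const, nsmul_eq_mul, mul_comm]
    _ ≤ K * B.card := by
        apply mul_le_mul_of_nonneg_left _ hK0
        exact_mod_cast hcard

end

end Fermat.Agent.Lib.Cheb.H993

end
-- ===== PACK-END Lib/Cheb/H993/LogAsymp.lean

-- ===== PACK-BEGIN S29/H872/Burnside.lean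
section





/-!
# Burnside's theorem (from Mathlib's Schur lemma + Jacobson density)

A subalgebra of `End_K(U)` (`K` algebraically closed, `U` finite dimensional, nonzero) without
nontrivial invariant subspaces is everything.
-/

set_option autoImplicit false

namespace Fermat.Agent.S29.H872

open Module

variable {K : Type*} [Field K] {U : Type*} [AddCommGroup U] [Module K U]

section Burnside

variable (A : Subalgebra K (Module.End K U))

theorem subalgebra_smul_def (a : A) (u : U) : a • u = (a : Module.End K U) u := rfl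

instance instIsScalarTowerSubalgebraEnd : IsScalarTower K A U :=
  ⟨fun c a u => by
    rw [subalgebra_smul_def, subalgebra_smul_def]
    simp⟩

theorem isSimpleModule_of_irr [Nontrivial U]
    (hirr : ∀ W : Submodule K U, (∀ a ∈ A, W ≤ W.comap a) → W = ⊥ ∨ W = ⊤) :
    IsSimpleModule A U := by
  rw [isSimpleModule_iff]
  have : Nontrivial (Submodule A U) := inferInstance
  refine ⟨fun W => ?_⟩
  have h := hirr (W.restrictScalars K) (fun a ha w hw => by
    change (a : Module.End K U) w ∈ W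
    exact W.smul_mem (⟨a, ha⟩ : A) hw)
  rcases h with h | h
  · left
    exact Submodule.restrictScalars_injective K A U (by rw [h]; rfl)
  · right
    exact Submodule.restrictScalars_injective K A U (by rw [h]; rfl)

variable [IsAlgClosed K] [FiniteDimensional K U]

/-- **Burnside's theorem.** -/
theorem burnside [Nontrivial U]
    (hirr : ∀ W : Submodule K U, (∀ a ∈ A, W ≤ W.comap a) → W = ⊥ ∨ W = ⊤) :
    A = ⊤ := by
  have : IsSimpleModule A U := isSimpleModule_of_irr A hirr
  have hschur : Function.Bijective (algebraMap K (Module.End A U)) :=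
    IsSimpleModule.algebraMap_end_bijective_of_isAlgClosed K
  have : Module.Finite (Module.End A U) U :=
    Module.Finite.of_restrictScalars_finite K (Module.End A U) U
  have hdens := Module.Finite.toModuleEnd_moduleEnd_surjective (R := A) (M := U)
  rw [eq_top_iff]
  intro f _
  -- `f` is linear over `End_A(U) = K`
  let f' : Module.End (Module.End A U) U :=
    { toFun := f
      map_add' := f.map_add
      map_smul' := fun e u => by
        obtain ⟨c, rfl⟩ := hschur.2 e
        simp }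
  obtain ⟨a, ha⟩ := hdens f'
  have : (a : Module.End K U) = f := by
    ext u
    have := congrArg (fun g : Module.End (Module.End A U) U => g u) ha
    have h2 : a • u = f u := by simpa [f'] using this
    exact h2
  rw [← this]
  exact a.2

end Burnside

end Fermat.Agent.S29.H872

end
-- ===== PACK-END S29/H872/Burnside.lean

-- ===== PACK-BEGIN S31/H202/MatOrth.lean
section


/-!
# S31 / ALG-1, matrix core (helper202)

`A` a local ring, `r : A →+* K` a ring hom to a field killing the maximal ideal, `F : G → Mₙ(A)` a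
family of matrices whose reductions span `Mₙ(K)`.  Then

* `mat_eq_zero_of_trace_orth`: `tr (F g * X) = 0` for all `g` implies `X = 0`;
* `span_eq_top_of_span_map_eq_top`: the `F g` span `Mₙ(A)` over `A`.
-/

set_option autoImplicit false

namespace Fermat.Agent.S31.H202

open Matrix

section Core

variable {A K : Type*} [CommRing A] [IsLocalRing A] [Field K] (r : A →+* K)
variable {ι G : Type*} [Fintype ι] [DecidableEq ι]

/-- the reductions of a spanning family contain a family indexed by `ι × ι` whose coefficient matrix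
is invertible. -/
theorem exists_invertible_coeff (hr : ∀ a ∈ IsLocalRing.maximalIdeal A, r a = 0)
    (F : G → Matrix ι ι A)
    (hspan : Submodule.span K (Set.range fun g => (F g).map r) = ⊤) :
    ∃ f : ι × ι → G, IsUnit (Matrix.of fun (a b : ι × ι) => F (f a) b.1 b.2) := by
  classical
  set s : Set (Matrix ι ι K) := Set.range fun g => (F g).map r with hs
  obtain ⟨f0, hf0, -, hli⟩ := Submodule.exists_fun_fin_finrank_span_eq K s
  have hcard : Module.finrank K (Submodule.span K s) = Fintype.card (ι × ι) := by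
    rw [hspan, finrank_top, Module.finrank_matrix, Module.finrank_self, mul_one,
      Fintype.card_prod]
  let e : ι × ι ≃ Fin (Module.finrank K (Submodule.span K s)) :=
    (Fintype.equivFinOfCardEq hcard.symm)
  choose f1 hf1 using hf0
  refine ⟨fun a => f1 (e a), ?_⟩
  set P : Matrix (ι × ι) (ι × ι) A := Matrix.of fun (a b : ι × ι) => F (f1 (e a)) b.1 b.2 with hP
  -- the reduction of `P` has linearly independent rows
  have hrow : LinearIndependent K (P.map r).row := by
    have h1 : LinearIndependent K (f0 ∘ e) := hli.comp _ e.injective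
    have h2 := h1.map' ((LinearEquiv.curry K K ι ι).symm : (ι → ι → K) →ₗ[K] (ι × ι → K))
      (LinearEquiv.ker _)
    have heq : (P.map r).row
        = ((LinearEquiv.curry K K ι ι).symm : (ι → ι → K) →ₗ[K] (ι × ι → K)) ∘ (f0 ∘ e) := by
      funext a
      funext b
      have := hf1 (e a)
      show r (F (f1 (e a)) b.1 b.2) = (f0 (e a)) b.1 b.2
      rw [← this]
      rfl
    rw [heq]
    exact h2
  have hunit : IsUnit (P.map r) := Matrix.linearIndependent_rows_iff_isUnit.mp hrow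
  rw [Matrix.isUnit_iff_isUnit_det] at hunit ⊢
  have hdet : (P.map r).det = r P.det := by
    rw [← RingHom.mapMatrix_apply, ← RingHom.map_det]
  rw [hdet] at hunit
  by_contra hnu
  have : P.det ∈ IsLocalRing.maximalIdeal A := (IsLocalRing.mem_maximalIdeal _).mpr hnu
  exact hunit.ne_zero (hr _ this)

/-- **Trace orthogonality**: if the reductions of `F g` span `Mₙ(K)` and `tr (F g * X) = 0` for all
`g`, then `X = 0`. -/
theorem mat_eq_zero_of_trace_orth (hr : ∀ a ∈ IsLocalRing.maximalIdeal A, r a = 0)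
    (F : G → Matrix ι ι A)
    (hspan : Submodule.span K (Set.range fun g => (F g).map r) = ⊤)
    (X : Matrix ι ι A) (hX : ∀ g, Matrix.trace (F g * X) = 0) : X = 0 := by
  classical
  obtain ⟨f, hf⟩ := exists_invertible_coeff r hr F hspan
  set P : Matrix (ι × ι) (ι × ι) A := Matrix.of fun (a b : ι × ι) => F (f a) b.1 b.2 with hP
  have hPx : P *ᵥ (fun b : ι × ι => X b.2 b.1) = 0 := by
    funext a
    have := hX (f a)
    simp only [Matrix.trace, Matrix.diag, Matrix.mul_apply] at this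
    simp only [Matrix.mulVec, dotProduct, hP, Matrix.of_apply, Pi.zero_apply]
    rw [Fintype.sum_prod_type]
    exact this
  have hx : (fun b : ι × ι => X b.2 b.1) = 0 := by
    have := Matrix.mulVec_injective_of_isUnit hf
    exact this (by rw [hPx, Matrix.mulVec_zero])
  ext i j
  have := congrFun hx (j, i)
  simpa using this

/-- **Lifting a spanning family**: if the reductions of `F g` span `Mₙ(K)` over `K`, then the
`F g` span `Mₙ(A)` over `A`. -/
theorem span_eq_top_of_span_map_eq_top (hr : ∀ a ∈ IsLocalRing.maximalIdeal A, r a = 0)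
    (F : G → Matrix ι ι A)
    (hspan : Submodule.span K (Set.range fun g => (F g).map r) = ⊤) :
    Submodule.span A (Set.range F) = ⊤ := by
  classical
  obtain ⟨f, hf⟩ := exists_invertible_coeff r hr F hspan
  set P : Matrix (ι × ι) (ι × ι) A := Matrix.of fun (a b : ι × ι) => F (f a) b.1 b.2 with hP
  obtain ⟨Q, hQ⟩ : ∃ Q : Matrix (ι × ι) (ι × ι) A, Q * P = 1 := by
    obtain ⟨u, hu⟩ := hf
    exact ⟨(u⁻¹ : (Matrix (ι × ι) (ι × ι) A)ˣ), by rw [← hu]; exact Units.inv_mul u⟩
  rw [eq_top_iff]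
  intro M _
  -- `M = ∑_a (∑_b M b * Q b a) • F (f a)`
  have hM : M = ∑ a : ι × ι, (∑ b : ι × ι, M b.1 b.2 * Q b a) • F (f a) := by
    ext i j
    rw [Matrix.sum_apply]
    simp only [Matrix.smul_apply, smul_eq_mul]
    have h1 : ∀ a : ι × ι, (∑ b : ι × ι, M b.1 b.2 * Q b a) * F (f a) i j
        = ∑ b : ι × ι, M b.1 b.2 * (Q b a * P a (i, j)) := by
      intro a
      rw [Finset.sum_mul]
      refine Finset.sum_congr rfl fun b _ => ?_
      rw [hP, Matrix.of_apply, mul_assoc]
    simp_rw [h1]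
    rw [Finset.sum_comm]
    have h2 : ∀ b : ι × ι, ∑ a : ι × ι, M b.1 b.2 * (Q b a * P a (i, j))
        = M b.1 b.2 * (1 : Matrix (ι × ι) (ι × ι) A) b (i, j) := by
      intro b
      rw [← hQ, Matrix.mul_apply, Finset.mul_sum]
    simp_rw [h2]
    rw [Finset.sum_eq_single (i, j)]
    · simp
    · intro b _ hb
      rw [Matrix.one_apply_ne hb, mul_zero]
    · intro h
      exact absurd (Finset.mem_univ _) h
  rw [hM]
  refine Submodule.sum_mem _ fun a _ => Submodule.smul_mem _ _ (Submodule.subset_span ⟨f a, rfl⟩)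

end Core

end Fermat.Agent.S31.H202

end
-- ===== PACK-END S31/H202/MatOrth.lean

-- ===== PACK-BEGIN S31/H262/PadicDVR.lean
section




/-!
# S31 / SS6 (helper262): the ring of integers of a finite extension of `ℚ_p` is a complete DVR

For a field `L : Type` which is a finite extension of `ℚ_[p]`, the integral closure
`C = integralClosure ℤ_[p] L` is a complete discrete valuation ring of characteristic zero with
finite residue field, and `p` lies in its maximal ideal.  Everything is derived algebraically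
(Dedekind + the Prelude decomposition of finite algebras over complete local rings).
-/

set_option autoImplicit false
set_option linter.unusedSectionVars false
set_option linter.style.haveILetI false

noncomputable section

namespace Fermat.Agent.S31.H262

open IsLocalRing

section PadicDVR

variable (p : ℕ) [Fact p.Prime]
variable (L : Type) [Field L] [Algebra ℚ_[p] L] [Algebra ℤ_[p] L] [IsScalarTower ℤ_[p] ℚ_[p] L]
  [FiniteDimensional ℚ_[p] L]

/-- The ring of integers of `L`. -/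
abbrev intRing : Subalgebra ℤ_[p] L := integralClosure ℤ_[p] L

instance intRing_isDedekindDomain : IsDedekindDomain (intRing p L) :=
  integralClosure.isDedekindDomain ℤ_[p] ℚ_[p] L

instance intRing_moduleFinite : Module.Finite ℤ_[p] (intRing p L) :=
  IsIntegralClosure.finite ℤ_[p] ℚ_[p] L (intRing p L)

instance intRing_isNoetherianRing : IsNoetherianRing (intRing p L) :=
  IsIntegralClosure.isNoetherianRing ℤ_[p] ℚ_[p] L (intRing p L)

theorem algebraMap_padicInt_injective : Function.Injective (algebraMap ℤ_[p] L) := by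
  rw [IsScalarTower.algebraMap_eq ℤ_[p] ℚ_[p] L]
  exact (algebraMap ℚ_[p] L).injective.comp (IsFractionRing.injective ℤ_[p] ℚ_[p])

instance intRing_charZero : CharZero (intRing p L) := by
  haveI : CharZero L := charZero_of_injective_algebraMap (algebraMap ℚ_[p] L).injective
  exact charZero_of_injective_algebraMap (R := ℤ) (A := intRing p L)
    (fun a b h => by
      have h' := congrArg (fun x : intRing p L => (x : L)) h
      simp only [eq_intCast] at h'
      exact_mod_cast h')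

/-- `p` is not a unit of the ring of integers. -/
theorem not_isUnit_p : ¬ IsUnit ((p : ℕ) : intRing p L) := by
  intro hu
  obtain ⟨u, hu⟩ := hu
  -- the inverse is integral over `ℤ_[p]` and lies in `ℚ_[p]`
  have hinv : IsIntegral ℤ_[p] ((↑u⁻¹ : intRing p L) : L) := (↑u⁻¹ : intRing p L).2
  have hmul : ((↑u⁻¹ : intRing p L) : L) * (p : L) = 1 := by
    have h1 : (↑u⁻¹ : intRing p L) * (↑u : intRing p L) = 1 := by simp
    rw [hu] at h1
    have h2 := congrArg (fun x : intRing p L => (x : L)) h1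
    simpa using h2
  have hp0 : (p : L) ≠ 0 := by
    haveI : CharZero L := charZero_of_injective_algebraMap (algebraMap ℚ_[p] L).injective
    exact_mod_cast (Fact.out : p.Prime).ne_zero
  have heq : ((↑u⁻¹ : intRing p L) : L) = algebraMap ℚ_[p] L ((p : ℚ_[p])⁻¹) := by
    rw [map_inv₀, map_natCast]
    exact eq_inv_of_mul_eq_one_left hmul
  rw [heq] at hinv
  have hinv' : IsIntegral ℤ_[p] ((p : ℚ_[p])⁻¹) :=
    (isIntegral_algebraMap_iff (algebraMap ℚ_[p] L).injective).mp hinv
  obtain ⟨y, hy⟩ := (IsIntegrallyClosed.isIntegral_iff (R := ℤ_[p]) (K := ℚ_[p])).mp hinv'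
  have hpy : (p : ℤ_[p]) * y = 1 := by
    apply IsFractionRing.injective ℤ_[p] ℚ_[p]
    rw [map_mul, hy, map_natCast, map_one]
    have : (p : ℚ_[p]) ≠ 0 := by exact_mod_cast (Fact.out : p.Prime).ne_zero
    field_simp
  have : IsUnit (p : ℤ_[p]) := IsUnit.of_mul_eq_one _ hpy
  exact PadicInt.prime_p.not_isUnit this

theorem intRing_not_isField : ¬ IsField (intRing p L) := by
  intro hF
  apply not_isUnit_p p L
  have hp0 : ((p : ℕ) : intRing p L) ≠ 0 := by
    exact_mod_cast (Fact.out : p.Prime).ne_zero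
  obtain ⟨b, hb⟩ := hF.mul_inv_cancel hp0
  exact IsUnit.of_mul_eq_one _ hb

/-- The ring of integers is a local ring (it is a domain, finite over the complete local ring
`ℤ_[p]`, hence it is the product of its localisations at its finitely many maximal ideals). -/
instance intRing_isLocalRing : IsLocalRing (intRing p L) := by
  classical
  obtain ⟨-, hbij, -, -⟩ :=
    Algebra.finite_maximalSpectrum_and_bijective_localization_of_module_finite (𝒪 := ℤ_[p])
      (intRing p L)
  -- at most one maximal ideal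
  have huniq : ∀ I J : MaximalSpectrum (intRing p L), I = J := by
    intro I J
    by_contra hIJ
    obtain ⟨e, he⟩ := hbij.2 (Function.update
      (0 : ∀ K : MaximalSpectrum (intRing p L), Localization.AtPrime K.asIdeal) I 1)
    have hI : algebraMap (intRing p L) (Localization.AtPrime I.asIdeal) e = 1 := by
      have := congrFun he I
      simpa using this
    have hJ : algebraMap (intRing p L) (Localization.AtPrime J.asIdeal) e = 0 := by
      have := congrFun he J
      simpa [Function.update_of_ne (Ne.symm hIJ)] using this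
    have hprod : e * (1 - e) = 0 := by
      apply hbij.1
      funext K
      simp only [RingHom.pi_apply, map_mul, map_sub, map_one, map_zero]
      by_cases hK : K = I
      · subst hK; rw [hI]; simp
      · have : algebraMap (intRing p L) (Localization.AtPrime K.asIdeal) e = 0 := by
          have := congrFun he K
          simpa [Function.update_of_ne hK] using this
        rw [this]; simp
    rcases mul_eq_zero.mp hprod with h0 | h1
    · rw [h0, map_zero] at hI
      exact zero_ne_one hI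
    · have : e = 1 := (sub_eq_zero.mp h1).symm
      rw [this, map_one] at hJ
      exact one_ne_zero hJ
  obtain ⟨M, hM⟩ := Ideal.exists_maximal (intRing p L)
  refine IsLocalRing.of_unique_max_ideal ⟨M, hM, fun J hJ => ?_⟩
  exact congrArg MaximalSpectrum.asIdeal (huniq ⟨J, hJ⟩ ⟨M, hM⟩)

instance intRing_isDiscreteValuationRing : IsDiscreteValuationRing (intRing p L) :=
  ((IsDiscreteValuationRing.TFAE (intRing p L) (intRing_not_isField p L)).out 0 2).mpr
    (intRing_isDedekindDomain p L)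

theorem natCast_p_mem_maximalIdeal : ((p : ℕ) : intRing p L) ∈ maximalIdeal (intRing p L) :=
  (IsLocalRing.mem_maximalIdeal _).mpr (not_isUnit_p p L)

instance intRing_isLocalHom : IsLocalHom (algebraMap ℤ_[p] (intRing p L)) := by
  constructor
  intro a ha
  by_contra hna
  -- `a` is a non-unit of `ℤ_[p]`, so `p ∣ a`, hence the image is in the maximal ideal
  have hmem : a ∈ maximalIdeal ℤ_[p] := (IsLocalRing.mem_maximalIdeal _).mpr hna
  rw [PadicInt.maximalIdeal_eq_span_p, Ideal.mem_span_singleton] at hmem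
  obtain ⟨b, rfl⟩ := hmem
  rw [map_mul, map_natCast] at ha
  exact not_isUnit_p p L (isUnit_of_mul_isUnit_left ha)

instance intRing_isAdicComplete :
    IsAdicComplete (maximalIdeal (intRing p L)) (intRing p L) :=
  IsLocalRing.isAdicComplete_of_module_finite (𝒪 := ℤ_[p])

instance intRing_finite_residueField : Finite (ResidueField (intRing p L)) :=
  Module.finite_of_finite (ResidueField ℤ_[p])

/-- Powers of the maximal ideal are cofinal with powers of `p`. -/
theorem exists_maximalIdeal_pow_le_span_p_pow (n : ℕ) :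
    ∃ m : ℕ, maximalIdeal (intRing p L) ^ m ≤ Ideal.span {((p : ℕ) : intRing p L) ^ n} := by
  have hp0 : ((p : ℕ) : intRing p L) ≠ 0 := by
    exact_mod_cast (Fact.out : p.Prime).ne_zero
  have hne : Ideal.span {((p : ℕ) : intRing p L)} ≠ ⊥ := by
    rw [Ne, Ideal.span_singleton_eq_bot]
    exact hp0
  have hall : ∀ I : Ideal (intRing p L), I ≠ ⊥ → ∃ n, I = maximalIdeal (intRing p L) ^ n :=
    ((IsDiscreteValuationRing.TFAE (intRing p L) (intRing_not_isField p L)).out 0 6).mp
      (intRing_isDiscreteValuationRing p L)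
  obtain ⟨e, he⟩ := hall _ hne
  refine ⟨e * n, ?_⟩
  rw [pow_mul, ← he, Ideal.span_singleton_pow]

end PadicDVR

end Fermat.Agent.S31.H262

end
end
-- ===== PACK-END S31/H262/PadicDVR.lean

-- ===== PACK-BEGIN S22/H262/WeightNonpos.lean
section



set_option autoImplicit false

/-! Function-level vanishing in weight `≤ 0` (proof by helper442). -/

namespace Fermat.Agent.S22.H262

open UpperHalfPlane ModularForm CongruenceSubgroup Matrix.SpecialLinearGroup
open scoped MatrixGroups Manifold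

/-- Function-level vanishing in weight `≤ 0`: a holomorphic function on `ℍ`, invariant under
`Γ₀(N)` for the weight `k ≤ 0` slash action, and such that every `SL(2,ℤ)`-translate is zero at
`i∞`, vanishes identically. -/
theorem eq_zero_of_weight_nonpos (N : ℕ) [NeZero N] {k : ℤ} (hk : k ≤ 0) (G : ℍ → ℂ)
    (hol : MDiff G)
    (inv : ∀ γ ∈ (Gamma0 N : Subgroup (GL (Fin 2) ℝ)), G ∣[k] γ = G)
    (cusp : ∀ g : SL(2, ℤ), IsZeroAtImInfty (G ∣[k] g)) : G = 0 := by
  have hG0 : IsZeroAtImInfty G := by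
    have := cusp 1
    simpa using this
  let F : ModularForm (Gamma0 N : Subgroup (GL (Fin 2) ℝ)) k :=
    { toFun := G
      slash_action_eq' := inv
      holo' := hol
      bdd_at_cusps' := fun {c} hc => by
        have hc' : IsCusp c 𝒮ℒ := (Subgroup.IsArithmetic.isCusp_iff_isCusp_SL2Z _).mp hc
        rw [OnePoint.isBoundedAt_iff_forall_SL2Z hc']
        intro γ _
        exact (cusp γ).isBoundedAtImInfty }
  have hF : F = 0 := by
    apply ModularForm.sturm_bound_Gamma0 N F
    intro n hn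
    have h0 : (k * ((Gamma0 N).index : ℤ)).toNat = 0 := by
      apply Int.toNat_of_nonpos
      exact mul_nonpos_of_nonpos_of_nonneg hk (by positivity)
    rw [h0] at hn
    have hn0 : n = 0 := by omega
    subst hn0
    have h1 : (1 : ℝ) ∈ (Gamma0 N : Subgroup (GL (Fin 2) ℝ)).strictPeriods := by
      simp
    have hper : Function.Periodic ((F : ℍ → ℂ) ∘ UpperHalfPlane.ofComplex) 1 := by
      have := SlashInvariantFormClass.periodic_comp_ofComplex F h1
      simpa using this
    have han : AnalyticAt ℂ (cuspFunction 1 (F : ℍ → ℂ)) 0 :=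
      ModularFormClass.analyticAt_cuspFunction_zero F one_pos h1
    rw [UpperHalfPlane.qExpansion_coeff_zero one_pos han hper]
    exact hG0.valueAtInfty_eq_zero
  have : (F : ℍ → ℂ) = 0 := by rw [hF]; rfl
  exact this

end Fermat.Agent.S22.H262

end
-- ===== PACK-END S22/H262/WeightNonpos.lean

-- ===== PACK-BEGIN S18/H602/Descent.lean
section



/-!
# S18, piece d1 : descent from `Q̄` to a number field  (owner helper602)

`Q̄ = AlgebraicClosure ℚ`, `A ⊆ Q̄` a valuation subring, `E ⊆ Q̄` a finite extension of `ℚ`,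
`R_E := A ∩ E = A.comap (algebraMap E Q̄)`.

Main results (namespace `Fermat.Agent.S18.H602`):

* `coeffMap_mem_laurentBaseChange` : functoriality of `laurentBaseChange` in the field.
* `exists_finite_descent`, `exists_finite_descent₂` : every element (pair of elements) of
  `laurentBaseChange Q̄ F₀` comes from `laurentBaseChange E F₀` for a finite `E/ℚ`
  (containing any prescribed finite `E₀`).
* `exists_series_descent₂` : the same for Laurent series with coefficients in `A`; they descend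
  to Laurent series with coefficients in `R_E`.
* `coreStatement_of_coreAt` : CORE over `A` follows from CORE over all `R_E`.
-/

set_option autoImplicit false

noncomputable section

namespace Fermat.Agent.S18.H602

open ModularCurve AlgebraicCurve HahnSeries IntermediateField

local notation "Q̄" => AlgebraicClosure ℚ

/-! ## 1. Generalities on `coeffMap` -/

section CoeffMap

variable {R S : Type*} [CommRing R] [CommRing S]

theorem coeffMap_injective (f : R →+* S) (hf : Function.Injective f) :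
    Function.Injective (coeffMap f) := by
  intro x y h
  ext n
  apply hf
  have := congrArg (fun z => z.coeff n) h
  simpa using this

/-- A Laurent series all of whose coefficients lie in the range of an injective ring
homomorphism comes from a Laurent series over the source. -/
theorem exists_coeffMap_eq (f : R →+* S) (hf : Function.Injective f) (y : LaurentSeries S)
    (h : ∀ n, y.coeff n ∈ Set.range f) : ∃ x : LaurentSeries R, coeffMap f x = y := by
  choose c hc using h
  have hsupp : Function.support c = y.support := by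
    ext n
    simp only [Function.mem_support, HahnSeries.mem_support, ne_eq, ← hc n]
    rw [map_eq_zero_iff f hf]
  refine ⟨⟨c, ?_⟩, ?_⟩
  · rw [hsupp]
    exact y.isPWO_support
  · ext n
    simp [hc]

theorem coeffMap_algebraMap' {L L' : Type*} [Field L] [Field L'] (φ : L →+* L') (c : L) :
    coeffMap φ (algebraMap L (LaurentSeries L) c) = algebraMap L' (LaurentSeries L') (φ c) := by
  rw [algebraMap_laurentSeries_eq_single, algebraMap_laurentSeries_eq_single, coeffMap_single]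

end CoeffMap

/-! ## 2. Functoriality of `laurentBaseChange` -/

section Functoriality

variable {L L' : Type*} [Field L] [Field L'] [Algebra ℚ L] [Algebra ℚ L']
variable (F₀ : IntermediateField ℚ (LaurentSeries ℚ))

theorem coeffMap_coeffEmb' (φ : L →+* L') (x : LaurentSeries ℚ) :
    coeffMap φ (coeffEmb L x) = coeffEmb L' x := by
  rw [coeffEmb, coeffMap_coeffMap]
  exact coeffMap_congr (Subsingleton.elim _ _) x

theorem coeffMap_mem_laurentBaseChange (φ : L →+* L') {x : LaurentSeries L}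
    (hx : x ∈ laurentBaseChange L F₀) : coeffMap φ x ∈ laurentBaseChange L' F₀ := by
  rw [mem_laurentBaseChange_iff] at hx
  induction hx using Subfield.closure_induction with
  | mem y hy =>
      rcases hy with ⟨a, rfl⟩ | ⟨z, hz, rfl⟩
      · rw [coeffMap_algebraMap']
        exact (laurentBaseChange L' F₀).algebraMap_mem _
      · rw [coeffMap_coeffEmb']
        exact coeffEmb_mem_laurentBaseChange L' hz
  | one => simp
  | add x y _ _ hx hy => simpa using add_mem hx hy
  | neg x _ hx => simpa using neg_mem hx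
  | inv x _ hx => simpa using inv_mem hx
  | mul x y _ _ hx hy => simpa using mul_mem hx hy

end Functoriality

/-! ## 3. Descent of elements of `laurentBaseChange Q̄ F₀` to a finite extension of `ℚ` -/

section FiniteDescent

variable (F₀ : IntermediateField ℚ (LaurentSeries ℚ))

/-- `x ∈ Q̄((q))` is defined over the finite extension `E` (inside the base change of `F₀`). -/
def DescendsTo (E : IntermediateField ℚ Q̄) (x : LaurentSeries Q̄) : Prop :=
  ∃ y ∈ laurentBaseChange E F₀, coeffMap (algebraMap E Q̄) y = x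

variable {F₀}

theorem DescendsTo.mem {E : IntermediateField ℚ Q̄} {x : LaurentSeries Q̄}
    (h : DescendsTo F₀ E x) : x ∈ laurentBaseChange Q̄ F₀ := by
  obtain ⟨y, hy, rfl⟩ := h
  exact coeffMap_mem_laurentBaseChange F₀ _ hy

theorem DescendsTo.mono {E E' : IntermediateField ℚ Q̄} (hE : E ≤ E') {x : LaurentSeries Q̄}
    (h : DescendsTo F₀ E x) : DescendsTo F₀ E' x := by
  obtain ⟨y, hy, rfl⟩ := h
  refine ⟨coeffMap (IntermediateField.inclusion hE : E →+* E') y,
    coeffMap_mem_laurentBaseChange F₀ _ hy, ?_⟩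
  rw [coeffMap_coeffMap]
  exact coeffMap_congr (RingHom.ext fun _ => rfl) y

theorem DescendsTo.add {E : IntermediateField ℚ Q̄} {x x' : LaurentSeries Q̄}
    (h : DescendsTo F₀ E x) (h' : DescendsTo F₀ E x') : DescendsTo F₀ E (x + x') := by
  obtain ⟨y, hy, rfl⟩ := h
  obtain ⟨y', hy', rfl⟩ := h'
  exact ⟨y + y', add_mem hy hy', map_add _ _ _⟩

theorem DescendsTo.mul {E : IntermediateField ℚ Q̄} {x x' : LaurentSeries Q̄}
    (h : DescendsTo F₀ E x) (h' : DescendsTo F₀ E x') : DescendsTo F₀ E (x * x') := by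
  obtain ⟨y, hy, rfl⟩ := h
  obtain ⟨y', hy', rfl⟩ := h'
  exact ⟨y * y', mul_mem hy hy', map_mul _ _ _⟩

theorem DescendsTo.neg {E : IntermediateField ℚ Q̄} {x : LaurentSeries Q̄}
    (h : DescendsTo F₀ E x) : DescendsTo F₀ E (-x) := by
  obtain ⟨y, hy, rfl⟩ := h
  exact ⟨-y, neg_mem hy, map_neg _ _⟩

theorem DescendsTo.inv {E : IntermediateField ℚ Q̄} {x : LaurentSeries Q̄}
    (h : DescendsTo F₀ E x) : DescendsTo F₀ E x⁻¹ := by
  obtain ⟨y, hy, rfl⟩ := h
  exact ⟨y⁻¹, inv_mem hy, map_inv₀ _ _⟩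

theorem DescendsTo.one (E : IntermediateField ℚ Q̄) : DescendsTo F₀ E 1 :=
  ⟨1, one_mem _, map_one _⟩

theorem descendsTo_const (a : Q̄) :
    DescendsTo F₀ ℚ⟮a⟯ (algebraMap Q̄ (LaurentSeries Q̄) a) := by
  refine ⟨algebraMap ℚ⟮a⟯ (LaurentSeries ℚ⟮a⟯) ⟨a, mem_adjoin_simple_self ℚ a⟩,
    (laurentBaseChange ℚ⟮a⟯ F₀).algebraMap_mem _, ?_⟩
  rw [coeffMap_algebraMap']
  rfl

theorem descendsTo_coeffEmb (E : IntermediateField ℚ Q̄) {z : LaurentSeries ℚ} (hz : z ∈ F₀) :
    DescendsTo F₀ E (coeffEmb Q̄ z) :=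
  ⟨coeffEmb E z, coeffEmb_mem_laurentBaseChange E hz, coeffMap_coeffEmb' _ z⟩

theorem isAlgebraic_Qbar : Algebra.IsAlgebraic ℚ Q̄ := AlgebraicClosure.isAlgebraic ℚ

/-- Every element of `laurentBaseChange Q̄ F₀` is defined over a finite extension of `ℚ`. -/
theorem exists_finite_descent {x : LaurentSeries Q̄} (hx : x ∈ laurentBaseChange Q̄ F₀) :
    ∃ E : IntermediateField ℚ Q̄, FiniteDimensional ℚ E ∧ DescendsTo F₀ E x := by
  have := isAlgebraic_Qbar
  rw [mem_laurentBaseChange_iff] at hx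
  induction hx using Subfield.closure_induction with
  | mem y hy =>
      rcases hy with ⟨a, rfl⟩ | ⟨z, hz, rfl⟩
      · exact ⟨ℚ⟮a⟯, IntermediateField.adjoin.finiteDimensional
          (Algebra.IsAlgebraic.isAlgebraic a).isIntegral, descendsTo_const a⟩
      · exact ⟨⊥, inferInstance, descendsTo_coeffEmb ⊥ hz⟩
  | one => exact ⟨⊥, inferInstance, DescendsTo.one ⊥⟩
  | add x y _ _ hx hy =>
      obtain ⟨E₁, h₁, hx⟩ := hx
      obtain ⟨E₂, h₂, hy⟩ := hy
      exact ⟨E₁ ⊔ E₂, IntermediateField.finiteDimensional_sup E₁ E₂,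
        (hx.mono le_sup_left).add (hy.mono le_sup_right)⟩
  | neg x _ hx =>
      obtain ⟨E₁, h₁, hx⟩ := hx
      exact ⟨E₁, h₁, hx.neg⟩
  | inv x _ hx =>
      obtain ⟨E₁, h₁, hx⟩ := hx
      exact ⟨E₁, h₁, hx.inv⟩
  | mul x y _ _ hx hy =>
      obtain ⟨E₁, h₁, hx⟩ := hx
      obtain ⟨E₂, h₂, hy⟩ := hy
      exact ⟨E₁ ⊔ E₂, IntermediateField.finiteDimensional_sup E₁ E₂,
        (hx.mono le_sup_left).mul (hy.mono le_sup_right)⟩

/-- Two elements of `laurentBaseChange Q̄ F₀` are defined over a common finite extension of `ℚ`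
containing a prescribed finite extension `E₀`. -/
theorem exists_finite_descent₂ (E₀ : IntermediateField ℚ Q̄) [FiniteDimensional ℚ E₀]
    {x₁ x₂ : LaurentSeries Q̄} (h₁ : x₁ ∈ laurentBaseChange Q̄ F₀)
    (h₂ : x₂ ∈ laurentBaseChange Q̄ F₀) :
    ∃ E : IntermediateField ℚ Q̄, FiniteDimensional ℚ E ∧ E₀ ≤ E ∧
      DescendsTo F₀ E x₁ ∧ DescendsTo F₀ E x₂ := by
  obtain ⟨E₁, hE₁, d₁⟩ := exists_finite_descent h₁
  obtain ⟨E₂, hE₂, d₂⟩ := exists_finite_descent h₂
  have : FiniteDimensional ℚ ↥(E₁ ⊔ E₂) := IntermediateField.finiteDimensional_sup E₁ E₂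
  exact ⟨E₀ ⊔ (E₁ ⊔ E₂), IntermediateField.finiteDimensional_sup _ _, le_sup_left,
    d₁.mono (le_sup_left.trans le_sup_right), d₂.mono (le_sup_right.trans le_sup_right)⟩

end FiniteDescent

/-! ## 4. The valuation ring `R_E = A ∩ E` -/

section RE

variable (A : ValuationSubring Q̄) (E : IntermediateField ℚ Q̄)

/-- `R_E := A ∩ E`, a valuation subring of `E`. -/
def RE : ValuationSubring E := A.comap (algebraMap E Q̄)

variable {A E} in
theorem mem_RE {x : E} : x ∈ RE A E ↔ (x : Q̄) ∈ A := Iff.rfl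

/-- The inclusion `R_E → A`. -/
def toA : ↥(RE A E) →+* ↥A :=
  ((algebraMap E Q̄).comp (RE A E).subtype).codRestrict A (fun x => x.2)

@[simp]
theorem coe_toA (x : RE A E) : ((toA A E x : A) : Q̄) = ((x : E) : Q̄) := rfl

theorem toA_injective : Function.Injective (toA A E) := by
  intro x y h
  have h' : ((x : E) : Q̄) = ((y : E) : Q̄) := congrArg (fun z : A => (z : Q̄)) h
  exact Subtype.ext (Subtype.ext h')

theorem subtype_comp_toA :
    (A.subtype : ↥A →+* Q̄).comp (toA A E) = (algebraMap E Q̄).comp (RE A E).subtype :=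
  RingHom.ext fun _ => rfl

instance isLocalHom_toA : IsLocalHom (toA A E) where
  map_nonunit := by
    intro a ha
    obtain ⟨b, hb⟩ := isUnit_iff_exists_inv.mp ha
    have hb' : ((a : E) : Q̄) * (b : Q̄) = 1 := congrArg (fun z : A => (z : Q̄)) hb
    have ha0 : (a : E) ≠ 0 := by
      rintro h0
      rw [h0] at hb'
      simp at hb'
    have hinv : ((a : E)⁻¹ : E) ∈ RE A E := by
      rw [mem_RE]
      have : (((a : E)⁻¹ : E) : Q̄) = (b : Q̄) := by
        have h1 : (((a : E)⁻¹ : E) : Q̄) = ((a : E) : Q̄)⁻¹ := by simp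
        rw [h1]
        exact inv_eq_of_mul_eq_one_right hb'
      rw [this]
      exact b.2
    exact isUnit_iff_exists_inv.mpr ⟨⟨(a : E)⁻¹, hinv⟩, Subtype.ext (mul_inv_cancel₀ ha0)⟩

/-- The map of residue fields `κ_E → k`. -/
def resMap : IsLocalRing.ResidueField (RE A E) →+* IsLocalRing.ResidueField A :=
  IsLocalRing.ResidueField.map (toA A E)

theorem resMap_injective : Function.Injective (resMap A E) := (resMap A E).injective

theorem resMap_comp_residue :
    (resMap A E).comp (IsLocalRing.residue (RE A E)) = (IsLocalRing.residue A).comp (toA A E) :=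
  IsLocalRing.ResidueField.map_comp_residue (toA A E)

theorem coeffMap_residue_toA (V : LaurentSeries (RE A E)) :
    coeffMap (IsLocalRing.residue A) (coeffMap (toA A E) V) =
      coeffMap (resMap A E) (coeffMap (IsLocalRing.residue (RE A E)) V) := by
  rw [coeffMap_coeffMap, coeffMap_coeffMap, resMap_comp_residue]

variable {A E}

/-- A series over `A` whose image in `Q̄((q))` is defined over `E` comes from a series over
`R_E = A ∩ E`. -/
theorem exists_series_descent {F₀ : IntermediateField ℚ (LaurentSeries ℚ)} (U : LaurentSeries A)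
    (h : DescendsTo F₀ E (coeffMap A.subtype U)) :
    ∃ V : LaurentSeries (RE A E),
      coeffMap (RE A E).subtype V ∈ laurentBaseChange E F₀ ∧ coeffMap (toA A E) V = U := by
  obtain ⟨y, hy, hyU⟩ := h
  have hc : ∀ n, y.coeff n ∈ Set.range (RE A E).subtype := by
    intro n
    have h1 : algebraMap E Q̄ (y.coeff n) = ((U.coeff n : A) : Q̄) := by
      have := congrArg (fun z => z.coeff n) hyU
      simpa using this
    refine ⟨⟨y.coeff n, ?_⟩, rfl⟩
    rw [mem_RE]
    change algebraMap E Q̄ (y.coeff n) ∈ A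
    rw [h1]
    exact (U.coeff n).2
  obtain ⟨V, hV⟩ := exists_coeffMap_eq (RE A E).subtype Subtype.val_injective y hc
  refine ⟨V, hV ▸ hy, ?_⟩
  apply coeffMap_injective A.subtype Subtype.val_injective
  rw [coeffMap_coeffMap, ← hyU, ← hV, coeffMap_coeffMap, subtype_comp_toA]

end RE

/-! ## 5. CORE over `A` from CORE over the rings `R_E` -/

section Core

variable (A : ValuationSubring Q̄) (E : IntermediateField ℚ Q̄) (N : ℕ)

/-- `IsIntAt A E N V`: the series `V ∈ R_E((q))` lies in `F_{N,E} = E(j(q^d) : d ∣ N)` and has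
nonzero reduction modulo the maximal ideal of `R_E`. -/
def IsIntAt (V : LaurentSeries (RE A E)) : Prop :=
  coeffMap (RE A E).subtype V ∈ laurentBaseChange E (modularFunctionFieldFull N) ∧
    coeffMap (IsLocalRing.residue (RE A E)) V ≠ 0

variable {A E N}

theorem IsIntAt.mem_bar {V : LaurentSeries (RE A E)} (h : IsIntAt A E N V) :
    coeffMap (algebraMap E Q̄) (coeffMap (RE A E).subtype V) ∈ modularFunctionFieldBar N :=
  coeffMap_mem_laurentBaseChange _ _ h.1

/-- The element of `F̄_N = Q̄(j(q^d) : d ∣ N)` defined by an integral series over `R_E`. -/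
def toFbar {V : LaurentSeries (RE A E)} (h : IsIntAt A E N V) : modularFunctionFieldBar N :=
  ⟨coeffMap (algebraMap E Q̄) (coeffMap (RE A E).subtype V), h.mem_bar⟩

theorem coe_toFbar {V : LaurentSeries (RE A E)} (h : IsIntAt A E N V) :
    (toFbar h : LaurentSeries Q̄) = coeffMap A.subtype (coeffMap (toA A E) V) := by
  rw [coeffMap_coeffMap, subtype_comp_toA, ← coeffMap_coeffMap]
  rfl

variable (A E N)

/-- CORE over the ring `R_E = A ∩ E` (a discrete valuation ring when `E/ℚ` is finite and `A`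
lies over a prime, see `isDiscreteValuationRing_RE`): two integral series over `R_E` with the
same (nonzero) reduction, whose quotient has divisor divisible by `m` on `F̄_N`, differ by a
constant times an `m`-th power in `F̄_N`. -/
def CoreAt (m : ℕ) : Prop :=
  ∀ (V₁ V₂ : LaurentSeries (RE A E)) (h₁ : IsIntAt A E N V₁) (h₂ : IsIntAt A E N V₂),
    coeffMap (IsLocalRing.residue (RE A E)) V₁ = coeffMap (IsLocalRing.residue (RE A E)) V₂ →
    (∀ v : Place Q̄ (modularFunctionFieldBar N),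
      (m : ℤ) ∣ v.ord (toFbar h₁) - v.ord (toFbar h₂)) →
    ∃ (c : Q̄) (y : modularFunctionFieldBar N), c ≠ 0 ∧ y ≠ 0 ∧
      toFbar h₁ = algebraMap Q̄ (modularFunctionFieldBar N) c * y ^ m * toFbar h₂

variable {A N}

/-- **Descent (piece d1).**  If CORE holds over `R_E = A ∩ E` for every finite extension `E/ℚ`
inside `Q̄` containing a fixed finite extension `E₀`, then CORE holds over `A`: this is
`Fermat.Agent.S18.CoreStatement N A m` of the row's `Spec.lean`, with `IsInt` and `toF` unfolded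
(the hypothesis that the reduction lies in `F_{N,k}` is not needed). -/
theorem core_of_coreAt (m : ℕ) (E₀ : IntermediateField ℚ Q̄) [FiniteDimensional ℚ E₀]
    (H : ∀ E : IntermediateField ℚ Q̄, FiniteDimensional ℚ E → E₀ ≤ E → CoreAt A E N m)
    (U₁ U₂ : LaurentSeries A)
    (h₁ : coeffMap A.subtype U₁ ∈ modularFunctionFieldBar N)
    (h₂ : coeffMap A.subtype U₂ ∈ modularFunctionFieldBar N)
    (hne : coeffMap (IsLocalRing.residue A) U₁ ≠ 0)
    (hred : coeffMap (IsLocalRing.residue A) U₁ = coeffMap (IsLocalRing.residue A) U₂)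
    (hdiv : ∀ v : Place Q̄ (modularFunctionFieldBar N),
      (m : ℤ) ∣ v.ord (⟨coeffMap A.subtype U₁, h₁⟩ : modularFunctionFieldBar N) -
        v.ord (⟨coeffMap A.subtype U₂, h₂⟩ : modularFunctionFieldBar N)) :
    ∃ (c : Q̄) (y : modularFunctionFieldBar N), c ≠ 0 ∧ y ≠ 0 ∧
      (⟨coeffMap A.subtype U₁, h₁⟩ : modularFunctionFieldBar N) =
        algebraMap Q̄ (modularFunctionFieldBar N) c * y ^ m *
          (⟨coeffMap A.subtype U₂, h₂⟩ : modularFunctionFieldBar N) := by
  obtain ⟨E, hE, hE₀, d₁, d₂⟩ := exists_finite_descent₂ E₀ h₁ h₂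
  obtain ⟨V₁, hV₁, rfl⟩ := exists_series_descent U₁ d₁
  obtain ⟨V₂, hV₂, rfl⟩ := exists_series_descent U₂ d₂
  have hinj := coeffMap_injective (resMap A E) (resMap_injective A E)
  rw [coeffMap_residue_toA] at hne
  rw [coeffMap_residue_toA, coeffMap_residue_toA] at hred
  have i₁ : IsIntAt A E N V₁ := ⟨hV₁, fun h0 => hne (by rw [h0, map_zero])⟩
  have i₂ : IsIntAt A E N V₂ := ⟨hV₂, fun h0 => hne (by rw [hred, h0, map_zero])⟩
  have e₁ : toFbar i₁ = (⟨coeffMap A.subtype (coeffMap (toA A E) V₁), h₁⟩ :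
      modularFunctionFieldBar N) := Subtype.ext (coe_toFbar i₁)
  have e₂ : toFbar i₂ = (⟨coeffMap A.subtype (coeffMap (toA A E) V₂), h₂⟩ :
      modularFunctionFieldBar N) := Subtype.ext (coe_toFbar i₂)
  obtain ⟨c, y, hc, hy, hcy⟩ := H E hE hE₀ V₁ V₂ i₁ i₂ (hinj hred) (by
    intro v
    rw [e₁, e₂]
    exact hdiv v)
  exact ⟨c, y, hc, hy, by rw [← e₁, ← e₂]; exact hcy⟩

end Core

end Fermat.Agent.S18.H602

end
end
-- ===== PACK-END S18/H602/Descent.lean

-- ===== PACK-BEGIN S29/H455/KummerCorr.lean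
section


/-!
# Kummer classes in `Pic⁰` and correspondences (Prelude language)

`IsKummerClass n f x` : the class `x ∈ Pic⁰(F)` is represented by a degree-zero divisor `D` with
`n • D = div f`.  Main results:

* `exists_isKummerClass_of_zsmul_eq_zero` : every `n`-torsion class is a Kummer class;
* `IsKummerClass.unique`, `.add`, `.neg`, `.mul_pow`, `.eq_zero_iff` ;
* `IsKummerClass.correspondence` : the correspondence `ψ_* φ^*` (Prelude `Pic0.correspondence`,
  e.g. the Hecke operator `T_ℓ = α_* β^*`) sends the Kummer class of `f` to the Kummer class of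
  `Norm_ψ (φ f)`;
* `IsKummerClass.smul` : semilinear automorphisms send the Kummer class of `f` to that of `g • f`.
-/

set_option autoImplicit false
set_option linter.style.haveILetI false
set_option linter.unusedSectionVars false

noncomputable section

namespace Fermat.Agent.S29.H455

open AlgebraicCurve

variable {K F F' : Type*} [Field K] [Field F] [Field F'] [Algebra K F] [Algebra K F']

/-- The norm along an algebra homomorphism `ψ : F → F'` (Prelude `algebraAlong`). -/
def normAlong (ψ : F →ₐ[K] F') (y : F') : F :=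
  letI := algebraAlong ψ
  Algebra.norm F y

theorem normAlong_ne_zero (ψ : F →ₐ[K] F') (hfin : FiniteAlong K ψ) {y : F'} (hy : y ≠ 0) :
    normAlong ψ y ≠ 0 := by
  letI := algebraAlong ψ
  haveI : Module.Finite F F' := hfin
  exact Algebra.norm_ne_zero_iff.mpr hy

theorem normAlong_mul (ψ : F →ₐ[K] F') (y z : F') :
    normAlong ψ (y * z) = normAlong ψ y * normAlong ψ z := by
  letI := algebraAlong ψ
  exact map_mul (Algebra.norm F) y z

theorem normAlong_pow (ψ : F →ₐ[K] F') (y : F') (n : ℕ) :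
    normAlong ψ (y ^ n) = normAlong ψ y ^ n := by
  letI := algebraAlong ψ
  exact map_pow (Algebra.norm F) y n

section Divisors

variable [HasPrincipalDivisors K F']
variable (φ ψ : F →ₐ[K] F') (hφ : φ.toRingHom.IsIntegral) (hψ : ψ.toRingHom.IsIntegral)

theorem pullbackAlong_apply_of_ord {f : F} {D : Divisor K F}
    (hD : ∀ v : Place K F, D v = v.ord f) (w : Place K F') :
    Divisor.pullbackAlong φ hφ D w = w.ord (φ f) := by
  letI := algebraAlong φ
  haveI := isScalarTower_along φ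
  haveI := isIntegral_along φ hφ
  exact Divisor.pullback_apply_eq_ord hD w

theorem pushforwardAlong_apply_of_ord (hfin : FiniteAlong K ψ) (hN : NormFormulaAlong K ψ hfin)
    {g : F'} (hg : g ≠ 0) {D : Divisor K F'} (hD : ∀ w : Place K F', D w = w.ord g)
    (v : Place K F) :
    Divisor.pushforwardAlong ψ hψ D v = v.ord (normAlong ψ g) := by
  letI := algebraAlong ψ
  haveI := isScalarTower_along ψ
  haveI := isIntegral_along ψ hψ
  haveI : Module.Finite F F' := hfin
  exact hN g hg D hD v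

/-- The correspondence `ψ_* φ^*` sends `div f` to `div (Norm_ψ (φ f))`. -/
theorem correspondence_apply_of_ord (hfin : FiniteAlong K ψ) (hN : NormFormulaAlong K ψ hfin)
    {f : F} (hf : f ≠ 0) {D : Divisor K F} (hD : ∀ v : Place K F, D v = v.ord f)
    (v : Place K F) :
    Divisor.correspondence φ ψ hφ hψ D v = v.ord (normAlong ψ (φ f)) := by
  rw [Divisor.correspondence_apply]
  refine pushforwardAlong_apply_of_ord ψ hψ hfin hN ?_ (fun w => ?_) v
  · exact (map_ne_zero φ).mpr hf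
  · exact pullbackAlong_apply_of_ord φ hφ hD w

/-- If `n • D = div f` then `n • (ψ_* φ^* D) = div (Norm_ψ (φ f))`. -/
theorem correspondence_kummer (hfin : FiniteAlong K ψ) (hN : NormFormulaAlong K ψ hfin)
    {n : ℤ} {f : F} (hf : f ≠ 0) {D : Divisor K F}
    (hD : ∀ v : Place K F, n * D v = v.ord f) (v : Place K F) :
    n * Divisor.correspondence φ ψ hφ hψ D v = v.ord (normAlong ψ (φ f)) := by
  have h := correspondence_apply_of_ord φ ψ hφ hψ hfin hN hf (D := n • D)
    (fun v => by rw [Finsupp.smul_apply, smul_eq_mul, hD]) v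
  rw [map_zsmul, Finsupp.smul_apply, smul_eq_mul] at h
  exact h

end Divisors

/-! ### The Kummer relation -/

/-- `x` is the `n`-Kummer class of `f`: `x = [D]` with `D` of degree zero and `n • D = div f`. -/
def IsKummerClass (n : ℤ) (f : F) (x : Pic0 K F) : Prop :=
  f ≠ 0 ∧ ∃ D : Divisor.degZero (K := K) (F := F),
    Pic0.mk D = x ∧ ∀ v : Place K F, n * (D : Divisor K F) v = v.ord f

namespace IsKummerClass

variable {n : ℤ} {f g : F} {x y : Pic0 K F}

theorem ne_zero (h : IsKummerClass n f x) : f ≠ 0 := h.1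

/-- A Kummer class is `n`-torsion. -/
theorem zsmul_eq_zero (h : IsKummerClass n f x) : n • x = 0 := by
  obtain ⟨hf, D, rfl, hD⟩ := h
  have h1 : n • Pic0.mk D = Pic0.mk (n • D) := rfl
  rw [h1]
  refine (QuotientAddGroup.eq_zero_iff _).mpr ?_
  rw [AddSubgroup.mem_addSubgroupOf]
  refine ⟨f, hf, fun v => ?_⟩
  rw [← hD v]
  simp

theorem add (hx : IsKummerClass n f x) (hy : IsKummerClass n g y) :
    IsKummerClass n (f * g) (x + y) := by
  obtain ⟨hf, D, rfl, hD⟩ := hx
  obtain ⟨hg, E, rfl, hE⟩ := hy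
  refine ⟨mul_ne_zero hf hg, D + E, rfl, fun v => ?_⟩
  rw [Place.ord_mul v hf hg, ← hD v, ← hE v]
  simp [mul_add]

theorem neg (hx : IsKummerClass n f x) : IsKummerClass n f⁻¹ (-x) := by
  obtain ⟨hf, D, rfl, hD⟩ := hx
  refine ⟨inv_ne_zero hf, -D, rfl, fun v => ?_⟩
  rw [Place.ord_inv, ← hD v]
  simp

theorem zero : IsKummerClass n (1 : F) (0 : Pic0 K F) :=
  ⟨one_ne_zero, 0, rfl, fun v => by simp⟩

/-- Changing `f` by an `n`-th power changes the divisor by a principal divisor. -/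
theorem mul_zpow [HasPrincipalDivisors K F] (hx : IsKummerClass n f x) (hg : g ≠ 0) :
    IsKummerClass n (f * g ^ n) x := by
  obtain ⟨hf, D, rfl, hD⟩ := hx
  obtain ⟨E, hE, hE0⟩ := HasPrincipalDivisors.exists_divisor (K := K) g hg
  refine ⟨mul_ne_zero hf (zpow_ne_zero n hg), D + ⟨E, hE0⟩, ?_, fun v => ?_⟩
  · rw [Pic0.mk_add]
    have : Pic0.mk (⟨E, hE0⟩ : Divisor.degZero (K := K) (F := F)) = 0 := by
      refine (QuotientAddGroup.eq_zero_iff _).mpr ?_
      rw [AddSubgroup.mem_addSubgroupOf]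
      exact ⟨g, hg, hE⟩
    rw [this, add_zero]
  · rw [Place.ord_mul v hf (zpow_ne_zero n hg), Place.ord_zpow, ← hD v]
    simp [mul_add, hE v]

/-- The Kummer class of `f` is unique (for `n ≠ 0`). -/
theorem unique (hn : n ≠ 0) (hx : IsKummerClass n f x) (hy : IsKummerClass n f y) : x = y := by
  obtain ⟨-, D, rfl, hD⟩ := hx
  obtain ⟨-, E, rfl, hE⟩ := hy
  congr 1
  apply Subtype.ext
  apply Finsupp.ext
  intro v
  have := (hD v).trans (hE v).symm
  exact mul_left_cancel₀ hn this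

/-- The Kummer class of `f` vanishes iff `div f = n • div g` for some `g`. -/
theorem eq_zero_iff (hn : n ≠ 0) (hx : IsKummerClass n f x) :
    x = 0 ↔ ∃ g : F, g ≠ 0 ∧ ∀ v : Place K F, v.ord f = n * v.ord g := by
  obtain ⟨hf, D, rfl, hD⟩ := hx
  constructor
  · intro h
    have h1 := (QuotientAddGroup.eq_zero_iff _).mp h
    rw [AddSubgroup.mem_addSubgroupOf] at h1
    obtain ⟨g, hg, hDg⟩ := h1
    exact ⟨g, hg, fun v => by rw [← hD v, hDg v]⟩
  · rintro ⟨g, hg, hfg⟩
    refine (QuotientAddGroup.eq_zero_iff _).mpr ?_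
    rw [AddSubgroup.mem_addSubgroupOf]
    refine ⟨g, hg, fun v => ?_⟩
    have := (hD v).trans (hfg v)
    exact mul_left_cancel₀ hn this

/-- **Correspondences on Kummer classes**: `ψ_* φ^*` sends the Kummer class of `f` to the
Kummer class of `Norm_ψ (φ f)`. -/
theorem correspondence [HasPrincipalDivisors K F'] (φ ψ : F →ₐ[K] F')
    (hφ : φ.toRingHom.IsIntegral) (hψ : ψ.toRingHom.IsIntegral)
    (hFI : FundamentalIdentityAlong K φ hφ) (hfin : FiniteAlong K ψ)
    (hN : NormFormulaAlong K ψ hfin) (hx : IsKummerClass n f x) :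
    IsKummerClass n (normAlong ψ (φ f)) (Pic0.correspondence φ ψ hφ hψ hFI hfin hN x) := by
  obtain ⟨hf, D, rfl, hD⟩ := hx
  refine ⟨normAlong_ne_zero ψ hfin ((map_ne_zero φ).mpr hf),
    Pic0.degZeroCorrespondence φ ψ hφ hψ hFI D, (Pic0.correspondence_mk _ _ _ _ _ _ _ D).symm,
    fun v => ?_⟩
  rw [Pic0.coe_degZeroCorrespondence]
  exact correspondence_kummer φ ψ hφ hψ hfin hN hf hD v

/-- **Semilinear automorphisms on Kummer classes**. -/
theorem smul (σ : SemilinearAut K F) (hx : IsKummerClass n f x) :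
    IsKummerClass n (σ • f) (σ • x) := by
  obtain ⟨hf, D, rfl, hD⟩ := hx
  refine ⟨?_, SemilinearAut.degZeroSMulHom σ D, (SemilinearAut.pic0_smul_mk σ D).symm,
    fun v => ?_⟩
  · rw [SemilinearAut.smul_def]
    exact (map_ne_zero _).mpr hf
  · rw [SemilinearAut.coe_degZeroSMulHom, SemilinearAut.divisor_smul_apply, hD (σ⁻¹ • v)]
    have h := SemilinearAut.ord_smul σ (σ⁻¹ • v) f
    rw [smul_inv_smul] at h
    exact h.symm

end IsKummerClass

/-- Every `n`-torsion class is a Kummer class. -/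
theorem exists_isKummerClass_of_zsmul_eq_zero {n : ℤ} {x : Pic0 K F} (hx : n • x = 0) :
    ∃ f : F, IsKummerClass n f x := by
  obtain ⟨D, rfl⟩ := Pic0.mk_surjective x
  have h1 : n • Pic0.mk D = Pic0.mk (n • D) := rfl
  rw [h1] at hx
  have h2 := (QuotientAddGroup.eq_zero_iff _).mp hx
  rw [AddSubgroup.mem_addSubgroupOf] at h2
  obtain ⟨f, hf, hDf⟩ := h2
  refine ⟨f, hf, D, rfl, fun v => ?_⟩
  rw [← hDf v]
  simp

end Fermat.Agent.S29.H455

end
end
-- ===== PACK-END S29/H455/KummerCorr.lean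

-- ===== PACK-BEGIN S24/Deg/H457_Bound.lean
section


/-!
# S24 / DEG-ALG (helper457), part 2: bounded degree ⇒ bounded dimension

If every element of a field extension `F/k` (char. 0) is algebraic of degree `≤ n`, then
`F/k` is finite of degree `≤ n` (primitive element theorem).
-/

set_option autoImplicit false

noncomputable section

open Polynomial Module

namespace Fermat.Agent.S24.Deg457

/-- In characteristic zero, an extension all of whose elements are algebraic of degree `≤ n`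
is finite-dimensional of dimension `≤ n`. -/
theorem finiteDimensional_and_finrank_le_of_forall_natDegree_minpoly_le
    {k F : Type*} [Field k] [Field F] [Algebra k F] [CharZero k] (n : ℕ)
    (h : ∀ x : F, IsIntegral k x ∧ (minpoly k x).natDegree ≤ n) :
    FiniteDimensional k F ∧ finrank k F ≤ n := by
  haveI : Algebra.IsAlgebraic k F := ⟨fun x => (h x).1.isAlgebraic⟩
  have key : ∀ L : IntermediateField k F, FiniteDimensional k L → finrank k L ≤ n := by
    intro L hL
    obtain ⟨α, hα⟩ := Field.exists_primitive_element k L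
    have h1 : finrank k L = (minpoly k α).natDegree := by
      rw [← IntermediateField.adjoin.finrank (IsIntegral.of_finite k α), hα]
      exact (IntermediateField.finrank_top').symm
    rw [h1]
    have h2 : minpoly k (α : F) = minpoly k α :=
      (minpoly.algebraMap_eq (algebraMap L F).injective α)
    rw [← h2]
    exact (h (α : F)).2
  have hfd : FiniteDimensional k F := by
    by_contra hnot
    obtain ⟨L, hL, hlt⟩ := IntermediateField.exists_lt_finrank_of_infinite_dimensional hnot n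
    exact absurd (key L hL) (not_le.mpr hlt)
  refine ⟨hfd, ?_⟩
  have := key ⊤ inferInstance
  rwa [IntermediateField.finrank_top'] at this

end Fermat.Agent.S24.Deg457

end
end
-- ===== PACK-END S24/Deg/H457_Bound.lean

-- ===== PACK-BEGIN S24/Deg/H648Conj.lean
section


/-!
# S24 / M6-AN (helper648): function-level conjugate product

For a holomorphic `Γ₀(N)`-invariant function `f` on `ℍ` whose `SL₂(ℤ)`-translates have at most
exponential growth at `i∞`, the polynomial `∏ₓ (Y - f ∘ gₓ⁻¹)` (product over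
`x ∈ SL₂(ℤ)/Γ₀(N)`) has holomorphic, `SL₂(ℤ)`-invariant coefficients of exponential growth.
-/

set_option autoImplicit false

noncomputable section

open UpperHalfPlane ModularGroup CongruenceSubgroup Polynomial
open scoped MatrixGroups Manifold Modular Real

namespace Fermat.Agent.S24.H648

/-- At most exponential growth at `i∞` (on `im τ ≥ 1`). -/
def ExpGrowth (f : ℍ → ℂ) : Prop :=
  ∃ (C : ℝ) (m : ℕ), ∀ τ : ℍ, 1 ≤ τ.im → ‖f τ‖ ≤ C * Real.exp (2 * π * m * τ.im)

lemma ExpGrowth.mono {f : ℍ → ℂ} {C : ℝ} {m : ℕ}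
    (h : ∀ τ : ℍ, 1 ≤ τ.im → ‖f τ‖ ≤ C * Real.exp (2 * π * m * τ.im)) {C' : ℝ} {m' : ℕ}
    (hC : C ≤ C') (hC0 : 0 ≤ C') (hm : m ≤ m') (τ : ℍ) (hτ : 1 ≤ τ.im) :
    ‖f τ‖ ≤ C' * Real.exp (2 * π * m' * τ.im) := by
  refine (h τ hτ).trans ?_
  have h1 : Real.exp (2 * π * m * τ.im) ≤ Real.exp (2 * π * m' * τ.im) := by
    apply Real.exp_le_exp.mpr
    have : (m : ℝ) ≤ m' := by exact_mod_cast hm
    have hpi := Real.pi_pos
    have := τ.im_pos
    gcongr
  calc C * Real.exp (2 * π * m * τ.im) ≤ C' * Real.exp (2 * π * m * τ.im) := by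
        gcongr
    _ ≤ C' * Real.exp (2 * π * m' * τ.im) := by gcongr

lemma expGrowth_const (c : ℂ) : ExpGrowth (fun _ => c) := by
  refine ⟨‖c‖, 0, fun τ _ => ?_⟩
  simp

lemma ExpGrowth.add {f g : ℍ → ℂ} (hf : ExpGrowth f) (hg : ExpGrowth g) :
    ExpGrowth (f + g) := by
  obtain ⟨C, m, h⟩ := hf
  obtain ⟨C', m', h'⟩ := hg
  refine ⟨|C| + |C'|, max m m', fun τ hτ => ?_⟩
  have h1 := ExpGrowth.mono h (C' := |C|) (m' := max m m') (le_abs_self C) (abs_nonneg C)
    (le_max_left _ _) τ hτ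
  have h2 := ExpGrowth.mono h' (C' := |C'|) (m' := max m m') (le_abs_self C') (abs_nonneg C')
    (le_max_right _ _) τ hτ
  calc ‖(f + g) τ‖ ≤ ‖f τ‖ + ‖g τ‖ := norm_add_le _ _
    _ ≤ _ := by rw [add_mul]; exact add_le_add h1 h2

lemma ExpGrowth.mul {f g : ℍ → ℂ} (hf : ExpGrowth f) (hg : ExpGrowth g) :
    ExpGrowth (f * g) := by
  obtain ⟨C, m, h⟩ := hf
  obtain ⟨C', m', h'⟩ := hg
  refine ⟨|C| * |C'|, m + m', fun τ hτ => ?_⟩
  have h1 := ExpGrowth.mono h (C' := |C|) (m' := m) (le_abs_self C) (abs_nonneg C) le_rfl τ hτ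
  have h2 := ExpGrowth.mono h' (C' := |C'|) (m' := m') (le_abs_self C') (abs_nonneg C') le_rfl τ hτ
  have : Real.exp (2 * π * (m + m' : ℕ) * τ.im)
      = Real.exp (2 * π * m * τ.im) * Real.exp (2 * π * m' * τ.im) := by
    rw [← Real.exp_add]; push_cast; ring_nf
  calc ‖(f * g) τ‖ = ‖f τ‖ * ‖g τ‖ := norm_mul _ _
    _ ≤ (|C| * Real.exp (2 * π * m * τ.im)) * (|C'| * Real.exp (2 * π * m' * τ.im)) :=
        mul_le_mul h1 h2 (norm_nonneg _) (by positivity)
    _ = _ := by rw [this]; ring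

/-- Holomorphic functions on `ℍ` of at most exponential growth at `i∞`. -/
def niceRing : Subalgebra ℂ (ℍ → ℂ) where
  carrier := {f | MDifferentiable 𝓘(ℂ) 𝓘(ℂ) f ∧ ExpGrowth f}
  mul_mem' := fun ⟨h1, h2⟩ ⟨h1', h2'⟩ => ⟨h1.mul h1', h2.mul h2'⟩
  add_mem' := fun ⟨h1, h2⟩ ⟨h1', h2'⟩ => ⟨h1.add h1', h2.add h2'⟩
  algebraMap_mem' := fun c => ⟨mdifferentiable_const, expGrowth_const c⟩


lemma mem_niceRing {f : ℍ → ℂ} :
    f ∈ niceRing ↔ MDifferentiable 𝓘(ℂ) 𝓘(ℂ) f ∧ ExpGrowth f := Iff.rfl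

variable (N : ℕ)

/-- Holomorphic `Γ₀(N)`-invariant functions all of whose `SL₂(ℤ)`-translates have at most
exponential growth at `i∞`. -/
def goodRing : Subalgebra ℂ (ℍ → ℂ) where
  carrier := {f | MDifferentiable 𝓘(ℂ) 𝓘(ℂ) f ∧ (∀ γ ∈ Gamma0 N, ∀ τ : ℍ, f (γ • τ) = f τ) ∧
      ∀ g : SL(2, ℤ), ExpGrowth (fun τ => f (g • τ))}
  mul_mem' := by
    rintro f g ⟨h1, h2, h3⟩ ⟨h1', h2', h3'⟩
    refine ⟨h1.mul h1', fun γ hγ τ => ?_, fun g => ?_⟩
    · show f (γ • τ) * g (γ • τ) = f τ * g τ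
      rw [h2 γ hγ τ, h2' γ hγ τ]
    · exact (h3 g).mul (h3' g)
  add_mem' := by
    rintro f g ⟨h1, h2, h3⟩ ⟨h1', h2', h3'⟩
    refine ⟨h1.add h1', fun γ hγ τ => ?_, fun g => ?_⟩
    · show f (γ • τ) + g (γ • τ) = f τ + g τ
      rw [h2 γ hγ τ, h2' γ hγ τ]
    · exact (h3 g).add (h3' g)
  algebraMap_mem' := fun c =>
    ⟨mdifferentiable_const, fun _ _ _ => rfl, fun _ => expGrowth_const c⟩

lemma mem_goodRing {f : ℍ → ℂ} :
    f ∈ goodRing N ↔ MDifferentiable 𝓘(ℂ) 𝓘(ℂ) f ∧ (∀ γ ∈ Gamma0 N, ∀ τ : ℍ, f (γ • τ) = f τ) ∧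
      ∀ g : SL(2, ℤ), ExpGrowth (fun τ => f (g • τ)) := Iff.rfl

/-- The conjugate `f ∘ gₓ⁻¹` of `f` attached to the coset `x = gₓ Γ₀(N)`. -/
def conj (f : ℍ → ℂ) (x : SL(2, ℤ) ⧸ Gamma0 N) : ℍ → ℂ :=
  fun τ => f ((Quotient.out x)⁻¹ • τ)

variable {N}

lemma conj_mk {f : ℍ → ℂ} (hf : ∀ γ ∈ Gamma0 N, ∀ τ : ℍ, f (γ • τ) = f τ) (g : SL(2, ℤ))
    (τ : ℍ) : conj N f (g : SL(2, ℤ) ⧸ Gamma0 N) τ = f (g⁻¹ • τ) := by
  obtain ⟨h, hh⟩ := QuotientGroup.mk_out_eq_mul (Gamma0 N) g
  unfold conj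
  rw [hh, mul_inv_rev, mul_smul]
  exact hf _ (inv_mem h.2) _

lemma conj_smul {f : ℍ → ℂ} (hf : ∀ γ ∈ Gamma0 N, ∀ τ : ℍ, f (γ • τ) = f τ) (γ : SL(2, ℤ))
    (x : SL(2, ℤ) ⧸ Gamma0 N) (τ : ℍ) : conj N f x (γ • τ) = conj N f (γ⁻¹ • x) τ := by
  induction x using QuotientGroup.induction_on with
  | H g =>
    rw [conj_mk hf, MulAction.Quotient.smul_mk, conj_mk hf, smul_eq_mul, mul_inv_rev, inv_inv,
      mul_smul]

lemma conj_one_coset {f : ℍ → ℂ} (hf : ∀ γ ∈ Gamma0 N, ∀ τ : ℍ, f (γ • τ) = f τ) (τ : ℍ) :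
    conj N f ((1 : SL(2, ℤ)) : SL(2, ℤ) ⧸ Gamma0 N) τ = f τ := by
  rw [conj_mk hf]; simp

lemma mdifferentiable_comp_smul {f : ℍ → ℂ} (hf : MDifferentiable 𝓘(ℂ) 𝓘(ℂ) f)
    (g : SL(2, ℤ)) : MDifferentiable 𝓘(ℂ) 𝓘(ℂ) (fun τ : ℍ => f (g • τ)) := by
  have h : MDifferentiable 𝓘(ℂ) 𝓘(ℂ) (fun τ : ℍ => (g : GL (Fin 2) ℝ) • τ) :=
    UpperHalfPlane.mdifferentiable_smul (by simp)
  exact hf.comp h

lemma conj_mem_niceRing {f : ℍ → ℂ} (hf : f ∈ goodRing N) (x : SL(2, ℤ) ⧸ Gamma0 N) :
    conj N f x ∈ niceRing :=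
  ⟨mdifferentiable_comp_smul hf.1 _, hf.2.2 _⟩


/-- Coefficients of a finite product `∏ (Y - aₓ)` with `aₓ` in `niceRing` are in `niceRing`. -/
lemma coeff_prod_mem_niceRing {ι : Type*} (a : ι → ℍ → ℂ) (ha : ∀ i, a i ∈ niceRing)
    (s : Finset ι) (k : ℕ) :
    (fun τ => (∏ i ∈ s, (X - C (a i τ))).coeff k) ∈ niceRing := by
  classical
  induction s using Finset.induction_on generalizing k with
  | empty =>
    have : (fun τ : ℍ => (∏ i ∈ (∅ : Finset ι), (X - C (a i τ))).coeff k)
        = algebraMap ℂ (ℍ → ℂ) (if k = 0 then 1 else 0) := by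
      funext τ
      simp [Polynomial.coeff_one]
    rw [this]
    exact Subalgebra.algebraMap_mem _ _
  | insert i s hi ih =>
    cases k with
    | zero =>
      have : (fun τ : ℍ => (∏ j ∈ insert i s, (X - C (a j τ))).coeff 0)
          = - (a i * fun τ => (∏ j ∈ s, (X - C (a j τ))).coeff 0) := by
        funext τ
        rw [Finset.prod_insert hi, sub_mul, Polynomial.coeff_sub, Polynomial.coeff_X_mul_zero,
          Polynomial.coeff_C_mul]
        simp
      rw [this]
      exact Subalgebra.neg_mem _ (Subalgebra.mul_mem _ (ha i) (ih 0))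
    | succ k =>
      have : (fun τ : ℍ => (∏ j ∈ insert i s, (X - C (a j τ))).coeff (k + 1))
          = (fun τ => (∏ j ∈ s, (X - C (a j τ))).coeff k)
            - (a i * fun τ => (∏ j ∈ s, (X - C (a j τ))).coeff (k + 1)) := by
        funext τ
        rw [Finset.prod_insert hi, sub_mul, Polynomial.coeff_sub, Polynomial.coeff_X_mul,
          Polynomial.coeff_C_mul]
        simp
      rw [this]
      exact Subalgebra.sub_mem _ (ih k) (Subalgebra.mul_mem _ (ha i) (ih (k + 1)))

variable (N) in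
/-- The "characteristic polynomial" `∏ₓ (Y - f ∘ gₓ⁻¹)` evaluated at `τ`. -/
def charPolyAt [Fintype (SL(2, ℤ) ⧸ Gamma0 N)] (f : ℍ → ℂ) (τ : ℍ) : ℂ[X] :=
  ∏ x : SL(2, ℤ) ⧸ Gamma0 N, (X - C (conj N f x τ))

section charPoly

variable [Fintype (SL(2, ℤ) ⧸ Gamma0 N)]

lemma charPolyAt_monic (f : ℍ → ℂ) (τ : ℍ) : (charPolyAt N f τ).Monic :=
  Polynomial.monic_prod_of_monic _ _ fun _ _ => Polynomial.monic_X_sub_C _

lemma charPolyAt_natDegree (f : ℍ → ℂ) (τ : ℍ) :
    (charPolyAt N f τ).natDegree = Fintype.card (SL(2, ℤ) ⧸ Gamma0 N) := by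
  unfold charPolyAt
  rw [Polynomial.natDegree_prod_of_monic _ _ fun _ _ => Polynomial.monic_X_sub_C _]
  simp

lemma charPolyAt_smul {f : ℍ → ℂ} (hf : ∀ γ ∈ Gamma0 N, ∀ τ : ℍ, f (γ • τ) = f τ)
    (γ : SL(2, ℤ)) (τ : ℍ) : charPolyAt N f (γ • τ) = charPolyAt N f τ := by
  unfold charPolyAt
  refine Fintype.prod_equiv (MulAction.toPerm γ⁻¹) _ _ fun x => ?_
  rw [conj_smul hf]
  rfl

lemma charPolyAt_eval_self {f : ℍ → ℂ} (hf : ∀ γ ∈ Gamma0 N, ∀ τ : ℍ, f (γ • τ) = f τ)
    (τ : ℍ) : (charPolyAt N f τ).eval (f τ) = 0 := by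
  unfold charPolyAt
  rw [Polynomial.eval_prod]
  refine Finset.prod_eq_zero (Finset.mem_univ ((1 : SL(2, ℤ)) : SL(2, ℤ) ⧸ Gamma0 N)) ?_
  rw [conj_one_coset hf]
  simp

lemma charPolyAt_eval_conj (f : ℍ → ℂ) (x : SL(2, ℤ) ⧸ Gamma0 N)
    (τ : ℍ) : (charPolyAt N f τ).eval (conj N f x τ) = 0 := by
  unfold charPolyAt
  rw [Polynomial.eval_prod]
  refine Finset.prod_eq_zero (Finset.mem_univ x) ?_
  simp

lemma coeff_charPolyAt_mem_niceRing {f : ℍ → ℂ} (hf : f ∈ goodRing N) (k : ℕ) :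
    (fun τ => (charPolyAt N f τ).coeff k) ∈ niceRing :=
  coeff_prod_mem_niceRing (conj N f) (conj_mem_niceRing hf) Finset.univ k

/-- **Main theorem (M6-AN).**  Given the polynomiality principle (D5) for `J`, the conjugate
product `∏ₓ (Y - f ∘ gₓ⁻¹)` of a good function `f` has coefficients in `ℂ[J]`. -/
theorem exists_charPoly (J : ℍ → ℂ)
    (hD5 : ∀ F : ℍ → ℂ, MDifferentiable 𝓘(ℂ) 𝓘(ℂ) F →
      (∀ (γ : SL(2, ℤ)) (τ : ℍ), F (γ • τ) = F τ) → ExpGrowth F →
      ∃ p : ℂ[X], ∀ τ, F τ = p.eval (J τ))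
    {f : ℍ → ℂ} (hf : f ∈ goodRing N) :
    ∃ P : (ℂ[X])[X], P.Monic ∧ P.natDegree = Fintype.card (SL(2, ℤ) ⧸ Gamma0 N) ∧
      ∀ τ : ℍ, P.map (Polynomial.evalRingHom (J τ)) = charPolyAt N f τ := by
  classical
  set n := Fintype.card (SL(2, ℤ) ⧸ Gamma0 N) with hn
  have key : ∀ k : ℕ, ∃ p : ℂ[X], ∀ τ, (charPolyAt N f τ).coeff k = p.eval (J τ) := by
    intro k
    have h := coeff_charPolyAt_mem_niceRing hf k
    exact hD5 _ h.1 (fun γ τ => by rw [charPolyAt_smul hf.2.1]) h.2
  choose p hp using key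
  set Q : (ℂ[X])[X] := ∑ i ∈ Finset.range n, C (p i) * X ^ i with hQ
  have hQdeg : Q.degree < n := by
    rw [Polynomial.degree_lt_iff_coeff_zero]
    intro m hm
    rw [hQ, Polynomial.finsetSum_coeff]
    refine Finset.sum_eq_zero fun i hi => ?_
    rw [Polynomial.coeff_C_mul_X_pow, if_neg]
    have := Finset.mem_range.mp hi
    omega
  refine ⟨X ^ n + Q, Polynomial.monic_X_pow_add hQdeg, ?_, fun τ => ?_⟩
  · rw [Polynomial.natDegree_add_eq_left_of_degree_lt (by rwa [Polynomial.degree_X_pow]),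
      Polynomial.natDegree_X_pow]
  · have h1 := (charPolyAt_monic (N := N) f τ).as_sum
    rw [charPolyAt_natDegree] at h1
    rw [h1, Polynomial.map_add, Polynomial.map_pow, Polynomial.map_X, hQ, Polynomial.map_sum]
    congr 1
    refine Finset.sum_congr rfl fun i _ => ?_
    rw [Polynomial.map_mul, Polynomial.map_pow, Polynomial.map_X, Polynomial.map_C,
      Polynomial.coe_evalRingHom, ← hp i τ]

/-- Corollary: function-level `HYP(n)`. -/
theorem exists_charPoly_eval_eq_zero (J : ℍ → ℂ)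
    (hD5 : ∀ F : ℍ → ℂ, MDifferentiable 𝓘(ℂ) 𝓘(ℂ) F →
      (∀ (γ : SL(2, ℤ)) (τ : ℍ), F (γ • τ) = F τ) → ExpGrowth F →
      ∃ p : ℂ[X], ∀ τ, F τ = p.eval (J τ))
    {f : ℍ → ℂ} (hf : f ∈ goodRing N) :
    ∃ P : (ℂ[X])[X], P.Monic ∧ P.natDegree = Fintype.card (SL(2, ℤ) ⧸ Gamma0 N) ∧
      ∀ τ : ℍ, (P.map (Polynomial.evalRingHom (J τ))).eval (f τ) = 0 := by
  obtain ⟨P, h1, h2, h3⟩ := exists_charPoly J hD5 hf
  exact ⟨P, h1, h2, fun τ => by rw [h3, charPolyAt_eval_self hf.2.1]⟩

end charPoly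

end Fermat.Agent.S24.H648

end
end
-- ===== PACK-END S24/Deg/H648Conj.lean

-- ===== PACK-BEGIN S24/JFun/QFun.lean
section



/-!
# Functions on the upper half plane of the form `τ ↦ g (q(τ))`

For `g` holomorphic on the open unit disc, `ofQ g τ = g (exp (2πiτ))` is `1`-periodic, holomorphic,
bounded at `i∞`, and its `q`-expansion is the Taylor series of `g` at `0`.
-/

set_option autoImplicit false

namespace Fermat.Agent.S24.JFun

open Filter Topology Complex Metric Function
open UpperHalfPlane hiding I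
open scoped Manifold

local notation "𝕢" => Function.Periodic.qParam

/-- The function `τ ↦ g (exp (2πiτ))` on the upper half plane. -/
noncomputable def ofQ (g : ℂ → ℂ) : ℍ → ℂ := fun τ => g (𝕢 1 τ)

theorem ofQ_apply (g : ℂ → ℂ) (τ : ℍ) : ofQ g τ = g (𝕢 1 τ) := rfl

theorem norm_qParam_one_lt_one (τ : ℍ) : ‖𝕢 1 (τ : ℂ)‖ < 1 :=
  Function.Periodic.norm_qParam_lt_one one_pos τ.im_pos

theorem qParam_one_mem_ball (τ : ℍ) : 𝕢 1 (τ : ℂ) ∈ ball (0 : ℂ) 1 := by
  simpa using norm_qParam_one_lt_one τ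

/-- A function on `ℍ` invariant under `τ ↦ τ + 1` gives a `1`-periodic function on `ℂ`. -/
theorem periodic_comp_ofComplex_of_vadd {f : ℍ → ℂ} (hf : ∀ τ : ℍ, f ((1 : ℝ) +ᵥ τ) = f τ) :
    Periodic (f ∘ ofComplex) ((1 : ℝ) : ℂ) := by
  intro w
  by_cases hw : 0 < im w
  · have hw1 : 0 < im (w + ((1 : ℝ) : ℂ)) := by simpa using hw
    simp only [comp_apply, ofComplex_apply_of_im_pos hw1, ofComplex_apply_of_im_pos hw]
    rw [← hf ⟨w, hw⟩]
    congr 1
    ext
    simp [add_comm]
  · have hw' : im w ≤ 0 := not_lt.mp hw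
    have hw1 : im (w + ((1 : ℝ) : ℂ)) ≤ 0 := by simpa using hw'
    simp only [comp_apply]
    rw [ofComplex_apply_eq_of_im_nonpos hw1 hw']

theorem qParam_one_add_one (z : ℂ) : 𝕢 1 (z + 1) = 𝕢 1 z := by
  unfold Function.Periodic.qParam
  have h : 2 * (Real.pi : ℂ) * I * (z + 1) / ((1 : ℝ) : ℂ)
      = 2 * (Real.pi : ℂ) * I * z / ((1 : ℝ) : ℂ) + 2 * (Real.pi : ℂ) * I := by
    simp
    ring
  rw [h, Complex.exp_add, Complex.exp_two_pi_mul_I, mul_one]

theorem qParam_one_vadd (τ : ℍ) : 𝕢 1 (((1 : ℝ) +ᵥ τ : ℍ) : ℂ) = 𝕢 1 (τ : ℂ) := by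
  have h := qParam_one_add_one (τ : ℂ)
  rw [← h]
  congr 1
  simp [add_comm]

theorem ofQ_vadd (g : ℂ → ℂ) (τ : ℍ) : ofQ g ((1 : ℝ) +ᵥ τ) = ofQ g τ := by
  rw [ofQ_apply, ofQ_apply, qParam_one_vadd]

theorem ofQ_periodic (g : ℂ → ℂ) : Periodic (ofQ g ∘ ofComplex) ((1 : ℝ) : ℂ) :=
  periodic_comp_ofComplex_of_vadd (ofQ_vadd g)

theorem ofQ_mdiff {g : ℂ → ℂ} (hg : DifferentiableOn ℂ g (ball 0 1)) : MDiff (ofQ g) := by
  rw [UpperHalfPlane.mdifferentiable_iff]
  have h1 : DifferentiableOn ℂ (fun z : ℂ => g (𝕢 1 z)) {z : ℂ | 0 < z.im} := by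
    intro z hz
    have hq : 𝕢 1 z ∈ ball (0 : ℂ) 1 := by
      simpa using Function.Periodic.norm_qParam_lt_one one_pos hz
    have hgz : DifferentiableAt ℂ g (𝕢 1 z) := hg.differentiableAt (isOpen_ball.mem_nhds hq)
    have hqz : DifferentiableAt ℂ (𝕢 1) z := by
      unfold Function.Periodic.qParam
      fun_prop
    exact (hgz.comp z hqz).differentiableWithinAt
  refine h1.congr fun z hz => ?_
  simp [ofQ, ofComplex_apply_of_im_pos hz]

theorem ofQ_tendsto {g : ℂ → ℂ} (hg : DifferentiableOn ℂ g (ball 0 1)) :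
    Tendsto (ofQ g) atImInfty (𝓝 (g 0)) := by
  have h0 : ContinuousAt g 0 :=
    (hg.differentiableAt (isOpen_ball.mem_nhds (mem_ball_self one_pos))).continuousAt
  exact h0.tendsto.comp (UpperHalfPlane.qParam_tendsto_atImInfty one_pos)

theorem ofQ_bdd {g : ℂ → ℂ} (hg : DifferentiableOn ℂ g (ball 0 1)) :
    IsBoundedAtImInfty (ofQ g) :=
  (ofQ_tendsto hg).isBigO_one ℝ

theorem ofQ_analyticAt {g : ℂ → ℂ} (hg : DifferentiableOn ℂ g (ball 0 1)) :
    AnalyticAt ℂ (cuspFunction 1 (ofQ g)) 0 :=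
  analyticAt_cuspFunction_zero one_pos (ofQ_periodic g) (ofQ_mdiff hg) (ofQ_bdd hg)

theorem ofQ_hasSum {g : ℂ → ℂ} (hg : DifferentiableOn ℂ g (ball 0 1)) (τ : ℍ) :
    HasSum (fun m : ℕ => (((m.factorial : ℂ))⁻¹ * iteratedDeriv m g 0) • 𝕢 1 (τ : ℂ) ^ m)
      (ofQ g τ) := by
  have h := Complex.hasSum_taylorSeries_on_ball (f := g) (c := 0) (r := 1) hg
    (z := 𝕢 1 (τ : ℂ)) (by simpa using norm_qParam_one_lt_one τ)
  have heq : (fun n : ℕ => ((n.factorial : ℂ))⁻¹ • (𝕢 1 (τ : ℂ) - 0) ^ n • iteratedDeriv n g 0)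
      = fun m : ℕ => (((m.factorial : ℂ))⁻¹ * iteratedDeriv m g 0) • 𝕢 1 (τ : ℂ) ^ m := by
    funext m
    simp only [sub_zero, smul_eq_mul]
    ring
  rw [heq] at h
  exact h

/-- Uniqueness of `q`-expansion coefficients, for plain functions on `ℍ`. -/
theorem qExpansion_coeff_unique_fun {f : ℍ → ℂ} {c : ℕ → ℂ}
    (hfanalytic : AnalyticAt ℂ (cuspFunction 1 f) 0)
    (hf : ∀ τ : ℍ, HasSum (fun m : ℕ => c m • 𝕢 1 (τ : ℂ) ^ m) (f τ)) (m : ℕ) :
    (qExpansion 1 f).coeff m = c m := by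
  have h1 := (hasFPowerSeriesOnBall_cuspFunction one_pos hfanalytic hf).hasFPowerSeriesAt
  have h2 := hfanalytic.hasFPowerSeriesAt
  have h3 := congr_arg (FormalMultilinearSeries.coeff · m) (h1.eq_formalMultilinearSeries h2)
  simp only [FormalMultilinearSeries.coeff_ofScalars] at h3
  rw [qExpansion_coeff, h3, div_eq_inv_mul]

/-- The `q`-expansion of `τ ↦ g (q(τ))` is the Taylor expansion of `g` at `0`. -/
theorem qExpansion_ofQ_coeff {g : ℂ → ℂ} (hg : DifferentiableOn ℂ g (ball 0 1)) (m : ℕ) :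
    (qExpansion 1 (ofQ g)).coeff m = ((m.factorial : ℂ))⁻¹ * iteratedDeriv m g 0 :=
  qExpansion_coeff_unique_fun (ofQ_analyticAt hg) (ofQ_hasSum hg) m

end Fermat.Agent.S24.JFun

end
-- ===== PACK-END S24/JFun/QFun.lean

-- ===== PACK-BEGIN S24/H624/HoloRing.lean
section


/-!
# The ring of holomorphic functions on the upper half-plane and Taylor expansions

Architecture-independent analytic foundation for the S24 / S28 long shots.
-/

set_option autoImplicit false

namespace Fermat.Agent.S24.H624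

open UpperHalfPlane Complex
open scoped Manifold Topology

/-- The `ℂ`-algebra of holomorphic functions on the upper half-plane. -/
def holoRing : Subalgebra ℂ (ℍ → ℂ) where
  carrier := {f | MDiff f}
  mul_mem' := fun hf hg => hf.mul hg
  add_mem' := fun hf hg => hf.add hg
  algebraMap_mem' := fun _ => mdifferentiable_const

theorem mem_holoRing {f : ℍ → ℂ} : f ∈ holoRing ↔ MDiff f := Iff.rfl

/-- A holomorphic function on `ℍ`, extended by junk to `ℂ`, is analytic at every point of `ℍ`. -/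
theorem analyticAt_of_mdiff {f : ℍ → ℂ} (hf : MDiff f) (τ : ℍ) :
    AnalyticAt ℂ (f ∘ ofComplex) (τ : ℂ) :=
  ((UpperHalfPlane.mdifferentiable_iff.mp hf).analyticOnNhd isOpen_upperHalfPlaneSet) _ τ.im_pos

theorem analyticAt_of_mdiff' {f : ℍ → ℂ} (hf : MDiff f) {z : ℂ} (hz : 0 < z.im) :
    AnalyticAt ℂ (f ∘ ofComplex) z :=
  ((UpperHalfPlane.mdifferentiable_iff.mp hf).analyticOnNhd isOpen_upperHalfPlaneSet) _ hz

/-- Order of vanishing at `τ` of a function on the upper half-plane. -/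
noncomputable def ordAt (τ : ℍ) (f : ℍ → ℂ) : ℕ∞ := analyticOrderAt (f ∘ ofComplex) (τ : ℂ)

theorem ordAt_def (τ : ℍ) (f : ℍ → ℂ) : ordAt τ f = analyticOrderAt (f ∘ ofComplex) (τ : ℂ) := rfl

theorem eq_zero_of_eventually_zero {f : ℍ → ℂ} (hf : MDiff f) {τ : ℍ}
    (h : ∀ᶠ z in 𝓝 (τ : ℂ), (f ∘ ofComplex) z = 0) : f = 0 := by
  have han := (UpperHalfPlane.mdifferentiable_iff.mp hf).analyticOnNhd isOpen_upperHalfPlaneSet
  have hpre : IsPreconnected {z : ℂ | 0 < z.im} :=
    (Complex.isConnected_of_upperHalfPlane subset_rfl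
      (fun z (hz : 0 < z.im) => le_of_lt hz)).isPreconnected
  have := han.eqOn_zero_of_preconnected_of_eventuallyEq_zero hpre τ.im_pos h
  funext w
  have hw := this w.im_pos
  simpa [Function.comp_apply, ofComplex_apply] using hw

theorem ordAt_eq_top_iff {f : ℍ → ℂ} (hf : MDiff f) (τ : ℍ) : ordAt τ f = ⊤ ↔ f = 0 := by
  constructor
  · intro h
    exact eq_zero_of_eventually_zero hf (analyticOrderAt_eq_top.mp h)
  · rintro rfl
    rw [ordAt_def, analyticOrderAt_eq_top]
    exact Filter.Eventually.of_forall fun z => rfl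

theorem ordAt_ne_top {f : ℍ → ℂ} (hf : MDiff f) (hf0 : f ≠ 0) (τ : ℍ) : ordAt τ f ≠ ⊤ :=
  fun h => hf0 ((ordAt_eq_top_iff hf τ).mp h)

theorem ordAt_mul {f g : ℍ → ℂ} (hf : MDiff f) (hg : MDiff g) (τ : ℍ) :
    ordAt τ (f * g) = ordAt τ f + ordAt τ g :=
  analyticOrderAt_mul (analyticAt_of_mdiff hf τ) (analyticAt_of_mdiff hg τ)

theorem ordAt_eq_zero_iff {f : ℍ → ℂ} (hf : MDiff f) (τ : ℍ) : ordAt τ f = 0 ↔ f τ ≠ 0 := by
  rw [ordAt_def, (analyticAt_of_mdiff hf τ).analyticOrderAt_eq_zero]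
  simp [Function.comp_apply, ofComplex_apply]

theorem le_ordAt_add {f g : ℍ → ℂ} (τ : ℍ) :
    min (ordAt τ f) (ordAt τ g) ≤ ordAt τ (f + g) :=
  le_analyticOrderAt_add

theorem ordAt_zero (τ : ℍ) : ordAt τ (0 : ℍ → ℂ) = ⊤ := by
  rw [ordAt_def, analyticOrderAt_eq_top]
  exact Filter.Eventually.of_forall fun z => rfl

theorem mul_eq_zero_of_mdiff {f g : ℍ → ℂ} (hf : MDiff f) (hg : MDiff g) (h : f * g = 0) :
    f = 0 ∨ g = 0 := by
  by_contra hcon
  rw [not_or] at hcon
  have h1 := ordAt_mul hf hg UpperHalfPlane.I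
  rw [h, ordAt_zero] at h1
  have h3 := ordAt_ne_top hf hcon.1 UpperHalfPlane.I
  have h4 := ordAt_ne_top hg hcon.2 UpperHalfPlane.I
  exact (WithTop.add_ne_top.mpr ⟨h3, h4⟩) h1.symm

instance instNontrivialHoloRing : Nontrivial holoRing :=
  ⟨⟨0, 1, fun h => by
    have := congrArg (fun f : holoRing => (f : ℍ → ℂ) UpperHalfPlane.I) h
    simp at this⟩⟩

instance instNoZeroDivisorsHoloRing : NoZeroDivisors holoRing :=
  ⟨by
    intro a b hab
    have h2 : ((a : ℍ → ℂ) * (b : ℍ → ℂ)) = 0 := by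
      have := congrArg (Subtype.val) hab
      simpa using this
    rcases mul_eq_zero_of_mdiff a.2 b.2 h2 with h | h
    · exact Or.inl (Subtype.ext h)
    · exact Or.inr (Subtype.ext h)⟩

instance instIsDomainHoloRing : IsDomain holoRing := NoZeroDivisors.to_isDomain _

end Fermat.Agent.S24.H624

end
-- ===== PACK-END S24/H624/HoloRing.lean

-- ===== PACK-BEGIN S20/L1/Ramanujan.lean
section





/-!
# Level-one input for S20: Ramanujan identities and simple zeros

(helper140) Serre derivative of a level-one modular form is a level-one modular form;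
Ramanujan identities for `E₄`, `E₆`, `Δ`; simple zeros.
-/

set_option autoImplicit false

open UpperHalfPlane ModularForm EisensteinSeries Derivative Filter Topology
open scoped MatrixGroups Manifold

noncomputable section

namespace Fermat.Agent.S20.L1

/-- If `F` is holomorphic on `ℍ` and bounded at `i∞`, then its derivative tends to zero
at `i∞` (Cauchy estimate on discs of growing radius). -/
theorem isZeroAtImInfty_normalizedDeriv {F : ℍ → ℂ} (hF : MDiff F)
    (hb : IsBoundedAtImInfty F) : IsZeroAtImInfty (D F) := by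
  rw [isBoundedAtImInfty_iff] at hb
  obtain ⟨M, A, hMA⟩ := hb
  rw [isZeroAtImInfty_iff]
  intro ε hε
  -- we may assume `M ≥ 0` and `A ≥ 1`
  set M' : ℝ := max M 0 with hM'
  set A' : ℝ := max A 1 with hA'
  have hM'0 : 0 ≤ M' := le_max_right _ _
  set R : ℝ := M' / ε + 1 with hR
  have hRpos : 0 < R := by positivity
  refine ⟨A' + R, fun z hz ↦ ?_⟩
  have hdiff : DifferentiableOn ℂ (F ∘ ofComplex) upperHalfPlaneSet :=
    mdifferentiable_iff.mp hF
  have hsub : Metric.closedBall (z : ℂ) R ⊆ upperHalfPlaneSet := by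
    intro w hw
    have h1 : |w.im - (z : ℂ).im| ≤ R := by
      have := Complex.abs_im_le_norm (w - z)
      rw [Complex.sub_im] at this
      exact this.trans (by simpa [dist_eq_norm] using hw)
    have h2 : (z : ℂ).im = z.im := rfl
    have h3 : A' + R ≤ (z : ℂ).im := by simpa using hz
    have h4 : (1 : ℝ) ≤ A' := le_max_right _ _
    have h5 := abs_le.mp h1
    show 0 < w.im
    linarith [h5.1]
  have hd : DiffContOnCl ℂ (F ∘ ofComplex) (Metric.ball (z : ℂ) R) := by
    refine DifferentiableOn.diffContOnCl ?_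
    rw [closure_ball _ hRpos.ne']
    exact hdiff.mono hsub
  have hC : ∀ w ∈ Metric.sphere (z : ℂ) R, ‖(F ∘ ofComplex) w‖ ≤ M' := by
    intro w hw
    have hwU : w ∈ upperHalfPlaneSet := hsub (Metric.sphere_subset_closedBall hw)
    have h1 : |w.im - (z : ℂ).im| ≤ R := by
      have := Complex.abs_im_le_norm (w - z)
      rw [Complex.sub_im] at this
      exact this.trans (by simpa [dist_eq_norm] using (Metric.sphere_subset_closedBall hw))
    have h3 : A' + R ≤ (z : ℂ).im := by simpa using hz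
    have h5 := abs_le.mp h1
    have hA : A ≤ (ofComplex w).im := by
      rw [ofComplex_apply_of_im_pos hwU]
      show A ≤ w.im
      have : A ≤ A' := le_max_left _ _
      linarith [h5.1]
    exact (hMA _ hA).trans (le_max_left _ _)
  have key := Complex.norm_deriv_le_of_forall_mem_sphere_norm_le hRpos hd hC
  have h2pi : ‖(2 * (Real.pi : ℂ) * Complex.I)‖ = 2 * Real.pi := by
    simp [abs_of_pos Real.pi_pos]
  rw [normalizedDerivOfComplex, norm_mul, norm_inv, h2pi]
  have hpi : (1 : ℝ) ≤ 2 * Real.pi := by linarith [Real.two_le_pi]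
  have hMR : M' / R ≤ ε := by
    rw [div_le_iff₀ hRpos, hR]
    have : M' = ε * (M' / ε) := by field_simp
    nlinarith
  calc (2 * Real.pi)⁻¹ * ‖deriv (F ∘ ofComplex) ↑z‖
      ≤ 1 * ‖deriv (F ∘ ofComplex) ↑z‖ := by
        gcongr
        exact inv_le_one_of_one_le₀ hpi
    _ ≤ ε := by rw [one_mul]; exact key.trans hMR

/-- Build a level-one modular form from function-level data. -/
def mkLevelOne (k : ℤ) (F : ℍ → ℂ) (hol : MDiff F) (inv : ∀ γ : SL(2, ℤ), F ∣[k] γ = F)
    (bdd : IsBoundedAtImInfty F) : ModularForm 𝒮ℒ k where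
  toFun := F
  slash_action_eq' A hA := by
    obtain ⟨A, rfl⟩ := hA
    exact inv A
  holo' := hol
  bdd_at_cusps' hc := by
    rw [Subgroup.IsArithmetic.isCusp_iff_isCusp_SL2Z] at hc
    rw [OnePoint.isBoundedAt_iff_forall_SL2Z hc]
    intro γ _
    rw [inv γ]
    exact bdd

@[simp]
lemma coe_mkLevelOne (k : ℤ) (F : ℍ → ℂ) (hol : MDiff F) (inv : ∀ γ : SL(2, ℤ), F ∣[k] γ = F)
    (bdd : IsBoundedAtImInfty F) : ⇑(mkLevelOne k F hol inv bdd) = F := rfl

lemma levelOne_slash_eq {k : ℤ} (f : ModularForm 𝒮ℒ k) (γ : SL(2, ℤ)) :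
    (f : ℍ → ℂ) ∣[k] γ = f :=
  SlashInvariantFormClass.slash_action_eq f _ ⟨γ, rfl⟩

lemma levelOne_isBoundedAtImInfty {k : ℤ} (f : ModularForm 𝒮ℒ k) :
    IsBoundedAtImInfty (f : ℍ → ℂ) := by
  have := ModularFormClass.bdd_at_infty_slash f (1 : SL(2, ℤ))
  simpa using this

/-- The Serre derivative of a level-one modular form is bounded at `i∞`. -/
lemma isBoundedAtImInfty_serreDerivative {k : ℤ} (f : ModularForm 𝒮ℒ k) :
    IsBoundedAtImInfty (serreDerivative (k : ℂ) (f : ℍ → ℂ)) := by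
  have h1 : IsBoundedAtImInfty (D (f : ℍ → ℂ)) :=
    (isZeroAtImInfty_normalizedDeriv f.holo' (levelOne_isBoundedAtImInfty f)).isBoundedAtImInfty
  have h2 : IsBoundedAtImInfty (fun z ↦ (k : ℂ) * 12⁻¹ * E2 z * f z) := by
    have h3 : IsBoundedAtImInfty (fun z ↦ E2 z * f z) :=
      isBoundedAtImInfty_E2.mul (levelOne_isBoundedAtImInfty f)
    have h4 := h3.const_mul_left ((k : ℂ) * 12⁻¹)
    refine h4.congr_left ?_ |>.trans (Asymptotics.isBigO_refl _ _) 
    intro z
    simp [mul_assoc]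
  rw [serreDerivative_eq]
  exact h1.sub h2

/-- The Serre derivative of a level-one modular form, as a modular form of weight `k + 2`. -/
def serreDerivativeForm {k : ℤ} (f : ModularForm 𝒮ℒ k) : ModularForm 𝒮ℒ (k + 2) :=
  mkLevelOne (k + 2) (serreDerivative (k : ℂ) (f : ℍ → ℂ))
    (serreDerivative_mdifferentiable _ f.holo')
    (fun γ ↦ serreDerivative_slash_invariant f.holo' (levelOne_slash_eq f γ))
    (isBoundedAtImInfty_serreDerivative f)

@[simp]
lemma serreDerivativeForm_apply {k : ℤ} (f : ModularForm 𝒮ℒ k) (z : ℍ) :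
    serreDerivativeForm f z = D (f : ℍ → ℂ) z - (k : ℂ) * 12⁻¹ * E2 z * f z := rfl

/-- A periodic holomorphic function bounded at `i∞` tends to the value of its cusp function
at `0`. -/
lemma tendsto_atImInfty_cuspFunction {f : ℍ → ℂ} {h : ℝ} (hh : 0 < h)
    (hfper : Function.Periodic (f ∘ ofComplex) h) (hfhol : MDiff f)
    (hfbdd : IsBoundedAtImInfty f) :
    Tendsto f atImInfty (𝓝 (cuspFunction h f 0)) := by
  have han := analyticAt_cuspFunction_zero hh hfper hfhol hfbdd
  have : (cuspFunction h f ∘ fun τ : ℍ ↦ Function.Periodic.qParam h τ : ℍ → ℂ) = f := by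
    funext τ
    simpa using eq_cuspFunction τ hh.ne' hfper
  simpa [this] using han.continuousAt.tendsto.comp (qParam_tendsto_atImInfty hh)

/-- A level-one modular form tends to its zeroth `q`-expansion coefficient at `i∞`. -/
lemma levelOne_tendsto_atImInfty {k : ℤ} (f : ModularForm 𝒮ℒ k) :
    Tendsto (f : ℍ → ℂ) atImInfty (𝓝 ((qExpansion 1 f).coeff 0)) := by
  have hper := SlashInvariantFormClass.periodic_comp_ofComplex f one_mem_strictPeriods_SL
  have h1 := tendsto_atImInfty_cuspFunction one_pos hper f.holo' (levelOne_isBoundedAtImInfty f)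
  have han := analyticAt_cuspFunction_zero one_pos hper f.holo' (levelOne_isBoundedAtImInfty f)
  rwa [qExpansion_coeff_zero one_pos han hper, ← cuspFunction_apply_zero one_pos han hper]

lemma tendsto_E₄ : Tendsto (E₄ : ℍ → ℂ) atImInfty (𝓝 1) := by
  simpa [E_qExpansion_coeff_zero (by norm_num : 3 ≤ 4) ⟨2, rfl⟩] using levelOne_tendsto_atImInfty E₄

lemma tendsto_E₆ : Tendsto (E₆ : ℍ → ℂ) atImInfty (𝓝 1) := by
  simpa [E_qExpansion_coeff_zero (by norm_num : 3 ≤ 6) ⟨3, rfl⟩] using levelOne_tendsto_atImInfty E₆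

lemma E2_periodic : Function.Periodic (E2 ∘ ofComplex) 1 := by
  intro w
  simp only [Function.comp_apply]
  by_cases hw : 0 < w.im
  · have hw' : 0 < (w + 1).im := by simpa using hw
    rw [ofComplex_apply_of_im_pos hw, ofComplex_apply_of_im_pos hw']
    have h1 := (hasSum_qExpansion_E2 (z := ⟨w + 1, hw'⟩)).tsum_eq
    have h2 := (hasSum_qExpansion_E2 (z := ⟨w, hw⟩)).tsum_eq
    rw [← h1, ← h2]
    congr 1
    funext m
    congr 2
    rw [mul_add, Complex.exp_add]
    simp
  · have hw' : ¬ 0 < (w + 1).im := by simpa using hw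
    rw [ofComplex_apply_of_im_nonpos (not_lt.mp hw), ofComplex_apply_of_im_nonpos (not_lt.mp hw')]

lemma tendsto_E2 : Tendsto E2 atImInfty (𝓝 1) := by
  have h1 := tendsto_atImInfty_cuspFunction one_pos E2_periodic E2_mdifferentiable
    isBoundedAtImInfty_E2
  have han := analyticAt_cuspFunction_zero one_pos E2_periodic E2_mdifferentiable
    isBoundedAtImInfty_E2
  have hps := hasFPowerSeriesOnBall_cuspFunction (f := E2)
    (c := fun m : ℕ ↦ (if m = 0 then 1 else -24 * ArithmeticFunction.sigma 1 m : ℂ)) one_pos han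
    (fun τ ↦ by
      simpa only [Function.Periodic.qParam, Complex.ofReal_one, div_one] using
        hasSum_qExpansion_E2 (z := τ))
  have h0 := hps.coeff_zero 1
  simp [FormalMultilinearSeries.ofScalars] at h0
  rwa [← h0] at h1

lemma tendsto_serreDerivativeForm {k : ℤ} (f : ModularForm 𝒮ℒ k) {a : ℂ}
    (hf : Tendsto (f : ℍ → ℂ) atImInfty (𝓝 a)) :
    Tendsto (serreDerivativeForm f : ℍ → ℂ) atImInfty (𝓝 (-((k : ℂ) * 12⁻¹ * a))) := by
  have h1 : Tendsto (D (f : ℍ → ℂ)) atImInfty (𝓝 0) :=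
    isZeroAtImInfty_normalizedDeriv f.holo' (levelOne_isBoundedAtImInfty f)
  have h2 : Tendsto (fun z ↦ (k : ℂ) * 12⁻¹ * E2 z * f z) atImInfty
      (𝓝 ((k : ℂ) * 12⁻¹ * 1 * a)) :=
    (tendsto_E2.const_mul _).mul hf
  have h3 := h1.sub h2
  simp only [mul_one, zero_sub] at h3
  exact h3

/-- If two level-one forms of the same weight are proportional and we know their limits
at `i∞`, we can read off the constant. -/
lemma eq_smul_of_rank_one {k : ℤ} (hrank : Module.rank ℂ (ModularForm 𝒮ℒ k) = 1)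
    (g f : ModularForm 𝒮ℒ k) {a b : ℂ} (hb : b ≠ 0)
    (hg : Tendsto (g : ℍ → ℂ) atImInfty (𝓝 a)) (hf : Tendsto (f : ℍ → ℂ) atImInfty (𝓝 b)) :
    ∀ z, g z = a / b * f z := by
  have hf0 : f ≠ 0 := by
    rintro rfl
    have : Tendsto (fun _ : ℍ ↦ (0 : ℂ)) atImInfty (𝓝 b) := hf
    exact hb (tendsto_nhds_unique this tendsto_const_nhds)
  obtain ⟨c, hc⟩ := (finrank_eq_one_iff_of_nonzero' f hf0).mp
    (Module.rank_eq_one_iff_finrank_eq_one.mp hrank) g
  have hcz : ∀ z, g z = c * f z := fun z ↦ by rw [← hc]; rfl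
  have hlim : Tendsto (g : ℍ → ℂ) atImInfty (𝓝 (c * b)) := by
    have := hf.const_mul c
    refine this.congr fun z ↦ (hcz z).symm
  have hab : a = c * b := tendsto_nhds_unique hg hlim
  intro z
  rw [hcz z, hab]
  field_simp

lemma levelOne_weight_eight_rank_one : Module.rank ℂ (ModularForm 𝒮ℒ 8) = 1 := by
  have := dimension_level_one 8 ⟨4, rfl⟩
  simpa [Nat.ModEq] using this

/-- Ramanujan's identity for `E₄`: `D E₄ = (E₂ E₄ - E₆) / 3`. -/
theorem ramanujan_E₄ (z : ℍ) : D (E₄ : ℍ → ℂ) z = 3⁻¹ * (E2 z * E₄ z - E₆ z) := by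
  have h := eq_smul_of_rank_one levelOne_weight_six_rank_one
    (mcast (by norm_num) (serreDerivativeForm E₄)) E₆ one_ne_zero
    (by simpa using tendsto_serreDerivativeForm E₄ tendsto_E₄) tendsto_E₆ z
  simp only [coe_mcast, serreDerivativeForm_apply] at h
  push_cast at h
  linear_combination h

/-- Ramanujan's identity for `E₆`: `D E₆ = (E₂ E₆ - E₄²) / 2`. -/
theorem ramanujan_E₆ (z : ℍ) : D (E₆ : ℍ → ℂ) z = 2⁻¹ * (E2 z * E₆ z - E₄ z ^ 2) := by
  have hE4sq : Tendsto ((E₄.mul E₄ : ModularForm 𝒮ℒ (4 + 4)) : ℍ → ℂ) atImInfty (𝓝 (1 * 1)) :=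
    tendsto_E₄.mul tendsto_E₄
  have h := eq_smul_of_rank_one levelOne_weight_eight_rank_one
    (mcast (by norm_num) (serreDerivativeForm E₆)) (mcast (by norm_num) (E₄.mul E₄))
    (b := 1) one_ne_zero
    (by simpa using tendsto_serreDerivativeForm E₆ tendsto_E₆) (by simpa using hE4sq) z
  simp only [coe_mcast, serreDerivativeForm_apply, ModularForm.coe_mul, Pi.mul_apply] at h
  push_cast at h
  linear_combination h

/-- Ramanujan's identity for `Δ`: `D Δ = E₂ Δ`. -/
theorem ramanujan_discriminant (z : ℍ) :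
    D ModularForm.discriminant z = E2 z * ModularForm.discriminant z := by
  have hη : DifferentiableAt ℂ ModularForm.eta (z : ℂ) :=
    ModularForm.differentiableAt_eta_of_mem_upperHalfPlaneSet z.2
  have hη0 : ModularForm.eta (z : ℂ) ≠ 0 := by
    have := ModularForm.discriminant_ne_zero z
    intro h
    exact this (by simp [ModularForm.discriminant, h])
  have hlog := ModularForm.logDeriv_eta_eq_E2 z
  rw [logDeriv_apply, div_eq_iff hη0] at hlog
  have hev : (ModularForm.discriminant ∘ ofComplex) =ᶠ[𝓝 (z : ℂ)]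
      fun w ↦ ModularForm.eta w ^ 24 := by
    filter_upwards [isOpen_upperHalfPlaneSet.mem_nhds z.im_pos] with w hw
    simp [ModularForm.discriminant, ofComplex_apply_of_im_pos hw]
  have hd : HasDerivAt (fun w ↦ ModularForm.eta w ^ 24)
      (24 * ModularForm.eta (z : ℂ) ^ 23 * deriv ModularForm.eta (z : ℂ)) (z : ℂ) := by
    have := hη.hasDerivAt.fun_pow 24
    simpa using this
  have hderiv := (hd.congr_of_eventuallyEq hev).deriv
  simp only [normalizedDerivOfComplex, hderiv, hlog, ModularForm.discriminant]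
  have hpi : (2 * (Real.pi : ℂ) * Complex.I) ≠ 0 := by
    simp [Real.pi_ne_zero]
  field_simp
  ring

local notation "Δ" => ModularForm.discriminant

lemma mdiff_discriminant : MDiff (Δ : ℍ → ℂ) := CuspForm.discriminant.holo'

lemma mdiff_E₄ : MDiff (E₄ : ℍ → ℂ) := ModularFormClass.holo E₄

lemma mdiff_E₆ : MDiff (E₆ : ℍ → ℂ) := ModularFormClass.holo E₆

lemma E₄_cube_sub_E₆_sq (z : ℍ) : E₄ z ^ 3 - E₆ z ^ 2 = 1728 * Δ z := by
  rw [discriminant_eq_E₄_cube_sub_E₆_sq z]; ring

lemma E₆_ne_zero_of_E₄_eq_zero {z : ℍ} (h : E₄ z = 0) : E₆ z ≠ 0 := by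
  intro h6
  have := E₄_cube_sub_E₆_sq z
  rw [h, h6] at this
  have hΔ := discriminant_ne_zero z
  apply hΔ
  have : (1728 : ℂ) * Δ z = 0 := by rw [← this]; ring
  simpa using this

lemma E₄_ne_zero_of_E₆_eq_zero {z : ℍ} (h : E₆ z = 0) : E₄ z ≠ 0 := by
  intro h4
  exact E₆_ne_zero_of_E₄_eq_zero h4 h

/-- Zeros of `E₄` are simple. -/
theorem D_E₄_ne_zero {z : ℍ} (h : E₄ z = 0) : D (E₄ : ℍ → ℂ) z ≠ 0 := by
  rw [ramanujan_E₄, h]
  have := E₆_ne_zero_of_E₄_eq_zero h
  simpa using this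

/-- Zeros of `E₆` are simple. -/
theorem D_E₆_ne_zero {z : ℍ} (h : E₆ z = 0) : D (E₆ : ℍ → ℂ) z ≠ 0 := by
  rw [ramanujan_E₆, h]
  have := E₄_ne_zero_of_E₆_eq_zero h
  simpa using this

/-- The numerator `E₄(z)³ Δ(z₀) − E₄(z₀)³ Δ(z)` of `j(z) − j(z₀)`, a level one form of
weight 12 in `z`. -/
def jDiff (z₀ : ℍ) : ℍ → ℂ := fun z ↦ E₄ z ^ 3 * Δ z₀ - E₄ z₀ ^ 3 * Δ z

lemma jDiff_self (z₀ : ℍ) : jDiff z₀ z₀ = 0 := by simp [jDiff]

lemma jDiff_eq (z₀ : ℍ) :
    jDiff z₀ = (Δ z₀) • ((E₄ : ℍ → ℂ) ^ 3) - (E₄ z₀ ^ 3) • (Δ : ℍ → ℂ) := by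
  funext z
  simp [jDiff, mul_comm]

lemma mdiff_jDiff (z₀ : ℍ) : MDiff (jDiff z₀) := by
  rw [jDiff_eq]
  exact ((mdiff_E₄.pow 3).const_smul _).sub (mdiff_discriminant.const_smul _)

theorem D_jDiff (z₀ z : ℍ) :
    D (jDiff z₀) z = E2 z * jDiff z₀ z - E₄ z ^ 2 * E₆ z * Δ z₀ := by
  have h1 : MDiff ((E₄ : ℍ → ℂ) ^ 3) := mdiff_E₄.pow 3
  rw [jDiff_eq, normalizedDerivOfComplex_sub _ _ (h1.const_smul _)
    (mdiff_discriminant.const_smul _), normalizedDerivOfComplex_smul _ _ h1,
    normalizedDerivOfComplex_smul _ _ mdiff_discriminant,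
    normalizedDerivOfComplex_pow _ _ mdiff_E₄]
  simp only [Pi.sub_apply, Pi.smul_apply, Pi.mul_apply, Pi.pow_apply, smul_eq_mul,
    ramanujan_E₄, ramanujan_discriminant, Nat.cast_ofNat, Pi.ofNat_apply]
  ring

/-- Zeros of `jDiff z₀` at points where `E₄ E₆ ≠ 0` are simple. -/
theorem D_jDiff_ne_zero {z₀ z : ℍ} (h : jDiff z₀ z = 0) (h4 : E₄ z ≠ 0) (h6 : E₆ z ≠ 0) :
    D (jDiff z₀) z ≠ 0 := by
  rw [D_jDiff, h, mul_zero, zero_sub, neg_ne_zero]
  exact mul_ne_zero (mul_ne_zero (pow_ne_zero _ h4) h6) (discriminant_ne_zero z₀)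

/-- The `j`-invariant `E₄³ / Δ` (normalised so that `j = 1/q + ...`). -/
def jFun (z : ℍ) : ℂ := E₄ z ^ 3 / Δ z

lemma jFun_eq_iff (z z' : ℍ) : jFun z = jFun z' ↔ jDiff z' z = 0 := by
  rw [jFun, jFun, div_eq_div_iff (discriminant_ne_zero z) (discriminant_ne_zero z'), jDiff,
    sub_eq_zero]

lemma jFun_eq_zero_iff (z : ℍ) : jFun z = 0 ↔ E₄ z = 0 := by
  simp [jFun, discriminant_ne_zero z]

lemma jFun_eq_1728_iff (z : ℍ) : jFun z = 1728 ↔ E₆ z = 0 := by
  rw [jFun, div_eq_iff (discriminant_ne_zero z)]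
  have := E₄_cube_sub_E₆_sq z
  constructor
  · intro h
    have : E₆ z ^ 2 = 0 := by linear_combination h - this
    simpa using this
  · intro h
    rw [h] at this
    linear_combination this

lemma mdiff_jFun : MDiff jFun :=
  (mdiff_E₄.pow 3).div mdiff_discriminant discriminant_ne_zero

theorem D_jFun (z : ℍ) : D jFun z = - (E₄ z ^ 2 * E₆ z / Δ z) := by
  -- `jFun * Δ = E₄ ^ 3`
  have hmul : jFun * (Δ : ℍ → ℂ) = (E₄ : ℍ → ℂ) ^ 3 := by
    funext w
    simp [jFun, div_mul_cancel₀ _ (discriminant_ne_zero w)]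
  have h := congrFun (congrArg D hmul) z
  rw [normalizedDerivOfComplex_mul _ _ mdiff_jFun mdiff_discriminant,
    normalizedDerivOfComplex_pow _ _ mdiff_E₄] at h
  simp only [Pi.add_apply, Pi.mul_apply, Pi.pow_apply, ramanujan_E₄, ramanujan_discriminant,
    Nat.cast_ofNat, Pi.ofNat_apply] at h
  have hΔ := discriminant_ne_zero z
  have hj : jFun z = E₄ z ^ 3 / Δ z := rfl
  rw [hj] at h
  field_simp at h ⊢
  linear_combination h

theorem D_jFun_ne_zero {z : ℍ} (h4 : E₄ z ≠ 0) (h6 : E₆ z ≠ 0) : D jFun z ≠ 0 := by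
  rw [D_jFun, neg_ne_zero]
  exact div_ne_zero (mul_ne_zero (pow_ne_zero _ h4) h6) (discriminant_ne_zero z)

end Fermat.Agent.S20.L1

end
end
-- ===== PACK-END S20/L1/Ramanujan.lean

-- ===== PACK-BEGIN S24/H84/Kaehler.lean
section


/-!
# Kähler differentials of a function field in one variable (helper84, S24 piece KD1)

`K` a field of characteristic zero, `F/K` a field extension, `x : F` with `F` algebraic over
`K(x)`.  Then `Ω[F⁄K]` is spanned by `D x`.
-/

set_option autoImplicit false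

open KaehlerDifferential Polynomial IntermediateField TensorProduct

namespace Fermat.Agent.S24.H84

section Kaehler

variable {K F : Type*} [Field K] [Field F] [Algebra K F]

/-- `D e ∈ span {D x}` for `e ∈ K⟮x⟯`. -/
theorem D_mem_span_of_mem_adjoin_simple (x : F) {e : F} (he : e ∈ K⟮x⟯) :
    D K F e ∈ Submodule.span F {D K F x} := by
  obtain ⟨r, s, rfl⟩ := (IntermediateField.mem_adjoin_simple_iff K e).1 he
  rw [Derivation.leibniz_div, Derivation.map_aeval, Derivation.map_aeval]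
  refine Submodule.smul_mem _ _ (Submodule.sub_mem _ ?_ ?_) <;>
  exact Submodule.smul_mem _ _ (Submodule.smul_mem _ _ (Submodule.mem_span_singleton_self _))

theorem map_mem_span_D (x : F) (y : Ω[K⟮x⟯⁄K]) :
    KaehlerDifferential.map K K K⟮x⟯ F y ∈ Submodule.span F {D K F x} := by
  have hy : y ∈ Submodule.span K⟮x⟯ (Set.range (D K K⟮x⟯)) := by
    rw [span_range_derivation]; trivial
  induction hy using Submodule.span_induction with
  | mem z hz =>
    obtain ⟨e, rfl⟩ := hz
    rw [map_D]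
    exact D_mem_span_of_mem_adjoin_simple x e.2
  | zero => simp
  | add u v _ _ hu hv => rw [map_add]; exact Submodule.add_mem _ hu hv
  | smul c u _ hu =>
    rw [map_smul, ← algebraMap_smul F c]
    exact Submodule.smul_mem _ _ hu

theorem mapBaseChange_mem_span_D (x : F) (t : F ⊗[K⟮x⟯] Ω[K⟮x⟯⁄K]) :
    KaehlerDifferential.mapBaseChange K K⟮x⟯ F t ∈ Submodule.span F {D K F x} := by
  induction t using TensorProduct.induction_on with
  | zero => simp
  | tmul b y =>
    rw [mapBaseChange_tmul]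
    exact Submodule.smul_mem _ _ (map_mem_span_D x y)
  | add a b ha hb => rw [map_add]; exact Submodule.add_mem _ ha hb

/-- If `F` is algebraic over `K⟮x⟯` (characteristic zero), then `D x` spans `Ω[F⁄K]`. -/
theorem span_D_eq_top [CharZero K] (x : F) [Algebra.IsAlgebraic K⟮x⟯ F] :
    Submodule.span F {D K F x} = ⊤ := by
  have : CharZero K⟮x⟯ := charZero_of_injective_algebraMap (algebraMap K K⟮x⟯).injective
  have : Algebra.IsSeparable K⟮x⟯ F := Algebra.IsAlgebraic.isSeparable_of_perfectField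
  have : Algebra.FormallyUnramified K⟮x⟯ F := Algebra.FormallyUnramified.of_isSeparable _ _
  have : Subsingleton Ω[F⁄K⟮x⟯] := Algebra.FormallyUnramified.subsingleton_kaehlerDifferential
  rw [eq_top_iff]
  intro ω _
  have hex := KaehlerDifferential.exact_mapBaseChange_map K K⟮x⟯ F
  have h0 : KaehlerDifferential.map K K⟮x⟯ F F ω = 0 := Subsingleton.elim _ _
  obtain ⟨t, rfl⟩ := (hex ω).1 h0
  exact mapBaseChange_mem_span_D x t

end Kaehler

end Fermat.Agent.S24.H84

end
-- ===== PACK-END S24/H84/Kaehler.lean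

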