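import Mathlib
import Fermat.Prelude.Def_ModularCurve_LaurentCoeff
import Fermat.Prelude.Def_ModularCurve_IgusaScheme
import Fermat.Prelude.Def_ModularCurve_X0ModL
import Mathlib.NumberTheory.ModularForms.LevelOne.DimensionFormula
import Mathlib.NumberTheory.ModularForms.LevelOne.GradedRing
import Mathlib.NumberTheory.ModularForms.EisensteinSeries.QExpansion
import Mathlib.Analysis.Complex.LocallyUniformLimit
import Fermat.Prelude.Def_ModularCurve_X0
import Mathlib.NumberTheory.ModularForms.CongruenceSubgroups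
import Mathlib.LinearAlgebra.Matrix.SpecialLinearGroup
import Mathlib.GroupTheory.GroupAction.Quotient
import Mathlib.Data.ZMod.Basic
import Fermat.Prelude.Def_ModularCurve_GenusNumerics

-- ===== PACK-BEGIN S29/H332/WeightedEis.lean
section


/-!
# Weighted Eisenstein series

For a bounded weight function `c : (Fin 2 → ℤ) → ℂ` and `k ≥ 3` we study
`wEis c k z = ∑' v, c v * (v 0 * z + v 1) ^ (-k)`.
-/

open UpperHalfPlane EisensteinSeries ModularForm Filter Topology
open scoped Matrix
open scoped MatrixGroups Manifold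

noncomputable section

namespace Fermat.Agent.S29.H332

/-- The weighted Eisenstein series. -/
def wEis (c : (Fin 2 → ℤ) → ℂ) (k : ℤ) (z : ℍ) : ℂ :=
  ∑' v : Fin 2 → ℤ, c v * eisSummand k v z

theorem norm_wsummand_le {c : (Fin 2 → ℤ) → ℂ} (hc : ∀ v, ‖c v‖ ≤ 1) (k : ℤ) (v : Fin 2 → ℤ)
    (z : ℍ) : ‖c v * eisSummand k v z‖ ≤ ‖eisSummand k v z‖ := by
  rw [norm_mul]
  exact mul_le_of_le_one_left (norm_nonneg _) (hc v)

theorem summable_norm_wEis {c : (Fin 2 → ℤ) → ℂ} (hc : ∀ v, ‖c v‖ ≤ 1) {k : ℤ} (hk : 3 ≤ k)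
    (z : ℍ) : Summable fun v : Fin 2 → ℤ => ‖c v * eisSummand k v z‖ :=
  (summable_norm_eisSummand hk z).of_nonneg_of_le (fun _ => norm_nonneg _)
    (fun v => norm_wsummand_le hc k v z)

theorem summable_wEis {c : (Fin 2 → ℤ) → ℂ} (hc : ∀ v, ‖c v‖ ≤ 1) {k : ℤ} (hk : 3 ≤ k)
    (z : ℍ) : Summable fun v : Fin 2 → ℤ => c v * eisSummand k v z :=
  (summable_norm_wEis hc hk z).of_norm

/-- right multiplication by `γ` as a permutation of `ℤ²`. -/
def vecMulEquiv (γ : SL(2, ℤ)) : (Fin 2 → ℤ) ≃ (Fin 2 → ℤ) where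
  toFun v := v ᵥ* γ.1
  invFun v := v ᵥ* (γ⁻¹).1
  left_inv v := by
    simp only [Matrix.vecMul_vecMul]
    rw [← Matrix.SpecialLinearGroup.coe_mul, mul_inv_cancel, Matrix.SpecialLinearGroup.coe_one,
      Matrix.vecMul_one]
  right_inv v := by
    simp only [Matrix.vecMul_vecMul]
    rw [← Matrix.SpecialLinearGroup.coe_mul, inv_mul_cancel, Matrix.SpecialLinearGroup.coe_one,
      Matrix.vecMul_one]

/-- Slashing a weighted Eisenstein series transforms the weight. -/
theorem wEis_slash (c : (Fin 2 → ℤ) → ℂ) (k : ℤ) (γ : SL(2, ℤ)) :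
    wEis c k ∣[k] γ = wEis (fun v => c (v ᵥ* (γ⁻¹).1)) k := by
  ext1 z
  simp_rw [SL_slash_apply, _root_.zpow_neg,
    mul_inv_eq_iff_eq_mul₀ (zpow_ne_zero _ <| denom_ne_zero _ z), wEis]
  rw [← tsum_mul_right]
  conv_rhs => rw [← (vecMulEquiv γ).tsum_eq]
  congr 1
  funext v
  simp only [vecMulEquiv, Equiv.coe_fn_mk]
  rw [Matrix.vecMul_vecMul, ← Matrix.SpecialLinearGroup.coe_mul, mul_inv_cancel,
    Matrix.SpecialLinearGroup.coe_one, Matrix.vecMul_one, eisSummand_SL2_apply]
  simp only [denom]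
  ring_nf


theorem wEis_tendstoLocallyUniformly {c : (Fin 2 → ℤ) → ℂ} (hc : ∀ v, ‖c v‖ ≤ 1) {k : ℤ}
    (hk : 3 ≤ k) :
    TendstoLocallyUniformly (fun (s : Finset (Fin 2 → ℤ)) ↦ (∑ x ∈ s, c x * eisSummand k x ·))
      (wEis c k ·) Filter.atTop := by
  have hk' : (2 : ℝ) < k := by norm_cast
  have p_sum : Summable fun x : Fin 2 → ℤ ↦ ‖x‖ ^ (-k) :=
    mod_cast (summable_one_div_norm_rpow hk')
  simp only [tendstoLocallyUniformly_iff_forall_isCompact, wEis]
  intro K hK
  obtain ⟨A, B, hB, HABK⟩ := subset_verticalStrip_of_isCompact hK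
  refine (tendstoUniformlyOn_tsum (hu := p_sum.mul_left <| r ⟨⟨A, B⟩, hB⟩ ^ (-k : ℝ))
    (fun p z hz ↦ ?_)).mono HABK
  refine (norm_wsummand_le hc k p z).trans ?_
  simpa only [eisSummand, one_div, ← zpow_neg, norm_zpow, ← Real.rpow_intCast,
    Int.cast_neg] using summand_bound_of_mem_verticalStrip (by positivity) p hB hz

theorem wEis_tendstoLocallyUniformlyOn {c : (Fin 2 → ℤ) → ℂ} (hc : ∀ v, ‖c v‖ ≤ 1) {k : ℤ}
    (hk : 3 ≤ k) :
    TendstoLocallyUniformlyOn (fun (s : Finset (Fin 2 → ℤ)) ↦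
      ((fun (z : ℍ) ↦ ∑ x ∈ s, c x * eisSummand k x z) ∘ ofComplex)) ((wEis c k) ∘ ofComplex)
          Filter.atTop {z : ℂ | 0 < z.im} := by
  rw [← upperHalfPlaneSet, ← range_coe, ← Set.image_univ]
  apply TendstoLocallyUniformlyOn.comp (s := ⊤) _ _ _ (OpenPartialHomeomorph.continuousOn_symm _)
  · simp only [Set.top_eq_univ, tendstoLocallyUniformlyOn_univ]
    apply wEis_tendstoLocallyUniformly hc hk
  · simp only [IsOpenEmbedding.toOpenPartialHomeomorph_target, Set.top_eq_univ,
      Set.mapsTo_range_iff, Set.mem_univ, forall_const]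

theorem wsummand_extension_differentiableOn (c : (Fin 2 → ℤ) → ℂ) (k : ℤ) (a : Fin 2 → ℤ) :
    DifferentiableOn ℂ ((fun z : ℍ => c a * eisSummand k a z) ∘ ofComplex) {z : ℂ | 0 < z.im} := by
  have h := (eisSummand_extension_differentiableOn k a).const_smul (c a)
  refine h.congr ?_
  intro z _
  simp [Function.comp, smul_eq_mul]

/-- Weighted Eisenstein series are holomorphic. -/
theorem wEis_mdifferentiable {c : (Fin 2 → ℤ) → ℂ} (hc : ∀ v, ‖c v‖ ≤ 1) {k : ℤ} (hk : 3 ≤ k) :
    MDiff (wEis c k) := by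
  intro τ
  suffices DifferentiableAt ℂ ((wEis c k) ∘ ofComplex) τ.1 by
    convert!
      MDifferentiableAt.comp τ (DifferentiableAt.mdifferentiableAt this) τ.mdifferentiable_coe
    exact funext fun z ↦ (comp_ofComplex (wEis c k) z).symm
  refine DifferentiableOn.differentiableAt ?_ (isOpen_upperHalfPlaneSet.mem_nhds τ.2)
  exact (wEis_tendstoLocallyUniformlyOn hc hk).differentiableOn
    (Eventually.of_forall fun s ↦ by
      have : ((fun (z : ℍ) ↦ ∑ x ∈ s, c x * eisSummand k x z) ∘ ofComplex)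
          = fun w => ∑ x ∈ s, ((fun z : ℍ => c x * eisSummand k x z) ∘ ofComplex) w := by
        funext w
        simp [Function.comp]
      rw [this]
      exact DifferentiableOn.fun_sum fun _ _ ↦ wsummand_extension_differentiableOn _ _ _)
    isOpen_upperHalfPlaneSet


/-! ### Behaviour at `i∞` -/

theorem denom_T_zpow (n : ℤ) (z : ℍ) : denom (ModularGroup.T ^ n : SL(2, ℤ)) z = 1 := by
  have h10 : ((ModularGroup.T ^ n : SL(2, ℤ)) : Matrix (Fin 2) (Fin 2) ℤ) 1 0 = 0 := by
    rw [ModularGroup.coe_T_zpow]; rfl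
  have h11 : ((ModularGroup.T ^ n : SL(2, ℤ)) : Matrix (Fin 2) (Fin 2) ℤ) 1 1 = 1 := by
    rw [ModularGroup.coe_T_zpow]; rfl
  simp only [denom]
  simp [-map_zpow, h10, h11]

theorem vecMul_T_zpow_zero (n : ℤ) (v : Fin 2 → ℤ) :
    (v ᵥ* (ModularGroup.T ^ n : SL(2, ℤ)).1) 0 = v 0 := by
  rw [ModularGroup.coe_T_zpow]
  simp [Matrix.vecMul, Matrix.vec2_dotProduct, Matrix.vecHead]

theorem norm_eisSummand_T_zpow (k : ℤ) (n : ℤ) (v : Fin 2 → ℤ) (z : ℍ) :
    ‖eisSummand k v ((ModularGroup.T ^ n : SL(2, ℤ)) • z)‖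
      = ‖eisSummand k (v ᵥ* (ModularGroup.T ^ n : SL(2, ℤ)).1) z‖ := by
  rw [eisSummand_SL2_apply, denom_T_zpow, one_zpow, one_mul]

/-- The sum of the norms of all Eisenstein summands. -/
def eisMajorant (k : ℤ) (z : ℍ) : ℝ := ∑' v : Fin 2 → ℤ, ‖eisSummand k v z‖

/-- The sum of the norms of the Eisenstein summands with `v 0 ≠ 0`. -/
def eisTail (k : ℤ) (z : ℍ) : ℝ :=
  ∑' v : Fin 2 → ℤ, if v 0 = 0 then 0 else ‖eisSummand k v z‖

theorem eisMajorant_T_zpow (k : ℤ) (n : ℤ) (z : ℍ) :
    eisMajorant k ((ModularGroup.T ^ n : SL(2, ℤ)) • z) = eisMajorant k z := by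
  unfold eisMajorant
  conv_rhs => rw [← (vecMulEquiv (ModularGroup.T ^ n)).tsum_eq]
  congr 1
  funext v
  rw [norm_eisSummand_T_zpow]
  rfl

theorem eisTail_T_zpow (k : ℤ) (n : ℤ) (z : ℍ) :
    eisTail k ((ModularGroup.T ^ n : SL(2, ℤ)) • z) = eisTail k z := by
  unfold eisTail
  conv_rhs => rw [← (vecMulEquiv (ModularGroup.T ^ n)).tsum_eq]
  congr 1
  funext v
  simp only [vecMulEquiv, Equiv.coe_fn_mk]
  rw [norm_eisSummand_T_zpow, vecMul_T_zpow_zero]

theorem norm_wEis_le_eisMajorant {c : (Fin 2 → ℤ) → ℂ} (hc : ∀ v, ‖c v‖ ≤ 1) {k : ℤ}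
    (hk : 3 ≤ k) (z : ℍ) : ‖wEis c k z‖ ≤ eisMajorant k z := by
  unfold wEis eisMajorant
  refine (norm_tsum_le_tsum_norm (summable_norm_wEis hc hk z)).trans ?_
  exact (summable_norm_wEis hc hk z).tsum_le_tsum (fun v => norm_wsummand_le hc k v z)
    (summable_norm_eisSummand hk z)

theorem eisMajorant_le_of_mem_verticalStrip {k : ℤ} (hk : 3 ≤ k) {z : ℍ}
    (hz : z ∈ verticalStrip 1 2) :
    eisMajorant k z ≤ ∑' (x : Fin 2 → ℤ), r ⟨⟨1, 2⟩, Nat.ofNat_pos⟩ ^ (-k) * ‖x‖ ^ (-k) := by
  have hk' : (2 : ℝ) < k := by norm_cast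
  unfold eisMajorant
  apply (summable_norm_eisSummand hk _).tsum_le_tsum _
  · exact_mod_cast (summable_one_div_norm_rpow hk').mul_left <| r ⟨⟨1, 2⟩, Nat.ofNat_pos⟩ ^ (-k)
  · intro x
    simp_rw [eisSummand, norm_zpow]
    exact_mod_cast
      summand_bound_of_mem_verticalStrip (lt_trans two_pos hk').le x two_pos hz

/-- Weighted Eisenstein series are bounded at `i∞`. -/
theorem wEis_isBoundedAtImInfty {c : (Fin 2 → ℤ) → ℂ} (hc : ∀ v, ‖c v‖ ≤ 1) {k : ℤ}
    (hk : 3 ≤ k) : IsBoundedAtImInfty (wEis c k) := by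
  rw [UpperHalfPlane.isBoundedAtImInfty_iff]
  refine ⟨∑' (x : Fin 2 → ℤ), r ⟨⟨1, 2⟩, Nat.ofNat_pos⟩ ^ (-k) * ‖x‖ ^ (-k), 2, ?_⟩
  intro z hz
  obtain ⟨n, hn⟩ := (ModularGroup_T_zpow_mem_verticalStrip z (N := 1) one_pos)
  refine (norm_wEis_le_eisMajorant hc hk z).trans ?_
  have hn' : (ModularGroup.T ^ n : SL(2, ℤ)) • z ∈ verticalStrip 1 2 := by
    have h1 : (ModularGroup.T ^ (((1 : ℕ) : ℤ) * n) : SL(2, ℤ)) = ModularGroup.T ^ n := by
      simp
    rw [h1] at hn
    have := verticalStrip_anti_right ((1 : ℕ) : ℝ) hz hn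
    simpa using this
  rw [← eisMajorant_T_zpow k n z]
  exact eisMajorant_le_of_mem_verticalStrip hk hn'

/-- All slashes of weighted Eisenstein series are bounded at `i∞`. -/
theorem wEis_slash_isBoundedAtImInfty {c : (Fin 2 → ℤ) → ℂ} (hc : ∀ v, ‖c v‖ ≤ 1) {k : ℤ}
    (hk : 3 ≤ k) (γ : SL(2, ℤ)) : IsBoundedAtImInfty (wEis c k ∣[k] γ) := by
  rw [wEis_slash]
  exact wEis_isBoundedAtImInfty (fun v => hc _) hk


/-! ### The limit at `i∞` -/

theorem summable_eisTail {k : ℤ} (hk : 3 ≤ k) (z : ℍ) :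
    Summable fun v : Fin 2 → ℤ => if v 0 = 0 then 0 else ‖eisSummand k v z‖ := by
  refine (summable_norm_eisSummand hk z).of_nonneg_of_le (fun v => ?_) (fun v => ?_)
  · split_ifs
    · exact le_rfl
    · exact norm_nonneg _
  · split_ifs
    · exact norm_nonneg _
    · exact le_rfl

/-- The constant in the tail bound. -/
def tailConst (k : ℤ) : ℝ :=
  ∑' x : Fin 2 → ℤ, r ⟨⟨1, 1⟩, one_pos⟩ ^ (-((k : ℝ) - 1 / 2)) * ‖x‖ ^ (-((k : ℝ) - 1 / 2))

theorem norm_linear_ge_im {v : Fin 2 → ℤ} (hv : v 0 ≠ 0) (z : ℍ) :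
    z.im ≤ ‖(v 0 : ℂ) * (z : ℂ) + v 1‖ := by
  have h1 : |((v 0 : ℂ) * (z : ℂ) + v 1).im| ≤ ‖(v 0 : ℂ) * (z : ℂ) + v 1‖ :=
    Complex.abs_im_le_norm _
  have h2 : ((v 0 : ℂ) * (z : ℂ) + v 1).im = (v 0 : ℝ) * z.im := by
    simp
  rw [h2, abs_mul, abs_of_pos z.im_pos] at h1
  have h3 : (1 : ℝ) ≤ |(v 0 : ℝ)| := by
    have : (1 : ℤ) ≤ |v 0| := Int.one_le_abs hv
    exact_mod_cast this
  calc z.im = 1 * z.im := (one_mul _).symm
    _ ≤ |(v 0 : ℝ)| * z.im := by gcongr
    _ ≤ _ := h1

theorem eisTail_le_of_mem_verticalStrip {k : ℤ} (hk : 3 ≤ k) {z : ℍ}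
    (hz : z ∈ verticalStrip 1 1) :
    eisTail k z ≤ tailConst k * z.im ^ (-(1 / 2 : ℝ)) := by
  have hk' : (2 : ℝ) < (k : ℝ) - 1 / 2 := by
    have : (3 : ℝ) ≤ k := by exact_mod_cast hk
    linarith
  have hsum : Summable fun x : Fin 2 → ℤ =>
      r ⟨⟨1, 1⟩, one_pos⟩ ^ (-((k : ℝ) - 1 / 2)) * ‖x‖ ^ (-((k : ℝ) - 1 / 2)) :=
    (summable_one_div_norm_rpow hk').mul_left _
  unfold eisTail tailConst
  rw [← tsum_mul_right]
  refine (summable_eisTail hk z).tsum_le_tsum (fun v => ?_) (hsum.mul_right _)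
  have hy : 0 < z.im := z.im_pos
  have hrn : ∀ x : Fin 2 → ℤ, 0 ≤ r ⟨⟨1, 1⟩, one_pos⟩ ^ (-((k : ℝ) - 1 / 2))
      * ‖x‖ ^ (-((k : ℝ) - 1 / 2)) := fun x =>
    mul_nonneg (Real.rpow_nonneg (r_pos _).le _) (Real.rpow_nonneg (norm_nonneg _) _)
  split_ifs with hv
  · exact mul_nonneg (hrn v) (Real.rpow_nonneg hy.le _)
  · have hpos : 0 < ‖(v 0 : ℂ) * (z : ℂ) + v 1‖ := lt_of_lt_of_le hy (norm_linear_ge_im hv z)
    have e1 : ‖eisSummand k v z‖ = ‖(v 0 : ℂ) * (z : ℂ) + v 1‖ ^ (-((k : ℝ) - 1 / 2))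
        * ‖(v 0 : ℂ) * (z : ℂ) + v 1‖ ^ (-(1 / 2 : ℝ)) := by
      rw [← Real.rpow_add hpos, eisSummand, norm_zpow]
      have : -((k : ℝ) - 1 / 2) + -(1 / 2) = ((-k : ℤ) : ℝ) := by push_cast; ring
      rw [this, Real.rpow_intCast]
    rw [e1]
    have b1 := summand_bound_of_mem_verticalStrip (k := (k : ℝ) - 1 / 2) (by linarith) v
      one_pos hz
    have b2 : ‖(v 0 : ℂ) * (z : ℂ) + v 1‖ ^ (-(1 / 2 : ℝ)) ≤ z.im ^ (-(1 / 2 : ℝ)) :=
      Real.rpow_le_rpow_of_nonpos hy (norm_linear_ge_im hv z) (by norm_num)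
    exact mul_le_mul b1 b2 (Real.rpow_nonneg (norm_nonneg _) _) (hrn v)

theorem eisTail_le {k : ℤ} (hk : 3 ≤ k) (z : ℍ) (hz : 1 ≤ z.im) :
    eisTail k z ≤ tailConst k * z.im ^ (-(1 / 2 : ℝ)) := by
  obtain ⟨n, hn⟩ := (ModularGroup_T_zpow_mem_verticalStrip z (N := 1) one_pos)
  have h1 : (ModularGroup.T ^ (((1 : ℕ) : ℤ) * n) : SL(2, ℤ)) = ModularGroup.T ^ n := by
    simp
  rw [h1] at hn
  have hn' : (ModularGroup.T ^ n : SL(2, ℤ)) • z ∈ verticalStrip 1 1 := by
    have := verticalStrip_anti_right ((1 : ℕ) : ℝ) hz hn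
    simpa using this
  have := eisTail_le_of_mem_verticalStrip hk hn'
  rwa [eisTail_T_zpow, ModularGroup.im_T_zpow_smul] at this

/-- The value at `i∞` of a weighted Eisenstein series. -/
def wEisLimit (c : (Fin 2 → ℤ) → ℂ) (k : ℤ) : ℂ :=
  ∑' v : Fin 2 → ℤ, if v 0 = 0 then c v * ((v 1 : ℂ)) ^ (-k) else 0

theorem eisSummand_of_zero {k : ℤ} {v : Fin 2 → ℤ} (hv : v 0 = 0) (z : ℍ) :
    eisSummand k v z = ((v 1 : ℂ)) ^ (-k) := by
  simp [eisSummand, hv]

theorem norm_wEis_sub_limit_le {c : (Fin 2 → ℤ) → ℂ} (hc : ∀ v, ‖c v‖ ≤ 1) {k : ℤ}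
    (hk : 3 ≤ k) (z : ℍ) : ‖wEis c k z - wEisLimit c k‖ ≤ eisTail k z := by
  have hL : Summable fun v : Fin 2 → ℤ => if v 0 = 0 then c v * ((v 1 : ℂ)) ^ (-k) else 0 := by
    refine Summable.of_norm ?_
    refine (summable_norm_wEis hc hk z).of_nonneg_of_le (fun _ => norm_nonneg _) (fun v => ?_)
    split_ifs with hv
    · rw [eisSummand_of_zero hv]
    · rw [norm_zero]; exact norm_nonneg _
  unfold wEis wEisLimit
  rw [← (summable_wEis hc hk z).tsum_sub hL]
  have hterm : ∀ v : Fin 2 → ℤ,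
      ‖c v * eisSummand k v z - (if v 0 = 0 then c v * ((v 1 : ℂ)) ^ (-k) else 0)‖
        ≤ if v 0 = 0 then 0 else ‖eisSummand k v z‖ := by
    intro v
    split_ifs with hv
    · rw [eisSummand_of_zero hv, sub_self, norm_zero]
    · rw [sub_zero]
      exact norm_wsummand_le hc k v z
  have hs : Summable fun v : Fin 2 → ℤ =>
      ‖c v * eisSummand k v z - (if v 0 = 0 then c v * ((v 1 : ℂ)) ^ (-k) else 0)‖ :=
    (summable_eisTail hk z).of_nonneg_of_le (fun _ => norm_nonneg _) hterm
  refine (norm_tsum_le_tsum_norm hs).trans ?_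
  exact hs.tsum_le_tsum hterm (summable_eisTail hk z)

/-- Weighted Eisenstein series tend to `wEisLimit` at `i∞`. -/
theorem tendsto_wEis_atImInfty {c : (Fin 2 → ℤ) → ℂ} (hc : ∀ v, ‖c v‖ ≤ 1) {k : ℤ}
    (hk : 3 ≤ k) : Tendsto (wEis c k) atImInfty (𝓝 (wEisLimit c k)) := by
  rw [Metric.tendsto_nhds]
  intro ε hε
  rw [Filter.Eventually, UpperHalfPlane.atImInfty_mem]
  -- choose `A` with `tailConst k * A ^ (-1/2) < ε`
  have hC : 0 ≤ tailConst k := by
    unfold tailConst
    exact tsum_nonneg fun x =>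
      mul_nonneg (Real.rpow_nonneg (r_pos _).le _) (Real.rpow_nonneg (norm_nonneg _) _)
  obtain ⟨A, hA1, hA⟩ : ∃ A : ℝ, 1 ≤ A ∧ tailConst k * A ^ (-(1 / 2 : ℝ)) < ε := by
    have hlim : Tendsto (fun A : ℝ => tailConst k * A ^ (-(1 / 2 : ℝ))) atTop (𝓝 0) := by
      have := (tendsto_rpow_neg_atTop (show (0 : ℝ) < 1 / 2 by norm_num)).const_mul (tailConst k)
      simpa using this
    have hev := (hlim.eventually (gt_mem_nhds hε)).and (eventually_ge_atTop (1 : ℝ))
    obtain ⟨A, h1, h2⟩ := hev.exists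
    exact ⟨A, h2, h1⟩
  refine ⟨A, fun z hz => ?_⟩
  simp only [Set.mem_ofPred_eq, dist_eq_norm]
  have hz1 : 1 ≤ z.im := hA1.trans hz
  calc ‖wEis c k z - wEisLimit c k‖ ≤ eisTail k z := norm_wEis_sub_limit_le hc hk z
    _ ≤ tailConst k * z.im ^ (-(1 / 2 : ℝ)) := eisTail_le hk z hz1
    _ ≤ tailConst k * A ^ (-(1 / 2 : ℝ)) :=
        mul_le_mul_of_nonneg_left
          (Real.rpow_le_rpow_of_nonpos (by linarith) hz (by norm_num)) hC
    _ < ε := hA


/-! ### Weights supported on primitive vectors -/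

theorem wEisLimit_eq {c : (Fin 2 → ℤ) → ℂ} {k : ℤ}
    (hsupp : ∀ v : Fin 2 → ℤ, v 0 = 0 → c v ≠ 0 → v 1 = 1 ∨ v 1 = -1) :
    wEisLimit c k = c ![0, 1] + (-1) ^ k * c ![0, -1] := by
  unfold wEisLimit
  have hne : (![0, 1] : Fin 2 → ℤ) ≠ ![0, -1] := by
    intro h
    have := congrFun h 1
    simp at this
  rw [tsum_eq_sum (s := {![0, 1], ![0, -1]})]
  · rw [Finset.sum_pair hne]
    simp only [Matrix.cons_val_zero, Matrix.cons_val_one, if_true]
    have h1 : ((1 : ℤ) : ℂ) ^ (-k) = 1 := by simp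
    have h2 : (((-1 : ℤ)) : ℂ) ^ (-k) = (-1) ^ k := by
      push_cast
      rw [zpow_neg, ← inv_zpow]
      norm_num
    rw [h1, h2, mul_one, mul_comm]
  · intro v hv
    simp only [Finset.mem_insert, Finset.mem_singleton, not_or] at hv
    split_ifs with h0
    · by_cases hcv : c v = 0
      · rw [hcv, zero_mul]
      · exfalso
        rcases hsupp v h0 hcv with h1 | h1
        · apply hv.1
          ext i
          fin_cases i
          · simpa using h0
          · simpa using h1
        · apply hv.2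
          ext i
          fin_cases i
          · simpa using h0
          · simpa using h1
    · rfl

/-! ### Twisted Eisenstein series -/

section Twisted

variable (Γ : Subgroup SL(2, ℤ)) (χ : Γ →* ℂˣ)

/-- The bottom row of a matrix in `SL(2, ℤ)`. -/
def botRow (γ : SL(2, ℤ)) : Fin 2 → ℤ := γ.1 1

theorem botRow_mul (α β : SL(2, ℤ)) : botRow (α * β) = botRow α ᵥ* β.1 := by
  ext j
  simp [botRow, Matrix.mul_apply, Matrix.vecMul, dotProduct]

theorem botRow_one : botRow 1 = ![0, 1] := by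
  ext j
  fin_cases j <;> simp [botRow]

/-- The weight function of the twisted Eisenstein series: `χ(γ)⁻¹` on the bottom row of
`γ ∈ Γ`, zero on vectors which are not bottom rows of elements of `Γ`. -/
def twistWeight (v : Fin 2 → ℤ) : ℂ :=
  open Classical in
  if h : ∃ γ : Γ, botRow (γ : SL(2, ℤ)) = v then ((χ h.choose)⁻¹ : ℂˣ) else 0

variable {Γ χ}

/-- `χ` is trivial on the upper unipotent elements of `Γ`. -/
def TrivialOnUnipotent (χ : Γ →* ℂˣ) : Prop :=
  ∀ γ : Γ, botRow (γ : SL(2, ℤ)) = ![0, 1] → χ γ = 1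

theorem twistWeight_botRow (hχ : TrivialOnUnipotent χ) (γ : Γ) :
    twistWeight Γ χ (botRow (γ : SL(2, ℤ))) = ((χ γ)⁻¹ : ℂˣ) := by
  classical
  have h : ∃ γ' : Γ, botRow (γ' : SL(2, ℤ)) = botRow (γ : SL(2, ℤ)) := ⟨γ, rfl⟩
  unfold twistWeight
  rw [dif_pos h]
  have hrow := h.choose_spec
  have h1 : botRow ((h.choose * γ⁻¹ : Γ) : SL(2, ℤ)) = ![0, 1] := by
    rw [Subgroup.coe_mul, botRow_mul, hrow, ← botRow_mul, Subgroup.coe_inv, mul_inv_cancel,
      botRow_one]
  have h2 := hχ _ h1
  rw [map_mul, map_inv, mul_inv_eq_one] at h2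
  rw [h2]

theorem twistWeight_of_not (v : Fin 2 → ℤ) (h : ¬ ∃ γ : Γ, botRow (γ : SL(2, ℤ)) = v) :
    twistWeight Γ χ v = 0 := by
  classical
  unfold twistWeight
  rw [dif_neg h]

theorem twistWeight_vecMul_inv (hχ : TrivialOnUnipotent χ) (δ : Γ) (v : Fin 2 → ℤ) :
    twistWeight Γ χ (v ᵥ* ((δ : SL(2, ℤ))⁻¹).1) = (χ δ : ℂ) * twistWeight Γ χ v := by
  by_cases h : ∃ γ : Γ, botRow (γ : SL(2, ℤ)) = v
  · obtain ⟨γ, rfl⟩ := h
    have : botRow (γ : SL(2, ℤ)) ᵥ* ((δ : SL(2, ℤ))⁻¹).1 = botRow ((γ * δ⁻¹ : Γ) : SL(2, ℤ)) := by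
      rw [Subgroup.coe_mul, botRow_mul, Subgroup.coe_inv]
    rw [this, twistWeight_botRow hχ, twistWeight_botRow hχ, map_mul, map_inv, mul_inv, inv_inv,
      Units.val_mul, mul_comm]
  · have h' : ¬ ∃ γ : Γ, botRow (γ : SL(2, ℤ)) = v ᵥ* ((δ : SL(2, ℤ))⁻¹).1 := by
      rintro ⟨γ, hγ⟩
      apply h
      refine ⟨γ * δ, ?_⟩
      rw [Subgroup.coe_mul, botRow_mul, hγ, Matrix.vecMul_vecMul,
        ← Matrix.SpecialLinearGroup.coe_mul, inv_mul_cancel, Matrix.SpecialLinearGroup.coe_one,
        Matrix.vecMul_one]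
    rw [twistWeight_of_not _ h, twistWeight_of_not _ h', mul_zero]

theorem norm_twistWeight_le (hχ : TrivialOnUnipotent χ) (hnorm : ∀ γ : Γ, ‖(χ γ : ℂ)‖ = 1)
    (v : Fin 2 → ℤ) : ‖twistWeight Γ χ v‖ ≤ 1 := by
  by_cases h : ∃ γ : Γ, botRow (γ : SL(2, ℤ)) = v
  · obtain ⟨γ, rfl⟩ := h
    rw [twistWeight_botRow hχ, Units.val_inv_eq_inv_val, norm_inv, hnorm, inv_one]
  · rw [twistWeight_of_not _ h, norm_zero]
    exact zero_le_one

variable (Γ χ) in
/-- The twisted Eisenstein series `E_k^χ(z) = ∑_{v bottom row of γ ∈ Γ} χ(γ)⁻¹ (v₀ z + v₁)^{-k}`. -/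
def twistedEis (k : ℤ) : ℍ → ℂ := wEis (twistWeight Γ χ) k

theorem twistedEis_slash (hχ : TrivialOnUnipotent χ) (k : ℤ) (δ : Γ) :
    twistedEis Γ χ k ∣[k] (δ : SL(2, ℤ)) = (χ δ : ℂ) • twistedEis Γ χ k := by
  unfold twistedEis
  rw [wEis_slash]
  ext z
  simp only [wEis, Pi.smul_apply, smul_eq_mul]
  rw [← tsum_mul_left]
  congr 1
  funext v
  rw [twistWeight_vecMul_inv hχ, mul_assoc]

theorem twistedEis_mdifferentiable (hχ : TrivialOnUnipotent χ)
    (hnorm : ∀ γ : Γ, ‖(χ γ : ℂ)‖ = 1) {k : ℤ} (hk : 3 ≤ k) : MDiff (twistedEis Γ χ k) :=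
  wEis_mdifferentiable (norm_twistWeight_le hχ hnorm) hk

theorem twistedEis_slash_isBoundedAtImInfty (hχ : TrivialOnUnipotent χ)
    (hnorm : ∀ γ : Γ, ‖(χ γ : ℂ)‖ = 1) {k : ℤ} (hk : 3 ≤ k) (g : SL(2, ℤ)) :
    IsBoundedAtImInfty (twistedEis Γ χ k ∣[k] g) :=
  wEis_slash_isBoundedAtImInfty (norm_twistWeight_le hχ hnorm) hk g

theorem twistWeight_supp (v : Fin 2 → ℤ) (h0 : v 0 = 0) (hv : twistWeight Γ χ v ≠ 0) :
    v 1 = 1 ∨ v 1 = -1 := by
  by_cases h : ∃ γ : Γ, botRow (γ : SL(2, ℤ)) = v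
  · obtain ⟨γ, rfl⟩ := h
    have hdet := (γ : SL(2, ℤ)).det_coe
    rw [Matrix.det_fin_two] at hdet
    have h10 : (γ : SL(2, ℤ)).1 1 0 = 0 := h0
    rw [h10, mul_zero, sub_zero] at hdet
    exact Int.eq_one_or_neg_one_of_mul_eq_one' hdet |>.imp (fun h => h.2) (fun h => h.2)
  · exact absurd (twistWeight_of_not _ h) hv

/-- The limit of the twisted Eisenstein series at `i∞`. -/
theorem tendsto_twistedEis (hχ : TrivialOnUnipotent χ)
    (hnorm : ∀ γ : Γ, ‖(χ γ : ℂ)‖ = 1) {k : ℤ} (hk : 3 ≤ k) :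
    Tendsto (twistedEis Γ χ k) atImInfty
      (𝓝 (1 + (-1) ^ k * twistWeight Γ χ ![0, -1])) := by
  have h := tendsto_wEis_atImInfty (norm_twistWeight_le hχ hnorm) hk
  rw [wEisLimit_eq (fun v h0 hv => twistWeight_supp v h0 hv)] at h
  have h1 : twistWeight Γ χ ![0, 1] = 1 := by
    have := twistWeight_botRow hχ (1 : Γ)
    rw [Subgroup.coe_one, botRow_one, map_one, inv_one, Units.val_one] at this
    exact this
  rwa [h1] at h

/-- If `-1 ∈ Γ`, `χ(-1) = 1` and `k` is even, the twisted Eisenstein series tends to `2` at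
`i∞`. -/
theorem tendsto_twistedEis_two (hχ : TrivialOnUnipotent χ)
    (hnorm : ∀ γ : Γ, ‖(χ γ : ℂ)‖ = 1) {k : ℤ} (hk : 3 ≤ k) (hk2 : Even k)
    (hneg : (-1 : SL(2, ℤ)) ∈ Γ) (hχneg : χ ⟨-1, hneg⟩ = 1) :
    Tendsto (twistedEis Γ χ k) atImInfty (𝓝 2) := by
  have h := tendsto_twistedEis hχ hnorm hk
  have h1 : twistWeight Γ χ ![0, -1] = 1 := by
    have := twistWeight_botRow hχ (⟨-1, hneg⟩ : Γ)
    have hb : botRow ((⟨-1, hneg⟩ : Γ) : SL(2, ℤ)) = ![0, -1] := by
      ext j
      fin_cases j <;> simp [botRow]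
    rw [hb, hχneg, inv_one, Units.val_one] at this
    exact this
  rw [h1, hk2.neg_one_zpow, mul_one] at h
  norm_num at h
  exact h

end Twisted

end Fermat.Agent.S29.H332

end
end
-- ===== PACK-END S29/H332/WeightedEis.lean

-- ===== PACK-BEGIN S29/H32/AutOrbit.lean
section
/-
S29 row, helper32: automorphisms of an algebraically closed field over an algebraically closed
subfield.  Mathlib-only.

Main results (namespace `Fermat.Agent.S29.H32`):
* `exists_algEquiv_apply_eq_add` : a transcendental element `z` of an algebraically closed field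
  `Ω` over a field `k` can be moved to `z + c` (`c ∈ k`) by a `k`-automorphism of `Ω`.
* `mem_range_of_finite_orbit` : if `k` is algebraically closed and `z : Ω` has only finitely many
  conjugates under `Ω ≃ₐ[k] Ω`, then `z ∈ k`.
* `mem_range_of_fixed_of_finiteIndex` : the fixed field of a finite-index subgroup of
  `Ω ≃ₐ[k] Ω` is `k`.
-/


set_option autoImplicit false

namespace Fermat.Agent.S29.H32

open MvPolynomial

section Shift

variable {k : Type*} [CommRing k] {ι : Type*} [DecidableEq ι]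

/-- The `k`-algebra endomorphism of `k[X_i]` sending `X_{i₀} ↦ X_{i₀} + c` and fixing the other
variables. -/
noncomputable def shiftHom (i₀ : ι) (c : k) : MvPolynomial ι k →ₐ[k] MvPolynomial ι k :=
  aeval fun i => if i = i₀ then X i + C c else X i

theorem shiftHom_X (i₀ : ι) (c : k) (i : ι) :
    shiftHom i₀ c (X i) = if i = i₀ then X i + C c else X i := by
  simp [shiftHom]

theorem shiftHom_comp (i₀ : ι) (c d : k) :
    (shiftHom i₀ c).comp (shiftHom i₀ d) = shiftHom i₀ (c + d) := by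
  apply MvPolynomial.algHom_ext
  intro i
  by_cases h : i = i₀
  · subst h
    simp only [shiftHom, AlgHom.comp_apply, aeval_X, if_true, map_add, algHom_C,
      algebraMap_eq, map_add, add_assoc]
  · simp [shiftHom, h]

theorem shiftHom_zero (i₀ : ι) : shiftHom i₀ (0 : k) = AlgHom.id k (MvPolynomial ι k) := by
  apply MvPolynomial.algHom_ext
  intro i
  by_cases h : i = i₀ <;> simp [shiftHom, h]

/-- The shift as an algebra automorphism. -/
noncomputable def shiftEquiv (i₀ : ι) (c : k) : MvPolynomial ι k ≃ₐ[k] MvPolynomial ι k :=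
  AlgEquiv.ofAlgHom (shiftHom i₀ c) (shiftHom i₀ (-c))
    (by rw [shiftHom_comp, add_neg_cancel, shiftHom_zero])
    (by rw [shiftHom_comp, neg_add_cancel, shiftHom_zero])

theorem shiftEquiv_X_self (i₀ : ι) (c : k) : shiftEquiv i₀ c (X i₀) = X i₀ + C c := by
  simp [shiftEquiv, shiftHom_X]

end Shift

section Move

variable {k Ω : Type*} [Field k] [Field Ω] [Algebra k Ω] [IsAlgClosed Ω]

/-- A transcendental element of an algebraically closed field can be translated by any
constant by an automorphism. -/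
theorem exists_algEquiv_apply_eq_add (z : Ω) (hz : Transcendental k z) (c : k) :
    ∃ σ : Ω ≃ₐ[k] Ω, σ z = z + algebraMap k Ω c := by
  classical
  have hs : AlgebraicIndepOn k id ({z} : Set Ω) := by
    have : AlgebraicIndependent k (fun x : ({z} : Set Ω) => (x : Ω)) := by
      rw [algebraicIndependent_singleton_iff (⟨z, rfl⟩ : ({z} : Set Ω))]
      exact hz
    exact this
  obtain ⟨t, hzt, ht⟩ := exists_isTranscendenceBasis_superset hs
  set B : t → Ω := fun x => (x : Ω) with hB
  have hzmem : z ∈ t := hzt rfl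
  let i₀ : t := ⟨z, hzmem⟩
  have hcl := IsAlgClosed.isAlgClosure_of_transcendence_basis B ht
  -- the automorphism of the polynomial subalgebra
  let e₀ : Algebra.adjoin k (Set.range B) ≃ₐ[k] Algebra.adjoin k (Set.range B) :=
    (ht.1.aevalEquiv.symm.trans (shiftEquiv i₀ c)).trans ht.1.aevalEquiv
  have he₀ : ∀ x, (e₀ x : Ω) = aeval B (shiftEquiv i₀ c (ht.1.aevalEquiv.symm x)) := by
    intro x
    simp only [e₀, AlgEquiv.trans_apply]
    exact AlgebraicIndependent.algebraMap_aevalEquiv ht.1 _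
  let σ₀ : Ω ≃+* Ω := IsAlgClosure.equivOfEquiv Ω Ω e₀.toRingEquiv
  have hσ₀ : ∀ r : Algebra.adjoin k (Set.range B),
      σ₀ (algebraMap _ Ω r) = algebraMap _ Ω (e₀ r) := fun r =>
    IsAlgClosure.equivOfEquiv_algebraMap Ω Ω e₀.toRingEquiv r
  have hcomm : ∀ a : k, σ₀ (algebraMap k Ω a) = algebraMap k Ω a := by
    intro a
    have h1 : algebraMap k Ω a
        = algebraMap (Algebra.adjoin k (Set.range B)) Ω (algebraMap k _ a) := rfl
    rw [h1, hσ₀, e₀.commutes]
  refine ⟨AlgEquiv.ofRingEquiv (f := σ₀) hcomm, ?_⟩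
  have hzB : z = algebraMap (Algebra.adjoin k (Set.range B)) Ω
      ⟨z, Algebra.subset_adjoin ⟨i₀, rfl⟩⟩ := rfl
  show σ₀ z = _
  conv_lhs => rw [hzB]
  rw [hσ₀]
  show (e₀ _ : Ω) = _
  rw [he₀]
  have hsymm : ht.1.aevalEquiv.symm ⟨z, Algebra.subset_adjoin ⟨i₀, rfl⟩⟩ = X i₀ := by
    rw [AlgEquiv.symm_apply_eq]
    apply Subtype.ext
    show z = algebraMap (Algebra.adjoin k (Set.range B)) Ω (ht.1.aevalEquiv (X i₀))
    rw [AlgebraicIndependent.algebraMap_aevalEquiv, aeval_X]
  rw [hsymm, shiftEquiv_X_self]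
  simp [B, i₀]

end Move

section Orbit

variable {k Ω : Type*} [Field k] [Field Ω] [Algebra k Ω] [IsAlgClosed k] [IsAlgClosed Ω]

omit [IsAlgClosed Ω] in
/-- Over an algebraically closed field, an element which is not a constant is transcendental. -/
theorem transcendental_of_not_mem_range {z : Ω} (hz : z ∉ Set.range (algebraMap k Ω)) :
    Transcendental k z := by
  intro halg
  apply hz
  have hint : IsIntegral k z := halg.isIntegral
  have hdeg : (minpoly k z).degree = 1 :=
    IsAlgClosed.degree_eq_one_of_irreducible k (minpoly.irreducible hint)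
  exact minpoly.mem_range_of_degree_eq_one k z hdeg

/-- An element with finitely many conjugates under `Aut(Ω/k)` lies in `k`
(`k`, `Ω` algebraically closed). -/
theorem mem_range_of_finite_orbit (z : Ω)
    (h : (Set.range fun σ : Ω ≃ₐ[k] Ω => σ z).Finite) : z ∈ Set.range (algebraMap k Ω) := by
  by_contra hz
  have htr := transcendental_of_not_mem_range hz
  have hinj : Function.Injective fun c : k => z + algebraMap k Ω c := by
    intro c d hcd
    exact (algebraMap k Ω).injective (add_left_cancel hcd)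
  have hsub : (Set.range fun c : k => z + algebraMap k Ω c)
      ⊆ Set.range fun σ : Ω ≃ₐ[k] Ω => σ z := by
    rintro _ ⟨c, rfl⟩
    obtain ⟨σ, hσ⟩ := exists_algEquiv_apply_eq_add z htr c
    exact ⟨σ, hσ⟩
  have : Infinite k := IsAlgClosed.instInfinite
  exact Set.infinite_range_of_injective hinj (h.subset hsub)

/-- The fixed field of a finite-index subgroup of `Aut(Ω/k)` is `k`. -/
theorem mem_range_of_fixed_of_finiteIndex (H : Subgroup (Ω ≃ₐ[k] Ω)) [H.FiniteIndex] (z : Ω)
    (hfix : ∀ σ ∈ H, σ z = z) : z ∈ Set.range (algebraMap k Ω) := by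
  apply mem_range_of_finite_orbit
  -- the orbit map factors through the finite quotient `G ⧸ H`
  let f : (Ω ≃ₐ[k] Ω) ⧸ H → Ω := Quotient.lift (fun σ : Ω ≃ₐ[k] Ω => σ z) (by
    intro a b hab
    have hab' : a⁻¹ * b ∈ H := QuotientGroup.leftRel_apply.mp hab
    have := hfix _ hab'
    show a z = b z
    have h2 : b z = a ((a⁻¹ * b) z) := by
      simp [AlgEquiv.mul_apply, AlgEquiv.aut_inv]
    rw [h2, this])
  have : Finite ((Ω ≃ₐ[k] Ω) ⧸ H) := Subgroup.finite_quotient_of_finiteIndex
  have : (Set.range fun σ : Ω ≃ₐ[k] Ω => σ z) ⊆ Set.range f := by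
    rintro _ ⟨σ, rfl⟩
    exact ⟨QuotientGroup.mk σ, rfl⟩
  exact (Set.finite_range f).subset this

end Orbit

end Fermat.Agent.S29.H32

end
-- ===== PACK-END S29/H32/AutOrbit.lean

-- ===== PACK-BEGIN S29/H32/CoeffDescent.lean
section
/-
S29 row, helper32: descent of the field of constants for subfields of Laurent series.

Setting: `k ⊆ Ω` fields, `F₀ ⊆ ℚ((q))` an intermediate field.  The Prelude field
`laurentBaseChange Ω F₀ ⊆ Ω((q))` is generated by `Ω` and `F₀`.

Main results (namespace `Fermat.Agent.S29.H32`):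
* `exists_of_coeff_mem_range` : an element of `laurentBaseChange Ω F₀` all of whose coefficients
  lie in `k` is the image of an element of `laurentBaseChange k F₀`.
* `coeffMap_mem_laurentBaseChange_of_mem` : `laurentBaseChange k F₀` maps into
  `laurentBaseChange Ω F₀`.
-/



set_option autoImplicit false

namespace Fermat.Agent.S29.H32

open ModularCurve HahnSeries

section General

variable {k Ω : Type*} [Field k] [Field Ω] [Algebra k Ω]

theorem coeffMap_algebraMap_injective :
    Function.Injective (coeffMap (algebraMap k Ω)) := by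
  intro x y h
  ext n
  have := congrArg (fun z => z.coeff n) h
  simp only [coeffMap_coeff] at this
  exact (algebraMap k Ω).injective this

theorem coeff_algebraMap_mul (c : Ω) (z : LaurentSeries Ω) (n : ℤ) :
    (algebraMap Ω (LaurentSeries Ω) c * z).coeff n = c * z.coeff n := by
  rw [algebraMap_laurentSeries_eq_single]
  simp

/-- The `Ω`-linear combination `∑ βᵢ * ι(gᵢ)` attached to a finitely supported family of Laurent
series over `k`. -/
noncomputable def comb {I : Type*} (β : I → Ω) (g : I →₀ LaurentSeries k) : LaurentSeries Ω :=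
  g.sum fun i y => algebraMap Ω (LaurentSeries Ω) (β i) * coeffMap (algebraMap k Ω) y

theorem comb_zero {I : Type*} (β : I → Ω) : comb β (0 : I →₀ LaurentSeries k) = 0 := by
  simp [comb]

theorem comb_add {I : Type*} (β : I → Ω) (g h : I →₀ LaurentSeries k) :
    comb β (g + h) = comb β g + comb β h := by
  classical
  unfold comb
  apply Finsupp.sum_add_index'
  · intro i; simp
  · intro i y z; simp [mul_add]

theorem comb_single {I : Type*} (β : I → Ω) (i : I) (y : LaurentSeries k) :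
    comb β (Finsupp.single i y)
      = algebraMap Ω (LaurentSeries Ω) (β i) * coeffMap (algebraMap k Ω) y := by
  unfold comb
  rw [Finsupp.sum_single_index]
  simp

theorem comb_coeff {I : Type*} (β : I → Ω) (g : I →₀ LaurentSeries k) (n : ℤ) :
    (comb β g).coeff n = g.sum fun i y => algebraMap k Ω (y.coeff n) * β i := by
  classical
  induction g using Finsupp.induction with
  | zero => simp [comb]
  | single_add i y g hi hy ih =>
    rw [comb_add, HahnSeries.coeff_add, ih, comb_single,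
      Finsupp.sum_add_index' (by intro i; simp) (by intro i y z; simp [add_mul]),
      Finsupp.sum_single_index (by simp), coeff_algebraMap_mul, coeffMap_coeff, mul_comm]

/-- Left multiplication by a Laurent series over `k`, coordinatewise. -/
noncomputable def mulLeft {I : Type*} (x : LaurentSeries k) (g : I →₀ LaurentSeries k) :
    I →₀ LaurentSeries k :=
  g.mapRange (fun y => x * y) (mul_zero x)

theorem comb_mulLeft {I : Type*} (β : I → Ω) (x : LaurentSeries k) (g : I →₀ LaurentSeries k) :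
    comb β (mulLeft x g) = coeffMap (algebraMap k Ω) x * comb β g := by
  classical
  induction g using Finsupp.induction with
  | zero => simp [comb, mulLeft]
  | single_add i y g hi hy ih =>
    have h1 : mulLeft x (Finsupp.single i y + g) = Finsupp.single i (x * y) + mulLeft x g := by
      unfold mulLeft
      rw [Finsupp.mapRange_add (by intro a b; exact mul_add x a b), Finsupp.mapRange_single]
    rw [h1, comb_add, comb_add, ih, comb_single, comb_single, map_mul, mul_add]
    congr 1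
    ring

/-- Linear independence: if the `βᵢ` are `k`-linearly independent then `comb β` is injective. -/
theorem eq_zero_of_comb_eq_zero {I : Type*} {β : I → Ω} (hβ : LinearIndependent k β)
    (g : I →₀ LaurentSeries k) (h : comb β g = 0) : g = 0 := by
  classical
  ext i n
  have hn : (comb β g).coeff n = 0 := by rw [h]; rfl
  rw [comb_coeff] at hn
  let c : I →₀ k := g.mapRange (fun y => y.coeff n) rfl
  have hc : Finsupp.linearCombination k β c = 0 := by
    rw [Finsupp.linearCombination_apply]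
    rw [Finsupp.sum_mapRange_index (by intro i; simp)]
    rw [← hn]
    apply Finsupp.sum_congr
    intro j _
    rw [Algebra.smul_def]
  have := (linearIndependent_iff.mp hβ) c hc
  have hci : c i = 0 := by rw [this]; rfl
  simpa [c] using hci

end General

section BaseChange

variable {k Ω : Type*} [Field k] [Field Ω] [Algebra k Ω]

theorem coeffMap_algebraMap_up (c : k) :
    coeffMap (algebraMap k Ω) (algebraMap k (LaurentSeries k) c)
      = algebraMap Ω (LaurentSeries Ω) (algebraMap k Ω c) := by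
  rw [algebraMap_laurentSeries_eq_single, algebraMap_laurentSeries_eq_single, coeffMap_single]

variable [Algebra ℚ k] [Algebra ℚ Ω] [IsScalarTower ℚ k Ω]
variable (F₀ : IntermediateField ℚ (LaurentSeries ℚ))

theorem coeffMap_coeffEmb_up (x : LaurentSeries ℚ) :
    coeffMap (algebraMap k Ω) (coeffEmb k x) = coeffEmb Ω x := by
  rw [coeffEmb, coeffEmb, coeffMap_coeffMap]
  exact coeffMap_congr (IsScalarTower.algebraMap_eq ℚ k Ω).symm x

/-- `laurentBaseChange k F₀` maps into `laurentBaseChange Ω F₀`. -/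
theorem coeffMap_mem_laurentBaseChange_of_mem {x : LaurentSeries k}
    (hx : x ∈ laurentBaseChange k F₀) :
    coeffMap (algebraMap k Ω) x ∈ laurentBaseChange Ω F₀ := by
  rw [mem_laurentBaseChange_iff] at hx
  induction hx using Subfield.closure_induction with
  | mem y hy =>
      rcases hy with ⟨a, rfl⟩ | ⟨z, hz, rfl⟩
      · rw [coeffMap_algebraMap_up]
        exact (laurentBaseChange Ω F₀).algebraMap_mem _
      · rw [coeffMap_coeffEmb_up]
        exact coeffEmb_mem_laurentBaseChange Ω hz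
  | one => simp
  | add x y _ _ hx hy => simpa using add_mem hx hy
  | neg x _ hx => simpa using neg_mem hx
  | inv x _ hx => simpa using inv_mem hx
  | mul x y _ _ hx hy => simpa using mul_mem hx hy

/-- The generating set of `laurentBaseChange Ω F₀` is multiplicatively closed, so the generated
subalgebra is just the `Ω`-span. -/
theorem adjoin_le_span :
    (Algebra.adjoin Ω (⇑(coeffEmb Ω) '' (F₀ : Set (LaurentSeries ℚ)))).toSubmodule
      ≤ @Submodule.span Ω (LaurentSeries Ω) _ _ Algebra.toModule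
          (⇑(coeffEmb Ω) '' (F₀ : Set (LaurentSeries ℚ))) := by
  rw [Algebra.adjoin_eq_span]
  have h : ((Submonoid.closure (⇑(coeffEmb Ω) '' (F₀ : Set (LaurentSeries ℚ))) :
      Submonoid (LaurentSeries Ω)) : Set (LaurentSeries Ω))
      ⊆ (⇑(coeffEmb Ω) '' (F₀ : Set (LaurentSeries ℚ))) := by
    have : (⇑(coeffEmb Ω) '' (F₀ : Set (LaurentSeries ℚ)))
        = ((F₀.toSubfield.toSubring.toSubmonoid.map (coeffEmb Ω : LaurentSeries ℚ →* _) :
            Submonoid (LaurentSeries Ω)) : Set (LaurentSeries Ω)) := by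
      ext z
      simp
    rw [this, Submonoid.closure_eq]
  exact @Submodule.span_mono Ω (LaurentSeries Ω) _ _ Algebra.toModule _ _ h

/-- Every element of the `Ω`-span of `F₀` is a combination `∑ βᵢ * ι(gᵢ)` with
`gᵢ ∈ laurentBaseChange k F₀`, for any `k`-basis `β` of `Ω`. -/
theorem exists_comb_of_mem_span {I : Type*} (β : Module.Basis I k Ω) {a : LaurentSeries Ω}
    (ha : a ∈ Algebra.adjoin Ω (⇑(coeffEmb Ω) '' (F₀ : Set (LaurentSeries ℚ)))) :
    ∃ g : I →₀ LaurentSeries k, (∀ i, g i ∈ laurentBaseChange k F₀) ∧ a = comb (⇑β) g := by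
  classical
  -- auxiliary: `ω * ι(y)` for `y ∈ laurentBaseChange k F₀`
  have key : ∀ (ω : Ω) (y : LaurentSeries k), y ∈ laurentBaseChange k F₀ →
      ∃ g : I →₀ LaurentSeries k, (∀ i, g i ∈ laurentBaseChange k F₀) ∧
        algebraMap Ω (LaurentSeries Ω) ω * coeffMap (algebraMap k Ω) y = comb (⇑β) g := by
    intro ω y hy
    refine ⟨(β.repr ω).mapRange (fun c => algebraMap k (LaurentSeries k) c * y) (by simp),
      fun i => ?_, ?_⟩
    · rw [Finsupp.mapRange_apply]
      exact mul_mem ((laurentBaseChange k F₀).algebraMap_mem _) hy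
    · unfold comb
      rw [Finsupp.sum_mapRange_index (by intro i; simp)]
      conv_lhs => rw [← β.linearCombination_repr ω, Finsupp.linearCombination_apply]
      rw [Finsupp.sum, map_sum, Finset.sum_mul, Finsupp.sum]
      apply Finset.sum_congr rfl
      intro i _
      rw [map_mul, coeffMap_algebraMap_up, Algebra.smul_def (β.repr ω i) (β i), map_mul]
      ring
  have ha' := adjoin_le_span (Ω := Ω) F₀ ha
  clear ha
  induction ha' using Submodule.span_induction with
  | mem x hx =>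
      obtain ⟨f, hf, rfl⟩ := hx
      obtain ⟨g, hg, hge⟩ := key 1 (coeffEmb k f) (coeffEmb_mem_laurentBaseChange k hf)
      refine ⟨g, hg, ?_⟩
      rw [← hge, map_one, one_mul, coeffMap_coeffEmb_up]
  | zero => exact ⟨0, fun i => by simp, (comb_zero _).symm⟩
  | add x y _ _ hx hy =>
      obtain ⟨g, hg, rfl⟩ := hx
      obtain ⟨h, hh, rfl⟩ := hy
      exact ⟨g + h, fun i => by rw [Finsupp.add_apply]; exact add_mem (hg i) (hh i),
        (comb_add _ g h).symm⟩
  | smul ω x _ hx =>
      obtain ⟨g, hg, rfl⟩ := hx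
      rw [Algebra.smul_def]
      -- induct on `g`
      clear ‹_›
      induction g using Finsupp.induction with
      | zero => exact ⟨0, fun i => by simp, by rw [comb_zero, mul_zero]⟩
      | single_add i y g hi hy ih =>
          have hyi : y ∈ laurentBaseChange k F₀ := by
            have := hg i
            rwa [Finsupp.add_apply, Finsupp.single_eq_same,
              Finsupp.notMem_support_iff.mp hi, add_zero] at this
          have hg' : ∀ j, g j ∈ laurentBaseChange k F₀ := by
            intro j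
            by_cases hj : j = i
            · subst hj
              rw [Finsupp.notMem_support_iff.mp hi]
              exact zero_mem _
            · have := hg j
              rwa [Finsupp.add_apply, Finsupp.single_eq_of_ne hj, zero_add] at this
          obtain ⟨g₁, hg₁, e₁⟩ := key (ω * β i) y hyi
          obtain ⟨g₂, hg₂, e₂⟩ := ih hg'
          refine ⟨g₁ + g₂, fun j => by rw [Finsupp.add_apply]; exact add_mem (hg₁ j) (hg₂ j), ?_⟩
          rw [comb_add, comb_add, mul_add, ← e₁, ← e₂, comb_single, map_mul, mul_assoc]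

omit [Algebra ℚ k] [Algebra ℚ Ω] [IsScalarTower ℚ k Ω] in
/-- Lift of a Laurent series over `Ω` with coefficients in `k` to a Laurent series over `k`. -/
noncomputable def coeffDown (x : LaurentSeries Ω) : LaurentSeries k :=
  x.map (⟨Function.invFun (algebraMap k Ω), by
    have h := Function.leftInverse_invFun (algebraMap k Ω).injective (0 : k)
    rwa [map_zero] at h⟩ : ZeroHom Ω k)

omit [Algebra ℚ k] [Algebra ℚ Ω] [IsScalarTower ℚ k Ω] in
theorem coeffMap_coeffDown {x : LaurentSeries Ω}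
    (hx : ∀ n, x.coeff n ∈ Set.range (algebraMap k Ω)) :
    coeffMap (algebraMap k Ω) (coeffDown (k := k) x) = x := by
  ext n
  obtain ⟨c, hc⟩ := hx n
  simp only [coeffMap_coeff, coeffDown, HahnSeries.map_coeff, ZeroHom.coe_mk]
  rw [← hc, Function.leftInverse_invFun (algebraMap k Ω).injective c]

/-- **Descent of constants.**  An element of `laurentBaseChange Ω F₀` whose coefficients all lie
in `k` comes from `laurentBaseChange k F₀`. -/
theorem exists_of_coeff_mem_range {x : LaurentSeries Ω} (hx : x ∈ laurentBaseChange Ω F₀)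
    (hcoeff : ∀ n, x.coeff n ∈ Set.range (algebraMap k Ω)) :
    ∃ y ∈ laurentBaseChange k F₀, coeffMap (algebraMap k Ω) y = x := by
  classical
  let β := Module.Basis.ofVectorSpace k Ω
  refine ⟨coeffDown x, ?_, coeffMap_coeffDown hcoeff⟩
  set x₀ : LaurentSeries k := coeffDown x with hx₀
  have hx₀x : coeffMap (algebraMap k Ω) x₀ = x := coeffMap_coeffDown hcoeff
  obtain ⟨r, hr, s, hs, hxrs⟩ := IntermediateField.mem_adjoin_iff_div.mp hx
  obtain ⟨gr, hgr, rfl⟩ := exists_comb_of_mem_span F₀ β hr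
  obtain ⟨gs, hgs, rfl⟩ := exists_comb_of_mem_span F₀ β hs
  by_cases hs0 : comb (⇑β) gs = 0
  · -- then `x = 0`
    have hx0 : x = 0 := by rw [hxrs, hs0, div_zero]
    have : x₀ = 0 := by
      apply coeffMap_algebraMap_injective (Ω := Ω)
      rw [hx₀x, hx0, map_zero]
    rw [this]
    exact zero_mem _
  · have hmul : coeffMap (algebraMap k Ω) x₀ * comb (⇑β) gs = comb (⇑β) gr := by
      rw [hx₀x, hxrs, div_mul_cancel₀ _ hs0]
    rw [← comb_mulLeft] at hmul
    have hgs0 : gs ≠ 0 := by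
      rintro rfl
      exact hs0 (comb_zero _)
    obtain ⟨i, hi⟩ := Finsupp.ne_iff.mp hgs0
    have hsub : comb (⇑β) (mulLeft x₀ gs - gr) = 0 := by
      have := comb_add (⇑β) (mulLeft x₀ gs - gr) gr
      rw [sub_add_cancel, hmul] at this
      exact (add_eq_right.mp this.symm)
    have hz := eq_zero_of_comb_eq_zero β.linearIndependent _ hsub
    have hi' : x₀ * gs i = gr i := by
      have := congrArg (fun g => g i) hz
      simp only [Finsupp.sub_apply, Finsupp.zero_apply, mulLeft, Finsupp.mapRange_apply] at this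
      exact sub_eq_zero.mp this
    have hgsi : gs i ≠ 0 := by simpa using hi
    have : x₀ = gr i / gs i := by
      rw [eq_div_iff hgsi, hi']
    rw [this]
    exact div_mem (hgr i) (hgs i)

end BaseChange

end Fermat.Agent.S29.H32

end
-- ===== PACK-END S29/H32/CoeffDescent.lean

-- ===== PACK-BEGIN S29/H282/Special.lean
section


/-!
# S29 / M4b-K2 (helper282) — special elements of `SL₂(ℤ)`

`IsSpecialElt γ`: `γ` has finite order or trace `2`.  All conjugates of powers of `1`, `S`, `S * T`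
and `T` are special.  (These are the stabilisers of the points of `ℍ ∪ ℙ¹(ℚ)`; a character of
`Γ₀(N)` which is trivial on the special elements of `Γ₀(N)` is "unramified everywhere".)
-/

set_option autoImplicit false

open scoped MatrixGroups
open Matrix

namespace Fermat.Agent.S29.H282

/-- `γ` has finite order or trace `2`. -/
def IsSpecialElt (γ : SL(2, ℤ)) : Prop :=
  (∃ n : ℕ, 0 < n ∧ γ ^ n = 1) ∨ (γ : Matrix (Fin 2) (Fin 2) ℤ).trace = 2

theorem modS_pow_four : (ModularGroup.S : SL(2, ℤ)) ^ 4 = 1 := by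
  apply Subtype.ext
  rw [Matrix.SpecialLinearGroup.coe_pow, ModularGroup.coe_S]
  have h2 : (!![0, -1; 1, 0] : Matrix (Fin 2) (Fin 2) ℤ) ^ 2 = -1 := by
    rw [pow_two, Matrix.mul_fin_two]
    ext i j
    fin_cases i <;> fin_cases j <;> simp
  rw [show (4 : ℕ) = 2 * 2 from rfl, pow_mul, h2]
  simp

theorem modST_pow_six : (ModularGroup.S * ModularGroup.T : SL(2, ℤ)) ^ 6 = 1 := by
  apply Subtype.ext
  rw [Matrix.SpecialLinearGroup.coe_pow, Matrix.SpecialLinearGroup.coe_mul, ModularGroup.coe_S,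
    ModularGroup.coe_T]
  have h0 : (!![0, -1; 1, 0] * !![1, 1; 0, 1] : Matrix (Fin 2) (Fin 2) ℤ) = !![0, -1; 1, 1] := by
    rw [Matrix.mul_fin_two]
    ext i j
    fin_cases i <;> fin_cases j <;> simp
  have h2 : (!![0, -1; 1, 1] : Matrix (Fin 2) (Fin 2) ℤ) ^ 2 = !![-1, -1; 1, 0] := by
    rw [pow_two, Matrix.mul_fin_two]
    ext i j
    fin_cases i <;> fin_cases j <;> simp
  have h3 : (!![0, -1; 1, 1] : Matrix (Fin 2) (Fin 2) ℤ) ^ 3 = -1 := by
    rw [pow_succ, h2, Matrix.mul_fin_two]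
    ext i j
    fin_cases i <;> fin_cases j <;> simp
  rw [h0, show (6 : ℕ) = 3 * 2 from rfl, pow_mul, h3]
  simp

theorem trace_modT_pow (e : ℕ) :
    ((ModularGroup.T ^ e : SL(2, ℤ)) : Matrix (Fin 2) (Fin 2) ℤ).trace = 2 := by
  have h := ModularGroup.coe_T_zpow (e : ℤ)
  rw [zpow_natCast] at h
  rw [h, Matrix.trace_fin_two]
  simp

theorem trace_conj_SL (g γ : SL(2, ℤ)) :
    ((g⁻¹ * γ * g : SL(2, ℤ)) : Matrix (Fin 2) (Fin 2) ℤ).trace
      = (γ : Matrix (Fin 2) (Fin 2) ℤ).trace := by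
  rw [Matrix.SpecialLinearGroup.coe_mul, Matrix.trace_mul_comm,
    ← Matrix.SpecialLinearGroup.coe_mul, mul_inv_cancel_left]

theorem conj_pow_SL (g γ : SL(2, ℤ)) (n : ℕ) : (g⁻¹ * γ * g) ^ n = g⁻¹ * γ ^ n * g := by
  induction n with
  | zero => simp
  | succ n ih => rw [pow_succ, ih, pow_succ]; group

theorem IsSpecialElt.conj {γ : SL(2, ℤ)} (h : IsSpecialElt γ) (g : SL(2, ℤ)) :
    IsSpecialElt (g⁻¹ * γ * g) := by
  rcases h with ⟨n, hn, h⟩ | h
  · exact Or.inl ⟨n, hn, by rw [conj_pow_SL, h]; group⟩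
  · exact Or.inr (by rw [trace_conj_SL, h])

theorem isSpecialElt_of_pow_eq_one {γ : SL(2, ℤ)} {n : ℕ} (hn : 0 < n) (h : γ ^ n = 1) :
    IsSpecialElt γ := Or.inl ⟨n, hn, h⟩

theorem isSpecialElt_one_pow (e : ℕ) : IsSpecialElt ((1 : SL(2, ℤ)) ^ e) :=
  isSpecialElt_of_pow_eq_one one_pos (by simp)

theorem isSpecialElt_S_pow (e : ℕ) : IsSpecialElt ((ModularGroup.S : SL(2, ℤ)) ^ e) :=
  isSpecialElt_of_pow_eq_one (n := 4) (by norm_num)
    (by rw [← pow_mul, mul_comm, pow_mul, modS_pow_four, one_pow])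

theorem isSpecialElt_ST_pow (e : ℕ) :
    IsSpecialElt ((ModularGroup.S * ModularGroup.T : SL(2, ℤ)) ^ e) :=
  isSpecialElt_of_pow_eq_one (n := 6) (by norm_num)
    (by rw [← pow_mul, mul_comm, pow_mul, modST_pow_six, one_pow])

theorem isSpecialElt_T_pow (e : ℕ) : IsSpecialElt ((ModularGroup.T : SL(2, ℤ)) ^ e) :=
  Or.inr (trace_modT_pow e)

end Fermat.Agent.S29.H282

end
-- ===== PACK-END S29/H282/Special.lean

-- ===== PACK-BEGIN S28/Defs.lean
section
/-
S28 (Igusa) long-shot -- shared definitions and the interface structure `CoreData`.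
All S28 declarations live in namespace `Fermat.Agent.S28`.
-/




set_option autoImplicit false

noncomputable section

open ModularCurve HahnSeries

namespace Fermat.Agent.S28

/-! ### Formal q-series over an arbitrary commutative ring -/

section Formal

variable (R : Type*) [CommRing R]

/-- Formal discriminant `Δ = q ∏ (1 - qⁿ)²⁴` as a Laurent series over `R`. -/
def deltaL : LaurentSeries R :=
  HahnSeries.single (1 : ℤ) 1 *
    HahnSeries.ofPowerSeries ℤ R (dedekindEtaUnit.map (Int.castRingHom R))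

/-- Formal inverse of `Δ`: `q⁻¹ ∏ (1 - qⁿ)⁻²⁴`. -/
def deltaInvL : LaurentSeries R :=
  HahnSeries.single (-1 : ℤ) 1 *
    HahnSeries.ofPowerSeries ℤ R (dedekindEtaUnitInv.map (Int.castRingHom R))

/-- `θ = q d/dq` on Laurent series: multiplies the coefficient of `qⁿ` by `n`. -/
def thetaL (f : LaurentSeries R) : LaurentSeries R where
  coeff n := (n : R) * f.coeff n
  isPWO_support' := f.isPWO_support.mono fun n hn => by
    simp only [Function.mem_support, ne_eq] at hn ⊢
    intro h
    exact hn (by rw [h, mul_zero])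

@[simp] theorem thetaL_coeff (f : LaurentSeries R) (n : ℤ) :
    (thetaL R f).coeff n = (n : R) * f.coeff n := rfl

/-- The modular unit `u_p = Δ(q^p)/Δ(q)` as a formal Laurent series. -/
def unitL (p : ℕ) [NeZero p] : LaurentSeries R :=
  qExpand R p (deltaL R) * deltaInvL R

end Formal

/-! ### Fields -/

/-- `k(j) ⊂ k((q))`. -/
def jField (k : Type*) [Field k] : IntermediateField k (LaurentSeries k) :=
  IntermediateField.adjoin k {jqModC k}

/-- The integral generators `j(q^d)`, `d ∣ N`, in `ℤ((q))`. -/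
def intDivisorExpansions (N : ℕ) : Set (LaurentSeries ℤ) :=
  {x | ∃ (d : ℕ) (_ : NeZero d), d ∣ N ∧ x = qExpand ℤ d (jqModC ℤ)}

/-- Evaluation `ℤ[Y] → A((q))`, `Y ↦ y`. -/
abbrev evalAt {A : Type*} [CommRing A] (y : LaurentSeries A) : Polynomial ℤ →+* LaurentSeries A :=
  (Polynomial.aeval (R := ℤ) y).toRingHom

/-- Prime-level input from the analytic team: the modular polynomial `Φ_p ∈ ℤ[Y][X]`
(monic of degree `p+1` in `X`) with the two vanishing properties
`Φ_p(j(q^p), j(q)) = 0` and `Φ_p(j(q), j(q^p)) = 0`. -/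
structure ModPolyData (p : ℕ) [NeZero p] : Type where
  Φ : Polynomial (Polynomial ℤ)
  monic : Φ.Monic
  natDegree_eq : Φ.natDegree = p + 1
  eval_jp : Φ.eval₂ (evalAt (jqModC ℤ)) (qExpand ℤ p (jqModC ℤ)) = 0
  eval_j : Φ.eval₂ (evalAt (qExpand ℤ p (jqModC ℤ))) (jqModC ℤ) = 0

/-- Prime-level input from the analytic team: `p¹² Δ(q^p)/Δ(q)` is integral over `ℤ[j]`. -/
structure UnitPolyData (p : ℕ) [NeZero p] : Type where
  W : Polynomial (Polynomial ℤ)
  monic : W.Monic
  eval_unit : W.eval₂ (evalAt (jqModC ℤ)) ((p : LaurentSeries ℤ) ^ 12 * unitL ℤ p) = 0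

/-- The interface between the field-theory part [L] and the valuation part [V]:
`n` integral "monomials" spanning `F` over `ℚ(j)` whose reductions to `K((q))`
are linearly independent over `K(j)`; plus integrality of the generators. -/
structure CoreData (N : ℕ) [NeZero N] (K : Type) [Field K] : Prop where
  exists_basis : ∃ (n : ℕ) (y : Fin n → LaurentSeries ℤ),
    (∀ i, y i ∈ Subring.closure (intDivisorExpansions N)) ∧
    (∀ x ∈ modularFunctionFieldFull N,
      x ∈ Submodule.span (jField ℚ)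
        (Set.range fun i => coeffMap (Int.castRingHom ℚ) (y i))) ∧
    LinearIndependent (jField K) (fun i => coeffMap (Int.castRingHom K) (y i))
  integral : ∀ (d : ℕ) [NeZero d], d ∣ N →
    ∃ P : Polynomial (Polynomial ℤ), P.Monic ∧
      P.eval₂ (evalAt (jqModC ℤ)) (qExpand ℤ d (jqModC ℤ)) = 0

end Fermat.Agent.S28

end

end
-- ===== PACK-END S28/Defs.lean

-- ===== PACK-BEGIN S28/H626/Twist.lean
section
/-
S28 helper (helper626): twists `t ↦ c t` of Laurent series, the family `j(ξ tⁿ)`,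
and transport of two-variable integral polynomial relations along ring homomorphisms.
Mathlib + Prelude only.
-/



set_option autoImplicit false

noncomputable section

open ModularCurve HahnSeries Polynomial

namespace Fermat.Agent.S28.H626

/-! ### Twist `t ↦ c t` -/

section Twist

variable {R : Type*} [CommRing R]

theorem coeff_mul_of_support_subset {x y : LaurentSeries R} {a : ℤ} {s t : Set ℤ}
    (hs : s.IsPWO) (ht : t.IsPWO) (hxs : x.support ⊆ s) (hyt : y.support ⊆ t) :
    (x * y).coeff a =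
      ∑ ij ∈ Finset.antidiagonal hs ht a, x.coeff ij.fst * y.coeff ij.snd := by
  rw [HahnSeries.coeff_mul_left' hs hxs]
  refine Finset.sum_subset (Finset.antidiagonal_mono_right hyt) ?_
  intro ij hij hnot
  have hj : ij.2 ∉ y.support := by
    intro hj
    apply hnot
    rw [Finset.mem_antidiagonal] at hij ⊢
    exact ⟨hij.1, hj, hij.2.2⟩
  simp only [HahnSeries.mem_support, not_not] at hj
  rw [hj, mul_zero]

/-- underlying function of `twist` -/
def twistFun (c : Rˣ) (φ : LaurentSeries R) : LaurentSeries R where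
  coeff n := ((c ^ n : Rˣ) : R) * φ.coeff n
  isPWO_support' := φ.isPWO_support.mono fun n hn => by
    simp only [Function.mem_support, ne_eq] at hn
    simp only [HahnSeries.mem_support, ne_eq]
    intro h
    exact hn (by rw [h, mul_zero])

@[simp] theorem twistFun_coeff (c : Rˣ) (φ : LaurentSeries R) (n : ℤ) :
    (twistFun c φ).coeff n = ((c ^ n : Rˣ) : R) * φ.coeff n := rfl

theorem twistFun_support (c : Rˣ) (φ : LaurentSeries R) :
    (twistFun c φ).support ⊆ φ.support := by
  intro m hm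
  simp only [HahnSeries.mem_support, twistFun_coeff] at hm ⊢
  intro h0
  exact hm (by rw [h0, mul_zero])

/-- The substitution `t ↦ c t` on Laurent series, for a unit `c`:
`(twist c φ).coeff n = c ^ n * φ.coeff n`. -/
def twist (c : Rˣ) : LaurentSeries R →+* LaurentSeries R where
  toFun := twistFun c
  map_zero' := by ext n; simp
  map_one' := by
    ext n
    by_cases h : n = 0
    · subst h; simp
    · simp [HahnSeries.coeff_one, h]
  map_add' φ ψ := by ext n; simp [mul_add]
  map_mul' φ ψ := by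
    ext n
    rw [coeff_mul_of_support_subset φ.isPWO_support ψ.isPWO_support (twistFun_support c φ)
      (twistFun_support c ψ)]
    simp only [twistFun_coeff, HahnSeries.coeff_mul, Finset.mul_sum]
    refine Finset.sum_congr rfl ?_
    intro ij hij
    rw [Finset.mem_antidiagonal] at hij
    rw [← hij.2.2, zpow_add, Units.val_mul]
    ring

@[simp] theorem twist_coeff (c : Rˣ) (φ : LaurentSeries R) (n : ℤ) :
    (twist c φ).coeff n = ((c ^ n : Rˣ) : R) * φ.coeff n := rfl

theorem twist_one_apply (φ : LaurentSeries R) : twist (1 : Rˣ) φ = φ := by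
  ext n; simp

theorem twist_twist (c d : Rˣ) (φ : LaurentSeries R) :
    twist c (twist d φ) = twist (c * d) φ := by
  ext n
  simp only [twist_coeff, mul_zpow, Units.val_mul]
  ring

/-- `f((c t)^m) = f(c^m t^m)`. -/
theorem twist_qExpand (c : Rˣ) (m : ℕ) [NeZero m] (φ : LaurentSeries R) :
    twist c (qExpand R m φ) = qExpand R m (twist (c ^ m) φ) := by
  ext n
  by_cases hn : (m : ℤ) ∣ n
  · obtain ⟨k, rfl⟩ := hn
    rw [twist_coeff, qExpand_coeff_mul, qExpand_coeff_mul, twist_coeff]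
    congr 2
    rw [← zpow_natCast, ← zpow_mul]
  · rw [twist_coeff, qExpand_coeff_of_not_dvd _ _ hn, qExpand_coeff_of_not_dvd _ _ hn, mul_zero]

end Twist

end Fermat.Agent.S28.H626

end

end
-- ===== PACK-END S28/H626/Twist.lean

-- ===== PACK-BEGIN S28/H326/Newton.lean
section
/-
S28 / helper326: Newton's identities, membership form.

If all power sums of a finite family `z` in a commutative `ℚ`-algebra lie in a `ℚ`-subalgebra `B`,
then so do all elementary symmetric functions; hence `∏ (X - z i)` has coefficients in `B`.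
-/


set_option autoImplicit false

namespace Fermat.Agent.S28.H326

open Finset

/-- **Newton**: power sums in `B` ⟹ elementary symmetric functions in `B`. -/
theorem esymm_mem_of_psum_mem {Ω : Type*} [CommRing Ω] [Algebra ℚ Ω] (B : Subalgebra ℚ Ω)
    {σ : Type*} [Fintype σ] (z : σ → Ω) (h : ∀ m : ℕ, 0 < m → ∑ i, z i ^ m ∈ B) (k : ℕ) :
    (Finset.univ.val.map z).esymm k ∈ B := by
  induction k using Nat.strong_induction_on with
  | _ k ih =>
    rcases Nat.eq_zero_or_pos k with rfl | hk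
    · have : (Finset.univ.val.map z).esymm 0 = 1 := by simp [Multiset.esymm]
      rw [this]; exact one_mem B
    · have key := congrArg (MvPolynomial.aeval (R := ℚ) z) (MvPolynomial.mul_esymm_eq_sum σ ℚ k)
      simp only [map_mul, map_natCast, map_pow, map_neg, map_one, map_sum,
        MvPolynomial.aeval_esymm_eq_multiset_esymm] at key
      have hps : ∀ m : ℕ, MvPolynomial.aeval (R := ℚ) z (MvPolynomial.psum σ ℚ m) = ∑ i, z i ^ m := by
        intro m
        simp [MvPolynomial.psum]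
      simp only [hps] at key
      have hR : (-1 : Ω) ^ (k + 1) * ∑ a ∈ antidiagonal k with a.1 < k,
          (-1 : Ω) ^ a.1 * (Finset.univ.val.map z).esymm a.1 * ∑ i, z i ^ a.2 ∈ B := by
        refine mul_mem (pow_mem (neg_mem (one_mem B)) _) (sum_mem fun a ha => ?_)
        rw [mem_filter, HasAntidiagonal.mem_antidiagonal] at ha
        refine mul_mem (mul_mem (pow_mem (neg_mem (one_mem B)) _) (ih a.1 ha.2)) (h a.2 (by omega))
      rw [← key] at hR
      have hk0 : (k : ℚ) ≠ 0 := by exact_mod_cast hk.ne'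
      have : (Finset.univ.val.map z).esymm k =
          (k : ℚ)⁻¹ • ((k : Ω) * (Finset.univ.val.map z).esymm k) := by
        rw [← nsmul_eq_mul, ← Nat.cast_smul_eq_nsmul ℚ k, smul_smul,
          inv_mul_cancel₀ hk0, one_smul]
      rw [this]
      exact B.smul_mem hR _

/-- Vieta + Newton: the monic polynomial with roots `z i` has coefficients in `B`. -/
theorem prod_X_sub_C_mem_of_psum_mem {Ω : Type*} [CommRing Ω] [Algebra ℚ Ω] (B : Subalgebra ℚ Ω)
    {σ : Type*} [Fintype σ] (z : σ → Ω) (h : ∀ m : ℕ, 0 < m → ∑ i, z i ^ m ∈ B) (n : ℕ) :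
    (∏ i, (Polynomial.X - Polynomial.C (z i))).coeff n ∈ B := by
  have hV := Multiset.prod_X_sub_X_eq_sum_esymm (Finset.univ.val.map z)
  rw [Multiset.map_map] at hV
  have hprod : (∏ i, (Polynomial.X - Polynomial.C (z i))) =
      (Multiset.map ((fun t => Polynomial.X - Polynomial.C t) ∘ z) Finset.univ.val).prod := by
    rfl
  rw [hprod, hV, Polynomial.finsetSum_coeff]
  refine sum_mem fun j _ => ?_
  have : ((-1 : Polynomial Ω) ^ j * (Polynomial.C ((Finset.univ.val.map z).esymm j) *
      Polynomial.X ^ (Multiset.card (Finset.univ.val.map z) - j))) =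
      Polynomial.C ((-1) ^ j * (Finset.univ.val.map z).esymm j) *
        Polynomial.X ^ (Multiset.card (Finset.univ.val.map z) - j) := by
    simp [mul_assoc]
  rw [this, Polynomial.coeff_C_mul_X_pow]
  split_ifs
  · exact mul_mem (pow_mem (neg_mem (one_mem B)) _) (esymm_mem_of_psum_mem B z h j)
  · exact zero_mem B

end Fermat.Agent.S28.H326

end
-- ===== PACK-END S28/H326/Newton.lean

-- ===== PACK-BEGIN S28/H505/Bridge.lean
section






open UpperHalfPlane ModularForm EisensteinSeries Filter Topology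
open scoped PowerSeries.WithPiTopology

namespace Fermat.Agent.S28.H505

theorem bernoulli_four_eq : bernoulli 4 = -1 / 30 := by
  rw [bernoulli_eq_bernoulli'_of_ne_one (by norm_num)]
  simp [bernoulli'_four]

/-- (B1) The Mathlib `q`-expansion of `E₄` is the Prelude's formal series `eisenstein4`. -/
theorem qExpansion_E₄_eq :
    qExpansion 1 E₄ = ModularCurve.eisenstein4.map (Int.castRingHom ℂ) := by
  ext m
  rw [E_qExpansion_coeff (by norm_num) (by decide) m, PowerSeries.coeff_map,
    ModularCurve.eisenstein4, PowerSeries.coeff_mk]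
  split_ifs with h
  · simp
  · rw [bernoulli_four_eq, ArithmeticFunction.sigma_apply]
    simp only [eq_intCast]
    push_cast
    ring

/-- Taylor power series at `0` of a function `ℂ → ℂ`. -/
noncomputable def taylorPS (g : ℂ → ℂ) : PowerSeries ℂ :=
  .mk fun m => (m.factorial : ℂ)⁻¹ * iteratedDeriv m g 0

theorem coeff_taylorPS (g : ℂ → ℂ) (m : ℕ) :
    (taylorPS g).coeff m = (m.factorial : ℂ)⁻¹ * iteratedDeriv m g 0 := by
  simp [taylorPS]

theorem qExpansion_eq_taylorPS (h : ℝ) (f : ℍ → ℂ) :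
    qExpansion h f = taylorPS (cuspFunction h f) := rfl

theorem taylorPS_congr {g h : ℂ → ℂ} (hgh : g =ᶠ[𝓝 0] h) : taylorPS g = taylorPS h := by
  ext m
  simp [coeff_taylorPS, hgh.iteratedDeriv_eq m]

theorem taylorPS_mul {g h : ℂ → ℂ} (hg : AnalyticAt ℂ g 0) (hh : AnalyticAt ℂ h 0) :
    taylorPS (g * h) = taylorPS g * taylorPS h := by
  ext
  simp only [coeff_taylorPS,
    iteratedDeriv_mul hg.contDiffAt hh.contDiffAt, Finset.mul_sum, PowerSeries.coeff_mul,
    Finset.Nat.sum_antidiagonal_eq_sum_range_succ_mk, Nat.succ_eq_add_one]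
  refine Finset.sum_congr rfl fun i hi ↦ ?_
  rw [Nat.cast_choose _ (by grind)]
  field_simp [Nat.factorial_ne_zero]

theorem iteratedDeriv_polynomial_eval (p : Polynomial ℂ) (m : ℕ) :
    iteratedDeriv m (fun x => p.eval x) = fun x => ((⇑Polynomial.derivative)^[m] p).eval x := by
  induction m generalizing p with
  | zero => simp
  | succ m ih =>
    rw [iteratedDeriv_succ']
    have : deriv (fun x => p.eval x) = fun x => (Polynomial.derivative p).eval x :=
      funext fun x => Polynomial.deriv p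
    rw [this, ih, Function.iterate_succ_apply]

theorem taylorPS_polynomial (p : Polynomial ℂ) :
    taylorPS (fun x => p.eval x) = (p : PowerSeries ℂ) := by
  ext m
  rw [coeff_taylorPS, iteratedDeriv_polynomial_eval, Polynomial.coeff_coe]
  beta_reduce
  rw [← Polynomial.coeff_zero_eq_eval_zero, Polynomial.coeff_iterate_derivative, zero_add,
    Nat.descFactorial_self, nsmul_eq_mul, ← mul_assoc,
    inv_mul_cancel₀ (by exact_mod_cast Nat.factorial_ne_zero m), one_mul]

theorem differentiableOn_iteratedDeriv {g : ℂ → ℂ} {U : Set ℂ} (hU : IsOpen U)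
    (hg : DifferentiableOn ℂ g U) (k : ℕ) : DifferentiableOn ℂ (iteratedDeriv k g) U := by
  induction k with
  | zero => simpa using hg
  | succ k ih => rw [iteratedDeriv_succ]; exact ih.deriv hU

theorem tendstoLocallyUniformlyOn_iteratedDeriv {ι : Type*} {φ : Filter ι} {F : ι → ℂ → ℂ}
    {f : ℂ → ℂ} {U : Set ℂ} (hU : IsOpen U) (hf : TendstoLocallyUniformlyOn F f φ U)
    (hF : ∀ᶠ n in φ, DifferentiableOn ℂ (F n) U) (k : ℕ) :
    TendstoLocallyUniformlyOn (fun n => iteratedDeriv k (F n)) (iteratedDeriv k f) φ U := by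
  induction k with
  | zero => simpa using hf
  | succ k ih =>
    have h1 : ∀ᶠ n in φ, DifferentiableOn ℂ (iteratedDeriv k (F n)) U := by
      filter_upwards [hF] with n hn using differentiableOn_iteratedDeriv hU hn k
    have := ih.deriv h1 hU
    simpa only [iteratedDeriv_succ, Function.comp_def] using this

/-- the analytic Euler product on the unit disc -/
noncomputable def eulerFun (q : ℂ) : ℂ := ∏' n : ℕ, (1 - q ^ (n + 1))

theorem eulerFun_differentiableOn : DifferentiableOn ℂ eulerFun (Metric.ball 0 1) :=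
  differentiableOn_tprod_one_sub_pow

theorem eulerFun_analyticAt : AnalyticAt ℂ eulerFun 0 :=
  eulerFun_differentiableOn.analyticAt (Metric.ball_mem_nhds 0 one_pos)

/-- partial Euler products as polynomials over `ℤ` -/
noncomputable def eulerPoly (t : Finset ℕ) : Polynomial ℤ :=
  ∏ i ∈ t, (1 - Polynomial.X ^ (i + 1))

theorem eulerPoly_eval (t : Finset ℕ) (q : ℂ) :
    ((eulerPoly t).map (Int.castRingHom ℂ)).eval q = ∏ i ∈ t, (1 - q ^ (i + 1)) := by
  simp [eulerPoly, Polynomial.map_prod, Polynomial.eval_prod]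

theorem eulerPoly_coe (t : Finset ℕ) :
    ((eulerPoly t : Polynomial ℤ) : PowerSeries ℤ) = ∏ i ∈ t, (1 - PowerSeries.X ^ (i + 1)) := by
  rw [eulerPoly, ← Polynomial.coeToPowerSeries.ringHom_apply, map_prod]
  simp [Polynomial.coeToPowerSeries.ringHom_apply]

theorem tendsto_coeff_eulerPoly (k : ℕ) :
    Tendsto (fun t : Finset ℕ => (((eulerPoly t).coeff k : ℤ) : ℂ)) atTop
      (𝓝 ((ModularCurve.etaProd.coeff k : ℤ) : ℂ)) := by
  have h1 : Tendsto (fun t : Finset ℕ => ∏ i ∈ t, ((1 : PowerSeries ℤ) - PowerSeries.X ^ (i + 1)))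
      atTop (𝓝 ModularCurve.etaProd) :=
    (PowerSeries.WithPiTopology.multipliable_one_sub_X_pow ℤ).hasProd
  have h2 := ((PowerSeries.WithPiTopology.continuous_coeff ℤ k).tendsto _).comp h1
  have h3 : Continuous (fun n : ℤ => (n : ℂ)) := continuous_of_discreteTopology
  have h4 := (h3.tendsto _).comp h2
  refine h4.congr fun t => ?_
  simp only [Function.comp_apply, ← eulerPoly_coe, Polynomial.coeff_coe]

theorem taylorPS_eulerFun :
    taylorPS eulerFun = ModularCurve.etaProd.map (Int.castRingHom ℂ) := by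
  ext k
  rw [coeff_taylorPS, PowerSeries.coeff_map]
  have hU : IsOpen (Metric.ball (0 : ℂ) 1) := Metric.isOpen_ball
  have h0 : (0 : ℂ) ∈ Metric.ball (0 : ℂ) 1 := Metric.mem_ball_self one_pos
  have hloc : TendstoLocallyUniformlyOn
      (fun (t : Finset ℕ) (q : ℂ) => ∏ i ∈ t, (1 - q ^ (i + 1))) eulerFun atTop
      (Metric.ball 0 1) :=
    hasProdLocallyUniformlyOn_iff_tendstoLocallyUniformlyOn.mp
      multipliableLocallyUniformlyOn_one_sub_pow.hasProdLocallyUniformlyOn
  have hdiff : ∀ᶠ t : Finset ℕ in atTop,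
      DifferentiableOn ℂ (fun q : ℂ => ∏ i ∈ t, (1 - q ^ (i + 1))) (Metric.ball 0 1) :=
    .of_forall fun t => by
      simpa [Finset.prod_fn] using
        DifferentiableOn.finsetProd (u := t) (f := fun i (q : ℂ) => 1 - q ^ (i + 1))
          (fun _ _ ↦ by fun_prop)
  have h1 := (tendstoLocallyUniformlyOn_iteratedDeriv hU hloc hdiff k).tendsto_at h0
  have h2 : ∀ t : Finset ℕ, iteratedDeriv k (fun q : ℂ => ∏ i ∈ t, (1 - q ^ (i + 1))) 0
      = (k.factorial : ℂ) * (((eulerPoly t).coeff k : ℤ) : ℂ) := by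
    intro t
    have := congrArg (PowerSeries.coeff k)
      (taylorPS_polynomial ((eulerPoly t).map (Int.castRingHom ℂ)))
    rw [coeff_taylorPS, Polynomial.coeff_coe, Polynomial.coeff_map] at this
    simp only [eulerPoly_eval, eq_intCast] at this
    rw [← this, ← mul_assoc, mul_inv_cancel₀ (by exact_mod_cast Nat.factorial_ne_zero k), one_mul]
  simp only [h2] at h1
  have h3 := (tendsto_coeff_eulerPoly k).const_mul (k.factorial : ℂ)
  have h4 := tendsto_nhds_unique h1 h3
  rw [h4, ← mul_assoc, inv_mul_cancel₀ (by exact_mod_cast Nat.factorial_ne_zero k), one_mul]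
  simp

theorem taylorPS_id : taylorPS (fun q : ℂ => q) = PowerSeries.X := by
  have := taylorPS_polynomial Polynomial.X
  simpa using this

theorem taylorPS_pow {g : ℂ → ℂ} (hg : AnalyticAt ℂ g 0) (n : ℕ) :
    taylorPS (g ^ n) = taylorPS g ^ n := by
  induction n with
  | zero =>
    have := taylorPS_polynomial 1
    simpa [Pi.one_def] using this
  | succ n ih => rw [pow_succ, pow_succ, taylorPS_mul (hg.pow n) hg, ih]

/-- (B2) The Mathlib `q`-expansion of `Δ` is `X * etaProd ^ 24`. -/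
theorem qExpansion_discriminant_eq :
    qExpansion 1 ModularForm.discriminant =
      PowerSeries.X * (ModularCurve.etaProd.map (Int.castRingHom ℂ)) ^ 24 := by
  rw [qExpansion_eq_taylorPS]
  have h1 : cuspFunction 1 ModularForm.discriminant =ᶠ[𝓝 0]
      ((fun q : ℂ => q) * eulerFun ^ 24) := by
    filter_upwards [Metric.ball_mem_nhds (0 : ℂ) one_pos] with q hq
    rw [discriminant_cuspFunction_eqOn hq]
    simp only [Pi.mul_apply, Pi.pow_apply, eulerFun]
    rw [(multipliable_one_sub_pow (by simpa using hq)).tprod_pow 24]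
  rw [taylorPS_congr h1, taylorPS_mul (by fun_prop) (eulerFun_analyticAt.pow 24), taylorPS_id,
    taylorPS_pow eulerFun_analyticAt, taylorPS_eulerFun]

end Fermat.Agent.S28.H505

end
-- ===== PACK-END S28/H505/Bridge.lean

-- ===== PACK-BEGIN S20/Comb694/Basic.lean
section






/-!
# Combinatorics on `SL(2,ℤ) ⧸ Gamma0 N` : basic coset criterion, fixed points of `S` and `S * T`.

Left cosets, Mathlib's left-multiplication action (`MulAction.quotient`).
-/

set_option autoImplicit false

namespace Fermat.Agent.S20.Comb694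

open Matrix MatrixGroups CongruenceSubgroup

/-- The `(1,0)` entry of `g⁻¹ * g'`. -/
lemma inv_mul_apply_one_zero (g g' : SL(2, ℤ)) :
    (g⁻¹ * g') 1 0 = g 0 0 * g' 1 0 - g 1 0 * g' 0 0 := by
  rw [Matrix.SpecialLinearGroup.coe_mul, Matrix.SpecialLinearGroup.coe_inv,
    Matrix.adjugate_fin_two, Matrix.mul_apply, Fin.sum_univ_two]
  simp
  ring

/-- Coset criterion: `g Γ₀(N) = g' Γ₀(N)` iff `a c' - c a' ≡ 0 mod N`, where `(a, c)`, `(a', c')`
are the first columns of `g`, `g'`. -/
lemma mk_eq_mk_iff (N : ℕ) (g g' : SL(2, ℤ)) :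
    (QuotientGroup.mk g : SL(2, ℤ) ⧸ Gamma0 N) = QuotientGroup.mk g' ↔
      ((g 0 0 : ℤ) : ZMod N) * ((g' 1 0 : ℤ) : ZMod N)
        - ((g 1 0 : ℤ) : ZMod N) * ((g' 0 0 : ℤ) : ZMod N) = 0 := by
  rw [QuotientGroup.eq, Gamma0_mem, inv_mul_apply_one_zero]
  push_cast
  rfl

/-- Determinant relation in `ZMod N`. -/
lemma det_cast (N : ℕ) (g : SL(2, ℤ)) :
    ((g 0 0 : ℤ) : ZMod N) * ((g 1 1 : ℤ) : ZMod N)
      - ((g 0 1 : ℤ) : ZMod N) * ((g 1 0 : ℤ) : ZMod N) = 1 := by
  have h := g.det_coe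
  rw [Matrix.det_fin_two] at h
  have := congrArg (fun z : ℤ => (z : ZMod N)) h
  simpa using this

/-- Fixed-point criterion for a general element `γ`. -/
lemma smul_mk_eq_mk_iff (N : ℕ) (γ g : SL(2, ℤ)) :
    γ • (QuotientGroup.mk g : SL(2, ℤ) ⧸ Gamma0 N) = QuotientGroup.mk g ↔
      ((g 0 0 : ℤ) : ZMod N) * (((γ * g) 1 0 : ℤ) : ZMod N)
        - ((g 1 0 : ℤ) : ZMod N) * (((γ * g) 0 0 : ℤ) : ZMod N) = 0 := by
  rw [MulAction.Quotient.smul_mk, smul_eq_mul, eq_comm, mk_eq_mk_iff]

lemma S_mul_apply_zero_zero (g : SL(2, ℤ)) : (ModularGroup.S * g) 0 0 = - g 1 0 := by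
  rw [Matrix.SpecialLinearGroup.coe_mul, ModularGroup.coe_S, Matrix.mul_apply, Fin.sum_univ_two]
  simp

lemma S_mul_apply_one_zero (g : SL(2, ℤ)) : (ModularGroup.S * g) 1 0 = g 0 0 := by
  rw [Matrix.SpecialLinearGroup.coe_mul, ModularGroup.coe_S, Matrix.mul_apply, Fin.sum_univ_two]
  simp

lemma coe_S_mul_T : ((ModularGroup.S * ModularGroup.T : SL(2, ℤ)) : Matrix (Fin 2) (Fin 2) ℤ)
    = !![0, -1; 1, 1] := by
  rw [Matrix.SpecialLinearGroup.coe_mul, ModularGroup.coe_S, ModularGroup.coe_T]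
  ext i j
  fin_cases i <;> fin_cases j <;> simp [Matrix.mul_apply, Fin.sum_univ_two]

lemma ST_mul_apply_zero_zero (g : SL(2, ℤ)) :
    (ModularGroup.S * ModularGroup.T * g) 0 0 = - g 1 0 := by
  rw [Matrix.SpecialLinearGroup.coe_mul, coe_S_mul_T, Matrix.mul_apply, Fin.sum_univ_two]
  simp

lemma ST_mul_apply_one_zero (g : SL(2, ℤ)) :
    (ModularGroup.S * ModularGroup.T * g) 1 0 = g 0 0 + g 1 0 := by
  rw [Matrix.SpecialLinearGroup.coe_mul, coe_S_mul_T, Matrix.mul_apply, Fin.sum_univ_two]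
  simp

/-- `g Γ₀(N)` is fixed by `S` iff `a² + c² ≡ 0 mod N`. -/
lemma S_smul_mk_eq_mk_iff (N : ℕ) (g : SL(2, ℤ)) :
    ModularGroup.S • (QuotientGroup.mk g : SL(2, ℤ) ⧸ Gamma0 N) = QuotientGroup.mk g ↔
      ((g 0 0 : ℤ) : ZMod N) ^ 2 + ((g 1 0 : ℤ) : ZMod N) ^ 2 = 0 := by
  rw [smul_mk_eq_mk_iff, S_mul_apply_zero_zero, S_mul_apply_one_zero]
  push_cast
  constructor <;> intro h <;> linear_combination h

/-- `g Γ₀(N)` is fixed by `S * T` iff `a² + a c + c² ≡ 0 mod N`. -/
lemma ST_smul_mk_eq_mk_iff (N : ℕ) (g : SL(2, ℤ)) :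
    (ModularGroup.S * ModularGroup.T) • (QuotientGroup.mk g : SL(2, ℤ) ⧸ Gamma0 N)
        = QuotientGroup.mk g ↔
      ((g 0 0 : ℤ) : ZMod N) ^ 2 + ((g 0 0 : ℤ) : ZMod N) * ((g 1 0 : ℤ) : ZMod N)
        + ((g 1 0 : ℤ) : ZMod N) ^ 2 = 0 := by
  rw [smul_mk_eq_mk_iff, ST_mul_apply_zero_zero, ST_mul_apply_one_zero]
  push_cast
  constructor <;> intro h <;> linear_combination h

/-- The matrix `[[x, -1], [1, 0]]` in `SL(2,ℤ)`. -/
def colRep (x : ℤ) : SL(2, ℤ) := ⟨!![x, -1; 1, 0], by simp [Matrix.det_fin_two]⟩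

@[simp] lemma colRep_apply_zero_zero (x : ℤ) : colRep x 0 0 = x := rfl
@[simp] lemma colRep_apply_one_zero (x : ℤ) : colRep x 1 0 = 1 := rfl

/-- If `a² = c * r` in `ZMod N` for the first column `(a, c)` of `g ∈ SL(2,ℤ)`, then `c` has
an explicit inverse. -/
lemma c_mul_inv_eq_one (N : ℕ) (g : SL(2, ℤ)) (r : ZMod N)
    (h : ((g 0 0 : ℤ) : ZMod N) ^ 2 = ((g 1 0 : ℤ) : ZMod N) * r) :
    ((g 1 0 : ℤ) : ZMod N) *
      (r * ((g 1 1 : ℤ) : ZMod N) ^ 2
        - 2 * ((g 0 0 : ℤ) : ZMod N) * ((g 0 1 : ℤ) : ZMod N) * ((g 1 1 : ℤ) : ZMod N)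
        + ((g 0 1 : ℤ) : ZMod N) ^ 2 * ((g 1 0 : ℤ) : ZMod N)) = 1 := by
  have hdet := det_cast N g
  linear_combination (-(((g 1 1 : ℤ) : ZMod N)) ^ 2) * h
    + (((g 0 0 : ℤ) : ZMod N) * ((g 1 1 : ℤ) : ZMod N)
        - ((g 0 1 : ℤ) : ZMod N) * ((g 1 0 : ℤ) : ZMod N) + 1) * hdet

end Fermat.Agent.S20.Comb694

end
-- ===== PACK-END S20/Comb694/Basic.lean

-- ===== PACK-BEGIN S18/H138/Charts.lean
section


/-!
# S18, Route K, ASM (helper138): the three charts of the `x`-line model inside a field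

`R` a commutative ring, `F` a field which is an `R`-algebra, `x : F`.  The *charts* are

* `chart R {x}`        : elements of `F` integral over `R[x]`        (`B_fin`),
* `chart R {x⁻¹}`      : elements of `F` integral over `R[x⁻¹]`      (`B_inf`),
* `chart R {x, x⁻¹}`   : elements of `F` integral over `R[x, x⁻¹]`   (`B_mid`).

This file proves the formal properties of the charts needed by the two-chart connectedness
lemma (`H558.cech_connected`):

* `exists_pow_mul_mem_chart`   : `B_mid = B_fin[1/x]`,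
* `exists_inv_pow_mul_mem_chart` : every element of `B_fin` lies in `x ^ D • B_inf`,
* `chart_inter_eq` (in `ChartsConst.lean`) : `B_fin ∩ B_inf = R`.
-/

set_option autoImplicit false
set_option linter.style.haveILetI false

namespace Fermat.Agent.S18.H138

open Polynomial

section Basic

variable (R : Type*) [CommRing R] {F : Type*} [Field F] [Algebra R F]

/-- The chart attached to `S ⊆ F`: the elements of `F` integral over `R[S]`. -/
def chart (S : Set F) : Subalgebra R F :=
  (integralClosure (Algebra.adjoin R S) F).restrictScalars R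

variable {R}

theorem mem_chart {S : Set F} {y : F} :
    y ∈ chart R S ↔ IsIntegral (Algebra.adjoin R S) y := Iff.rfl

theorem adjoin_le_chart (S : Set F) : Algebra.adjoin R S ≤ chart R S := by
  intro y hy
  rw [mem_chart]
  exact isIntegral_algebraMap (R := Algebra.adjoin R S) (x := ⟨y, hy⟩)

theorem mem_chart_of_mem {S : Set F} {y : F} (hy : y ∈ S) : y ∈ chart R S :=
  adjoin_le_chart S (Algebra.subset_adjoin hy)

/-- Integrality over a smaller subalgebra implies integrality over a bigger one. -/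
theorem isIntegral_of_le {A₁ A₂ : Subalgebra R F} (h : A₁ ≤ A₂) {y : F}
    (hy : IsIntegral A₁ y) : IsIntegral A₂ y := by
  have := IsIntegral.map_of_comp_eq (R := A₁) (S := F) (T := A₂) (U := F)
    (Subalgebra.inclusion h).toRingHom (RingHom.id F) (by ext; rfl) hy
  simpa using this

theorem chart_mono {S T : Set F} (h : S ⊆ T) : chart R S ≤ chart R T := fun _ hy =>
  isIntegral_of_le (Algebra.adjoin_mono h) hy

end Basic

section Denominators

variable {R : Type*} [CommRing R] {F : Type*} [Field F] [Algebra R F]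

/-- Clearing denominators in `R[x, x⁻¹]`. -/
theorem exists_pow_mul_mem_adjoin {x : F} (hx : x ≠ 0) {a : F}
    (ha : a ∈ Algebra.adjoin R ({x, x⁻¹} : Set F)) :
    ∃ K : ℕ, ∀ k : ℕ, K ≤ k → x ^ k * a ∈ Algebra.adjoin R ({x} : Set F) := by
  have hxA : x ∈ Algebra.adjoin R ({x} : Set F) := Algebra.subset_adjoin rfl
  induction ha using Algebra.adjoin_induction with
  | mem y hy =>
    rcases hy with rfl | rfl
    · exact ⟨0, fun k _ => Subalgebra.mul_mem _ (Subalgebra.pow_mem _ hxA k) hxA⟩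
    · refine ⟨1, fun k hk => ?_⟩
      obtain ⟨k, rfl⟩ : ∃ j, k = j + 1 := ⟨k - 1, by omega⟩
      rw [pow_succ, mul_assoc, mul_inv_cancel₀ hx, mul_one]
      exact Subalgebra.pow_mem _ hxA k
  | algebraMap r =>
    exact ⟨0, fun k _ => Subalgebra.mul_mem _ (Subalgebra.pow_mem _ hxA k)
      (Subalgebra.algebraMap_mem _ r)⟩
  | add y z _ _ hy hz =>
    obtain ⟨K₁, h₁⟩ := hy
    obtain ⟨K₂, h₂⟩ := hz
    refine ⟨max K₁ K₂, fun k hk => ?_⟩
    rw [mul_add]
    exact Subalgebra.add_mem _ (h₁ k (le_trans (le_max_left _ _) hk))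
      (h₂ k (le_trans (le_max_right _ _) hk))
  | mul y z _ _ hy hz =>
    obtain ⟨K₁, h₁⟩ := hy
    obtain ⟨K₂, h₂⟩ := hz
    refine ⟨K₁ + K₂, fun k hk => ?_⟩
    obtain ⟨j, rfl⟩ : ∃ j, k = K₁ + j := ⟨k - K₁, by omega⟩
    have : x ^ (K₁ + j) * (y * z) = (x ^ K₁ * y) * (x ^ j * z) := by ring
    rw [this]
    exact Subalgebra.mul_mem _ (h₁ K₁ le_rfl) (h₂ j (by omega))

/-- `B_mid = B_fin[1/x]`: an element integral over `R[x, x⁻¹]` becomes integral over `R[x]`
after multiplication by a power of `x`. -/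
theorem exists_pow_mul_mem_chart {x : F} (hx : x ≠ 0) {y : F}
    (hy : y ∈ chart R ({x, x⁻¹} : Set F)) :
    ∃ K : ℕ, x ^ K * y ∈ chart R ({x} : Set F) := by
  classical
  set Af : Subalgebra R F := Algebra.adjoin R ({x} : Set F) with hAf
  set Am : Subalgebra R F := Algebra.adjoin R ({x, x⁻¹} : Set F) with hAm
  have hle : Af ≤ Am := Algebra.adjoin_mono (by simp)
  have hxA : x ∈ Af := Algebra.subset_adjoin rfl
  letI : Algebra Af Am := (Subalgebra.inclusion hle).toRingHom.toAlgebra
  haveI : IsScalarTower Af Am F := IsScalarTower.of_algebraMap_eq (fun _ => rfl)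
  let xf : Af := ⟨x, hxA⟩
  haveI : IsLocalization (Submonoid.powers xf) Am := by
    rw [isLocalization_iff]
    refine ⟨?_, ?_, ?_⟩
    · rintro ⟨_, n, rfl⟩
      have hxinv : x⁻¹ ∈ Am := Algebra.subset_adjoin (by simp)
      refine IsUnit.of_mul_eq_one (⟨x⁻¹, hxinv⟩ ^ n) ?_
      apply Subtype.ext
      change x ^ n * (x⁻¹) ^ n = 1
      rw [← mul_pow, mul_inv_cancel₀ hx, one_pow]
    · intro z
      obtain ⟨K, hK⟩ := exists_pow_mul_mem_adjoin (R := R) hx z.2
      refine ⟨⟨⟨x ^ K * z, hK K le_rfl⟩, ⟨xf ^ K, K, rfl⟩⟩, ?_⟩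
      apply Subtype.ext
      change (z : F) * x ^ K = x ^ K * z
      ring
    · intro a b hab
      refine ⟨1, ?_⟩
      have : (a : F) = b := congrArg (fun t : Am => (t : F)) hab
      rw [Subtype.ext this]
  obtain ⟨⟨_, n, rfl⟩, hm⟩ :=
    IsIntegral.exists_multiple_integral_of_isLocalization (Submonoid.powers xf) (Rₘ := Am)
      (S := F) y hy
  refine ⟨n, ?_⟩
  rw [mem_chart]
  have : (⟨xf ^ n, n, rfl⟩ : Submonoid.powers xf) • y = x ^ n * y := rfl
  rwa [this] at hm

/-- Every element of `B_fin` lies in `x ^ D • B_inf`. -/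
theorem exists_inv_pow_mul_mem_chart {x : F} (hx : x ≠ 0) {y : F}
    (hy : y ∈ chart R ({x} : Set F)) :
    ∃ D : ℕ, x⁻¹ ^ D * y ∈ chart R ({x⁻¹} : Set F) := by
  have h1 : y ∈ chart R ({x⁻¹, x⁻¹⁻¹} : Set F) := by
    refine chart_mono ?_ hy
    rw [inv_inv]
    simp
  exact exists_pow_mul_mem_chart (inv_ne_zero hx) h1

end Denominators

end Fermat.Agent.S18.H138

end
-- ===== PACK-END S18/H138/Charts.lean

-- ===== PACK-BEGIN S18/B12/Spec.lean
section


/-!
# S18, Route K, pieces b1 + b2 (squad S18/S33, squad-lead helper33) — FROZEN statements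

Everything here is Mathlib-only commutative algebra.  Each `def … : Prop` below is a statement to be
proved as `theorem <name> : <Statement>` in `Fermat/Agent/S18/B12/<Owner>/…`.
See `coord/S18-b1b2.md` (branch `helper33`) for the mathematics and the proof of each piece.

Notation: `R` = DVR `A'` with uniformiser `w`, fraction field `E` (char 0), residue field `k'`;
`B` = normal model, a finite `R[X]`-algebra (chart `B_fin`; the chart `B_inf` is the same thing with
`X = 1/x`).  `(Λ, t)` = a PID with a prime element (`(k'[X], x - c̄)` or `(E[X], x - c)`).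
-/

set_option autoImplicit false

noncomputable section

namespace Fermat.Agent.S18.B12

open Polynomial

universe u v

/-- **b1 (regular sequence).**  `B` integrally closed domain, integral over `R[X]` (`R` integrally
closed domain with `R[X]` integrally closed, e.g. a DVR), `w ≠ 0` a constant, `p` monic.
If `w * b = p * b'` in `B` then `b = p * b''` and `b' = w * b''`.
(So `p` is a non-zero-divisor on `B/wB` and `w` is a non-zero-divisor on `B/pB`.) -/
def RegSeqStatement : Prop :=
  ∀ (R : Type u) [CommRing R] [IsDomain R] [IsIntegrallyClosed R] [IsIntegrallyClosed R[X]]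
    (B : Type v) [CommRing B] [IsDomain B] [IsIntegrallyClosed B] [Algebra R[X] B]
    [Algebra.IsIntegral R[X] B] [Module.IsTorsionFree R[X] B]
    (w : R) (_ : w ≠ 0) (p : R[X]) (_ : p.Monic) (b b' : B),
    algebraMap R[X] B (C w) * b = algebraMap R[X] B p * b' →
    ∃ b'' : B, b = algebraMap R[X] B p * b'' ∧ b' = algebraMap R[X] B (C w) * b''

/-- **b1' (regular sequence, primitive version).**  Same with `p` primitive instead of monic
(`R` a DVR); needed for the primes `π` of `R[X]` in the branch-locus hypothesis. -/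
def RegSeqPrimStatement : Prop :=
  ∀ (R : Type u) [CommRing R] [IsDomain R] [IsDiscreteValuationRing R]
    (B : Type v) [CommRing B] [IsDomain B] [IsIntegrallyClosed B] [Algebra R[X] B]
    [Algebra.IsIntegral R[X] B] [Module.IsTorsionFree R[X] B]
    (w : R) (_ : w ≠ 0) (p : R[X]) (_ : p.IsPrimitive) (b b' : B),
    algebraMap R[X] B (C w) * b = algebraMap R[X] B p * b' →
    ∃ b'' : B, b = algebraMap R[X] B p * b'' ∧ b' = algebraMap R[X] B (C w) * b''

/-- **b2-ζ (reduced basis).**  A finite torsion-free algebra `R₁` over a DVR `R` has a family `y`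
which is `R`-linearly independent modulo nilpotents and spans `R₁` modulo nilpotents
(`R₁ / nilradical` is finite free). -/
def RedBasisStatement : Prop :=
  ∀ (R : Type u) [CommRing R] [IsDomain R] [IsPrincipalIdealRing R]
    (R₁ : Type v) [CommRing R₁] [Algebra R R₁] [Module.Finite R R₁] [Module.IsTorsionFree R R₁],
    ∃ (r : ℕ) (y : Fin r → R₁),
      (∀ a : Fin r → R, IsNilpotent (∑ i, a i • y i) → a = 0) ∧
      (∀ x : R₁, ∃ a : Fin r → R, IsNilpotent (x - ∑ i, a i • y i))

/-- **b2-SF (special fibre, two lattices).**  `Λ` a PID, `t` prime.  `C ≤ Ct` two `Λ`-subalgebras of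
a commutative `Λ`-algebra `L`, both free of rank `n`.  If `(C/tC)_red` is spanned by `s` elements
over `Λ/t` and `t ^ (n - s + 1)` does not divide `disc(C/Λ) ≠ 0`, then `C = Ct` locally at `t`. -/
def SFLatticeStatement : Prop :=
  ∀ (Λ : Type u) [CommRing Λ] [IsDomain Λ] [IsPrincipalIdealRing Λ] (t : Λ) (_ : Prime t)
    (L : Type v) [CommRing L] [Algebra Λ L] (C Ct : Subalgebra Λ L) (_ : C ≤ Ct)
    (n : ℕ) (b : Module.Basis (Fin n) Λ C) (_ : Module.Basis (Fin n) Λ Ct)
    (s : ℕ) (y : Fin s → C)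
    (_ : ∀ x : C, ∃ a : Fin s → Λ,
        x - ∑ i, a i • y i ∈ (Ideal.span {algebraMap Λ C t}).radical),
    Algebra.discr Λ b ≠ 0 → ¬ t ^ (n - s + 1) ∣ Algebra.discr Λ b →
    ∀ x ∈ Ct, ∃ g : Λ, ¬ t ∣ g ∧ g • x ∈ C

/-- **b2-SF' (special fibre, idempotent form).**  Same hypotheses on `C`; `ε ∈ L` idempotent with
`g₀ • ε ∈ C` for some `g₀ ≠ 0`, `L` torsion-free over `Λ`.  Then `g • ε ∈ C` for some `g ∉ (t)`. -/
def SFIdemStatement : Prop :=
  ∀ (Λ : Type u) [CommRing Λ] [IsDomain Λ] [IsPrincipalIdealRing Λ] (t : Λ) (_ : Prime t)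
    (L : Type v) [CommRing L] [Algebra Λ L] [Module.IsTorsionFree Λ L] (C : Subalgebra Λ L)
    (n : ℕ) (b : Module.Basis (Fin n) Λ C)
    (s : ℕ) (y : Fin s → C)
    (_ : ∀ x : C, ∃ a : Fin s → Λ,
        x - ∑ i, a i • y i ∈ (Ideal.span {algebraMap Λ C t}).radical),
    Algebra.discr Λ b ≠ 0 → ¬ t ^ (n - s + 1) ∣ Algebra.discr Λ b →
    ∀ ε : L, ε * ε = ε → (∃ g₀ : Λ, g₀ ≠ 0 ∧ g₀ • ε ∈ C) → ∃ g : Λ, ¬ t ∣ g ∧ g • ε ∈ C

/-- **b2-α (tame discriminant).**  `Λ` a PID, `t` prime with residue field of characteristic `0`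
(`ℚ ⊆ Λ`).  `C₀` a Dedekind domain, finite free over `Λ` of rank `n` with basis `β`.  If `y` is a
family of `r` elements of `C₀` that is `Λ/t`-linearly independent modulo `rad(t C₀)`, then
`t ^ (n - r + 1)` does not divide `disc(β)`.
(Char 0 ⇒ tame: the exponent of `t` in the discriminant is exactly `n - dim (C₀/t)_red`.) -/
def TameDiscrStatement : Prop :=
  ∀ (Λ : Type u) [CommRing Λ] [IsDomain Λ] [IsPrincipalIdealRing Λ] [Algebra ℚ Λ]
    (t : Λ) (_ : Prime t)
    (C₀ : Type v) [CommRing C₀] [IsDomain C₀] [IsDedekindDomain C₀] [Algebra Λ C₀]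
    [Module.IsTorsionFree Λ C₀]
    (n : ℕ) (β : Module.Basis (Fin n) Λ C₀) (r : ℕ) (y : Fin r → C₀)
    (_ : ∀ a : Fin r → Λ,
        (∑ i, a i • y i) ∈ (Ideal.span {algebraMap Λ C₀ t}).radical → ∀ i, t ∣ a i),
    ¬ t ^ (n - r + 1) ∣ Algebra.discr Λ β

/-- **b2 (normality of the special fibre; TOP LEVEL of this squad).**
`R` DVR of characteristic 0, uniformiser `w`; `B` an integrally closed domain, finite over `R[X]`.
* `hsep`: some `n`-tuple of `B` (`n` = generic degree) has discriminant `≢ 0 mod w`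
  (the special fibre is generically étale over `k'[x]`);
* `S`: the finite branch values, pairwise distinct mod `w`;
* `hNC`: for every prime `π` of `R[X]` other than `w` and the `X - c`, `c ∈ S`, the fibre `B/πB`
  is reduced (`F/E(x)` is unramified outside `S ∪ {∞}`).
Conclusion: every idempotent `b/g` of the total fraction ring of `B/wB` lies in `B/wB`. -/
def B2Statement : Prop :=
  ∀ (R : Type u) [CommRing R] [IsDomain R] [IsDiscreteValuationRing R] [CharZero R]
    (w : R) (_ : Irreducible w)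
    (B : Type v) [CommRing B] [IsDomain B] [IsIntegrallyClosed B] [Algebra R[X] B]
    [Module.Finite R[X] B] [Module.IsTorsionFree R[X] B]
    (_ : ∃ x : Fin (Module.finrank R[X] B) → B,
        ¬ C w ∣ (Matrix.of fun i j => Algebra.intTrace R[X] B (x i * x j)).det)
    (S : Finset R) (_ : ∀ c ∈ S, ∀ c' ∈ S, c ≠ c' → IsUnit (c - c'))
    (_ : ∀ π : R[X], Prime π → ¬ Associated π (C w) → (∀ c ∈ S, ¬ Associated π (X - C c)) →
        (Ideal.span {algebraMap R[X] B π}).IsRadical)
    (b : B) (g : R[X]), ¬ C w ∣ g →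
      b ^ 2 - algebraMap R[X] B g * b ∈ Ideal.span {algebraMap R[X] B (C w)} →
      ∃ b₀ : B, b - algebraMap R[X] B g * b₀ ∈ Ideal.span {algebraMap R[X] B (C w)}

end Fermat.Agent.S18.B12

end
end
-- ===== PACK-END S18/B12/Spec.lean

-- ===== PACK-BEGIN S18/H203/IntegralDiv.lean
section


/-!
# S18 / b1 (helper203): divisibility by a prime element in an integral closure

`S` an integrally closed domain with fraction field `K`, `w ∈ S` a prime element, `t ∈ S` with
`w ∤ t`, `F / K` a field extension.  If `w z` and `t z` are integral over `S` for some `z ∈ F`,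
then `z` is integral over `S`.

Consequence (`dvd_of_dvd_smul`): in the integral closure `B` of `S` in `F`,
`w ∣ t • b → w ∣ b`; i.e. `B / w B` is a torsion-free `S / w S`-module
(`(w, t)` is a regular sequence on `B`).
-/

set_option autoImplicit false

namespace Fermat.Agent.S18.H203

open Polynomial

section Prime

variable {S : Type*} [CommRing S] [IsDomain S]

/-- If `w` is prime, `w ∤ t` and `w ^ i ∣ t ^ i * a`, then `w ^ i ∣ a`. -/
theorem pow_dvd_of_pow_dvd_pow_mul {w t : S} (hw : Prime w) (ht : ¬ w ∣ t) (i j : ℕ) {a : S}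
    (h : w ^ i ∣ t ^ j * a) : w ^ i ∣ a :=
  hw.pow_dvd_of_dvd_mul_left i (fun h' => ht (hw.dvd_of_dvd_pow h')) h

end Prime

section Field

variable {S K : Type*} [CommRing S] [IsDomain S] [Field K] [Algebra S K] [IsFractionRing S K]

/-- An element `c` of the fraction field with `w ^ i * c ∈ S` and `t ^ i * c ∈ S`, where `w` is
prime and `w ∤ t`, lies in `S`. -/
theorem mem_range_of_pow_mul_mem {w t : S} (hw : Prime w) (ht : ¬ w ∣ t) (i : ℕ) (c : K)
    (h1 : algebraMap S K w ^ i * c ∈ (algebraMap S K).range)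
    (h2 : algebraMap S K t ^ i * c ∈ (algebraMap S K).range) :
    c ∈ (algebraMap S K).range := by
  obtain ⟨a, ha⟩ := h1
  obtain ⟨a', ha'⟩ := h2
  have hinj : Function.Injective (algebraMap S K) := IsFractionRing.injective S K
  have hw0 : algebraMap S K w ≠ 0 := by
    simpa using (map_ne_zero_iff _ hinj).mpr hw.ne_zero
  -- `t ^ i * a = w ^ i * a'`
  have hrel : t ^ i * a = w ^ i * a' := by
    apply hinj
    simp only [map_mul, map_pow, ha, ha']
    ring
  have hdvd : w ^ i ∣ a := pow_dvd_of_pow_dvd_pow_mul hw ht i i ⟨a', hrel⟩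
  obtain ⟨s, rfl⟩ := hdvd
  refine ⟨s, ?_⟩
  have h3 : algebraMap S K w ^ i * algebraMap S K s = algebraMap S K w ^ i * c := by
    rw [← ha, map_mul, map_pow]
  exact mul_left_cancel₀ (pow_ne_zero i hw0) h3

end Field

section Integral

variable {S K F : Type*} [CommRing S] [IsDomain S] [IsIntegrallyClosed S]
  [Field K] [Algebra S K] [IsFractionRing S K]
  [Field F] [Algebra K F] [Algebra S F] [IsScalarTower S K F]

omit [IsIntegrallyClosed S] [IsDomain S] [IsFractionRing S K] in
/-- A monic polynomial over `K` all of whose coefficients lie in `S` is the image of a monic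
polynomial over `S`. -/
theorem exists_monic_map_eq {P : K[X]} (hP : P.Monic)
    (hc : ∀ n, P.coeff n ∈ (algebraMap S K).range) :
    ∃ Q : S[X], Q.Monic ∧ Q.map (algebraMap S K) = P := by
  have hl : P ∈ Polynomial.lifts (algebraMap S K) := by
    rw [Polynomial.lifts_iff_coeff_lifts]
    intro n
    obtain ⟨a, ha⟩ := hc n
    exact ⟨a, ha⟩
  obtain ⟨Q, hQ, -, hQm⟩ := Polynomial.lifts_and_degree_eq_and_monic hl hP
  exact ⟨Q, hQm, hQ⟩

/-- The coefficients of the minimal polynomial over `K` of `a • z` (`a ∈ S` nonzero, `a • z`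
integral over `S`) : `coeff i * a ^ (d - i) ∈ S`. -/
theorem coeff_minpoly_mul_pow_mem {a : S} (ha : a ≠ 0) {z : F} (hz : IsIntegral K z)
    (haz : IsIntegral S (algebraMap S F a * z)) (i : ℕ) :
    (minpoly K z).coeff i * algebraMap S K a ^ ((minpoly K z).natDegree - i) ∈
      (algebraMap S K).range := by
  have hinj : Function.Injective (algebraMap S K) := IsFractionRing.injective S K
  have ha0 : algebraMap S K a ≠ 0 := by
    simpa using (map_ne_zero_iff _ hinj).mpr ha
  -- minimal polynomial of `a • z` over `K`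
  have h1 : minpoly K (algebraMap S K a • z) = (minpoly K z).scaleRoots (algebraMap S K a) :=
    IsIntegrallyClosed.minpoly_smul ha0 hz
  have h2 : algebraMap S K a • z = algebraMap S F a * z := by
    rw [Algebra.smul_def, ← IsScalarTower.algebraMap_apply]
  rw [h2] at h1
  have h3 : minpoly K (algebraMap S F a * z) =
      (minpoly S (algebraMap S F a * z)).map (algebraMap S K) :=
    minpoly.isIntegrallyClosed_eq_field_fractions' K haz
  have h4 : ((minpoly K z).scaleRoots (algebraMap S K a)).coeff i =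
      (minpoly K z).coeff i * algebraMap S K a ^ ((minpoly K z).natDegree - i) :=
    Polynomial.coeff_scaleRoots _ _ _
  rw [← h4, ← h1, h3, Polynomial.coeff_map]
  exact ⟨_, rfl⟩

/-- **Key lemma.**  If `w z` and `t z` are integral over the integrally closed domain `S`, where
`w` is a prime element and `w ∤ t`, then `z` is integral over `S`. -/
theorem isIntegral_of_isIntegral_mul (K : Type*) [Field K] [Algebra S K] [IsFractionRing S K]
    [Algebra K F] [IsScalarTower S K F] {w t : S} (hw : Prime w) (ht : ¬ w ∣ t) {z : F}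
    (h1 : IsIntegral S (algebraMap S F w * z)) (h2 : IsIntegral S (algebraMap S F t * z)) :
    IsIntegral S z := by
  have hinjK : Function.Injective (algebraMap S K) := IsFractionRing.injective S K
  have hw0 : algebraMap S K w ≠ 0 := by
    simpa using (map_ne_zero_iff _ hinjK).mpr hw.ne_zero
  have hwF : algebraMap S F w ≠ 0 := by
    rw [IsScalarTower.algebraMap_apply S K F]
    simpa using (map_ne_zero_iff _ (algebraMap K F).injective).mpr hw0
  have ht0 : t ≠ 0 := fun h => ht (h ▸ dvd_zero w)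
  -- `z` is integral (algebraic) over `K`
  have hzK : IsIntegral K z := by
    have h3 : IsIntegral K (algebraMap S F w * z) := h1.tower_top
    have h4 : IsIntegral K (algebraMap K F (algebraMap S K w)⁻¹) := isIntegral_algebraMap
    have h5 := h4.mul h3
    rw [map_inv₀, ← IsScalarTower.algebraMap_apply S K F, inv_mul_cancel_left₀ hwF] at h5
    exact h5
  -- all coefficients of the minimal polynomial lie in `S`
  have hcoeff : ∀ n, (minpoly K z).coeff n ∈ (algebraMap S K).range := by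
    intro n
    have e1 := coeff_minpoly_mul_pow_mem (K := K) hw.ne_zero hzK h1 n
    have e2 := coeff_minpoly_mul_pow_mem (K := K) ht0 hzK h2 n
    rw [mul_comm] at e1 e2
    exact mem_range_of_pow_mul_mem hw ht _ _ e1 e2
  obtain ⟨Q, hQm, hQ⟩ := exists_monic_map_eq (minpoly.monic hzK) hcoeff
  refine ⟨Q, hQm, ?_⟩
  have h6 : Polynomial.aeval z (Q.map (algebraMap S K)) = 0 := by
    rw [hQ]; exact minpoly.aeval K z
  rwa [Polynomial.aeval_map_algebraMap] at h6

end Integral

end Fermat.Agent.S18.H203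

end
-- ===== PACK-END S18/H203/IntegralDiv.lean

-- ===== PACK-BEGIN S18/H274/DetRank.lean
section


/-!
# S18 / b2 (helper274) — DET-RANK

Mathlib-only linear algebra.  `R` a commutative ring, `π : R →+* K` a surjection onto a field
whose kernel is contained in `(t)`.  If the reduction `M.map π` of a square matrix `M` kills `s`
linearly independent vectors, then `t ^ s ∣ det M`.

Main statements (all sorry-free):

* `pow_card_dvd_det_of_col_dvd` : columns in a finset `S` divisible by `t`  ⇒ `t ^ #S ∣ det`.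
* `pow_dvd_det_of_linearIndependent_ker` : the elementwise kernel form.
* `pow_sub_rank_dvd_det` : `t ^ (card n - rank (M.map π)) ∣ det M`.
-/

namespace Fermat.Agent.S18.H274

open Matrix Module

variable {R : Type*} [CommRing R]

/-- If all columns with index in `S` of a square matrix are divisible by `t`, then
`t ^ #S` divides the determinant. -/
theorem pow_card_dvd_det_of_col_dvd {n : Type*} [Fintype n] [DecidableEq n]
    (t : R) (N : Matrix n n R) (S : Finset n) (h : ∀ j ∈ S, ∀ i, t ∣ N i j) :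
    t ^ S.card ∣ N.det := by
  classical
  choose! Q hQ using h
  let Q' : Matrix n n R := fun i j => if j ∈ S then Q j i else N i j
  let d : n → R := fun j => if j ∈ S then t else 1
  have hN : N = Q' * Matrix.diagonal d := by
    ext i j
    rw [Matrix.mul_diagonal]
    by_cases hj : j ∈ S
    · simp only [Q', d, hj, if_true]
      rw [hQ j hj i, mul_comm]
    · simp [Q', d, hj]
  have hd : ∏ j, d j = t ^ S.card := by
    simp only [d]
    rw [Finset.prod_ite_mem, Finset.univ_inter, Finset.prod_const]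
  rw [hN, Matrix.det_mul, Matrix.det_diagonal, hd]
  exact Dvd.intro_left _ rfl

/-- **DET-RANK, kernel form.**  `π : R →+* K` a surjection onto a field with `ker π ⊆ (t)`.
If the reduced matrix `M.map π` kills `s` linearly independent vectors then `t ^ s ∣ det M`. -/
theorem pow_dvd_det_of_linearIndependent_ker {K : Type*} [Field K] (π : R →+* K)
    (hπ : Function.Surjective π) (t : R) (hker : ∀ x, π x = 0 → t ∣ x)
    {n : Type*} [Fintype n] [DecidableEq n] (M : Matrix n n R) {s : ℕ}
    (v : Fin s → n → K) (hv : LinearIndependent K v)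
    (hMv : ∀ a, (M.map π).mulVec (v a) = 0) :
    t ^ s ∣ M.det := by
  classical
  -- extend `v` to a basis of `n → K`
  have hs := hv.linearIndepOn_id
  let B := Basis.extend hs
  have hB : ∀ x, B x = (x : n → K) := fun x => by rw [Basis.coe_extend]
  have hsub : Set.range v ⊆ hs.extend (Set.subset_univ _) := hs.subset_extend _
  let _ : Fintype (hs.extend (Set.subset_univ (Set.range v))) :=
    FiniteDimensional.fintypeBasisIndex B
  let e : n ≃ (hs.extend (Set.subset_univ (Set.range v))) := (Pi.basisFun K n).indexEquiv B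
  -- the matrix of the new basis and a lift
  let Pbar : Matrix n n K := fun i j => (e j : n → K) i
  have hPbar_unit : IsUnit Pbar.det := by
    rw [← Matrix.isUnit_iff_isUnit_det, ← Matrix.linearIndependent_cols_iff_isUnit]
    have h1 : LinearIndependent K (fun j => B (e j)) :=
      B.linearIndependent.comp e e.injective
    have h2 : Pbar.col = fun j => B (e j) := by
      funext j
      rw [hB]
      rfl
    rw [h2]
    exact h1
  let P : Matrix n n R := fun i j => Classical.choose (hπ (Pbar i j))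
  have hP : P.map π = Pbar := by
    ext i j
    exact Classical.choose_spec (hπ (Pbar i j))
  -- the set of columns coming from `v`
  let S : Finset n := Finset.univ.image (fun a : Fin s => e.symm ⟨v a, hsub ⟨a, rfl⟩⟩)
  have hScard : S.card = s := by
    rw [Finset.card_image_of_injective]
    · simp
    · intro a a' h
      have := e.symm.injective h
      exact hv.injective (Subtype.mk.inj this)
  have hcol : ∀ j ∈ S, ∀ i, t ∣ (M * P) i j := by
    intro j hj i
    obtain ⟨a, -, rfl⟩ := Finset.mem_image.mp hj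
    apply hker
    rw [RingHom.map_matrix_mul, hP]
    have h3 := congrFun (hMv a) i
    simp only [Matrix.mulVec, dotProduct, Pi.zero_apply] at h3
    rw [Matrix.mul_apply]
    simp only [Pbar, Equiv.apply_symm_apply]
    exact h3
  have h4 := pow_card_dvd_det_of_col_dvd t (M * P) S hcol
  rw [hScard, Matrix.det_mul] at h4
  -- `det P` is coprime to `t`
  have hdetP : π P.det = Pbar.det := by
    rw [RingHom.map_det, RingHom.mapMatrix_apply, hP]
  obtain ⟨y, hy⟩ := hπ (↑hPbar_unit.unit⁻¹ : K)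
  have h5 : π (y * P.det - 1) = 0 := by
    rw [map_sub, map_mul, hy, hdetP, map_one, sub_eq_zero]
    exact hPbar_unit.val_inv_mul
  obtain ⟨z, hz⟩ := hker _ h5
  have hcop : IsCoprime t P.det := ⟨-z, y, by linear_combination hz⟩
  exact (hcop.pow_left).dvd_of_dvd_mul_right h4

/-- **DET-RANK, rank form.**  `t ^ (card n - rank (M mod t)) ∣ det M`. -/
theorem pow_sub_rank_dvd_det {K : Type*} [Field K] (π : R →+* K)
    (hπ : Function.Surjective π) (t : R) (hker : ∀ x, π x = 0 → t ∣ x)
    {n : Type*} [Fintype n] [DecidableEq n] (M : Matrix n n R) :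
    t ^ (Fintype.card n - (M.map π).rank) ∣ M.det := by
  classical
  let f := (M.map π).mulVecLin
  have hrn := LinearMap.finrank_range_add_finrank_ker f
  have hrank : (M.map π).rank = finrank K (LinearMap.range f) := rfl
  have hcard : finrank K (n → K) = Fintype.card n := Module.finrank_fintype_fun_eq_card K
  have hk : finrank K (LinearMap.ker f) = Fintype.card n - (M.map π).rank := by
    rw [hrank]; omega
  let b := Module.finBasis K (LinearMap.ker f)
  rw [← hk]
  refine pow_dvd_det_of_linearIndependent_ker π hπ t hker M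
    (fun a => ((b a : LinearMap.ker f) : n → K)) ?_ ?_
  · have := b.linearIndependent
    exact this.map' (LinearMap.ker f).subtype (Submodule.ker_subtype _)
  · intro a
    have := (b a).2
    rw [LinearMap.mem_ker] at this
    exact this

end Fermat.Agent.S18.H274

end
-- ===== PACK-END S18/H274/DetRank.lean

-- ===== PACK-BEGIN S18/H274/Dedekind.lean
section


/-!
# S18 / b2 (helper274) — a Bezout-type splitting in Dedekind domains

Mathlib-only.  For `p q : C` in a Dedekind domain with `q ≠ 0` (think of the fraction `u = p/q`),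
the fractional ideal `C + C u` is invertible; unwinding `1 ∈ (C + C u) (C + C u)⁻¹` gives
elements `β₀ β₀' z z₁ : C` with

  `β₀ + z = 1`,  `z * q = β₀' * p`  (`z = β₀' u`),  `z₁ * q = β₀ * p`  (`z₁ = β₀ u`).

This is the only place where the TAME discriminant bound uses that `C` is integrally closed.
-/

namespace Fermat.Agent.S18.H274

open scoped nonZeroDivisors

theorem exists_split_of_isDedekindDomain {C : Type*} [CommRing C] [IsDedekindDomain C]
    (p q : C) (hq : q ≠ 0) :
    ∃ β₀ β₀' z z₁ : C, β₀ + z = 1 ∧ z * q = β₀' * p ∧ z₁ * q = β₀ * p := by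
  classical
  let K := FractionRing C
  have hinj : Function.Injective (algebraMap C K) := IsFractionRing.injective C K
  have hqK : algebraMap C K q ≠ 0 := fun h => hq (hinj (by rw [h, map_zero]))
  let u : K := algebraMap C K p / algebraMap C K q
  let 𝔟 : FractionalIdeal C⁰ K := 1 + FractionalIdeal.spanSingleton C⁰ u
  have h1𝔟 : (1 : K) ∈ 𝔟 := by
    rw [FractionalIdeal.mem_add]
    exact ⟨1, FractionalIdeal.one_mem_one _, 0, Submodule.zero_mem _, add_zero 1⟩
  have hu𝔟 : u ∈ 𝔟 := by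
    rw [FractionalIdeal.mem_add]
    exact ⟨0, Submodule.zero_mem _, u, FractionalIdeal.mem_spanSingleton_self _ u, zero_add u⟩
  have h𝔟 : 𝔟 ≠ 0 := by
    intro h
    rw [h] at h1𝔟
    exact one_ne_zero ((FractionalIdeal.mem_zero_iff _).mp h1𝔟)
  have hinv : 𝔟 * 𝔟⁻¹ = 1 := mul_inv_cancel₀ h𝔟
  have h1 : (1 : K) ∈ 𝔟 * 𝔟⁻¹ := by
    rw [hinv]
    exact FractionalIdeal.one_mem_one _
  have hsplit : 𝔟 * 𝔟⁻¹ = 𝔟⁻¹ + FractionalIdeal.spanSingleton C⁰ u * 𝔟⁻¹ := by
    simp only [𝔟, add_mul, one_mul]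
  rw [hsplit, FractionalIdeal.mem_add] at h1
  obtain ⟨p₁, hp₁, q₁, hq₁, hsum⟩ := h1
  rw [FractionalIdeal.mem_singleton_mul] at hq₁
  obtain ⟨β', hβ', rfl⟩ := hq₁
  rw [FractionalIdeal.mem_inv_iff h𝔟] at hp₁ hβ'
  obtain ⟨β₀, hβ₀⟩ := (FractionalIdeal.mem_one_iff _).mp (hp₁ 1 h1𝔟)
  obtain ⟨z₁, hz₁⟩ := (FractionalIdeal.mem_one_iff _).mp (hp₁ u hu𝔟)
  obtain ⟨β₀', hβ₀'⟩ := (FractionalIdeal.mem_one_iff _).mp (hβ' 1 h1𝔟)
  obtain ⟨z, hz⟩ := (FractionalIdeal.mem_one_iff _).mp (hβ' u hu𝔟)
  rw [mul_one] at hβ₀ hβ₀'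
  refine ⟨β₀, β₀', z, z₁, ?_, ?_, ?_⟩
  · apply hinj
    rw [map_add, map_one, hβ₀, hz, ← hsum, mul_comm]
  · apply hinj
    rw [map_mul, map_mul, hz, hβ₀']
    simp only [u]
    rw [mul_assoc, div_mul_cancel₀ _ hqK]
  · apply hinj
    rw [map_mul, map_mul, hz₁, hβ₀]
    simp only [u]
    rw [mul_assoc, div_mul_cancel₀ _ hqK]

end Fermat.Agent.S18.H274

end
-- ===== PACK-END S18/H274/Dedekind.lean

-- ===== PACK-BEGIN S18/B12/H84/IntClosed.lean
section


/-!
# S18 / b2.5 / A8 (helper84): normality from the discriminant bounds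

`intClosedOfDiscr_of_sfLattice : SFLatticeHyp → (IntClosedOfDiscrStatement, unfolded)`,
Mathlib-only; `SFLatticeHyp` is a verbatim copy of `SFLatticeStatement` of `origin/helper33`
`Fermat/Agent/S18/B12/Spec.lean`.  The `Spec`-typed wrapper
`SFLatticeStatement → IntClosedOfDiscrStatement` is `Fermat/Agent/S18/B12/H84/Stmt.lean`.

`Λ` a PID, `C` a domain, free of rank `n` over `Λ` with `disc ≠ 0`, such that at every prime `t`
of `Λ` the reduced fibre `(C/tC)_red` is spanned by `s` elements and `t ^ (n - s + 1) ∤ disc`.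
Then `C` is integrally closed.

Proof: for `f ∈ Frac C` integral over `C`, the ring `C[f]` is a free `Λ`-module of rank `n`
containing `C`; Theorem L (`SFLatticeStatement`) gives for every prime `t` a denominator
`g ∉ (t)` with `g f ∈ C`; the ideal of denominators of `f` contains a nonzero element and lies in
no maximal ideal of the PID `Λ`, so it is the unit ideal.
-/

set_option autoImplicit false

namespace Fermat.Agent.S18.B12.H84

universe u v

/-- In a PID, an ideal containing a nonzero element and, for every prime `t`, an element not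
divisible by `t`, is the unit ideal. -/
theorem ideal_eq_top_of_forall_prime {Λ : Type u} [CommRing Λ] [IsDomain Λ]
    [IsPrincipalIdealRing Λ] (I : Ideal Λ) (h0 : ∃ d ∈ I, d ≠ 0)
    (h : ∀ t : Λ, Prime t → ∃ g ∈ I, ¬ t ∣ g) : I = ⊤ := by
  by_contra hI
  obtain ⟨𝔭, h𝔭, hle⟩ := Ideal.exists_le_maximal I hI
  have hgen : Ideal.span {Submodule.IsPrincipal.generator 𝔭} = 𝔭 :=
    Ideal.span_singleton_generator 𝔭
  set t := Submodule.IsPrincipal.generator 𝔭 with ht_def
  by_cases ht : t = 0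
  · obtain ⟨d, hd, hd0⟩ := h0
    have h1 : d ∈ 𝔭 := hle hd
    rw [← hgen, ht, Ideal.mem_span_singleton, zero_dvd_iff] at h1
    exact hd0 h1
  · have hp : Prime t := by
      rw [← Ideal.span_singleton_prime ht, hgen]
      exact h𝔭.isPrime
    obtain ⟨g, hg, hgt⟩ := h t hp
    have h1 : g ∈ 𝔭 := hle hg
    rw [← hgen, Ideal.mem_span_singleton] at h1
    exact hgt h1

/-- Every element of the fraction field of a domain `C` algebraic over `Λ` has a nonzero
denominator in `Λ`. -/
theorem exists_smul_mem_range {Λ : Type u} [CommRing Λ] [IsDomain Λ] {C : Type v} [CommRing C]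
    [IsDomain C] [Algebra Λ C] [Algebra.IsAlgebraic Λ C] (x : FractionRing C) :
    ∃ d : Λ, d ≠ 0 ∧ ∃ c : C, d • x = algebraMap C (FractionRing C) c := by
  obtain ⟨a, b, hb, rfl⟩ := IsFractionRing.div_surjective C x
  have hb0 : b ≠ 0 := nonZeroDivisors.ne_zero hb
  obtain ⟨r, hr, c, hc⟩ := (Algebra.IsAlgebraic.isAlgebraic (R := Λ) b).exists_nonzero_dvd hb
  refine ⟨r, hr, c * a, ?_⟩
  have hbK : algebraMap C (FractionRing C) b ≠ 0 := by
    intro h
    exact hb0 ((IsFractionRing.injective C (FractionRing C)) (h.trans (map_zero _).symm))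
  rw [Algebra.smul_def, IsScalarTower.algebraMap_apply Λ C (FractionRing C), hc, map_mul, map_mul]
  field_simp

/-- Verbatim copy of `B12.SFLatticeStatement` (Theorem L, two-lattice form). -/
def SFLatticeHyp : Prop :=
  ∀ (Λ : Type u) [CommRing Λ] [IsDomain Λ] [IsPrincipalIdealRing Λ] (t : Λ) (_ : Prime t)
    (L : Type v) [CommRing L] [Algebra Λ L] (C Ct : Subalgebra Λ L) (_ : C ≤ Ct)
    (n : ℕ) (b : Module.Basis (Fin n) Λ C) (_ : Module.Basis (Fin n) Λ Ct)
    (s : ℕ) (y : Fin s → C)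
    (_ : ∀ x : C, ∃ a : Fin s → Λ,
        x - ∑ i, a i • y i ∈ (Ideal.span {algebraMap Λ C t}).radical),
    Algebra.discr Λ b ≠ 0 → ¬ t ^ (n - s + 1) ∣ Algebra.discr Λ b →
    ∀ x ∈ Ct, ∃ g : Λ, ¬ t ∣ g ∧ g • x ∈ C

/-- **A8** from Theorem L: `SFLatticeStatement → IntClosedOfDiscrStatement` (unfolded). -/
theorem intClosedOfDiscr_of_sfLattice (hSF : SFLatticeHyp.{u, v})
    (Λ : Type u) [CommRing Λ] [IsDomain Λ] [IsPrincipalIdealRing Λ]
    (C : Type v) [CommRing C] [IsDomain C] [Algebra Λ C] (n : ℕ) (b : Module.Basis (Fin n) Λ C)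
    (hdisc : Algebra.discr Λ b ≠ 0)
    (hbound : ∀ t : Λ, Prime t → ∃ (s : ℕ) (y : Fin s → C),
      (∀ c : C, ∃ a : Fin s → Λ,
        c - ∑ i, a i • y i ∈ (Ideal.span {algebraMap Λ C t}).radical) ∧
      ¬ t ^ (n - s + 1) ∣ Algebra.discr Λ b) :
    IsIntegrallyClosed C := by
  classical
  have : Module.Free Λ C := Module.Free.of_basis b
  have : Module.Finite Λ C := Module.Finite.of_basis b
  have hinj : Function.Injective (algebraMap Λ C) := FaithfulSMul.algebraMap_injective Λ C
  have : Algebra.IsIntegral Λ C := Algebra.IsIntegral.of_finite Λ C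
  have : Algebra.IsAlgebraic Λ C := Algebra.IsIntegral.isAlgebraic
  have hinjK : Function.Injective (algebraMap Λ (FractionRing C)) := by
    rw [IsScalarTower.algebraMap_eq Λ C (FractionRing C)]
    exact (IsFractionRing.injective C (FractionRing C)).comp hinj
  have htfK : Module.IsTorsionFree Λ (FractionRing C) := by
    refine Module.IsTorsionFree.of_smul_eq_zero fun r m hrm => ?_
    rw [Algebra.smul_def, mul_eq_zero] at hrm
    rcases hrm with h | h
    · exact Or.inl (hinjK (h.trans (map_zero _).symm))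
    · exact Or.inr h
  refine (isIntegrallyClosed_iff (FractionRing C)).mpr fun {f} hf => ?_
  have hfΛ : IsIntegral Λ f := isIntegral_trans f hf
  -- the two lattices
  let φ : C →ₐ[Λ] FractionRing C := IsScalarTower.toAlgHom Λ C (FractionRing C)
  have hφ : Function.Injective φ := IsFractionRing.injective C (FractionRing C)
  let e : C ≃ₐ[Λ] φ.range := AlgEquiv.ofInjective φ hφ
  have hle : φ.range ≤ φ.range ⊔ Algebra.adjoin Λ {f} := le_sup_left
  have hfCt : f ∈ φ.range ⊔ Algebra.adjoin Λ {f} :=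
    (le_sup_right : Algebra.adjoin Λ {f} ≤ φ.range ⊔ Algebra.adjoin Λ {f})
      (Algebra.self_mem_adjoin_singleton Λ f)
  have : Module.Finite Λ φ.range := Module.Finite.equiv e.toLinearEquiv
  have : Module.Finite Λ (Algebra.adjoin Λ {f}) :=
    Module.Finite.iff_fg.mpr hfΛ.fg_adjoin_singleton
  have hfinCt : Module.Finite Λ ↥(φ.range ⊔ Algebra.adjoin Λ {f}) := Subalgebra.finite_sup _ _
  have : Module.IsTorsionFree Λ ↥(φ.range ⊔ Algebra.adjoin Λ {f}) :=
    Function.Injective.moduleIsTorsionFree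
      (fun z : ↥(φ.range ⊔ Algebra.adjoin Λ {f}) => (z : FractionRing C))
      Subtype.val_injective (fun _ _ => rfl)
  have : Module.Free Λ ↥(φ.range ⊔ Algebra.adjoin Λ {f}) :=
    Module.free_of_finite_type_torsion_free'
  have hrank0 : Module.finrank Λ φ.range = n := by
    rw [← e.toLinearEquiv.finrank_eq, Module.finrank_eq_card_basis b, Fintype.card_fin]
  -- a common denominator
  have hd : ∃ d : Λ, d ≠ 0 ∧ ∀ x ∈ φ.range ⊔ Algebra.adjoin Λ {f}, d • x ∈ φ.range := by
    have hfg : (Subalgebra.toSubmodule (φ.range ⊔ Algebra.adjoin Λ {f})).FG :=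
      Module.Finite.iff_fg.mp hfinCt
    obtain ⟨S, hS⟩ := hfg
    choose dx hdx0 cx hcx using fun x : FractionRing C => exists_smul_mem_range (Λ := Λ) x
    refine ⟨∏ x ∈ S, dx x, Finset.prod_ne_zero_iff.mpr fun x _ => hdx0 x, fun x hx => ?_⟩
    have hx' : x ∈ Submodule.span Λ (S : Set (FractionRing C)) := by
      rw [hS]; exact hx
    refine Submodule.span_induction (p := fun z _ => (∏ x ∈ S, dx x) • z ∈ φ.range)
      ?_ ?_ ?_ ?_ hx'
    · intro z hz
      have hzS : z ∈ S := hz
      rw [← Finset.mul_prod_erase S dx hzS, mul_comm, mul_smul, hcx z]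
      have hmem : algebraMap C (FractionRing C) (cx z) ∈ φ.range := ⟨cx z, rfl⟩
      exact Subalgebra.smul_mem _ hmem _
    · rw [smul_zero]; exact Subalgebra.zero_mem _
    · intro y z _ _ hy hz
      rw [smul_add]; exact Subalgebra.add_mem _ hy hz
    · intro a y _ hy
      rw [smul_comm]; exact Subalgebra.smul_mem _ hy _
  obtain ⟨d, hd0, hd⟩ := hd
  have hrank : Module.finrank Λ ↥(φ.range ⊔ Algebra.adjoin Λ {f}) = n := by
    apply le_antisymm
    · rw [← hrank0]
      let μ : ↥(φ.range ⊔ Algebra.adjoin Λ {f}) →ₗ[Λ] φ.range :=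
        { toFun := fun z => ⟨d • (z : FractionRing C), hd z z.2⟩
          map_add' := fun y z => Subtype.ext (smul_add d (y : FractionRing C) z)
          map_smul' := fun a z => Subtype.ext (smul_comm d a (z : FractionRing C)) }
      have hμ : Function.Injective μ := by
        intro y z hyz
        have h1 : d • (y : FractionRing C) = d • (z : FractionRing C) :=
          congrArg Subtype.val hyz
        exact Subtype.ext (smul_right_injective (FractionRing C) hd0 h1)
      exact LinearMap.finrank_le_finrank_of_injective hμ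
    · rw [← hrank0]
      exact LinearMap.finrank_le_finrank_of_injective
        (f := (Subalgebra.inclusion hle).toLinearMap) (Subalgebra.inclusion_injective hle)
  let bt : Module.Basis (Fin n) Λ ↥(φ.range ⊔ Algebra.adjoin Λ {f}) :=
    Module.finBasisOfFinrankEq Λ _ hrank
  let b₀ : Module.Basis (Fin n) Λ φ.range := b.map e.toLinearEquiv
  have hdisc₀ : Algebra.discr Λ b₀ = Algebra.discr Λ b := by
    rw [Algebra.discr_eq_discr_of_algEquiv b e]
    congr 1
  -- the ideal of denominators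
  let I : Ideal Λ :=
    { carrier := {g | g • f ∈ φ.range}
      add_mem' := fun {g h} hg hh => by
        change (g + h) • f ∈ φ.range
        rw [add_smul]; exact Subalgebra.add_mem _ hg hh
      zero_mem' := by
        change (0 : Λ) • f ∈ φ.range
        rw [zero_smul]; exact Subalgebra.zero_mem _
      smul_mem' := fun a g hg => by
        change (a • g) • f ∈ φ.range
        rw [smul_assoc]; exact Subalgebra.smul_mem _ hg _ }
  have hI : I = ⊤ := by
    refine ideal_eq_top_of_forall_prime I ⟨d, hd f hfCt, hd0⟩ fun t ht => ?_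
    obtain ⟨s, y, hy, hnd⟩ := hbound t ht
    have hy₀ : ∀ x : φ.range, ∃ a : Fin s → Λ,
        x - ∑ i, a i • e (y i) ∈ (Ideal.span {algebraMap Λ φ.range t}).radical := by
      intro x
      obtain ⟨a, ha⟩ := hy (e.symm x)
      refine ⟨a, ?_⟩
      obtain ⟨k, hk⟩ := ha
      obtain ⟨z, hz⟩ := Ideal.mem_span_singleton'.mp hk
      refine ⟨k, Ideal.mem_span_singleton'.mpr ⟨e z, ?_⟩⟩
      have h1 := congrArg e hz
      rw [map_mul, map_pow, map_sub, map_sum, AlgEquiv.apply_symm_apply, AlgEquiv.commutes] at h1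
      rw [h1]
      congr 2
      exact Finset.sum_congr rfl fun i _ => map_smul e (a i) (y i)
    obtain ⟨g, hgt, hg⟩ := hSF Λ t ht (FractionRing C) φ.range (φ.range ⊔ Algebra.adjoin Λ {f})
      hle n b₀ bt s (fun i => e (y i)) hy₀ (hdisc₀ ▸ hdisc) (hdisc₀ ▸ hnd) f hfCt
    exact ⟨g, hg, hgt⟩
  have h1 : (1 : Λ) ∈ I := by rw [hI]; exact Submodule.mem_top
  have h2 : (1 : Λ) • f ∈ φ.range := h1
  rw [one_smul] at h2
  obtain ⟨c, hc⟩ := h2
  exact ⟨c, hc⟩

end Fermat.Agent.S18.B12.H84

end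
-- ===== PACK-END S18/B12/H84/IntClosed.lean

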