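import Mathlib
import Fermat.Prelude.Def_ModularCurve_X0ModL
import Mathlib.NumberTheory.ModularForms.LevelOne.GradedRing
import Fermat.Prelude.Def_ModularCurve_LaurentCoeff
import Fermat.Prelude.Def_ModularCurve_ReductionModL
import Fermat.Prelude.Def_ModularCurve_X0
import Fermat.Prelude.Def_ModularCurve_GenusNumerics
import Mathlib.RingTheory.Idempotents
import Mathlib.RingTheory.Ideal.Quotient.Operations
import Mathlib.RingTheory.Ideal.Span
import Mathlib.RingTheory.Noetherian.Basic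
import Mathlib.Algebra.Algebra.Subalgebra.Basic

-- ===== PACK-BEGIN S28/H565/TExp.lean
section



/-!
# S28 analytic bridge, part 1: convergent `t`-expansions (helper565)

`HasTExp h f φ` says that the function `f : ℍ → ℂ` is given, at every point of the upper
half plane, by the (absolutely) convergent Laurent expansion `φ` in the local parameter
`t = exp (2 π i τ / h)`.  We prove that this relation is compatible with the ring operations,
that `φ` is determined by `f`, and that it is compatible with `qExpand`.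
-/

set_option autoImplicit false

noncomputable section

open UpperHalfPlane Complex Function
open scoped Real

namespace Fermat.Agent.S28.H565

local notation "𝕢" => Periodic.qParam

/-- `f` is given on all of `ℍ` by the convergent power series `P` in `t = exp (2πiτ/h)`. -/
def HasPExp (h : ℝ) (f : ℍ → ℂ) (P : PowerSeries ℂ) : Prop :=
  ∀ τ : ℍ, HasSum (fun n : ℕ => PowerSeries.coeff n P * 𝕢 h τ ^ n) (f τ)

/-- `f` is given on all of `ℍ` by the convergent Laurent series `φ` in `t = exp (2πiτ/h)`. -/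
def HasTExp (h : ℝ) (f : ℍ → ℂ) (φ : LaurentSeries ℂ) : Prop :=
  ∀ τ : ℍ, HasSum (fun n : ℤ => φ.coeff n * 𝕢 h τ ^ n) (f τ)

section PExp

variable {h : ℝ} {f g : ℍ → ℂ} {P Q : PowerSeries ℂ}

theorem HasPExp.congr (hf : HasPExp h f P) (hfg : ∀ τ, f τ = g τ) : HasPExp h g P :=
  fun τ => hfg τ ▸ hf τ

theorem HasPExp.add (hf : HasPExp h f P) (hg : HasPExp h g Q) : HasPExp h (f + g) (P + Q) := by
  intro τ
  have := (hf τ).add (hg τ)
  simpa [add_mul] using this

theorem HasPExp.zero : HasPExp h 0 0 := by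
  intro τ
  simp [hasSum_zero]

theorem HasPExp.const (c : ℂ) : HasPExp h (fun _ => c) (PowerSeries.C c) := by
  intro τ
  have := hasSum_ite_eq (0 : ℕ) c
  refine this.congr_fun ?_ |>.mono_left le_rfl
  intro n
  by_cases hn : n = 0
  · subst hn; simp
  · simp [PowerSeries.coeff_C, hn]

theorem HasPExp.smul (c : ℂ) (hf : HasPExp h f P) : HasPExp h (c • f) (c • P) := by
  intro τ
  have := (hf τ).mul_left c
  simpa [mul_assoc] using this

theorem HasPExp.neg (hf : HasPExp h f P) : HasPExp h (-f) (-P) := by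
  intro τ
  have := (hf τ).neg
  simpa using this

theorem HasPExp.sub (hf : HasPExp h f P) (hg : HasPExp h g Q) : HasPExp h (f - g) (P - Q) := by
  intro τ
  have := (hf τ).sub (hg τ)
  simpa [sub_mul] using this

theorem HasPExp.mul (hf : HasPExp h f P) (hg : HasPExp h g Q) : HasPExp h (f * g) (P * Q) := by
  intro τ
  have h1 := hf τ
  have h2 := hg τ
  have n1 : Summable fun n : ℕ => ‖PowerSeries.coeff n P * 𝕢 h τ ^ n‖ := h1.summable.norm
  have n2 : Summable fun n : ℕ => ‖PowerSeries.coeff n Q * 𝕢 h τ ^ n‖ := h2.summable.norm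
  have key := tsum_mul_tsum_eq_tsum_sum_antidiagonal_of_summable_norm n1 n2
  have hs := (summable_norm_sum_mul_antidiagonal_of_summable_norm n1 n2).of_norm
  rw [h1.tsum_eq, h2.tsum_eq] at key
  have hfun : (fun n : ℕ => PowerSeries.coeff n (P * Q) * 𝕢 h τ ^ n) =
      fun n => ∑ kl ∈ Finset.HasAntidiagonal.antidiagonal n,
        (PowerSeries.coeff kl.1 P * 𝕢 h τ ^ kl.1) * (PowerSeries.coeff kl.2 Q * 𝕢 h τ ^ kl.2) := by
    funext n
    rw [PowerSeries.coeff_mul, Finset.sum_mul]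
    refine Finset.sum_congr rfl fun kl hkl => ?_
    rw [Finset.HasAntidiagonal.mem_antidiagonal] at hkl
    rw [← hkl, pow_add]
    ring
  rw [hfun]
  simpa [Pi.mul_apply, key] using hs.hasSum

theorem HasPExp.X : HasPExp h (fun τ => 𝕢 h τ) PowerSeries.X := by
  intro τ
  have := hasSum_ite_eq (1 : ℕ) (𝕢 h τ)
  refine this.congr_fun ?_ |>.mono_left le_rfl
  intro n
  by_cases hn : n = 1
  · subst hn; simp
  · simp [PowerSeries.coeff_X, hn]

theorem HasPExp.pow (hf : HasPExp h f P) (n : ℕ) : HasPExp h (f ^ n) (P ^ n) := by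
  induction n with
  | zero =>
    have := HasPExp.const (h := h) 1
    rw [map_one] at this
    rw [pow_zero, pow_zero]
    exact this
  | succ n ih =>
    rw [pow_succ, pow_succ]
    exact ih.mul hf

theorem cuspFunction_zero_fun (h : ℝ) : cuspFunction h (0 : ℍ → ℂ) = 0 := by
  simpa [cuspFunction, Periodic.cuspFunction]
      using! (tendsto_const_nhds.mono_left nhdsWithin_le_nhds).limUnder_eq

theorem coeff_eq_zero_of_hasSum_zero {h : ℝ} (hh : 0 < h) (c : ℕ → ℂ)
    (H : ∀ τ : ℍ, HasSum (fun n : ℕ => c n * 𝕢 h τ ^ n) 0) (m : ℕ) : c m = 0 := by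
  have han : AnalyticAt ℂ (cuspFunction h (0 : ℍ → ℂ)) 0 := by
    rw [cuspFunction_zero_fun]; exact analyticAt_const
  have H' : ∀ τ : ℍ, HasSum (fun n : ℕ => c n • 𝕢 h τ ^ n) ((0 : ℍ → ℂ) τ) := fun τ => H τ
  have h1 := (hasFPowerSeriesOnBall_cuspFunction hh han H').hasFPowerSeriesAt
  rw [cuspFunction_zero_fun] at h1
  have h2 := h1.eq_zero
  have h3 := congrArg (fun p => FormalMultilinearSeries.coeff p m) h2
  simp only [FormalMultilinearSeries.coeff_ofScalars] at h3
  rw [h3]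
  rfl

theorem HasPExp.eq_zero (hh : 0 < h) (H : HasPExp h 0 P) : P = 0 := by
  ext m
  simpa using coeff_eq_zero_of_hasSum_zero hh (fun n => PowerSeries.coeff n P) (fun τ => H τ) m

theorem HasPExp.unique (hh : 0 < h) (hP : HasPExp h f P) (hQ : HasPExp h f Q) : P = Q := by
  have := (hP.sub hQ)
  rw [sub_self] at this
  exact sub_eq_zero.mp (this.eq_zero hh)

/-- A function with a convergent power series expansion is bounded at `i∞`. -/
theorem HasPExp.isBoundedAtImInfty (hh : 0 < h) (hf : HasPExp h f P) :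
    IsBoundedAtImInfty f :=
  UpperHalfPlane.isBoundedAtImInfty_of_hasSum_qExpansion (c := fun n => PowerSeries.coeff n P) hh
    (fun τ => by simpa using hf τ)

end PExp

section TExp

variable {h : ℝ} {f g : ℍ → ℂ} {φ ψ : LaurentSeries ℂ}

theorem HasTExp.congr (hf : HasTExp h f φ) (hfg : ∀ τ, f τ = g τ) : HasTExp h g φ :=
  fun τ => hfg τ ▸ hf τ

theorem HasTExp.add (hf : HasTExp h f φ) (hg : HasTExp h g ψ) : HasTExp h (f + g) (φ + ψ) := by
  intro τ
  have := (hf τ).add (hg τ)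
  simpa [add_mul] using this

theorem HasTExp.zero : HasTExp h 0 0 := by
  intro τ
  simp [hasSum_zero]

theorem HasTExp.neg (hf : HasTExp h f φ) : HasTExp h (-f) (-φ) := by
  intro τ
  have := (hf τ).neg
  simpa using this

theorem HasTExp.sub (hf : HasTExp h f φ) (hg : HasTExp h g ψ) : HasTExp h (f - g) (φ - ψ) := by
  intro τ
  have := (hf τ).sub (hg τ)
  simpa [sub_mul] using this

theorem HasTExp.smul (c : ℂ) (hf : HasTExp h f φ) : HasTExp h (c • f) (c • φ) := by
  intro τ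
  have := (hf τ).mul_left c
  simpa [mul_assoc] using this

/-- Key bridge between Laurent and power series expansions. -/
theorem hasTExp_single_mul_iff (m : ℤ) (P : PowerSeries ℂ) :
    HasTExp h f (HahnSeries.single m (1 : ℂ) * HahnSeries.ofPowerSeries ℤ ℂ P) ↔
      HasPExp h (fun τ => f τ * 𝕢 h τ ^ (-m)) P := by
  have key : ∀ τ : ℍ,
      HasSum (fun n : ℤ =>
        (HahnSeries.single m (1 : ℂ) * HahnSeries.ofPowerSeries ℤ ℂ P).coeff n * 𝕢 h τ ^ n) (f τ) ↔
      HasSum (fun n : ℕ => PowerSeries.coeff n P * 𝕢 h τ ^ n) (f τ * 𝕢 h τ ^ (-m)) := by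
    intro τ
    have hq : 𝕢 h τ ≠ 0 := Periodic.qParam_ne_zero _
    have hι : Function.Injective (fun k : ℕ => (k : ℤ) + m) := by
      intro a b hab
      simpa using hab
    have hzero : ∀ n ∉ Set.range (fun k : ℕ => (k : ℤ) + m),
        (HahnSeries.single m (1 : ℂ) * HahnSeries.ofPowerSeries ℤ ℂ P).coeff n * 𝕢 h τ ^ n = 0 := by
      intro n hn
      have hlt : n - m < 0 := by
        by_contra hge
        rw [not_lt] at hge
        exact hn ⟨(n - m).toNat, by simp [Int.toNat_of_nonneg hge]⟩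
      rw [HahnSeries.coeff_single_mul, ModularCurve.ofPowerSeries_coeff_of_neg _ hlt]
      simp
    rw [← hι.hasSum_iff hzero]
    have hfun : ((fun n : ℤ =>
        (HahnSeries.single m (1 : ℂ) * HahnSeries.ofPowerSeries ℤ ℂ P).coeff n * 𝕢 h τ ^ n) ∘
          fun k : ℕ => (k : ℤ) + m) =
        fun k : ℕ => (PowerSeries.coeff k P * 𝕢 h τ ^ k) * 𝕢 h τ ^ m := by
      funext k
      simp only [Function.comp_apply]
      rw [HahnSeries.coeff_single_mul_add, HahnSeries.ofPowerSeries_apply_coeff, one_mul,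
        zpow_add₀ hq, zpow_natCast, mul_assoc]
    rw [hfun]
    have hval : f τ = (f τ * 𝕢 h τ ^ (-m)) * 𝕢 h τ ^ m := by
      rw [mul_assoc, ← zpow_add₀ hq, neg_add_cancel, zpow_zero, mul_one]
    conv_lhs => rw [hval]
    exact hasSum_mul_right_iff (zpow_ne_zero m hq)
  exact ⟨fun H τ => (key τ).mp (H τ), fun H τ => (key τ).mpr (H τ)⟩

/-- Any Laurent expansion can be rewritten as a power series expansion. -/
theorem HasTExp.hasPExp (hf : HasTExp h f φ) :
    HasPExp h (fun τ => f τ * 𝕢 h τ ^ (-φ.order)) φ.powerSeriesPart := by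
  rw [← hasTExp_single_mul_iff, LaurentSeries.single_order_mul_powerSeriesPart]
  exact hf

theorem HasPExp.hasTExp {P : PowerSeries ℂ} (hf : HasPExp h f P) :
    HasTExp h f (HahnSeries.ofPowerSeries ℤ ℂ P) := by
  have := (hasTExp_single_mul_iff (h := h) (f := f) 0 P).mpr (by simpa using hf)
  simpa using this

theorem HasTExp.mul (hf : HasTExp h f φ) (hg : HasTExp h g ψ) : HasTExp h (f * g) (φ * ψ) := by
  have h1 := hf.hasPExp
  have h2 := hg.hasPExp
  have h3 := h1.mul h2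
  have hφψ : φ * ψ = HahnSeries.single (φ.order + ψ.order) (1 : ℂ) *
      HahnSeries.ofPowerSeries ℤ ℂ (φ.powerSeriesPart * ψ.powerSeriesPart) := by
    conv_lhs => rw [← LaurentSeries.single_order_mul_powerSeriesPart φ,
      ← LaurentSeries.single_order_mul_powerSeriesPart ψ]
    rw [map_mul, ← mul_one (1 : ℂ), ← HahnSeries.single_mul_single, mul_one]
    ring
  rw [hφψ, hasTExp_single_mul_iff]
  refine h3.congr fun τ => ?_
  have hq : 𝕢 h τ ≠ 0 := Periodic.qParam_ne_zero _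
  simp only [Pi.mul_apply]
  rw [neg_add, zpow_add₀ hq]
  ring

theorem HasTExp.const (c : ℂ) : HasTExp h (fun _ => c) (HahnSeries.C c) := by
  have := (HasPExp.const (h := h) c).hasTExp
  rwa [HahnSeries.ofPowerSeries_C] at this

theorem HasTExp.one : HasTExp h 1 1 := by
  have := HasTExp.const (h := h) 1
  rw [map_one] at this
  exact this

theorem HasTExp.pow (hf : HasTExp h f φ) (n : ℕ) : HasTExp h (f ^ n) (φ ^ n) := by
  induction n with
  | zero =>
    rw [pow_zero, pow_zero]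
    exact HasTExp.one
  | succ n ih =>
    rw [pow_succ, pow_succ]
    exact ih.mul hf

theorem HasTExp.single (m : ℤ) : HasTExp h (fun τ => 𝕢 h τ ^ m) (HahnSeries.single m (1 : ℂ)) := by
  have h1 : HasPExp h (fun τ => 𝕢 h τ ^ m * 𝕢 h τ ^ (-m)) 1 := by
    have := HasPExp.const (h := h) 1
    rw [map_one] at this
    refine this.congr fun τ => ?_
    have hq : 𝕢 h τ ≠ 0 := Periodic.qParam_ne_zero _
    rw [← zpow_add₀ hq, add_neg_cancel, zpow_zero]
  have := (hasTExp_single_mul_iff (h := h) (f := fun τ => 𝕢 h τ ^ m) m 1).mpr h1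
  simpa using this

theorem HasTExp.eq_zero (hh : 0 < h) (H : HasTExp h 0 φ) : φ = 0 := by
  have h1 := H.hasPExp
  have h2 : HasPExp h 0 φ.powerSeriesPart := h1.congr fun τ => by simp
  have h3 := h2.eq_zero hh
  rw [← LaurentSeries.single_order_mul_powerSeriesPart φ, h3]
  simp

theorem HasTExp.unique (hh : 0 < h) (hφ : HasTExp h f φ) (hψ : HasTExp h f ψ) : φ = ψ := by
  have := hφ.sub hψ
  rw [sub_self] at this
  exact sub_eq_zero.mp (this.eq_zero hh)

/-- If a function has an expansion, the function is determined by the expansion. -/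
theorem HasTExp.fun_unique (hf : HasTExp h f φ) (hg : HasTExp h g φ) : f = g :=
  funext fun τ => (hf τ).unique (hg τ)

/-- Polynomial expressions: if `f` has expansion `φ` then `Q ∘ f` has expansion `Q(φ)`. -/
theorem HasTExp.polynomial_aeval (hf : HasTExp h f φ) (Q : Polynomial ℂ) :
    HasTExp h (fun τ => Q.eval (f τ)) (Polynomial.aeval φ Q) := by
  induction Q using Polynomial.induction_on' with
  | add p q hp hq =>
    rw [map_add]
    exact (hp.add hq).congr fun τ => by simp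
  | monomial n a =>
    rw [Polynomial.aeval_monomial]
    have h1 := (HasTExp.const (h := h) a).mul (hf.pow n)
    have h2 : algebraMap ℂ (LaurentSeries ℂ) a = HahnSeries.C a := by
      rw [ModularCurve.algebraMap_laurentSeries_eq_single]; rfl
    rw [h2]
    exact h1.congr fun τ => by simp [Polynomial.eval_monomial]

theorem qParam_mul_pow (h : ℝ) (m : ℕ) (hm : m ≠ 0) (z : ℂ) (k : ℤ) :
    𝕢 (h * m) z ^ ((m : ℤ) * k) = 𝕢 h z ^ k := by
  have hm' : (m : ℂ) ≠ 0 := by exact_mod_cast hm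
  simp only [Periodic.qParam]
  rw [← Complex.exp_int_mul, ← Complex.exp_int_mul]
  congr 1
  push_cast
  rcases eq_or_ne (h : ℂ) 0 with h0 | h0
  · simp [h0]
  · field_simp

/-- Change of parameter `t ↦ t^m`: an expansion in `exp (2πiτ/h)` gives one in
`exp (2πiτ/(hm))`. -/
theorem HasTExp.qExpand (m : ℕ) [NeZero m] (hf : HasTExp h f φ) :
    HasTExp (h * m) f (ModularCurve.qExpand ℂ m φ) := by
  intro τ
  have hm : (m : ℤ) ≠ 0 := by exact_mod_cast NeZero.ne m
  have hι : Function.Injective (fun k : ℤ => (m : ℤ) * k) := mul_right_injective₀ hm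
  have hzero : ∀ n ∉ Set.range (fun k : ℤ => (m : ℤ) * k),
      (ModularCurve.qExpand ℂ m φ).coeff n * 𝕢 (h * m) τ ^ n = 0 := by
    intro n hn
    rw [ModularCurve.qExpand_coeff_of_not_dvd, zero_mul]
    rintro ⟨c, rfl⟩
    exact hn ⟨c, rfl⟩
  rw [← hι.hasSum_iff hzero]
  have hfun : ((fun n : ℤ => (ModularCurve.qExpand ℂ m φ).coeff n * 𝕢 (h * m) τ ^ n) ∘
      fun k : ℤ => (m : ℤ) * k) = fun k : ℤ => φ.coeff k * 𝕢 h τ ^ k := by
    funext k
    simp only [Function.comp_apply]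
    rw [ModularCurve.qExpand_coeff_mul, qParam_mul_pow h m (NeZero.ne m)]
  rw [hfun]
  exact hf τ

theorem HasTExp.qExpand_one (m : ℕ) [NeZero m] (hf : HasTExp 1 f φ) :
    HasTExp m f (ModularCurve.qExpand ℂ m φ) := by
  have := hf.qExpand m
  rwa [one_mul] at this

end TExp

end Fermat.Agent.S28.H565

end
end
-- ===== PACK-END S28/H565/TExp.lean

-- ===== PACK-BEGIN S24/D5/H108Poly.lean
section


/-!
# D5: level-one modular functions are polynomials in `J = E₄³ / Δ`

Mathlib-only.  Main results (namespace `Fermat.Agent.S24.H108`):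

* `modularForm_eq_discriminant_pow_mul_eval` : every `g : ModularForm 𝒮ℒ (12 * m)` is
  `Δ ^ m * P (E₄³ / Δ)` for a polynomial `P` of degree `≤ m`.
* `exists_polynomial_of_invariant` : an `SL(2,ℤ)`-invariant holomorphic `f : ℍ → ℂ` with
  `f * Δ ^ m` bounded at `i∞` is `P (E₄³ / Δ)` for a polynomial `P` of degree `≤ m`.
-/

noncomputable section

open UpperHalfPlane ModularForm SlashInvariantForm SlashInvariantFormClass ModularFormClass
  CuspFormClass MatrixGroups OnePoint Filter EisensteinSeries Asymptotics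

open scoped Topology Manifold

namespace Fermat.Agent.S24.H108

local notation "Δ" => ModularForm.discriminant

/-- The (un-normalised) `J`-function `E₄³ / Δ` on the upper half plane. -/
def jFun (τ : ℍ) : ℂ := E₄ τ ^ 3 / Δ τ

lemma jFun_def (τ : ℍ) : jFun τ = E₄ τ ^ 3 / Δ τ := rfl

/-- `E₄ ^ (3 * m)` as a modular form of weight `12 * m`. -/
def e4Pow (m : ℕ) : ModularForm 𝒮ℒ (12 * (m : ℤ)) :=
  ModularForm.mcast (by push_cast; ring) (E₄.pow (3 * m))

lemma e4Pow_coe (m : ℕ) : (e4Pow m : ℍ → ℂ) = (E₄.pow (3 * m) : ℍ → ℂ) := by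
  simp [e4Pow, coe_mcast]

lemma e4Pow_apply (m : ℕ) (τ : ℍ) : e4Pow m τ = E₄ τ ^ (3 * m) := by
  rw [e4Pow_coe, coe_pow, Pi.pow_apply]

lemma e4Pow_qExpansion_coeff_zero (m : ℕ) : (qExpansion 1 (e4Pow m)).coeff 0 = 1 := by
  rw [e4Pow_coe, ModularForm.qExpansion_pow one_pos one_mem_strictPeriods_SL]
  have h1 : (qExpansion 1 E₄).coeff 0 = 1 := E_qExpansion_coeff_zero _ ⟨2, rfl⟩
  rw [PowerSeries.coeff_zero_eq_constantCoeff_apply] at h1 ⊢
  rw [map_pow, h1, one_pow]

/-- Core statement: every level one modular form of weight `12 * m` is `Δ ^ m` times a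
polynomial of degree `≤ m` in `E₄³ / Δ`. -/
theorem modularForm_eq_discriminant_pow_mul_eval (m : ℕ) (g : ModularForm 𝒮ℒ (12 * (m : ℤ))) :
    ∃ P : Polynomial ℂ, P.natDegree ≤ m ∧ ∀ τ : ℍ, g τ = Δ τ ^ m * P.eval (jFun τ) := by
  induction m with
  | zero =>
    obtain ⟨c, hc⟩ := ModularFormClass.levelOne_weight_zero_const
      (ModularForm.mcast (show (12 * ((0 : ℕ) : ℤ)) = 0 by simp) g)
    refine ⟨Polynomial.C c, by simp, fun τ => ?_⟩
    have := congrFun hc τ
    simpa [coe_mcast] using this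
  | succ m ih =>
    set c : ℂ := (qExpansion 1 g).coeff 0 with hc
    -- h = g - c • E₄^(3(m+1)) has vanishing constant term
    set h : ModularForm 𝒮ℒ (12 * ((m + 1 : ℕ) : ℤ)) := g - c • e4Pow (m + 1) with hh
    have hcoeff : (qExpansion 1 h).coeff 0 = 0 := by
      have : (h : ℍ → ℂ) = (g : ℍ → ℂ) - ((c • e4Pow (m + 1) : ModularForm 𝒮ℒ _) : ℍ → ℂ) := rfl
      rw [this, ModularForm.qExpansion_sub one_pos one_mem_strictPeriods_SL]
      have h2 : ((c • e4Pow (m + 1) : ModularForm 𝒮ℒ _) : ℍ → ℂ) = c • (e4Pow (m + 1) : ℍ → ℂ) :=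
        rfl
      rw [h2, ModularForm.qExpansion_smul one_pos one_mem_strictPeriods_SL, map_sub,
        PowerSeries.coeff_smul, e4Pow_qExpansion_coeff_zero, smul_eq_mul, mul_one, sub_self]
    -- divide by Δ
    set h' : ModularForm 𝒮ℒ (12 * ((m + 1 : ℕ) : ℤ) - 12) :=
      CuspForm.discriminantEquiv (toCuspForm h hcoeff) with hh'
    obtain ⟨P', hP'deg, hP'⟩ := ih (ModularForm.mcast (by push_cast; ring) h')
    refine ⟨Polynomial.C c * Polynomial.X ^ (m + 1) + P', ?_, fun τ => ?_⟩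
    · refine (Polynomial.natDegree_add_le _ _).trans (max_le ?_ (hP'deg.trans (Nat.le_succ m)))
      exact (Polynomial.natDegree_C_mul_le _ _).trans (Polynomial.natDegree_X_pow_le _)
    · have hΔ : Δ τ ≠ 0 := discriminant_ne_zero τ
      have e1 : Δ τ * h' τ = h τ :=
        discriminant_mul_discriminantEquiv_apply (toCuspForm h hcoeff) τ
      have e2 : h' τ = Δ τ ^ m * P'.eval (jFun τ) := by
        have := hP' τ
        simpa [coe_mcast] using this
      have e3 : h τ = g τ - c * E₄ τ ^ (3 * (m + 1)) := by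
        rw [← e4Pow_apply]; rfl
      have hJ : Δ τ ^ (m + 1) * jFun τ ^ (m + 1) = E₄ τ ^ (3 * (m + 1)) := by
        rw [← mul_pow, jFun_def, mul_div_cancel₀ _ hΔ, ← pow_mul]
      simp only [Polynomial.eval_add, Polynomial.eval_mul, Polynomial.eval_C, Polynomial.eval_pow,
        Polynomial.eval_X]
      rw [e2] at e1
      linear_combination -e3 - e1 - c * hJ

/-! ### From invariant functions to modular forms -/

/-- `Δ ^ m` as a modular form of weight `12 * m`. -/
def deltaPow (m : ℕ) : ModularForm 𝒮ℒ (12 * (m : ℤ)) :=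
  ModularForm.mcast (by ring)
    ((ModularFormClass.modularForm CuspForm.discriminant).pow m)

lemma deltaPow_coe (m : ℕ) : (deltaPow m : ℍ → ℂ) = fun τ => Δ τ ^ m := by
  ext τ
  simp [deltaPow, coe_mcast, coe_pow]

lemma deltaPow_apply (m : ℕ) (τ : ℍ) : deltaPow m τ = Δ τ ^ m := by
  rw [deltaPow_coe]

/-- A function invariant under `SL(2,ℤ)` is weight-0 slash invariant. -/
lemma slash_zero_eq_of_invariant {f : ℍ → ℂ}
    (hinv : ∀ (γ : SL(2, ℤ)) (τ : ℍ), f (γ • τ) = f τ) (γ : SL(2, ℤ)) :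
    f ∣[(0 : ℤ)] γ = f := by
  ext τ
  rw [SL_slash_apply, hinv]
  simp

lemma mul_deltaPow_slash {f : ℍ → ℂ}
    (hinv : ∀ (γ : SL(2, ℤ)) (τ : ℍ), f (γ • τ) = f τ) (m : ℕ) (γ : SL(2, ℤ)) :
    (fun τ => f τ * Δ τ ^ m) ∣[(12 * (m : ℤ))] γ = fun τ => f τ * Δ τ ^ m := by
  have h1 : (fun τ => f τ * Δ τ ^ m) = f * (deltaPow m : ℍ → ℂ) := by
    ext τ; simp [deltaPow_apply]
  have h2 := mul_slash_SL2 0 (12 * (m : ℤ)) γ f (deltaPow m)
  rw [zero_add] at h2
  have hγ : (γ : GL (Fin 2) ℝ) ∈ 𝒮ℒ := ⟨γ, rfl⟩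
  have h3 : (deltaPow m : ℍ → ℂ) ∣[(12 * (m : ℤ))] γ = deltaPow m := by
    rw [SL_slash]
    exact slash_action_eqn (deltaPow m) _ hγ
  rw [h1, h2, slash_zero_eq_of_invariant hinv, h3]

/-- An `SL(2,ℤ)`-invariant holomorphic function `f` with `f * Δ ^ m` bounded at `i∞`
gives the modular form `f * Δ ^ m` of weight `12 * m`. -/
def ofInvariant (f : ℍ → ℂ) (hf : MDiff f)
    (hinv : ∀ (γ : SL(2, ℤ)) (τ : ℍ), f (γ • τ) = f τ) (m : ℕ)
    (hbd : IsBoundedAtImInfty (fun τ => f τ * Δ τ ^ m)) : ModularForm 𝒮ℒ (12 * (m : ℤ)) where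
  toFun τ := f τ * Δ τ ^ m
  slash_action_eq' := fun _ ⟨γ, hγ⟩ => hγ ▸ mul_deltaPow_slash hinv m γ
  holo' := by
    have h1 : (fun τ => f τ * Δ τ ^ m) = f * (deltaPow m : ℍ → ℂ) := by
      ext τ; simp [deltaPow_apply]
    change MDiff (fun τ => f τ * Δ τ ^ m)
    rw [h1]
    exact hf.mul (ModularFormClass.holo (deltaPow m))
  bdd_at_cusps' {c} hc := by
    rw [Subgroup.IsArithmetic.isCusp_iff_isCusp_SL2Z] at hc
    rw [isBoundedAt_iff_forall_SL2Z hc]
    intro γ _
    rw [mul_deltaPow_slash hinv m γ]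
    exact hbd

lemma ofInvariant_apply (f : ℍ → ℂ) (hf : MDiff f)
    (hinv : ∀ (γ : SL(2, ℤ)) (τ : ℍ), f (γ • τ) = f τ) (m : ℕ)
    (hbd : IsBoundedAtImInfty (fun τ => f τ * Δ τ ^ m)) (τ : ℍ) :
    ofInvariant f hf hinv m hbd τ = f τ * Δ τ ^ m := rfl

/-- **D5a.** An `SL(2,ℤ)`-invariant holomorphic function `f : ℍ → ℂ` such that `f * Δ ^ m` is
bounded at `i∞` is a polynomial of degree `≤ m` in `J = E₄³ / Δ`. -/
theorem exists_polynomial_of_invariant (f : ℍ → ℂ) (hf : MDiff f)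
    (hinv : ∀ (γ : SL(2, ℤ)) (τ : ℍ), f (γ • τ) = f τ) (m : ℕ)
    (hbd : IsBoundedAtImInfty (fun τ => f τ * Δ τ ^ m)) :
    ∃ P : Polynomial ℂ, P.natDegree ≤ m ∧ ∀ τ : ℍ, f τ = P.eval (E₄ τ ^ 3 / Δ τ) := by
  obtain ⟨P, hdeg, hP⟩ :=
    modularForm_eq_discriminant_pow_mul_eval m (ofInvariant f hf hinv m hbd)
  refine ⟨P, hdeg, fun τ => ?_⟩
  have h := hP τ
  rw [ofInvariant_apply, mul_comm] at h
  exact mul_left_cancel₀ (pow_ne_zero m (discriminant_ne_zero τ)) h

end Fermat.Agent.S24.H108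

end
end
-- ===== PACK-END S24/D5/H108Poly.lean

-- ===== PACK-BEGIN S29/H152/DescEchelon.lean
section
/-
S29 / DESC (helper152) — part 2: the "echelon" lemma.

A nonzero `C`-subspace `W` of `C((q))` whose nonzero elements have bounded order, stable under a
set `H` of coefficientwise ring endomorphisms, contains a nonzero vector fixed by all of `H`
(the vector of maximal order, normalised to leading coefficient `1`).
-/



set_option autoImplicit false

namespace Fermat.Agent.S29.H152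

open ModularCurve

variable {C : Type*} [Field C]

theorem descEchelon_exists_fixed (W : Submodule C (LaurentSeries C))
    (hW : ∃ v ∈ W, v ≠ 0) (B : ℤ) (hB : ∀ v ∈ W, v ≠ 0 → v.order ≤ B)
    (H : Set (C →+* C)) (hH : ∀ σ ∈ H, ∀ v ∈ W, coeffMap σ v ∈ W) :
    ∃ v ∈ W, v ≠ 0 ∧ ∀ σ ∈ H, coeffMap σ v = v := by
  classical
  -- maximal order
  obtain ⟨s, ⟨v₁, hv₁W, hv₁0, hv₁s⟩, hmax⟩ :=
    Int.exists_greatest_of_bdd (P := fun n : ℤ => ∃ v ∈ W, v ≠ 0 ∧ v.order = n)
      ⟨B, fun z ⟨v, hvW, hv0, hvz⟩ => hvz ▸ hB v hvW hv0⟩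
      (by obtain ⟨v, hvW, hv0⟩ := hW; exact ⟨v.order, v, hvW, hv0, rfl⟩)
  have hc : v₁.coeff s ≠ 0 := by
    rw [← hv₁s]
    exact fun h => hv₁0 (HahnSeries.coeff_order_eq_zero.mp h)
  set v : LaurentSeries C := (v₁.coeff s)⁻¹ • v₁ with hv
  have hvW : v ∈ W := W.smul_mem _ hv₁W
  have hvs : v.coeff s = 1 := by
    rw [hv, HahnSeries.coeff_smul, smul_eq_mul, inv_mul_cancel₀ hc]
  have hvlt : ∀ k < s, v.coeff k = 0 := by
    intro k hk
    have h0 : v₁.coeff k = 0 := HahnSeries.coeff_eq_zero_of_lt_order (by rw [hv₁s]; exact hk)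
    rw [hv, HahnSeries.coeff_smul, h0, smul_zero]
  have hv0 : v ≠ 0 := by
    intro h
    rw [h] at hvs
    simp at hvs
  refine ⟨v, hvW, hv0, fun σ hσ => ?_⟩
  by_contra hne
  have hd0 : coeffMap σ v - v ≠ 0 := sub_ne_zero.mpr hne
  have hdW : coeffMap σ v - v ∈ W := W.sub_mem (hH σ hσ v hvW) hvW
  have hle : (coeffMap σ v - v).order ≤ s := hmax _ ⟨_, hdW, hd0, rfl⟩
  have hcoeff : ∀ k ≤ s, (coeffMap σ v - v).coeff k = 0 := by
    intro k hk
    rw [HahnSeries.coeff_sub, coeffMap_coeff]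
    rcases hk.lt_or_eq with h | h
    · rw [hvlt k h, map_zero, sub_zero]
    · rw [h, hvs, map_one, sub_self]
  exact hd0 (HahnSeries.coeff_order_eq_zero.mp (hcoeff _ hle))

end Fermat.Agent.S29.H152

end
-- ===== PACK-END S29/H152/DescEchelon.lean

-- ===== PACK-BEGIN S29/H152/DescStab.lean
section
/-
S29 / DESC (helper152) — part 5: the coefficientwise action of `Aut(Ω/K)` on `Ω((q))`, the
stabiliser of a Kummer class and its finite index.
-/



set_option autoImplicit false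

namespace Fermat.Agent.S29.H152

open ModularCurve

variable {K Ω : Type*} [Field K] [Field Ω] [Algebra K Ω]

/-- The coefficientwise action of `σ ∈ Aut(Ω/K)` on Laurent series. -/
noncomputable def descSig (σ : Ω ≃ₐ[K] Ω) : LaurentSeries Ω →+* LaurentSeries Ω :=
  coeffMap (σ : Ω →+* Ω)

theorem descSig_def (σ : Ω ≃ₐ[K] Ω) (x : LaurentSeries Ω) :
    descSig σ x = coeffMap (σ : Ω →+* Ω) x := rfl

@[simp]
theorem descSig_coeff (σ : Ω ≃ₐ[K] Ω) (x : LaurentSeries Ω) (k : ℤ) :
    (descSig σ x).coeff k = σ (x.coeff k) := rfl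

@[simp]
theorem descSig_one (x : LaurentSeries Ω) : descSig (1 : Ω ≃ₐ[K] Ω) x = x := by
  ext k
  simp

theorem descSig_mul (σ τ : Ω ≃ₐ[K] Ω) (x : LaurentSeries Ω) :
    descSig (σ * τ) x = descSig σ (descSig τ x) := by
  ext k
  simp

@[simp]
theorem descSig_inv_apply (σ : Ω ≃ₐ[K] Ω) (x : LaurentSeries Ω) :
    descSig σ⁻¹ (descSig σ x) = x := by
  rw [← descSig_mul, inv_mul_cancel, descSig_one]

@[simp]
theorem descSig_apply_inv (σ : Ω ≃ₐ[K] Ω) (x : LaurentSeries Ω) :
    descSig σ (descSig σ⁻¹ x) = x := by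
  rw [← descSig_mul, mul_inv_cancel, descSig_one]

theorem descSig_injective (σ : Ω ≃ₐ[K] Ω) : Function.Injective (descSig σ) :=
  Function.LeftInverse.injective (descSig_inv_apply σ)

theorem descSig_algebraMap (σ : Ω ≃ₐ[K] Ω) (c : Ω) :
    descSig σ (algebraMap Ω (LaurentSeries Ω) c) = algebraMap Ω (LaurentSeries Ω) (σ c) :=
  coeffMap_algebraMap _ c

theorem descSig_coeffMap (σ : Ω ≃ₐ[K] Ω) (x : LaurentSeries K) :
    descSig σ (coeffMap (algebraMap K Ω) x) = coeffMap (algebraMap K Ω) x := by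
  ext k
  simp

theorem descSig_coeffEmb [Algebra ℚ Ω] (σ : Ω ≃ₐ[K] Ω) (y : LaurentSeries ℚ) :
    descSig σ (coeffEmb Ω y) = coeffEmb Ω y := by
  rw [descSig, coeffEmb, coeffMap_coeffMap]
  exact coeffMap_congr (RingHom.ext_rat _ _) y

/-- The base-changed field is stable under the coefficientwise action. -/
theorem descSig_mem_laurentBaseChange [Algebra ℚ Ω] (F₀ : IntermediateField ℚ (LaurentSeries ℚ))
    (σ : Ω ≃ₐ[K] Ω) {x : LaurentSeries Ω} (hx : x ∈ laurentBaseChange Ω F₀) :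
    descSig σ x ∈ laurentBaseChange Ω F₀ := by
  rw [mem_laurentBaseChange_iff] at hx
  induction hx using Subfield.closure_induction with
  | mem y hy =>
      rcases hy with ⟨a, rfl⟩ | ⟨z, hz, rfl⟩
      · rw [descSig_algebraMap]
        exact (laurentBaseChange Ω F₀).algebraMap_mem _
      · rw [descSig_coeffEmb]
        exact coeffEmb_mem_laurentBaseChange Ω hz
  | one => simp
  | add x y _ _ hx hy => simpa using add_mem hx hy
  | neg x _ hx => simpa using neg_mem hx
  | inv x _ hx => simpa using inv_mem hx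
  | mul x y _ _ hx hy => simpa using mul_mem hx hy

/-! ### The stabiliser of a Kummer class -/

section Stab

variable (F : IntermediateField Ω (LaurentSeries Ω))
  (hF : ∀ (σ : Ω ≃ₐ[K] Ω) (x : LaurentSeries Ω), x ∈ F → descSig σ x ∈ F)
  (f : LaurentSeries Ω) (p : ℕ)

/-- The stabiliser of the class of `f` modulo `p`-th powers of `F`. -/
def descStab : Subgroup (Ω ≃ₐ[K] Ω) where
  carrier := {σ | ∃ u ∈ F, u ≠ 0 ∧ descSig σ f = f * u ^ p}
  one_mem' := ⟨1, one_mem _, one_ne_zero, by simp⟩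
  mul_mem' := by
    rintro σ τ ⟨u, hu, hu0, hσ⟩ ⟨w, hw, hw0, hτ⟩
    refine ⟨u * descSig σ w, mul_mem hu (hF σ w hw),
      mul_ne_zero hu0 ((map_ne_zero_iff _ (descSig_injective σ)).mpr hw0), ?_⟩
    rw [descSig_mul, hτ, map_mul, map_pow, hσ]
    ring
  inv_mem' := by
    rintro σ ⟨u, hu, hu0, hσ⟩
    have hu' : descSig σ⁻¹ u ≠ 0 := (map_ne_zero_iff _ (descSig_injective σ⁻¹)).mpr hu0
    refine ⟨(descSig σ⁻¹ u)⁻¹, inv_mem (hF σ⁻¹ u hu), inv_ne_zero hu', ?_⟩
    have h1 : descSig σ⁻¹ (descSig σ f) = descSig σ⁻¹ f * descSig σ⁻¹ u ^ p := by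
      rw [hσ, map_mul, map_pow]
    rw [descSig_inv_apply] at h1
    conv_rhs => rw [h1]
    rw [inv_pow, mul_assoc, mul_inv_cancel₀ (pow_ne_zero _ hu'), mul_one]

theorem mem_descStab {σ : Ω ≃ₐ[K] Ω} :
    σ ∈ descStab F hF f p ↔ ∃ u ∈ F, u ≠ 0 ∧ descSig σ f = f * u ^ p := Iff.rfl

/-- If the orbit of the class of `f` is contained in a finite set of classes, the stabiliser has
finite index. -/
theorem descStab_index_ne_zero (T : Set (LaurentSeries Ω)) (hT : T.Finite)
    (horb : ∀ σ : Ω ≃ₐ[K] Ω, ∃ t ∈ T, ∃ u ∈ F, u ≠ 0 ∧ descSig σ f = t * u ^ p) :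
    (descStab F hF f p).index ≠ 0 := by
  classical
  have hTfin : Finite T := hT
  choose t ht u hu hu0 hσ using horb
  have key : ∀ σ τ : Ω ≃ₐ[K] Ω, t σ = t τ → τ⁻¹ * σ ∈ descStab F hF f p := by
    intro σ τ hst
    have huτ : u τ ^ p ≠ 0 := pow_ne_zero _ (hu0 τ)
    -- `σ f = τ f * (u σ / u τ)^p`
    have h1 : descSig σ f = descSig τ f * (u σ / u τ) ^ p := by
      rw [hσ σ, hσ τ, hst, div_pow]
      field_simp
    refine ⟨descSig τ⁻¹ (u σ / u τ), hF _ _ (div_mem (hu σ) (hu τ)),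
      (map_ne_zero_iff _ (descSig_injective τ⁻¹)).mpr (div_ne_zero (hu0 σ) (hu0 τ)), ?_⟩
    rw [descSig_mul, h1, map_mul, map_pow, descSig_inv_apply]
  have hinj : Function.Injective
      (fun Q : (Ω ≃ₐ[K] Ω) ⧸ descStab F hF f p => (⟨t Q.out, ht Q.out⟩ : T)) := by
    intro Q Q' hQ
    have h1 : t Q.out = t Q'.out := congrArg Subtype.val hQ
    have h2 := key Q'.out Q.out h1.symm
    have h3 : (Q.out : (Ω ≃ₐ[K] Ω) ⧸ descStab F hF f p) = Q'.out :=
      QuotientGroup.eq.mpr h2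
    rwa [QuotientGroup.out_eq', QuotientGroup.out_eq'] at h3
  have hfin : Finite ((Ω ≃ₐ[K] Ω) ⧸ descStab F hF f p) := Finite.of_injective _ hinj
  exact (Subgroup.finiteIndex_of_finite_quotient (H := descStab F hF f p)).index_ne_zero

end Stab

end Fermat.Agent.S29.H152

end
-- ===== PACK-END S29/H152/DescStab.lean

-- ===== PACK-BEGIN S18/Spec.lean
section



/-!
# S18 — frozen interfaces of the row (row-lead helper18)

`F  := modularFunctionFieldBar N ⊆ Q̄((q))`, `F_k := modularFunctionFieldFullC k N ⊆ k((q))`,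
`A ⊆ Q̄` a valuation subring over `ℓ`, `k := A/𝔪`.

* `CoreStatement N A m` : the Kummer-type core (no places of `F_k`, no reduction map `r`).
* `StepAStatement`     : S18 for `(N, A, m)` follows from `CoreStatement N A m` (Prelude unfolding).
-/

set_option autoImplicit false

noncomputable section

namespace Fermat.Agent.S18

open ModularCurve AlgebraicCurve HahnSeries

/-- The field `Q̄`. -/
abbrev Qb : Type := AlgebraicClosure ℚ

/-- `IsInt A N U`: the series `U ∈ A((q))` lies in `F_N` (after `A ⊆ Q̄`) and its coefficientwise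
reduction lies in `F_{N,k}` and is nonzero.  (`O_int ∖ 𝔪` of the plan.) -/
def IsInt (A : ValuationSubring Qb) (N : ℕ) (U : LaurentSeries A) : Prop :=
  coeffMap A.subtype U ∈ modularFunctionFieldBar N ∧
    coeffMap (IsLocalRing.residue A) U ∈
      modularFunctionFieldFullC (IsLocalRing.ResidueField A) N ∧
    coeffMap (IsLocalRing.residue A) U ≠ 0

/-- The element of `F_N` given by an integral series. -/
def toF {A : ValuationSubring Qb} {N : ℕ} {U : LaurentSeries A} (hU : IsInt A N U) :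
    modularFunctionFieldBar N :=
  ⟨coeffMap A.subtype U, hU.1⟩

/-- CORE(N, A, m): two integral series with the same nonzero reduction whose quotient has a
divisor divisible by `m` differ by a constant times an `m`-th power in `F_N`. -/
def CoreStatement (N : ℕ) (A : ValuationSubring Qb) (m : ℕ) : Prop :=
  ∀ (U₁ U₂ : LaurentSeries A) (h₁ : IsInt A N U₁) (h₂ : IsInt A N U₂),
    coeffMap (IsLocalRing.residue A) U₁ = coeffMap (IsLocalRing.residue A) U₂ →
    (∀ v : Place Qb (modularFunctionFieldBar N),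
      (m : ℤ) ∣ v.ord (toF h₁) - v.ord (toF h₂)) →
    ∃ (c : Qb) (y : modularFunctionFieldBar N), c ≠ 0 ∧ y ≠ 0 ∧
      toF h₁ = algebraMap Qb (modularFunctionFieldBar N) c * y ^ m * toF h₂

/-- Step A (Prelude unfolding): S18 at `(N, A, m)` from CORE at `(N, A, m)`.
Uses the hypothesis `h` (place reduction `r` with (i),(ii) and PGI (iii)). -/
def StepAStatement (N : ℕ) [NeZero N] (A : ValuationSubring Qb) (m : ℕ) : Prop :=
  CoreStatement N A m →
    ∀ (_h : ModularCurve.ReductionInputsModL A N) (z : ModularCurve.JZero N),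
      m • z = 0 → ModularCurve.reductionModL A N z = 0 → z = 0

end Fermat.Agent.S18

end
end
-- ===== PACK-END S18/Spec.lean

-- ===== PACK-BEGIN S37/H400/KronFrob.lean
section
/-
S37 / helper400 — piece KRON, part (K0): Frobenius on Laurent series in characteristic `p`.

`f ^ p = V_p (frob f)`, where `V_p = qExpand R p` is `q ↦ q ^ p` and `frob` raises every
coefficient to the `p`-th power.
-/




set_option autoImplicit false
set_option linter.style.haveILetI false

noncomputable section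

open ModularCurve HahnSeries

namespace Fermat.Agent.S37.H400

variable {R : Type*} [CommRing R]

/-- Coefficients of the `p`-th power of a power series in characteristic `p`. -/
theorem powerSeries_coeff_pow_char (p : ℕ) [Fact p.Prime] [CharP R p] (g : PowerSeries R)
    (n : ℕ) :
    PowerSeries.coeff n (g ^ p) = if p ∣ n then (PowerSeries.coeff (n / p) g) ^ p else 0 := by
  have hp : 0 < p := (Fact.out : p.Prime).pos
  have h1 : PowerSeries.coeff n (g ^ p) =
      PowerSeries.coeff n ((PowerSeries.trunc (n + 1) g : PowerSeries R) ^ p) := by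
    rw [← PowerSeries.coeff_coe_trunc_of_lt (Nat.lt_succ_self n) (f := g ^ p),
      ← PowerSeries.trunc_trunc_pow,
      PowerSeries.coeff_coe_trunc_of_lt (Nat.lt_succ_self n)]
  rw [h1, ← Polynomial.coe_pow, Polynomial.coeff_coe, ← Polynomial.map_frobenius_expand,
    Polynomial.coeff_map, Polynomial.coeff_expand hp]
  split_ifs with h
  · rw [PowerSeries.coeff_trunc, if_pos, frobenius_def]
    exact lt_of_le_of_lt (Nat.div_le_self n p) (Nat.lt_succ_self n)
  · simp

/-- The power-series case of `laurent_pow_char`. -/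
theorem ofPowerSeries_pow_char (p : ℕ) [Fact p.Prime] [CharP R p] (g : PowerSeries R) :
    (HahnSeries.ofPowerSeries ℤ R g) ^ p =
      qExpand R p (coeffMap (frobenius R p) (HahnSeries.ofPowerSeries ℤ R g)) := by
  haveI : NeZero p := ⟨(Fact.out : p.Prime).ne_zero⟩
  have hp : 0 < p := (Fact.out : p.Prime).pos
  have hpz : (0 : ℤ) < (p : ℤ) := by exact_mod_cast hp
  rw [← map_pow]
  ext k
  by_cases hk : (p : ℤ) ∣ k
  · obtain ⟨m, rfl⟩ := hk
    rw [qExpand_coeff_mul, coeffMap_coeff, PowerSeries.coeff_coe, PowerSeries.coeff_coe]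
    by_cases hm : m < 0
    · have : (p : ℤ) * m < 0 := by nlinarith
      rw [if_pos this, if_pos hm, map_zero]
    · have hm' : 0 ≤ m := not_lt.mp hm
      have : ¬ (p : ℤ) * m < 0 := by
        have := mul_nonneg hpz.le hm'
        omega
      rw [if_neg this, if_neg hm, powerSeries_coeff_pow_char, frobenius_def]
      have h1 : ((p : ℤ) * m).natAbs = p * m.natAbs := by
        rw [Int.natAbs_mul, Int.natAbs_natCast]
      rw [h1, if_pos (dvd_mul_right p _), Nat.mul_div_cancel_left _ hp]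
  · rw [qExpand_coeff_of_not_dvd p _ hk, PowerSeries.coeff_coe]
    split_ifs with h
    · rfl
    · rw [powerSeries_coeff_pow_char, if_neg]
      intro hd
      apply hk
      have h0 : 0 ≤ k := not_lt.mp h
      have : (k.natAbs : ℤ) = k := Int.natAbs_of_nonneg h0
      rw [← this]
      exact_mod_cast hd

/-- **(K0)** In characteristic `p`, the `p`-th power of a Laurent series is obtained by
raising the coefficients to the `p`-th power and substituting `q ↦ q ^ p`. -/
theorem laurent_pow_char (p : ℕ) [Fact p.Prime] [CharP R p] (f : LaurentSeries R) :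
    haveI : NeZero p := ⟨(Fact.out : p.Prime).ne_zero⟩
    f ^ p = qExpand R p (coeffMap (frobenius R p) f) := by
  haveI : NeZero p := ⟨(Fact.out : p.Prime).ne_zero⟩
  show f ^ p = qExpand R p (coeffMap (frobenius R p) f)
  conv_lhs => rw [← LaurentSeries.single_order_mul_powerSeriesPart f]
  conv_rhs => rw [← LaurentSeries.single_order_mul_powerSeriesPart f]
  rw [mul_pow, map_mul, map_mul, ofPowerSeries_pow_char, coeffMap_single, qExpand_single,
    HahnSeries.single_pow, map_one, one_pow, nsmul_eq_mul]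

end Fermat.Agent.S37.H400

end
end
-- ===== PACK-END S37/H400/KronFrob.lean

-- ===== PACK-BEGIN S37/H340/KronBasic.lean
section




/-!
# S37 / R3-K : the formal Kronecker polynomial (helper340)

For a commutative ring `R`, `ℓ ≥ 1` and a Laurent series `f = ∑ aₙ qⁿ`, the ring `R((q))` is
free of rank `ℓ` over its subring `V (R((q))) = R((q^ℓ))` (`V = qExpand R ℓ`), with basis
`1, q, …, q^(ℓ-1)`.  `kronMat ℓ f` is the matrix of multiplication by `f` in this basis and
`kron ℓ f` its characteristic polynomial ("`∏_b (Y - f(ζ^b q^{1/ℓ}))`").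

Main statements of this file
* `decomp` : `g = ∑ i, q^i * V (sect ℓ i g)`;
* `single_mul_eq_sum` : `q^j * f = ∑ i, q^i * V (kronMat ℓ f i j)`;
* `kron_monic`, `kron_natDegree`;
* `kron_map` : compatibility with `coeffMap`;
* `kron_eval₂_self` : `(kron ℓ f).eval₂ V f = 0` (Cayley–Hamilton form).
-/

set_option autoImplicit false

noncomputable section

namespace Fermat.Agent.S37.H340

open ModularCurve HahnSeries Polynomial Matrix

variable {R : Type*} [CommRing R] (ℓ : ℕ) [NeZero ℓ]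

omit [NeZero ℓ] in
lemma exists_coeff_eq_zero_of_lt (f : LaurentSeries R) : ∃ b : ℤ, ∀ m < b, f.coeff m = 0 := by
  by_cases hf : f = 0
  · exact ⟨0, fun m _ => by simp [hf]⟩
  · exact ⟨f.order, fun m hm => HahnSeries.coeff_eq_zero_of_lt_order hm⟩

lemma sect_bdd (i : ℤ) (f : LaurentSeries R) :
    BddBelow (Function.support fun n : ℤ => f.coeff ((ℓ : ℤ) * n + i)) := by
  have hℓ : (1 : ℤ) ≤ ℓ := by exact_mod_cast Nat.pos_of_ne_zero (NeZero.ne ℓ)
  obtain ⟨b, hb⟩ := exists_coeff_eq_zero_of_lt f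
  refine ⟨min 0 (b - i), fun m hm => ?_⟩
  by_contra hlt
  rw [not_le] at hlt
  refine hm (hb _ ?_)
  have h0 : m < 0 := lt_of_lt_of_le hlt (min_le_left _ _)
  have h1 : m < b - i := lt_of_lt_of_le hlt (min_le_right _ _)
  nlinarith

/-- The `i`-th section: `sect ℓ i f = ∑ₙ f.coeff (ℓ n + i) qⁿ`. -/
def sect (i : ℤ) (f : LaurentSeries R) : LaurentSeries R :=
  HahnSeries.ofSuppBddBelow (fun n : ℤ => f.coeff ((ℓ : ℤ) * n + i)) (sect_bdd ℓ i f)

@[simp]
lemma sect_coeff (i : ℤ) (f : LaurentSeries R) (n : ℤ) :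
    (sect ℓ i f).coeff n = f.coeff ((ℓ : ℤ) * n + i) := by
  simp [sect]

/-- the variable `q` -/
def qq : LaurentSeries R := HahnSeries.single (1 : ℤ) (1 : R)

omit [NeZero ℓ] in
lemma qq_pow (n : ℕ) : (qq : LaurentSeries R) ^ n = HahnSeries.single (n : ℤ) (1 : R) := by
  rw [qq, HahnSeries.single_pow, one_pow]
  simp

omit [NeZero ℓ] in
lemma coeff_qq_pow_mul (n : ℕ) (g : LaurentSeries R) (k : ℤ) :
    ((qq : LaurentSeries R) ^ n * g).coeff k = g.coeff (k - n) := by
  rw [qq_pow, HahnSeries.coeff_single_mul, one_mul]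

lemma qExpand_coeff (g : LaurentSeries R) (k : ℤ) :
    (qExpand R ℓ g).coeff k = if (ℓ : ℤ) ∣ k then g.coeff (k / ℓ) else 0 := by
  have hℓ : (ℓ : ℤ) ≠ 0 := by exact_mod_cast NeZero.ne ℓ
  split_ifs with h
  · obtain ⟨m, rfl⟩ := h
    rw [qExpand_coeff_mul, Int.mul_ediv_cancel_left _ hℓ]
  · exact qExpand_coeff_of_not_dvd ℓ g h

/-- **Decomposition** of a Laurent series along the basis `1, q, …, q^(ℓ-1)` of `R((q))` over
`R((q^ℓ))`. -/
theorem decomp (g : LaurentSeries R) :
    g = ∑ i : Fin ℓ, (qq : LaurentSeries R) ^ (i : ℕ) * qExpand R ℓ (sect ℓ (i : ℕ) g) := by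
  have hℓ : (0 : ℤ) < ℓ := by exact_mod_cast Nat.pos_of_ne_zero (NeZero.ne ℓ)
  ext k
  rw [HahnSeries.coeff_sum]
  simp only [coeff_qq_pow_mul, qExpand_coeff, sect_coeff]
  -- the unique index `i ≡ k mod ℓ`
  have hr0 : 0 ≤ k % (ℓ : ℤ) := Int.emod_nonneg _ hℓ.ne'
  have hr1 : k % (ℓ : ℤ) < ℓ := Int.emod_lt_of_pos _ hℓ
  set r : ℕ := (k % (ℓ : ℤ)).toNat with hr
  have hrk : (r : ℤ) = k % (ℓ : ℤ) := Int.toNat_of_nonneg hr0
  have hrlt : r < ℓ := by
    have : (r : ℤ) < ℓ := hrk ▸ hr1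
    exact_mod_cast this
  rw [Finset.sum_eq_single (⟨r, hrlt⟩ : Fin ℓ)]
  · have hdvd : (ℓ : ℤ) ∣ k - (r : ℤ) := by
      rw [hrk]; exact Int.dvd_self_sub_emod
    simp only [hdvd, if_true]
    congr 1
    rw [Int.mul_ediv_cancel' hdvd]; ring
  · intro i _ hi
    rw [if_neg]
    intro hdvd
    apply hi
    ext
    simp only
    have h1 : (ℓ : ℤ) ∣ (i : ℕ) - (r : ℤ) := by
      have h2 : (ℓ : ℤ) ∣ k - (r : ℤ) := by rw [hrk]; exact Int.dvd_self_sub_emod
      have := dvd_sub h2 hdvd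
      simpa using this
    have hi1 : ((i : ℕ) : ℤ) < ℓ := by exact_mod_cast i.2
    have hi0 : (0 : ℤ) ≤ ((i : ℕ) : ℤ) := Int.natCast_nonneg _
    have hr0' : (0 : ℤ) ≤ (r : ℤ) := Int.natCast_nonneg _
    have hr1' : (r : ℤ) < ℓ := by exact_mod_cast hrlt
    obtain ⟨c, hc⟩ := h1
    have hc0 : c = 0 := by
      by_contra hne
      rcases lt_or_gt_of_ne hne with h | h
      · have : (ℓ : ℤ) * c ≤ -ℓ := by nlinarith
        omega
      · have : (ℓ : ℤ) ≤ (ℓ : ℤ) * c := by nlinarith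
        omega
    rw [hc0, mul_zero] at hc
    omega
  · intro h; exact absurd (Finset.mem_univ _) h

/-- The matrix of multiplication by `f` in the basis `1, q, …, q^(ℓ-1)`. -/
def kronMat (f : LaurentSeries R) : Matrix (Fin ℓ) (Fin ℓ) (LaurentSeries R) :=
  Matrix.of fun i j => sect ℓ ((i : ℕ) - (j : ℕ) : ℤ) f

@[simp]
lemma kronMat_apply (f : LaurentSeries R) (i j : Fin ℓ) :
    kronMat ℓ f i j = sect ℓ ((i : ℕ) - (j : ℕ) : ℤ) f := rfl

/-- `q^j * f = ∑ i, q^i * V (M i j)`. -/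
theorem qq_pow_mul_eq_sum (f : LaurentSeries R) (j : Fin ℓ) :
    (qq : LaurentSeries R) ^ (j : ℕ) * f =
      ∑ i : Fin ℓ, (qq : LaurentSeries R) ^ (i : ℕ) * qExpand R ℓ (kronMat ℓ f i j) := by
  conv_lhs => rw [decomp ℓ ((qq : LaurentSeries R) ^ (j : ℕ) * f)]
  refine Finset.sum_congr rfl fun i _ => ?_
  congr 2
  ext n
  simp only [sect_coeff, coeff_qq_pow_mul, kronMat_apply]
  congr 1
  ring

/-- The **Kronecker polynomial** of `f`: the characteristic polynomial of multiplication by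
`f(q)` on `R((q))` over `R((q^ℓ))`, with coefficients transported to `R((q))`. -/
def kron (f : LaurentSeries R) : (LaurentSeries R)[X] := (kronMat ℓ f).charpoly

theorem kron_monic (f : LaurentSeries R) : (kron ℓ f).Monic := Matrix.charpoly_monic _

theorem kron_natDegree [Nontrivial R] (f : LaurentSeries R) : (kron ℓ f).natDegree = ℓ := by
  rw [kron, Matrix.charpoly_natDegree_eq_dim, Fintype.card_fin]

/-- Compatibility with change of coefficients. -/
theorem kronMat_map {S : Type*} [CommRing S] (g : R →+* S) (f : LaurentSeries R) :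
    kronMat ℓ (coeffMap g f) = (kronMat ℓ f).map (coeffMap g) := by
  ext i j n
  simp

theorem kron_map {S : Type*} [CommRing S] (g : R →+* S) (f : LaurentSeries R) :
    kron ℓ (coeffMap g f) = (kron ℓ f).map (coeffMap g) := by
  rw [kron, kron, kronMat_map, Matrix.charpoly_map]

/-- **Cayley–Hamilton form**: `f` is a root of its Kronecker polynomial (coefficients pushed
to `R((q^ℓ))` by `V = qExpand R ℓ`). -/
theorem kron_eval₂_self (f : LaurentSeries R) :
    (kron ℓ f).eval₂ (qExpand R ℓ) f = 0 := by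
  classical
  set M' : Matrix (Fin ℓ) (Fin ℓ) (LaurentSeries R) := (kronMat ℓ f).map (qExpand R ℓ) with hM'
  set v : Fin ℓ → LaurentSeries R := fun i => (qq : LaurentSeries R) ^ (i : ℕ) with hv
  have hvM : Matrix.vecMul v M' = f • v := by
    funext j
    simp only [Matrix.vecMul, dotProduct, hM', Matrix.map_apply, hv, Pi.smul_apply, smul_eq_mul]
    rw [mul_comm f, qq_pow_mul_eq_sum ℓ f j]
  have h1 : Matrix.vecMul v (Matrix.scalar (Fin ℓ) f - M') = 0 := by
    rw [Matrix.vecMul_sub, hvM]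
    funext j
    simp [Matrix.scalar_apply]
  have h2 : (Matrix.scalar (Fin ℓ) f - M').det • v = 0 := by
    have := congrArg (fun w => Matrix.vecMul w (Matrix.adjugate (Matrix.scalar (Fin ℓ) f - M'))) h1
    simp only [Matrix.vecMul_vecMul, Matrix.mul_adjugate, Matrix.zero_vecMul] at this
    rw [Matrix.vecMul_smul, Matrix.vecMul_one] at this
    exact this
  have h3 : (Matrix.scalar (Fin ℓ) f - M').det = 0 := by
    have h0 : (0 : ℕ) < ℓ := Nat.pos_of_ne_zero (NeZero.ne ℓ)
    have := congrFun h2 ⟨0, h0⟩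
    simpa [hv] using this
  rw [kron, Polynomial.eval₂_eq_eval_map, ← Matrix.charpoly_map, ← hM', Matrix.eval_charpoly]
  exact h3

end Fermat.Agent.S37.H340

end
end
-- ===== PACK-END S37/H340/KronBasic.lean

-- ===== PACK-BEGIN S28/H145/PowIndep.lean
section



/-!
# Leaf [L.I] of the S28 plan

If `x` is a Laurent series whose order is prime to `p`, then `1, x, …, x^(p-1)` are linearly
independent over (any subring of) the range of `V_p = qExpand k p`.
-/

set_option autoImplicit false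

noncomputable section

open ModularCurve HahnSeries

namespace Fermat.Agent.S28.H145

variable {k : Type*} [Field k]

/-- A finite sum of nonzero Laurent series with pairwise distinct orders is nonzero. -/
theorem sum_ne_zero_of_injOn_order {ι : Type*} (s : Finset ι) (t : ι → LaurentSeries k)
    (hs : s.Nonempty) (h0 : ∀ i ∈ s, t i ≠ 0)
    (hinj : Set.InjOn (fun i => (t i).order) (s : Set ι)) : ∑ i ∈ s, t i ≠ 0 := by
  classical
  obtain ⟨i₀, hi₀, hmin⟩ := Finset.exists_min_image s (fun i => (t i).order) hs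
  intro hsum
  have hc : (∑ i ∈ s, t i).coeff (t i₀).order = (t i₀).coeff (t i₀).order := by
    rw [HahnSeries.coeff_sum]
    refine Finset.sum_eq_single_of_mem i₀ hi₀ ?_
    intro i hi hne
    refine HahnSeries.coeff_eq_zero_of_lt_order ?_
    refine lt_of_le_of_ne (hmin i hi) ?_
    intro h
    exact hne (hinj hi hi₀ h.symm)
  rw [hsum] at hc
  exact h0 i₀ hi₀ (HahnSeries.coeff_order_eq_zero.mp hc.symm)

/-- The order of a nonzero element of the range of `qExpand k p` is divisible by `p`. -/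
theorem dvd_order_qExpand (p : ℕ) [NeZero p] (z : LaurentSeries k) :
    (p : ℤ) ∣ (qExpand k p z).order := by
  by_cases hz : qExpand k p z = 0
  · rw [hz, HahnSeries.order_zero]; exact dvd_zero _
  · by_contra h
    exact hz (HahnSeries.coeff_order_eq_zero.mp (qExpand_coeff_of_not_dvd p z h))

/-- **[L.I], core form.** If `p ∤ ord x`... more precisely if `ord x` is prime to `p`, a relation
`∑_{i<p} V_p(c i) * x^i = 0` forces all `c i = 0`. -/
theorem eq_zero_of_sum_qExpand_mul_pow_eq_zero (p : ℕ) [NeZero p] (x : LaurentSeries k)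
    (hx : x ≠ 0) (hord : IsCoprime x.order (p : ℤ)) (c : Fin p → LaurentSeries k)
    (h : ∑ i : Fin p, qExpand k p (c i) * x ^ (i : ℕ) = 0) : ∀ i, c i = 0 := by
  classical
  by_contra hne
  push Not at hne
  set s : Finset (Fin p) := Finset.univ.filter (fun i => c i ≠ 0) with hs
  have hsne : s.Nonempty := by
    obtain ⟨i, hi⟩ := hne
    exact ⟨i, by simp [hs, hi]⟩
  have hterm : ∀ i ∈ s, qExpand k p (c i) * x ^ (i : ℕ) ≠ 0 := by
    intro i hi
    have hci : c i ≠ 0 := by simpa [hs] using hi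
    exact mul_ne_zero (fun h0 => hci (qExpand_injective p (by rw [h0, map_zero])))
      (pow_ne_zero _ hx)
  have hordterm : ∀ i ∈ s, (qExpand k p (c i) * x ^ (i : ℕ)).order =
      (qExpand k p (c i)).order + (i : ℕ) * x.order := by
    intro i hi
    have hci : c i ≠ 0 := by simpa [hs] using hi
    have h1 : qExpand k p (c i) ≠ 0 := fun h0 => hci (qExpand_injective p (by rw [h0, map_zero]))
    rw [HahnSeries.order_mul h1 (pow_ne_zero _ hx), HahnSeries.order_pow, nsmul_eq_mul]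
  have hsum : ∑ i ∈ s, qExpand k p (c i) * x ^ (i : ℕ) = 0 := by
    rw [← h]
    refine Finset.sum_subset (Finset.subset_univ _) ?_
    intro i _ hi
    have hci : c i = 0 := by simpa [hs] using hi
    rw [hci, map_zero, zero_mul]
  refine sum_ne_zero_of_injOn_order s _ hsne hterm ?_ hsum
  intro i hi j hj hij
  simp only at hij
  rw [hordterm i hi, hordterm j hj] at hij
  -- reduce modulo `p`
  obtain ⟨a, ha⟩ := dvd_order_qExpand p (c i)
  obtain ⟨b, hb⟩ := dvd_order_qExpand p (c j)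
  rw [ha, hb] at hij
  have hdvd : (p : ℤ) ∣ ((i : ℕ) - (j : ℕ) : ℤ) * x.order := ⟨b - a, by linear_combination hij⟩
  have hdvd' : (p : ℤ) ∣ ((i : ℕ) : ℤ) - (j : ℕ) := hord.symm.dvd_of_dvd_mul_right hdvd
  have hi' : ((i : ℕ) : ℤ) < p := by exact_mod_cast i.2
  have hj' : ((j : ℕ) : ℤ) < p := by exact_mod_cast j.2
  have hi0 : (0 : ℤ) ≤ ((i : ℕ) : ℤ) := Int.natCast_nonneg _
  have hj0 : (0 : ℤ) ≤ ((j : ℕ) : ℤ) := Int.natCast_nonneg _
  have : ((i : ℕ) : ℤ) - (j : ℕ) = 0 := by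
    apply Int.eq_zero_of_abs_lt_dvd hdvd'
    rw [abs_lt]
    constructor <;> linarith
  exact Fin.ext (by exact_mod_cast sub_eq_zero.mp this)

/-- **[L.I].** If `B` is a subfield of `k((q))` contained in the range of `V_p` and `ord x` is
prime to `p`, then `1, x, …, x^(p-1)` are linearly independent over `B`. -/
theorem linearIndependent_pow_of_le_range (p : ℕ) [NeZero p] (B : Subfield (LaurentSeries k))
    (hB : ∀ b ∈ B, b ∈ (qExpand k p).range) (x : LaurentSeries k)
    (hx : x ≠ 0) (hord : IsCoprime x.order (p : ℤ)) :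
    LinearIndependent B (fun i : Fin p => x ^ (i : ℕ)) := by
  rw [Fintype.linearIndependent_iff]
  intro g hg i
  choose c hc using fun i => hB (g i) (g i).2
  have h : ∑ i : Fin p, qExpand k p (c i) * x ^ (i : ℕ) = 0 := by
    rw [← hg]
    refine Finset.sum_congr rfl fun i _ => ?_
    rw [hc i]
    rfl
  have := eq_zero_of_sum_qExpand_mul_pow_eq_zero p x hx hord c h i
  apply Subtype.ext
  rw [← hc i, this, map_zero]
  rfl

/-- Polynomial form of [L.I]: a polynomial of degree `< p` with coefficients in the range of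
`V_p` that kills `x` (with `ord x` prime to `p`) is zero. -/
theorem eq_zero_of_eval_eq_zero_of_natDegree_lt (p : ℕ) [NeZero p] (x : LaurentSeries k)
    (hx : x ≠ 0) (hord : IsCoprime x.order (p : ℤ)) (f : Polynomial (LaurentSeries k))
    (hf : ∀ n, f.coeff n ∈ (qExpand k p).range) (hdeg : f.natDegree < p)
    (h : f.eval x = 0) : f = 0 := by
  choose c hc using hf
  have hsum : ∑ i : Fin p, qExpand k p (c i) * x ^ (i : ℕ) = 0 := by
    rw [← h, Polynomial.eval_eq_sum_range' hdeg, ← Fin.sum_univ_eq_sum_range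
      (fun i => f.coeff i * x ^ i) p]
    refine Finset.sum_congr rfl fun i _ => ?_
    rw [hc]
  have hall := eq_zero_of_sum_qExpand_mul_pow_eq_zero p x hx hord (fun i => c i) hsum
  ext n
  by_cases hn : n < p
  · have := hall ⟨n, hn⟩
    simp only at this
    rw [← hc n, this, map_zero, Polynomial.coeff_zero]
  · rw [Polynomial.coeff_eq_zero_of_natDegree_lt (lt_of_lt_of_le hdeg (not_lt.mp hn)),
      Polynomial.coeff_zero]

end Fermat.Agent.S28.H145

end

end
-- ===== PACK-END S28/H145/PowIndep.lean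

-- ===== PACK-BEGIN S28/H807/Section.lean
section
/-
S28 / helper807 — formal `p`-sections of Laurent series and the section matrix.

For `f ∈ R((T))` and `p ≥ 1`, the *section matrix* `secMat p f ∈ Mat_p(R((q)))` is the matrix of
multiplication by `f` on `R((T))`, seen as a free module over `R((T^p)) = V_p(R((q)))` with
basis `1, T, …, T^{p-1}`.  Main result (`secMat_charpoly_eval`): the characteristic polynomial
of `secMat p f`, with coefficients pushed along `V_p = qExpand p`, kills `f`.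
-/




set_option autoImplicit false

noncomputable section

open ModularCurve HahnSeries Polynomial Matrix

namespace Fermat.Agent.S28.H807

variable {R : Type*} [CommRing R]

/-- The `r`-th `p`-section `∑ₘ f_{pm+r} qᵐ` of a Laurent series `f`. -/
def secL (p : ℕ) [NeZero p] (r : ℤ) (f : LaurentSeries R) : LaurentSeries R :=
  HahnSeries.ofSuppBddBelow (fun m : ℤ => f.coeff ((p : ℤ) * m + r))
    (HahnSeries.forallLTEqZero_supp_BddBelow _ ((f.order - r) / (p : ℤ)) (by
      intro m hm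
      apply HahnSeries.coeff_eq_zero_of_lt_order
      have hp : (0 : ℤ) < (p : ℤ) := by exact_mod_cast Nat.pos_of_ne_zero (NeZero.ne p)
      have h1 : m + 1 ≤ (f.order - r) / (p : ℤ) := hm
      have h2 : (m + 1) * (p : ℤ) ≤ f.order - r := (Int.le_ediv_iff_mul_le hp).mp h1
      nlinarith))

@[simp]
theorem secL_coeff (p : ℕ) [NeZero p] (r : ℤ) (f : LaurentSeries R) (m : ℤ) :
    (secL p r f).coeff m = f.coeff ((p : ℤ) * m + r) := by
  simp [secL]

theorem secL_coeffMap {S : Type*} [CommRing S] (φ : R →+* S) (p : ℕ) [NeZero p] (r : ℤ)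
    (f : LaurentSeries R) : secL p r (coeffMap φ f) = coeffMap φ (secL p r f) := by
  ext m
  simp

/-- The section matrix of `f`: entry `(i', i)` is the `(i' - i)`-th section. -/
def secMat (p : ℕ) [NeZero p] (f : LaurentSeries R) :
    Matrix (Fin p) (Fin p) (LaurentSeries R) :=
  fun i' i => secL p ((i' : ℤ) - (i : ℤ)) f

theorem secMat_apply (p : ℕ) [NeZero p] (f : LaurentSeries R) (i' i : Fin p) :
    secMat p f i' i = secL p ((i' : ℤ) - (i : ℤ)) f := rfl

theorem secMat_coeffMap {S : Type*} [CommRing S] (φ : R →+* S) (p : ℕ) [NeZero p]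
    (f : LaurentSeries R) :
    secMat p (coeffMap φ f) = (secMat p f).map (coeffMap φ) := by
  ext i' i : 2
  simp [secMat_apply, Matrix.map_apply, secL_coeffMap]

/-- Key identity: `f · Tⁱ = ∑_{i'} V_p(M_{i',i}) · T^{i'}`. -/
theorem mul_single_eq_sum_secMat (p : ℕ) [NeZero p] (f : LaurentSeries R) (i : Fin p) :
    f * HahnSeries.single ((i : ℕ) : ℤ) (1 : R) =
      ∑ i' : Fin p, qExpand R p (secMat p f i' i) * HahnSeries.single ((i' : ℕ) : ℤ) (1 : R) := by
  have hp : (0 : ℤ) < (p : ℤ) := by exact_mod_cast Nat.pos_of_ne_zero (NeZero.ne p)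
  ext n
  rw [HahnSeries.coeff_mul_single, mul_one, HahnSeries.coeff_sum]
  -- the unique index i' with p ∣ n - i'
  have hlt : (n % (p : ℤ)).toNat < p := by
    have h1 : n % (p : ℤ) < p := Int.emod_lt_of_pos n hp
    have h0 : 0 ≤ n % (p : ℤ) := Int.emod_nonneg n hp.ne'
    omega
  set i0 : Fin p := ⟨(n % (p : ℤ)).toNat, hlt⟩ with hi0
  have hi0v : ((i0 : ℕ) : ℤ) = n % (p : ℤ) := by
    simp only [hi0]
    exact Int.toNat_of_nonneg (Int.emod_nonneg n hp.ne')
  rw [Finset.sum_eq_single i0]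
  · rw [HahnSeries.coeff_mul_single, mul_one]
    have hdvd : n - ((i0 : ℕ) : ℤ) = (p : ℤ) * (n / (p : ℤ)) := by
      rw [hi0v]; have := Int.emod_add_mul_ediv n (p : ℤ); linarith
    rw [hdvd, qExpand_coeff_mul, secMat_apply, secL_coeff]
    congr 1
    rw [← hdvd]; ring
  · intro i' _ hne
    rw [HahnSeries.coeff_mul_single, mul_one]
    apply qExpand_coeff_of_not_dvd
    intro hdvd
    apply hne
    apply Fin.ext
    have h1 : n % (p : ℤ) = ((i' : ℕ) : ℤ) % (p : ℤ) := by
      have := (Int.emod_emod_of_dvd n (dvd_refl (p : ℤ)))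
      exact (Int.emod_eq_emod_iff_emod_sub_eq_zero).mpr (Int.emod_eq_zero_of_dvd hdvd)
    have h2 : ((i' : ℕ) : ℤ) % (p : ℤ) = ((i' : ℕ) : ℤ) :=
      Int.emod_eq_of_lt (by positivity) (by exact_mod_cast i'.2)
    have h3 : ((i0 : ℕ) : ℤ) = ((i' : ℕ) : ℤ) := by rw [hi0v, h1, h2]
    exact_mod_cast h3.symm
  · intro h; exact absurd (Finset.mem_univ _) h

/-- **Lemma F1** (Cayley–Hamilton for the section matrix): the characteristic polynomial of
`secMat p f`, with coefficients pushed along `V_p`, kills `f`. -/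
theorem secMat_charpoly_eval (p : ℕ) [NeZero p] (f : LaurentSeries R) :
    (((secMat p f).charpoly).map (qExpand R p)).eval f = 0 := by
  set A : Matrix (Fin p) (Fin p) (LaurentSeries R) := (secMat p f).map (qExpand R p) with hA
  set v : Fin p → LaurentSeries R := fun i => HahnSeries.single ((i : ℕ) : ℤ) (1 : R) with hv
  set B : Matrix (Fin p) (Fin p) (LaurentSeries R) := Matrix.scalar (Fin p) f - Aᵀ with hB
  have hBv : B *ᵥ v = 0 := by
    funext i
    simp only [hB, Matrix.sub_mulVec, Pi.sub_apply, Pi.zero_apply]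
    rw [sub_eq_zero]
    have h1 : (Matrix.scalar (Fin p) f *ᵥ v) i = f * v i := by
      simp [Matrix.scalar_apply, Matrix.mulVec, dotProduct, Matrix.diagonal_apply]
    rw [h1]
    simp only [Matrix.mulVec, dotProduct, Matrix.transpose_apply, hA, Matrix.map_apply, hv]
    exact mul_single_eq_sum_secMat p f i
  have hdet : B.det • v = 0 := by
    have h : (Matrix.adjugate B * B) *ᵥ v = (B.det • (1 : Matrix (Fin p) (Fin p) _)) *ᵥ v := by
      rw [Matrix.adjugate_mul]
    rw [← Matrix.mulVec_mulVec, hBv, Matrix.mulVec_zero] at h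
    rw [Matrix.smul_mulVec, Matrix.one_mulVec] at h
    exact h.symm
  have h0 : B.det * v ⟨0, Nat.pos_of_ne_zero (NeZero.ne p)⟩ = 0 := by
    have := congrFun hdet ⟨0, Nat.pos_of_ne_zero (NeZero.ne p)⟩
    simpa using this
  have hv0 : v ⟨0, Nat.pos_of_ne_zero (NeZero.ne p)⟩ = 1 := by
    simp only [hv]
    rfl
  rw [hv0, mul_one] at h0
  rw [← Matrix.charpoly_map, ← hA, ← Matrix.charpoly_transpose, Matrix.eval_charpoly]
  exact h0

end Fermat.Agent.S28.H807

end

end
-- ===== PACK-END S28/H807/Section.lean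

-- ===== PACK-BEGIN S18/H333/Trunc.lean
section


/-!
# S18 / c3 (helper333): kernel-computable truncated power-series arithmetic over `ℤ`

`tl n f` is the list of the first `n` coefficients of `f : ℤ⟦X⟧`.  The operations
`tmul`, `tadd`, `tsub`, `tsmul`, `tpow`, `tV` on lists compute `tl n` of products, sums, … and
are evaluated by `decide +kernel`.
-/

set_option autoImplicit false

namespace Fermat.Agent.S18.H333

open PowerSeries

/-- computable truncated multiplication of coefficient lists (mod `X^n`). -/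
def tmul (n : ℕ) (a b : List ℤ) : List ℤ :=
  (List.range n).map fun k =>
    ((List.range (k + 1)).map fun i => a.getD i 0 * b.getD (k - i) 0).sum

def tadd (n : ℕ) (a b : List ℤ) : List ℤ :=
  (List.range n).map fun k => a.getD k 0 + b.getD k 0

def tsub (n : ℕ) (a b : List ℤ) : List ℤ :=
  (List.range n).map fun k => a.getD k 0 - b.getD k 0

def tsmul (n : ℕ) (c : ℤ) (a : List ℤ) : List ℤ :=
  (List.range n).map fun k => c * a.getD k 0

def tone (n : ℕ) : List ℤ :=
  (List.range n).map fun k => if k = 0 then 1 else 0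

def tzero (n : ℕ) : List ℤ :=
  (List.range n).map fun _ => 0

def tX (n : ℕ) : List ℤ :=
  (List.range n).map fun k => if k = 1 then 1 else 0

def tpow (n : ℕ) (a : List ℤ) : ℕ → List ℤ
  | 0 => tone n
  | m + 1 => tmul n (tpow n a m) a

/-- `X ↦ X^p` on truncated lists -/
def tV (n p : ℕ) (a : List ℤ) : List ℤ :=
  (List.range n).map fun k => if p ∣ k then a.getD (k / p) 0 else 0

def oneSubXpow (n j : ℕ) : List ℤ :=
  (List.range n).map fun k => (if k = 0 then 1 else 0) - (if k = j then 1 else 0)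

/-- truncation of `∏_{i<m} (1 - X^(i+1))` -/
def etaLrec (n : ℕ) : ℕ → List ℤ
  | 0 => tone n
  | m + 1 => tmul n (etaLrec n m) (oneSubXpow n (m + 1))

/-- `X ↦ X ^ p` on power series, defined coefficientwise. -/
noncomputable def Vser {R : Type*} [Semiring R] (p : ℕ) (f : PowerSeries R) : PowerSeries R :=
  PowerSeries.mk fun n => if p ∣ n then PowerSeries.coeff (n / p) f else 0

@[simp]
theorem coeff_Vser {R : Type*} [Semiring R] (p : ℕ) (f : PowerSeries R) (n : ℕ) :
    PowerSeries.coeff n (Vser p f) = if p ∣ n then PowerSeries.coeff (n / p) f else 0 := by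
  rw [Vser, PowerSeries.coeff_mk]

theorem Vser_map {R S : Type*} [Semiring R] [Semiring S] (φ : R →+* S) (p : ℕ)
    (f : PowerSeries R) : (Vser p f).map φ = Vser p (f.map φ) := by
  ext n
  simp only [PowerSeries.coeff_map, coeff_Vser]
  split_ifs <;> simp

/-- the list of the first `n` coefficients -/
noncomputable def tl (n : ℕ) (f : PowerSeries ℤ) : List ℤ :=
  (List.range n).map fun k => coeff k f

@[simp] theorem length_tl (n : ℕ) (f : PowerSeries ℤ) : (tl n f).length = n := by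
  simp [tl]

theorem tl_getD (n : ℕ) (f : PowerSeries ℤ) {i : ℕ} (hi : i < n) :
    (tl n f).getD i 0 = coeff i f := by
  simp [tl, List.getD, hi]

theorem tl_ext_iff (n : ℕ) (f g : PowerSeries ℤ) :
    tl n f = tl n g ↔ ∀ k < n, coeff k f = coeff k g := by
  constructor
  · intro h k hk
    rw [← tl_getD n f hk, ← tl_getD n g hk, h]
  · intro h
    refine List.map_congr_left fun k hk => h k (List.mem_range.mp hk)

theorem tl_eq_of_coeff (n : ℕ) (f : PowerSeries ℤ) (c : ℕ → ℤ) (h : ∀ k < n, coeff k f = c k) :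
    tl n f = (List.range n).map c :=
  List.map_congr_left fun k hk => h k (List.mem_range.mp hk)

theorem tl_mul (n : ℕ) (f g : PowerSeries ℤ) : tl n (f * g) = tmul n (tl n f) (tl n g) := by
  refine List.map_congr_left fun k hk => ?_
  have hk' : k < n := List.mem_range.mp hk
  rw [coeff_mul, Finset.Nat.sum_antidiagonal_eq_sum_range_succ_mk, ← List.sum_toFinset _
    (List.nodup_range), List.toFinset_range]
  refine Finset.sum_congr rfl fun i hi => ?_
  have hi' : i < k + 1 := Finset.mem_range.mp hi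
  rw [tl_getD n f (by omega), tl_getD n g (by omega)]

theorem tl_add (n : ℕ) (f g : PowerSeries ℤ) : tl n (f + g) = tadd n (tl n f) (tl n g) := by
  refine List.map_congr_left fun k hk => ?_
  have hk' : k < n := List.mem_range.mp hk
  rw [tl_getD n f hk', tl_getD n g hk', map_add]

theorem tl_sub (n : ℕ) (f g : PowerSeries ℤ) : tl n (f - g) = tsub n (tl n f) (tl n g) := by
  refine List.map_congr_left fun k hk => ?_
  have hk' : k < n := List.mem_range.mp hk
  rw [tl_getD n f hk', tl_getD n g hk', map_sub]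

theorem tl_smul (n : ℕ) (c : ℤ) (f : PowerSeries ℤ) : tl n (c • f) = tsmul n c (tl n f) := by
  refine List.map_congr_left fun k hk => ?_
  have hk' : k < n := List.mem_range.mp hk
  rw [tl_getD n f hk', map_zsmul, smul_eq_mul]

theorem tl_one (n : ℕ) : tl n 1 = tone n := by
  refine List.map_congr_left fun k _ => ?_
  rw [coeff_one]

theorem tl_zero (n : ℕ) : tl n 0 = tzero n := by
  refine List.map_congr_left fun k _ => ?_
  simp

theorem tl_X (n : ℕ) : tl n X = tX n := by
  refine List.map_congr_left fun k _ => ?_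
  rw [coeff_X]

theorem tl_pow (n : ℕ) (f : PowerSeries ℤ) (m : ℕ) : tl n (f ^ m) = tpow n (tl n f) m := by
  induction m with
  | zero => rw [pow_zero, tl_one]; rfl
  | succ m ih => rw [pow_succ, tl_mul, ih]; rfl

theorem tl_oneSubXpow (n j : ℕ) : tl n (1 - X ^ j) = oneSubXpow n j := by
  refine List.map_congr_left fun k _ => ?_
  rw [map_sub, coeff_one, coeff_X_pow]

theorem tl_Vser (n p : ℕ) (hp : 0 < p) (f : PowerSeries ℤ) :
    tl n (Vser p f) = tV n p (tl n f) := by
  refine List.map_congr_left fun k hk => ?_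
  have hk' : k < n := List.mem_range.mp hk
  have : k / p < n := lt_of_le_of_lt (Nat.div_le_self k p) hk'
  rw [coeff_Vser, tl_getD n f this]

theorem tl_eq_tzero_iff (n : ℕ) (f : PowerSeries ℤ) :
    tl n f = tzero n ↔ ∀ k < n, coeff k f = 0 := by
  rw [← tl_zero, tl_ext_iff]
  simp

/-- truncation of a finite product `∏_{i<m} (1 - X^(i+1))` -/
theorem tl_prod_range (n m : ℕ) :
    tl n (∏ i ∈ Finset.range m, ((1 : PowerSeries ℤ) - X ^ (i + 1))) = etaLrec n m := by
  induction m with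
  | zero => rw [Finset.prod_range_zero, tl_one]; rfl
  | succ m ih => rw [Finset.prod_range_succ, tl_mul, ih, tl_oneSubXpow]; rfl

theorem tl_mul_congr (n : ℕ) {f f' g g' : PowerSeries ℤ} (hf : tl n f = tl n f')
    (hg : tl n g = tl n g') : tl n (f * g) = tl n (f' * g') := by
  rw [tl_mul, tl_mul, hf, hg]

/-- factors `1 - X^(i+1)` with `n ≤ i + 1` do not change the first `n` coefficients -/
theorem tl_prod_of_le (n : ℕ) (s : Finset ℕ) (hs : ∀ i ∈ s, n ≤ i + 1) :
    tl n (∏ i ∈ s, ((1 : PowerSeries ℤ) - X ^ (i + 1))) = tl n 1 := by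
  induction s using Finset.induction_on with
  | empty => rw [Finset.prod_empty]
  | insert a s ha ih =>
    rw [Finset.prod_insert ha]
    have h1 : tl n ((1 : PowerSeries ℤ) - X ^ (a + 1)) = tl n 1 := by
      rw [tl_ext_iff]
      intro k hk
      have hka : k ≠ a + 1 := by
        have := hs a (Finset.mem_insert_self a s)
        omega
      rw [map_sub, coeff_X_pow, if_neg hka, sub_zero]
    have h2 := tl_mul_congr n h1 (ih fun i hi => hs i (Finset.mem_insert_of_mem hi))
    rw [h2, one_mul]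

end Fermat.Agent.S18.H333

end
-- ===== PACK-END S18/H333/Trunc.lean

-- ===== PACK-BEGIN S24/Mod/H368Lift.lean
section


/-!
# S24 / MOD glue (helper368): lifting a ring hom from polynomial generators to a generated field

`exists_lift`: if `F' = K(s i : i ∈ ι) ⊆ E` and `Φ : MvPolynomial ι K →+* L` has the same kernel as
evaluation at the generators `s`, then `Φ` induces a ring hom `σ : F' →+* L`.
-/

set_option autoImplicit false

noncomputable section

open MvPolynomial

namespace Fermat.Agent.S24.H368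

variable {K E L ι : Type*} [Field K] [Field E] [Algebra K E] [Field L]

/-- The ring hom `Algebra.adjoin K (range s) →+* L` induced by `Φ`, when `ker (aeval s) ≤ ker Φ`. -/
theorem exists_ringHom_adjoin (s : ι → E) (Φ : MvPolynomial ι K →+* L)
    (h : ∀ p, aeval s p = 0 → Φ p = 0) :
    ∃ g : Algebra.adjoin K (Set.range s) →+* L,
      ∀ (p : MvPolynomial ι K) (x : Algebra.adjoin K (Set.range s)),
        (x : E) = aeval s p → g x = Φ p := by
  classical
  have hrange : Algebra.adjoin K (Set.range s) = (aeval s : MvPolynomial ι K →ₐ[K] E).range :=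
    Algebra.adjoin_range_eq_range_aeval K s
  -- a section of `aeval s` on the adjoin
  have hsec : ∀ x : Algebra.adjoin K (Set.range s), ∃ p : MvPolynomial ι K, aeval s p = (x : E) := by
    intro x
    have hx : (x : E) ∈ (aeval s : MvPolynomial ι K →ₐ[K] E).range := hrange ▸ x.2
    exact hx
  choose sec hsec' using hsec
  have key : ∀ (p : MvPolynomial ι K) (x : Algebra.adjoin K (Set.range s)),
      (x : E) = aeval s p → Φ (sec x) = Φ p := by
    intro p x hx
    have : aeval s (sec x - p) = 0 := by rw [map_sub, hsec', hx, sub_self]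
    have := h _ this
    rwa [map_sub, sub_eq_zero] at this
  refine ⟨{ toFun := fun x => Φ (sec x), map_one' := ?_, map_mul' := ?_, map_zero' := ?_,
            map_add' := ?_ }, fun p x hx => key p x hx⟩
  · rw [key 1 1 (by simp), map_one]
  · intro x y
    rw [key (sec x * sec y) (x * y) (by simp [hsec']), map_mul]
  · rw [key 0 0 (by simp), map_zero]
  · intro x y
    rw [key (sec x + sec y) (x + y) (by simp [hsec']), map_add]

open scoped IntermediateField.algebraAdjoinAdjoin in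
/-- **Lift.** If `Φ : MvPolynomial ι K →+* L` has the same kernel as evaluation at `s : ι → E`,
it induces a ring hom from the field `K(s)` to `L`. -/
theorem exists_lift (s : ι → E) (F' : IntermediateField K E)
    (hF : F' = IntermediateField.adjoin K (Set.range s))
    (Φ : MvPolynomial ι K →+* L) (h : ∀ p, Φ p = 0 ↔ aeval s p = 0) :
    ∃ σ : F' →+* L, ∀ (p : MvPolynomial ι K) (x : F'), (x : E) = aeval s p → σ x = Φ p := by
  subst hF
  obtain ⟨g, hg⟩ := exists_ringHom_adjoin s Φ (fun p hp => (h p).2 hp)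
  have hginj : Function.Injective g := by
    rw [injective_iff_map_eq_zero]
    intro x hx
    obtain ⟨p, hp⟩ : ∃ p : MvPolynomial ι K, aeval s p = (x : E) := by
      have hx' : (x : E) ∈ (aeval s : MvPolynomial ι K →ₐ[K] E).range :=
        (Algebra.adjoin_range_eq_range_aeval K s) ▸ x.2
      exact hx'
    have h1 : Φ p = 0 := by rw [← hg p x hp.symm, hx]
    have h2 := (h p).1 h1
    exact Subtype.ext (by rw [← hp, h2]; rfl)
  refine ⟨IsFractionRing.lift (A := Algebra.adjoin K (Set.range s)) hginj, fun p x hx => ?_⟩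
  have hxmem : (x : E) ∈ Algebra.adjoin K (Set.range s) := by
    rw [hx, Algebra.adjoin_range_eq_range_aeval]
    exact ⟨p, rfl⟩
  have hx' : x = algebraMap (Algebra.adjoin K (Set.range s))
      (IntermediateField.adjoin K (Set.range s)) ⟨(x : E), hxmem⟩ := Subtype.ext rfl
  rw [hx', IsFractionRing.lift_algebraMap]
  exact hg p _ hx

end Fermat.Agent.S24.H368

end
end
-- ===== PACK-END S24/Mod/H368Lift.lean

-- ===== PACK-BEGIN S28/H806/LemmaM.lean
section


set_option autoImplicit false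
set_option linter.unusedSectionVars false
set_option linter.style.haveILetI false

noncomputable section

namespace Fermat.Agent.S28.H806

open Polynomial

section PrimePower

variable {P D : Type*} [CommRing P] [IsDomain P] [CommRing D] [IsDomain D]

/-- If `ell` generates the kernel of `red` and `red c ≠ 0`, then `u * c = v * ell ^ m`
forces `ell ^ m ∣ u`. -/
theorem pow_dvd_of_mul_eq_mul_pow (red : P →+* D) (ell : P) (hell0 : ell ≠ 0)
    (hell : red ell = 0) (hker : ∀ u : P, red u = 0 → ell ∣ u) :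
    ∀ (m : ℕ) (c : P), red c ≠ 0 → ∀ u v : P, u * c = v * ell ^ m → ell ^ m ∣ u := by
  intro m
  induction m with
  | zero => intro c _ u v _; simp
  | succ m ih =>
    intro c hc u v h
    have hu : red u = 0 := by
      have h1 := congrArg red h
      rw [map_mul, map_mul, map_pow, hell, pow_succ, mul_zero, mul_zero] at h1
      rcases mul_eq_zero.mp h1 with h2 | h2
      · exact h2
      · exact absurd h2 hc
    obtain ⟨u', rfl⟩ := hker u hu
    have h' : u' * c = v * ell ^ m := by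
      apply mul_left_cancel₀ hell0
      rw [← mul_assoc, h, pow_succ]; ring
    obtain ⟨w, hw⟩ := ih c hc u' v h'
    exact ⟨w, by rw [hw, pow_succ]; ring⟩

end PrimePower

section LemmaM

variable {P F D : Type*} [CommRing P] [IsDomain P] [IsIntegrallyClosed P]
  [Field F] [Algebra P F] [Module.IsTorsionFree P F] [CommRing D] [IsDomain D]

/-- **Lemma M.**  Let `P` be an integrally closed domain, `ell ∈ P` a generator of the kernel of
`red : P → D`, and `s ∈ P` with `red s ≠ 0`.  If `ell • y` and `s • y` are integral over `P`, then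
so is `y`. -/
theorem isIntegral_of_isIntegral_smul_of_isIntegral_smul (red : P →+* D) (ell s : P)
    (hell0 : ell ≠ 0) (hell : red ell = 0) (hker : ∀ u : P, red u = 0 → ell ∣ u)
    (hs : red s ≠ 0) (y : F) (h1 : IsIntegral P (ell • y)) (h2 : IsIntegral P (s • y)) :
    IsIntegral P y := by
  classical
  have hs0 : s ≠ 0 := fun h => hs (by rw [h, map_zero])
  have e1 := IsIntegrallyClosed.minpoly_smul hs0 h1
  have e2 := IsIntegrallyClosed.minpoly_smul hell0 h2
  rw [smul_comm] at e1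
  rw [e1] at e2
  set g := minpoly P (ell • y) with hg
  set h := minpoly P (s • y) with hh
  have hdeg : g.natDegree = h.natDegree := by
    have := congrArg Polynomial.natDegree e2
    rwa [natDegree_scaleRoots, natDegree_scaleRoots] at this
  set n := g.natDegree with hn
  have hdiv : ∀ i, ell ^ (n - i) ∣ g.coeff i := by
    intro i
    have hc := congrArg (fun p => p.coeff i) e2
    simp only [coeff_scaleRoots] at hc
    rw [← hdeg] at hc
    exact pow_dvd_of_mul_eq_mul_pow red ell hell0 hell hker (n - i) (s ^ (n - i))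
      (by rw [map_pow]; exact pow_ne_zero _ hs) (g.coeff i) (h.coeff i) hc
  choose a ha using hdiv
  have hgm : g.Monic := minpoly.monic h1
  have han : a n = 1 := by
    have := ha n
    rw [Nat.sub_self, pow_zero, one_mul] at this
    rw [← this]
    exact hgm.coeff_natDegree
  let f : P[X] := X ^ n + ∑ i ∈ Finset.range n, C (a i) * X ^ i
  have hfm : f.Monic := by
    apply monic_X_pow_add
    rw [degree_lt_iff_coeff_zero]
    intro m hm
    rw [finsetSum_coeff]
    refine Finset.sum_eq_zero fun i hi => ?_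
    rw [coeff_C_mul_X_pow, if_neg]
    have := Finset.mem_range.mp hi
    omega
  refine ⟨f, hfm, ?_⟩
  have hroot : aeval (ell • y) g = 0 := minpoly.aeval P (ell • y)
  rw [hgm.as_sum] at hroot
  have hell' : algebraMap P F ell ≠ 0 := by
    intro h0
    exact hell0 ((FaithfulSMul.algebraMap_injective P F) (by rw [h0, map_zero]))
  have key : (algebraMap P F ell) ^ n * eval₂ (algebraMap P F) y f = 0 := by
    rw [← hroot]
    simp only [f, eval₂_add, eval₂_pow, eval₂_X, eval₂_finsetSum, eval₂_mul, eval₂_C,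
      map_add, map_pow, aeval_X, map_sum, map_mul, aeval_C, Algebra.smul_def]
    rw [mul_add, Finset.mul_sum, mul_pow]
    congr 1
    refine Finset.sum_congr rfl fun i hi => ?_
    have hi' : i ≤ n := (Finset.mem_range.mp hi).le
    rw [ha i, map_mul, map_pow, mul_pow]
    have : (algebraMap P F ell) ^ n = (algebraMap P F ell) ^ (n - i) * (algebraMap P F ell) ^ i := by
      rw [← pow_add, Nat.sub_add_cancel hi']
    rw [this]; ring
  rcases mul_eq_zero.mp key with h0 | h0
  · exact absurd h0 (pow_ne_zero _ hell')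
  · exact h0

end LemmaM

end Fermat.Agent.S28.H806

end
end
-- ===== PACK-END S28/H806/LemmaM.lean

-- ===== PACK-BEGIN S20/CuspCount360.lean
section



/-!
# Number of `T`-orbits on `SL(2,ℤ) ⧸ Γ₀(N)` equals `cuspCount N`

Pure group theory / elementary number theory (no analysis).
Main result: `Fermat.Agent.S20.CuspCount360.card_orbits_T`.
-/

set_option autoImplicit false

open scoped MatrixGroups
open CongruenceSubgroup Matrix

namespace Fermat.Agent.S20.CuspCount360

/-! ## Arithmetic core -/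

section Arith

/-- `→` part 1: the gcd of the lower-left entry with `N` is an invariant. -/
theorem gcd_eq_of_dvd {N : ℕ} {a c a' c' : ℤ} (hac : IsCoprime a c) (hac' : IsCoprime a' c')
    (h : (N : ℤ) ∣ a * c' - c * a') : Int.gcd c N = Int.gcd c' N := by
  apply Nat.dvd_antisymm
  · -- d ∣ c'
    apply Int.dvd_gcd _ (Int.gcd_dvd_right c N)
    have hd1 : ((Int.gcd c N : ℕ) : ℤ) ∣ c := Int.gcd_dvd_left c N
    have hd2 : ((Int.gcd c N : ℕ) : ℤ) ∣ a * c' - c * a' := (Int.gcd_dvd_right c N).trans h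
    have hd3 : ((Int.gcd c N : ℕ) : ℤ) ∣ a * c' := by
      have := dvd_add hd2 (hd1.mul_right a')
      simpa using this
    have hcop : IsCoprime ((Int.gcd c N : ℕ) : ℤ) a :=
      (IsCoprime.of_isCoprime_of_dvd_right hac hd1).symm
    exact hcop.dvd_of_dvd_mul_left hd3
  · apply Int.dvd_gcd _ (Int.gcd_dvd_right c' N)
    have hd1 : ((Int.gcd c' N : ℕ) : ℤ) ∣ c' := Int.gcd_dvd_left c' N
    have hd2 : ((Int.gcd c' N : ℕ) : ℤ) ∣ a * c' - c * a' := (Int.gcd_dvd_right c' N).trans h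
    have hd3 : ((Int.gcd c' N : ℕ) : ℤ) ∣ a' * c := by
      have := dvd_sub (hd1.mul_left a) hd2
      have e : a * c' - (a * c' - c * a') = a' * c := by ring
      rwa [e] at this
    have hcop : IsCoprime ((Int.gcd c' N : ℕ) : ℤ) a' :=
      (IsCoprime.of_isCoprime_of_dvd_right hac' hd1).symm
    exact hcop.dvd_of_dvd_mul_left hd3

/-- `→` part 2. Here `c = d * c₁`, `c' = d * c₁'`, `N = d * M`, and `e ∣ d`, `e ∣ M`. -/
theorem dvd_of_dvd {d M e a a' c₁ c₁' k : ℤ} (hd : d ≠ 0) (hed : e ∣ d) (heM : e ∣ M)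
    (h : d * M ∣ (a + k * (d * c₁)) * (d * c₁') - (d * c₁) * a') :
    e ∣ a * c₁' - a' * c₁ := by
  have h1 : d * M ∣ d * ((a + k * (d * c₁)) * c₁' - c₁ * a') := by
    have e1 : (a + k * (d * c₁)) * (d * c₁') - (d * c₁) * a'
        = d * ((a + k * (d * c₁)) * c₁' - c₁ * a') := by ring
    rwa [e1] at h
  have h2 : M ∣ (a + k * (d * c₁)) * c₁' - c₁ * a' := (mul_dvd_mul_iff_left hd).mp h1
  have h3 : e ∣ (a + k * (d * c₁)) * c₁' - c₁ * a' := heM.trans h2
  have h4 : e ∣ d * (k * c₁ * c₁') := hed.mul_right _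
  have := dvd_sub h3 h4
  have e2 : (a + k * (d * c₁)) * c₁' - c₁ * a' - d * (k * c₁ * c₁') = a * c₁' - a' * c₁ := by ring
  rwa [e2] at this

/-- `←`: solving the linear congruence. -/
theorem exists_k {d M a a' c₁ c₁' : ℤ} (h1 : IsCoprime c₁ M) (h1' : IsCoprime c₁' M)
    (h : ((Int.gcd d M : ℕ) : ℤ) ∣ a * c₁' - a' * c₁) :
    ∃ k : ℤ, d * M ∣ (a + k * (d * c₁)) * (d * c₁') - (d * c₁) * a' := by
  obtain ⟨t, ht⟩ := h
  obtain ⟨u, v, huv⟩ := h1
  obtain ⟨u', v', huv'⟩ := h1'
  have hb := Int.gcd_eq_gcd_ab d M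
  set x := Int.gcdA d M
  set y := Int.gcdB d M
  -- z := u * u' is an inverse of c₁ c₁' mod M
  refine ⟨-t * x * (u * u'), ?_⟩
  have e1 : (a + (-t * x * (u * u')) * (d * c₁)) * (d * c₁') - (d * c₁) * a'
      = d * ((a * c₁' - a' * c₁) - t * x * d * ((u * c₁) * (u' * c₁'))) := by ring
  rw [e1]
  apply mul_dvd_mul_left
  have e2 : u * c₁ = 1 - v * M := by linear_combination huv
  have e3 : u' * c₁' = 1 - v' * M := by linear_combination huv'
  rw [e2, e3, ht]
  refine ⟨t * y + t * x * d * (v + v' - v * v' * M), ?_⟩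
  linear_combination (t) * hb

/-- Comparison of the `r`-invariants inside a fixed `ZMod e`. -/
theorem val_mul_inv_eq_iff {e : ℕ} [NeZero e] {a a' c₁ c₁' : ℤ}
    (h1 : IsCoprime c₁ (e : ℤ)) (h1' : IsCoprime c₁' (e : ℤ)) :
    ((a : ZMod e) * (c₁ : ZMod e)⁻¹).val = ((a' : ZMod e) * (c₁' : ZMod e)⁻¹).val ↔
      (e : ℤ) ∣ a * c₁' - a' * c₁ := by
  have hu : IsUnit ((c₁ : ℤ) : ZMod e) := (ZMod.coe_int_isUnit_iff_isCoprime c₁ e).2 h1.symm
  have hu' : IsUnit ((c₁' : ℤ) : ZMod e) := (ZMod.coe_int_isUnit_iff_isCoprime c₁' e).2 h1'.symm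
  have hi : ((c₁ : ℤ) : ZMod e) * ((c₁ : ℤ) : ZMod e)⁻¹ = 1 := ZMod.mul_inv_of_unit _ hu
  have hi' : ((c₁' : ℤ) : ZMod e) * ((c₁' : ℤ) : ZMod e)⁻¹ = 1 := ZMod.mul_inv_of_unit _ hu'
  rw [(ZMod.val_injective e).eq_iff, ← ZMod.intCast_zmod_eq_zero_iff_dvd]
  push_cast
  constructor
  · intro h
    have : (a : ZMod e) * c₁' - a' * c₁
        = ((a : ZMod e) * (c₁ : ZMod e)⁻¹ - (a' : ZMod e) * (c₁' : ZMod e)⁻¹) * (c₁ * c₁')
          + (a : ZMod e) * c₁' * (1 - c₁ * (c₁ : ZMod e)⁻¹)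
          - (a' : ZMod e) * c₁ * (1 - c₁' * (c₁' : ZMod e)⁻¹) := by ring
    rw [this, h, hi, hi']; ring
  · intro h
    have : (a : ZMod e) * (c₁ : ZMod e)⁻¹ - (a' : ZMod e) * (c₁' : ZMod e)⁻¹
        = ((a : ZMod e) * c₁' - a' * c₁) * ((c₁ : ZMod e)⁻¹ * (c₁' : ZMod e)⁻¹)
          + (a : ZMod e) * (c₁ : ZMod e)⁻¹ * (1 - c₁' * (c₁' : ZMod e)⁻¹)
          - (a' : ZMod e) * (c₁' : ZMod e)⁻¹ * (1 - c₁ * (c₁ : ZMod e)⁻¹) := by ring
    have h0 := sub_eq_zero.mp (by rw [this, h, hi, hi']; ring :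
      (a : ZMod e) * (c₁ : ZMod e)⁻¹ - (a' : ZMod e) * (c₁' : ZMod e)⁻¹ = 0)
    exact h0

end Arith

/-! ## The invariant -/

section Invariant

variable (N : ℕ)

/-- `e(d) = gcd (d, N / d)`. -/
def eOf (d : ℕ) : ℕ := Nat.gcd d (N / d)

/-- The `r`-invariant computed with an explicit `d`. -/
noncomputable def rAux (d : ℕ) (a c : ℤ) : ℕ :=
  (((a : ℤ) : ZMod (eOf N d)) * (((c / (d : ℤ) : ℤ)) : ZMod (eOf N d))⁻¹).val

/-- The `d`-invariant `gcd (c, N)` of `g = [a b; c d]`. -/
def dInv (g : SL(2, ℤ)) : ℕ := Int.gcd ((g : Matrix (Fin 2) (Fin 2) ℤ) 1 0) N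

/-- The full invariant `(d, r)`. -/
noncomputable def cuspInv (g : SL(2, ℤ)) : (_ : ℕ) × ℕ :=
  ⟨dInv N g, rAux N (dInv N g) ((g : Matrix (Fin 2) (Fin 2) ℤ) 0 0)
    ((g : Matrix (Fin 2) (Fin 2) ℤ) 1 0)⟩

theorem isCoprime_col (g : SL(2, ℤ)) :
    IsCoprime ((g : Matrix (Fin 2) (Fin 2) ℤ) 0 0) ((g : Matrix (Fin 2) (Fin 2) ℤ) 1 0) := by
  have h := g.det_coe
  rw [Matrix.det_fin_two] at h
  exact ⟨(g : Matrix (Fin 2) (Fin 2) ℤ) 1 1, -(g : Matrix (Fin 2) (Fin 2) ℤ) 0 1, by
    linear_combination h⟩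

theorem mk_eq_mk_iff (g g' : SL(2, ℤ)) :
    ((g : SL(2, ℤ) ⧸ Gamma0 N) = (g' : SL(2, ℤ) ⧸ Gamma0 N)) ↔
      (N : ℤ) ∣ (g : Matrix (Fin 2) (Fin 2) ℤ) 0 0 * (g' : Matrix (Fin 2) (Fin 2) ℤ) 1 0
        - (g : Matrix (Fin 2) (Fin 2) ℤ) 1 0 * (g' : Matrix (Fin 2) (Fin 2) ℤ) 0 0 := by
  rw [QuotientGroup.eq, Gamma0_mem, ZMod.intCast_zmod_eq_zero_iff_dvd]
  have : ((g⁻¹ * g' : SL(2, ℤ)) : Matrix (Fin 2) (Fin 2) ℤ) 1 0
      = (g : Matrix (Fin 2) (Fin 2) ℤ) 0 0 * (g' : Matrix (Fin 2) (Fin 2) ℤ) 1 0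
        - (g : Matrix (Fin 2) (Fin 2) ℤ) 1 0 * (g' : Matrix (Fin 2) (Fin 2) ℤ) 0 0 := by
    rw [Matrix.SpecialLinearGroup.coe_mul, Matrix.SpecialLinearGroup.SL2_inv_expl]
    rw [Matrix.mul_apply, Fin.sum_univ_two]
    simp
    ring
  rw [this]

theorem T_zpow_mul_col (k : ℤ) (g : SL(2, ℤ)) :
    ((ModularGroup.T ^ k * g : SL(2, ℤ)) : Matrix (Fin 2) (Fin 2) ℤ) 0 0
        = (g : Matrix (Fin 2) (Fin 2) ℤ) 0 0 + k * (g : Matrix (Fin 2) (Fin 2) ℤ) 1 0 ∧
    ((ModularGroup.T ^ k * g : SL(2, ℤ)) : Matrix (Fin 2) (Fin 2) ℤ) 1 0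
        = (g : Matrix (Fin 2) (Fin 2) ℤ) 1 0 := by
  rw [Matrix.SpecialLinearGroup.coe_mul, ModularGroup.coe_T_zpow]
  constructor <;> rw [Matrix.mul_apply, Fin.sum_univ_two] <;> simp

/-- Data attached to `c` and `N ≠ 0`: `d = gcd (c, N)`, `c = d * c₁`, `N = d * M`,
`e = gcd (d, M)`, and `c₁` is coprime to `M` and to `e`. -/
theorem gcd_data {N : ℕ} (hN : N ≠ 0) (c : ℤ) :
    Int.gcd c N ≠ 0 ∧ Int.gcd c N ∣ N ∧
    ((Int.gcd c N : ℕ) : ℤ) * (c / ((Int.gcd c N : ℕ) : ℤ)) = c ∧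
    ((Int.gcd c N : ℕ) : ℤ) * ((N / Int.gcd c N : ℕ) : ℤ) = (N : ℤ) ∧
    IsCoprime (c / ((Int.gcd c N : ℕ) : ℤ)) ((N / Int.gcd c N : ℕ) : ℤ) ∧
    IsCoprime (c / ((Int.gcd c N : ℕ) : ℤ)) ((eOf N (Int.gcd c N) : ℕ) : ℤ) ∧
    eOf N (Int.gcd c N) ≠ 0 := by
  have hd0 : Int.gcd c N ≠ 0 := by
    intro h
    rw [Int.gcd_eq_zero_iff] at h
    exact hN (by exact_mod_cast h.2)
  have hdN : Int.gcd c N ∣ N := Int.natCast_dvd_natCast.mp (Int.gcd_dvd_right c N)
  have hc : ((Int.gcd c N : ℕ) : ℤ) * (c / ((Int.gcd c N : ℕ) : ℤ)) = c :=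
    Int.mul_ediv_cancel' (Int.gcd_dvd_left c N)
  have hNM : ((Int.gcd c N : ℕ) : ℤ) * ((N / Int.gcd c N : ℕ) : ℤ) = (N : ℤ) := by
    exact_mod_cast Nat.mul_div_cancel' hdN
  have hcop : IsCoprime (c / ((Int.gcd c N : ℕ) : ℤ)) ((N / Int.gcd c N : ℕ) : ℤ) := by
    rw [Int.isCoprime_iff_gcd_eq_one]
    have := Int.gcd_div_gcd_div_gcd (i := c) (j := (N : ℤ)) (Nat.pos_of_ne_zero hd0)
    rwa [← Int.natCast_div] at this
  have heM : ((eOf N (Int.gcd c N) : ℕ) : ℤ) ∣ ((N / Int.gcd c N : ℕ) : ℤ) :=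
    Int.natCast_dvd_natCast.mpr (Nat.gcd_dvd_right _ _)
  refine ⟨hd0, hdN, hc, hNM, hcop, IsCoprime.of_isCoprime_of_dvd_right hcop heM, ?_⟩
  exact Nat.gcd_ne_zero_left hd0

theorem arith_iff {N : ℕ} (hN : N ≠ 0) {a c a' c' : ℤ} (hac : IsCoprime a c)
    (hac' : IsCoprime a' c') :
    (∃ k : ℤ, (N : ℤ) ∣ (a + k * c) * c' - c * a') ↔
      (Int.gcd c N = Int.gcd c' N ∧ rAux N (Int.gcd c N) a c = rAux N (Int.gcd c N) a' c') := by
  obtain ⟨hd0, hdN, hc, hNM, hcop, hcope, he0⟩ := gcd_data hN c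
  obtain ⟨hd0', hdN', hc', hNM', hcop', hcope', he0'⟩ := gcd_data hN c'
  have : NeZero (eOf N (Int.gcd c N)) := ⟨he0⟩
  have hed : ((eOf N (Int.gcd c N) : ℕ) : ℤ) ∣ ((Int.gcd c N : ℕ) : ℤ) :=
    Int.natCast_dvd_natCast.mpr (Nat.gcd_dvd_left _ _)
  have heM : ((eOf N (Int.gcd c N) : ℕ) : ℤ) ∣ ((N / Int.gcd c N : ℕ) : ℤ) :=
    Int.natCast_dvd_natCast.mpr (Nat.gcd_dvd_right _ _)
  constructor
  · rintro ⟨k, hk⟩
    have hcopk : IsCoprime (a + k * c) c := hac.add_mul_right_left k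
    have hdd : Int.gcd c N = Int.gcd c' N := gcd_eq_of_dvd hcopk hac' hk
    refine ⟨hdd, ?_⟩
    rw [← hdd] at hc' hcope'
    unfold rAux
    rw [val_mul_inv_eq_iff hcope hcope']
    refine dvd_of_dvd (k := k) (by exact_mod_cast hd0) hed heM ?_
    rw [hNM, hc, hc']
    exact hk
  · rintro ⟨hdd, hr⟩
    rw [← hdd] at hc' hcope' hcop'
    unfold rAux at hr
    rw [val_mul_inv_eq_iff hcope hcope'] at hr
    have hr' : ((Int.gcd ((Int.gcd c N : ℕ) : ℤ) ((N / Int.gcd c N : ℕ) : ℤ) : ℕ) : ℤ) ∣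
        a * (c' / ((Int.gcd c N : ℕ) : ℤ)) - a' * (c / ((Int.gcd c N : ℕ) : ℤ)) := by
      rw [Int.gcd_natCast_natCast]
      exact hr
    obtain ⟨k, hk⟩ := exists_k (a := a) (a' := a') hcop hcop' hr'
    refine ⟨k, ?_⟩
    rw [hNM, hc, hc'] at hk
    exact hk

variable [NeZero N]

/-- Two cosets `gΓ₀(N)`, `g'Γ₀(N)` lie in the same `⟨T⟩`-orbit iff they have the same
invariant. -/
theorem orbit_iff (g g' : SL(2, ℤ)) :
    (∃ k : ℤ, ((ModularGroup.T ^ k * g : SL(2, ℤ)) : SL(2, ℤ) ⧸ Gamma0 N)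
        = (g' : SL(2, ℤ) ⧸ Gamma0 N)) ↔ cuspInv N g = cuspInv N g' := by
  have key := arith_iff (NeZero.ne N) (isCoprime_col g) (isCoprime_col g')
  constructor
  · rintro ⟨k, hk⟩
    rw [mk_eq_mk_iff, (T_zpow_mul_col k g).1, (T_zpow_mul_col k g).2] at hk
    obtain ⟨h1, h2⟩ := key.1 ⟨k, hk⟩
    unfold cuspInv dInv
    rw [← h1, h2]
  · intro h
    unfold cuspInv dInv at h
    rw [Sigma.mk.injEq] at h
    obtain ⟨h1, h2⟩ := h
    have h2' := eq_of_heq h2
    rw [← h1] at h2'
    obtain ⟨k, hk⟩ := key.2 ⟨h1, h2'⟩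
    refine ⟨k, ?_⟩
    rw [mk_eq_mk_iff, (T_zpow_mul_col k g).1, (T_zpow_mul_col k g).2]
    exact hk

/-- The finite set of possible invariants. -/
def cuspSet : Finset ((_ : ℕ) × ℕ) :=
  N.divisors.sigma fun d => (Finset.range (eOf N d)).filter fun r => (eOf N d).Coprime r

omit [NeZero N] in
theorem card_cuspSet : (cuspSet N).card = ModularCurve.cuspCount N := by
  unfold cuspSet ModularCurve.cuspCount
  rw [Finset.card_sigma]
  refine Finset.sum_congr rfl fun d _ => ?_
  rw [Nat.totient_eq_card_coprime]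
  rfl

theorem cuspInv_mem (g : SL(2, ℤ)) : cuspInv N g ∈ cuspSet N := by
  obtain ⟨hd0, hdN, hc, hNM, hcop, hcope, he0⟩ :=
    gcd_data (NeZero.ne N) ((g : Matrix (Fin 2) (Fin 2) ℤ) 1 0)
  have : NeZero (eOf N (Int.gcd ((g : Matrix (Fin 2) (Fin 2) ℤ) 1 0) N)) := ⟨he0⟩
  unfold cuspSet cuspInv dInv
  rw [Finset.mem_sigma, Nat.mem_divisors, Finset.mem_filter, Finset.mem_range]
  refine ⟨⟨hdN, NeZero.ne N⟩, ZMod.val_lt _, ?_⟩
  -- the value is a unit
  have hed : ((eOf N (Int.gcd ((g : Matrix (Fin 2) (Fin 2) ℤ) 1 0) N) : ℕ) : ℤ) ∣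
      (g : Matrix (Fin 2) (Fin 2) ℤ) 1 0 :=
    (Int.natCast_dvd_natCast.mpr (Nat.gcd_dvd_left _ _)).trans (Int.gcd_dvd_left _ _)
  have hae : IsCoprime ((g : Matrix (Fin 2) (Fin 2) ℤ) 0 0)
      ((eOf N (Int.gcd ((g : Matrix (Fin 2) (Fin 2) ℤ) 1 0) N) : ℕ) : ℤ) :=
    IsCoprime.of_isCoprime_of_dvd_right (isCoprime_col g) hed
  have hua := (ZMod.coe_int_isUnit_iff_isCoprime _ _).2 hae.symm
  have huc := (ZMod.coe_int_isUnit_iff_isCoprime _ _).2 hcope.symm
  have hinv : IsUnit ((((g : Matrix (Fin 2) (Fin 2) ℤ) 1 0 /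
      ((Int.gcd ((g : Matrix (Fin 2) (Fin 2) ℤ) 1 0) N : ℕ) : ℤ) : ℤ) :
        ZMod (eOf N (Int.gcd ((g : Matrix (Fin 2) (Fin 2) ℤ) 1 0) N)))⁻¹) :=
    IsUnit.of_mul_eq_one _ (by rw [mul_comm]; exact ZMod.mul_inv_of_unit _ huc)
  have hu := hua.mul hinv
  have := ZMod.val_coe_unit_coprime hu.unit
  rw [IsUnit.unit_spec] at this
  exact this.symm

omit [NeZero N] in
/-- Every element of `cuspSet N` is the invariant of some `g`. -/
theorem exists_cuspInv_eq (p : (_ : ℕ) × ℕ) (hp : p ∈ cuspSet N) :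
    ∃ g : SL(2, ℤ), cuspInv N g = p := by
  obtain ⟨d, r⟩ := p
  unfold cuspSet at hp
  rw [Finset.mem_sigma, Nat.mem_divisors, Finset.mem_filter, Finset.mem_range] at hp
  obtain ⟨⟨hdN, hN⟩, hr, hcop⟩ := hp
  dsimp only at hdN hr hcop
  have hd0 : d ≠ 0 := fun h => hN (by rw [h] at hdN; exact Nat.eq_zero_of_zero_dvd hdN)
  have : NeZero d := ⟨hd0⟩
  have hed : eOf N d ∣ d := Nat.gcd_dvd_left _ _
  have he0 : eOf N d ≠ 0 := Nat.gcd_ne_zero_left hd0
  have : NeZero (eOf N d) := ⟨he0⟩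
  -- lift the unit `r` mod `e` to a unit `v` mod `d`
  obtain ⟨v, hv⟩ := ZMod.unitsMap_surjective hed (ZMod.unitOfCoprime r hcop.symm)
  have hvcop : ((v : ZMod d).val).Coprime d := ZMod.val_coe_unit_coprime v
  have hcast : (((v : ZMod d).val : ℕ) : ZMod (eOf N d)) = (r : ZMod (eOf N d)) := by
    have h1 := congrArg (fun u : (ZMod (eOf N d))ˣ => (u : ZMod (eOf N d))) hv
    simp only [ZMod.unitsMap_def, Units.coe_map, MonoidHom.coe_coe, ZMod.castHom_apply,
      ZMod.coe_unitOfCoprime] at h1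
    rw [ZMod.natCast_val]
    exact h1
  -- Bézout
  have hco : IsCoprime (((v : ZMod d).val : ℕ) : ℤ) ((d : ℕ) : ℤ) :=
    Nat.isCoprime_iff_coprime.mpr hvcop
  obtain ⟨x, y, hxy⟩ := hco
  let g : SL(2, ℤ) := ⟨!![(((v : ZMod d).val : ℕ) : ℤ), -y; (d : ℤ), x], by
    rw [Matrix.det_fin_two_of]; linear_combination hxy⟩
  have hg00 : (g : Matrix (Fin 2) (Fin 2) ℤ) 0 0 = (((v : ZMod d).val : ℕ) : ℤ) := rfl
  have hg10 : (g : Matrix (Fin 2) (Fin 2) ℤ) 1 0 = (d : ℤ) := rfl
  refine ⟨g, ?_⟩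
  have hgcd : Int.gcd ((d : ℕ) : ℤ) (N : ℤ) = d := by
    rw [Int.gcd_natCast_natCast]; exact Nat.gcd_eq_left hdN
  unfold cuspInv dInv
  rw [hg00, hg10, hgcd]
  congr 1
  unfold rAux
  rw [Int.ediv_self (by exact_mod_cast hd0)]
  simp only [Int.cast_one, ZMod.inv_one, mul_one, Int.cast_natCast]
  rw [hcast, ZMod.val_natCast]
  exact Nat.mod_eq_of_lt hr

/-- **Main theorem**: the number of orbits of `⟨T⟩` acting by left multiplication on
`SL(2,ℤ) ⧸ Γ₀(N)` is `cuspCount N = ∑_{d ∣ N} φ(gcd(d, N/d))`. -/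
theorem card_orbits_T :
    Nat.card (MulAction.orbitRel.Quotient (Subgroup.zpowers ModularGroup.T)
      (SL(2, ℤ) ⧸ Gamma0 N)) = ModularCurve.cuspCount N := by
  rw [← card_cuspSet, ← Nat.card_eq_finsetCard]
  -- representative of an orbit
  let rep : MulAction.orbitRel.Quotient (Subgroup.zpowers ModularGroup.T)
      (SL(2, ℤ) ⧸ Gamma0 N) → SL(2, ℤ) := fun x => Quotient.out (Quotient.out x)
  have hrep : ∀ x, (Quotient.mk'' ((rep x : SL(2, ℤ)) : SL(2, ℤ) ⧸ Gamma0 N) :
      MulAction.orbitRel.Quotient (Subgroup.zpowers ModularGroup.T)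
      (SL(2, ℤ) ⧸ Gamma0 N)) = x := by
    intro x
    show Quotient.mk'' ((Quotient.out (Quotient.out x) : SL(2, ℤ)) : SL(2, ℤ) ⧸ Gamma0 N) = x
    rw [QuotientGroup.out_eq']
    exact Quotient.out_eq x
  -- orbit equivalence in terms of `T ^ k`
  have horb : ∀ g g' : SL(2, ℤ),
      (Quotient.mk'' (g : SL(2, ℤ) ⧸ Gamma0 N) :
        MulAction.orbitRel.Quotient (Subgroup.zpowers ModularGroup.T) (SL(2, ℤ) ⧸ Gamma0 N))
        = Quotient.mk'' (g' : SL(2, ℤ) ⧸ Gamma0 N) ↔ cuspInv N g' = cuspInv N g := by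
    intro g g'
    rw [Quotient.eq'', MulAction.orbitRel_apply, MulAction.mem_orbit_iff, ← orbit_iff]
    constructor
    · rintro ⟨⟨t, ht⟩, h⟩
      obtain ⟨k, rfl⟩ := Subgroup.mem_zpowers_iff.mp ht
      exact ⟨k, h⟩
    · rintro ⟨k, h⟩
      exact ⟨⟨ModularGroup.T ^ k, Subgroup.mem_zpowers_iff.mpr ⟨k, rfl⟩⟩, h⟩
  refine Nat.card_congr (Equiv.ofBijective
    (fun x => (⟨cuspInv N (rep x), cuspInv_mem N (rep x)⟩ : cuspSet N)) ⟨?_, ?_⟩)
  · intro x y hxy
    have h := congrArg Subtype.val hxy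
    dsimp only at h
    rw [← hrep x, ← hrep y]
    exact (horb _ _).2 h.symm
  · rintro ⟨p, hp⟩
    obtain ⟨g, hg⟩ := exists_cuspInv_eq N p hp
    refine ⟨Quotient.mk'' (g : SL(2, ℤ) ⧸ Gamma0 N), ?_⟩
    apply Subtype.ext
    dsimp only
    rw [← hg]
    exact (horb _ _).1 (hrep (Quotient.mk'' (g : SL(2, ℤ) ⧸ Gamma0 N))).symm

end Invariant

end Fermat.Agent.S20.CuspCount360

end
-- ===== PACK-END S20/CuspCount360.lean

-- ===== PACK-BEGIN S18/H754/KummerSpec.lean
section


/-!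
# S18, Route K, pieces b3 + b4 merged: the ETALE KUMMER COVER (helper754, squad S18/S34)

Mathlib-only.  Setting (one chart):

* `B` : Noetherian integrally closed domain (chart algebra of the model, over a DVR `A'`),
  `F = Frac B`, `ϖ ∈ B` a prime element (uniformiser of `A'`), and the special fibre `B/ϖ` is
  regular: every maximal ideal `𝔪 ∋ ϖ` is locally generated by `ϖ` and one more element
  (this is the OUTPUT of b2: `B/ϖ` Dedekind).
* `u ∈ F`, `z ^ p = u` in an extension field `F'`, `p` prime and invertible in `B`,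
  `u` is a unit at `ϖ` with `u ≡ 1 mod ϖ`, and at every height-one prime of `B` the element `u`
  is a unit times a `p`-th power (`p ∣ ord_v(u)` for all places).

Conclusions (no discriminant counting for the cover is needed: the cover is étale over the
regular chart because regular local rings of this shape are UFDs):

* `KummerLift`  : every Kummer idempotent `e_η = p⁻¹ ∑_{a<p} η^a z^a` (`η^p = 1`) is congruent
  modulo `ϖ O'` to an element integral over `B` (`O'` = integral closure of `B_(ϖ)`).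
* `KummerUnmixed` : if `c ∈ F(z)` is integral over `B` and `c ∈ ϖ O'` then `c/ϖ` is integral over `B`.
* `kummerIdem_*` : idempotency / orthogonality / nontriviality of the `e_η` modulo `ϖ O'`.
-/

set_option autoImplicit false

noncomputable section

namespace Fermat.Agent.S18.H754

open Polynomial

variable {B : Type*} [CommRing B] [IsDomain B]
  {F : Type*} [Field F] [Algebra B F] [IsFractionRing B F]
  {F' : Type*} [Field F'] [Algebra F F'] [Algebra B F'] [IsScalarTower B F F']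

/-- The Kummer idempotent candidate attached to `η` (a `p`-th root of unity in `B`). -/
def kummerIdem (p : ℕ) (η : B) (z : F') : F' :=
  (p : F')⁻¹ * ∑ a ∈ Finset.range p, algebraMap B F' (η ^ a) * z ^ a

/-- `y ∈ ϖ O'`, where `O'` is the integral closure of `B_(ϖ)` in `F'`, elementwise:
`s y = ϖ c` with `s ∈ B ∖ ϖB` and `c` integral over `B`. -/
def InPiO (ϖ : B) (y : F') : Prop :=
  ∃ s : B, s ∉ Ideal.span {ϖ} ∧ ∃ c : F', IsIntegral B c ∧
    algebraMap B F' s * y = algebraMap B F' ϖ * c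

/-- The special fibre is regular at every closed point: `𝔪 B_𝔪 = (ϖ, t)`. -/
def RegularAlong (ϖ : B) : Prop :=
  ∀ 𝔪 : Ideal B, 𝔪.IsMaximal → ϖ ∈ 𝔪 →
    ∃ t ∈ 𝔪, ∀ a ∈ 𝔪, ∃ s : B, s ∉ 𝔪 ∧ s * a ∈ Ideal.span {ϖ, t}

/-- `u` is a unit at `ϖ` and `u ≡ 1 mod ϖ`. -/
def OneModPi (ϖ : B) (u : F) : Prop :=
  ∃ a s : B, s ∉ Ideal.span {ϖ} ∧ a - s ∈ Ideal.span {ϖ} ∧
    u * algebraMap B F s = algebraMap B F a

/-- `p ∣ ord_𝔭 (u)` at every height-one prime `𝔭` of `B`, elementwise. -/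
def DivisibleDivisor (B : Type*) [CommRing B] {F : Type*} [Field F] [Algebra B F]
    (p : ℕ) (u : F) : Prop :=
  ∀ 𝔭 : Ideal B, 𝔭.IsPrime → 𝔭.height = 1 →
    ∃ t : F, ∃ a s : B, a ∉ 𝔭 ∧ s ∉ 𝔭 ∧ u * t ^ p * algebraMap B F s = algebraMap B F a

/-- STATEMENT of the lifting theorem. -/
def KummerLiftStatement : Prop :=
  ∀ (B : Type) [CommRing B] [IsDomain B] [IsNoetherianRing B] [IsIntegrallyClosed B]
    (F : Type) [Field F] [Algebra B F] [IsFractionRing B F]
    (F' : Type) [Field F'] [Algebra F F'] [Algebra B F'] [IsScalarTower B F F']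
    (ϖ : B) (_ : Prime ϖ) (_ : RegularAlong ϖ)
    (p : ℕ) (_ : p.Prime) (_ : IsUnit (p : B))
    (u : F) (z : F') (_ : z ^ p = algebraMap F F' u) (_ : ∀ y : F, y ^ p ≠ u)
    (_ : OneModPi ϖ u) (_ : DivisibleDivisor B p u)
    (η : B) (_ : η ^ p = 1),
    ∃ b : F', IsIntegral B b ∧ InPiO ϖ (b - kummerIdem p η z)

/-- STATEMENT of unmixedness of `ϖ` on the integral closure in `F(z)`. -/
def KummerUnmixedStatement : Prop :=
  ∀ (B : Type) [CommRing B] [IsDomain B] [IsNoetherianRing B] [IsIntegrallyClosed B]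
    (F : Type) [Field F] [Algebra B F] [IsFractionRing B F]
    (F' : Type) [Field F'] [Algebra F F'] [Algebra B F'] [IsScalarTower B F F']
    (ϖ : B) (_ : Prime ϖ) (_ : RegularAlong ϖ)
    (p : ℕ) (_ : p.Prime) (_ : IsUnit (p : B))
    (u : F) (z : F') (_ : z ^ p = algebraMap F F' u) (_ : ∀ y : F, y ^ p ≠ u)
    (_ : OneModPi ϖ u) (_ : DivisibleDivisor B p u)
    (c : F') (_ : c ∈ IntermediateField.adjoin F {z}) (_ : IsIntegral B c) (_ : InPiO ϖ c),
    ∃ c' : F', IsIntegral B c' ∧ c = algebraMap B F' ϖ * c'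

/-- STATEMENT: the Kummer idempotents are idempotent and orthogonal modulo `ϖ O'`, sum to one,
and none of them vanishes modulo `ϖ O'`. -/
def KummerIdemStatement : Prop :=
  ∀ (B : Type) [CommRing B] [IsDomain B] [IsIntegrallyClosed B]
    (F : Type) [Field F] [Algebra B F] [IsFractionRing B F]
    (F' : Type) [Field F'] [Algebra F F'] [Algebra B F'] [IsScalarTower B F F']
    (ϖ : B) (_ : Prime ϖ)
    (p : ℕ) (_ : p.Prime) (_ : IsUnit (p : B))
    (u : F) (z : F') (_ : z ^ p = algebraMap F F' u) (_ : ∀ y : F, y ^ p ≠ u)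
    (_ : OneModPi ϖ u),
    (∀ η : B, η ^ p = 1 → InPiO ϖ (kummerIdem p η z * kummerIdem p η z - kummerIdem p η z)) ∧
    (∀ η η' : B, η ^ p = 1 → η' ^ p = 1 → η ≠ η' →
      InPiO ϖ (kummerIdem p η z * kummerIdem p η' z)) ∧
    (∀ ζ : B, IsPrimitiveRoot ζ p →
      ∑ i ∈ Finset.range p, kummerIdem p (ζ ^ i) z = 1) ∧
    (∀ η : B, η ^ p = 1 → ¬ InPiO ϖ (kummerIdem p η z))

end Fermat.Agent.S18.H754

end

end
-- ===== PACK-END S18/H754/KummerSpec.lean

-- ===== PACK-BEGIN S18/H438/Front/Dvr.lean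
section


/-!
# S18 / ALG-FRONT (helper438), part 0: a subring with a uniformiser is a DVR

`A : Subring K` (`K` a field), `w ∈ A`, `w ≠ 0`, `w⁻¹ ∉ A`, every nonzero element of `A` is
`w ^ n * unit`.  Then `A` is a discrete valuation ring with uniformiser `w`.
-/

set_option autoImplicit false
set_option linter.unusedSectionVars false

noncomputable section

namespace Fermat.Agent.S18.H438

variable {K : Type*} [Field K] (A : Subring K) {w : K}

/-- units of a subring of a field, elementwise -/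
theorem isUnit_subring_iff {a : A} : IsUnit a ↔ (a : K) ≠ 0 ∧ (a : K)⁻¹ ∈ A := by
  constructor
  · rintro ⟨⟨u, v, huv, hvu⟩, rfl⟩
    have h1 : (u : K) * (v : K) = 1 := congrArg Subtype.val huv
    have hu0 : (u : K) ≠ 0 := left_ne_zero_of_mul_eq_one h1
    refine ⟨hu0, ?_⟩
    have : (u : K)⁻¹ = (v : K) := (eq_inv_of_mul_eq_one_right h1).symm
    rw [show ((⟨u, v, huv, hvu⟩ : Aˣ) : A) = u from rfl, this]
    exact v.2
  · rintro ⟨h0, hinv⟩
    refine ⟨⟨a, ⟨(a : K)⁻¹, hinv⟩, Subtype.ext ?_, Subtype.ext ?_⟩, rfl⟩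
    · show (a : K) * (a : K)⁻¹ = 1
      exact mul_inv_cancel₀ h0
    · show (a : K)⁻¹ * (a : K) = 1
      exact inv_mul_cancel₀ h0

variable (hwA : w ∈ A) (hw0 : w ≠ 0) (hwinv : w⁻¹ ∉ A)
  (hdisc : ∀ r ∈ A, r ≠ 0 → ∃ n : ℕ, r * (w⁻¹) ^ n ∈ A ∧ (r * (w⁻¹) ^ n)⁻¹ ∈ A)

include hwA hw0 hwinv hdisc

/-- `w` is irreducible in `A`. -/
theorem irreducible_unif_of_disc : Irreducible (⟨w, hwA⟩ : A) := by
  have hnu : ¬ IsUnit (⟨w, hwA⟩ : A) := fun h => hwinv ((isUnit_subring_iff A).1 h).2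
  refine ⟨hnu, ?_⟩
  intro a b hab
  have habK : w = (a : K) * (b : K) := congrArg Subtype.val hab
  have ha0 : (a : K) ≠ 0 := fun h => hw0 (by rw [habK, h, zero_mul])
  have hb0 : (b : K) ≠ 0 := fun h => hw0 (by rw [habK, h, mul_zero])
  obtain ⟨n, hn1, hn2⟩ := hdisc a a.2 ha0
  obtain ⟨m, hm1, hm2⟩ := hdisc b b.2 hb0
  -- `w = w^(n+m) * unit`
  have hprod : ((a : K) * (w⁻¹) ^ n) * ((b : K) * (w⁻¹) ^ m) = w * (w⁻¹) ^ (n + m) := by
    rw [habK, pow_add]; ring
  have hunit : w * (w⁻¹) ^ (n + m) ∈ A ∧ (w * (w⁻¹) ^ (n + m))⁻¹ ∈ A := by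
    rw [← hprod]
    refine ⟨A.mul_mem hn1 hm1, ?_⟩
    rw [mul_inv]
    exact A.mul_mem hn2 hm2
  -- so `n + m = 1`
  have hnm : n + m = 1 := by
    rcases Nat.lt_or_ge (n + m) 1 with h | h
    · -- `n + m = 0`: `w` would be a unit
      have h0 : n + m = 0 := by omega
      rw [h0, pow_zero, mul_one] at hunit
      exact absurd hunit.2 hwinv
    · rcases Nat.eq_or_lt_of_le h with h1 | h1
      · exact h1.symm
      · -- `n + m ≥ 2`: `w⁻¹ = (w * w^-(n+m)) * w^(n+m-2) ∈ A`
        exfalso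
        obtain ⟨k, hk⟩ : ∃ k, n + m = k + 2 := ⟨n + m - 2, by omega⟩
        have : w⁻¹ = (w * (w⁻¹) ^ (n + m)) * w ^ k := by
          rw [hk, pow_add, inv_pow, inv_pow]
          field_simp
        apply hwinv
        rw [this]
        exact A.mul_mem hunit.1 (A.pow_mem hwA k)
  rcases Nat.eq_zero_or_pos n with hn | hn
  · left
    rw [isUnit_subring_iff]
    refine ⟨ha0, ?_⟩
    rw [hn, pow_zero, mul_one] at hn2
    exact hn2
  · right
    have hm : m = 0 := by omega
    rw [isUnit_subring_iff]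
    refine ⟨hb0, ?_⟩
    rw [hm, pow_zero, mul_one] at hm2
    exact hm2

/-- **`A` is a discrete valuation ring.** -/
theorem isDiscreteValuationRing_of_disc : IsDiscreteValuationRing A := by
  refine IsDiscreteValuationRing.ofHasUnitMulPowIrreducibleFactorization
    ⟨⟨w, hwA⟩, irreducible_unif_of_disc A hwA hw0 hwinv hdisc, ?_⟩
  intro r hr
  have hr0 : (r : K) ≠ 0 := fun h => hr (Subtype.ext h)
  obtain ⟨n, hn1, hn2⟩ := hdisc r r.2 hr0
  refine ⟨n, ?_⟩
  have hu : IsUnit (⟨(r : K) * (w⁻¹) ^ n, hn1⟩ : A) := by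
    rw [isUnit_subring_iff]
    refine ⟨mul_ne_zero hr0 (pow_ne_zero n (inv_ne_zero hw0)), hn2⟩
  obtain ⟨u, hu'⟩ := hu
  refine ⟨u, Subtype.ext ?_⟩
  rw [hu']
  show w ^ n * ((r : K) * (w⁻¹) ^ n) = r
  rw [inv_pow]
  field_simp

end Fermat.Agent.S18.H438

end
end
-- ===== PACK-END S18/H438/Front/Dvr.lean

-- ===== PACK-BEGIN S18/H558/Cech.lean
section






/-!
# S18 / piece b5: connectedness via a two-chart Cech argument (pure algebra, Mathlib only)

Setting: `A` a commutative ring, `w : A`, `B` a commutative `A`-algebra ("`B_mid`"),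
`Bfin Binf : Subalgebra A B` the two charts.

* `lift_idem_mod_pow` : an idempotent modulo `w` lifts to an idempotent modulo `w ^ n`.
* `idem_congr_mod_pow` : two idempotents modulo `w ^ n` that agree modulo `w` agree modulo `w ^ n`.
* `cech_idempotent_trivial` : if the `w`-power torsion of `B / (Bfin + Binf)` is killed by `w ^ c`,
  `Bfin ∩ Binf = A`, `A / w → Bfin / w` is injective and `(w)` is prime in `A`, then every
  compatible pair of idempotents of `Bfin / w`, `Binf / w` is `(0,0)` or `(1,1)`.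
* `exists_torsion_bound` : over a noetherian ring, a f.g. module has bounded `w`-power torsion.
-/

namespace Fermat.Agent.S18.H558

section Idem

variable {R : Type*} [CommRing R]

/-- An idempotent modulo `w` lifts to an idempotent modulo `w ^ n`. -/
theorem lift_idem_mod_pow (w e : R) (he : e ^ 2 - e ∈ Ideal.span {w}) (n : ℕ) :
    ∃ f : R, f - e ∈ Ideal.span {w} ∧ f ^ 2 - f ∈ Ideal.span {w ^ n} := by
  rcases Nat.eq_zero_or_pos n with rfl | hn
  · exact ⟨e, by simp, by simp⟩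
  have hle : Ideal.span {w ^ n} ≤ Ideal.span {w} := by
    rw [Ideal.span_singleton_le_span_singleton]
    exact dvd_pow_self w hn.ne'
  let φ : R ⧸ Ideal.span {w ^ n} →+* R ⧸ Ideal.span {w} := Ideal.Quotient.factor hle
  have hφ : ∀ x : R, φ (Ideal.Quotient.mk _ x) = Ideal.Quotient.mk _ x := fun x => rfl
  have hker : ∀ x ∈ RingHom.ker φ, IsNilpotent x := by
    intro x hx
    obtain ⟨r, rfl⟩ := Ideal.Quotient.mk_surjective x
    rw [RingHom.mem_ker, hφ, Ideal.Quotient.eq_zero_iff_mem, Ideal.mem_span_singleton] at hx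
    obtain ⟨s, rfl⟩ := hx
    refine ⟨n, ?_⟩
    rw [← map_pow, Ideal.Quotient.eq_zero_iff_mem, Ideal.mem_span_singleton, mul_pow]
    exact Dvd.intro _ rfl
  have hid : IsIdempotentElem (Ideal.Quotient.mk (Ideal.span {w}) e) := by
    have : Ideal.Quotient.mk (Ideal.span {w}) (e ^ 2 - e) = 0 :=
      Ideal.Quotient.eq_zero_iff_mem.2 he
    rw [map_sub, sub_eq_zero, map_pow, pow_two] at this
    exact this
  obtain ⟨e', he', hφe'⟩ := exists_isIdempotentElem_eq_of_ker_isNilpotent φ hker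
    (Ideal.Quotient.mk _ e) ⟨Ideal.Quotient.mk _ e, hφ e⟩ hid
  obtain ⟨f, rfl⟩ := Ideal.Quotient.mk_surjective e'
  refine ⟨f, ?_, ?_⟩
  · rw [hφ] at hφe'
    rw [← Ideal.Quotient.eq_zero_iff_mem, map_sub, hφe', sub_self]
  · rw [← Ideal.Quotient.eq_zero_iff_mem, map_sub, map_pow, pow_two, he'.eq, sub_self]

/-- Two idempotents modulo `w ^ n` which agree modulo `w` agree modulo `w ^ n`. -/
theorem idem_congr_mod_pow (w f g : R) (n : ℕ)
    (hf : f ^ 2 - f ∈ Ideal.span {w ^ n}) (hg : g ^ 2 - g ∈ Ideal.span {w ^ n})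
    (hfg : f - g ∈ Ideal.span {w}) : f - g ∈ Ideal.span {w ^ n} := by
  have hf' : IsIdempotentElem (Ideal.Quotient.mk (Ideal.span {w ^ n}) f) := by
    have := Ideal.Quotient.eq_zero_iff_mem.2 hf
    rw [map_sub, sub_eq_zero, map_pow, pow_two] at this
    exact this
  have hg' : IsIdempotentElem (Ideal.Quotient.mk (Ideal.span {w ^ n}) g) := by
    have := Ideal.Quotient.eq_zero_iff_mem.2 hg
    rw [map_sub, sub_eq_zero, map_pow, pow_two] at this
    exact this
  have hnil : IsNilpotent (Ideal.Quotient.mk (Ideal.span {w ^ n}) f -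
      Ideal.Quotient.mk (Ideal.span {w ^ n}) g) := by
    rw [Ideal.mem_span_singleton] at hfg
    obtain ⟨s, hs⟩ := hfg
    refine ⟨n, ?_⟩
    rw [← map_sub, ← map_pow, Ideal.Quotient.eq_zero_iff_mem, Ideal.mem_span_singleton, hs, mul_pow]
    exact Dvd.intro _ rfl
  have := eq_of_isNilpotent_sub_of_isIdempotentElem hf' hg' hnil
  rw [← Ideal.Quotient.eq_zero_iff_mem, map_sub, this, sub_self]

end Idem

section Cech

variable {A B : Type*} [CommRing A] [CommRing B] [Algebra A B]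

/-- **Two-chart Cech connectedness lemma.**
`B` plays the role of `B_mid`, `Bfin`, `Binf` are the two charts.  If the `w`-power torsion of
`B / (Bfin + Binf)` is killed by `w ^ c`, `Bfin ∩ Binf` is (the image of) `A`,
`A / w → Bfin / w` is injective and `(w)` is a prime ideal of `A`, then a pair of elements
`e₁ ∈ Bfin`, `e₂ ∈ Binf`, idempotent modulo `w` in their charts and congruent modulo `w` in `B`,
is congruent to `(0, 0)` or to `(1, 1)` modulo `w`. -/
theorem cech_idempotent_trivial (w : A) (Bfin Binf : Subalgebra A B) (c : ℕ)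
    (hH1 : ∀ h : B, algebraMap A B w ^ (c + 1) * h ∈ Bfin.toSubmodule ⊔ Binf.toSubmodule →
      algebraMap A B w ^ c * h ∈ Bfin.toSubmodule ⊔ Binf.toSubmodule)
    (hH0 : ∀ b : B, b ∈ Bfin → b ∈ Binf → ∃ a : A, algebraMap A B a = b)
    (hinj : ∀ a : A, (∃ t ∈ Bfin, algebraMap A B a = algebraMap A B w * t) → w ∣ a)
    (hprime : ∀ a b : A, w ∣ a * b → w ∣ a ∨ w ∣ b)
    (e₁ e₂ : B) (he₁ : e₁ ∈ Bfin) (he₂ : e₂ ∈ Binf)
    (hi₁ : ∃ t ∈ Bfin, e₁ ^ 2 - e₁ = algebraMap A B w * t)
    (hi₂ : ∃ t ∈ Binf, e₂ ^ 2 - e₂ = algebraMap A B w * t)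
    (h₁₂ : ∃ t : B, e₁ - e₂ = algebraMap A B w * t) :
    ((∃ t ∈ Bfin, e₁ = algebraMap A B w * t) ∧ (∃ t ∈ Binf, e₂ = algebraMap A B w * t)) ∨
    ((∃ t ∈ Bfin, 1 - e₁ = algebraMap A B w * t) ∧ (∃ t ∈ Binf, 1 - e₂ = algebraMap A B w * t)) := by
  set W : B := algebraMap A B w with hW
  -- Step 1: lift in the two charts.
  have key : ∀ (C : Subalgebra A B) (e : B) (he : e ∈ C)
      (hi : ∃ t ∈ C, e ^ 2 - e = W * t),
      ∃ f ∈ C, (∃ t ∈ C, f - e = W * t) ∧ ∃ t ∈ C, f ^ 2 - f = W ^ (c + 1) * t := by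
    intro C e he hi
    obtain ⟨t, ht, hte⟩ := hi
    have hw' : (⟨e, he⟩ : C) ^ 2 - ⟨e, he⟩ ∈ Ideal.span {algebraMap A C w} := by
      rw [Ideal.mem_span_singleton]
      refine ⟨⟨t, ht⟩, Subtype.ext ?_⟩
      simpa using hte
    obtain ⟨f, hf1, hf2⟩ := lift_idem_mod_pow (algebraMap A C w) ⟨e, he⟩ hw' (c + 1)
    rw [Ideal.mem_span_singleton] at hf1 hf2
    obtain ⟨s1, hs1⟩ := hf1
    obtain ⟨s2, hs2⟩ := hf2
    refine ⟨f, f.2, ⟨s1, s1.2, ?_⟩, ⟨s2, s2.2, ?_⟩⟩
    · simpa using congrArg Subtype.val hs1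
    · simpa using congrArg Subtype.val hs2
  obtain ⟨f, hfC, ⟨s₁, hs₁C, hs₁⟩, ⟨u₁, hu₁C, hu₁⟩⟩ := key Bfin e₁ he₁ hi₁
  obtain ⟨g, hgC, ⟨s₂, hs₂C, hs₂⟩, ⟨u₂, hu₂C, hu₂⟩⟩ := key Binf e₂ he₂ hi₂
  -- Step 2: compare in `B`.
  obtain ⟨t₁₂, ht₁₂⟩ := h₁₂
  have hfg : f - g ∈ Ideal.span {W ^ (c + 1)} := by
    refine idem_congr_mod_pow W f g (c + 1) ?_ ?_ ?_
    · rw [Ideal.mem_span_singleton]; exact ⟨u₁, hu₁⟩
    · rw [Ideal.mem_span_singleton]; exact ⟨u₂, hu₂⟩
    · rw [Ideal.mem_span_singleton]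
      refine ⟨s₁ + t₁₂ - s₂, ?_⟩
      have : f - g = (f - e₁) + (e₁ - e₂) - (g - e₂) := by ring
      rw [this, hs₁, ht₁₂, hs₂]; ring
  rw [Ideal.mem_span_singleton] at hfg
  obtain ⟨h, hh⟩ := hfg
  -- Step 3: kill the obstruction.
  have hmem : W ^ (c + 1) * h ∈ Bfin.toSubmodule ⊔ Binf.toSubmodule := by
    rw [← hh]
    exact Submodule.sub_mem _ (Submodule.mem_sup_left hfC) (Submodule.mem_sup_right hgC)
  obtain ⟨f', hf'C, g', hg'C, hfg'⟩ := Submodule.mem_sup.1 (hH1 h hmem)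
  have hf'C' : f' ∈ Bfin := hf'C
  have hg'C' : g' ∈ Binf := hg'C
  have hWfin : W ∈ Bfin := Bfin.algebraMap_mem w
  have hWinf : W ∈ Binf := Binf.algebraMap_mem w
  have haeq : f - W * f' = g + W * g' := by
    have h1 : f - g = W * (f' + g') := by
      rw [hh, hfg', pow_succ]; ring
    have : f - W * f' - (g + W * g') = (f - g) - W * (f' + g') := by ring
    rw [← sub_eq_zero, this, h1, sub_self]
  obtain ⟨a, ha⟩ := hH0 (f - W * f') (Bfin.sub_mem hfC (Bfin.mul_mem hWfin hf'C'))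
    (by rw [haeq]; exact Binf.add_mem hgC (Binf.mul_mem hWinf hg'C'))
  -- Step 4: `a` is idempotent modulo `w` in `A`.
  have ha1 : ∃ t ∈ Bfin, algebraMap A B a - e₁ = W * t :=
    ⟨s₁ - f', Bfin.sub_mem hs₁C hf'C', by
      rw [ha]
      have : f - W * f' - e₁ = (f - e₁) - W * f' := by ring
      rw [this, hs₁]; ring⟩
  have ha2 : ∃ t ∈ Binf, algebraMap A B a - e₂ = W * t :=
    ⟨s₂ + g', Binf.add_mem hs₂C hg'C', by
      rw [ha, haeq]
      have : g + W * g' - e₂ = (g - e₂) + W * g' := by ring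
      rw [this, hs₂]; ring⟩
  obtain ⟨t₁, ht₁C, ht₁⟩ := ha1
  obtain ⟨t₂, ht₂C, ht₂⟩ := ha2
  obtain ⟨v₁, hv₁C, hv₁⟩ := hi₁
  have hdvd : w ∣ a * (a - 1) := by
    apply hinj
    refine ⟨v₁ + t₁ * (algebraMap A B a + e₁ - 1), ?_, ?_⟩
    · exact Bfin.add_mem hv₁C (Bfin.mul_mem ht₁C
        (Bfin.sub_mem (Bfin.add_mem (Bfin.algebraMap_mem a) he₁) Bfin.one_mem))
    · have : algebraMap A B (a * (a - 1)) =
          (e₁ ^ 2 - e₁) + (algebraMap A B a - e₁) * (algebraMap A B a + e₁ - 1) := by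
        rw [map_mul, map_sub, map_one]; ring
      rw [this, hv₁, ht₁]; ring
  rcases hprime _ _ hdvd with h0 | h1
  · left
    obtain ⟨b, rfl⟩ := h0
    refine ⟨⟨algebraMap A B b - t₁, Bfin.sub_mem (Bfin.algebraMap_mem b) ht₁C, ?_⟩,
      ⟨algebraMap A B b - t₂, Binf.sub_mem (Binf.algebraMap_mem b) ht₂C, ?_⟩⟩
    · have : e₁ = algebraMap A B (w * b) - (algebraMap A B (w * b) - e₁) := by ring
      rw [this, ht₁, map_mul]; ring
    · have : e₂ = algebraMap A B (w * b) - (algebraMap A B (w * b) - e₂) := by ring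
      rw [this, ht₂, map_mul]; ring
  · right
    obtain ⟨b, hb⟩ := h1
    have hab : algebraMap A B a = 1 + W * algebraMap A B b := by
      have : a = 1 + w * b := by rw [← hb]; ring
      rw [this, map_add, map_one, map_mul]
    refine ⟨⟨t₁ - algebraMap A B b, Bfin.sub_mem ht₁C (Bfin.algebraMap_mem b), ?_⟩,
      ⟨t₂ - algebraMap A B b, Binf.sub_mem ht₂C (Binf.algebraMap_mem b), ?_⟩⟩
    · have : 1 - e₁ = (algebraMap A B a - e₁) - (algebraMap A B a - 1) := by ring
      rw [this, ht₁, hab]; ring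
    · have : 1 - e₂ = (algebraMap A B a - e₂) - (algebraMap A B a - 1) := by ring
      rw [this, ht₂, hab]; ring

end Cech

section Torsion

variable {A M : Type*} [CommRing A] [AddCommGroup M] [Module A M]

/-- Over a noetherian ring, the `w`-power torsion of a finitely generated module is killed by a
single power `w ^ c`. -/
theorem exists_torsion_bound [IsNoetherianRing A] [Module.Finite A M] (w : A) :
    ∃ c : ℕ, ∀ (n : ℕ) (x : M), w ^ n • x = 0 → w ^ c • x = 0 := by
  have hN : IsNoetherian A M := isNoetherian_of_isNoetherianRing_of_finite A M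
  let K : ℕ →o Submodule A M :=
    ⟨fun n => LinearMap.ker (LinearMap.lsmul A M (w ^ n)), by
      intro a b hab x hx
      simp only [LinearMap.mem_ker, LinearMap.lsmul_apply] at hx ⊢
      obtain ⟨d, rfl⟩ := Nat.exists_eq_add_of_le hab
      rw [pow_add, mul_comm, mul_smul, hx, smul_zero]⟩
  have hK : ∀ (n : ℕ) (x : M), x ∈ K n ↔ w ^ n • x = 0 := fun n x => by
    change x ∈ LinearMap.ker (LinearMap.lsmul A M (w ^ n)) ↔ _
    rw [LinearMap.mem_ker, LinearMap.lsmul_apply]
  obtain ⟨c, hc⟩ := monotone_stabilizes_iff_noetherian.2 hN K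
  refine ⟨c, fun n x hx => ?_⟩
  rcases le_total n c with hnc | hcn
  · obtain ⟨d, rfl⟩ := Nat.exists_eq_add_of_le hnc
    rw [pow_add, mul_comm, mul_smul, hx, smul_zero]
  · have h1 : x ∈ K n := (hK n x).2 hx
    have h2 : x ∈ K c := by rw [hc n hcn]; exact h1
    exact (hK c x).1 h2

end Torsion

end Fermat.Agent.S18.H558

end
-- ===== PACK-END S18/H558/Cech.lean

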