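import Mathlib
import Fermat.Prelude.Def_ModularCurve_LaurentCoeff
import Fermat.Prelude.Def_AlgebraicCurve_DivisorClassGroup
import Mathlib.NumberTheory.ModularForms.CongruenceSubgroups
import Mathlib.LinearAlgebra.Matrix.SpecialLinearGroup
import Mathlib.GroupTheory.GroupAction.Quotient
import Mathlib.Data.ZMod.Basic
import Fermat.Prelude.Def_ModularCurve_GenusNumerics
import Mathlib.Data.ZMod.QuotientGroup
import Mathlib.GroupTheory.GroupAction.FixedPoints
import Mathlib.Dynamics.PeriodicPts.Defs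
import Mathlib.SetTheory.Cardinal.Finite
import Mathlib.Tactic.Ring
import Mathlib.Data.Nat.Prime.Basic

-- ===== PACK-BEGIN S29/H152/DescLin.lean
section
/-
S29 / DESC (helper152) — part 4: linear disjointness of `Ω` and `K((q))` over `K`.

* `descLin μ` : coefficientwise application of a `K`-linear functional `μ : Ω → K`,
  `descLin μ (ι z * y) = z * descLin μ y`.
* `descLin_mem_of_coeffMap_mem` : `x ∈ K((q))` with `ι x ∈ Ω·F₀` lies in `K·F₀`
  (`laurentBaseChange Ω F₀ ∩ K((q)) = laurentBaseChange K F₀`).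
* `descLin_exists_preimage` : a series all of whose coefficients lie in `K` comes from `K((q))`.
-/



set_option autoImplicit false

namespace Fermat.Agent.S29.H152

open ModularCurve

variable {K Ω : Type*} [Field K] [Field Ω] [Algebra K Ω]

/-- Coefficientwise application of a `K`-linear functional. -/
noncomputable def descLin (μ : Ω →ₗ[K] K) (y : LaurentSeries Ω) : LaurentSeries K :=
  y.map μ

@[simp]
theorem descLin_coeff (μ : Ω →ₗ[K] K) (y : LaurentSeries Ω) (k : ℤ) :
    (descLin μ y).coeff k = μ (y.coeff k) := rfl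

theorem descLin_add (μ : Ω →ₗ[K] K) (y z : LaurentSeries Ω) :
    descLin μ (y + z) = descLin μ y + descLin μ z := by
  ext k
  simp

theorem descLin_zero (μ : Ω →ₗ[K] K) : descLin μ (0 : LaurentSeries Ω) = 0 := by
  ext k
  simp

theorem descLin_support_subset (μ : Ω →ₗ[K] K) (y : LaurentSeries Ω) :
    (descLin μ y).support ⊆ y.support := by
  intro k hk
  rw [HahnSeries.mem_support] at hk ⊢
  intro h
  apply hk
  rw [descLin_coeff, h, map_zero]

theorem descLin_coeffMap_support_subset {R S : Type*} [CommRing R] [CommRing S] (φ : R →+* S)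
    (z : LaurentSeries R) : (coeffMap φ z).support ⊆ z.support := by
  intro k hk
  rw [HahnSeries.mem_support] at hk ⊢
  intro h
  apply hk
  rw [coeffMap_coeff, h, map_zero]

/-- `descLin μ` is `K((q))`-linear. -/
theorem descLin_coeffMap_mul (μ : Ω →ₗ[K] K) (z : LaurentSeries K) (y : LaurentSeries Ω) :
    descLin μ (coeffMap (algebraMap K Ω) z * y) = z * descLin μ y := by
  ext n
  rw [descLin_coeff,
    HahnSeries.coeff_mul_left' z.isPWO_support (descLin_coeffMap_support_subset _ z),
    HahnSeries.coeff_mul_right' y.isPWO_support (descLin_support_subset μ y), map_sum]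
  refine Finset.sum_congr rfl fun ij _ => ?_
  rw [coeffMap_coeff, descLin_coeff, ← Algebra.smul_def, map_smul, smul_eq_mul]

/-- Constants. -/
theorem descLin_algebraMap (μ : Ω →ₗ[K] K) (c : Ω) :
    descLin μ (algebraMap Ω (LaurentSeries Ω) c) = algebraMap K (LaurentSeries K) (μ c) := by
  rw [algebraMap_laurentSeries_eq_single, algebraMap_laurentSeries_eq_single]
  ext k
  rw [descLin_coeff]
  rcases eq_or_ne k 0 with rfl | hk
  · simp [HahnSeries.coeff_single_same]
  · simp [HahnSeries.coeff_single_of_ne hk]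

/-- A series whose coefficients all lie in `K` comes from `K((q))`. -/
theorem descLin_exists_preimage (v : LaurentSeries Ω)
    (hv : ∀ k, v.coeff k ∈ Set.range (algebraMap K Ω)) :
    ∃ v' : LaurentSeries K, coeffMap (algebraMap K Ω) v' = v := by
  obtain ⟨μ, hμ⟩ := LinearMap.exists_leftInverse_of_injective (Algebra.linearMap K Ω)
    (LinearMap.ker_eq_bot.mpr (algebraMap K Ω).injective)
  refine ⟨descLin μ v, ?_⟩
  ext k
  rw [coeffMap_coeff, descLin_coeff]
  obtain ⟨c, hc⟩ := hv k
  rw [← hc]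
  congr 1
  exact LinearMap.congr_fun hμ c

section LD

variable [Algebra ℚ K] [Algebra ℚ Ω]

theorem descLin_coeffEmb (y : LaurentSeries ℚ) :
    coeffMap (algebraMap K Ω) (coeffEmb K y) = coeffEmb Ω y := by
  rw [coeffEmb, coeffEmb, coeffMap_coeffMap]
  exact coeffMap_congr (RingHom.ext_rat _ _) y

variable (F₀ : IntermediateField ℚ (LaurentSeries ℚ))

/-- The image of `F₀` in `L((q))` as a submonoid. -/
theorem descLin_closure_image (L : Type*) [Field L] [Algebra ℚ L] :
    (Submonoid.closure (⇑(coeffEmb L) '' (F₀ : Set (LaurentSeries ℚ))) : Set (LaurentSeries L))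
      = ⇑(coeffEmb L) '' (F₀ : Set (LaurentSeries ℚ)) := by
  have : (⇑(coeffEmb L) '' (F₀ : Set (LaurentSeries ℚ)))
      = ((F₀.toSubfield.toSubring.toSubmonoid.map (coeffEmb L : _ →* _) :
          Submonoid (LaurentSeries L)) : Set (LaurentSeries L)) := rfl
  rw [this, Submonoid.closure_eq]

omit [Algebra ℚ K] [Algebra ℚ Ω] in
/-- Multiplying by a constant inside a functional. -/
theorem descLin_algebraMap_mul (μ : Ω →ₗ[K] K) (c : Ω) (x : LaurentSeries Ω) :
    descLin μ (algebraMap Ω (LaurentSeries Ω) c * x)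
      = descLin (μ.comp (LinearMap.mulLeft K c)) x := by
  ext k
  rw [descLin_coeff, descLin_coeff, algebraMap_laurentSeries_eq_single,
    HahnSeries.coeff_single_zero_mul]
  rfl

/-- Every functional maps `Ω[F₀]` into `K[F₀]`. -/
theorem descLin_mem_adjoin (μ : Ω →ₗ[K] K) {a : LaurentSeries Ω}
    (ha : a ∈ Algebra.adjoin Ω (⇑(coeffEmb Ω) '' (F₀ : Set (LaurentSeries ℚ)))) :
    descLin μ a ∈ Algebra.adjoin K (⇑(coeffEmb K) '' (F₀ : Set (LaurentSeries ℚ))) := by
  have ha' : a ∈ Subalgebra.toSubmodule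
      (Algebra.adjoin Ω (⇑(coeffEmb Ω) '' (F₀ : Set (LaurentSeries ℚ)))) := ha
  rw [Algebra.adjoin_eq_span, descLin_closure_image] at ha'
  clear ha
  revert μ
  induction ha' using Submodule.span_induction with
  | mem x hx =>
    intro μ
    obtain ⟨y, hy, rfl⟩ := hx
    have h1 : coeffEmb Ω y = coeffMap (algebraMap K Ω) (coeffEmb K y) * algebraMap Ω _ 1 := by
      rw [map_one, mul_one, descLin_coeffEmb]
    rw [h1, descLin_coeffMap_mul, descLin_algebraMap]
    exact Subalgebra.mul_mem _ (Algebra.subset_adjoin ⟨y, hy, rfl⟩) (Subalgebra.algebraMap_mem _ _)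
  | zero =>
    intro μ
    rw [descLin_zero]
    exact Subalgebra.zero_mem _
  | add x y _ _ hx hy =>
    intro μ
    rw [descLin_add]
    exact Subalgebra.add_mem _ (hx μ) (hy μ)
  | smul c x _ hx =>
    intro μ
    rw [Algebra.smul_def, descLin_algebraMap_mul]
    exact hx _

/-- **Linear disjointness**: `Ω·F₀ ∩ K((q)) = K·F₀`. -/
theorem descLin_mem_of_coeffMap_mem (x : LaurentSeries K)
    (hx : coeffMap (algebraMap K Ω) x ∈ laurentBaseChange Ω F₀) :
    x ∈ laurentBaseChange K F₀ := by
  rw [laurentBaseChange, IntermediateField.mem_adjoin_iff_div] at hx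
  obtain ⟨r, hr, s, hs, hrs⟩ := hx
  by_cases hs0 : s = 0
  · rw [hs0, div_zero] at hrs
    have hx0 : x = 0 := by
      ext k
      have := congrArg (fun y => HahnSeries.coeff y k) hrs
      simp only [coeffMap_coeff, HahnSeries.coeff_zero] at this
      rw [HahnSeries.coeff_zero]
      exact (map_eq_zero (algebraMap K Ω)).mp this
    rw [hx0]
    exact zero_mem _
  · have hmul : coeffMap (algebraMap K Ω) x * s = r := by
      rw [hrs, div_mul_cancel₀ _ hs0]
    obtain ⟨n₀, hn₀⟩ : ∃ n₀, s.coeff n₀ ≠ 0 := by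
      by_contra h
      push Not at h
      exact hs0 (HahnSeries.ext (funext h))
    obtain ⟨μ, hμ⟩ : ∃ μ : Ω →ₗ[K] K, μ (s.coeff n₀) ≠ 0 := by
      by_contra h
      push Not at h
      exact hn₀ ((Module.forall_dual_apply_eq_zero_iff K (s.coeff n₀)).mp h)
    have hΛs : descLin μ s ≠ 0 := by
      intro h
      apply hμ
      have := congrArg (fun y => HahnSeries.coeff y n₀) h
      simpa using this
    have hrel : x * descLin μ s = descLin μ r := by
      rw [← descLin_coeffMap_mul, hmul]
    have hx' : x = descLin μ r / descLin μ s := by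
      rw [← hrel, mul_div_cancel_right₀ _ hΛs]
    rw [hx', laurentBaseChange]
    exact div_mem (IntermediateField.algebra_adjoin_le_adjoin K _ (descLin_mem_adjoin F₀ μ hr))
      (IntermediateField.algebra_adjoin_le_adjoin K _ (descLin_mem_adjoin F₀ μ hs))

end LD

end Fermat.Agent.S29.H152

end
-- ===== PACK-END S29/H152/DescLin.lean

-- ===== PACK-BEGIN S29/H751/PthRootBall.lean
section


/-!
# Holomorphic `p`-th roots on a disc (helper751, S29 / P5 / KUM + E3)

* `exists_exp_eq_on_ball`: a nowhere vanishing holomorphic function on an open disc is `exp ∘ L`.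
* `exists_pow_eq_on_ball_of_ne_zero`: hence it has a holomorphic `p`-th root.
* `exists_pow_eq_on_ball`: a holomorphic function on (a neighbourhood of) a closed disc, not
  locally zero, all of whose zeros have order divisible by `p`, has a holomorphic `p`-th root on
  the open disc.
-/

set_option autoImplicit false

open Complex Set Metric Filter Topology

namespace Fermat.Agent.S29.H751

/-- A nowhere vanishing holomorphic function on an open disc has a holomorphic logarithm. -/
theorem exists_exp_eq_on_ball {g : ℂ → ℂ} {c : ℂ} {r : ℝ}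
    (hg : DifferentiableOn ℂ g (ball c r)) (hne : ∀ z ∈ ball c r, g z ≠ 0) :
    ∃ L : ℂ → ℂ, DifferentiableOn ℂ L (ball c r) ∧ ∀ z ∈ ball c r, cexp (L z) = g z := by
  by_cases hr : 0 < r
  swap
  · refine ⟨fun _ => 0, differentiableOn_const _, fun z hz => ?_⟩
    rw [ball_eq_empty.2 (not_lt.1 hr)] at hz
    exact absurd hz (notMem_empty z)
  have hopen : IsOpen (ball c r) := isOpen_ball
  have hc : c ∈ ball c r := mem_ball_self hr
  -- the logarithmic derivative
  have hdg : DifferentiableOn ℂ (deriv g) (ball c r) := hg.deriv hopen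
  have hφ : DifferentiableOn ℂ (fun z => deriv g z / g z) (ball c r) :=
    hdg.div hg hne
  obtain ⟨L₀, hL₀⟩ := hφ.isExactOn_ball
  -- `g * exp (-L₀)` has zero derivative
  set F : ℂ → ℂ := fun z => g z * cexp (-L₀ z) with hF
  have hFd : ∀ z ∈ ball c r, HasDerivAt F 0 z := by
    intro z hz
    have h1 : HasDerivAt g (deriv g z) z :=
      (hg.differentiableAt (hopen.mem_nhds hz)).hasDerivAt
    have h2 : HasDerivAt (fun z => cexp (-L₀ z)) (cexp (-L₀ z) * (-(deriv g z / g z))) z :=
      ((hL₀ z hz).neg).cexp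
    have h3 := h1.mul h2
    have : deriv g z * cexp (-L₀ z) + g z * (cexp (-L₀ z) * -(deriv g z / g z)) = 0 := by
      field_simp [hne z hz]
      ring
    rw [this] at h3
    exact h3
  have hFdiff : DifferentiableOn ℂ F (ball c r) := fun z hz =>
    (hFd z hz).differentiableAt.differentiableWithinAt
  have hconst : ∀ z ∈ ball c r, F z = F c := by
    intro z hz
    exact hopen.is_const_of_deriv_eq_zero isPreconnected_ball hFdiff
      (fun w hw => (hFd w hw).deriv) hz hc
  have hFc : F c ≠ 0 := mul_ne_zero (hne c hc) (exp_ne_zero _)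
  refine ⟨fun z => L₀ z + Complex.log (F c), ?_, ?_⟩
  · have hL₀d : DifferentiableOn ℂ L₀ (ball c r) := fun z hz =>
      (hL₀ z hz).differentiableAt.differentiableWithinAt
    exact hL₀d.add_const _
  · intro z hz
    have h := hconst z hz
    simp only [hF] at h
    rw [Complex.exp_add, Complex.exp_log hFc]
    simp only [hF]
    rw [← h, mul_comm, mul_assoc, ← Complex.exp_add]
    simp

/-- A nowhere vanishing holomorphic function on an open disc has a holomorphic `p`-th root. -/
theorem exists_pow_eq_on_ball_of_ne_zero {g : ℂ → ℂ} {c : ℂ} {r : ℝ} (p : ℕ) (hp : p ≠ 0)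
    (hg : DifferentiableOn ℂ g (ball c r)) (hne : ∀ z ∈ ball c r, g z ≠ 0) :
    ∃ u : ℂ → ℂ, DifferentiableOn ℂ u (ball c r) ∧ ∀ z ∈ ball c r, u z ^ p = g z := by
  obtain ⟨L, hL, hLg⟩ := exists_exp_eq_on_ball hg hne
  refine ⟨fun z => cexp (L z / p), ?_, fun z hz => ?_⟩
  · exact (hL.div_const _).cexp
  · rw [← Complex.exp_nat_mul, mul_div_cancel₀ _ (Nat.cast_ne_zero.2 hp), hLg z hz]

/-- Two functions which are continuous at `x` and agree on a punctured neighbourhood of `x`
agree at `x`. -/
theorem eq_of_eventuallyEq_nhdsNE {f g : ℂ → ℂ} {x : ℂ} (hf : ContinuousAt f x)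
    (hg : ContinuousAt g x) (h : ∀ᶠ z in 𝓝[≠] x, f z = g z) : f x = g x := by
  have h1 : Tendsto f (𝓝[≠] x) (𝓝 (f x)) := hf.tendsto.mono_left nhdsWithin_le_nhds
  have h2 : Tendsto g (𝓝[≠] x) (𝓝 (g x)) := hg.tendsto.mono_left nhdsWithin_le_nhds
  exact tendsto_nhds_unique h1 (h2.congr' (h.mono fun z hz => hz.symm))

/-- A holomorphic function near a closed disc, nowhere locally zero, all of whose zeros in the
closed disc have order divisible by `p`, has a holomorphic `p`-th root on the open disc. -/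
theorem exists_pow_eq_on_ball {G : ℂ → ℂ} {c : ℂ} {r : ℝ} (p : ℕ) (hp : p ≠ 0)
    (hG : AnalyticOnNhd ℂ G (closedBall c r))
    (hord : ∀ z ∈ closedBall c r, ∃ m : ℕ, analyticOrderAt G z = ((p * m : ℕ) : ℕ∞)) :
    ∃ u : ℂ → ℂ, DifferentiableOn ℂ u (ball c r) ∧ ∀ z ∈ ball c r, u z ^ p = G z := by
  classical
  set K := closedBall c r with hK
  have hmero : MeromorphicOn G K := hG.meromorphicOn
  have hfin : (MeromorphicOn.divisor G K).support.Finite :=
    (MeromorphicOn.divisor G K).finiteSupport (isCompact_closedBall c r)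
  have hordK : ∀ z ∈ K, ∃ m : ℕ, meromorphicOrderAt G z = ((p * m : ℕ) : ℤ) := by
    intro z hz
    obtain ⟨m, hm⟩ := hord z hz
    refine ⟨m, ?_⟩
    rw [(hG z hz).meromorphicOrderAt_eq, hm]
    rfl
  have hne' : ∀ u : K, meromorphicOrderAt G u ≠ ⊤ := by
    intro u
    obtain ⟨m, hm⟩ := hordK u u.2
    rw [hm]
    exact WithTop.coe_ne_top
  obtain ⟨g, hg, hgne, hEq⟩ := hmero.extract_zeros_poles hne' hfin
  set D := MeromorphicOn.divisor G K with hD
  have hDm : ∀ u, ∃ m : ℕ, D u = ((p * m : ℕ) : ℤ) := by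
    intro u
    by_cases hu : u ∈ K
    · obtain ⟨m, hm⟩ := hordK u hu
      refine ⟨m, ?_⟩
      rw [hD, MeromorphicOn.divisor_apply hmero hu, hm]
      rfl
    · refine ⟨0, ?_⟩
      have : D u = 0 := Function.locallyFinsuppWithin.apply_eq_zero_of_notMem D hu
      simp [this]
  choose E hE using hDm
  -- the polynomial part of the root
  set ψ : ℂ → ℂ := fun z => ∏ u ∈ hfin.toFinset, (z - u) ^ (E u) with hψ
  have hψd : Differentiable ℂ ψ := by
    have : ψ = ∏ u ∈ hfin.toFinset, (fun z : ℂ => (z - u) ^ (E u)) := by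
      funext z
      rw [hψ, Finset.prod_apply]
    rw [this]
    apply Differentiable.finsetProd
    intro u _
    exact (differentiable_id.sub_const u).pow _
  -- the factorised rational function is `ψ ^ p`
  have hφ : ∀ z, (∏ᶠ u, (fun x : ℂ => x - u) ^ D u) z = ψ z ^ p := by
    intro z
    rw [Function.FactorizedRational.finprod_eq_fun hfin]
    show (∏ᶠ u, (z - u) ^ D u) = ψ z ^ p
    rw [finprod_eq_prod_of_mulSupport_subset (s := hfin.toFinset)]
    · rw [hψ]
      simp only
      rw [← Finset.prod_pow]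
      refine Finset.prod_congr rfl fun u _ => ?_
      rw [hE u, zpow_natCast, ← pow_mul, mul_comm]
    · intro u hu
      simp only [Function.mem_mulSupport, ne_eq] at hu
      simp only [Set.Finite.coe_toFinset, Function.mem_support, ne_eq]
      intro h0
      exact hu (by rw [h0]; simp)
  -- root of the unit part
  have hgd : DifferentiableOn ℂ g (ball c r) :=
    (hg.mono ball_subset_closedBall).differentiableOn
  obtain ⟨w, hwd, hw⟩ := exists_pow_eq_on_ball_of_ne_zero p hp hgd
    (fun z hz => hgne ⟨z, ball_subset_closedBall hz⟩)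
  refine ⟨fun z => ψ z * w z, hψd.differentiableOn.mul hwd, fun z hz => ?_⟩
  rw [mul_pow, hw z hz, ← hφ z]
  -- upgrade the codiscrete equality to an equality at `z`
  have hS := hEq
  rw [Filter.EventuallyEq, Filter.Eventually, mem_codiscreteWithin] at hS
  have hzK : z ∈ K := ball_subset_closedBall hz
  have h1 := hS z hzK
  rw [Filter.disjoint_principal_right] at h1
  have h2 : ∀ᶠ y in 𝓝[≠] z, y ∈ K := by
    have : ball c r ∈ 𝓝 z := isOpen_ball.mem_nhds hz
    exact mem_nhdsWithin_of_mem_nhds (Filter.mem_of_superset this ball_subset_closedBall)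
  have h3 : ∀ᶠ y in 𝓝[≠] z, G y = ((∏ᶠ u, (fun x : ℂ => x - u) ^ D u) • g) y := by
    filter_upwards [h1, h2] with y hy1 hy2
    by_contra hcon
    exact hy1 ⟨hy2, hcon⟩
  have hcG : ContinuousAt G z := (hG z hzK).continuousAt
  have hcR : ContinuousAt (fun y => ((∏ᶠ u, (fun x : ℂ => x - u) ^ D u) • g) y) z := by
    have : (fun y => ((∏ᶠ u, (fun x : ℂ => x - u) ^ D u) • g) y) = fun y => ψ y ^ p * g y := by
      funext y
      simp only [Pi.smul_apply', smul_eq_mul, hφ y]
    rw [this]
    exact ((hψd.continuous.continuousAt).pow p).mul (hg z hzK).continuousAt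
  have := eq_of_eventuallyEq_nhdsNE hcG hcR h3
  rw [this]
  simp [Pi.smul_apply', smul_eq_mul]


end Fermat.Agent.S29.H751

end
-- ===== PACK-END S29/H751/PthRootBall.lean

-- ===== PACK-BEGIN S24/H504/PlaceOrd.lean
section



/-!
# Extra API for `AlgebraicCurve.Place.ord`
-/

set_option autoImplicit false

open IsDedekindDomain WithZero

namespace Fermat.Agent.S24.H504

open AlgebraicCurve

variable {K F : Type*} [Field K] [Field F] [Algebra K F] (v : Place K F)

theorem adicValuation_eq_exp_neg_ord {f : F} (hf : f ≠ 0) :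
    v.adicValuation f = exp (-(v.ord f)) := by
  have h := v.adicValuation_ne_zero hf
  rw [Place.ord, neg_neg, WithZero.exp_log h]

theorem ord_le_ord_iff {f g : F} (hf : f ≠ 0) (hg : g ≠ 0) :
    v.ord f ≤ v.ord g ↔ v.adicValuation g ≤ v.adicValuation f := by
  rw [adicValuation_eq_exp_neg_ord v hf, adicValuation_eq_exp_neg_ord v hg, WithZero.exp_le_exp]
  omega

theorem ord_add_ge {f g : F} (hf : f ≠ 0) (hg : g ≠ 0) (hfg : f + g ≠ 0) :
    min (v.ord f) (v.ord g) ≤ v.ord (f + g) := by
  have h := v.adicValuation.map_add f g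
  rcases le_max_iff.mp h with h1 | h1
  · exact (min_le_left _ _).trans ((ord_le_ord_iff v hf hfg).mpr h1)
  · exact (min_le_right _ _).trans ((ord_le_ord_iff v hg hfg).mpr h1)

theorem mem_iff_adicValuation_le_one (f : F) :
    f ∈ v.toValuationSubring ↔ v.adicValuation f ≤ 1 := by
  constructor
  · intro hf
    have := v.heightOneSpectrum.valuation_le_one (K := F) (⟨f, hf⟩ : v.toValuationSubring)
    simpa [Place.adicValuation] using this
  · intro hf
    obtain ⟨a, ha⟩ := IsDiscreteValuationRing.exists_lift_of_le_one (A := v.toValuationSubring)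
      (K := F) (x := f) hf
    rw [← ha]
    exact a.2

theorem mem_iff_ord_nonneg {f : F} (hf : f ≠ 0) :
    f ∈ v.toValuationSubring ↔ 0 ≤ v.ord f := by
  rw [mem_iff_adicValuation_le_one, adicValuation_eq_exp_neg_ord v hf,
    ← WithZero.exp_zero, WithZero.exp_le_exp]
  omega

/-- Membership in the valuation ring, with no side condition (`ord 0 = 0`). -/
theorem mem_iff_ord_nonneg' (f : F) :
    f ∈ v.toValuationSubring ↔ 0 ≤ v.ord f := by
  rcases eq_or_ne f 0 with rfl | hf
  · simp [v.toValuationSubring.zero_mem]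
  · exact mem_iff_ord_nonneg v hf

theorem ord_neg (f : F) : v.ord (-f) = v.ord f := by
  simp [Place.ord, Valuation.map_neg]

theorem ord_algebraMap (c : K) : v.ord (algebraMap K F c) = 0 := by
  rcases eq_or_ne c 0 with rfl | hc
  · simp
  have h1 : (0 : ℤ) ≤ v.ord (algebraMap K F c) :=
    (mem_iff_ord_nonneg' v _).mp (v.algebraMap_mem' c)
  have h2 : (0 : ℤ) ≤ v.ord (algebraMap K F c⁻¹) :=
    (mem_iff_ord_nonneg' v _).mp (v.algebraMap_mem' c⁻¹)
  rw [map_inv₀, Place.ord_inv] at h2
  omega

theorem ord_pow (f : F) (n : ℕ) : v.ord (f ^ n) = n * v.ord f := by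
  have := v.ord_zpow f n
  simpa using this

theorem ord_div {f g : F} (hf : f ≠ 0) (hg : g ≠ 0) : v.ord (f / g) = v.ord f - v.ord g := by
  rw [div_eq_mul_inv, v.ord_mul hf (inv_ne_zero hg), Place.ord_inv]
  ring

theorem ord_sub_ge {f g : F} (hf : f ≠ 0) (hg : g ≠ 0) (hfg : f - g ≠ 0) :
    min (v.ord f) (v.ord g) ≤ v.ord (f - g) := by
  have := ord_add_ge v hf (neg_ne_zero.mpr hg) (by rwa [← sub_eq_add_neg])
  rwa [_root_.Fermat.Agent.S24.H504.ord_neg, ← sub_eq_add_neg] at this

theorem ord_add_eq_of_lt {f g : F} (hf : f ≠ 0) (hg : g ≠ 0) (h : v.ord f < v.ord g) :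
    v.ord (f + g) = v.ord f := by
  have hfg : f + g ≠ 0 := by
    intro h0
    have : g = -f := by linear_combination h0
    rw [this, _root_.Fermat.Agent.S24.H504.ord_neg] at h
    exact lt_irrefl _ h
  have h1 := ord_add_ge v hf hg hfg
  rw [min_eq_left h.le] at h1
  by_contra hne
  have h2 : v.ord f < v.ord (f + g) := lt_of_le_of_ne h1 (Ne.symm hne)
  have h3 := ord_sub_ge v hfg hg (by simpa using hf)
  rw [add_sub_cancel_right] at h3
  have := lt_min h2 h
  omega

theorem exists_ord_eq_one : ∃ ϖ : F, v.ord ϖ = 1 := by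
  obtain ⟨π, hπ⟩ := IsDiscreteValuationRing.exists_irreducible v.toValuationSubring
  exact ⟨π, v.ord_coe_irreducible hπ⟩

theorem ne_zero_of_ord_ne_zero {f : F} (h : v.ord f ≠ 0) : f ≠ 0 := by
  rintro rfl
  simp at h

/-- The sum of two elements of positive order has positive order or is zero. -/
theorem ord_add_pos {f g : F} (hf : f = 0 ∨ 0 < v.ord f) (hg : g = 0 ∨ 0 < v.ord g) :
    f + g = 0 ∨ 0 < v.ord (f + g) := by
  rcases hf with rfl | hf
  · simpa using hg
  rcases hg with rfl | hg
  · right; simpa using hf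
  by_cases h0 : f + g = 0
  · exact Or.inl h0
  right
  have := ord_add_ge v (ne_zero_of_ord_ne_zero v hf.ne') (ne_zero_of_ord_ne_zero v hg.ne') h0
  exact lt_of_lt_of_le (lt_min hf hg) this

/-- A finite sum of elements of nonnegative order has nonnegative order. -/
theorem ord_add_nonneg {f g : F} (hf : 0 ≤ v.ord f) (hg : 0 ≤ v.ord g) :
    0 ≤ v.ord (f + g) := by
  rw [← mem_iff_ord_nonneg'] at *
  exact v.toValuationSubring.add_mem _ _ hf hg

theorem ord_mul_nonneg {f g : F} (hf : 0 ≤ v.ord f) (hg : 0 ≤ v.ord g) :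
    0 ≤ v.ord (f * g) := by
  rw [← mem_iff_ord_nonneg'] at *
  exact v.toValuationSubring.mul_mem _ _ hf hg

theorem ord_sum_nonneg {ι : Type*} (s : Finset ι) (f : ι → F) (h : ∀ i ∈ s, 0 ≤ v.ord (f i)) :
    0 ≤ v.ord (∑ i ∈ s, f i) := by
  rw [← mem_iff_ord_nonneg']
  exact Subring.sum_mem v.toValuationSubring.toSubring
    fun i hi => (mem_iff_ord_nonneg' v _).mpr (h i hi)

end Fermat.Agent.S24.H504

end
-- ===== PACK-END S24/H504/PlaceOrd.lean

-- ===== PACK-BEGIN S29/H812/Tower.lean
section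


/-!
# S29 / H812 — degree of `F'` over `K(x)` for `x ∈ F ⊆ F'`
-/

set_option autoImplicit false

noncomputable section

open IntermediateField

namespace Fermat.Agent.S29.H812

variable {K F F' : Type*} [Field K] [Field F] [Field F']
  [Algebra K F] [Algebra K F'] [Algebra F F'] [IsScalarTower K F F']

/-- `[F' : K(x')] = [F : K(x)] · [F' : F]` for `x' = algebraMap F F' x`. -/
theorem finrank_adjoin_algebraMap (x : F) :
    Module.finrank K⟮algebraMap F F' x⟯ F' = Module.finrank K⟮x⟯ F * Module.finrank F F' := by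
  haveI : IsScalarTower K⟮x⟯ F F' := inferInstance
  rw [Module.finrank_mul_finrank K⟮x⟯ F F']
  set f : F →ₐ[K] F' := IsScalarTower.toAlgHom K F F' with hf
  have hmap : (K⟮x⟯).map f = K⟮algebraMap F F' x⟯ := by
    rw [IntermediateField.adjoin_map, Set.image_singleton]
    rfl
  have h1 : Module.finrank K⟮algebraMap F F' x⟯ F' = Module.finrank ((K⟮x⟯).map f) F' :=
    congrArg (fun E : IntermediateField K F' => Module.finrank E F') hmap.symm
  rw [h1]
  symm
  refine Algebra.finrank_eq_of_equiv_equiv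
    ((IntermediateField.equivMap K⟮x⟯ f).toRingEquiv) (RingEquiv.refl F') ?_
  ext c
  rfl

theorem finiteDimensional_adjoin_algebraMap (x : F) [FiniteDimensional K⟮x⟯ F]
    [FiniteDimensional F F'] : FiniteDimensional K⟮algebraMap F F' x⟯ F' := by
  apply Module.finite_of_finrank_pos
  rw [finrank_adjoin_algebraMap]
  exact Nat.mul_pos Module.finrank_pos Module.finrank_pos

theorem transcendental_algebraMap_of {x : F} (hx : Transcendental K x) :
    Transcendental K (algebraMap F F' x) :=
  (transcendental_algebraMap_iff (algebraMap F F').injective).mpr hx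

/-- If `F'` is finite over `K(φ x)` with `φ x` in the image of `F`, then `F'` is finite over `F`. -/
theorem finite_of_finite_adjoin_algebraMap (x : F)
    [h : FiniteDimensional K⟮algebraMap F F' x⟯ F'] : Module.Finite F F' := by
  obtain ⟨s, hs⟩ := (Module.finite_def.mp h)
  refine Module.finite_def.mpr ⟨s, ?_⟩
  rw [eq_top_iff]
  rintro y -
  have hy : y ∈ Submodule.span K⟮algebraMap F F' x⟯ (s : Set F') := by rw [hs]; trivial
  have hle : K⟮algebraMap F F' x⟯ ≤ (IsScalarTower.toAlgHom K F F').fieldRange := by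
    rw [IntermediateField.adjoin_le_iff]
    rintro _ rfl
    exact ⟨x, rfl⟩
  induction hy using Submodule.span_induction with
  | mem z hz => exact Submodule.subset_span hz
  | zero => exact zero_mem _
  | add a b _ _ ha hb => exact add_mem ha hb
  | smul c z _ hz =>
    obtain ⟨c₀, hc₀⟩ := hle c.2
    have : c • z = c₀ • z := by
      rw [Algebra.smul_def, Algebra.smul_def]
      congr 1
      exact hc₀.symm
    rw [this]
    exact Submodule.smul_mem _ _ hz

end Fermat.Agent.S29.H812

end
end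
-- ===== PACK-END S29/H812/Tower.lean

-- ===== PACK-BEGIN S28/H685/QDict.lean
section


/-!
# S28 helper (helper685): dictionary between convergent `q`-series and functions on `ℍ`

`HasQExp h f A` : the function `f : ℍ → ℂ` is, at every point `τ`, the sum of the power
series `A` evaluated at `q = exp (2 π i τ / h)`.

Closure under ring operations, uniqueness of the coefficients, holomorphy, boundedness at `i∞`,
and closure under inverses.
-/

set_option autoImplicit false

namespace Fermat.Agent.S28.H685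

open UpperHalfPlane Function Complex Filter
open scoped Topology Manifold

noncomputable section

local notation "𝕢" => Periodic.qParam

/-- `f` is the sum of the power series `A` in the parameter `q = exp (2 π i τ / h)`. -/
def HasQExp (h : ℝ) (f : ℍ → ℂ) (A : PowerSeries ℂ) : Prop :=
  ∀ τ : ℍ, HasSum (fun n : ℕ => PowerSeries.coeff n A * 𝕢 h τ ^ n) (f τ)

namespace HasQExp

variable {h : ℝ} {f g : ℍ → ℂ} {A B : PowerSeries ℂ}

theorem congr_fun (hf : HasQExp h f A) (hfg : ∀ τ, f τ = g τ) : HasQExp h g A :=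
  fun τ => hfg τ ▸ hf τ

theorem zero : HasQExp h (fun _ => 0) 0 := fun τ => by
  simp [hasSum_zero]

theorem add (hf : HasQExp h f A) (hg : HasQExp h g B) :
    HasQExp h (fun τ => f τ + g τ) (A + B) := fun τ => by
  simpa [add_mul] using (hf τ).add (hg τ)

theorem neg (hf : HasQExp h f A) : HasQExp h (fun τ => -f τ) (-A) := fun τ => by
  simpa using (hf τ).neg

theorem sub (hf : HasQExp h f A) (hg : HasQExp h g B) :
    HasQExp h (fun τ => f τ - g τ) (A - B) := fun τ => by
  simpa [sub_mul] using (hf τ).sub (hg τ)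

theorem const_mul (c : ℂ) (hf : HasQExp h f A) :
    HasQExp h (fun τ => c * f τ) (PowerSeries.C c * A) := fun τ => by
  simpa [mul_assoc] using (hf τ).mul_left c

theorem const (c : ℂ) : HasQExp h (fun _ => c) (PowerSeries.C c) := fun τ => by
  have h0 : ∀ n : ℕ, n ≠ 0 → PowerSeries.coeff n (PowerSeries.C c) * 𝕢 h τ ^ n = 0 := by
    intro n hn
    simp [PowerSeries.coeff_C, hn]
  have := hasSum_single (f := fun n : ℕ => PowerSeries.coeff n (PowerSeries.C c) * 𝕢 h τ ^ n) 0
    (fun n hn => h0 n hn)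
  simpa using this

theorem one : HasQExp h (fun _ => 1) 1 := by
  simpa using const (h := h) 1

theorem X : HasQExp h (fun τ => 𝕢 h τ) PowerSeries.X := fun τ => by
  have h0 : ∀ n : ℕ, n ≠ 1 → PowerSeries.coeff n (PowerSeries.X : PowerSeries ℂ) * 𝕢 h τ ^ n = 0 := by
    intro n hn
    simp [PowerSeries.coeff_X, hn]
  have := hasSum_single (f := fun n : ℕ => PowerSeries.coeff n (PowerSeries.X : PowerSeries ℂ)
    * 𝕢 h τ ^ n) 1 (fun n hn => h0 n hn)
  simpa using this

theorem summable_norm (hf : HasQExp h f A) (τ : ℍ) :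
    Summable (fun n : ℕ => ‖PowerSeries.coeff n A * 𝕢 h τ ^ n‖) :=
  (hf τ).summable.norm

theorem mul (hf : HasQExp h f A) (hg : HasQExp h g B) :
    HasQExp h (fun τ => f τ * g τ) (A * B) := fun τ => by
  have h1 := hf.summable_norm τ
  have h2 := hg.summable_norm τ
  have hs := summable_norm_sum_mul_antidiagonal_of_summable_norm h1 h2
  have ht := tsum_mul_tsum_eq_tsum_sum_antidiagonal_of_summable_norm h1 h2
  rw [(hf τ).tsum_eq, (hg τ).tsum_eq] at ht
  have hterm : ∀ n : ℕ, PowerSeries.coeff n (A * B) * 𝕢 h τ ^ n =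
      ∑ kl ∈ Finset.HasAntidiagonal.antidiagonal n, (PowerSeries.coeff kl.1 A * 𝕢 h τ ^ kl.1) *
        (PowerSeries.coeff kl.2 B * 𝕢 h τ ^ kl.2) := by
    intro n
    rw [PowerSeries.coeff_mul, Finset.sum_mul]
    refine Finset.sum_congr rfl fun kl hkl => ?_
    have : kl.1 + kl.2 = n := Finset.HasAntidiagonal.mem_antidiagonal.mp hkl
    rw [← this, pow_add]
    ring
  simp_rw [hterm]
  rw [ht]
  exact hs.of_norm.hasSum

theorem pow (hf : HasQExp h f A) (n : ℕ) : HasQExp h (fun τ => f τ ^ n) (A ^ n) := by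
  induction n with
  | zero => simpa using one (h := h)
  | succ n ih => simpa [pow_succ] using ih.mul hf

theorem finset_sum {ι : Type*} (s : Finset ι) (F : ι → ℍ → ℂ) (P : ι → PowerSeries ℂ)
    (hF : ∀ i ∈ s, HasQExp h (F i) (P i)) :
    HasQExp h (fun τ => ∑ i ∈ s, F i τ) (∑ i ∈ s, P i) := by
  classical
  induction s using Finset.induction_on with
  | empty => simpa using zero (h := h)
  | insert a s ha ih =>
    simp only [Finset.sum_insert ha]
    exact (hF a (Finset.mem_insert_self a s)).add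
      (ih fun i hi => hF i (Finset.mem_insert_of_mem hi))

theorem finset_prod {ι : Type*} (s : Finset ι) (F : ι → ℍ → ℂ) (P : ι → PowerSeries ℂ)
    (hF : ∀ i ∈ s, HasQExp h (F i) (P i)) :
    HasQExp h (fun τ => ∏ i ∈ s, F i τ) (∏ i ∈ s, P i) := by
  classical
  induction s using Finset.induction_on with
  | empty => simpa using one (h := h)
  | insert a s ha ih =>
    simp only [Finset.prod_insert ha]
    exact (hF a (Finset.mem_insert_self a s)).mul
      (ih fun i hi => hF i (Finset.mem_insert_of_mem hi))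

end HasQExp

/-! ### Analytic consequences -/

/-- The formal multilinear series attached to a power series. -/
def pser (A : PowerSeries ℂ) : FormalMultilinearSeries ℂ ℂ ℂ :=
  .ofScalars ℂ fun n => PowerSeries.coeff n A

/-- The sum of the power series `A`, as a function on `ℂ`. -/
def psum (A : PowerSeries ℂ) : ℂ → ℂ := (pser A).sum

theorem pser_apply (A : PowerSeries ℂ) (n : ℕ) (q : ℂ) :
    (pser A n fun _ => q) = PowerSeries.coeff n A * q ^ n := by
  simp [pser, mul_comm]

theorem pser_norm (A : PowerSeries ℂ) (n : ℕ) : ‖pser A n‖ = ‖PowerSeries.coeff n A‖ := by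
  simp [pser]

theorem pser_coeff (A : PowerSeries ℂ) (n : ℕ) : (pser A).coeff n = PowerSeries.coeff n A := by
  simp [pser, FormalMultilinearSeries.coeff_ofScalars]

theorem pser_injective : Function.Injective pser := by
  intro A B hAB
  ext n
  rw [← pser_coeff A, ← pser_coeff B, hAB]

/-- Every point of the punctured unit disc is `𝕢 h τ` for some `τ`. -/
theorem exists_qParam_eq {h : ℝ} (hh : 0 < h) {q : ℂ} (hq : ‖q‖ < 1) (hq0 : q ≠ 0) :
    ∃ τ : ℍ, 𝕢 h τ = q :=
  ⟨⟨Periodic.invQParam h q, Periodic.im_invQParam_pos_of_norm_lt_one hh hq hq0⟩,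
    Periodic.qParam_right_inv hh.ne' hq0⟩

/-- Summability of `A` at every point of the open unit disc implies radius at least one. -/
theorem one_le_radius_of_summable (A : PowerSeries ℂ)
    (hA : ∀ q : ℂ, ‖q‖ < 1 → Summable fun n : ℕ => PowerSeries.coeff n A * q ^ n) :
    1 ≤ (pser A).radius := by
  refine le_of_forall_lt_imp_le_of_dense fun r hr => ?_
  lift r to NNReal using hr.ne_top
  apply FormalMultilinearSeries.le_radius_of_summable
  have h1 : ‖((r : ℝ) : ℂ)‖ < 1 := by
    simpa using hr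
  have h2 := (hA (r : ℝ) h1).norm
  refine h2.congr fun n => ?_
  rw [pser_norm, norm_mul, norm_pow, Complex.norm_real, Real.norm_of_nonneg r.coe_nonneg]

theorem eball_zero_one : Metric.eball (0 : ℂ) 1 = Metric.ball 0 1 := by
  rw [← ENNReal.coe_one, Metric.eball_coe, NNReal.coe_one]

theorem hasFPowerSeriesOnBall_psum (A : PowerSeries ℂ) (hA : 1 ≤ (pser A).radius) :
    HasFPowerSeriesOnBall (psum A) (pser A) 0 1 :=
  ((pser A).hasFPowerSeriesOnBall (lt_of_lt_of_le one_pos hA)).mono one_pos hA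

theorem hasSum_psum (A : PowerSeries ℂ) (hA : 1 ≤ (pser A).radius) {q : ℂ} (hq : ‖q‖ < 1) :
    HasSum (fun n : ℕ => PowerSeries.coeff n A * q ^ n) (psum A q) := by
  have := (hasFPowerSeriesOnBall_psum A hA).hasSum (y := q)
    (by rw [eball_zero_one]; simpa using hq)
  simpa only [pser_apply, zero_add] using this

theorem psum_zero_eq (A : PowerSeries ℂ) (hA : 1 ≤ (pser A).radius) :
    psum A 0 = PowerSeries.coeff 0 A := by
  have h1 := hasSum_psum A hA (q := 0) (by simp)
  have h2 : HasSum (fun n : ℕ => PowerSeries.coeff n A * (0 : ℂ) ^ n) (PowerSeries.coeff 0 A) := by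
    have := hasSum_single (f := fun n : ℕ => PowerSeries.coeff n A * (0 : ℂ) ^ n) 0
      (fun n hn => by simp [hn])
    simpa using this
  exact h1.unique h2

theorem differentiableOn_psum (A : PowerSeries ℂ) (hA : 1 ≤ (pser A).radius) :
    DifferentiableOn ℂ (psum A) (Metric.ball 0 1) := by
  have := (hasFPowerSeriesOnBall_psum A hA).differentiableOn
  rwa [eball_zero_one] at this

/-- If two power series of radius at least one have sums that agree on the punctured disc,
they are equal. -/
theorem eq_of_psum_eq (A B : PowerSeries ℂ) (hA : 1 ≤ (pser A).radius)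
    (hB : 1 ≤ (pser B).radius)
    (hAB : ∀ q : ℂ, ‖q‖ < 1 → q ≠ 0 → psum A q = psum B q) : A = B := by
  have hAa := (hasFPowerSeriesOnBall_psum A hA).hasFPowerSeriesAt
  have hBa := (hasFPowerSeriesOnBall_psum B hB).hasFPowerSeriesAt
  have hne : psum A =ᶠ[𝓝[≠] (0 : ℂ)] psum B := by
    have hball : Metric.ball (0 : ℂ) 1 ∈ 𝓝[≠] (0 : ℂ) :=
      mem_nhdsWithin_of_mem_nhds (Metric.ball_mem_nhds 0 one_pos)
    filter_upwards [hball, self_mem_nhdsWithin] with q hq hq0
    exact hAB q (by simpa using hq) hq0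
  have hnhds : psum A =ᶠ[𝓝 (0 : ℂ)] psum B :=
    (hAa.continuousAt.eventuallyEq_nhds_iff_eventuallyEq_nhdsNE hBa.continuousAt).mp hne
  have hBa' : HasFPowerSeriesAt (psum A) (pser B) 0 := hBa.congr hnhds.symm
  exact pser_injective (hAa.eq_formalMultilinearSeries hBa')

namespace HasQExp

variable {h : ℝ} {f g : ℍ → ℂ} {A B : PowerSeries ℂ}

theorem summable_of_norm_lt (hh : 0 < h) (hf : HasQExp h f A) {q : ℂ} (hq : ‖q‖ < 1) :
    Summable fun n : ℕ => PowerSeries.coeff n A * q ^ n := by
  rcases eq_or_ne q 0 with rfl | hq0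
  · exact (hasSum_single (f := fun n : ℕ => PowerSeries.coeff n A * (0 : ℂ) ^ n) 0
      (fun n hn => by simp [hn])).summable
  · obtain ⟨τ, rfl⟩ := exists_qParam_eq hh hq hq0
    exact (hf τ).summable

theorem one_le_radius (hh : 0 < h) (hf : HasQExp h f A) : 1 ≤ (pser A).radius :=
  one_le_radius_of_summable A fun _ hq => hf.summable_of_norm_lt hh hq

theorem psum_qParam (hh : 0 < h) (hf : HasQExp h f A) (τ : ℍ) : psum A (𝕢 h τ) = f τ :=
  (hasSum_psum A (hf.one_le_radius hh) (Periodic.norm_qParam_lt_one hh τ.im_pos)).unique (hf τ)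

/-- Uniqueness of the coefficients. -/
theorem unique (hh : 0 < h) (hf : HasQExp h f A) (hg : HasQExp h f B) : A = B := by
  refine eq_of_psum_eq A B (hf.one_le_radius hh) (hg.one_le_radius hh) fun q hq hq0 => ?_
  obtain ⟨τ, rfl⟩ := exists_qParam_eq hh hq hq0
  rw [hf.psum_qParam hh, hg.psum_qParam hh]

theorem eq_zero (hh : 0 < h) (hf : HasQExp h (fun _ => 0) A) : A = 0 :=
  hf.unique hh zero

/-- A function given by a convergent `q`-series is holomorphic. -/
theorem mdifferentiable (hh : 0 < h) (hf : HasQExp h f A) : MDiff f := by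
  rw [UpperHalfPlane.mdifferentiable_iff]
  have hd : DifferentiableOn ℂ (fun z : ℂ => psum A (𝕢 h z)) {z | 0 < z.im} := by
    intro z hz
    have h1 : DifferentiableAt ℂ (psum A) (𝕢 h z) :=
      (differentiableOn_psum A (hf.one_le_radius hh)).differentiableAt
        (Metric.isOpen_ball.mem_nhds (by simpa using Periodic.norm_qParam_lt_one hh hz))
    have h2 : DifferentiableAt ℂ (𝕢 h) z := (Periodic.differentiable_qParam).differentiableAt
    exact (h1.comp z h2).differentiableWithinAt
  refine hd.congr fun z hz => ?_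
  simp only [Function.comp_apply]
  rw [ofComplex_apply_of_im_pos hz, ← hf.psum_qParam hh]

/-- A function given by a convergent `q`-series is bounded at `i∞`. -/
theorem isBoundedAtImInfty (hh : 0 < h) (hf : HasQExp h f A) : IsBoundedAtImInfty f :=
  isBoundedAtImInfty_of_hasSum_qExpansion (c := fun n => PowerSeries.coeff n A) hh
    (fun τ => by simpa [smul_eq_mul] using hf τ)

/-- The value at a translate by the period. -/
theorem vadd_period (hh : 0 < h) (hf : HasQExp h f A) (τ : ℍ) (τ' : ℍ) (hτ : (τ' : ℂ) = τ + h) :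
    f τ' = f τ := by
  have hq : 𝕢 h τ' = 𝕢 h τ := by
    rw [hτ]
    simp only [Periodic.qParam]
    rw [show 2 * (Real.pi : ℂ) * Complex.I * ((τ : ℂ) + h) / h =
      2 * Real.pi * Complex.I * τ / h + 2 * Real.pi * Complex.I by
        have : (h : ℂ) ≠ 0 := by exact_mod_cast hh.ne'
        field_simp]
    exact Complex.exp_periodic _
  have := hf τ'
  rw [hq] at this
  exact this.unique (hf τ)

/-- Closure under inverses. -/
theorem inv (hh : 0 < h) (hf : HasQExp h f A) (hf0 : ∀ τ, f τ ≠ 0)
    (hA0 : PowerSeries.coeff 0 A ≠ 0) : HasQExp h (fun τ => (f τ)⁻¹) A⁻¹ := by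
  have hA := hf.one_le_radius hh
  have hne : ∀ q ∈ Metric.ball (0 : ℂ) 1, psum A q ≠ 0 := by
    intro q hq
    have hq' : ‖q‖ < 1 := by simpa using hq
    rcases eq_or_ne q 0 with rfl | hq0
    · rwa [psum_zero_eq A hA]
    · obtain ⟨τ, rfl⟩ := exists_qParam_eq hh hq' hq0
      rw [hf.psum_qParam hh]
      exact hf0 τ
  have hdiff : DifferentiableOn ℂ (fun q => (psum A q)⁻¹) (Metric.ball 0 1) :=
    (differentiableOn_psum A hA).inv hne
  -- Taylor series of the inverse
  let B : PowerSeries ℂ := PowerSeries.mk fun n =>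
    (n.factorial : ℂ)⁻¹ * iteratedDeriv n (fun q => (psum A q)⁻¹) 0
  have hB : HasQExp h (fun τ => (f τ)⁻¹) B := by
    intro τ
    have hq : 𝕢 h τ ∈ Metric.ball (0 : ℂ) 1 := by
      simpa using Periodic.norm_qParam_lt_one hh τ.im_pos
    have := Complex.hasSum_taylorSeries_on_ball hdiff hq
    simp only [sub_zero, smul_eq_mul] at this
    rw [hf.psum_qParam hh] at this
    have hfun : (fun n : ℕ => PowerSeries.coeff n B * 𝕢 h τ ^ n) =
        fun n : ℕ => ((n.factorial : ℂ))⁻¹ *
          (𝕢 h τ ^ n * iteratedDeriv n (fun q => (psum A q)⁻¹) 0) := by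
      funext n
      simp only [B, PowerSeries.coeff_mk]
      ring
    rw [hfun]
    exact this
  have h1 : HasQExp h (fun _ => 1) (A * B) :=
    (hf.mul hB).congr_fun fun τ => mul_inv_cancel₀ (hf0 τ)
  have h2 : A * B = 1 := h1.unique hh one
  have hA0' : PowerSeries.constantCoeff A ≠ 0 := by
    rwa [← PowerSeries.coeff_zero_eq_constantCoeff]
  have h3 : B = A⁻¹ := by
    rw [PowerSeries.eq_inv_iff_mul_eq_one hA0', mul_comm]
    exact h2
  rw [← h3]
  exact hB

end HasQExp

end

end Fermat.Agent.S28.H685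

end
-- ===== PACK-END S28/H685/QDict.lean

-- ===== PACK-BEGIN S28/H25/DerivQExp.lean
section


/-!
# `q`-expansion of the normalised derivative `D = (2πi)⁻¹ d/dτ`

(helper25, S28 piece [A-θ], route independent.)
If `F : ℍ → ℂ` is holomorphic, `h`-periodic and bounded at `i∞` with `q`-expansion `∑ aₙ qₕⁿ`,
then `D F` is given by the convergent series `h⁻¹ ∑ n aₙ qₕⁿ`; in particular (for `h = 1`)
`qExpansion 1 (D F) = θ (qExpansion 1 F)` with `θ = q d/dq`.
-/

set_option autoImplicit false

open UpperHalfPlane hiding I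
open Function Derivative Complex
open scoped Manifold

noncomputable section

namespace Fermat.Agent.S28.H25

local notation "𝕢" => Function.Periodic.qParam

theorem hasDerivAt_qParam (h : ℝ) (z : ℂ) :
    HasDerivAt (𝕢 h) (𝕢 h z * (2 * Real.pi * I / h)) z := by
  unfold Function.Periodic.qParam
  have h1 : HasDerivAt (fun z : ℂ => 2 * Real.pi * I * z / h) (2 * Real.pi * I / h) z := by
    have := ((hasDerivAt_id z).const_mul (2 * Real.pi * I)).div_const (h : ℂ)
    simpa using this
  exact h1.cexp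

/-- `D F = h⁻¹ · q · g'(q)` with `g` the cusp function of `F`. -/
theorem D_eq_qParam_mul_deriv_cuspFunction {F : ℍ → ℂ} {h : ℝ} (hh : 0 < h)
    (hper : Periodic (F ∘ ofComplex) h) (hhol : MDiff F) (hbdd : IsBoundedAtImInfty F) (τ : ℍ) :
    D F τ = (h : ℂ)⁻¹ * (𝕢 h τ * deriv (cuspFunction h F) (𝕢 h τ)) := by
  have hq : ‖𝕢 h τ‖ < 1 := Periodic.norm_qParam_lt_one hh τ.im_pos
  have hg : DifferentiableAt ℂ (cuspFunction h F) (𝕢 h τ) :=
    differentiableAt_cuspFunction hh hper hhol hbdd hq
  have heq : (F ∘ ofComplex) =ᶠ[nhds (τ : ℂ)] (cuspFunction h F) ∘ (𝕢 h) := by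
    filter_upwards [isOpen_upperHalfPlaneSet.mem_nhds τ.im_pos] with z hz
    have := eq_cuspFunction (f := F) ⟨z, hz⟩ hh.ne' hper
    simp only [comp_apply, ofComplex_apply_of_im_pos hz]
    exact this.symm
  have hcomp := (hg.hasDerivAt.comp (τ : ℂ) (hasDerivAt_qParam h τ)).deriv
  rw [normalizedDerivOfComplex, heq.deriv_eq, hcomp]
  have hpi : (2 * (Real.pi : ℂ) * I) ≠ 0 := by
    simp [Real.pi_ne_zero]
  have hh' : (h : ℂ) ≠ 0 := by exact_mod_cast hh.ne'
  field_simp

/-- Termwise differentiation of the `q`-expansion. -/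
theorem hasSum_D_of_bounded {F : ℍ → ℂ} {h : ℝ} (hh : 0 < h)
    (hper : Periodic (F ∘ ofComplex) h) (hhol : MDiff F) (hbdd : IsBoundedAtImInfty F) (τ : ℍ) :
    HasSum (fun n : ℕ => ((h : ℂ)⁻¹ * ((n : ℂ) * (qExpansion h F).coeff n)) • 𝕢 h τ ^ n)
      (D F τ) := by
  set g := cuspFunction h F with hgdef
  have hgdiff : DifferentiableOn ℂ g (Metric.ball 0 1) :=
    differentiableOn_cuspFunction_ball hh hper hhol hbdd
  have hg'diff : DifferentiableOn ℂ (deriv g) (Metric.ball 0 1) :=
    hgdiff.deriv Metric.isOpen_ball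
  have hq : 𝕢 h τ ∈ Metric.ball (0 : ℂ) 1 := by
    simpa using Periodic.norm_qParam_lt_one hh τ.im_pos
  have hT := hasSum_taylorSeries_on_ball hg'diff hq
  rw [D_eq_qParam_mul_deriv_cuspFunction hh hper hhol hbdd τ]
  have hT2 := (hT.mul_left (𝕢 h τ)).mul_left ((h : ℂ)⁻¹)
  have hfun : (fun n : ℕ => ((h : ℂ)⁻¹ * (((n + 1 : ℕ) : ℂ) *
      (qExpansion h F).coeff (n + 1))) • 𝕢 h τ ^ (n + 1)) =
      (fun i : ℕ => (h : ℂ)⁻¹ * (𝕢 h τ * (((i.factorial : ℕ) : ℂ))⁻¹ • (𝕢 h τ - 0) ^ i •
        iteratedDeriv i (deriv g) 0)) := by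
    funext n
    rw [qExpansion_coeff, ← iteratedDeriv_succ', sub_zero]
    have hn : ((n.factorial : ℕ) : ℂ) ≠ 0 := by exact_mod_cast n.factorial_ne_zero
    have hn1 : ((n : ℂ) + 1) ≠ 0 := by exact_mod_cast n.succ_ne_zero
    simp only [smul_eq_mul]
    rw [Nat.factorial_succ]
    push_cast
    field_simp
    rw [hgdef]
    ring
  have hshift : HasSum (fun n : ℕ => ((h : ℂ)⁻¹ * (((n + 1 : ℕ) : ℂ) *
      (qExpansion h F).coeff (n + 1))) • 𝕢 h τ ^ (n + 1))
      ((h : ℂ)⁻¹ * (𝕢 h τ * deriv g (𝕢 h τ))) := by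
    rw [hfun]
    exact hT2
  have := (hasSum_nat_add_iff' (f := fun n : ℕ => ((h : ℂ)⁻¹ * ((n : ℂ) *
      (qExpansion h F).coeff n)) • 𝕢 h τ ^ n) 1).mp (by simpa using hshift)
  simpa using this

/-- `D F` is periodic if `F` is. -/
theorem periodic_D {F : ℍ → ℂ} {h : ℝ} (hh : 0 < h)
    (hper : Periodic (F ∘ ofComplex) h) (hhol : MDiff F) (hbdd : IsBoundedAtImInfty F) :
    Periodic (D F ∘ ofComplex) h := by
  intro w
  by_cases! hw : 0 < Complex.im w
  · have hw' : 0 < Complex.im (w + h) := by simp [hw]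
    simp only [comp_apply, ofComplex_apply_of_im_pos hw', ofComplex_apply_of_im_pos hw]
    rw [D_eq_qParam_mul_deriv_cuspFunction hh hper hhol hbdd,
      D_eq_qParam_mul_deriv_cuspFunction hh hper hhol hbdd]
    have hq : 𝕢 h ((⟨w + h, hw'⟩ : ℍ) : ℂ) = 𝕢 h ((⟨w, hw⟩ : ℍ) : ℂ) := by
      show 𝕢 h (w + h) = 𝕢 h w
      have hh' : (h : ℂ) ≠ 0 := by exact_mod_cast hh.ne'
      simp only [Function.Periodic.qParam]
      rw [show 2 * (Real.pi : ℂ) * Complex.I * (w + h) / h
          = 2 * Real.pi * Complex.I * w / h + 2 * Real.pi * Complex.I by field_simp]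
      rw [Complex.exp_add, Complex.exp_two_pi_mul_I, mul_one]
    rw [hq]
  · have : Complex.im (w + h) ≤ 0 := by simpa using hw
    simp [ofComplex_apply_of_im_nonpos this, ofComplex_apply_of_im_nonpos hw]

theorem isBoundedAtImInfty_D {F : ℍ → ℂ} {h : ℝ} (hh : 0 < h)
    (hper : Periodic (F ∘ ofComplex) h) (hhol : MDiff F) (hbdd : IsBoundedAtImInfty F) :
    IsBoundedAtImInfty (D F) :=
  isBoundedAtImInfty_of_hasSum_qExpansion hh (hasSum_D_of_bounded hh hper hhol hbdd)

theorem analyticAt_cuspFunction_D {F : ℍ → ℂ} {h : ℝ} (hh : 0 < h)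
    (hper : Periodic (F ∘ ofComplex) h) (hhol : MDiff F) (hbdd : IsBoundedAtImInfty F) :
    AnalyticAt ℂ (cuspFunction h (D F)) 0 :=
  analyticAt_cuspFunction_zero hh (periodic_D hh hper hhol hbdd)
    (normalizedDerivOfComplex_mdifferentiable hhol) (isBoundedAtImInfty_D hh hper hhol hbdd)

/-- The `q`-expansion of `D F` is `h⁻¹ θ` of the `q`-expansion of `F`. -/
theorem qExpansion_D_coeff {F : ℍ → ℂ} {h : ℝ} (hh : 0 < h)
    (hper : Periodic (F ∘ ofComplex) h) (hhol : MDiff F) (hbdd : IsBoundedAtImInfty F) (n : ℕ) :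
    (qExpansion h (D F)).coeff n = (h : ℂ)⁻¹ * ((n : ℂ) * (qExpansion h F).coeff n) := by
  have hfanalytic := analyticAt_cuspFunction_D hh hper hhol hbdd
  have h1 := (hasFPowerSeriesOnBall_cuspFunction hh hfanalytic
    (hasSum_D_of_bounded hh hper hhol hbdd)).hasFPowerSeriesAt
  have h2 : HasFPowerSeriesAt (cuspFunction h (D F))
      (FormalMultilinearSeries.ofScalars ℂ fun m ↦ (qExpansion h (D F)).coeff m) 0 := by
    simpa [qExpansion_coeff, div_eq_mul_inv, mul_comm]
      using hfanalytic.hasFPowerSeriesAt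
  have := congr_arg (FormalMultilinearSeries.coeff · n) (h1.eq_formalMultilinearSeries h2)
  simpa [FormalMultilinearSeries.coeff_ofScalars] using this.symm

/-- `θ = X d/dX` on power series. -/
def thetaP {R : Type*} [CommRing R] (f : PowerSeries R) : PowerSeries R :=
  PowerSeries.X * PowerSeries.derivative R f

theorem coeff_thetaP {R : Type*} [CommRing R] (f : PowerSeries R) (n : ℕ) :
    (thetaP f).coeff n = (n : R) * f.coeff n := by
  rcases n with _ | n
  · simp [thetaP]
  · rw [thetaP, PowerSeries.coeff_succ_X_mul, PowerSeries.coeff_derivative]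
    push_cast
    ring

theorem qExpansion_D {F : ℍ → ℂ}
    (hper : Periodic (F ∘ ofComplex) 1) (hhol : MDiff F) (hbdd : IsBoundedAtImInfty F) :
    qExpansion 1 (D F) = thetaP (qExpansion 1 F) := by
  ext n
  rw [qExpansion_D_coeff one_pos hper hhol hbdd, coeff_thetaP]
  simp

end Fermat.Agent.S28.H25

end
end
-- ===== PACK-END S28/H25/DerivQExp.lean

-- ===== PACK-BEGIN S20/Comb/Basic.lean
section






/-!
# Combinatorics on `SL(2,ℤ) ⧸ Gamma0 N` : basic coset criterion, fixed points of `S` and `S * T`.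

Left cosets, Mathlib's left-multiplication action (`MulAction.quotient`).
-/

set_option autoImplicit false

namespace Fermat.Agent.S20.Comb

open Matrix MatrixGroups CongruenceSubgroup

/-- The `(1,0)` entry of `g⁻¹ * g'`. -/
lemma inv_mul_apply_one_zero (g g' : SL(2, ℤ)) :
    (g⁻¹ * g') 1 0 = g 0 0 * g' 1 0 - g 1 0 * g' 0 0 := by
  rw [Matrix.SpecialLinearGroup.coe_mul, Matrix.SpecialLinearGroup.coe_inv,
    Matrix.adjugate_fin_two, Matrix.mul_apply, Fin.sum_univ_two]
  simp
  ring

/-- Coset criterion: `g Γ₀(N) = g' Γ₀(N)` iff `a c' - c a' ≡ 0 mod N`, where `(a, c)`, `(a', c')`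
are the first columns of `g`, `g'`. -/
lemma mk_eq_mk_iff (N : ℕ) (g g' : SL(2, ℤ)) :
    (QuotientGroup.mk g : SL(2, ℤ) ⧸ Gamma0 N) = QuotientGroup.mk g' ↔
      ((g 0 0 : ℤ) : ZMod N) * ((g' 1 0 : ℤ) : ZMod N)
        - ((g 1 0 : ℤ) : ZMod N) * ((g' 0 0 : ℤ) : ZMod N) = 0 := by
  rw [QuotientGroup.eq, Gamma0_mem, inv_mul_apply_one_zero]
  push_cast
  rfl

/-- Determinant relation in `ZMod N`. -/
lemma det_cast (N : ℕ) (g : SL(2, ℤ)) :
    ((g 0 0 : ℤ) : ZMod N) * ((g 1 1 : ℤ) : ZMod N)
      - ((g 0 1 : ℤ) : ZMod N) * ((g 1 0 : ℤ) : ZMod N) = 1 := by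
  have h := g.det_coe
  rw [Matrix.det_fin_two] at h
  have := congrArg (fun z : ℤ => (z : ZMod N)) h
  simpa using this

/-- Fixed-point criterion for a general element `γ`. -/
lemma smul_mk_eq_mk_iff (N : ℕ) (γ g : SL(2, ℤ)) :
    γ • (QuotientGroup.mk g : SL(2, ℤ) ⧸ Gamma0 N) = QuotientGroup.mk g ↔
      ((g 0 0 : ℤ) : ZMod N) * (((γ * g) 1 0 : ℤ) : ZMod N)
        - ((g 1 0 : ℤ) : ZMod N) * (((γ * g) 0 0 : ℤ) : ZMod N) = 0 := by
  rw [MulAction.Quotient.smul_mk, smul_eq_mul, eq_comm, mk_eq_mk_iff]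

lemma S_mul_apply_zero_zero (g : SL(2, ℤ)) : (ModularGroup.S * g) 0 0 = - g 1 0 := by
  rw [Matrix.SpecialLinearGroup.coe_mul, ModularGroup.coe_S, Matrix.mul_apply, Fin.sum_univ_two]
  simp

lemma S_mul_apply_one_zero (g : SL(2, ℤ)) : (ModularGroup.S * g) 1 0 = g 0 0 := by
  rw [Matrix.SpecialLinearGroup.coe_mul, ModularGroup.coe_S, Matrix.mul_apply, Fin.sum_univ_two]
  simp

lemma coe_S_mul_T : ((ModularGroup.S * ModularGroup.T : SL(2, ℤ)) : Matrix (Fin 2) (Fin 2) ℤ)
    = !![0, -1; 1, 1] := by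
  rw [Matrix.SpecialLinearGroup.coe_mul, ModularGroup.coe_S, ModularGroup.coe_T]
  ext i j
  fin_cases i <;> fin_cases j <;> simp [Matrix.mul_apply, Fin.sum_univ_two]

lemma ST_mul_apply_zero_zero (g : SL(2, ℤ)) :
    (ModularGroup.S * ModularGroup.T * g) 0 0 = - g 1 0 := by
  rw [Matrix.SpecialLinearGroup.coe_mul, coe_S_mul_T, Matrix.mul_apply, Fin.sum_univ_two]
  simp

lemma ST_mul_apply_one_zero (g : SL(2, ℤ)) :
    (ModularGroup.S * ModularGroup.T * g) 1 0 = g 0 0 + g 1 0 := by
  rw [Matrix.SpecialLinearGroup.coe_mul, coe_S_mul_T, Matrix.mul_apply, Fin.sum_univ_two]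
  simp

/-- `g Γ₀(N)` is fixed by `S` iff `a² + c² ≡ 0 mod N`. -/
lemma S_smul_mk_eq_mk_iff (N : ℕ) (g : SL(2, ℤ)) :
    ModularGroup.S • (QuotientGroup.mk g : SL(2, ℤ) ⧸ Gamma0 N) = QuotientGroup.mk g ↔
      ((g 0 0 : ℤ) : ZMod N) ^ 2 + ((g 1 0 : ℤ) : ZMod N) ^ 2 = 0 := by
  rw [smul_mk_eq_mk_iff, S_mul_apply_zero_zero, S_mul_apply_one_zero]
  push_cast
  constructor <;> intro h <;> linear_combination h

/-- `g Γ₀(N)` is fixed by `S * T` iff `a² + a c + c² ≡ 0 mod N`. -/
lemma ST_smul_mk_eq_mk_iff (N : ℕ) (g : SL(2, ℤ)) :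
    (ModularGroup.S * ModularGroup.T) • (QuotientGroup.mk g : SL(2, ℤ) ⧸ Gamma0 N)
        = QuotientGroup.mk g ↔
      ((g 0 0 : ℤ) : ZMod N) ^ 2 + ((g 0 0 : ℤ) : ZMod N) * ((g 1 0 : ℤ) : ZMod N)
        + ((g 1 0 : ℤ) : ZMod N) ^ 2 = 0 := by
  rw [smul_mk_eq_mk_iff, ST_mul_apply_zero_zero, ST_mul_apply_one_zero]
  push_cast
  constructor <;> intro h <;> linear_combination h

/-- The matrix `[[x, -1], [1, 0]]` in `SL(2,ℤ)`. -/
def colRep (x : ℤ) : SL(2, ℤ) := ⟨!![x, -1; 1, 0], by simp [Matrix.det_fin_two]⟩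

@[simp] lemma colRep_apply_zero_zero (x : ℤ) : colRep x 0 0 = x := rfl
@[simp] lemma colRep_apply_one_zero (x : ℤ) : colRep x 1 0 = 1 := rfl

/-- If `a² = c * r` in `ZMod N` for the first column `(a, c)` of `g ∈ SL(2,ℤ)`, then `c` has
an explicit inverse. -/
lemma c_mul_inv_eq_one (N : ℕ) (g : SL(2, ℤ)) (r : ZMod N)
    (h : ((g 0 0 : ℤ) : ZMod N) ^ 2 = ((g 1 0 : ℤ) : ZMod N) * r) :
    ((g 1 0 : ℤ) : ZMod N) *
      (r * ((g 1 1 : ℤ) : ZMod N) ^ 2
        - 2 * ((g 0 0 : ℤ) : ZMod N) * ((g 0 1 : ℤ) : ZMod N) * ((g 1 1 : ℤ) : ZMod N)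
        + ((g 0 1 : ℤ) : ZMod N) ^ 2 * ((g 1 0 : ℤ) : ZMod N)) = 1 := by
  have hdet := det_cast N g
  linear_combination (-(((g 1 1 : ℤ) : ZMod N)) ^ 2) * h
    + (((g 0 0 : ℤ) : ZMod N) * ((g 1 1 : ℤ) : ZMod N)
        - ((g 0 1 : ℤ) : ZMod N) * ((g 1 0 : ℤ) : ZMod N) + 1) * hdet

end Fermat.Agent.S20.Comb

end
-- ===== PACK-END S20/Comb/Basic.lean

-- ===== PACK-BEGIN S18/Alg/Spec.lean
section


/-!
# S18 / ALG — frozen abstract interface (row-lead helper18), Mathlib-only

v2 (18:10Z): fields `gauss` and `separable` repaired (`0⁻¹ = 0` bugs found by helper887).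
v3 (18:25Z): `GoodModel` UNCHANGED; NEW `GoodFamily` (directed family of good models); `AlgMainStatement`
now takes a `GoodFamily`, so that ALG may enlarge the constant field `Ec` (needed by endgame K').
v4 = FINAL (landed on main, never to change again): (a) new field `x_mem_V : x ∈ V` (trivial for
MOD; asked for by helper467/24/187); (b) `AlgMainStatement` only for PRIME `m` (helper425/694: the
frozen S18 for all `m` follows from prime `m`, `S18/H694/PrimeRed.lean`).

Everything is a sub-object of ONE field `Ω` (in the application `Ω = F_M = Q̄(j_d : d ∣ M)`):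

* `Lc`  : the algebraically closed constant field (`Q̄`),
* `Ec ≤ Lc`, `R ⊆ Ec` : a subfield with a discrete valuation ring `R`, uniformiser `w`
  (`Ec` a number field, `R = A ∩ Ec`),
* `Fc`  : the function field over `Ec` (`Ec(j_d : d ∣ M)`), `Ω = Fc · Lc`,
* `x ∈ Fc` : the coordinate (`j`, `t₂` or `t₃`),
* `V ⊆ Fc` : the Gauss valuation ring (residue field = function field of the special fibre),
* `S ⊆ R` : the finite branch values of `Ω / Lc(x)`.

`GoodModel`/`GoodFamily` = what MOD(M) + d1 must supply.  `AlgMainStatement` = what ALG (b1–b5, or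
the polar endgame) must prove.  Together they give `CoreStatement M A m`.
-/

set_option autoImplicit false

namespace Fermat.Agent.S18.Alg

variable {Ω : Type*} [Field Ω]

/-- `R[x]` as a subring of `Ω`. -/
def polyRing (R : Subring Ω) (x : Ω) : Subring Ω := Subring.closure ((R : Set Ω) ∪ {x})

/-- `E(x)` as a subfield of `Ω`. -/
def ratField (Ec : Subfield Ω) (x : Ω) : Subfield Ω := Subfield.closure ((Ec : Set Ω) ∪ {x})

/-- The chart: elements of `Fc` integral over `R[x]`. -/
def chart (Fc : Subfield Ω) (R : Subring Ω) (x : Ω) : Set Ω :=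
  {b | b ∈ Fc ∧ IsIntegral (polyRing R x) b}

/-- The data supplied by the modular side (see the module docstring). -/
structure GoodModel (Lc Ec Fc : Subfield Ω) (R V : Subring Ω) (w x : Ω) (S : Finset Ω) : Prop where
  charZero : CharZero Ω
  -- `R` is a discrete valuation ring of `Ec` with uniformiser `w`, perfect residue field
  R_le : (R : Set Ω) ⊆ Ec
  R_total : ∀ e ∈ Ec, e ∈ R ∨ e⁻¹ ∈ R
  w_mem : w ∈ R
  w_ne_zero : w ≠ 0
  w_inv_not_mem : w⁻¹ ∉ R
  w_gen : ∀ r ∈ R, r⁻¹ ∉ R → r * w⁻¹ ∈ R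
  w_discrete : ∀ r ∈ R, r ≠ 0 → ∃ n : ℕ, r * (w⁻¹) ^ n ∈ R ∧ (r * (w⁻¹) ^ n)⁻¹ ∈ R
  residue_perfect : ∃ p : ℕ, p.Prime ∧ (p : Ω) * w⁻¹ ∈ R ∧
    ∀ r ∈ R, ∃ s ∈ R, (r - s ^ p) * w⁻¹ ∈ R
  -- the fields
  E_le_L : Ec ≤ Lc
  E_le_F : Ec ≤ Fc
  L_algebraic : ∀ a ∈ Lc, IsAlgebraic Ec a
  L_algClosed : IsAlgClosed Lc
  E_closed_in_F : ∀ f ∈ Fc, IsAlgebraic Ec f → f ∈ Ec
  compositum : Subfield.closure ((Fc : Set Ω) ∪ Lc) = ⊤
  -- the coordinate
  x_mem : x ∈ Fc
  x_transcendental : Transcendental Lc x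
  finite : ∃ s : Finset Ω, (s : Set Ω) ⊆ Fc ∧
    ∀ f ∈ Fc, f ∈ Submodule.span (ratField Ec x) (s : Set Ω)
  -- the Gauss valuation ring `V` of `Fc`
  V_le : (V : Set Ω) ⊆ Fc
  V_total : ∀ f ∈ Fc, f ∈ V ∨ f⁻¹ ∈ V
  R_le_V : R ≤ V
  w_inv_not_mem_V : w⁻¹ ∉ V
  V_gen : ∀ f ∈ V, f⁻¹ ∉ V → f * w⁻¹ ∈ V
  x_mem_V : x ∈ V
  /-- `V` restricted to `E(x)` is the Gauss valuation: a polynomial in `x` over `R` with a unit
  coefficient is a unit of `V` (in particular `x` and `x⁻¹` lie in `V`). -/
  gauss : ∀ P : Polynomial Ω, (∀ i, P.coeff i ∈ R) → (∃ i, P.coeff i ≠ 0 ∧ (P.coeff i)⁻¹ ∈ R) →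
    (P.eval x)⁻¹ ∈ V
  /-- `q`-expansion principle on both charts: `b` integral over `R[x^{±1}]`, `b/w ∈ V`
  ⟹ `b/w` integral over `R[x^{±1}]`. -/
  qep_fin : ∀ b ∈ chart Fc R x, b * w⁻¹ ∈ V → b * w⁻¹ ∈ chart Fc R x
  qep_inf : ∀ b ∈ chart Fc R x⁻¹, b * w⁻¹ ∈ V → b * w⁻¹ ∈ chart Fc R x⁻¹
  /-- the residue field of `V` is separable over `κ(x̄)` (elementwise form) -/
  separable : ∀ f ∈ V, ∃ P : Polynomial Ω, (∀ i, P.coeff i ∈ polyRing R x) ∧
    P.eval f * w⁻¹ ∈ V ∧ (Polynomial.derivative P).eval f ≠ 0 ∧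
    ((Polynomial.derivative P).eval f)⁻¹ ∈ V
  -- branch values: in `R`, pairwise distinct mod `w`, the nonzero ones are units of `R`
  S_mem : ∀ s ∈ S, s ∈ R
  S_distinct : ∀ s ∈ S, ∀ t ∈ S, s ≠ t → (s - t)⁻¹ ∈ R
  S_unit : ∀ s ∈ S, s ≠ 0 → s⁻¹ ∈ R
  /-- over `Lc`: at a place where `x` takes a value `c ∉ S`, `x - c` is a uniformiser -/
  unramified : ∀ O : ValuationSubring Ω, (∀ a ∈ Lc, a ∈ O) → ∀ c ∈ Lc, c ∉ S →
    x - c ∈ O → (x - c)⁻¹ ∉ O → ∀ t ∈ O, t⁻¹ ∉ O → t * (x - c)⁻¹ ∈ O

/-- A model, as a tuple `(Ec, Fc, R, V, w)`. -/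
abbrev Model (Ω : Type*) [Field Ω] : Type _ :=
  Subfield Ω × Subfield Ω × Subring Ω × Subring Ω × Ω

/-- `p ≤ p'` for models: all four sub-objects grow (the uniformiser may change). -/
def Model.le (p p' : Model Ω) : Prop :=
  p.1 ≤ p'.1 ∧ p.2.1 ≤ p'.2.1 ∧ p.2.2.1 ≤ p'.2.2.1 ∧ p.2.2.2.1 ≤ p'.2.2.2.1

/-- A **directed family of good models** (v3): every member is a `GoodModel`, and every member can
be enlarged inside the family so that its constant field `Ec` contains any given finite set of
elements of `Lc`.  (In the application: all number fields `E ⊆ Q̄`.)  ALG may therefore assume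
that `Ec` contains `ζ_m`, the `x`-coordinates of the zeros and poles of `u`, the constants of
`Fc(u^{1/m})`, … by passing to a larger member. -/
structure GoodFamily (Lc : Subfield Ω) (x : Ω) (S : Finset Ω) (𝓕 : Set (Model Ω)) : Prop where
  good : ∀ p ∈ 𝓕, GoodModel Lc p.1 p.2.1 p.2.2.1 p.2.2.2.1 p.2.2.2.2 x S
  enlarge : ∀ p ∈ 𝓕, ∀ T : Finset Ω, (∀ a ∈ T, a ∈ Lc) →
    ∃ p' ∈ 𝓕, Model.le p p' ∧ ∀ a ∈ T, a ∈ p'.1

/-- **ALG main statement** (v4): for a directed family of good models, a member `p = (Ec,Fc,R,V,w)`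
and a function `u ∈ Fc` with `u ≡ 1 mod w` whose divisor (over `Lc`) is divisible by `m`
(`m` a PRIME number which is a unit of `R`): `u` is a constant times an `m`-th power in
`Ω = Fc·Lc`. -/
def AlgMainStatement (Lc : Subfield Ω) (x : Ω) (S : Finset Ω) (𝓕 : Set (Model Ω)) : Prop :=
  GoodFamily Lc x S 𝓕 →
    ∀ p ∈ 𝓕, ∀ m : ℕ, m.Prime → ((m : Ω))⁻¹ ∈ p.2.2.1 →
    ∀ u ∈ p.2.1, u ≠ 0 → (u - 1) * (p.2.2.2.2)⁻¹ ∈ p.2.2.2.1 →
      (∀ O : ValuationSubring Ω, (∀ a ∈ Lc, a ∈ O) →
        ∃ t : Ω, t ≠ 0 ∧ u * t ^ m ∈ O ∧ (u * t ^ m)⁻¹ ∈ O) →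
      ∃ y : Ω, ∃ c ∈ Lc, c ≠ 0 ∧ u = c * y ^ m

end Fermat.Agent.S18.Alg

end
-- ===== PACK-END S18/Alg/Spec.lean

-- ===== PACK-BEGIN S20/Comb/Orbits.lean
section








/-!
# Counting orbits of a cyclic group whose generator has prime order on a finite set

If `g ^ n` acts trivially on the finite set `X` and `n` is prime then
`n * #(X / ⟨g⟩) = #X + (n - 1) * #Fix(g)`.
-/

set_option autoImplicit false

namespace Fermat.Agent.S20.Comb

open MulAction Subgroup Function

variable {G X : Type*} [Group G] [MulAction G X]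

lemma card_eq_sum_minimalPeriod [Fintype X] (g : G)
    [Fintype (orbitRel.Quotient (zpowers g) X)] :
    Fintype.card X
      = ∑ q : orbitRel.Quotient (zpowers g) X, minimalPeriod (g • ·) q.out := by
  have (q : orbitRel.Quotient (zpowers g) X) :
      Fintype (MulAction.orbit (zpowers g) q.out) := Fintype.ofFinite _
  simp only [MulAction.minimalPeriod_eq_card]
  rw [← Fintype.card_sigma]
  exact Fintype.card_congr (MulAction.selfEquivSigmaOrbits (zpowers g) X)

lemma minimalPeriod_eq_of_prime (g : G) (n : ℕ) (hn : n.Prime) (hg : ∀ x : X, g ^ n • x = x)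
    (x : X) [Decidable (g • x = x)] :
    minimalPeriod (g • ·) x = if g • x = x then 1 else n := by
  have hper : IsPeriodicPt (g • ·) n x := by
    rw [IsPeriodicPt, IsFixedPt, smul_iterate]
    exact hg x
  have hdvd := hper.minimalPeriod_dvd
  rcases (Nat.dvd_prime hn).mp hdvd with h1 | h2
  · have hfix : g • x = x := minimalPeriod_eq_one_iff_isFixedPt.mp h1
    rw [h1, if_pos hfix]
  · have hfix : ¬ g • x = x := fun h => by
      have h1 : minimalPeriod (g • ·) x = 1 := minimalPeriod_eq_one_iff_isFixedPt.mpr h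
      rw [h2] at h1
      exact hn.one_lt.ne' h1
    rw [h2, if_neg hfix]

lemma smul_eq_of_mem_orbit_zpowers_of_fixed (g : G) (x y : X) (hx : g • x = x)
    (hy : y ∈ MulAction.orbit (zpowers g) x) : y = x := by
  obtain ⟨⟨h, hh⟩, rfl⟩ := hy
  obtain ⟨k, rfl⟩ := Subgroup.mem_zpowers_iff.mp hh
  exact fixedBy_subset_fixedBy_zpow X g k hx

/-- If `g ^ n` acts trivially on the finite set `X` (`n` prime), then
`n * #orbits = #X + (n - 1) * #Fix(g)`. -/
theorem prime_mul_card_orbits [Finite X] (g : G) (n : ℕ) (hn : n.Prime)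
    (hg : ∀ x : X, g ^ n • x = x) :
    n * Nat.card (orbitRel.Quotient (zpowers g) X)
      = Nat.card X + (n - 1) * Nat.card (fixedBy X g) := by
  classical
  haveI := Fintype.ofFinite X
  haveI : Fintype (orbitRel.Quotient (zpowers g) X) := Fintype.ofFinite _
  have h1 := card_eq_sum_minimalPeriod (X := X) g
  simp only [minimalPeriod_eq_of_prime g n hn hg] at h1
  rw [Finset.sum_ite, Finset.sum_const, Finset.sum_const, smul_eq_mul, mul_one,
    smul_eq_mul] at h1
  have h2 : (Finset.univ.filter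
      (fun q : orbitRel.Quotient (zpowers g) X => g • q.out = q.out)).card
        = Nat.card (fixedBy X g) := by
    rw [← Fintype.card_subtype, ← Nat.card_eq_fintype_card]
    refine Nat.card_eq_of_bijective
      (fun q : {q : orbitRel.Quotient (zpowers g) X // g • q.out = q.out} =>
        (⟨q.1.out, q.2⟩ : fixedBy X g)) ⟨?_, ?_⟩
    · intro q q' h
      have h' : q.1.out = q'.1.out := congrArg Subtype.val h
      exact Subtype.ext (Quotient.out_injective h')
    · rintro ⟨x, hx⟩
      have hx' : g • x = x := hx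
      have hout : (Quotient.mk'' x : orbitRel.Quotient (zpowers g) X).out = x := by
        apply smul_eq_of_mem_orbit_zpowers_of_fixed g x _ hx'
        have := Quotient.exact (Quotient.out_eq (Quotient.mk'' x : orbitRel.Quotient (zpowers g) X))
        exact (MulAction.orbitRel_apply).mp this
      refine ⟨⟨Quotient.mk'' x, ?_⟩, ?_⟩
      · rw [hout]; exact hx'
      · exact Subtype.ext hout
  have h3 := Finset.card_filter_add_card_filter_not (s := (Finset.univ :
      Finset (orbitRel.Quotient (zpowers g) X)))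
      (fun q : orbitRel.Quotient (zpowers g) X => g • q.out = q.out)
  rw [Finset.card_univ] at h3
  rw [Nat.card_eq_fintype_card, Nat.card_eq_fintype_card, ← h3, h1, ← h2]
  obtain ⟨m, rfl⟩ : ∃ m, n = m + 1 := ⟨n - 1, (Nat.succ_pred_eq_of_pos hn.pos).symm⟩
  simp only [Nat.add_sub_cancel]
  ring

end Fermat.Agent.S20.Comb

end
-- ===== PACK-END S20/Comb/Orbits.lean

-- ===== PACK-BEGIN S18/H504/ValDvr.lean
section



/-!
# S18 — every nontrivial valuation ring of a function field is discrete (char-free)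

`F/K` a field extension, `O` a valuation subring of `F` containing `K`, `u ∈ O` a non-unit,
`u ≠ 0`, with `F` finite over `K(u)`.  Then `O` is a principal ideal ring, hence a `Place K F`.
No hypothesis on the characteristic, no separability, `K` arbitrary.

Main results:
* `isPrincipalIdealRing_of_finite` : `IsPrincipalIdealRing O`;
* `placeOfValuationSubring` : the `Place K F` with valuation ring `O`.
-/

set_option autoImplicit false

namespace Fermat.Agent.S18.H504

open AlgebraicCurve IntermediateField Polynomial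

variable {K F : Type*} [Field K] [Field F] [Algebra K F]

/-- If a finite sum vanishes and some term is nonzero, the maximal valuation is attained by two
distinct (nonzero) terms. -/
theorem exists_ne_valuation_eq {Γ₀ : Type*} [LinearOrderedCommGroupWithZero Γ₀]
    (v : Valuation F Γ₀) {ι : Type*} [DecidableEq ι] (s : Finset ι) (a : ι → F)
    (hsum : ∑ i ∈ s, a i = 0) (hne : ∃ i ∈ s, a i ≠ 0) :
    ∃ i ∈ s, ∃ j ∈ s, i ≠ j ∧ a i ≠ 0 ∧ a j ≠ 0 ∧ v (a i) = v (a j) := by
  obtain ⟨i₁, hi₁, hai₁⟩ := hne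
  obtain ⟨i₀, hi₀, hmax⟩ := Finset.exists_max_image s (fun i => v (a i)) ⟨i₁, hi₁⟩
  have hv0 : v (a i₀) ≠ 0 := by
    intro h0
    have := hmax i₁ hi₁
    rw [h0] at this
    exact hai₁ ((v.zero_iff).mp (le_antisymm this zero_le))
  have hai₀ : a i₀ ≠ 0 := fun h => hv0 (by rw [h, map_zero])
  by_contra hcon
  push Not at hcon
  have hlt : ∀ i ∈ s \ {i₀}, v (a i) < v (a i₀) := by
    intro i hi
    rw [Finset.mem_sdiff, Finset.mem_singleton] at hi
    refine lt_of_le_of_ne (hmax i hi.1) ?_
    intro heq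
    have hai : a i ≠ 0 := fun h => hv0 (by rw [← heq, h, map_zero])
    exact hcon i₀ hi₀ i hi.1 (Ne.symm hi.2) hai₀ hai heq.symm
  have := v.map_sum_eq_of_lt hi₀ hlt
  rw [hsum, map_zero] at this
  exact hv0 this.symm

section

variable (O : ValuationSubring F) (hK : ∀ a : K, algebraMap K F a ∈ O)

include hK in
theorem valuation_algebraMap {c : K} (hc : c ≠ 0) : O.valuation (algebraMap K F c) = 1 := by
  have h1 : O.valuation (algebraMap K F c) ≤ 1 := (O.valuation_le_one_iff _).mpr (hK c)
  have h2 : O.valuation (algebraMap K F c⁻¹) ≤ 1 := (O.valuation_le_one_iff _).mpr (hK c⁻¹)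
  rw [map_inv₀, map_inv₀] at h2
  have hne : O.valuation (algebraMap K F c) ≠ 0 :=
    (Valuation.ne_zero_iff _).mpr (by simpa using hc)
  exact le_antisymm h1 ((inv_le_one₀ (zero_lt_iff.mpr hne)).mp h2)

include hK in
theorem aeval_mem {u : F} (hu : u ∈ O) (p : K[X]) : aeval u p ∈ O := by
  rw [aeval_eq_sum_range]
  refine Subring.sum_mem O.toSubring fun i _ => ?_
  rw [Algebra.smul_def]
  exact O.mul_mem _ _ (hK _) (pow_mem hu i)

include hK in
theorem valuation_aeval_of_coeff_zero_ne {u : F} (hu : u ∈ O) (hu' : u⁻¹ ∉ O) (q : K[X])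
    (hq : q.coeff 0 ≠ 0) : O.valuation (aeval u q) = 1 := by
  have hdecomp : aeval u q = aeval u q.divX * u + algebraMap K F (q.coeff 0) := by
    conv_lhs => rw [← divX_mul_X_add q]
    simp only [map_add, map_mul, aeval_X, aeval_C]
  have hu1 : O.valuation u < 1 := by
    have h1 : O.valuation u ≤ 1 := (O.valuation_le_one_iff _).mpr hu
    refine lt_of_le_of_ne h1 fun h => hu' ?_
    rw [← O.valuation_le_one_iff, map_inv₀, h, inv_one]
  have h2 : O.valuation (aeval u q.divX * u) < 1 := by
    rw [map_mul]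
    have h3 : O.valuation (aeval u q.divX) ≤ 1 := (O.valuation_le_one_iff _).mpr (aeval_mem O hK hu _)
    calc O.valuation (aeval u q.divX) * O.valuation u ≤ 1 * O.valuation u :=
          mul_le_mul_left (α := O.ValueGroup) h3 _
      _ < 1 := by rwa [one_mul]
  rw [hdecomp, Valuation.map_add_eq_of_lt_right _ (by rwa [valuation_algebraMap O hK hq]),
    valuation_algebraMap O hK hq]

include hK in
theorem valuation_aeval {u : F} (hu : u ∈ O) (hu' : u⁻¹ ∉ O) (p : K[X]) (hp : p ≠ 0) :
    O.valuation (aeval u p) = O.valuation u ^ p.rootMultiplicity 0 := by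
  obtain ⟨q, hpq, hq⟩ := exists_eq_pow_rootMultiplicity_mul_and_not_dvd p hp 0
  have hq0 : q.coeff 0 ≠ 0 := by
    intro h
    apply hq
    rw [C_0, sub_zero]
    exact X_dvd_iff.mpr h
  conv_lhs => rw [hpq]
  rw [map_mul, map_pow, C_0, sub_zero, aeval_X, map_mul, map_pow,
    valuation_aeval_of_coeff_zero_ne O hK hu hu' q hq0, mul_one]

include hK in
/-- On `K(u)` the valuation is a power of the valuation of `u`. -/
theorem exists_zpow_of_mem_adjoin {u : F} (hu : u ∈ O) (hu' : u⁻¹ ∉ O) {g : F}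
    (hg : g ∈ K⟮u⟯) (hg0 : g ≠ 0) : ∃ a : ℤ, O.valuation g = O.valuation u ^ a := by
  obtain ⟨r, s, rfl⟩ := (mem_adjoin_simple_iff K g).mp hg
  have hr : r ≠ 0 := by
    rintro rfl
    simp at hg0
  have hs : s ≠ 0 := by
    rintro rfl
    simp at hg0
  refine ⟨(r.rootMultiplicity 0 : ℤ) - s.rootMultiplicity 0, ?_⟩
  have hu0 : O.valuation u ≠ 0 := by
    rw [Valuation.ne_zero_iff]
    rintro rfl
    exact hu' (by simp)
  rw [map_div₀, valuation_aeval O hK hu hu' r hr, valuation_aeval O hK hu hu' s hs,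
    zpow_sub₀ hu0, zpow_natCast, zpow_natCast]

include hK in
/-- Some positive power `≤ [F : K(u)]` of the valuation of any `f ≠ 0` is a power of the
valuation of `u`. -/
theorem exists_pow_eq_zpow {u : F} (hu : u ∈ O) (hu' : u⁻¹ ∉ O) [FiniteDimensional K⟮u⟯ F]
    {f : F} (hf : f ≠ 0) :
    ∃ d : ℕ, 0 < d ∧ d ≤ Module.finrank K⟮u⟯ F ∧
      ∃ a : ℤ, O.valuation f ^ d = O.valuation u ^ a := by
  classical
  set n := Module.finrank K⟮u⟯ F with hn
  have hdep : ¬ LinearIndependent K⟮u⟯ (fun i : Fin (n + 1) => f ^ (i : ℕ)) := by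
    intro hli
    have := hli.fintype_card_le_finrank
    rw [Fintype.card_fin] at this
    omega
  obtain ⟨c, hsum, i₁, hi₁⟩ := Fintype.not_linearIndependent_iff.mp hdep
  have hne : ∃ i ∈ (Finset.univ : Finset (Fin (n + 1))), c i • f ^ (i : ℕ) ≠ 0 := by
    refine ⟨i₁, Finset.mem_univ _, ?_⟩
    rw [Algebra.smul_def]
    exact mul_ne_zero (by simpa using hi₁) (pow_ne_zero _ hf)
  obtain ⟨i, -, j, -, hij, hai, haj, hval⟩ :=
    exists_ne_valuation_eq O.valuation Finset.univ (fun i => c i • f ^ (i : ℕ)) hsum hne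
  have hci : c i ≠ 0 := fun h => hai (by simp [h])
  have hcj : c j ≠ 0 := fun h => haj (by simp [h])
  obtain ⟨ai, hvi⟩ := exists_zpow_of_mem_adjoin O hK hu hu' (c i).2 (by simpa using hci)
  obtain ⟨aj, hvj⟩ := exists_zpow_of_mem_adjoin O hK hu hu' (c j).2 (by simpa using hcj)
  have hu0 : O.valuation u ≠ 0 := by
    rw [Valuation.ne_zero_iff]
    rintro rfl
    exact hu' (by simp)
  have hf0 : O.valuation f ≠ 0 := (Valuation.ne_zero_iff _).mpr hf
  simp only [Algebra.smul_def, map_mul, map_pow] at hval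
  have hvi' : O.valuation (algebraMap K⟮u⟯ F (c i)) = O.valuation u ^ ai := hvi
  have hvj' : O.valuation (algebraMap K⟮u⟯ F (c j)) = O.valuation u ^ aj := hvj
  rw [hvi', hvj'] at hval
  -- wlog i < j
  have key : ∀ (i j : ℕ) (ai aj : ℤ), i < j → j ≤ n →
      O.valuation u ^ ai * O.valuation f ^ i = O.valuation u ^ aj * O.valuation f ^ j →
      ∃ d : ℕ, 0 < d ∧ d ≤ n ∧ ∃ a : ℤ, O.valuation f ^ d = O.valuation u ^ a := by
    intro i j ai aj hlt hjn h
    refine ⟨j - i, by omega, by omega, ai - aj, ?_⟩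
    have hj : j = (j - i) + i := by omega
    rw [hj, pow_add] at h
    have hfi : O.valuation f ^ i ≠ 0 := pow_ne_zero _ hf0
    have h2 : O.valuation u ^ ai = O.valuation u ^ aj * O.valuation f ^ (j - i) :=
      mul_right_cancel₀ hfi (h.trans (mul_assoc _ _ _).symm)
    have huaj : O.valuation u ^ aj ≠ 0 := zpow_ne_zero _ hu0
    rw [zpow_sub₀ hu0, h2, mul_comm (O.valuation u ^ aj), mul_div_assoc, div_self huaj, mul_one]
  have hi_le : (i : ℕ) ≤ n := Nat.lt_succ_iff.mp i.2
  have hj_le : (j : ℕ) ≤ n := Nat.lt_succ_iff.mp j.2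
  rcases lt_or_gt_of_ne (fun h => hij (Fin.ext h) : (i : ℕ) ≠ j) with h | h
  · exact key i j ai aj h hj_le hval
  · exact key j i aj ai h hi_le hval.symm

include hK in
theorem exists_factorial_pow_eq_zpow {u : F} (hu : u ∈ O) (hu' : u⁻¹ ∉ O)
    [FiniteDimensional K⟮u⟯ F] {f : F} (hf : f ≠ 0) :
    ∃ a : ℤ, O.valuation f ^ (Module.finrank K⟮u⟯ F).factorial = O.valuation u ^ a := by
  obtain ⟨d, hd0, hdn, a, h⟩ := exists_pow_eq_zpow O hK hu hu' hf
  obtain ⟨k, hk⟩ := Nat.dvd_factorial hd0 hdn
  refine ⟨a * k, ?_⟩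
  rw [hk, pow_mul, h, zpow_mul, zpow_natCast]

include hK in
/-- **Discreteness.** A valuation ring of `F` containing `K`, with a nonzero non-unit `u` such
that `F` is finite over `K(u)`, is a principal ideal ring. -/
theorem isPrincipalIdealRing_of_finite {u : F} (hu : u ∈ O) (hu' : u⁻¹ ∉ O)
    [FiniteDimensional K⟮u⟯ F] : IsPrincipalIdealRing O := by
  classical
  set M := (Module.finrank K⟮u⟯ F).factorial with hM
  have hM0 : M ≠ 0 := Nat.factorial_ne_zero _
  have hu0 : u ≠ 0 := by
    rintro rfl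
    exact hu' (by simp)
  have hγ0 : O.valuation u ≠ 0 := (Valuation.ne_zero_iff _).mpr hu0
  have hγ1 : O.valuation u < 1 := by
    have h1 : O.valuation u ≤ 1 := (O.valuation_le_one_iff _).mpr hu
    refine lt_of_le_of_ne h1 fun h => hu' ?_
    rw [← O.valuation_le_one_iff, map_inv₀, h, inv_one]
  -- integral elements have natural exponents
  have hnat : ∀ b : F, b ∈ O → b ≠ 0 → ∃ k : ℕ, O.valuation b ^ M = O.valuation u ^ k := by
    intro b hb hb0
    obtain ⟨a, ha⟩ := exists_factorial_pow_eq_zpow O hK hu hu' hb0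
    rw [← hM] at ha
    have hle : O.valuation b ^ M ≤ 1 := pow_le_one₀ zero_le ((O.valuation_le_one_iff _).mpr hb)
    rcases le_or_gt 0 a with h0 | h0
    · refine ⟨a.toNat, ?_⟩
      rw [ha, ← zpow_natCast, Int.toNat_of_nonneg h0]
    · exfalso
      rw [ha] at hle
      have h1 : O.valuation u ^ a = (O.valuation u ^ (-a).toNat)⁻¹ := by
        rw [← zpow_natCast, Int.toNat_of_nonneg (by omega), zpow_neg, inv_inv]
      have h2 : O.valuation u ^ (-a).toNat < 1 :=
        pow_lt_one₀ zero_le hγ1 (by omega)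
      have h3 : 1 < (O.valuation u ^ (-a).toNat)⁻¹ :=
        (one_lt_inv₀ (zero_lt_iff.mpr (pow_ne_zero _ hγ0))).mpr h2
      rw [h1] at hle
      exact absurd hle (not_le.mpr h3)
  refine ⟨fun I => ?_⟩
  by_cases hI : I = ⊥
  · rw [hI]; exact bot_isPrincipal
  have hex : ∃ k : ℕ, ∃ a ∈ I, a ≠ 0 ∧ O.valuation (a : F) ^ M = O.valuation u ^ k := by
    obtain ⟨a, haI, ha0⟩ := Submodule.exists_mem_ne_zero_of_ne_bot hI
    obtain ⟨k, hk⟩ := hnat a a.2 (by simpa using ha0)
    exact ⟨k, a, haI, ha0, hk⟩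
  obtain ⟨a, haI, ha0, hak⟩ := Nat.find_spec hex
  refine ⟨⟨a, ?_⟩⟩
  apply le_antisymm
  · intro b hb
    rw [Submodule.mem_span_singleton]
    rcases eq_or_ne b 0 with rfl | hb0
    · exact ⟨0, by simp⟩
    have haF : (a : F) ≠ 0 := by simpa using ha0
    have hbF : (b : F) ≠ 0 := by simpa using hb0
    obtain ⟨kb, hkb⟩ := hnat b b.2 hbF
    have hmin : Nat.find hex ≤ kb := Nat.find_min' hex ⟨b, hb, hb0, hkb⟩
    have hle : O.valuation (b : F) ^ M ≤ O.valuation (a : F) ^ M := by
      rw [hkb, hak]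
      exact pow_le_pow_of_le_one zero_le hγ1.le hmin
    have hle' : O.valuation (b : F) ≤ O.valuation (a : F) :=
      (pow_le_pow_iff_left₀ zero_le zero_le hM0).mp hle
    have hq : (b : F) / (a : F) ∈ O := by
      rw [← O.valuation_le_one_iff, map_div₀]
      exact (div_le_one₀ (zero_lt_iff.mpr ((Valuation.ne_zero_iff _).mpr haF))).mpr hle'
    refine ⟨⟨_, hq⟩, ?_⟩
    ext
    simp only [smul_eq_mul, MulMemClass.coe_mul]
    field_simp
  · rw [Submodule.span_le]
    simpa using haI

theorem ne_top_of_not_mem {u : F} (hu' : u⁻¹ ∉ O) : O ≠ ⊤ :=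
  fun h => hu' (h ▸ ValuationSubring.mem_top _)

/-- The place of `F/K` defined by a valuation ring with a non-unit `u`, `[F : K(u)] < ∞`. -/
noncomputable def placeOfValuationSubring {u : F} (hu : u ∈ O) (hu' : u⁻¹ ∉ O)
    [FiniteDimensional K⟮u⟯ F] : Place K F where
  toValuationSubring := O
  algebraMap_mem' := hK
  ne_top' := fun h => hu' (h ▸ ValuationSubring.mem_top _)
  isPrincipalIdealRing' := isPrincipalIdealRing_of_finite O hK hu hu'

@[simp]
theorem placeOfValuationSubring_toValuationSubring {u : F} (hu : u ∈ O) (hu' : u⁻¹ ∉ O)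
    [FiniteDimensional K⟮u⟯ F] :
    (placeOfValuationSubring O hK hu hu').toValuationSubring = O := rfl

end

end Fermat.Agent.S18.H504

end
-- ===== PACK-END S18/H504/ValDvr.lean

-- ===== PACK-BEGIN S18/H438/Front/Chart.lean
section


/-!
# S18 / ALG-FRONT (helper438), part 1: the chart algebra `B = integral closure of R[z] in F`

Setting: `F` a field of characteristic `0`, `R : Subring F` a discrete valuation ring,
`z : F` transcendental over `R`, `F` finite over `Frac (R[z])`.

* `baseRing R z   := Algebra.adjoin R {z}`           (`R[z] ⊆ F`, isomorphic to `R[X]`)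
* `chartRing R z  := integralClosure (R[z]) F`      (the chart `B`)

All instances needed by the Kummer pieces (`H754/KummerSpec.lean`) are provided:
`IsNoetherianRing B`, `IsIntegrallyClosed B`, `IsFractionRing B F`, `Module.Finite R[z] B`.
-/

set_option autoImplicit false
set_option linter.style.haveILetI false
set_option linter.unusedSectionVars false

noncomputable section

namespace Fermat.Agent.S18.H438

open Polynomial

variable {F : Type*} [Field F]

/-- The base ring `R[z] ⊆ F`. -/
abbrev baseRing (R : Subring F) (z : F) : Subalgebra R F := Algebra.adjoin R {z}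

/-- The chart: the integral closure of `R[z]` in `F`. -/
abbrev chartRing (R : Subring F) (z : F) : Subalgebra (baseRing R z) F :=
  integralClosure (baseRing R z) F

variable (R : Subring F) (z : F)

theorem self_mem_baseRing : z ∈ baseRing R z := Algebra.self_mem_adjoin_singleton R z

theorem coe_mem_baseRing (r : R) : (r : F) ∈ baseRing R z := (baseRing R z).algebraMap_mem r

/-- `R[X] ≃ R[z]` for transcendental `z`. -/
def baseEquiv (hz : Transcendental R z) : Polynomial R ≃ₐ[R] baseRing R z :=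
  Polynomial.algEquivOfTranscendental R z hz

theorem baseEquiv_apply_coe (hz : Transcendental R z) (f : Polynomial R) :
    ((baseEquiv R z hz f : baseRing R z) : F) = Polynomial.aeval z f := by
  unfold baseEquiv
  rw [Polynomial.algEquivOfTranscendental_apply]
  have : (Polynomial.aeval (⟨z, Algebra.self_mem_adjoin_singleton R z⟩ : baseRing R z) f : F) =
      (baseRing R z).val (Polynomial.aeval (⟨z, Algebra.self_mem_adjoin_singleton R z⟩ :
        baseRing R z) f) := rfl
  rw [this, ← Polynomial.aeval_algHom_apply]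
  rfl

theorem baseRing_isNoetherianRing (hz : Transcendental R z) [IsNoetherianRing R] :
    IsNoetherianRing (baseRing R z) :=
  isNoetherianRing_of_ringEquiv (Polynomial R) (baseEquiv R z hz).toRingEquiv

theorem baseRing_isIntegrallyClosed (hz : Transcendental R z) [IsIntegrallyClosed (Polynomial R)] :
    IsIntegrallyClosed (baseRing R z) :=
  IsIntegrallyClosed.of_equiv (baseEquiv R z hz).toRingEquiv

/-- Every element of `R[z]` is a polynomial in `z`. -/
theorem exists_aeval_eq_of_mem_baseRing {f : F} (hf : f ∈ baseRing R z) :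
    ∃ P : Polynomial R, Polynomial.aeval z P = f :=
  (Algebra.adjoin_mem_exists_aeval R z hf)

section Instances

attribute [local instance] FractionRing.liftAlgebra

variable [CharZero F]

/-- The fraction field of `R[z]` is of characteristic zero. -/
theorem charZero_fractionRing_baseRing : CharZero (FractionRing (baseRing R z)) := by
  have : CharZero (baseRing R z) := RingHom.charZero (algebraMap (baseRing R z) F)
  exact charZero_of_injective_algebraMap
    (IsFractionRing.injective (baseRing R z) (FractionRing (baseRing R z)))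

variable [hfin : FiniteDimensional (FractionRing (baseRing R z)) F]

theorem chartRing_isFractionRing : IsFractionRing (chartRing R z) F :=
  integralClosure.isFractionRing_of_finite_extension (FractionRing (baseRing R z)) F

theorem chartRing_isIntegrallyClosed : IsIntegrallyClosed (chartRing R z) :=
  integralClosure.isIntegrallyClosedOfFiniteExtension (FractionRing (baseRing R z))

theorem isSeparable_fractionRing_baseRing :
    Algebra.IsSeparable (FractionRing (baseRing R z)) F := by
  haveI := charZero_fractionRing_baseRing R z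
  exact Algebra.IsAlgebraic.isSeparable_of_perfectField

variable [IsDiscreteValuationRing R]

theorem chartRing_isNoetherianRing (hz : Transcendental R z) :
    IsNoetherianRing (chartRing R z) := by
  haveI := baseRing_isNoetherianRing R z hz
  haveI := baseRing_isIntegrallyClosed R z hz
  haveI := isSeparable_fractionRing_baseRing R z
  exact integralClosure.isNoetherianRing (K := FractionRing (baseRing R z)) F

theorem chartRing_finite (hz : Transcendental R z) :
    Module.Finite (baseRing R z) (chartRing R z) := by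
  haveI := baseRing_isNoetherianRing R z hz
  haveI := baseRing_isIntegrallyClosed R z hz
  haveI := isSeparable_fractionRing_baseRing R z
  exact IsIntegralClosure.finite (baseRing R z) (FractionRing (baseRing R z)) F (chartRing R z)

end Instances

end Fermat.Agent.S18.H438

end
end
-- ===== PACK-END S18/H438/Front/Chart.lean

-- ===== PACK-BEGIN S18/H438/Front/HeightOne.lean
section


/-!
# S18 / ALG-FRONT (helper438), part 3a: localisation at a height-one prime is a DVR

`B` a Noetherian integrally closed domain with fraction field `F`, `𝔭` a prime of height one.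
Then `B_𝔭 ⊆ F` is a discrete valuation ring, realised as a `ValuationSubring F`:

    exists_dvr_of_height_one :
      ∃ W : ValuationSubring F, IsDiscreteValuationRing W ∧
        ∀ f : F, f ∈ W ↔ ∃ a s : B, s ∉ 𝔭 ∧ f * algebraMap B F s = algebraMap B F a
-/

set_option autoImplicit false
set_option linter.style.haveILetI false
set_option linter.unusedSectionVars false

noncomputable section

namespace Fermat.Agent.S18.H438

open IsLocalRing

variable {B F : Type*} [CommRing B] [IsDomain B] [Field F] [Algebra B F] [IsFractionRing B F]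

/-- Membership in the localisation `B_𝔭 ⊆ F`. -/
theorem mem_ofField_primeCompl_iff (𝔭 : Ideal B) [𝔭.IsPrime] (f : F) :
    f ∈ Localization.subalgebra.ofField F 𝔭.primeCompl 𝔭.primeCompl_le_nonZeroDivisors ↔
      ∃ a s : B, s ∉ 𝔭 ∧ f * algebraMap B F s = algebraMap B F a := by
  constructor
  · rintro ⟨a, s, hs, rfl⟩
    refine ⟨a, s, hs, ?_⟩
    have hs0 : algebraMap B F s ≠ 0 := by
      intro h
      have : s = 0 := (FaithfulSMul.algebraMap_injective B F) (by rw [h, map_zero])
      exact hs (this ▸ 𝔭.zero_mem)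
    field_simp
  · rintro ⟨a, s, hs, h⟩
    refine ⟨a, s, hs, ?_⟩
    have hs0 : algebraMap B F s ≠ 0 := by
      intro h
      have : s = 0 := (FaithfulSMul.algebraMap_injective B F) (by rw [h, map_zero])
      exact hs (this ▸ 𝔭.zero_mem)
    rw [← h]
    field_simp

variable [IsNoetherianRing B] [IsIntegrallyClosed B]

/-- **Localisation at a height-one prime of a Noetherian normal domain is a DVR.** -/
theorem isDiscreteValuationRing_ofField_of_height_one (𝔭 : Ideal B) [h𝔭 : 𝔭.IsPrime]
    (h : 𝔭.height = 1) :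
    IsDiscreteValuationRing
      (Localization.subalgebra.ofField F 𝔭.primeCompl 𝔭.primeCompl_le_nonZeroDivisors) := by
  set A := Localization.subalgebra.ofField F 𝔭.primeCompl 𝔭.primeCompl_le_nonZeroDivisors with hA
  haveI hloc : IsLocalization.AtPrime A 𝔭 :=
    Localization.subalgebra.isLocalization_ofField F 𝔭.primeCompl 𝔭.primeCompl_le_nonZeroDivisors
  haveI : IsLocalRing A := IsLocalization.AtPrime.isLocalRing A 𝔭
  haveI : IsNoetherianRing A := IsLocalization.isNoetherianRing 𝔭.primeCompl A inferInstance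
  haveI : IsIntegrallyClosed A :=
    isIntegrallyClosed_of_isLocalization A 𝔭.primeCompl 𝔭.primeCompl_le_nonZeroDivisors
  have h𝔭bot : 𝔭 ≠ ⊥ := Ideal.ne_bot_of_height_eq_one h
  have hfin : 𝔭.FiniteHeight := by simp [𝔭.finiteHeight_iff, h]
  -- the maximal ideal is the extension of `𝔭`
  have hmax : maximalIdeal A = 𝔭.map (algebraMap B A) :=
    (IsLocalization.AtPrime.map_eq_maximalIdeal 𝔭 A).symm
  -- `A` is not a field
  have hnf : ¬ IsField A := by
    rw [isField_iff_maximalIdeal_eq]
    intro hbot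
    obtain ⟨x, hx, hx0⟩ := Submodule.exists_mem_ne_zero_of_ne_bot h𝔭bot
    have hxmem : algebraMap B A x ∈ maximalIdeal A := by
      rw [hmax]; exact Ideal.mem_map_of_mem _ hx
    rw [hbot, Ideal.mem_bot] at hxmem
    have hinj : Function.Injective (algebraMap B A) :=
      IsLocalization.injective A 𝔭.primeCompl_le_nonZeroDivisors
    exact hx0 (hinj (by rw [hxmem, map_zero]))
  -- every nonzero prime is the maximal ideal
  have huniq : ∀ P : Ideal A, P ≠ ⊥ → P.IsPrime → P = maximalIdeal A := by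
    intro P hP hPprime
    have hP' : (P.comap (algebraMap B A)).IsPrime := Ideal.comap_isPrime _ _
    have hmapcomap : (P.comap (algebraMap B A)).map (algebraMap B A) = P :=
      IsLocalization.map_under 𝔭.primeCompl A P
    have hle : P.comap (algebraMap B A) ≤ 𝔭 := by
      have hdisj : Disjoint (𝔭.primeCompl : Set B) (P.comap (algebraMap B A) : Set B) :=
        ((IsLocalization.isPrime_iff_isPrime_disjoint 𝔭.primeCompl A P).1 hPprime).2
      intro x hx
      by_contra hx𝔭
      exact Set.disjoint_left.1 hdisj hx𝔭 hx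
    have hne : P.comap (algebraMap B A) ≠ ⊥ := by
      intro h0
      apply hP
      rw [← hmapcomap, h0, Ideal.map_bot]
    have hfin' : (P.comap (algebraMap B A)).FiniteHeight :=
      Ideal.finiteHeight_of_le hle h𝔭.ne_top
    have h1 : 𝔭.height ≤ (P.comap (algebraMap B A)).height := by
      rw [h]
      rw [Order.one_le_iff_pos, pos_iff_ne_zero, Ne, Ideal.height_eq_zero_iff_eq_bot]
      exact hne
    have heq : P.comap (algebraMap B A) = 𝔭 := Ideal.eq_of_le_of_height_le (h := hle) (h_height := h1)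
    rw [hmax, ← heq, hmapcomap]
  have htfae := (IsDiscreteValuationRing.TFAE A hnf).out 0 3
  rw [htfae]
  refine ⟨inferInstance, maximalIdeal A, ⟨?_, inferInstance⟩, ?_⟩
  · exact isField_iff_maximalIdeal_eq.not.1 hnf
  · rintro P ⟨hP, hPprime⟩
    exact huniq P hP hPprime

/-- **`B_𝔭` as a discrete valuation subring of `F`.** -/
theorem exists_dvr_of_height_one (𝔭 : Ideal B) [h𝔭 : 𝔭.IsPrime] (h : 𝔭.height = 1) :
    ∃ W : ValuationSubring F, IsDiscreteValuationRing W ∧
      ∀ f : F, f ∈ W ↔ ∃ a s : B, s ∉ 𝔭 ∧ f * algebraMap B F s = algebraMap B F a := by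
  set A := Localization.subalgebra.ofField F 𝔭.primeCompl 𝔭.primeCompl_le_nonZeroDivisors with hA
  haveI hdvr : IsDiscreteValuationRing A := isDiscreteValuationRing_ofField_of_height_one 𝔭 h
  have hval : ∀ f : F, f ∈ A ∨ f⁻¹ ∈ A := by
    intro f
    rcases ValuationRing.isInteger_or_isInteger A f with ⟨a, ha⟩ | ⟨a, ha⟩
    · left; rw [← ha]; exact a.2
    · right; rw [← ha]; exact a.2
  let W : ValuationSubring F := { A.toSubring with mem_or_inv_mem' := hval }
  have hWA : ∀ f : F, f ∈ W ↔ f ∈ A := fun f => Iff.rfl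
  refine ⟨W, ?_, fun f => ?_⟩
  · -- transfer along the identity
    let e : A ≃+* W :=
      { toFun := fun a => ⟨a.1, (hWA _).2 a.2⟩
        invFun := fun b => ⟨b.1, (hWA _).1 b.2⟩
        left_inv := fun _ => rfl
        right_inv := fun _ => rfl
        map_mul' := fun _ _ => rfl
        map_add' := fun _ _ => rfl }
    exact IsDiscreteValuationRing.RingEquivClass.isDiscreteValuationRing e
  · rw [hWA]
    exact mem_ofField_primeCompl_iff 𝔭 f

end Fermat.Agent.S18.H438

end
end
-- ===== PACK-END S18/H438/Front/HeightOne.lean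

-- ===== PACK-BEGIN S18/H393/LocalFree.lean
section


/-!
# S18 / Route K / piece b1 (helper393): local freeness of the normal model

Mathlib-only commutative algebra.

Setting: `Λ` an integrally closed domain with fraction field `K` (application: `Λ = R[x]`,
`R` a DVR with uniformiser `w`), `w ∈ Λ` a prime element, `F / K` a finite separable field
extension, `B` = the integral closure of `Λ` in `F` (elements of `F` integral over `Λ`).

* `isIntegral_of_isIntegral_mul'` : (b1.a, the "regular sequence" lemma)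
  if `w` is prime, `¬ w ∣ t`, and both `w * f` and `t * f` are integral over `Λ`, then so is `f`.
* `mem_smul_top_of_smul_mem` : the same inside `B`: `t • β ∈ w B`, `¬ w ∣ t` imply `β ∈ w B`
  (`B / w B` is torsion-free over `Λ / w`; `(w, t)` is a regular sequence on `B`).
* `exists_basis_mod` : (b1 / b2.1, local freeness) if moreover `Λ` is noetherian and `Λ / w` is a
  PID, there is `b : Fin [F : K] → F`, integral, `K`-linearly independent, with
  `ρ B ⊆ ∑ Λ bᵢ` for some `ρ ≡ 1 mod w`, and `∑ cᵢ bᵢ ∈ w B → w ∣ cᵢ`.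
  So `B` is free with basis `b` over the localisation of `Λ` at `1 + wΛ`, `B / w B` is free over
  `Λ / w` with basis `b mod w`, and `B ⊗ Λ_𝔭` is free with basis `b` for every prime `𝔭`
  of `Λ` with `ρ ∉ 𝔭` (e.g. `𝔭 = (x - c)`, `c` integral, in the application).
-/

set_option autoImplicit false

namespace Fermat.Agent.S18.H393

open Polynomial

section RegularSequence

variable {Λ : Type*} (K : Type*) {F : Type*} [CommRing Λ] [IsDomain Λ]
  [Field K] [Algebra Λ K] [IsFractionRing Λ K]
  [Field F] [Algebra K F] [Algebra Λ F] [IsScalarTower Λ K F]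

/-- If `c • f` is integral over the integrally closed domain `Λ` (`c ≠ 0`), the minimal
polynomial of `f` over `K`, with roots scaled by `c`, has coefficients in `Λ`. -/
theorem coeff_minpoly_mul_pow_mem [IsIntegrallyClosed Λ] {c : Λ} (hc : c ≠ 0) {f : F}
    (hcf : IsIntegral Λ (algebraMap Λ F c * f)) (i : ℕ) :
    ∃ a : Λ, algebraMap Λ K a =
      (minpoly K f).coeff i * algebraMap Λ K c ^ ((minpoly K f).natDegree - i) := by
  have hcK : algebraMap Λ K c ≠ 0 := by
    simpa using (IsFractionRing.injective Λ K).ne hc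
  have hcfK : IsIntegral K (algebraMap Λ F c * f) := hcf.tower_top
  have hmul : algebraMap Λ F c * f = algebraMap K F (algebraMap Λ K c) * f := by
    rw [← IsScalarTower.algebraMap_apply]
  have hfK : IsIntegral K f := by
    have h1 : IsIntegral K (algebraMap K F (algebraMap Λ K c)⁻¹ * (algebraMap Λ F c * f)) :=
      (isIntegral_algebraMap).mul hcfK
    have h2 : algebraMap K F (algebraMap Λ K c)⁻¹ * (algebraMap Λ F c * f) = f := by
      rw [hmul, ← mul_assoc, ← map_mul, inv_mul_cancel₀ hcK, map_one, one_mul]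
    rwa [h2] at h1
  set π := minpoly K f with hπ
  set σ := scaleRoots π (algebraMap Λ K c) with hσ
  have hπm : π.Monic := minpoly.monic hfK
  have hσm : σ.Monic := (monic_scaleRoots_iff _).mpr hπm
  have hσroot : aeval (algebraMap Λ F c * f) σ = 0 := by
    rw [hmul]
    exact scaleRoots_aeval_eq_zero (minpoly.aeval K f)
  -- the minimal polynomial of `c f` divides `σ`
  have hdvd : minpoly K (algebraMap Λ F c * f) ∣ σ := minpoly.dvd K _ hσroot
  -- degree comparison
  set μ := minpoly K (algebraMap Λ F c * f) with hμ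
  have hμm : μ.Monic := minpoly.monic hcfK
  have hroot2 : aeval f (scaleRoots μ (algebraMap Λ K c)⁻¹) = 0 := by
    have h2 : algebraMap K F (algebraMap Λ K c)⁻¹ * (algebraMap Λ F c * f) = f := by
      rw [hmul, ← mul_assoc, ← map_mul, inv_mul_cancel₀ hcK, map_one, one_mul]
    have := scaleRoots_aeval_eq_zero (p := μ) (r := (algebraMap Λ K c)⁻¹)
      (a := algebraMap Λ F c * f) (minpoly.aeval K _)
    rwa [h2] at this
  have hdvd2 : π ∣ scaleRoots μ (algebraMap Λ K c)⁻¹ := minpoly.dvd K _ hroot2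
  have hdeg1 : μ.natDegree ≤ σ.natDegree :=
    natDegree_le_of_dvd hdvd hσm.ne_zero
  have hdeg2 : π.natDegree ≤ μ.natDegree := by
    have := natDegree_le_of_dvd hdvd2 ((monic_scaleRoots_iff _).mpr hμm).ne_zero
    rwa [natDegree_scaleRoots] at this
  have hdegσ : σ.natDegree = π.natDegree := natDegree_scaleRoots _ _
  have hμσ : σ = μ := by
    refine eq_of_monic_of_dvd_of_natDegree_le hμm hσm hdvd ?_
    rw [hdegσ]; exact hdeg2
  have hlift : μ = (minpoly Λ (algebraMap Λ F c * f)).map (algebraMap Λ K) :=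
    minpoly.isIntegrallyClosed_eq_field_fractions' K hcf
  refine ⟨(minpoly Λ (algebraMap Λ F c * f)).coeff i, ?_⟩
  rw [← coeff_map, ← hlift, ← hμσ, hσ, coeff_scaleRoots]

/-- **b1.a (regular sequence lemma).** `Λ` integrally closed domain, `w` prime, `¬ w ∣ t`.
If `w f` and `t f` are integral over `Λ`, then `f` is integral over `Λ`. -/
theorem isIntegral_of_isIntegral_mul' {Λ : Type*} (K : Type*) {F : Type*} [CommRing Λ]
    [IsDomain Λ] [IsIntegrallyClosed Λ] [Field K] [Algebra Λ K] [IsFractionRing Λ K]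
    [Field F] [Algebra K F] [Algebra Λ F] [IsScalarTower Λ K F] {w t : Λ} (hw : Prime w)
    (ht : ¬ w ∣ t) {f : F}
    (hwf : IsIntegral Λ (algebraMap Λ F w * f)) (htf : IsIntegral Λ (algebraMap Λ F t * f)) :
    IsIntegral Λ f := by
  have hw0 : w ≠ 0 := hw.ne_zero
  have ht0 : t ≠ 0 := fun h => ht (h ▸ dvd_zero w)
  have hinj := IsFractionRing.injective Λ K
  have hwK : algebraMap Λ K w ≠ 0 := by simpa using hinj.ne hw0
  have hfK : IsIntegral K f := by
    have hcfK : IsIntegral K (algebraMap Λ F w * f) := hwf.tower_top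
    have hmul : algebraMap Λ F w * f = algebraMap K F (algebraMap Λ K w) * f := by
      rw [← IsScalarTower.algebraMap_apply]
    have h1 : IsIntegral K (algebraMap K F (algebraMap Λ K w)⁻¹ * (algebraMap Λ F w * f)) :=
      (isIntegral_algebraMap).mul hcfK
    have h2 : algebraMap K F (algebraMap Λ K w)⁻¹ * (algebraMap Λ F w * f) = f := by
      rw [hmul, ← mul_assoc, ← map_mul, inv_mul_cancel₀ hwK, map_one, one_mul]
    rwa [h2] at h1
  set π := minpoly K f with hπ
  have hπm : π.Monic := minpoly.monic hfK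
  -- every coefficient of `π` lies in `Λ`
  have hcoeff : ∀ i, ∃ a : Λ, algebraMap Λ K a = π.coeff i := by
    intro i
    obtain ⟨a, ha⟩ := coeff_minpoly_mul_pow_mem K hw0 hwf i
    obtain ⟨b, hb⟩ := coeff_minpoly_mul_pow_mem K ht0 htf i
    set e := π.natDegree - i with he
    have hab : a * t ^ e = b * w ^ e := by
      apply hinj
      rw [map_mul, map_mul, map_pow, map_pow, ha, hb]
      ring
    have hdvd : w ^ e ∣ a := by
      refine hw.pow_dvd_of_dvd_mul_right e ?_ ⟨b, by rw [hab]; ring⟩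
      exact fun h => ht (hw.dvd_of_dvd_pow h)
    obtain ⟨ν, hν⟩ := hdvd
    refine ⟨ν, ?_⟩
    have hwe : algebraMap Λ K w ^ e ≠ 0 := pow_ne_zero _ hwK
    apply mul_right_cancel₀ hwe
    rw [← ha, hν, map_mul, map_pow]; ring
  have hlifts : π ∈ lifts (algebraMap Λ K) := by
    rw [lifts_iff_coeff_lifts]
    intro i
    obtain ⟨a, ha⟩ := hcoeff i
    exact ⟨a, ha⟩
  obtain ⟨q, hq, -, hqm⟩ := lifts_and_degree_eq_and_monic hlifts hπm
  refine ⟨q, hqm, ?_⟩
  have : aeval f (q.map (algebraMap Λ K)) = 0 := by rw [hq]; exact minpoly.aeval K f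
  rwa [aeval_map_algebraMap] at this

end RegularSequence

section Basis

open Pointwise

/-- `B / w B` is torsion-free over `Λ / w`, elementwise form inside `B`:
if `t • β ∈ w B` and `¬ w ∣ t` then `β ∈ w B`. -/
theorem mem_smul_top_of_smul_mem {Λ : Type*} (K : Type*) {F : Type*} [CommRing Λ] [IsDomain Λ]
    [IsIntegrallyClosed Λ] [Field K] [Algebra Λ K] [IsFractionRing Λ K]
    [Field F] [Algebra K F] [Algebra Λ F] [IsScalarTower Λ K F]
    {w t : Λ} (hw : Prime w) (ht : ¬ w ∣ t)
    {β : integralClosure Λ F}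
    (h : t • β ∈ w • (⊤ : Submodule Λ (integralClosure Λ F))) :
    β ∈ w • (⊤ : Submodule Λ (integralClosure Λ F)) := by
  rw [Submodule.mem_smul_pointwise_iff_exists] at h ⊢
  obtain ⟨β', -, hβ'⟩ := h
  have hw0 : w ≠ 0 := hw.ne_zero
  have hwF : algebraMap Λ F w ≠ 0 := by
    have hinj : Function.Injective (algebraMap Λ F) := by
      rw [IsScalarTower.algebraMap_eq Λ K F]
      exact (algebraMap K F).injective.comp (IsFractionRing.injective Λ K)
    simpa using hinj.ne hw0
  set f : F := (β : F) / algebraMap Λ F w with hf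
  have h1 : algebraMap Λ F w * f = (β : F) := by
    rw [hf]; field_simp
  have h2 : algebraMap Λ F t * f = (β' : F) := by
    have h3 : algebraMap Λ F w * (β' : F) = algebraMap Λ F t * (β : F) := by
      have := congrArg (fun x : integralClosure Λ F => (x : F)) hβ'
      simpa [Algebra.smul_def] using this
    rw [hf]; field_simp; rw [← h3]
  have hfint : IsIntegral Λ f :=
    isIntegral_of_isIntegral_mul' K hw ht (h1 ▸ β.2) (h2 ▸ β'.2)
  refine ⟨⟨f, hfint⟩, Submodule.mem_top, ?_⟩
  apply Subtype.ext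
  simpa [Algebra.smul_def] using h1

/-- **b1 (local freeness, elementwise form).**
`Λ` noetherian integrally closed domain, `K = Frac Λ`, `F / K` finite separable,
`w ∈ Λ` prime with `Λ / w` a PID (application: `Λ = R[x]`, `R` a DVR with uniformiser `w`).
Then there is a family `b : Fin [F : K] → F` of integral elements such that
* `b` is `K`-linearly independent (hence a `K`-basis of `F`);
* (Nakayama) there is `ρ ≡ 1 mod w` with `ρ β ∈ ∑ Λ bᵢ` for every integral `β`
  (so the integral closure `B` is free with basis `b` after inverting `1 + wΛ`);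
* (basis mod `w`) if `∑ cᵢ bᵢ ∈ w B` then `w ∣ cᵢ` for all `i`. -/
theorem exists_basis_mod {Λ : Type*} (K : Type*) {F : Type*} [CommRing Λ] [IsDomain Λ]
    [IsIntegrallyClosed Λ] [IsNoetherianRing Λ] [Field K] [Algebra Λ K] [IsFractionRing Λ K]
    [Field F] [Algebra K F] [Algebra Λ F] [IsScalarTower Λ K F]
    [FiniteDimensional K F] [Algebra.IsSeparable K F]
    {w : Λ} (hw : Prime w) [IsPrincipalIdealRing (Λ ⧸ Ideal.span {w})] :
    ∃ b : Fin (Module.finrank K F) → F,
      (∀ i, IsIntegral Λ (b i)) ∧ LinearIndependent K b ∧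
      (∃ ρ : Λ, w ∣ ρ - 1 ∧ ∀ β : F, IsIntegral Λ β →
        ∃ c : Fin (Module.finrank K F) → Λ,
          algebraMap Λ F ρ * β = ∑ i, algebraMap Λ F (c i) * b i) ∧
      (∀ (c : Fin (Module.finrank K F) → Λ) (β : F), IsIntegral Λ β →
        ∑ i, algebraMap Λ F (c i) * b i = algebraMap Λ F w * β → ∀ i, w ∣ c i) := by
  classical
  have hinjF : Function.Injective (algebraMap Λ F) := by
    rw [IsScalarTower.algebraMap_eq Λ K F]
    exact (algebraMap K F).injective.comp (IsFractionRing.injective Λ K)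
  have hfin : Module.Finite Λ (integralClosure Λ F) :=
    IsIntegralClosure.finite Λ K F (integralClosure Λ F)
  set I : Ideal Λ := Ideal.span {w} with hI
  have hIp : I.IsPrime := (Ideal.span_singleton_prime hw.ne_zero).mpr hw
  have hIne : I ≠ ⊤ := hIp.ne_top
  set W : Submodule Λ (integralClosure Λ F) := w • (⊤ : Submodule Λ (integralClosure Λ F))
    with hW
  have : Module.Finite (Λ ⧸ I) (integralClosure Λ F ⧸ W) :=
    Module.Finite.of_restrictScalars_finite Λ _ _
  have : Module.IsTorsionFree (Λ ⧸ I) (integralClosure Λ F ⧸ W) := by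
    refine ⟨fun r hr => ?_⟩
    rw [isSMulRegular_iff_right_eq_zero_of_smul]
    intro q hq
    obtain ⟨t, rfl⟩ := Ideal.Quotient.mk_surjective r
    obtain ⟨β, rfl⟩ := Submodule.Quotient.mk_surjective W q
    have ht : ¬ w ∣ t := by
      intro hdvd
      have : Ideal.Quotient.mk I t = 0 :=
        Ideal.Quotient.eq_zero_iff_mem.mpr (Ideal.mem_span_singleton.mpr hdvd)
      exact hr.ne_zero this
    have hmem : t • β ∈ W := by
      rw [← Submodule.Quotient.mk_eq_zero W]
      exact hq
    exact (Submodule.Quotient.mk_eq_zero W).mpr (mem_smul_top_of_smul_mem K hw ht hmem)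
  have : Module.Free (Λ ⧸ I) (integralClosure Λ F ⧸ W) :=
    Module.free_of_finite_type_torsion_free'
  let e := Module.Free.chooseBasis (Λ ⧸ I) (integralClosure Λ F ⧸ W)
  set ι := Module.Free.ChooseBasisIndex (Λ ⧸ I) (integralClosure Λ F ⧸ W) with hι
  let _ : Fintype ι := Module.Free.ChooseBasisIndex.fintype _ _
  choose b' hb' using fun i => Submodule.Quotient.mk_surjective W (e i)
  have hmk : ∀ c : ι → Λ, Submodule.Quotient.mk (p := W) (∑ i, c i • b' i) =
      ∑ i, Ideal.Quotient.mk I (c i) • e i := by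
    intro c
    change W.mkQ (∑ i, c i • b' i) = _
    rw [map_sum]
    refine Finset.sum_congr rfl fun i _ => ?_
    rw [← hb' i]
    rfl
  -- (4') basis mod w
  have key4 : ∀ c : ι → Λ, (∑ i, c i • b' i) ∈ W → ∀ i, w ∣ c i := by
    intro c hc i
    have h0 : ∑ i, Ideal.Quotient.mk I (c i) • e i = 0 := by
      rw [← hmk, Submodule.Quotient.mk_eq_zero]; exact hc
    have := (Fintype.linearIndependent_iff.mp e.linearIndependent) _ h0 i
    exact Ideal.mem_span_singleton.mp (Ideal.Quotient.eq_zero_iff_mem.mp this)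
  -- spanning mod w
  have span_mod : ∀ β : integralClosure Λ F, ∃ c : ι → Λ, β - ∑ i, c i • b' i ∈ W := by
    intro β
    choose c hc using fun i =>
      Ideal.Quotient.mk_surjective (e.equivFun (Submodule.Quotient.mk (p := W) β) i)
    refine ⟨c, ?_⟩
    rw [← Submodule.Quotient.mk_eq_zero W, Submodule.Quotient.mk_sub, hmk, sub_eq_zero]
    conv_lhs => rw [← e.sum_equivFun (Submodule.Quotient.mk (p := W) β)]
    refine Finset.sum_congr rfl fun i _ => ?_
    rw [hc i]
  -- Nakayama
  set M : Submodule Λ (integralClosure Λ F) := Submodule.span Λ (Set.range b') with hM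
  obtain ⟨ρ, hρ1, hρ⟩ : ∃ ρ : Λ, ρ - 1 ∈ I ∧ ∀ β : integralClosure Λ F, ρ • β ∈ M := by
    have hle : (⊤ : Submodule Λ (integralClosure Λ F ⧸ M)) ≤
        I • (⊤ : Submodule Λ (integralClosure Λ F ⧸ M)) := by
      rintro q -
      obtain ⟨β, rfl⟩ := Submodule.Quotient.mk_surjective M q
      obtain ⟨c, hc⟩ := span_mod β
      rw [hW, Submodule.mem_smul_pointwise_iff_exists] at hc
      obtain ⟨β', -, hβ'⟩ := hc
      have hsum : (∑ i, c i • b' i) ∈ M :=
        Submodule.sum_mem _ fun i _ =>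
          Submodule.smul_mem _ _ (Submodule.subset_span ⟨i, rfl⟩)
      have hβ : β = w • β' + ∑ i, c i • b' i := by rw [hβ']; abel
      have : Submodule.Quotient.mk (p := M) β = w • Submodule.Quotient.mk (p := M) β' := by
        rw [hβ, Submodule.Quotient.mk_add, (Submodule.Quotient.mk_eq_zero M).mpr hsum,
          add_zero, Submodule.Quotient.mk_smul]
      rw [this]
      exact Submodule.smul_mem_smul (Ideal.mem_span_singleton_self w) Submodule.mem_top
    obtain ⟨ρ, hρ1, hρ⟩ := Submodule.exists_sub_one_mem_and_smul_eq_zero_of_fg_of_le_smul I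
      (⊤ : Submodule Λ (integralClosure Λ F ⧸ M)) Module.Finite.fg_top hle
    refine ⟨ρ, hρ1, fun β => ?_⟩
    have := hρ (Submodule.Quotient.mk β) Submodule.mem_top
    rwa [← Submodule.Quotient.mk_smul, Submodule.Quotient.mk_eq_zero] at this
  -- linear independence over Λ inside B
  have hpow : ∀ (k : ℕ) (c : ι → Λ), ∑ i, c i • b' i = 0 → ∀ i, w ^ k ∣ c i := by
    intro k
    induction k with
    | zero => intro c _ i; simp
    | succ k ih =>
      intro c hc i
      have hdiv := key4 c (hc ▸ W.zero_mem)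
      choose d hd using hdiv
      have hd0 : ∑ i, d i • b' i = 0 := by
        have h1 : w • ∑ i, d i • b' i = 0 := by
          rw [Finset.smul_sum, ← hc]
          refine Finset.sum_congr rfl fun i _ => ?_
          rw [hd i, mul_smul]
        have hw0 : w ≠ 0 := hw.ne_zero
        have hwB : algebraMap Λ (integralClosure Λ F) w ≠ 0 := by
          intro h
          apply hw0
          apply hinjF
          have := congrArg (algebraMap (integralClosure Λ F) F) h
          rw [← IsScalarTower.algebraMap_apply] at this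
          simpa using this
        rw [Algebra.smul_def] at h1
        exact (mul_eq_zero.mp h1).resolve_left hwB
      obtain ⟨x, hx⟩ := ih d hd0 i
      exact ⟨x, by rw [hd i, hx, pow_succ]; ring⟩
  have hliB : ∀ c : ι → Λ, ∑ i, c i • b' i = 0 → ∀ i, c i = 0 := by
    intro c hc i
    have hmem : c i ∈ ⨅ k : ℕ, I ^ k := by
      rw [Ideal.mem_iInf]
      intro k
      rw [hI, Ideal.span_singleton_pow, Ideal.mem_span_singleton]
      exact hpow k c hc i
    rw [Ideal.iInf_pow_eq_bot_of_isDomain I hIne] at hmem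
    simpa using hmem
  have hliΛ : LinearIndependent Λ (fun i => ((b' i : integralClosure Λ F) : F)) := by
    rw [Fintype.linearIndependent_iff]
    intro c hc i
    refine hliB c ?_ i
    apply Subtype.ext
    have : ((∑ i, c i • b' i : integralClosure Λ F) : F) = ∑ i, c i • ((b' i : integralClosure Λ F) : F) := by
      simp
    rw [this, hc]; rfl
  have hliK : LinearIndependent K (fun i => ((b' i : integralClosure Λ F) : F)) :=
    (LinearIndependent.iff_fractionRing Λ K).mp hliΛ
  -- spanning over K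
  have hρ0 : ρ ≠ 0 := by
    rintro rfl
    rw [zero_sub, Ideal.neg_mem_iff] at hρ1
    exact hIne ((Ideal.eq_top_iff_one I).mpr hρ1)
  have hspanΛ : ∀ β : integralClosure Λ F, ∃ c : ι → Λ,
      algebraMap Λ F ρ * (β : F) = ∑ i, algebraMap Λ F (c i) * ((b' i : integralClosure Λ F) : F) := by
    intro β
    have h := hρ β
    rw [hM, Submodule.mem_span_range_iff_exists_fun] at h
    obtain ⟨c, hc⟩ := h
    refine ⟨c, ?_⟩
    have := congrArg (fun x : integralClosure Λ F => (x : F)) hc
    simp only [Algebra.smul_def] at this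
    simpa using this.symm
  have hspanK : (⊤ : Submodule K F) ≤ Submodule.span K (Set.range fun i => ((b' i : integralClosure Λ F) : F)) := by
    rintro x -
    obtain ⟨y, hy0, hy⟩ := exists_integral_multiples Λ K ({x} : Finset F)
    have hyx : IsIntegral Λ (y • x) := hy x (Finset.mem_singleton_self x)
    obtain ⟨c, hc⟩ := hspanΛ ⟨y • x, hyx⟩
    have hyρ : algebraMap Λ K (ρ * y) ≠ 0 := by
      simpa using (IsFractionRing.injective Λ K).ne (mul_ne_zero hρ0 hy0)
    have hx : x = (algebraMap Λ K (ρ * y))⁻¹ • ∑ i, algebraMap Λ K (c i) • ((b' i : integralClosure Λ F) : F) := by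
      rw [eq_inv_smul_iff₀ hyρ]
      have : ∑ i, algebraMap Λ K (c i) • ((b' i : integralClosure Λ F) : F) =
          ∑ i, algebraMap Λ F (c i) * ((b' i : integralClosure Λ F) : F) := by
        refine Finset.sum_congr rfl fun i _ => ?_
        rw [Algebra.smul_def, ← IsScalarTower.algebraMap_apply]
      rw [this, ← hc, Algebra.smul_def, ← IsScalarTower.algebraMap_apply, map_mul]
      simp only [Algebra.smul_def, mul_assoc]
    rw [hx]
    refine Submodule.smul_mem _ _ (Submodule.sum_mem _ fun i _ => Submodule.smul_mem _ _ ?_)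
    exact Submodule.subset_span ⟨i, rfl⟩
  let bK : Module.Basis ι K F := Module.Basis.mk hliK hspanK
  have hcard : Fintype.card ι = Module.finrank K F :=
    (Module.finrank_eq_card_basis bK).symm
  let σ : Fin (Module.finrank K F) ≃ ι := (Fintype.equivFinOfCardEq hcard).symm
  refine ⟨fun j => ((b' (σ j) : integralClosure Λ F) : F), fun j => (b' (σ j)).2,
    hliK.comp σ σ.injective, ⟨ρ, Ideal.mem_span_singleton.mp hρ1, fun β hβ => ?_⟩,
    fun c β hβ hc j => ?_⟩
  · obtain ⟨c, hc⟩ := hspanΛ ⟨β, hβ⟩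
    refine ⟨fun j => c (σ j), ?_⟩
    rw [hc]
    exact (Equiv.sum_comp σ fun i => algebraMap Λ F (c i) * ((b' i : integralClosure Λ F) : F)).symm
  · have h1 := key4 (fun i => c (σ.symm i)) ?_ (σ j)
    · simpa using h1
    · rw [hW, Submodule.mem_smul_pointwise_iff_exists]
      refine ⟨⟨β, hβ⟩, Submodule.mem_top, ?_⟩
      apply Subtype.ext
      have e1 : ((w • (⟨β, hβ⟩ : integralClosure Λ F) : integralClosure Λ F) : F) =
          algebraMap Λ F w * β := by
        simp [Algebra.smul_def]
      have e2 : ((∑ i, c (σ.symm i) • b' i : integralClosure Λ F) : F) =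
          ∑ j, algebraMap Λ F (c j) * ((b' (σ j) : integralClosure Λ F) : F) := by
        rw [← Equiv.sum_comp σ]
        simp [Algebra.smul_def]
      rw [e1, e2, hc]

end Basis

end Fermat.Agent.S18.H393

end
-- ===== PACK-END S18/H393/LocalFree.lean

-- ===== PACK-BEGIN S18/B12/H84/RegularAlong.lean
section


/-!
# S18 / b2.5 / A9 (helper84): regularity along a Dedekind special fibre

`regularAlongOfDedekind` = `RegularAlongOfDedekindStatement` of `origin/helper33`
`Fermat/Agent/S18/B12/Spec3.lean`, unfolded (Mathlib-only; the `Spec3`-typed wrapper is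
`Fermat/Agent/S18/B12/H84/Stmt.lean`):

if `B/ϖB` is a Dedekind domain, then every maximal ideal `𝔪 ∋ ϖ` of `B` is locally generated by
`ϖ` and one more element `t`: for every `a ∈ 𝔪` there is `s ∉ 𝔪` with `s * a ∈ (ϖ, t)`.

Generic core: `exists_local_generator` (a maximal ideal of a Dedekind domain is locally
principal, elementwise form).
-/

set_option autoImplicit false

namespace Fermat.Agent.S18.B12.H84

universe u

/-- A maximal ideal `M` of a Dedekind domain is locally principal: there is `t ∈ M` and for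
every `a ∈ M` an `s ∉ M` with `s * a ∈ (t)`.  (Elementwise form; `s` may even be chosen
independently of `a`.) -/
theorem exists_local_generator {D : Type u} [CommRing D] [IsDedekindDomain D]
    (M : Ideal D) (hM : M.IsMaximal) :
    ∃ t ∈ M, ∃ s : D, s ∉ M ∧ ∀ a ∈ M, s * a ∈ Ideal.span {t} := by
  by_cases h0 : M = ⊥
  · refine ⟨0, M.zero_mem, 1, ?_, ?_⟩
    · exact (Ideal.ne_top_iff_one M).mp hM.ne_top
    · intro a ha
      rw [h0, Ideal.mem_bot] at ha
      rw [ha, mul_zero]
      exact Ideal.zero_mem _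
  · obtain ⟨t, ht1, ht2⟩ := Ideal.exists_mem_pow_notMem_pow_succ M h0 hM.ne_top 1
    rw [pow_one] at ht1
    have hle : Ideal.span {t} ≤ M := (Ideal.span_singleton_le_iff_mem M).mpr ht1
    obtain ⟨J, hJ⟩ := Ideal.dvd_iff_le.mpr hle
    have hJM : ¬ J ≤ M := by
      intro hJM
      apply ht2
      have h1 : Ideal.span {t} ≤ M * M := by
        rw [hJ]
        exact Ideal.mul_mono_right hJM
      have h2 : t ∈ M * M := h1 (Ideal.mem_span_singleton_self t)
      simpa [pow_succ] using h2
    obtain ⟨s, hsJ, hsM⟩ := SetLike.not_le_iff_exists.mp hJM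
    refine ⟨t, ht1, s, hsM, fun a ha => ?_⟩
    rw [hJ, mul_comm s a]
    exact Ideal.mul_mem_mul ha hsJ

/-- **A9** (`RegularAlongOfDedekindStatement`, unfolded). -/
theorem regularAlongOfDedekind (B : Type u) [CommRing B] (ϖ : B)
    (hD : IsDedekindDomain (B ⧸ Ideal.span {ϖ})) (𝔪 : Ideal B) (h𝔪 : 𝔪.IsMaximal)
    (hϖ : ϖ ∈ 𝔪) :
    ∃ t ∈ 𝔪, ∀ a ∈ 𝔪, ∃ s : B, s ∉ 𝔪 ∧ s * a ∈ Ideal.span {ϖ, t} := by
  let q : B →+* B ⧸ Ideal.span {ϖ} := Ideal.Quotient.mk (Ideal.span {ϖ})
  have hq : Function.Surjective q := Ideal.Quotient.mk_surjective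
  have hker : RingHom.ker q = Ideal.span {ϖ} := Ideal.mk_ker
  have hkerle : RingHom.ker q ≤ 𝔪 := by
    rw [hker]
    exact (Ideal.span_singleton_le_iff_mem 𝔪).mpr hϖ
  have hcomap : (𝔪.map q).comap q = 𝔪 := by
    rw [Ideal.comap_map_of_surjective q hq]
    refine le_antisymm (sup_le le_rfl ?_) le_sup_left
    rw [← RingHom.ker_eq_comap_bot]
    exact hkerle
  have hmax : (𝔪.map q).IsMaximal := by
    rcases Ideal.map_eq_top_or_isMaximal_of_surjective q hq h𝔪 with h | h
    · exfalso
      apply h𝔪.ne_top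
      rw [← hcomap, h, Ideal.comap_top]
    · exact h
  obtain ⟨tbar, htbar, sbar, hsbar, hall⟩ := exists_local_generator (𝔪.map q) hmax
  obtain ⟨t, rfl⟩ := hq tbar
  obtain ⟨s, rfl⟩ := hq sbar
  have ht : t ∈ 𝔪 := by
    rw [← hcomap]
    exact Ideal.mem_comap.mpr htbar
  have hs : s ∉ 𝔪 := fun h => hsbar (Ideal.mem_map_of_mem q h)
  refine ⟨t, ht, fun a ha => ⟨s, hs, ?_⟩⟩
  have h1 : q s * q a ∈ Ideal.span {q t} := hall (q a) (Ideal.mem_map_of_mem q ha)
  obtain ⟨cbar, hc⟩ := Ideal.mem_span_singleton'.mp h1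
  obtain ⟨c, rfl⟩ := hq cbar
  have h2 : s * a - c * t ∈ Ideal.span {ϖ} := by
    rw [← hker, RingHom.mem_ker, map_sub, map_mul, map_mul, hc, sub_self]
  have h3 : s * a = (s * a - c * t) + c * t := by ring
  rw [h3]
  refine Ideal.add_mem _ ?_ ?_
  · exact Ideal.span_mono (by simp) h2
  · exact Ideal.mul_mem_left _ c (Ideal.subset_span (by simp))

end Fermat.Agent.S18.B12.H84

end
-- ===== PACK-END S18/B12/H84/RegularAlong.lean

-- ===== PACK-BEGIN S37/H278/DetDvd.lean
section


/-!
# S37 / S18, piece b2-core (helper278): determinant divisibility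

A matrix whose rows indexed by `Z` are divisible by `t`, whose column `i₀` is divisible by `t`, and
whose entries `(i, i₀)` with `i ∈ Z` are divisible by `t ^ 2`, has determinant divisible by
`t ^ (#Z + 1)`.
-/

set_option autoImplicit false

namespace Fermat.Agent.S37.H278

open Matrix

theorem pow_card_dvd_det {R : Type*} [CommRing R] {ι : Type*} [Fintype ι] [DecidableEq ι]
    (t : R) (T : Matrix ι ι R) (Z : Finset ι)
    (h1 : ∀ i ∈ Z, ∀ j, t ∣ T i j) :
    t ^ Z.card ∣ T.det := by
  classical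
  choose! r hr using h1
  let T' : Matrix ι ι R := Matrix.of fun i j => if i ∈ Z then r i j else T i j
  have hT : T = Matrix.of fun i j => (if i ∈ Z then t else 1) * T' i j := by
    ext i j
    by_cases hi : i ∈ Z
    · simp [T', hi, hr i hi j]
    · simp [T', hi]
  rw [hT, Matrix.det_mul_column]
  have : (∏ i : ι, if i ∈ Z then t else 1) = t ^ Z.card := by
    rw [Finset.prod_ite_mem, Finset.univ_inter, Finset.prod_const]
  rw [this]
  exact Dvd.intro _ rfl

theorem pow_card_succ_dvd_det {R : Type*} [CommRing R] {ι : Type*} [Fintype ι] [DecidableEq ι]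
    (t : R) (T : Matrix ι ι R) (Z : Finset ι) (i₀ : ι)
    (h1 : ∀ i ∈ Z, ∀ j, t ∣ T i j)
    (h2 : ∀ i ∈ Z, t ^ 2 ∣ T i i₀)
    (h3 : ∀ j, t ∣ T j i₀) :
    t ^ (Z.card + 1) ∣ T.det := by
  classical
  choose! r hr using h1
  choose! q hq using h2
  choose p hp using h3
  let T' : Matrix ι ι R := Matrix.of fun i j =>
    if j = i₀ then (if i ∈ Z then q i else p i) else (if i ∈ Z then r i j else T i j)
  have hT : T = Matrix.of fun i j =>
      (if i ∈ Z then t else 1) * ((Matrix.of fun i j => (if j = i₀ then t else 1) * T' i j) i j) := by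
    ext i j
    by_cases hi : i ∈ Z <;> by_cases hj : j = i₀
    · subst hj; simp [T', hi, hq i hi]; ring
    · simp [T', hi, hj, hr i hi j]
    · subst hj; simp [T', hi, hp i]
    · simp [T', hi, hj]
  rw [hT, Matrix.det_mul_column, Matrix.det_mul_row]
  have e1 : (∏ i : ι, if i ∈ Z then t else 1) = t ^ Z.card := by
    rw [Finset.prod_ite_mem, Finset.univ_inter, Finset.prod_const]
  have e2 : (∏ j : ι, if j = i₀ then t else 1) = t := by
    rw [Finset.prod_ite_eq' Finset.univ i₀ (fun _ => t)]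
    simp
  rw [e1, e2, pow_succ]
  exact Dvd.intro (T'.det) (by ring)

end Fermat.Agent.S37.H278

end
-- ===== PACK-END S37/H278/DetDvd.lean

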