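import Mathlib
import Fermat.Prelude.Def_AlgebraicCurve_DivisorClassGroup
import Fermat.Prelude.Def_ModularCurve_X0
import Fermat.Prelude.Def_ModularCurve_LaurentCoeff
import Mathlib.Analysis.Complex.BranchLogRoot
import Mathlib.Analysis.Meromorphic.FactorizedRational
import Mathlib.Analysis.SpecialFunctions.Complex.Analytic
import Mathlib.Analysis.Convex.Contractible
import Mathlib.RingTheory.Polynomial.Cyclotomic.Roots
import Fermat.Prelude.Def_ModularCurve_JqCoeff
import Fermat.Prelude.Def_ModularCurve_X0ModL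
import Mathlib.Tactic.Ring
import Mathlib.Tactic.LinearCombination
import Mathlib.Algebra.Ring.Hom.Defs
import Mathlib.Algebra.Algebra.Defs
import Mathlib.Data.Nat.Cast.Basic
import Mathlib.Algebra.Order.Ring.Nat
import Mathlib.Data.Int.Cast.Lemmas
import Mathlib.Data.ZMod.QuotientGroup
import Mathlib.GroupTheory.GroupAction.FixedPoints
import Mathlib.GroupTheory.GroupAction.Quotient
import Mathlib.Dynamics.PeriodicPts.Defs
import Mathlib.SetTheory.Cardinal.Finite
import Mathlib.Data.Nat.Prime.Basic

-- ===== PACK-BEGIN S24/H864/FF3a.lean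
section



/-!
# S24 / ALG / FF1+FF3 (part a): the Dedekind domain `B = integralClosure K[t] F`
-/

set_option autoImplicit false

noncomputable section

open AlgebraicCurve IntermediateField IsDedekindDomain

namespace Fermat.Agent.S24.H864

variable {K F : Type*} [Field K] [Field F] [Algebra K F]

section Setup

variable (K) (t : F)

/-- `K[t] ⊆ F`. -/
abbrev polyRing : Subalgebra K F := Algebra.adjoin K {t}

/-- the element `t` of `K[t]` -/
def tR : polyRing K t := ⟨t, Algebra.self_mem_adjoin_singleton K t⟩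

/-- `K[X] ≃ K[t]` for transcendental `t`. -/
def polyEquiv (ht : Transcendental K t) : Polynomial K ≃ₐ[K] polyRing K t :=
  (AlgEquiv.ofInjective (Polynomial.aeval t) (transcendental_iff_injective.mp ht)).trans
    (Subalgebra.equivOfEq _ _ (Algebra.adjoin_singleton_eq_range_aeval K t).symm)

theorem polyEquiv_apply_coe (ht : Transcendental K t) (P : Polynomial K) :
    ((polyEquiv K t ht P : polyRing K t) : F) = Polynomial.aeval t P := rfl

theorem polyEquiv_X (ht : Transcendental K t) : polyEquiv K t ht Polynomial.X = tR K t := by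
  apply Subtype.ext
  rw [polyEquiv_apply_coe, Polynomial.aeval_X]
  rfl

end Setup

end Fermat.Agent.S24.H864

end
end
-- ===== PACK-END S24/H864/FF3a.lean

-- ===== PACK-BEGIN S29/H152/DescAut.lean
section
/-
S29 / DESC (helper152) — part 1: automorphisms of an algebraically closed field over an
algebraically closed subfield.  Mathlib-only.

* `descAut_exists_add_one` : `x` transcendental over `K` in an algebraically closed field `C`
  ⇒ some `σ : C ≃ₐ[K] C` has `σ x = x + 1`.
* `descAut_mem_range_of_fixed` : `K`, `C` algebraically closed, `C` of characteristic zero,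
  `H ≤ Aut(C/K)` of finite index, `x` fixed by `H` ⇒ `x ∈ K`.
-/


set_option autoImplicit false

namespace Fermat.Agent.S29.H152

open MvPolynomial

section Shift

variable {K : Type*} [Field K] {ι : Type*} [DecidableEq ι]

/-- The `K`-algebra endomorphism of `K[X_i]` with `X_{i₀} ↦ X_{i₀} + c`, other variables fixed. -/
noncomputable def descShift (i₀ : ι) (c : K) : MvPolynomial ι K →ₐ[K] MvPolynomial ι K :=
  aeval fun i => if i = i₀ then X i + C c else X i

theorem descShift_X_self (i₀ : ι) (c : K) : descShift i₀ c (X i₀) = X i₀ + C c := by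
  simp [descShift]

theorem descShift_X_of_ne (i₀ : ι) (c : K) {i : ι} (h : i ≠ i₀) :
    descShift i₀ c (X i) = X i := by
  simp [descShift, h]

theorem descShift_comp (i₀ : ι) (c d : K) :
    (descShift i₀ c).comp (descShift i₀ d) = descShift i₀ (c + d) := by
  apply MvPolynomial.algHom_ext
  intro i
  by_cases h : i = i₀
  · subst h
    simp only [AlgHom.comp_apply, descShift_X_self, map_add]
    rw [show (descShift i c) (C d) = C d from (descShift i c).commutes d]
    ring
  · simp only [AlgHom.comp_apply, descShift_X_of_ne _ _ h]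

theorem descShift_zero (i₀ : ι) : descShift i₀ (0 : K) = AlgHom.id K _ := by
  apply MvPolynomial.algHom_ext
  intro i
  by_cases h : i = i₀
  · subst h
    simp [descShift_X_self]
  · simp [descShift_X_of_ne _ _ h]

/-- The shift as an algebra automorphism. -/
noncomputable def descShiftEquiv (i₀ : ι) (c : K) : MvPolynomial ι K ≃ₐ[K] MvPolynomial ι K :=
  AlgEquiv.ofAlgHom (descShift i₀ c) (descShift i₀ (-c))
    (by rw [descShift_comp, add_neg_cancel, descShift_zero])
    (by rw [descShift_comp, neg_add_cancel, descShift_zero])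

theorem descShiftEquiv_X_self (i₀ : ι) (c : K) : descShiftEquiv i₀ c (X i₀) = X i₀ + C c :=
  descShift_X_self i₀ c

end Shift

section Aut

variable {K Ω : Type*} [Field K] [Field Ω] [Algebra K Ω] [IsAlgClosed Ω]

/-- For `x` transcendental over `K` in an algebraically closed field `C`, some `K`-automorphism
of `C` maps `x` to `x + 1`. -/
theorem descAut_exists_add_one (x : Ω) (hx : Transcendental K x) :
    ∃ σ : Ω ≃ₐ[K] Ω, σ x = x + 1 := by
  classical
  have hind : AlgebraicIndepOn K id ({x} : Set Ω) := by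
    show AlgebraicIndependent K fun i : ({x} : Set Ω) => id (i : Ω)
    let _ : Unique ({x} : Set Ω) := Set.uniqueSingleton x
    rw [algebraicIndependent_unique_type_iff]
    exact hx
  obtain ⟨B, hxB, hB⟩ := exists_isTranscendenceBasis_superset hind
  have hxB' : x ∈ B := hxB (Set.mem_singleton x)
  let i₀ : B := ⟨x, hxB'⟩
  -- the subalgebra generated by the basis
  let A := Algebra.adjoin K (Set.range ((↑) : B → Ω))
  have hAC : IsAlgClosure A Ω := IsAlgClosed.isAlgClosure_of_transcendence_basis _ hB
  -- the automorphism of `A`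
  let e : A ≃ₐ[K] A := (hB.1.aevalEquiv.symm.trans (descShiftEquiv i₀ 1)).trans hB.1.aevalEquiv
  let σ₀ : Ω ≃+* Ω := IsAlgClosure.equivOfEquiv Ω Ω e.toRingEquiv
  have hσ₀ : ∀ a : A, σ₀ (algebraMap A Ω a) = algebraMap A Ω (e a) := fun a =>
    IsAlgClosure.equivOfEquiv_algebraMap Ω Ω e.toRingEquiv a
  have hK : ∀ r : K, σ₀ (algebraMap K Ω r) = algebraMap K Ω r := by
    intro r
    have h1 : algebraMap K Ω r = algebraMap A Ω (algebraMap K A r) := rfl
    rw [h1, hσ₀, e.commutes]
  refine ⟨AlgEquiv.ofRingEquiv (f := σ₀) hK, ?_⟩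
  show σ₀ x = x + 1
  have hx1 : x = algebraMap A Ω (hB.1.aevalEquiv (X i₀)) := by
    rw [hB.1.algebraMap_aevalEquiv, aeval_X]
  have he : e (hB.1.aevalEquiv (X i₀)) = hB.1.aevalEquiv (X i₀ + C 1) := by
    show hB.1.aevalEquiv ((descShiftEquiv i₀ 1) (hB.1.aevalEquiv.symm (hB.1.aevalEquiv (X i₀)))) = _
    rw [AlgEquiv.symm_apply_apply, descShiftEquiv_X_self]
  conv_lhs => rw [hx1]
  rw [hσ₀, he, hB.1.algebraMap_aevalEquiv, map_add, aeval_X, aeval_C]
  simp [i₀]

omit [IsAlgClosed Ω] in
/-- Iterating: `σ ^ n` maps `x` to `x + n`. -/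
theorem descAut_pow_apply {σ : Ω ≃ₐ[K] Ω} {x : Ω} (h : σ x = x + 1) (n : ℕ) :
    (σ ^ n) x = x + n := by
  induction n with
  | zero => simp
  | succ n ih =>
    rw [pow_succ', AlgEquiv.mul_apply, ih, map_add, h, map_natCast]
    push_cast
    ring

end Aut

section Fixed

variable {K Ω : Type*} [Field K] [Field Ω] [Algebra K Ω] [IsAlgClosed K] [IsAlgClosed Ω]
  [CharZero Ω]

/-- An element of `C` fixed by a finite-index subgroup of `Aut(C/K)` lies in `K`. -/
theorem descAut_mem_range_of_fixed (H : Subgroup (Ω ≃ₐ[K] Ω)) (hH : H.index ≠ 0) (x : Ω)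
    (hx : ∀ σ ∈ H, σ x = x) : x ∈ Set.range (algebraMap K Ω) := by
  by_contra hxK
  have htr : Transcendental K x := by
    intro halg
    apply hxK
    have hint : IsIntegral K x := halg.isIntegral
    have hdeg : (minpoly K x).degree = 1 :=
      IsAlgClosed.degree_eq_one_of_irreducible K (minpoly.irreducible hint)
    exact minpoly.mem_range_of_degree_eq_one K x hdeg
  obtain ⟨σ, hσ⟩ := descAut_exists_add_one x htr
  obtain ⟨n, hn, -, hmem⟩ := Subgroup.exists_pow_mem_of_index_ne_zero hH σ
  have h1 := hx _ hmem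
  rw [descAut_pow_apply hσ] at h1
  have : (n : Ω) = 0 := by simpa using h1
  exact hn.ne' (by exact_mod_cast this)

end Fixed

end Fermat.Agent.S29.H152

end
-- ===== PACK-END S29/H152/DescAut.lean

-- ===== PACK-BEGIN S29/H152/DescBound.lean
section
/-
S29 / DESC (helper152) — part 3: the order bound.  Mathlib-only.

`j : C((q))` of order `-1`, `t = j⁻¹`.  If `v ≠ 0` is integral over `C[j]`, `v * t ^ m` is integral
over `C[t]` and `v` has degree `≤ D` over `C(j)`, then `ord_q v ≤ m * (D - 1)`.
(Global sections of a line bundle on a curve finite over the `j`-line have bounded order at a cusp.)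
-/


set_option autoImplicit false

namespace Fermat.Agent.S29.H152

open Polynomial

variable {C : Type*} [Field C]

/-! ### Power series inside Laurent series -/

theorem descBound_algebraMap_eq (c : C) :
    algebraMap C (LaurentSeries C) c
      = HahnSeries.ofPowerSeries ℤ C (algebraMap C (PowerSeries C) c) := rfl

theorem descBound_order_coe_nonneg (F : PowerSeries C) :
    0 ≤ (HahnSeries.ofPowerSeries ℤ C F).order := by
  by_cases h : HahnSeries.ofPowerSeries ℤ C F = 0
  · rw [h, HahnSeries.order_zero]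
  · rw [HahnSeries.le_order_iff_forall h]
    intro j hj
    have := PowerSeries.coeff_coe (f := F) j
    rw [if_pos hj] at this
    exact this

theorem descBound_exists_coe_of_order_nonneg {x : LaurentSeries C} (hx : 0 ≤ x.order) :
    ∃ F : PowerSeries C, HahnSeries.ofPowerSeries ℤ C F = x := by
  refine ⟨PowerSeries.mk fun n => x.coeff n, ?_⟩
  ext i
  have := PowerSeries.coeff_coe (f := PowerSeries.mk fun n => x.coeff n) i
  rw [this]
  split_ifs with hi
  · exact (HahnSeries.coeff_eq_zero_of_lt_order (lt_of_lt_of_le hi hx)).symm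
  · rw [PowerSeries.coeff_mk]
    congr 1
    omega

/-- The subalgebra of power series. -/
noncomputable def descBoundPS : Subalgebra C (LaurentSeries C) :=
  { (HahnSeries.ofPowerSeries ℤ C).range with
    algebraMap_mem' := fun c => ⟨algebraMap C (PowerSeries C) c, rfl⟩ }

theorem descBound_mem_PS {x : LaurentSeries C} :
    x ∈ descBoundPS (C := C) ↔ ∃ F : PowerSeries C, HahnSeries.ofPowerSeries ℤ C F = x :=
  Iff.rfl

theorem descBound_mem_PS_of_order_nonneg {x : LaurentSeries C} (hx : 0 ≤ x.order) :
    x ∈ descBoundPS (C := C) :=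
  descBound_mem_PS.mpr (descBound_exists_coe_of_order_nonneg hx)

theorem descBound_order_nonneg_of_mem_PS {x : LaurentSeries C} (hx : x ∈ descBoundPS (C := C)) :
    0 ≤ x.order := by
  obtain ⟨F, rfl⟩ := descBound_mem_PS.mp hx
  exact descBound_order_coe_nonneg F

/-- Power series are integrally closed in Laurent series. -/
theorem descBound_mem_PS_of_isIntegral {x : LaurentSeries C}
    (hx : IsIntegral (descBoundPS (C := C)) x) : x ∈ descBoundPS (C := C) := by
  have h1 : IsIntegral (PowerSeries C) x := by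
    obtain ⟨p, hp, hpx⟩ := hx
    -- transport the polynomial along `PS → PowerSeries`
    have hl : p.map (algebraMap (descBoundPS (C := C)) (LaurentSeries C))
        ∈ Polynomial.lifts (algebraMap (PowerSeries C) (LaurentSeries C)) := by
      rw [Polynomial.lifts_iff_coeff_lifts]
      intro n
      rw [Polynomial.coeff_map]
      obtain ⟨F, hF⟩ := descBound_mem_PS.mp (p.coeff n).2
      exact ⟨F, hF⟩
    obtain ⟨q, hq, -, hqm⟩ := Polynomial.lifts_and_natDegree_eq_and_monic hl (hp.map _)
    refine ⟨q, hqm, ?_⟩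
    rw [← Polynomial.eval_map, hq, Polynomial.eval_map]
    exact hpx
  obtain ⟨F, hF⟩ := IsIntegrallyClosed.isIntegral_iff.mp h1
  exact descBound_mem_PS.mpr ⟨F, hF⟩

/-- Monotonicity of integrality in the base subalgebra. -/
theorem descBound_isIntegral_mono {A : Type*} [CommRing A] [Algebra C A] {R S : Subalgebra C A}
    (h : R ≤ S) {x : A} (hx : IsIntegral R x) : IsIntegral S x := by
  refine IsIntegral.map_of_comp_eq (Subalgebra.inclusion h).toRingHom (RingHom.id A) ?_ hx
  ext r
  rfl

/-! ### Polynomials in an element of positive order -/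

theorem descBound_aeval_pos_order {t : LaurentSeries C} (ht : 0 < t.order) (r : C[X]) :
    aeval t r ∈ descBoundPS (C := C) ∧ (aeval t r).coeff 0 = r.coeff 0 := by
  obtain ⟨T, hT⟩ := descBound_exists_coe_of_order_nonneg ht.le
  have hT0 : PowerSeries.constantCoeff T = 0 := by
    have h1 : t.coeff 0 = 0 := HahnSeries.coeff_eq_zero_of_lt_order ht
    rw [← hT] at h1
    have h2 := LaurentSeries.coeff_coe_powerSeries T 0
    rw [Nat.cast_zero] at h2
    rw [h2] at h1
    rwa [PowerSeries.coeff_zero_eq_constantCoeff] at h1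
  have key : aeval t r = HahnSeries.ofPowerSeries ℤ C (aeval T r) := by
    rw [aeval_def, aeval_def, Polynomial.hom_eval₂, hT]
    rfl
  refine ⟨descBound_mem_PS.mpr ⟨_, key.symm⟩, ?_⟩
  rw [key]
  have h2 := LaurentSeries.coeff_coe_powerSeries (aeval T r) 0
  rw [Nat.cast_zero] at h2
  rw [h2, PowerSeries.coeff_zero_eq_constantCoeff_apply, aeval_def, Polynomial.hom_eval₂, hT0,
    Polynomial.eval₂_at_zero]
  simp

/-! ### `j` of order `-1` -/

section J

variable {j : LaurentSeries C}

theorem descBound_j_ne_zero (hj : j.order = -1) : j ≠ 0 := by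
  rintro rfl
  simp at hj

theorem descBound_order_inv (hj : j.order = -1) : (j⁻¹).order = 1 := by
  have h0 := descBound_j_ne_zero hj
  have h1 : (j * j⁻¹).order = j.order + (j⁻¹).order := HahnSeries.order_mul h0 (inv_ne_zero h0)
  rw [mul_inv_cancel₀ h0, HahnSeries.order_one, hj] at h1
  omega

theorem descBound_aeval_eq (hj : j.order = -1) (b : C[X]) :
    aeval j b = aeval j⁻¹ b.reverse * j ^ b.natDegree := by
  have h0 := descBound_j_ne_zero hj
  let _ := invertibleOfNonzero h0
  have := Polynomial.eval₂_reverse_mul_pow (algebraMap C (LaurentSeries C)) j b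
  rw [invOf_eq_inv] at this
  rw [aeval_def, aeval_def, this]

theorem descBound_aeval_j (hj : j.order = -1) (b : C[X]) (hb : b ≠ 0) :
    aeval j b ≠ 0 ∧ (aeval j b).order = -(b.natDegree : ℤ) := by
  have h0 := descBound_j_ne_zero hj
  have ht : 0 < (j⁻¹).order := by rw [descBound_order_inv hj]; exact one_pos
  obtain ⟨hz, hz0⟩ := descBound_aeval_pos_order ht b.reverse
  rw [Polynomial.coeff_zero_reverse] at hz0
  have hlc : b.leadingCoeff ≠ 0 := Polynomial.leadingCoeff_ne_zero.mpr hb
  have hzc : (aeval j⁻¹ b.reverse).coeff 0 ≠ 0 := by rw [hz0]; exact hlc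
  have hzne : aeval j⁻¹ b.reverse ≠ 0 := HahnSeries.ne_zero_of_coeff_ne_zero hzc
  have hzo : (aeval j⁻¹ b.reverse).order = 0 :=
    le_antisymm (HahnSeries.order_le_of_coeff_ne_zero hzc) (descBound_order_nonneg_of_mem_PS hz)
  rw [descBound_aeval_eq hj b]
  refine ⟨mul_ne_zero hzne (pow_ne_zero _ h0), ?_⟩
  rw [HahnSeries.order_mul hzne (pow_ne_zero _ h0), hzo, HahnSeries.order_pow, hj]
  simp

theorem descBound_transcendental_j (hj : j.order = -1) : Transcendental C j := by
  rw [transcendental_iff]
  intro b hb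
  by_contra hb0
  exact (descBound_aeval_j hj b hb0).1 hb

theorem descBound_transcendental_inv (hj : j.order = -1) : Transcendental C j⁻¹ := by
  intro h
  have := h.inv
  rw [inv_inv] at this
  exact descBound_transcendental_j hj this

theorem descBound_order_nonpos_of_mem_adjoin (hj : j.order = -1) {c : LaurentSeries C}
    (hc : c ∈ Algebra.adjoin C {j}) (hc0 : c ≠ 0) : c.order ≤ 0 := by
  rw [Algebra.adjoin_singleton_eq_range_aeval] at hc
  obtain ⟨b, rfl⟩ := hc
  have hb : b ≠ 0 := by
    rintro rfl
    simp at hc0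
  have := (descBound_aeval_j hj b hb).2
  change (aeval j b).order = _ at this
  show (aeval j b).order ≤ 0
  rw [this]
  omega

theorem descBound_adjoin_inv_le_PS (hj : j.order = -1) :
    Algebra.adjoin C {j⁻¹} ≤ descBoundPS (C := C) := by
  rw [Algebra.adjoin_le_iff]
  rintro x hx
  rw [Set.mem_singleton_iff] at hx
  subst hx
  exact descBound_mem_PS_of_order_nonneg (by rw [descBound_order_inv hj]; exact zero_le_one)

/-- An element of `C[j]` times a high power of `t = j⁻¹` lies in `C[t]`. -/
theorem descBound_mul_inv_pow_mem (hj : j.order = -1) {c : LaurentSeries C}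
    (hc : c ∈ Algebra.adjoin C {j}) :
    ∃ D₀ : ℕ, ∀ k, D₀ ≤ k → c * j⁻¹ ^ k ∈ Algebra.adjoin C {j⁻¹} := by
  have h0 := descBound_j_ne_zero hj
  rw [Algebra.adjoin_singleton_eq_range_aeval] at hc
  obtain ⟨b, rfl⟩ := hc
  refine ⟨b.natDegree, fun k hk => ?_⟩
  show aeval j b * j⁻¹ ^ k ∈ _
  rw [descBound_aeval_eq hj b]
  have hk' : j⁻¹ ^ k = j⁻¹ ^ b.natDegree * j⁻¹ ^ (k - b.natDegree) := by
    rw [← pow_add, Nat.add_sub_cancel' hk]
  rw [hk', mul_assoc, ← mul_assoc (j ^ b.natDegree), ← mul_pow, mul_inv_cancel₀ h0, one_pow,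
    one_mul]
  refine Subalgebra.mul_mem _ ?_ (Subalgebra.pow_mem _ (Algebra.self_mem_adjoin_singleton C _) _)
  rw [Algebra.adjoin_singleton_eq_range_aeval]
  exact ⟨b.reverse, rfl⟩

end J

/-! ### Coefficients of minimal polynomials -/

open scoped IntermediateField.algebraAdjoinAdjoin

/-- For `s` transcendental over `C` and `x` integral over `C[s]`, the coefficients of the minimal
polynomial of `x` over `C(s)` lie in `C[s]`. -/
theorem descBound_coeff_minpoly_mem {s : LaurentSeries C} (hs : Transcendental C s)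
    {x : LaurentSeries C} (hx : IsIntegral (Algebra.adjoin C {s}) x) (i : ℕ) :
    (((minpoly (IntermediateField.adjoin C {s}) x).coeff i :
      IntermediateField.adjoin C {s}) : LaurentSeries C) ∈ Algebra.adjoin C {s} := by
  have : IsIntegrallyClosed (Algebra.adjoin C {s}) :=
    IsIntegrallyClosed.of_equiv (Polynomial.algEquivOfTranscendental C s hs).toRingEquiv
  rw [minpoly.isIntegrallyClosed_eq_field_fractions' (IntermediateField.adjoin C {s}) hx,
    coeff_map]
  exact ((minpoly (Algebra.adjoin C {s}) x).coeff i).2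

theorem descBound_adjoin_inv_eq {j : LaurentSeries C} :
    IntermediateField.adjoin C {j⁻¹} = IntermediateField.adjoin C {j} := by
  apply le_antisymm
  · rw [IntermediateField.adjoin_simple_le_iff]
    exact inv_mem (IntermediateField.mem_adjoin_simple_self C j)
  · rw [IntermediateField.adjoin_simple_le_iff]
    have := inv_mem (IntermediateField.mem_adjoin_simple_self C j⁻¹)
    rwa [inv_inv] at this

theorem descBound_minpoly_map_congr {E E' : IntermediateField C (LaurentSeries C)} (h : E = E')
    (x : LaurentSeries C) :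
    (minpoly E x).map (algebraMap E (LaurentSeries C))
      = (minpoly E' x).map (algebraMap E' (LaurentSeries C)) := by
  subst h
  rfl

/-- Evaluating a polynomial with coefficients in a subalgebra at an element of the subalgebra. -/
theorem descBound_eval_mem {A : Type*} [CommRing A] [Algebra C A] (S : Subalgebra C A)
    (p : A[X]) (hp : ∀ i, p.coeff i ∈ S) {u : A} (hu : u ∈ S) : p.eval u ∈ S := by
  rw [Polynomial.eval_eq_sum_range]
  exact Subalgebra.sum_mem _ fun i _ => Subalgebra.mul_mem _ (hp i) (Subalgebra.pow_mem _ hu i)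

/-- **The order bound.** -/
theorem descBound_order_add_le {j : LaurentSeries C} (hj : j.order = -1) (m : ℕ)
    {v : LaurentSeries C} (hv0 : v ≠ 0)
    (h1 : IsIntegral (Algebra.adjoin C {j}) v)
    (h2 : IsIntegral (Algebra.adjoin C {j⁻¹}) (v * j⁻¹ ^ m)) :
    v.order + m ≤ m * ((minpoly (IntermediateField.adjoin C {j}) v).natDegree : ℤ) := by
  have hj0 := descBound_j_ne_zero hj
  set E := IntermediateField.adjoin C {j} with hE
  have hvE : IsIntegral E v := h1.tower_top
  set P := minpoly E v with hP
  set d := P.natDegree with hd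
  -- the scalar `τ = t ^ m`
  let τ : E := ⟨j⁻¹, inv_mem (IntermediateField.mem_adjoin_simple_self C j)⟩ ^ m
  have hτL : (τ : LaurentSeries C) = j⁻¹ ^ m := by simp [τ]
  have hτ0 : τ ≠ 0 := by
    intro h
    have : (τ : LaurentSeries C) = 0 := by rw [h]; rfl
    rw [hτL] at this
    exact pow_ne_zero _ (inv_ne_zero hj0) this
  have hu : τ • v = v * j⁻¹ ^ m := by
    rw [Algebra.smul_def, mul_comm]
    congr 1
  have hsmul : minpoly E (τ • v) = P.scaleRoots τ := IsIntegrallyClosed.minpoly_smul hτ0 hvE
  -- constant coefficients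
  have hc0 : P.coeff 0 ≠ 0 := minpoly.coeff_zero_ne_zero hvE hv0
  have hc0L : ((P.coeff 0 : E) : LaurentSeries C) ≠ 0 := fun h => hc0 (Subtype.ext h)
  have hc0mem : ((P.coeff 0 : E) : LaurentSeries C) ∈ Algebra.adjoin C {j} :=
    descBound_coeff_minpoly_mem (descBound_transcendental_j hj) h1 0
  have hc0ord : ((P.coeff 0 : E) : LaurentSeries C).order ≤ 0 :=
    descBound_order_nonpos_of_mem_adjoin hj hc0mem hc0L
  -- the polynomial of `u = v t^m` over `L`
  set u := v * j⁻¹ ^ m with hu'
  have hu0 : u ≠ 0 := mul_ne_zero hv0 (pow_ne_zero _ (inv_ne_zero hj0))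
  set Q : (LaurentSeries C)[X] := (minpoly E u).map (algebraMap E (LaurentSeries C)) with hQ
  have hQcoeff : ∀ i, Q.coeff i ∈ descBoundPS (C := C) := by
    intro i
    have h3 := descBound_coeff_minpoly_mem (descBound_transcendental_inv hj) h2 i
    have h4 := descBound_minpoly_map_congr (descBound_adjoin_inv_eq (j := j)) u
    have h5 : Q.coeff i = ((minpoly (IntermediateField.adjoin C {j⁻¹}) u).map
        (algebraMap (IntermediateField.adjoin C {j⁻¹}) (LaurentSeries C))).coeff i := by
      rw [hQ, ← h4]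
    rw [h5, coeff_map]
    exact descBound_adjoin_inv_le_PS hj h3
  have huPS : u ∈ descBoundPS (C := C) :=
    descBound_mem_PS_of_isIntegral (descBound_isIntegral_mono (descBound_adjoin_inv_le_PS hj) h2)
  have hQu : Q.eval u = 0 := by
    rw [hQ, Polynomial.eval_map, ← Polynomial.aeval_def]
    exact minpoly.aeval E u
  have hQ0 : Q.coeff 0 = ((P.coeff 0 : E) : LaurentSeries C) * j⁻¹ ^ (m * d) := by
    rw [hQ, coeff_map, ← hu, hsmul, coeff_scaleRoots, Nat.sub_zero]
    show ((P.coeff 0 * τ ^ P.natDegree : E) : LaurentSeries C) = _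
    push_cast
    rw [hτL, ← pow_mul]
  have hQ0ne : Q.coeff 0 ≠ 0 := by
    rw [hQ0]
    exact mul_ne_zero hc0L (pow_ne_zero _ (inv_ne_zero hj0))
  -- `Q = divX Q * X + C (Q.coeff 0)`
  have hz : Q.divX.eval u ∈ descBoundPS (C := C) :=
    descBound_eval_mem _ _ (fun i => by rw [coeff_divX]; exact hQcoeff _) huPS
  have hrel : Q.divX.eval u * u + Q.coeff 0 = 0 := by
    have := congrArg (Polynomial.eval u) (Polynomial.divX_mul_X_add Q)
    rw [Polynomial.eval_add, Polynomial.eval_mul, Polynomial.eval_X, Polynomial.eval_C, hQu]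
      at this
    exact this
  have hzne : Q.divX.eval u ≠ 0 := by
    intro h
    rw [h, zero_mul, zero_add] at hrel
    exact hQ0ne hrel
  have hord : (Q.coeff 0).order = (Q.divX.eval u).order + u.order := by
    have : Q.coeff 0 = -(Q.divX.eval u * u) := eq_neg_of_add_eq_zero_right hrel
    rw [this, HahnSeries.order_neg, HahnSeries.order_mul hzne hu0]
  have hzord : 0 ≤ (Q.divX.eval u).order := descBound_order_nonneg_of_mem_PS hz
  have huord : u.order = v.order + m := by
    rw [hu', HahnSeries.order_mul hv0 (pow_ne_zero _ (inv_ne_zero hj0)), HahnSeries.order_pow,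
      descBound_order_inv hj]
    simp
  have hQ0ord : (Q.coeff 0).order = ((P.coeff 0 : E) : LaurentSeries C).order + (m * d : ℕ) := by
    rw [hQ0, HahnSeries.order_mul hc0L (pow_ne_zero _ (inv_ne_zero hj0)), HahnSeries.order_pow,
      descBound_order_inv hj]
    simp
  have : v.order + m ≤ (m * d : ℕ) := by
    have h6 : u.order ≤ (Q.coeff 0).order := by rw [hord]; omega
    rw [huord, hQ0ord] at h6
    omega
  exact_mod_cast this

/-- The order bound with an explicit degree bound `D`. -/
theorem descBound_order_le {j : LaurentSeries C} (hj : j.order = -1) (m D : ℕ)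
    {v : LaurentSeries C} (hv0 : v ≠ 0)
    (h1 : IsIntegral (Algebra.adjoin C {j}) v)
    (h2 : IsIntegral (Algebra.adjoin C {j⁻¹}) (v * j⁻¹ ^ m))
    (hD : (minpoly (IntermediateField.adjoin C {j}) v).natDegree ≤ D) :
    v.order ≤ m * D := by
  have h := descBound_order_add_le hj m hv0 h1 h2
  have h' : (m : ℤ) * ((minpoly (IntermediateField.adjoin C {j}) v).natDegree : ℤ) ≤ m * D := by
    exact_mod_cast Nat.mul_le_mul_left m hD
  have hm : (0 : ℤ) ≤ m := Int.natCast_nonneg m
  omega

end Fermat.Agent.S29.H152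

end
-- ===== PACK-END S29/H152/DescBound.lean

-- ===== PACK-BEGIN S37/H400/KronSection.lean
section
/-
S37 / helper400 — piece KRON, part (K1): `p`-sections of Laurent series and the section matrix.

For `f ∈ R((T))` the *section matrix* `secMat p f ∈ Mat_p(R((q)))` is the matrix of multiplication
by `f` on `R((T))`, seen as a free module over `V_p (R((q)))` (`V_p = qExpand R p : q ↦ T ^ p`) with
basis `1, T, …, T^{p-1}`.  We prove that `secMat p` is multiplicative, sends `V_p a` to the scalar
matrix `a`, and satisfies Cayley–Hamilton in the form `(charpoly.map V_p).eval f = 0`.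

(The section matrix idea is due to helper807, `S28/H807/Section.lean`; this file is an independent
self-contained development with the multiplicative structure needed for the Kronecker congruence.)
-/




set_option autoImplicit false

noncomputable section

open ModularCurve HahnSeries Polynomial Matrix

namespace Fermat.Agent.S37.H400

variable {R : Type*} [CommRing R]

/-- The `r`-th `p`-section `∑ₘ f_{pm+r} qᵐ` of a Laurent series `f`. -/
def secL (p : ℕ) [NeZero p] (r : ℤ) (f : LaurentSeries R) : LaurentSeries R :=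
  HahnSeries.ofSuppBddBelow (fun m : ℤ => f.coeff ((p : ℤ) * m + r))
    ⟨(f.order - r) / (p : ℤ), by
      intro m hm
      by_contra hlt
      apply hm
      apply HahnSeries.coeff_eq_zero_of_lt_order
      have hp : (0 : ℤ) < (p : ℤ) := by exact_mod_cast Nat.pos_of_ne_zero (NeZero.ne p)
      have h1 : m + 1 ≤ (f.order - r) / (p : ℤ) := not_le.mp hlt
      have h2 : (m + 1) * (p : ℤ) ≤ f.order - r := (Int.le_ediv_iff_mul_le hp).mp h1
      nlinarith⟩

@[simp]
theorem secL_coeff (p : ℕ) [NeZero p] (r : ℤ) (f : LaurentSeries R) (m : ℤ) :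
    (secL p r f).coeff m = f.coeff ((p : ℤ) * m + r) := rfl

theorem secL_coeffMap {S : Type*} [CommRing S] (φ : R →+* S) (p : ℕ) [NeZero p] (r : ℤ)
    (f : LaurentSeries R) : secL p r (coeffMap φ f) = coeffMap φ (secL p r f) := by
  ext m
  simp

theorem secL_add (p : ℕ) [NeZero p] (r : ℤ) (f g : LaurentSeries R) :
    secL p r (f + g) = secL p r f + secL p r g := by
  ext m
  simp

theorem secL_zero (p : ℕ) [NeZero p] (r : ℤ) : secL p r (0 : LaurentSeries R) = 0 := by
  ext m
  simp

theorem secL_sum (p : ℕ) [NeZero p] (r : ℤ) {ι : Type*} (s : Finset ι)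
    (F : ι → LaurentSeries R) : secL p r (∑ i ∈ s, F i) = ∑ i ∈ s, secL p r (F i) := by
  classical
  induction s using Finset.induction_on with
  | empty => simp [secL_zero]
  | insert a s ha ih => rw [Finset.sum_insert ha, Finset.sum_insert ha, secL_add, ih]

/-- Shifting by `T ^ k` shifts the section index. -/
theorem secL_mul_single (p : ℕ) [NeZero p] (r k : ℤ) (f : LaurentSeries R) :
    secL p r (f * HahnSeries.single k (1 : R)) = secL p (r - k) f := by
  ext m
  rw [secL_coeff, secL_coeff]
  have : (p : ℤ) * m + r = ((p : ℤ) * m + (r - k)) + k := by ring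
  rw [this, HahnSeries.coeff_mul_single_add, mul_one]

/-- The recombination `∑ᵢ V_p(aᵢ) Tⁱ` of a family of sections. -/
def recomb (p : ℕ) [NeZero p] (a : Fin p → LaurentSeries R) : LaurentSeries R :=
  ∑ i : Fin p, qExpand R p (a i) * HahnSeries.single ((i : ℕ) : ℤ) (1 : R)

theorem coeff_qExpand_mul_single (p : ℕ) [NeZero p] (a : LaurentSeries R) (i : Fin p)
    (m : ℤ) (j : Fin p) :
    (qExpand R p a * HahnSeries.single ((i : ℕ) : ℤ) (1 : R)).coeff
        ((p : ℤ) * m + ((j : ℕ) : ℤ)) = if j = i then a.coeff m else 0 := by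
  have hi : ((i : ℕ) : ℤ) < p := by exact_mod_cast i.2
  have hj : ((j : ℕ) : ℤ) < p := by exact_mod_cast j.2
  have hi0 : (0 : ℤ) ≤ ((i : ℕ) : ℤ) := by positivity
  have hj0 : (0 : ℤ) ≤ ((j : ℕ) : ℤ) := by positivity
  have h : (p : ℤ) * m + ((j : ℕ) : ℤ) =
      ((p : ℤ) * m + ((j : ℕ) : ℤ) - ((i : ℕ) : ℤ)) + ((i : ℕ) : ℤ) := by ring
  rw [h, HahnSeries.coeff_mul_single_add, mul_one]
  split_ifs with hji
  · subst hji
    rw [add_sub_cancel_right, qExpand_coeff_mul]
  · apply qExpand_coeff_of_not_dvd
    intro hd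
    apply hji
    apply Fin.ext
    have h2 : (p : ℤ) ∣ ((j : ℕ) : ℤ) - ((i : ℕ) : ℤ) := by
      have : (p : ℤ) * m + ((j : ℕ) : ℤ) - ((i : ℕ) : ℤ)
          = (p : ℤ) * m + (((j : ℕ) : ℤ) - ((i : ℕ) : ℤ)) := by ring
      rw [this] at hd
      exact (Int.dvd_add_right (dvd_mul_right _ _)).mp hd
    obtain ⟨c, hc⟩ := h2
    have hc0 : c = 0 := by
      by_contra hne
      rcases lt_or_gt_of_ne hne with hlt | hgt
      · have : (p : ℤ) * c ≤ (p : ℤ) * (-1) := by
          apply mul_le_mul_of_nonneg_left _ (by positivity)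
          omega
        omega
      · have : (p : ℤ) * 1 ≤ (p : ℤ) * c := by
          apply mul_le_mul_of_nonneg_left _ (by positivity)
          omega
        omega
    rw [hc0, mul_zero] at hc
    have : ((j : ℕ) : ℤ) = ((i : ℕ) : ℤ) := by omega
    exact_mod_cast this

/-- Sections of a recombination. -/
theorem secL_recomb (p : ℕ) [NeZero p] (a : Fin p → LaurentSeries R) (j : Fin p) :
    secL p ((j : ℕ) : ℤ) (recomb p a) = a j := by
  ext m
  rw [secL_coeff, recomb, HahnSeries.coeff_sum]
  simp_rw [coeff_qExpand_mul_single]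
  simp

/-- Every Laurent series is the recombination of its sections. -/
theorem recomb_secL (p : ℕ) [NeZero p] (f : LaurentSeries R) :
    recomb p (fun i : Fin p => secL p ((i : ℕ) : ℤ) f) = f := by
  have hp : (0 : ℤ) < (p : ℤ) := by exact_mod_cast Nat.pos_of_ne_zero (NeZero.ne p)
  ext n
  have hlt : (n % (p : ℤ)).toNat < p := by
    have h1 : n % (p : ℤ) < p := Int.emod_lt_of_pos n hp
    have h0 : 0 ≤ n % (p : ℤ) := Int.emod_nonneg n hp.ne'
    omega
  set j : Fin p := ⟨(n % (p : ℤ)).toNat, hlt⟩ with hj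
  have hjv : ((j : ℕ) : ℤ) = n % (p : ℤ) := by
    simp only [hj]
    exact Int.toNat_of_nonneg (Int.emod_nonneg n hp.ne')
  have hn : n = (p : ℤ) * (n / (p : ℤ)) + ((j : ℕ) : ℤ) := by
    rw [hjv]; have := Int.emod_add_mul_ediv n (p : ℤ); linarith
  rw [recomb, HahnSeries.coeff_sum]
  conv_lhs =>
    enter [2, i]
    rw [hn, coeff_qExpand_mul_single]
  simp only [Finset.sum_ite_eq, Finset.mem_univ, if_true, secL_coeff]
  rw [← hn]

/-- `V_p`-semilinearity of the sections. -/
theorem secL_qExpand_mul (p : ℕ) [NeZero p] (a h : LaurentSeries R) (j : Fin p) :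
    secL p ((j : ℕ) : ℤ) (qExpand R p a * h) = a * secL p ((j : ℕ) : ℤ) h := by
  conv_lhs => rw [← recomb_secL p h]
  have : qExpand R p a * recomb p (fun i : Fin p => secL p ((i : ℕ) : ℤ) h)
      = recomb p (fun i : Fin p => a * secL p ((i : ℕ) : ℤ) h) := by
    simp only [recomb, Finset.mul_sum, map_mul, mul_assoc]
  rw [this, secL_recomb]

/-- The section matrix of `f`: entry `(i', i)` is the `i'`-th section of `f · Tⁱ`,
i.e. the `(i' - i)`-th section of `f`. -/
def secMat (p : ℕ) [NeZero p] (f : LaurentSeries R) :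
    Matrix (Fin p) (Fin p) (LaurentSeries R) :=
  fun i' i => secL p ((i' : ℕ) : ℤ) (f * HahnSeries.single ((i : ℕ) : ℤ) (1 : R))

theorem secMat_apply (p : ℕ) [NeZero p] (f : LaurentSeries R) (i' i : Fin p) :
    secMat p f i' i = secL p ((i' : ℕ) : ℤ) (f * HahnSeries.single ((i : ℕ) : ℤ) (1 : R)) :=
  rfl

theorem secMat_apply' (p : ℕ) [NeZero p] (f : LaurentSeries R) (i' i : Fin p) :
    secMat p f i' i = secL p (((i' : ℕ) : ℤ) - ((i : ℕ) : ℤ)) f := by
  rw [secMat_apply, secL_mul_single]

theorem secMat_coeffMap {S : Type*} [CommRing S] (φ : R →+* S) (p : ℕ) [NeZero p]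
    (f : LaurentSeries R) :
    secMat p (coeffMap φ f) = (secMat p f).map (coeffMap φ) := by
  ext i' i : 1
  simp only [secMat_apply', Matrix.map_apply, secL_coeffMap]

/-- Key identity: `f · Tⁱ = ∑_{i'} V_p(M_{i',i}) · T^{i'}`. -/
theorem mul_single_eq_recomb (p : ℕ) [NeZero p] (f : LaurentSeries R) (i : Fin p) :
    f * HahnSeries.single ((i : ℕ) : ℤ) (1 : R) = recomb p (fun i' => secMat p f i' i) :=
  (recomb_secL p _).symm

/-- The section matrix is multiplicative. -/
theorem secMat_mul (p : ℕ) [NeZero p] (f g : LaurentSeries R) :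
    secMat p (f * g) = secMat p f * secMat p g := by
  ext i' i : 1
  have hmul : (secMat p f * secMat p g) i' i = ∑ j, secMat p f i' j * secMat p g j i :=
    Matrix.mul_apply
  rw [hmul, secMat_apply, mul_assoc, mul_single_eq_recomb p g i, recomb,
    Finset.mul_sum, secL_sum p _ Finset.univ]
  apply Finset.sum_congr rfl
  intro j _
  rw [← mul_assoc, mul_comm f, mul_assoc, secL_qExpand_mul, mul_comm]
  rfl

theorem secL_single_one (p : ℕ) [NeZero p] (i' i : Fin p) :
    secL p ((i' : ℕ) : ℤ) (HahnSeries.single ((i : ℕ) : ℤ) (1 : R)) =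
      if i' = i then 1 else 0 := by
  have h := secL_recomb p (fun j : Fin p => if j = i then (1 : LaurentSeries R) else 0) i'
  have h2 : recomb p (fun j : Fin p => if j = i then (1 : LaurentSeries R) else 0)
      = HahnSeries.single ((i : ℕ) : ℤ) (1 : R) := by
    rw [recomb, Finset.sum_eq_single i]
    · simp
    · intro b _ hb; simp [hb]
    · intro h; exact absurd (Finset.mem_univ _) h
  rw [h2] at h
  exact h

/-- The section matrix of `V_p a` is the scalar matrix `a`. -/
theorem secMat_qExpand (p : ℕ) [NeZero p] (a : LaurentSeries R) :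
    secMat p (qExpand R p a) = Matrix.scalar (Fin p) a := by
  ext i' i : 1
  rw [secMat_apply, secL_qExpand_mul, secL_single_one, Matrix.scalar_apply,
    Matrix.diagonal_apply]
  split_ifs <;> simp

theorem secMat_one (p : ℕ) [NeZero p] : secMat p (1 : LaurentSeries R) = 1 := by
  have := secMat_qExpand p (1 : LaurentSeries R)
  rwa [map_one, map_one] at this

theorem secMat_pow (p : ℕ) [NeZero p] (f : LaurentSeries R) (n : ℕ) :
    secMat p (f ^ n) = secMat p f ^ n := by
  induction n with
  | zero => rw [pow_zero, pow_zero, secMat_one]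
  | succ n ih => rw [pow_succ, pow_succ, secMat_mul, ih]

/-- **Cayley–Hamilton for the section matrix**: the characteristic polynomial of `secMat p f`,
with coefficients pushed along `V_p`, kills `f`. -/
theorem secMat_charpoly_eval (p : ℕ) [NeZero p] (f : LaurentSeries R) :
    (((secMat p f).charpoly).map (qExpand R p)).eval f = 0 := by
  set A : Matrix (Fin p) (Fin p) (LaurentSeries R) := (secMat p f).map (qExpand R p) with hA
  set v : Fin p → LaurentSeries R := fun i => HahnSeries.single ((i : ℕ) : ℤ) (1 : R) with hv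
  set B : Matrix (Fin p) (Fin p) (LaurentSeries R) := Matrix.scalar (Fin p) f - Aᵀ with hB
  have hBv : B *ᵥ v = 0 := by
    funext i
    simp only [hB, Matrix.sub_mulVec, Pi.sub_apply, Pi.zero_apply]
    rw [sub_eq_zero]
    have h1 : (Matrix.scalar (Fin p) f *ᵥ v) i = f * v i := by
      simp [Matrix.scalar_apply, Matrix.mulVec, dotProduct, Matrix.diagonal_apply]
    rw [h1]
    simp only [Matrix.mulVec, dotProduct, Matrix.transpose_apply, hA, Matrix.map_apply, hv]
    exact mul_single_eq_recomb p f i
  have hdet : B.det • v = 0 := by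
    have h : (Matrix.adjugate B * B) *ᵥ v = (B.det • (1 : Matrix (Fin p) (Fin p) _)) *ᵥ v := by
      rw [Matrix.adjugate_mul]
    rw [← Matrix.mulVec_mulVec, hBv, Matrix.mulVec_zero] at h
    rw [Matrix.smul_mulVec, Matrix.one_mulVec] at h
    exact h.symm
  have h0 : B.det * v ⟨0, Nat.pos_of_ne_zero (NeZero.ne p)⟩ = 0 := by
    have := congrFun hdet ⟨0, Nat.pos_of_ne_zero (NeZero.ne p)⟩
    simpa using this
  have hv0 : v ⟨0, Nat.pos_of_ne_zero (NeZero.ne p)⟩ = 1 := by
    simp only [hv]
    rfl
  rw [hv0, mul_one] at h0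
  rw [← Matrix.charpoly_map, ← hA, ← Matrix.charpoly_transpose, Matrix.eval_charpoly]
  exact h0

end Fermat.Agent.S37.H400

end

end
-- ===== PACK-END S37/H400/KronSection.lean

-- ===== PACK-BEGIN S29/H102/RootDesc.lean
section
/-
S29 / M4b / K4 (helper102) — ROOT DESCENT for Laurent series.

If `K` is an algebraically closed field, `ι : K →+* L` a ring hom into a field of characteristic
zero and `s ∈ L((q))` satisfies `s ^ p = coeffMap ι w` for some `w ∈ K((q))`, `p ≠ 0`, then all
coefficients of `s` lie in the image of `ι`, i.e. `s = coeffMap ι v` for some `v ∈ K((q))`.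

Proof: the power series part `P` of `s` satisfies the linear differential equation
`G' * P = p • (G * P')` with `G = P ^ p` (coefficients in `ι K`), which determines the coefficients
of `P` recursively from the constant one; the constant coefficient is a root of `X ^ p - ι c`.

Mathlib + Prelude `coeffMap` only.  Namespace `Fermat.Agent.S29.H102`.
-/



set_option autoImplicit false

noncomputable section

namespace Fermat.Agent.S29.H102

open ModularCurve PowerSeries

variable {K L : Type*} [Field K] [Field L]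

/-- An element of `L` which is a root of `X ^ p - ι c` lies in the image of the algebraically
closed field `K`. -/
theorem RootDesc_const [IsAlgClosed K] (ι : K →+* L) {p : ℕ} (hp : p ≠ 0) {a : L} {c : K}
    (h : a ^ p = ι c) : a ∈ ι.fieldRange := by
  classical
  let _ : Algebra K L := ι.toAlgebra
  have halg : IsAlgebraic K a := by
    refine ⟨Polynomial.X ^ p - Polynomial.C c, ?_, ?_⟩
    · exact Polynomial.X_pow_sub_C_ne_zero (Nat.pos_of_ne_zero hp) c
    · simp only [map_sub, map_pow, Polynomial.aeval_X, Polynomial.aeval_C]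
      rw [h]
      exact sub_self _
  have hint : IsIntegral K a := halg.isIntegral
  have hq : (minpoly K a).leadingCoeff = 1 := minpoly.monic hint
  have hdeg : (minpoly K a).degree = 1 :=
    IsAlgClosed.degree_eq_one_of_irreducible K (minpoly.irreducible hint)
  have h0 : Polynomial.aeval a (minpoly K a) = 0 := minpoly.aeval K a
  rw [Polynomial.eq_X_add_C_of_degree_eq_one hdeg, hq, Polynomial.C_1, one_mul,
    Polynomial.aeval_add, Polynomial.aeval_X, Polynomial.aeval_C,
    add_eq_zero_iff_eq_neg] at h0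
  rw [RingHom.mem_fieldRange]
  refine ⟨-(minpoly K a).coeff 0, ?_⟩
  have h1 : ι (-(minpoly K a).coeff 0) = -(algebraMap K L) ((minpoly K a).coeff 0) :=
    map_neg ι _
  rw [h1]
  exact h0.symm

/-- The differential equation satisfied by a `p`-th root. -/
theorem RootDesc_ode (P : PowerSeries L) (p : ℕ) (hp : p ≠ 0) :
    (d⁄dX L) (P ^ p) * P = (p : PowerSeries L) * (P ^ p * (d⁄dX L) P) := by
  rw [Derivation.leibniz_pow, nsmul_eq_mul, smul_eq_mul]
  have h1 : P ^ p = P ^ (p - 1) * P := by
    rw [← pow_succ, Nat.sub_add_cancel (Nat.one_le_iff_ne_zero.mpr hp)]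
  rw [h1]
  ring

/-- Power series version of root descent. -/
theorem RootDesc_powerSeries [IsAlgClosed K] [CharZero L] (ι : K →+* L) {p : ℕ} (hp : p ≠ 0)
    (P : PowerSeries L) (Q : PowerSeries K) (hP0 : constantCoeff P ≠ 0)
    (h : P ^ p = Q.map ι) : ∀ k, coeff k P ∈ ι.fieldRange := by
  classical
  have hG : ∀ i, coeff i (P ^ p) ∈ ι.fieldRange := by
    intro i
    rw [h, coeff_map]
    exact RingHom.mem_fieldRange.mpr ⟨_, rfl⟩
  have hG0 : coeff 0 (P ^ p) ≠ 0 := by
    rw [coeff_zero_eq_constantCoeff, map_pow]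
    exact pow_ne_zero p hP0
  have hnat : ∀ n : ℕ, (n : L) ∈ ι.fieldRange := fun n => natCast_mem _ n
  intro k
  induction k using Nat.strong_induction_on with
  | _ k ih =>
    rcases Nat.eq_zero_or_pos k with rfl | hk
    · have h0 : (coeff 0 P) ^ p = ι (coeff 0 Q) := by
        have := congrArg (coeff 0) h
        rw [coeff_map] at this
        rw [← this, coeff_zero_eq_constantCoeff, map_pow]
      exact RootDesc_const ι hp h0
    · obtain ⟨m, rfl⟩ : ∃ m, k = m + 1 := ⟨k - 1, (Nat.sub_add_cancel hk).symm⟩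
      have hode := congrArg (coeff m) (RootDesc_ode P p hp)
      have hcast : (p : PowerSeries L) = C (p : L) := by simp
      rw [hcast, coeff_C_mul] at hode
      have hmem : ((0, m) : ℕ × ℕ) ∈ Finset.HasAntidiagonal.antidiagonal m := by
        simp
      set A := ∑ x ∈ Finset.HasAntidiagonal.antidiagonal m,
        coeff (x.1 + 1) (P ^ p) * ((x.1 : L) + 1) * coeff x.2 P with hA
      set B := ∑ x ∈ (Finset.HasAntidiagonal.antidiagonal m).erase (0, m),
          coeff x.1 (P ^ p) * (coeff (x.2 + 1) P * ((x.2 : L) + 1)) with hB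
      have hLHS : coeff m ((d⁄dX L) (P ^ p) * P) = A := by
        rw [coeff_mul]
        simp only [coeff_derivative, hA]
      have hRHS : coeff m (P ^ p * (d⁄dX L) P)
          = coeff 0 (P ^ p) * (coeff (m + 1) P * ((m : L) + 1)) + B := by
        rw [coeff_mul, ← Finset.add_sum_erase _ _ hmem]
        simp only [coeff_derivative, hB]
      rw [hLHS, hRHS] at hode
      -- left side is in the subfield
      have hL : A ∈ ι.fieldRange := by
        refine Subfield.sum_mem _ fun x hx => ?_
        have h2 := Finset.HasAntidiagonal.mem_antidiagonal.mp hx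
        have hx2 : x.2 < m + 1 := by omega
        exact mul_mem (mul_mem (hG _) (add_mem (hnat _) (one_mem _))) (ih _ hx2)
      -- the remaining sum on the right is in the subfield
      have hR : B ∈ ι.fieldRange := by
        refine Subfield.sum_mem _ fun x hx => ?_
        have hx' := Finset.mem_erase.mp hx
        have h2 := Finset.HasAntidiagonal.mem_antidiagonal.mp hx'.2
        have hx1 : x.1 ≠ 0 := by
          intro h0
          apply hx'.1
          ext
          · exact h0
          · simp only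
            omega
        have hx2 : x.2 + 1 < m + 1 := by omega
        exact mul_mem (hG _) (mul_mem (ih _ hx2) (add_mem (hnat _) (one_mem _)))
      -- solve for the coefficient
      have hp0 : (p : L) ≠ 0 := Nat.cast_ne_zero.mpr hp
      have hm0 : ((m : L) + 1) ≠ 0 := by
        have : ((m + 1 : ℕ) : L) ≠ 0 := Nat.cast_ne_zero.mpr (Nat.succ_ne_zero m)
        simpa using this
      have hsolve : coeff (m + 1) P
          = (A - (p : L) * B) / ((p : L) * coeff 0 (P ^ p) * ((m : L) + 1)) := by
        rw [eq_div_iff (mul_ne_zero (mul_ne_zero hp0 hG0) hm0), hode]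
        ring
      rw [hsolve]
      exact div_mem (sub_mem hL (mul_mem (hnat p) hR))
        (mul_mem (mul_mem (hnat p) (hG 0)) (add_mem (hnat m) (one_mem _)))

/-- A Laurent series all of whose coefficients lie in the image of `ι` is a base change. -/
theorem RootDesc_exists_of_coeff_mem (ι : K →+* L) (s : LaurentSeries L)
    (h : ∀ n, s.coeff n ∈ ι.fieldRange) : ∃ v : LaurentSeries K, coeffMap ι v = s := by
  classical
  have hinv : Function.invFun ι 0 = 0 := by
    have := Function.leftInverse_invFun ι.injective (0 : K)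
    rwa [map_zero] at this
  refine ⟨s.map (⟨Function.invFun ι, hinv⟩ : ZeroHom L K), ?_⟩
  ext n
  obtain ⟨c, hc⟩ := RingHom.mem_fieldRange.mp (h n)
  simp only [coeffMap_coeff, HahnSeries.map_coeff, ZeroHom.coe_mk]
  rw [← hc, Function.leftInverse_invFun ι.injective c]

/-- **Root descent.**  A `p`-th root in `L((q))` of a Laurent series with coefficients in the
algebraically closed field `K` has coefficients in `K`. -/
theorem RootDesc_laurent [IsAlgClosed K] [CharZero L] (ι : K →+* L) {p : ℕ} (hp : p ≠ 0)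
    (s : LaurentSeries L) (w : LaurentSeries K) (h : s ^ p = coeffMap ι w) :
    ∃ v : LaurentSeries K, coeffMap ι v = s := by
  classical
  apply RootDesc_exists_of_coeff_mem
  by_cases hs : s = 0
  · intro n
    rw [hs]
    exact zero_mem _
  set n₀ := s.order with hn₀
  set P := s.powerSeriesPart with hP
  -- the shifted series
  set w' : LaurentSeries K := HahnSeries.single (-((p : ℤ) * n₀)) (1 : K) * w with hw'
  set Q : PowerSeries K := PowerSeries.mk fun k => w'.coeff k with hQ
  have hPs : HahnSeries.ofPowerSeries ℤ L P = HahnSeries.single (-n₀) (1 : L) * s :=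
    LaurentSeries.ofPowerSeries_powerSeriesPart s
  have hpow : HahnSeries.ofPowerSeries ℤ L (P ^ p) = coeffMap ι w' := by
    rw [map_pow, hPs, mul_pow, h, hw', map_mul, coeffMap_single, HahnSeries.single_pow,
      one_pow, ι.map_one]
    congr 2
    simp
  have hPQ : P ^ p = Q.map ι := by
    ext k
    rw [coeff_map, hQ, coeff_mk, ← HahnSeries.ofPowerSeries_apply_coeff (Γ := ℤ), hpow,
      coeffMap_coeff]
  have hP0 : constantCoeff P ≠ 0 := by
    rw [← coeff_zero_eq_constantCoeff_apply, hP, LaurentSeries.powerSeriesPart_coeff]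
    simpa using HahnSeries.coeff_order_eq_zero.not.mpr hs
  have hcoeff := RootDesc_powerSeries ι hp P Q hP0 hPQ
  intro n
  by_cases hn : n < n₀
  · rw [HahnSeries.coeff_eq_zero_of_lt_order hn]
    exact zero_mem _
  · obtain ⟨k, hk⟩ : ∃ k : ℕ, n = n₀ + k := by
      refine ⟨(n - n₀).toNat, ?_⟩
      have : 0 ≤ n - n₀ := by omega
      rw [Int.toNat_of_nonneg this]
      ring
    rw [hk, ← LaurentSeries.powerSeriesPart_coeff]
    exact hcoeff k

end Fermat.Agent.S29.H102

end
end
-- ===== PACK-END S29/H102/RootDesc.lean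

-- ===== PACK-BEGIN S29/H942/MeroRootLocal.lean
section






/-!
# Roots of analytic functions: a continuous `p`-th root of a non-vanishing analytic function is
analytic
-/

set_option autoImplicit false

noncomputable section

open Filter Topology Set Complex

namespace Fermat.Agent.S29.H942

/-- `1` is an isolated `p`-th root of unity. -/
lemma eventually_pow_eq_one_imp {p : ℕ} (hp : p ≠ 0) :
    ∀ᶠ t : ℂ in 𝓝 1, t ^ p = 1 → t = 1 := by
  have hfin : ({t : ℂ | t ^ p = 1} \ {1}).Finite := by
    refine Set.Finite.subset (Polynomial.nthRootsFinset p (1 : ℂ)).finite_toSet ?_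
    intro t ht
    simp only [Finset.mem_coe]
    exact (Polynomial.mem_nthRootsFinset (Nat.pos_of_ne_zero hp) _).2 ht.1
  have hopen : IsOpen (({t : ℂ | t ^ p = 1} \ {1})ᶜ) := hfin.isClosed.isOpen_compl
  have hmem : (1 : ℂ) ∈ ({t : ℂ | t ^ p = 1} \ {1})ᶜ := by simp
  filter_upwards [hopen.mem_nhds hmem] with t ht h1
  by_contra hne
  exact ht ⟨h1, hne⟩

/-- A function which is continuous at `z₀` and whose `p`-th power is analytic and non-zero at `z₀`
is analytic at `z₀`. -/
theorem analyticAt_of_continuousAt_of_pow {r g : ℂ → ℂ} {z₀ : ℂ} {p : ℕ} (hp : p ≠ 0)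
    (hr : ContinuousAt r z₀) (hg : AnalyticAt ℂ g z₀) (hpow : ∀ᶠ z in 𝓝 z₀, r z ^ p = g z)
    (hne : g z₀ ≠ 0) : AnalyticAt ℂ r z₀ := by
  have hpz : r z₀ ^ p = g z₀ := hpow.self_of_nhds
  have hc : r z₀ ≠ 0 := by
    intro h
    rw [h, zero_pow hp] at hpz
    exact hne hpz.symm
  have hpC : (p : ℂ) ≠ 0 := by exact_mod_cast hp
  -- the analytic candidate
  set s : ℂ → ℂ := fun z => r z₀ * exp (log (g z / g z₀) / p) with hs
  have hq : AnalyticAt ℂ (fun z => g z / g z₀) z₀ := hg.div analyticAt_const hne
  have hq1 : (fun z => g z / g z₀) z₀ ∈ slitPlane := by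
    simp only [div_self hne]
    exact one_mem_slitPlane
  have hlog : AnalyticAt ℂ (fun z => log (g z / g z₀)) z₀ := hq.clog hq1
  have hsA : AnalyticAt ℂ s z₀ :=
    analyticAt_const.mul ((hlog.div analyticAt_const hpC).cexp)
  have hs0 : s z₀ = r z₀ := by
    simp [hs, div_self hne]
  have hgne : ∀ᶠ z in 𝓝 z₀, g z ≠ 0 := hg.continuousAt.eventually_ne hne
  have hspow : ∀ᶠ z in 𝓝 z₀, s z ^ p = g z := by
    filter_upwards [hgne] with z hz
    have h1 : g z / g z₀ ≠ 0 := div_ne_zero hz hne
    simp only [hs, mul_pow]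
    rw [← exp_nat_mul, mul_div_cancel₀ _ hpC, exp_log h1, hpz]
    field_simp
  have hsne : ∀ᶠ z in 𝓝 z₀, s z ≠ 0 := hsA.continuousAt.eventually_ne (by rw [hs0]; exact hc)
  -- the quotient is continuous with value `1` at `z₀`, and a root of unity
  have hquot : ContinuousAt (fun z => r z / s z) z₀ :=
    hr.div hsA.continuousAt (by rw [hs0]; exact hc)
  have hquot1 : (fun z => r z / s z) z₀ = 1 := by
    simp only [hs0, div_self hc]
  have hev : ∀ᶠ z in 𝓝 z₀, (r z / s z) ^ p = 1 → r z / s z = 1 := by
    have h1 : Tendsto (fun z => r z / s z) (𝓝 z₀) (𝓝 1) := by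
      have := hquot.tendsto
      have h2 : r z₀ / s z₀ = 1 := hquot1
      rwa [h2] at this
    exact h1.eventually (eventually_pow_eq_one_imp hp)
  have heq : r =ᶠ[𝓝 z₀] s := by
    filter_upwards [hev, hpow, hspow, hsne] with z h1 h2 h3 h4
    have : (r z / s z) ^ p = 1 := by
      rw [div_pow, h2, h3, div_self]
      rw [← h3]
      exact pow_ne_zero p h4
    have h5 := h1 this
    rwa [div_eq_one_iff_eq h4] at h5
  exact hsA.congr heq.symm

/-- A continuous `p`-th root of a non-vanishing analytic function on an open set is analytic. -/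
theorem analyticOnNhd_of_continuousOn_of_pow {r g : ℂ → ℂ} {U : Set ℂ} (hU : IsOpen U) {p : ℕ}
    (hp : p ≠ 0) (hr : ContinuousOn r U) (hg : AnalyticOnNhd ℂ g U)
    (hpow : ∀ z ∈ U, r z ^ p = g z) (hne : ∀ z ∈ U, g z ≠ 0) : AnalyticOnNhd ℂ r U := by
  intro z hz
  refine analyticAt_of_continuousAt_of_pow hp (hr.continuousAt (hU.mem_nhds hz)) (hg z hz) ?_
    (hne z hz)
  filter_upwards [hU.mem_nhds hz] with w hw using hpow w hw

/-- Existence of analytic `p`-th roots of non-vanishing analytic functions on simply connected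
open sets. -/
theorem exists_analyticOnNhd_pow_eq {g : ℂ → ℂ} {U : Set ℂ} (hUc : IsSimplyConnected U)
    (hU : IsOpen U) {p : ℕ} (hp : p ≠ 0) (hg : AnalyticOnNhd ℂ g U) (hne : ∀ z ∈ U, g z ≠ 0) :
    ∃ r : ℂ → ℂ, AnalyticOnNhd ℂ r U ∧ ∀ z, r z ^ p = g z := by
  have h0 : (0 : ℂ) ∉ g '' U := by
    rintro ⟨z, hz, h⟩
    exact hne z hz h
  obtain ⟨r, hrc, hr⟩ := exists_continuousOn_pow_eq hUc hU hg.continuousOn h0 hp
  exact ⟨r, analyticOnNhd_of_continuousOn_of_pow hU hp hrc hg (fun z _ => hr z) hne, hr⟩

/-- Open convex nonempty sets are simply connected. -/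
lemma isSimplyConnected_of_convex {U : Set ℂ} (hU : Convex ℝ U) (hne : U.Nonempty) :
    IsSimplyConnected U := by
  have := hU.contractibleSpace hne
  show SimplyConnectedSpace U
  infer_instance

end Fermat.Agent.S29.H942

end
end
-- ===== PACK-END S29/H942/MeroRootLocal.lean

-- ===== PACK-BEGIN S28/H807/IntLemma.lean
section
/-
S28 / helper807 — formal integrality: a complex polynomial in `j` whose `q`-expansion has
integer coefficients is an integer polynomial in `j`.
-/




set_option autoImplicit false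
set_option maxHeartbeats 400000

noncomputable section

open ModularCurve

namespace Fermat.Agent.S28.H807

variable (A : Type*) [CommRing A]

theorem jqModC_pow_eq (k : ℕ) :
    jqModC A ^ k = HahnSeries.single (-(k : ℤ)) (1 : A) *
      HahnSeries.ofPowerSeries ℤ A ((jNum.map (Int.castRingHom A)) ^ k) := by
  have h : k • (-1 : ℤ) = -(k : ℤ) := by simp
  rw [jqModC, mul_pow, HahnSeries.single_pow, one_pow, h, ← map_pow]

theorem jqModC_pow_coeff_of_lt (k : ℕ) {m : ℤ} (h : m < -(k : ℤ)) :
    (jqModC A ^ k).coeff m = 0 := by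
  rw [jqModC_pow_eq, HahnSeries.coeff_single_mul, one_mul]
  exact ofPowerSeries_coeff_of_neg _ (by linarith)

theorem jqModC_pow_coeff_self (k : ℕ) : (jqModC A ^ k).coeff (-(k : ℤ)) = 1 := by
  rw [jqModC_pow_eq, HahnSeries.coeff_single_mul, one_mul, sub_self]
  have h0 : ((0 : ℕ) : ℤ) = 0 := rfl
  rw [← h0, HahnSeries.ofPowerSeries_apply_coeff, PowerSeries.coeff_zero_eq_constantCoeff,
    map_pow]
  have : PowerSeries.constantCoeff (jNum.map (Int.castRingHom A)) = 1 := by
    rw [← PowerSeries.coeff_zero_eq_constantCoeff, PowerSeries.coeff_map,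
      PowerSeries.coeff_zero_eq_constantCoeff, constantCoeff_jNum]
    simp
  rw [this, one_pow]

/-- Evaluation of a polynomial at `j`, as `eval₂` along the constant embedding. -/
def evalJ (P : Polynomial A) : LaurentSeries A := P.eval₂ HahnSeries.C (jqModC A)

theorem evalJ_coeff_neg_natDegree (P : Polynomial A) (n : ℕ) (hn : P.natDegree ≤ n) :
    (evalJ A P).coeff (-(n : ℤ)) = P.coeff n := by
  unfold evalJ
  rw [Polynomial.eval₂_eq_sum_range' (HahnSeries.C : A →+* LaurentSeries A)
    (Nat.lt_succ_of_le hn) (jqModC A), HahnSeries.coeff_sum]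
  rw [Finset.sum_eq_single n]
  · rw [show (HahnSeries.C : A →+* LaurentSeries A) (P.coeff n)
        = HahnSeries.single (0 : ℤ) (P.coeff n) from rfl,
      HahnSeries.coeff_single_mul, sub_zero, jqModC_pow_coeff_self, mul_one]
  · intro i hi hne
    have hi' : i < n := by
      have := Finset.mem_range.mp hi
      omega
    have h0 : (jqModC A ^ i).coeff (-(n : ℤ)) = 0 :=
      jqModC_pow_coeff_of_lt A i (by omega)
    rw [show (HahnSeries.C : A →+* LaurentSeries A) (P.coeff i)
        = HahnSeries.single (0 : ℤ) (P.coeff i) from rfl,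
      HahnSeries.coeff_single_mul, sub_zero, h0, mul_zero]
  · intro h
    exact absurd (Finset.mem_range.mpr (Nat.lt_succ_self n)) h

theorem coeffMap_jqModC_int : coeffMap (Int.castRingHom A) (jqModC ℤ) = jqModC A :=
  (jqModC_eq_map_intCast A).symm

theorem coeffMap_intCast_injective [CharZero A] :
    Function.Injective (coeffMap (Int.castRingHom A)) := by
  intro x y h
  ext n
  have := congrArg (fun z => z.coeff n) h
  simp only [coeffMap_coeff, eq_intCast] at this
  exact Int.cast_injective this

/-- Integer-polynomial evaluation at `j ∈ ℤ((q))`. -/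
def evalJZ (Q : Polynomial ℤ) : LaurentSeries ℤ := Q.eval₂ (Int.castRingHom _) (jqModC ℤ)

/-- **Integrality lemma.** -/
theorem exists_int_poly_of_evalJ_eq :
    ∀ (P : Polynomial ℂ) (c : LaurentSeries ℤ),
      evalJ ℂ P = coeffMap (Int.castRingHom ℂ) c → ∃ Q : Polynomial ℤ, evalJZ Q = c := by
  intro P
  induction' hcard : P.support.card using Nat.strong_induction_on with d ih generalizing P
  intro c h
  by_cases hP : P = 0
  · subst hP
    refine ⟨0, ?_⟩
    have h0 : coeffMap (Int.castRingHom ℂ) c = 0 := by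
      rw [← h]; simp [evalJ]
    have : c = 0 := coeffMap_intCast_injective ℂ (by rw [h0, map_zero])
    rw [this]; simp [evalJZ]
  · set n := P.natDegree with hn
    have hlead : (c.coeff (-(n : ℤ)) : ℂ) = P.coeff n := by
      have := evalJ_coeff_neg_natDegree ℂ P n le_rfl
      rw [h, coeffMap_coeff] at this
      simpa using this
    set z : ℤ := c.coeff (-(n : ℤ)) with hz
    set c' : LaurentSeries ℤ := c - (z : LaurentSeries ℤ) * jqModC ℤ ^ n with hc'
    have hP' : evalJ ℂ P.eraseLead = coeffMap (Int.castRingHom ℂ) c' := by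
      have h1 : P = P.eraseLead + Polynomial.monomial n (P.coeff n) := by
        rw [hn]
        exact (Polynomial.eraseLead_add_monomial_natDegree_leadingCoeff P).symm
      have h2 : evalJ ℂ P = evalJ ℂ P.eraseLead + HahnSeries.C (P.coeff n) * jqModC ℂ ^ n := by
        conv_lhs => rw [h1]
        simp [evalJ, Polynomial.eval₂_add, Polynomial.eval₂_monomial]
      rw [hc', map_sub, map_mul, map_pow, coeffMap_jqModC_int, ← h, h2, map_intCast]
      have h3 : HahnSeries.C (P.coeff n) = ((z : ℤ) : LaurentSeries ℂ) := by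
        rw [← hlead]
        simp
      rw [h3]; ring
    have hlt : P.eraseLead.support.card < d := by
      rw [← hcard]
      exact Polynomial.eraseLead_support_card_lt hP
    obtain ⟨Q', hQ'⟩ := ih _ hlt P.eraseLead rfl c' hP'
    refine ⟨Q' + Polynomial.C z * Polynomial.X ^ n, ?_⟩
    unfold evalJZ at *
    rw [Polynomial.eval₂_add, Polynomial.eval₂_mul, Polynomial.eval₂_C, Polynomial.eval₂_pow,
      Polynomial.eval₂_X, hQ', hc']
    simp

end Fermat.Agent.S28.H807

end

end
-- ===== PACK-END S28/H807/IntLemma.lean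

-- ===== PACK-BEGIN S28/H806/Transcend.lean
section



set_option autoImplicit false
set_option linter.unusedSectionVars false
set_option linter.style.haveILetI false

noncomputable section

namespace Fermat.Agent.S28.H806

open Polynomial ModularCurve

section LemmaT

variable {D : Type*} [CommRing D] [IsDomain D]

theorem order_C_mul_pow (t : HahnSeries ℤ D) (ht : t ≠ 0) {c : D} (hc : c ≠ 0) (i : ℕ) :
    (HahnSeries.C c * t ^ i).order = (i : ℤ) * t.order := by
  have hC : (HahnSeries.C c : HahnSeries ℤ D) ≠ 0 := by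
    intro h
    exact hc (HahnSeries.C_injective (by rw [h, map_zero]))
  rw [HahnSeries.order_mul hC (pow_ne_zero _ ht), HahnSeries.order_pow, HahnSeries.order_C,
    zero_add, nsmul_eq_mul]

/-- **Lemma T.** A Laurent series of nonzero order is transcendental over the coefficients:
`∑ cᵢ tⁱ = 0` forces all `cᵢ = 0`. -/
theorem eq_zero_of_eval₂_C_eq_zero (t : HahnSeries ℤ D) (ht : t.order ≠ 0) (p : D[X])
    (hp : p.eval₂ (HahnSeries.C (Γ := ℤ) (R := D)) t = 0) : p = 0 := by
  classical
  by_contra hp0
  have ht0 : t ≠ 0 := by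
    rintro rfl
    exact ht HahnSeries.order_zero
  have hne : p.support.Nonempty := by
    rw [Finset.nonempty_iff_ne_empty, Ne, Polynomial.support_eq_empty]
    exact hp0
  obtain ⟨i0, hi0, hmin⟩ := Finset.exists_min_image p.support (fun i : ℕ => (i : ℤ) * t.order) hne
  have hci0 : p.coeff i0 ≠ 0 := Polynomial.mem_support_iff.mp hi0
  rw [Polynomial.eval₂_eq_sum, Polynomial.sum_def] at hp
  have hcoef := congrArg (fun x : HahnSeries ℤ D => x.coeff ((i0 : ℤ) * t.order)) hp
  simp only [HahnSeries.coeff_zero] at hcoef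
  have hsum : (∑ i ∈ p.support, HahnSeries.C (p.coeff i) * t ^ i).coeff ((i0 : ℤ) * t.order) =
      ∑ i ∈ p.support, (HahnSeries.C (p.coeff i) * t ^ i).coeff ((i0 : ℤ) * t.order) :=
    map_sum (HahnSeries.coeff.addMonoidHom ((i0 : ℤ) * t.order)) _ p.support
  rw [hsum, Finset.sum_eq_single i0] at hcoef
  · have h1 : (HahnSeries.C (p.coeff i0) * t ^ i0) ≠ 0 := by
      apply mul_ne_zero
      · intro h
        exact hci0 (HahnSeries.C_injective (by rw [h, map_zero]))
      · exact pow_ne_zero _ ht0
    rw [← order_C_mul_pow t ht0 hci0 i0] at hcoef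
    exact h1 (HahnSeries.coeff_order_eq_zero.mp hcoef)
  · intro i hi hii0
    have hci : p.coeff i ≠ 0 := Polynomial.mem_support_iff.mp hi
    apply HahnSeries.coeff_eq_zero_of_lt_order
    rw [order_C_mul_pow t ht0 hci i]
    have hle := hmin i hi
    rcases lt_or_eq_of_le hle with h | h
    · exact h
    · exfalso
      apply hii0
      have := mul_right_cancel₀ ht h
      exact_mod_cast this.symm
  · intro h
    exact absurd hi0 h

end LemmaT

section JOrder

variable (D : Type*) [CommRing D] [IsDomain D]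

theorem jqModC_order_neg : (jqModC D).order < 0 := by
  have h1 : (jqModC D).coeff (-1) ≠ 0 := by
    rw [coeff_jqModC_neg_one]
    exact one_ne_zero
  exact lt_of_le_of_lt (HahnSeries.order_le_of_coeff_ne_zero h1) (by norm_num)

theorem jqModC_order_ne_zero : (jqModC D).order ≠ 0 := (jqModC_order_neg D).ne

theorem jqModC_ne_zero' : jqModC D ≠ 0 := jqModC_ne_zero_of_nontrivial D

variable (k : Type*) [Field k]

theorem jqModC_inv_order_ne_zero : ((jqModC k)⁻¹).order ≠ 0 := by
  have h0 := jqModC_ne_zero' k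
  have h1 : (jqModC k)⁻¹ ≠ 0 := inv_ne_zero h0
  have h2 := HahnSeries.order_mul h0 h1
  rw [mul_inv_cancel₀ h0, HahnSeries.order_one] at h2
  have h3 := jqModC_order_neg k
  omega

end JOrder

end Fermat.Agent.S28.H806

end
end
-- ===== PACK-END S28/H806/Transcend.lean

-- ===== PACK-BEGIN S28/H326/Basic.lean
section
/-
S28 / helper326: formal conjugation operators on power series over `ℂ`
(`q ↦ ζ^b t` and `q ↦ t^(p²)`, base embedding `q ↦ t^p`) and the Hecke power-sum identity.
-/




set_option autoImplicit false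
set_option linter.unusedSectionVars false

noncomputable section

namespace Fermat.Agent.S28.H326

open ModularCurve HahnSeries

/-- `ℂ⟦X⟧ → ℂ((t))`. -/
abbrev ofPS : PowerSeries ℂ →+* LaurentSeries ℂ := HahnSeries.ofPowerSeries ℤ ℂ

theorem ofPS_coeff_nat (g : PowerSeries ℂ) (n : ℕ) : (ofPS g).coeff (n : ℤ) = g.coeff n :=
  HahnSeries.ofPowerSeries_apply_coeff g n

theorem ofPS_coeff_neg (g : PowerSeries ℂ) {n : ℤ} (hn : n < 0) : (ofPS g).coeff n = 0 :=
  ofPowerSeries_coeff_of_neg g hn

/-- The primitive `p`-th root of unity `exp(2πi/p)`. -/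
def zeta (p : ℕ) : ℂ := Complex.exp (2 * Real.pi * Complex.I / p)

theorem zeta_isPrimitiveRoot (p : ℕ) [NeZero p] : IsPrimitiveRoot (zeta p) p :=
  Complex.isPrimitiveRoot_exp p (NeZero.ne p)

theorem zeta_pow_self (p : ℕ) [NeZero p] : zeta p ^ p = 1 := (zeta_isPrimitiveRoot p).pow_eq_one

theorem zeta_ne_zero (p : ℕ) : zeta p ≠ 0 := Complex.exp_ne_zero _

/-- root-of-unity orthogonality -/
theorem sum_zeta_pow (p : ℕ) [NeZero p] (k : ℕ) :
    ∑ b ∈ Finset.range p, (zeta p ^ b) ^ k = if p ∣ k then (p : ℂ) else 0 := by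
  have hz := zeta_isPrimitiveRoot p
  split_ifs with h
  · have : ∀ b ∈ Finset.range p, (zeta p ^ b) ^ k = 1 := by
      intro b _
      rw [← pow_mul, mul_comm, pow_mul, (hz.pow_eq_one_iff_dvd k).mpr h, one_pow]
    rw [Finset.sum_congr rfl this]
    simp
  · have h1 : zeta p ^ k ≠ 1 := fun hh => h ((hz.pow_eq_one_iff_dvd k).mp hh)
    have h2 : ∑ b ∈ Finset.range p, (zeta p ^ b) ^ k = ∑ b ∈ Finset.range p, (zeta p ^ k) ^ b := by
      refine Finset.sum_congr rfl fun b _ => ?_
      rw [← pow_mul, ← pow_mul, mul_comm]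
    rw [h2]
    have h3 := mul_neg_geom_sum (zeta p ^ k) p
    have h4 : (zeta p ^ k) ^ p = 1 := by
      rw [← pow_mul, mul_comm, pow_mul, zeta_pow_self, one_pow]
    rw [h4, sub_self] at h3
    rcases mul_eq_zero.mp h3 with h5 | h5
    · exact absurd (sub_eq_zero.mp h5).symm h1
    · exact h5

variable (p : ℕ) [NeZero p]

/-- conjugate `g(q) ↦ g(ζ^b t)` -/
def cB (b : ℕ) : PowerSeries ℂ →+* LaurentSeries ℂ :=
  ofPS.comp (PowerSeries.rescale (zeta p ^ b))

/-- base embedding `g(q) ↦ g(t^p)` -/
def cBase : PowerSeries ℂ →+* LaurentSeries ℂ :=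
  (qExpand ℂ p).comp ofPS

/-- conjugate `g(q) ↦ g(t^(p²))` -/
def cInf : PowerSeries ℂ →+* LaurentSeries ℂ :=
  (qExpand ℂ p).comp (cBase p)

/-- `U_p` on power series. -/
def Up (g : PowerSeries ℂ) : PowerSeries ℂ := PowerSeries.mk fun n => g.coeff (n * p)

@[simp] theorem coeff_Up (g : PowerSeries ℂ) (n : ℕ) : (Up p g).coeff n = g.coeff (n * p) := by
  simp [Up]

theorem cB_coeff_nat (b : ℕ) (g : PowerSeries ℂ) (n : ℕ) :
    (cB p b g).coeff (n : ℤ) = (zeta p ^ b) ^ n * g.coeff n := by
  simp [cB, ofPS_coeff_nat, PowerSeries.coeff_rescale]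

theorem cB_coeff_neg (b : ℕ) (g : PowerSeries ℂ) {n : ℤ} (hn : n < 0) :
    (cB p b g).coeff n = 0 := by
  simp [cB, ofPS_coeff_neg _ hn]

theorem cB_zero (g : PowerSeries ℂ) : cB p 0 g = ofPS g := by
  simp [cB]

theorem cBase_coeff_mul (g : PowerSeries ℂ) (n : ℕ) :
    (cBase p g).coeff ((p : ℤ) * n) = g.coeff n := by
  rw [cBase, RingHom.comp_apply, qExpand_coeff_mul, ofPS_coeff_nat]

theorem cBase_coeff_of_not_dvd (g : PowerSeries ℂ) {n : ℤ} (hn : ¬ (p : ℤ) ∣ n) :
    (cBase p g).coeff n = 0 := by
  rw [cBase, RingHom.comp_apply, qExpand_coeff_of_not_dvd p _ hn]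

theorem cBase_coeff_neg (g : PowerSeries ℂ) {n : ℤ} (hn : n < 0) :
    (cBase p g).coeff n = 0 := by
  by_cases h : (p : ℤ) ∣ n
  · obtain ⟨m, rfl⟩ := h
    rw [cBase, RingHom.comp_apply, qExpand_coeff_mul]
    refine ofPS_coeff_neg _ ?_
    have hp : (0 : ℤ) < p := by exact_mod_cast Nat.pos_of_ne_zero (NeZero.ne p)
    by_contra hm
    rw [not_lt] at hm
    have := mul_nonneg hp.le hm
    omega
  · exact cBase_coeff_of_not_dvd p g h

theorem natCast_mul_coeff (c : ℕ) (x : LaurentSeries ℂ) (n : ℤ) :
    ((c : LaurentSeries ℂ) * x).coeff n = (c : ℂ) * x.coeff n := by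
  have : (c : LaurentSeries ℂ) = HahnSeries.C (c : ℂ) := by simp
  rw [this, HahnSeries.C_mul_eq_smul, HahnSeries.coeff_smul, smul_eq_mul]

/-- **Hecke power-sum identity**: `∑_b g(ζ^b t) = p · (U_p g)(t^p)`. -/
theorem sum_cB (g : PowerSeries ℂ) :
    ∑ b ∈ Finset.range p, cB p b g = (p : LaurentSeries ℂ) * cBase p (Up p g) := by
  ext n
  rw [HahnSeries.coeff_sum, natCast_mul_coeff]
  rcases lt_or_ge n 0 with hn | hn
  · rw [cBase_coeff_neg p _ hn, mul_zero]
    exact Finset.sum_eq_zero fun b _ => cB_coeff_neg p b g hn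
  · lift n to ℕ using hn
    simp only [cB_coeff_nat]
    rw [← Finset.sum_mul, sum_zeta_pow]
    split_ifs with h
    · obtain ⟨m, rfl⟩ := h
      have : ((p * m : ℕ) : ℤ) = (p : ℤ) * m := by push_cast; ring
      rw [this, cBase_coeff_mul, coeff_Up, mul_comm m p]
    · have : ¬ (p : ℤ) ∣ (n : ℤ) := by exact_mod_cast h
      rw [cBase_coeff_of_not_dvd p _ this, zero_mul, mul_zero]

end Fermat.Agent.S28.H326

end
end
-- ===== PACK-END S28/H326/Basic.lean

-- ===== PACK-BEGIN S18/H333/HauptElim.lean
section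








/-!
# S18 / c3 (helper333): elimination of `t` between the two Hauptmodul relations

For `p = 2` :  `j t² = (t+256)³`,  `J t = (t+16)³`            (`J = j(q²)`)
for `p = 3` :  `j t³ = (t+27)(t+243)³`,  `J t = (t+27)(t+3)³`  (`J = j(q³)`)
we give explicit `D, N ∈ ℤ[j, J]` with `D t + N = 0`  (subresultant of degree 1), hence
`t = -N / D ∈ K(j, J)` as soon as `D ≠ 0`.   Pure commutative algebra (generated by
`coord/S18-c3-elim-helper333.py.txt`).
-/

set_option autoImplicit false
set_option linter.unusedSimpArgs false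

namespace Fermat.Agent.S18.H333

section Elim

variable {A : Type*} [CommRing A]

/-- the coefficient `D` of `t` (level 2) -/
def elimD2 (j J : A) : A :=
    -j ^ 2 * J + 768 * j ^ 2 + 1488 * j * J + 25067520 * j + J ^ 2 - 161280 * J + 19906560000

/-- the constant term `N` (level 2) -/
def elimN2 (j J : A) : A :=
    4096 * j ^ 2 + 799211520 * j + 16773120 * J + 2707292160000

/-- cofactor of the first relation (level 2) -/
def elimU2 (t j J : A) : A :=
    t * j - 720 * t + 48 * j + J + 161280

/-- cofactor of the second relation (level 2) -/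
def elimV2 (t j J : A) : A :=
    -t * j + 720 * t + j ^ 2 - 1488 * j - J + 357120

/-- `D` homogenised: `elimD2 (e/d) (e'/d') * d^2 * d'^2` -/
def elimDh2 (e d e' d' : A) : A :=
    -e ^ 2 * e' * d' + 768 * e ^ 2 * d' ^ 2 + 1488 * e * d * e' * d'
      + 25067520 * e * d * d' ^ 2 + d ^ 2 * e' ^ 2 - 161280 * d ^ 2 * e' * d'
      + 19906560000 * d ^ 2 * d' ^ 2

theorem elim2_identity (t j J : A) :
    elimU2 t j J * ((t + 256) ^ 3 - j * t ^ 2) + elimV2 t j J * ((t + 16) ^ 3 - J * t)
      = elimD2 j J * t + elimN2 j J := by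
  simp only [elimU2, elimV2, elimD2, elimN2]
  ring

theorem elim2 (t j J : A) (ha : j * t ^ 2 = (t + 256) ^ 3) (hb : J * t = (t + 16) ^ 3) :
    elimD2 j J * t + elimN2 j J = 0 := by
  rw [← elim2_identity, ha, hb]
  ring

theorem elimD2_hom (j J d d' : A) :
    elimD2 j J * d ^ 2 * d' ^ 2 = elimDh2 (j * d) d (J * d') d' := by
  simp only [elimD2, elimDh2]
  ring

theorem map_elimD2 {B : Type*} [CommRing B] (φ : A →+* B) (j J : A) :
    φ (elimD2 j J) = elimD2 (φ j) (φ J) := by
  simp only [elimD2, map_add, map_sub, map_mul, map_pow, map_neg, map_ofNat]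

theorem map_elimN2 {B : Type*} [CommRing B] (φ : A →+* B) (j J : A) :
    φ (elimN2 j J) = elimN2 (φ j) (φ J) := by
  simp only [elimN2, map_add, map_sub, map_mul, map_pow, map_neg, map_ofNat]

theorem map_elimDh2 {B : Type*} [CommRing B] (φ : A →+* B) (e d e' d' : A) :
    φ (elimDh2 e d e' d') = elimDh2 (φ e) (φ d) (φ e') (φ d') := by
  simp only [elimDh2, map_add, map_sub, map_mul, map_pow, map_neg, map_ofNat]

/-- the coefficient `D` of `t` (level 3) -/
def elimD3 (j J : A) : A :=
    -j ^ 5 * J ^ 2 + 1512 * j ^ 5 * J - 374706 * j ^ 5 + 3672 * j ^ 4 * J ^ 2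
      + 2199927357 * j ^ 4 * J + 3513587135760 * j ^ 4 - 4802436 * j ^ 3 * J ^ 2
      + 6287091255360 * j ^ 3 * J - 578039691371443200 * j ^ 3 + j ^ 2 * J ^ 3
      + 2734670160 * j ^ 2 * J ^ 2 - 12148776475948800 * j ^ 2 * J
      + 3468720924518404608000 * j ^ 2 - 1440 * j * J ^ 3 - 607750387200 * j * J ^ 2
      + 4430048196934656000 * j * J - 4101236057280872448000000 * j + 518400 * J ^ 3
      + 19110670848000 * J ^ 2 + 170148916887552000000 * J + 1369513028852121600000000000

/-- the constant term `N` (level 3) -/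
def elimN3 (j J : A) : A :=
    729 * j ^ 5 * J - 551124 * j ^ 5 + 13944460716 * j ^ 4 * J + 16877673339120 * j ^ 4
      + 35694226104480 * j ^ 3 * J - 10379169493558848000 * j ^ 3 + 387419760 * j ^ 2 * J ^ 2
      - 108392996345702400 * j ^ 2 * J + 86248560322019464704000 * j ^ 2
      - 557884454400 * j * J ^ 2 + 79754306454770688000 * j * J
      - 108081439958057877504000000 * j + 200838403584000 * J ^ 2 - 18302525195157504000000 * J
      + 36976851779007283200000000000

/-- cofactor of the first relation (level 3) -/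
def elimU3 (t j J : A) : A :=
    270 * t ^ 2 * j ^ 4 + t ^ 2 * j ^ 3 * J + 25429680 * t ^ 2 * j ^ 3
      - 2160 * t ^ 2 * j ^ 2 * J - 17132083200 * t ^ 2 * j ^ 2 + 1555200 * t ^ 2 * j * J
      - 15281146368000 * t ^ 2 * j - 373248000 * t ^ 2 * J + 10319560704000000 * t ^ 2
      + t * j ^ 4 * J + 8964 * t * j ^ 4 - 2880 * t * j ^ 3 * J - 158494320 * t * j ^ 3
      + 2913840 * t * j ^ 2 * J - 2055056832000 * t * j ^ 2 - 1209945600 * t * j * J
      + 3192389024256000 * t * j + 166841856000 * t * J - 1176429920256000000 * t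
      + 36 * j ^ 4 * J + 45684 * j ^ 4 + 92124 * j ^ 3 * J - 26779844160 * j ^ 3
      + j ^ 2 * J ^ 2 - 279776160 * j ^ 2 * J + 222607701273600 * j ^ 2 - 1440 * j * J ^ 2
      + 205858713600 * j * J - 278975282042880000 * j + 518400 * J ^ 2 - 47241999360000 * J
      + 95445616951296000000

/-- cofactor of the second relation (level 3) -/
def elimV3 (t j J : A) : A :=
    -270 * t ^ 2 * j ^ 4 - t ^ 2 * j ^ 3 * J - 25429680 * t ^ 2 * j ^ 3
      + 2160 * t ^ 2 * j ^ 2 * J + 17132083200 * t ^ 2 * j ^ 2 - 1555200 * t ^ 2 * j * J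
      + 15281146368000 * t ^ 2 * j + 373248000 * t ^ 2 * J - 10319560704000000 * t ^ 2
      + 270 * t * j ^ 5 + 25226316 * t * j ^ 4 - 35282958480 * t * j ^ 3
      + 196560 * t * j ^ 2 * J - 890989632000 * t * j ^ 2 - 283046400 * t * j * J
      + 18129597064704000 * t * j + 101896704000 * t * J - 6253653786624000000 * t + j ^ 5 * J
      - 756 * j ^ 5 - 3672 * j ^ 4 * J - 1126535364 * j ^ 4 + 4802436 * j ^ 3 * J
      - 5636726677440 * j ^ 3 - j ^ 2 * J ^ 2 - 2715539040 * j ^ 2 * J
      + 7922962188518400 * j ^ 2 + 1440 * j * J ^ 2 + 580201574400 * j * J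
      - 959904104785920000 * j - 518400 * J ^ 2 - 9193098240000 * J - 1009345912897536000000

/-- `D` homogenised: `elimD3 (e/d) (e'/d') * d^5 * d'^3` -/
def elimDh3 (e d e' d' : A) : A :=
    -e ^ 5 * e' ^ 2 * d' + 1512 * e ^ 5 * e' * d' ^ 2 - 374706 * e ^ 5 * d' ^ 3
      + 3672 * e ^ 4 * d * e' ^ 2 * d' + 2199927357 * e ^ 4 * d * e' * d' ^ 2
      + 3513587135760 * e ^ 4 * d * d' ^ 3 - 4802436 * e ^ 3 * d ^ 2 * e' ^ 2 * d'
      + 6287091255360 * e ^ 3 * d ^ 2 * e' * d' ^ 2
      - 578039691371443200 * e ^ 3 * d ^ 2 * d' ^ 3 + e ^ 2 * d ^ 3 * e' ^ 3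
      + 2734670160 * e ^ 2 * d ^ 3 * e' ^ 2 * d'
      - 12148776475948800 * e ^ 2 * d ^ 3 * e' * d' ^ 2
      + 3468720924518404608000 * e ^ 2 * d ^ 3 * d' ^ 3 - 1440 * e * d ^ 4 * e' ^ 3
      - 607750387200 * e * d ^ 4 * e' ^ 2 * d' + 4430048196934656000 * e * d ^ 4 * e' * d' ^ 2
      - 4101236057280872448000000 * e * d ^ 4 * d' ^ 3 + 518400 * d ^ 5 * e' ^ 3
      + 19110670848000 * d ^ 5 * e' ^ 2 * d' + 170148916887552000000 * d ^ 5 * e' * d' ^ 2
      + 1369513028852121600000000000 * d ^ 5 * d' ^ 3

theorem elim3_identity (t j J : A) :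
    elimU3 t j J * ((t + 27) * (t + 243) ^ 3 - j * t ^ 3) + elimV3 t j J * ((t + 27) * (t + 3) ^ 3 - J * t)
      = elimD3 j J * t + elimN3 j J := by
  simp only [elimU3, elimV3, elimD3, elimN3]
  ring

theorem elim3 (t j J : A) (ha : j * t ^ 3 = (t + 27) * (t + 243) ^ 3) (hb : J * t = (t + 27) * (t + 3) ^ 3) :
    elimD3 j J * t + elimN3 j J = 0 := by
  rw [← elim3_identity, ha, hb]
  ring

theorem elimD3_hom (j J d d' : A) :
    elimD3 j J * d ^ 5 * d' ^ 3 = elimDh3 (j * d) d (J * d') d' := by
  simp only [elimD3, elimDh3]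
  ring

theorem map_elimD3 {B : Type*} [CommRing B] (φ : A →+* B) (j J : A) :
    φ (elimD3 j J) = elimD3 (φ j) (φ J) := by
  simp only [elimD3, map_add, map_sub, map_mul, map_pow, map_neg, map_ofNat]

theorem map_elimN3 {B : Type*} [CommRing B] (φ : A →+* B) (j J : A) :
    φ (elimN3 j J) = elimN3 (φ j) (φ J) := by
  simp only [elimN3, map_add, map_sub, map_mul, map_pow, map_neg, map_ofNat]

theorem map_elimDh3 {B : Type*} [CommRing B] (φ : A →+* B) (e d e' d' : A) :
    φ (elimDh3 e d e' d') = elimDh3 (φ e) (φ d) (φ e') (φ d') := by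
  simp only [elimDh3, map_add, map_sub, map_mul, map_pow, map_neg, map_ofNat]

end Elim

end Fermat.Agent.S18.H333

end
-- ===== PACK-END S18/H333/HauptElim.lean

-- ===== PACK-BEGIN S18/H568/NormDescent.lean
section


/-!
# S18 / node D2 — abstract Kummer descent by the norm trick (helper568)

`F'/F` finite of degree `d`, `gcd(d, m) = 1`, `u ∈ F` with `u = c · y ^ m` in `F'` (`c` a constant
of the base field `K`, `y ∈ F'`).  Then `u = c' · y' ^ m` with `c' ∈ K`, `y' ∈ F`.

Proof: `u ^ d = Nm(u) = c ^ d · Nm(y) ^ m`; with `a d + b m = 1`,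
`u = (u ^ d) ^ a · (u ^ b) ^ m = c ^ (d a) · (Nm(y) ^ a · u ^ b) ^ m`.

Mathlib-only.
-/

set_option autoImplicit false

noncomputable section

namespace Fermat.Agent.S18.H568

open Module

/-- Norm trick (Kummer descent along an extension of degree prime to `m`). -/
theorem exists_pow_of_norm_coprime {K F F' : Type*} [Field K] [Field F] [Field F']
    [Algebra K F] [Algebra K F'] [Algebra F F'] [IsScalarTower K F F']
    [FiniteDimensional F F'] (m : ℕ) (hcop : Nat.Coprime (finrank F F') m)
    (u : F) (hu : u ≠ 0) (c : K) (hc : c ≠ 0) (y : F') (hy : y ≠ 0)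
    (h : algebraMap F F' u = algebraMap K F' c * y ^ m) :
    ∃ (c' : K) (y' : F), c' ≠ 0 ∧ y' ≠ 0 ∧ u = algebraMap K F c' * y' ^ m := by
  set d : ℕ := finrank F F' with hd
  -- norms
  have hN : u ^ d = (algebraMap K F c) ^ d * (Algebra.norm F y) ^ m := by
    have h1 : Algebra.norm F (algebraMap F F' u) = u ^ d := Algebra.norm_algebraMap u
    have h2 : Algebra.norm F (algebraMap K F' c) = (algebraMap K F c) ^ d := by
      rw [IsScalarTower.algebraMap_apply K F F']
      exact Algebra.norm_algebraMap _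
    rw [← h1, h, map_mul, map_pow, h2]
  have hNy : Algebra.norm F y ≠ 0 := by
    rw [Ne, Algebra.norm_eq_zero_iff]
    exact hy
  have hcF : algebraMap K F c ≠ 0 := by
    rw [Ne, map_eq_zero_iff _ (algebraMap K F).injective]
    exact hc
  -- Bezout
  have hbez : (1 : ℤ) = (d : ℤ) * Int.gcdA d m + (m : ℤ) * Int.gcdB d m := by
    have := Int.gcd_eq_gcd_ab (d : ℤ) (m : ℤ)
    rw [Int.gcd_natCast_natCast, hcop.gcd_eq_one] at this
    exact_mod_cast this
  set a : ℤ := Int.gcdA d m
  set b : ℤ := Int.gcdB d m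
  refine ⟨c ^ ((d : ℤ) * a), (Algebra.norm F y) ^ a * u ^ b, zpow_ne_zero _ hc,
    mul_ne_zero (zpow_ne_zero _ hNy) (zpow_ne_zero _ hu), ?_⟩
  have hu1 : u = u ^ ((d : ℤ) * a + (m : ℤ) * b) := by rw [← hbez, zpow_one]
  rw [map_zpow₀]
  calc u = u ^ ((d : ℤ) * a + (m : ℤ) * b) := hu1
    _ = (u ^ d) ^ a * (u ^ b) ^ m := by
        rw [zpow_add₀ hu, zpow_mul, zpow_natCast, mul_comm (m : ℤ) b, zpow_mul, zpow_natCast]
    _ = ((algebraMap K F c) ^ d * (Algebra.norm F y) ^ m) ^ a * (u ^ b) ^ m := by rw [hN]
    _ = (algebraMap K F c) ^ ((d : ℤ) * a) * ((Algebra.norm F y) ^ a * u ^ b) ^ m := by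
        rw [mul_zpow, mul_pow, zpow_mul, zpow_natCast, ← zpow_natCast ((Algebra.norm F) y) m,
          ← zpow_mul, ← zpow_natCast (((Algebra.norm F) y) ^ a) m, ← zpow_mul,
          mul_comm (m : ℤ) a, mul_assoc]

end Fermat.Agent.S18.H568

end

end
-- ===== PACK-END S18/H568/NormDescent.lean

-- ===== PACK-BEGIN S18/H264/SepLaurent.lean
section


/-!
# S18 / G-SEP core (helper264): subfields of `κ((q))` are separable over `κ(x)`

Mathlib-only.  Let `κ` be a perfect field of characteristic `p`, and `x ∈ κ((q))` a Laurent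
series whose `q`-order is prime to `p` (e.g. `x = j̄, t̄₂, t̄₃`, of order `-1`).  Then every
`y ∈ κ((q))` that is algebraic over `κ(x)` is separable over `κ(x)`.

Main statements (namespace `Fermat.Agent.S18.H264`):

* `isSeparable_of_isAlgebraic_of_addVal` : abstract form, for a field `L ⊇ κ` with an additive
  valuation `v : AddValuation L (WithTop ℤ)` and `p ∤ v x`.
* `isSeparable_laurent` : the Laurent series form, hypothesis `¬ (p : ℤ) ∣ x.order`.
* `isSeparable_laurent_of_order_eq_neg_one` : the same for `x.order = -1`.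
* `exists_poly_simple_root_laurent` : liftable polynomial form, `∃ P ∈ κ[X][Y]` with
  `P(x, y) = 0` and `(∂P/∂Y)(x, y) ≠ 0`.

Proof: `1, x, …, x^(p-1)` is a `p`-basis: every element of `κ(x)` is `∑_{r<p} x^r b_r^p`
(`κ` perfect), and `∑_{r<p} x^r z_r^p = 0` in `L` forces all `z_r = 0` (the valuations of the
nonzero terms are pairwise distinct mod `p`).  If the minimal polynomial `g` of `y` were
inseparable, `g = h(Y^p)`, `h = ∑_r x^r h_r^{(p)}`, so `0 = h(y^p) = ∑_r x^r (h_r(y))^p`, whence
`h_r(y) = 0` with `deg h_r < deg g`, so `h_r = 0`, `h = 0`: contradiction.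
-/

set_option autoImplicit false

namespace Fermat.Agent.S18.H264

open Polynomial

section Valuation

variable {L : Type*} [Field L] (v : AddValuation L (WithTop ℤ))

/-- Finitely many nonzero terms with pairwise distinct valuations cannot sum to zero. -/
theorem sum_ne_zero_of_val_injOn {ι : Type*} (s : Finset ι) (f : ι → L) (hs : s.Nonempty)
    (hne : ∀ i ∈ s, f i ≠ 0) (hinj : ∀ i ∈ s, ∀ j ∈ s, v (f i) = v (f j) → i = j) :
    ∑ i ∈ s, f i ≠ 0 := by
  classical
  obtain ⟨i₀, hi₀, hmin⟩ := Finset.exists_min_image s (fun i => v (f i)) hs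
  have hlt : ∀ i ∈ s.erase i₀, v (f i₀) < v (f i) := by
    intro i hi
    rw [Finset.mem_erase] at hi
    exact lt_of_le_of_ne (hmin i hi.2) (fun h => hi.1 (hinj _ hi₀ _ hi.2 h).symm)
  have htop : v (f i₀) ≠ ⊤ := by
    rw [Ne, AddValuation.top_iff]
    exact hne i₀ hi₀
  have hrest : v (f i₀) < v (∑ i ∈ s.erase i₀, f i) := AddValuation.map_lt_sum v htop hlt
  rw [← Finset.add_sum_erase s f hi₀]
  intro h0
  have h1 := AddValuation.map_add_eq_of_lt_left v hrest
  rw [h0, AddValuation.map_zero] at h1
  exact htop h1.symm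

/-- `1, x, …, x^(p-1)` are linearly independent over `L^p` when `p ∤ v x`. -/
theorem eq_zero_of_sum_pow_mul_pow_eq_zero (p : ℕ) (hp : p.Prime) (x : L) (n : ℤ)
    (hx : v x = (n : WithTop ℤ)) (hn : ¬ (p : ℤ) ∣ n) (z : ℕ → L)
    (h : ∑ r ∈ Finset.range p, x ^ r * z r ^ p = 0) : ∀ r < p, z r = 0 := by
  classical
  by_contra hcon
  push Not at hcon
  obtain ⟨r₁, hr₁, hz₁⟩ := hcon
  have hx0 : x ≠ 0 := by
    intro h0
    rw [h0, AddValuation.map_zero] at hx
    exact WithTop.top_ne_coe hx
  set s := (Finset.range p).filter (fun r => z r ≠ 0) with hs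
  have hsum : ∑ r ∈ s, x ^ r * z r ^ p = 0 := by
    have h1 : ∑ r ∈ s, x ^ r * z r ^ p = ∑ r ∈ Finset.range p, x ^ r * z r ^ p := by
      rw [hs, Finset.sum_filter]
      refine Finset.sum_congr rfl fun r _ => ?_
      by_cases hz : z r = 0
      · simp [hz, hp.ne_zero]
      · simp [hz]
    rw [h1, h]
  have hval : ∀ r ∈ s, ∃ a : ℤ, v (x ^ r * z r ^ p) = ((r * n + p * a : ℤ) : WithTop ℤ) := by
    intro r hr
    have hz : z r ≠ 0 := (Finset.mem_filter.mp hr).2
    have hzt : v (z r) ≠ ⊤ := by rw [Ne, AddValuation.top_iff]; exact hz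
    obtain ⟨a, ha⟩ := WithTop.ne_top_iff_exists.mp hzt
    refine ⟨a, ?_⟩
    rw [AddValuation.map_mul, AddValuation.map_pow, AddValuation.map_pow, hx, ← ha]
    rw [← WithTop.coe_nsmul, ← WithTop.coe_nsmul, ← WithTop.coe_add, nsmul_eq_mul, nsmul_eq_mul]
  refine sum_ne_zero_of_val_injOn v s _ ⟨r₁, Finset.mem_filter.mpr ⟨Finset.mem_range.mpr hr₁, hz₁⟩⟩
    ?_ ?_ hsum
  · intro r hr
    have hz : z r ≠ 0 := (Finset.mem_filter.mp hr).2
    exact mul_ne_zero (pow_ne_zero _ hx0) (pow_ne_zero _ hz)
  · intro r hr r' hr' hrr'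
    obtain ⟨a, ha⟩ := hval r hr
    obtain ⟨a', ha'⟩ := hval r' hr'
    rw [ha, ha', WithTop.coe_eq_coe] at hrr'
    have hrp : r < p := Finset.mem_range.mp (Finset.mem_filter.mp hr).1
    have hrp' : r' < p := Finset.mem_range.mp (Finset.mem_filter.mp hr').1
    have hdvd : (p : ℤ) ∣ ((r : ℤ) - r') * n := ⟨a' - a, by linarith⟩
    have hdvd' : (p : ℤ) ∣ (r : ℤ) - r' :=
      ((Nat.prime_iff_prime_int.mp hp).dvd_or_dvd hdvd).resolve_right hn
    have h0 : (r : ℤ) - r' = 0 := by
      apply Int.eq_zero_of_abs_lt_dvd hdvd'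
      rw [abs_lt]
      constructor <;> omega
    omega

end Valuation

section Decomp

variable {κ : Type*} [Field κ] [PerfectField κ] (p : ℕ) [hp : Fact p.Prime] [CharP κ p]

/-- Every polynomial over a perfect field of characteristic `p` is `∑_{r<p} X^r c_r^p`. -/
theorem exists_pBasis_decomp_poly (w : κ[X]) :
    ∃ c : ℕ → κ[X], w = ∑ r ∈ Finset.range p, X ^ r * c r ^ p := by
  induction w using Polynomial.induction_on' with
  | add w₁ w₂ h₁ h₂ =>
    obtain ⟨c₁, hc₁⟩ := h₁
    obtain ⟨c₂, hc₂⟩ := h₂
    refine ⟨fun r => c₁ r + c₂ r, ?_⟩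
    have h : ∀ r, X ^ r * (c₁ r + c₂ r) ^ p = X ^ r * c₁ r ^ p + X ^ r * c₂ r ^ p := by
      intro r
      rw [add_pow_char, mul_add]
    simp only [h, Finset.sum_add_distrib]
    rw [← hc₁, ← hc₂]
  | monomial n a =>
    refine ⟨fun r => if r = n % p then monomial (n / p) ((frobeniusEquiv κ p).symm a) else 0, ?_⟩
    rw [Finset.sum_eq_single (n % p)]
    · simp only [if_true]
      rw [monomial_pow, X_pow_mul_monomial, frobeniusEquiv_symm_pow_p, Nat.div_add_mod' n p]
    · intro r _ hr
      simp only [if_neg hr]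
      rw [zero_pow hp.out.ne_zero, mul_zero]
    · intro h
      exact absurd (Finset.mem_range.mpr (Nat.mod_lt _ hp.out.pos)) h

/-- Every element of `κ(x)` is `∑_{r<p} x^r b_r^p` with `b_r ∈ κ(x)` (`κ` perfect). -/
theorem exists_pBasis_decomp {L : Type*} [Field L] [Algebra κ L] (x : L) (a : L)
    (ha : a ∈ IntermediateField.adjoin κ {x}) :
    ∃ b : ℕ → L, (∀ r, b r ∈ IntermediateField.adjoin κ {x}) ∧
      a = ∑ r ∈ Finset.range p, x ^ r * b r ^ p := by
  obtain ⟨u, w, rfl⟩ := (IntermediateField.mem_adjoin_simple_iff κ a).mp ha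
  by_cases hw : aeval x w = 0
  · refine ⟨fun _ => 0, fun _ => zero_mem _, ?_⟩
    simp [hw, hp.out.ne_zero]
  · obtain ⟨c, hc⟩ := exists_pBasis_decomp_poly p (u * w ^ (p - 1))
    refine ⟨fun r => aeval x (c r) / aeval x w, fun r => ?_, ?_⟩
    · exact (IntermediateField.mem_adjoin_simple_iff κ _).mpr ⟨c r, w, rfl⟩
    · have hpp : p - 1 + 1 = p := Nat.sub_add_cancel hp.out.one_le
      have h1 : aeval x u / aeval x w = aeval x (u * w ^ (p - 1)) / (aeval x w) ^ p := by
        rw [map_mul, map_pow, eq_div_iff (pow_ne_zero _ hw), div_mul_eq_mul_div,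
          div_eq_iff hw, mul_assoc, ← pow_succ, hpp]
      rw [h1, hc, map_sum, Finset.sum_div]
      refine Finset.sum_congr rfl fun r _ => ?_
      rw [map_mul, map_pow, map_pow, aeval_X, div_pow, mul_div_assoc]

end Decomp

section Main

variable {κ L : Type*} [Field κ] [PerfectField κ] [Field L] [Algebra κ L]
  (p : ℕ) [hp : Fact p.Prime] [CharP κ p]

/-- **Separability from a valuation** (abstract form).  `κ` perfect of characteristic `p`,
`L ⊇ κ` a field with a `ℤ`-valued additive valuation `v`, `x ∈ L` with `p ∤ v x`.  Then every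
`y ∈ L` algebraic over `κ(x)` is separable over `κ(x)`. -/
theorem isSeparable_of_isAlgebraic_of_addVal (v : AddValuation L (WithTop ℤ)) (x : L) (n : ℤ)
    (hx : v x = (n : WithTop ℤ)) (hn : ¬ (p : ℤ) ∣ n) (y : L)
    (hy : IsAlgebraic (IntermediateField.adjoin κ {x}) y) :
    IsSeparable (IntermediateField.adjoin κ {x}) y := by
  classical
  have : CharP (IntermediateField.adjoin κ {x}) p :=
    charP_of_injective_algebraMap (algebraMap κ (IntermediateField.adjoin κ {x})).injective p
  have : CharP L p := charP_of_injective_algebraMap (algebraMap κ L).injective p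
  have hint : IsIntegral (IntermediateField.adjoin κ {x}) y := hy.isIntegral
  have hirr := minpoly.irreducible hint
  rcases Polynomial.separable_or p hirr with hsep | ⟨_, h, hh, hexp⟩
  · exact hsep
  exfalso
  have h0 : aeval (y ^ p) h = 0 := by
    rw [← expand_aeval, hexp, minpoly.aeval]
  have hdec : ∀ i : ℕ, ∃ b : ℕ → L, (∀ r, b r ∈ IntermediateField.adjoin κ {x}) ∧
      ((h.coeff i : IntermediateField.adjoin κ {x}) : L) =
        ∑ r ∈ Finset.range p, x ^ r * b r ^ p :=
    fun i => exists_pBasis_decomp p x _ (h.coeff i).2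
  choose b hbE hb using hdec
  set H : ℕ → (IntermediateField.adjoin κ {x})[X] := fun r =>
    ∑ i ∈ Finset.range (h.natDegree + 1),
      monomial i (⟨b i r, hbE i r⟩ : IntermediateField.adjoin κ {x}) with hH
  have haev : ∀ r, aeval y (H r) = ∑ i ∈ Finset.range (h.natDegree + 1), b i r * y ^ i := by
    intro r
    rw [hH]
    simp only [map_sum, aeval_monomial]
    rfl
  have hsum : ∑ r ∈ Finset.range p, x ^ r * (aeval y (H r)) ^ p = 0 := by
    calc ∑ r ∈ Finset.range p, x ^ r * (aeval y (H r)) ^ p
        = ∑ r ∈ Finset.range p, ∑ i ∈ Finset.range (h.natDegree + 1),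
            x ^ r * b i r ^ p * (y ^ p) ^ i := by
          refine Finset.sum_congr rfl fun r _ => ?_
          rw [haev, sum_pow_char, Finset.mul_sum]
          refine Finset.sum_congr rfl fun i _ => ?_
          rw [mul_pow, ← pow_mul, ← pow_mul, mul_comm i p, mul_assoc]
      _ = ∑ i ∈ Finset.range (h.natDegree + 1),
            (∑ r ∈ Finset.range p, x ^ r * b i r ^ p) * (y ^ p) ^ i := by
          rw [Finset.sum_comm]
          refine Finset.sum_congr rfl fun i _ => ?_
          rw [Finset.sum_mul]
      _ = aeval (y ^ p) h := by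
          rw [aeval_eq_sum_range]
          refine Finset.sum_congr rfl fun i _ => ?_
          rw [← hb i, Algebra.smul_def]
          rfl
      _ = 0 := h0
  have hz := eq_zero_of_sum_pow_mul_pow_eq_zero v p hp.out x n hx hn
    (fun r => aeval y (H r)) hsum
  have hdegH : ∀ r, (H r).natDegree ≤ h.natDegree := by
    intro r
    rw [hH]
    refine natDegree_sum_le_of_forall_le _ _ fun i hi => ?_
    exact (natDegree_monomial_le _).trans (Nat.lt_succ_iff.mp (Finset.mem_range.mp hi))
  have hdegh : 0 < h.natDegree := hh.natDegree_pos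
  have hdegm : (minpoly (IntermediateField.adjoin κ {x}) y).natDegree = h.natDegree * p := by
    rw [← hexp, natDegree_expand]
  have hzero : ∀ r < p, H r = 0 := by
    intro r hrp
    by_contra hne
    have h1 := natDegree_le_natDegree
      (minpoly.degree_le_of_ne_zero (IntermediateField.adjoin κ {x}) y hne (hz r hrp))
    have h2 := hdegH r
    have h3 : h.natDegree * 2 ≤ h.natDegree * p := Nat.mul_le_mul_left _ hp.out.two_le
    omega
  have hbzero : ∀ i ≤ h.natDegree, ∀ r < p, b i r = 0 := by
    intro i hi r hrp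
    have h1 : (H r).coeff i = 0 := by rw [hzero r hrp, coeff_zero]
    rw [hH] at h1
    simp only [finsetSum_coeff, coeff_monomial] at h1
    rw [Finset.sum_eq_single i] at h1
    · rw [if_pos rfl] at h1
      exact congrArg Subtype.val h1
    · intro j _ hj
      rw [if_neg hj]
    · intro hi'
      exact absurd (Finset.mem_range.mpr (Nat.lt_succ_iff.mpr hi)) hi'
  apply hh.ne_zero
  refine Polynomial.ext fun i => ?_
  rw [coeff_zero]
  by_cases hi : i ≤ h.natDegree
  · apply Subtype.ext
    rw [hb i, ZeroMemClass.coe_zero]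
    refine Finset.sum_eq_zero fun r hr => ?_
    rw [hbzero i hi r (Finset.mem_range.mp hr), zero_pow hp.out.ne_zero, mul_zero]
  · exact coeff_eq_zero_of_natDegree_lt (not_le.mp hi)

end Main

section Laurent

variable {κ : Type*} [Field κ] [PerfectField κ] (p : ℕ) [hp : Fact p.Prime] [CharP κ p]

/-- **G-SEP core.**  `κ` perfect of characteristic `p`, `x ∈ κ((q))` of `q`-order prime to `p`.
Every `y ∈ κ((q))` algebraic over `κ(x)` is separable over `κ(x)`. -/
theorem isSeparable_laurent (x y : LaurentSeries κ) (hx : ¬ (p : ℤ) ∣ x.order)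
    (hy : IsAlgebraic (IntermediateField.adjoin κ {x}) y) :
    IsSeparable (IntermediateField.adjoin κ {x}) y := by
  have hx0 : x ≠ 0 := by
    rintro rfl
    exact hx (by rw [HahnSeries.order_zero]; exact dvd_zero _)
  exact isSeparable_of_isAlgebraic_of_addVal p (HahnSeries.addVal ℤ κ) x x.order
    (HahnSeries.addVal_apply_of_ne hx0) hx y hy

theorem not_prime_dvd_neg_one (q : ℕ) (hq : q.Prime) : ¬ (q : ℤ) ∣ -1 := by
  rw [dvd_neg]
  intro h
  have h1 : (q : ℤ) ≤ 1 := Int.le_of_dvd one_pos h
  have h2 := hq.two_le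
  omega

include hp in
/-- The case `ord_q x = -1` (`x = j̄, t̄₂, t̄₃`). -/
theorem isSeparable_laurent_of_order_eq_neg_one (x y : LaurentSeries κ) (hx : x.order = -1)
    (hy : IsAlgebraic (IntermediateField.adjoin κ {x}) y) :
    IsSeparable (IntermediateField.adjoin κ {x}) y :=
  isSeparable_laurent p x y (by rw [hx]; exact not_prime_dvd_neg_one p hp.out) hy

/-- Every intermediate field of `κ((q)) / κ(x)` that is algebraic over `κ(x)` is separable
over `κ(x)`. -/
theorem isSeparable_intermediateField_laurent (x : LaurentSeries κ) (hx : ¬ (p : ℤ) ∣ x.order)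
    (F : IntermediateField (IntermediateField.adjoin κ {x}) (LaurentSeries κ))
    [Algebra.IsAlgebraic (IntermediateField.adjoin κ {x}) F] :
    Algebra.IsSeparable (IntermediateField.adjoin κ {x}) F := by
  refine ⟨fun z => ?_⟩
  have hz : IsAlgebraic (IntermediateField.adjoin κ {x}) (z : LaurentSeries κ) :=
    (Algebra.IsAlgebraic.isAlgebraic z).algebraMap
  have h := isSeparable_laurent p x (z : LaurentSeries κ) hx hz
  rwa [IsSeparable, ← IntermediateField.minpoly_eq] at h

end Laurent

section PolyForm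

variable {κ L : Type*} [Field κ] [Field L] [Algebra κ L]

/-- Clearing denominators: a polynomial over `κ(x)` is, up to a nonzero factor `V(x)`, the image
of a polynomial in `κ[X][Y]`. -/
theorem exists_clear_denominators (x : L) (g : (IntermediateField.adjoin κ {x})[X]) :
    ∃ (P : Polynomial (Polynomial κ)) (V : Polynomial κ), aeval x V ≠ 0 ∧
      P.map (aeval x : Polynomial κ →ₐ[κ] L).toRingHom =
        C (aeval x V) * g.map (algebraMap (IntermediateField.adjoin κ {x}) L) := by
  induction g using Polynomial.induction_on' with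
  | add g₁ g₂ h₁ h₂ =>
    obtain ⟨P₁, V₁, hV₁, hP₁⟩ := h₁
    obtain ⟨P₂, V₂, hV₂, hP₂⟩ := h₂
    refine ⟨C V₂ * P₁ + C V₁ * P₂, V₁ * V₂, ?_, ?_⟩
    · rw [map_mul]
      exact mul_ne_zero hV₁ hV₂
    · rw [Polynomial.map_add, Polynomial.map_mul, Polynomial.map_mul, hP₁, hP₂, Polynomial.map_C,
        Polynomial.map_C, Polynomial.map_add, map_mul, C_mul]
      simp only [AlgHom.toRingHom_eq_coe, RingHom.coe_coe]
      ring
  | monomial i a =>
    obtain ⟨u, w, hu⟩ := (IntermediateField.mem_adjoin_simple_iff κ (a : L)).mp a.2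
    by_cases hw : aeval x w = 0
    · refine ⟨0, 1, ?_, ?_⟩
      · rw [map_one]
        exact one_ne_zero
      · have ha : a = 0 := by
          apply Subtype.ext
          rw [hu, hw, div_zero]
          rfl
        rw [ha]
        simp
    · refine ⟨monomial i u, w, hw, ?_⟩
      rw [Polynomial.map_monomial, Polynomial.map_monomial, C_mul_monomial]
      congr 1
      show aeval x u = aeval x w * (a : L)
      rw [hu, mul_div_cancel₀ _ hw]

/-- **Liftable polynomial form of separability.**  If `y` is integral and separable over `κ(x)`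
then there is `P ∈ κ[X][Y]` with `P(x, y) = 0` and `(∂P/∂Y)(x, y) ≠ 0`. -/
theorem exists_bivariate_simple_root (x y : L)
    (hsep : IsSeparable (IntermediateField.adjoin κ {x}) y) :
    ∃ P : Polynomial (Polynomial κ),
      P.eval₂ (aeval x : Polynomial κ →ₐ[κ] L).toRingHom y = 0 ∧
      (derivative P).eval₂ (aeval x : Polynomial κ →ₐ[κ] L).toRingHom y ≠ 0 := by
  obtain ⟨P, V, hV, hP⟩ := exists_clear_denominators x (minpoly (IntermediateField.adjoin κ {x}) y)
  refine ⟨P, ?_, ?_⟩
  · rw [eval₂_eq_eval_map, hP, eval_mul, eval_C, eval_map_algebraMap, minpoly.aeval, mul_zero]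
  · rw [eval₂_eq_eval_map, ← derivative_map, hP, derivative_C_mul, eval_mul, eval_C, derivative_map,
      eval_map_algebraMap]
    exact mul_ne_zero hV (hsep.aeval_derivative_ne_zero (minpoly.aeval _ _))

end PolyForm

section LaurentPolyForm

variable {κ : Type*} [Field κ] [PerfectField κ] (p : ℕ) [hp : Fact p.Prime] [CharP κ p]

/-- **G-SEP, liftable form.**  `κ` perfect of characteristic `p`, `x ∈ κ((q))` of order prime to
`p`, `y ∈ κ((q))` algebraic over `κ(x)`: there is `P ∈ κ[X][Y]` with `P(x, y) = 0` and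
`(∂P/∂Y)(x, y) ≠ 0`. -/
theorem exists_bivariate_simple_root_laurent (x y : LaurentSeries κ) (hx : ¬ (p : ℤ) ∣ x.order)
    (hy : IsAlgebraic (IntermediateField.adjoin κ {x}) y) :
    ∃ P : Polynomial (Polynomial κ),
      P.eval₂ (aeval x : Polynomial κ →ₐ[κ] LaurentSeries κ).toRingHom y = 0 ∧
      (derivative P).eval₂ (aeval x : Polynomial κ →ₐ[κ] LaurentSeries κ).toRingHom y ≠ 0 :=
  exists_bivariate_simple_root x y (isSeparable_laurent p x y hx hy)

end LaurentPolyForm

end Fermat.Agent.S18.H264

end
-- ===== PACK-END S18/H264/SepLaurent.lean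

-- ===== PACK-BEGIN S20/Comb694/Orbits.lean
section








/-!
# Counting orbits of a cyclic group whose generator has prime order on a finite set

If `g ^ n` acts trivially on the finite set `X` and `n` is prime then
`n * #(X / ⟨g⟩) = #X + (n - 1) * #Fix(g)`.
-/

set_option autoImplicit false

namespace Fermat.Agent.S20.Comb694

open MulAction Subgroup Function

variable {G X : Type*} [Group G] [MulAction G X]

lemma card_eq_sum_minimalPeriod [Fintype X] (g : G)
    [Fintype (orbitRel.Quotient (zpowers g) X)] :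
    Fintype.card X
      = ∑ q : orbitRel.Quotient (zpowers g) X, minimalPeriod (g • ·) q.out := by
  have (q : orbitRel.Quotient (zpowers g) X) :
      Fintype (MulAction.orbit (zpowers g) q.out) := Fintype.ofFinite _
  simp only [MulAction.minimalPeriod_eq_card]
  rw [← Fintype.card_sigma]
  exact Fintype.card_congr (MulAction.selfEquivSigmaOrbits (zpowers g) X)

lemma minimalPeriod_eq_of_prime (g : G) (n : ℕ) (hn : n.Prime) (hg : ∀ x : X, g ^ n • x = x)
    (x : X) [Decidable (g • x = x)] :
    minimalPeriod (g • ·) x = if g • x = x then 1 else n := by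
  have hper : IsPeriodicPt (g • ·) n x := by
    rw [IsPeriodicPt, IsFixedPt, smul_iterate]
    exact hg x
  have hdvd := hper.minimalPeriod_dvd
  rcases (Nat.dvd_prime hn).mp hdvd with h1 | h2
  · have hfix : g • x = x := minimalPeriod_eq_one_iff_isFixedPt.mp h1
    rw [h1, if_pos hfix]
  · have hfix : ¬ g • x = x := fun h => by
      have h1 : minimalPeriod (g • ·) x = 1 := minimalPeriod_eq_one_iff_isFixedPt.mpr h
      rw [h2] at h1
      exact hn.one_lt.ne' h1
    rw [h2, if_neg hfix]

lemma smul_eq_of_mem_orbit_zpowers_of_fixed (g : G) (x y : X) (hx : g • x = x)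
    (hy : y ∈ MulAction.orbit (zpowers g) x) : y = x := by
  obtain ⟨⟨h, hh⟩, rfl⟩ := hy
  obtain ⟨k, rfl⟩ := Subgroup.mem_zpowers_iff.mp hh
  exact fixedBy_subset_fixedBy_zpow X g k hx

/-- If `g ^ n` acts trivially on the finite set `X` (`n` prime), then
`n * #orbits = #X + (n - 1) * #Fix(g)`. -/
theorem prime_mul_card_orbits [Finite X] (g : G) (n : ℕ) (hn : n.Prime)
    (hg : ∀ x : X, g ^ n • x = x) :
    n * Nat.card (orbitRel.Quotient (zpowers g) X)
      = Nat.card X + (n - 1) * Nat.card (fixedBy X g) := by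
  classical
  haveI := Fintype.ofFinite X
  haveI : Fintype (orbitRel.Quotient (zpowers g) X) := Fintype.ofFinite _
  have h1 := card_eq_sum_minimalPeriod (X := X) g
  simp only [minimalPeriod_eq_of_prime g n hn hg] at h1
  rw [Finset.sum_ite, Finset.sum_const, Finset.sum_const, smul_eq_mul, mul_one,
    smul_eq_mul] at h1
  have h2 : (Finset.univ.filter
      (fun q : orbitRel.Quotient (zpowers g) X => g • q.out = q.out)).card
        = Nat.card (fixedBy X g) := by
    rw [← Fintype.card_subtype, ← Nat.card_eq_fintype_card]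
    refine Nat.card_eq_of_bijective
      (fun q : {q : orbitRel.Quotient (zpowers g) X // g • q.out = q.out} =>
        (⟨q.1.out, q.2⟩ : fixedBy X g)) ⟨?_, ?_⟩
    · intro q q' h
      have h' : q.1.out = q'.1.out := congrArg Subtype.val h
      exact Subtype.ext (Quotient.out_injective h')
    · rintro ⟨x, hx⟩
      have hx' : g • x = x := hx
      have hout : (Quotient.mk'' x : orbitRel.Quotient (zpowers g) X).out = x := by
        apply smul_eq_of_mem_orbit_zpowers_of_fixed g x _ hx'
        have := Quotient.exact (Quotient.out_eq (Quotient.mk'' x : orbitRel.Quotient (zpowers g) X))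
        exact (MulAction.orbitRel_apply).mp this
      refine ⟨⟨Quotient.mk'' x, ?_⟩, ?_⟩
      · rw [hout]; exact hx'
      · exact Subtype.ext hout
  have h3 := Finset.card_filter_add_card_filter_not (s := (Finset.univ :
      Finset (orbitRel.Quotient (zpowers g) X)))
      (fun q : orbitRel.Quotient (zpowers g) X => g • q.out = q.out)
  rw [Finset.card_univ] at h3
  rw [Nat.card_eq_fintype_card, Nat.card_eq_fintype_card, ← h3, h1, ← h2]
  obtain ⟨m, rfl⟩ : ∃ m, n = m + 1 := ⟨n - 1, (Nat.succ_pred_eq_of_pos hn.pos).symm⟩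
  simp only [Nat.add_sub_cancel]
  ring

end Fermat.Agent.S20.Comb694

end
-- ===== PACK-END S20/Comb694/Orbits.lean

-- ===== PACK-BEGIN S18/B12/H693/RedBasis.lean
section
/-
S18 / Route K / b2, leaf P4 = `RedBasisStatement` (helper693).  Mathlib-only.

A finite torsion-free algebra `R₁` over a PID `R` has a family which is `R`-linearly independent
modulo nilpotents and spans `R₁` modulo nilpotents (`R₁ / nilradical` is finite free).
-/


set_option autoImplicit false

namespace Fermat.Agent.S18.B12.H693

open Module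

/-- `R₁ / nilradical` is torsion-free over `R` if `R₁` is. -/
theorem isTorsionFree_quotient_nilradical (R : Type*) [CommRing R] [IsDomain R]
    (R₁ : Type*) [CommRing R₁] [Algebra R R₁] [Module.IsTorsionFree R R₁] :
    Module.IsTorsionFree R (R₁ ⧸ nilradical R₁) := by
  rw [Module.isTorsionFree_iff_smul_eq_zero]
  intro r m hrm
  by_cases hr : r = 0
  · exact Or.inl hr
  right
  obtain ⟨x, rfl⟩ := Ideal.Quotient.mk_surjective m
  have h1 : Ideal.Quotient.mk (nilradical R₁) (r • x) = 0 := by
    rw [← hrm]; rfl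
  rw [Ideal.Quotient.eq_zero_iff_mem, mem_nilradical] at h1 ⊢
  obtain ⟨k, hk⟩ := h1
  refine ⟨k, ?_⟩
  rw [smul_pow] at hk
  exact (smul_eq_zero.mp hk).resolve_left (pow_ne_zero k hr)

/-- **P4 (reduced basis)**, explicit form of `Fermat.Agent.S18.B12.RedBasisStatement`. -/
theorem exists_redBasis (R : Type*) [CommRing R] [IsDomain R] [IsPrincipalIdealRing R]
    (R₁ : Type*) [CommRing R₁] [Algebra R R₁] [Module.Finite R R₁] [Module.IsTorsionFree R R₁] :
    ∃ (r : ℕ) (y : Fin r → R₁),
      (∀ a : Fin r → R, IsNilpotent (∑ i, a i • y i) → a = 0) ∧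
      (∀ x : R₁, ∃ a : Fin r → R, IsNilpotent (x - ∑ i, a i • y i)) := by
  classical
  have htf : Module.IsTorsionFree R (R₁ ⧸ nilradical R₁) :=
    isTorsionFree_quotient_nilradical R R₁
  have hfin : Module.Finite R (R₁ ⧸ nilradical R₁) :=
    Module.Finite.of_surjective (Ideal.Quotient.mkₐ R (nilradical R₁)).toLinearMap
      (Ideal.Quotient.mkₐ_surjective R (nilradical R₁))
  have hfree : Module.Free R (R₁ ⧸ nilradical R₁) := Module.free_of_finite_type_torsion_free'
  let bQ : Basis (Fin (finrank R (R₁ ⧸ nilradical R₁))) R (R₁ ⧸ nilradical R₁) :=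
    Module.finBasis R _
  choose y hy using fun i => Ideal.Quotient.mk_surjective (bQ i)
  have hsum : ∀ a : Fin (finrank R (R₁ ⧸ nilradical R₁)) → R,
      Ideal.Quotient.mk (nilradical R₁) (∑ i, a i • y i) = ∑ i, a i • bQ i := by
    intro a
    rw [map_sum]
    refine Finset.sum_congr rfl fun i _ => ?_
    rw [← hy i]
    rfl
  refine ⟨_, y, ?_, ?_⟩
  · intro a ha
    have h0 : ∑ i, a i • bQ i = 0 := by
      rw [← hsum, Ideal.Quotient.eq_zero_iff_mem, mem_nilradical]
      exact ha
    have := (Fintype.linearIndependent_iff.mp bQ.linearIndependent) a h0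
    exact funext this
  · intro x
    refine ⟨fun i => bQ.repr (Ideal.Quotient.mk (nilradical R₁) x) i, ?_⟩
    rw [← mem_nilradical, ← Ideal.Quotient.eq_zero_iff_mem, map_sub, hsum, bQ.sum_repr, sub_self]

end Fermat.Agent.S18.B12.H693

end
-- ===== PACK-END S18/B12/H693/RedBasis.lean

-- ===== PACK-BEGIN S18/H274/Newton.lean
section


/-!
# S18 / b2 (helper274) — traces of powers and nilpotency in characteristic zero

Mathlib-only.  Over a field of characteristic zero, an endomorphism `f` of a finite dimensional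
vector space all of whose positive powers have trace zero is nilpotent
(`isNilpotent_of_trace_pow_eq_zero`), and the matrix version
(`matrix_isNilpotent_of_trace_pow_eq_zero`).

Proof: induction on the dimension.  By Cayley–Hamilton `χ(f) = 0`; taking traces gives
`χ(0) · dim V = 0`, so `det f = 0` and `range f` is a proper invariant subspace.  The traces of
the powers of `f` restricted to `range f` are those of `f`.
-/

namespace Fermat.Agent.S18.H274

open Module Polynomial

universe u

theorem isNilpotent_of_trace_pow_eq_zero_aux (K : Type*) [Field K] [CharZero K] :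
    ∀ (n : ℕ) (V : Type u) [AddCommGroup V] [Module K V] [FiniteDimensional K V],
      finrank K V = n → ∀ f : V →ₗ[K] V,
        (∀ k, 1 ≤ k → LinearMap.trace K V (f ^ k) = 0) → IsNilpotent f := by
  intro n
  induction n using Nat.strong_induction_on with
  | _ n ih =>
    intro V _ _ _ hn f hf
    rcases Nat.eq_zero_or_pos n with h0 | hpos
    · -- trivial space
      subst h0
      have : Subsingleton V := Module.finrank_zero_iff.mp hn
      have hf0 : f = 0 := Subsingleton.elim _ _
      rw [hf0]
      exact IsNilpotent.zero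
    · -- `det f = 0`
      have hCH := LinearMap.aeval_self_charpoly f
      have htr : LinearMap.trace K V (aeval f f.charpoly) = f.charpoly.coeff 0 * (n : K) := by
        rw [aeval_eq_sum_range, map_sum]
        rw [Finset.sum_eq_single 0]
        · simp [hn, Module.End.one_eq_id]
        · intro i _ hi
          rw [map_smul, hf i (Nat.one_le_iff_ne_zero.mpr hi), smul_zero]
        · intro h
          exact absurd (Finset.mem_range.mpr (Nat.succ_pos _)) h
      rw [hCH, map_zero] at htr
      have hn0 : (n : K) ≠ 0 := Nat.cast_ne_zero.mpr hpos.ne'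
      have hc0 : f.charpoly.coeff 0 = 0 := by
        rcases mul_eq_zero.mp htr.symm with h | h
        · exact h
        · exact absurd h hn0
      have hdet : LinearMap.det f = 0 := by
        rw [LinearMap.det_eq_sign_charpoly_coeff, hc0, mul_zero]
      have hker : ⊥ < LinearMap.ker f := LinearMap.bot_lt_ker_of_det_eq_zero hdet
      have hkerpos : 0 < finrank K (LinearMap.ker f) := by
        rw [Module.finrank_pos_iff_exists_ne_zero]
        obtain ⟨x, hx, hx'⟩ := Submodule.exists_mem_ne_zero_of_ne_bot hker.ne'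
        exact ⟨⟨x, hx⟩, fun h => hx' (congrArg Subtype.val h)⟩
      have hrn := LinearMap.finrank_range_add_finrank_ker f
      have hlt : finrank K (LinearMap.range f) < n := by omega
      -- restriction to the range
      let U := LinearMap.range f
      let f' : V →ₗ[K] U := f.rangeRestrict
      let ι : U →ₗ[K] V := U.subtype
      let g : U →ₗ[K] U := f' ∘ₗ ι
      have hfι : ι ∘ₗ f' = f := LinearMap.subtype_comp_codRestrict _ _ _
      have hgx : ∀ x : U, ((g x : U) : V) = f (x : V) := fun x => rfl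
      have hιg' : ∀ (k : ℕ) (x : U), (((g ^ k) x : U) : V) = (f ^ k) (x : V) := by
        intro k
        induction k with
        | zero => intro x; simp
        | succ k ihk =>
          intro x
          rw [pow_succ', Module.End.mul_apply, hgx, ihk, pow_succ', Module.End.mul_apply]
      have hιg : ∀ k : ℕ, ι ∘ₗ (g ^ k) = (f ^ k) ∘ₗ ι := by
        intro k
        ext x
        exact hιg' k x
      have hg : ∀ k, 1 ≤ k → LinearMap.trace K U (g ^ k) = 0 := by
        intro k hk
        obtain ⟨k, rfl⟩ : ∃ j, k = j + 1 := ⟨k - 1, by omega⟩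
        have h1 : g ^ (k + 1) = ((g ^ k) ∘ₗ f') ∘ₗ ι := by
          rw [pow_succ, Module.End.mul_eq_comp, LinearMap.comp_assoc]
        rw [h1, LinearMap.trace_comp_comm', ← LinearMap.comp_assoc, hιg, LinearMap.comp_assoc,
          hfι, ← Module.End.mul_eq_comp, ← pow_succ]
        exact hf (k + 1) (Nat.succ_pos _)
      obtain ⟨m, hm⟩ := ih _ hlt U rfl g hg
      refine ⟨m + 1, ?_⟩
      ext x
      rw [pow_succ, Module.End.mul_apply]
      have h2 : f x = ((f' x : U) : V) := rfl
      rw [h2, ← hιg', hm]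
      simp

/-- Over a field of characteristic zero, an endomorphism of a finite dimensional vector space
all of whose positive powers have trace zero is nilpotent. -/
theorem isNilpotent_of_trace_pow_eq_zero {K : Type*} [Field K] [CharZero K]
    {V : Type*} [AddCommGroup V] [Module K V] [FiniteDimensional K V] (f : V →ₗ[K] V)
    (hf : ∀ k, 1 ≤ k → LinearMap.trace K V (f ^ k) = 0) : IsNilpotent f :=
  isNilpotent_of_trace_pow_eq_zero_aux K _ V rfl f hf

/-- Matrix version of `isNilpotent_of_trace_pow_eq_zero`. -/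
theorem matrix_isNilpotent_of_trace_pow_eq_zero {K : Type*} [Field K] [CharZero K]
    {n : Type*} [Fintype n] [DecidableEq n] (A : Matrix n n K)
    (hA : ∀ k, 1 ≤ k → (A ^ k).trace = 0) : IsNilpotent A := by
  have h := isNilpotent_of_trace_pow_eq_zero (Matrix.toLin' A) (fun k hk => by
    rw [← Matrix.toLin'_pow, LinearMap.trace_eq_matrix_trace K (Pi.basisFun K n),
      LinearMap.toMatrix_eq_toMatrix', LinearMap.toMatrix'_toLin']
    exact hA k hk)
  obtain ⟨m, hm⟩ := h
  refine ⟨m, ?_⟩
  rw [← Matrix.toLin'_pow] at hm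
  exact Matrix.toLin'.injective (by rw [hm, map_zero])

end Fermat.Agent.S18.H274

end
-- ===== PACK-END S18/H274/Newton.lean

-- ===== PACK-BEGIN S37/H278/Lattice.lean
section


/-!
# S37 / S18, piece b2-core (helper278): lattices in a finite algebra and their traces

`o` a PID with fraction field `K`, `L` a commutative `K`-algebra.  A subalgebra `R ⊆ L` which is a
finitely generated `o`-module spanning `L` is finite free over `o`, `L` is its localization, and the
trace of `L / K` restricted to `R` is the trace of `R / o`.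
-/

set_option autoImplicit false

namespace Fermat.Agent.S37.H278

open Module

section Lattice

variable {o K L : Type*} [CommRing o] [IsDomain o]
  [Field K] [Algebra o K] [IsFractionRing o K]
  [CommRing L] [Algebra K L] [Algebra o L] [IsScalarTower o K L]

omit [IsDomain o] in
theorem smul_eq_zero_of_fractionRing (K : Type*) [Field K] [Algebra o K] [IsFractionRing o K]
    [Algebra K L] [IsScalarTower o K L] {r : o} (hr : r ≠ 0) {x : L}
    (h : r • x = 0) : x = 0 := by
  have h' : (algebraMap o K r) • x = 0 := by rwa [algebraMap_smul]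
  have hne : algebraMap o K r ≠ 0 := by
    intro h0
    exact hr ((IsFractionRing.injective o K) (by rw [h0, map_zero]))
  rcases smul_eq_zero.mp h' with h1 | h1
  · exact absurd h1 hne
  · exact h1

/-- A lattice: a subalgebra of `L`, finitely generated as `o`-module, spanning `L`. -/
structure IsLattice (R : Subalgebra o L) : Prop where
  fg : (Subalgebra.toSubmodule R).FG
  span : ∀ l : L, ∃ σ : o, σ ≠ 0 ∧ σ • l ∈ R

variable {R : Subalgebra o L}

theorem IsLattice.finite (h : IsLattice R) : Module.Finite o R :=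
  Module.Finite.iff_fg.mpr h.fg

include K in
theorem isTorsionFree_subalgebra (R : Subalgebra o L) : Module.IsTorsionFree o R := by
  refine ⟨fun r hr x y hxy => ?_⟩
  have hr0 : r ≠ 0 := by
    rintro rfl
    have := hr.left
    exact one_ne_zero (this (by simp : (0 : o) * 1 = 0 * 0))
  have hxy' : r • ((x : L) - (y : L)) = 0 := by
    have := congrArg (Subtype.val) hxy
    simp only [Subalgebra.coe_smul] at this
    rw [smul_sub, this, sub_self]
  have := smul_eq_zero_of_fractionRing K hr0 hxy'
  exact Subtype.ext (sub_eq_zero.mp this)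

include K in
theorem IsLattice.free [IsPrincipalIdealRing o] (h : IsLattice R) : Module.Free o R := by
  haveI := h.finite
  haveI := isTorsionFree_subalgebra (K := K) R
  exact Module.free_of_finite_type_torsion_free'

include K in
theorem IsLattice.isLocalization (h : IsLattice R) :
    IsLocalization (Algebra.algebraMapSubmonoid R (nonZeroDivisors o)) L where
  map_units := by
    rintro ⟨y, σ, hσ, rfl⟩
    have hσ0 : σ ≠ 0 := nonZeroDivisors.ne_zero hσ
    have hne : algebraMap o K σ ≠ 0 := by
      intro h0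
      exact hσ0 ((IsFractionRing.injective o K) (by rw [h0, map_zero]))
    have : algebraMap R L (algebraMap o R σ) = algebraMap K L (algebraMap o K σ) := by
      rw [← IsScalarTower.algebraMap_apply, ← IsScalarTower.algebraMap_apply]
    rw [this]
    exact (IsUnit.mk0 _ hne).map (algebraMap K L)
  surj := by
    intro l
    obtain ⟨σ, hσ, hl⟩ := h.span l
    refine ⟨(⟨σ • l, hl⟩, ⟨algebraMap o R σ, σ, mem_nonZeroDivisors_of_ne_zero hσ, rfl⟩), ?_⟩
    show l * algebraMap R L (algebraMap o R σ) = σ • l
    rw [← IsScalarTower.algebraMap_apply, Algebra.smul_def, mul_comm]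
  exists_of_eq := by
    intro x y hxy
    refine ⟨1, ?_⟩
    have : x = y := Subtype.ext hxy
    rw [this]

include K in
theorem IsLattice.trace_eq [IsPrincipalIdealRing o] (h : IsLattice R) (a : R) :
    Algebra.trace K L (a : L) = algebraMap o K (Algebra.trace o R a) := by
  haveI := h.finite
  haveI := h.free (K := K)
  haveI := h.isLocalization (K := K)
  exact Algebra.trace_localization o (nonZeroDivisors o) (Rₘ := K) (Sₘ := L) a

theorem isLattice_adjoin {G : Set L} (hG : G.Finite) (hint : ∀ g ∈ G, IsIntegral o g)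
    (hspan : ∀ l : L, ∃ σ : o, σ ≠ 0 ∧ σ • l ∈ Algebra.adjoin o G) :
    IsLattice (Algebra.adjoin o G) :=
  ⟨fg_adjoin_of_finite hG hint, hspan⟩

end Lattice

section DVR

variable {o K L : Type*} [CommRing o] [IsDomain o] [IsDiscreteValuationRing o]
  [Field K] [Algebra o K] [IsFractionRing o K]
  [CommRing L] [Algebra K L] [Algebra o L] [IsScalarTower o K L]

/-- In a finite free algebra over a local ring, the trace of an element which is nilpotent
modulo the maximal ideal lies in the maximal ideal. -/
theorem trace_mem_maximalIdeal_of_pow_mem {o S : Type*} [CommRing o] [IsLocalRing o]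
    [CommRing S] [Algebra o S] [Module.Free o S] [Module.Finite o S] (a : S) (k : ℕ)
    (hk : a ^ k ∈ Ideal.map (algebraMap o S) (IsLocalRing.maximalIdeal o)) :
    Algebra.trace o S a ∈ IsLocalRing.maximalIdeal o := by
  have h1 := Algebra.trace_quotient_mk (R := o) (S := S) a
  have hnil : IsNilpotent
      (Ideal.Quotient.mk (Ideal.map (algebraMap o S) (IsLocalRing.maximalIdeal o)) a) := by
    refine ⟨k, ?_⟩
    rw [← map_pow]
    exact Ideal.Quotient.eq_zero_iff_mem.mpr hk
  have h2 := Algebra.isNilpotent_trace_of_isNilpotent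
    (R := o ⧸ IsLocalRing.maximalIdeal o) hnil
  rw [h1] at h2
  have h3 : (Ideal.Quotient.mk (IsLocalRing.maximalIdeal o)) (Algebra.trace o S a) = 0 := by
    haveI : IsReduced (o ⧸ IsLocalRing.maximalIdeal o) := by
      haveI : (IsLocalRing.maximalIdeal o).IsPrime := inferInstance
      infer_instance
    exact h2.eq_zero
  exact Ideal.Quotient.eq_zero_iff_mem.mp h3

theorem dvd_trace_of_pow_mem {S : Type*} [CommRing S] [Algebra o S] [Module.Free o S]
    [Module.Finite o S] {t : o} (ht : Irreducible t) (a : S) (k : ℕ)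
    (hk : ∃ a' : S, a ^ k = t • a') : t ∣ Algebra.trace o S a := by
  have hmax : IsLocalRing.maximalIdeal o = Ideal.span {t} := ht.maximalIdeal_eq
  obtain ⟨a', ha'⟩ := hk
  have hmem : a ^ k ∈ Ideal.map (algebraMap o S) (IsLocalRing.maximalIdeal o) := by
    rw [ha', Algebra.smul_def]
    apply Ideal.mul_mem_right
    apply Ideal.mem_map_of_mem
    rw [hmax]
    exact Ideal.mem_span_singleton_self t
  have := trace_mem_maximalIdeal_of_pow_mem a k hmem
  rw [hmax] at this
  exact Ideal.mem_span_singleton.mp this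

include K in
/-- trace of an element of a lattice, nilpotent modulo `t`, is divisible by `t` -/
theorem IsLattice.dvd_trace {R : Subalgebra o L} (h : IsLattice R) {t : o} (ht : Irreducible t)
    (a : R) (k : ℕ) (hk : ∃ a' : R, a ^ k = t • a') : t ∣ Algebra.trace o R a := by
  haveI := h.finite
  haveI := h.free (K := K)
  exact dvd_trace_of_pow_mem ht a k hk

end DVR

end Fermat.Agent.S37.H278

end
-- ===== PACK-END S37/H278/Lattice.lean

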