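import Mathlib.Analysis.Complex.Periodic
import Mathlib.Analysis.Complex.UpperHalfPlane.Basic
import Mathlib.Analysis.Normed.Ring.InfiniteSum
import Mathlib.Analysis.SpecificLimits.Normed
import Fermat.Prelude.Def_AlgebraicCurve_Repartitions
import Mathlib
import Fermat.Prelude.Def_ModularCurve_PeriodHomPair
import Fermat.Prelude.Thm_Subgroup_IsArithmetic_exists_nat_mem_strictPeriods_conj
import Fermat.Prelude.Def_ModularCurve_X0ModL
import Fermat.Prelude.Def_ModularCurve_X0
import Fermat.Agent.Pack.S34.G0E0L2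
import Fermat.Agent.Pack.S34.G0E0L0
import Fermat.Agent.Pack.S34.G0E1L2
import Fermat.Agent.Pack.S34.G0E1L1
import Fermat.Agent.Pack.S34.G0E1L3
import Fermat.Agent.Pack.S34.G0E1L0
import Fermat.Agent.Pack.S34.G0E0L3

-- ===== PACK-BEGIN Lib/Pet695/Hecke.lean
section



/-!
# Self-adjointness of `T_ℓ` (`ℓ ∤ N`) for the Petersson pairing: the `GL(2,ℝ)` layer
-/

set_option autoImplicit false

open Matrix UpperHalfPlane MeasureTheory ModularForm
open scoped MatrixGroups ModularForm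

noncomputable section

namespace Fermat.Agent.Lib.Pet695

variable {N ℓ : ℕ}

/-- the real matrix of an element of `Δ`, as an element of `GL(2,ℝ)` -/
def toGL (hℓ0 : ℓ ≠ 0) (M : DeltaZ N ℓ) : GL (Fin 2) ℝ :=
  Matrix.GeneralLinearGroup.mkOfDetNeZero (M.1.map (Int.cast : ℤ → ℝ)) (by
    have h := Int.cast_det (R := ℝ) M.1
    rw [M.2.1] at h
    rw [← h]
    exact_mod_cast hℓ0)

theorem toGL_val (hℓ0 : ℓ ≠ 0) (M : DeltaZ N ℓ) :
    ((toGL hℓ0 M : GL (Fin 2) ℝ) : Matrix (Fin 2) (Fin 2) ℝ) = M.1.map (Int.cast : ℤ → ℝ) := rfl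

theorem toGL_injective (hℓ0 : ℓ ≠ 0) : Function.Injective (toGL (N := N) hℓ0) := by
  intro M M' h
  have h1 : M.1.map (Int.cast : ℤ → ℝ) = M'.1.map (Int.cast : ℤ → ℝ) := by
    rw [← toGL_val hℓ0 M, ← toGL_val hℓ0 M', h]
  exact Subtype.ext (Matrix.map_injective Int.cast_injective h1)

theorem det_toGL (hℓ0 : ℓ ≠ 0) (M : DeltaZ N ℓ) : (toGL hℓ0 M).det.val = (ℓ : ℝ) := by
  rw [Matrix.GeneralLinearGroup.val_det_apply, toGL_val]
  have h := Int.cast_det (R := ℝ) M.1
  rw [M.2.1] at h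
  rw [← h]
  simp

/-- the representatives in `GL(2,ℝ)` (the Prelude's Hecke matrices) -/
def repGL (ℓ : ℕ) : Option (Fin ℓ) → GL (Fin 2) ℝ
  | none => heckeDiagMatrix ℓ
  | some j => heckeMatrix ℓ j

theorem repGL_val (hℓ0 : ℓ ≠ 0) (x : Option (Fin ℓ)) :
    ((repGL ℓ x : GL (Fin 2) ℝ) : Matrix (Fin 2) (Fin 2) ℝ)
      = (repZ ℓ x).map (Int.cast : ℤ → ℝ) := by
  cases x with
  | none =>
    rw [repGL, val_heckeDiagMatrix hℓ0, repZ]
    ext i j; fin_cases i <;> fin_cases j <;> simp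
  | some j =>
    rw [repGL, val_heckeMatrix hℓ0, repZ]
    ext i j'; fin_cases i <;> fin_cases j' <;> simp

/-- the coercion `Γ₀(N) → GL(2,ℝ)` -/
def aGL (N : ℕ) (g : CongruenceSubgroup.Gamma0 N) : GL (Fin 2) ℝ :=
  Matrix.SpecialLinearGroup.mapGL ℝ (g : SL(2, ℤ))

theorem toGL_eZ (hℓ : ℓ.Prime) (hℓN : ¬ ℓ ∣ N) (g : CongruenceSubgroup.Gamma0 N)
    (x : Option (Fin ℓ)) : toGL hℓ.ne_zero (eZ hℓ hℓN (g, x)) = aGL N g * repGL ℓ x := by
  apply Units.ext
  rw [toGL_val, eZ_apply, Units.val_mul, repGL_val hℓ.ne_zero, aGL]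
  have h1 : ((Matrix.SpecialLinearGroup.mapGL ℝ (g : SL(2, ℤ)) : GL (Fin 2) ℝ) :
      Matrix (Fin 2) (Fin 2) ℝ) = ((g : SL(2, ℤ)).val).map (Int.cast : ℤ → ℝ) := by
    simp
  rw [h1]
  exact Matrix.map_mul (f := Int.castRingHom ℝ)

theorem toGL_starZ (hℓ0 : ℓ ≠ 0) (M : DeltaZ N ℓ) :
    ((toGL hℓ0 (starZ M) : GL (Fin 2) ℝ) : Matrix (Fin 2) (Fin 2) ℝ)
      = (ℓ : ℝ) • (((toGL hℓ0 M)⁻¹ : GL (Fin 2) ℝ) : Matrix (Fin 2) (Fin 2) ℝ) := by
  have hℓ' : (ℓ : ℝ) ≠ 0 := by exact_mod_cast hℓ0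
  have hdet : (M.1.map (Int.cast : ℤ → ℝ)).det = (ℓ : ℝ) := by
    have h := Int.cast_det (R := ℝ) M.1
    rw [M.2.1] at h
    rw [← h]; simp
  rw [Matrix.coe_units_inv, toGL_val, toGL_val, Matrix.inv_def, hdet, Ring.inverse_eq_inv',
    smul_smul, mul_inv_cancel₀ hℓ', one_smul]
  show (M.1.adjugate).map (Int.cast : ℤ → ℝ) = _
  exact (Int.castRingHom ℝ).map_adjugate M.1

/-- `Δ` inside `GL(2,ℝ)` -/
def DeltaGL (N ℓ : ℕ) (hℓ0 : ℓ ≠ 0) : Set (GL (Fin 2) ℝ) := Set.range (toGL (N := N) hℓ0)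

/-- coset decomposition in `GL(2,ℝ)` -/
def eGL (hℓ : ℓ.Prime) (hℓN : ¬ ℓ ∣ N) :
    CongruenceSubgroup.Gamma0 N × Option (Fin ℓ) ≃ DeltaGL N ℓ hℓ.ne_zero :=
  (eZ hℓ hℓN).trans (Equiv.ofInjective _ (toGL_injective hℓ.ne_zero))

theorem eGL_apply (hℓ : ℓ.Prime) (hℓN : ¬ ℓ ∣ N) (g : CongruenceSubgroup.Gamma0 N)
    (x : Option (Fin ℓ)) :
    ((eGL hℓ hℓN (g, x) : DeltaGL N ℓ hℓ.ne_zero) : GL (Fin 2) ℝ) = aGL N g * repGL ℓ x := by
  rw [← toGL_eZ hℓ hℓN]
  rfl

/-- the involution `δ ↦ ℓ δ⁻¹` of `Δ` -/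
def starGL (hℓ0 : ℓ ≠ 0) : DeltaGL N ℓ hℓ0 ≃ DeltaGL N ℓ hℓ0 :=
  ((Equiv.ofInjective _ (toGL_injective (N := N) hℓ0)).symm.trans starZ).trans
    (Equiv.ofInjective _ (toGL_injective hℓ0))

theorem starGL_val (hℓ0 : ℓ ≠ 0) (δ : DeltaGL N ℓ hℓ0) :
    ((starGL hℓ0 δ : GL (Fin 2) ℝ) : Matrix (Fin 2) (Fin 2) ℝ)
      = (ℓ : ℝ) • (((δ : GL (Fin 2) ℝ)⁻¹ : GL (Fin 2) ℝ) : Matrix (Fin 2) (Fin 2) ℝ) := by
  obtain ⟨δ, M, rfl⟩ := δ
  have h : (Equiv.ofInjective _ (toGL_injective (N := N) hℓ0)).symm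
      ⟨toGL hℓ0 M, ⟨M, rfl⟩⟩ = M :=
    (Equiv.ofInjective _ (toGL_injective (N := N) hℓ0)).symm_apply_apply M
  show ((toGL hℓ0 (starZ ((Equiv.ofInjective _ (toGL_injective (N := N) hℓ0)).symm
      ⟨toGL hℓ0 M, ⟨M, rfl⟩⟩)) : GL (Fin 2) ℝ) : Matrix (Fin 2) (Fin 2) ℝ) = _
  rw [h, toGL_starZ]

theorem det_of_mem_DeltaGL (hℓ0 : ℓ ≠ 0) {δ : GL (Fin 2) ℝ} (hδ : δ ∈ DeltaGL N ℓ hℓ0) :
    δ.det.val = (ℓ : ℝ) := by
  obtain ⟨M, rfl⟩ := hδ
  exact det_toGL hℓ0 M

theorem countable_SL2Z : Countable SL(2, ℤ) := by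
  have h : Countable (Matrix (Fin 2) (Fin 2) ℤ) :=
    (inferInstance : Countable (Fin 2 → Fin 2 → ℤ))
  exact Function.Injective.countable
    (f := fun g : SL(2, ℤ) => (g : Matrix (Fin 2) (Fin 2) ℤ))
    (fun x y hxy => Subtype.ext hxy)

theorem countable_gamma0 (N : ℕ) : Countable (CongruenceSubgroup.Gamma0 N) :=
  haveI := countable_SL2Z
  inferInstance

/-- **`T_ℓ` is self-adjoint** (function level): for admissible `Γ₀(N)`-invariant `f, g` and
any partition function `χ` for `Γ₀(N)`. -/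
theorem pet_heckeT_adjoint (hℓ : ℓ.Prime) (hℓN : ¬ ℓ ∣ N) {χ : ℍ → ℝ}
    (hχ : IsPartFn (aGL N) χ) {k : ℤ} {f g : ℍ → ℂ} (hf : IsAdm k f) (hg : IsAdm k g)
    (hfa : ∀ γ, f ∣[k] aGL N γ = f) (hga : ∀ γ, g ∣[k] aGL N γ = g) :
    pet k χ (heckeT k ℓ f) g = pet k χ f (heckeT k ℓ g) := by
  have hpos : (0 : ℝ) < ℓ := by exact_mod_cast hℓ.pos
  have := countable_gamma0 N
  have h := pet_sum_slash_adjoint hχ (repGL ℓ) hpos (DeltaGL N ℓ hℓ.ne_zero)
    (fun δ hδ => det_of_mem_DeltaGL hℓ.ne_zero hδ) (eGL hℓ hℓN) (eGL_apply hℓ hℓN)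
    (starGL hℓ.ne_zero) (starGL_val hℓ.ne_zero) hf hg hfa hga
  have hT : ∀ F : ℍ → ℂ, heckeT k ℓ F = ∑ x : Option (Fin ℓ), F ∣[k] repGL ℓ x := by
    intro F
    rw [heckeT_def, Fintype.sum_option, add_comm, ← Fin.sum_univ_eq_sum_range
      (fun j => F ∣[k] heckeMatrix ℓ j)]
    rfl
  rw [hT f, hT g]
  exact h

end Fermat.Agent.Lib.Pet695

end
end
-- ===== PACK-END Lib/Pet695/Hecke.lean

-- ===== PACK-BEGIN S24/Inf/Conv.lean
section






/-!
# S24 / MOD-INF — convergent Laurent expansions at `∞`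

`InfExp N f φ` : the Laurent series `φ` converges to `f : ℍ → ℂ` on all of `ℍ` in the
variable `z = exp (2πiτ/N)`.  We prove closure under the ring operations and uniqueness.
-/

set_option autoImplicit false

noncomputable section

open HahnSeries ModularCurve UpperHalfPlane Complex
open scoped Real

namespace Fermat.Agent.S24

/-- The local parameter `exp (2πiτ/N)` at `∞` (width `N`). -/
def infZ (N : ℕ) (τ : ℍ) : ℂ := Function.Periodic.qParam (N : ℝ) (τ : ℂ)

theorem infZ_def (N : ℕ) (τ : ℍ) : infZ N τ = Complex.exp (2 * π * Complex.I * τ / N) := by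
  simp [infZ, Function.Periodic.qParam]

theorem infZ_ne_zero (N : ℕ) (τ : ℍ) : infZ N τ ≠ 0 :=
  Function.Periodic.qParam_ne_zero _

theorem norm_infZ_lt_one (N : ℕ) [NeZero N] (τ : ℍ) : ‖infZ N τ‖ < 1 :=
  Function.Periodic.norm_qParam_lt_one
    (by exact_mod_cast Nat.pos_of_ne_zero (NeZero.ne N)) τ.im_pos

/-- Every point of the punctured unit disc is a value of `infZ N`. -/
theorem exists_infZ_eq (N : ℕ) [NeZero N] {z : ℂ} (hz : z ≠ 0) (hz1 : ‖z‖ < 1) :
    ∃ τ : ℍ, infZ N τ = z := by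
  have hN : (0 : ℝ) < N := by exact_mod_cast Nat.pos_of_ne_zero (NeZero.ne N)
  have him : 0 < (Function.Periodic.invQParam (N : ℝ) z).im := by
    rw [Function.Periodic.im_invQParam]
    have hlog : Real.log ‖z‖ < 0 := Real.log_neg (norm_pos_iff.mpr hz) hz1
    have : -(N : ℝ) / (2 * π) < 0 := by
      apply div_neg_of_neg_of_pos (by linarith) (by positivity)
    exact mul_pos_of_neg_of_neg this hlog
  exact ⟨⟨_, him⟩, Function.Periodic.qParam_right_inv hN.ne' hz⟩

/-- `φ` converges to `f` on `ℍ` in the variable `z = exp (2πiτ/N)`. -/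
def InfExp (N : ℕ) (f : ℍ → ℂ) (φ : LaurentSeries ℂ) : Prop :=
  ∀ τ : ℍ, HasSum (fun n : ℤ => φ.coeff n * infZ N τ ^ n) (f τ)

/-- Power series version. -/
def InfPExp (N : ℕ) (f : ℍ → ℂ) (ψ : PowerSeries ℂ) : Prop :=
  ∀ τ : ℍ, HasSum (fun n : ℕ => PowerSeries.coeff n ψ * infZ N τ ^ n) (f τ)

section Shift

theorem inf_coeff_single_mul_ofPowerSeries (k : ℤ) (ψ : PowerSeries ℂ) (n : ℕ) :
    (single k (1 : ℂ) * ofPowerSeries ℤ ℂ ψ).coeff ((n : ℤ) + k) = PowerSeries.coeff n ψ := by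
  rw [coeff_single_mul, one_mul, add_sub_cancel_right, ofPowerSeries_apply_coeff]

theorem inf_coeff_single_mul_ofPowerSeries_of_lt (k : ℤ) (ψ : PowerSeries ℂ) {m : ℤ}
    (hm : m < k) : (single k (1 : ℂ) * ofPowerSeries ℤ ℂ ψ).coeff m = 0 := by
  rw [coeff_single_mul, one_mul]
  exact ofPowerSeries_coeff_of_neg _ (by omega)

theorem inf_hasSum_shift_iff (k : ℤ) (ψ : PowerSeries ℂ) {z : ℂ} (hz : z ≠ 0) (s : ℂ) :
    HasSum (fun n : ℤ => (single k (1 : ℂ) * ofPowerSeries ℤ ℂ ψ).coeff n * z ^ n) s ↔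
      HasSum (fun n : ℕ => PowerSeries.coeff n ψ * z ^ n) (z ^ (-k) * s) := by
  have hinj : Function.Injective (fun n : ℕ => (n : ℤ) + k) := fun a b h => by
    simpa using h
  have hrange : ∀ m : ℤ, m ∉ Set.range (fun n : ℕ => (n : ℤ) + k) →
      (single k (1 : ℂ) * ofPowerSeries ℤ ℂ ψ).coeff m * z ^ m = 0 := by
    intro m hm
    have : m < k := by
      by_contra h
      rw [not_lt] at h
      exact hm ⟨(m - k).toNat, by simp [Int.toNat_of_nonneg (sub_nonneg.mpr h)]⟩
    rw [inf_coeff_single_mul_ofPowerSeries_of_lt k ψ this, zero_mul]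
  rw [← hinj.hasSum_iff hrange]
  have hfun : ((fun n : ℤ => (single k (1 : ℂ) * ofPowerSeries ℤ ℂ ψ).coeff n * z ^ n) ∘
      fun n : ℕ => (n : ℤ) + k) = fun n : ℕ => z ^ k * (PowerSeries.coeff n ψ * z ^ n) := by
    funext n
    simp only [Function.comp_apply, inf_coeff_single_mul_ofPowerSeries]
    rw [zpow_add₀ hz, zpow_natCast]
    ring
  rw [hfun]
  constructor
  · intro h
    have := h.mul_left (z ^ (-k))
    have e : (fun n : ℕ => z ^ (-k) * (z ^ k * (PowerSeries.coeff n ψ * z ^ n))) =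
        fun n : ℕ => PowerSeries.coeff n ψ * z ^ n := by
      funext n
      rw [← mul_assoc, ← zpow_add₀ hz, neg_add_cancel, zpow_zero, one_mul]
    rwa [e] at this
  · intro h
    have := h.mul_left (z ^ k)
    rwa [← mul_assoc, ← zpow_add₀ hz, add_neg_cancel, zpow_zero, one_mul] at this

end Shift

section Basic

variable {N : ℕ}

theorem InfExp.powerSeriesPart {f : ℍ → ℂ} {φ : LaurentSeries ℂ} (h : InfExp N f φ) :
    InfPExp N (fun τ => infZ N τ ^ (-φ.order) * f τ) φ.powerSeriesPart := by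
  intro τ
  have := h τ
  have h2 : HasSum (fun n : ℤ =>
      (single φ.order (1 : ℂ) * ofPowerSeries ℤ ℂ φ.powerSeriesPart).coeff n * infZ N τ ^ n)
      (f τ) := by
    rw [LaurentSeries.single_order_mul_powerSeriesPart φ]
    exact this
  exact (inf_hasSum_shift_iff _ _ (infZ_ne_zero N τ) _).mp h2

theorem InfPExp.infExp {g : ℍ → ℂ} {ψ : PowerSeries ℂ} (h : InfPExp N g ψ) (k : ℤ) :
    InfExp N (fun τ => infZ N τ ^ k * g τ) (single k (1 : ℂ) * ofPowerSeries ℤ ℂ ψ) := by
  intro τ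
  rw [inf_hasSum_shift_iff _ _ (infZ_ne_zero N τ)]
  have hz := infZ_ne_zero N τ
  rw [← mul_assoc, ← zpow_add₀ hz, neg_add_cancel, zpow_zero, one_mul]
  exact h τ

theorem InfPExp.mul {g₁ g₂ : ℍ → ℂ} {ψ₁ ψ₂ : PowerSeries ℂ} (h₁ : InfPExp N g₁ ψ₁)
    (h₂ : InfPExp N g₂ ψ₂) : InfPExp N (fun τ => g₁ τ * g₂ τ) (ψ₁ * ψ₂) := by
  intro τ
  have s₁ := (h₁ τ).summable.norm
  have s₂ := (h₂ τ).summable.norm
  have key := summable_norm_sum_mul_antidiagonal_of_summable_norm s₁ s₂
  have hsum := key.of_norm.hasSum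
  rw [← tsum_mul_tsum_eq_tsum_sum_antidiagonal_of_summable_norm s₁ s₂, (h₁ τ).tsum_eq,
    (h₂ τ).tsum_eq] at hsum
  have e : (fun n : ℕ => PowerSeries.coeff n (ψ₁ * ψ₂) * infZ N τ ^ n) =
      fun n => ∑ kl ∈ Finset.HasAntidiagonal.antidiagonal n,
        PowerSeries.coeff kl.1 ψ₁ * infZ N τ ^ kl.1 *
          (PowerSeries.coeff kl.2 ψ₂ * infZ N τ ^ kl.2) := by
    funext n
    rw [PowerSeries.coeff_mul, Finset.sum_mul]
    refine Finset.sum_congr rfl fun p hp => ?_
    have hp' : p.1 + p.2 = n := Finset.HasAntidiagonal.mem_antidiagonal.mp hp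
    rw [← hp', _root_.pow_add]
    ring
  show HasSum (fun n : ℕ => PowerSeries.coeff n (ψ₁ * ψ₂) * infZ N τ ^ n) (g₁ τ * g₂ τ)
  rw [e]
  exact hsum

theorem InfExp.zero : InfExp N (fun _ => 0) 0 := by
  intro τ
  simp [hasSum_zero]

theorem InfExp.const (c : ℂ) : InfExp N (fun _ => c) (HahnSeries.C c) := by
  intro τ
  have h := hasSum_single (f := fun n : ℤ => (HahnSeries.C c : LaurentSeries ℂ).coeff n *
    infZ N τ ^ n) (0 : ℤ) (fun n hn => by
      rw [C_apply, coeff_single_of_ne hn, zero_mul])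
  simpa using h

theorem InfExp.one : InfExp N (fun _ => 1) 1 := by
  have := InfExp.const (N := N) 1
  rwa [map_one] at this

theorem InfExp.add {f g : ℍ → ℂ} {φ ψ : LaurentSeries ℂ} (hf : InfExp N f φ)
    (hg : InfExp N g ψ) : InfExp N (fun τ => f τ + g τ) (φ + ψ) := by
  intro τ
  have := (hf τ).add (hg τ)
  simpa [add_mul] using this

theorem InfExp.neg {f : ℍ → ℂ} {φ : LaurentSeries ℂ} (hf : InfExp N f φ) :
    InfExp N (fun τ => -f τ) (-φ) := by
  intro τ
  have := (hf τ).neg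
  simpa [neg_mul] using this

theorem InfExp.sub {f g : ℍ → ℂ} {φ ψ : LaurentSeries ℂ} (hf : InfExp N f φ)
    (hg : InfExp N g ψ) : InfExp N (fun τ => f τ - g τ) (φ - ψ) := by
  have := hf.add hg.neg
  simpa [sub_eq_add_neg] using this

theorem InfExp.mul {f g : ℍ → ℂ} {φ ψ : LaurentSeries ℂ} (hf : InfExp N f φ)
    (hg : InfExp N g ψ) : InfExp N (fun τ => f τ * g τ) (φ * ψ) := by
  have h := (hf.powerSeriesPart.mul hg.powerSeriesPart).infExp (φ.order + ψ.order)
  have hφ : φ * ψ = single (φ.order + ψ.order) (1 : ℂ) *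
      ofPowerSeries ℤ ℂ (φ.powerSeriesPart * ψ.powerSeriesPart) := by
    conv_lhs => rw [← LaurentSeries.single_order_mul_powerSeriesPart φ,
      ← LaurentSeries.single_order_mul_powerSeriesPart ψ]
    rw [map_mul, mul_mul_mul_comm, single_mul_single, one_mul]
  rw [hφ]
  intro τ
  have hz := infZ_ne_zero N τ
  have this : infZ N τ ^ (φ.order + ψ.order) * (infZ N τ ^ (-φ.order) * f τ *
      (infZ N τ ^ (-ψ.order) * g τ)) = f τ * g τ := by
    have e : infZ N τ ^ (φ.order + ψ.order) * (infZ N τ ^ (-φ.order) * f τ *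
      (infZ N τ ^ (-ψ.order) * g τ)) =
      (infZ N τ ^ (φ.order + ψ.order) * infZ N τ ^ (-φ.order) * infZ N τ ^ (-ψ.order)) *
        (f τ * g τ) := by ring
    rw [e, ← zpow_add₀ hz, ← zpow_add₀ hz]
    simp
  have h' := h τ
  simp only [this] at h'
  exact h'

theorem InfExp.congr {f g : ℍ → ℂ} {φ : LaurentSeries ℂ} (hf : InfExp N f φ)
    (h : ∀ τ, f τ = g τ) : InfExp N g φ := by
  intro τ
  rw [← h τ]
  exact hf τ

/-- The function is determined by the expansion. -/
theorem InfExp.fun_unique {f g : ℍ → ℂ} {φ : LaurentSeries ℂ} (hf : InfExp N f φ)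
    (hg : InfExp N g φ) : f = g :=
  funext fun τ => (hf τ).unique (hg τ)

end Basic

end Fermat.Agent.S24

end
end
-- ===== PACK-END S24/Inf/Conv.lean

-- ===== PACK-BEGIN S24/Alg/Basic.lean
section



/-!
# S24 / ALG — small lemmas on `Place.ord` used by the global assembly (helper984)
-/

set_option autoImplicit false

noncomputable section

open AlgebraicCurve KaehlerDifferential

namespace Fermat.Agent.S24

variable {K F : Type*} [Field K] [Field F] [Algebra K F]

theorem ord_algebraMap (v : Place K F) (c : K) : v.ord (algebraMap K F c) = 0 := by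
  rcases eq_or_ne c 0 with rfl | hc
  · simp
  · have h1 : algebraMap K F c ∈ v.toValuationSubring := v.algebraMap_mem' c
    have h2 : algebraMap K F c⁻¹ ∈ v.toValuationSubring := v.algebraMap_mem' c⁻¹
    have hu : IsUnit (⟨algebraMap K F c, h1⟩ : v.toValuationSubring) := by
      refine IsUnit.of_mul_eq_one (⟨algebraMap K F c⁻¹, h2⟩ : v.toValuationSubring) ?_
      apply Subtype.ext
      show algebraMap K F c * algebraMap K F c⁻¹ = 1
      rw [← map_mul, mul_inv_cancel₀ hc, map_one]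
    have := v.ord_coe_unit hu.unit
    simpa using this

theorem ord_neg (v : Place K F) (x : F) : v.ord (-x) = v.ord x := by
  simp [Place.ord]

theorem le_ord_add (v : Place K F) {x y : F} {k : ℤ} (hx : x = 0 ∨ k ≤ v.ord x)
    (hy : y = 0 ∨ k ≤ v.ord y) : x + y = 0 ∨ k ≤ v.ord (x + y) := by
  have hx' : v.adicValuation x ≤ WithZero.exp (-k) :=
    v.adicValuation_le_exp_iff.mpr (by simpa using hx)
  have hy' : v.adicValuation y ≤ WithZero.exp (-k) :=
    v.adicValuation_le_exp_iff.mpr (by simpa using hy)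
  have := (Valuation.map_add v.adicValuation x y).trans (max_le hx' hy')
  simpa using v.adicValuation_le_exp_iff.mp this

theorem point_unique (v : Place K F) (j : F) {a b : K}
    (ha : 0 < v.ord (j - algebraMap K F a)) (hb : 0 < v.ord (j - algebraMap K F b)) :
    a = b := by
  by_contra hab
  have hsub : (j - algebraMap K F a) + -(j - algebraMap K F b) = algebraMap K F (b - a) := by
    rw [map_sub]; ring
  have h := le_ord_add v (k := 1) (x := j - algebraMap K F a) (y := -(j - algebraMap K F b))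
    (Or.inr ha) (Or.inr (by rw [ord_neg]; exact hb))
  rw [hsub, ord_algebraMap] at h
  rcases h with h | h
  · have : b - a = 0 := by
      have hinj := (algebraMap K F).injective
      exact hinj (by rw [h, map_zero])
    exact hab (sub_eq_zero.mp this).symm
  · omega

theorem not_pos_ord_sub_of_pos_ord_inv (v : Place K F) (j : F) (a : K)
    (hinf : 0 < v.ord j⁻¹) : ¬ 0 < v.ord (j - algebraMap K F a) := by
  intro ha
  have hj : v.ord j < 0 := by
    have := v.ord_inv j
    omega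
  have h := le_ord_add v (k := 0) (x := j - algebraMap K F a) (y := algebraMap K F a)
    (Or.inr ha.le) (Or.inr (by rw [ord_algebraMap]))
  rw [sub_add_cancel] at h
  rcases h with h | h
  · rw [h] at hj; simp at hj
  · omega

section Adjoin

variable (K) in
theorem adjoin_sub_algebraMap (j : F) (a : K) :
    IntermediateField.adjoin K {j - algebraMap K F a} = IntermediateField.adjoin K {j} := by
  apply le_antisymm
  · rw [IntermediateField.adjoin_le_iff, Set.singleton_subset_iff]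
    exact sub_mem (IntermediateField.mem_adjoin_simple_self K j)
      (IntermediateField.algebraMap_mem _ a)
  · rw [IntermediateField.adjoin_le_iff, Set.singleton_subset_iff]
    have h : (j - algebraMap K F a) + algebraMap K F a
        ∈ IntermediateField.adjoin K {j - algebraMap K F a} :=
      add_mem (IntermediateField.mem_adjoin_simple_self K _)
        (IntermediateField.algebraMap_mem _ a)
    simpa using h

variable (K) in
theorem adjoin_inv (j : F) :
    IntermediateField.adjoin K {j⁻¹} = IntermediateField.adjoin K {j} := by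
  apply le_antisymm
  · rw [IntermediateField.adjoin_le_iff, Set.singleton_subset_iff]
    exact inv_mem (IntermediateField.mem_adjoin_simple_self K j)
  · rw [IntermediateField.adjoin_le_iff, Set.singleton_subset_iff]
    have h : (j⁻¹)⁻¹ ∈ IntermediateField.adjoin K {j⁻¹} :=
      inv_mem (IntermediateField.mem_adjoin_simple_self K _)
    simpa using h

theorem finiteDimensional_and_finrank_of_eq {E₁ E₂ : IntermediateField K F} (h : E₁ = E₂)
    [FiniteDimensional ↥E₂ F] :
    FiniteDimensional ↥E₁ F ∧ Module.finrank ↥E₁ F = Module.finrank ↥E₂ F := by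
  subst h
  exact ⟨inferInstance, rfl⟩

end Adjoin

end Fermat.Agent.S24

end
end
-- ===== PACK-END S24/Alg/Basic.lean

-- ===== PACK-BEGIN S21/H381/PeriodMap.lean
section





/-!
# S21, piece A: existence of the equivariant primitive, linearity of the period map
-/

set_option autoImplicit false

namespace Fermat.Agent.S21.H381

open CongruenceSubgroup ModularCurve ModularCurve.Period Filter Topology Function Complex
open UpperHalfPlane hiding I
open scoped Manifold MatrixGroups ModularForm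

/-- determinant of the image of `γ : SL(2, ℤ)` in `GL (Fin 2) ℝ` is `1`. -/
theorem det_coe_SL (γ : SL(2, ℤ)) : ((γ : GL (Fin 2) ℝ) : Matrix (Fin 2) (Fin 2) ℝ).det = 1 := by
  rw [← Matrix.GeneralLinearGroup.val_det_apply]; simp

/-- **Chain rule for the Möbius action**: if `F` is a primitive of `f` on `ℍ`, then
`F ∘ γ` is a primitive of `f ∣[2] γ`. -/
theorem hasDerivAt_comp_smul {F f : ℍ → ℂ}
    (hF : ∀ τ : ℍ, HasDerivAt (F ∘ ofComplex) (f τ) ↑τ) (γ : SL(2, ℤ)) (τ : ℍ) :
    HasDerivAt ((fun w : ℍ => F (γ • w)) ∘ ofComplex) ((f ∣[(2 : ℤ)] γ) τ) ↑τ := by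
  have hdet := det_coe_SL γ
  have hpos : 0 < ((γ : GL (Fin 2) ℝ) : Matrix (Fin 2) (Fin 2) ℝ).det := by
    rw [hdet]; exact one_pos
  have h_smul : HasDerivAt (fun w ↦ ↑((γ : GL (Fin 2) ℝ) • ofComplex w) : ℂ → ℂ)
      ((((γ : GL (Fin 2) ℝ) : Matrix (Fin 2) (Fin 2) ℝ).det : ℂ)
        / denom (γ : GL (Fin 2) ℝ) τ ^ 2) ↑τ :=
    (hasStrictDerivAt_smul hpos τ).hasDerivAt
  have h_F : HasDerivAt (F ∘ ofComplex) (f (γ • τ))
      ↑((γ : GL (Fin 2) ℝ) • ofComplex (τ : ℂ)) := by
    rw [ofComplex_apply]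
    exact hF (γ • τ)
  have hcomp := h_F.comp (τ : ℂ) h_smul
  have heq : ((fun w : ℍ => F (γ • w)) ∘ ofComplex)
      = (F ∘ ofComplex) ∘ (fun w ↦ ↑((γ : GL (Fin 2) ℝ) • ofComplex w) : ℂ → ℂ) := by
    funext z
    simp only [Function.comp_apply, ofComplex_apply]
    rfl
  rw [heq]
  refine hcomp.congr_deriv ?_
  rw [ModularForm.SL_slash_apply, hdet]
  have hz := denom_ne_zero (γ : GL (Fin 2) ℝ) τ
  simp only [Complex.ofReal_one]
  rw [zpow_neg, div_eq_mul_inv, one_mul]
  norm_cast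

/-- Two primitives (on `ℍ`) of the same function differ by a constant. -/
theorem sub_const_of_hasDerivAt {A B g : ℍ → ℂ}
    (hA : ∀ τ : ℍ, HasDerivAt (A ∘ ofComplex) (g τ) ↑τ)
    (hB : ∀ τ : ℍ, HasDerivAt (B ∘ ofComplex) (g τ) ↑τ) (z w : ℍ) :
    A z - B z = A w - B w := by
  set D : ℂ → ℂ := fun x => (A ∘ ofComplex) x - (B ∘ ofComplex) x with hD
  have hopen : IsOpen {x : ℂ | 0 < x.im} := isOpen_lt continuous_const Complex.continuous_im
  have hconn : IsPreconnected {x : ℂ | 0 < x.im} := (convex_halfSpace_im_gt 0).isPreconnected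
  have hder : ∀ x ∈ {x : ℂ | 0 < x.im}, HasDerivAt D 0 x := by
    intro x hx
    have h1 := (hA ⟨x, hx⟩).sub (hB ⟨x, hx⟩)
    rw [sub_self] at h1
    exact h1
  have hdiff : DifferentiableOn ℂ D {x : ℂ | 0 < x.im} := fun x hx =>
    (hder x hx).differentiableAt.differentiableWithinAt
  have hderiv : Set.EqOn (deriv D) 0 {x : ℂ | 0 < x.im} := fun x hx => (hder x hx).deriv
  have := hopen.is_const_of_deriv_eq_zero hconn hdiff hderiv (x := (z : ℂ)) (y := (w : ℂ)) z.2 w.2
  simpa [hD, ofComplex_apply] using this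

section CuspFormFacts

variable {N : ℕ} [NeZero N] (f : CuspForm (Gamma0 N) 2) (δ : SL(2, ℤ))

omit [NeZero N] in
/-- `f ∣[2] δ` is holomorphic. -/
theorem mdiff_slash : MDiff ((f : ℍ → ℂ) ∣[(2 : ℤ)] δ) := by
  rw [← CuspForm.coe_translate f δ]
  exact CuspFormClass.holo _

/-- `f ∣[2] δ` vanishes at `i∞`. -/
theorem isZeroAtImInfty_slash : IsZeroAtImInfty ((f : ℍ → ℂ) ∣[(2 : ℤ)] δ) :=
  CuspFormClass.zero_at_infty_slash f δ

/-- There is a common positive integer period for all `f ∣[2] δ`. -/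
theorem exists_period_slash :
    ∃ M : ℕ, 0 < M ∧ ∀ δ : SL(2, ℤ), Periodic (((f : ℍ → ℂ) ∣[(2 : ℤ)] δ) ∘ ofComplex) (M : ℝ) := by
  obtain ⟨M, hM, hper⟩ := Subgroup.IsArithmetic.exists_nat_mem_strictPeriods_conj
    ((Gamma0 N : Subgroup SL(2, ℤ)) : Subgroup (GL (Fin 2) ℝ))
  refine ⟨M, hM, fun δ => ?_⟩
  have h1 := hper δ⁻¹
  rw [map_inv] at h1
  have h2 := SlashInvariantFormClass.periodic_comp_ofComplex
    (CuspForm.translate f (δ : GL (Fin 2) ℝ)) h1
  rw [CuspForm.coe_translate f δ] at h2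
  exact_mod_cast h2

end CuspFormFacts

/-- Packaged one-step primitive on `ℍ`: derivative `g`, limit `0` at `i∞`. -/
theorem exists_primitive_tendsto_zero {g : ℍ → ℂ} {h : ℝ} (hh : 0 < h)
    (hper : Periodic (g ∘ ofComplex) h) (hhol : MDiff g) (hzero : IsZeroAtImInfty g) :
    ∃ G : ℍ → ℂ, (∀ τ : ℍ, HasDerivAt (G ∘ ofComplex) (g τ) ↑τ) ∧
      Tendsto G atImInfty (𝓝 0) := by
  obtain ⟨Ψ, hΨd, hΨ0, hΨ⟩ := exists_disc_primitive hh hper hhol hzero
  refine ⟨fun τ => (h / (2 * Real.pi * I)) * Ψ (Periodic.qParam h ↑τ), fun τ => ?_, ?_⟩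
  · exact (hΨ τ).congr_of_eventuallyEq
      (comp_ofComplex_eventuallyEq (P := fun z : ℂ => (h / (2 * Real.pi * I)) *
        Ψ (Periodic.qParam h z)) (fun _ => rfl) τ)
  · have hcont : ContinuousAt Ψ 0 :=
      (hΨd.differentiableAt (Metric.ball_mem_nhds 0 one_pos)).continuousAt
    have h1 : Tendsto (fun τ : ℍ => Ψ (Periodic.qParam h ↑τ)) atImInfty (𝓝 (Ψ 0)) :=
      hcont.tendsto.comp (qParam_tendsto_atImInfty hh)
    rw [hΨ0] at h1
    simpa using h1.const_mul (h / (2 * Real.pi * I) : ℂ)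

section Main

variable {N : ℕ} [NeZero N] (f : CuspForm (Gamma0 N) 2)

omit [NeZero N] in
theorem slash_eq_self_of_mem (γ : Gamma0 N) :
    ((f : ℍ → ℂ) ∣[(2 : ℤ)] (γ : SL(2, ℤ))) = f := by
  have hmem : ((γ : SL(2, ℤ)) : GL (Fin 2) ℝ) ∈
      ((Gamma0 N : Subgroup SL(2, ℤ)) : Subgroup (GL (Fin 2) ℝ)) :=
    Subgroup.mem_map_of_mem _ γ.2
  exact SlashInvariantForm.slash_action_eqn f _ hmem

/-- **Piece A1**: every weight-2 cusp form on `Γ₀(N)` has an equivariant primitive. -/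
theorem exists_hasEquivariantPrimitive : ∃ F : ℍ → ℂ, HasEquivariantPrimitive N f F := by
  obtain ⟨M, hM, hper⟩ := exists_period_slash f
  have hMpos : (0 : ℝ) < (M : ℝ) := by exact_mod_cast hM
  -- primitive of `f = f ∣[2] 1`
  have hone : ((f : ℍ → ℂ) ∣[(2 : ℤ)] (1 : SL(2, ℤ))) = f := by
    rw [SlashAction.slash_one]
  obtain ⟨F, hFd, hF0⟩ := exists_primitive_tendsto_zero hMpos (hper 1)
    (mdiff_slash f 1) (isZeroAtImInfty_slash f 1)
  have hFd' : ∀ τ : ℍ, HasDerivAt (F ∘ ofComplex) (f τ) ↑τ := by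
    intro τ; have := hFd τ; rwa [hone] at this
  refine ⟨F, hFd', hF0, ?_, ?_⟩
  · intro γ
    refine ⟨F ((γ : SL(2, ℤ)) • UpperHalfPlane.I) - F UpperHalfPlane.I, fun z => ?_⟩
    have hγ : ∀ τ : ℍ, HasDerivAt ((fun w : ℍ => F ((γ : SL(2, ℤ)) • w)) ∘ ofComplex) (f τ) ↑τ := by
      intro τ
      have := hasDerivAt_comp_smul hFd' (γ : SL(2, ℤ)) τ
      rwa [slash_eq_self_of_mem f γ] at this
    exact sub_const_of_hasDerivAt hγ hFd' z UpperHalfPlane.I
  · intro δ
    obtain ⟨G, hGd, hG0⟩ := exists_primitive_tendsto_zero hMpos (hper δ)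
      (mdiff_slash f δ) (isZeroAtImInfty_slash f δ)
    have hδ : ∀ τ : ℍ, HasDerivAt ((fun w : ℍ => F (δ • w)) ∘ ofComplex)
        (((f : ℍ → ℂ) ∣[(2 : ℤ)] δ) τ) ↑τ := fun τ => hasDerivAt_comp_smul hFd' δ τ
    set c : ℂ := F (δ • UpperHalfPlane.I) - G UpperHalfPlane.I with hc
    refine ⟨c, ?_⟩
    have hEq : (fun w : ℍ => F (δ • w)) = fun w => G w + c := by
      funext w
      have := sub_const_of_hasDerivAt hδ hGd w UpperHalfPlane.I
      rw [hc, ← this]; ring
    rw [hEq]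
    simpa using hG0.add_const c

variable {f}

omit [NeZero N] in
/-- **Piece A2 (uniqueness)**. -/
theorem hasEquivariantPrimitive_unique {F G : ℍ → ℂ} (hF : HasEquivariantPrimitive N f F)
    (hG : HasEquivariantPrimitive N f G) : F = G := by
  funext z
  have hconst : ∀ w : ℍ, F w - G w = F z - G z := fun w =>
    sub_const_of_hasDerivAt hF.1 hG.1 w z
  have h1 : Tendsto (fun w : ℍ => F w - G w) atImInfty (𝓝 (0 - 0)) := hF.2.1.sub hG.2.1
  have h2 : Tendsto (fun w : ℍ => F w - G w) atImInfty (𝓝 (F z - G z)) := by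
    have : (fun w : ℍ => F w - G w) = fun _ => F z - G z := funext hconst
    rw [this]; exact tendsto_const_nhds
  have := tendsto_nhds_unique h1 h2
  rw [sub_zero] at this
  exact sub_eq_zero.mp this.symm

omit [NeZero N] in
/-- **Piece A2 (formula)**: the period map is computed by any equivariant primitive. -/
theorem periodMap_apply {F : ℍ → ℂ} (hF : HasEquivariantPrimitive N f F) (γ : Gamma0 N)
    (z : ℍ) : periodMap N f (Additive.ofMul γ) = F ((γ : SL(2, ℤ)) • z) - F z := by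
  obtain ⟨F₀, h₀, hP⟩ := periodMap_def N f hF
  have hFF : F₀ = F := hasEquivariantPrimitive_unique h₀ hF
  subst hFF
  rw [hP, IsEquivariantPrimitive.periodHom_apply, ← h₀.2.2.1.sub_eq_period γ z]

omit [NeZero N] in
theorem hasEquivariantPrimitive_add {f g : CuspForm (Gamma0 N) 2} {F G : ℍ → ℂ}
    (hF : HasEquivariantPrimitive N f F) (hG : HasEquivariantPrimitive N g G) :
    HasEquivariantPrimitive N (f + g) (F + G) := by
  refine ⟨fun τ => ?_, ?_, fun γ => ?_, fun δ => ?_⟩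
  · have := (hF.1 τ).add (hG.1 τ)
    exact this
  · have h := hF.2.1.add hG.2.1
    rw [add_zero] at h
    exact h
  · obtain ⟨c, hc⟩ := hF.2.2.1 γ
    obtain ⟨d, hd⟩ := hG.2.2.1 γ
    refine ⟨c + d, fun z => ?_⟩
    simp only [Pi.add_apply]
    rw [← hc z, ← hd z]; ring
  · obtain ⟨L, hL⟩ := hF.2.2.2 δ
    obtain ⟨L', hL'⟩ := hG.2.2.2 δ
    exact ⟨L + L', hL.add hL'⟩

omit [NeZero N] in
theorem hasEquivariantPrimitive_smul {f : CuspForm (Gamma0 N) 2} {F : ℍ → ℂ} (a : ℂ)
    (hF : HasEquivariantPrimitive N f F) :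
    HasEquivariantPrimitive N (a • f) (a • F) := by
  refine ⟨fun τ => ?_, ?_, fun γ => ?_, fun δ => ?_⟩
  · have := (hF.1 τ).const_smul a
    exact this
  · have h := hF.2.1.const_smul a
    rw [smul_zero] at h
    exact h
  · obtain ⟨c, hc⟩ := hF.2.2.1 γ
    refine ⟨a * c, fun z => ?_⟩
    simp only [Pi.smul_apply, smul_eq_mul]
    rw [← hc z]; ring
  · obtain ⟨L, hL⟩ := hF.2.2.2 δ
    exact ⟨a • L, hL.const_smul a⟩

theorem periodMap_add (f g : CuspForm (Gamma0 N) 2) :
    periodMap N (f + g) = periodMap N f + periodMap N g := by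
  obtain ⟨F, hF⟩ := exists_hasEquivariantPrimitive f
  obtain ⟨G, hG⟩ := exists_hasEquivariantPrimitive g
  refine AddMonoidHom.ext fun γ => ?_
  obtain ⟨γ, rfl⟩ : ∃ γ' : Gamma0 N, Additive.ofMul γ' = γ := ⟨Additive.toMul γ, rfl⟩
  rw [AddMonoidHom.add_apply, periodMap_apply (hasEquivariantPrimitive_add hF hG) γ UpperHalfPlane.I,
    periodMap_apply hF γ UpperHalfPlane.I, periodMap_apply hG γ UpperHalfPlane.I]
  simp only [Pi.add_apply]; ring

theorem periodMap_smul (a : ℂ) (f : CuspForm (Gamma0 N) 2) :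
    periodMap N (a • f) = a • periodMap N f := by
  obtain ⟨F, hF⟩ := exists_hasEquivariantPrimitive f
  refine AddMonoidHom.ext fun γ => ?_
  obtain ⟨γ, rfl⟩ : ∃ γ' : Gamma0 N, Additive.ofMul γ' = γ := ⟨Additive.toMul γ, rfl⟩
  rw [AddMonoidHom.smul_apply, periodMap_apply (hasEquivariantPrimitive_smul a hF) γ UpperHalfPlane.I,
    periodMap_apply hF γ UpperHalfPlane.I]
  simp only [Pi.smul_apply, smul_eq_mul]; ring

variable (N) in
/-- The period map as a `ℂ`-linear map. -/
noncomputable def periodMapLin : CuspForm (Gamma0 N) 2 →ₗ[ℂ] (Additive (Gamma0 N) →+ ℂ) where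
  toFun := periodMap N
  map_add' := periodMap_add
  map_smul' := periodMap_smul

@[simp] theorem periodMapLin_apply (f : CuspForm (Gamma0 N) 2) :
    periodMapLin N f = periodMap N f := rfl

variable (N) in
/-- **Piece A3**: the period map is linear. -/
theorem existsPeriodMapLinear : ExistsPeriodMapLinear N :=
  ⟨periodMapLin N, fun _ => rfl⟩

variable (N) in
/-- Unfolding of `periodHomPair`. -/
theorem periodHomPair_eq :
    periodHomPair N = LinearMap.coprod
      ((LinearMap.id + charInvolution N ℂ ℂ) ∘ₗ periodMapLin N)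
      ((LinearMap.id - charInvolution N ℂ ℂ) ∘ₗ periodMapLin N) := by
  obtain ⟨pml, hpml, h⟩ := periodHomPair_def N (existsPeriodMapLinear N)
  have : pml = periodMapLin N := LinearMap.ext fun f => by rw [hpml, periodMapLin_apply]
  rw [h, this]

theorem periodHomPair_apply (f g : CuspForm (Gamma0 N) 2) :
    periodHomPair N (f, g) = (periodMap N f + charInvolution N ℂ ℂ (periodMap N f))
      + (periodMap N g - charInvolution N ℂ ℂ (periodMap N g)) := by
  rw [periodHomPair_eq]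
  simp [LinearMap.coprod_apply]

end Main

end Fermat.Agent.S21.H381

end
-- ===== PACK-END S21/H381/PeriodMap.lean

-- ===== PACK-BEGIN S24/D5/H108Growth.lean
section


/-!
# D5: growth adapters and uniqueness for the polynomial principle

Mathlib-only (plus `H108Poly`).  Namespace `Fermat.Agent.S24.H108`.
-/

noncomputable section

open UpperHalfPlane ModularForm SlashInvariantForm SlashInvariantFormClass ModularFormClass
  CuspFormClass MatrixGroups OnePoint Filter EisensteinSeries Asymptotics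

open scoped Topology Manifold Real

namespace Fermat.Agent.S24.H108

local notation "Δ" => ModularForm.discriminant

/-! ### Growth of `Δ` at `i∞` -/

lemma discriminant_isBigO_exp :
    (Δ : ℍ → ℂ) =O[atImInfty] fun τ : ℍ => Real.exp (-(2 * π * τ.im)) := by
  have h := CuspFormClass.exp_decay_atImInfty (h := 1) CuspForm.discriminant one_pos
    one_mem_strictPeriods_SL
  refine h.congr_right fun τ => ?_
  congr 1
  ring

lemma discriminant_pow_isBigO_exp (m : ℕ) :
    (fun τ : ℍ => Δ τ ^ m) =O[atImInfty] fun τ : ℍ => Real.exp (-(2 * π * m * τ.im)) := by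
  have h := discriminant_isBigO_exp.pow m
  refine h.congr_right fun τ => ?_
  rw [← Real.exp_nat_mul]
  congr 1
  ring

lemma norm_qParam_one (τ : ℍ) :
    ‖Complex.exp (2 * π * Complex.I * τ)‖ = Real.exp (-(2 * π * τ.im)) := by
  rw [Complex.norm_exp]
  congr 1
  simp [Complex.mul_re, Complex.mul_im]

lemma discriminant_isBigO_qParam :
    (Δ : ℍ → ℂ) =O[atImInfty] fun τ : ℍ => Complex.exp (2 * π * Complex.I * τ) := by
  refine discriminant_isBigO_exp.trans (IsBigO.of_bound 1 (Eventually.of_forall fun τ => ?_))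
  rw [norm_qParam_one, Real.norm_eq_abs, abs_of_pos (Real.exp_pos _), one_mul]

/-! ### Adapters -/

/-- Exponential growth of order `m` implies `f * Δ ^ m` bounded at `i∞`. -/
lemma isBoundedAtImInfty_mul_discriminant_pow_of_exp_growth {f : ℍ → ℂ} {m : ℕ}
    (hgr : ∃ C A : ℝ, ∀ τ : ℍ, A ≤ τ.im → ‖f τ‖ ≤ C * Real.exp (2 * π * m * τ.im)) :
    IsBoundedAtImInfty (fun τ => f τ * Δ τ ^ m) := by
  obtain ⟨C, A, h⟩ := hgr
  have hf : f =O[atImInfty] fun τ : ℍ => Real.exp (2 * π * m * τ.im) := by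
    refine IsBigO.of_bound C ?_
    have hA : ∀ᶠ τ : ℍ in atImInfty, A ≤ τ.im :=
      (Filter.eventually_ge_atTop A).comap UpperHalfPlane.im
    filter_upwards [hA] with τ hτ
    rw [Real.norm_eq_abs, abs_of_pos (Real.exp_pos _)]
    exact h τ hτ
  have hprod := hf.mul (discriminant_pow_isBigO_exp m)
  rw [IsBoundedAtImInfty, BoundedAtFilter]
  refine hprod.congr_right fun τ => ?_
  rw [← Real.exp_add]
  simp

/-- `f * q ^ m` bounded at `i∞` implies `f * Δ ^ m` bounded at `i∞`. -/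
lemma isBoundedAtImInfty_mul_discriminant_pow_of_qParam {f : ℍ → ℂ} {m : ℕ}
    (hbd : IsBoundedAtImInfty (fun τ : ℍ => f τ * Complex.exp (2 * π * Complex.I * τ) ^ m)) :
    IsBoundedAtImInfty (fun τ => f τ * Δ τ ^ m) := by
  rw [IsBoundedAtImInfty, BoundedAtFilter] at hbd ⊢
  exact ((isBigO_refl f atImInfty).mul (discriminant_isBigO_qParam.pow m)).trans hbd

/-- **D5b.** An `SL(2,ℤ)`-invariant holomorphic function `f : ℍ → ℂ` with
`‖f τ‖ ≤ C * exp (2π m Im τ)` for `Im τ ≥ A` is a polynomial of degree `≤ m` in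
`J = E₄³ / Δ`. -/
theorem exists_polynomial_of_invariant_of_exp_growth (f : ℍ → ℂ) (hf : MDiff f)
    (hinv : ∀ (γ : SL(2, ℤ)) (τ : ℍ), f (γ • τ) = f τ) (m : ℕ)
    (hgr : ∃ C A : ℝ, ∀ τ : ℍ, A ≤ τ.im → ‖f τ‖ ≤ C * Real.exp (2 * π * m * τ.im)) :
    ∃ P : Polynomial ℂ, P.natDegree ≤ m ∧ ∀ τ : ℍ, f τ = P.eval (E₄ τ ^ 3 / Δ τ) :=
  exists_polynomial_of_invariant f hf hinv m
    (isBoundedAtImInfty_mul_discriminant_pow_of_exp_growth hgr)

/-- **D5b'.** Same with the hypothesis `f * q ^ m` bounded at `i∞`, `q = exp (2πiτ)`. -/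
theorem exists_polynomial_of_invariant_of_qParam (f : ℍ → ℂ) (hf : MDiff f)
    (hinv : ∀ (γ : SL(2, ℤ)) (τ : ℍ), f (γ • τ) = f τ) (m : ℕ)
    (hbd : IsBoundedAtImInfty (fun τ : ℍ => f τ * Complex.exp (2 * π * Complex.I * τ) ^ m)) :
    ∃ P : Polynomial ℂ, P.natDegree ≤ m ∧ ∀ τ : ℍ, f τ = P.eval (E₄ τ ^ 3 / Δ τ) :=
  exists_polynomial_of_invariant f hf hinv m
    (isBoundedAtImInfty_mul_discriminant_pow_of_qParam hbd)

end Fermat.Agent.S24.H108

end
end
-- ===== PACK-END S24/D5/H108Growth.lean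

-- ===== PACK-BEGIN S29/H751/PthRoot.lean
section


set_option autoImplicit false

open Complex Set Metric Filter Topology

namespace Fermat.Agent.S29.H751

/-- Uniqueness of normalised `p`-th roots on a preconnected open set. -/
theorem eqOn_of_pow_eq_of_eq {U : Set ℂ} (hU : IsOpen U) (hUc : IsPreconnected U)
    {u v : ℂ → ℂ} (hu : DifferentiableOn ℂ u U) (hv : DifferentiableOn ℂ v U) {p : ℕ}
    (hp : p ≠ 0) (huv : ∀ z ∈ U, u z ^ p = v z ^ p) {z₀ : ℂ} (hz₀ : z₀ ∈ U)
    (h0 : u z₀ = v z₀) (hne : u z₀ ≠ 0) : EqOn u v U := by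
  have hua := hu.analyticOnNhd hU
  have hva := hv.analyticOnNhd hU
  refine hua.eqOn_of_preconnected_of_eventuallyEq hva hUc hz₀ ?_
  -- the cofactor `∑ u^i v^(p-1-i)` is nonzero near `z₀`
  set S : ℂ → ℂ := fun z => ∑ i ∈ Finset.range p, u z ^ i * v z ^ (p - 1 - i) with hS
  have hScont : ContinuousAt S z₀ := by
    have hcu : ContinuousAt u z₀ := (hua z₀ hz₀).continuousAt
    have hcv : ContinuousAt v z₀ := (hva z₀ hz₀).continuousAt
    rw [hS]
    exact tendsto_finsetSum _ fun i _ => (hcu.pow i).mul (hcv.pow _)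
  have hS0 : S z₀ ≠ 0 := by
    have : S z₀ = p * u z₀ ^ (p - 1) := by
      simp only [hS, ← h0]
      rw [Finset.sum_congr rfl (fun i hi => by
        rw [← pow_add, Nat.add_sub_of_le (Nat.le_sub_one_of_lt (Finset.mem_range.1 hi))]),
        Finset.sum_const, Finset.card_range, nsmul_eq_mul]
    rw [this]
    exact mul_ne_zero (Nat.cast_ne_zero.2 hp) (pow_ne_zero _ hne)
  have h1 : ∀ᶠ z in 𝓝 z₀, S z ≠ 0 := hScont.eventually_ne hS0
  have h2 : ∀ᶠ z in 𝓝 z₀, z ∈ U := hU.mem_nhds hz₀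
  filter_upwards [h1, h2] with z hz1 hz2
  have h3 : S z * (u z - v z) = u z ^ p - v z ^ p := by
    simp only [hS]
    exact (Commute.all (u z) (v z)).geom_sum₂_mul p
  rw [huv z hz2, sub_self] at h3
  rcases mul_eq_zero.1 h3 with h | h
  · exact absurd h hz1
  · exact sub_eq_zero.1 h

/-- For two points of the upper half plane there is a disc containing both whose closure
is contained in the upper half plane. -/
theorem exists_ball_upperHalfPlane {z₀ z : ℂ} (hz₀ : 0 < z₀.im) (hz : 0 < z.im) :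
    ∃ (c : ℂ) (r : ℝ), z₀ ∈ ball c r ∧ z ∈ ball c r ∧ closedBall c r ⊆ {w : ℂ | 0 < w.im} := by
  set δ : ℝ := min z.im z₀.im / 2 with hδ
  have hδ0 : 0 < δ := by rw [hδ]; have := lt_min hz hz₀; linarith
  have hδz : δ < z.im := by
    rw [hδ]; have := min_le_left z.im z₀.im; linarith
  have hδz₀ : δ < z₀.im := by
    rw [hδ]; have := min_le_right z.im z₀.im; linarith
  set d : ℝ := (z.re - z₀.re) ^ 2 with hd
  have hd0 : 0 ≤ d := sq_nonneg _
  set R : ℝ := z.im + z₀.im + d / δ with hR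
  have hdδ : 0 ≤ d / δ := div_nonneg hd0 hδ0.le
  have hRδ : 0 < R - δ := by rw [hR]; linarith
  refine ⟨⟨z₀.re, R⟩, R - δ, ?_, ?_, ?_⟩
  · rw [mem_ball, dist_eq_norm]
    have : z₀ - (⟨z₀.re, R⟩ : ℂ) = ⟨0, z₀.im - R⟩ := by
      apply Complex.ext <;> simp
    rw [this]
    have h2 : ‖(⟨0, z₀.im - R⟩ : ℂ)‖ = |z₀.im - R| := by
      rw [Complex.norm_def, Complex.normSq_mk]
      simp [← sq, Real.sqrt_sq_eq_abs]
    rw [h2, abs_lt]
    constructor <;> rw [hR] <;> linarith
  · rw [mem_ball, dist_eq_norm]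
    have : z - (⟨z₀.re, R⟩ : ℂ) = ⟨z.re - z₀.re, z.im - R⟩ := by
      apply Complex.ext <;> simp
    rw [this]
    apply lt_of_pow_lt_pow_left₀ 2 hRδ.le
    rw [Complex.sq_norm, Complex.normSq_mk]
    have key : d < (z.im - δ) * (2 * R - δ - z.im) := by
      have h1 : δ * (2 * (d / δ)) = 2 * d := by field_simp
      have h2 : 0 < z.im - δ := by linarith
      have h3 : 2 * (d / δ) < 2 * R - δ - z.im := by rw [hR]; linarith
      have h4 : δ ≤ z.im - δ := by
        rw [hδ]; have := min_le_left z.im z₀.im; linarith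
      calc d ≤ 2 * d := by linarith
        _ = δ * (2 * (d / δ)) := h1.symm
        _ ≤ (z.im - δ) * (2 * (d / δ)) := by
            apply mul_le_mul_of_nonneg_right h4; linarith
        _ < (z.im - δ) * (2 * R - δ - z.im) := by
            apply mul_lt_mul_of_pos_left h3 h2
    nlinarith [key]
  · intro w hw
    rw [mem_closedBall, dist_eq_norm] at hw
    have h1 : |(w - (⟨z₀.re, R⟩ : ℂ)).im| ≤ ‖w - (⟨z₀.re, R⟩ : ℂ)‖ := Complex.abs_im_le_norm _
    have h2 : (w - (⟨z₀.re, R⟩ : ℂ)).im = w.im - R := by simp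
    rw [h2] at h1
    have h3 := (abs_le.1 (h1.trans hw)).1
    show 0 < w.im
    linarith


/-- **Holomorphic `p`-th roots on the upper half plane.**  A holomorphic function on the upper
half plane all of whose orders of vanishing are finite and divisible by `p` is the `p`-th power
of a holomorphic function. -/
theorem exists_pow_eq_on_upperHalfPlane {G : ℂ → ℂ} (p : ℕ) (hp : p ≠ 0)
    (hG : DifferentiableOn ℂ G {z : ℂ | 0 < z.im})
    (hord : ∀ z : ℂ, 0 < z.im → ∃ m : ℕ, analyticOrderAt G z = ((p * m : ℕ) : ℕ∞)) :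
    ∃ u : ℂ → ℂ, DifferentiableOn ℂ u {z : ℂ | 0 < z.im} ∧
      ∀ z : ℂ, 0 < z.im → u z ^ p = G z := by
  classical
  set H : Set ℂ := {z : ℂ | 0 < z.im} with hH
  have hHo : IsOpen H := isOpen_lt continuous_const Complex.continuous_im
  have hGa : AnalyticOnNhd ℂ G H := hG.analyticOnNhd hHo
  -- a base point where `G` does not vanish
  obtain ⟨z₀, hz₀, hGz₀⟩ : ∃ z₀ ∈ H, G z₀ ≠ 0 := by
    have hI : (0 : ℝ) < Complex.I.im := by simp
    obtain ⟨m, hm⟩ := hord Complex.I hI
    have hnt : analyticOrderAt G Complex.I ≠ ⊤ := by rw [hm]; exact ENat.natCast_ne_top _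
    rw [Ne, analyticOrderAt_eq_top] at hnt
    have h1 : ∃ᶠ z in 𝓝 Complex.I, G z ≠ 0 := by
      rw [Filter.Frequently]
      intro h
      apply hnt
      filter_upwards [h] with z hz
      exact not_not.1 hz
    have h2 : ∀ᶠ z in 𝓝 Complex.I, z ∈ H := hHo.mem_nhds hI
    obtain ⟨z, hz1, hz2⟩ := (h1.and_eventually h2).exists
    exact ⟨z, hz2, hz1⟩
  obtain ⟨w₀, hw₀⟩ := IsAlgClosed.exists_pow_nat_eq (G z₀) (Nat.pos_of_ne_zero hp)
  have hw₀ne : w₀ ≠ 0 := by
    intro h
    rw [h, zero_pow hp] at hw₀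
    exact hGz₀ hw₀.symm
  -- local normalised roots
  have key : ∀ z : ℂ, 0 < z.im → ∃ (c : ℂ) (r : ℝ) (v : ℂ → ℂ), z₀ ∈ ball c r ∧ z ∈ ball c r ∧
      closedBall c r ⊆ H ∧ DifferentiableOn ℂ v (ball c r) ∧ (∀ y ∈ ball c r, v y ^ p = G y) ∧
      v z₀ = w₀ := by
    intro z hz
    obtain ⟨c, r, h1, h2, h3⟩ := exists_ball_upperHalfPlane hz₀ hz
    obtain ⟨v, hv, hvp⟩ := exists_pow_eq_on_ball (G := G) (c := c) (r := r) p hp (hGa.mono h3)
      (fun y hy => hord y (h3 hy))
    have hvz₀ : v z₀ ≠ 0 := by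
      intro h
      have := hvp z₀ h1
      rw [h, zero_pow hp] at this
      exact hGz₀ this.symm
    refine ⟨c, r, fun y => (w₀ / v z₀) * v y, h1, h2, h3, ?_, ?_, ?_⟩
    · exact hv.const_mul _
    · intro y hy
      rw [mul_pow, div_pow, hw₀, hvp z₀ h1, hvp y hy, div_self hGz₀, one_mul]
    · field_simp
  choose! c r v hv1 hv2 hv3 hv4 hv5 hv6 using key
  -- compatibility
  have compat : ∀ z z' : ℂ, 0 < z.im → 0 < z'.im →
      EqOn (v z) (v z') (ball (c z) (r z) ∩ ball (c z') (r z')) := by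
    intro z z' hz hz'
    refine eqOn_of_pow_eq_of_eq (isOpen_ball.inter isOpen_ball)
      ((convex_ball _ _).inter (convex_ball _ _)).isPreconnected
      ((hv4 z hz).mono inter_subset_left) ((hv4 z' hz').mono inter_subset_right) hp ?_
      ⟨hv1 z hz, hv1 z' hz'⟩ ?_ ?_
    · intro y hy
      rw [hv5 z hz y hy.1, hv5 z' hz' y hy.2]
    · rw [hv6 z hz, hv6 z' hz']
    · rw [hv6 z hz]; exact hw₀ne
  refine ⟨fun y => v y y, ?_, ?_⟩
  · intro z hz
    have hz' : 0 < z.im := hz
    have hev : (fun y => v y y) =ᶠ[𝓝 z] v z := by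
      have hB : ball (c z) (r z) ∈ 𝓝 z := isOpen_ball.mem_nhds (hv2 z hz')
      filter_upwards [hB] with y hy
      have hy' : 0 < y.im := hv3 z hz' (ball_subset_closedBall hy)
      exact compat y z hy' hz' ⟨hv2 y hy', hy⟩
    have hd : DifferentiableAt ℂ (v z) z :=
      (hv4 z hz').differentiableAt (isOpen_ball.mem_nhds (hv2 z hz'))
    exact (hev.differentiableAt_iff.2 hd).differentiableWithinAt
  · intro z hz
    exact hv5 z hz z (hv2 z hz)

end Fermat.Agent.S29.H751

end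
-- ===== PACK-END S29/H751/PthRoot.lean

-- ===== PACK-BEGIN S37/H340/KronTwist.lean
section


/-!
# S37 / R3-K : twists `q ↦ ζ q` and the product formula (helper340)

* `twHom ℓ ζ hζ : R((q)) →+* R((q))`, `f(q) ↦ f(ζ q)` for `ζ ^ ℓ = 1`
  (coefficientwise `aₙ ↦ ζ ^ (n mod ℓ) aₙ`);
* `twHom_qExpand` : it fixes `R((q^ℓ))`;
* `kron_map_qExpand_eq_prod` : over a domain with a primitive `ℓ`-th root of unity `ζ`,
  `(kron ℓ f).map V = ∏_{b < ℓ} (Y - f(ζ^b q))`.
-/

set_option autoImplicit false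

noncomputable section

namespace Fermat.Agent.S37.H340

open ModularCurve Polynomial Matrix

variable {R : Type*} [CommRing R] (ℓ : ℕ) [NeZero ℓ]

/-- `ζ ^ (k mod ℓ)` for an integer exponent `k`. -/
def zpw (ζ : R) (k : ℤ) : R := ζ ^ (k % (ℓ : ℤ)).toNat

variable {ℓ}

lemma zpw_natCast {ζ : R} (hζ : ζ ^ ℓ = 1) (n : ℕ) : zpw ℓ ζ (n : ℤ) = ζ ^ n := by
  have hℓ : (ℓ : ℤ) ≠ 0 := by exact_mod_cast NeZero.ne ℓ
  unfold zpw
  have h1 : ((n : ℤ) % (ℓ : ℤ)).toNat = n % ℓ := by
    have : ((n : ℤ) % (ℓ : ℤ)) = ((n % ℓ : ℕ) : ℤ) := by push_cast; rfl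
    rw [this, Int.toNat_natCast]
  rw [h1]
  conv_rhs => rw [← Nat.div_add_mod n ℓ, _root_.pow_add, pow_mul, hζ, one_pow, one_mul]

lemma zpw_add {ζ : R} (hζ : ζ ^ ℓ = 1) (i j : ℤ) :
    zpw ℓ ζ (i + j) = zpw ℓ ζ i * zpw ℓ ζ j := by
  have hℓ : (0 : ℤ) < ℓ := by exact_mod_cast Nat.pos_of_ne_zero (NeZero.ne ℓ)
  unfold zpw
  rw [← _root_.pow_add]
  have hi0 := Int.emod_nonneg i hℓ.ne'
  have hj0 := Int.emod_nonneg j hℓ.ne'
  have hij0 := Int.emod_nonneg (i + j) hℓ.ne'
  -- (i % ℓ + j % ℓ) and (i+j) % ℓ differ by 0 or ℓ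
  have key : ((i % ℓ).toNat + (j % ℓ).toNat) % ℓ = ((i + j) % (ℓ : ℤ)).toNat := by
    have : (((i % ℓ).toNat + (j % ℓ).toNat : ℕ) : ℤ) % ℓ = (i + j) % ℓ := by
      push_cast
      rw [Int.toNat_of_nonneg hi0, Int.toNat_of_nonneg hj0, ← Int.add_emod]
    have h2 : ((((i % ℓ).toNat + (j % ℓ).toNat) % ℓ : ℕ) : ℤ) = (i + j) % ℓ := by
      rw [← this]; push_cast; rfl
    have := congrArg Int.toNat h2
    rwa [Int.toNat_natCast] at this
  rw [← key]
  conv_rhs => rw [← Nat.div_add_mod ((i % ℓ).toNat + (j % ℓ).toNat) ℓ, _root_.pow_add, pow_mul,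
    hζ, one_pow, one_mul]

omit [NeZero ℓ] in
lemma zpw_mul_left {ζ : R} (n : ℤ) : zpw ℓ ζ ((ℓ : ℤ) * n) = 1 := by
  unfold zpw
  simp

omit [NeZero ℓ] in
lemma zpw_zero {ζ : R} : zpw ℓ ζ 0 = 1 := by
  unfold zpw
  simp

variable (ℓ)

/-- The twist `f(q) ↦ f(ζ q)` as a function (needs `ζ ^ ℓ = 1` only for good properties). -/
def tw (ζ : R) (f : LaurentSeries R) : LaurentSeries R :=
  HahnSeries.ofSuppBddBelow (fun n : ℤ => zpw ℓ ζ n * f.coeff n) <| by
    obtain ⟨b, hb⟩ := exists_coeff_eq_zero_of_lt f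
    refine ⟨b, fun m hm => ?_⟩
    by_contra hlt
    rw [not_le] at hlt
    exact hm (by simp [hb m hlt])

omit [NeZero ℓ] in
@[simp]
lemma tw_coeff (ζ : R) (f : LaurentSeries R) (n : ℤ) :
    (tw ℓ ζ f).coeff n = zpw ℓ ζ n * f.coeff n := by
  simp [tw]

omit [NeZero ℓ] in
lemma tw_support_subset (ζ : R) (f : LaurentSeries R) : (tw ℓ ζ f).support ⊆ f.support := by
  intro n hn
  rw [HahnSeries.mem_support] at hn ⊢
  intro h
  exact hn (by simp [h])

variable {ℓ}

omit [NeZero ℓ] in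
lemma coeff_mul_of_subsets {x y : LaurentSeries R} {s t : Set ℤ} (hs : s.IsPWO) (ht : t.IsPWO)
    (hxs : x.support ⊆ s) (hyt : y.support ⊆ t) (a : ℤ) :
    (x * y).coeff a = ∑ ij ∈ Finset.antidiagonal hs ht a, x.coeff ij.1 * y.coeff ij.2 := by
  rw [HahnSeries.coeff_mul_left' hs hxs]
  refine Finset.sum_subset (Finset.antidiagonal_mono_right hyt) fun ij hij hnot => ?_
  have h1 := Finset.mem_antidiagonal.mp hij
  have h2 : ij.2 ∉ y.support := fun h => hnot (Finset.mem_antidiagonal.mpr ⟨h1.1, h, h1.2.2⟩)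
  rw [HahnSeries.mem_support, not_not] at h2
  rw [h2, mul_zero]

lemma tw_mul {ζ : R} (hζ : ζ ^ ℓ = 1) (f g : LaurentSeries R) :
    tw ℓ ζ (f * g) = tw ℓ ζ f * tw ℓ ζ g := by
  ext a
  rw [tw_coeff, HahnSeries.coeff_mul,
    coeff_mul_of_subsets f.isPWO_support g.isPWO_support (tw_support_subset ℓ ζ f)
      (tw_support_subset ℓ ζ g), Finset.mul_sum]
  refine Finset.sum_congr rfl fun ij hij => ?_
  have hsum : ij.1 + ij.2 = a := (Finset.mem_antidiagonal.mp hij).2.2
  rw [tw_coeff, tw_coeff, ← hsum, zpw_add hζ]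
  ring

variable (ℓ) in
/-- The twist `f(q) ↦ f(ζ q)` as a ring homomorphism. -/
def twHom (ζ : R) (hζ : ζ ^ ℓ = 1) : LaurentSeries R →+* LaurentSeries R where
  toFun := tw ℓ ζ
  map_one' := by
    ext n
    rw [tw_coeff, HahnSeries.coeff_one]
    split_ifs with h
    · subst h; simp [zpw_zero]
    · simp
  map_mul' := tw_mul hζ
  map_zero' := by ext n; simp
  map_add' f g := by ext n; simp [mul_add]

@[simp]
lemma twHom_apply {ζ : R} (hζ : ζ ^ ℓ = 1) (f : LaurentSeries R) :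
    twHom ℓ ζ hζ f = tw ℓ ζ f := rfl

lemma twHom_coeff {ζ : R} (hζ : ζ ^ ℓ = 1) (f : LaurentSeries R) (n : ℤ) :
    (twHom ℓ ζ hζ f).coeff n = zpw ℓ ζ n * f.coeff n := tw_coeff ℓ ζ f n

/-- The twist fixes `R((q^ℓ))`. -/
lemma tw_qExpand (ζ : R) (g : LaurentSeries R) :
    tw ℓ ζ (qExpand R ℓ g) = qExpand R ℓ g := by
  ext n
  rw [tw_coeff]
  by_cases h : (ℓ : ℤ) ∣ n
  · obtain ⟨m, rfl⟩ := h
    rw [zpw_mul_left, one_mul]
  · rw [qExpand_coeff_of_not_dvd ℓ g h, mul_zero]

lemma tw_qq_pow {ζ : R} (hζ : ζ ^ ℓ = 1) (n : ℕ) :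
    tw ℓ ζ ((qq : LaurentSeries R) ^ n) = HahnSeries.C (ζ ^ n) * (qq : LaurentSeries R) ^ n := by
  ext k
  rw [tw_coeff, qq_pow, HahnSeries.C_mul_eq_smul, HahnSeries.coeff_smul, HahnSeries.coeff_single]
  split_ifs with h
  · subst h; rw [zpw_natCast hζ]; simp
  · simp

omit [NeZero ℓ] in
/-- `tw` by a power of `ζ`. -/
lemma pow_pow_eq_one {ζ : R} (hζ : ζ ^ ℓ = 1) (b : ℕ) : (ζ ^ b) ^ ℓ = 1 := by
  rw [← pow_mul, mul_comm, pow_mul, hζ, one_pow]

/-- If `P * M = D * P` with `det P ≠ 0` over a domain, then `M` and `D` have the same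
characteristic polynomial. -/
lemma charpoly_eq_of_intertwine {S : Type*} [CommRing S] [IsDomain S] {n : Type*} [Fintype n]
    [DecidableEq n] (P M D : Matrix n n S) (hPM : P * M = D * P) (hdet : P.det ≠ 0) :
    M.charpoly = D.charpoly := by
  have hscal : (P.map C) * Matrix.scalar n (X : S[X]) = Matrix.scalar n (X : S[X]) * (P.map C) :=
    ((Matrix.scalar_commute (X : S[X]) (fun r' => Commute.all _ _)) (P.map C)).eq.symm
  have hmap : (P.map C) * (M.map C) = (D.map C) * (P.map (C : S →+* S[X])) := by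
    rw [← Matrix.map_mul, ← Matrix.map_mul, hPM]
  have hchar : (P.map C) * charmatrix M = charmatrix D * (P.map C) := by
    rw [charmatrix, charmatrix, Matrix.mul_sub, Matrix.sub_mul, hscal]
    congr 1
  have hdets := congrArg Matrix.det hchar
  rw [Matrix.det_mul, Matrix.det_mul] at hdets
  have hPC : (P.map (C : S →+* S[X])).det ≠ 0 := by
    have : (P.map (C : S →+* S[X])).det = C P.det := by
      rw [← RingHom.mapMatrix_apply, ← RingHom.map_det]
    rw [this]
    exact (map_ne_zero_iff _ C_injective).mpr hdet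
  rw [mul_comm (charmatrix D).det] at hdets
  exact mul_left_cancel₀ hPC hdets

/-- the nodes `ζ^b q` -/
def node (ζ : R) (b : Fin ℓ) : LaurentSeries R :=
  HahnSeries.C (ζ ^ (b : ℕ)) * (qq : LaurentSeries R)

lemma vandermonde_mul_kronMat {ζ : R} (hζ : ζ ^ ℓ = 1) (f : LaurentSeries R) :
    Matrix.vandermonde (node (ℓ := ℓ) ζ) * (kronMat ℓ f).map (qExpand R ℓ) =
      Matrix.diagonal (fun b : Fin ℓ => tw ℓ (ζ ^ (b : ℕ)) f) * Matrix.vandermonde (node ζ) := by
  ext b j
  rw [Matrix.mul_apply, Matrix.diagonal_mul]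
  simp only [Matrix.vandermonde_apply, Matrix.map_apply, node]
  have hb : (ζ ^ (b : ℕ)) ^ ℓ = 1 := pow_pow_eq_one hζ b
  have h1 := congrArg (tw ℓ (ζ ^ (b : ℕ))) (qq_pow_mul_eq_sum ℓ f j)
  rw [tw_mul hb, tw_qq_pow hb] at h1
  have h2 : tw ℓ (ζ ^ (b : ℕ))
      (∑ i : Fin ℓ, (qq : LaurentSeries R) ^ (i : ℕ) * qExpand R ℓ (kronMat ℓ f i j)) =
      ∑ i : Fin ℓ, (HahnSeries.C ((ζ ^ (b : ℕ)) ^ (i : ℕ)) * (qq : LaurentSeries R) ^ (i : ℕ))
        * qExpand R ℓ (kronMat ℓ f i j) := by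
    rw [← twHom_apply hb, map_sum]
    refine Finset.sum_congr rfl fun i _ => ?_
    rw [map_mul, twHom_apply, twHom_apply, tw_qq_pow hb, tw_qExpand]
  rw [h2] at h1
  simp only [mul_pow, ← map_pow]
  rw [← h1]
  ring_nf

omit [NeZero ℓ] in
lemma node_injective [IsDomain R] {ζ : R} (hζ : IsPrimitiveRoot ζ ℓ) :
    Function.Injective (node (ℓ := ℓ) ζ) := by
  intro b b' hbb'
  have hq : (qq : LaurentSeries R) ≠ 0 := by
    rw [qq]; exact HahnSeries.single_ne_zero one_ne_zero
  have h1 : HahnSeries.C (ζ ^ (b : ℕ)) = (HahnSeries.C (ζ ^ (b' : ℕ)) : LaurentSeries R) :=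
    mul_right_cancel₀ hq hbb'
  have h2 : ζ ^ (b : ℕ) = ζ ^ (b' : ℕ) := HahnSeries.C_injective h1
  exact Fin.ext (hζ.pow_inj b.2 b'.2 h2)

/-- **Product formula**: over a domain containing a primitive `ℓ`-th root of unity `ζ`, the
Kronecker polynomial (with coefficients pushed to `R((q^ℓ))`) is `∏_b (Y - f(ζ^b q))`. -/
theorem kron_map_qExpand_eq_prod [IsDomain R] {ζ : R} (hζ : IsPrimitiveRoot ζ ℓ)
    (f : LaurentSeries R) :
    (kron ℓ f).map (qExpand R ℓ) =
      ∏ b : Fin ℓ, (X - Polynomial.C (tw ℓ (ζ ^ (b : ℕ)) f)) := by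
  classical
  rw [kron, ← Matrix.charpoly_map,
    charpoly_eq_of_intertwine _ _ _ (vandermonde_mul_kronMat hζ.pow_eq_one f)
      (Matrix.det_vandermonde_ne_zero_iff.mpr (node_injective hζ)),
    Matrix.charpoly_diagonal]

end Fermat.Agent.S37.H340

end
end
-- ===== PACK-END S37/H340/KronTwist.lean

-- ===== PACK-BEGIN S29/H395/ProdChar.lean
section
/-
S29 / layer M / bridge BR, piece NORM (analytic half, character computation) — helper395.

For a function `h : ℍ → ℂ` which is `c`-automorphic for `Γ₀(N)` (`h (γ τ) = c γ * h τ`), the product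
of its translates by the Prelude Hecke representatives,

  `heckeProd p h τ = ∏ x : ℙ¹(𝔽_p), h (heckeRep p x • τ)`
                 `= h (p τ) * ∏_{j < p} h ((τ + j) / p)`,

is automorphic with multiplier `γ ↦ ∏ x, c (trf γ x)` (helper201's transfer elements).  In
particular for `c γ = ζ ^ χ γ` the multiplier is `ζ ^ (heckeHom χ) γ`: the Hecke operator on
`Hom(Γ₀(N), ℤ/m)` corresponds to `h ↦ heckeProd p h` on `m`-th roots of modular functions.
-/


set_option autoImplicit false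

noncomputable section

open CongruenceSubgroup Matrix.SpecialLinearGroup UpperHalfPlane
open scoped MatrixGroups
open P2MW.S_ModularForm_heckeT_slash_eq_self_of_mem_Gamma0.ModularForm.HeckeSlashInvariance

namespace Fermat.Agent.S29.H395

open Fermat.Agent.S29.H201

variable {N : ℕ} {p : ℕ} [Fact p.Prime]

/-- The product of the translates of `h` by the Hecke representatives
`(p 0; 0 1)`, `(1 j; 0 p)` (`j : ZMod p`). -/
def heckeProd (p : ℕ) [Fact p.Prime] (h : ℍ → ℂ) : ℍ → ℂ :=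
  fun τ => ∏ x : OnePoint (ZMod p), h (_root_.P2MW.S_ModularForm_heckeT_slash_eq_self_of_mem_Gamma0.ModularForm.HeckeSlashInvariance.heckeRep p x • τ)

theorem heckeProd_apply (h : ℍ → ℂ) (τ : ℍ) :
    heckeProd p h τ = ∏ x : OnePoint (ZMod p), h (_root_.P2MW.S_ModularForm_heckeT_slash_eq_self_of_mem_Gamma0.ModularForm.HeckeSlashInvariance.heckeRep p x • τ) := rfl

theorem heckeProd_mul (h h' : ℍ → ℂ) : heckeProd p (h * h') = heckeProd p h * heckeProd p h' := by
  funext τ
  simp only [heckeProd, Pi.mul_apply, Finset.prod_mul_distrib]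

theorem heckeProd_one : heckeProd p (1 : ℍ → ℂ) = 1 := by
  funext τ
  simp [heckeProd]

theorem heckeProd_pow (h : ℍ → ℂ) (n : ℕ) : heckeProd p (h ^ n) = heckeProd p h ^ n := by
  funext τ
  simp only [heckeProd, Pi.pow_apply, Finset.prod_pow]

theorem heckeProd_inv (h : ℍ → ℂ) : heckeProd p (h⁻¹) = (heckeProd p h)⁻¹ := by
  funext τ
  simp only [heckeProd, Pi.inv_apply, Finset.prod_inv_distrib]

theorem heckeProd_div (h h' : ℍ → ℂ) : heckeProd p (h / h') = heckeProd p h / heckeProd p h' := by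
  funext τ
  simp only [heckeProd, Pi.div_apply, Finset.prod_div_distrib]

theorem heckeProd_const (a : ℂ) :
    heckeProd p (fun _ => a) = fun _ => a ^ (p + 1) := by
  funext τ
  simp only [heckeProd, Finset.prod_const, Finset.card_univ]
  congr 1
  rw [show Fintype.card (OnePoint (ZMod p)) = Fintype.card (Option (ZMod p)) from rfl,
    Fintype.card_option, ZMod.card]

/-- the basic translation identity: `heckeRep x • γ • τ = trf γ x • heckeRep (x · γ) • τ`. -/
theorem heckeRep_smul_smul (hpN : ¬ p ∣ N) (γ : Gamma0 N) (x : OnePoint (ZMod p)) (τ : ℍ) :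
    _root_.P2MW.S_ModularForm_heckeT_slash_eq_self_of_mem_Gamma0.ModularForm.HeckeSlashInvariance.heckeRep p x • ((γ : SL(2, ℤ)) • τ)
      = ((trf hpN γ x : Gamma0 N) : SL(2, ℤ)) • (_root_.P2MW.S_ModularForm_heckeT_slash_eq_self_of_mem_Gamma0.ModularForm.HeckeSlashInvariance.heckeRep p (redMatrix p (γ : SL(2, ℤ)) • x) • τ) := by
  show _root_.P2MW.S_ModularForm_heckeT_slash_eq_self_of_mem_Gamma0.ModularForm.HeckeSlashInvariance.heckeRep p x • (mapGL ℝ (γ : SL(2, ℤ)) • τ)
      = mapGL ℝ ((trf hpN γ x : Gamma0 N) : SL(2, ℤ)) •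
          (_root_.P2MW.S_ModularForm_heckeT_slash_eq_self_of_mem_Gamma0.ModularForm.HeckeSlashInvariance.heckeRep p (redMatrix p (γ : SL(2, ℤ)) • x) • τ)
  rw [← mul_smul, ← mul_smul, trf_spec hpN γ x]

/-- **Transfer formula for products.**  If `h (γ τ) = c γ * h τ` for all `γ ∈ Γ₀(N)`, then
`heckeProd p h (γ τ) = (∏ x, c (trf γ x)) * heckeProd p h τ`. -/
theorem heckeProd_smul (hpN : ¬ p ∣ N) {h : ℍ → ℂ} {c : Gamma0 N → ℂ}
    (hc : ∀ (γ : Gamma0 N) (τ : ℍ), h ((γ : SL(2, ℤ)) • τ) = c γ * h τ)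
    (γ : Gamma0 N) (τ : ℍ) :
    heckeProd p h ((γ : SL(2, ℤ)) • τ)
      = (∏ x : OnePoint (ZMod p), c (trf hpN γ x)) * heckeProd p h τ := by
  simp only [heckeProd]
  calc ∏ x : OnePoint (ZMod p), h (_root_.P2MW.S_ModularForm_heckeT_slash_eq_self_of_mem_Gamma0.ModularForm.HeckeSlashInvariance.heckeRep p x • ((γ : SL(2, ℤ)) • τ))
      = ∏ x : OnePoint (ZMod p),
          c (trf hpN γ x) * h (_root_.P2MW.S_ModularForm_heckeT_slash_eq_self_of_mem_Gamma0.ModularForm.HeckeSlashInvariance.heckeRep p (redMatrix p (γ : SL(2, ℤ)) • x) • τ) := by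
        refine Finset.prod_congr rfl fun x _ => ?_
        rw [heckeRep_smul_smul hpN γ x τ, hc]
    _ = (∏ x : OnePoint (ZMod p), c (trf hpN γ x)) *
          ∏ x : OnePoint (ZMod p), h (_root_.P2MW.S_ModularForm_heckeT_slash_eq_self_of_mem_Gamma0.ModularForm.HeckeSlashInvariance.heckeRep p (redMatrix p (γ : SL(2, ℤ)) • x) • τ) :=
        Finset.prod_mul_distrib
    _ = _ := by
        congr 1
        exact Equiv.prod_comp (permOf γ) (fun y => h (_root_.P2MW.S_ModularForm_heckeT_slash_eq_self_of_mem_Gamma0.ModularForm.HeckeSlashInvariance.heckeRep p y • τ))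

/-- The same with multiplier `c γ = ζ ^ χ γ` for an additive character `χ : Γ₀(N) → ZMod m` and an
`m`-th root of unity `ζ`: the multiplier of `heckeProd p h` is `ζ ^ (T_p χ) γ`. -/
theorem heckeProd_smul_of_char (hpN : ¬ p ∣ N) {m : ℕ} [NeZero m] {ζ : ℂ} (hζ : ζ ^ m = 1)
    {h : ℍ → ℂ} (χ : Additive (Gamma0 N) →+ ZMod m)
    (hc : ∀ (γ : Gamma0 N) (τ : ℍ),
      h ((γ : SL(2, ℤ)) • τ) = ζ ^ (χ (Additive.ofMul γ)).val * h τ)
    (γ : Gamma0 N) (τ : ℍ) :
    heckeProd p h ((γ : SL(2, ℤ)) • τ)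
      = ζ ^ (heckeHom p hpN (ZMod m) χ (Additive.ofMul γ)).val * heckeProd p h τ := by
  rw [heckeProd_smul hpN (c := fun γ => ζ ^ (χ (Additive.ofMul γ)).val) hc γ τ]
  congr 1
  rw [Finset.prod_pow_eq_pow_sum, heckeHom_apply]
  -- `ζ ^ a = ζ ^ b` when `a ≡ b mod m`
  have key : ∀ a b : ℕ, (a : ZMod m) = (b : ZMod m) → ζ ^ a = ζ ^ b := by
    intro a b hab
    have hab' : a ≡ b [MOD m] := (ZMod.natCast_eq_natCast_iff a b m).mp hab
    rw [← Nat.div_add_mod a m, ← Nat.div_add_mod b m, pow_add, pow_add, pow_mul, pow_mul, hζ,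
      one_pow, one_pow, one_mul, one_mul, hab']
  apply key
  rw [Nat.cast_sum, ZMod.natCast_zmod_val]
  simp only [ZMod.natCast_zmod_val]

end Fermat.Agent.S29.H395

end

end
-- ===== PACK-END S29/H395/ProdChar.lean

-- ===== PACK-BEGIN S29/H942/MeroRootFinite.lean
section


/-!
# `p`-th roots of meromorphic functions with finitely many zeros and poles on simply connected
open sets
-/

set_option autoImplicit false

noncomputable section

open Filter Topology Set Complex MeromorphicOn Function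

namespace Fermat.Agent.S29.H942

/-- The `p`-th power of the factorized rational function with exponents `e` is the factorized
rational function with exponents `p * e`. -/
lemma factorizedRational_pow {e : ℂ → ℤ} (he : e.HasFiniteSupport) (p : ℕ) :
    (∏ᶠ u, ((· - u) : ℂ → ℂ) ^ e u) ^ p = ∏ᶠ u, ((· - u) : ℂ → ℂ) ^ ((p : ℤ) * e u) := by
  have h1 : (fun u => ((· - u) : ℂ → ℂ) ^ e u).HasFiniteMulSupport := by
    have := FactorizedRational.mulSupport e
    unfold Function.HasFiniteMulSupport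
    rw [this]
    exact he
  rw [finprod_pow h1]
  refine finprod_congr fun u => ?_
  rw [← zpow_natCast, ← zpow_mul, mul_comm]

/-- **Finite case.** A meromorphic function on a simply connected open set with finitely many
zeros and poles, all of order divisible by `p`, has a meromorphic `p`-th root. -/
theorem exists_meromorphicOn_pow_eq_of_finite {f : ℂ → ℂ} {U : Set ℂ}
    (hUc : IsSimplyConnected U) (hU : IsOpen U) (hf : MeromorphicOn f U)
    (h₂f : ∀ u : U, meromorphicOrderAt f u ≠ ⊤) (h₃f : (divisor f U).support.Finite)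
    {p : ℕ} (hp : p ≠ 0) (hdiv : ∀ z, (p : ℤ) ∣ divisor f U z) :
    ∃ h : ℂ → ℂ, MeromorphicOn h U ∧ (h ^ p) =ᶠ[codiscreteWithin U] f := by
  obtain ⟨g, hg, hgne, hfg⟩ := hf.extract_zeros_poles h₂f h₃f
  obtain ⟨r, hr, hrp⟩ := exists_analyticOnNhd_pow_eq hUc hU hp hg (fun z hz => hgne ⟨z, hz⟩)
  set e : ℂ → ℤ := fun u => divisor f U u / (p : ℤ) with he
  have hpe : ∀ u, (p : ℤ) * e u = divisor f U u := fun u => Int.mul_ediv_cancel' (hdiv u)
  have hesupp : e.HasFiniteSupport := by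
    refine Set.Finite.subset h₃f ?_
    intro u hu
    simp only [Function.mem_support, ne_eq] at hu ⊢
    intro h0
    apply hu
    simp [he, h0]
  refine ⟨(∏ᶠ u, ((· - u) : ℂ → ℂ) ^ e u) * r, ?_, ?_⟩
  · exact ((FactorizedRational.meromorphicNFOn e U).meromorphicOn).mul hr.meromorphicOn
  · have h1 : ((∏ᶠ u, ((· - u) : ℂ → ℂ) ^ e u) * r) ^ p =
        (∏ᶠ u, ((· - u) : ℂ → ℂ) ^ divisor f U u) • g := by
      rw [mul_pow, factorizedRational_pow hesupp]
      simp_rw [hpe]
      ext z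
      simp [hrp z]
    rw [h1]
    exact hfg.symm

end Fermat.Agent.S29.H942

end
end
-- ===== PACK-END S29/H942/MeroRootFinite.lean

-- ===== PACK-BEGIN S28/H145/PrimeDegree.lean
section





/-!
# Leaf [L.B2] of the S28 plan: the prime-level degrees are `p + 1`

From the modular polynomial `Φ_p` (`ModPolyData p`) and `j(q^p) ∉ k(j)` we deduce that
`j(q^p)` has degree exactly `p + 1` over `k(j)` and `j` has degree exactly `p + 1` over
`k(j(q^p))`.
-/

set_option autoImplicit false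

noncomputable section

open ModularCurve HahnSeries Polynomial

namespace Fermat.Agent.S28.H145

variable (k : Type*) [Field k]

/-! ### Basic facts on `j` -/

theorem jqModC_ne_zero' : jqModC k ≠ 0 := jqModC_ne_zero_of_nontrivial k

theorem order_jqModC : (jqModC k).order = -1 := by
  have h1 : (jqModC k).coeff (-1) ≠ 0 := by
    rw [coeff_jqModC_neg_one]; exact one_ne_zero
  refine le_antisymm (HahnSeries.order_le_of_coeff_ne_zero h1) ?_
  by_contra hlt
  rw [not_le] at hlt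
  exact (HahnSeries.coeff_order_eq_zero.not.mpr (jqModC_ne_zero' k)) (coeff_jqModC_of_lt k hlt)

theorem isCoprime_order_jqModC (p : ℕ) : IsCoprime (jqModC k).order (p : ℤ) := by
  rw [order_jqModC]
  exact (isCoprime_one_left).neg_left

/-- `j ∉ range V_p` for `p ≥ 2`. -/
theorem jqModC_notMem_range (p : ℕ) [NeZero p] (hp : 2 ≤ p) :
    jqModC k ∉ (qExpand k p).range := by
  rintro ⟨z, hz⟩
  have h := dvd_order_qExpand (k := k) p z
  rw [hz, order_jqModC] at h
  have h1 : (p : ℤ) ∣ 1 := (dvd_neg.mp h)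
  have h2 : (p : ℤ) ≤ 1 := Int.le_of_dvd one_pos h1
  have : (2 : ℤ) ≤ p := by exact_mod_cast hp
  omega

/-! ### Transfer of the modular equation to `k` -/

theorem coeffMap_comp_evalAt {A B : Type*} [CommRing A] [CommRing B] (f : A →+* B)
    (y : LaurentSeries A) :
    (coeffMap f).comp (evalAt y) = evalAt (coeffMap f y) := by
  refine Polynomial.ringHom_ext' (Subsingleton.elim _ _) ?_
  simp [evalAt]

theorem qExpand_comp_evalAt {A : Type*} [CommRing A] (p : ℕ) [NeZero p] (y : LaurentSeries A) :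
    (qExpand A p).comp (evalAt y) = evalAt (qExpand A p y) := by
  refine Polynomial.ringHom_ext' (Subsingleton.elim _ _) ?_
  simp [evalAt]

variable {k} in
theorem modPoly_eval_jp_field {p : ℕ} [NeZero p] (Φ : ModPolyData p) :
    Φ.Φ.eval₂ (evalAt (jqModC k)) (qExpand k p (jqModC k)) = 0 := by
  have h := congrArg (coeffMap (Int.castRingHom k)) Φ.eval_jp
  rwa [Polynomial.hom_eval₂, coeffMap_comp_evalAt, coeffMap_qExpand, coeffMap_jqModC, map_zero]
    at h

variable {k} in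
theorem modPoly_eval_j_field {p : ℕ} [NeZero p] (Φ : ModPolyData p) :
    Φ.Φ.eval₂ (evalAt (qExpand k p (jqModC k))) (jqModC k) = 0 := by
  have h := congrArg (coeffMap (Int.castRingHom k)) Φ.eval_j
  rwa [Polynomial.hom_eval₂, coeffMap_comp_evalAt, coeffMap_qExpand, coeffMap_jqModC, map_zero]
    at h

variable {k} in
/-- `Φ_p(j(q^{p²}), j(q^p)) = 0`. -/
theorem modPoly_eval_jpp_field {p : ℕ} [NeZero p] (Φ : ModPolyData p) :
    Φ.Φ.eval₂ (evalAt (qExpand k p (jqModC k))) (qExpand k p (qExpand k p (jqModC k))) = 0 := by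
  have h := congrArg (qExpand k p) (modPoly_eval_jp_field (k := k) Φ)
  rwa [Polynomial.hom_eval₂, qExpand_comp_evalAt, map_zero] at h

/-! ### Polynomials over intermediate fields -/

section Sub

variable {k}
variable (K : IntermediateField k (LaurentSeries k))

/-- The ring hom `ℤ[Y] → K`, `Y ↦ y`, for `y ∈ K`. -/
def evalAtSub (y : LaurentSeries k) (hy : y ∈ K) : Polynomial ℤ →+* K :=
  Polynomial.eval₂RingHom (Int.castRingHom K) ⟨y, hy⟩

theorem algebraMap_comp_evalAtSub (y : LaurentSeries k) (hy : y ∈ K) :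
    (algebraMap K (LaurentSeries k)).comp (evalAtSub K y hy) = evalAt y := by
  refine Polynomial.ringHom_ext' (Subsingleton.elim _ _) ?_
  simp [evalAtSub, evalAt]

theorem aeval_map_evalAtSub (y : LaurentSeries k) (hy : y ∈ K) (P : Polynomial (Polynomial ℤ))
    (x : LaurentSeries k) :
    Polynomial.aeval x (P.map (evalAtSub K y hy)) = P.eval₂ (evalAt y) x := by
  rw [Polynomial.aeval_def, Polynomial.eval₂_map, algebraMap_comp_evalAtSub]

end Sub

/-! ### The fields `k(j)` and `k(j(q^p))` -/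

section Fields

variable (p : ℕ) [NeZero p]

/-- `k(j(q^p)) = V_p(k(j))`. -/
def jpField : IntermediateField k (LaurentSeries k) :=
  (jField k).map (qExpandAlgHomC k p)

variable {k p}

theorem jqModC_mem_jField : jqModC k ∈ jField k :=
  IntermediateField.mem_adjoin_simple_self k _

theorem jp_mem_jpField : qExpand k p (jqModC k) ∈ jpField k p :=
  (IntermediateField.mem_map _).mpr ⟨jqModC k, jqModC_mem_jField, rfl⟩

theorem jpField_eq_adjoin :
    jpField k p = IntermediateField.adjoin k {qExpand k p (jqModC k)} := by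
  rw [jpField, jField, IntermediateField.adjoin_map]
  simp

theorem mem_range_of_mem_jpField {y : LaurentSeries k} (hy : y ∈ jpField k p) :
    y ∈ (qExpand k p).range := by
  obtain ⟨x, -, rfl⟩ := (IntermediateField.mem_map _).mp hy
  exact ⟨x, rfl⟩

theorem jp_mem_jField_of_jpp_mem
    (h : qExpand k p (qExpand k p (jqModC k)) ∈ jpField k p) :
    qExpand k p (jqModC k) ∈ jField k := by
  obtain ⟨x, hx, hxe⟩ := (IntermediateField.mem_map _).mp h
  have : x = qExpand k p (jqModC k) := qExpand_injective p hxe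
  rwa [← this]

end Fields

/-! ### The degree of `j` over `k(j(q^p))` -/

section Main

variable {k} {p : ℕ} [NeZero p]

/-- A monic polynomial of degree `p` with coefficients in the range of `V_p` cannot kill both
`j` and an element of the range of `V_p`. -/
theorem false_of_monic_natDegree_eq_of_roots (hp : 2 ≤ p) (f : Polynomial (LaurentSeries k))
    (hf : f.Monic) (hdeg : f.natDegree = p) (hcoef : ∀ n, f.coeff n ∈ (qExpand k p).range)
    (hj : f.eval (jqModC k) = 0) (z : LaurentSeries k) (hz : f.eval (qExpand k p z) = 0) :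
    False := by
  have hlift : f ∈ Polynomial.lifts (qExpand k p) :=
    (Polynomial.lifts_iff_coeff_lifts f).mpr fun n => by
      obtain ⟨c, hc⟩ := hcoef n
      exact ⟨c, hc⟩
  obtain ⟨m', hm'map, hm'deg, hm'monic⟩ := Polynomial.lifts_and_natDegree_eq_and_monic hlift hf
  have hroot : m'.IsRoot z := by
    have h1 : (qExpand k p) (m'.eval z) = 0 := by
      rw [← Polynomial.eval₂_hom, ← Polynomial.eval_map, hm'map]; exact hz
    exact qExpand_injective p (by rw [h1, map_zero])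
  have hfac : (X - Polynomial.C z) * (m' /ₘ (X - Polynomial.C z)) = m' := Polynomial.mul_divByMonic_eq_iff_isRoot.mpr hroot
  set m₂ := m' /ₘ (X - Polynomial.C z) with hm₂
  have hm₂deg : m₂.natDegree = p - 1 := by
    rw [hm₂, Polynomial.natDegree_divByMonic _ (Polynomial.monic_X_sub_C z), hm'deg, hdeg,
      Polynomial.natDegree_X_sub_C]
  have hfmap : f = (X - Polynomial.C (qExpand k p z)) * m₂.map (qExpand k p) := by
    rw [← hm'map, ← hfac, Polynomial.map_mul, Polynomial.map_sub, Polynomial.map_X,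
      Polynomial.map_C]
  have hne : jqModC k - qExpand k p z ≠ 0 := by
    intro h
    exact jqModC_notMem_range k p hp ⟨z, (sub_eq_zero.mp h).symm⟩
  have hj2 : (m₂.map (qExpand k p)).eval (jqModC k) = 0 := by
    have := hj
    rw [hfmap, Polynomial.eval_mul, Polynomial.eval_sub, Polynomial.eval_X, Polynomial.eval_C]
      at this
    exact (mul_eq_zero.mp this).resolve_left hne
  have hzero : m₂.map (qExpand k p) = 0 := by
    refine eq_zero_of_eval_eq_zero_of_natDegree_lt p (jqModC k) (jqModC_ne_zero' k)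
      (isCoprime_order_jqModC k p) _ (fun n => ?_) ?_ hj2
    · rw [Polynomial.coeff_map]; exact ⟨_, rfl⟩
    · calc (m₂.map (qExpand k p)).natDegree ≤ m₂.natDegree := Polynomial.natDegree_map_le
        _ = p - 1 := hm₂deg
        _ < p := by omega
  rw [hzero, mul_zero] at hfmap
  exact hf.ne_zero hfmap

/-- **[L.B2], first half.** The minimal polynomial of `j` over `k(j(q^p))` is `Φ_p(X, j(q^p))`,
of degree `p + 1`. -/
theorem minpoly_j_over_jpField (Φ : ModPolyData p) (hp : 2 ≤ p)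
    (hB1 : qExpand k p (jqModC k) ∉ jField k) :
    minpoly (jpField k p) (jqModC k) =
      Φ.Φ.map (evalAtSub (jpField k p) _ jp_mem_jpField) := by
  set K₁ := jpField k p with hK₁
  set P₁ : Polynomial K₁ := Φ.Φ.map (evalAtSub K₁ _ jp_mem_jpField) with hP₁
  have hP₁monic : P₁.Monic := Φ.monic.map _
  have hP₁deg : P₁.natDegree = p + 1 := by
    rw [hP₁, Φ.monic.natDegree_map, Φ.natDegree_eq]
  have hroot_j : Polynomial.aeval (jqModC k) P₁ = 0 := by
    rw [hP₁, aeval_map_evalAtSub]; exact modPoly_eval_j_field Φ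
  have hroot_jpp : Polynomial.aeval (qExpand k p (qExpand k p (jqModC k))) P₁ = 0 := by
    rw [hP₁, aeval_map_evalAtSub]; exact modPoly_eval_jpp_field Φ
  have hint : IsIntegral K₁ (jqModC k) := ⟨P₁, hP₁monic, by rwa [← Polynomial.aeval_def]⟩
  set m := minpoly K₁ (jqModC k) with hm
  have hm_dvd : m ∣ P₁ := minpoly.dvd K₁ _ hroot_j
  have hm_monic : m.Monic := minpoly.monic hint
  have hm_le : m.natDegree ≤ p + 1 :=
    hP₁deg ▸ Polynomial.natDegree_le_of_dvd hm_dvd hP₁monic.ne_zero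
  have hcoef : ∀ n, (m.map (algebraMap K₁ (LaurentSeries k))).coeff n ∈ (qExpand k p).range := by
    intro n
    rw [Polynomial.coeff_map]
    exact mem_range_of_mem_jpField (m.coeff n).2
  have hmj : (m.map (algebraMap K₁ (LaurentSeries k))).eval (jqModC k) = 0 := by
    rw [Polynomial.eval_map, ← Polynomial.aeval_def]; exact minpoly.aeval K₁ _
  -- Claim A
  have hA : p ≤ m.natDegree := by
    by_contra hlt
    rw [not_le] at hlt
    have := eq_zero_of_eval_eq_zero_of_natDegree_lt p (jqModC k) (jqModC_ne_zero' k)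
      (isCoprime_order_jqModC k p) (m.map (algebraMap K₁ (LaurentSeries k))) hcoef
      (by rwa [hm_monic.natDegree_map]) hmj
    exact (hm_monic.map _).ne_zero this
  -- Claim B
  have hB : m.natDegree ≠ p := by
    intro hdeg
    obtain ⟨r, hr⟩ := hm_dvd
    have hr_monic : r.Monic := hm_monic.of_mul_monic_left (hr ▸ hP₁monic)
    have hr_deg : r.natDegree = 1 := by
      have := congrArg Polynomial.natDegree hr
      rw [hm_monic.natDegree_mul hr_monic, hP₁deg, hdeg] at this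
      omega
    have hr_eq : r = X + Polynomial.C (r.coeff 0) := hr_monic.eq_X_add_C hr_deg
    have h0 : Polynomial.aeval (qExpand k p (qExpand k p (jqModC k))) m *
        Polynomial.aeval (qExpand k p (qExpand k p (jqModC k))) r = 0 := by
      rw [← map_mul, ← hr]; exact hroot_jpp
    rcases mul_eq_zero.mp h0 with h1 | h1
    · refine false_of_monic_natDegree_eq_of_roots hp (m.map (algebraMap K₁ (LaurentSeries k)))
        (hm_monic.map _) (by rw [hm_monic.natDegree_map, hdeg]) hcoef hmj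
        (qExpand k p (jqModC k)) ?_
      rw [Polynomial.eval_map, ← Polynomial.aeval_def]; exact h1
    · rw [hr_eq] at h1
      simp only [map_add, Polynomial.aeval_X, Polynomial.aeval_C] at h1
      have hmem : qExpand k p (qExpand k p (jqModC k)) ∈ K₁ := by
        have : qExpand k p (qExpand k p (jqModC k)) =
            -(algebraMap K₁ (LaurentSeries k) (r.coeff 0)) := eq_neg_of_add_eq_zero_left h1
        rw [this]
        exact neg_mem (r.coeff 0).2
      exact hB1 (jp_mem_jField_of_jpp_mem hmem)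
  have hdeg : m.natDegree = p + 1 := by omega
  exact (Polynomial.eq_of_monic_of_dvd_of_natDegree_le hm_monic hP₁monic hm_dvd
    (by rw [hP₁deg, hdeg])).symm

theorem natDegree_minpoly_j_over_jpField (Φ : ModPolyData p) (hp : 2 ≤ p)
    (hB1 : qExpand k p (jqModC k) ∉ jField k) :
    (minpoly (jpField k p) (jqModC k)).natDegree = p + 1 := by
  rw [minpoly_j_over_jpField Φ hp hB1, Φ.monic.natDegree_map, Φ.natDegree_eq]

/-- The minimal polynomial of `j(q^{p²})` over `k(j(q^p))` is also `Φ_p(X, j(q^p))`. -/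
theorem minpoly_jpp_over_jpField (Φ : ModPolyData p) (hp : 2 ≤ p)
    (hB1 : qExpand k p (jqModC k) ∉ jField k) :
    minpoly (jpField k p) (qExpand k p (qExpand k p (jqModC k))) =
      Φ.Φ.map (evalAtSub (jpField k p) _ jp_mem_jpField) := by
  have hP₁monic : (Φ.Φ.map (evalAtSub (jpField k p) _ jp_mem_jpField)).Monic := Φ.monic.map _
  have hroot_j : Polynomial.aeval (jqModC k)
      (Φ.Φ.map (evalAtSub (jpField k p) _ jp_mem_jpField)) = 0 := by
    rw [aeval_map_evalAtSub]; exact modPoly_eval_j_field Φ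
  have hint : IsIntegral (jpField k p) (jqModC k) :=
    ⟨_, hP₁monic, by rwa [← Polynomial.aeval_def]⟩
  have hirr : Irreducible (Φ.Φ.map (evalAtSub (jpField k p) _ jp_mem_jpField)) := by
    rw [← minpoly_j_over_jpField Φ hp hB1]
    exact minpoly.irreducible hint
  refine (minpoly.eq_of_irreducible_of_monic hirr ?_ hP₁monic).symm
  rw [aeval_map_evalAtSub]
  exact modPoly_eval_jpp_field Φ

/-- The ring isomorphism `k(j) ≃ k(j(q^p))` induced by `V_p`. -/
def jFieldEquiv (k : Type*) [Field k] (p : ℕ) [NeZero p] : jField k ≃ₐ[k] jpField k p :=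
  IntermediateField.equivMap (jField k) (qExpandAlgHomC k p)

theorem algebraMap_comp_jFieldEquiv :
    (algebraMap (jpField k p) (LaurentSeries k)).comp (jFieldEquiv k p : jField k →+* jpField k p)
      = (qExpand k p).comp (algebraMap (jField k) (LaurentSeries k)) := by
  ext x
  rfl

/-- **[L.B2], second half.** The minimal polynomial of `j(q^p)` over `k(j)` is `Φ_p(X, j)`. -/
theorem minpoly_jp_over_jField (Φ : ModPolyData p) (hp : 2 ≤ p)
    (hB1 : qExpand k p (jqModC k) ∉ jField k) :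
    minpoly (jField k) (qExpand k p (jqModC k)) =
      Φ.Φ.map (evalAtSub (jField k) _ jqModC_mem_jField) := by
  set K₀ := jField k with hK₀
  set P₀ : Polynomial K₀ := Φ.Φ.map (evalAtSub K₀ _ jqModC_mem_jField) with hP₀
  have hP₀monic : P₀.Monic := Φ.monic.map _
  have hP₀deg : P₀.natDegree = p + 1 := by
    rw [hP₀, Φ.monic.natDegree_map, Φ.natDegree_eq]
  have hroot : Polynomial.aeval (qExpand k p (jqModC k)) P₀ = 0 := by
    rw [hP₀, aeval_map_evalAtSub]; exact modPoly_eval_jp_field Φ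
  have hint : IsIntegral K₀ (qExpand k p (jqModC k)) :=
    ⟨P₀, hP₀monic, by rwa [← Polynomial.aeval_def]⟩
  set m₀ := minpoly K₀ (qExpand k p (jqModC k)) with hm₀
  have hm₀_dvd : m₀ ∣ P₀ := minpoly.dvd K₀ _ hroot
  have hm₀_monic : m₀.Monic := minpoly.monic hint
  -- transport to `k(j(q^p))`
  set g : Polynomial (jpField k p) := m₀.map (jFieldEquiv k p : jField k →+* jpField k p) with hg
  have hg_monic : g.Monic := hm₀_monic.map _
  have hg_deg : g.natDegree = m₀.natDegree := hm₀_monic.natDegree_map _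
  have hg_root : Polynomial.aeval (qExpand k p (qExpand k p (jqModC k))) g = 0 := by
    rw [hg, Polynomial.aeval_def, Polynomial.eval₂_map, algebraMap_comp_jFieldEquiv,
      ← Polynomial.hom_eval₂, ← Polynomial.aeval_def, minpoly.aeval, map_zero]
  have hdvd : minpoly (jpField k p) (qExpand k p (qExpand k p (jqModC k))) ∣ g :=
    minpoly.dvd _ _ hg_root
  rw [minpoly_jpp_over_jpField Φ hp hB1] at hdvd
  have hle : p + 1 ≤ m₀.natDegree := by
    have := Polynomial.natDegree_le_of_dvd hdvd hg_monic.ne_zero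
    rwa [Φ.monic.natDegree_map, Φ.natDegree_eq, hg_deg] at this
  exact (Polynomial.eq_of_monic_of_dvd_of_natDegree_le hm₀_monic hP₀monic hm₀_dvd
    (by rw [hP₀deg]; exact hle)).symm

theorem natDegree_minpoly_jp_over_jField (Φ : ModPolyData p) (hp : 2 ≤ p)
    (hB1 : qExpand k p (jqModC k) ∉ jField k) :
    (minpoly (jField k) (qExpand k p (jqModC k))).natDegree = p + 1 := by
  rw [minpoly_jp_over_jField Φ hp hB1, Φ.monic.natDegree_map, Φ.natDegree_eq]

theorem isIntegral_jp_over_jField (Φ : ModPolyData p) :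
    IsIntegral (jField k) (qExpand k p (jqModC k)) := by
  refine ⟨Φ.Φ.map (evalAtSub (jField k) _ jqModC_mem_jField), Φ.monic.map _, ?_⟩
  rw [← Polynomial.aeval_def, aeval_map_evalAtSub]
  exact modPoly_eval_jp_field Φ

theorem isIntegral_j_over_jpField (Φ : ModPolyData p) :
    IsIntegral (jpField k p) (jqModC k) := by
  refine ⟨Φ.Φ.map (evalAtSub (jpField k p) _ jp_mem_jpField), Φ.monic.map _, ?_⟩
  rw [← Polynomial.aeval_def, aeval_map_evalAtSub]
  exact modPoly_eval_j_field Φ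

/-- `[k(j, j(q^p)) : k(j)] = p + 1`. -/
theorem finrank_adjoin_jp_over_jField (Φ : ModPolyData p) (hp : 2 ≤ p)
    (hB1 : qExpand k p (jqModC k) ∉ jField k) :
    Module.finrank (jField k)
      (IntermediateField.adjoin (jField k) {qExpand k p (jqModC k)}) = p + 1 := by
  have h := IntermediateField.adjoin.finrank (isIntegral_jp_over_jField (k := k) Φ)
  rw [h, natDegree_minpoly_jp_over_jField Φ hp hB1]

/-- `[k(j(q^p), j) : k(j(q^p))] = p + 1`. -/
theorem finrank_adjoin_j_over_jpField (Φ : ModPolyData p) (hp : 2 ≤ p)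
    (hB1 : qExpand k p (jqModC k) ∉ jField k) :
    Module.finrank (jpField k p)
      (IntermediateField.adjoin (jpField k p) {jqModC k}) = p + 1 := by
  have h := IntermediateField.adjoin.finrank (isIntegral_j_over_jpField (k := k) Φ)
  rw [h, natDegree_minpoly_j_over_jpField Φ hp hB1]

end Main

end Fermat.Agent.S28.H145

end

end
-- ===== PACK-END S28/H145/PrimeDegree.lean

-- ===== PACK-BEGIN S28/H25/ThetaAnalytic.lean
section




/-!
# The `θ`-identity for `j`, analytic part (helper25, S28 piece [A-θ])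

In `ℂ⟦q⟧`, with `e4, e6, δ` the `q`-expansions of `E₄, E₆, Δ` and `θ = q d/dq`:
* `e4 ^ 3 - e6 ^ 2 = 1728 * δ`;
* `3 * e4 ^ 2 * θ e4 * δ - e4 ^ 3 * θ δ = - (e4 ^ 2 * e6 * δ)`.
-/

set_option autoImplicit false

open UpperHalfPlane hiding I
open Function Derivative Complex ModularForm EisensteinSeries
open scoped Manifold MatrixGroups

noncomputable section

namespace Fermat.Agent.S28.H25

/-- Functions on `ℍ` whose cusp function (period `1`) is analytic at `0`. -/
def qAnalytic : Subring (ℍ → ℂ) where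
  carrier := {F | AnalyticAt ℂ (cuspFunction 1 F) 0}
  mul_mem' {f g} hf hg := by
    simp only [Set.mem_ofPred_eq] at hf hg ⊢
    rw [cuspFunction_mul hf.continuousAt hg.continuousAt]
    exact hf.mul hg
  one_mem' := by
    simp only [Set.mem_ofPred_eq]
    have h1 : cuspFunction 1 (1 : ℍ → ℂ) = 1 := by
      ext q
      rcases eq_or_ne q 0 with rfl | hq
      · simpa [cuspFunction, Function.Periodic.cuspFunction] using!
          tendsto_const_nhds.limUnder_eq
      · simp [cuspFunction, Function.Periodic.cuspFunction_eq_of_nonzero 1 _ hq]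
    rw [h1]
    exact analyticAt_const
  add_mem' {f g} hf hg := by
    simp only [Set.mem_ofPred_eq] at hf hg ⊢
    rw [cuspFunction_add hf.continuousAt hg.continuousAt]
    exact hf.add hg
  zero_mem' := by
    simp only [Set.mem_ofPred_eq]
    have h0 : cuspFunction 1 (0 : ℍ → ℂ) = 0 := by
      ext q
      rcases eq_or_ne q 0 with rfl | hq
      · simpa [cuspFunction, Function.Periodic.cuspFunction] using!
          tendsto_const_nhds.limUnder_eq
      · simp [cuspFunction, Function.Periodic.cuspFunction_eq_of_nonzero 1 _ hq]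
    rw [h0]
    exact analyticAt_const
  neg_mem' {f} hf := by
    simp only [Set.mem_ofPred_eq] at hf ⊢
    rw [cuspFunction_neg hf.continuousAt]
    exact hf.neg

theorem mem_qAnalytic_iff {F : ℍ → ℂ} :
    F ∈ qAnalytic ↔ AnalyticAt ℂ (cuspFunction 1 F) 0 := Iff.rfl

/-- The `q`-expansion, as a ring homomorphism on `qAnalytic`. -/
def qExpRingHom : qAnalytic →+* PowerSeries ℂ where
  toFun F := qExpansion 1 (F : ℍ → ℂ)
  map_one' := qExpansion_one 1
  map_mul' F G := qExpansion_mul F.2 G.2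
  map_zero' := qExpansion_zero 1
  map_add' F G := qExpansion_add F.2 G.2

@[simp] theorem qExpRingHom_apply (F : qAnalytic) :
    qExpRingHom F = qExpansion 1 (F : ℍ → ℂ) := rfl

theorem mem_qAnalytic_of_modularForm {k : ℤ} (f : ModularForm 𝒮ℒ k) :
    (f : ℍ → ℂ) ∈ qAnalytic :=
  ModularFormClass.analyticAt_cuspFunction_zero f one_pos one_mem_strictPeriods_SL

theorem periodic_of_modularForm {k : ℤ} (f : ModularForm 𝒮ℒ k) :
    Periodic ((f : ℍ → ℂ) ∘ ofComplex) (1 : ℝ) :=
  SlashInvariantFormClass.periodic_comp_ofComplex f one_mem_strictPeriods_SL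

theorem mem_qAnalytic_D_of_modularForm {k : ℤ} (f : ModularForm 𝒮ℒ k) :
    D (f : ℍ → ℂ) ∈ qAnalytic :=
  analyticAt_cuspFunction_D one_pos (periodic_of_modularForm f) (ModularFormClass.holo f)
    (ModularFormClass.bdd_at_infty f)

theorem qExpansion_D_of_modularForm {k : ℤ} (f : ModularForm 𝒮ℒ k) :
    qExpansion 1 (D (f : ℍ → ℂ)) = thetaP (qExpansion 1 (f : ℍ → ℂ)) :=
  qExpansion_D (periodic_of_modularForm f) (ModularFormClass.holo f)
    (ModularFormClass.bdd_at_infty f)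

/-- `Δ` as a modular form of weight 12 -/
def discForm : ModularForm 𝒮ℒ 12 := (CuspForm.discriminant : CuspForm 𝒮ℒ 12)

theorem coe_discForm : (discForm : ℍ → ℂ) = ModularForm.discriminant := rfl

/-- `e4 ^ 3 - e6 ^ 2 = 1728 δ` in `ℂ⟦q⟧`. -/
theorem qExp_E4_cube_sub_E6_sq :
    qExpansion 1 E₄ ^ 3 - qExpansion 1 E₆ ^ 2 =
      1728 * qExpansion 1 ModularForm.discriminant := by
  let a4 : qAnalytic := ⟨E₄, mem_qAnalytic_of_modularForm E₄⟩
  let a6 : qAnalytic := ⟨E₆, mem_qAnalytic_of_modularForm E₆⟩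
  let aΔ : qAnalytic := ⟨ModularForm.discriminant, mem_qAnalytic_of_modularForm discForm⟩
  have key : a4 ^ 3 - a6 ^ 2 = 1728 * aΔ := by
    apply Subtype.ext
    funext z
    have := Fermat.Agent.S20.L1.E₄_cube_sub_E₆_sq z
    have h3 : ((1728 : qAnalytic) : ℍ → ℂ) z = 1728 := rfl
    push_cast
    simp only [a4, a6, aΔ, Pi.sub_apply, Pi.mul_apply, Pi.pow_apply]
    rw [h3]
    exact this
  have := congrArg qExpRingHom key
  simpa only [map_sub, map_pow, map_mul, map_ofNat, qExpRingHom_apply] using this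

/-- `3 e4² θ(e4) δ - e4³ θ(δ) = - e4² e6 δ` in `ℂ⟦q⟧`. -/
theorem qExp_theta_relation :
    3 * qExpansion 1 E₄ ^ 2 * thetaP (qExpansion 1 E₄) * qExpansion 1 ModularForm.discriminant
      - qExpansion 1 E₄ ^ 3 * thetaP (qExpansion 1 ModularForm.discriminant) =
      - (qExpansion 1 E₄ ^ 2 * qExpansion 1 E₆ * qExpansion 1 ModularForm.discriminant) := by
  let a4 : qAnalytic := ⟨E₄, mem_qAnalytic_of_modularForm E₄⟩
  let a6 : qAnalytic := ⟨E₆, mem_qAnalytic_of_modularForm E₆⟩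
  let aΔ : qAnalytic := ⟨ModularForm.discriminant, mem_qAnalytic_of_modularForm discForm⟩
  let d4 : qAnalytic := ⟨D (E₄ : ℍ → ℂ), mem_qAnalytic_D_of_modularForm E₄⟩
  let dΔ : qAnalytic := ⟨D (ModularForm.discriminant : ℍ → ℂ),
    mem_qAnalytic_D_of_modularForm discForm⟩
  have key : 3 * a4 ^ 2 * d4 * aΔ - a4 ^ 3 * dΔ = - (a4 ^ 2 * a6 * aΔ) := by
    apply Subtype.ext
    funext z
    have h4 := Fermat.Agent.S20.L1.ramanujan_E₄ z
    have hΔ := Fermat.Agent.S20.L1.ramanujan_discriminant z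
    have h3 : ((3 : qAnalytic) : ℍ → ℂ) z = 3 := rfl
    push_cast
    simp only [a4, a6, aΔ, d4, dΔ, Pi.sub_apply, Pi.mul_apply, Pi.pow_apply, Pi.neg_apply]
    rw [h3, h4, hΔ]
    ring
  have := congrArg qExpRingHom key
  simp only [map_sub, map_pow, map_mul, map_neg, map_ofNat, qExpRingHom_apply] at this
  have e1 : qExpansion 1 (D (E₄ : ℍ → ℂ)) = thetaP (qExpansion 1 E₄) :=
    qExpansion_D_of_modularForm E₄
  have e2 : qExpansion 1 (D (ModularForm.discriminant : ℍ → ℂ)) =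
      thetaP (qExpansion 1 ModularForm.discriminant) :=
    qExpansion_D_of_modularForm discForm
  simpa only [a4, a6, aΔ, d4, dΔ, e1, e2] using this

end Fermat.Agent.S28.H25

end
end
-- ===== PACK-END S28/H25/ThetaAnalytic.lean

-- ===== PACK-BEGIN S28/H326/Integral.lean
section
/-
S28 / helper326: integrality bookkeeping for Laurent series over `ℂ`:
* `IntCoeff` : the subring of series all of whose coefficients are algebraic integers;
* `jP p = j(t^p)` and the leading-coefficient lemma for `Q(j(t^p))`;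
* `exists_int_poly_of_integral` : `Q ∈ ℚ[X]` with `Q(j(t^p))` having algebraic-integer
  coefficients has integer coefficients.
-/




set_option autoImplicit false
set_option linter.unusedSectionVars false

noncomputable section

namespace Fermat.Agent.S28.H326

open ModularCurve HahnSeries

/-- Laurent series over `ℂ` whose coefficients are all algebraic integers. -/
def IntCoeff : Subring (LaurentSeries ℂ) where
  carrier := {x | ∀ n, IsIntegral ℤ (x.coeff n)}
  mul_mem' {x y} hx hy n := by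
    rw [HahnSeries.coeff_mul]
    exact IsIntegral.sum _ fun ij _ => (hx _).mul (hy _)
  one_mem' n := by
    rw [HahnSeries.coeff_one]
    split_ifs
    · exact isIntegral_one
    · exact isIntegral_zero
  add_mem' {x y} hx hy n := by
    rw [HahnSeries.coeff_add]
    exact (hx n).add (hy n)
  zero_mem' n := by
    rw [HahnSeries.coeff_zero]
    exact isIntegral_zero
  neg_mem' {x} hx n := by
    rw [HahnSeries.coeff_neg]
    exact (hx n).neg

theorem mem_IntCoeff {x : LaurentSeries ℂ} : x ∈ IntCoeff ↔ ∀ n, IsIntegral ℤ (x.coeff n) :=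
  Iff.rfl

/-- coefficient cast `ℤ((q)) → ℂ((q))` -/
abbrev kap : LaurentSeries ℤ →+* LaurentSeries ℂ := coeffMap (Int.castRingHom ℂ)

theorem kap_injective : Function.Injective kap := by
  intro x y h
  ext n
  have := congrArg (fun z => z.coeff n) h
  simpa using this

theorem kap_mem_IntCoeff (x : LaurentSeries ℤ) : kap x ∈ IntCoeff := fun n => by
  rw [coeffMap_coeff]
  exact isIntegral_algebraMap (R := ℤ) (A := ℂ) (x := x.coeff n)

variable (p : ℕ) [NeZero p]

theorem qExpand_mem_IntCoeff {x : LaurentSeries ℂ} (hx : x ∈ IntCoeff) :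
    qExpand ℂ p x ∈ IntCoeff := fun n => by
  by_cases h : (p : ℤ) ∣ n
  · obtain ⟨m, rfl⟩ := h
    rw [qExpand_coeff_mul]
    exact hx m
  · rw [qExpand_coeff_of_not_dvd p _ h]
    exact isIntegral_zero

theorem zeta_isIntegral : IsIntegral ℤ (zeta p) :=
  (zeta_isPrimitiveRoot p).isIntegral (Nat.pos_of_ne_zero (NeZero.ne p))

theorem cB_mem_IntCoeff (b : ℕ) (g : PowerSeries ℤ) :
    cB p b (g.map (Int.castRingHom ℂ)) ∈ IntCoeff := fun n => by
  rcases lt_or_ge n 0 with hn | hn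
  · rw [cB_coeff_neg p b _ hn]
    exact isIntegral_zero
  · lift n to ℕ using hn
    rw [cB_coeff_nat, PowerSeries.coeff_map]
    exact (((zeta_isIntegral p).pow b).pow n).mul
      (isIntegral_algebraMap (R := ℤ) (A := ℂ) (x := g.coeff n))

/-- `j(t^p)` over `ℂ`. -/
def jP : LaurentSeries ℂ := qExpand ℂ p (jqModC ℂ)

theorem jP_pow_coeff_self (n : ℕ) : (jP p ^ n).coeff (-((p : ℤ) * n)) = 1 := by
  rw [jP, ← map_pow, show -((p : ℤ) * n) = (p : ℤ) * (-(n : ℤ)) by ring, qExpand_coeff_mul,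
    coeff_jqModC_pow_self]

theorem jP_pow_coeff_of_lt {i n : ℕ} (h : i < n) : (jP p ^ i).coeff (-((p : ℤ) * n)) = 0 := by
  rw [jP, ← map_pow, show -((p : ℤ) * n) = (p : ℤ) * (-(n : ℤ)) by ring, qExpand_coeff_mul]
  exact coeff_jqModC_pow_of_lt ℂ (by omega)

theorem jP_pow_mem_IntCoeff (n : ℕ) : jP p ^ n ∈ IntCoeff := by
  refine Subring.pow_mem _ ?_ n
  rw [jP, ← coeffMap_jqModC (Int.castRingHom ℂ)]
  exact qExpand_mem_IntCoeff p (kap_mem_IntCoeff _)

theorem ratCast_mul_coeff (c : ℚ) (x : LaurentSeries ℂ) (n : ℤ) :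
    ((c : LaurentSeries ℂ) * x).coeff n = (c : ℂ) * x.coeff n := by
  have : (c : LaurentSeries ℂ) = HahnSeries.C (c : ℂ) := (map_ratCast HahnSeries.C c).symm
  rw [this, HahnSeries.C_mul_eq_smul, HahnSeries.coeff_smul, smul_eq_mul]

theorem rat_algebraMap_mul_coeff (c : ℚ) (x : LaurentSeries ℂ) (n : ℤ) :
    (algebraMap ℚ (LaurentSeries ℂ) c * x).coeff n = (c : ℂ) * x.coeff n := by
  rw [eq_ratCast, ratCast_mul_coeff]

/-- leading coefficient of `Q(j(t^p))` -/
theorem aeval_jP_coeff (Q : Polynomial ℚ) {n : ℕ} (hn : Q.natDegree ≤ n) :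
    (Polynomial.aeval (jP p) Q).coeff (-((p : ℤ) * n)) = (Q.coeff n : ℂ) := by
  rw [Polynomial.aeval_eq_sum_range' (Nat.lt_succ_of_le hn), HahnSeries.coeff_sum,
    Finset.sum_range_succ]
  rw [Finset.sum_eq_zero, zero_add, Algebra.smul_def, rat_algebraMap_mul_coeff,
    jP_pow_coeff_self, mul_one]
  · intro i hi
    rw [Algebra.smul_def, rat_algebraMap_mul_coeff, jP_pow_coeff_of_lt p (Finset.mem_range.mp hi),
      mul_zero]

theorem rat_of_isIntegral {a : ℚ} (h : IsIntegral ℤ (a : ℂ)) : ∃ m : ℤ, (m : ℚ) = a := by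
  have h1 : IsIntegral ℤ a := by
    have := (isIntegral_algebraMap_iff (R := ℤ) (A := ℚ) (B := ℂ)
      (algebraMap ℚ ℂ).injective (x := a)).mp (by simpa using h)
    exact this
  obtain ⟨m, hm⟩ := IsIntegrallyClosed.isIntegral_iff.mp h1
  exact ⟨m, by simpa using hm⟩

/-- **Integrality by leading terms**: if `Q(j(t^p))` has algebraic-integer coefficients,
then `Q` has integer coefficients. -/
theorem exists_int_poly_of_integral (Q : Polynomial ℚ)
    (h : Polynomial.aeval (jP p) Q ∈ IntCoeff) :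
    ∃ Q' : Polynomial ℤ, Q'.map (Int.castRingHom ℚ) = Q := by
  suffices H : ∀ d : ℕ, ∀ Q : Polynomial ℚ, Q.natDegree < d →
      Polynomial.aeval (jP p) Q ∈ IntCoeff → ∃ Q' : Polynomial ℤ,
        Q'.map (Int.castRingHom ℚ) = Q from H (Q.natDegree + 1) Q (Nat.lt_succ_self _) h
  intro d
  induction d with
  | zero => intro Q hQ; omega
  | succ d ih =>
    intro Q hQ hint
    have hle : Q.natDegree ≤ d := Nat.lt_succ_iff.mp hQ
    have hlead := aeval_jP_coeff p Q hle
    obtain ⟨m, hm⟩ := rat_of_isIntegral (hlead ▸ hint _)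
    set Q1 : Polynomial ℚ := Q - Polynomial.C (Q.coeff d) * Polynomial.X ^ d with hQ1
    have hdeg : Q1.natDegree < d ∨ Q1 = 0 := by
      by_cases h0 : Q1 = 0
      · exact Or.inr h0
      left
      have h1 : Q1.natDegree ≤ d := by
        refine (Polynomial.natDegree_sub_le _ _).trans (max_le hle ?_)
        exact Polynomial.natDegree_C_mul_X_pow_le _ _
      rcases Nat.lt_or_ge Q1.natDegree d with h2 | h2
      · exact h2
      · have h3 : Q1.natDegree = d := le_antisymm h1 h2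
        have h4 : Q1.coeff d = 0 := by
          simp [hQ1]
        have h5 : Q1.leadingCoeff = 0 := by
          rw [Polynomial.leadingCoeff, h3, h4]
        exact absurd (Polynomial.leadingCoeff_eq_zero.mp h5) h0
    have hint1 : Polynomial.aeval (jP p) Q1 ∈ IntCoeff := by
      rw [hQ1, map_sub, map_mul, Polynomial.aeval_C, map_pow, Polynomial.aeval_X]
      refine Subring.sub_mem _ hint ?_
      rw [← hm]
      have : algebraMap ℚ (LaurentSeries ℂ) (m : ℚ) = ((m : ℤ) : LaurentSeries ℂ) := by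
        simp
      rw [this]
      exact Subring.mul_mem _ (intCast_mem _ m) (jP_pow_mem_IntCoeff p d)
    have hQ1' : ∃ Q' : Polynomial ℤ, Q'.map (Int.castRingHom ℚ) = Q1 := by
      rcases hdeg with h1 | h1
      · rcases Nat.eq_zero_or_pos d with hd | hd
        · omega
        · exact ih Q1 (by omega) hint1 |>.elim (fun Q' h' => ⟨Q', h'⟩) |> fun x => x
      · exact ⟨0, by simp [h1]⟩
    obtain ⟨Q', hQ'⟩ := hQ1'
    refine ⟨Q' + Polynomial.C m * Polynomial.X ^ d, ?_⟩
    rw [Polynomial.map_add, hQ', Polynomial.map_mul, Polynomial.map_pow, Polynomial.map_X,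
      Polynomial.map_C, hQ1]
    simp [hm]

end Fermat.Agent.S28.H326

end
end
-- ===== PACK-END S28/H326/Integral.lean

-- ===== PACK-BEGIN S18/H333/Series.lean
section



/-!
# S18 / c3 (helper333): the formal series `E₄`, `Δ`, their `V_p`-images and truncations
-/

set_option autoImplicit false

namespace Fermat.Agent.S18.H333

open PowerSeries ModularCurve Filter Topology
open scoped PowerSeries.WithPiTopology

/-- formal `E₄` -/
noncomputable def Ez : PowerSeries ℤ := eisenstein4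

/-- formal `Δ = q ∏ (1 - q^n)^24` -/
noncomputable def Dz : PowerSeries ℤ := X * etaProd ^ 24

theorem tl_etaProd (n : ℕ) : tl n etaProd = etaLrec n n := by
  rw [← tl_prod_range, tl_ext_iff]
  intro k hk
  have h1 : Tendsto (fun t : Finset ℕ => ∏ i ∈ t, ((1 : PowerSeries ℤ) - X ^ (i + 1)))
      atTop (𝓝 etaProd) :=
    (PowerSeries.WithPiTopology.multipliable_one_sub_X_pow ℤ).hasProd
  have h2 := ((PowerSeries.WithPiTopology.continuous_coeff ℤ k).tendsto _).comp h1
  rw [nhds_discrete, tendsto_pure] at h2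
  obtain ⟨t, ht, htn⟩ := (h2.and (eventually_ge_atTop (Finset.range n))).exists
  simp only [Function.comp_apply] at ht
  rw [← ht]
  have hsplit : ∏ i ∈ t, ((1 : PowerSeries ℤ) - X ^ (i + 1)) =
      (∏ i ∈ t \ Finset.range n, ((1 : PowerSeries ℤ) - X ^ (i + 1))) *
        ∏ i ∈ Finset.range n, ((1 : PowerSeries ℤ) - X ^ (i + 1)) :=
    (Finset.prod_sdiff htn).symm
  have h3 : tl n (∏ i ∈ t \ Finset.range n, ((1 : PowerSeries ℤ) - X ^ (i + 1))) = tl n 1 := by
    refine tl_prod_of_le n _ fun i hi => ?_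
    have := (Finset.mem_sdiff.mp hi).2
    rw [Finset.mem_range] at this
    omega
  have h4 := tl_mul_congr n h3 (rfl : tl n (∏ i ∈ Finset.range n,
    ((1 : PowerSeries ℤ) - X ^ (i + 1))) = _)
  rw [one_mul, ← hsplit] at h4
  exact ((tl_ext_iff n _ _).mp h4 k hk)

theorem tl_Ez (n : ℕ) : tl n Ez =
    (List.range n).map fun k : ℕ => if k = 0 then (1 : ℤ) else 240 * ∑ d ∈ k.divisors, (d : ℤ) ^ 3 := by
  refine List.map_congr_left fun k _ => ?_
  rw [Ez, eisenstein4, coeff_mk]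

theorem tl_Dz (n : ℕ) : tl n Dz = tmul n (tX n) (tpow n (etaLrec n n) 24) := by
  rw [Dz, tl_mul, tl_X, tl_pow, tl_etaProd]

theorem tl_Ez_17 : tl 17 Ez = [1, 240, 2160, 6720, 17520, 30240, 60480, 82560, 140400, 181680,
    272160, 319680, 490560, 527520, 743040, 846720, 1123440] := by
  rw [tl_Ez]; decide +kernel

theorem tl_Dz_17 : tl 17 Dz = [0, 1, -24, 252, -1472, 4830, -6048, -16744, 84480, -113643,
    -115920, 534612, -370944, -577738, 401856, 1217160, 987136] := by
  rw [tl_Dz]; decide +kernel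

end Fermat.Agent.S18.H333

namespace Fermat.Agent.S18.H333

open PowerSeries ModularCurve

/-! ### level 2 -/

/-- `E₄³ Δ Δ₂ - (Δ + 256 Δ₂)³`, `Δ₂ = Δ(q²)` -/
noncomputable def Phi2a : PowerSeries ℤ :=
  Ez ^ 3 * Dz * Vser 2 Dz - (Dz + (256 : ℤ) • Vser 2 Dz) ^ 3

/-- `E₄(q²)³ Δ Δ₂ - (Δ + 16 Δ₂)³` -/
noncomputable def Phi2b : PowerSeries ℤ :=
  Vser 2 Ez ^ 3 * Dz * Vser 2 Dz - (Dz + (16 : ℤ) • Vser 2 Dz) ^ 3

theorem tl_Ez_10 : tl 10 Ez = [1, 240, 2160, 6720, 17520, 30240, 60480, 82560, 140400, 181680] := by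
  rw [tl_Ez]; decide +kernel

theorem tl_Dz_10 : tl 10 Dz = [0, 1, -24, 252, -1472, 4830, -6048, -16744, 84480, -113643] := by
  rw [tl_Dz]; decide +kernel

theorem tl_Phi2a : tl 10 Phi2a = tzero 10 := by
  rw [Phi2a, tl_sub, tl_mul, tl_mul, tl_pow, tl_pow, tl_add, tl_smul, tl_Vser _ _ (by norm_num),
    tl_Dz_10, tl_Ez_10]
  decide +kernel

theorem tl_Phi2b : tl 10 Phi2b = tzero 10 := by
  rw [Phi2b, tl_sub, tl_mul, tl_mul, tl_pow, tl_pow, tl_add, tl_smul, tl_Vser _ _ (by norm_num),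
    tl_Vser _ _ (by norm_num), tl_Dz_10, tl_Ez_10]
  decide +kernel

/-! ### level 3 -/

/-- `Δ² + 196830 Δ Δ₃ + 3^18 Δ₃²` -/
noncomputable def A3a : PowerSeries ℤ :=
  Dz * Dz + (196830 : ℤ) • (Dz * Vser 3 Dz) + (387420489 : ℤ) • (Vser 3 Dz * Vser 3 Dz)

/-- `756 Δ + 19131876 Δ₃` -/
noncomputable def B3a : PowerSeries ℤ := (756 : ℤ) • Dz + (19131876 : ℤ) • Vser 3 Dz

/-- squared form of `(t₃+27)(t₃+243)³ = j t₃³` -/
noncomputable def Phi3a : PowerSeries ℤ :=
  A3a * A3a - (Dz * Vser 3 Dz) * ((Ez ^ 3 - B3a) * (Ez ^ 3 - B3a))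

/-- `Δ² + 270 Δ Δ₃ + 729 Δ₃²` -/
noncomputable def A3b : PowerSeries ℤ :=
  Dz * Dz + (270 : ℤ) • (Dz * Vser 3 Dz) + (729 : ℤ) • (Vser 3 Dz * Vser 3 Dz)

/-- `36 Δ + 756 Δ₃` -/
noncomputable def B3b : PowerSeries ℤ := (36 : ℤ) • Dz + (756 : ℤ) • Vser 3 Dz

/-- squared form of `(t₃+27)(t₃+3)³ = j(q³) t₃` -/
noncomputable def Phi3b : PowerSeries ℤ :=
  A3b * A3b - (Dz * Vser 3 Dz) * ((Vser 3 Ez ^ 3 - B3b) * (Vser 3 Ez ^ 3 - B3b))

theorem tl_Phi3a : tl 17 Phi3a = tzero 17 := by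
  rw [Phi3a, A3a, B3a]
  simp only [tl_sub, tl_mul, tl_pow, tl_add, tl_smul, tl_Vser _ _ (show 0 < 3 by norm_num),
    tl_Dz_17, tl_Ez_17]
  decide +kernel

theorem tl_Phi3b : tl 17 Phi3b = tzero 17 := by
  rw [Phi3b, A3b, B3b]
  simp only [tl_sub, tl_mul, tl_pow, tl_add, tl_smul, tl_Vser _ _ (show 0 < 3 by norm_num),
    tl_Dz_17, tl_Ez_17]
  decide +kernel

end Fermat.Agent.S18.H333

end
-- ===== PACK-END S18/H333/Series.lean

-- ===== PACK-BEGIN S18/H264/SepGraph.lean
section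


/-!
# S18 / G-SEP (helper264): the field `separable` of `Alg.GoodModel` from a reduction *relation*

Mathlib-only, abstract.  Instead of a reduction homomorphism on the valuation ring `V` we use a
subring `T ≤ Ω × L` ("`(g, ḡ) ∈ T` iff `ḡ` is a reduction of `g`"); no well-definedness is
needed.  `L` is a field of characteristic `ℓ` with a `ℤ`-valued valuation (`L = k((q))`).

* `evalZZ x y` : evaluation `ℤ[X][Y] → B`, `X ↦ x`, `Y ↦ y`;
* `evalZZ_mem_graph` : `(P(x, f), P(x̄, f̄)) ∈ T`;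
* `exists_poly_of_graph` : from `P ∈ ℤ[X][Y]` with `P(x̄, f̄) = 0`, `(∂P/∂Y)(x̄, f̄) ≠ 0`
  to the conclusion of the field `separable` (with coefficients even in `ℤ[x]`);
* `exists_poly_of_graph_sep` : the same from `f̄` algebraic over `𝔽_ℓ(x̄)` and `ℓ ∤ v(x̄)`.
-/

set_option autoImplicit false

namespace Fermat.Agent.S18.H264

open Polynomial

section EvalZZ

/-- Evaluation of an integral bivariate polynomial: `X ↦ x` (inner variable), `Y ↦ y`. -/
noncomputable def evalZZ {B : Type*} [CommRing B] (x y : B) : Polynomial (Polynomial ℤ) →+* B :=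
  Polynomial.eval₂RingHom (Polynomial.eval₂RingHom (Int.castRingHom B) x) y

theorem evalZZ_apply {B : Type*} [CommRing B] (x y : B) (P : Polynomial (Polynomial ℤ)) :
    evalZZ x y P = P.eval₂ (Polynomial.eval₂RingHom (Int.castRingHom B) x) y := rfl

theorem map_evalZZ {B C : Type*} [CommRing B] [CommRing C] (φ : B →+* C) (x y : B)
    (P : Polynomial (Polynomial ℤ)) : φ (evalZZ x y P) = evalZZ (φ x) (φ y) P := by
  have h : φ.comp (Polynomial.eval₂RingHom (Int.castRingHom B) x) =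
      Polynomial.eval₂RingHom (Int.castRingHom C) (φ x) := by
    refine Polynomial.ringHom_ext (fun n => ?_) ?_
    · simp
    · simp
  rw [evalZZ_apply, evalZZ_apply, Polynomial.hom_eval₂, h]

end EvalZZ

section Graph

variable {Ω L : Type*} [Field Ω] [Field L]

/-- Polynomial expressions respect the reduction relation. -/
theorem evalZZ_mem_graph (T : Subring (Ω × L)) {x f : Ω} {xb fb : L} (hx : (x, xb) ∈ T)
    (hf : (f, fb) ∈ T) (P : Polynomial (Polynomial ℤ)) :
    (evalZZ x f P, evalZZ xb fb P) ∈ T := by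
  have h1 := map_evalZZ ((RingHom.fst Ω L).comp T.subtype) ⟨(x, xb), hx⟩ ⟨(f, fb), hf⟩ P
  have h2 := map_evalZZ ((RingHom.snd Ω L).comp T.subtype) ⟨(x, xb), hx⟩ ⟨(f, fb), hf⟩ P
  have h3 : ((evalZZ (⟨(x, xb), hx⟩ : T) ⟨(f, fb), hf⟩ P : T) : Ω × L) =
      (evalZZ x f P, evalZZ xb fb P) := Prod.ext h1 h2
  rw [← h3]
  exact Subtype.property _

/-- The value at `x` of an integral polynomial lies in every subring containing `x`. -/
theorem eval₂_intCast_mem (S : Subring Ω) {x : Ω} (hx : x ∈ S) (g : Polynomial ℤ) :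
    Polynomial.eval₂ (Int.castRingHom Ω) x g ∈ S := by
  rw [eval₂_eq_sum_range]
  refine sum_mem fun i _ => ?_
  exact mul_mem (by simp) (pow_mem hx _)

/-- **The field `separable` from a reduction relation and an integral polynomial.** -/
theorem exists_poly_of_graph (T : Subring (Ω × L)) (V R : Subring Ω) (w x f : Ω) (xb fb : L)
    (hx : (x, xb) ∈ T) (hf : (f, fb) ∈ T)
    (hker : ∀ g : Ω, (g, (0 : L)) ∈ T → g * w⁻¹ ∈ V)
    (hunit : ∀ (g : Ω) (b : L), (g, b) ∈ T → b ≠ 0 → g ≠ 0 ∧ g⁻¹ ∈ V)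
    (P : Polynomial (Polynomial ℤ)) (h0 : evalZZ xb fb P = 0)
    (h1 : evalZZ xb fb (derivative P) ≠ 0) :
    ∃ PΩ : Polynomial Ω, (∀ i, PΩ.coeff i ∈ Subring.closure ((R : Set Ω) ∪ {x})) ∧
      PΩ.eval f * w⁻¹ ∈ V ∧ (derivative PΩ).eval f ≠ 0 ∧ ((derivative PΩ).eval f)⁻¹ ∈ V := by
  refine ⟨P.map (Polynomial.eval₂RingHom (Int.castRingHom Ω) x), ?_, ?_, ?_⟩
  · intro i
    rw [coeff_map, coe_eval₂RingHom]
    exact eval₂_intCast_mem _
      (Subring.subset_closure (Set.mem_union_right _ (Set.mem_singleton x))) _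
  · rw [eval_map, ← evalZZ_apply]
    apply hker
    have h := evalZZ_mem_graph T hx hf P
    rwa [h0] at h
  · rw [derivative_map, eval_map, ← evalZZ_apply]
    exact hunit _ _ (evalZZ_mem_graph T hx hf (derivative P)) h1

end Graph

section Sep

variable {Ω L : Type*} [Field Ω] [Field L] (ℓ : ℕ) [hℓ : Fact ℓ.Prime] [Algebra (ZMod ℓ) L]

/-- Lifting a bivariate polynomial over `𝔽_ℓ` to `ℤ`. -/
theorem exists_int_lift (xb fb : L) (Pbar : Polynomial (Polynomial (ZMod ℓ))) :
    ∃ P : Polynomial (Polynomial ℤ),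
      evalZZ xb fb P =
        Pbar.eval₂ (aeval xb : Polynomial (ZMod ℓ) →ₐ[ZMod ℓ] L).toRingHom fb ∧
      evalZZ xb fb (derivative P) =
        (derivative Pbar).eval₂ (aeval xb : Polynomial (ZMod ℓ) →ₐ[ZMod ℓ] L).toRingHom fb := by
  obtain ⟨P, hP⟩ := Polynomial.map_surjective
    (Polynomial.mapRingHom (Int.castRingHom (ZMod ℓ)))
    (Polynomial.map_surjective _ (ZMod.intCast_surjective)) Pbar
  have hcomp : ((aeval xb : Polynomial (ZMod ℓ) →ₐ[ZMod ℓ] L).toRingHom).comp
      (Polynomial.mapRingHom (Int.castRingHom (ZMod ℓ))) =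
      Polynomial.eval₂RingHom (Int.castRingHom L) xb := by
    refine Polynomial.ringHom_ext (fun n => ?_) ?_
    · simp
    · simp
  refine ⟨P, ?_, ?_⟩
  · rw [← hP, Polynomial.eval₂_map, hcomp, evalZZ_apply]
  · rw [← hP, derivative_map, Polynomial.eval₂_map, hcomp, evalZZ_apply]

/-- **The field `separable` from a reduction relation**, for `L` of characteristic `ℓ` with a
`ℤ`-valued valuation `v`, `ℓ ∤ v x̄`, `f̄` algebraic over `𝔽_ℓ(x̄)`. -/
theorem exists_poly_of_graph_sep (v : AddValuation L (WithTop ℤ))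
    (T : Subring (Ω × L)) (V R : Subring Ω) (w x f : Ω) (xb fb : L)
    (hx : (x, xb) ∈ T) (hf : (f, fb) ∈ T)
    (hker : ∀ g : Ω, (g, (0 : L)) ∈ T → g * w⁻¹ ∈ V)
    (hunit : ∀ (g : Ω) (b : L), (g, b) ∈ T → b ≠ 0 → g ≠ 0 ∧ g⁻¹ ∈ V)
    (n : ℤ) (hv : v xb = (n : WithTop ℤ)) (hn : ¬ (ℓ : ℤ) ∣ n)
    (halg : IsAlgebraic (IntermediateField.adjoin (ZMod ℓ) {xb}) fb) :
    ∃ PΩ : Polynomial Ω, (∀ i, PΩ.coeff i ∈ Subring.closure ((R : Set Ω) ∪ {x})) ∧
      PΩ.eval f * w⁻¹ ∈ V ∧ (derivative PΩ).eval f ≠ 0 ∧ ((derivative PΩ).eval f)⁻¹ ∈ V := by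
  have hsep := isSeparable_of_isAlgebraic_of_addVal (κ := ZMod ℓ) ℓ v xb n hv hn fb halg
  obtain ⟨Pbar, hb0, hb1⟩ := exists_bivariate_simple_root xb fb hsep
  obtain ⟨P, hP0, hP1⟩ := exists_int_lift ℓ xb fb Pbar
  exact exists_poly_of_graph T V R w x f xb fb hx hf hker hunit P (by rw [hP0, hb0])
    (by rw [hP1]; exact hb1)

end Sep

end Fermat.Agent.S18.H264

end
-- ===== PACK-END S18/H264/SepGraph.lean

-- ===== PACK-BEGIN S18/H264/SepModular.lean
section



/-!
# S18 / G-SEP at the modular function field (helper264)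

Prelude-level consequences of `SepLaurent.lean`, for a perfect field `k` of characteristic `p`
(no hypothesis on the level `N`, not even `NeZero N`):

* `order_jqModC` : `ord_q (j̄) = -1`;
* `isSeparable_laurent_jqModC` : every `y ∈ k((q))` algebraic over `k(j̄)` is separable over it;
* `isSeparable_full` : every `y ∈ F_k = modularFunctionFieldFullC k N` algebraic over
  `k(j̄) ⊆ F_k` is separable over `k(j̄)`;
* `algebra_isSeparable_full` : if `F_k` is algebraic (e.g. finite: Sq05 `ModFiniteStatement`)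
  over `k(j̄)`, then `F_k / k(j̄)` is separable;
* `exists_bivariate_simple_root_jqModC` : liftable form, `∃ P ∈ k[X][Y]`, `P(j̄, y) = 0`,
  `(∂P/∂Y)(j̄, y) ≠ 0`.
-/

set_option autoImplicit false

noncomputable section

namespace Fermat.Agent.S18.H264

open ModularCurve IntermediateField Polynomial

section Order

variable (k : Type*) [Field k]

/-- The `q`-order of `j̄ = q⁻¹ + 744 + …` is `-1`. -/
theorem order_jqModC : (jqModC k).order = -1 := by
  have hne : jqModC k ≠ 0 := jqModC_ne_zero_of_nontrivial k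
  apply le_antisymm
  · apply HahnSeries.order_le_of_coeff_ne_zero
    rw [coeff_jqModC_neg_one]
    exact one_ne_zero
  · rw [HahnSeries.le_order_iff_forall hne]
    intro j hj
    exact coeff_jqModC_of_lt k hj

end Order

section Sep

variable (k : Type*) [Field k] [PerfectField k] (p : ℕ) [hp : Fact p.Prime] [CharP k p]

include hp in
/-- Every Laurent series algebraic over `k(j̄)` is separable over `k(j̄)`. -/
theorem isSeparable_laurent_jqModC (y : LaurentSeries k)
    (hy : IsAlgebraic (IntermediateField.adjoin k {jqModC k}) y) :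
    IsSeparable (IntermediateField.adjoin k {jqModC k}) y :=
  isSeparable_laurent_of_order_eq_neg_one p (jqModC k) y (order_jqModC k) hy

include hp in
/-- Liftable form: `∃ P ∈ k[X][Y]` with `P(j̄, y) = 0` and `(∂P/∂Y)(j̄, y) ≠ 0`. -/
theorem exists_bivariate_simple_root_jqModC (y : LaurentSeries k)
    (hy : IsAlgebraic (IntermediateField.adjoin k {jqModC k}) y) :
    ∃ P : Polynomial (Polynomial k),
      P.eval₂ (aeval (jqModC k) : Polynomial k →ₐ[k] LaurentSeries k).toRingHom y = 0 ∧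
      (derivative P).eval₂
        (aeval (jqModC k) : Polynomial k →ₐ[k] LaurentSeries k).toRingHom y ≠ 0 :=
  exists_bivariate_simple_root (jqModC k) y (isSeparable_laurent_jqModC k p y hy)

variable (N : ℕ)

include hp in
/-- Inside `F_k = modularFunctionFieldFullC k N`: every element algebraic over `k(j̄)` is
separable over `k(j̄)`.  (The element `⟨jqModC k, _⟩` is `Sq05.jC k N` unfolded.) -/
theorem isSeparable_full (y : modularFunctionFieldFullC k N)
    (hy : IsAlgebraic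
      (IntermediateField.adjoin k
        {(⟨jqModC k, jqModC_mem_full k N⟩ : modularFunctionFieldFullC k N)}) y) :
    IsSeparable
      (IntermediateField.adjoin k
        {(⟨jqModC k, jqModC_mem_full k N⟩ : modularFunctionFieldFullC k N)}) y := by
  refine isSeparable_of_isAlgebraic_of_addVal p
    ((HahnSeries.addVal ℤ k).comap (algebraMap (modularFunctionFieldFullC k N) (LaurentSeries k)))
    (⟨jqModC k, jqModC_mem_full k N⟩ : modularFunctionFieldFullC k N) (-1) ?_
    (not_prime_dvd_neg_one p hp.out) y hy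
  have h : (HahnSeries.addVal ℤ k) (jqModC k) = (((jqModC k).order : ℤ) : WithTop ℤ) :=
    HahnSeries.addVal_apply_of_ne (jqModC_ne_zero_of_nontrivial k)
  rw [order_jqModC] at h
  exact h

include hp in
/-- If `F_k` is algebraic over `k(j̄)` (e.g. finite), then `F_k / k(j̄)` is separable. -/
theorem algebra_isSeparable_full
    [Algebra.IsAlgebraic
      (IntermediateField.adjoin k
        {(⟨jqModC k, jqModC_mem_full k N⟩ : modularFunctionFieldFullC k N)})
      (modularFunctionFieldFullC k N)] :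
    Algebra.IsSeparable
      (IntermediateField.adjoin k
        {(⟨jqModC k, jqModC_mem_full k N⟩ : modularFunctionFieldFullC k N)})
      (modularFunctionFieldFullC k N) :=
  ⟨fun y => isSeparable_full k p N y (Algebra.IsAlgebraic.isAlgebraic y)⟩

end Sep

end Fermat.Agent.S18.H264

end
end
-- ===== PACK-END S18/H264/SepModular.lean

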