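import Fermat.Prelude.Def_ModularCurve_ArithmeticGalois
import Mathlib
import Fermat.Prelude.Def_AlgebraicCurve_DivisorClassGroup
import Fermat.Prelude.Def_AlgebraicCurve_CanonicalDivisor
import Fermat.Prelude.Def_ModularCurve_HeckeModule
import Fermat.Prelude.Def_ModularCurve_X0ModL
import Mathlib.GroupTheory.Index
import Mathlib.SetTheory.Cardinal.NatCard
import Mathlib.SetTheory.Cardinal.Finite
import Fermat.Agent.Pack.S34.G0E0L2
import Fermat.Agent.Pack.S34.G0E0L1
import Fermat.Agent.Pack.S34.G0E0L3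
import Fermat.Agent.Pack.S34.G0E0L0
import Fermat.Agent.Pack.S34.G0E1L0
import Fermat.Agent.Pack.S34.G0E1L2
import Fermat.Agent.Pack.S34.G0E1L1

-- ===== PACK-BEGIN S21/Partition.lean
section


/-!
# S21 / MS-A — a smooth `SL(2,ℤ)`-partition of unity on the upper half plane

Main results:
* `Fermat.Agent.S21.finite_mob_inter` (G1): proper discontinuity in terms of `mob`.
* `Fermat.Agent.S21.c_eq_zero_of_two_le_im` (G2).
* `Fermat.Agent.S21.exists_partition_SL2Z`.

All auxiliary lemmas live in the namespace `Fermat.Agent.S21.PartitionAux`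
(`mob_mob`, `mob_im`, `mob_eq_div`, `mob_contDiffAt`, `mob_im_le_max`, `psiFn`, `PsiSum`,
`chiOne` and its properties).
-/

set_option autoImplicit false

open UpperHalfPlane Matrix
open scoped MatrixGroups ContDiff

namespace Fermat.Agent.S21.PartitionAux

/-! ### Basic facts about `mob` -/

theorem mob_coe (g : SL(2, ℤ)) (w : ℍ) : mob g (w : ℂ) = ((g • w : ℍ) : ℂ) := by
  simp [mob]

theorem mob_of_mem {z : ℂ} (hz : z ∈ Uhp) (g : SL(2, ℤ)) :
    mob g z = ((g • (⟨z, hz⟩ : ℍ) : ℍ) : ℂ) := by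
  simp [mob, ofComplex_apply_of_im_pos hz]

theorem mob_mem_Uhp (g : SL(2, ℤ)) (z : ℂ) : mob g z ∈ Uhp := coe_mem_Uhp _

theorem mob_mob (g h : SL(2, ℤ)) (z : ℂ) : mob g (mob h z) = mob (g * h) z := by
  simp [mob, mul_smul]

theorem mob_one {z : ℂ} (hz : z ∈ Uhp) : mob 1 z = z := by
  simp [mob_of_mem hz]

theorem mob_im (g : SL(2, ℤ)) {z : ℂ} (hz : z ∈ Uhp) :
    (mob g z).im = z.im / Complex.normSq (cd g z) := by
  rw [mob_of_mem hz]
  have h := ModularGroup.im_smul_eq_div_normSq g (⟨z, hz⟩ : ℍ)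
  rw [ModularGroup.denom_apply] at h
  exact h

theorem mob_eq_div (g : SL(2, ℤ)) {z : ℂ} (hz : z ∈ Uhp) :
    mob g z = (((g 0 0 : ℤ) : ℂ) * z + ((g 0 1 : ℤ) : ℂ)) / cd g z := by
  rw [mob_of_mem hz, coe_specialLinearGroup_apply]
  simp [cd]

theorem cd_ne_zero (g : SL(2, ℤ)) {z : ℂ} (hz : z ∈ Uhp) : cd g z ≠ 0 := by
  have h := UpperHalfPlane.denom_ne_zero g (⟨z, hz⟩ : ℍ)
  rw [ModularGroup.denom_apply] at h
  exact h

/-! ### Bounds on the imaginary part -/

theorem normSq_cd (g : SL(2, ℤ)) (z : ℂ) :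
    Complex.normSq (cd g z) =
      ((g 1 0 : ℤ) * z.re + (g 1 1 : ℤ)) ^ 2 + ((g 1 0 : ℤ) * z.im) ^ 2 := by
  simp [cd, Complex.normSq_apply]
  ring

theorem sq_im_le_normSq_cd (g : SL(2, ℤ)) (z : ℂ) (hc : g 1 0 ≠ 0) :
    z.im ^ 2 ≤ Complex.normSq (cd g z) := by
  rw [normSq_cd]
  have h1 : (1 : ℝ) ≤ ((g 1 0 : ℤ) : ℝ) ^ 2 := by
    have : (1 : ℤ) ≤ (g 1 0) ^ 2 := by
      have := sq_pos_of_ne_zero hc  -- 0 < c^2
      omega
    exact_mod_cast this
  have h2 : 0 ≤ (((g 1 0 : ℤ) : ℝ) * z.re + ((g 1 1 : ℤ) : ℝ)) ^ 2 := sq_nonneg _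
  have h3 : 0 ≤ z.im ^ 2 := sq_nonneg _
  nlinarith

theorem one_le_normSq_cd (g : SL(2, ℤ)) (z : ℂ) (hc : g 1 0 = 0) :
    1 ≤ Complex.normSq (cd g z) := by
  rw [normSq_cd, hc]
  have hd : g 1 1 ≠ 0 := by
    intro hd
    have hdet := g.det_coe
    rw [Matrix.det_fin_two, hc, hd] at hdet
    simp at hdet
  have h1 : (1 : ℝ) ≤ ((g 1 1 : ℤ) : ℝ) ^ 2 := by
    have : (1 : ℤ) ≤ (g 1 1) ^ 2 := by
      have := sq_pos_of_ne_zero hd
      omega
    exact_mod_cast this
  simpa using h1

theorem mob_im_le_inv (g : SL(2, ℤ)) {z : ℂ} (hz : z ∈ Uhp) (hc : g 1 0 ≠ 0) :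
    (mob g z).im ≤ 1 / z.im := by
  have hz' : 0 < z.im := hz
  rw [mob_im g hz]
  have h := sq_im_le_normSq_cd g z hc
  have hpos : 0 < Complex.normSq (cd g z) := lt_of_lt_of_le (by positivity) h
  rw [div_le_div_iff₀ hpos hz']
  nlinarith

theorem mob_im_le_self (g : SL(2, ℤ)) {z : ℂ} (hz : z ∈ Uhp) (hc : g 1 0 = 0) :
    (mob g z).im ≤ z.im := by
  have hz' : 0 < z.im := hz
  rw [mob_im g hz]
  have h := one_le_normSq_cd g z hc
  exact div_le_self hz'.le h

theorem mob_im_le_max (g : SL(2, ℤ)) {z : ℂ} (hz : z ∈ Uhp) :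
    (mob g z).im ≤ max z.im (1 / z.im) := by
  by_cases hc : g 1 0 = 0
  · exact (mob_im_le_self g hz hc).trans (le_max_left _ _)
  · exact (mob_im_le_inv g hz hc).trans (le_max_right _ _)

end Fermat.Agent.S21.PartitionAux

namespace Fermat.Agent.S21

open PartitionAux

/-- (G2) If `Im z ≥ 2` and `Im (g z) > 1/2` then the lower-left entry of `g` vanishes. -/
theorem c_eq_zero_of_two_le_im (g : SL(2, ℤ)) (z : ℂ) (hz : 2 ≤ z.im)
    (hg : 1 / 2 < (mob g z).im) : g 1 0 = 0 := by
  by_contra hc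
  have hzU : z ∈ Uhp := lt_of_lt_of_le (by norm_num) hz
  have h1 := mob_im_le_inv g hzU hc
  have h2 : 1 / z.im ≤ 1 / 2 := by
    apply one_div_le_one_div_of_le (by norm_num) hz
  linarith

/-! ### Proper discontinuity -/

/-- (G1) Proper discontinuity of the action of `SL(2,ℤ)` in terms of `mob`. -/
theorem finite_mob_inter (K : Set ℂ) (hK : IsCompact K) (hKU : K ⊆ Uhp) :
    {g : SL(2, ℤ) | ∃ z ∈ K, mob g z ∈ K}.Finite := by
  set K' : Set ℍ := (fun w : ℍ => (w : ℂ)) ⁻¹' K with hK'
  have hK'c : IsCompact K' :=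
    UpperHalfPlane.isEmbedding_coe.isInducing.isCompact_preimage' hK
      (fun z hz => ⟨⟨z, hKU hz⟩, rfl⟩)
  have hpd := (Subgroup.properlyDiscontinuousSMul_iff (α := ℍ) 𝒮ℒ).mp inferInstance hK'c hK'c
  refine (hpd.preimage (f := SpecialLinearGroup.mapGL ℝ)
    (SpecialLinearGroup.mapGL_injective.injOn)).subset ?_
  rintro g ⟨z, hz, hgz⟩
  refine ⟨⟨g, rfl⟩, ?_⟩
  refine ⟨g • (⟨z, hKU hz⟩ : ℍ), ⟨⟨z, hKU hz⟩, hz, rfl⟩, ?_⟩
  show ((g • (⟨z, hKU hz⟩ : ℍ) : ℍ) : ℂ) ∈ K
  rw [← mob_of_mem (hKU hz)]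
  exact hgz

end Fermat.Agent.S21

namespace Fermat.Agent.S21.PartitionAux

/-! ### The bump function `ψ` -/

/-- A smooth bump in the real direction: `= 1` on `[-1/2, 1/2]`, support in `(-1, 1)`. -/
noncomputable def betaFn (x : ℝ) : ℝ :=
  Real.smoothTransition (2 * (1 - x)) * Real.smoothTransition (2 * (1 + x))

/-- The bump `ψ(z) = β(Re z) θ(Im z)` with `θ(y) = smoothTransition (y - 1/2)`. -/
noncomputable def psiFn (z : ℂ) : ℝ :=
  betaFn z.re * Real.smoothTransition (z.im - 1 / 2)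

theorem betaFn_nonneg (x : ℝ) : 0 ≤ betaFn x :=
  mul_nonneg (Real.smoothTransition.nonneg _) (Real.smoothTransition.nonneg _)

theorem psiFn_nonneg (z : ℂ) : 0 ≤ psiFn z :=
  mul_nonneg (betaFn_nonneg _) (Real.smoothTransition.nonneg _)

theorem betaFn_contDiff : ContDiff ℝ ∞ betaFn := by
  unfold betaFn
  exact (Real.smoothTransition.contDiff.comp (contDiff_const.mul (contDiff_const.sub contDiff_id))).mul
    (Real.smoothTransition.contDiff.comp (contDiff_const.mul (contDiff_const.add contDiff_id)))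

theorem psiFn_contDiff : ContDiff ℝ ∞ psiFn := by
  unfold psiFn
  exact (betaFn_contDiff.comp Complex.reCLM.contDiff).mul
    (Real.smoothTransition.contDiff.comp (Complex.imCLM.contDiff.sub contDiff_const))

theorem psiFn_ne_zero {z : ℂ} (h : psiFn z ≠ 0) : |z.re| < 1 ∧ 1 / 2 < z.im := by
  unfold psiFn betaFn at h
  have h1 : Real.smoothTransition (2 * (1 - z.re)) ≠ 0 := fun h0 => h (by rw [h0]; ring)
  have h2 : Real.smoothTransition (2 * (1 + z.re)) ≠ 0 := fun h0 => h (by rw [h0]; ring)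
  have h3 : Real.smoothTransition (z.im - 1 / 2) ≠ 0 := fun h0 => h (by rw [h0]; ring)
  rw [Ne, Real.smoothTransition.zero_iff_nonpos, not_le] at h1 h2 h3
  refine ⟨abs_lt.mpr ⟨by linarith, by linarith⟩, by linarith⟩

theorem psiFn_pos {z : ℂ} (h1 : |z.re| ≤ 1 / 2) (h2 : 1 / 2 < z.im) : 0 < psiFn z := by
  unfold psiFn betaFn
  have := abs_le.mp h1
  refine mul_pos (mul_pos ?_ ?_) ?_
  · exact Real.smoothTransition.pos_of_pos (by linarith)
  · exact Real.smoothTransition.pos_of_pos (by linarith)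
  · exact Real.smoothTransition.pos_of_pos (by linarith)

/-! ### Local finiteness -/

theorem finite_psi_support (K : Set ℂ) (hK : IsCompact K) (hKU : K ⊆ Uhp) :
    {g : SL(2, ℤ) | ∃ z ∈ K, psiFn (mob g z) ≠ 0}.Finite := by
  rcases K.eq_empty_or_nonempty with rfl | hne
  · simp
  -- bounds for the imaginary part on `K`
  obtain ⟨z₁, hz₁K, hz₁⟩ := hK.exists_isMinOn hne Complex.continuous_im.continuousOn
  obtain ⟨z₂, hz₂K, hz₂⟩ := hK.exists_isMaxOn hne Complex.continuous_im.continuousOn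
  have hm : 0 < z₁.im := hKU hz₁K
  set M : ℝ := max z₂.im (1 / z₁.im) with hM
  set L : Set ℂ := Set.Icc (-1 : ℝ) 1 ×ℂ Set.Icc (1 / 2 : ℝ) M with hL
  have hLc : IsCompact L := isCompact_Icc.reProdIm isCompact_Icc
  have hLU : L ⊆ Uhp := by
    intro w hw
    have : (1 / 2 : ℝ) ≤ w.im := hw.2.1
    exact lt_of_lt_of_le (by norm_num) this
  refine (finite_mob_inter (K ∪ L) (hK.union hLc) (Set.union_subset hKU hLU)).subset ?_
  rintro g ⟨z, hzK, hgz⟩
  refine ⟨z, Or.inl hzK, Or.inr ?_⟩
  obtain ⟨hre, him⟩ := psiFn_ne_zero hgz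
  have hzU : z ∈ Uhp := hKU hzK
  have hzpos : 0 < z.im := hzU
  have hb := mob_im_le_max g hzU
  have h1 : z.im ≤ z₂.im := hz₂ hzK
  have h2 : z₁.im ≤ z.im := hz₁ hzK
  have h3 : 1 / z.im ≤ 1 / z₁.im := one_div_le_one_div_of_le hm h2
  have h4 : (mob g z).im ≤ M := hb.trans (max_le_max h1 h3)
  have := abs_lt.mp hre
  exact ⟨⟨by linarith, by linarith⟩, ⟨him.le, h4⟩⟩

/-! ### The invariant sum `Ψ` -/

/-- `Ψ(z) = ∑_g ψ(g z)`. -/
noncomputable def PsiSum (z : ℂ) : ℝ := ∑ᶠ g : SL(2, ℤ), psiFn (mob g z)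

theorem PsiSum_nonneg (z : ℂ) : 0 ≤ PsiSum z := finsum_nonneg fun _ => psiFn_nonneg _

theorem PsiSum_mob (h : SL(2, ℤ)) (z : ℂ) : PsiSum (mob h z) = PsiSum z := by
  unfold PsiSum
  simp only [mob_mob]
  exact finsum_comp_equiv (Equiv.mulRight h) (f := fun g => psiFn (mob g z))

theorem finite_support_psi {z : ℂ} (hz : z ∈ Uhp) :
    (Function.support fun g : SL(2, ℤ) => psiFn (mob g z)).Finite := by
  refine (finite_psi_support {z} isCompact_singleton (by simpa using hz)).subset ?_
  intro g hg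
  exact ⟨z, rfl, hg⟩

theorem PsiSum_pos {z : ℂ} (hz : z ∈ Uhp) : 0 < PsiSum z := by
  obtain ⟨g, hg⟩ := ModularGroup.exists_smul_mem_fd (⟨z, hz⟩ : ℍ)
  refine finsum_pos (fun _ => psiFn_nonneg _) ⟨g, ?_⟩ (finite_support_psi hz)
  have h3 := ModularGroup.three_le_four_mul_im_sq_of_mem_fd hg
  have hre : |(g • (⟨z, hz⟩ : ℍ)).re| ≤ 1 / 2 := hg.2
  have him : 0 < (g • (⟨z, hz⟩ : ℍ)).im := (g • (⟨z, hz⟩ : ℍ)).im_pos
  rw [mob_of_mem hz]
  refine psiFn_pos hre ?_
  show 1 / 2 < (g • (⟨z, hz⟩ : ℍ)).im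
  nlinarith

/-! ### Smoothness -/

theorem mob_contDiffAt (g : SL(2, ℤ)) {z : ℂ} (hz : z ∈ Uhp) : ContDiffAt ℝ ∞ (mob g) z := by
  have h1 : ContDiffAt ℝ ∞
      (fun w : ℂ => (((g 0 0 : ℤ) : ℂ) * w + ((g 0 1 : ℤ) : ℂ)) / cd g w) z := by
    have hnum : ContDiffAt ℝ ∞ (fun w : ℂ => ((g 0 0 : ℤ) : ℂ) * w + ((g 0 1 : ℤ) : ℂ)) z :=
      (contDiffAt_const.mul contDiffAt_id).add contDiffAt_const
    have hden : ContDiffAt ℝ ∞ (fun w : ℂ => cd g w) z := by
      show ContDiffAt ℝ ∞ (fun w : ℂ => ((g 1 0 : ℤ) : ℂ) * w + ((g 1 1 : ℤ) : ℂ)) z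
      exact (contDiffAt_const.mul contDiffAt_id).add contDiffAt_const
    have hinv : ContDiffAt ℝ ∞ (fun w : ℂ => (cd g w)⁻¹) z := hden.inv (cd_ne_zero g hz)
    simpa only [div_eq_mul_inv] using hnum.mul hinv
  refine h1.congr_of_eventuallyEq ?_
  filter_upwards [isOpen_Uhp.mem_nhds hz] with w hw
  exact mob_eq_div g hw

theorem mob_contDiffOn (g : SL(2, ℤ)) : ContDiffOn ℝ ∞ (mob g) Uhp :=
  fun _ hz => (mob_contDiffAt g hz).contDiffWithinAt

theorem PsiSum_contDiffOn : ContDiffOn ℝ ∞ PsiSum Uhp := by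
  intro z₀ hz₀
  apply ContDiffAt.contDiffWithinAt
  obtain ⟨K, hKc, hzK, hKU⟩ := exists_compact_subset isOpen_Uhp hz₀
  have hfin := finite_psi_support K hKc hKU
  have h1 : ContDiffAt ℝ ∞ (fun z => ∑ g ∈ hfin.toFinset, psiFn (mob g z)) z₀ := by
    apply ContDiffAt.sum
    intro g _
    exact psiFn_contDiff.contDiffAt.comp z₀ (mob_contDiffAt g hz₀)
  refine h1.congr_of_eventuallyEq ?_
  filter_upwards [mem_interior_iff_mem_nhds.mp hzK] with z hz
  unfold PsiSum
  apply finsum_eq_sum_of_support_subset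
  intro g hg
  rw [Set.Finite.coe_toFinset]
  exact ⟨z, hz, hg⟩

/-! ### The partition of unity -/

/-- The partition function `χ₁ = ψ / Ψ`. -/
noncomputable def chiOne (z : ℂ) : ℝ := psiFn z / PsiSum z

theorem chiOne_contDiffOn : ContDiffOn ℝ ∞ chiOne Uhp :=
  psiFn_contDiff.contDiffOn.div PsiSum_contDiffOn (fun _ hz => (PsiSum_pos hz).ne')

theorem chiOne_nonneg (z : ℂ) : 0 ≤ chiOne z := div_nonneg (psiFn_nonneg z) (PsiSum_nonneg z)

theorem psiFn_ne_zero_of_chiOne {z : ℂ} (h : chiOne z ≠ 0) : psiFn z ≠ 0 := by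
  intro h0
  exact h (by unfold chiOne; rw [h0, zero_div])

theorem chiOne_support {z : ℂ} (h : chiOne z ≠ 0) : |z.re| < 1 ∧ 1 / 2 < z.im :=
  psiFn_ne_zero (psiFn_ne_zero_of_chiOne h)

theorem finite_chiOne_support (K : Set ℂ) (hK : IsCompact K) (hKU : K ⊆ Uhp) :
    {g : SL(2, ℤ) | ∃ z ∈ K, chiOne (mob g z) ≠ 0}.Finite := by
  refine (finite_psi_support K hK hKU).subset ?_
  rintro g ⟨z, hz, h⟩
  exact ⟨z, hz, psiFn_ne_zero_of_chiOne h⟩

theorem finsum_chiOne {z : ℂ} (hz : z ∈ Uhp) : ∑ᶠ g : SL(2, ℤ), chiOne (mob g z) = 1 := by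
  unfold chiOne
  simp only [PsiSum_mob, div_eq_mul_inv]
  rw [← finsum_mul]
  exact mul_inv_cancel₀ (PsiSum_pos hz).ne'

end Fermat.Agent.S21.PartitionAux

namespace Fermat.Agent.S21

open PartitionAux

/-- **MS-A**: a smooth `SL(2,ℤ)`-partition of unity on the upper half plane. -/
theorem exists_partition_SL2Z : ∃ χ₁ : ℂ → ℝ, ContDiffOn ℝ ∞ χ₁ Uhp ∧ (∀ z, 0 ≤ χ₁ z) ∧
    (∀ z, χ₁ z ≠ 0 → |z.re| ≤ 1 ∧ 1 / 2 < z.im) ∧
    (∀ K : Set ℂ, IsCompact K → K ⊆ Uhp →
      {g : SL(2, ℤ) | ∃ z ∈ K, χ₁ (mob g z) ≠ 0}.Finite) ∧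
    (∀ z ∈ Uhp, ∑ᶠ g : SL(2, ℤ), χ₁ (mob g z) = 1) :=
  ⟨chiOne, chiOne_contDiffOn, chiOne_nonneg,
    fun _ h => ⟨(chiOne_support h).1.le, (chiOne_support h).2⟩,
    finite_chiOne_support, fun _ hz => finsum_chiOne hz⟩

end Fermat.Agent.S21

end
-- ===== PACK-END S21/Partition.lean

-- ===== PACK-BEGIN A2/ModDefs.lean
section


/-!
# WALL A2 — concrete objects at a good level and the MOD interface (row-lead helper13)

Definitions only (no `sorry`); LANDED, never to change again.

* `FE E N`            : `F_{N,E} = E(j(t^d) : d ∣ N) ⊆ E((t))`;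
* `algREFE`, `towerREFE` : its structure over `R_E = P ∩ E`;
* `GoodField.res`     : restriction of `τ ∈ I_P` to a good level;
* `ModSSData P E N`   : the semistable two-chart model with coordinate `x`
  (intended: `x = j(t) · j(t^q)`, so that `α^*`, `β^*` map the level-`M` charts of `j^{±1}` into
  the level-`N` charts of `x^{±1}`; any coordinate is allowed by the structure);
* `ModSSStatement`    : the MOD interface statement.
-/

set_option autoImplicit false
set_option synthInstance.maxHeartbeats 400000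
set_option maxHeartbeats 1600000

noncomputable section

namespace Fermat.Agent.A2

open ModularCurve AlgebraicCurve

section Mod

variable (P : ValuationSubring Qb) (E : IntermediateField ℚ Qb) (N q : ℕ)

/-- `F_{N,E} = E(j(t^d) : d ∣ N) ⊆ E((t))`. -/
abbrev FE : IntermediateField E (LaurentSeries E) :=
  laurentBaseChange E (modularFunctionFieldFull N)

/-- The algebra structure of `F_{N,E}` over `R_E = P ∩ E`. -/
instance algREFE : Algebra (RE P E) (FE E N) :=
  ((algebraMap E (FE E N)).comp (RE P E).subtype).toAlgebra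

instance towerREFE : IsScalarTower (RE P E) E (FE E N) :=
  IsScalarTower.of_algebraMap_eq fun _ => rfl

/-- The restriction of `τ ∈ I_P` to a good level. -/
def GoodField.res {P : ValuationSubring Qb} {E : IntermediateField ℚ Qb} (hE : GoodField P E)
    (τ : Qb ≃ₐ[ℚ] Qb) (hτ : τ ∈ P.inertiaSubgroupIn ℚ) : E ≃ₐ[ℚ] E :=
  AlgEquiv.ofBijective
    { toFun := fun e => ⟨τ (e : Qb), hE.stable τ hτ e e.2⟩
      map_one' := Subtype.ext (map_one τ)
      map_mul' := fun a b => Subtype.ext (map_mul τ (a : Qb) (b : Qb))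
      map_zero' := Subtype.ext (map_zero τ)
      map_add' := fun a b => Subtype.ext (map_add τ (a : Qb) (b : Qb))
      commutes' := fun r => Subtype.ext (τ.commutes r) }
    ⟨fun a b hab => Subtype.ext (τ.injective (congrArg Subtype.val hab)),
      fun b => ⟨⟨τ⁻¹ (b : Qb), hE.stable τ⁻¹ (inv_mem hτ) b b.2⟩,
        Subtype.ext (τ.apply_symm_apply (b : Qb))⟩⟩

/-- The semistable model of `X₀(N)`, `q ‖ N`, over `R_E` for a good level `E`, with coordinate
`x`. -/
structure ModSSData where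
  /-- the coordinate -/
  x : FE E N
  hx : Transcendental E x
  hfin : FiniteDimensional (IntermediateField.adjoin E ({x} : Set (FE E N))) (FE E N)
  hconst : ∀ f : FE E N, IsAlgebraic E f → f ∈ (algebraMap E (FE E N)).range
  /-- the finite chart -/
  Bf : Subalgebra (RE P E) (FE E N)
  /-- the chart at infinity -/
  Bi : Subalgebra (RE P E) (FE E N)
  hBf : ∀ f : FE E N, f ∈ Bf ↔ IsIntegral (Algebra.adjoin (RE P E) ({x} : Set (FE E N))) f
  hBi : ∀ f : FE E N, f ∈ Bi ↔ IsIntegral (Algebra.adjoin (RE P E) ({x⁻¹} : Set (FE E N))) f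
  cf : ∀ w : RE P E, Irreducible w → Nonempty (SSChart w Bf)
  ci : ∀ w : RE P E, Irreducible w → Nonempty (SSChart w Bi)
  sf : SepCoord (RE P E) E x Bf
  si : SepCoord (RE P E) E x⁻¹ Bi
  /-- inertia fixes the coordinate and acts trivially modulo `w` on both charts -/
  hτx : ∀ (hE : GoodField P E) (τ : Qb ≃ₐ[ℚ] Qb) (hτ : τ ∈ P.inertiaSubgroupIn ℚ),
    arithmeticRingAut (modularFunctionFieldFull N) (hE.res τ hτ) x = x
  hτf : ∀ (hE : GoodField P E) (τ : Qb ≃ₐ[ℚ] Qb) (hτ : τ ∈ P.inertiaSubgroupIn ℚ)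
    (w : RE P E), Irreducible w → ∀ b ∈ Bf, ∃ c ∈ Bf,
      arithmeticRingAut (modularFunctionFieldFull N) (hE.res τ hτ) b - b =
        algebraMap (RE P E) (FE E N) w * c
  hτi : ∀ (hE : GoodField P E) (τ : Qb ≃ₐ[ℚ] Qb) (hτ : τ ∈ P.inertiaSubgroupIn ℚ)
    (w : RE P E), Irreducible w → ∀ b ∈ Bi, ∃ c ∈ Bi,
      arithmeticRingAut (modularFunctionFieldFull N) (hE.res τ hτ) b - b =
        algebraMap (RE P E) (FE E N) w * c

end Mod

/-- **MOD (interface statement).**  For `q ‖ N` the modular function field has a semistable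
two-component model over every good level. -/
def ModSSStatement : Prop :=
  ∀ (P : ValuationSubring Qb) (E : IntermediateField ℚ Qb) (N q : ℕ),
    q.Prime → q ∣ N → ¬ q ^ 2 ∣ N → N ≠ 0 → P.LiesOverPrime q → GoodField P E →
      Nonempty (ModSSData P E N)

/-- **T1 (interface statement)**: `ALG + IF + MOD ⟹ KummerTarget`. -/
def T1Statement : Prop :=
  AlgSSStatement → IFStatement → ModSSStatement →
    ∀ (N q m : ℕ), q.Prime → q ∣ N → ¬ q ^ 2 ∣ N → N ≠ 0 → 0 < m → ¬ q ∣ m →
      KummerTarget N q m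

end Fermat.Agent.A2

end
end
-- ===== PACK-END A2/ModDefs.lean

-- ===== PACK-BEGIN A2/T1/H669/Embed.lean
section



/-!
# WALL A2, piece T1/T2 (helper669): the coefficient embedding `F_E → F̄`

For an intermediate field `E ⊆ ℚ̄` and `F₀ ⊆ ℚ((t))`:

* `iota E F₀ : laurentBaseChange E F₀ →+* laurentBaseChange ℚ̄ F₀` (coefficientwise inclusion);
* `iota_algebraMap`, `iota_arithmeticRingAut` (compatibility with constants and with the
  coefficientwise Galois action restricted to a stable `E`);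
* `exists_iota_eq` : every element of `laurentBaseChange ℚ̄ F₀` is `iota` of an element over any
  intermediate field containing a suitable finite set (finite descent, from `S18.H602`);
* `adjoin_algebraic_eq_top` : `F̄` is generated over `iota F_E` by constants.
-/

set_option autoImplicit false

noncomputable section

namespace Fermat.Agent.A2.T1.H669

open ModularCurve AlgebraicCurve

/-- The field `ℚ̄`. -/
abbrev Qb : Type := AlgebraicClosure ℚ

variable (E : IntermediateField ℚ _root_.Fermat.Agent.A2.T1.H669.Qb) (F₀ : IntermediateField ℚ (LaurentSeries ℚ))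

/-- Coefficientwise inclusion `F_E → F̄`. -/
def iota : ↥(laurentBaseChange E F₀) →+* ↥(laurentBaseChange _root_.Fermat.Agent.A2.T1.H669.Qb F₀) where
  toFun x := ⟨coeffMap (algebraMap E _root_.Fermat.Agent.A2.T1.H669.Qb) (x : LaurentSeries E),
    Fermat.Agent.S18.H602.coeffMap_mem_laurentBaseChange F₀ _ x.2⟩
  map_one' := Subtype.ext (map_one _)
  map_mul' _ _ := Subtype.ext (map_mul _ _ _)
  map_zero' := Subtype.ext (map_zero _)
  map_add' _ _ := Subtype.ext (map_add _ _ _)

@[simp]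
theorem coe_iota (x : ↥(laurentBaseChange E F₀)) :
    ((iota E F₀ x : ↥(laurentBaseChange _root_.Fermat.Agent.A2.T1.H669.Qb F₀)) : LaurentSeries _root_.Fermat.Agent.A2.T1.H669.Qb) =
      coeffMap (algebraMap E _root_.Fermat.Agent.A2.T1.H669.Qb) (x : LaurentSeries E) := rfl

theorem iota_injective : Function.Injective (iota E F₀) := (iota E F₀).injective

theorem iota_ne_zero {x : ↥(laurentBaseChange E F₀)} (hx : x ≠ 0) : iota E F₀ x ≠ 0 :=
  (map_ne_zero_iff _ (iota_injective E F₀)).2 hx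

theorem iota_algebraMap (e : E) :
    iota E F₀ (algebraMap E ↥(laurentBaseChange E F₀) e) =
      algebraMap _root_.Fermat.Agent.A2.T1.H669.Qb ↥(laurentBaseChange _root_.Fermat.Agent.A2.T1.H669.Qb F₀) (algebraMap E _root_.Fermat.Agent.A2.T1.H669.Qb e) :=
  Subtype.ext (Fermat.Agent.S18.H602.coeffMap_algebraMap' (algebraMap E _root_.Fermat.Agent.A2.T1.H669.Qb) e)

/-- Compatibility with the arithmetic action: if `τE` is the restriction of `τ` to `E`. -/
theorem iota_arithmeticRingAut (τ : _root_.Fermat.Agent.A2.T1.H669.Qb ≃ₐ[ℚ] _root_.Fermat.Agent.A2.T1.H669.Qb) (τE : E ≃ₐ[ℚ] E)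
    (hτ : ∀ e : E, ((τE e : E) : _root_.Fermat.Agent.A2.T1.H669.Qb) = τ (e : _root_.Fermat.Agent.A2.T1.H669.Qb)) (x : ↥(laurentBaseChange E F₀)) :
    iota E F₀ (arithmeticRingAut F₀ τE x) = arithmeticRingAut F₀ τ (iota E F₀ x) := by
  apply Subtype.ext
  show coeffMap (algebraMap E _root_.Fermat.Agent.A2.T1.H669.Qb) (coeffMap (τE : E →+* E) (x : LaurentSeries E)) =
    coeffMap (τ : _root_.Fermat.Agent.A2.T1.H669.Qb →+* _root_.Fermat.Agent.A2.T1.H669.Qb) (coeffMap (algebraMap E _root_.Fermat.Agent.A2.T1.H669.Qb) (x : LaurentSeries E))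
  rw [coeffMap_coeffMap, coeffMap_coeffMap]
  exact coeffMap_congr (RingHom.ext fun e => hτ e) _

end Fermat.Agent.A2.T1.H669

end
end
-- ===== PACK-END A2/T1/H669/Embed.lean

-- ===== PACK-BEGIN S24/Deg/H457_Descent.lean
section


/-!
# S24 / DEG-ALG (helper457), part 1: descent of algebraic relations along a coefficient embedding

`K →+* L` a field embedding, `coeffMap ι : K((q)) → L((q))`.
* `linearIndependent_coeffMap`: `coeffMap ι` maps `K`-linearly independent families to
  `L`-linearly independent families.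
* `exists_relation_of_coeffMap_monic`: if `coeffMap ι a` is a root of a monic polynomial of
  degree `n` over `L[coeffMap ι J]`, then `a` is a root of a nonzero polynomial of degree `≤ n`
  over `K[J]`.
-/

set_option autoImplicit false

noncomputable section

open Polynomial ModularCurve

namespace Fermat.Agent.S24.Deg457

variable {K L : Type*} [Field K] [Field L]

/-- `coeffMap ι` preserves linear independence (over the respective coefficient fields). -/
theorem linearIndependent_coeffMap (ι : K →+* L) {I : Type*} (v : I → LaurentSeries K)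
    (hv : LinearIndependent K v) :
    LinearIndependent L (fun i => coeffMap ι (v i)) := by
  classical
  let _ : Algebra K L := ι.toAlgebra
  rw [linearIndependent_iff'] at hv ⊢
  intro s g hg i hi
  -- it suffices to show that every `K`-linear functional kills `g i`
  rw [← Module.forall_dual_apply_eq_zero_iff K]
  intro φ
  refine hv s (fun i => φ (g i)) ?_ i hi
  ext k
  have hk := congrArg (fun x : LaurentSeries L => x.coeff k) hg
  simp only [HahnSeries.coeff_sum, HahnSeries.coeff_smul, coeffMap_coeff, smul_eq_mul,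
    HahnSeries.coeff_zero] at hk ⊢
  have h2 := congrArg φ hk
  rw [map_zero, map_sum] at h2
  rw [← h2]
  refine Finset.sum_congr rfl fun x _ => ?_
  have : g x * ι ((v x).coeff k) = ((v x).coeff k) • g x := by
    rw [Algebra.smul_def, mul_comm]; rfl
  rw [this, map_smul, smul_eq_mul, mul_comm]

/-- evaluation of polynomials at `J`, as a ring hom -/
abbrev evJ (J : LaurentSeries K) : K[X] →+* LaurentSeries K :=
  (aeval J : K[X] →ₐ[K] LaurentSeries K).toRingHom

theorem evJ_apply (J : LaurentSeries K) (p : K[X]) : evJ J p = aeval J p := rfl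

theorem coeffMap_algebraMap' (ι : K →+* L) (c : K) :
    coeffMap ι (algebraMap K (LaurentSeries K) c) = algebraMap L (LaurentSeries L) (ι c) := by
  rw [algebraMap_laurentSeries_eq_single, algebraMap_laurentSeries_eq_single, coeffMap_single]

theorem coeffMap_smul' (ι : K →+* L) (c : K) (x : LaurentSeries K) :
    coeffMap ι (c • x) = ι c • coeffMap ι x := by
  ext k; simp

/-- the `HahnSeries` scalar action agrees with multiplication by `algebraMap` (for the
power-series algebra structure on Laurent series). -/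
theorem hsmul_eq_algebraMap_mul (c : K) (x : LaurentSeries K) :
    c • x = algebraMap K (LaurentSeries K) c * x := by
  rw [algebraMap_laurentSeries_eq_single, HahnSeries.single_zero_mul_eq_smul]

/-- bivariate polynomial attached to a finite coefficient table -/
def tablePoly {D n : ℕ} (g : Fin (D + 1) × Fin (n + 1) → K) : K[X][X] :=
  ∑ k : Fin (n + 1), monomial (k : ℕ) (∑ i : Fin (D + 1), monomial (i : ℕ) (g (i, k)))

theorem tablePoly_coeff_coeff {D n : ℕ} (g : Fin (D + 1) × Fin (n + 1) → K)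
    (i : Fin (D + 1)) (k : Fin (n + 1)) :
    ((tablePoly g).coeff k).coeff i = g (i, k) := by
  classical
  simp only [tablePoly, finsetSum_coeff, coeff_monomial]
  rw [Finset.sum_eq_single k]
  · simp only [if_true, finsetSum_coeff, coeff_monomial]
    rw [Finset.sum_eq_single i]
    · simp
    · intro b _ hb
      rw [if_neg]
      exact fun h => hb (Fin.ext h)
    · simp
  · intro b _ hb
    rw [if_neg]
    · simp
    · exact fun h => hb (Fin.ext h)
  · simp

theorem tablePoly_natDegree_le {D n : ℕ} (g : Fin (D + 1) × Fin (n + 1) → K) :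
    (tablePoly g).natDegree ≤ n := by
  refine natDegree_sum_le_of_forall_le _ _ fun k _ => ?_
  exact (natDegree_monomial_le _).trans (Nat.lt_succ_iff.mp k.2)

theorem tablePoly_eval₂ {D n : ℕ} (g : Fin (D + 1) × Fin (n + 1) → K)
    (J a : LaurentSeries K) :
    (tablePoly g).eval₂ (evJ J) a = ∑ p : Fin (D + 1) × Fin (n + 1), g p • (J ^ (p.1 : ℕ) * a ^ (p.2 : ℕ)) := by
  rw [tablePoly, eval₂_finsetSum, Fintype.sum_prod_type_right]
  refine Finset.sum_congr rfl fun k _ => ?_
  rw [eval₂_monomial, evJ_apply, map_sum, Finset.sum_mul]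
  refine Finset.sum_congr rfl fun i _ => ?_
  rw [aeval_monomial, hsmul_eq_algebraMap_mul, mul_assoc]

/-- **Descent**: a monic relation of degree `n` over `L[ι J]` for `ι a` gives a nonzero relation
of degree `≤ n` over `K[J]` for `a`. -/
theorem exists_relation_of_coeffMap_monic (ι : K →+* L) (J a : LaurentSeries K) (n : ℕ)
    (P : L[X][X]) (hP : P.Monic) (hn : P.natDegree = n)
    (h0 : P.eval₂ (evJ (coeffMap ι J)) (coeffMap ι a) = 0) :
    ∃ Q : K[X][X], Q ≠ 0 ∧ Q.natDegree ≤ n ∧ Q.eval₂ (evJ J) a = 0 := by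
  classical
  set D : ℕ := P.support.sup fun k => (P.coeff k).natDegree with hD
  have hDle : ∀ k, (P.coeff k).natDegree ≤ D := by
    intro k
    by_cases hk : k ∈ P.support
    · exact Finset.le_sup (f := fun k => (P.coeff k).natDegree) hk
    · rw [notMem_support_iff.mp hk]; simp
  let v : Fin (D + 1) × Fin (n + 1) → LaurentSeries K := fun p => J ^ (p.1 : ℕ) * a ^ (p.2 : ℕ)
  have hnot : ¬ LinearIndependent K v := by
    intro hv
    have hw := linearIndependent_coeffMap ι v hv
    rw [Fintype.linearIndependent_iff] at hw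
    have key := hw (fun p => (P.coeff p.2).coeff p.1) ?_ (0, Fin.last n)
    · simp only [Fin.val_last] at key
      rw [← hn, hP.coeff_natDegree] at key
      simp at key
    · rw [Fintype.sum_prod_type_right]
      rw [eval₂_eq_sum_range' _ (n := n + 1) (by omega)] at h0
      rw [← h0, Finset.sum_range]
      refine Finset.sum_congr rfl fun k _ => ?_
      rw [evJ_apply, aeval_eq_sum_range' (n := D + 1) (Nat.lt_succ_of_le (hDle _)),
        Finset.sum_range, Finset.sum_mul]
      refine Finset.sum_congr rfl fun i _ => ?_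
      simp only [v, map_mul, map_pow]
      rw [hsmul_eq_algebraMap_mul, Algebra.smul_def, mul_assoc]
  rw [Fintype.not_linearIndependent_iff] at hnot
  obtain ⟨g, hg, p, hp⟩ := hnot
  refine ⟨tablePoly g, ?_, tablePoly_natDegree_le g, ?_⟩
  · intro h
    apply hp
    rw [← tablePoly_coeff_coeff g p.1 p.2, h]
    simp
  · rw [tablePoly_eval₂]
    exact hg

end Fermat.Agent.S24.Deg457

end
end
-- ===== PACK-END S24/Deg/H457_Descent.lean

-- ===== PACK-BEGIN S24/Mod/H997Frac.lean
section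


/-!
# S24 / MOD — the polynomial ring `R_N = ℚ̄[j(q^d) : d ∣ N]` inside the function field `FF N`

* `RN N`   : the `ℚ̄`-subalgebra of `ℚ̄((q))` generated by the `j(q^d)`, `d ∣ N`;
* `inclRN` : the inclusion `RN N → FF N`;
* `liftF`  : every injective ring hom `RN N →+* L` into a field extends uniquely to `FF N →+* L`.
-/

set_option autoImplicit false

noncomputable section

open ModularCurve HahnSeries IntermediateField

namespace Fermat.Agent.S24.H997

variable (N : ℕ)

/-- The generators `j(q^d)`, `d ∣ N`, as Laurent series over `ℚ̄`. -/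
def gensBar : Set (LaurentSeries Kbar) := ⇑(coeffEmb Kbar) '' divisorExpansions N

/-- The function field of `X₀(N)` over `ℚ̄` is generated over `ℚ̄` by the `j(q^d)`, `d ∣ N`. -/
theorem modularFunctionFieldBar_eq_adjoin :
    modularFunctionFieldBar N = IntermediateField.adjoin Kbar (gensBar N) := by
  apply le_antisymm
  · show laurentBaseChange Kbar (modularFunctionFieldFull N) ≤ _
    rw [laurentBaseChange, IntermediateField.adjoin_le_iff]
    rintro _ ⟨x, hx, rfl⟩
    have hx' : x ∈ IntermediateField.adjoin ℚ (divisorExpansions N) := hx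
    induction hx' using IntermediateField.adjoin_induction with
    | mem y hy => exact IntermediateField.subset_adjoin Kbar _ ⟨y, hy, rfl⟩
    | algebraMap c =>
        have h : coeffEmb Kbar (algebraMap ℚ (LaurentSeries ℚ) c)
            = algebraMap Kbar (LaurentSeries Kbar) (algebraMap ℚ Kbar c) := by
          rw [algebraMap_apply_eq_single, algebraMap_laurentSeries_eq_single, coeffEmb,
            coeffMap_single]
        show coeffEmb Kbar (algebraMap ℚ (LaurentSeries ℚ) c) ∈ _
        rw [h]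
        exact IntermediateField.algebraMap_mem _ _
    | add y z _ _ hy hz =>
        show coeffEmb Kbar (y + z) ∈ _
        rw [map_add]
        exact add_mem (hy (by assumption)) (hz (by assumption))
    | inv y _ hy =>
        show coeffEmb Kbar (y⁻¹) ∈ _
        rw [map_inv₀]
        exact inv_mem (hy (by assumption))
    | mul y z _ _ hy hz =>
        show coeffEmb Kbar (y * z) ∈ _
        rw [map_mul]
        exact mul_mem (hy (by assumption)) (hz (by assumption))
  · show _ ≤ laurentBaseChange Kbar (modularFunctionFieldFull N)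
    rw [laurentBaseChange]
    exact IntermediateField.adjoin.mono _ _ _
      (Set.image_mono (IntermediateField.subset_adjoin ℚ _))

/-- The polynomial ring `ℚ̄[j(q^d) : d ∣ N] ⊆ ℚ̄((q))`. -/
def RN : Subalgebra Kbar (LaurentSeries Kbar) := Algebra.adjoin Kbar (gensBar N)

theorem RN_le : RN N ≤ (modularFunctionFieldBar N).toSubalgebra := by
  rw [modularFunctionFieldBar_eq_adjoin]
  exact IntermediateField.algebra_adjoin_le_adjoin Kbar (gensBar N)

/-- The inclusion `R_N → FF N`. -/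
def inclRN : RN N →ₐ[Kbar] FF N := Subalgebra.inclusion (RN_le N)

@[simp] theorem coe_inclRN (r : RN N) : ((inclRN N r : FF N) : LaurentSeries Kbar) = r := rfl

theorem inclRN_injective : Function.Injective (inclRN N) :=
  Subalgebra.inclusion_injective (RN_le N)

theorem exists_div_inclRN (f : FF N) :
    ∃ r t : RN N, t ≠ 0 ∧ f = inclRN N r / inclRN N t := by
  have hf : (f : LaurentSeries Kbar) ∈ IntermediateField.adjoin Kbar (gensBar N) := by
    rw [← modularFunctionFieldBar_eq_adjoin]; exact f.2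
  obtain ⟨r, hr, s, hs, h⟩ := IntermediateField.mem_adjoin_iff_div.mp hf
  by_cases hs0 : s = 0
  · refine ⟨0, 1, one_ne_zero, ?_⟩
    apply Subtype.ext
    rw [h, hs0, div_zero]
    simp
  · refine ⟨⟨r, hr⟩, ⟨s, hs⟩, fun h0 => hs0 (congrArg Subtype.val h0), ?_⟩
    apply Subtype.ext
    rw [h]
    simp

/-- The generator `j(q^d)` as an element of `R_N`. -/
def jR (d : ℕ) [NeZero d] (hd : d ∣ N) : RN N :=
  ⟨coeffEmb Kbar (qExpand ℚ d jq),
    Algebra.subset_adjoin ⟨_, mem_divisorExpansions N hd, rfl⟩⟩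

theorem inclRN_jR_one [NeZero N] : inclRN N (jR N 1 (one_dvd N)) = jF N := by
  apply Subtype.ext
  simp [jR, jF, qExpand_one_apply]

section Lift

variable {N}
variable {L : Type*} [Field L]

/-- Extension of an injective ring hom `R_N →+* L` to the fraction field `FF N`. -/
def liftF (s : RN N →+* L) (hs : Function.Injective s) : FF N →+* L :=
  letI : Algebra (RN N) (FF N) := (inclRN N).toRingHom.toAlgebra
  haveI : FaithfulSMul (RN N) (FF N) :=
    (faithfulSMul_iff_algebraMap_injective _ _).mpr (inclRN_injective N)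
  haveI : IsFractionRing (RN N) (FF N) :=
    IsFractionRing.of_field _ _ fun z => by
      obtain ⟨r, t, -, h⟩ := exists_div_inclRN N z
      exact ⟨r, t, h⟩
  IsFractionRing.lift hs

theorem liftF_inclRN (s : RN N →+* L) (hs : Function.Injective s) (r : RN N) :
    liftF s hs (inclRN N r) = s r := by
  let _ : Algebra (RN N) (FF N) := (inclRN N).toRingHom.toAlgebra
  have : FaithfulSMul (RN N) (FF N) :=
    (faithfulSMul_iff_algebraMap_injective _ _).mpr (inclRN_injective N)
  have : IsFractionRing (RN N) (FF N) :=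
    IsFractionRing.of_field _ _ fun z => by
      obtain ⟨r, t, -, h⟩ := exists_div_inclRN N z
      exact ⟨r, t, h⟩
  exact IsFractionRing.lift_algebraMap hs r

theorem liftF_div (s : RN N →+* L) (hs : Function.Injective s) (r t : RN N) :
    liftF s hs (inclRN N r / inclRN N t) = s r / s t := by
  rw [map_div₀, liftF_inclRN, liftF_inclRN]

theorem liftF_algebraMap (s : RN N →+* L) (hs : Function.Injective s) (c : Kbar) :
    liftF s hs (algebraMap Kbar (FF N) c) = s (algebraMap Kbar (RN N) c) := by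
  rw [← liftF_inclRN s hs]
  congr 1

end Lift

end Fermat.Agent.S24.H997

end
end
-- ===== PACK-END S24/Mod/H997Frac.lean

-- ===== PACK-BEGIN S24/FFPoint.lean
section




/-!
# S24 / FF layer: the point of `P^1` below a place, residue degree one

Embedding-free algebraic core (helper804).
-/

set_option autoImplicit false

namespace Fermat.Agent.S24.FF

open AlgebraicCurve Polynomial IntermediateField

variable {K F : Type*} [Field K] [Field F] [Algebra K F]

/-- `ord` of a product of a multiset of nonzero elements with `ord = 0` is `0`. -/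
theorem ord_multiset_prod_eq_zero (v : Place K F) (s : Multiset F)
    (h : ∀ y ∈ s, y ≠ 0 ∧ v.ord y = 0) : s.prod ≠ 0 ∧ v.ord s.prod = 0 := by
  induction s using Multiset.induction_on with
  | empty => simp
  | cons a s ih =>
    have ha := h a (Multiset.mem_cons_self a s)
    have hs := ih (fun y hy => h y (Multiset.mem_cons_of_mem hy))
    rw [Multiset.prod_cons]
    refine ⟨mul_ne_zero ha.1 hs.1, ?_⟩
    rw [v.ord_mul ha.1 hs.1, ha.2, hs.2, add_zero]

/-- If `x` is integral at `v` and no `x - a` vanishes at `v`, every nonzero polynomial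
expression in `x` is a unit at `v`. -/
theorem ord_aeval_eq_zero [IsAlgClosed K] (v : Place K F) (x : F) (hx : 0 ≤ v.ord x)
    (hno : ∀ a : K, ¬ 0 < v.ord (x - algebraMap K F a)) (p : K[X]) (hp : aeval x p ≠ 0) :
    v.ord (aeval x p) = 0 := by
  have hsplit := IsAlgClosed.splits p
  have hp0 : p ≠ 0 := by
    rintro rfl
    simp at hp
  have hprod := hsplit.eq_prod_roots
  have hval : aeval x p = algebraMap K F p.leadingCoeff *
      ((p.roots.map fun a => x - algebraMap K F a)).prod := by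
    conv_lhs => rw [hprod]
    simp [aeval_def, eval₂_mul, Polynomial.eval₂_multiset_prod, Multiset.map_map, Function.comp_def]
  rw [hval] at hp ⊢
  have hc : algebraMap K F p.leadingCoeff ≠ 0 := left_ne_zero_of_mul hp
  have hr : ((p.roots.map fun a => x - algebraMap K F a)).prod ≠ 0 := right_ne_zero_of_mul hp
  have key := ord_multiset_prod_eq_zero v (p.roots.map fun a => x - algebraMap K F a) (by
    intro y hy
    obtain ⟨a, -, rfl⟩ := Multiset.mem_map.mp hy
    have hne : x - algebraMap K F a ≠ 0 := by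
      intro h0
      apply hr
      rw [Multiset.prod_eq_zero_iff]
      exact h0 ▸ hy
    refine ⟨hne, ?_⟩
    have h1 : 0 ≤ v.ord (x - algebraMap K F a) :=
      ord_nonneg_of_mem v (sub_mem (mem_of_ord_nonneg v hx) (v.algebraMap_mem' a))
    have h2 := hno a
    omega)
  rw [v.ord_mul hc hr, _root_.Fermat.Agent.S24.FF.ord_algebraMap, key.2, add_zero]

/-- **FF4, existence.** If `F` is algebraic over `K(x)` and `x` is integral at the place `v`,
then `v` lies over a finite point `a` of the `x`-line. -/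
theorem exists_ord_sub_pos [IsAlgClosed K] (v : Place K F) (x : F)
    [halg : Algebra.IsAlgebraic K⟮x⟯ F] (hx : 0 ≤ v.ord x) :
    ∃ a : K, 0 < v.ord (x - algebraMap K F a) := by
  by_contra hno
  rw [not_exists] at hno
  apply v.ne_top'
  -- `K(x) ⊆ O_v`
  have hsub : ∀ y ∈ K⟮x⟯, y ∈ v.toValuationSubring := by
    intro y hy
    obtain ⟨r, s, rfl⟩ := (mem_adjoin_simple_iff K y).mp hy
    rcases eq_or_ne (aeval x s) 0 with hs | hs
    · rw [hs, div_zero]; exact zero_mem _
    rcases eq_or_ne (aeval x r) 0 with hr | hr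
    · rw [hr, zero_div]; exact zero_mem _
    apply mem_of_ord_nonneg v
    rw [div_eq_mul_inv, v.ord_mul hr (inv_ne_zero hs), v.ord_inv,
      ord_aeval_eq_zero v x hx hno r hr, ord_aeval_eq_zero v x hx hno s hs]
    simp
  -- hence every element of `F` is integral over `O_v`
  let φ : K⟮x⟯ →+* v.toValuationSubring :=
    { toFun := fun y => ⟨y, hsub y y.2⟩
      map_one' := rfl
      map_mul' := fun _ _ => rfl
      map_zero' := rfl
      map_add' := fun _ _ => rfl }
  refine SetLike.ext fun f => ⟨fun _ => ValuationSubring.mem_top f, fun _ => ?_⟩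
  have hint : IsIntegral K⟮x⟯ f := (halg.isAlgebraic f).isIntegral
  have hint' : IsIntegral v.toValuationSubring f := by
    obtain ⟨p, hpm, hp⟩ := hint
    refine ⟨p.map φ, hpm.map φ, ?_⟩
    rw [← hp, Polynomial.eval₂_map]
    rfl
  obtain ⟨y, hy⟩ := IsIntegrallyClosed.isIntegral_iff.mp hint'
  rw [← hy]
  exact y.2

/-- **FF4, uniqueness.** -/
theorem ord_sub_pos_unique (v : Place K F) (x : F) {a b : K}
    (ha : 0 < v.ord (x - algebraMap K F a)) (hb : 0 < v.ord (x - algebraMap K F b)) : a = b := by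
  by_contra hab
  have hne : algebraMap K F (b - a) ≠ 0 := by
    rw [Ne, map_eq_zero_iff _ (algebraMap K F).injective, sub_eq_zero]
    exact fun h => hab h.symm
  have h0 := _root_.Fermat.Agent.S24.FF.ord_algebraMap v (b - a)
  have hsum : (x - algebraMap K F a) + (-(x - algebraMap K F b)) = algebraMap K F (b - a) := by
    rw [map_sub]; ring
  have hxa : x - algebraMap K F a ≠ 0 := by
    intro h; rw [h, v.ord_zero] at ha; exact lt_irrefl _ ha
  have hxb : x - algebraMap K F b ≠ 0 := by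
    intro h; rw [h, v.ord_zero] at hb; exact lt_irrefl _ hb
  have hneg : v.ord (-(x - algebraMap K F b)) = v.ord (x - algebraMap K F b) := by
    rw [neg_eq_neg_one_mul, v.ord_mul (neg_ne_zero.mpr one_ne_zero) hxb]
    have : v.ord (-1 : F) = 0 := by
      have := _root_.Fermat.Agent.S24.FF.ord_algebraMap v (-1 : K)
      simpa using this
    rw [this, zero_add]
  have := ord_add_ge v (f := x - algebraMap K F a) (g := -(x - algebraMap K F b))
    (by rw [hsum]; exact hne)
  rw [hsum, h0, hneg] at this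
  have := min_le_iff.mp this
  omega

end Fermat.Agent.S24.FF

end
-- ===== PACK-END S24/FFPoint.lean

-- ===== PACK-BEGIN S24/Alg/H240Diff.lean
section


/-!
# S24 / ALG — the formal derivative on Laurent series is a derivation, and
`Ω[F⁄K] ≠ 0` from one local embedding

* `lsD` : the derivative `d/dz` on `LaurentSeries C`, with the Leibniz rule `lsD_mul`;
* `lsD_ne_zero_of_order_ne_zero` : in characteristic zero, `d/dz f ≠ 0` if `ord f ≠ 0`;
* `embDerivation` : for a ring hom `σ : F →+* LaurentSeries C` sending `K` to constants,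
  `f ↦ d/dz (σ f)` as a `K`-derivation of `F`;
* `exists_differential_ne_zero_of_nonempty` : the interface statement
  `exists_differential_ne_zero` of `Alg.lean`, with the (necessary) extra hypothesis
  `[Nonempty X]`.
-/

set_option autoImplicit false

noncomputable section

open HahnSeries KaehlerDifferential

namespace Fermat.Agent.S24.H240

section Laurent

variable {C : Type*} [CommRing C]

/-- The formal derivative `d/dz` on Laurent series. -/
def lsD (f : LaurentSeries C) : LaurentSeries C := LaurentSeries.derivative C f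

theorem lsD_coeff (f : LaurentSeries C) (n : ℤ) :
    (lsD f).coeff n = (n + 1) • f.coeff (n + 1) := by
  simp [lsD, LaurentSeries.hasseDeriv_coeff]

theorem lsD_add (f g : LaurentSeries C) : lsD (f + g) = lsD f + lsD g :=
  map_add (LaurentSeries.derivative C) f g

theorem lsD_zero : lsD (0 : LaurentSeries C) = 0 :=
  map_zero (LaurentSeries.derivative C)

theorem lsD_C (c : C) : lsD (HahnSeries.C c : LaurentSeries C) = 0 := by
  ext n
  rw [lsD_coeff, HahnSeries.coeff_zero]
  by_cases h : n + 1 = 0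
  · rw [h, zero_smul]
  · rw [HahnSeries.C_apply, HahnSeries.coeff_single_of_ne h, smul_zero]

/-- Derivative of `z^a * f`. -/
theorem lsD_single_mul (a : ℤ) (f : LaurentSeries C) :
    lsD ((single a (1 : C)) * f) =
      a • ((single (a - 1) (1 : C)) * f) + (single a (1 : C)) * lsD f := by
  ext n
  rw [lsD_coeff, HahnSeries.coeff_add, HahnSeries.coeff_smul, HahnSeries.coeff_single_mul,
    HahnSeries.coeff_single_mul, HahnSeries.coeff_single_mul, lsD_coeff, one_mul, one_mul,
    one_mul]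
  have h1 : n + 1 - a = n - (a - 1) := by ring
  have h2 : n - a + 1 = n - (a - 1) := by ring
  rw [h1, h2, ← add_smul]
  congr 1
  ring

/-- The derivative of (the image of) a power series is (the image of) its derivative. -/
theorem lsD_ofPowerSeries (p : PowerSeries C) :
    lsD (HahnSeries.ofPowerSeries ℤ C p) =
      HahnSeries.ofPowerSeries ℤ C (PowerSeries.derivative C p) := by
  ext n
  rw [lsD_coeff]
  change _ • ((p : PowerSeries C) : LaurentSeries C).coeff (n + 1) =
    ((PowerSeries.derivative C p : PowerSeries C) : LaurentSeries C).coeff n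
  rw [PowerSeries.coeff_coe, PowerSeries.coeff_coe]
  by_cases hn : n < 0
  · rw [if_pos hn]
    by_cases hn1 : n + 1 < 0
    · rw [if_pos hn1, smul_zero]
    · have : n + 1 = 0 := by omega
      rw [this, zero_smul]
  · rw [if_neg hn, if_neg (by omega)]
    obtain ⟨k, rfl⟩ := Int.eq_ofNat_of_zero_le (not_lt.mp hn)
    have hk : ((k : ℤ) + 1).natAbs = k + 1 := by omega
    rw [hk, Int.natAbs_natCast]
    change _ = PowerSeries.coeff k (PowerSeries.derivative C p)
    rw [PowerSeries.coeff_derivative, zsmul_eq_mul, mul_comm]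
    push_cast
    ring

theorem lsD_ofPowerSeries_mul (p q : PowerSeries C) :
    lsD (HahnSeries.ofPowerSeries ℤ C p * HahnSeries.ofPowerSeries ℤ C q) =
      HahnSeries.ofPowerSeries ℤ C p * lsD (HahnSeries.ofPowerSeries ℤ C q) +
        HahnSeries.ofPowerSeries ℤ C q * lsD (HahnSeries.ofPowerSeries ℤ C p) := by
  rw [← map_mul, lsD_ofPowerSeries, lsD_ofPowerSeries, lsD_ofPowerSeries,
    Derivation.leibniz, map_add, smul_eq_mul, smul_eq_mul, map_mul, map_mul]

/-- **Leibniz rule** for the formal derivative of Laurent series. -/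
theorem lsD_mul (f g : LaurentSeries C) : lsD (f * g) = f * lsD g + g * lsD f := by
  have hf := LaurentSeries.single_order_mul_powerSeriesPart f
  have hg := LaurentSeries.single_order_mul_powerSeriesPart g
  set p := HahnSeries.ofPowerSeries ℤ C f.powerSeriesPart with hp
  set q := HahnSeries.ofPowerSeries ℤ C g.powerSeriesPart with hq
  set a := f.order with ha
  set b := g.order with hb
  have hfg : f * g = single (a + b) (1 : C) * (p * q) := by
    rw [← hf, ← hg]
    have : (single (a + b) (1 : C) : LaurentSeries C) = single a 1 * single b 1 := by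
      rw [HahnSeries.single_mul_single, one_mul]
    rw [this]
    ring
  have hsa : (single a (1 : C) : LaurentSeries C) = single (a - 1) 1 * single 1 1 := by
    rw [HahnSeries.single_mul_single, one_mul, sub_add_cancel]
  have hsb : (single b (1 : C) : LaurentSeries C) = single (b - 1) 1 * single 1 1 := by
    rw [HahnSeries.single_mul_single, one_mul, sub_add_cancel]
  have hsab : (single (a + b) (1 : C) : LaurentSeries C) =
      single (a - 1) 1 * single (b - 1) 1 * (single 1 1 * single 1 1) := by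
    simp only [HahnSeries.single_mul_single, one_mul]
    have : a + b = a - 1 + (b - 1) + (1 + 1) := by ring
    rw [← this]
  have hsab1 : (single (a + b - 1) (1 : C) : LaurentSeries C) =
      single (a - 1) 1 * single (b - 1) 1 * single 1 1 := by
    simp only [HahnSeries.single_mul_single, one_mul]
    have : a + b - 1 = a - 1 + (b - 1) + 1 := by ring
    rw [← this]
  have e1 : lsD f = a • (single (a - 1) (1 : C) * p) + single a (1 : C) * lsD p := by
    conv_lhs => rw [← hf]
    exact lsD_single_mul a p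
  have e2 : lsD g = b • (single (b - 1) (1 : C) * q) + single b (1 : C) * lsD q := by
    conv_lhs => rw [← hg]
    exact lsD_single_mul b q
  rw [hfg, lsD_single_mul, lsD_ofPowerSeries_mul, e1, e2]
  conv_rhs => rw [← hf, ← hg]
  rw [hsab, hsab1, hsa, hsb]
  simp only [zsmul_eq_mul]
  push_cast
  ring

theorem lsD_one : lsD (1 : LaurentSeries C) = 0 := by
  have := lsD_C (1 : C)
  rwa [map_one] at this

end Laurent

section CharZero

variable {C : Type*} [Field C] [CharZero C]

/-- In characteristic zero, a Laurent series of nonzero order has nonzero derivative. -/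
theorem lsD_ne_zero_of_order_ne_zero (f : LaurentSeries C) (hf : f.order ≠ 0) : lsD f ≠ 0 := by
  have hf0 : f ≠ 0 := by
    rintro rfl
    exact hf HahnSeries.order_zero
  intro h
  have hc := congrArg (fun g : LaurentSeries C => g.coeff (f.order - 1)) h
  simp only [lsD_coeff, sub_add_cancel, HahnSeries.coeff_zero] at hc
  rw [zsmul_eq_mul, mul_eq_zero] at hc
  rcases hc with hc | hc
  · exact hf (by exact_mod_cast hc)
  · exact hf0 (HahnSeries.coeff_order_eq_zero.mp hc)

end CharZero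

section Derivation

variable {K F : Type*} [Field K] [Field F] [Algebra K F]
variable {C : Type*} [Field C]

/-- For a ring hom `σ : F →+* LaurentSeries C` mapping `K` to constants, the map
`f ↦ d/dz (σ f)` is a `K`-derivation of `F` into `LaurentSeries C` (an `F`-module via `σ`). -/
theorem exists_embDerivation (σ : F →+* LaurentSeries C) (ι : K →+* C)
    (hσ : ∀ c : K, σ (algebraMap K F c) = HahnSeries.C (ι c)) (y : F)
    (hy : lsD (σ y) ≠ 0) : KaehlerDifferential.D K F y ≠ 0 := by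
  let modF : Module F (LaurentSeries C) := Module.compHom (LaurentSeries C) σ
  let modK : Module K (LaurentSeries C) :=
    Module.compHom (LaurentSeries C) (σ.comp (algebraMap K F))
  have : IsScalarTower K F (LaurentSeries C) :=
    ⟨fun c f g => by
      change σ (c • f) * g = σ (algebraMap K F c) * (σ f * g)
      rw [Algebra.smul_def, map_mul, mul_assoc]⟩
  have hsmulF : ∀ (f : F) (g : LaurentSeries C), f • g = σ f * g := fun _ _ => rfl
  have hsmulK : ∀ (c : K) (g : LaurentSeries C), c • g = σ (algebraMap K F c) * g :=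
    fun _ _ => rfl
  let δ : Derivation K F (LaurentSeries C) :=
    { toFun := fun f => lsD (σ f)
      map_add' := fun f g => by simp only [map_add, lsD_add]
      map_smul' := fun c f => by
        simp only [RingHom.id_apply]
        rw [hsmulK, Algebra.smul_def, map_mul, lsD_mul, hσ, lsD_C, mul_zero, add_zero]
      map_one_eq_zero' := by
        change lsD (σ 1) = 0
        rw [map_one, lsD_one]
      leibniz' := fun f g => by
        change lsD (σ (f * g)) = f • lsD (σ g) + g • lsD (σ f)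
        rw [map_mul, lsD_mul, hsmulF, hsmulF] }
  intro h0
  apply hy
  have : δ.liftKaehlerDifferential (KaehlerDifferential.D K F y) = δ y :=
    Derivation.liftKaehlerDifferential_comp_D δ y
  rw [h0, map_zero] at this
  exact this.symm

end Derivation

section Interface

variable {K F : Type*} [Field K] [Field F] [Algebra K F]
variable {C : Type*} [Field C] [CharZero C] {X : Type*}

/-- Interface theorem `exists_differential_ne_zero` of `Alg.lean`, with the necessary
hypothesis `[Nonempty X]` (it is false for empty `X`). -/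
theorem exists_differential_ne_zero_of_nonempty [Nonempty X] (j : F)
    (dataInf : LocalData K F C X j⁻¹) :
    ∃ ω : Ω[F⁄K], ω ≠ 0 := by
  obtain ⟨x⟩ := ‹Nonempty X›
  refine ⟨KaehlerDifferential.D K F j⁻¹, ?_⟩
  apply exists_embDerivation (dataInf.σ x) dataInf.ι (dataInf.σ_const x)
  apply lsD_ne_zero_of_order_ne_zero
  rw [dataInf.σ_t_order x]
  exact_mod_cast dataInf.m_pos.ne'

end Interface

end Fermat.Agent.S24.H240

end
end
-- ===== PACK-END S24/Alg/H240Diff.lean

-- ===== PACK-BEGIN S24/H84/OrdDiff.lean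
section




/-!
# Order of `dy` at a place via a Laurent-series embedding (helper84, S24 pieces KD2 + KD4)
-/

set_option autoImplicit false

noncomputable section

open KaehlerDifferential IntermediateField AlgebraicCurve
open scoped IntermediateField.algebraAdjoinAdjoin

namespace Fermat.Agent.S24.H84

variable {K F : Type*} [Field K] [Field F] [Algebra K F]

/-- Constants have order zero at every place. -/
theorem place_ord_algebraMap (v : Place K F) (c : K) : v.ord (algebraMap K F c) = 0 := by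
  rcases eq_or_ne c 0 with rfl | hc
  · simp
  · have hu : IsUnit (algebraMap K v.toValuationSubring c) := (IsUnit.mk0 c hc).map _
    have := v.ord_coe_unit hu.unit
    simpa using this

/-- The (private) uniformizer of the Prelude, exposed. -/
theorem place_exists_uniformizer (v : Place K F) :
    ∃ π : F, v.ord π = 1 ∧ v.dCoord = D K F π :=
  ⟨_, v.ord_coe_irreducible
    (IsDiscreteValuationRing.exists_irreducible v.toValuationSubring).choose_spec, rfl⟩

/-- Over an algebraically closed field, an algebraic element is a constant. -/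
theorem mem_range_algebraMap_of_isAlgebraic [IsAlgClosed K] {f : F} (halg : IsAlgebraic K f) :
    ∃ c : K, algebraMap K F c = f := by
  have hint : IsIntegral K f := halg.isIntegral
  have hq : (minpoly K f).leadingCoeff = 1 := minpoly.monic hint
  have h : (minpoly K f).degree = 1 :=
    IsAlgClosed.degree_eq_one_of_irreducible K (minpoly.irreducible hint)
  have : Polynomial.aeval f (minpoly K f) = 0 := minpoly.aeval K f
  rw [Polynomial.eq_X_add_C_of_degree_eq_one h, hq, Polynomial.C_1, one_mul,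
    Polynomial.aeval_add, Polynomial.aeval_X, Polynomial.aeval_C, add_eq_zero_iff_eq_neg] at this
  exact ⟨-(minpoly K f).coeff 0, by rw [map_neg]; exact this.symm⟩

/-- Over an algebraically closed constant field, a function with nonzero order at some place is
transcendental. -/
theorem place_transcendental_of_ord_ne_zero [IsAlgClosed K] (v : Place K F) {f : F}
    (h : v.ord f ≠ 0) : Transcendental K f := by
  intro halg
  obtain ⟨c, rfl⟩ := mem_range_algebraMap_of_isAlgebraic halg
  exact h (place_ord_algebraMap v c)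

/-- If `F` is finite over `K(j)` then `F` is algebraic over `K(π)` for every transcendental
`π`. -/
theorem isAlgebraic_adjoin_simple_of_transcendental (j : F) [FiniteDimensional K⟮j⟯ F]
    {π : F} (hπ : Transcendental K π) : Algebra.IsAlgebraic K⟮π⟯ F := by
  have hA : Algebra.IsAlgebraic K⟮j⟯ F := Algebra.IsAlgebraic.of_finite _ _
  have hA' : Algebra.IsAlgebraic (Algebra.adjoin K {j}) F :=
    (IsFractionRing.comap_isAlgebraic_iff (A := Algebra.adjoin K {j}) (K := K⟮j⟯)).2 hA
  have h1 : Algebra.trdeg K F ≤ 1 := by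
    simpa using Algebra.IsAlgebraic.trdeg_le_cardinalMk K ({j} : Set F)
  have hind : AlgebraicIndependent K (fun _ : PUnit => π) :=
    algebraicIndependent_unique_type_iff.2 hπ
  have hb : IsTranscendenceBasis K (fun _ : PUnit => π) :=
    hind.isTranscendenceBasis_of_trdeg_le_of_finite (by simpa using h1)
  have := hb.isAlgebraic_field
  have hr : (Set.range fun _ : PUnit => π) = {π} := Set.range_const
  rwa [hr] at this

/-- `DCoordGenerates` for every place of a function field in one variable over an algebraically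
closed field of characteristic zero. -/
theorem place_dCoordGenerates [IsAlgClosed K] [CharZero K] (j : F) [FiniteDimensional K⟮j⟯ F]
    (v : Place K F) : v.DCoordGenerates := by
  obtain ⟨π, hπ, hd⟩ := place_exists_uniformizer v
  have htr : Transcendental K π :=
    place_transcendental_of_ord_ne_zero v (by rw [hπ]; exact one_ne_zero)
  have := isAlgebraic_adjoin_simple_of_transcendental j htr
  exact ⟨by rw [hd]; exact span_D_eq_top π⟩

section Embedding

variable {C : Type*} [Field C]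

/-- Pull-back of `d/dz` along a field embedding `σ : F → C((z))` which is constant on `K`:
there is an additive map `L : Ω[F⁄K] → C((z))`, `σ`-semilinear, with `L (D y) = d(σ y)/dz`. -/
theorem exists_kaehler_to_laurent (σ : F →+* LaurentSeries C) (ι : K →+* C)
    (hσ : ∀ c : K, σ (algebraMap K F c) = HahnSeries.C (ι c)) :
    ∃ L : Ω[F⁄K] →+ LaurentSeries C,
      (∀ (f : F) (ω : Ω[F⁄K]), L (f • ω) = σ f * L ω) ∧
      ∀ y : F, L (D K F y) = laurentD C (σ y) := by
  let : Module F (LaurentSeries C) := Module.compHom _ σ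
  let : Module K (LaurentSeries C) := Module.compHom _ (σ.comp (algebraMap K F))
  have hF : ∀ (f : F) (m : LaurentSeries C), f • m = σ f * m := fun _ _ => rfl
  have hK : ∀ (k : K) (m : LaurentSeries C), k • m = σ (algebraMap K F k) * m := fun _ _ => rfl
  have : IsScalarTower K F (LaurentSeries C) := ⟨fun k f m => by
    rw [hF, hK, hF, Algebra.smul_def, map_mul, mul_assoc]⟩
  let δ : Derivation K F (LaurentSeries C) :=
    { toFun := fun f => laurentD C (σ f)
      map_add' := fun f g => by rw [map_add, map_add]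
      map_smul' := fun k f => by
        rw [RingHom.id_apply, hK, Algebra.smul_def, map_mul, Derivation.leibniz, hσ, laurentD_C,
          smul_zero, add_zero, smul_eq_mul]
      map_one_eq_zero' := by
        show laurentD C (σ 1) = 0
        rw [map_one, Derivation.map_one_eq_zero]
      leibniz' := fun f g => by
        show laurentD C (σ (f * g)) = f • laurentD C (σ g) + g • laurentD C (σ f)
        rw [map_mul, Derivation.leibniz, hF, hF, smul_eq_mul, smul_eq_mul] }
  refine ⟨δ.liftKaehlerDifferential.toAddMonoidHom, fun f ω => ?_, fun y => ?_⟩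
  · show δ.liftKaehlerDifferential (f • ω) = _
    rw [map_smul, hF]
    rfl
  · exact δ.liftKaehlerDifferential_comp_D y

/-- If `σ y` has nonzero order then `dy ≠ 0` in `Ω[F⁄K]` (characteristic zero). -/
theorem D_ne_zero_of_embedding [CharZero C] (σ : F →+* LaurentSeries C) (ι : K →+* C)
    (hσ : ∀ c : K, σ (algebraMap K F c) = HahnSeries.C (ι c))
    {y : F} (hy : (σ y).order ≠ 0) : D K F y ≠ 0 := by
  obtain ⟨L, -, hL2⟩ := exists_kaehler_to_laurent σ ι hσ
  intro h
  have := hL2 y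
  rw [h, map_zero] at this
  exact laurentD_ne_zero hy this.symm

/-- `Ω[F⁄K]` is nontrivial as soon as some `σ y` has nonzero order. -/
theorem nontrivial_kaehler_of_embedding [CharZero C] (σ : F →+* LaurentSeries C) (ι : K →+* C)
    (hσ : ∀ c : K, σ (algebraMap K F c) = HahnSeries.C (ι c))
    {y : F} (hy : (σ y).order ≠ 0) : Nontrivial Ω[F⁄K] :=
  ⟨⟨_, _, D_ne_zero_of_embedding σ ι hσ hy⟩⟩

variable [CharZero C]

/-- **Local formula for the order of a differential.**  If the place `v` is induced by the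
embedding `σ : F → C((z))` with multiplicity `g` (`ord_z ∘ σ = g · ord_v`), then
`g · ord_v(dy) = ord_z (d(σ y)/dz) - (g - 1)`. -/
theorem place_ordDifferential_mul (v : Place K F) [v.DCoordGenerates]
    (σ : F →+* LaurentSeries C) (ι : K →+* C)
    (hσ : ∀ c : K, σ (algebraMap K F c) = HahnSeries.C (ι c))
    (g : ℕ) (hg : 0 < g) (hord : ∀ f : F, f ≠ 0 → (σ f).order = g * v.ord f)
    (y : F) (hy : laurentD C (σ y) ≠ 0) :
    (g : ℤ) * v.ordDifferential (D K F y) = (laurentD C (σ y)).order - (g - 1) := by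
  obtain ⟨π, hπ1, hd⟩ := place_exists_uniformizer v
  obtain ⟨L, hL1, hL2⟩ := exists_kaehler_to_laurent σ ι hσ
  have hc : v.differentialCoeff (D K F y) • v.dCoord = D K F y :=
    v.differentialCoeff_smul_dCoord _
  have h1 : laurentD C (σ y) = σ (v.differentialCoeff (D K F y)) * laurentD C (σ π) := by
    have h := congrArg L hc
    rw [hL1, hd, hL2, hL2] at h
    exact h.symm
  have hπ0 : π ≠ 0 := by rintro rfl; simp at hπ1
  have hπord : (σ π).order = g := by rw [hord π hπ0, hπ1, mul_one]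
  have hgne : (σ π).order ≠ 0 := by rw [hπord]; exact_mod_cast hg.ne'
  have hdπ : (laurentD C (σ π)).order = g - 1 := by rw [laurentD_order hgne, hπord]
  have hc0 : v.differentialCoeff (D K F y) ≠ 0 := by
    intro h; rw [h, map_zero, zero_mul] at h1; exact hy h1
  have hσc : σ (v.differentialCoeff (D K F y)) ≠ 0 := (map_ne_zero σ).2 hc0
  have hdπ0 : laurentD C (σ π) ≠ 0 := laurentD_ne_zero hgne
  rw [Place.ordDifferential, h1, HahnSeries.order_mul hσc hdπ0, hord _ hc0, hdπ]
  ring

/-- If `ord_v y ≠ 0` then `ord_v (dy) = ord_v y - 1`. -/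
theorem place_ordDifferential_D_of_ord_ne_zero (v : Place K F) [v.DCoordGenerates]
    (σ : F →+* LaurentSeries C) (ι : K →+* C)
    (hσ : ∀ c : K, σ (algebraMap K F c) = HahnSeries.C (ι c))
    (g : ℕ) (hg : 0 < g) (hord : ∀ f : F, f ≠ 0 → (σ f).order = g * v.ord f)
    (y : F) (hy : v.ord y ≠ 0) :
    v.ordDifferential (D K F y) = v.ord y - 1 := by
  have hy0 : y ≠ 0 := by rintro rfl; simp at hy
  have hgz : (g : ℤ) ≠ 0 := by exact_mod_cast hg.ne'
  have ho : (σ y).order ≠ 0 := by
    rw [hord y hy0]; exact mul_ne_zero hgz hy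
  have := place_ordDifferential_mul v σ ι hσ g hg hord y (laurentD_ne_zero ho)
  rw [laurentD_order ho, hord y hy0] at this
  have h2 : (g : ℤ) * v.ordDifferential (D K F y) = g * (v.ord y - 1) := by
    rw [this]; ring
  exact mul_left_cancel₀ hgz h2

/-- If `ord_v (y - a) ≠ 0` for a constant `a` then `ord_v (dy) = ord_v (y - a) - 1`. -/
theorem place_ordDifferential_D_of_ord_sub_ne_zero (v : Place K F) [v.DCoordGenerates]
    (σ : F →+* LaurentSeries C) (ι : K →+* C)
    (hσ : ∀ c : K, σ (algebraMap K F c) = HahnSeries.C (ι c))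
    (g : ℕ) (hg : 0 < g) (hord : ∀ f : F, f ≠ 0 → (σ f).order = g * v.ord f)
    (y : F) (a : K) (hy : v.ord (y - algebraMap K F a) ≠ 0) :
    v.ordDifferential (D K F y) = v.ord (y - algebraMap K F a) - 1 := by
  have := place_ordDifferential_D_of_ord_ne_zero v σ ι hσ g hg hord _ hy
  rwa [map_sub, Derivation.map_algebraMap, sub_zero] at this

/-- If `ord_v y⁻¹ ≠ 0` then `ord_v (dy) = - ord_v y⁻¹ - 1`. -/
theorem place_ordDifferential_D_of_ord_inv_ne_zero (v : Place K F) [v.DCoordGenerates]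
    (σ : F →+* LaurentSeries C) (ι : K →+* C)
    (hσ : ∀ c : K, σ (algebraMap K F c) = HahnSeries.C (ι c))
    (g : ℕ) (hg : 0 < g) (hord : ∀ f : F, f ≠ 0 → (σ f).order = g * v.ord f)
    (y : F) (hy : v.ord y⁻¹ ≠ 0) :
    v.ordDifferential (D K F y) = - v.ord y⁻¹ - 1 := by
  have h1 : v.ord y ≠ 0 := by
    rw [v.ord_inv] at hy; exact fun h => hy (by rw [h, neg_zero])
  rw [place_ordDifferential_D_of_ord_ne_zero v σ ι hσ g hg hord y h1, v.ord_inv, neg_neg]

end Embedding

end Fermat.Agent.S24.H84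

end
end
-- ===== PACK-END S24/H84/OrdDiff.lean

-- ===== PACK-BEGIN S24/H117/PlaceBasic.lean
section


/-!
# S24 / H117 — basic API for `AlgebraicCurve.Place.ord`

Elementary facts about the order function of a place (membership, ultrametric inequality,
constants), re-proved here because the Prelude versions are private.
-/

set_option autoImplicit false

noncomputable section

open AlgebraicCurve

namespace Fermat.Agent.S24.H117

variable {K F : Type*} [Field K] [Field F] [Algebra K F] (v : Place K F)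

theorem ord_nonneg_of_mem {f : F} (hf : f ∈ v.toValuationSubring) : 0 ≤ v.ord f := by
  rcases eq_or_ne f 0 with rfl | hf0
  · simp
  obtain ⟨π, hπ⟩ := IsDiscreteValuationRing.exists_irreducible v.toValuationSubring
  obtain ⟨n, u, hu⟩ :=
    IsDiscreteValuationRing.eq_unit_mul_pow_irreducible
      (x := (⟨f, hf⟩ : v.toValuationSubring)) (by simpa [Subtype.ext_iff] using hf0) hπ
  have hcoe : f = ((u : v.toValuationSubring) : F) * ((π : F) ^ (n : ℤ)) := by
    have h := congrArg (Subtype.val) hu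
    push_cast at h
    rw [zpow_natCast]
    exact h
  rw [hcoe, v.ord_unit_smul_zpow u hπ (n : ℤ)]
  exact Int.natCast_nonneg n

theorem mem_of_ord_nonneg {f : F} (h : 0 ≤ v.ord f) : f ∈ v.toValuationSubring := by
  rcases eq_or_ne f 0 with rfl | hf
  · exact zero_mem _
  obtain ⟨π, hπ⟩ := IsDiscreteValuationRing.exists_irreducible v.toValuationSubring
  obtain ⟨u, hu⟩ := v.exists_unit_mul_zpow hf hπ
  rw [hu, show v.ord f = (((v.ord f).toNat : ℕ) : ℤ) from (Int.toNat_of_nonneg h).symm,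
    zpow_natCast]
  exact mul_mem (u : v.toValuationSubring).2 (pow_mem (π : v.toValuationSubring).2 _)

theorem mem_iff_ord_nonneg {f : F} : f ∈ v.toValuationSubring ↔ 0 ≤ v.ord f :=
  ⟨ord_nonneg_of_mem v, mem_of_ord_nonneg v⟩

theorem exists_ord_eq_one : ∃ π : F, π ≠ 0 ∧ v.ord π = 1 := by
  obtain ⟨π, hπ⟩ := IsDiscreteValuationRing.exists_irreducible v.toValuationSubring
  refine ⟨(π : F), ?_, v.ord_coe_irreducible hπ⟩
  simpa [ne_eq, ZeroMemClass.coe_eq_zero] using hπ.ne_zero

theorem ord_algebraMap (c : K) : v.ord (algebraMap K F c) = 0 := by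
  rcases eq_or_ne c 0 with rfl | hc
  · simp
  have h1 : 0 ≤ v.ord (algebraMap K F c) := ord_nonneg_of_mem v (v.algebraMap_mem' c)
  have h2 : 0 ≤ v.ord (algebraMap K F c⁻¹) := ord_nonneg_of_mem v (v.algebraMap_mem' c⁻¹)
  rw [map_inv₀, v.ord_inv] at h2
  omega

theorem ord_neg (f : F) : v.ord (-f) = v.ord f := by
  simp [Place.ord, Valuation.map_neg]

theorem ord_add_ge {f g : F} (hfg : f + g ≠ 0) : min (v.ord f) (v.ord g) ≤ v.ord (f + g) := by
  rcases eq_or_ne f 0 with rfl | hf
  · simp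
  rcases eq_or_ne g 0 with rfl | hg
  · simp
  -- wlog ord f ≤ ord g
  wlog hle : v.ord f ≤ v.ord g generalizing f g
  · have := this (f := g) (g := f) (by rwa [add_comm]) hg hf (le_of_not_ge hle)
    rwa [min_comm, add_comm]
  rw [min_eq_left hle]
  have hq : g / f ∈ v.toValuationSubring := by
    apply mem_of_ord_nonneg
    rw [div_eq_mul_inv, v.ord_mul hg (inv_ne_zero hf), v.ord_inv]
    omega
  have h1 : (1 + g / f) ∈ v.toValuationSubring := add_mem (one_mem _) hq
  have h1ne : (1 + g / f) ≠ 0 := by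
    intro h0
    apply hfg
    have : f * (1 + g / f) = f + g := by field_simp
    rw [← this, h0, mul_zero]
  have : f + g = f * (1 + g / f) := by field_simp
  rw [this, v.ord_mul hf h1ne]
  have := ord_nonneg_of_mem v h1
  omega

theorem ord_add_eq_of_lt {f g : F} (h : v.ord f < v.ord g) (hf : f ≠ 0) :
    v.ord (f + g) = v.ord f := by
  rcases eq_or_ne g 0 with rfl | hg
  · simp
  have hfg : f + g ≠ 0 := by
    intro h0
    have : g = -f := eq_neg_of_add_eq_zero_right h0
    rw [this, _root_.Fermat.Agent.S24.H117.ord_neg] at h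
    exact lt_irrefl _ h
  apply le_antisymm
  · by_contra hlt
    push Not at hlt
    have h2 : min (v.ord (f + g)) (v.ord (-g)) ≤ v.ord ((f + g) + -g) :=
      ord_add_ge v (by simpa using hf)
    rw [add_neg_cancel_right, _root_.Fermat.Agent.S24.H117.ord_neg] at h2
    have : v.ord f < min (v.ord (f + g)) (v.ord g) := lt_min hlt h
    omega
  · have := ord_add_ge v hfg
    rwa [min_eq_left h.le] at this

theorem ord_pow (f : F) (n : ℕ) : v.ord (f ^ n) = n * v.ord f := by
  have := v.ord_zpow f (n : ℤ)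
  rwa [zpow_natCast] at this

theorem ord_div {f g : F} (hf : f ≠ 0) (hg : g ≠ 0) : v.ord (f / g) = v.ord f - v.ord g := by
  rw [div_eq_mul_inv, v.ord_mul hf (inv_ne_zero hg), v.ord_inv]; ring

theorem ne_zero_of_ord_ne_zero {f : F} (h : v.ord f ≠ 0) : f ≠ 0 := by
  rintro rfl
  exact h v.ord_zero

/-- Two places with the same non-negative-order elements are equal. -/
theorem place_ext_of_le {v w : Place K F}
    (h : ∀ f : F, 0 ≤ v.ord f → 0 ≤ w.ord f) : v = w := by
  apply Place.ext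
  have hle : v.toValuationSubring ≤ w.toValuationSubring := fun f hf =>
    mem_of_ord_nonneg w (h f (ord_nonneg_of_mem v hf))
  refine le_antisymm hle ?_
  intro f hf
  by_contra hfv
  have hf0 : f ≠ 0 := fun h0 => hfv (h0 ▸ zero_mem _)
  have hvf : v.ord f < 0 := by
    by_contra hge
    exact hfv (mem_of_ord_nonneg v (not_lt.mp hge))
  -- then `f⁻¹` has positive order at `v`, and every element is `u * (f⁻¹)^n`-bounded
  obtain ⟨g, hg0, hg⟩ : ∃ g : F, g ≠ 0 ∧ w.ord g < 0 := by
    by_contra hcon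
    push Not at hcon
    apply w.ne_top'
    refine SetLike.ext fun x => ⟨fun _ => ValuationSubring.mem_top x, fun _ => ?_⟩
    rcases eq_or_ne x 0 with rfl | hx
    · exact zero_mem _
    · exact mem_of_ord_nonneg w (hcon x hx)
  -- choose n with ord_v (g * f⁻¹ ^ n) ≥ 0
  have hfinv : 0 < v.ord f⁻¹ := by rw [v.ord_inv]; omega
  obtain ⟨n, hn⟩ : ∃ n : ℕ, 0 ≤ v.ord (g * f⁻¹ ^ n) := by
    refine ⟨(-v.ord g).toNat, ?_⟩
    rw [v.ord_mul hg0 (pow_ne_zero _ (inv_ne_zero hf0)), ord_pow]
    have : (0:ℤ) ≤ ((-v.ord g).toNat : ℤ) := Int.natCast_nonneg _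
    have h2 : -v.ord g ≤ ((-v.ord g).toNat : ℤ) := Int.self_le_toNat _
    nlinarith
  have hw := h _ hn
  rw [w.ord_mul hg0 (pow_ne_zero _ (inv_ne_zero hf0)), ord_pow, w.ord_inv] at hw
  have hwf : 0 ≤ w.ord f := ord_nonneg_of_mem w hf
  have : (n : ℤ) * -w.ord f ≤ 0 := by
    have : (0:ℤ) ≤ n := Int.natCast_nonneg _
    nlinarith
  omega

end Fermat.Agent.S24.H117

end
end
-- ===== PACK-END S24/H117/PlaceBasic.lean

-- ===== PACK-BEGIN S29/M/Defs.lean
section
/-
S29 row, LAYER M (the torsion module) -- interface definitions (deputy helper30).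
Namespace `Fermat.Agent.S29.M`.  Frozen once adopted by the row-lead (helper269).
-/




set_option autoImplicit false

noncomputable section

namespace Fermat.Agent.S29.M

open ModularCurve AlgebraicCurve CongruenceSubgroup
open scoped TensorProduct MatrixGroups

/-! ## External input: the Eichler-Shimura relation on `JZero N` (rows S37 / S18) -/

/-- What layer M consumes from rows S37/S18: for every prime `ℓ ∤ N p` and every place `A` over `ℓ`,
inertia at `A` acts trivially on the `p`-power torsion of `JZero N`, and every Frobenius element at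
`A` satisfies `σ² - T_ℓ σ + ℓ = 0` there, `T_ℓ` the Prelude operator `heckeOperatorBar N ℓ`.
(No commutativity of the Hecke operators and no `HeckeAlg`-module structure is involved.) -/
def ESStatement : Prop :=
  ∀ (N p : ℕ) [NeZero N] (ℓ : ℕ) (hℓ : ℓ.Prime), ¬ ℓ ∣ N * p →
    ∀ A : VQ, A.LiesOverPrime ℓ →
      (∀ τ ∈ A.inertiaSubgroupIn ℚ, ∀ x : JZero N, (∃ n : ℕ, p ^ n • x = 0) → τ • x = x) ∧
      (∀ σ : GQ, A.IsFrobeniusAt σ ℓ → ∀ x : JZero N, (∃ n : ℕ, p ^ n • x = 0) →
        σ • σ • x - heckeOperatorBar N ⟨ℓ, hℓ⟩ (σ • x) + ℓ • x = 0)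

/-- The "reduction map" form in which row S37 proves its statement (route R1 of
`origin/helper37:coord/S37-route.md`); it implies `ESStatement` formally (`esStatement_of_red`). -/
def RedStatement : Prop :=
  ∀ (N p : ℕ) [NeZero N] (ℓ : ℕ) (hℓ : ℓ.Prime), ¬ ℓ ∣ N * p →
    ∀ A : VQ, A.LiesOverPrime ℓ →
      ∃ (Y : Type) (_ : AddCommGroup Y) (red : JZero N →+ Y),
        (∀ τ ∈ A.inertiaSubgroupIn ℚ, ∀ x : JZero N, red (τ • x) = red x) ∧
        (∀ x : JZero N, (∃ n : ℕ, p ^ n • x = 0) → red x = 0 → x = 0) ∧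
        (∀ σ : GQ, A.IsFrobeniusAt σ ℓ → ∀ x : JZero N,
          red (σ • σ • x - heckeOperatorBar N ⟨ℓ, hℓ⟩ (σ • x) + ℓ • x) = 0)

/-! ## The `p`-torsion of `JZero N` as a `ZMod p`-module with Hecke and Galois operators -/

/-- `J₀(N)[p]`, the `p`-torsion subgroup of the Prelude `JZero N`. -/
abbrev Vp (N p : ℕ) : Type :=
  ↥(Pic0.torsion (AlgebraicClosure ℚ) (modularFunctionFieldBar N) p)

/-- The Prelude Hecke operator `T_ℓ` preserves `p`-torsion. -/
theorem heckeOperatorBar_mem_torsion (N p : ℕ) [NeZero N] (ℓ : Nat.Primes) {x : JZero N}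
    (hx : x ∈ Pic0.torsion (AlgebraicClosure ℚ) (modularFunctionFieldBar N) p) :
    heckeOperatorBar N ℓ x ∈ Pic0.torsion (AlgebraicClosure ℚ) (modularFunctionFieldBar N) p := by
  rw [Pic0.mem_torsion] at hx ⊢
  rw [← map_zsmul, hx, map_zero]

/-- `T_ℓ` on `J₀(N)[p]`, as an additive map. -/
def heckeTorsAdd (N p : ℕ) [NeZero N] (ℓ : Nat.Primes) : Vp N p →+ Vp N p where
  toFun x := ⟨heckeOperatorBar N ℓ (x : JZero N), heckeOperatorBar_mem_torsion N p ℓ x.2⟩
  map_zero' := Subtype.ext (map_zero (heckeOperatorBar N ℓ))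
  map_add' x y := Subtype.ext (map_add (heckeOperatorBar N ℓ) (x : JZero N) (y : JZero N))

/-- `T_ℓ` on `J₀(N)[p]`, as a `ZMod p`-linear map. -/
def heckeTors (N p : ℕ) [NeZero N] (ℓ : Nat.Primes) : Vp N p →ₗ[ZMod p] Vp N p :=
  (heckeTorsAdd N p ℓ).toZModLinearMap p

@[simp] theorem coe_heckeTors_apply (N p : ℕ) [NeZero N] (ℓ : Nat.Primes) (x : Vp N p) :
    ((heckeTors N p ℓ x : Vp N p) : JZero N) = heckeOperatorBar N ℓ (x : JZero N) := rfl

/-- The Galois action on `J₀(N)[p]` (Prelude `JZero.torsionGaloisRep`). -/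
abbrev galTors (N p : ℕ) : GQ →* Module.End (ZMod p) (Vp N p) :=
  JZero.torsionGaloisRep N p

/-! ## The topological side: homomorphisms `Γ₀(N) → ℤ/p` and their Hecke operators -/

/-- Homomorphisms `Γ₀(N) → ℤ/p` vanishing on parabolic elements (`tr² = 4`, this includes `-1`)
and on elements of finite order. -/
def peHoms (N p : ℕ) : Submodule (ZMod p) (Additive (Gamma0 N) →+ ZMod p) where
  carrier := {χ | (∀ γ : Gamma0 N,
      ((γ : SL(2, ℤ)) : Matrix (Fin 2) (Fin 2) ℤ).trace ^ 2 = 4 → χ (Additive.ofMul γ) = 0) ∧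
    (∀ γ : Gamma0 N, IsOfFinOrder γ → χ (Additive.ofMul γ) = 0)}
  zero_mem' := ⟨fun _ _ => rfl, fun _ _ => rfl⟩
  add_mem' := by
    rintro χ χ' ⟨h1, h2⟩ ⟨h1', h2'⟩
    refine ⟨fun γ hγ => ?_, fun γ hγ => ?_⟩
    · show χ (Additive.ofMul γ) + χ' (Additive.ofMul γ) = 0
      rw [h1 γ hγ, h1' γ hγ, add_zero]
    · show χ (Additive.ofMul γ) + χ' (Additive.ofMul γ) = 0
      rw [h2 γ hγ, h2' γ hγ, add_zero]
  smul_mem' := by
    rintro c χ ⟨h1, h2⟩
    refine ⟨fun γ hγ => ?_, fun γ hγ => ?_⟩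
    · show c • χ (Additive.ofMul γ) = 0
      rw [h1 γ hγ, smul_zero]
    · show c • χ (Additive.ofMul γ) = 0
      rw [h2 γ hγ, smul_zero]

/-- The standard representatives of `Γ₀(N) \ Γ₀(N) diag(1,ℓ) Γ₀(N)` (`ℓ ∤ N`):
`(1 b; 0 ℓ)` for `b < ℓ` and `(ℓ 0; 0 1)` for the last index. -/
def heckeRep (ℓ : ℕ) (i : Fin (ℓ + 1)) : Matrix (Fin 2) (Fin 2) ℤ :=
  if (i : ℕ) < ℓ then !![1, (i : ℕ); 0, ℓ] else !![ℓ, 0; 0, 1]

/-- `χ' = T_ℓ χ` on `Hom(Γ₀(N), A)`: the transfer formula `χ'(γ) = ∑ᵢ χ(δᵢ)` whenever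
`αᵢ γ = δᵢ α_{π i}` for the standard representatives `αᵢ = heckeRep ℓ i`. -/
def IsHeckeImage (N ℓ : ℕ) {A : Type*} [AddCommGroup A] (χ χ' : Additive (Gamma0 N) →+ A) : Prop :=
  ∀ (γ : Gamma0 N) (π : Fin (ℓ + 1) → Fin (ℓ + 1)) (δ : Fin (ℓ + 1) → Gamma0 N),
    (∀ i, _root_.Fermat.Agent.S29.M.heckeRep ℓ i * ((γ : SL(2, ℤ)) : Matrix (Fin 2) (Fin 2) ℤ)
        = ((δ i : SL(2, ℤ)) : Matrix (Fin 2) (Fin 2) ℤ) * _root_.Fermat.Agent.S29.M.heckeRep ℓ (π i)) →
      χ' (Additive.ofMul γ) = ∑ i, χ (Additive.ofMul (δ i))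

end Fermat.Agent.S29.M

end

end
-- ===== PACK-END S29/M/Defs.lean

-- ===== PACK-BEGIN S28/H867/IntZ.lean
section



set_option autoImplicit false
noncomputable section
open ModularCurve HahnSeries Polynomial

namespace Fermat.Agent.S28.H867

section IntZ

variable {A : Type*} [CommRing A]

theorem ringHom_comp_evalAt {B : Type*} [CommRing B] (ψ : LaurentSeries A →+* LaurentSeries B)
    (y : LaurentSeries A) : ψ.comp (evalAt y) = evalAt (ψ y) := by
  apply Polynomial.ringHom_ext
  · intro a; simp [evalAt]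
  · simp [evalAt]

/-- Integrality is transported by ring homomorphisms. -/
theorem isIntegralElem_map {B : Type*} [CommRing B] (ψ : LaurentSeries A →+* LaurentSeries B)
    {y x : LaurentSeries A} (h : (evalAt y).IsIntegralElem x) :
    (evalAt (ψ y)).IsIntegralElem (ψ x) := by
  obtain ⟨P, hP, hPx⟩ := h
  refine ⟨P, hP, ?_⟩
  rw [← ringHom_comp_evalAt, ← Polynomial.hom_eval₂, hPx, map_zero]

/-- Transitivity: `y` integral over `ℤ[j]` and `x` integral over `ℤ[y]` imply `x` integral
over `ℤ[j]`. -/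
theorem isIntegralElem_trans {j y x : LaurentSeries A} (hy : (evalAt j).IsIntegralElem y)
    (hx : (evalAt y).IsIntegralElem x) : (evalAt j).IsIntegralElem x := by
  let _ : Algebra (Polynomial ℤ) (LaurentSeries A) := (evalAt j).toAlgebra
  have hy' : IsIntegral (Polynomial ℤ) y := hy
  set C := integralClosure (Polynomial ℤ) (LaurentSeries A) with hC
  have hyC : y ∈ C := hy'
  obtain ⟨P, hP, hPx⟩ := hx
  let φ : Polynomial ℤ →+* C := (Polynomial.aeval (R := ℤ) (⟨y, hyC⟩ : C)).toRingHom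
  have hφ : (algebraMap C (LaurentSeries A)).comp φ = evalAt y := by
    apply Polynomial.ringHom_ext
    · intro a; simp [φ, evalAt]
    · simp [φ, evalAt]
  have hxC : IsIntegral C x := by
    refine ⟨P.map φ, hP.map _, ?_⟩
    rw [Polynomial.eval₂_map, hφ]
    exact hPx
  exact isIntegral_trans (R := Polynomial ℤ) (A := C) x hxC

end IntZ

section Jd

/-- `j(q^d)` is integral over `ℤ[j]`, given modular polynomials at all primes dividing `d`. -/
theorem isIntegralElem_jd (d : ℕ) (hd : d ≠ 0)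
    (hΦ : ∀ p : ℕ, p.Prime → p ∣ d → ∀ [NeZero p], Nonempty (ModPolyData p)) :
    (evalAt (jqModC ℤ)).IsIntegralElem (@qExpand ℤ _ d ⟨hd⟩ (jqModC ℤ)) := by
  induction d using Nat.recOnMul with
  | zero => exact absurd rfl hd
  | one =>
    rw [qExpand_one_apply]
    refine ⟨Polynomial.X - Polynomial.C Polynomial.X, Polynomial.monic_X_sub_C _, ?_⟩
    simp [evalAt]
  | prime p hp =>
    have : NeZero p := ⟨hp.ne_zero⟩
    obtain ⟨D⟩ := hΦ p hp dvd_rfl
    exact ⟨D.Φ, D.monic, D.eval_jp⟩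
  | mul a b iha ihb =>
    have ha0 : a ≠ 0 := fun h => hd (by rw [h, zero_mul])
    have hb0 : b ≠ 0 := fun h => hd (by rw [h, mul_zero])
    have : NeZero a := ⟨ha0⟩
    have : NeZero b := ⟨hb0⟩
    have h1 := iha ha0 fun p hp hpa => hΦ p hp (hpa.mul_right b)
    have h2 := ihb hb0 fun p hp hpb => hΦ p hp (hpb.mul_left a)
    have h3 := isIntegralElem_map (qExpand ℤ a) h2
    rw [qExpand_qExpand] at h3
    exact isIntegralElem_trans h1 h3

/-- The `integral` field of `CoreData`. -/
theorem coreData_integral (N : ℕ) [NeZero N]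
    (hΦ : ∀ p : ℕ, p.Prime → p ∣ N → ∀ [NeZero p], Nonempty (ModPolyData p)) :
    ∀ (d : ℕ) [NeZero d], d ∣ N →
      ∃ P : Polynomial (Polynomial ℤ), P.Monic ∧
        P.eval₂ (evalAt (jqModC ℤ)) (qExpand ℤ d (jqModC ℤ)) = 0 := by
  intro d hd hdN
  exact isIntegralElem_jd d hd.out fun p hp hpd => hΦ p hp (hpd.trans hdN)

end Jd

end Fermat.Agent.S28.H867

end
end
-- ===== PACK-END S28/H867/IntZ.lean

-- ===== PACK-BEGIN S28/H626/RootList.lean
section
/-
S28 helper (helper626): the family `j(ξ tⁿ)` and the root list of the modular polynomial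
`Φ_p(j(η t^{np}), X)`.
-/




set_option autoImplicit false

noncomputable section

open ModularCurve HahnSeries Polynomial

namespace Fermat.Agent.S28.H626

/-! ### Two-variable evaluation -/

section Ev2

variable {A B : Type*} [CommRing A] [CommRing B]

/-- Evaluation of `Φ ∈ ℤ[Y][X]` at `Y = y`, `X = x`. -/
def ev2 (Φ : Polynomial (Polynomial ℤ)) (y x : A) : A :=
  Φ.eval₂ (Polynomial.aeval (R := ℤ) y).toRingHom x

/-- The one-variable polynomial `Φ(y, X)`. -/
def spec (Φ : Polynomial (Polynomial ℤ)) (y : A) : Polynomial A :=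
  Φ.map (Polynomial.aeval (R := ℤ) y).toRingHom

theorem eval_spec (Φ : Polynomial (Polynomial ℤ)) (y x : A) :
    (spec Φ y).eval x = ev2 Φ y x := by
  rw [spec, ev2, Polynomial.eval_map]

theorem comp_aeval_toRingHom (φ : A →+* B) (y : A) :
    φ.comp (Polynomial.aeval (R := ℤ) y).toRingHom =
      (Polynomial.aeval (R := ℤ) (φ y)).toRingHom := by
  apply Polynomial.ringHom_ext
  · intro a
    simp
  · simp

theorem map_ev2 (φ : A →+* B) (Φ : Polynomial (Polynomial ℤ)) (y x : A) :
    φ (ev2 Φ y x) = ev2 Φ (φ y) (φ x) := by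
  rw [ev2, ev2, Polynomial.hom_eval₂, comp_aeval_toRingHom]

theorem map_spec (φ : A →+* B) (Φ : Polynomial (Polynomial ℤ)) (y : A) :
    (spec Φ y).map φ = spec Φ (φ y) := by
  rw [spec, spec, Polynomial.map_map, comp_aeval_toRingHom]

theorem spec_monic {Φ : Polynomial (Polynomial ℤ)} (h : Φ.Monic) (y : A) : (spec Φ y).Monic :=
  h.map _

theorem spec_natDegree [Nontrivial A] {Φ : Polynomial (Polynomial ℤ)} (h : Φ.Monic) (y : A) :
    (spec Φ y).natDegree = Φ.natDegree :=
  h.natDegree_map _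

end Ev2

/-- The (explicit-hypothesis form of the) prime-level analytic input: `Φ ∈ ℤ[Y][X]` is monic of
degree `p + 1` in `X` and `Φ(j, j_p) = 0`, `Φ(j_p, j) = 0` in `ℤ((q))`. -/
structure IsModPoly (p : ℕ) [NeZero p] (Φ : Polynomial (Polynomial ℤ)) : Prop where
  monic : Φ.Monic
  natDegree_eq : Φ.natDegree = p + 1
  eval_jp : ev2 Φ (jqModC ℤ) (qExpand ℤ p (jqModC ℤ)) = 0
  eval_j : ev2 Φ (qExpand ℤ p (jqModC ℤ)) (jqModC ℤ) = 0

/-! ### The family `j(ξ tⁿ)` -/

section JTw

variable (Ω : Type*) [CommRing Ω]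

/-- `j(ξ tⁿ)` as a Laurent series in `t`. -/
def jTw (ξ : Ωˣ) (n : ℕ) [NeZero n] : LaurentSeries Ω :=
  qExpand Ω n (twist ξ (jqModC Ω))

theorem jTw_one (n : ℕ) [NeZero n] : jTw Ω 1 n = qExpand Ω n (jqModC Ω) := by
  rw [jTw, twist_one_apply]

theorem jTw_coeff_neg (ξ : Ωˣ) (n : ℕ) [NeZero n] :
    (jTw Ω ξ n).coeff (-(n : ℤ)) = ((ξ⁻¹ : Ωˣ) : Ω) := by
  have h : (-(n : ℤ)) = (n : ℤ) * (-1) := by ring
  rw [jTw, h, qExpand_coeff_mul, twist_coeff, coeff_jqModC_neg_one, mul_one, zpow_neg_one]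

theorem jTw_coeff_of_lt (ξ : Ωˣ) (n : ℕ) [NeZero n] {k : ℤ} (hk : k < -(n : ℤ)) :
    (jTw Ω ξ n).coeff k = 0 := by
  by_cases hn : (n : ℤ) ∣ k
  · obtain ⟨m, rfl⟩ := hn
    have hn0 : (0 : ℤ) < n := by exact_mod_cast Nat.pos_of_ne_zero (NeZero.ne n)
    have hm : m < -1 := by
      by_contra hm
      have hm' := not_lt.mp hm
      nlinarith
    rw [jTw, qExpand_coeff_mul, twist_coeff, coeff_jqModC_of_lt Ω hm, mul_zero]
  · rw [jTw, qExpand_coeff_of_not_dvd _ _ hn]

variable {Ω}

theorem jTw_inj [Nontrivial Ω] {ξ ξ' : Ωˣ} {n n' : ℕ} [NeZero n] [NeZero n']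
    (h : jTw Ω ξ n = jTw Ω ξ' n') : n = n' ∧ ξ = ξ' := by
  have key : ∀ (ξ ξ' : Ωˣ) (n n' : ℕ) [NeZero n] [NeZero n'],
      jTw Ω ξ n = jTw Ω ξ' n' → ¬ n < n' := by
    intro ξ ξ' n n' _ _ h hlt
    have h1 := jTw_coeff_neg Ω ξ' n'
    rw [← h, jTw_coeff_of_lt Ω ξ n (by exact_mod_cast (neg_lt_neg (Nat.cast_lt.mpr hlt) :
      (-(n' : ℤ)) < -(n : ℤ)))] at h1
    exact (Units.ne_zero _) h1.symm
  have hn : n = n' := le_antisymm (not_lt.mp (key ξ' ξ n' n h.symm)) (not_lt.mp (key ξ ξ' n n' h))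
  subst hn
  refine ⟨rfl, ?_⟩
  have h1 := jTw_coeff_neg Ω ξ n
  rw [h, jTw_coeff_neg] at h1
  exact inv_injective (Units.ext h1).symm

theorem jTw_ne_of_ne [Nontrivial Ω] {ξ ξ' : Ωˣ} {n n' : ℕ} [NeZero n] [NeZero n']
    (h : n ≠ n') : jTw Ω ξ n ≠ jTw Ω ξ' n' := fun he => h (jTw_inj he).1

end JTw

/-! ### Root relations -/

section Roots

variable (Ω : Type*) [CommRing Ω]

/-- the ring hom `ℤ((q)) → Ω((t))`, `q ↦ ξ tⁿ`. -/
def substHom (ξ : Ωˣ) (n : ℕ) [NeZero n] : LaurentSeries ℤ →+* LaurentSeries Ω :=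
  (qExpand Ω n).comp ((twist ξ).comp (coeffMap (Int.castRingHom Ω)))

theorem substHom_j (ξ : Ωˣ) (n : ℕ) [NeZero n] :
    substHom Ω ξ n (jqModC ℤ) = jTw Ω ξ n := by
  simp only [substHom, RingHom.comp_apply, coeffMap_jqModC, jTw]

theorem substHom_jp (ξ : Ωˣ) (n : ℕ) [NeZero n] (p : ℕ) [NeZero p] :
    substHom Ω ξ n (qExpand ℤ p (jqModC ℤ)) = jTw Ω (ξ ^ p) (n * p) := by
  simp only [substHom, RingHom.comp_apply, coeffMap_qExpand, coeffMap_jqModC, jTw,
    twist_qExpand, qExpand_qExpand]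

variable {Ω}

theorem ev2_jTw_root {p : ℕ} [NeZero p] {Φ : Polynomial (Polynomial ℤ)} (hΦ : IsModPoly p Φ)
    (ξ : Ωˣ) (n : ℕ) [NeZero n] :
    ev2 Φ (jTw Ω (ξ ^ p) (n * p)) (jTw Ω ξ n) = 0 := by
  have h := congrArg (substHom Ω ξ n) hΦ.eval_j
  rwa [map_ev2, substHom_j, substHom_jp, map_zero] at h

theorem ev2_jTw_root' {p : ℕ} [NeZero p] {Φ : Polynomial (Polynomial ℤ)} (hΦ : IsModPoly p Φ)
    (ξ : Ωˣ) (n : ℕ) [NeZero n] :
    ev2 Φ (jTw Ω ξ n) (jTw Ω (ξ ^ p) (n * p)) = 0 := by
  have h := congrArg (substHom Ω ξ n) hΦ.eval_jp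
  rwa [map_ev2, substHom_j, substHom_jp, map_zero] at h

theorem jTw_congr (ξ : Ωˣ) {n n' : ℕ} [NeZero n] [NeZero n'] (h : n = n') :
    jTw Ω ξ n = jTw Ω ξ n' := by
  subst h; rfl

end Roots

/-! ### The root list -/

section RootList

variable {Ω : Type*} [Field Ω]

/-- The multiset of roots of `Φ_p(j(t^{np}), X)`. -/
def rootMultiset (p : ℕ) (ζ : Ωˣ) (n : ℕ) [NeZero n] [NeZero p] : Multiset (LaurentSeries Ω) :=
  jTw Ω 1 (n * p * p) ::ₘ (Multiset.range p).map (fun b => jTw Ω (ζ ^ b) n)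

theorem rootMultiset_nodup {p : ℕ} [NeZero p] (hp : 1 < p) {ζ : Ωˣ} (hζ : IsPrimitiveRoot ζ p)
    (n : ℕ) [NeZero n] : (rootMultiset p ζ n).Nodup := by
  rw [rootMultiset, Multiset.nodup_cons]
  constructor
  · intro h
    rw [Multiset.mem_map] at h
    obtain ⟨b, -, hb⟩ := h
    have h1 : n = n * p * p := (jTw_inj hb).1
    have hn : 0 < n := Nat.pos_of_ne_zero (NeZero.ne n)
    have : n * 1 < n * (p * p) := by
      apply Nat.mul_lt_mul_of_pos_left _ hn
      nlinarith
    rw [mul_one, ← mul_assoc] at this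
    omega
  · refine Multiset.Nodup.map_on ?_ (Multiset.nodup_range p)
    intro a ha b hb hab
    rw [Multiset.mem_range] at ha hb
    exact hζ.pow_inj ha hb (jTw_inj hab).2

theorem rootMultiset_card (p : ℕ) [NeZero p] (ζ : Ωˣ) (n : ℕ) [NeZero n] :
    Multiset.card (rootMultiset p ζ n) = p + 1 := by
  simp [rootMultiset]

theorem mem_rootMultiset {p : ℕ} [NeZero p] {ζ : Ωˣ} {n : ℕ} [NeZero n] {β : LaurentSeries Ω} :
    β ∈ rootMultiset p ζ n ↔ β = jTw Ω 1 (n * p * p) ∨ ∃ b < p, β = jTw Ω (ζ ^ b) n := by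
  rw [rootMultiset, Multiset.mem_cons, Multiset.mem_map]
  refine or_congr Iff.rfl ⟨?_, ?_⟩
  · rintro ⟨b, hb, rfl⟩
    exact ⟨b, Multiset.mem_range.mp hb, rfl⟩
  · rintro ⟨b, hb, rfl⟩
    exact ⟨b, Multiset.mem_range.mpr hb, rfl⟩

/-- **Root list.** `Φ_p(j(t^{np}), X) = (X - j(t^{np²})) ∏_{b<p} (X - j(ζ^b tⁿ))`. -/
theorem roots_spec {p : ℕ} [NeZero p] (hp : 1 < p) {Φ : Polynomial (Polynomial ℤ)}
    (hΦ : IsModPoly p Φ) {ζ : Ωˣ} (hζ : IsPrimitiveRoot ζ p) (n : ℕ) [NeZero n] :
    (spec Φ (jTw Ω 1 (n * p))).roots = rootMultiset p ζ n := by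
  have hmonic : (spec Φ (jTw Ω 1 (n * p))).Monic := spec_monic hΦ.monic _
  have hdeg : (spec Φ (jTw Ω 1 (n * p))).natDegree = p + 1 := by
    rw [spec_natDegree hΦ.monic, hΦ.natDegree_eq]
  have hle : rootMultiset p ζ n ≤ (spec Φ (jTw Ω 1 (n * p))).roots := by
    rw [Multiset.le_iff_subset (rootMultiset_nodup hp hζ n)]
    intro β hβ
    rw [Polynomial.mem_roots hmonic.ne_zero, Polynomial.IsRoot, eval_spec]
    rcases mem_rootMultiset.mp hβ with rfl | ⟨b, -, rfl⟩
    · have := ev2_jTw_root' hΦ (1 : Ωˣ) (n * p)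
      rwa [one_pow] at this
    · have := ev2_jTw_root hΦ (ζ ^ b) n
      rwa [← pow_mul, mul_comm b p, pow_mul, hζ.pow_eq_one, one_pow] at this
  refine (Multiset.eq_of_le_of_card_le hle ?_).symm
  rw [rootMultiset_card, ← hdeg]
  exact Polynomial.card_roots' _

theorem splits_spec {p : ℕ} [NeZero p] (hp : 1 < p) {Φ : Polynomial (Polynomial ℤ)}
    (hΦ : IsModPoly p Φ) {ζ : Ωˣ} (hζ : IsPrimitiveRoot ζ p) (n : ℕ) [NeZero n] :
    (spec Φ (jTw Ω 1 (n * p))).Splits := by
  rw [Polynomial.splits_iff_card_roots, roots_spec hp hΦ hζ, rootMultiset_card,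
    spec_natDegree hΦ.monic, hΦ.natDegree_eq]

end RootList

/-! ### The abstract gcd lemma -/

section AbstractGcd

/-- If `x` is a common root of `P, Q ∈ E[X]`, and over some extension `P` splits with distinct
roots, among which only (the image of) `x` is a root of `Q`, then `x ∈ E`. -/
theorem mem_range_of_unique_common_root {E L Ω' : Type*} [Field E] [Field L] [Algebra E L]
    [Field Ω'] (ι : L →+* Ω') (x : L) (P Q : Polynomial E) (hP0 : P ≠ 0)
    (hPx : Polynomial.aeval x P = 0) (hQx : Polynomial.aeval x Q = 0)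
    (hsplit : (P.map (ι.comp (algebraMap E L))).Splits)
    (hnodup : (P.map (ι.comp (algebraMap E L))).roots.Nodup)
    (huniq : ∀ β ∈ (P.map (ι.comp (algebraMap E L))).roots,
      (Q.map (ι.comp (algebraMap E L))).eval β = 0 → β = ι x) :
    x ∈ (algebraMap E L).range := by
  classical
  set f : E →+* Ω' := ι.comp (algebraMap E L) with hf
  have hint : IsIntegral E x := IsAlgebraic.isIntegral ⟨P, hP0, hPx⟩
  have hμP : minpoly E x ∣ P := minpoly.dvd E x hPx
  have hμQ : minpoly E x ∣ Q := minpoly.dvd E x hQx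
  have hP'0 : P.map f ≠ 0 := (Polynomial.map_ne_zero_iff f.injective).mpr hP0
  have hμ'P : (minpoly E x).map f ∣ P.map f := Polynomial.map_dvd f hμP
  have hμ'Q : (minpoly E x).map f ∣ Q.map f := Polynomial.map_dvd f hμQ
  have hsplit' : ((minpoly E x).map f).Splits := hsplit.of_dvd hP'0 hμ'P
  have hroots_le : ((minpoly E x).map f).roots ≤ (P.map f).roots :=
    Polynomial.roots.le_of_dvd hP'0 hμ'P
  have hnodup' : ((minpoly E x).map f).roots.Nodup := Multiset.nodup_of_le hroots_le hnodup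
  have hμ'0 : (minpoly E x).map f ≠ 0 :=
    (Polynomial.map_ne_zero_iff f.injective).mpr (minpoly.ne_zero hint)
  have hall : ∀ β ∈ ((minpoly E x).map f).roots, β = ι x := by
    intro β hβ
    refine huniq β (Multiset.mem_of_le hroots_le hβ) ?_
    have hβ0 : ((minpoly E x).map f).eval β = 0 := (Polynomial.mem_roots hμ'0).mp hβ
    exact Polynomial.eval_eq_zero_of_dvd_of_eval_eq_zero hμ'Q hβ0
  have hcard : Multiset.card ((minpoly E x).map f).roots ≤ 1 := by
    have hsub : ((minpoly E x).map f).roots ≤ {ι x} := by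
      rw [Multiset.le_iff_subset hnodup']
      intro β hβ
      rw [Multiset.mem_singleton]
      exact hall β hβ
    simpa using Multiset.card_le_card hsub
  have hdeg : (minpoly E x).natDegree ≤ 1 := by
    rw [← Polynomial.natDegree_map f, hsplit'.natDegree_eq_card_roots]
    exact hcard
  have hpos := minpoly.natDegree_pos hint
  exact minpoly.natDegree_eq_one_iff.mp (le_antisymm hdeg hpos)

end AbstractGcd

end Fermat.Agent.S28.H626

end

end
-- ===== PACK-END S28/H626/RootList.lean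

-- ===== PACK-BEGIN S28/H807/Conv.lean
section
/-
S28 / helper807 — pointwise convergent Laurent series: ring laws, `V_p`, sections.
-/



set_option autoImplicit false
set_option maxHeartbeats 400000

noncomputable section

open ModularCurve HahnSeries

namespace Fermat.Agent.S28.H807

/-- The Laurent series `c` converges at the point `z` with sum `A`. -/
def HasLSum (c : LaurentSeries ℂ) (z A : ℂ) : Prop :=
  HasSum (fun n : ℤ => c.coeff n * z ^ n) A

theorem HasLSum.unique {c : LaurentSeries ℂ} {z A B : ℂ} (h1 : HasLSum c z A)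
    (h2 : HasLSum c z B) : A = B :=
  HasSum.unique h1 h2

theorem hasLSum_zero (z : ℂ) : HasLSum 0 z 0 := by
  unfold HasLSum
  simpa using (hasSum_zero : HasSum (fun _ : ℤ => (0 : ℂ)) 0)

theorem hasLSum_single (z : ℂ) (k : ℤ) (a : ℂ) :
    HasLSum (HahnSeries.single k a) z (a * z ^ k) := by
  unfold HasLSum
  have h := hasSum_sum_of_ne_finset_zero (f := fun n : ℤ => (HahnSeries.single k a).coeff n * z ^ n)
    (s := {k}) (L := SummationFilter.unconditional ℤ) (by
      intro b hb
      have hb' : b ≠ k := by simpa using hb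
      simp [HahnSeries.coeff_single_of_ne hb'])
  simpa using h

theorem hasLSum_one (z : ℂ) : HasLSum 1 z 1 := by
  have h := hasLSum_single z 0 1
  simpa using h

theorem hasLSum_C (z : ℂ) (a : ℂ) : HasLSum (HahnSeries.C a) z a := by
  have h := hasLSum_single z 0 a
  simpa using h

theorem HasLSum.add {c d : LaurentSeries ℂ} {z A B : ℂ} (h1 : HasLSum c z A)
    (h2 : HasLSum d z B) : HasLSum (c + d) z (A + B) := by
  unfold HasLSum at *
  have := HasSum.add h1 h2
  simpa [add_mul] using this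

theorem HasLSum.neg {c : LaurentSeries ℂ} {z A : ℂ} (h1 : HasLSum c z A) :
    HasLSum (-c) z (-A) := by
  unfold HasLSum at *
  have := HasSum.neg h1
  simpa using this

theorem HasLSum.sub {c d : LaurentSeries ℂ} {z A B : ℂ} (h1 : HasLSum c z A)
    (h2 : HasLSum d z B) : HasLSum (c - d) z (A - B) := by
  rw [sub_eq_add_neg, sub_eq_add_neg]
  exact h1.add h2.neg

/-- Cauchy product for pointwise convergent Laurent series. -/
theorem HasLSum.mul {c d : LaurentSeries ℂ} {z A B : ℂ} (hz : z ≠ 0) (h1 : HasLSum c z A)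
    (h2 : HasLSum d z B) : HasLSum (c * d) z (A * B) := by
  unfold HasLSum at *
  -- the double family is summable
  have hn1 : Summable (fun n : ℤ => ‖c.coeff n * z ^ n‖) := h1.summable.norm
  have hn2 : Summable (fun n : ℤ => ‖d.coeff n * z ^ n‖) := h2.summable.norm
  have hs : Summable (fun x : ℤ × ℤ => (c.coeff x.1 * z ^ x.1) * (d.coeff x.2 * z ^ x.2)) :=
    summable_mul_of_summable_norm (f := fun n : ℤ => c.coeff n * z ^ n)
      (g := fun n : ℤ => d.coeff n * z ^ n) hn1 hn2
  have hprod : HasSum (fun x : ℤ × ℤ => (c.coeff x.1 * z ^ x.1) * (d.coeff x.2 * z ^ x.2))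
      (A * B) := HasSum.mul (f := fun n : ℤ => c.coeff n * z ^ n)
      (g := fun n : ℤ => d.coeff n * z ^ n) h1 h2 hs
  -- reindex by (n, i) ↦ (i, n - i)
  let e : ℤ × ℤ ≃ ℤ × ℤ :=
    { toFun := fun x => (x.2, x.1 - x.2)
      invFun := fun x => (x.1 + x.2, x.1)
      left_inv := fun x => by simp
      right_inv := fun x => by simp }
  have hprod' : HasSum (fun x : ℤ × ℤ =>
      (c.coeff x.2 * z ^ x.2) * (d.coeff (x.1 - x.2) * z ^ (x.1 - x.2))) (A * B) := by
    have := (e.hasSum_iff (f := fun x : ℤ × ℤ =>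
      (c.coeff x.1 * z ^ x.1) * (d.coeff x.2 * z ^ x.2)) (a := A * B)).mpr hprod
    exact this
  refine HasSum.prod_fiberwise hprod' ?_
  intro n
  -- the fibre over `n` is a finite sum
  set s : Finset ℤ := (Finset.antidiagonal c.isPWO_support d.isPWO_support n).image Prod.fst
    with hs_def
  have hfib := hasSum_sum_of_ne_finset_zero
    (f := fun i : ℤ => (c.coeff i * z ^ i) * (d.coeff (n - i) * z ^ (n - i)))
    (s := s) (L := SummationFilter.unconditional ℤ) (by
      intro i hi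
      by_cases hci : c.coeff i = 0
      · simp [hci]
      by_cases hdi : d.coeff (n - i) = 0
      · simp [hdi]
      exfalso
      apply hi
      rw [hs_def, Finset.mem_image]
      refine ⟨(i, n - i), ?_, rfl⟩
      rw [Finset.mem_antidiagonal]
      exact ⟨hci, hdi, by ring⟩)
  convert hfib using 1
  rw [HahnSeries.coeff_mul, Finset.sum_mul, hs_def, Finset.sum_image]
  · apply Finset.sum_congr rfl
    intro x hx
    rw [Finset.mem_antidiagonal] at hx
    obtain ⟨_, _, hx3⟩ := hx
    have hx2 : x.2 = n - x.1 := by linarith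
    rw [← hx2]
    have hzn : z ^ n = z ^ x.1 * z ^ x.2 := by rw [← zpow_add₀ hz, hx3]
    rw [hzn]; ring
  · intro x hx y hy hxy
    rw [Finset.mem_coe, Finset.mem_antidiagonal] at hx hy
    apply Prod.ext hxy
    have h3 := hx.2.2
    have h4 := hy.2.2
    rw [hxy] at h3
    linarith

theorem HasLSum.pow {c : LaurentSeries ℂ} {z A : ℂ} (hz : z ≠ 0) (h1 : HasLSum c z A)
    (k : ℕ) : HasLSum (c ^ k) z (A ^ k) := by
  induction k with
  | zero => simpa using hasLSum_one z
  | succ k ih => rw [pow_succ, pow_succ]; exact ih.mul hz h1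

/-- Substitution `q ↦ q^p`. -/
theorem HasLSum.expand {c : LaurentSeries ℂ} {z A : ℂ} (p : ℕ) [NeZero p]
    (h : HasLSum c (z ^ p) A) : HasLSum (ModularCurve.qExpand ℂ p c) z A := by
  unfold HasLSum at *
  have hinj : Function.Injective (fun m : ℤ => (p : ℤ) * m) :=
    mul_right_injective₀ (by exact_mod_cast NeZero.ne p)
  refine (hinj.hasSum_iff (f := fun n : ℤ => (ModularCurve.qExpand ℂ p c).coeff n * z ^ n) ?_).mp ?_
  · intro n hn
    have : ¬ (p : ℤ) ∣ n := by
      rintro ⟨m, rfl⟩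
      exact hn ⟨m, rfl⟩
    simp [qExpand_coeff_of_not_dvd p c this]
  · convert h using 2 with m
    simp only [Function.comp_apply, qExpand_coeff_mul]
    congr 1
    rw [zpow_mul, zpow_natCast]

/-- Sections of a convergent series converge. -/
theorem HasLSum.summable_secL {c : LaurentSeries ℂ} {y A : ℂ} (p : ℕ) [NeZero p] (hy : y ≠ 0)
    (h : HasLSum c y A) (r : ℤ) :
    Summable (fun m : ℤ => (secL p r c).coeff m * (y ^ p) ^ m) := by
  unfold HasLSum at h
  have hinj : Function.Injective (fun m : ℤ => (p : ℤ) * m + r) := by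
    intro a b hab
    have : (p : ℤ) * a = (p : ℤ) * b := by simpa using hab
    exact mul_right_injective₀ (by exact_mod_cast NeZero.ne p) this
  have h1 : Summable ((fun n : ℤ => c.coeff n * y ^ n) ∘ fun m : ℤ => (p : ℤ) * m + r) :=
    h.summable.comp_injective hinj
  have h2 := h1.mul_left (y ^ (-r))
  refine h2.congr ?_
  intro m
  simp only [Function.comp_apply, secL_coeff]
  have : y ^ ((p : ℤ) * m + r) = (y ^ p) ^ m * y ^ r := by
    rw [zpow_add₀ hy, zpow_mul, zpow_natCast]
  rw [this, zpow_neg]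
  field_simp

/-- Value of the `r`-th section at `y^p`. -/
def secVal (p : ℕ) [NeZero p] (c : LaurentSeries ℂ) (y : ℂ) (r : ℤ) : ℂ :=
  ∑' m : ℤ, (secL p r c).coeff m * (y ^ p) ^ m

theorem HasLSum.hasLSum_secL {c : LaurentSeries ℂ} {y A : ℂ} (p : ℕ) [NeZero p] (hy : y ≠ 0)
    (h : HasLSum c y A) (r : ℤ) : HasLSum (secL p r c) (y ^ p) (secVal p c y r) :=
  (h.summable_secL p hy r).hasSum

/-- The section values only depend on `y^p`. -/
theorem secVal_congr (p : ℕ) [NeZero p] (c : LaurentSeries ℂ) {y y' : ℂ} (h : y ^ p = y' ^ p)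
    (r : ℤ) : secVal p c y r = secVal p c y' r := by
  unfold secVal
  rw [h]

/-- Regrouping by residues mod `p`: `A · yⁱ = ∑_{i'} y^{i'} · S_{i'-i}(y^p)`. -/
theorem HasLSum.regroup {c : LaurentSeries ℂ} {y A : ℂ} (p : ℕ) [NeZero p] (hy : y ≠ 0)
    (h : HasLSum c y A) (i : Fin p) :
    ∑ i' : Fin p, y ^ (i' : ℕ) * secVal p c y ((i' : ℤ) - (i : ℤ)) = A * y ^ (i : ℕ) := by
  have hp0 : (p : ℤ) ≠ 0 := by exact_mod_cast NeZero.ne p
  -- the shifted family
  have h1 : HasSum (fun n : ℤ => c.coeff (n - i) * y ^ n) (A * y ^ (i : ℕ)) := by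
    have h0 : HasSum (fun n : ℤ => c.coeff n * y ^ n * y ^ (i : ℕ)) (A * y ^ (i : ℕ)) :=
      HasSum.mul_right _ h
    have := ((Equiv.subRight ((i : ℕ) : ℤ)).hasSum_iff
      (f := fun n : ℤ => c.coeff n * y ^ n * y ^ (i : ℕ)) (a := A * y ^ (i : ℕ))).mpr h0
    refine this.congr_fun ?_
    intro n
    simp only [Function.comp_apply, Equiv.subRight_apply]
    have : y ^ n = y ^ (n - (i : ℕ)) * y ^ (i : ℕ) := by
      rw [← zpow_natCast y (i : ℕ), ← zpow_add₀ hy]; congr 1; ring
    rw [this]; ring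
  -- split `n = m * p + i'`
  have h2 : HasSum (fun x : ℤ × Fin p =>
      c.coeff (x.1 * (p : ℤ) + ((x.2 : ℕ) : ℤ) - (i : ℕ)) * y ^ (x.1 * (p : ℤ) + ((x.2 : ℕ) : ℤ)))
      (A * y ^ (i : ℕ)) := by
    have := ((Int.divModEquiv p).symm.hasSum_iff
      (f := fun n : ℤ => c.coeff (n - i) * y ^ n) (a := A * y ^ (i : ℕ))).mpr h1
    refine this.congr_fun ?_
    intro x
    simp only [Function.comp_apply, Int.divModEquiv_symm_apply]
  have h3 : HasSum (fun m : ℤ => ∑ i' : Fin p,
      c.coeff (m * (p : ℤ) + ((i' : ℕ) : ℤ) - (i : ℕ)) * y ^ (m * (p : ℤ) + ((i' : ℕ) : ℤ)))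
      (A * y ^ (i : ℕ)) := by
    refine HasSum.prod_fiberwise h2 ?_
    intro m
    exact hasSum_fintype _
  have h4 : ∀ i' : Fin p, HasSum (fun m : ℤ =>
      c.coeff (m * (p : ℤ) + ((i' : ℕ) : ℤ) - (i : ℕ)) * y ^ (m * (p : ℤ) + ((i' : ℕ) : ℤ)))
      (y ^ (i' : ℕ) * secVal p c y ((i' : ℤ) - (i : ℤ))) := by
    intro i'
    have h5 := (h.hasLSum_secL p hy ((i' : ℤ) - (i : ℤ)))
    unfold HasLSum at h5
    have h6 := h5.mul_left (y ^ (i' : ℕ))
    refine h6.congr_fun ?_
    intro m
    simp only [secL_coeff]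
    have e1 : m * (p : ℤ) + ((i' : ℕ) : ℤ) - ((i : ℕ) : ℤ)
        = (p : ℤ) * m + (((i' : ℕ) : ℤ) - ((i : ℕ) : ℤ)) := by ring
    have e2 : y ^ (m * (p : ℤ) + ((i' : ℕ) : ℤ)) = y ^ (i' : ℕ) * (y ^ p) ^ m := by
      rw [zpow_add₀ hy, zpow_natCast, mul_comm m, zpow_mul, zpow_natCast, mul_comm]
    rw [e1, e2]; ring
  have h7 := hasSum_sum (s := Finset.univ) (fun i' _ => h4 i')
  exact (h7.unique h3)

end Fermat.Agent.S28.H807

end

end
-- ===== PACK-END S28/H807/Conv.lean

-- ===== PACK-BEGIN S18/Mod/Defs.lean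
section



/-!
# S18 / MOD — frozen CONCRETE objects at level `M` (row-lead helper18)

For a valuation subring `A` of `Q̄` and an intermediate field `E` of `Q̄/ℚ` (a number field in the
application) we define the sub-objects of `Ω := F_M = modularFunctionFieldBar M` that instantiate
`Alg.GoodModel`:

* `Lc M`       constants `Q̄`
* `Ec M E`     constants in `E`
* `Rc M A E`   constants in `A ∩ E`
* `Fc M E`     `E(j_d : d ∣ M)`
* `Vc M A E`   Gauss valuation ring: quotients `U₁/U₂` of series `U_i ∈ (A ∩ E)((q))` lying in `Fc`,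
               with `U₂ ≢ 0` mod the maximal ideal of `A`.

MOD deliverable: `GoodModelStatement` below.  GLUE deliverable: `GlueStatement` below (needed for
PRIME `m` only, see `Integ/Skeleton.lean`).

v4 = FINAL (landed on main): unchanged from v3 except that `Alg.GoodModel` has the new field
`x_mem_V` and `Alg.AlgMainStatement` is for prime `m`.
-/

set_option autoImplicit false

noncomputable section

namespace Fermat.Agent.S18.Mod

open ModularCurve AlgebraicCurve HahnSeries

/-- `Ω = F_M`, the function field of `X₀(M)` over `Q̄`, as a type. -/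
abbrev Om (M : ℕ) : Type := ↥(modularFunctionFieldBar M)

/-- The constants `Q̄ ⊆ Ω`. -/
def Lc (M : ℕ) : Subfield (Om M) := (algebraMap Qb (Om M)).fieldRange

/-- The constants from `E`. -/
def Ec (M : ℕ) (E : IntermediateField ℚ Qb) : Subfield (Om M) :=
  E.toSubfield.map (algebraMap Qb (Om M))

/-- The constants from `A ∩ E`. -/
def Rc (M : ℕ) (A : ValuationSubring Qb) (E : IntermediateField ℚ Qb) : Subring (Om M) :=
  (A.toSubring ⊓ E.toSubfield.toSubring).map (algebraMap Qb (Om M))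

/-- The generator `j(q^d)` of `Ω`. -/
def jd (M : ℕ) (d : ℕ) [NeZero d] (hd : d ∣ M) : Om M :=
  ⟨coeffEmb Qb (qExpand ℚ d jq), coeffEmb_mem_laurentBaseChange Qb (jqd_mem_full M hd)⟩

/-- `j ∈ Ω`. -/
def jOm (M : ℕ) : Om M := jd M 1 (one_dvd M)

/-- The set of generators `j(q^d)`, `d ∣ M`. -/
def gens (M : ℕ) : Set (Om M) := {y | ∃ (d : ℕ) (_ : NeZero d) (hd : d ∣ M), y = jd M d hd}

/-- `Fc = E(j_d : d ∣ M)`. -/
def Fc (M : ℕ) (E : IntermediateField ℚ Qb) : Subfield (Om M) :=
  Subfield.closure ((Ec M E : Set (Om M)) ∪ gens M)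

/-- A series over `A` is `E`-rational, lies in `Fc`, (and is automatically `A`-integral). -/
def IsIntE (M : ℕ) (A : ValuationSubring Qb) (E : IntermediateField ℚ Qb)
    (U : LaurentSeries A) : Prop :=
  (∀ n : ℤ, ((U.coeff n : A) : Qb) ∈ E) ∧
    ∃ f ∈ Fc M E, (f : LaurentSeries Qb) = coeffMap A.subtype U

/-- The Gauss valuation ring of `Fc`, as a set; it is a subring (part of the MOD deliverable). -/
def VcSet (M : ℕ) (A : ValuationSubring Qb) (E : IntermediateField ℚ Qb) : Set (Om M) :=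
  {f | f ∈ Fc M E ∧ ∃ U₁ U₂ : LaurentSeries A, IsIntE M A E U₁ ∧ IsIntE M A E U₂ ∧
    coeffMap (IsLocalRing.residue A) U₂ ≠ 0 ∧
    (f : LaurentSeries Qb) * coeffMap A.subtype U₂ = coeffMap A.subtype U₁}

/-- `x` is an admissible coordinate with finite branch set `S` for the residue characteristic `ℓ`:
`ℓ ≥ 5`: `x = j`, `S = {0, 1728}`;
`ℓ = 3`: `2 ∣ M`, `j x² = (x+256)³`, `S = {0, -64}`;
`ℓ = 2`: `3 ∣ M`, `j x³ = (x+27)(x+243)³`, `S = {0, -27}`;
in the last two cases `x` is the image of an integral series `q⁻¹ + …` lying in `ℚ(j_d : d ∣ M)`. -/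
def IsCoordinate (M ℓ : ℕ) (x : Om M) (S : Finset (Om M)) : Prop :=
  (5 ≤ ℓ ∧ x = jOm M ∧ ∀ s, s ∈ S ↔ s = 0 ∨ s = 1728) ∨
  ((ℓ = 3 ∧ jOm M * x ^ 2 = (x + 256) ^ 3 ∧ ∀ s, s ∈ S ↔ s = 0 ∨ s = -64) ∨
    (ℓ = 2 ∧ jOm M * x ^ 3 = (x + 27) * (x + 243) ^ 3 ∧ ∀ s, s ∈ S ↔ s = 0 ∨ s = -27)) ∧
   ∃ X : LaurentSeries ℤ, X.coeff (-1) = 1 ∧ (∀ k : ℤ, k < -1 → X.coeff k = 0) ∧
     (x : LaurentSeries Qb) = coeffMap (Int.castRingHom Qb) X ∧
     coeffMap (Int.castRingHom ℚ) X ∈ modularFunctionFieldFull M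

/-- The family of all concrete models: one for each intermediate field `E` of `Q̄/ℚ` that is
finite over `ℚ`, with `V` the subring with underlying set `VcSet M A E` and `w` any element. -/
def family (M : ℕ) (A : ValuationSubring Qb) : Set (Alg.Model (Om M)) :=
  {p | ∃ E : IntermediateField ℚ Qb, FiniteDimensional ℚ E ∧ p.1 = Ec M E ∧ p.2.1 = Fc M E ∧
    p.2.2.1 = Rc M A E ∧ (p.2.2.2.1 : Set (Om M)) = VcSet M A E}

/-- **MOD deliverable** (v3).  For every admissible coordinate `x` there is a directed family `𝓕`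
of good models, consisting of concrete models, and containing a model over a number field
`E ∋ T` for every finite set `T` of elements of `Q̄`. -/
def GoodModelStatement (M ℓ : ℕ) (A : ValuationSubring Qb) : Prop :=
  ∀ (x : Om M) (S : Finset (Om M)), IsCoordinate M ℓ x S →
    ∃ 𝓕 : Set (Alg.Model (Om M)), 𝓕 ⊆ family M A ∧ Alg.GoodFamily (Lc M) x S 𝓕 ∧
      ∀ T : Finset Qb, ∃ (E : IntermediateField ℚ Qb) (V : Subring (Om M)) (w : Om M),
        FiniteDimensional ℚ E ∧ (∀ a ∈ T, a ∈ E) ∧ (V : Set (Om M)) = VcSet M A E ∧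
        ((Ec M E, Fc M E, Rc M A E, V, w) : Alg.Model (Om M)) ∈ 𝓕

/-- **Existence of coordinates** (c3): for `ℓ ∤ M`, with `2 ∣ M` if `ℓ = 3` and `3 ∣ M` if `ℓ = 2`. -/
def CoordinateStatement (M ℓ : ℕ) : Prop :=
  ∃ (x : Om M) (S : Finset (Om M)), IsCoordinate M ℓ x S

/-- **ALG deliverable**, instantiated: `Alg.AlgMainStatement` for all arguments over `Ω = Om M`. -/
def AlgStatement (M : ℕ) : Prop :=
  ∀ (Lc : Subfield (Om M)) (x : Om M) (S : Finset (Om M)) (𝓕 : Set (Alg.Model (Om M))),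
    Alg.AlgMainStatement Lc x S 𝓕

/-- **GLUE deliverable** (d1): the hub statement at level `M` from MOD and ALG. -/
def GlueStatement (M ℓ : ℕ) (A : ValuationSubring Qb) (m : ℕ) : Prop :=
  CoordinateStatement M ℓ → GoodModelStatement M ℓ A → AlgStatement M → CoreStatement M A m

end Fermat.Agent.S18.Mod

end
end
-- ===== PACK-END S18/Mod/Defs.lean

-- ===== PACK-BEGIN S20/Comb694/RelIndex.lean
section





/-!
# Relative index of `Gamma0 (p * M)` in `Gamma0 M`

`(Gamma0 (p * M)).relIndex (Gamma0 M) = p` if `p ∣ M`, and `p + 1` otherwise (`p` prime, `M ≠ 0`).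
-/

set_option autoImplicit false

namespace Fermat.Agent.S20.Comb694

open Matrix MatrixGroups CongruenceSubgroup

lemma mem_Gamma0_iff_dvd (N : ℕ) (g : SL(2, ℤ)) : g ∈ Gamma0 N ↔ (N : ℤ) ∣ g 1 0 := by
  rw [Gamma0_mem]
  exact ZMod.intCast_zmod_eq_zero_iff_dvd _ _

lemma Gamma0_mul_le (p M : ℕ) : Gamma0 (p * M) ≤ Gamma0 M := by
  intro g hg
  rw [mem_Gamma0_iff_dvd] at hg ⊢
  refine dvd_trans ?_ hg
  push_cast
  exact dvd_mul_left _ _

/-- The matrix `[[1, 0], [c, 1]]` in `SL(2,ℤ)`. -/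
def lowRep (c : ℤ) : SL(2, ℤ) := ⟨!![1, 0; c, 1], by simp [Matrix.det_fin_two]⟩

@[simp] lemma lowRep_apply_zero_zero (c : ℤ) : lowRep c 0 0 = 1 := rfl
@[simp] lemma lowRep_apply_one_zero (c : ℤ) : lowRep c 1 0 = c := rfl

lemma lowRep_mem (M : ℕ) (t : ℤ) : lowRep ((M : ℤ) * t) ∈ Gamma0 M := by
  rw [mem_Gamma0_iff_dvd, lowRep_apply_one_zero]
  exact dvd_mul_right _ _

/-- Coset criterion for `Gamma0 M ⧸ (Gamma0 (p * M)).subgroupOf (Gamma0 M)`. -/
lemma subMk_eq_iff (p M : ℕ) (hM : M ≠ 0) (g g' : Gamma0 M) (c₁ c₁' : ℤ)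
    (hc : (g : SL(2, ℤ)) 1 0 = M * c₁) (hc' : (g' : SL(2, ℤ)) 1 0 = M * c₁') :
    (QuotientGroup.mk g : Gamma0 M ⧸ (Gamma0 (p * M)).subgroupOf (Gamma0 M))
        = QuotientGroup.mk g' ↔
      (p : ℤ) ∣ ((g : SL(2, ℤ)) 0 0 * c₁' - c₁ * (g' : SL(2, ℤ)) 0 0) := by
  rw [QuotientGroup.eq, Subgroup.mem_subgroupOf, mem_Gamma0_iff_dvd]
  simp only [Subgroup.coe_mul, Subgroup.coe_inv, inv_mul_apply_one_zero, hc, hc']
  have h : (g : SL(2, ℤ)) 0 0 * ((M : ℤ) * c₁') - (M : ℤ) * c₁ * (g' : SL(2, ℤ)) 0 0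
      = (M : ℤ) * ((g : SL(2, ℤ)) 0 0 * c₁' - c₁ * (g' : SL(2, ℤ)) 0 0) := by ring
  rw [h]
  push_cast
  rw [mul_comm (p : ℤ) (M : ℤ)]
  exact mul_dvd_mul_iff_left (by exact_mod_cast hM)

/-- For `g ∈ Gamma0 M` with `p ∣ M`, the entry `g 0 0` is nonzero mod `p`. -/
lemma a_ne_zero_of_dvd (p M : ℕ) (hp : p.Prime) (h : p ∣ M) (g : Gamma0 M) :
    ¬ (p : ℤ) ∣ (g : SL(2, ℤ)) 0 0 := by
  intro ha
  have hg := (mem_Gamma0_iff_dvd M _).mp g.2
  have hpc : (p : ℤ) ∣ (g : SL(2, ℤ)) 1 0 := dvd_trans (by exact_mod_cast h) hg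
  have hdet := (g : SL(2, ℤ)).det_coe
  rw [Matrix.det_fin_two] at hdet
  have h1 : (p : ℤ) ∣ 1 := by
    rw [← hdet]
    exact dvd_sub (dvd_mul_of_dvd_left ha _) (dvd_mul_of_dvd_right hpc _)
  have := Int.natCast_dvd_natCast.mp (by simpa using h1 : ((p : ℕ) : ℤ) ∣ ((1 : ℕ) : ℤ))
  exact hp.one_lt.ne' (Nat.dvd_one.mp this)

/-- The coset representative attached to `t : ZMod p`. -/
noncomputable def relRep (p M : ℕ) (t : ZMod p) :
    Gamma0 M ⧸ (Gamma0 (p * M)).subgroupOf (Gamma0 M) :=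
  QuotientGroup.mk ⟨lowRep ((M : ℤ) * (ZMod.cast t : ℤ)), lowRep_mem M _⟩

lemma relRep_injective (p M : ℕ) (hM : M ≠ 0) : Function.Injective (relRep p M) := by
  intro t t' h
  simp only [relRep] at h
  rw [subMk_eq_iff p M hM _ _ (ZMod.cast t : ℤ) (ZMod.cast t' : ℤ) rfl rfl] at h
  simp only [lowRep_apply_zero_zero, one_mul, mul_one] at h
  have := (ZMod.intCast_zmod_eq_zero_iff_dvd _ p).mpr h
  push_cast at this
  exact (sub_eq_zero.mp this).symm

/-- Elements with `p ∤ a` are in the range of `relRep`. -/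
lemma mem_range_relRep (p M : ℕ) (hM : M ≠ 0) (hp : p.Prime) (g : Gamma0 M)
    (ha : ¬ (p : ℤ) ∣ (g : SL(2, ℤ)) 0 0) :
    (QuotientGroup.mk g : Gamma0 M ⧸ (Gamma0 (p * M)).subgroupOf (Gamma0 M))
      ∈ Set.range (relRep p M) := by
  haveI : Fact p.Prime := ⟨hp⟩
  obtain ⟨c₁, hc₁⟩ := (mem_Gamma0_iff_dvd M _).mp g.2
  have ha' : (((g : SL(2, ℤ)) 0 0 : ℤ) : ZMod p) ≠ 0 := by
    rwa [Ne, ZMod.intCast_zmod_eq_zero_iff_dvd]
  refine ⟨(c₁ : ZMod p) * (((g : SL(2, ℤ)) 0 0 : ℤ) : ZMod p)⁻¹, ?_⟩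
  simp only [relRep]
  rw [subMk_eq_iff p M hM _ _ _ c₁ rfl hc₁]
  simp only [lowRep_apply_zero_zero, one_mul]
  rw [← ZMod.intCast_zmod_eq_zero_iff_dvd]
  push_cast
  rw [mul_assoc, inv_mul_cancel₀ ha', mul_one, sub_self]

/-- **Relative index, ramified case**: `[Γ₀(M) : Γ₀(pM)] = p` if `p ∣ M`. -/
theorem relIndex_Gamma0_of_dvd (p M : ℕ) (hM : M ≠ 0) (hp : p.Prime) (h : p ∣ M) :
    (Gamma0 (p * M)).relIndex (Gamma0 M) = p := by
  have hbij : Function.Bijective (relRep p M) := by
    refine ⟨relRep_injective p M hM, ?_⟩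
    intro q
    obtain ⟨g, rfl⟩ := QuotientGroup.mk_surjective q
    exact mem_range_relRep p M hM hp g (a_ne_zero_of_dvd p M hp h g)
  rw [Subgroup.relIndex, Subgroup.index, ← Nat.card_eq_of_bijective _ hbij, Nat.card_zmod]

/-- An element of `Gamma0 M` with first column `(p, M)`, for `p ∤ M`. -/
lemma exists_special (p M : ℕ) (hp : p.Prime) (h : ¬ p ∣ M) :
    ∃ g : Gamma0 M, (g : SL(2, ℤ)) 0 0 = p ∧ (g : SL(2, ℤ)) 1 0 = M := by
  have hcop : IsCoprime (p : ℤ) (M : ℤ) := by
    rw [Int.isCoprime_iff_gcd_eq_one, Int.gcd_natCast_natCast]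
    exact (Nat.Prime.coprime_iff_not_dvd hp).mpr h
  obtain ⟨g, hg0, hg1⟩ := IsCoprime.exists_SL2_col hcop 0
  refine ⟨⟨g, ?_⟩, hg0, hg1⟩
  rw [mem_Gamma0_iff_dvd, hg1]

/-- **Relative index, unramified case**: `[Γ₀(M) : Γ₀(pM)] = p + 1` if `p ∤ M`. -/
theorem relIndex_Gamma0_of_not_dvd (p M : ℕ) (hM : M ≠ 0) (hp : p.Prime) (h : ¬ p ∣ M) :
    (Gamma0 (p * M)).relIndex (Gamma0 M) = p + 1 := by
  haveI : Fact p.Prime := ⟨hp⟩
  obtain ⟨g₀, hg₀0, hg₀1⟩ := exists_special p M hp h
  let f : Option (ZMod p) → Gamma0 M ⧸ (Gamma0 (p * M)).subgroupOf (Gamma0 M) :=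
    fun o => o.elim (QuotientGroup.mk g₀) (relRep p M)
  have hne : ∀ t : ZMod p, relRep p M t ≠ QuotientGroup.mk g₀ := by
    intro t ht
    simp only [relRep] at ht
    rw [subMk_eq_iff p M hM _ _ (ZMod.cast t : ℤ) 1 rfl (by rw [hg₀1, mul_one])] at ht
    simp only [lowRep_apply_zero_zero, one_mul, hg₀0] at ht
    have h1 : (p : ℤ) ∣ 1 := by
      have := dvd_add ht (dvd_mul_left (p : ℤ) (ZMod.cast t : ℤ))
      simpa using this
    have := Int.natCast_dvd_natCast.mp (by simpa using h1 : ((p : ℕ) : ℤ) ∣ ((1 : ℕ) : ℤ))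
    exact hp.one_lt.ne' (Nat.dvd_one.mp this)
  have hbij : Function.Bijective f := by
    constructor
    · rintro (_ | t) (_ | t') hh
      · rfl
      · exact absurd hh.symm (hne t')
      · exact absurd hh (hne t)
      · exact congrArg some (relRep_injective p M hM hh)
    · intro q
      obtain ⟨g, rfl⟩ := QuotientGroup.mk_surjective q
      by_cases ha : (p : ℤ) ∣ (g : SL(2, ℤ)) 0 0
      · refine ⟨none, ?_⟩
        obtain ⟨c₁, hc₁⟩ := (mem_Gamma0_iff_dvd M _).mp g.2
        show QuotientGroup.mk g₀ = _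
        rw [subMk_eq_iff p M hM _ _ 1 c₁ (by rw [hg₀1, mul_one]) hc₁, hg₀0]
        exact dvd_sub (dvd_mul_right _ _) (by simpa using ha)
      · obtain ⟨t, ht⟩ := mem_range_relRep p M hM hp g ha
        exact ⟨some t, ht⟩
  rw [Subgroup.relIndex, Subgroup.index, ← Nat.card_eq_of_bijective _ hbij, Finite.card_option,
    Nat.card_zmod]

end Fermat.Agent.S20.Comb694

end
-- ===== PACK-END S20/Comb694/RelIndex.lean

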