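import Mathlib.NumberTheory.ModularForms.EisensteinSeries.QExpansion
import Mathlib.NumberTheory.ModularForms.LevelOne.DimensionFormula
import Mathlib.Analysis.Analytic.Order
import Mathlib
import Fermat.Prelude.Def_ModularCurve_X0ModL
import Fermat.Prelude.Def_ModularCurve_ReductionModL
import Fermat.Prelude.Def_ModularCurve_ArithmeticGalois
import Fermat.Agent.Pack.S34.G0E0L2
import Fermat.Agent.Pack.S34.G0E0L1
import Fermat.Agent.Pack.S34.G0E0L0
import Fermat.Agent.Pack.S34.G0E0L3
import Fermat.Agent.Pack.S34.G0E1L2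
import Fermat.Agent.Pack.S34.G0E1L0
import Fermat.Agent.Pack.S34.G0E1L1

-- ===== PACK-BEGIN S21/DefsMS.lean
section


/-!
# S21 — definitions for the minimizing-sequence part (MS)
-/

set_option autoImplicit false

open UpperHalfPlane CongruenceSubgroup
open scoped MatrixGroups ContDiff

namespace Fermat.Agent.S21

/-- Test functions: smooth, compactly supported in the upper half plane. -/
def IsTest (η : ℂ → ℝ) : Prop :=
  ContDiff ℝ ∞ η ∧ HasCompactSupport η ∧ tsupport η ⊆ Uhp

/-- The properties of a smooth `SL(2,ℤ)`-partition of unity (output of MS-A). -/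
structure IsSL2ZPartition (χ₁ : ℂ → ℝ) : Prop where
  smooth : ContDiffOn ℝ ∞ χ₁ Uhp
  nonneg : ∀ z, 0 ≤ χ₁ z
  supp : ∀ z, χ₁ z ≠ 0 → |z.re| ≤ 1 ∧ 1 / 2 < z.im
  locfin : ∀ K : Set ℂ, IsCompact K → K ⊆ Uhp →
    {g : SL(2, ℤ) | ∃ z ∈ K, χ₁ (mob g z) ≠ 0}.Finite
  sum_eq_one : ∀ z ∈ Uhp, ∑ᶠ g : SL(2, ℤ), χ₁ (mob g z) = 1

/-- The `Γ₀(N)`-partition of unity built from an `SL(2,ℤ)`-partition `χ₁`
(sum over representatives of the left cosets `g Γ₀(N)`), extended by `0` off the upper half
plane. -/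
noncomputable def chi (N : ℕ) (χ₁ : ℂ → ℝ) : ℂ → ℝ :=
  Set.indicator Uhp fun z => ∑ᶠ q : SL(2, ℤ) ⧸ Gamma0 N, χ₁ (mob (Quotient.out q) z)

/-- `Γ₀(N)`-symmetrization of a test function. -/
noncomputable def sym (N : ℕ) (η : ℂ → ℝ) : ℂ → ℝ :=
  fun z => ∑ᶠ γ : Gamma0 N, η (mob (γ : SL(2, ℤ)) z)

end Fermat.Agent.S21

end
-- ===== PACK-END S21/DefsMS.lean

-- ===== PACK-BEGIN S24/JFun/QExp.lean
section






/-!
# The `q`-expansion of the analytic `j`-function is the formal `j` of the Prelude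

Main results:
* `qExpansion_E₄` : `qExpansion 1 E₄ = ModularCurve.eisenstein4.map (Int.castRingHom ℂ)`;
* `qExpansion_qj` : `qExpansion 1 (τ ↦ q(τ) * j(τ)) = ModularCurve.jNum.map (Int.castRingHom ℂ)`;
* `hasSum_qj` : `q * j(τ) = ∑ jNum_n q ^ n` for every `τ : ℍ`.
-/

set_option autoImplicit false

namespace Fermat.Agent.S24.JFun

open Filter Topology Complex Metric Function
open UpperHalfPlane hiding I
open ModularForm EisensteinSeries MatrixGroups
open scoped Manifold

local notation "𝕢" => Function.Periodic.qParam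

/-- The analytic Euler product `∏ (1 - q ^ (n+1))` as a function of `τ`. -/
noncomputable def eulerFun : ℍ → ℂ := ofQ (fun q : ℂ => ∏' n : ℕ, (1 - q ^ (n + 1)))

theorem eulerFun_apply (τ : ℍ) :
    eulerFun τ = ∏' n : ℕ, (1 - 𝕢 1 (τ : ℂ) ^ (n + 1)) := rfl

theorem eulerFun_pow_eq_ofQ (k : ℕ) :
    (fun τ => eulerFun τ ^ k) = ofQ (fun q : ℂ => (∏' n : ℕ, (1 - q ^ (n + 1))) ^ k) := rfl

theorem differentiableOn_euler_pow (k : ℕ) :
    DifferentiableOn ℂ (fun q : ℂ => (∏' n : ℕ, (1 - q ^ (n + 1))) ^ k) (ball 0 1) :=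
  ModularForm.differentiableOn_tprod_one_sub_pow.fun_pow k

theorem analyticAt_eulerFun_pow (k : ℕ) :
    AnalyticAt ℂ (cuspFunction 1 (fun τ => eulerFun τ ^ k)) 0 := by
  rw [eulerFun_pow_eq_ofQ]
  exact ofQ_analyticAt (differentiableOn_euler_pow k)

theorem analyticAt_eulerFun : AnalyticAt ℂ (cuspFunction 1 eulerFun) 0 :=
  ofQ_analyticAt ModularForm.differentiableOn_tprod_one_sub_pow

/-- The `q`-expansion of the analytic Euler product is the formal Euler product. -/
theorem qExpansion_eulerFun :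
    qExpansion 1 eulerFun = ModularCurve.etaProd.map (Int.castRingHom ℂ) := by
  ext m
  rw [eulerFun, qExpansion_ofQ_coeff ModularForm.differentiableOn_tprod_one_sub_pow,
    iteratedDeriv_tprod_one_sub_pow, PowerSeries.coeff_map]
  have hm : (m.factorial : ℂ) ≠ 0 := by exact_mod_cast Nat.factorial_ne_zero m
  simp only [eq_intCast]
  field_simp

theorem qExpansion_eulerFun_pow (k : ℕ) :
    qExpansion 1 (fun τ => eulerFun τ ^ k)
      = (ModularCurve.etaProd.map (Int.castRingHom ℂ)) ^ k := by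
  induction k with
  | zero =>
    have h : (fun τ : ℍ => eulerFun τ ^ 0) = (1 : ℍ → ℂ) := by
      funext τ
      simp
    rw [h, qExpansion_one, pow_zero]
  | succ k ih =>
    have h : (fun τ : ℍ => eulerFun τ ^ (k + 1)) = (fun τ => eulerFun τ ^ k) * eulerFun := by
      funext τ
      simp [pow_succ]
    rw [h, qExpansion_mul (analyticAt_eulerFun_pow k) analyticAt_eulerFun, ih,
      qExpansion_eulerFun, pow_succ]

/-- The discriminant as `q` times the 24-th power of the Euler product. -/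
theorem discriminant_eq_q_mul_eulerFun (τ : ℍ) :
    ModularForm.discriminant τ = 𝕢 1 (τ : ℂ) * eulerFun τ ^ 24 := by
  rw [discriminant_eq_q_prod, eulerFun_apply]
  congr 1
  have hm : Multipliable (fun n : ℕ => (1 - 𝕢 1 (τ : ℂ) ^ (n + 1))) :=
    (ModularForm.multipliableLocallyUniformlyOn_one_sub_pow.multipliable
      (qParam_one_mem_ball τ))
  exact hm.tprod_pow 24

/-- The `q`-expansion of `E₄` is the formal Eisenstein series of the Prelude. -/
theorem qExpansion_E₄ :
    qExpansion 1 E₄ = ModularCurve.eisenstein4.map (Int.castRingHom ℂ) := by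
  ext m
  rw [PowerSeries.coeff_map, ModularCurve.eisenstein4, PowerSeries.coeff_mk]
  have h := E_qExpansion_coeff (k := 4) (by norm_num) ⟨2, rfl⟩ m
  have hE : (qExpansion 1 E₄).coeff m = (qExpansion 1 (E (k := 4) (by norm_num))).coeff m := rfl
  rw [hE, h]
  by_cases hm : m = 0
  · simp [hm]
  · simp only [hm, if_false]
    rw [show bernoulli 4 = -1 / 30 by decide +kernel, ArithmeticFunction.sigma_apply]
    push_cast
    norm_num

theorem analyticAt_E₄ : AnalyticAt ℂ (cuspFunction 1 (E₄ : ℍ → ℂ)) 0 :=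
  ModularFormClass.analyticAt_cuspFunction_zero E₄ one_pos one_mem_strictPeriods_SL

theorem qExpansion_E₄_cube :
    qExpansion 1 (fun τ => E₄ τ ^ 3)
      = (ModularCurve.eisenstein4.map (Int.castRingHom ℂ)) ^ 3 := by
  have h2 : (fun τ : ℍ => E₄ τ ^ 2) = (E₄ : ℍ → ℂ) * (E₄ : ℍ → ℂ) := by
    funext τ
    simp [pow_two]
  have h3 : (fun τ : ℍ => E₄ τ ^ 3) = (fun τ : ℍ => E₄ τ ^ 2) * (E₄ : ℍ → ℂ) := by
    funext τ
    simp [pow_succ]
  have ha2 : AnalyticAt ℂ (cuspFunction 1 (fun τ : ℍ => E₄ τ ^ 2)) 0 := by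
    rw [h2, cuspFunction_mul analyticAt_E₄.continuousAt analyticAt_E₄.continuousAt]
    exact analyticAt_E₄.mul analyticAt_E₄
  rw [h3, qExpansion_mul ha2 analyticAt_E₄, h2, qExpansion_mul analyticAt_E₄ analyticAt_E₄,
    qExpansion_E₄]
  ring

/-- The function `τ ↦ q(τ) * j(τ)`, holomorphic at the cusp. -/
noncomputable def qjFun (τ : ℍ) : ℂ := 𝕢 1 (τ : ℂ) * jFun τ

theorem qjFun_apply (τ : ℍ) : qjFun τ = 𝕢 1 (τ : ℂ) * jFun τ := rfl

theorem qParam_one_ne_zero (z : ℂ) : 𝕢 1 z ≠ 0 := by
  unfold Function.Periodic.qParam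
  exact Complex.exp_ne_zero _

theorem eulerFun_ne_zero (τ : ℍ) : eulerFun τ ≠ 0 := by
  intro h
  have := discriminant_ne_zero τ
  rw [discriminant_eq_q_mul_eulerFun, h] at this
  simp at this

theorem qjFun_mul_eulerFun (τ : ℍ) : qjFun τ * eulerFun τ ^ 24 = E₄ τ ^ 3 := by
  rw [qjFun_apply, ← jFun_mul_discriminant, discriminant_eq_q_mul_eulerFun]
  ring

theorem qjFun_eq (τ : ℍ) : qjFun τ = E₄ τ ^ 3 / eulerFun τ ^ 24 := by
  rw [← qjFun_mul_eulerFun, mul_div_cancel_right₀ _ (pow_ne_zero _ (eulerFun_ne_zero τ))]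

theorem jFun_vadd (τ : ℍ) : jFun ((1 : ℝ) +ᵥ τ) = jFun τ := by
  rw [← UpperHalfPlane.modular_T_smul, jFun_smul]

theorem qjFun_vadd (τ : ℍ) : qjFun ((1 : ℝ) +ᵥ τ) = qjFun τ := by
  rw [qjFun_apply, qjFun_apply, qParam_one_vadd, jFun_vadd]

theorem qjFun_periodic : Periodic (qjFun ∘ ofComplex) ((1 : ℝ) : ℂ) :=
  periodic_comp_ofComplex_of_vadd qjFun_vadd

theorem mdiff_qParam : MDiff (fun τ : ℍ => 𝕢 1 (τ : ℂ)) :=
  ofQ_mdiff (g := fun q => q) differentiableOn_id

theorem qjFun_mdiff : MDiff qjFun :=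
  mdiff_qParam.mul jFun_mdifferentiable

theorem tendsto_eulerFun : Tendsto eulerFun atImInfty (𝓝 1) := by
  have h := ofQ_tendsto ModularForm.differentiableOn_tprod_one_sub_pow
  simpa [eulerFun] using h

theorem E₄_bdd : IsBoundedAtImInfty (fun τ : ℍ => E₄ τ) :=
  ModularFormClass.bdd_at_infty E₄

theorem qjFun_bdd : IsBoundedAtImInfty qjFun := by
  have h1 : IsBoundedAtImInfty (fun τ : ℍ => E₄ τ ^ 3) := by
    have := (E₄_bdd.mul E₄_bdd).mul E₄_bdd
    refine this.congr' ?_ (EventuallyEq.refl _ _)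
    exact Eventually.of_forall fun τ => by simp [pow_succ]
  have h2 : Tendsto (fun τ : ℍ => (eulerFun τ ^ 24)⁻¹) atImInfty (𝓝 1) := by
    have := (tendsto_eulerFun.pow 24).inv₀ (by simp)
    simpa using this
  have h3 : IsBoundedAtImInfty (fun τ : ℍ => (eulerFun τ ^ 24)⁻¹) := h2.isBigO_one ℝ
  have h4 := h1.mul h3
  refine h4.congr' ?_ (EventuallyEq.refl _ _)
  exact Eventually.of_forall fun τ => by
    simp only [Pi.mul_apply]
    rw [qjFun_eq, div_eq_mul_inv]

theorem analyticAt_qjFun : AnalyticAt ℂ (cuspFunction 1 qjFun) 0 :=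
  analyticAt_cuspFunction_zero one_pos qjFun_periodic qjFun_mdiff qjFun_bdd

/-- **Bridge**: the `q`-expansion of `q · j` is the Prelude's formal power series `jNum`. -/
theorem qExpansion_qjFun :
    qExpansion 1 qjFun = ModularCurve.jNum.map (Int.castRingHom ℂ) := by
  have hfun : qjFun * (fun τ => eulerFun τ ^ 24) = fun τ => E₄ τ ^ 3 := by
    funext τ
    exact qjFun_mul_eulerFun τ
  have h1 : qExpansion 1 qjFun * (ModularCurve.etaProd.map (Int.castRingHom ℂ)) ^ 24
      = (ModularCurve.eisenstein4.map (Int.castRingHom ℂ)) ^ 3 := by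
    rw [← qExpansion_eulerFun_pow, ← qExpansion_mul analyticAt_qjFun (analyticAt_eulerFun_pow 24),
      hfun, qExpansion_E₄_cube]
  have h2 : ModularCurve.jNum * ModularCurve.etaProd ^ 24 = ModularCurve.eisenstein4 ^ 3 := by
    have h := ModularCurve.dedekindEtaUnit_mul_inv
    rw [ModularCurve.dedekindEtaUnit] at h
    rw [ModularCurve.jNum, mul_assoc, mul_comm ModularCurve.dedekindEtaUnitInv, h, mul_one]
  have h3 : (ModularCurve.jNum.map (Int.castRingHom ℂ))
      * (ModularCurve.etaProd.map (Int.castRingHom ℂ)) ^ 24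
      = (ModularCurve.eisenstein4.map (Int.castRingHom ℂ)) ^ 3 := by
    rw [← map_pow, ← map_pow, ← map_mul, h2]
  have hne : (ModularCurve.etaProd.map (Int.castRingHom ℂ)) ^ 24 ≠ 0 := by
    apply pow_ne_zero
    intro h0
    have hc := congrArg (PowerSeries.coeff 0) h0
    rw [PowerSeries.coeff_map, PowerSeries.coeff_zero_eq_constantCoeff,
      ModularCurve.constantCoeff_etaProd] at hc
    simp at hc
  exact mul_right_cancel₀ hne (h1.trans h3.symm)

/-- **Bridge, summation form**: `q · j(τ) = ∑ₙ jNumₙ qⁿ` for every `τ` in the upper half plane. -/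
theorem hasSum_qjFun (τ : ℍ) :
    HasSum (fun n : ℕ => ((ModularCurve.jNum.coeff n : ℤ) : ℂ) * 𝕢 1 (τ : ℂ) ^ n)
      (𝕢 1 (τ : ℂ) * jFun τ) := by
  have h := hasSum_qExpansion one_pos qjFun_periodic qjFun_mdiff qjFun_bdd τ
  rw [qExpansion_qjFun, qjFun_apply] at h
  simpa [PowerSeries.coeff_map, smul_eq_mul] using h

end Fermat.Agent.S24.JFun

end
-- ===== PACK-END S24/JFun/QExp.lean

-- ===== PACK-BEGIN S24/H624/Taylor.lean
section


/-!
# Taylor expansion at a point of the upper half-plane as an injective algebra hom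
-/

set_option autoImplicit false

namespace Fermat.Agent.S24.H624

open UpperHalfPlane Complex
open scoped Manifold Topology

/-- `n`-th Taylor coefficient at `τ` (in the coordinate `z - τ`). -/
noncomputable def taylorCoeff (τ : ℍ) (f : ℍ → ℂ) (n : ℕ) : ℂ :=
  iteratedDeriv n (f ∘ ofComplex) (τ : ℂ) / (n.factorial : ℂ)

theorem contDiffAt_of_mdiff {f : ℍ → ℂ} (hf : MDiff f) (τ : ℍ) (n : ℕ∞) :
    ContDiffAt ℂ n (f ∘ ofComplex) (τ : ℂ) :=
  (analyticAt_of_mdiff hf τ).contDiffAt.of_le (by exact_mod_cast le_top)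

theorem taylorCoeff_add {f g : ℍ → ℂ} (hf : MDiff f) (hg : MDiff g) (τ : ℍ) (n : ℕ) :
    taylorCoeff τ (f + g) n = taylorCoeff τ f n + taylorCoeff τ g n := by
  unfold taylorCoeff
  have : ((f + g) ∘ ofComplex) = (f ∘ ofComplex) + (g ∘ ofComplex) := rfl
  rw [this, iteratedDeriv_add (contDiffAt_of_mdiff hf τ n) (contDiffAt_of_mdiff hg τ n), add_div]

theorem taylorCoeff_const (c : ℂ) (τ : ℍ) (n : ℕ) :
    taylorCoeff τ (fun _ => c) n = if n = 0 then c else 0 := by
  unfold taylorCoeff
  have : ((fun _ : ℍ => c) ∘ ofComplex) = fun _ : ℂ => c := rfl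
  rw [this]
  rcases n with _ | n
  · simp
  · rw [iteratedDeriv_succ']
    simp

theorem taylorCoeff_mul {f g : ℍ → ℂ} (hf : MDiff f) (hg : MDiff g) (τ : ℍ) (n : ℕ) :
    taylorCoeff τ (f * g) n
      = ∑ p ∈ Finset.HasAntidiagonal.antidiagonal n,
          taylorCoeff τ f p.1 * taylorCoeff τ g p.2 := by
  unfold taylorCoeff
  have : ((f * g) ∘ ofComplex) = (f ∘ ofComplex) * (g ∘ ofComplex) := rfl
  rw [this, iteratedDeriv_mul (contDiffAt_of_mdiff hf τ n) (contDiffAt_of_mdiff hg τ n),
    Finset.Nat.sum_antidiagonal_eq_sum_range_succ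
      (fun i j => iteratedDeriv i (f ∘ ofComplex) (τ : ℂ) / (i.factorial : ℂ)
        * (iteratedDeriv j (g ∘ ofComplex) (τ : ℂ) / (j.factorial : ℂ))) n,
    Finset.sum_div]
  refine Finset.sum_congr rfl fun i hi => ?_
  have hi' : i ≤ n := Nat.lt_succ_iff.mp (Finset.mem_range.mp hi)
  have h1 : (n.choose i : ℂ) = (n.factorial : ℂ) / ((i.factorial : ℂ) * ((n - i).factorial : ℂ)) := by
    rw [Nat.choose_eq_factorial_div_factorial hi']
    rw [Nat.cast_div (Nat.factorial_mul_factorial_dvd_factorial hi')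
      (by exact_mod_cast (Nat.mul_pos (Nat.factorial_pos _) (Nat.factorial_pos _)).ne')]
    push_cast
    rfl
  rw [h1]
  have hn : (n.factorial : ℂ) ≠ 0 := by exact_mod_cast (Nat.factorial_pos n).ne'
  have hi0 : (i.factorial : ℂ) ≠ 0 := by exact_mod_cast (Nat.factorial_pos i).ne'
  have hni : ((n - i).factorial : ℂ) ≠ 0 := by exact_mod_cast (Nat.factorial_pos (n - i)).ne'
  field_simp

/-- Taylor expansion at `τ` as a `ℂ`-algebra hom from holomorphic functions to power series. -/
noncomputable def taylorAt (τ : ℍ) : holoRing →ₐ[ℂ] PowerSeries ℂ where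
  toFun f := PowerSeries.mk (taylorCoeff τ (f : ℍ → ℂ))
  map_one' := by
    ext n
    rw [PowerSeries.coeff_mk, PowerSeries.coeff_one]
    exact taylorCoeff_const 1 τ n
  map_mul' f g := by
    ext n
    rw [PowerSeries.coeff_mk, PowerSeries.coeff_mul]
    simp only [PowerSeries.coeff_mk]
    exact taylorCoeff_mul f.2 g.2 τ n
  map_zero' := by
    ext n
    rw [PowerSeries.coeff_mk, map_zero]
    have := taylorCoeff_const 0 τ n
    rw [show (((0 : holoRing) : ℍ → ℂ)) = fun _ => (0 : ℂ) from rfl, this]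
    simp
  map_add' f g := by
    ext n
    rw [PowerSeries.coeff_mk, map_add, PowerSeries.coeff_mk, PowerSeries.coeff_mk]
    exact taylorCoeff_add f.2 g.2 τ n
  commutes' c := by
    ext n
    rw [PowerSeries.coeff_mk]
    have := taylorCoeff_const c τ n
    rw [show ((algebraMap ℂ holoRing c : holoRing) : ℍ → ℂ) = fun _ => c from rfl, this]
    rw [PowerSeries.algebraMap_apply, Algebra.algebraMap_self, RingHom.id_apply, PowerSeries.coeff_C]

@[simp]
theorem coeff_taylorAt (τ : ℍ) (f : holoRing) (n : ℕ) :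
    PowerSeries.coeff n (taylorAt τ f) = taylorCoeff τ (f : ℍ → ℂ) n := by
  show PowerSeries.coeff n (PowerSeries.mk (taylorCoeff τ (f : ℍ → ℂ))) = _
  rw [PowerSeries.coeff_mk]

theorem taylorCoeff_zero_idx (τ : ℍ) (f : ℍ → ℂ) : taylorCoeff τ f 0 = f τ := by
  simp [taylorCoeff, Function.comp_apply, ofComplex_apply]

theorem taylorCoeff_eq_zero_iff (τ : ℍ) (f : ℍ → ℂ) (n : ℕ) :
    taylorCoeff τ f n = 0 ↔ iteratedDeriv n (f ∘ ofComplex) (τ : ℂ) = 0 := by
  unfold taylorCoeff
  have hn : (n.factorial : ℂ) ≠ 0 := by exact_mod_cast (Nat.factorial_pos n).ne'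
  rw [div_eq_zero_iff]
  simp [hn]

/-- The order of the Taylor series is the analytic order of vanishing. -/
theorem order_taylorAt (τ : ℍ) (f : holoRing) :
    (taylorAt τ f).order = ordAt τ (f : ℍ → ℂ) := by
  have han := analyticAt_of_mdiff f.2 τ
  by_cases h0 : f = 0
  · subst h0
    rw [map_zero, PowerSeries.order_zero]
    exact (ordAt_zero τ).symm
  · have hne : ordAt τ (f : ℍ → ℂ) ≠ ⊤ :=
      ordAt_ne_top f.2 (fun h => h0 (Subtype.ext h)) τ
    obtain ⟨n, hn⟩ := ENat.ne_top_iff_exists.mp hne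
    rw [← hn]
    have key := (analyticOrderAt_eq_nat_iff_iteratedDeriv_eq_zero han (n := n)).mp
      (by rw [← ordAt_def]; exact hn.symm)
    rw [PowerSeries.order_eq_nat]
    refine ⟨?_, fun i hi => ?_⟩
    · rw [coeff_taylorAt, Ne, taylorCoeff_eq_zero_iff]
      exact key.2
    · rw [coeff_taylorAt, taylorCoeff_eq_zero_iff]
      exact key.1 i hi

theorem taylorAt_injective (τ : ℍ) : Function.Injective (taylorAt τ) := by
  rw [injective_iff_map_eq_zero]
  intro f hf
  by_contra h0
  have h1 := order_taylorAt τ f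
  rw [hf, PowerSeries.order_zero] at h1
  exact ordAt_ne_top f.2 (fun h => h0 (Subtype.ext h)) τ h1.symm

end Fermat.Agent.S24.H624

end
-- ===== PACK-END S24/H624/Taylor.lean

-- ===== PACK-BEGIN S24/M7/H47Level1.lean
section



/-!
# S24 / M1 items D3, D4 (helper47): level-one facts about `j = E₄³ / Δ`

* `exists_E₄_cube_eq_mul_discriminant`, `jFun_surjective` : `j : ℍ → ℂ` is surjective
  (if `E₄³ - c Δ` had no zero, its inverse would be a level-one form of weight `-12`).
* `jFun_smul` : `j` is `SL(2, ℤ)`-invariant.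
* `E₆_I`, `E₄_rho` : `E₆(i) = 0`, `E₄(ρ) = 0`; `jFun_I`, `jFun_rho`; `S_smul_I`, `ST_smul_rho`.
* `analyticOrderAt_jFun_sub_*` : the order of `j - j(z₀)` at `z₀` is `3`, `2`, `1` according to
  `E₄ z₀ = 0`, `E₆ z₀ = 0`, neither.

Built on helper140's `Fermat.Agent.S20.L1.Ramanujan` (Ramanujan identities, `jFun`, `D_jFun`).
-/

set_option autoImplicit false

open UpperHalfPlane ModularForm EisensteinSeries Derivative Filter Topology
open scoped MatrixGroups Manifold

noncomputable section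

namespace Fermat.Agent.S24.M7.H47

open Fermat.Agent.S20.L1

local notation "Δ" => ModularForm.discriminant


/-- Function-level transformation law from slash invariance. -/
lemma smul_eq_of_slash_eq {k : ℤ} {F : ℍ → ℂ} {γ : SL(2, ℤ)} (h : F ∣[k] γ = F) (z : ℍ) :
    F (γ • z) = denom γ z ^ k * F z := by
  have h1 := congrFun h z
  rw [SL_slash_apply] at h1
  have hd : denom γ z ≠ 0 := denom_ne_zero _ _
  rw [← h1, mul_comm, mul_assoc, ← zpow_add₀ hd]
  simp

lemma discriminant_smul_eq (γ : SL(2, ℤ)) (z : ℍ) :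
    Δ (γ • z) = denom γ z ^ (12 : ℤ) * Δ z :=
  smul_eq_of_slash_eq
    (SlashInvariantFormClass.slash_action_eq CuspForm.discriminant _ ⟨γ, rfl⟩) z

lemma E₄_smul_eq (γ : SL(2, ℤ)) (z : ℍ) :
    E₄ (γ • z) = denom γ z ^ (4 : ℤ) * E₄ z :=
  smul_eq_of_slash_eq (levelOne_slash_eq E₄ γ) z

lemma E₆_smul_eq (γ : SL(2, ℤ)) (z : ℍ) :
    E₆ (γ • z) = denom γ z ^ (6 : ℤ) * E₆ z :=
  smul_eq_of_slash_eq (levelOne_slash_eq E₆ γ) z

/-- The weight-12 numerator `E₄³ - c Δ` of `j - c`. -/
def jNum (c : ℂ) : ℍ → ℂ := fun z ↦ E₄ z ^ 3 - c * Δ z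

lemma mdiff_jNum (c : ℂ) : MDiff (jNum c) := by
  have h : jNum c = (E₄ : ℍ → ℂ) ^ 3 - c • (Δ : ℍ → ℂ) := by
    funext z; simp [jNum]
  rw [h]
  exact (mdiff_E₄.pow 3).sub (mdiff_discriminant.const_smul _)

lemma jNum_smul (c : ℂ) (γ : SL(2, ℤ)) (z : ℍ) :
    jNum c (γ • z) = denom γ z ^ (12 : ℤ) * jNum c z := by
  have hd : denom γ z ≠ 0 := denom_ne_zero _ _
  simp only [jNum, discriminant_smul_eq, E₄_smul_eq]
  rw [mul_pow, ← zpow_natCast (denom γ z ^ (4:ℤ)) 3, ← zpow_mul]
  norm_num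
  ring

lemma tendsto_jNum (c : ℂ) : Tendsto (jNum c) atImInfty (𝓝 1) := by
  have h1 : Tendsto (fun z : ℍ ↦ E₄ z ^ 3) atImInfty (𝓝 (1 ^ 3)) := tendsto_E₄.pow 3
  have h2 : Tendsto (fun z : ℍ ↦ c * Δ z) atImInfty (𝓝 (c * 0)) :=
    (discriminant_isZeroAtImInfty).const_mul c
  have h3 := h1.sub h2
  simp only [one_pow, mul_zero, sub_zero] at h3
  exact h3

/-- `E₄³ - c Δ` has a zero on `ℍ`, for every `c`. -/
theorem exists_jNum_eq_zero (c : ℂ) : ∃ z : ℍ, jNum c z = 0 := by
  by_contra hne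
  replace hne : ∀ z : ℍ, jNum c z ≠ 0 := fun z hz ↦ hne ⟨z, hz⟩
  have hol : MDiff (fun z ↦ (1 : ℂ) / jNum c z) :=
    (mdifferentiable_const (c := (1:ℂ))).div (mdiff_jNum c) hne
  have inv : ∀ γ : SL(2, ℤ), (fun z ↦ (1 : ℂ) / jNum c z) ∣[(-12 : ℤ)] γ
      = fun z ↦ (1 : ℂ) / jNum c z := by
    intro γ
    funext z
    have hd : denom γ z ≠ 0 := denom_ne_zero _ _
    rw [SL_slash_apply, jNum_smul]
    have := hne z
    simp only [neg_neg]
    field_simp
  have bdd : IsBoundedAtImInfty (fun z ↦ (1 : ℂ) / jNum c z) := by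
    have h : Tendsto (fun z ↦ (1 : ℂ) / jNum c z) atImInfty (𝓝 (1 / 1)) :=
      (tendsto_const_nhds).div (tendsto_jNum c) one_ne_zero
    exact h.isBigO_one ℝ
  have h0 := ModularFormClass.levelOne_neg_weight_eq_zero (by norm_num)
    (mkLevelOne (-12) _ hol inv bdd)
  have h1 := congrFun h0 UpperHalfPlane.I
  simp only [coe_mkLevelOne, Pi.zero_apply, one_div, inv_eq_zero] at h1
  exact hne _ h1

/-- For every `c : ℂ` there is `z ∈ ℍ` with `E₄(z)³ = c Δ(z)`. -/
theorem exists_E₄_cube_eq_mul_discriminant (c : ℂ) : ∃ z : ℍ, E₄ z ^ 3 = c * Δ z := by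
  obtain ⟨z, hz⟩ := exists_jNum_eq_zero c
  exact ⟨z, sub_eq_zero.mp hz⟩

/-- **`j` is surjective.** -/
theorem jFun_surjective : Function.Surjective jFun := by
  intro c
  obtain ⟨z, hz⟩ := exists_E₄_cube_eq_mul_discriminant c
  exact ⟨z, by rw [jFun, hz, mul_div_assoc, div_self (discriminant_ne_zero z), mul_one]⟩

/-- `j` is `SL(2, ℤ)`-invariant. -/
lemma jFun_smul (γ : SL(2, ℤ)) (z : ℍ) : jFun (γ • z) = jFun z := by
  have hd : denom γ z ≠ 0 := denom_ne_zero _ _
  have hΔ := discriminant_ne_zero z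
  simp only [jFun, discriminant_smul_eq, E₄_smul_eq]
  rw [mul_pow, ← zpow_natCast (denom γ z ^ (4:ℤ)) 3, ← zpow_mul]
  norm_num
  field_simp

/-! ### The elliptic points -/

lemma S_smul_I : ModularGroup.S • UpperHalfPlane.I = UpperHalfPlane.I := by
  rw [modular_S_smul]
  ext
  simp [Complex.inv_I]

/-- `E₆(i) = 0`. -/
theorem E₆_I : E₆ UpperHalfPlane.I = 0 := by
  have h := E₆_smul_eq ModularGroup.S UpperHalfPlane.I
  rw [S_smul_I, ModularGroup.denom_S] at h
  have h6 : ((UpperHalfPlane.I : ℍ) : ℂ) ^ (6 : ℤ) = -1 := by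
    have : ((UpperHalfPlane.I : ℍ) : ℂ) = Complex.I := rfl
    rw [this]
    norm_cast
    rw [show (6 : ℕ) = 2 * 3 by norm_num, pow_mul, Complex.I_sq]
    norm_num
  rw [h6] at h
  have : (2 : ℂ) * E₆ UpperHalfPlane.I = 0 := by linear_combination h
  simpa using this

/-- The elliptic point `ρ = e^{2πi/3} = -1/2 + (√3/2) i`. -/
def rho : ℍ := ⟨-1 / 2 + (Real.sqrt 3 / 2 : ℝ) * Complex.I, by simp⟩

lemma coe_rho : (rho : ℂ) = -1 / 2 + (Real.sqrt 3 / 2 : ℝ) * Complex.I := rfl

lemma rho_sq_add : (rho : ℂ) ^ 2 + (rho : ℂ) + 1 = 0 := by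
  rw [coe_rho]
  have h3 : ((Real.sqrt 3 : ℝ) : ℂ) ^ 2 = 3 := by
    norm_cast
    exact Real.sq_sqrt (by norm_num)
  push_cast
  linear_combination (Complex.I ^ 2 / 4) * h3 + (3 / 4 : ℂ) * Complex.I_sq

lemma ST_smul_rho : (ModularGroup.S * ModularGroup.T) • rho = rho := by
  ext
  rw [coe_specialLinearGroup_apply]
  have h := rho_sq_add
  have hne : (rho : ℂ) + 1 ≠ 0 := by
    intro h1
    have : (rho : ℂ) = -1 := by linear_combination h1
    rw [this] at h
    norm_num at h
  simp [ModularGroup.S, ModularGroup.T]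
  field_simp
  linear_combination -h

lemma denom_ST (z : ℍ) : denom (ModularGroup.S * ModularGroup.T : SL(2, ℤ)) z = (z : ℂ) + 1 := by
  rw [ModularGroup.denom_apply]
  simp [ModularGroup.S, ModularGroup.T, Matrix.mul_apply, Fin.sum_univ_two]

lemma denom_ST_rho : denom (ModularGroup.S * ModularGroup.T : SL(2, ℤ)) rho = (rho : ℂ) + 1 :=
  denom_ST rho

/-- `E₄(ρ) = 0`. -/
theorem E₄_rho : E₄ rho = 0 := by
  have h := E₄_smul_eq (ModularGroup.S * ModularGroup.T) rho
  rw [ST_smul_rho, denom_ST_rho] at h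
  have hr := rho_sq_add
  have h4 : ((rho : ℂ) + 1) ^ (4 : ℤ) = -(rho : ℂ) - 1 := by
    norm_cast
    have h2 : ((rho : ℂ) + 1) ^ 2 = (rho : ℂ) := by linear_combination hr
    rw [show (4 : ℕ) = 2 * 2 by norm_num, pow_mul, h2]
    linear_combination hr
  rw [h4] at h
  have hne : (rho : ℂ) + 2 ≠ 0 := by
    intro h1
    have : (rho : ℂ) = -2 := by linear_combination h1
    rw [this] at hr
    norm_num at hr
  have : ((rho : ℂ) + 2) * E₄ rho = 0 := by linear_combination h
  rcases mul_eq_zero.mp this with h' | h'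
  · exact absurd h' hne
  · exact h'

theorem jFun_I : jFun UpperHalfPlane.I = 1728 := (jFun_eq_1728_iff _).mpr E₆_I

theorem jFun_rho : jFun rho = 0 := (jFun_eq_zero_iff _).mpr E₄_rho



/-! ### Local orders of `j` -/

lemma analyticAt_comp_ofComplex {F : ℍ → ℂ} (hF : MDiff F) (z : ℍ) :
    AnalyticAt ℂ (F ∘ ofComplex) (z : ℂ) :=
  (UpperHalfPlane.mdifferentiable_iff.mp hF).analyticAt
    (isOpen_upperHalfPlaneSet.mem_nhds z.im_pos)

lemma deriv_comp_ofComplex_ne_zero {F : ℍ → ℂ} {z : ℍ} (h : D F z ≠ 0) :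
    deriv (F ∘ ofComplex) (z : ℂ) ≠ 0 := by
  intro h0
  apply h
  simp [normalizedDerivOfComplex, h0]

lemma mdiff_inv_discriminant : MDiff (fun z : ℍ ↦ (Δ z)⁻¹) := by
  have := (mdifferentiable_const (c := (1:ℂ))).div mdiff_discriminant discriminant_ne_zero
  have h : (fun z : ℍ ↦ (Δ z)⁻¹) = (fun _ ↦ (1 : ℂ)) / (Δ : ℍ → ℂ) := by
    funext z; simp
  rw [h]
  exact this

lemma analyticOrderAt_inv_discriminant (z : ℍ) :
    analyticOrderAt ((fun z : ℍ ↦ (Δ z)⁻¹) ∘ ofComplex) (z : ℂ) = 0 := by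
  rw [(analyticAt_comp_ofComplex mdiff_inv_discriminant z).analyticOrderAt_eq_zero]
  simp [discriminant_ne_zero]

/-- Zeros of `E₄` have order one. -/
theorem analyticOrderAt_E₄ {z : ℍ} (h : E₄ z = 0) :
    analyticOrderAt ((E₄ : ℍ → ℂ) ∘ ofComplex) (z : ℂ) = 1 :=
  (analyticAt_comp_ofComplex mdiff_E₄ z).analyticOrderAt_eq_one_of_zero_deriv_ne_zero
    (by simpa using h) (deriv_comp_ofComplex_ne_zero (D_E₄_ne_zero h))

/-- Zeros of `E₆` have order one. -/
theorem analyticOrderAt_E₆ {z : ℍ} (h : E₆ z = 0) :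
    analyticOrderAt ((E₆ : ℍ → ℂ) ∘ ofComplex) (z : ℂ) = 1 :=
  (analyticAt_comp_ofComplex mdiff_E₆ z).analyticOrderAt_eq_one_of_zero_deriv_ne_zero
    (by simpa using h) (deriv_comp_ofComplex_ne_zero (D_E₆_ne_zero h))

/-- At a point with `E₄ E₆ ≠ 0` (i.e. `j ≠ 0, 1728`), `j - j(z₀)` vanishes to order `1`. -/
theorem analyticOrderAt_jFun_sub_generic {z₀ : ℍ} (h4 : E₄ z₀ ≠ 0) (h6 : E₆ z₀ ≠ 0) :
    analyticOrderAt (fun w : ℂ ↦ jFun (ofComplex w) - jFun z₀) (z₀ : ℂ) = 1 := by
  have h := (analyticAt_comp_ofComplex mdiff_jFun z₀).analyticOrderAt_sub_eq_one_of_deriv_ne_zero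
    (deriv_comp_ofComplex_ne_zero (D_jFun_ne_zero h4 h6))
  simpa using h

/-- At a zero of `E₆` (i.e. `j = 1728`), `j - j(z₀)` vanishes to order `2`. -/
theorem analyticOrderAt_jFun_sub_of_E₆ {z₀ : ℍ} (h : E₆ z₀ = 0) :
    analyticOrderAt (fun w : ℂ ↦ jFun (ofComplex w) - jFun z₀) (z₀ : ℂ) = 2 := by
  have hfun : (fun w : ℂ ↦ jFun (ofComplex w) - jFun z₀)
      = ((E₆ : ℍ → ℂ) ∘ ofComplex) ^ 2 * ((fun z : ℍ ↦ (Δ z)⁻¹) ∘ ofComplex) := by
    funext w
    rw [(jFun_eq_1728_iff z₀).mpr h]
    have hΔ := discriminant_ne_zero (ofComplex w)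
    have := E₄_cube_sub_E₆_sq (ofComplex w)
    simp only [jFun, Pi.mul_apply, Pi.pow_apply, Function.comp_apply]
    field_simp
    linear_combination this
  rw [hfun, analyticOrderAt_mul ((analyticAt_comp_ofComplex mdiff_E₆ z₀).pow 2)
    (analyticAt_comp_ofComplex mdiff_inv_discriminant z₀),
    analyticOrderAt_pow (analyticAt_comp_ofComplex mdiff_E₆ z₀), analyticOrderAt_E₆ h,
    analyticOrderAt_inv_discriminant]
  rfl

/-- At a zero of `E₄` (i.e. `j = 0`), `j - j(z₀)` vanishes to order `3`. -/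
theorem analyticOrderAt_jFun_sub_of_E₄ {z₀ : ℍ} (h : E₄ z₀ = 0) :
    analyticOrderAt (fun w : ℂ ↦ jFun (ofComplex w) - jFun z₀) (z₀ : ℂ) = 3 := by
  have hfun : (fun w : ℂ ↦ jFun (ofComplex w) - jFun z₀)
      = ((E₄ : ℍ → ℂ) ∘ ofComplex) ^ 3 * ((fun z : ℍ ↦ (Δ z)⁻¹) ∘ ofComplex) := by
    funext w
    rw [(jFun_eq_zero_iff z₀).mpr h]
    simp only [jFun, Pi.mul_apply, Pi.pow_apply, Function.comp_apply, sub_zero, div_eq_mul_inv]
  rw [hfun, analyticOrderAt_mul ((analyticAt_comp_ofComplex mdiff_E₄ z₀).pow 3)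
    (analyticAt_comp_ofComplex mdiff_inv_discriminant z₀),
    analyticOrderAt_pow (analyticAt_comp_ofComplex mdiff_E₄ z₀), analyticOrderAt_E₄ h,
    analyticOrderAt_inv_discriminant]
  rfl

end Fermat.Agent.S24.M7.H47

end
end
-- ===== PACK-END S24/M7/H47Level1.lean

-- ===== PACK-BEGIN S21/H81/Inj.lean
section


/-!
# S21, piece C: injectivity of `periodHomPair`, assuming existence of equivariant primitives
and linearity of the period map.
-/

set_option autoImplicit false

open UpperHalfPlane CongruenceSubgroup Filter Topology Complex ModularCurve ModularCurve.Period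
open scoped MatrixGroups Manifold ComplexConjugate

namespace Fermat.Agent.S21.H81

/-- The reflection `J` intertwines `g` and `jConjSL g`. -/
theorem inj_J_smul_smul (g : SL(2, ℤ)) (z : ℍ) :
    J • (g • z) = jConjSL g • (J • z) := by
  ext
  rw [coe_J_smul, coe_specialLinearGroup_apply, coe_specialLinearGroup_apply, coe_J_smul]
  have h00 : (jConjSL g) 0 0 = g 0 0 := by
    show ((jConjSL g : SL(2, ℤ)) : Matrix (Fin 2) (Fin 2) ℤ) 0 0 = _
    rw [jConjSL_coe, jConjMat_apply_zero_zero]
  have h01 : (jConjSL g) 0 1 = -g 0 1 := by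
    show ((jConjSL g : SL(2, ℤ)) : Matrix (Fin 2) (Fin 2) ℤ) 0 1 = _
    rw [jConjSL_coe, jConjMat_apply_zero_one]
  have h10 : (jConjSL g) 1 0 = -g 1 0 := by
    show ((jConjSL g : SL(2, ℤ)) : Matrix (Fin 2) (Fin 2) ℤ) 1 0 = _
    rw [jConjSL_coe, jConjMat_apply_one_zero]
  have h11 : (jConjSL g) 1 1 = g 1 1 := by
    show ((jConjSL g : SL(2, ℤ)) : Matrix (Fin 2) (Fin 2) ℤ) 1 1 = _
    rw [jConjSL_coe, jConjMat_apply_one_one]
  rw [h00, h01, h10, h11]
  simp only [map_div₀, map_add, map_mul, algebraMap_int_eq, eq_intCast,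
    Complex.ofReal_intCast, Complex.ofReal_neg, map_intCast, map_neg]
  rw [← neg_div]
  congr 1 <;> ring


/-- The reflected function `z ↦ -conj (F (-conj z))`. -/
noncomputable def injRefl (F : ℍ → ℂ) : ℍ → ℂ := fun z => -conj (F (J • z))

theorem injRefl_differentiableAt {F : ℍ → ℂ}
    (hol : ∀ τ : ℍ, DifferentiableAt ℂ (F ∘ ofComplex) (τ : ℂ)) (τ : ℍ) :
    DifferentiableAt ℂ (injRefl F ∘ ofComplex) (τ : ℂ) := by
  -- near `τ`, `injRefl F ∘ ofComplex` equals `z ↦ -(conj ∘ (F ∘ ofComplex) ∘ conj) (-z)`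
  have h0 : DifferentiableAt ℂ (F ∘ ofComplex) (conj (-(τ : ℂ))) := by
    have := hol (J • τ)
    rwa [coe_J_smul, ← map_neg] at this
  have h1 : DifferentiableAt ℂ (conj ∘ (F ∘ ofComplex) ∘ conj) (-(τ : ℂ)) := by
    have := h0.hasDerivAt.conj_conj
    rw [Complex.conj_conj] at this
    exact this.differentiableAt
  have h2 : DifferentiableAt ℂ (fun z : ℂ => -(conj ∘ (F ∘ ofComplex) ∘ conj) (-z)) (τ : ℂ) := by
    have h3 : DifferentiableAt ℂ (fun z : ℂ => -z) (τ : ℂ) := differentiableAt_id.neg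
    exact (DifferentiableAt.comp (τ : ℂ) h1 h3).neg
  refine h2.congr_of_eventuallyEq ?_
  have hopen : {z : ℂ | 0 < z.im} ∈ 𝓝 (τ : ℂ) :=
    isOpen_upperHalfPlaneSet.mem_nhds τ.im_pos
  filter_upwards [hopen] with z hz
  simp only [Function.comp_apply, injRefl]
  congr 3
  rw [ofComplex_apply_of_im_pos hz]
  have : (J • (⟨z, hz⟩ : ℍ) : ℍ) = ofComplex (conj (-z)) := by
    have h4 : 0 < (conj (-z)).im := by simpa using hz
    rw [ofComplex_apply_of_im_pos h4]
    ext
    rw [coe_J_smul]
    simp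
  exact this

theorem injRefl_tendsto {F : ℍ → ℂ}
    (hcusp : ∀ δ : SL(2, ℤ), ∃ L : ℂ, Tendsto (fun w : ℍ => F (δ • w)) atImInfty (𝓝 L))
    (δ : SL(2, ℤ)) : ∃ L : ℂ, Tendsto (fun w : ℍ => injRefl F (δ • w)) atImInfty (𝓝 L) := by
  obtain ⟨L, hL⟩ := hcusp (jConjSL δ)
  refine ⟨-conj L, ?_⟩
  have hJ : Tendsto (fun w : ℍ => J • w) atImInfty atImInfty :=
    tendsto_smul_atImInfty (by simp [J])
  have h1 : Tendsto (fun w : ℍ => F (jConjSL δ • (J • w))) atImInfty (𝓝 L) := hL.comp hJ
  have h2 : Tendsto (fun w : ℍ => -conj (F (jConjSL δ • (J • w)))) atImInfty (𝓝 (-conj L)) :=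
    ((Complex.continuous_conj.tendsto L).comp h1).neg
  refine h2.congr ?_
  intro w
  simp only [injRefl, inj_J_smul_smul]

section half

variable {N : ℕ} [NeZero N] {f : CuspForm (Gamma0 N) 2} {F : ℍ → ℂ}

/-- If the periods of `f` satisfy `p (jγj) = s * p γ` with `s = ±1` then `f = 0`. -/
theorem inj_half (hF : HasEquivariantPrimitive N f F) (s : ℝ) (hs : s * s = 1)
    (hsym : ∀ γ : Gamma0 N, hF.2.2.1.period (jConjGamma0 N γ) = s * hF.2.2.1.period γ) :
    f = 0 := by
  have hFd := hF.1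
  have hFeq := hF.2.2.1
  have hFcusp := hF.2.2.2
  have hFhol : ∀ τ : ℍ, DifferentiableAt ℂ (F ∘ ofComplex) (τ : ℂ) :=
    fun τ => (hFd τ).differentiableAt
  have hHhol := injRefl_differentiableAt hFhol
  have hHcusp := injRefl_tendsto hFcusp
  -- increments of the reflected function
  have hHinc : ∀ (γ : Gamma0 N) (z : ℍ),
      injRefl F ((γ : SL(2, ℤ)) • z) - injRefl F z = -(s * conj (hFeq.period γ)) := by
    intro γ z
    have h1 := hFeq.sub_eq_period (jConjGamma0 N γ) (J • z)
    rw [hsym γ, jConjGamma0_coe, ← inj_J_smul_smul] at h1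
    simp only [injRefl]
    have h2 : conj (F (J • ((γ : SL(2, ℤ)) • z))) - conj (F (J • z))
        = conj ((s : ℂ) * hFeq.period γ) := by
      rw [← h1, map_sub]
    rw [map_mul, Complex.conj_ofReal] at h2
    linear_combination -h2
  -- the two auxiliary functions
  let A₁ : ℍ → ℂ := fun z => F z + (s : ℂ) * injRefl F z
  let A₂ : ℍ → ℂ := fun z => Complex.I * (F z - (s : ℂ) * injRefl F z)
  have hs' : (s : ℂ) * (s : ℂ) = 1 := by exact_mod_cast hs
  have hA₁ : ∀ τ : ℍ, deriv (A₁ ∘ ofComplex) (τ : ℂ) = 0 := by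
    refine injCore_deriv_eq_zero (N := N) ?_ ?_ ?_
    · intro τ
      exact (hFhol τ).add ((hHhol τ).const_mul (s : ℂ))
    · intro γ hγ
      refine ⟨hFeq.period ⟨γ, hγ⟩ - conj (hFeq.period ⟨γ, hγ⟩), ?_, ?_⟩
      · simp
      · intro z
        have h1 := hFeq.sub_eq_period ⟨γ, hγ⟩ z
        have h2 := hHinc ⟨γ, hγ⟩ z
        simp only [A₁]
        simp only at h1 h2
        linear_combination h1 + (s : ℂ) * h2 - conj (hFeq.period ⟨γ, hγ⟩) * hs'
    · intro δ
      obtain ⟨L₁, hL₁⟩ := hFcusp δ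
      obtain ⟨L₂, hL₂⟩ := hHcusp δ
      exact ⟨L₁ + (s : ℂ) * L₂, hL₁.add (hL₂.const_mul (s : ℂ))⟩
  have hA₂ : ∀ τ : ℍ, deriv (A₂ ∘ ofComplex) (τ : ℂ) = 0 := by
    refine injCore_deriv_eq_zero (N := N) ?_ ?_ ?_
    · intro τ
      exact ((hFhol τ).sub ((hHhol τ).const_mul (s : ℂ))).const_mul Complex.I
    · intro γ hγ
      refine ⟨Complex.I * (hFeq.period ⟨γ, hγ⟩ + conj (hFeq.period ⟨γ, hγ⟩)), ?_, ?_⟩
      · simp [Complex.add_conj]
      · intro z
        have h1 := hFeq.sub_eq_period ⟨γ, hγ⟩ z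
        have h2 := hHinc ⟨γ, hγ⟩ z
        simp only [A₂]
        simp only at h1 h2
        linear_combination Complex.I * h1 - Complex.I * (s : ℂ) * h2
          + Complex.I * conj (hFeq.period ⟨γ, hγ⟩) * hs'
    · intro δ
      obtain ⟨L₁, hL₁⟩ := hFcusp δ
      obtain ⟨L₂, hL₂⟩ := hHcusp δ
      exact ⟨Complex.I * (L₁ - (s : ℂ) * L₂), (hL₁.sub (hL₂.const_mul (s : ℂ))).const_mul _⟩
  -- conclude
  ext τ
  have hH' := (hHhol τ).hasDerivAt
  set h := deriv (injRefl F ∘ ofComplex) (τ : ℂ) with hh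
  have e₁ : HasDerivAt (A₁ ∘ ofComplex) (f τ + (s : ℂ) * h) (τ : ℂ) :=
    (hFd τ).add (hH'.const_mul (s : ℂ))
  have e₂ : HasDerivAt (A₂ ∘ ofComplex) (Complex.I * (f τ - (s : ℂ) * h)) (τ : ℂ) :=
    ((hFd τ).sub (hH'.const_mul (s : ℂ))).const_mul Complex.I
  have z₁ : f τ + (s : ℂ) * h = 0 := by rw [← e₁.deriv]; exact hA₁ τ
  have z₂ : Complex.I * (f τ - (s : ℂ) * h) = 0 := by rw [← e₂.deriv]; exact hA₂ τ
  have z₃ : f τ - (s : ℂ) * h = 0 := (mul_eq_zero.mp z₂).resolve_left Complex.I_ne_zero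
  have : f τ = 0 := by linear_combination (1 / 2 : ℂ) * z₁ + (1 / 2 : ℂ) * z₃
  simpa using this

end half

section final

variable (N : ℕ) [NeZero N]

omit [NeZero N] in
/-- Unfolding of `periodHomPair` at a pair, evaluated at `γ`. -/
theorem inj_periodHomPair_apply (hlin : ExistsPeriodMapLinear N)
    (f g : CuspForm (Gamma0 N) 2) (γ : Gamma0 N) :
    periodHomPair N (f, g) (Additive.ofMul γ)
      = (periodMap N f (Additive.ofMul γ)
          + periodMap N f (Additive.ofMul (jConjGamma0 N γ)))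
        + (periodMap N g (Additive.ofMul γ)
          - periodMap N g (Additive.ofMul (jConjGamma0 N γ))) := by
  obtain ⟨pml, hpml, hdef⟩ := periodHomPair_def N hlin
  rw [hdef]
  simp only [LinearMap.coprod_apply, LinearMap.coe_comp, Function.comp_apply,
    LinearMap.add_apply, LinearMap.sub_apply, LinearMap.id_coe, id_eq, hpml,
    AddMonoidHom.add_apply, AddMonoidHom.sub_apply, charInvolution_apply, toMul_ofMul]

/-- **Injectivity of `periodHomPair`**, assuming that every cusp form has an equivariant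
primitive and that the period map is linear. -/
theorem injective_periodHomPair_of (hlin : ExistsPeriodMapLinear N)
    (hA : ∀ f : CuspForm (Gamma0 N) 2, ∃ F : ℍ → ℂ, HasEquivariantPrimitive N f F) :
    Function.Injective (periodHomPair N) := by
  rw [injective_iff_map_eq_zero]
  rintro ⟨f, g⟩ hfg
  have key : ∀ γ : Gamma0 N,
      (periodMap N f (Additive.ofMul γ)
          + periodMap N f (Additive.ofMul (jConjGamma0 N γ)))
        + (periodMap N g (Additive.ofMul γ)
          - periodMap N g (Additive.ofMul (jConjGamma0 N γ))) = 0 := by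
    intro γ
    rw [← inj_periodHomPair_apply N hlin f g γ, hfg]
    rfl
  have keyf : ∀ γ : Gamma0 N, periodMap N f (Additive.ofMul (jConjGamma0 N γ))
      = ((-1 : ℝ) : ℂ) * periodMap N f (Additive.ofMul γ) := by
    intro γ
    have h1 := key γ
    have h2 := key (jConjGamma0 N γ)
    rw [jConjGamma0_jConjGamma0] at h2
    push_cast
    linear_combination (1 / 2 : ℂ) * h1 + (1 / 2 : ℂ) * h2
  have keyg : ∀ γ : Gamma0 N, periodMap N g (Additive.ofMul (jConjGamma0 N γ))
      = ((1 : ℝ) : ℂ) * periodMap N g (Additive.ofMul γ) := by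
    intro γ
    have h1 := key γ
    have h2 := key (jConjGamma0 N γ)
    rw [jConjGamma0_jConjGamma0] at h2
    push_cast
    linear_combination (-1 / 2 : ℂ) * h1 + (1 / 2 : ℂ) * h2
  have hf0 : f = 0 := by
    obtain ⟨F, hF⟩ := hA f
    obtain ⟨F₀, h₀, hP⟩ := periodMap_def N f hF
    refine inj_half h₀ (-1) (by norm_num) ?_
    intro γ
    have := keyf γ
    rw [hP] at this
    exact this
  have hg0 : g = 0 := by
    obtain ⟨G, hG⟩ := hA g
    obtain ⟨G₀, h₀, hP⟩ := periodMap_def N g hG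
    refine inj_half h₀ 1 (by norm_num) ?_
    intro γ
    have := keyg γ
    rw [hP] at this
    exact this
  rw [hf0, hg0]
  rfl

end final

end Fermat.Agent.S21.H81

end
-- ===== PACK-END S21/H81/Inj.lean

-- ===== PACK-BEGIN Lib/RR/Ord.lean
section


/-!
# RR library: elementary calculus of `Place.ord`
-/

set_option autoImplicit false

noncomputable section

open AlgebraicCurve

namespace Fermat.Agent.Lib.RR

variable {K F : Type*} [Field K] [Field F] [Algebra K F]

theorem ord_nonneg_of_mem (v : Place K F) {f : F} (hf : f ∈ v.toValuationSubring) :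
    0 ≤ v.ord f := by
  rcases eq_or_ne f 0 with rfl | hf0
  · simp
  obtain ⟨π, hπ⟩ := IsDiscreteValuationRing.exists_irreducible v.toValuationSubring
  obtain ⟨n, u, hu⟩ :=
    IsDiscreteValuationRing.eq_unit_mul_pow_irreducible
      (x := (⟨f, hf⟩ : v.toValuationSubring)) (by simpa [Subtype.ext_iff] using hf0) hπ
  have hcoe : f = ((u : v.toValuationSubring) : F) * ((π : F) ^ (n : ℤ)) := by
    have h := congrArg (Subtype.val) hu
    push_cast at h
    rw [zpow_natCast]
    exact h
  rw [hcoe, v.ord_unit_smul_zpow u hπ (n : ℤ)]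
  exact Int.natCast_nonneg n

theorem mem_of_ord_nonneg (v : Place K F) {f : F} (h : 0 ≤ v.ord f) :
    f ∈ v.toValuationSubring := by
  rcases eq_or_ne f 0 with rfl | hf
  · exact zero_mem _
  obtain ⟨π, hπ⟩ := IsDiscreteValuationRing.exists_irreducible v.toValuationSubring
  obtain ⟨u, hu⟩ := v.exists_unit_mul_zpow hf hπ
  rw [hu, show v.ord f = (((v.ord f).toNat : ℕ) : ℤ) from (Int.toNat_of_nonneg h).symm,
    zpow_natCast]
  exact mul_mem (u : v.toValuationSubring).2 (pow_mem (π : v.toValuationSubring).2 _)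

/-- `f ∈ O_v ↔ 0 ≤ ord_v f` (valid also for `f = 0` because `ord_v 0 = 0`). -/
theorem mem_iff_ord_nonneg (v : Place K F) (f : F) :
    f ∈ v.toValuationSubring ↔ 0 ≤ v.ord f :=
  ⟨ord_nonneg_of_mem v, mem_of_ord_nonneg v⟩

theorem ord_algebraMap (v : Place K F) (c : K) : v.ord (algebraMap K F c) = 0 := by
  rcases eq_or_ne c 0 with rfl | hc
  · simp
  have h1 : 0 ≤ v.ord (algebraMap K F c) := ord_nonneg_of_mem v (v.algebraMap_mem' c)
  have h2 : 0 ≤ v.ord (algebraMap K F c⁻¹) := ord_nonneg_of_mem v (v.algebraMap_mem' c⁻¹)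
  rw [map_inv₀, v.ord_inv] at h2
  omega

theorem ord_pow (v : Place K F) (f : F) (n : ℕ) : v.ord (f ^ n) = n * v.ord f := by
  have := v.ord_zpow f (n : ℤ)
  rwa [zpow_natCast] at this

theorem ord_neg (v : Place K F) (f : F) : v.ord (-f) = v.ord f := by
  rcases eq_or_ne f 0 with rfl | hf
  · simp
  have h : (-1 : F) ≠ 0 := by simp
  have h1 : v.ord (-1 : F) = 0 := by
    have h2 := v.ord_mul h h
    rw [neg_one_mul, neg_neg, v.ord_one] at h2
    omega
  rw [← neg_one_mul, v.ord_mul h hf, h1, zero_add]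

theorem ne_zero_of_ord_ne_zero (v : Place K F) {f : F} (h : v.ord f ≠ 0) : f ≠ 0 := by
  rintro rfl; exact h v.ord_zero

/-- Ultrametric inequality. -/
theorem ord_add (v : Place K F) {f g : F} (hf : f ≠ 0) (hg : g ≠ 0) (hfg : f + g ≠ 0) :
    min (v.ord f) (v.ord g) ≤ v.ord (f + g) := by
  wlog h : v.ord f ≤ v.ord g generalizing f g
  · have := this hg hf (by rwa [add_comm]) (by omega)
    rwa [min_comm, add_comm g f] at this
  rw [min_eq_left h]
  have hq : g * f⁻¹ ∈ v.toValuationSubring := by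
    apply mem_of_ord_nonneg
    rw [v.ord_mul hg (inv_ne_zero hf), v.ord_inv]; omega
  have h1 : 1 + g * f⁻¹ ∈ v.toValuationSubring := add_mem (one_mem _) hq
  have h2 : f + g = f * (1 + g * f⁻¹) := by field_simp
  have h3 : (1 + g * f⁻¹) ≠ 0 := by
    intro h0; rw [h0, mul_zero] at h2; exact hfg h2
  rw [h2, v.ord_mul hf h3]
  have := ord_nonneg_of_mem v h1
  omega

/-- Ultrametric inequality in the "zero or bounded below" form used for `L(D)`. -/
theorem ord_add_of_le (v : Place K F) {f g : F} {n : ℤ}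
    (hf : f = 0 ∨ n ≤ v.ord f) (hg : g = 0 ∨ n ≤ v.ord g) :
    f + g = 0 ∨ n ≤ v.ord (f + g) := by
  rcases eq_or_ne (f + g) 0 with h0 | h0
  · exact Or.inl h0
  right
  rcases eq_or_ne f 0 with rfl | hf0
  · rw [zero_add] at h0 ⊢
    exact hg.resolve_left h0
  rcases eq_or_ne g 0 with rfl | hg0
  · rw [add_zero]
    exact hf.resolve_left hf0
  exact le_trans (le_min (hf.resolve_left hf0) (hg.resolve_left hg0)) (ord_add v hf0 hg0 h0)

/-- Strict case of the ultrametric inequality. -/
theorem ord_add_eq_of_lt (v : Place K F) {f g : F} (hf : f ≠ 0) (hg : g ≠ 0)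
    (h : v.ord f < v.ord g) : v.ord (f + g) = v.ord f := by
  have hfg : f + g ≠ 0 := by
    intro h0
    have : g = -f := by rw [← sub_eq_zero]; rw [sub_neg_eq_add, add_comm]; exact h0
    rw [this, ord_neg] at h
    exact lt_irrefl _ h
  have h1 := ord_add v hf hg hfg
  rw [min_eq_left h.le] at h1
  have hng : -g ≠ 0 := neg_ne_zero.mpr hg
  have h2 := ord_add v hfg hng (by simpa using hf)
  rw [add_neg_cancel_right, ord_neg] at h2
  rcases le_total (v.ord (f + g)) (v.ord g) with h3 | h3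
  · rw [min_eq_left h3] at h2; omega
  · rw [min_eq_right h3] at h2; omega

/-- Every place has a uniformizer. -/
theorem exists_ord_eq_one (v : Place K F) : ∃ t : F, v.ord t = 1 := by
  obtain ⟨π, hπ⟩ := IsDiscreteValuationRing.exists_irreducible v.toValuationSubring
  exact ⟨π, v.ord_coe_irreducible hπ⟩

/-- An element of the valuation ring lies in the maximal ideal iff it is `0` or has positive
order. -/
theorem mem_maximalIdeal_iff (v : Place K F) (a : v.toValuationSubring) :
    a ∈ IsLocalRing.maximalIdeal v.toValuationSubring ↔ (a : F) = 0 ∨ 0 < v.ord (a : F) := by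
  rw [IsLocalRing.mem_maximalIdeal, mem_nonunits_iff]
  constructor
  · intro h
    by_contra hcon
    simp only [not_or, not_lt] at hcon
    obtain ⟨h0, h1⟩ := hcon
    apply h
    have h2 : v.ord (a : F) = 0 := le_antisymm h1 (ord_nonneg_of_mem v a.2)
    have hinv : (a : F)⁻¹ ∈ v.toValuationSubring := by
      apply mem_of_ord_nonneg
      rw [v.ord_inv, h2]; simp
    refine IsUnit.of_mul_eq_one (⟨(a : F)⁻¹, hinv⟩ : v.toValuationSubring) ?_
    ext
    simp [h0]
  · rintro (h | h) hu
    · have : a = 0 := by ext; simpa using h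
      rw [this] at hu
      exact not_isUnit_zero hu
    · have := v.ord_coe_unit hu.unit
      rw [IsUnit.unit_spec] at this
      omega

/-- At a place of degree one every element of the valuation ring is congruent to a constant. -/
theorem exists_const_sub (v : Place K F) (hv : v.deg = 1) {f : F} (hf : 0 ≤ v.ord f) :
    ∃ c : K, f - algebraMap K F c = 0 ∨ 0 < v.ord (f - algebraMap K F c) := by
  have hmem : f ∈ v.toValuationSubring := mem_of_ord_nonneg v hf
  have h1 : (1 : v.ResidueField) ≠ 0 := one_ne_zero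
  have hspan := (finrank_eq_one_iff_of_nonzero' (1 : v.ResidueField) h1).mp hv
  obtain ⟨c, hc⟩ := hspan (IsLocalRing.residue v.toValuationSubring ⟨f, hmem⟩)
  refine ⟨c, ?_⟩
  have hc' : IsLocalRing.residue v.toValuationSubring
      (⟨f, hmem⟩ - algebraMap K v.toValuationSubring c) = 0 := by
    rw [map_sub, ← hc, Algebra.smul_def, mul_one]
    rw [IsScalarTower.algebraMap_apply K v.toValuationSubring v.ResidueField]
    simp
  rw [IsLocalRing.residue_eq_zero_iff] at hc'
  have := (mem_maximalIdeal_iff v _).mp hc'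
  simpa using this

end Fermat.Agent.Lib.RR

end
end
-- ===== PACK-END Lib/RR/Ord.lean

-- ===== PACK-BEGIN S28/H565/EulerProd.lean
section




/-!
# S28 analytic bridge, part 2: the Euler product (helper565)

We show that the formal power series `ModularCurve.etaProd = ∏ (1 - X^(n+1))` of the Prelude
(defined as a `tprod` in the Pi-topology on `ℤ⟦X⟧`) is the Taylor expansion of the analytic
function `q ↦ ∏' (1 - q^(n+1))` on the unit disc.
-/

set_option autoImplicit false

noncomputable section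

open Complex Function Filter Topology
open scoped Real PowerSeries.WithPiTopology

namespace Fermat.Agent.S28.H565

/-- Taylor coefficients at a point are continuous for locally uniform convergence of
holomorphic functions. -/
theorem tendsto_iteratedDeriv_of_tendstoLocallyUniformlyOn {U : Set ℂ} (hU : IsOpen U)
    (k : ℕ) : ∀ {F : ℕ → ℂ → ℂ} {G : ℂ → ℂ}, (∀ n, DifferentiableOn ℂ (F n) U) →
    TendstoLocallyUniformlyOn F G atTop U → ∀ {z : ℂ}, z ∈ U →
    Tendsto (fun n => iteratedDeriv k (F n) z) atTop (𝓝 (iteratedDeriv k G z)) := by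
  induction k with
  | zero =>
    intro F G _ hFG z hz
    simpa [iteratedDeriv_zero] using hFG.tendsto_at hz
  | succ k ih =>
    intro F G hF hFG z hz
    simp only [iteratedDeriv_succ']
    exact ih (F := fun n => deriv (F n)) (G := deriv G) (fun n => (hF n).deriv hU)
      (hFG.deriv (.of_forall hF) hU) hz

/-- Taylor coefficients of a polynomial function. -/
theorem iteratedDeriv_polynomial_eval_zero (P : Polynomial ℂ) (k : ℕ) :
    iteratedDeriv k (fun q => P.eval q) 0 = (k.factorial : ℂ) * P.coeff k := by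
  have h1 : ∀ (k : ℕ) (P : Polynomial ℂ), deriv^[k] (fun q => P.eval q) =
      fun q => ((⇑Polynomial.derivative)^[k] P).eval q := by
    intro k
    induction k with
    | zero => intro P; rfl
    | succ k ih =>
      intro P
      rw [Function.iterate_succ_apply', ih, Function.iterate_succ_apply']
      funext x
      exact Polynomial.deriv _
  rw [iteratedDeriv_eq_iterate, h1]
  simp only
  rw [← Polynomial.coeff_zero_eq_eval_zero, Polynomial.coeff_iterate_derivative, zero_add,
    Nat.descFactorial_self, nsmul_eq_mul]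

/-- The partial Euler products as complex polynomials. -/
def eulerPoly (M : ℕ) : Polynomial ℂ := ∏ n ∈ Finset.range M, (1 - Polynomial.X ^ (n + 1))

theorem eulerPoly_eval (M : ℕ) (q : ℂ) :
    (eulerPoly M).eval q = ∏ n ∈ Finset.range M, (1 - q ^ (n + 1)) := by
  simp [eulerPoly, Polynomial.eval_prod]

theorem eulerPoly_coeff (M k : ℕ) :
    (eulerPoly M).coeff k =
      ((PowerSeries.coeff k (∏ n ∈ Finset.range M, (1 - PowerSeries.X ^ (n + 1)) :
        PowerSeries ℤ) : ℤ) : ℂ) := by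
  have h1 : ((eulerPoly M : Polynomial ℂ) : PowerSeries ℂ) =
      PowerSeries.map (Int.castRingHom ℂ)
        (∏ n ∈ Finset.range M, (1 - PowerSeries.X ^ (n + 1)) : PowerSeries ℤ) := by
    rw [eulerPoly, ← Polynomial.coeToPowerSeries.ringHom_apply, map_prod, map_prod]
    refine Finset.prod_congr rfl fun n _ => ?_
    simp
  rw [← Polynomial.coeff_coe, h1, PowerSeries.coeff_map]
  rfl

/-- Coefficientwise convergence of the formal partial products to `etaProd`. -/
theorem tendsto_coeff_partial_etaProd (k : ℕ) :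
    Tendsto (fun M => ((PowerSeries.coeff k (∏ n ∈ Finset.range M,
      (1 - PowerSeries.X ^ (n + 1)) : PowerSeries ℤ) : ℤ) : ℂ)) atTop
      (𝓝 ((PowerSeries.coeff k ModularCurve.etaProd : ℤ) : ℂ)) := by
  have h1 : HasProd (fun n : ℕ => (1 - PowerSeries.X ^ (n + 1) : PowerSeries ℤ))
      ModularCurve.etaProd :=
    (PowerSeries.WithPiTopology.multipliable_one_sub_X_pow ℤ).hasProd
  have h2 := h1.tendsto_prod_nat
  have h3 := ((PowerSeries.WithPiTopology.continuous_coeff ℤ k).tendsto _).comp h2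
  have h4 : Continuous (fun n : ℤ => (n : ℂ)) := continuous_of_discreteTopology
  exact (h4.tendsto _).comp h3

/-- The Euler function on the unit disc. -/
def eulerFun (q : ℂ) : ℂ := ∏' n : ℕ, (1 - q ^ (n + 1))

theorem differentiableOn_eulerFun : DifferentiableOn ℂ eulerFun (Metric.ball 0 1) :=
  ModularForm.differentiableOn_tprod_one_sub_pow

theorem tendstoLocallyUniformlyOn_eulerPoly :
    TendstoLocallyUniformlyOn (fun M q => (eulerPoly M).eval q) eulerFun atTop
      (Metric.ball 0 1) := by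
  have h := ModularForm.multipliableLocallyUniformlyOn_one_sub_pow.hasProdLocallyUniformlyOn
  have h2 := h.tendstoLocallyUniformlyOn_finsetRange
  refine h2.congr ?_ |>.congr_right ?_
  · intro M q _
    simp [eulerPoly_eval]
  · intro q _
    rfl

/-- The complex version of the formal Euler product. -/
def etaProdC : PowerSeries ℂ := PowerSeries.map (Int.castRingHom ℂ) ModularCurve.etaProd

theorem taylor_eulerFun (k : ℕ) :
    (k.factorial : ℂ)⁻¹ * iteratedDeriv k eulerFun 0 = PowerSeries.coeff k etaProdC := by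
  have h0 : (0 : ℂ) ∈ Metric.ball (0 : ℂ) 1 := Metric.mem_ball_self one_pos
  have h1 := tendsto_iteratedDeriv_of_tendstoLocallyUniformlyOn Metric.isOpen_ball k
    (F := fun M q => (eulerPoly M).eval q) (G := eulerFun)
    (fun M => (Polynomial.differentiable _).differentiableOn)
    tendstoLocallyUniformlyOn_eulerPoly h0
  have h2 : Tendsto (fun M => (k.factorial : ℂ)⁻¹ * iteratedDeriv k
      (fun q => (eulerPoly M).eval q) 0) atTop
      (𝓝 ((k.factorial : ℂ)⁻¹ * iteratedDeriv k eulerFun 0)) := h1.const_mul _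
  have h3 : (fun M => (k.factorial : ℂ)⁻¹ * iteratedDeriv k
      (fun q => (eulerPoly M).eval q) 0) = fun M =>
      ((PowerSeries.coeff k (∏ n ∈ Finset.range M,
      (1 - PowerSeries.X ^ (n + 1)) : PowerSeries ℤ) : ℤ) : ℂ) := by
    funext M
    rw [iteratedDeriv_polynomial_eval_zero, eulerPoly_coeff, ← mul_assoc,
      inv_mul_cancel₀ (by exact_mod_cast Nat.factorial_ne_zero k), one_mul]
  rw [h3] at h2
  have h4 := tendsto_nhds_unique h2 (tendsto_coeff_partial_etaProd k)
  rw [h4, etaProdC, PowerSeries.coeff_map]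
  rfl

/-- **Euler product bridge**: the formal Euler product is the Taylor series of the analytic
Euler product on the unit disc. -/
theorem hasSum_etaProdC {q : ℂ} (hq : ‖q‖ < 1) :
    HasSum (fun k : ℕ => PowerSeries.coeff k etaProdC * q ^ k) (eulerFun q) := by
  have hq' : q ∈ Metric.ball (0 : ℂ) 1 := by simpa using hq
  have := hasSum_taylorSeries_on_ball differentiableOn_eulerFun hq'
  refine this.congr_fun ?_ |>.mono_left le_rfl
  intro k
  rw [← taylor_eulerFun]
  simp only [sub_zero, smul_eq_mul]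
  ring

end Fermat.Agent.S28.H565

end
end
-- ===== PACK-END S28/H565/EulerProd.lean

-- ===== PACK-BEGIN S37/H700/GaussBasic.lean
section




/-!
# S37 / piece GAUSS (helper700): basic lemmas

Elementary facts about `coeffMap`, polynomials in `j` and normalisation of finitely many
elements of the fraction field of a valuation ring.
-/

set_option autoImplicit false

noncomputable section

namespace Fermat.Agent.S37.H700

open ModularCurve HahnSeries Polynomial

section CoeffMap

variable {R S : Type*} [CommRing R] [CommRing S]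

theorem coeffMap_injective {f : R →+* S} (hf : Function.Injective f) :
    Function.Injective (coeffMap f) := by
  intro x y h
  ext n
  apply hf
  have := congrArg (fun z => HahnSeries.coeff z n) h
  simpa using this

theorem coeffMap_C (f : R →+* S) (r : R) :
    coeffMap f (HahnSeries.C r : LaurentSeries R) = HahnSeries.C (f r) := by
  show coeffMap f (HahnSeries.single 0 r) = HahnSeries.single 0 (f r)
  exact coeffMap_single f 0 r

/-- Evaluation of a polynomial at the `q`-expansion of `j`, with explicit constant map. -/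
def evalJ (R : Type*) [CommRing R] (P : R[X]) : LaurentSeries R :=
  P.eval₂ (HahnSeries.C : R →+* LaurentSeries R) (jqModC R)

theorem coeffMap_evalJ (f : R →+* S) (P : R[X]) :
    coeffMap f (evalJ R P) = evalJ S (P.map f) := by
  unfold evalJ
  rw [Polynomial.hom_eval₂, Polynomial.eval₂_map, coeffMap_jqModC]
  congr 1
  ext r : 1
  exact coeffMap_C f r

theorem evalJ_add (P Q : R[X]) : evalJ R (P + Q) = evalJ R P + evalJ R Q :=
  Polynomial.eval₂_add _ _

theorem evalJ_mul (P Q : R[X]) : evalJ R (P * Q) = evalJ R P * evalJ R Q :=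
  Polynomial.eval₂_mul _ _

theorem evalJ_zero : evalJ R (0 : R[X]) = 0 := Polynomial.eval₂_zero _ _

theorem evalJ_one : evalJ R (1 : R[X]) = 1 := Polynomial.eval₂_one _ _

end CoeffMap

section Field

variable (K : Type*) [Field K]

theorem evalJ_eq_aeval (P : K[X]) : evalJ K P = Polynomial.aeval (jqModC K) P := by
  unfold evalJ
  rw [Polynomial.aeval_def]
  congr 1
  ext c : 1
  rw [algebraMap_laurentSeries_eq_single]
  rfl

/-- The coefficient of `q^{-deg P}` in `P(j)` is the leading coefficient of `P`. -/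
theorem coeff_evalJ_natDegree (P : K[X]) :
    (evalJ K P).coeff (-(P.natDegree : ℤ)) = P.leadingCoeff := by
  unfold evalJ
  rw [Polynomial.eval₂_eq_sum_range, HahnSeries.coeff_sum,
    Finset.sum_eq_single_of_mem P.natDegree (Finset.self_mem_range_succ _)]
  · show (HahnSeries.single 0 (P.coeff P.natDegree) * jqModC K ^ P.natDegree).coeff _ = _
    rw [HahnSeries.coeff_single_zero_mul, coeff_jqModC_pow_self, mul_one]; rfl
  · intro i hi hne
    have hlt : i < P.natDegree :=
      lt_of_le_of_ne (Nat.lt_succ_iff.mp (Finset.mem_range.mp hi)) hne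
    show (HahnSeries.single 0 (P.coeff i) * jqModC K ^ i).coeff _ = _
    rw [HahnSeries.coeff_single_zero_mul, coeff_jqModC_pow_of_lt K (by omega), mul_zero]

theorem evalJ_eq_zero_iff {P : K[X]} : evalJ K P = 0 ↔ P = 0 := by
  constructor
  · intro hP
    have h := coeff_evalJ_natDegree K P
    rw [hP, HahnSeries.coeff_zero] at h
    exact Polynomial.leadingCoeff_eq_zero.mp h.symm
  · rintro rfl
    exact evalJ_zero

theorem jqModC_mem_jField : jqModC K ∈ Fermat.Agent.S28.jField K :=
  IntermediateField.subset_adjoin K _ (Set.mem_singleton _)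

theorem evalJ_mem_jField (P : K[X]) : evalJ K P ∈ Fermat.Agent.S28.jField K := by
  rw [evalJ_eq_aeval]
  exact Polynomial.aeval_mem_adjoin_singleton K (jqModC K) |> fun h =>
    (IntermediateField.algebra_adjoin_le_adjoin K _) h

/-- Every element of `K(j)` is a quotient of polynomials in `j` with nonzero denominator. -/
theorem exists_evalJ_of_mem_jField {c : LaurentSeries K} (hc : c ∈ Fermat.Agent.S28.jField K) :
    ∃ r s : K[X], s ≠ 0 ∧ c * evalJ K s = evalJ K r := by
  obtain ⟨r, s, hrs⟩ := (IntermediateField.mem_adjoin_simple_iff K c).mp hc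
  by_cases hs : s = 0
  · refine ⟨0, 1, one_ne_zero, ?_⟩
    rw [hrs, hs, map_zero, div_zero, zero_mul, evalJ_zero]
  · refine ⟨r, s, hs, ?_⟩
    have hs' : Polynomial.aeval (jqModC K) s ≠ 0 := by
      rw [← evalJ_eq_aeval]
      exact fun h => hs ((evalJ_eq_zero_iff K).mp h)
    rw [hrs, evalJ_eq_aeval, evalJ_eq_aeval, div_mul_cancel₀ _ hs']

end Field

end Fermat.Agent.S37.H700

end
end
-- ===== PACK-END S37/H700/GaussBasic.lean

-- ===== PACK-BEGIN S28/H88/Theta.lean
section
/-
S28 (Igusa) -- helper88: the derivation `θ = q d/dq` on formal Laurent series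
(toolkit for the prime-level step [L2]: `j(q^p) ∉ k(j)`).
-/


set_option autoImplicit false

noncomputable section

open ModularCurve HahnSeries

namespace Fermat.Agent.S28

section ThetaBasic

variable {R : Type*} [CommRing R]

theorem h88_thetaL_add (f g : LaurentSeries R) :
    thetaL R (f + g) = thetaL R f + thetaL R g := by
  ext n; simp [mul_add]

theorem h88_thetaL_zero : thetaL R (0 : LaurentSeries R) = 0 := by
  ext n; simp

theorem h88_thetaL_neg (f : LaurentSeries R) : thetaL R (-f) = - thetaL R f := by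
  ext n; simp

theorem h88_thetaL_sub (f g : LaurentSeries R) :
    thetaL R (f - g) = thetaL R f - thetaL R g := by
  ext n; simp [mul_sub]

theorem h88_thetaL_support_subset (f : LaurentSeries R) :
    (thetaL R f).support ⊆ f.support := by
  intro n hn
  simp only [HahnSeries.mem_support, thetaL_coeff, ne_eq] at hn ⊢
  intro h; exact hn (by rw [h, mul_zero])

/-- Leibniz rule. -/
theorem h88_thetaL_mul (f g : LaurentSeries R) :
    thetaL R (f * g) = thetaL R f * g + f * thetaL R g := by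
  ext n
  rw [HahnSeries.coeff_add, thetaL_coeff, HahnSeries.coeff_mul,
    HahnSeries.coeff_mul_left' f.isPWO_support (h88_thetaL_support_subset f),
    HahnSeries.coeff_mul_right' g.isPWO_support (h88_thetaL_support_subset g),
    Finset.mul_sum, ← Finset.sum_add_distrib]
  refine Finset.sum_congr rfl fun ij hij => ?_
  rw [Finset.mem_antidiagonal] at hij
  obtain ⟨-, -, h⟩ := hij
  simp only [thetaL_coeff]
  rw [← h]; push_cast; ring

theorem h88_thetaL_single_zero (c : R) : thetaL R (HahnSeries.single (0 : ℤ) c) = 0 := by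
  ext n
  rw [thetaL_coeff, HahnSeries.coeff_zero]
  rcases eq_or_ne n 0 with rfl | hn
  · simp
  · rw [HahnSeries.coeff_single_of_ne hn, mul_zero]

theorem h88_thetaL_C (c : R) : thetaL R (HahnSeries.C c : LaurentSeries R) = 0 :=
  h88_thetaL_single_zero c

theorem h88_thetaL_one : thetaL R (1 : LaurentSeries R) = 0 :=
  h88_thetaL_single_zero 1

theorem h88_thetaL_pow (f : LaurentSeries R) (n : ℕ) :
    thetaL R (f ^ (n + 1)) = ((n + 1 : ℕ) : LaurentSeries R) * f ^ n * thetaL R f := by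
  induction n with
  | zero => simp
  | succ n ih =>
    rw [pow_succ, h88_thetaL_mul, ih]
    push_cast
    ring

/-- `θ` commutes with `q ↦ q^p` up to the factor `p`. -/
theorem h88_thetaL_qExpand (p : ℕ) [NeZero p] (f : LaurentSeries R) :
    thetaL R (qExpand R p f) = (p : LaurentSeries R) * qExpand R p (thetaL R f) := by
  rw [← nsmul_eq_mul]
  ext n
  rw [thetaL_coeff, HahnSeries.coeff_smul]
  by_cases hn : (p : ℤ) ∣ n
  · obtain ⟨m, rfl⟩ := hn
    rw [qExpand_coeff_mul, qExpand_coeff_mul, thetaL_coeff, nsmul_eq_mul]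
    push_cast; ring
  · rw [qExpand_coeff_of_not_dvd p _ hn, qExpand_coeff_of_not_dvd p _ hn, mul_zero, smul_zero]

end ThetaBasic

section CoeffMapCompat

variable {R S : Type*} [CommRing R] [CommRing S]

theorem h88_coeffMap_thetaL (f : R →+* S) (x : LaurentSeries R) :
    coeffMap f (thetaL R x) = thetaL S (coeffMap f x) := by
  ext n
  simp [coeffMap_coeff]

theorem h88_map_map_intCast (f : R →+* S) (P : PowerSeries ℤ) :
    (P.map (Int.castRingHom R)).map f = P.map (Int.castRingHom S) := by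
  rw [← RingHom.comp_apply (PowerSeries.map f) (PowerSeries.map (Int.castRingHom R)),
    ← PowerSeries.map_comp, RingHom.ext_int (f.comp (Int.castRingHom R)) (Int.castRingHom S)]

theorem h88_coeffMap_deltaL (f : R →+* S) : coeffMap f (deltaL R) = deltaL S := by
  rw [deltaL, map_mul, coeffMap_single, map_one, coeffMap_ofPowerSeries, h88_map_map_intCast]
  rfl

theorem h88_coeffMap_deltaInvL (f : R →+* S) : coeffMap f (deltaInvL R) = deltaInvL S := by
  rw [deltaInvL, map_mul, coeffMap_single, map_one, coeffMap_ofPowerSeries, h88_map_map_intCast]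
  rfl

theorem h88_coeffMap_unitL (f : R →+* S) (p : ℕ) [NeZero p] :
    coeffMap f (unitL R p) = unitL S p := by
  rw [unitL, map_mul, coeffMap_qExpand, h88_coeffMap_deltaL, h88_coeffMap_deltaInvL]
  rfl

variable (R) in
theorem h88_deltaL_mul_deltaInvL : deltaL R * deltaInvL R = 1 := by
  rw [deltaL, deltaInvL, mul_mul_mul_comm, HahnSeries.single_mul_single, ← map_mul,
    ← map_mul, dedekindEtaUnit_mul_inv]
  simp

end CoeffMapCompat

end Fermat.Agent.S28

end

end
-- ===== PACK-END S28/H88/Theta.lean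

-- ===== PACK-BEGIN S28/H685/QLaurent.lean
section



/-!
# S28 helper (helper685): convergent Laurent `q`-series

`HasQLaurent h f φ` : the function `f : ℍ → ℂ` is, at every point `τ`, the sum of the Laurent
series `φ` evaluated at `q = exp (2 π i τ / h)`.
-/

set_option autoImplicit false

namespace Fermat.Agent.S28.H685

open UpperHalfPlane Function Complex Filter HahnSeries
open scoped Topology Manifold

noncomputable section

local notation "𝕢" => Periodic.qParam

/-- `f` is the sum of the Laurent series `φ` in the parameter `q = exp (2 π i τ / h)`. -/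
def HasQLaurent (h : ℝ) (f : ℍ → ℂ) (φ : LaurentSeries ℂ) : Prop :=
  ∀ τ : ℍ, HasSum (fun n : ℤ => φ.coeff n * 𝕢 h τ ^ n) (f τ)

theorem ofPS_coeff_of_neg (A : PowerSeries ℂ) {k : ℤ} (hk : k < 0) :
    (HahnSeries.ofPowerSeries ℤ ℂ A).coeff k = 0 := by
  rw [HahnSeries.ofPowerSeries_apply]
  refine HahnSeries.embDomain_of_notMem_range ?_
  rintro ⟨m, rfl⟩
  exact absurd hk (not_lt.mpr (Int.natCast_nonneg m))

theorem coeff_single_mul_ofPS (k : ℤ) (A : PowerSeries ℂ) (m : ℕ) :
    (HahnSeries.single k (1 : ℂ) * HahnSeries.ofPowerSeries ℤ ℂ A).coeff (m + k) =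
      PowerSeries.coeff m A := by
  rw [HahnSeries.coeff_single_mul, one_mul, add_sub_cancel_right,
    HahnSeries.ofPowerSeries_apply_coeff]

theorem coeff_single_mul_ofPS_of_lt (k : ℤ) (A : PowerSeries ℂ) {n : ℤ} (hn : n < k) :
    (HahnSeries.single k (1 : ℂ) * HahnSeries.ofPowerSeries ℤ ℂ A).coeff n = 0 := by
  rw [HahnSeries.coeff_single_mul, one_mul]
  exact ofPS_coeff_of_neg A (by omega)

/-- The basic shift lemma relating Laurent expansions and power series expansions. -/
theorem hasQLaurent_single_mul_iff (h : ℝ) (f : ℍ → ℂ) (k : ℤ) (A : PowerSeries ℂ) :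
    HasQLaurent h f (HahnSeries.single k (1 : ℂ) * HahnSeries.ofPowerSeries ℤ ℂ A) ↔
      HasQExp h (fun τ => f τ * 𝕢 h τ ^ (-k)) A := by
  have hg : Function.Injective (fun m : ℕ => (m : ℤ) + k) := by
    intro a b hab
    simpa using hab
  refine forall_congr' fun τ => ?_
  have hq : 𝕢 h τ ≠ 0 := Periodic.qParam_ne_zero _
  set φ := HahnSeries.single k (1 : ℂ) * HahnSeries.ofPowerSeries ℤ ℂ A with hφ
  have h0 : ∀ n ∉ Set.range (fun m : ℕ => (m : ℤ) + k), φ.coeff n * 𝕢 h τ ^ n = 0 := by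
    intro n hn
    have hlt : n < k := by
      by_contra hge
      rw [not_lt] at hge
      exact hn ⟨(n - k).toNat, by simp; omega⟩
    rw [hφ, coeff_single_mul_ofPS_of_lt k A hlt, zero_mul]
  rw [← hg.hasSum_iff h0]
  have hfun : ((fun n : ℤ => φ.coeff n * 𝕢 h τ ^ n) ∘ fun m : ℕ => (m : ℤ) + k) =
      fun m : ℕ => (PowerSeries.coeff m A * 𝕢 h τ ^ m) * 𝕢 h τ ^ k := by
    funext m
    simp only [Function.comp_apply, hφ, coeff_single_mul_ofPS]
    rw [zpow_add₀ hq, zpow_natCast]
    ring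
  rw [hfun]
  have hk : 𝕢 h τ ^ k ≠ 0 := zpow_ne_zero _ hq
  have hval : f τ = (f τ * 𝕢 h τ ^ (-k)) * 𝕢 h τ ^ k := by
    rw [mul_assoc, ← zpow_add₀ hq]
    simp
  conv_lhs => rw [hval]
  exact hasSum_mul_right_iff hk

theorem algebraMap_eq_C (c : ℂ) :
    algebraMap ℂ (LaurentSeries ℂ) c = HahnSeries.C c := by
  have h1 : algebraMap ℂ (PowerSeries ℂ) c = PowerSeries.C c := by
    simp
  rw [HahnSeries.algebraMap_apply', h1, HahnSeries.ofPowerSeries_C]

/-- Every Laurent series is a monomial times a power series. -/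
theorem laurent_decomp (φ : LaurentSeries ℂ) :
    φ = HahnSeries.single φ.order (1 : ℂ) * HahnSeries.ofPowerSeries ℤ ℂ φ.powerSeriesPart :=
  (LaurentSeries.single_order_mul_powerSeriesPart φ).symm

namespace HasQLaurent

variable {h : ℝ} {f g : ℍ → ℂ} {φ ψ : LaurentSeries ℂ}

theorem congr_fun (hf : HasQLaurent h f φ) (hfg : ∀ τ, f τ = g τ) : HasQLaurent h g φ :=
  fun τ => hfg τ ▸ hf τ

theorem congr_series (hf : HasQLaurent h f φ) (hφ : φ = ψ) : HasQLaurent h f ψ := hφ ▸ hf

theorem zero : HasQLaurent h (fun _ => 0) 0 := fun τ => by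
  simp [hasSum_zero]

theorem add (hf : HasQLaurent h f φ) (hg : HasQLaurent h g ψ) :
    HasQLaurent h (fun τ => f τ + g τ) (φ + ψ) := fun τ => by
  simpa [add_mul] using (hf τ).add (hg τ)

theorem neg (hf : HasQLaurent h f φ) : HasQLaurent h (fun τ => -f τ) (-φ) := fun τ => by
  simpa using (hf τ).neg

theorem sub (hf : HasQLaurent h f φ) (hg : HasQLaurent h g ψ) :
    HasQLaurent h (fun τ => f τ - g τ) (φ - ψ) := fun τ => by
  simpa [sub_mul] using (hf τ).sub (hg τ)

theorem const_mul (c : ℂ) (hf : HasQLaurent h f φ) :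
    HasQLaurent h (fun τ => c * f τ) (HahnSeries.C c * φ) := fun τ => by
  simpa [mul_assoc] using (hf τ).mul_left c

/-- Power series expansions are Laurent expansions. -/
theorem of_hasQExp {A : PowerSeries ℂ} (hf : HasQExp h f A) :
    HasQLaurent h f (HahnSeries.ofPowerSeries ℤ ℂ A) := by
  have := (hasQLaurent_single_mul_iff h f 0 A).mpr (by simpa using hf)
  simpa using this

theorem hasQExp_of_ofPowerSeries {A : PowerSeries ℂ}
    (hf : HasQLaurent h f (HahnSeries.ofPowerSeries ℤ ℂ A)) : HasQExp h f A := by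
  have h1 : HasQLaurent h f (HahnSeries.single 0 (1 : ℂ) * HahnSeries.ofPowerSeries ℤ ℂ A) := by
    simpa using hf
  simpa using (hasQLaurent_single_mul_iff h f 0 A).mp h1

theorem const (c : ℂ) : HasQLaurent h (fun _ => c) (HahnSeries.C c) := by
  have := of_hasQExp (HasQExp.const (h := h) c)
  simpa using this

theorem one : HasQLaurent h (fun _ => 1) 1 := by
  have := of_hasQExp (HasQExp.one (h := h))
  simpa using this

/-- The monomial `q ^ k`. -/
theorem single (k : ℤ) : HasQLaurent h (fun τ => 𝕢 h τ ^ k) (HahnSeries.single k (1 : ℂ)) := by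
  have h1 : HasQExp h (fun τ => 𝕢 h τ ^ k * 𝕢 h τ ^ (-k)) 1 := by
    refine HasQExp.one.congr_fun fun τ => ?_
    rw [← zpow_add₀ (Periodic.qParam_ne_zero _)]
    simp
  have := (hasQLaurent_single_mul_iff h _ k 1).mpr h1
  simpa using this

/-- The power series part of a Laurent expansion. -/
theorem hasQExp_powerSeriesPart (hf : HasQLaurent h f φ) :
    HasQExp h (fun τ => f τ * 𝕢 h τ ^ (-φ.order)) φ.powerSeriesPart :=
  (hasQLaurent_single_mul_iff h f φ.order φ.powerSeriesPart).mp
    (hf.congr_series (laurent_decomp φ))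

theorem mul (hf : HasQLaurent h f φ) (hg : HasQLaurent h g ψ) :
    HasQLaurent h (fun τ => f τ * g τ) (φ * ψ) := by
  have h1 := hf.hasQExp_powerSeriesPart
  have h2 := hg.hasQExp_powerSeriesPart
  have h3 := h1.mul h2
  have h4 : HasQExp h (fun τ => (f τ * g τ) * 𝕢 h τ ^ (-(φ.order + ψ.order)))
      (φ.powerSeriesPart * ψ.powerSeriesPart) := by
    refine h3.congr_fun fun τ => ?_
    rw [neg_add, zpow_add₀ (Periodic.qParam_ne_zero _)]
    ring
  have h5 := (hasQLaurent_single_mul_iff h _ (φ.order + ψ.order) _).mpr h4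
  refine h5.congr_series ?_
  conv_rhs => rw [laurent_decomp φ, laurent_decomp ψ]
  have hs : HahnSeries.single (φ.order + ψ.order) (1 : ℂ) =
      HahnSeries.single φ.order (1 : ℂ) * HahnSeries.single ψ.order (1 : ℂ) := by
    rw [HahnSeries.single_mul_single, one_mul]
  rw [map_mul, hs]
  exact mul_mul_mul_comm _ _ _ _

theorem pow (hf : HasQLaurent h f φ) (n : ℕ) : HasQLaurent h (fun τ => f τ ^ n) (φ ^ n) := by
  induction n with
  | zero => simpa using one (h := h)
  | succ n ih => simpa [pow_succ] using ih.mul hf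

theorem finset_sum {ι : Type*} (s : Finset ι) (F : ι → ℍ → ℂ) (P : ι → LaurentSeries ℂ)
    (hF : ∀ i ∈ s, HasQLaurent h (F i) (P i)) :
    HasQLaurent h (fun τ => ∑ i ∈ s, F i τ) (∑ i ∈ s, P i) := by
  classical
  induction s using Finset.induction_on with
  | empty => simpa using zero (h := h)
  | insert a s ha ih =>
    simp only [Finset.sum_insert ha]
    exact (hF a (Finset.mem_insert_self a s)).add
      (ih fun i hi => hF i (Finset.mem_insert_of_mem hi))

theorem finset_prod {ι : Type*} (s : Finset ι) (F : ι → ℍ → ℂ) (P : ι → LaurentSeries ℂ)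
    (hF : ∀ i ∈ s, HasQLaurent h (F i) (P i)) :
    HasQLaurent h (fun τ => ∏ i ∈ s, F i τ) (∏ i ∈ s, P i) := by
  classical
  induction s using Finset.induction_on with
  | empty => simpa using one (h := h)
  | insert a s ha ih =>
    simp only [Finset.prod_insert ha]
    exact (hF a (Finset.mem_insert_self a s)).mul
      (ih fun i hi => hF i (Finset.mem_insert_of_mem hi))

/-- Uniqueness of the Laurent coefficients. -/
theorem eq_zero (hh : 0 < h) (hf : HasQLaurent h (fun _ => 0) φ) : φ = 0 := by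
  have h1 := hf.hasQExp_powerSeriesPart
  have h2 : φ.powerSeriesPart = 0 := by
    refine HasQExp.eq_zero hh (h1.congr_fun fun τ => ?_)
    simp
  exact (LaurentSeries.powerSeriesPart_eq_zero φ).mp h2

theorem unique (hh : 0 < h) (hf : HasQLaurent h f φ) (hg : HasQLaurent h f ψ) : φ = ψ := by
  have h1 : HasQLaurent h (fun _ => 0) (φ - ψ) :=
    (hf.sub hg).congr_fun fun τ => sub_self _
  exact sub_eq_zero.mp (h1.eq_zero hh)

/-- If the function vanishes identically then so does the series; pointwise version. -/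
theorem eq_of_forall_eq (hh : 0 < h) (hf : HasQLaurent h f φ) (hg : HasQLaurent h g ψ)
    (hfg : ∀ τ, f τ = g τ) : φ = ψ :=
  (hf.congr_fun hfg).unique hh hg

theorem mdifferentiable (hh : 0 < h) (hf : HasQLaurent h f φ) : MDiff f := by
  have h1 := (hf.hasQExp_powerSeriesPart).mdifferentiable hh
  have h2 : MDiff (fun τ : ℍ => 𝕢 h τ ^ φ.order) := by
    rw [UpperHalfPlane.mdifferentiable_iff]
    have hd : DifferentiableOn ℂ (fun z : ℂ => 𝕢 h z ^ φ.order) {z | 0 < z.im} := by
      intro z _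
      exact ((Periodic.differentiable_qParam (h := h)).differentiableAt.zpow
        (Or.inl (Periodic.qParam_ne_zero _))).differentiableWithinAt
    refine hd.congr fun z hz => ?_
    simp only [Function.comp_apply]
    rw [ofComplex_apply_of_im_pos hz]
  have h3 : f = fun τ => (f τ * 𝕢 h τ ^ (-φ.order)) * 𝕢 h τ ^ φ.order := by
    funext τ
    rw [mul_assoc, ← zpow_add₀ (Periodic.qParam_ne_zero _)]
    simp
  rw [h3]
  exact h1.mul h2

theorem vadd_period (hh : 0 < h) (hf : HasQLaurent h f φ) (τ : ℍ) (τ' : ℍ)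
    (hτ : (τ' : ℂ) = τ + h) : f τ' = f τ := by
  have h1 := (hf.hasQExp_powerSeriesPart).vadd_period hh τ τ' hτ
  have h2 := (HasQExp.X (h := h)).vadd_period hh τ τ' hτ
  beta_reduce at h1 h2
  rw [h2] at h1
  exact mul_right_cancel₀ (zpow_ne_zero _ (Periodic.qParam_ne_zero _)) h1

/-- Closure under inverses. -/
theorem inv (hh : 0 < h) (hf : HasQLaurent h f φ) (hf0 : ∀ τ, f τ ≠ 0) (hφ : φ ≠ 0) :
    HasQLaurent h (fun τ => (f τ)⁻¹) φ⁻¹ := by
  have h1 := hf.hasQExp_powerSeriesPart
  have hA0 : PowerSeries.coeff 0 φ.powerSeriesPart ≠ 0 := by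
    rw [LaurentSeries.powerSeriesPart_coeff]
    simpa using (HahnSeries.coeff_order_eq_zero (x := φ)).not.mpr hφ
  have h2 := h1.inv hh (fun τ => mul_ne_zero (hf0 τ)
    (zpow_ne_zero _ (Periodic.qParam_ne_zero _))) hA0
  have h3 : HasQExp h (fun τ => (f τ)⁻¹ * 𝕢 h τ ^ (-(-φ.order))) (φ.powerSeriesPart)⁻¹ := by
    refine h2.congr_fun fun τ => ?_
    rw [mul_inv, ← zpow_neg]
  have h4 := (hasQLaurent_single_mul_iff h _ (-φ.order) _).mpr h3
  refine h4.congr_series ?_
  have hA0' : PowerSeries.constantCoeff φ.powerSeriesPart ≠ 0 := by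
    rwa [← PowerSeries.coeff_zero_eq_constantCoeff]
  symm
  apply inv_eq_of_mul_eq_one_left
  have hs : HahnSeries.single (-φ.order) (1 : ℂ) * HahnSeries.single φ.order (1 : ℂ) = 1 := by
    rw [HahnSeries.single_mul_single, one_mul, neg_add_cancel]
    rfl
  calc HahnSeries.single (-φ.order) (1 : ℂ) * HahnSeries.ofPowerSeries ℤ ℂ (φ.powerSeriesPart)⁻¹ * φ
      = HahnSeries.single (-φ.order) (1 : ℂ) * HahnSeries.ofPowerSeries ℤ ℂ (φ.powerSeriesPart)⁻¹ *
        (HahnSeries.single φ.order (1 : ℂ) * HahnSeries.ofPowerSeries ℤ ℂ φ.powerSeriesPart) := by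
        rw [← laurent_decomp φ]
    _ = (HahnSeries.single (-φ.order) (1 : ℂ) * HahnSeries.single φ.order (1 : ℂ)) *
        HahnSeries.ofPowerSeries ℤ ℂ ((φ.powerSeriesPart)⁻¹ * φ.powerSeriesPart) := by
        rw [map_mul]
        exact mul_mul_mul_comm _ _ _ _
    _ = 1 := by
        rw [hs, PowerSeries.inv_mul_cancel _ hA0', map_one, one_mul]

theorem div (hh : 0 < h) (hf : HasQLaurent h f φ) (hg : HasQLaurent h g ψ)
    (hg0 : ∀ τ, g τ ≠ 0) (hψ : ψ ≠ 0) :
    HasQLaurent h (fun τ => f τ / g τ) (φ / ψ) := by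
  simpa [div_eq_mul_inv] using hf.mul (hg.inv hh hg0 hψ)

/-- Evaluation of polynomials. -/
theorem aeval (hf : HasQLaurent h f φ) (P : Polynomial ℂ) :
    HasQLaurent h (fun τ => P.eval (f τ)) (Polynomial.aeval φ P) := by
  induction P using Polynomial.induction_on' with
  | add p q hp hq =>
    simpa using hp.add hq
  | monomial n a =>
    have := (hf.pow n).const_mul a
    refine (this.congr_fun fun τ => ?_).congr_series ?_
    · simp
    · rw [Polynomial.aeval_monomial, algebraMap_eq_C]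

/-- Evaluation of multivariate polynomials. -/
theorem mvAeval {σ : Type*} (F : σ → ℍ → ℂ) (Φ : σ → LaurentSeries ℂ)
    (hF : ∀ i, HasQLaurent h (F i) (Φ i)) (P : MvPolynomial σ ℂ) :
    HasQLaurent h (fun τ => MvPolynomial.eval (fun i => F i τ) P) (MvPolynomial.aeval Φ P) := by
  induction P using MvPolynomial.induction_on with
  | C a =>
    have := (one (h := h)).const_mul a
    refine (this.congr_fun fun τ => ?_).congr_series ?_
    · simp
    · rw [MvPolynomial.aeval_C, algebraMap_eq_C, mul_one]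
  | add p q hp hq =>
    simpa using hp.add hq
  | mul_X p i hp =>
    simpa using hp.mul (hF i)

end HasQLaurent

end

end Fermat.Agent.S28.H685

end
-- ===== PACK-END S28/H685/QLaurent.lean

-- ===== PACK-BEGIN S18/H516/GaussSpan.lean
section




/-!
# S18 / MOD (helper516): base change of the S28 basis from `ℚ` to an arbitrary field `L ⊇ ℚ`

`F_L := laurentBaseChange L (modularFunctionFieldFull N) ⊆ L((q))` is exactly the `L(j)`-span of
the images of the S28 "monomials" `y i ∈ ℤ[j_d : d ∣ N]`.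
-/

set_option autoImplicit false
set_option linter.unusedSectionVars false

noncomputable section

namespace Fermat.Agent.S18.H516

open ModularCurve HahnSeries IntermediateField Polynomial Fermat.Agent.S28

section CoeffEmb

variable (L : Type*) [Field L] [Algebra ℚ L]

theorem coeffEmb_jq : coeffEmb L jq = jqModC L := by
  rw [← jqModC_rat, coeffEmb, coeffMap_jqModC]

theorem coeffEmb_aeval (x : LaurentSeries ℚ) (r : ℚ[X]) :
    coeffEmb L (aeval x r) = aeval (coeffEmb L x) (r.map (algebraMap ℚ L)) := by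
  rw [aeval_def, aeval_def, hom_eval₂, eval₂_map]
  congr 1
  exact RingHom.ext_rat _ _

/-- `coeffEmb` maps `ℚ(j)` into `L(j)`. -/
theorem coeffEmb_mem_jField {c : LaurentSeries ℚ} (hc : c ∈ jField ℚ) :
    coeffEmb L c ∈ jField L := by
  rw [jField, mem_adjoin_simple_iff] at hc
  obtain ⟨r, s, rfl⟩ := hc
  have hj : coeffEmb L (jqModC ℚ) = jqModC L := by
    rw [coeffEmb, coeffMap_jqModC]
  rw [map_div₀, coeffEmb_aeval, coeffEmb_aeval, hj]
  rw [jField, mem_adjoin_simple_iff]
  exact ⟨_, _, rfl⟩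

theorem coeffMap_intCast_eq_coeffEmb (y : LaurentSeries ℤ) :
    coeffMap (Int.castRingHom L) y = coeffEmb L (coeffMap (Int.castRingHom ℚ) y) := by
  rw [coeffEmb, coeffMap_coeffMap]
  exact coeffMap_congr (RingHom.ext_int _ _) y

end CoeffEmb

section Closure

variable (R : Type*) [CommRing R] (N : ℕ)

/-- The generators `j(q^d)`, `d ∣ N` over an arbitrary ring. -/
theorem coeffMap_mem_of_mem_closure {K : Type*} [Field K] [NeZero N] {y : LaurentSeries ℤ}
    (hy : y ∈ Subring.closure (intDivisorExpansions N)) :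
    coeffMap (Int.castRingHom K) y ∈ modularFunctionFieldFullC K N := by
  induction hy using Subring.closure_induction with
  | mem x hx =>
    obtain ⟨d, hd, hdN, rfl⟩ := hx
    rw [coeffMap_qExpand, coeffMap_jqModC]
    exact jqModCd_mem_full K N hdN
  | zero => rw [map_zero]; exact zero_mem _
  | one => rw [map_one]; exact one_mem _
  | add x y _ _ hx hy => rw [map_add]; exact add_mem hx hy
  | neg x _ hx => rw [map_neg]; exact neg_mem hx
  | mul x y _ _ hx hy => rw [map_mul]; exact mul_mem hx hy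

end Closure

section Span

variable (L : Type*) [Field L] [Algebra ℚ L] (N : ℕ) [NeZero N]
variable {n : ℕ} (y : Fin n → LaurentSeries ℤ)

/-- The `L(j)`-span of the base-changed monomials. -/
def spanL : Submodule (jField L) (LaurentSeries L) :=
  Submodule.span (jField L) (Set.range fun i => coeffMap (Int.castRingHom L) (y i))

/-- Hypothesis package extracted from `CoreData.exists_basis` (char-0 half). -/
def SpansQ : Prop :=
  (∀ i, y i ∈ Subring.closure (intDivisorExpansions N)) ∧
    ∀ x ∈ modularFunctionFieldFull N,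
      x ∈ Submodule.span (jField ℚ) (Set.range fun i => coeffMap (Int.castRingHom ℚ) (y i))

variable {N y}

omit [Algebra ℚ L] in
theorem yL_mem_spanL (i : Fin n) : coeffMap (Int.castRingHom L) (y i) ∈ spanL L y :=
  Submodule.subset_span ⟨i, rfl⟩

theorem coeffEmb_mem_spanL (h : SpansQ N y) {x : LaurentSeries ℚ}
    (hx : x ∈ modularFunctionFieldFull N) : coeffEmb L x ∈ spanL L y := by
  have hx' := h.2 x hx
  clear hx
  induction hx' using Submodule.span_induction with
  | mem z hz =>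
    obtain ⟨i, rfl⟩ := hz
    rw [← coeffMap_intCast_eq_coeffEmb L (y i)]
    exact yL_mem_spanL L i
  | zero => rw [map_zero]; exact zero_mem _
  | add a b _ _ ha hb => rw [map_add]; exact add_mem ha hb
  | smul c a _ ha =>
    have : coeffEmb L (c • a) = (⟨coeffEmb L c, coeffEmb_mem_jField L c.2⟩ : jField L) •
        coeffEmb L a := by
      show coeffEmb L ((c : LaurentSeries ℚ) * a) = coeffEmb L c * coeffEmb L a
      rw [map_mul]
    rw [this]
    exact Submodule.smul_mem _ _ ha

theorem yQ_mem_full (h : SpansQ N y) (i : Fin n) :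
    coeffMap (Int.castRingHom ℚ) (y i) ∈ modularFunctionFieldFull N := by
  have := coeffMap_mem_of_mem_closure (K := ℚ) N (h.1 i)
  rwa [modularFunctionFieldFullC_rat] at this

theorem one_mem_spanL (h : SpansQ N y) : (1 : LaurentSeries L) ∈ spanL L y := by
  have := coeffEmb_mem_spanL L h (one_mem (modularFunctionFieldFull N))
  rwa [map_one] at this

theorem mul_mem_spanL (h : SpansQ N y) {a b : LaurentSeries L} (ha : a ∈ spanL L y)
    (hb : b ∈ spanL L y) : a * b ∈ spanL L y := by
  induction ha using Submodule.span_induction with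
  | mem z hz =>
    obtain ⟨i, rfl⟩ := hz
    induction hb using Submodule.span_induction with
    | mem w hw =>
      obtain ⟨j, rfl⟩ := hw
      show coeffMap (Int.castRingHom L) (y i) * coeffMap (Int.castRingHom L) (y j) ∈ _
      rw [coeffMap_intCast_eq_coeffEmb L (y i), coeffMap_intCast_eq_coeffEmb L (y j), ← map_mul]
      exact coeffEmb_mem_spanL L h (mul_mem (yQ_mem_full h i) (yQ_mem_full h j))
    | zero => rw [mul_zero]; exact zero_mem _
    | add a b _ _ ha hb => rw [mul_add]; exact add_mem ha hb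
    | smul c a _ ha =>
      have : (fun i => coeffMap (Int.castRingHom L) (y i)) i * (c • a) =
          c • ((fun i => coeffMap (Int.castRingHom L) (y i)) i * a) := by
        show _ * ((c : LaurentSeries L) * a) = (c : LaurentSeries L) * (_ * a)
        ring
      rw [this]
      exact Submodule.smul_mem _ _ ha
  | zero => rw [zero_mul]; exact zero_mem _
  | add a b _ _ ha hb => rw [add_mul]; exact add_mem ha hb
  | smul c a _ ha =>
    have : (c • a) * b = c • (a * b) := by
      show ((c : LaurentSeries L) * a) * b = (c : LaurentSeries L) * (a * b)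
      ring
    rw [this]
    exact Submodule.smul_mem _ _ ha

/-- The span as a subalgebra over `L(j)`. -/
def spanAlg (h : SpansQ N y) : Subalgebra (jField L) (LaurentSeries L) where
  carrier := spanL L y
  mul_mem' := fun ha hb => mul_mem_spanL L h ha hb
  add_mem' := fun ha hb => add_mem ha hb
  algebraMap_mem' c := by
    have : algebraMap (jField L) (LaurentSeries L) c = c • (1 : LaurentSeries L) := by
      rw [Algebra.smul_def, mul_one]
    rw [this]
    exact Submodule.smul_mem _ _ (one_mem_spanL L h)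

theorem mem_spanAlg (h : SpansQ N y) {x : LaurentSeries L} :
    x ∈ spanAlg L h ↔ x ∈ spanL L y := Iff.rfl

theorem inv_mem_spanL (h : SpansQ N y) {x : LaurentSeries L} (hx : x ∈ spanL L y) :
    x⁻¹ ∈ spanL L y := by
  have hfin : Module.Finite (jField L) (spanAlg L h) := by
    have : Module.Finite (jField L) (spanL L y) :=
      Module.Finite.span_of_finite _ (Set.finite_range _)
    exact this
  have hint : IsIntegral (jField L) (⟨x, hx⟩ : spanAlg L h) := IsIntegral.of_finite _ _
  have halg : IsAlgebraic (jField L) ((⟨x, hx⟩ : spanAlg L h) : LaurentSeries L) :=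
    (hint.isAlgebraic).algebraMap (A := LaurentSeries L)
  exact (spanAlg L h).inv_mem_of_algebraic (x := ⟨x, hx⟩) halg

/-- The span as an intermediate field of `L((q))/L`. -/
def spanField (h : SpansQ N y) : IntermediateField L (LaurentSeries L) where
  carrier := spanL L y
  mul_mem' := fun ha hb => mul_mem_spanL L h ha hb
  add_mem' := fun ha hb => add_mem ha hb
  one_mem' := one_mem_spanL L h
  zero_mem' := zero_mem _
  algebraMap_mem' c := by
    have hc : algebraMap L (LaurentSeries L) c ∈ jField L := (jField L).algebraMap_mem c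
    have : algebraMap L (LaurentSeries L) c =
        (⟨_, hc⟩ : jField L) • (1 : LaurentSeries L) := by
      show _ = algebraMap L (LaurentSeries L) c * 1
      rw [mul_one]
    rw [this]
    exact Submodule.smul_mem _ _ (one_mem_spanL L h)
  inv_mem' := fun x hx => inv_mem_spanL L h hx

theorem jField_le_baseChange : jField L ≤ laurentBaseChange L (modularFunctionFieldFull N) := by
  rw [jField, adjoin_le_iff]
  rintro x rfl
  have hj : jq ∈ modularFunctionFieldFull N := modularFunctionField_le_full N (jq_mem N)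
  have := coeffEmb_mem_laurentBaseChange L hj
  rwa [coeffEmb_jq] at this

/-- **Base change of the S28 basis.** `F_L` is the `L(j)`-span of the monomials. -/
theorem mem_baseChange_iff_mem_spanL (h : SpansQ N y) {x : LaurentSeries L} :
    x ∈ laurentBaseChange L (modularFunctionFieldFull N) ↔ x ∈ spanL L y := by
  constructor
  · intro hx
    have hle : laurentBaseChange L (modularFunctionFieldFull N) ≤ spanField L h := by
      rw [laurentBaseChange, adjoin_le_iff]
      rintro z ⟨w, hw, rfl⟩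
      exact coeffEmb_mem_spanL L h hw
    exact hle hx
  · intro hx
    induction hx using Submodule.span_induction with
    | mem z hz =>
      obtain ⟨i, rfl⟩ := hz
      show coeffMap (Int.castRingHom L) (y i) ∈ _
      rw [coeffMap_intCast_eq_coeffEmb L (y i)]
      exact coeffEmb_mem_laurentBaseChange L (yQ_mem_full h i)
    | zero => exact zero_mem _
    | add a b _ _ ha hb => exact add_mem ha hb
    | smul c a _ ha =>
      exact mul_mem (jField_le_baseChange L c.2) ha

end Span

end Fermat.Agent.S18.H516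

end
end
-- ===== PACK-END S18/H516/GaussSpan.lean

-- ===== PACK-BEGIN S24/Mod/H368Gens.lean
section



/-!
# S24 / MOD glue (helper368): generators of the function field of `X₀(N)`

The Prelude defines `modularFunctionFieldBar N` as the field generated over `ℚ̄` by the image
of the whole field `ℚ(j(q^d) : d ∣ N)`.  Here we show it is generated by the finitely many
series `j(q^d)`, `d ∣ N`, and deduce the `MvPolynomial` presentation used to construct
embeddings.
-/

set_option autoImplicit false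
set_option linter.style.haveILetI false

noncomputable section

open ModularCurve IntermediateField MvPolynomial

namespace Fermat.Agent.S24.H368

variable (L : Type*) [Field L] [Algebra ℚ L]

/-- `j(q^d)` with coefficients in `L`, for a divisor `d` of `N`. -/
def gen (N : ℕ) (d : N.divisors) : LaurentSeries L :=
  haveI : NeZero d.1 := ⟨(Nat.pos_of_mem_divisors d.2).ne'⟩
  coeffEmb L (qExpand ℚ d.1 jq)

theorem gen_eq (N : ℕ) (d : ℕ) [NeZero d] (hd : d ∈ N.divisors) :
    gen L N ⟨d, hd⟩ = coeffEmb L (qExpand ℚ d jq) := rfl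

theorem gen_one (N : ℕ) [NeZero N] :
    gen L N ⟨1, Nat.one_mem_divisors.2 (NeZero.ne N)⟩ = coeffEmb L jq := by
  rw [gen_eq, qExpand_one_apply]

/-- The image under `coeffEmb` of the field generated by a set lies in the field generated by
the image of the set. -/
theorem coeffEmb_mem_adjoin_image (T : Set (LaurentSeries ℚ)) {x : LaurentSeries ℚ}
    (hx : x ∈ IntermediateField.adjoin ℚ T) :
    coeffEmb L x ∈ IntermediateField.adjoin L (⇑(coeffEmb L) '' T) := by
  induction hx using IntermediateField.adjoin_induction with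
  | mem y hy => exact subset_adjoin L _ ⟨y, hy, rfl⟩
  | algebraMap c =>
    have : coeffEmb L (algebraMap ℚ (LaurentSeries ℚ) c)
        = algebraMap L (LaurentSeries L) (algebraMap ℚ L c) := by
      rw [algebraMap_apply_eq_single, algebraMap_laurentSeries_eq_single]
      exact coeffMap_single _ _ _
    rw [this]
    exact (IntermediateField.adjoin L _).algebraMap_mem _
  | add x y _ _ hx hy => rw [map_add]; exact add_mem hx hy
  | inv x _ hx => rw [map_inv₀]; exact inv_mem hx
  | mul x y _ _ hx hy => rw [map_mul]; exact mul_mem hx hy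

theorem laurentBaseChange_adjoin (T : Set (LaurentSeries ℚ)) :
    laurentBaseChange L (IntermediateField.adjoin ℚ T)
      = IntermediateField.adjoin L (⇑(coeffEmb L) '' T) := by
  apply le_antisymm
  · rw [laurentBaseChange, adjoin_le_iff]
    rintro _ ⟨x, hx, rfl⟩
    exact coeffEmb_mem_adjoin_image L T hx
  · rw [laurentBaseChange]
    exact IntermediateField.adjoin.mono L _ _ (Set.image_mono (subset_adjoin ℚ T))

theorem image_divisorExpansions (N : ℕ) [NeZero N] :
    ⇑(coeffEmb L) '' divisorExpansions N = Set.range (gen L N) := by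
  ext x
  constructor
  · rintro ⟨y, ⟨d, hne, hd, rfl⟩, rfl⟩
    exact ⟨⟨d, Nat.mem_divisors.2 ⟨hd, NeZero.ne N⟩⟩, rfl⟩
  · rintro ⟨⟨d, hd⟩, rfl⟩
    exact ⟨_, ⟨d, ⟨(Nat.pos_of_mem_divisors hd).ne'⟩, Nat.dvd_of_mem_divisors hd, rfl⟩, rfl⟩

/-- The function field of `X₀(N)` over `L` is generated over `L` by the `j(q^d)`, `d ∣ N`. -/
theorem laurentBaseChange_full_eq_adjoin (N : ℕ) [NeZero N] :
    laurentBaseChange L (modularFunctionFieldFull N)
      = IntermediateField.adjoin L (Set.range (gen L N)) := by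
  rw [modularFunctionFieldFull, laurentBaseChange_adjoin, image_divisorExpansions]

theorem modularFunctionFieldBar_eq_adjoin (N : ℕ) [NeZero N] :
    modularFunctionFieldBar N
      = IntermediateField.adjoin (AlgebraicClosure ℚ) (Set.range (gen (AlgebraicClosure ℚ) N)) :=
  laurentBaseChange_full_eq_adjoin _ N

/-- Every element of `K(s)` is a quotient of two polynomial expressions in the generators. -/
theorem exists_aeval_div {K E ι : Type*} [Field K] [Field E] [Algebra K E] (s : ι → E)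
    {x : E} (hx : x ∈ IntermediateField.adjoin K (Set.range s)) :
    ∃ p q : MvPolynomial ι K, aeval s q ≠ 0 ∧ x = aeval s p / aeval s q := by
  obtain ⟨a, ha, b, hb, rfl⟩ := IntermediateField.mem_adjoin_iff_div.1 hx
  rw [Algebra.adjoin_range_eq_range_aeval] at ha hb
  obtain ⟨p, rfl⟩ := ha
  obtain ⟨q, rfl⟩ := hb
  by_cases hq : aeval s q = 0
  · refine ⟨0, 1, by simp, ?_⟩
    simp [hq]
  · exact ⟨p, q, hq, rfl⟩

end Fermat.Agent.S24.H368

end
end
-- ===== PACK-END S24/Mod/H368Gens.lean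

-- ===== PACK-BEGIN S18/Mod/H216/Parts.lean
section


/-!
# S18 / MOD-ASM (helper216): `Alg.GoodModel` split into six independent PARTS

`Alg.GoodModel Lc Ec Fc R V w x S` (Alg/Spec v4, on main) has 34 fields.  They are grouped here into six `Prop`-structures
with the SAME field names and the SAME field types, so that each group can be proved by a different
owner, in any order:

| part | structure | fields |
|---|---|---|
| G-R   | `PartR Ec R w`        | `R_le R_total w_mem w_ne_zero w_inv_not_mem w_gen w_discrete residue_perfect` |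
| G-FLD | `PartFld Lc Ec Fc x`  | `E_le_L E_le_F L_algebraic L_algClosed E_closed_in_F compositum x_mem x_transcendental finite` |
| G-V   | `PartV Fc R V w x`    | `V_le V_total R_le_V w_inv_not_mem_V V_gen x_mem_V gauss` |
| G-QEP | `PartQep Fc R V w x`  | `qep_fin qep_inf` |
| G-SEP | `PartSep R V w x`     | `separable` |
| G-BR  | `PartBr Lc R x S`     | `S_mem S_distinct S_unit unramified` |

`goodModel_of_parts` assembles them (+ `CharZero Ω`); `GoodModel.partR` … project back.
Everything here is Mathlib-only (abstract field `Ω`).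
-/

set_option autoImplicit false

namespace Fermat.Agent.S18.Mod.H216

open Fermat.Agent.S18.Alg

variable {Ω : Type*} [Field Ω]

/-- **G-R**: `R` is a discrete valuation ring of `Ec`, uniformiser `w`, perfect residue field. -/
structure PartR (Ec : Subfield Ω) (R : Subring Ω) (w : Ω) : Prop where
  R_le : (R : Set Ω) ⊆ Ec
  R_total : ∀ e ∈ Ec, e ∈ R ∨ e⁻¹ ∈ R
  w_mem : w ∈ R
  w_ne_zero : w ≠ 0
  w_inv_not_mem : w⁻¹ ∉ R
  w_gen : ∀ r ∈ R, r⁻¹ ∉ R → r * w⁻¹ ∈ R
  w_discrete : ∀ r ∈ R, r ≠ 0 → ∃ n : ℕ, r * (w⁻¹) ^ n ∈ R ∧ (r * (w⁻¹) ^ n)⁻¹ ∈ R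
  residue_perfect : ∃ p : ℕ, p.Prime ∧ (p : Ω) * w⁻¹ ∈ R ∧
    ∀ r ∈ R, ∃ s ∈ R, (r - s ^ p) * w⁻¹ ∈ R

/-- **G-FLD**: the fields `Ec ≤ Lc`, `Ec ≤ Fc`, and the coordinate `x`. -/
structure PartFld (Lc Ec Fc : Subfield Ω) (x : Ω) : Prop where
  E_le_L : Ec ≤ Lc
  E_le_F : Ec ≤ Fc
  L_algebraic : ∀ a ∈ Lc, IsAlgebraic Ec a
  L_algClosed : IsAlgClosed Lc
  E_closed_in_F : ∀ f ∈ Fc, IsAlgebraic Ec f → f ∈ Ec
  compositum : Subfield.closure ((Fc : Set Ω) ∪ Lc) = ⊤
  x_mem : x ∈ Fc
  x_transcendental : Transcendental Lc x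
  finite : ∃ s : Finset Ω, (s : Set Ω) ⊆ Fc ∧
    ∀ f ∈ Fc, f ∈ Submodule.span (ratField Ec x) (s : Set Ω)

/-- **G-V**: `V` is the Gauss valuation ring of `Fc`. -/
structure PartV (Fc : Subfield Ω) (R V : Subring Ω) (w x : Ω) : Prop where
  V_le : (V : Set Ω) ⊆ Fc
  V_total : ∀ f ∈ Fc, f ∈ V ∨ f⁻¹ ∈ V
  R_le_V : R ≤ V
  w_inv_not_mem_V : w⁻¹ ∉ V
  V_gen : ∀ f ∈ V, f⁻¹ ∉ V → f * w⁻¹ ∈ V
  x_mem_V : x ∈ V
  gauss : ∀ P : Polynomial Ω, (∀ i, P.coeff i ∈ R) → (∃ i, P.coeff i ≠ 0 ∧ (P.coeff i)⁻¹ ∈ R) →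
    (P.eval x)⁻¹ ∈ V

/-- **G-QEP**: the `q`-expansion principle on both charts. -/
structure PartQep (Fc : Subfield Ω) (R V : Subring Ω) (w x : Ω) : Prop where
  qep_fin : ∀ b ∈ chart Fc R x, b * w⁻¹ ∈ V → b * w⁻¹ ∈ chart Fc R x
  qep_inf : ∀ b ∈ chart Fc R x⁻¹, b * w⁻¹ ∈ V → b * w⁻¹ ∈ chart Fc R x⁻¹

/-- **G-SEP**: the residue field of `V` is separable over `κ(x̄)`. -/
structure PartSep (R V : Subring Ω) (w x : Ω) : Prop where
  separable : ∀ f ∈ V, ∃ P : Polynomial Ω, (∀ i, P.coeff i ∈ polyRing R x) ∧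
    P.eval f * w⁻¹ ∈ V ∧ (Polynomial.derivative P).eval f ≠ 0 ∧
    ((Polynomial.derivative P).eval f)⁻¹ ∈ V

/-- **G-BR**: the branch values. -/
structure PartBr (Lc : Subfield Ω) (R : Subring Ω) (x : Ω) (S : Finset Ω) : Prop where
  S_mem : ∀ s ∈ S, s ∈ R
  S_distinct : ∀ s ∈ S, ∀ t ∈ S, s ≠ t → (s - t)⁻¹ ∈ R
  S_unit : ∀ s ∈ S, s ≠ 0 → s⁻¹ ∈ R
  unramified : ∀ O : ValuationSubring Ω, (∀ a ∈ Lc, a ∈ O) → ∀ c ∈ Lc, c ∉ S →
    x - c ∈ O → (x - c)⁻¹ ∉ O → ∀ t ∈ O, t⁻¹ ∉ O → t * (x - c)⁻¹ ∈ O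

/-- **Assembly**: the six parts give a `GoodModel`. -/
theorem goodModel_of_parts {Lc Ec Fc : Subfield Ω} {R V : Subring Ω} {w x : Ω} {S : Finset Ω}
    (h0 : CharZero Ω) (hR : PartR Ec R w) (hF : PartFld Lc Ec Fc x) (hV : PartV Fc R V w x)
    (hQ : PartQep Fc R V w x) (hS : PartSep R V w x) (hB : PartBr Lc R x S) :
    GoodModel Lc Ec Fc R V w x S where
  charZero := h0
  R_le := hR.R_le
  R_total := hR.R_total
  w_mem := hR.w_mem
  w_ne_zero := hR.w_ne_zero
  w_inv_not_mem := hR.w_inv_not_mem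
  w_gen := hR.w_gen
  w_discrete := hR.w_discrete
  residue_perfect := hR.residue_perfect
  E_le_L := hF.E_le_L
  E_le_F := hF.E_le_F
  L_algebraic := hF.L_algebraic
  L_algClosed := hF.L_algClosed
  E_closed_in_F := hF.E_closed_in_F
  compositum := hF.compositum
  x_mem := hF.x_mem
  x_transcendental := hF.x_transcendental
  finite := hF.finite
  V_le := hV.V_le
  V_total := hV.V_total
  R_le_V := hV.R_le_V
  w_inv_not_mem_V := hV.w_inv_not_mem_V
  V_gen := hV.V_gen
  x_mem_V := hV.x_mem_V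
  gauss := hV.gauss
  qep_fin := hQ.qep_fin
  qep_inf := hQ.qep_inf
  separable := hS.separable
  S_mem := hB.S_mem
  S_distinct := hB.S_distinct
  S_unit := hB.S_unit
  unramified := hB.unramified

section Project

variable {Lc Ec Fc : Subfield Ω} {R V : Subring Ω} {w x : Ω} {S : Finset Ω}

theorem partR_of_goodModel (h : GoodModel Lc Ec Fc R V w x S) : PartR Ec R w :=
  ⟨h.R_le, h.R_total, h.w_mem, h.w_ne_zero, h.w_inv_not_mem, h.w_gen, h.w_discrete,
    h.residue_perfect⟩

theorem partFld_of_goodModel (h : GoodModel Lc Ec Fc R V w x S) : PartFld Lc Ec Fc x :=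
  ⟨h.E_le_L, h.E_le_F, h.L_algebraic, h.L_algClosed, h.E_closed_in_F, h.compositum, h.x_mem,
    h.x_transcendental, h.finite⟩

theorem partV_of_goodModel (h : GoodModel Lc Ec Fc R V w x S) : PartV Fc R V w x :=
  ⟨h.V_le, h.V_total, h.R_le_V, h.w_inv_not_mem_V, h.V_gen, h.x_mem_V, h.gauss⟩

theorem partQep_of_goodModel (h : GoodModel Lc Ec Fc R V w x S) : PartQep Fc R V w x :=
  ⟨h.qep_fin, h.qep_inf⟩

theorem partSep_of_goodModel (h : GoodModel Lc Ec Fc R V w x S) : PartSep R V w x :=
  ⟨h.separable⟩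

theorem partBr_of_goodModel (h : GoodModel Lc Ec Fc R V w x S) : PartBr Lc R x S :=
  ⟨h.S_mem, h.S_distinct, h.S_unit, h.unramified⟩

end Project

end Fermat.Agent.S18.Mod.H216

end
-- ===== PACK-END S18/Mod/H216/Parts.lean

-- ===== PACK-BEGIN S20/Comb694/Fixed.lean
section


/-!
# Fixed points of `S` and `S * T` on `SL(2,ℤ) ⧸ Gamma0 N`

* `card_fixedBy_S : Nat.card (MulAction.fixedBy (SL(2,ℤ) ⧸ Gamma0 N) S) = nuTwo N`
* `card_fixedBy_ST : Nat.card (MulAction.fixedBy (SL(2,ℤ) ⧸ Gamma0 N) (S * T)) = nuThree N`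
-/

set_option autoImplicit false

namespace Fermat.Agent.S20.Comb694

open Matrix MatrixGroups CongruenceSubgroup

variable (N : ℕ)

/-- From a root of `x² + 1` in `ZMod N` to a fixed point of `S`. -/
noncomputable def rootToFixedS (x : {x : ZMod N // x ^ 2 + 1 = 0}) :
    MulAction.fixedBy (SL(2, ℤ) ⧸ Gamma0 N) ModularGroup.S :=
  ⟨QuotientGroup.mk (colRep (ZMod.cast x.1 : ℤ)), by
    rw [MulAction.mem_fixedBy, S_smul_mk_eq_mk_iff]
    simp only [colRep_apply_zero_zero, colRep_apply_one_zero, ZMod.intCast_zmod_cast,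
      Int.cast_one, one_pow]
    exact x.2⟩

lemma rootToFixedS_bijective : Function.Bijective (rootToFixedS N) := by
  constructor
  · rintro ⟨x, hx⟩ ⟨y, hy⟩ h
    have h' := congrArg Subtype.val h
    simp only [rootToFixedS] at h'
    rw [mk_eq_mk_iff] at h'
    simp only [colRep_apply_zero_zero, colRep_apply_one_zero, ZMod.intCast_zmod_cast,
      Int.cast_one, mul_one, one_mul] at h'
    exact Subtype.ext (sub_eq_zero.mp h')
  · rintro ⟨q, hq⟩
    obtain ⟨g, rfl⟩ := QuotientGroup.mk_surjective q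
    rw [MulAction.mem_fixedBy, S_smul_mk_eq_mk_iff] at hq
    have hinv := c_mul_inv_eq_one N g (-((g 1 0 : ℤ) : ZMod N)) (by linear_combination hq)
    set a : ZMod N := ((g 0 0 : ℤ) : ZMod N) with ha
    set c : ZMod N := ((g 1 0 : ℤ) : ZMod N) with hc
    set i : ZMod N := (-c * ((g 1 1 : ℤ) : ZMod N) ^ 2
        - 2 * a * ((g 0 1 : ℤ) : ZMod N) * ((g 1 1 : ℤ) : ZMod N)
        + ((g 0 1 : ℤ) : ZMod N) ^ 2 * c) with hi
    refine ⟨⟨a * i, ?_⟩, ?_⟩
    · linear_combination (i ^ 2) * hq - (c * i + 1) * hinv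
    · apply Subtype.ext
      simp only [rootToFixedS]
      rw [mk_eq_mk_iff]
      simp only [colRep_apply_zero_zero, colRep_apply_one_zero, ZMod.intCast_zmod_cast,
        Int.cast_one, one_mul]
      linear_combination a * hinv

/-- **(I2)** The number of fixed points of `S` on `SL(2,ℤ) ⧸ Γ₀(N)` is `ν₂(N)`. -/
theorem card_fixedBy_S :
    Nat.card (MulAction.fixedBy (SL(2, ℤ) ⧸ Gamma0 N) ModularGroup.S) = ModularCurve.nuTwo N := by
  rw [ModularCurve.nuTwo]
  exact (Nat.card_eq_of_bijective _ (rootToFixedS_bijective N)).symm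

/-- From a root of `x² + x + 1` in `ZMod N` to a fixed point of `S * T`. -/
noncomputable def rootToFixedST (x : {x : ZMod N // x ^ 2 + x + 1 = 0}) :
    MulAction.fixedBy (SL(2, ℤ) ⧸ Gamma0 N) (ModularGroup.S * ModularGroup.T) :=
  ⟨QuotientGroup.mk (colRep (ZMod.cast x.1 : ℤ)), by
    rw [MulAction.mem_fixedBy, ST_smul_mk_eq_mk_iff]
    simp only [colRep_apply_zero_zero, colRep_apply_one_zero, ZMod.intCast_zmod_cast,
      Int.cast_one, one_pow, mul_one]
    exact x.2⟩

lemma rootToFixedST_bijective : Function.Bijective (rootToFixedST N) := by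
  constructor
  · rintro ⟨x, hx⟩ ⟨y, hy⟩ h
    have h' := congrArg Subtype.val h
    simp only [rootToFixedST] at h'
    rw [mk_eq_mk_iff] at h'
    simp only [colRep_apply_zero_zero, colRep_apply_one_zero, ZMod.intCast_zmod_cast,
      Int.cast_one, mul_one, one_mul] at h'
    exact Subtype.ext (sub_eq_zero.mp h')
  · rintro ⟨q, hq⟩
    obtain ⟨g, rfl⟩ := QuotientGroup.mk_surjective q
    rw [MulAction.mem_fixedBy, ST_smul_mk_eq_mk_iff] at hq
    have hinv := c_mul_inv_eq_one N g (-((g 0 0 : ℤ) : ZMod N) - ((g 1 0 : ℤ) : ZMod N))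
      (by linear_combination hq)
    set a : ZMod N := ((g 0 0 : ℤ) : ZMod N) with ha
    set c : ZMod N := ((g 1 0 : ℤ) : ZMod N) with hc
    set i : ZMod N := ((-a - c) * ((g 1 1 : ℤ) : ZMod N) ^ 2
        - 2 * a * ((g 0 1 : ℤ) : ZMod N) * ((g 1 1 : ℤ) : ZMod N)
        + ((g 0 1 : ℤ) : ZMod N) ^ 2 * c) with hi
    refine ⟨⟨a * i, ?_⟩, ?_⟩
    · linear_combination (i ^ 2) * hq - (c * i + 1 + a * i) * hinv
    · apply Subtype.ext
      simp only [rootToFixedST]
      rw [mk_eq_mk_iff]
      simp only [colRep_apply_zero_zero, colRep_apply_one_zero, ZMod.intCast_zmod_cast,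
        Int.cast_one, one_mul]
      linear_combination a * hinv

/-- **(I3)** The number of fixed points of `S * T` on `SL(2,ℤ) ⧸ Γ₀(N)` is `ν₃(N)`. -/
theorem card_fixedBy_ST :
    Nat.card (MulAction.fixedBy (SL(2, ℤ) ⧸ Gamma0 N) (ModularGroup.S * ModularGroup.T))
      = ModularCurve.nuThree N := by
  rw [ModularCurve.nuThree]
  exact (Nat.card_eq_of_bijective _ (rootToFixedST_bijective N)).symm

end Fermat.Agent.S20.Comb694

end
-- ===== PACK-END S20/Comb694/Fixed.lean

-- ===== PACK-BEGIN S20/Comb/Fixed.lean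
section


/-!
# Fixed points of `S` and `S * T` on `SL(2,ℤ) ⧸ Gamma0 N`

* `card_fixedBy_S : Nat.card (MulAction.fixedBy (SL(2,ℤ) ⧸ Gamma0 N) S) = nuTwo N`
* `card_fixedBy_ST : Nat.card (MulAction.fixedBy (SL(2,ℤ) ⧸ Gamma0 N) (S * T)) = nuThree N`
-/

set_option autoImplicit false

namespace Fermat.Agent.S20.Comb

open Matrix MatrixGroups CongruenceSubgroup

variable (N : ℕ)

/-- From a root of `x² + 1` in `ZMod N` to a fixed point of `S`. -/
noncomputable def rootToFixedS (x : {x : ZMod N // x ^ 2 + 1 = 0}) :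
    MulAction.fixedBy (SL(2, ℤ) ⧸ Gamma0 N) ModularGroup.S :=
  ⟨QuotientGroup.mk (colRep (ZMod.cast x.1 : ℤ)), by
    rw [MulAction.mem_fixedBy, S_smul_mk_eq_mk_iff]
    simp only [colRep_apply_zero_zero, colRep_apply_one_zero, ZMod.intCast_zmod_cast,
      Int.cast_one, one_pow]
    exact x.2⟩

lemma rootToFixedS_bijective : Function.Bijective (rootToFixedS N) := by
  constructor
  · rintro ⟨x, hx⟩ ⟨y, hy⟩ h
    have h' := congrArg Subtype.val h
    simp only [rootToFixedS] at h'
    rw [mk_eq_mk_iff] at h'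
    simp only [colRep_apply_zero_zero, colRep_apply_one_zero, ZMod.intCast_zmod_cast,
      Int.cast_one, mul_one, one_mul] at h'
    exact Subtype.ext (sub_eq_zero.mp h')
  · rintro ⟨q, hq⟩
    obtain ⟨g, rfl⟩ := QuotientGroup.mk_surjective q
    rw [MulAction.mem_fixedBy, S_smul_mk_eq_mk_iff] at hq
    have hinv := c_mul_inv_eq_one N g (-((g 1 0 : ℤ) : ZMod N)) (by linear_combination hq)
    set a : ZMod N := ((g 0 0 : ℤ) : ZMod N) with ha
    set c : ZMod N := ((g 1 0 : ℤ) : ZMod N) with hc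
    set i : ZMod N := (-c * ((g 1 1 : ℤ) : ZMod N) ^ 2
        - 2 * a * ((g 0 1 : ℤ) : ZMod N) * ((g 1 1 : ℤ) : ZMod N)
        + ((g 0 1 : ℤ) : ZMod N) ^ 2 * c) with hi
    refine ⟨⟨a * i, ?_⟩, ?_⟩
    · linear_combination (i ^ 2) * hq - (c * i + 1) * hinv
    · apply Subtype.ext
      simp only [rootToFixedS]
      rw [mk_eq_mk_iff]
      simp only [colRep_apply_zero_zero, colRep_apply_one_zero, ZMod.intCast_zmod_cast,
        Int.cast_one, one_mul]
      linear_combination a * hinv

/-- **(I2)** The number of fixed points of `S` on `SL(2,ℤ) ⧸ Γ₀(N)` is `ν₂(N)`. -/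
theorem card_fixedBy_S :
    Nat.card (MulAction.fixedBy (SL(2, ℤ) ⧸ Gamma0 N) ModularGroup.S) = ModularCurve.nuTwo N := by
  rw [ModularCurve.nuTwo]
  exact (Nat.card_eq_of_bijective _ (rootToFixedS_bijective N)).symm

/-- From a root of `x² + x + 1` in `ZMod N` to a fixed point of `S * T`. -/
noncomputable def rootToFixedST (x : {x : ZMod N // x ^ 2 + x + 1 = 0}) :
    MulAction.fixedBy (SL(2, ℤ) ⧸ Gamma0 N) (ModularGroup.S * ModularGroup.T) :=
  ⟨QuotientGroup.mk (colRep (ZMod.cast x.1 : ℤ)), by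
    rw [MulAction.mem_fixedBy, ST_smul_mk_eq_mk_iff]
    simp only [colRep_apply_zero_zero, colRep_apply_one_zero, ZMod.intCast_zmod_cast,
      Int.cast_one, one_pow, mul_one]
    exact x.2⟩

lemma rootToFixedST_bijective : Function.Bijective (rootToFixedST N) := by
  constructor
  · rintro ⟨x, hx⟩ ⟨y, hy⟩ h
    have h' := congrArg Subtype.val h
    simp only [rootToFixedST] at h'
    rw [mk_eq_mk_iff] at h'
    simp only [colRep_apply_zero_zero, colRep_apply_one_zero, ZMod.intCast_zmod_cast,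
      Int.cast_one, mul_one, one_mul] at h'
    exact Subtype.ext (sub_eq_zero.mp h')
  · rintro ⟨q, hq⟩
    obtain ⟨g, rfl⟩ := QuotientGroup.mk_surjective q
    rw [MulAction.mem_fixedBy, ST_smul_mk_eq_mk_iff] at hq
    have hinv := c_mul_inv_eq_one N g (-((g 0 0 : ℤ) : ZMod N) - ((g 1 0 : ℤ) : ZMod N))
      (by linear_combination hq)
    set a : ZMod N := ((g 0 0 : ℤ) : ZMod N) with ha
    set c : ZMod N := ((g 1 0 : ℤ) : ZMod N) with hc
    set i : ZMod N := ((-a - c) * ((g 1 1 : ℤ) : ZMod N) ^ 2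
        - 2 * a * ((g 0 1 : ℤ) : ZMod N) * ((g 1 1 : ℤ) : ZMod N)
        + ((g 0 1 : ℤ) : ZMod N) ^ 2 * c) with hi
    refine ⟨⟨a * i, ?_⟩, ?_⟩
    · linear_combination (i ^ 2) * hq - (c * i + 1 + a * i) * hinv
    · apply Subtype.ext
      simp only [rootToFixedST]
      rw [mk_eq_mk_iff]
      simp only [colRep_apply_zero_zero, colRep_apply_one_zero, ZMod.intCast_zmod_cast,
        Int.cast_one, one_mul]
      linear_combination a * hinv

/-- **(I3)** The number of fixed points of `S * T` on `SL(2,ℤ) ⧸ Γ₀(N)` is `ν₃(N)`. -/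
theorem card_fixedBy_ST :
    Nat.card (MulAction.fixedBy (SL(2, ℤ) ⧸ Gamma0 N) (ModularGroup.S * ModularGroup.T))
      = ModularCurve.nuThree N := by
  rw [ModularCurve.nuThree]
  exact (Nat.card_eq_of_bijective _ (rootToFixedST_bijective N)).symm

end Fermat.Agent.S20.Comb

end
-- ===== PACK-END S20/Comb/Fixed.lean

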