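import Mathlib
import Mathlib.RingTheory.Henselian
import Mathlib.Algebra.Polynomial.Reverse
import Mathlib.Algebra.Polynomial.Taylor
import Mathlib.FieldTheory.IsAlgClosed.Basic
import Mathlib.Tactic.LinearCombination
import Mathlib.Tactic.Ring
import Mathlib.RingTheory.Valuation.ValuationSubring
import Mathlib.RingTheory.IntegralClosure.IntegrallyClosed
import Mathlib.RingTheory.IntegralClosure.IsIntegralClosure.Basic
import Mathlib.RingTheory.Localization.FractionRing
import Mathlib.RingTheory.LocalRing.ResidueField.Basic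
import Mathlib.RingTheory.Polynomial.Basic
import Mathlib.RingTheory.Valuation.LocalSubring
import Mathlib.RingTheory.Adjoin.Polynomial.Basic
import Mathlib.RingTheory.Polynomial.ScaleRoots
import Mathlib.Algebra.Polynomial.Lifts
import Mathlib.RingTheory.Adjoin.Basic
import Fermat.Agent.Pack.S34.G0E0L1
import Fermat.Agent.Pack.S34.G0E0L2

-- ===== PACK-BEGIN S30/H990/Cheb.lean
section
/-
S30 top glue (helper990): the Chebotarev hypothesis used by the glue follows from the frozen
Tier 1 statement of the shared CHEB library.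
-/



set_option autoImplicit false

namespace Fermat.Agent.S30.H990

/-- Tier 1 of the shared CHEB library implies the weak form consumed by the S30 glue. -/
theorem chebWeak_of_frobeniusDivision
    (h : Fermat.Agent.Lib.Cheb.Spec.FrobeniusDivisionStatement) : ChebWeak := by
  intro L hL σ T
  obtain ⟨ℓ, A, τ, _k, j, hℓ, hℓT, hA, hτ, _, _, hj⟩ := h L hL σ T
  exact ⟨ℓ, hℓ, hℓT, A, hA, τ, hτ, j, fun x hx => (hj x hx).symm⟩

end Fermat.Agent.S30.H990

end
-- ===== PACK-END S30/H990/Cheb.lean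

-- ===== PACK-BEGIN Lib/EulerProd/IdealSum.lean
section



/-!
# Sums over the ideals of the ring of integers of a number field

* `summable_absNorm_rpow`: `∑ I, N(I)^(-s)` converges for real `s > 1`.
* `zetaR`: the real Dedekind zeta function as a sum over ideals, `zetaR_eq_dedekindZeta`.
* `exists_zetaR_bounds`: `c / (s - 1) ≤ zetaR K s ≤ C / (s - 1)` on `(1, 2]`.
-/

set_option autoImplicit false
set_option linter.style.haveILetI false

namespace Fermat.Agent.Lib.EulerProd

open NumberField Ideal Filter Topology Finset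

variable (K : Type*) [Field K] [NumberField K]

/-- Partial sums of the coefficients of the Dedekind zeta function (from Mathlib's proof of the
class number formula). -/
theorem tendsto_sum_card_div :
    Tendsto (fun n : ℕ ↦ (∑ k ∈ Icc 1 n,
      (Nat.card {I : Ideal (𝓞 K) // absNorm I = k} : ℝ)) / (n : ℝ)) atTop
      (𝓝 (dedekindZeta_residue K)) := by
  refine ((Ideal.tendsto_norm_le_div_atTop₀ K).comp tendsto_natCast_atTop_atTop).congr fun n ↦ ?_
  simp only [Function.comp_apply, Nat.cast_le, ← Nat.cast_sum]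
  congr
  rw [← add_left_inj 1, ← card_norm_le_eq_card_norm_le_add_one,
    show Finset.Icc 1 n = Finset.Ioc 0 n from Finset.Icc_succ_left_eq_Ioc _ _,
    show 1 = Nat.card {I : Ideal (𝓞 K) // absNorm I = 0} by simp [Ideal.absNorm_eq_zero_iff],
    Finset.sum_Ioc_add_eq_sum_Icc (n.zero_le),
    ← Finset.card_preimage_eq_sum_card_image_eq (fun k _ ↦ finite_setOfPred_absNorm_eq k)]
  simp [Set.coe_eq_subtype]

theorem lseriesSummable_card {s : ℝ} (hs : 1 < s) :
    LSeriesSummable (fun n ↦ ((Nat.card {I : Ideal (𝓞 K) // absNorm I = n} : ℝ) : ℂ)) (s : ℂ) := by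
  refine LSeriesSummable_of_sum_norm_bigO_and_nonneg ?_ (fun _ ↦ Nat.cast_nonneg _) zero_le_one
    (by simpa using hs)
  exact Asymptotics.isBigO_atTop_natCast_rpow_of_tendsto_div_rpow
    (by simpa using tendsto_sum_card_div K)


/-- The fibre sums of `N(I)^(-s)` over the norm map. -/
theorem tsum_fiber_absNorm_rpow (s : ℝ) (n : ℕ) :
    ∑' I : {I : Ideal (𝓞 K) // absNorm I = n}, ((absNorm I.1 : ℕ) : ℝ) ^ (-s) =
      (Nat.card {I : Ideal (𝓞 K) // absNorm I = n} : ℝ) * (n : ℝ) ^ (-s) := by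
  haveI : Finite {I : Ideal (𝓞 K) // absNorm I = n} := finite_setOfPred_absNorm_eq n
  haveI : Fintype {I : Ideal (𝓞 K) // absNorm I = n} := Fintype.ofFinite _
  rw [tsum_fintype, Finset.sum_congr rfl (fun I _ => by rw [I.2]), Finset.sum_const,
    Finset.card_univ, Nat.card_eq_fintype_card, nsmul_eq_mul]

theorem summable_card_mul_rpow {s : ℝ} (hs : 1 < s) :
    Summable (fun n : ℕ ↦
      (Nat.card {I : Ideal (𝓞 K) // absNorm I = n} : ℝ) * (n : ℝ) ^ (-s)) := by
  have h := (lseriesSummable_card K hs).norm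
  refine h.congr fun n => ?_
  rw [LSeries.norm_term_eq]
  split_ifs with hn
  · subst hn
    have hs0 : -s ≠ 0 := by linarith
    simp [Real.zero_rpow hs0]
  · simp only [Complex.ofReal_re, Complex.norm_real, Real.norm_eq_abs, Nat.abs_cast]
    rw [Real.rpow_neg (Nat.cast_nonneg _), div_eq_mul_inv]

/-- `∑ I, N(I)^(-s)` converges for `s > 1`. -/
theorem summable_absNorm_rpow {s : ℝ} (hs : 1 < s) :
    Summable (fun I : Ideal (𝓞 K) ↦ ((absNorm I : ℕ) : ℝ) ^ (-s)) := by
  rw [← (Equiv.sigmaFiberEquiv (fun I : Ideal (𝓞 K) => absNorm I)).summable_iff]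
  rw [summable_sigma_of_nonneg (fun _ => by
    simp only [Function.comp_apply]
    positivity)]
  refine ⟨fun n => ?_, ?_⟩
  · haveI : Finite {I : Ideal (𝓞 K) // absNorm I = n} := finite_setOfPred_absNorm_eq n
    exact Summable.of_finite
  · refine (summable_card_mul_rpow K hs).congr fun n => ?_
    simp only [Function.comp_apply, Equiv.sigmaFiberEquiv_apply]
    exact (tsum_fiber_absNorm_rpow K s n).symm

/-- The Dedekind zeta function at a real argument, as a sum over all ideals (the zero ideal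
contributes `0`). -/
noncomputable def zetaR (s : ℝ) : ℝ := ∑' I : Ideal (𝓞 K), ((absNorm I : ℕ) : ℝ) ^ (-s)

theorem zetaR_eq_tsum_nat {s : ℝ} (hs : 1 < s) :
    zetaR K s = ∑' n : ℕ,
      (Nat.card {I : Ideal (𝓞 K) // absNorm I = n} : ℝ) * (n : ℝ) ^ (-s) := by
  have hsum := summable_absNorm_rpow K hs
  rw [zetaR, ← (Equiv.sigmaFiberEquiv (fun I : Ideal (𝓞 K) => absNorm I)).tsum_eq]
  rw [← (Equiv.sigmaFiberEquiv (fun I : Ideal (𝓞 K) => absNorm I)).summable_iff] at hsum
  have hfib : ∀ n : ℕ, Summable fun c : {I : Ideal (𝓞 K) // absNorm I = n} =>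
      ((fun I : Ideal (𝓞 K) => ((absNorm I : ℕ) : ℝ) ^ (-s)) ∘
        (Equiv.sigmaFiberEquiv (fun I : Ideal (𝓞 K) => absNorm I))) ⟨n, c⟩ := by
    intro n
    haveI : Finite {I : Ideal (𝓞 K) // absNorm I = n} := finite_setOfPred_absNorm_eq n
    exact Summable.of_finite
  have := Summable.tsum_sigma' hfib hsum
  simp only [Function.comp_apply] at this
  rw [this]
  refine tsum_congr fun n => ?_
  simp only [Equiv.sigmaFiberEquiv_apply]
  exact tsum_fiber_absNorm_rpow K s n

theorem zetaR_eq_dedekindZeta {s : ℝ} (hs : 1 < s) :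
    ((zetaR K s : ℝ) : ℂ) = dedekindZeta K (s : ℂ) := by
  rw [zetaR_eq_tsum_nat K hs, dedekindZeta, LSeries, Complex.ofReal_tsum]
  refine tsum_congr fun n => ?_
  rw [LSeries.term_def]
  split_ifs with hn
  · subst hn
    have hs0 : -s ≠ 0 := by linarith
    simp [Real.zero_rpow hs0]
  · rw [Complex.ofReal_mul, Complex.ofReal_natCast, Complex.ofReal_cpow (Nat.cast_nonneg _),
      Complex.ofReal_neg, Complex.cpow_neg, Complex.ofReal_natCast, div_eq_mul_inv]


theorem tendsto_sub_one_mul_zetaR :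
    Tendsto (fun s : ℝ ↦ (s - 1) * zetaR K s) (𝓝[>] 1) (𝓝 (dedekindZeta_residue K)) := by
  have h := tendsto_sub_one_mul_dedekindZeta_nhdsGT K
  have h2 : Tendsto (fun s : ℝ ↦ (((s - 1) * zetaR K s : ℝ) : ℂ)) (𝓝[>] 1)
      (𝓝 ((dedekindZeta_residue K : ℝ) : ℂ)) := by
    refine h.congr' ?_
    filter_upwards [self_mem_nhdsWithin] with s hs
    rw [Complex.ofReal_mul, zetaR_eq_dedekindZeta K hs]
    push_cast
    rfl
  have h3 := (Complex.continuous_re.tendsto _).comp h2
  rw [Complex.ofReal_re] at h3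
  refine h3.congr fun s => ?_
  simp only [Function.comp_apply, Complex.ofReal_re]

theorem one_le_zetaR {s : ℝ} (hs : 1 < s) : 1 ≤ zetaR K s := by
  have hsum := summable_absNorm_rpow K hs
  have := hsum.le_tsum (⊤ : Ideal (𝓞 K)) (fun _ _ => by positivity)
  simpa [zetaR] using this

theorem zetaR_pos {s : ℝ} (hs : 1 < s) : 0 < zetaR K s :=
  lt_of_lt_of_le one_pos (one_le_zetaR K hs)

/-- Upper bound near `1`. -/
theorem eventually_zetaR_le :
    ∃ C : ℝ, 0 < C ∧ ∀ᶠ s in 𝓝[>] (1 : ℝ), zetaR K s ≤ C / (s - 1) := by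
  refine ⟨dedekindZeta_residue K + 1, by linarith [dedekindZeta_residue_pos K], ?_⟩
  have h := (tendsto_order.1 (tendsto_sub_one_mul_zetaR K)).2 (dedekindZeta_residue K + 1)
    (by linarith)
  filter_upwards [h, self_mem_nhdsWithin] with s hs hs1
  have hs1' : (0 : ℝ) < s - 1 := by
    have : (1 : ℝ) < s := hs1
    linarith
  rw [le_div_iff₀ hs1']
  linarith

/-- Lower bound near `1`. -/
theorem eventually_le_zetaR :
    ∃ c : ℝ, 0 < c ∧ ∀ᶠ s in 𝓝[>] (1 : ℝ), c / (s - 1) ≤ zetaR K s := by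
  refine ⟨dedekindZeta_residue K / 2, by linarith [dedekindZeta_residue_pos K], ?_⟩
  have h := (tendsto_order.1 (tendsto_sub_one_mul_zetaR K)).1 (dedekindZeta_residue K / 2)
    (by linarith [dedekindZeta_residue_pos K])
  filter_upwards [h, self_mem_nhdsWithin] with s hs hs1
  have hs1' : (0 : ℝ) < s - 1 := by
    have : (1 : ℝ) < s := hs1
    linarith
  rw [div_le_iff₀ hs1']
  linarith

end Fermat.Agent.Lib.EulerProd

end
-- ===== PACK-END Lib/EulerProd/IdealSum.lean

-- ===== PACK-BEGIN S18/H425/HsepDvd.lean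
section


/-!
# S18 / b2.5 HSEP (helper425): divisibility descends along an integral extension of an
integrally closed domain

`dvd_of_algebraMap_dvd`: `Λ` integrally closed domain, `B` a domain, integral and torsion-free
over `Λ`.  If `algebraMap w ∣ algebraMap s` in `B` (`w ≠ 0`) then `w ∣ s` in `Λ`.
Mathlib-only.
-/

set_option autoImplicit false

namespace Fermat.Agent.S18.H425

theorem dvd_of_algebraMap_dvd {Λ B : Type*} [CommRing Λ] [IsDomain Λ] [IsIntegrallyClosed Λ]
    [CommRing B] [IsDomain B] [Algebra Λ B] [Algebra.IsIntegral Λ B] [Module.IsTorsionFree Λ B]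
    {w s : Λ} (hw : w ≠ 0) (h : algebraMap Λ B w ∣ algebraMap Λ B s) : w ∣ s := by
  obtain ⟨b, hb⟩ := h
  have hinj : Function.Injective (algebraMap Λ B) := FaithfulSMul.algebraMap_injective Λ B
  let K := FractionRing Λ
  let L := FractionRing B
  let _ : Algebra K L := FractionRing.liftAlgebra Λ L
  have hwK : algebraMap Λ K w ≠ 0 := by
    simpa using (IsFractionRing.injective Λ K).ne hw
  -- the element `s / w` of `K` maps to `b` in `L`
  have hb' : algebraMap K L (algebraMap Λ K s / algebraMap Λ K w) = algebraMap B L b := by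
    rw [map_div₀, ← IsScalarTower.algebraMap_apply, ← IsScalarTower.algebraMap_apply,
      IsScalarTower.algebraMap_apply Λ B L s, IsScalarTower.algebraMap_apply Λ B L w, hb, map_mul]
    rw [mul_div_assoc, mul_comm, div_mul_cancel₀]
    · rw [← IsScalarTower.algebraMap_apply, IsScalarTower.algebraMap_apply Λ K L]
      exact (map_ne_zero_iff _ (algebraMap K L).injective).mpr hwK
  have hbint : IsIntegral Λ (algebraMap B L b) := (Algebra.IsIntegral.isIntegral b).algebraMap
  rw [← hb'] at hbint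
  have hint : IsIntegral Λ (algebraMap Λ K s / algebraMap Λ K w) :=
    (isIntegral_algebraMap_iff (algebraMap K L).injective).mp hbint
  obtain ⟨c, hc⟩ := IsIntegrallyClosed.algebraMap_eq_of_integral hint
  refine ⟨c, ?_⟩
  apply IsFractionRing.injective Λ K
  rw [map_mul, hc, mul_div_cancel₀ _ hwK]

end Fermat.Agent.S18.H425

end
-- ===== PACK-END S18/H425/HsepDvd.lean

-- ===== PACK-BEGIN S18/H754/HncRadical.lean
section


/-!
# S18 / ALG-FRONT / hNC adapter, part N1: a radical criterion for principal ideals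

`B` a Noetherian integrally closed domain, `π ≠ 0`.  If `π` generates `𝔓 B_𝔓` for every height-one
prime `𝔓 ∋ π` (elementwise: `∀ b ∈ 𝔓, ∃ s ∉ 𝔓, π ∣ s * b`), then `(π)` is a radical ideal.

Proof: an associated prime `P = (π : c)` of `B/π` is of height one (`y = c/π` satisfies
`y P ⊆ B`, `y P ⊄ P` by integral closedness, so `P` is locally principal; Krull).
-/

set_option autoImplicit false

noncomputable section

namespace Fermat.Agent.S18.H754

section Radical

variable {B : Type*} [CommRing B] [IsDomain B] [IsNoetherianRing B] [IsIntegrallyClosed B]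

/-- An associated prime of `B/π` (`B` Noetherian normal domain, `π ≠ 0`) has height one. -/
theorem height_eq_one_of_eq_colon (π c : B) (hπ : π ≠ 0) (hc : ¬ π ∣ c)
    (P : Ideal B) (hP : P.IsPrime) (hPc : ∀ s : B, s ∈ P ↔ π ∣ s * c) : P.height = 1 := by
  classical
  have hπP : π ∈ P := (hPc π).2 (Dvd.intro _ rfl)
  -- the map `φ : P → B`, `t ↦ t c / π`
  have hφ : ∀ t ∈ P, ∃ d : B, t * c = π * d := fun t ht => (hPc t).1 ht
  -- there is `a ∈ P` with `a c / π ∉ P`
  have hex : ∃ a ∈ P, ∃ s : B, s ∉ P ∧ a * c = π * s := by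
    by_contra hcon
    -- then `y = c / π` stabilises `P`, hence is integral, hence lies in `B`
    let F := FractionRing B
    have hinj : Function.Injective (algebraMap B F) := IsFractionRing.injective B F
    have hπF : algebraMap B F π ≠ 0 := fun h => hπ (hinj (by rw [h, map_zero]))
    set y : F := algebraMap B F c / algebraMap B F π with hy
    let N : Submodule B F := Submodule.map (Algebra.linearMap B F) P
    have hN0 : N ≠ ⊥ := by
      intro h
      have : algebraMap B F π ∈ N := ⟨π, hπP, rfl⟩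
      rw [h, Submodule.mem_bot] at this
      exact hπF this
    have hNfg : N.FG := Submodule.FG.map _ (IsNoetherian.noetherian P)
    have hstab : ∀ n ∈ N, y • n ∈ N := by
      rintro n ⟨t, ht, rfl⟩
      obtain ⟨d, hd⟩ := hφ t ht
      have hdP : d ∈ P := by
        by_contra hdP
        exact hcon ⟨t, ht, d, hdP, hd⟩
      refine ⟨d, hdP, ?_⟩
      simp only [Algebra.linearMap_apply, smul_eq_mul, hy]
      have := congrArg (algebraMap B F) hd
      simp only [map_mul] at this
      rw [div_mul_eq_mul_div, eq_div_iff hπF, mul_comm (algebraMap B F d), ← this]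
      ring
    have hint : IsIntegral B y := isIntegral_of_smul_mem_submodule N hN0 hNfg y hstab
    obtain ⟨y', hy'⟩ := IsIntegrallyClosed.isIntegral_iff.1 hint
    apply hc
    refine ⟨y', ?_⟩
    apply hinj
    rw [map_mul, hy', hy, mul_div_assoc', mul_div_cancel_left₀ _ hπF]
  obtain ⟨a, haP, s, hsP, has⟩ := hex
  -- `s P ⊆ a B`
  have hsP' : ∀ t ∈ P, a ∣ s * t := by
    intro t ht
    obtain ⟨d, hd⟩ := hφ t ht
    refine ⟨d, ?_⟩
    have h1 : π * (s * t) = π * (a * d) := by
      calc π * (s * t) = (π * s) * t := by ring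
        _ = (a * c) * t := by rw [has]
        _ = a * (t * c) := by ring
        _ = a * (π * d) := by rw [hd]
        _ = π * (a * d) := by ring
    exact mul_left_cancel₀ hπ h1
  -- `P` is minimal over `(a)`
  have hmin : P ∈ (Ideal.span {a}).minimalPrimes := by
    refine ⟨⟨hP, (Ideal.span_singleton_le_iff_mem _).2 haP⟩, ?_⟩
    rintro Q ⟨hQ, haQ⟩ hQP t ht
    have h1 : s * t ∈ Q := by
      obtain ⟨d, hd⟩ := hsP' t ht
      rw [hd]
      exact Ideal.mul_mem_right _ _ ((Ideal.span_singleton_le_iff_mem _).1 haQ)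
    rcases hQ.mem_or_mem h1 with h2 | h2
    · exact absurd (hQP h2) hsP
    · exact h2
  apply le_antisymm
  · exact Ideal.height_le_one_of_isPrincipal_of_mem_minimalPrimes (Ideal.span {a}) P hmin
  · rw [Order.one_le_iff_pos, pos_iff_ne_zero]
    intro h0
    haveI := hP
    rw [Ideal.height_eq_zero_iff, IsDomain.minimalPrimes_eq_singleton_bot] at h0
    rw [Set.mem_singleton_iff] at h0
    rw [h0, Ideal.mem_bot] at hπP
    exact hπ hπP

/-- **Radical criterion.**  If `π` generates `𝔓 B_𝔓` at every height-one prime `𝔓 ∋ π`, then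
`(π)` is radical. -/
theorem isRadical_span_singleton_of_local_gen (π : B) (hπ : π ≠ 0)
    (h : ∀ 𝔓 : Ideal B, 𝔓.IsPrime → 𝔓.height = 1 → π ∈ 𝔓 →
      ∀ b ∈ 𝔓, ∃ s : B, s ∉ 𝔓 ∧ π ∣ s * b) :
    (Ideal.span {π}).IsRadical := by
  classical
  intro b hb
  obtain ⟨n, hn⟩ := hb
  by_contra hbπ
  have hx : (Ideal.Quotient.mk (Ideal.span {π}) b) ≠ 0 := by
    rwa [Ne, Ideal.Quotient.eq_zero_iff_mem]
  obtain ⟨P, hPass, hle⟩ :=
    exists_le_isAssociatedPrime_of_isNoetherianRing B (M := B ⧸ Ideal.span {π}) _ hx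
  rw [isAssociatedPrime_iff] at hPass
  obtain ⟨hP, x, hPx⟩ := hPass
  obtain ⟨c, rfl⟩ := Ideal.Quotient.mk_surjective x
  have hPc : ∀ s : B, s ∈ P ↔ π ∣ s * c := by
    intro s
    rw [hPx, Submodule.mem_colon_singleton, Submodule.mem_bot]
    rw [← Ideal.mem_span_singleton, ← Ideal.Quotient.eq_zero_iff_mem, map_mul]
    rfl
  have hc : ¬ π ∣ c := by
    intro hd
    apply hP.ne_top
    rw [Ideal.eq_top_iff_one, hPc, one_mul]
    exact hd
  have hht : P.height = 1 := height_eq_one_of_eq_colon π c hπ hc P hP hPc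
  have hπP : π ∈ P := (hPc π).2 (Dvd.intro _ rfl)
  have hbP : b ∈ P := by
    have h1 : b ^ n ∈ P := by
      rw [Ideal.mem_span_singleton] at hn
      obtain ⟨d, hd⟩ := hn
      rw [hd]
      exact Ideal.mul_mem_right _ _ hπP
    exact hP.mem_of_pow_mem n h1
  obtain ⟨s, hsP, hs⟩ := h P hP hht hπP b hbP
  apply hsP
  apply hle
  rw [Submodule.mem_colon_singleton, Submodule.mem_bot]
  change Ideal.Quotient.mk (Ideal.span {π}) (s * b) = 0
  rw [Ideal.Quotient.eq_zero_iff_mem, Ideal.mem_span_singleton]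
  exact hs

end Radical

end Fermat.Agent.S18.H754

end

end
-- ===== PACK-END S18/H754/HncRadical.lean

-- ===== PACK-BEGIN S18/H498/Connected.lean
section


/-!
# S18, piece b5 (abstract connectedness / "formal functions by hand")

Pure commutative algebra, Mathlib only.

Setting: `R` a local ring, `ϖ : R`, `C` a commutative `R`-algebra on which `ϖ` is a
non-zero-divisor, `B₁ B₂ : Subalgebra R C` (the two chart algebras inside the overlap
algebra `C`), `B₁ ⊓ B₂ = R`, and the `ϖ`-power torsion of `C / (B₁ + B₂)` is killed by `ϖ ^ c`.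
Then every idempotent of `B₁ / ϖ` which agrees in `C / ϖ` with an idempotent of `B₂ / ϖ`
is trivial (`0` or `1`).
-/

set_option autoImplicit false

namespace Fermat.Agent.S18.H498

section Idem

variable {S : Type*} [CommRing S]

/-- Newton step for idempotents: `b ↦ 3 b² - 2 b³`. -/
theorem newton_idem_sub (b : S) : (3 * b ^ 2 - 2 * b ^ 3) - b = (b ^ 2 - b) * (1 - 2 * b) := by
  ring

theorem newton_idem_sq (b : S) :
    (3 * b ^ 2 - 2 * b ^ 3) ^ 2 - (3 * b ^ 2 - 2 * b ^ 3) =
      (b ^ 2 - b) ^ 2 * (4 * b ^ 2 - 4 * b - 3) := by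
  ring

/-- Lifting of idempotents modulo `p` to idempotents modulo `p ^ (n + 1)`. -/
theorem exists_idem_lift (p e : S) (h : p ∣ e ^ 2 - e) (n : ℕ) :
    ∃ b : S, p ∣ b - e ∧ p ^ (n + 1) ∣ b ^ 2 - b := by
  induction n with
  | zero => exact ⟨e, by simp, by simpa using h⟩
  | succ n ih =>
    obtain ⟨b, hb1, hb2⟩ := ih
    refine ⟨3 * b ^ 2 - 2 * b ^ 3, ?_, ?_⟩
    · have h1 : p ∣ (3 * b ^ 2 - 2 * b ^ 3) - b := by
        rw [newton_idem_sub]
        exact Dvd.dvd.mul_right ((dvd_pow_self p (Nat.succ_ne_zero n)).trans hb2) _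
      have : (3 * b ^ 2 - 2 * b ^ 3) - e = ((3 * b ^ 2 - 2 * b ^ 3) - b) + (b - e) := by ring
      rw [this]
      exact dvd_add h1 hb1
    · rw [newton_idem_sq]
      refine Dvd.dvd.mul_right ?_ _
      have h2 : (p ^ (n + 1)) ^ 2 ∣ (b ^ 2 - b) ^ 2 := pow_dvd_pow_of_dvd hb2 2
      rw [← pow_mul] at h2
      exact (pow_dvd_pow p (by omega)).trans h2

theorem idem_diff_cube (b₁ b₂ : S) :
    (b₁ - b₂) ^ 3 - (b₁ - b₂) =
      (b₁ + 1 - 3 * b₂) * (b₁ ^ 2 - b₁) - (b₂ + 1 - 3 * b₁) * (b₂ ^ 2 - b₂) := by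
  ring

/-- Uniqueness of idempotent lifts: two idempotents modulo `p ^ n` which are congruent
modulo `p` are congruent modulo `p ^ n`. -/
theorem idem_lift_unique (p : S) (n : ℕ) (b₁ b₂ : S)
    (h₁ : p ^ n ∣ b₁ ^ 2 - b₁) (h₂ : p ^ n ∣ b₂ ^ 2 - b₂) (h : p ∣ b₁ - b₂) :
    p ^ n ∣ b₁ - b₂ := by
  have hcube : p ^ n ∣ (b₁ - b₂) ^ 3 - (b₁ - b₂) := by
    rw [idem_diff_cube]
    exact dvd_sub (Dvd.dvd.mul_left h₁ _) (Dvd.dvd.mul_left h₂ _)
  have key : ∀ k : ℕ, k + 1 ≤ n → p ^ (k + 1) ∣ b₁ - b₂ := by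
    intro k
    induction k with
    | zero => intro _; simpa using h
    | succ k ih =>
      intro hk
      have ih' := ih (by omega)
      have h3 : p ^ (k + 2) ∣ (b₁ - b₂) ^ 3 := by
        have h3' : (p ^ (k + 1)) ^ 3 ∣ (b₁ - b₂) ^ 3 := pow_dvd_pow_of_dvd ih' 3
        rw [← pow_mul] at h3'
        exact (pow_dvd_pow p (by omega)).trans h3'
      have hc : p ^ (k + 2) ∣ (b₁ - b₂) ^ 3 - (b₁ - b₂) := (pow_dvd_pow p hk).trans hcube
      have : b₁ - b₂ = (b₁ - b₂) ^ 3 - ((b₁ - b₂) ^ 3 - (b₁ - b₂)) := by ring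
      rw [this]
      exact dvd_sub h3 hc
  rcases Nat.eq_zero_or_pos n with hn | hn
  · subst hn; simp
  · have := key (n - 1) (by omega)
    rwa [Nat.sub_add_cancel hn] at this

end Idem

section Cech

variable {R C : Type*} [CommRing R] [IsLocalRing R] [CommRing C] [Algebra R C]

/-- **Abstract connectedness (b5).**  `B₁ ∩ B₂ = R`, `ϖ`-power torsion of `C / (B₁ + B₂)` killed
by `ϖ ^ c`: an idempotent `e₁` of `B₁ / ϖ` agreeing in `C / ϖ` with an idempotent `e₂` of
`B₂ / ϖ` is `0` or `1` in `B₁ / ϖ`. -/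
theorem idem_trivial_of_cech (ϖ : R) (B₁ B₂ : Subalgebra R C)
    (hint : ∀ y : C, y ∈ B₁ → y ∈ B₂ → ∃ r : R, algebraMap R C r = y)
    (c : ℕ)
    (hH1 : ∀ (n : ℕ) (y : C),
      (∃ b₁ ∈ B₁, ∃ b₂ ∈ B₂, algebraMap R C ϖ ^ n * y = b₁ + b₂) →
        ∃ b₁ ∈ B₁, ∃ b₂ ∈ B₂, algebraMap R C ϖ ^ c * y = b₁ + b₂)
    (e₁ e₂ : C) (he₁ : e₁ ∈ B₁) (he₂ : e₂ ∈ B₂)
    (h₁ : ∃ a ∈ B₁, e₁ ^ 2 - e₁ = algebraMap R C ϖ * a)
    (h₂ : ∃ a ∈ B₂, e₂ ^ 2 - e₂ = algebraMap R C ϖ * a)
    (h₁₂ : ∃ y : C, e₁ - e₂ = algebraMap R C ϖ * y) :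
    (∃ a ∈ B₁, e₁ = algebraMap R C ϖ * a) ∨ (∃ a ∈ B₁, 1 - e₁ = algebraMap R C ϖ * a) := by
  set p : C := algebraMap R C ϖ with hp
  -- lift inside `B₁`
  obtain ⟨a₁, ha₁, hea₁⟩ := h₁
  obtain ⟨a₂, ha₂, hea₂⟩ := h₂
  have hd₁ : (algebraMap R B₁ ϖ) ∣ (⟨e₁, he₁⟩ : B₁) ^ 2 - ⟨e₁, he₁⟩ :=
    ⟨⟨a₁, ha₁⟩, Subtype.ext (by simpa using hea₁)⟩
  have hd₂ : (algebraMap R B₂ ϖ) ∣ (⟨e₂, he₂⟩ : B₂) ^ 2 - ⟨e₂, he₂⟩ :=
    ⟨⟨a₂, ha₂⟩, Subtype.ext (by simpa using hea₂)⟩
  obtain ⟨b₁, ⟨u₁, hu₁⟩, ⟨v₁, hv₁⟩⟩ := exists_idem_lift _ _ hd₁ c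
  obtain ⟨b₂, ⟨u₂, hu₂⟩, ⟨v₂, hv₂⟩⟩ := exists_idem_lift _ _ hd₂ c
  have hu₁' : (b₁ : C) - e₁ = p * u₁ := by
    have := congrArg (Subtype.val) hu₁
    simpa using this
  have hu₂' : (b₂ : C) - e₂ = p * u₂ := by
    have := congrArg (Subtype.val) hu₂
    simpa using this
  have hv₁' : (b₁ : C) ^ 2 - b₁ = p ^ (c + 1) * v₁ := by
    have := congrArg (Subtype.val) hv₁
    simpa using this
  have hv₂' : (b₂ : C) ^ 2 - b₂ = p ^ (c + 1) * v₂ := by
    have := congrArg (Subtype.val) hv₂
    simpa using this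
  obtain ⟨y₀, hy₀⟩ := h₁₂
  have hdiff : p ∣ (b₁ : C) - b₂ := by
    refine ⟨u₁ + y₀ - u₂, ?_⟩
    have : (b₁ : C) - b₂ = ((b₁ : C) - e₁) + (e₁ - e₂) - ((b₂ : C) - e₂) := by ring
    rw [this, hu₁', hy₀, hu₂']; ring
  obtain ⟨y, hy⟩ := idem_lift_unique p (c + 1) (b₁ : C) (b₂ : C) ⟨_, hv₁'⟩ ⟨_, hv₂'⟩ hdiff
  obtain ⟨β₁, hβ₁, β₂, hβ₂, hβ⟩ := hH1 (c + 1) y
    ⟨b₁, b₁.2, -b₂, B₂.neg_mem b₂.2, by rw [← hy]; ring⟩
  have hpB₁ : p ∈ B₁ := B₁.algebraMap_mem ϖ
  have hpB₂ : p ∈ B₂ := B₂.algebraMap_mem ϖ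
  -- the glued element
  have hz : (b₁ : C) - p * β₁ = b₂ + p * β₂ := by
    have h1 : (b₁ : C) - b₂ = p * (β₁ + β₂) := by
      rw [hy, pow_succ, ← hβ]; ring
    linear_combination h1
  have hz₁ : (b₁ : C) - p * β₁ ∈ B₁ := B₁.sub_mem b₁.2 (B₁.mul_mem hpB₁ hβ₁)
  have hz₂ : (b₁ : C) - p * β₁ ∈ B₂ := by
    rw [hz]; exact B₂.add_mem b₂.2 (B₂.mul_mem hpB₂ hβ₂)
  obtain ⟨r, hr⟩ := hint _ hz₁ hz₂
  set z : C := (b₁ : C) - p * β₁ with hzdef
  -- `z² - z = p * w`, `w ∈ B₁`
  set w : C := p ^ c * v₁ - 2 * β₁ * b₁ + p * β₁ ^ 2 + β₁ with hw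
  have hwB : w ∈ B₁ := by
    refine B₁.add_mem (B₁.add_mem (B₁.sub_mem (B₁.mul_mem (B₁.pow_mem hpB₁ c) v₁.2) ?_) ?_) hβ₁
    · exact B₁.mul_mem (B₁.mul_mem (by
        have : (2 : C) = algebraMap R C 2 := (map_ofNat (algebraMap R C) 2).symm
        rw [this]; exact B₁.algebraMap_mem 2) hβ₁) b₁.2
    · exact B₁.mul_mem hpB₁ (B₁.pow_mem hβ₁ 2)
  have hzw : z ^ 2 - z = p * w := by
    have : z ^ 2 - z = ((b₁ : C) ^ 2 - b₁) + p * (-2 * β₁ * b₁ + p * β₁ ^ 2 + β₁) := by
      rw [hzdef]; ring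
    rw [this, hv₁', hw, pow_succ]; ring
  rcases IsLocalRing.isUnit_or_isUnit_one_sub_self r with hunit | hunit
  · right
    obtain ⟨s, hs⟩ := hunit.exists_right_inv
    have hs' : z * algebraMap R C s = 1 := by
      rw [← hr, ← map_mul, hs, map_one]
    refine ⟨-(algebraMap R C s * w) - β₁ + u₁, ?_, ?_⟩
    · exact B₁.add_mem (B₁.sub_mem (B₁.neg_mem (B₁.mul_mem (B₁.algebraMap_mem s) hwB)) hβ₁) u₁.2
    · have h1 : 1 - z = p * (-(algebraMap R C s * w)) := by
        have : 1 - z = -(algebraMap R C s) * (z ^ 2 - z) + (1 - z) * (1 - z * algebraMap R C s) +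
            z * (1 - z * algebraMap R C s) * 0 := by ring
        rw [this, hs', hzw]; ring
      have : 1 - e₁ = (1 - z) - p * β₁ + ((b₁ : C) - e₁) := by rw [hzdef]; ring
      rw [this, h1, hu₁']; ring
  · left
    obtain ⟨s, hs⟩ := hunit.exists_right_inv
    have hs' : (1 - z) * algebraMap R C s = 1 := by
      rw [← hr, ← map_one (algebraMap R C), ← map_sub, ← map_mul, hs, map_one]
    refine ⟨-(algebraMap R C s * w) + β₁ - u₁, ?_, ?_⟩
    · exact B₁.sub_mem (B₁.add_mem (B₁.neg_mem (B₁.mul_mem (B₁.algebraMap_mem s) hwB)) hβ₁) u₁.2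
    · have h1 : z = p * (-(algebraMap R C s * w)) := by
        have : z = -(algebraMap R C s) * (z ^ 2 - z) + z * (1 - (1 - z) * algebraMap R C s) := by
          ring
        rw [this, hs', hzw]; ring
      have : e₁ = z + p * β₁ - ((b₁ : C) - e₁) := by rw [hzdef]; ring
      rw [this, h1, hu₁']; ring

end Cech

end Fermat.Agent.S18.H498

end
-- ===== PACK-END S18/H498/Connected.lean

-- ===== PACK-BEGIN S18/H754/DivisorPow.lean
section


/-!
# S18 / Route K / étale Kummer cover, piece P2 (helper754)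

In a UFD `R` with fraction field `F`: if `u ∈ Fˣ` is, at every prime element `π`, a `π`-unit times
a `p`-th power, then `u` is a unit of `R` times a `p`-th power.
-/

set_option autoImplicit false

noncomputable section

namespace Fermat.Agent.S18.H754

section P2

variable {R : Type*} [CommRing R] [IsDomain R]
  {F : Type*} [Field F] [Algebra R F] [IsFractionRing R F]

/-- `u` is a `π`-adic unit times a `p`-th power. -/
def LocallyPow (R : Type*) [CommRing R] {F : Type*} [Field F] [Algebra R F]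
    (p : ℕ) (u : F) (π : R) : Prop :=
  ∃ t : F, ∃ a b : R, ¬ π ∣ a ∧ ¬ π ∣ b ∧ u * t ^ p * algebraMap R F b = algebraMap R F a

omit [IsDomain R] [IsFractionRing R F] in
lemma LocallyPow.mul_pow {p : ℕ} {u : F} {π : R} (h : LocallyPow R p u π) {c : F} (hc : c ≠ 0) :
    LocallyPow R p (u * c ^ p) π := by
  obtain ⟨t, a, b, ha, hb, h⟩ := h
  refine ⟨t / c, a, b, ha, hb, ?_⟩
  rw [← h, div_pow]
  field_simp

omit [IsDomain R] in
lemma LocallyPow.inv {p : ℕ} {u : F} {π : R} (hu : u ≠ 0) (h : LocallyPow R p u π) :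
    LocallyPow R p u⁻¹ π := by
  obtain ⟨t, a, b, ha, hb, h⟩ := h
  refine ⟨t⁻¹, b, a, hb, ha, ?_⟩
  by_cases hp : p = 0
  · subst hp
    simp only [pow_zero, mul_one] at h ⊢
    rw [← h]
    field_simp
  · have ht : t ≠ 0 := by
      rintro rfl
      rw [zero_pow hp, mul_zero, zero_mul] at h
      have ha0 : a = 0 := IsFractionRing.injective R F (by rw [← h, map_zero])
      exact ha (ha0 ▸ dvd_zero π)
    rw [← h, inv_pow]
    field_simp

variable [UniqueFactorizationMonoid R]

/-- the key divisibility: a prime dividing the numerator but not the denominator of a locally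
`p`-th power divides the numerator at least `p` times. -/
lemma pow_dvd_of_locallyPow {p : ℕ} {π : R} (hπ : Prime π) {a b : R} (ha : a ≠ 0) (hb : b ≠ 0)
    (hπa : π ∣ a) (hπb : ¬ π ∣ b)
    (h : LocallyPow R p (algebraMap R F a / algebraMap R F b) π) : π ^ p ∣ a := by
  obtain ⟨t, a', b', ha', hb', h⟩ := h
  have ha'0 : a' ≠ 0 := fun h0 => ha' (h0 ▸ dvd_zero π)
  have hb'0 : b' ≠ 0 := fun h0 => hb' (h0 ▸ dvd_zero π)
  obtain ⟨c, d, hd, rfl⟩ := IsFractionRing.div_surjective (A := R) t
  have hd0 : d ≠ 0 := nonZeroDivisors.ne_zero hd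
  have hinj := IsFractionRing.injective R F
  have hbF : algebraMap R F b ≠ 0 := fun h0 => hb (hinj (by rw [h0, map_zero]))
  have hdF : algebraMap R F d ≠ 0 := fun h0 => hd0 (hinj (by rw [h0, map_zero]))
  have hc0 : c ≠ 0 := by
    rintro rfl
    by_cases hp : p = 0
    · subst hp
      simp only [pow_zero, mul_one] at h
      -- `a * b' = a' * b`
      have h2 : a * b' = a' * b := by
        apply hinj
        rw [map_mul, map_mul, ← h]
        field_simp
      have : π ∣ a' * b := h2 ▸ Dvd.dvd.mul_right hπa b'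
      rcases hπ.dvd_or_dvd this with h3 | h3
      · exact ha' h3
      · exact hπb h3
    · rw [map_zero, zero_div, zero_pow hp, mul_zero, zero_mul] at h
      exact ha'0 (hinj (by rw [← h, map_zero]))
  have heq : a * c ^ p * b' = a' * b * d ^ p := by
    apply hinj
    simp only [map_mul, map_pow]
    rw [← h, div_pow]
    field_simp
  -- multiplicities
  have hfin : ∀ x : R, x ≠ 0 → FiniteMultiplicity π x :=
    fun x hx => FiniteMultiplicity.of_prime_left hπ hx
  have e1 := congrArg (emultiplicity π) heq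
  rw [emultiplicity_mul hπ, emultiplicity_mul hπ, emultiplicity_mul hπ, emultiplicity_mul hπ,
    emultiplicity_pow hπ, emultiplicity_pow hπ, emultiplicity_eq_zero.mpr ha',
    emultiplicity_eq_zero.mpr hb', emultiplicity_eq_zero.mpr hπb,
    (hfin a ha).emultiplicity_eq_multiplicity, (hfin c hc0).emultiplicity_eq_multiplicity,
    (hfin d hd0).emultiplicity_eq_multiplicity] at e1
  have e2 : multiplicity π a + p * multiplicity π c = p * multiplicity π d := by
    have : ((multiplicity π a + p * multiplicity π c : ℕ) : ℕ∞) =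
        ((p * multiplicity π d : ℕ) : ℕ∞) := by
      push_cast
      simpa using e1
    exact_mod_cast this
  have h1 : 1 ≤ multiplicity π a := by
    rw [← (hfin a ha).pow_dvd_iff_le_multiplicity, pow_one]
    exact hπa
  have h2 : p ∣ multiplicity π a := by
    have : p ∣ multiplicity π a + p * multiplicity π c := ⟨multiplicity π d, e2⟩
    exact (Nat.dvd_add_left (Dvd.intro _ rfl)).mp this
  have h3 : p ≤ multiplicity π a := Nat.le_of_dvd h1 h2
  exact pow_dvd_of_le_multiplicity h3

lemma pow_dvd_of_locallyPow' {p : ℕ} {π : R} (hπ : Prime π) {a b : R} (ha : a ≠ 0) (hb : b ≠ 0)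
    (hπa : ¬ π ∣ a) (hπb : π ∣ b)
    (h : LocallyPow R p (algebraMap R F a / algebraMap R F b) π) : π ^ p ∣ b := by
  have hinj := IsFractionRing.injective R F
  have haF : algebraMap R F a ≠ 0 := fun h0 => ha (hinj (by rw [h0, map_zero]))
  have hbF : algebraMap R F b ≠ 0 := fun h0 => hb (hinj (by rw [h0, map_zero]))
  have h' := h.inv (div_ne_zero haF hbF)
  rw [inv_div] at h'
  exact pow_dvd_of_locallyPow hπ hb ha hπb hπa h'

/-- **P2.** In a UFD, an element of the fraction field which is locally (at every prime element)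
a unit times a `p`-th power is a unit times a `p`-th power. -/
theorem exists_unit_mul_pow_aux (p : ℕ) (hp : 0 < p) :
    ∀ x : R, x ≠ 0 → ∀ a b : R, a * b = x →
      (∀ π : R, Prime π → LocallyPow R p (algebraMap R F a / algebraMap R F b) π) →
      ∃ s : F, s ≠ 0 ∧ ∃ w : Rˣ,
        algebraMap R F a / algebraMap R F b * s ^ p = algebraMap R F w := by
  intro x
  refine WellFounded.induction (wellFounded_dvdNotUnit (α := R))
    (C := fun x => x ≠ 0 → ∀ a b : R, a * b = x →
      (∀ π : R, Prime π → LocallyPow R p (algebraMap R F a / algebraMap R F b) π) →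
      ∃ s : F, s ≠ 0 ∧ ∃ w : Rˣ,
        algebraMap R F a / algebraMap R F b * s ^ p = algebraMap R F w) x ?_
  intro x ih hx a b hab H
  have hinj := IsFractionRing.injective R F
  have ha : a ≠ 0 := fun h0 => hx (by rw [← hab, h0, zero_mul])
  have hb : b ≠ 0 := fun h0 => hx (by rw [← hab, h0, mul_zero])
  have haF : algebraMap R F a ≠ 0 := fun h0 => ha (hinj (by rw [h0, map_zero]))
  have hbF : algebraMap R F b ≠ 0 := fun h0 => hb (hinj (by rw [h0, map_zero]))
  by_cases hxu : IsUnit x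
  · -- both `a` and `b` are units
    have hau : IsUnit a := isUnit_of_mul_isUnit_left (hab ▸ hxu)
    have hbu : IsUnit b := isUnit_of_mul_isUnit_right (hab ▸ hxu)
    obtain ⟨ua, hua⟩ := hau
    obtain ⟨ub, hub⟩ := hbu
    refine ⟨1, one_ne_zero, ua * ub⁻¹, ?_⟩
    rw [one_pow, mul_one, Units.val_mul, map_mul, ← hua, ← hub, div_eq_mul_inv, map_units_inv]
  · obtain ⟨π, hπirr, hπx⟩ := WfDvdMonoid.exists_irreducible_factor hxu hx
    have hπ : Prime π := UniqueFactorizationMonoid.irreducible_iff_prime.mp hπirr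
    have hπF : algebraMap R F π ≠ 0 := fun h0 => hπ.ne_zero (hinj (by rw [h0, map_zero]))
    by_cases hπa : π ∣ a
    · by_cases hπb : π ∣ b
      · -- cancel `π`
        obtain ⟨a₁, rfl⟩ := hπa
        obtain ⟨b₁, rfl⟩ := hπb
        have ha₁ : a₁ ≠ 0 := right_ne_zero_of_mul ha
        have hb₁ : b₁ ≠ 0 := right_ne_zero_of_mul hb
        have hlt : DvdNotUnit (a₁ * b₁) x := by
          refine ⟨mul_ne_zero ha₁ hb₁, π * π, ?_, ?_⟩
          · intro hu
            exact hπ.not_unit (isUnit_of_mul_isUnit_left hu)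
          · rw [← hab]; ring
        have hquot : algebraMap R F (π * a₁) / algebraMap R F (π * b₁) =
            algebraMap R F a₁ / algebraMap R F b₁ := by
          rw [map_mul, map_mul]
          field_simp
        rw [hquot] at H ⊢
        exact ih (a₁ * b₁) hlt (mul_ne_zero ha₁ hb₁) a₁ b₁ rfl H
      · -- `π ^ p ∣ a`
        obtain ⟨a₂, rfl⟩ := pow_dvd_of_locallyPow hπ ha hb hπa hπb (H π hπ)
        have ha₂ : a₂ ≠ 0 := right_ne_zero_of_mul ha
        have hlt : DvdNotUnit (a₂ * b) x := by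
          refine ⟨mul_ne_zero ha₂ hb, π ^ p, ?_, ?_⟩
          · intro hu
            exact hπ.not_unit (isUnit_of_dvd_unit (dvd_pow_self π hp.ne') hu)
          · rw [← hab]; ring
        have hquot : algebraMap R F a₂ / algebraMap R F b =
            algebraMap R F (π ^ p * a₂) / algebraMap R F b * ((algebraMap R F π)⁻¹) ^ p := by
          rw [map_mul, map_pow, inv_pow]
          field_simp
        have H' : ∀ π' : R, Prime π' →
            LocallyPow R p (algebraMap R F a₂ / algebraMap R F b) π' := by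
          intro π' hπ'
          rw [hquot]
          exact (H π' hπ').mul_pow (inv_ne_zero hπF)
        obtain ⟨s, hs, w, hw⟩ := ih (a₂ * b) hlt (mul_ne_zero ha₂ hb) a₂ b rfl H'
        refine ⟨s * (algebraMap R F π)⁻¹, mul_ne_zero hs (inv_ne_zero hπF), w, ?_⟩
        rw [← hw, hquot]
        ring
    · have hπb : π ∣ b := by
        rcases hπ.dvd_or_dvd (hab ▸ hπx) with h | h
        · exact absurd h hπa
        · exact h
      obtain ⟨b₂, rfl⟩ := pow_dvd_of_locallyPow' hπ ha hb hπa hπb (H π hπ)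
      have hb₂ : b₂ ≠ 0 := right_ne_zero_of_mul hb
      have hlt : DvdNotUnit (a * b₂) x := by
        refine ⟨mul_ne_zero ha hb₂, π ^ p, ?_, ?_⟩
        · intro hu
          exact hπ.not_unit (isUnit_of_dvd_unit (dvd_pow_self π hp.ne') hu)
        · rw [← hab]; ring
      have hb₂F : algebraMap R F b₂ ≠ 0 := fun h0 => hb₂ (hinj (by rw [h0, map_zero]))
      have hquot : algebraMap R F a / algebraMap R F b₂ =
          algebraMap R F a / algebraMap R F (π ^ p * b₂) * (algebraMap R F π) ^ p := by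
        rw [map_mul, map_pow]
        field_simp
      have H' : ∀ π' : R, Prime π' →
          LocallyPow R p (algebraMap R F a / algebraMap R F b₂) π' := by
        intro π' hπ'
        rw [hquot]
        exact (H π' hπ').mul_pow hπF
      obtain ⟨s, hs, w, hw⟩ := ih (a * b₂) hlt (mul_ne_zero ha hb₂) a b₂ rfl H'
      refine ⟨s * algebraMap R F π, mul_ne_zero hs hπF, w, ?_⟩
      rw [← hw, hquot]
      ring

theorem exists_unit_mul_pow (p : ℕ) (hp : 0 < p) (u : F) (hu : u ≠ 0)
    (H : ∀ π : R, Prime π → LocallyPow R p u π) :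
    ∃ s : F, s ≠ 0 ∧ ∃ w : Rˣ, u * s ^ p = algebraMap R F w := by
  obtain ⟨a, b, hb, rfl⟩ := IsFractionRing.div_surjective (A := R) u
  have hb0 : b ≠ 0 := nonZeroDivisors.ne_zero hb
  have ha0 : a ≠ 0 := by
    rintro rfl
    rw [map_zero, zero_div] at hu
    exact hu rfl
  exact exists_unit_mul_pow_aux p hp (a * b) (mul_ne_zero ha0 hb0) a b rfl H

end P2

end Fermat.Agent.S18.H754

end

end
-- ===== PACK-END S18/H754/DivisorPow.lean

-- ===== PACK-BEGIN A2/H552/Hensel.lean
section







/-!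
# A2 / ALG (c1), part 1 (helper552): Hensel's lemma for non-monic polynomials

Mathlib's `HenselianLocalRing` only provides lifting of simple roots of **monic** polynomials.
Here we derive, for an arbitrary Henselian local ring `R`:

* `exists_root_of_coeff` : a polynomial `1 + c₁ X + (terms with coefficients in 𝔪)`, `c₁` a unit,
  has a root in `R` (reverse the polynomial, apply Hensel to the monic reverse).
* `exists_root_of_simple_root` : Hensel's lemma for arbitrary (not necessarily monic)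
  polynomials: a simple root modulo `𝔪` lifts.
* `exists_root_of_approx` : the strong form ("Newton"): if `p(s) = w^(2c+1) u` and
  `p'(s) = w^c ε` with `ε` a unit and `w ∈ 𝔪`, then `p` has a root `a` with `w^(c+1) ∣ a - s`.
* `exists_pow_eq_of_isUnit`, `exists_pow_eq_of_isUnit_of_not_dvd` : if the residue field is
  algebraically closed and `m` is invertible in it, every unit of `R` is an `m`-th power.
-/

set_option autoImplicit false

namespace Fermat.Agent.A2.H552

open Polynomial IsLocalRing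

section Hensel

variable {R : Type*} [CommRing R] [HenselianLocalRing R]

/-- Hensel's lemma in residue-field form (item 2 of Mathlib's `HenselianLocalRing.TFAE`),
stated with `Polynomial.map`. -/
theorem exists_root_of_residue_simple_root (f : R[X]) (hf : f.Monic) (a₀ : ResidueField R)
    (h₀ : (f.map (residue R)).eval a₀ = 0)
    (h₁ : (derivative (f.map (residue R))).eval a₀ ≠ 0) :
    ∃ a : R, f.IsRoot a ∧ residue R a = a₀ := by
  have H := ((HenselianLocalRing.TFAE R).out 0 1).mp ‹HenselianLocalRing R›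
  refine H f hf a₀ ?_ ?_
  · rw [aeval_def, eval₂_eq_eval_map, ResidueField.algebraMap_eq]
    exact h₀
  · rw [aeval_def, eval₂_eq_eval_map, ResidueField.algebraMap_eq, ← derivative_map]
    exact h₁

/-- A polynomial `1 + c₁ X + ∑_{i ≥ 2} cᵢ Xⁱ` with `c₁` a unit and `cᵢ ∈ 𝔪` for `i ≥ 2` has a
root in a Henselian local ring. -/
theorem exists_root_of_coeff (g : R[X]) (h0 : g.coeff 0 = 1) (h1 : IsUnit (g.coeff 1))
    (h2 : ∀ i, 2 ≤ i → g.coeff i ∈ maximalIdeal R) : ∃ b : R, g.IsRoot b := by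
  set d := g.natDegree with hd
  have hd1 : 1 ≤ d := le_natDegree_of_ne_zero h1.ne_zero
  set G := reflect d g with hG
  have hGdeg : G.natDegree ≤ d := natDegree_reflect_le.trans (by simp [hd])
  have hGm : G.Monic := by
    refine monic_of_natDegree_le_of_coeff_eq_one d hGdeg ?_
    rw [hG, coeff_reflect, revAt_le le_rfl, Nat.sub_self, h0]
  set c := residue R (g.coeff 1) with hc
  have hc0 : c ≠ 0 := by
    intro h
    rw [hc, residue_eq_zero_iff] at h
    exact (IsLocalRing.notMem_maximalIdeal.mpr h1) h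
  have hgbar : g.map (residue R) = C 1 + C c * X := by
    ext i
    rcases i with _ | _ | i
    · simp [h0]
    · simp [hc, coeff_one]
    · have : residue R (g.coeff (i + 2)) = 0 :=
        (residue_eq_zero_iff _).mpr (h2 _ (by omega))
      simp [this, coeff_one]
  have hGbar : G.map (residue R) = X ^ d + C c * X ^ (d - 1) := by
    rw [hG, ← reflect_map, hgbar, reflect_add, reflect_C, map_one, one_mul]
    have : (C c * X : (ResidueField R)[X]) = C c * X ^ 1 := by rw [pow_one]
    rw [this, reflect_C_mul_X_pow, revAt_le hd1]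
  obtain ⟨e, he⟩ : ∃ e, d = e + 1 := ⟨d - 1, by omega⟩
  obtain ⟨z, hz, hzres⟩ := exists_root_of_residue_simple_root G hGm (-c)
    (by
      rw [hGbar, he]
      simp only [eval_add, eval_pow, eval_X, eval_mul, eval_C, Nat.add_sub_cancel]
      ring)
    (by
      rw [hGbar, he]
      simp only [derivative_add, derivative_X_pow, derivative_mul, derivative_C, zero_mul,
        zero_add, eval_add, eval_mul, eval_C, eval_pow, eval_X, Nat.add_sub_cancel]
      rcases e with _ | e
      · simp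
      · simp only [Nat.add_sub_cancel, Nat.cast_add, Nat.cast_one]
        have : ((e : ResidueField R) + 1 + 1) * (-c) ^ (e + 1) + c * (((e : ResidueField R) + 1)
            * (-c) ^ e) = (-c) ^ (e + 1) := by ring
        rw [this]
        exact pow_ne_zero _ (neg_ne_zero.mpr hc0))
  have hzu : IsUnit z := by
    rw [← IsLocalRing.notMem_maximalIdeal, ← residue_eq_zero_iff, hzres]
    exact neg_ne_zero.mpr hc0
  obtain ⟨u, rfl⟩ := hzu
  refine ⟨(↑u⁻¹ : R), ?_⟩
  let _ : Invertible (u : R) := Units.invertible u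
  have key := eval₂_reflect_mul_pow (RingHom.id R) (u : R) d G hGdeg
  rw [hG, reflect_reflect, ← hG, eval₂_id, eval₂_id, invOf_units] at key
  have hz' : G.eval (u : R) = 0 := hz
  rw [hz'] at key
  have hu : IsUnit ((u : R) ^ d) := (u.isUnit).pow d
  exact (hu.mul_left_eq_zero).mp key

/-- Rescaling a polynomial: if `t₀ = A a₀`, `t₁ W = A a₁` and `W² = A B`, then
`t(W X) = A (a₀ + a₁ X + B X² q(X))` with `q = (t / X²)(W X)`. -/
theorem comp_C_mul_X_eq {S : Type*} [CommRing S] (t : S[X]) (W A B a₀ a₁ : S)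
    (h0 : t.coeff 0 = A * a₀) (h1 : t.coeff 1 * W = A * a₁) (h2 : W ^ 2 = A * B) :
    t.comp (C W * X) =
      C A * (C a₀ + C a₁ * X + C B * X ^ 2 * (t.divX.divX.comp (C W * X))) := by
  have e0 : (C (t.coeff 0) : S[X]) = C A * C a₀ := by rw [h0, C_mul]
  have e1 : (C (t.coeff 1) : S[X]) * C W = C A * C a₁ := by rw [← C_mul, h1, C_mul]
  have e2 : (C W : S[X]) * C W = C A * C B := by rw [← C_mul, ← C_mul, ← pow_two, h2]
  have ht : t = (t.divX.divX * X + C (t.coeff 1)) * X + C (t.coeff 0) := by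
    have h := divX_mul_X_add t.divX
    rw [coeff_divX, zero_add] at h
    rw [h, divX_mul_X_add]
  conv_lhs => rw [ht]
  simp only [add_comp, mul_comp, X_comp, C_comp]
  linear_combination (t.divX.divX.comp (C W * X) * X ^ 2) * e2 + X * e1 + e0

/-- Coefficients of `a + b X + B X² q`. -/
theorem coeff_quadratic_form {S : Type*} [CommRing S] (a b B : S) (q : S[X]) :
    (C a + C b * X + C B * X ^ 2 * q).coeff 0 = a ∧
    (C a + C b * X + C B * X ^ 2 * q).coeff 1 = b ∧
    ∀ j, (C a + C b * X + C B * X ^ 2 * q).coeff (j + 2) = B * q.coeff j := by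
  have h : ∀ n, (C B * X ^ 2 * q).coeff n = if 2 ≤ n then B * q.coeff (n - 2) else 0 := by
    intro n
    rw [mul_assoc, coeff_C_mul, coeff_X_pow_mul']
    split_ifs <;> simp
  refine ⟨?_, ?_, fun j => ?_⟩
  · rw [coeff_add, coeff_add, h]; simp
  · rw [coeff_add, coeff_add, h]; simp
  · rw [coeff_add, coeff_add, h, coeff_C_mul, coeff_X, coeff_C]
    simp

/-- **Hensel's lemma for arbitrary polynomials**: in a Henselian local ring a simple root
modulo the maximal ideal of a (not necessarily monic) polynomial lifts to a root. -/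
theorem exists_root_of_simple_root (h : R[X]) (a₀ : R) (h₀ : h.eval a₀ ∈ maximalIdeal R)
    (h₁ : IsUnit ((derivative h).eval a₀)) :
    ∃ a : R, h.IsRoot a ∧ a - a₀ ∈ maximalIdeal R := by
  set t := taylor a₀ h with ht
  set c₀ := h.eval a₀ with hc₀
  set c₁ := (derivative h).eval a₀ with hc₁
  have key := comp_C_mul_X_eq t c₀ c₀ c₀ 1 c₁
    (by rw [ht, taylor_coeff_zero, mul_one]) (by rw [ht, taylor_coeff_one, mul_comm])
    (by rw [pow_two])
  set g : R[X] := C 1 + C c₁ * X + C c₀ * X ^ 2 * (t.divX.divX.comp (C c₀ * X)) with hg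
  obtain ⟨hg0, hg1, hg2⟩ := coeff_quadratic_form 1 c₁ c₀ (t.divX.divX.comp (C c₀ * X))
  rw [← hg] at hg0 hg1 hg2
  obtain ⟨b, hb⟩ := exists_root_of_coeff g hg0 (by rw [hg1]; exact h₁)
    (by
      intro i hi
      obtain ⟨j, rfl⟩ : ∃ j, i = j + 2 := ⟨i - 2, by omega⟩
      rw [hg2]
      exact Ideal.mul_mem_right _ _ h₀)
  have hb' : eval b g = 0 := hb
  refine ⟨c₀ * b + a₀, ?_, ?_⟩
  · have h3 := congrArg (eval b) key
    simp only [eval_comp, eval_mul, eval_C, eval_X] at h3
    rw [hb', mul_zero, ht, taylor_eval] at h3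
    exact h3
  · rw [add_sub_cancel_right]
    exact Ideal.mul_mem_right _ _ h₀

/-- **Strong form of Hensel's lemma** (Newton): if `p(s) = w^(2c+1) u` and `p'(s) = w^c ε`
with `ε` a unit and `w` in the maximal ideal, then `p` has a root `a` with
`w^(c+1) ∣ a - s`. -/
theorem exists_root_of_approx (p : R[X]) (s w u ε : R) (c : ℕ) (hw : w ∈ maximalIdeal R)
    (hε : IsUnit ε) (h₀ : p.eval s = w ^ (2 * c + 1) * u)
    (h₁ : (derivative p).eval s = w ^ c * ε) :
    ∃ a : R, p.IsRoot a ∧ w ^ (c + 1) ∣ a - s := by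
  set t := taylor s p with ht
  have key := comp_C_mul_X_eq t (w ^ (c + 1)) (w ^ (2 * c + 1)) w u ε
    (by rw [ht, taylor_coeff_zero, h₀]) (by rw [ht, taylor_coeff_one, h₁]; ring) (by ring)
  set q := t.divX.divX.comp (C (w ^ (c + 1)) * X) with hq
  set g : R[X] := C u + C ε * X + C w * X ^ 2 * q with hg
  obtain ⟨ε', hε'⟩ := hε.exists_right_inv
  obtain ⟨b, hb, -⟩ := exists_root_of_simple_root g (-u * ε')
    (by
      have : g.eval (-u * ε') = w * ((-u * ε') ^ 2 * q.eval (-u * ε')) := by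
        simp only [hg, eval_add, eval_mul, eval_C, eval_X, eval_pow]
        linear_combination (-u) * hε'
      rw [this]
      exact Ideal.mul_mem_right _ _ hw)
    (by
      have : (derivative g).eval (-u * ε') =
          ε + w * (derivative (X ^ 2 * q)).eval (-u * ε') := by
        rw [hg, mul_assoc]
        simp only [derivative_add, derivative_C, derivative_C_mul, derivative_X, zero_add,
          eval_add, eval_mul, eval_C, mul_one]
      rw [this, ← IsLocalRing.notMem_maximalIdeal]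
      intro hmem
      have h4 : w * (derivative (X ^ 2 * q)).eval (-u * ε') ∈ maximalIdeal R :=
        Ideal.mul_mem_right _ _ hw
      exact (IsLocalRing.notMem_maximalIdeal.mpr hε)
        ((Ideal.add_mem_iff_left _ h4).mp hmem))
  have hb' : eval b g = 0 := hb
  refine ⟨w ^ (c + 1) * b + s, ?_, ?_⟩
  · have h3 := congrArg (eval b) key
    simp only [eval_comp, eval_mul, eval_C, eval_X] at h3
    rw [hb', mul_zero, ht, taylor_eval] at h3
    exact h3
  · rw [add_sub_cancel_right]
    exact Dvd.intro _ rfl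

/-- In a Henselian local ring with algebraically closed residue field, every unit is an `m`-th
power, for `m` invertible in the residue field. -/
theorem exists_pow_eq_of_isUnit [IsAlgClosed (ResidueField R)] (m : ℕ)
    (hm : (m : ResidueField R) ≠ 0) (u : R) (hu : IsUnit u) : ∃ v : R, v ^ m = u := by
  have hm0 : m ≠ 0 := by
    rintro rfl
    exact hm (by simp)
  have hu0 : residue R u ≠ 0 := by
    intro h
    rw [residue_eq_zero_iff] at h
    exact (IsLocalRing.notMem_maximalIdeal.mpr hu) h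
  obtain ⟨a, ha⟩ := IsAlgClosed.exists_pow_nat_eq (residue R u) (Nat.pos_of_ne_zero hm0)
  have ha0 : a ≠ 0 := by
    rintro rfl
    rw [zero_pow hm0] at ha
    exact hu0 ha.symm
  obtain ⟨v, hv, -⟩ := exists_root_of_residue_simple_root (X ^ m - C u)
    (monic_X_pow_sub_C u hm0) a
    (by simp [ha])
    (by
      simp only [Polynomial.map_sub, Polynomial.map_pow, map_X, map_C, derivative_sub,
        derivative_X_pow, derivative_C, sub_zero, eval_mul, eval_C, eval_pow, eval_X]
      exact mul_ne_zero hm (pow_ne_zero _ ha0))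
  refine ⟨v, ?_⟩
  have : (X ^ m - C u : R[X]).eval v = 0 := hv
  simpa [sub_eq_zero] using this

/-- The same, with the hypotheses of `Fermat.Agent.A2.algSS`: the residue characteristic is the
prime `q` and `q ∤ m`. -/
theorem exists_pow_eq_of_isUnit_of_not_dvd [IsAlgClosed (ResidueField R)] (q m : ℕ)
    (hq : q.Prime) (hqR : (q : R) ∈ maximalIdeal R) (hqm : ¬ q ∣ m) (u : R) (hu : IsUnit u) :
    ∃ v : R, v ^ m = u := by
  refine exists_pow_eq_of_isUnit m (fun hm0 => hqm ?_) u hu
  have h1 : ((q : ℕ) : ResidueField R) = 0 := by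
    rw [← map_natCast (residue R)]
    exact (residue_eq_zero_iff _).mpr hqR
  have hdq : ringChar (ResidueField R) ∣ q := ringChar.dvd h1
  have hdm : ringChar (ResidueField R) ∣ m := ringChar.dvd hm0
  rcases (Nat.dvd_prime hq).mp hdq with h | h
  · exact absurd h CharP.ringChar_ne_one
  · rwa [h] at hdm

end Hensel

end Fermat.Agent.A2.H552

end
-- ===== PACK-END A2/H552/Hensel.lean

-- ===== PACK-BEGIN S18/H876/Kummer.lean
section


/-!
# S18 / d2 : Kummer descent along an extension of degree prime to `m`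

`K` algebraically closed, `E ≤ F` intermediate fields of `Ω/K` with `[F : E]` finite and prime to
`m`.  If `y ∈ F` and `y ^ m ∈ E` then `y ∈ E`.
-/

set_option autoImplicit false

namespace Fermat.Agent.S18.H876

/-- Over an algebraically closed base field every root of unity of an extension field lies in
the base field. -/
theorem mem_range_algebraMap_of_pow_eq_one {K Ω : Type*} [Field K] [Field Ω] [Algebra K Ω]
    [IsAlgClosed K] {ζ : Ω} {m : ℕ} (hm : 0 < m) (h : ζ ^ m = 1) :
    ζ ∈ Set.range (algebraMap K Ω) := by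
  have hint : IsIntegral K ζ := by
    refine ⟨Polynomial.X ^ m - 1, Polynomial.monic_X_pow_sub_C (1 : K) hm.ne', ?_⟩
    simp [h]
  have hirr := minpoly.irreducible hint
  have hdeg := IsAlgClosed.degree_eq_one_of_irreducible K hirr
  have := (minpoly.degree_eq_one_iff (A := K) (x := ζ)).1 hdeg
  simpa using this

/-- **Kummer descent.**  -/
theorem mem_of_pow_mem_of_coprime {K Ω : Type*} [Field K] [Field Ω] [Algebra K Ω]
    [IsAlgClosed K] (E F : IntermediateField K Ω) (hEF : E ≤ F)
    [FiniteDimensional E (IntermediateField.extendScalars hEF)]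
    (m : ℕ) (hm : 0 < m)
    (hcop : (Module.finrank E (IntermediateField.extendScalars hEF)).Coprime m)
    (y : Ω) (hy : y ∈ F) (hym : y ^ m ∈ E) : y ∈ E := by
  classical
  rcases eq_or_ne y 0 with rfl | hy0
  · exact E.zero_mem
  set F' : IntermediateField E Ω := IntermediateField.extendScalars hEF with hF'
  set d : ℕ := Module.finrank E F' with hd
  have hyF' : y ∈ F' := (IntermediateField.mem_extendScalars hEF).2 hy
  set y' : F' := ⟨y, hyF'⟩ with hy'
  set n : E := Algebra.norm E y' with hn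
  -- norm of `y' ^ m`
  have h1 : y' ^ m = algebraMap E F' ⟨y ^ m, hym⟩ := by
    apply Subtype.ext
    simp [hy']
  haveI : Module.Free E F' := Module.Free.of_divisionRing E F'
  have h2 : n ^ m = (⟨y ^ m, hym⟩ : E) ^ d := by
    rw [hn, ← map_pow, h1, Algebra.norm_algebraMap]
  have h3 : (n : Ω) ^ m = (y ^ d) ^ m := by
    have := congrArg (fun e : E => (e : Ω)) h2
    simp only [SubmonoidClass.coe_pow] at this
    rw [this, ← pow_mul, ← pow_mul, mul_comm]
  -- the quotient is a root of unity, hence constant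
  have hyd0 : y ^ d ≠ 0 := pow_ne_zero _ hy0
  have hζ : ((n : Ω) / y ^ d) ^ m = 1 := by
    rw [div_pow, h3, div_self (pow_ne_zero _ hyd0)]
  obtain ⟨c, hc⟩ := mem_range_algebraMap_of_pow_eq_one (K := K) hm hζ
  have hcE : (n : Ω) / y ^ d ∈ E := by
    rw [← hc]
    exact E.algebraMap_mem c
  have hn0 : (n : Ω) ≠ 0 := by
    intro h0
    rw [h0, zero_div] at hζ
    rw [zero_pow hm.ne'] at hζ
    exact zero_ne_one hζ
  have hydE : y ^ d ∈ E := by
    have : y ^ d = (n : Ω) / ((n : Ω) / y ^ d) := by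
      field_simp
    rw [this]
    exact E.div_mem n.2 hcE
  -- Bezout
  have hbez : (d : ℤ) * Nat.gcdA d m + (m : ℤ) * Nat.gcdB d m = 1 := by
    have := Nat.gcd_eq_gcd_ab d m
    rw [Nat.Coprime.gcd_eq_one hcop] at this
    exact_mod_cast this.symm
  have hy1 : y = (y ^ d) ^ (Nat.gcdA d m) * (y ^ m) ^ (Nat.gcdB d m) := by
    rw [← zpow_natCast y d, ← zpow_natCast y m, ← zpow_mul, ← zpow_mul, ← zpow_add₀ hy0, hbez,
      zpow_one]
  rw [hy1]
  exact E.mul_mem (zpow_mem hydE _) (zpow_mem hym _)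

/-- **Kummer descent, tower form.**  `K ⊆ E ⊆ F` fields, `K` algebraically closed, `[F : E]`
finite and prime to `m`.  If `y ∈ F` and `y ^ m` comes from `E`, then `y` comes from `E`. -/
theorem exists_algebraMap_eq_of_pow_eq {K E F : Type*} [Field K] [Field E] [Field F]
    [Algebra K E] [Algebra E F] [Algebra K F] [IsScalarTower K E F]
    [IsAlgClosed K] [FiniteDimensional E F]
    (m : ℕ) (hm : 0 < m) (hcop : (Module.finrank E F).Coprime m)
    (y : F) (e : E) (hym : y ^ m = algebraMap E F e) : ∃ x : E, algebraMap E F x = y := by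
  classical
  rcases eq_or_ne y 0 with rfl | hy0
  · exact ⟨0, map_zero _⟩
  set d : ℕ := Module.finrank E F with hd
  set n : E := Algebra.norm E y with hn
  haveI : Module.Free E F := Module.Free.of_divisionRing E F
  have h2 : n ^ m = e ^ d := by
    rw [hn, ← map_pow, hym, Algebra.norm_algebraMap]
  have h3 : (algebraMap E F n) ^ m = (y ^ d) ^ m := by
    rw [← map_pow, h2, map_pow, ← hym, ← pow_mul, ← pow_mul, mul_comm]
  have hyd0 : y ^ d ≠ 0 := pow_ne_zero _ hy0
  have hζ : (algebraMap E F n / y ^ d) ^ m = 1 := by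
    rw [div_pow, h3, div_self (pow_ne_zero _ hyd0)]
  obtain ⟨c, hc⟩ := mem_range_algebraMap_of_pow_eq_one (K := K) hm hζ
  have hn0 : algebraMap E F n ≠ 0 := by
    intro h0
    rw [h0, zero_div, zero_pow hm.ne'] at hζ
    exact zero_ne_one hζ
  have hc0 : algebraMap K E c ≠ 0 := by
    intro h0
    have : algebraMap K F c = 0 := by
      rw [IsScalarTower.algebraMap_apply K E F, h0, map_zero]
    rw [this] at hc
    exact (div_ne_zero hn0 hyd0) hc.symm
  -- `y ^ d` comes from `E`
  have hydE : algebraMap E F (n / algebraMap K E c) = y ^ d := by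
    rw [map_div₀, ← IsScalarTower.algebraMap_apply K E F, hc]
    field_simp
  -- Bezout
  have hbez : (d : ℤ) * Nat.gcdA d m + (m : ℤ) * Nat.gcdB d m = 1 := by
    have := Nat.gcd_eq_gcd_ab d m
    rw [Nat.Coprime.gcd_eq_one hcop] at this
    exact_mod_cast this.symm
  refine ⟨(n / algebraMap K E c) ^ (Nat.gcdA d m) * e ^ (Nat.gcdB d m), ?_⟩
  rw [map_mul, map_zpow₀, map_zpow₀, hydE, ← hym, ← zpow_natCast y d, ← zpow_natCast y m,
    ← zpow_mul, ← zpow_mul, ← zpow_add₀ hy0, hbez, zpow_one]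

end Fermat.Agent.S18.H876

end
-- ===== PACK-END S18/H876/Kummer.lean

-- ===== PACK-BEGIN A2/IF/H429/Hilbert.lean
section


/-!
# A2 / IF (helper429): the inertia field is unramified (finite level, Mathlib only)

Companion of Mathlib's `IsDecompositionField.ramificationIdx_eq` for the inertia field:
if `E` is the inertia field of `P` in the finite Galois extension `L/K` and `𝓟E` is the prime of
`E` below `P`, then `e(𝓟E | p) = 1`.
-/

set_option autoImplicit false
set_option linter.style.haveILetI false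
set_option linter.unusedSectionVars false

open MulAction Pointwise Ideal NumberField IsDedekindDomain

namespace Fermat.Agent.A2.IF.H429

section

variable (A K L : Type*) {B : Type*} [Field K] [Field L] [Algebra K L] [CommRing A] [CommRing B]
  [Algebra A B] {p : Ideal A} (P : Ideal B) [P.LiesOver p]

variable [Algebra A K] [IsFractionRing A K] [Algebra A L] [IsScalarTower A K L] [Algebra B L]
  [IsScalarTower A B L] [IsFractionRing B L] [MulSemiringAction Gal(L/K) B]
  [SMulDistribClass Gal(L/K) B L]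

variable (E 𝓞E : Type*) [Field E] [Algebra E L] [IsInertiaField K L P E] [CommRing 𝓞E]
  [Algebra 𝓞E E] [IsFractionRing 𝓞E E] [Algebra 𝓞E B] [Algebra 𝓞E L] [IsScalarTower 𝓞E E L]
  [IsScalarTower 𝓞E B L] (𝓟E : Ideal 𝓞E) [hE : P.LiesOver 𝓟E]

variable [IsGalois K L] [IsDedekindDomain A] [IsDedekindDomain B] [Module.Finite A B]
  [Module.IsTorsionFree A B] [Algebra A 𝓞E] [Module.Finite A 𝓞E] [IsScalarTower A 𝓞E B]
  [IsDedekindDomain 𝓞E] [𝓟E.LiesOver p]

variable [FiniteDimensional K L] [Ring.HasFiniteQuotients A] [𝓟E.IsMaximal] [P.IsMaximal]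

omit [𝓟E.LiesOver p] in
include K L E P in
theorem inertiaField_ramificationIdxIn_eq (hp : p ≠ ⊥) [PerfectField 𝓟E.ResidueField] :
    ramificationIdxIn 𝓟E B = p.ramificationIdxIn B := by
  have inst₁ : Module.Finite 𝓞E B := Module.Finite.right A 𝓞E B
  have inst₂ : Module.IsTorsionFree 𝓞E B := by
    rw [Module.isTorsionFree_iff_faithfulSMul]
    apply Algebra.IsAlgebraic.faithfulSMul_tower_top A
  have inst₄ : IsGaloisGroup Gal(L/K) A B := .of_isFractionRing _ _ _ K L
  have inst₅ : IsGaloisGroup (inertia Gal(L/K) P) 𝓞E B := .of_isFractionRing _ _ _ E L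
  have : p.IsMaximal := over_def P p ▸ Ideal.IsMaximal.under A P
  have : Finite (A ⧸ p) := Ring.HasFiniteQuotients.finiteQuotient hp
  have h1 := card_inertia_eq_ramificationIdxIn (G := Gal(L/K)) p P
  have h2 := card_inertia_eq_ramificationIdxIn (G := inertia Gal(L/K) P) 𝓟E P
  rw [← h1, ← h2]
  have h3 : (P.inertia (inertia Gal(L/K) P)) = ⊤ := by
    rw [eq_top_iff]
    intro g _
    exact Ideal.coe_mem_inertia.mp g.2
  rw [h3]
  exact Nat.card_congr Subgroup.topEquiv.toEquiv

include K L E P in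
/-- Let `E` be the inertia field of `P` in `L/K` and `𝓟E` the prime of `E` below `P`.  Then
`𝓟E` is unramified over `K`. -/
theorem inertiaField_ramificationIdx_eq (hp : p ≠ ⊥) [PerfectField 𝓟E.ResidueField] :
    𝓟E.ramificationIdx A = 1 := by
  have inst₁ : Module.Finite 𝓞E B := Module.Finite.right A 𝓞E B
  have inst₂ : Module.IsTorsionFree 𝓞E B := by
    rw [Module.isTorsionFree_iff_faithfulSMul]
    apply Algebra.IsAlgebraic.faithfulSMul_tower_top A
  have inst₃ : Module.IsTorsionFree A 𝓞E := Module.IsTorsionFree.of_faithfulSMul _ _ B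
  have inst₄ : IsGaloisGroup Gal(L/K) A B := .of_isFractionRing _ _ _ K L
  have inst₅ : IsGaloisGroup (inertia Gal(L/K) P) 𝓞E B := .of_isFractionRing _ _ _ E L
  have := ramificationIdx_tower (R := A) 𝓟E P
  rwa [← ramificationIdxIn_eq_ramificationIdx 𝓟E P (inertia Gal(L/K) P),
    inertiaField_ramificationIdxIn_eq A K L P E 𝓞E 𝓟E hp,
    ramificationIdxIn_eq_ramificationIdx p P Gal(L/K),
    right_eq_mul₀ <| (ramificationIdx_pos P A).ne'] at this

end


/-- Finite level form of "the inertia field is unramified": an element of the finite Galois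
number field `F` fixed by the inertia group of `P` has the `P`-adic value of a power of `q`. -/
theorem exists_zpow_valuation_eq_one_of_fixed (F : Type*) [Field F] [NumberField F] [IsGalois ℚ F]
    (w : HeightOneSpectrum (𝓞 F)) (q : ℕ) (hq : q.Prime) (hqP : (q : 𝓞 F) ∈ w.asIdeal)
    (y : F) (hy : y ≠ 0) (hfix : ∀ τ ∈ w.asIdeal.inertia Gal(F/ℚ), τ y = y) :
    ∃ k : ℤ, w.valuation F (y / (q : F) ^ k) = 1 := by
  classical
  set P : Ideal (𝓞 F) := w.asIdeal with hP
  haveI : P.IsPrime := w.isPrime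
  haveI : P.IsMaximal := w.isMaximal
  let T : IntermediateField ℚ F := FixedPoints.intermediateField (inertia Gal(F/ℚ) P)
  let 𝓟T : Ideal (𝓞 T) := P.under (𝓞 T)
  let p : Ideal ℤ := P.under ℤ
  have hqp : (q : ℤ) ∈ p := by
    show algebraMap ℤ (𝓞 F) (q : ℤ) ∈ P
    simpa using hqP
  have hp : p ≠ ⊥ := by
    intro h
    rw [h, Ideal.mem_bot] at hqp
    exact hq.ne_zero (by exact_mod_cast hqp)
  have hpq : p = Ideal.span {(q : ℤ)} := by
    have hmax : (Ideal.span {(q : ℤ)}).IsMaximal :=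
      PrincipalIdealRing.isMaximal_of_irreducible
        (Nat.prime_iff_prime_int.mp hq).irreducible
    have hle : Ideal.span {(q : ℤ)} ≤ p := by
      rw [Ideal.span_singleton_le_iff_mem]; exact hqp
    exact (hmax.eq_of_le (Ideal.IsPrime.ne_top inferInstance) hle).symm
  have h𝓟T0 : 𝓟T ≠ ⊥ := Ideal.ne_bot_of_liesOver_of_ne_bot hp 𝓟T
  haveI : 𝓟T.IsMaximal := Ring.DimensionLEOne.maximalOfPrime h𝓟T0 inferInstance
  haveI : Finite (𝓞 T ⧸ 𝓟T) := Ring.HasFiniteQuotients.finiteQuotient h𝓟T0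
  have he : 𝓟T.ramificationIdx ℤ = 1 :=
    inertiaField_ramificationIdx_eq ℤ ℚ F P T (𝓞 T) 𝓟T hp
  let v : HeightOneSpectrum ℤ := ⟨p, inferInstance, hp⟩
  let wT : HeightOneSpectrum (𝓞 T) := ⟨𝓟T, inferInstance, h𝓟T0⟩
  haveI : wT.asIdeal.LiesOver v.asIdeal := (inferInstance : 𝓟T.LiesOver p)
  haveI : w.asIdeal.LiesOver wT.asIdeal := (inferInstance : P.LiesOver 𝓟T)
  have he' : v.asIdeal.ramificationIdx' wT.asIdeal = 1 := by
    rw [Ideal.ramificationIdx'_eq_ramificationIdx v.asIdeal wT.asIdeal hp]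
    exact he
  -- value of `q`
  have hvq : v.valuation ℚ (q : ℚ) = WithZero.exp (-1 : ℤ) := by
    have h1 : v.valuation ℚ ((q : ℤ) : ℚ) = v.intValuation (q : ℤ) :=
      v.valuation_of_algebraMap (q : ℤ)
    rw [Int.cast_natCast] at h1
    rw [h1]
    exact v.intValuation_singleton (by exact_mod_cast hq.ne_zero) hpq
  have hwq : wT.valuation T (q : T) = WithZero.exp (-1 : ℤ) := by
    have h1 := HeightOneSpectrum.valuation_liesOver T v wT (q : ℚ)
    rw [he', pow_one, hvq] at h1
    rw [h1]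
    simp
  -- `y` in `T`
  let yT : T := ⟨y, fun g => hfix g.1 g.2⟩
  have hyT : yT ≠ 0 := fun h => hy (congrArg Subtype.val h)
  have hwy : wT.valuation T yT ≠ 0 := (Valuation.ne_zero_iff _).mpr hyT
  refine ⟨- WithZero.log (wT.valuation T yT), ?_⟩
  have hz : wT.valuation T (yT / (q : T) ^ (- WithZero.log (wT.valuation T yT))) = 1 := by
    rw [map_div₀, map_zpow₀, hwq, ← WithZero.exp_zsmul]
    simp only [smul_eq_mul, mul_neg, mul_one, neg_neg]
    rw [WithZero.exp_log hwy]
    exact div_self hwy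
  have h2 := HeightOneSpectrum.valuation_liesOver F wT w
    (yT / (q : T) ^ (- WithZero.log (wT.valuation T yT)))
  rw [hz, one_pow] at h2
  have h3 : algebraMap T F (yT / (q : T) ^ (- WithZero.log (wT.valuation T yT))) =
      y / (q : F) ^ (- WithZero.log (wT.valuation T yT)) := by
    rw [map_div₀, map_zpow₀, map_natCast]
    rfl
  rw [← h3]
  exact h2.symm


end Fermat.Agent.A2.IF.H429

end
-- ===== PACK-END A2/IF/H429/Hilbert.lean

-- ===== PACK-BEGIN S55/Bridge/H594/Profinite.lean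
section


/-!
# S55 bridge (helper594): relative transitivity and residue surjectivity for a closed subgroup

Let a profinite group `G` act continuously on a (discrete) commutative ring `B`, and let `H ≤ G`
be a closed subgroup.  Applying Mathlib's profinite invariant theory to `H` acting on `B` with
base ring the fixed subring `B^H`, we get:

* `exists_smul_eq_of_forall_fixed_mem_iff`: two primes of `B` with the same intersection with
  `B^H` are conjugate under `H`;
* `exists_stabilizer_congr_of_forall_fixed`: if `σ ∈ G` stabilises the prime `P` and acts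
  trivially on `B^H` modulo `P`, then some `h ∈ H` stabilising `P` acts as `σ` on `B ⧸ P`.
-/

set_option autoImplicit false
set_option linter.unusedSectionVars false
set_option linter.style.haveILetI false

namespace Fermat.Agent.S55.Bridge.H594

open scoped Pointwise

section abstract

variable {B : Type*} [CommRing B]
variable {G : Type*} [Group G] [MulSemiringAction G B]
variable [TopologicalSpace G] [CompactSpace G] [TotallyDisconnectedSpace G]
variable [IsTopologicalGroup G] [TopologicalSpace B] [DiscreteTopology B] [ContinuousSMul G B]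

/-- `B` is invariant over its fixed subalgebra. -/
theorem isInvariant_fixedPoints (H : Subgroup G) :
    Algebra.IsInvariant (FixedPoints.subalgebra ℤ B H) B H :=
  ⟨fun b hb => ⟨⟨b, hb⟩, rfl⟩⟩

theorem continuousSMul_subgroup (H : Subgroup G) : ContinuousSMul H B := by
  refine ⟨?_⟩
  have h1 : Continuous fun p : H × B => ((p.1 : G), p.2) :=
    (continuous_subtype_val.comp continuous_fst).prodMk continuous_snd
  exact (continuous_smul (M := G) (X := B)).comp h1

/-- Two primes of `B` with the same `H`-fixed elements are `H`-conjugate (`H` closed). -/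
theorem exists_smul_eq_of_forall_fixed_mem_iff (H : Subgroup G) (hH : IsClosed (H : Set G))
    (P Q : Ideal B) [P.IsPrime] [Q.IsPrime]
    (hPQ : ∀ b : B, (∀ h : H, h • b = b) → (b ∈ P ↔ b ∈ Q)) :
    ∃ h : H, Q = (h : G) • P := by
  haveI : CompactSpace H := isCompact_iff_compactSpace.mp hH.isCompact
  haveI := continuousSMul_subgroup (B := B) H
  haveI := isInvariant_fixedPoints (B := B) H
  have hunder : P.under (FixedPoints.subalgebra ℤ B H) = Q.under (FixedPoints.subalgebra ℤ B H) := by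
    ext ⟨b, hb⟩
    simp only [Ideal.under, Ideal.mem_comap]
    exact hPQ b hb
  obtain ⟨h, hh⟩ := Algebra.IsInvariant.exists_smul_of_under_eq_of_profinite
    (A := FixedPoints.subalgebra ℤ B H) (B := B) (G := H) P Q hunder
  exact ⟨h, hh⟩

/-- If `σ ∈ G` stabilises the prime `P` and acts trivially modulo `P` on the `H`-fixed elements,
then there is `h ∈ H` stabilising `P` and acting as `σ` on `B ⧸ P` (`H` closed). -/
theorem exists_stabilizer_congr_of_forall_fixed (H : Subgroup G) (hH : IsClosed (H : Set G))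
    (P : Ideal B) [P.IsPrime] (σ : G) (hσP : σ • P = P)
    (hσ : ∀ b : B, (∀ h : H, h • b = b) → σ • b - b ∈ P) :
    ∃ h : H, (h : G) • P = P ∧ ∀ b : B, (h : G) • b - σ • b ∈ P := by
  haveI : CompactSpace H := isCompact_iff_compactSpace.mp hH.isCompact
  haveI := continuousSMul_subgroup (B := B) H
  haveI := isInvariant_fixedPoints (B := B) H
  let A' := FixedPoints.subalgebra ℤ B H
  let p : Ideal A' := P.under A'
  haveI : P.LiesOver p := ⟨rfl⟩
  have hmap : P = P.map (MulSemiringAction.toRingEquiv G B σ) := by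
    conv_lhs => rw [← hσP]
    rfl
  let φ₀ : (B ⧸ P) ≃+* (B ⧸ P) :=
    Ideal.quotientEquiv P P (MulSemiringAction.toRingEquiv G B σ) hmap
  have hφ₀ : ∀ b : B, φ₀ (Ideal.Quotient.mk P b) = Ideal.Quotient.mk P (σ • b) := fun b => rfl
  let φ : (B ⧸ P) ≃ₐ[A' ⧸ p] (B ⧸ P) :=
    { φ₀ with
      commutes' := by
        rintro ⟨a⟩
        show φ₀ (Ideal.Quotient.mk P (a : B)) = Ideal.Quotient.mk P (a : B)
        rw [hφ₀, Ideal.Quotient.eq]
        exact hσ a a.2 }
  obtain ⟨h, hh⟩ := Ideal.Quotient.stabilizerHom_surjective_of_profinite (G := H) p P φ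
  refine ⟨h.1, ?_, fun b => ?_⟩
  · exact h.2
  · have h1 : (Ideal.Quotient.stabilizerHom P p H h) (Ideal.Quotient.mk P b) =
        φ (Ideal.Quotient.mk P b) := by rw [hh]
    rw [Ideal.Quotient.stabilizerHom_apply] at h1
    have h2 : φ (Ideal.Quotient.mk P b) = Ideal.Quotient.mk P (σ • b) := hφ₀ b
    rw [h2, Ideal.Quotient.eq] at h1
    exact h1

end abstract

end Fermat.Agent.S55.Bridge.H594

end
-- ===== PACK-END S55/Bridge/H594/Profinite.lean

-- ===== PACK-BEGIN A2/IF/H429/Dvr.lean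
section


/-!
# A2 / IF (helper429): a criterion for discrete valuation rings (Mathlib only)

A valuation ring in which a fixed power `x ^ N` of every nonzero element is associated to a
power of a fixed nonzero non-unit `ϖ` is a discrete valuation ring.
-/

set_option autoImplicit false

namespace Fermat.Agent.A2.IF.H429

section

variable {R : Type*} [CommRing R] [IsDomain R]

theorem pow_associated_inj {ϖ : R} (hϖ0 : ϖ ≠ 0) (hϖ : ¬ IsUnit ϖ) {a b : ℕ}
    (h : Associated (ϖ ^ a) (ϖ ^ b)) : a = b := by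
  wlog hab : a ≤ b generalizing a b
  · exact (this h.symm (le_of_not_ge hab)).symm
  obtain ⟨c, rfl⟩ := Nat.exists_eq_add_of_le hab
  by_contra hne
  have hc : c ≠ 0 := fun h0 => hne (by simp [h0])
  obtain ⟨u, hu⟩ := h
  rw [pow_add] at hu
  have h1 : (u : R) = ϖ ^ c := mul_left_cancel₀ (pow_ne_zero a hϖ0) hu
  have h2 : IsUnit (ϖ ^ c) := h1 ▸ u.isUnit
  exact hϖ ((isUnit_pow_iff hc).mp h2)

variable [ValuationRing R]

/-- **DVR criterion.** -/
theorem isDiscreteValuationRing_of_pow_associated (ϖ : R) (hϖ0 : ϖ ≠ 0) (hϖ : ¬ IsUnit ϖ)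
    (N : ℕ) (hN : 0 < N) (h : ∀ x : R, x ≠ 0 → ∃ k : ℕ, Associated (x ^ N) (ϖ ^ k)) :
    IsDiscreteValuationRing R := by
  classical
  -- the "valuation"
  choose! ν hν using h
  have hν_unique : ∀ x : R, x ≠ 0 → ∀ k : ℕ, Associated (x ^ N) (ϖ ^ k) → ν x = k := by
    intro x hx k hk
    exact pow_associated_inj hϖ0 hϖ ((hν x hx).symm.trans hk)
  have hν_mul : ∀ x y : R, x ≠ 0 → y ≠ 0 → ν (x * y) = ν x + ν y := by
    intro x y hx hy
    apply hν_unique _ (mul_ne_zero hx hy)
    rw [mul_pow, pow_add]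
    exact (hν x hx).mul_mul (hν y hy)
  have hν_unit : ∀ x : R, x ≠ 0 → (ν x = 0 ↔ IsUnit x) := by
    intro x hx
    constructor
    · intro h0
      have h1 := hν x hx
      rw [h0, pow_zero] at h1
      have h2 : IsUnit (x ^ N) := h1.symm.isUnit isUnit_one
      exact (isUnit_pow_iff hN.ne').mp h2
    · intro hu
      apply hν_unique x hx 0
      rw [pow_zero]
      exact associated_one_iff_isUnit.mpr (hu.pow N)
  -- a non-unit of minimal valuation
  have hex : ∃ k : ℕ, ∃ x : R, x ≠ 0 ∧ ¬ IsUnit x ∧ ν x = k := ⟨ν ϖ, ϖ, hϖ0, hϖ, rfl⟩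
  obtain ⟨π, hπ0, hπu, hπk⟩ := Nat.find_spec hex
  have hmin : ∀ x : R, x ≠ 0 → ¬ IsUnit x → ν π ≤ ν x := by
    intro x hx hxu
    rw [hπk]
    exact Nat.find_min' hex ⟨x, hx, hxu, rfl⟩
  have hπpos : 0 < ν π := by
    rcases Nat.eq_zero_or_pos (ν π) with h0 | h0
    · exact absurd ((hν_unit π hπ0).mp h0) hπu
    · exact h0
  have hirr : Irreducible π := by
    refine ⟨hπu, fun a b hab => ?_⟩
    by_contra hcon
    rw [not_or] at hcon
    have ha0 : a ≠ 0 := by
      rintro rfl
      rw [zero_mul] at hab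
      exact hπ0 hab
    have hb0 : b ≠ 0 := by
      rintro rfl
      rw [mul_zero] at hab
      exact hπ0 hab
    have h1 := hν_mul a b ha0 hb0
    rw [← hab] at h1
    have h2 := hmin a ha0 hcon.1
    have h3 := hmin b hb0 hcon.2
    omega
  have key : ∀ n : ℕ, ∀ x : R, x ≠ 0 → ν x = n → ∃ j : ℕ, Associated (π ^ j) x := by
    intro n
    induction n using Nat.strong_induction_on with
    | _ n ih =>
      intro x hx hxn
      by_cases hxu : IsUnit x
      · exact ⟨0, by rw [pow_zero]; exact (associated_one_iff_isUnit.mpr hxu).symm⟩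
      · rcases ValuationRing.dvd_total π x with ⟨y, hy⟩ | ⟨z, hz⟩
        · have hy0 : y ≠ 0 := by
            rintro rfl
            rw [mul_zero] at hy
            exact hx hy
          have h1 := hν_mul π y hπ0 hy0
          rw [← hy, hxn] at h1
          obtain ⟨j, hj⟩ := ih (ν y) (by omega) y hy0 rfl
          refine ⟨j + 1, ?_⟩
          rw [pow_succ', hy]
          exact (Associated.refl π).mul_mul hj
        · have hz0 : z ≠ 0 := by
            rintro rfl
            rw [mul_zero] at hz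
            exact hπ0 hz
          rcases hirr.isUnit_or_isUnit hz with h1 | h1
          · exact absurd h1 hxu
          · refine ⟨1, ?_⟩
            rw [pow_one, hz]
            exact (associated_mul_unit_right x z h1).symm
  exact IsDiscreteValuationRing.ofHasUnitMulPowIrreducibleFactorization
    ⟨π, hirr, fun {x} hx => key (ν x) x hx rfl⟩

end

end Fermat.Agent.A2.IF.H429

end
-- ===== PACK-END A2/IF/H429/Dvr.lean

-- ===== PACK-BEGIN A2/Mod/H816/L3Poly.lean
section


/-!
# A2 / MOD leaf L3, part 1 (helper816): a nonzero polynomial does not vanish at a polar series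

`eval₂_C_ne_zero_of_polar`: over a field `k`, if `U ∈ k((t))` has a pole of exact order `a > 0`
(`U.coeff n = 0` for `n < -a`, `U.coeff (-a) ≠ 0`) and `g ∈ k[X]` is nonzero, then `g(U) ≠ 0`;
more precisely the coefficient of `t^(-a·deg g)` in `g(U)` is `lc(g) · U.coeff(-a)^(deg g)`.
-/

set_option autoImplicit false

noncomputable section

namespace Fermat.Agent.A2.Mod.H816

open HahnSeries Polynomial

variable {k : Type*} [Field k]

/-- The order of a series with lowest term in degree `-a`. -/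
theorem order_eq_of_polar {U : LaurentSeries k} {a : ℤ}
    (h0 : ∀ n : ℤ, n < a → U.coeff n = 0) (h1 : U.coeff a ≠ 0) : U.order = a := by
  have hU : U ≠ 0 := by
    rintro rfl
    exact h1 (by simp)
  apply le_antisymm
  · exact order_le_of_coeff_ne_zero h1
  · by_contra hlt
    push Not at hlt
    exact (HahnSeries.coeff_order_eq_zero.not.mpr hU) (h0 _ hlt)

theorem ne_zero_of_polar {U : LaurentSeries k} {a : ℤ} (h1 : U.coeff a ≠ 0) : U ≠ 0 := by
  rintro rfl
  exact h1 (by simp)

/-- coefficients of powers of a series of order `a`. -/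
theorem coeff_pow_of_lt {U : LaurentSeries k} {a : ℤ}
    (h0 : ∀ n : ℤ, n < a → U.coeff n = 0) (h1 : U.coeff a ≠ 0) (i : ℕ) {n : ℤ}
    (hn : n < i * a) : (U ^ i).coeff n = 0 := by
  apply HahnSeries.coeff_eq_zero_of_lt_order
  rw [HahnSeries.order_pow, order_eq_of_polar h0 h1, nsmul_eq_mul]
  exact hn

/-- leading coefficient of powers of a series of order `a`. -/
theorem coeff_pow_order {U : LaurentSeries k} {a : ℤ}
    (h0 : ∀ n : ℤ, n < a → U.coeff n = 0) (h1 : U.coeff a ≠ 0) (i : ℕ) :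
    (U ^ i).coeff (i * a) = U.coeff a ^ i := by
  induction i with
  | zero => simp
  | succ i ih =>
    have hU := order_eq_of_polar h0 h1
    have hUi : (U ^ i).order = i * a := by
      rw [HahnSeries.order_pow, hU, nsmul_eq_mul]
    have key := HahnSeries.coeff_mul_order_add_order (U ^ i) U
    rw [HahnSeries.leadingCoeff_eq, HahnSeries.leadingCoeff_eq, hUi, hU, ih] at key
    rw [pow_succ, pow_succ]
    have : ((i + 1 : ℕ) : ℤ) * a = i * a + a := by push_cast; ring
    rw [this]
    exact key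

/-- **Non-vanishing at a polar series.** -/
theorem coeff_eval₂_C_of_polar {U : LaurentSeries k} {a : ℤ} (ha : a < 0)
    (h0 : ∀ n : ℤ, n < a → U.coeff n = 0) (h1 : U.coeff a ≠ 0) (g : k[X]) :
    (g.eval₂ (HahnSeries.C : k →+* LaurentSeries k) U).coeff (g.natDegree * a) =
      g.leadingCoeff * U.coeff a ^ g.natDegree := by
  rw [Polynomial.eval₂_eq_sum_range, HahnSeries.coeff_sum]
  rw [Finset.sum_eq_single g.natDegree]
  · rw [HahnSeries.C_mul_eq_smul, HahnSeries.coeff_smul, coeff_pow_order h0 h1, smul_eq_mul]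
    rfl
  · intro i hi hne
    have hlt : i < g.natDegree := by
      have := Finset.mem_range.mp hi
      omega
    rw [HahnSeries.C_mul_eq_smul, HahnSeries.coeff_smul, coeff_pow_of_lt h0 h1 i, smul_zero]
    have h2 : ((i : ℤ)) < (g.natDegree : ℤ) := by exact_mod_cast hlt
    nlinarith
  · intro h
    exact absurd (Finset.mem_range.mpr (Nat.lt_succ_self _)) h

theorem eval₂_C_ne_zero_of_polar {U : LaurentSeries k} {a : ℤ} (ha : a < 0)
    (h0 : ∀ n : ℤ, n < a → U.coeff n = 0) (h1 : U.coeff a ≠ 0) {g : k[X]} (hg : g ≠ 0) :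
    g.eval₂ (HahnSeries.C : k →+* LaurentSeries k) U ≠ 0 := by
  intro h
  have := coeff_eval₂_C_of_polar ha h0 h1 g
  rw [h, HahnSeries.coeff_zero] at this
  have h2 : g.leadingCoeff * U.coeff a ^ g.natDegree ≠ 0 :=
    mul_ne_zero (Polynomial.leadingCoeff_ne_zero.mpr hg) (pow_ne_zero _ h1)
  exact h2 this.symm

end Fermat.Agent.A2.Mod.H816

end

end
-- ===== PACK-END A2/Mod/H816/L3Poly.lean

-- ===== PACK-BEGIN A2/Mod/H142/S2Core.lean
section









/-!
# A2 / MODASM sub-assembly S2 (components normal) — abstract core (helper142)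

Mathlib-only.  `F` a field, `V` a valuation subring of `F`, `B ⊆ V` a subalgebra (the chart),
`p = B ∩ 𝔪_V` (the component of the special fibre cut out by `V`).

* `isIntegrallyClosed_quotient_of_normal` (**core A**): if the image of `B` in the residue field
  `κ(V)` is integrally closed in `κ(V)` (elementwise form `NormalIn`), then `B ⧸ p` is an
  integrally closed domain.
* `normalIn_transfer` (**core B**): transfer of `NormalIn` along a ring homomorphism
  `γ : F₀ → F` (a degeneracy map) with `γ⁻¹ V = V₀`, `γ B₀ ⊆ B`, residue degree one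
  (`V = γ V₀ + 𝔪_V`) and `B` integral over `γ B₀` MODULO `𝔪_V`.

No integrality of `B` over `γ B₀` itself is needed (it fails in the chart at infinity).
-/

set_option autoImplicit false

noncomputable section

open Polynomial

namespace Fermat.Agent.A2.Mod.H142

section Integral

variable {A₀ A K : Type*} [CommRing A₀] [CommRing A] [CommRing K]

/-- Transitivity of integrality for two ring homomorphisms into a common target. -/
theorem isIntegralElem_trans (ρ₀ : A₀ →+* K) (ρ : A →+* K)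
    (h : ∀ a, ρ₀.IsIntegralElem (ρ a)) {x : K} (hx : ρ.IsIntegralElem x) :
    ρ₀.IsIntegralElem x := by
  let _ : Algebra A₀ K := ρ₀.toAlgebra
  have hmem : ∀ a, ρ a ∈ (integralClosure A₀ K).toSubring := fun a => h a
  obtain ⟨p, hp, hpx⟩ := hx
  let ρ' : A →+* (integralClosure A₀ K).toSubring := ρ.codRestrict _ hmem
  have hx' : IsIntegral (integralClosure A₀ K) x := by
    refine ⟨p.map ρ', hp.map _, ?_⟩
    rw [eval₂_map]
    exact hpx
  exact isIntegral_trans x hx'

/-- A monic relation in `Fin`-indexed form gives integrality. -/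
theorem isIntegralElem_of_fin (ρ : A →+* K) {x : K} (n : ℕ) (c : Fin n → A)
    (h : x ^ n + ∑ i : Fin n, ρ (c i) * x ^ (i : ℕ) = 0) : ρ.IsIntegralElem x := by
  refine ⟨X ^ n + ∑ i : Fin n, C (c i) * X ^ (i : ℕ),
    Polynomial.monic_X_pow_add (Polynomial.degree_sum_fin_lt c), ?_⟩
  rw [eval₂_add, eval₂_pow, eval₂_X, eval₂_finsetSum]
  simpa using h

/-- Integrality gives a monic relation in `Fin`-indexed form. -/
theorem exists_fin_of_isIntegralElem (ρ : A →+* K) {x : K} (hx : ρ.IsIntegralElem x) :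
    ∃ (n : ℕ) (c : Fin n → A), x ^ n + ∑ i : Fin n, ρ (c i) * x ^ (i : ℕ) = 0 := by
  obtain ⟨p, hp, hpx⟩ := hx
  refine ⟨p.natDegree, fun i => p.coeff i, ?_⟩
  have h1 := hp.as_sum
  have h2 : eval₂ ρ x p = x ^ p.natDegree + ∑ i : Fin p.natDegree, ρ (p.coeff i) * x ^ (i : ℕ) := by
    conv_lhs => rw [h1]
    rw [eval₂_add, eval₂_pow, eval₂_X, eval₂_finsetSum,
      ← Fin.sum_univ_eq_sum_range (fun i => eval₂ ρ x (C (p.coeff i) * X ^ i)) p.natDegree]
    simp
  rw [← h2]
  exact hpx

end Integral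

section Val

variable {R F : Type*} [CommRing R] [Field F] [Algebra R F]

/-- The residue class map `B → κ(V)` of a subalgebra `B ⊆ V`. -/
def resMap (V : ValuationSubring F) (B : Subalgebra R F) (hBV : ∀ b ∈ B, b ∈ V) :
    B →+* IsLocalRing.ResidueField V :=
  (IsLocalRing.residue V).comp
    { toFun := fun b => ⟨b.1, hBV b.1 b.2⟩
      map_one' := rfl
      map_mul' := fun _ _ => rfl
      map_zero' := rfl
      map_add' := fun _ _ => rfl }

theorem residue_eq_zero_iff_val (V : ValuationSubring F) (f : V) :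
    IsLocalRing.residue V f = 0 ↔ V.valuation (f : F) < 1 := by
  rw [IsLocalRing.residue_eq_zero_iff]
  exact V.valuation_lt_one_iff f

theorem resMap_apply (V : ValuationSubring F) (B : Subalgebra R F) (hBV : ∀ b ∈ B, b ∈ V)
    (b : B) : resMap V B hBV b = IsLocalRing.residue V ⟨b.1, hBV b.1 b.2⟩ := rfl

theorem resMap_eq_zero_iff (V : ValuationSubring F) (B : Subalgebra R F)
    (hBV : ∀ b ∈ B, b ∈ V) (b : B) : resMap V B hBV b = 0 ↔ V.valuation (b : F) < 1 := by
  rw [resMap_apply, residue_eq_zero_iff_val]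

/-- `f̄ = ḡ` in `κ(V)` iff `f - g ∈ 𝔪_V`. -/
theorem residue_eq_iff_val (V : ValuationSubring F) (f g : V) :
    IsLocalRing.residue V f = IsLocalRing.residue V g ↔ V.valuation ((f : F) - g) < 1 := by
  rw [← sub_eq_zero, ← map_sub, residue_eq_zero_iff_val]
  rfl

/-- The image of `B` in the residue field of `V` is integrally closed in it (elementwise form;
the shape of `Mod.GoodRedAt.normal`). -/
def NormalIn (V : ValuationSubring F) (B : Set F) : Prop :=
  ∀ f ∈ V, (∃ (n : ℕ) (c : Fin n → F), (∀ i, c i ∈ B) ∧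
      V.valuation (f ^ n + ∑ i : Fin n, c i * f ^ (i : ℕ)) < 1) →
    ∃ b ∈ B, V.valuation (f - b) < 1

/-- A monic relation modulo `𝔪_V` with coefficients in `B` is integrality of the residue class
over `B` (via `resMap`). -/
theorem isIntegralElem_residue_of_rel (V : ValuationSubring F) (B : Subalgebra R F)
    (hBV : ∀ b ∈ B, b ∈ V) (f : V) (n : ℕ) (c : Fin n → F) (hc : ∀ i, c i ∈ B)
    (h : V.valuation ((f : F) ^ n + ∑ i : Fin n, c i * (f : F) ^ (i : ℕ)) < 1) :
    (resMap V B hBV).IsIntegralElem (IsLocalRing.residue V f) := by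
  refine isIntegralElem_of_fin _ n (fun i => ⟨c i, hc i⟩) ?_
  have h1 : (f ^ n + ∑ i : Fin n, (⟨c i, hBV _ (hc i)⟩ : V) * f ^ (i : ℕ) : V) =
      (⟨(f : F) ^ n + ∑ i : Fin n, c i * (f : F) ^ (i : ℕ),
        V.add_mem _ _ (V.pow_mem f.2 n)
          (V.toSubring.sum_mem fun i _ => V.mul_mem _ _ (hBV _ (hc i)) (V.pow_mem f.2 _))⟩ : V) := by
    apply Subtype.ext
    push_cast
    rfl
  have h2 : IsLocalRing.residue V (f ^ n + ∑ i : Fin n, (⟨c i, hBV _ (hc i)⟩ : V) * f ^ (i : ℕ))
      = 0 := by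
    rw [h1, residue_eq_zero_iff_val]
    exact h
  rw [map_add, map_pow, map_sum] at h2
  simp only [map_mul, map_pow] at h2
  exact h2

/-- Integrality of a residue class over `B` gives a monic relation modulo `𝔪_V`. -/
theorem exists_rel_of_isIntegralElem_residue (V : ValuationSubring F) (B : Subalgebra R F)
    (hBV : ∀ b ∈ B, b ∈ V) (f : V)
    (h : (resMap V B hBV).IsIntegralElem (IsLocalRing.residue V f)) :
    ∃ (n : ℕ) (c : Fin n → F), (∀ i, c i ∈ B) ∧
      V.valuation ((f : F) ^ n + ∑ i : Fin n, c i * (f : F) ^ (i : ℕ)) < 1 := by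
  obtain ⟨n, c, hrel⟩ := exists_fin_of_isIntegralElem _ h
  refine ⟨n, fun i => (c i : F), fun i => (c i).2, ?_⟩
  have h1 : (f ^ n + ∑ i : Fin n, (⟨(c i : F), hBV _ (c i).2⟩ : V) * f ^ (i : ℕ) : V) =
      (⟨(f : F) ^ n + ∑ i : Fin n, (c i : F) * (f : F) ^ (i : ℕ),
        V.add_mem _ _ (V.pow_mem f.2 n)
          (V.toSubring.sum_mem fun i _ =>
            V.mul_mem _ _ (hBV _ (c i).2) (V.pow_mem f.2 _))⟩ : V) := by
    apply Subtype.ext
    push_cast
    rfl
  have h2 : IsLocalRing.residue V (f ^ n + ∑ i : Fin n, (⟨(c i : F), hBV _ (c i).2⟩ : V) * f ^ (i : ℕ))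
      = 0 := by
    rw [map_add, map_pow, map_sum]
    simp only [map_mul, map_pow]
    exact hrel
  rw [h1, residue_eq_zero_iff_val] at h2
  exact h2

/-- **Core A.**  If the image of `B` in `κ(V)` is integrally closed in `κ(V)`, then
`B ⧸ (B ∩ 𝔪_V)` is an integrally closed domain. -/
theorem isIntegrallyClosed_quotient_of_normal
    (V : ValuationSubring F) (B : Subalgebra R F) (hBV : ∀ b ∈ B, b ∈ V)
    (p : Ideal B) (hp : ∀ b : B, b ∈ p ↔ V.valuation (b : F) < 1)
    (hnorm : NormalIn V (B : Set F)) :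
    IsIntegrallyClosed (B ⧸ p) := by
  classical
  set ρ := resMap V B hBV with hρ
  have hker : ∀ b : B, b ∈ p → ρ b = 0 := fun b hb =>
    (resMap_eq_zero_iff V B hBV b).2 ((hp b).1 hb)
  let ρq : B ⧸ p →+* IsLocalRing.ResidueField V := Ideal.Quotient.lift p ρ hker
  have hρq : ∀ b : B, ρq (Ideal.Quotient.mk p b) = ρ b := fun b => Ideal.Quotient.lift_mk p ρ hker
  have hinj : Function.Injective ρq := by
    rw [injective_iff_map_eq_zero]
    intro a ha
    obtain ⟨b, rfl⟩ := Ideal.Quotient.mk_surjective a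
    rw [hρq] at ha
    exact Ideal.Quotient.eq_zero_iff_mem.2 ((hp b).2 ((resMap_eq_zero_iff V B hBV b).1 ha))
  have : IsDomain (B ⧸ p) := hinj.isDomain ρq
  rw [isIntegrallyClosed_iff (FractionRing (B ⧸ p))]
  intro x hx
  let ρK : FractionRing (B ⧸ p) →+* IsLocalRing.ResidueField V := IsFractionRing.lift hinj
  have hρK : ∀ a : B ⧸ p, ρK (algebraMap _ _ a) = ρq a := fun a =>
    IsFractionRing.lift_algebraMap hinj a
  -- `ρK x` is integral over `B ⧸ p`, hence over `B`
  have h1 : ρq.IsIntegralElem (ρK x) := by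
    obtain ⟨P, hP, hPx⟩ := hx
    refine ⟨P, hP, ?_⟩
    have h := congrArg ρK hPx
    rw [hom_eval₂, map_zero] at h
    have hcomp : ρK.comp (algebraMap (B ⧸ p) (FractionRing (B ⧸ p))) = ρq := by
      ext a
      exact hρK a
    rwa [hcomp] at h
  have h2 : ρ.IsIntegralElem (ρK x) := by
    obtain ⟨n, c, hrel⟩ := exists_fin_of_isIntegralElem _ h1
    choose c' hc' using fun i => Ideal.Quotient.mk_surjective (c i)
    refine isIntegralElem_of_fin _ n c' ?_
    rw [← hrel]
    congr 1
    refine Finset.sum_congr rfl fun i _ => ?_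
    rw [← hρq, hc']
  obtain ⟨f, hf⟩ := IsLocalRing.residue_surjective (R := V) (ρK x)
  rw [← hf] at h2
  obtain ⟨n, c, hc, hrel⟩ := exists_rel_of_isIntegralElem_residue V B hBV f h2
  obtain ⟨b, hb, hfb⟩ := hnorm f f.2 ⟨n, c, hc, hrel⟩
  refine ⟨Ideal.Quotient.mk p ⟨b, hb⟩, ?_⟩
  apply ρK.injective
  rw [hρK, hρq, ← hf, resMap_apply]
  symm
  rw [residue_eq_iff_val]
  exact hfb

end Val

section Transfer

variable {R F₀ F : Type*} [CommRing R] [Field F₀] [Field F] [Algebra R F₀] [Algebra R F]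

/-- A ring homomorphism mapping `V₀` into `V` reflects the maximal ideals. -/
theorem val_lt_one_of_map (γ : F₀ →+* F) (V₀ : ValuationSubring F₀) (V : ValuationSubring F)
    (hγV : ∀ g ∈ V₀, γ g ∈ V) {g : F₀} (hg : g ∈ V₀) (h : V.valuation (γ g) < 1) :
    V₀.valuation g < 1 := by
  by_contra hcon
  rw [not_lt] at hcon
  have hone : V₀.valuation g = 1 := le_antisymm ((V₀.valuation_le_one_iff _).2 hg) hcon
  have hinv : g⁻¹ ∈ V₀ := by
    rw [← V₀.valuation_le_one_iff, map_inv₀, hone, inv_one]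
  have h1 : (γ g)⁻¹ ∈ V := by
    rw [← map_inv₀]
    exact hγV _ hinv
  have h2 : V.valuation (γ g)⁻¹ ≤ 1 := (V.valuation_le_one_iff _).2 h1
  have hne : V.valuation (γ g) ≠ 0 := by
    intro h0
    rw [map_inv₀, h0, inv_zero] at h2
    have hg0 : γ g = 0 := (Valuation.zero_iff _).1 h0
    have : g = 0 := by
      by_contra hg0'
      exact (map_ne_zero γ).2 hg0' hg0
    rw [this, map_zero] at hone
    exact zero_ne_one hone
  rw [map_inv₀, inv_le_one₀ (zero_lt_iff.2 hne)] at h2
  exact absurd h (not_lt.2 h2)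

/-- The restriction `B₀ → B` of a ring homomorphism `γ : F₀ → F` with `γ B₀ ⊆ B`. -/
def mapSub (γ : F₀ →+* F) (B₀ : Subalgebra R F₀) (B : Subalgebra R F)
    (hγB : ∀ b ∈ B₀, γ b ∈ B) : B₀ →+* B where
  toFun b := ⟨γ b.1, hγB b.1 b.2⟩
  map_one' := Subtype.ext (map_one γ)
  map_mul' a b := Subtype.ext (map_mul γ a.1 b.1)
  map_zero' := Subtype.ext (map_zero γ)
  map_add' a b := Subtype.ext (map_add γ a.1 b.1)

@[simp]
theorem coe_mapSub (γ : F₀ →+* F) (B₀ : Subalgebra R F₀) (B : Subalgebra R F)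
    (hγB : ∀ b ∈ B₀, γ b ∈ B) (b : B₀) : ((mapSub γ B₀ B hγB b : B) : F) = γ b := rfl

/-- **Core B.**  Transfer of normality of the special fibre along `γ : F₀ → F`:
* `γ V₀ ⊆ V` and `γ 𝔪_{V₀} ⊆ 𝔪_V`;
* `γ B₀ ⊆ B`;
* residue degree one: `V = γ V₀ + 𝔪_V`;
* `B` is integral over `γ B₀` modulo `𝔪_V` (in the residue field of `V`). -/
theorem normalIn_transfer (γ : F₀ →+* F)
    (V₀ : ValuationSubring F₀) (V : ValuationSubring F)
    (hγV : ∀ g ∈ V₀, γ g ∈ V)
    (hγp : ∀ g : F₀, V₀.valuation g < 1 → V.valuation (γ g) < 1)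
    (B₀ : Subalgebra R F₀) (B : Subalgebra R F)
    (hB₀ : ∀ b ∈ B₀, b ∈ V₀) (hB : ∀ b ∈ B, b ∈ V)
    (hγB : ∀ b ∈ B₀, γ b ∈ B)
    (hres : ∀ f ∈ V, ∃ g ∈ V₀, V.valuation (f - γ g) < 1)
    (hint : ∀ b : B, ((resMap V B hB).comp (mapSub γ B₀ B hγB)).IsIntegralElem
      (resMap V B hB b))
    (hnorm₀ : NormalIn V₀ (B₀ : Set F₀)) :
    NormalIn V (B : Set F) := by
  classical
  intro f hf ⟨n, c, hc, hrel⟩
  -- the two residue maps into `κ(V)`
  set ρ := resMap V B hB with hρ
  set ρ₀ : B₀ →+* IsLocalRing.ResidueField V := ρ.comp (mapSub γ B₀ B hγB) with hρ₀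
  -- `f̄` is integral over `γ B̄₀`
  have h2 : ρ₀.IsIntegralElem (IsLocalRing.residue V ⟨f, hf⟩) :=
    isIntegralElem_trans ρ₀ ρ hint (isIntegralElem_residue_of_rel V B hB ⟨f, hf⟩ n c hc hrel)
  -- residue degree one
  obtain ⟨g, hg, hfg⟩ := hres f hf
  have hfg' : IsLocalRing.residue V ⟨f, hf⟩ = IsLocalRing.residue V ⟨γ g, hγV g hg⟩ := by
    rw [residue_eq_iff_val]
    exact hfg
  rw [hfg'] at h2
  obtain ⟨m, d, hrel₀⟩ := exists_fin_of_isIntegralElem _ h2
  -- descend the relation to level `F₀`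
  have hmem₀ : g ^ m + ∑ i : Fin m, (d i : F₀) * g ^ (i : ℕ) ∈ V₀ :=
    V₀.add_mem _ _ (V₀.pow_mem hg m)
      (V₀.toSubring.sum_mem fun i _ => V₀.mul_mem _ _ (hB₀ _ (d i).2) (V₀.pow_mem hg _))
  have hval : V.valuation (γ (g ^ m + ∑ i : Fin m, (d i : F₀) * g ^ (i : ℕ))) < 1 := by
    have hv : (⟨γ g, hγV g hg⟩ ^ m + ∑ i : Fin m,
        (⟨γ (d i), hB _ (hγB _ (d i).2)⟩ : V) * ⟨γ g, hγV g hg⟩ ^ (i : ℕ) : V) =
        (⟨γ (g ^ m + ∑ i : Fin m, (d i : F₀) * g ^ (i : ℕ)), hγV _ hmem₀⟩ : V) := by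
      apply Subtype.ext
      push_cast
      simp only [map_add, map_pow, map_sum, map_mul]
    have h3 : IsLocalRing.residue V (⟨γ g, hγV g hg⟩ ^ m + ∑ i : Fin m,
        (⟨γ (d i), hB _ (hγB _ (d i).2)⟩ : V) * ⟨γ g, hγV g hg⟩ ^ (i : ℕ)) = 0 := by
      rw [map_add, map_pow, map_sum]
      simp only [map_mul, map_pow]
      exact hrel₀
    rw [hv, residue_eq_zero_iff_val] at h3
    exact h3
  obtain ⟨b₀, hb₀, hgb⟩ := hnorm₀ g hg ⟨m, fun i => (d i : F₀), fun i => (d i).2,
    val_lt_one_of_map γ V₀ V hγV hmem₀ hval⟩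
  refine ⟨γ b₀, hγB b₀ hb₀, ?_⟩
  have hpres : V.valuation (γ (g - b₀)) < 1 := hγp _ hgb
  have : f - γ b₀ = (f - γ g) + γ (g - b₀) := by
    rw [map_sub]
    ring
  rw [this]
  exact lt_of_le_of_lt (Valuation.map_add _ _ _) (max_lt hfg hpres)

/-- The hypothesis `hint` of `normalIn_transfer` from a coordinate congruence:
`B` integral over `R[y]`, `y ≡ γ c₀ mod 𝔪_V` with `c₀ ∈ B₀`. -/
theorem isIntegralElem_of_coord (γ : F₀ →+* F)
    (hγR : ∀ r : R, γ (algebraMap R F₀ r) = algebraMap R F r)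
    (V : ValuationSubring F) (B₀ : Subalgebra R F₀) (B : Subalgebra R F)
    (hB : ∀ b ∈ B, b ∈ V) (hγB : ∀ b ∈ B₀, γ b ∈ B)
    (y : F) (hyB : y ∈ B) (c₀ : F₀) (hc₀ : c₀ ∈ B₀) (hy : V.valuation (y - γ c₀) < 1)
    (hBint : ∀ b ∈ B, IsIntegral (Algebra.adjoin R ({y} : Set F)) b) (b : B) :
    ((resMap V B hB).comp (mapSub γ B₀ B hγB)).IsIntegralElem (resMap V B hB b) := by
  classical
  set ρ := resMap V B hB with hρ
  set ρ₀ : B₀ →+* IsLocalRing.ResidueField V := ρ.comp (mapSub γ B₀ B hγB) with hρ₀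
  have hle : Algebra.adjoin R ({y} : Set F) ≤ B :=
    Algebra.adjoin_le (Set.singleton_subset_iff.2 hyB)
  let ι : Algebra.adjoin R ({y} : Set F) →+* B := (Subalgebra.inclusion hle).toRingHom
  have hι : ∀ a, ((ι a : B) : F) = (a : F) := fun _ => rfl
  -- `b̄` is integral over the image of `R[y]`
  have h1 : (ρ.comp ι).IsIntegralElem (ρ b) := by
    obtain ⟨Q, hQ, hQb⟩ := hBint b.1 b.2
    refine ⟨Q, hQ, ?_⟩
    have h0 : Q.eval₂ ι b = 0 := by
      apply Subtype.ext
      have := Polynomial.hom_eval₂ Q ι B.val.toRingHom b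
      rw [ZeroMemClass.coe_zero]
      calc ((Q.eval₂ ι b : B) : F) = B.val.toRingHom (Q.eval₂ ι b) := rfl
        _ = Q.eval₂ (B.val.toRingHom.comp ι) (B.val.toRingHom b) := this
        _ = 0 := hQb
    have := congrArg ρ h0
    rwa [Polynomial.hom_eval₂, map_zero] at this
  -- the image of `R[y]` lies in the image of `B₀`
  refine isIntegralElem_trans ρ₀ (ρ.comp ι) (fun a => ?_) h1
  have hmem : (a : F) ∈ (Polynomial.aeval (R := R) y).range := by
    rw [← Algebra.adjoin_singleton_eq_range_aeval]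
    exact a.2
  obtain ⟨Q, hQ⟩ := hmem
  have key : ρ.comp (Polynomial.aeval (R := R) (⟨y, hyB⟩ : B)).toRingHom =
      ρ₀.comp (Polynomial.aeval (R := R) (⟨c₀, hc₀⟩ : B₀)).toRingHom := by
    apply Polynomial.ringHom_ext
    · intro r
      simp only [RingHom.comp_apply, AlgHom.toRingHom_eq_coe, RingHom.coe_coe,
        Polynomial.aeval_C, hρ₀]
      rw [resMap_apply, resMap_apply]
      congr 1
      apply Subtype.ext
      show algebraMap R F r = γ (algebraMap R F₀ r)
      exact (hγR r).symm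
    · simp only [RingHom.comp_apply, AlgHom.toRingHom_eq_coe, RingHom.coe_coe,
        Polynomial.aeval_X, hρ₀]
      rw [resMap_apply, resMap_apply, residue_eq_iff_val]
      exact hy
  have h2 : (ρ.comp ι) a = ρ₀ (Polynomial.aeval (R := R) (⟨c₀, hc₀⟩ : B₀) Q) := by
    have h3 : ι a = Polynomial.aeval (R := R) (⟨y, hyB⟩ : B) Q := by
      apply Subtype.ext
      rw [hι, ← hQ]
      exact (Polynomial.aeval_algHom_apply B.val (⟨y, hyB⟩ : B) Q).symm ▸ rfl
    rw [RingHom.comp_apply, h3]
    exact congrArg (fun φ : Polynomial R →+* IsLocalRing.ResidueField V => φ Q) key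
  rw [h2]
  exact ρ₀.isIntegralElem_map

end Transfer

section Chart

variable {R F₀ F : Type*} [CommRing R] [Field F₀] [Field F] [Algebra R F₀] [Algebra R F]

/-- Integrality over `R[y]` in the form used by `Mod.chart`. -/
theorem isIntegral_adjoin_iff (y f : F) :
    IsIntegral (Algebra.adjoin R ({y} : Set F)) f ↔
      ∃ p : Polynomial (Polynomial R), p.Monic ∧
        p.eval₂ (Polynomial.eval₂RingHom (algebraMap R F) y) f = 0 := by
  classical
  let ψ : Polynomial R →ₐ[R] Algebra.adjoin R ({y} : Set F) :=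
    (Polynomial.aeval (R := R) y).codRestrict (Algebra.adjoin R ({y} : Set F)) (fun p => by
      rw [Algebra.adjoin_singleton_eq_range_aeval]
      exact ⟨p, rfl⟩)
  have hψ : (algebraMap (Algebra.adjoin R ({y} : Set F)) F).comp ψ.toRingHom =
      Polynomial.eval₂RingHom (algebraMap R F) y := by
    apply Polynomial.ringHom_ext
    · intro r
      simp [ψ]
    · simp [ψ]
  have hsurj : Function.Surjective ψ.toRingHom := by
    rintro ⟨a, ha⟩
    have ha' : a ∈ (Polynomial.aeval (R := R) y).range := by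
      rw [← Algebra.adjoin_singleton_eq_range_aeval]
      exact ha
    obtain ⟨Q, hQ⟩ := ha'
    exact ⟨Q, Subtype.ext hQ⟩
  constructor
  · rintro ⟨Q, hQ, hQf⟩
    have hlift : Q ∈ Polynomial.lifts ψ.toRingHom := by
      rw [Polynomial.lifts_iff_coeff_lifts]
      intro n
      exact hsurj _
    obtain ⟨p, hp, -, hpm⟩ := Polynomial.lifts_and_natDegree_eq_and_monic hlift hQ
    refine ⟨p, hpm, ?_⟩
    rw [← hψ, ← Polynomial.eval₂_map, hp]
    exact hQf
  · rintro ⟨p, hp, hpf⟩
    refine ⟨p.map ψ.toRingHom, hp.map _, ?_⟩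
    rw [Polynomial.eval₂_map, hψ]
    exact hpf

/-- A valuation subring containing `R` and `y` contains the integral closure of `R[y]`. -/
theorem mem_valuationSubring_of_isIntegral_adjoin (V : ValuationSubring F)
    (hR : ∀ r : R, algebraMap R F r ∈ V) {y : F} (hy : y ∈ V) {f : F}
    (hf : IsIntegral (Algebra.adjoin R ({y} : Set F)) f) : f ∈ V := by
  classical
  let VA : Subalgebra R F :=
    { V.toSubring.toSubsemiring with algebraMap_mem' := hR }
  have hle : Algebra.adjoin R ({y} : Set F) ≤ VA :=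
    Algebra.adjoin_le (Set.singleton_subset_iff.2 hy)
  obtain ⟨Q, hQ, hQf⟩ := hf
  let ι : Algebra.adjoin R ({y} : Set F) →+* V :=
    { toFun := fun a => ⟨a.1, hle a.2⟩
      map_one' := rfl
      map_mul' := fun _ _ => rfl
      map_zero' := rfl
      map_add' := fun _ _ => rfl }
  have hint : IsIntegral V f := by
    refine ⟨Q.map ι, hQ.map _, ?_⟩
    rw [Polynomial.eval₂_map]
    exact hQf
  obtain ⟨z, hz⟩ := (IsIntegrallyClosed.isIntegral_iff (R := V) (K := F)).mp hint
  rw [← hz]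
  exact z.2

/-- Functoriality of charts: if `γ y₀` is integral over `R[y]` then `γ` maps the integral
closure of `R[y₀]` into the integral closure of `R[y]`. -/
theorem isIntegral_adjoin_map (γ : F₀ →+* F)
    (hγR : ∀ r : R, γ (algebraMap R F₀ r) = algebraMap R F r) {y₀ : F₀} {y : F}
    (hy : IsIntegral (Algebra.adjoin R ({y} : Set F)) (γ y₀)) {b : F₀}
    (hb : IsIntegral (Algebra.adjoin R ({y₀} : Set F₀)) b) :
    IsIntegral (Algebra.adjoin R ({y} : Set F)) (γ b) := by
  classical
  rw [isIntegral_adjoin_iff] at hb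
  obtain ⟨p, hp, hpb⟩ := hb
  -- `γ b` is integral over `R[γ y₀]`
  have h1 : (Polynomial.eval₂RingHom (algebraMap R F) (γ y₀)).IsIntegralElem (γ b) := by
    refine ⟨p, hp, ?_⟩
    have h := congrArg γ hpb
    rw [Polynomial.hom_eval₂, map_zero] at h
    have hcomp : γ.comp (Polynomial.eval₂RingHom (algebraMap R F₀) y₀) =
        Polynomial.eval₂RingHom (algebraMap R F) (γ y₀) := by
      apply Polynomial.ringHom_ext
      · intro r
        simp [hγR]
      · simp
    rwa [hcomp] at h
  -- `R[γ y₀]` is integral over `R[y]`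
  refine isIntegralElem_trans (algebraMap (Algebra.adjoin R ({y} : Set F)) F)
    (Polynomial.eval₂RingHom (algebraMap R F) (γ y₀)) (fun a => ?_) h1
  show IsIntegral (Algebra.adjoin R ({y} : Set F)) (Polynomial.eval₂ (algebraMap R F) (γ y₀) a)
  rw [Polynomial.eval₂_eq_sum_range]
  refine IsIntegral.sum _ fun i _ => IsIntegral.mul ?_ (hy.pow i)
  have : algebraMap R F (a.coeff i) =
      algebraMap (Algebra.adjoin R ({y} : Set F)) F (algebraMap R _ (a.coeff i)) := rfl
  rw [this]
  exact isIntegral_algebraMap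

end Chart

end Fermat.Agent.A2.Mod.H142

end
end
-- ===== PACK-END A2/Mod/H142/S2Core.lean

-- ===== PACK-BEGIN A2/Mod/H189/ChartChange.lean
section






/-!
# Cell A2 / MOD, GOODRED part G3 (helper189): CHART CHANGE, abstract form (Mathlib only)

`R` a commutative ring, `F` a field, `V` a subring of `F` (in the application the Gauss valuation
ring), `w : F` (the uniformiser).  For an `R`-subalgebra `A ⊆ F` (`A = R[y]`) we consider the
*chart* `IC(A)` = elements of `F` integral over `A`, and the two elementwise properties that make up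
`Mod.GoodRedAt` (`A2/Mod/Spec.lean`):

* `QepOn V w A`    : `b ∈ IC(A)`, `b ∈ w V` ⟹ `b / w ∈ IC(A)`;
* `NormalOn V w A` : `f ∈ V` whose residue is integral over `IC(A) / w` is congruent modulo `w V`
  to an element of `IC(A)`   (the special fibre of the chart is integrally closed in `κ(V)`).

Results:

* `isIntegral_of_forall_isIntegral` : `IC` only depends on `A` up to integral equivalence;
* `QepOn.loc`, `NormalOn.loc`       : both properties pass from `A` to `A[1/s]` (`s ∈ A` a unit of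
  `V`);
* `QepOn.glue`, `NormalOn.glue`     : both properties glue along a covering `α s₁ + β s₂ = 1`.

These are the tools for changing the coordinate of a model with good reduction (e.g. from the
Hauptmodul `t₂` or `t₃` used by row S18 for the residue characteristics `3` and `2` to `j`).
-/

set_option autoImplicit false

namespace Fermat.Agent.A2.Mod.H189

open Polynomial

variable {R : Type*} [CommRing R] {F : Type*} [Field F] [Algebra R F]

/-- `f ∈ w V`. -/
def InWV (V : Subring F) (w f : F) : Prop := f * w⁻¹ ∈ V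

theorem InWV.mul_left {V : Subring F} {w f : F} (h : InWV V w f) {c : F} (hc : c ∈ V) :
    InWV V w (c * f) := by
  unfold InWV at h ⊢
  rw [mul_assoc]
  exact V.mul_mem hc h

theorem InWV.add {V : Subring F} {w f g : F} (hf : InWV V w f) (hg : InWV V w g) :
    InWV V w (f + g) := by
  unfold InWV at hf hg ⊢
  rw [add_mul]
  exact V.add_mem hf hg

theorem InWV.sub {V : Subring F} {w f g : F} (hf : InWV V w f) (hg : InWV V w g) :
    InWV V w (f - g) := by
  unfold InWV at hf hg ⊢
  rw [sub_mul]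
  exact V.sub_mem hf hg

/-- The `q`-expansion principle for the chart of `A`, elementwise. -/
def QepOn (V : Subring F) (w : F) (A : Subalgebra R F) : Prop :=
  ∀ b : F, IsIntegral A b → InWV V w b → IsIntegral A (b * w⁻¹)

/-- Normality of the special fibre of the chart of `A`, elementwise: an element of `V` which is
integral over the chart modulo `w V` is congruent to an element of the chart. -/
def NormalOn (V : Subring F) (w : F) (A : Subalgebra R F) : Prop :=
  ∀ f ∈ V, (∃ (n : ℕ) (c : Fin n → F), (∀ i, IsIntegral A (c i)) ∧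
      InWV V w (f ^ n + ∑ i : Fin n, c i * f ^ (i : ℕ))) →
    ∃ b : F, IsIntegral A b ∧ InWV V w (f - b)

/-! ### Integral equivalence -/

/-- Integrality over a subalgebra only depends on its integral closure. -/
theorem isIntegral_of_forall_isIntegral {A A' : Subalgebra R F}
    (h : ∀ a ∈ A, IsIntegral A' a) {f : F} (hf : IsIntegral A f) : IsIntegral A' f := by
  -- `f` is integral over the integral closure `C'` of `A'`
  let C' : Subalgebra A' F := integralClosure A' F
  let ι : A →+* C' :=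
    { toFun := fun a => ⟨(a : F), h a a.2⟩
      map_one' := rfl
      map_mul' := fun _ _ => rfl
      map_zero' := rfl
      map_add' := fun _ _ => rfl }
  have h1 : IsIntegral C' f := by
    have := IsIntegral.map_of_comp_eq (R := A) (S := F) (T := C') (U := F) ι (RingHom.id F)
      (by ext a; rfl) hf
    simpa using this
  exact isIntegral_trans (R := A') (A := C') f h1

theorem isIntegral_iff_of_forall_isIntegral {A A' : Subalgebra R F}
    (h : ∀ a ∈ A, IsIntegral A' a) (h' : ∀ a ∈ A', IsIntegral A a) {f : F} :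
    IsIntegral A f ↔ IsIntegral A' f :=
  ⟨isIntegral_of_forall_isIntegral h, isIntegral_of_forall_isIntegral h'⟩

theorem isIntegral_of_le {A A' : Subalgebra R F} (h : A ≤ A') {f : F} (hf : IsIntegral A f) :
    IsIntegral A' f :=
  isIntegral_of_forall_isIntegral (fun a ha => isIntegral_algebraMap (R := A') (x := ⟨a, h ha⟩)) hf

theorem QepOn.congr {V : Subring F} {w : F} {A A' : Subalgebra R F}
    (h : ∀ a ∈ A, IsIntegral A' a) (h' : ∀ a ∈ A', IsIntegral A a) (hq : QepOn V w A) :
    QepOn V w A' := fun b hb hbw =>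
  isIntegral_of_forall_isIntegral h (hq b (isIntegral_of_forall_isIntegral h' hb) hbw)

theorem NormalOn.congr {V : Subring F} {w : F} {A A' : Subalgebra R F}
    (h : ∀ a ∈ A, IsIntegral A' a) (h' : ∀ a ∈ A', IsIntegral A a) (hn : NormalOn V w A) :
    NormalOn V w A' := by
  rintro f hf ⟨n, c, hc, hcw⟩
  obtain ⟨b, hb, hbw⟩ := hn f hf
    ⟨n, c, fun i => isIntegral_of_forall_isIntegral h' (hc i), hcw⟩
  exact ⟨b, isIntegral_of_forall_isIntegral h hb, hbw⟩

/-! ### Localisation of a subalgebra at one element -/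

/-- `A[1/s]` as a subalgebra of the field `F`. -/
def locSub (A : Subalgebra R F) (s : F) : Subalgebra R F :=
  Algebra.adjoin R ((A : Set F) ∪ {s⁻¹})

theorem le_locSub (A : Subalgebra R F) (s : F) : A ≤ locSub A s := fun _ ha =>
  Algebra.subset_adjoin (Or.inl ha)

theorem inv_mem_locSub (A : Subalgebra R F) (s : F) : s⁻¹ ∈ locSub A s :=
  Algebra.subset_adjoin (Or.inr rfl)

theorem locSub_le {A B : Subalgebra R F} {s : F} (hAB : A ≤ B) (hs : s⁻¹ ∈ B) : locSub A s ≤ B :=
  Algebra.adjoin_le (by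
    rintro x (hx | hx)
    · exact hAB hx
    · rw [Set.mem_singleton_iff] at hx
      rw [hx]
      exact hs)

/-- Every element of `A[1/s]` is of the form `a / s ^ k`. -/
theorem exists_pow_mul_mem_of_mem_loc {A : Subalgebra R F} {s : F} (hs : s ∈ A) {b : F}
    (hb : b ∈ locSub A s) : ∃ k : ℕ, ∀ k', k ≤ k' → s ^ k' * b ∈ A := by
  unfold locSub at hb
  induction hb using Algebra.adjoin_induction with
  | mem x hx =>
    rcases hx with hx | hx
    · exact ⟨0, fun k' _ => A.mul_mem (A.pow_mem hs k') hx⟩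
    · rw [Set.mem_singleton_iff] at hx
      subst hx
      refine ⟨1, fun k' hk' => ?_⟩
      by_cases h0 : s = 0
      · subst h0
        simp
      · obtain ⟨k'', rfl⟩ := Nat.exists_eq_add_of_le hk'
        rw [pow_add, pow_one, mul_comm s, mul_assoc, mul_inv_cancel₀ h0, mul_one]
        exact A.pow_mem hs k''
  | algebraMap r => exact ⟨0, fun k' _ => A.mul_mem (A.pow_mem hs k') (A.algebraMap_mem r)⟩
  | add x y _ _ hx hy =>
    obtain ⟨k₁, h₁⟩ := hx
    obtain ⟨k₂, h₂⟩ := hy
    refine ⟨max k₁ k₂, fun k' hk' => ?_⟩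
    rw [mul_add]
    exact A.add_mem (h₁ k' (le_trans (le_max_left _ _) hk'))
      (h₂ k' (le_trans (le_max_right _ _) hk'))
  | mul x y _ _ hx hy =>
    obtain ⟨k₁, h₁⟩ := hx
    obtain ⟨k₂, h₂⟩ := hy
    refine ⟨k₁ + k₂, fun k' hk' => ?_⟩
    obtain ⟨k'', rfl⟩ := Nat.exists_eq_add_of_le hk'
    have : s ^ (k₁ + k₂ + k'') * (x * y) = s ^ k'' * ((s ^ k₁ * x) * (s ^ k₂ * y)) := by
      rw [pow_add, pow_add]; ring
    rw [this]
    exact A.mul_mem (A.pow_mem hs k'') (A.mul_mem (h₁ k₁ le_rfl) (h₂ k₂ le_rfl))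

/-- An element of `A` is integral over `A`. -/
theorem isIntegral_of_mem {A : Subalgebra R F} {a : F} (ha : a ∈ A) : IsIntegral A a :=
  isIntegral_algebraMap (R := A) (x := ⟨a, ha⟩)

/-- Integral closure commutes with localisation, elementwise: if `f` is integral over `A[1/s]`
then `s ^ k f` is integral over `A` for all large `k`. -/
theorem exists_pow_mul_isIntegral {A : Subalgebra R F} {s : F} (hs : s ∈ A) {f : F}
    (hf : IsIntegral (locSub A s) f) : ∃ k : ℕ, ∀ k', k ≤ k' → IsIntegral A (s ^ k' * f) := by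
  classical
  suffices h : ∃ k : ℕ, IsIntegral A (s ^ k * f) by
    obtain ⟨k, hk⟩ := h
    refine ⟨k, fun k' hk' => ?_⟩
    obtain ⟨k'', rfl⟩ := Nat.exists_eq_add_of_le hk'
    have : s ^ (k + k'') * f = s ^ k'' * (s ^ k * f) := by rw [pow_add]; ring
    rw [this]
    exact (isIntegral_of_mem (A.pow_mem hs k'')).mul hk
  obtain ⟨p, hp, hpf⟩ := hf
  -- a common exponent for all coefficients
  have hcoef : ∀ i : ℕ, ∃ k : ℕ, ∀ k', k ≤ k' → s ^ k' * ((p.coeff i : locSub A s) : F) ∈ A :=
    fun i => exists_pow_mul_mem_of_mem_loc hs (p.coeff i).2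
  choose kc hkc using hcoef
  set K : ℕ := (Finset.range (p.natDegree + 1)).sup kc with hK
  have hKle : ∀ i, i ≤ p.natDegree → kc i ≤ K := fun i hi =>
    Finset.le_sup (f := kc) (Finset.mem_range.2 (Nat.lt_succ_of_le hi))
  -- the element `s ^ K` of `A[1/s]`
  let sK : locSub A s := ⟨s ^ K, (locSub A s).pow_mem (le_locSub A s hs) K⟩
  let ι : A →+* locSub A s := (Subalgebra.inclusion (le_locSub A s)).toRingHom
  have hιval : ∀ a : A, ((ι a : locSub A s) : F) = (a : F) := fun a => rfl
  have hlifts : scaleRoots p sK ∈ lifts ι := by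
    rw [lifts_iff_coeff_lifts]
    intro i
    rw [coeff_scaleRoots]
    by_cases hi : i < p.natDegree
    · have h1 : s ^ (K * (p.natDegree - i)) * ((p.coeff i : locSub A s) : F) ∈ A := by
        apply hkc i
        calc kc i ≤ K := hKle i hi.le
          _ = K * 1 := (mul_one K).symm
          _ ≤ K * (p.natDegree - i) := Nat.mul_le_mul_left K (by omega)
      refine ⟨⟨_, h1⟩, Subtype.ext ?_⟩
      show s ^ (K * (p.natDegree - i)) * ((p.coeff i : locSub A s) : F)
        = ((p.coeff i : locSub A s) : F) * (s ^ K) ^ (p.natDegree - i)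
      rw [← pow_mul, mul_comm]
    · by_cases hi' : i = p.natDegree
      · subst hi'
        refine ⟨1, ?_⟩
        rw [map_one, Nat.sub_self, pow_zero, mul_one]
        exact hp.coeff_natDegree.symm
      · have : p.coeff i = 0 := coeff_eq_zero_of_natDegree_lt (by omega)
        refine ⟨0, ?_⟩
        rw [map_zero, this, zero_mul]
  have hmonic : (scaleRoots p sK).Monic := (monic_scaleRoots_iff sK).2 hp
  obtain ⟨q, hq, -, hqm⟩ := lifts_and_degree_eq_and_monic hlifts hmonic
  refine ⟨K, q, hqm, ?_⟩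
  have hcomp : (algebraMap (locSub A s) F).comp ι = algebraMap A F := by
    ext a
    rfl
  have h0 : eval₂ (algebraMap (locSub A s) F) (algebraMap (locSub A s) F sK * f) (scaleRoots p sK) = 0 :=
    scaleRoots_eval₂_eq_zero (algebraMap (locSub A s) F) hpf
  rw [← hq, eval₂_map, hcomp] at h0
  exact h0

/-- Conversely `a / s ^ k` is integral over `A[1/s]` as soon as `a` is integral over `A`. -/
theorem isIntegral_loc_of_pow_mul {A : Subalgebra R F} {s : F} (hs0 : s ≠ 0) {b : F} {k : ℕ}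
    (hb : IsIntegral A (s ^ k * b)) : IsIntegral (locSub A s) b := by
  have h1 : IsIntegral (locSub A s) (s ^ k * b) := isIntegral_of_le (le_locSub A s) hb
  have h2 : IsIntegral (locSub A s) (s⁻¹ ^ k) :=
    isIntegral_of_mem ((locSub A s).pow_mem (inv_mem_locSub A s) k)
  have : b = s⁻¹ ^ k * (s ^ k * b) := by
    rw [← mul_assoc, ← mul_pow, inv_mul_cancel₀ hs0, one_pow, one_mul]
  rw [this]
  exact h2.mul h1

/-- **QEP passes to localisations.** -/
theorem QepOn.loc {V : Subring F} {w : F} {A : Subalgebra R F} (hq : QepOn V w A) {s : F}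
    (hsA : s ∈ A) (hs0 : s ≠ 0) (hsV : s ∈ V) : QepOn V w (locSub A s) := by
  intro b hb hbw
  obtain ⟨k, hk⟩ := exists_pow_mul_isIntegral hsA hb
  have h1 := hq (s ^ k * b) (hk k le_rfl) (hbw.mul_left (V.pow_mem hsV k))
  apply isIntegral_loc_of_pow_mul hs0 (k := k)
  rwa [← mul_assoc]

/-- **Normality of the special fibre passes to localisations.** -/
theorem NormalOn.loc {V : Subring F} {w : F} {A : Subalgebra R F} (hn : NormalOn V w A) {s : F}
    (hsA : s ∈ A) (hs0 : s ≠ 0) (hsV : s ∈ V) (hsV' : s⁻¹ ∈ V) : NormalOn V w (locSub A s) := by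
  classical
  rintro f hf ⟨n, c, hc, hcw⟩
  have hex : ∀ i : Fin n, ∃ k : ℕ, ∀ k', k ≤ k' → IsIntegral A (s ^ k' * c i) :=
    fun i => exists_pow_mul_isIntegral hsA (hc i)
  choose kc hkc using hex
  set K : ℕ := Finset.univ.sup kc with hK
  have hKle : ∀ i, kc i ≤ K := fun i => Finset.le_sup (f := kc) (Finset.mem_univ i)
  -- the scaled element and the scaled equation
  have hg : s ^ K * f ∈ V := V.mul_mem (V.pow_mem hsV K) hf
  have key : (s ^ K * f) ^ n + ∑ i : Fin n, (s ^ (K * (n - (i : ℕ))) * c i) * (s ^ K * f) ^ (i : ℕ)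
      = s ^ (K * n) * (f ^ n + ∑ i : Fin n, c i * f ^ (i : ℕ)) := by
    rw [mul_add, Finset.mul_sum, mul_pow, ← pow_mul]
    congr 1
    refine Finset.sum_congr rfl fun i _ => ?_
    have hi : K * n = K * (n - (i : ℕ)) + K * (i : ℕ) := by
      rw [← Nat.mul_add, Nat.sub_add_cancel i.2.le]
    rw [mul_pow, ← pow_mul, hi, pow_add]
    ring
  obtain ⟨b, hb, hbw⟩ := hn (s ^ K * f) hg ⟨n, fun i => s ^ (K * (n - (i : ℕ))) * c i,
    fun i => hkc i _ (by
      calc kc i ≤ K := hKle i
        _ = K * 1 := (mul_one K).symm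
        _ ≤ K * (n - (i : ℕ)) := Nat.mul_le_mul_left K (by have := i.2; omega)),
    by rw [key]; exact hcw.mul_left (V.pow_mem hsV _)⟩
  refine ⟨s⁻¹ ^ K * b, ?_, ?_⟩
  · apply isIntegral_loc_of_pow_mul hs0 (k := K)
    rw [← mul_assoc, ← mul_pow, mul_inv_cancel₀ hs0, one_pow, one_mul]
    exact hb
  · have : f - s⁻¹ ^ K * b = s⁻¹ ^ K * (s ^ K * f - b) := by
      rw [mul_sub, ← mul_assoc, ← mul_pow, inv_mul_cancel₀ hs0, one_pow, one_mul]
    rw [this]
    exact hbw.mul_left (V.pow_mem hsV' K)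

/-! ### Gluing along a covering by two principal opens -/

/-- A partition of unity by high powers. -/
theorem exists_partition_pow {A : Subalgebra R F} {s₁ s₂ α β : F} (hs₁ : s₁ ∈ A) (hs₂ : s₂ ∈ A)
    (hα : α ∈ A) (hβ : β ∈ A) (h1 : α * s₁ + β * s₂ = 1) (k : ℕ) :
    ∃ a₁ ∈ A, ∃ a₂ ∈ A, a₁ * s₁ ^ k + a₂ * s₂ ^ k = 1 := by
  have hc : IsCoprime (⟨s₁, hs₁⟩ : A) ⟨s₂, hs₂⟩ :=
    ⟨⟨α, hα⟩, ⟨β, hβ⟩, Subtype.ext h1⟩
  obtain ⟨a, b, hab⟩ := hc.pow (m := k) (n := k)
  exact ⟨a, a.2, b, b.2, congrArg Subtype.val hab⟩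

/-- **QEP glues.** -/
theorem QepOn.glue {V : Subring F} {w : F} {A : Subalgebra R F} {s₁ s₂ α β : F}
    (hs₁ : s₁ ∈ A) (hs₂ : s₂ ∈ A) (hα : α ∈ A) (hβ : β ∈ A) (h1 : α * s₁ + β * s₂ = 1)
    (hq₁ : QepOn V w (locSub A s₁)) (hq₂ : QepOn V w (locSub A s₂)) : QepOn V w A := by
  intro b hb hbw
  obtain ⟨k₁, hk₁⟩ := exists_pow_mul_isIntegral hs₁
    (hq₁ b (isIntegral_of_le (le_locSub A s₁) hb) hbw)
  obtain ⟨k₂, hk₂⟩ := exists_pow_mul_isIntegral hs₂
    (hq₂ b (isIntegral_of_le (le_locSub A s₂) hb) hbw)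
  obtain ⟨a₁, ha₁, a₂, ha₂, ha⟩ := exists_partition_pow hs₁ hs₂ hα hβ h1 (max k₁ k₂)
  have e : b * w⁻¹ = a₁ * (s₁ ^ max k₁ k₂ * (b * w⁻¹)) + a₂ * (s₂ ^ max k₁ k₂ * (b * w⁻¹)) := by
    linear_combination (-(b * w⁻¹)) * ha
  rw [e]
  exact ((isIntegral_of_mem ha₁).mul (hk₁ _ (le_max_left _ _))).add
    ((isIntegral_of_mem ha₂).mul (hk₂ _ (le_max_right _ _)))

/-- **Normality of the special fibre glues.** -/
theorem NormalOn.glue {V : Subring F} {w : F} {A : Subalgebra R F} {s₁ s₂ α β : F}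
    (hAV : ∀ a ∈ A, a ∈ V)
    (hs₁ : s₁ ∈ A) (hs₂ : s₂ ∈ A) (hα : α ∈ A) (hβ : β ∈ A) (h1 : α * s₁ + β * s₂ = 1)
    (hn₁ : NormalOn V w (locSub A s₁)) (hn₂ : NormalOn V w (locSub A s₂)) : NormalOn V w A := by
  rintro f hf ⟨n, c, hc, hcw⟩
  obtain ⟨b₁, hb₁, hbw₁⟩ := hn₁ f hf ⟨n, c, fun i => isIntegral_of_le (le_locSub A s₁) (hc i), hcw⟩
  obtain ⟨b₂, hb₂, hbw₂⟩ := hn₂ f hf ⟨n, c, fun i => isIntegral_of_le (le_locSub A s₂) (hc i), hcw⟩
  obtain ⟨k₁, hk₁⟩ := exists_pow_mul_isIntegral hs₁ hb₁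
  obtain ⟨k₂, hk₂⟩ := exists_pow_mul_isIntegral hs₂ hb₂
  obtain ⟨a₁, ha₁, a₂, ha₂, ha⟩ := exists_partition_pow hs₁ hs₂ hα hβ h1 (max k₁ k₂)
  refine ⟨a₁ * (s₁ ^ max k₁ k₂ * b₁) + a₂ * (s₂ ^ max k₁ k₂ * b₂),
    ((isIntegral_of_mem ha₁).mul (hk₁ _ (le_max_left _ _))).add
      ((isIntegral_of_mem ha₂).mul (hk₂ _ (le_max_right _ _))), ?_⟩
  have : f - (a₁ * (s₁ ^ max k₁ k₂ * b₁) + a₂ * (s₂ ^ max k₁ k₂ * b₂))
      = (a₁ * s₁ ^ max k₁ k₂) * (f - b₁) + (a₂ * s₂ ^ max k₁ k₂) * (f - b₂) := by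
    linear_combination (-f) * ha
  rw [this]
  exact (hbw₁.mul_left (hAV _ (A.mul_mem ha₁ (A.pow_mem hs₁ _)))).add
    (hbw₂.mul_left (hAV _ (A.mul_mem ha₂ (A.pow_mem hs₂ _))))

end Fermat.Agent.A2.Mod.H189

end
-- ===== PACK-END A2/Mod/H189/ChartChange.lean

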