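import Mathlib
import Fermat.Prelude.Def_CuspForm_HeckeGaloisRepDatum
import Fermat.Prelude.Def_AlgebraicCurve_BaseChangeGalois
import Mathlib.RingTheory.IntegralClosure.IntegrallyClosed
import Mathlib.RingTheory.Ideal.Span
import Mathlib.Data.Nat.Choose.Sum
import Mathlib.Tactic.Ring
import Fermat.Agent.Pack.S34.G0E0L2
import Fermat.Agent.Pack.S34.G0E0L1
import Fermat.Agent.Pack.S34.G0E0L3

-- ===== PACK-BEGIN S30/H990/Extract.lean
section
/-
S30 top glue (helper990): pure algebra, part 3.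
From a Galois module on which every element satisfies a quadratic relation `g² - a g + d(g) = 0`
(`d` a character, `d c = -1` for an involution `c`) we extract a stable saturated lattice of rank
`1` or `2`.
-/



set_option autoImplicit false

namespace Fermat.Agent.S30.H990

open Module

section Rel

variable {𝒪 M G : Type*} [CommRing 𝒪] [AddCommGroup M] [Module 𝒪 M] [Group G]

/-- The quadratic relation `ρ(g)² - a ρ(g) + d(g) = 0`. -/
def Rel (ρ : G →* Module.End 𝒪 M) (d : G →* 𝒪ˣ) (g : G) (a : 𝒪) : Prop :=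
  ρ g * ρ g - a • ρ g + ((d g : 𝒪ˣ) : 𝒪) • (1 : Module.End 𝒪 M) = 0

variable (ρ : G →* Module.End 𝒪 M) (d : G →* 𝒪ˣ)

theorem rel_apply {g : G} {a : 𝒪} (h : Rel ρ d g a) (x : M) :
    ρ g (ρ g x) - a • ρ g x + ((d g : 𝒪ˣ) : 𝒪) • x = 0 := by
  have := congrArg (fun f : Module.End 𝒪 M => f x) h
  simpa [Rel] using this

/-- Key identity on eigenvectors of the involution `c`. -/
theorem eigen_key (a : G → 𝒪) (ha : ∀ g, Rel ρ d g (a g)) (c : G) (hc : c * c = 1)
    (hdc : d c = -1) (ε : 𝒪) (u : M) (hu : ρ c u = ε • u) (g : G) :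
    ρ c (ρ g u) + ε • ρ g u = (a (g * c) + ε * a g) • u := by
  have hy : ρ c * ρ c = 1 := by rw [← map_mul, hc, map_one]
  have hxy : (ρ g * ρ c) * (ρ g * ρ c) - a (g * c) • (ρ g * ρ c)
      + (-((d g : 𝒪ˣ) : 𝒪)) • (1 : Module.End 𝒪 M) = 0 := by
    have := ha (g * c)
    unfold Rel at this
    rw [map_mul ρ, map_mul d, hdc] at this
    simpa using this
  have key := anticomm_of_rel (ρ g) (ρ c) (a g) (a (g * c)) (d g) hy (ha g) hxy
  have := congrArg (fun f : Module.End 𝒪 M => f u) key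
  simp only [LinearMap.add_apply, Module.End.mul_apply, LinearMap.smul_apply,
    Module.End.one_apply, hu, map_smul] at this
  rw [add_smul, mul_comm ε (a g), mul_smul, ← this]
  abel

end Rel

section Stable

variable {𝒪 M G : Type*} [CommRing 𝒪] [IsDomain 𝒪] [AddCommGroup M] [Module 𝒪 M]
  [Module.IsTorsionFree 𝒪 M] [Nontrivial M] [Group G]

variable (ρ : G →* Module.End 𝒪 M) (d : G →* 𝒪ˣ)

/-- Existence of an eigenvector of the involution. -/
theorem exists_eigen (h2 : (2 : 𝒪) ≠ 0) (c : G) (hc : c * c = 1) :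
    ∃ (ε : 𝒪) (u : M), ε * ε = 1 ∧ u ≠ 0 ∧ ρ c u = ε • u := by
  have hy : ∀ x, ρ c (ρ c x) = x := fun x => by
    have : ρ c * ρ c = 1 := by rw [← map_mul, hc, map_one]
    exact congrArg (fun f : Module.End 𝒪 M => f x) this
  obtain ⟨m, hm⟩ := exists_ne (0 : M)
  by_cases h : ρ c m + m = 0
  · refine ⟨-1, m, by ring, hm, ?_⟩
    rw [neg_one_smul]; exact eq_neg_of_add_eq_zero_left h
  · refine ⟨1, ρ c m + m, by ring, h, ?_⟩
    rw [map_add, hy, one_smul, add_comm]

theorem exists_stable (h2 : (2 : 𝒪) ≠ 0) (hrel : ∀ g, ∃ a, Rel ρ d g a) (c : G) (hc : c * c = 1)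
    (hdc : d c = -1) :
    (∃ v : M, v ≠ 0 ∧ ∀ g, ∃ r : 𝒪, r ≠ 0 ∧ r • ρ g v ∈ Submodule.span 𝒪 {v}) ∨
    (∃ (u w : M) (ε : 𝒪), ε * ε = 1 ∧ u ≠ 0 ∧ w ≠ 0 ∧ ρ c u = ε • u ∧ ρ c w = -ε • w ∧
      (∀ g, ∃ r : 𝒪, r ≠ 0 ∧ r • ρ g u ∈ Submodule.span 𝒪 {u, w}) ∧
      (∀ g, ∃ r : 𝒪, r ≠ 0 ∧ r • ρ g w ∈ Submodule.span 𝒪 {u, w})) := by
  classical
  choose a ha using hrel
  have hy : ∀ x, ρ c (ρ c x) = x := fun x => by
    have : ρ c * ρ c = 1 := by rw [← map_mul, hc, map_one]
    exact congrArg (fun f : Module.End 𝒪 M => f x) this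
  obtain ⟨ε, u, hε, hu0, hu⟩ := exists_eigen ρ h2 c hc
  have hε0 : ε ≠ 0 := by rintro rfl; simp at hε
  have h2ε : (2 : 𝒪) * ε ≠ 0 := mul_ne_zero h2 hε0
  -- `P x = c x + ε x`, `Q x = c x - ε x`
  have hP : ∀ g, ρ c (ρ g u) + ε • ρ g u = (a (g * c) + ε * a g) • u :=
    fun g => eigen_key ρ d a ha c hc hdc ε u hu g
  have hsplit : ∀ x : M, (2 * ε) • x = (ρ c x + ε • x) - (ρ c x - ε • x) := by
    intro x; rw [mul_smul, two_smul]; abel
  by_cases h1 : ∀ g, ρ c (ρ g u) - ε • ρ g u = 0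
  · -- rank one, generated by `u`
    left
    refine ⟨u, hu0, fun g => ⟨2 * ε, h2ε, ?_⟩⟩
    rw [hsplit, h1 g, sub_zero, hP g]
    exact Submodule.smul_mem _ _ (Submodule.mem_span_singleton_self u)
  obtain ⟨g₀, hw0⟩ := not_forall.mp h1
  set w : M := ρ c (ρ g₀ u) - ε • ρ g₀ u with hw
  have hcw : ρ c w = -ε • w := by
    rw [hw, map_sub, hy, map_smul, smul_sub, smul_smul, neg_mul, hε]
    simp only [neg_smul, one_smul]
    abel
  -- the key identity for `w` (eigenvalue `-ε`)
  have hQw : ∀ g, ρ c (ρ g w) - ε • ρ g w = (a (g * c) + -ε * a g) • w := by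
    intro g
    have := eigen_key ρ d a ha c hc hdc (-ε) w hcw g
    rw [← this, neg_smul, sub_eq_add_neg]
  have hwexp : ∀ g, ρ g w = ρ (g * c * g₀) u - ε • ρ (g * g₀) u := by
    intro g
    rw [hw, map_sub, map_smul, map_mul, map_mul, Module.End.mul_apply, Module.End.mul_apply,
      map_mul, Module.End.mul_apply]
  have hPw : ∀ g, ρ c (ρ g w) + ε • ρ g w
      = ((a (g * c * g₀ * c) + ε * a (g * c * g₀)) - ε * (a (g * g₀ * c) + ε * a (g * g₀))) • u := by
    intro g
    rw [hwexp g, map_sub, map_smul, smul_sub, sub_smul, mul_smul, ← hP (g * c * g₀),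
      ← hP (g * g₀), smul_add, smul_smul]
    abel
  by_cases h2' : ∀ g, ρ c (ρ g w) + ε • ρ g w = 0
  · -- rank one, generated by `w`
    left
    refine ⟨w, hw0, fun g => ⟨2 * ε, h2ε, ?_⟩⟩
    rw [hsplit, h2' g, zero_sub, hQw g, ← neg_smul]
    exact Submodule.smul_mem _ _ (Submodule.mem_span_singleton_self w)
  obtain ⟨g₁, hy0⟩ := not_forall.mp h2'
  right
  set t : 𝒪 := (a (g₁ * c * g₀ * c) + ε * a (g₁ * c * g₀))
      - ε * (a (g₁ * g₀ * c) + ε * a (g₁ * g₀)) with ht
  have hyt : ρ c (ρ g₁ w) + ε • ρ g₁ w = t • u := hPw g₁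
  have ht0 : t ≠ 0 := by
    rintro h0
    rw [h0, zero_smul] at hyt
    exact hy0 hyt
  have huS : u ∈ Submodule.span 𝒪 ({u, w} : Set M) := Submodule.subset_span (by simp)
  have hwS : w ∈ Submodule.span 𝒪 ({u, w} : Set M) := Submodule.subset_span (by simp)
  refine ⟨u, w, ε, hε, hu0, hw0, hu, hcw, ?_, ?_⟩
  · intro g
    -- `t • Q (g u) = Q (g (t u)) = Q (g y)`, `y = c g₁ w + ε g₁ w`
    have hQy : t • (ρ c (ρ g u) - ε • ρ g u)
        = ((a (g * c * g₁ * c) + -ε * a (g * c * g₁))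
            + ε * (a (g * g₁ * c) + -ε * a (g * g₁))) • w := by
      have e1 : t • (ρ c (ρ g u) - ε • ρ g u) = ρ c (ρ g (t • u)) - ε • ρ g (t • u) := by
        simp only [map_smul, smul_sub, smul_comm t ε]
      have e2 : ρ g (t • u) = ρ (g * c * g₁) w + ε • ρ (g * g₁) w := by
        rw [← hyt, map_add, map_smul, map_mul, map_mul, Module.End.mul_apply,
          Module.End.mul_apply, map_mul, Module.End.mul_apply]
      rw [e1, e2, map_add, map_smul, smul_add, add_smul, mul_smul, ← hQw (g * c * g₁),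
        ← hQw (g * g₁), smul_sub, smul_smul]
      abel
    refine ⟨2 * ε * t, mul_ne_zero h2ε ht0, ?_⟩
    have : (2 * ε * t) • ρ g u
        = t • (a (g * c) + ε * a g) • u - (t • (ρ c (ρ g u) - ε • ρ g u)) := by
      rw [mul_comm (2 * ε) t, mul_smul, hsplit, hP g, smul_sub]
    rw [this, hQy]
    exact Submodule.sub_mem _ (Submodule.smul_mem _ _ (Submodule.smul_mem _ _ huS))
      (Submodule.smul_mem _ _ hwS)
  · intro g
    refine ⟨2 * ε, h2ε, ?_⟩
    rw [hsplit, hPw g, hQw g]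
    exact Submodule.sub_mem _ (Submodule.smul_mem _ _ huS) (Submodule.smul_mem _ _ hwS)

end Stable

end Fermat.Agent.S30.H990

end
-- ===== PACK-END S30/H990/Extract.lean

-- ===== PACK-BEGIN Lib/Cheb/H761/ZetaEuler.lean
section


/-!
# Euler product and prime-ideal sum for the Dedekind zeta function

For a number field `K` and real `s > 1`:
* `zetaI K s = ∑_I N(I)^(-s)` (sum over all ideals; the zero ideal contributes `0`), equal to
  Mathlib's `dedekindZeta K s`;
* `tendsto_prod_zetaI` : `∏_{𝔭 ∈ T} (1 - N𝔭^(-s)) → (zetaI K s)⁻¹`;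
* `primeSum K s = ∑_𝔭 N𝔭^(-s)` and `primeSum K s ≤ log (zetaI K s) ≤ primeSum K s + 2 primeSum K (2 s)`;
* `exists_primeSum_bound` : `|primeSum K s - log (1 / (s - 1))| ≤ C` for `1 < s ≤ 2`.
-/

set_option autoImplicit false

namespace Fermat.Agent.Lib.Cheb.H761

open IsDedekindDomain Filter Topology NumberField Ideal Asymptotics

set_option linter.unusedSectionVars false
set_option linter.unusedVariables false

noncomputable section

variable (K : Type*) [Field K] [NumberField K]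

/-- `N(I)^(-s)` -/
def normPow (s : ℝ) (I : Ideal (𝓞 K)) : ℝ := (absNorm I : ℝ) ^ (-s)

lemma normPow_nonneg (s : ℝ) (I : Ideal (𝓞 K)) : 0 ≤ normPow K s I :=
  Real.rpow_nonneg (Nat.cast_nonneg _) _

lemma normPow_mul (s : ℝ) (I J : Ideal (𝓞 K)) :
    normPow K s (I * J) = normPow K s I * normPow K s J := by
  simp only [normPow, map_mul, Nat.cast_mul]
  exact Real.mul_rpow (Nat.cast_nonneg _) (Nat.cast_nonneg _)

lemma normPow_top (s : ℝ) : normPow K s ⊤ = 1 := by
  simp [normPow]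

lemma normPow_bot {s : ℝ} (hs : s ≠ 0) : normPow K s ⊥ = 0 := by
  simp [normPow, Real.zero_rpow (neg_ne_zero.mpr hs)]

/-- number of ideals of norm `n` -/
def idealCount (n : ℕ) : ℕ := Nat.card {I : Ideal (𝓞 K) // absNorm I = n}

/-- The sum of `N(I)^(-s)` over all ideals of norm `n`. -/
lemma tsum_fiber (s : ℝ) (n : ℕ) :
    ∑' I : {I : Ideal (𝓞 K) // absNorm I = n}, normPow K s I.1 =
      (idealCount K n : ℝ) * (n : ℝ) ^ (-s) := by
  have hfin : Finite {I : Ideal (𝓞 K) // absNorm I = n} :=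
    (Ideal.finite_setOfPred_absNorm_eq n).to_subtype
  have : Fintype {I : Ideal (𝓞 K) // absNorm I = n} := Fintype.ofFinite _
  rw [tsum_fintype]
  have : ∀ I : {I : Ideal (𝓞 K) // absNorm I = n}, normPow K s I.1 = (n : ℝ) ^ (-s) := by
    intro I
    simp only [normPow, I.2]
  simp only [this, Finset.sum_const, Finset.card_univ, nsmul_eq_mul, idealCount,
    Nat.card_eq_fintype_card]

lemma tendsto_sum_idealCount_div :
    Tendsto (fun n : ℕ ↦ (∑ k ∈ Finset.Icc 1 n, (idealCount K k : ℝ)) / (n : ℝ)) atTop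
      (𝓝 (dedekindZeta_residue K)) := by
  refine ((Ideal.tendsto_norm_le_div_atTop₀ K).comp tendsto_natCast_atTop_atTop).congr fun n ↦ ?_
  simp only [Function.comp_apply, Nat.cast_le, idealCount, ← Nat.cast_sum]
  congr
  rw [← add_left_inj 1, ← card_norm_le_eq_card_norm_le_add_one,
    show Finset.Icc 1 n = Finset.Ioc 0 n from Finset.Icc_succ_left_eq_Ioc _ _,
    show 1 = Nat.card {I : Ideal (𝓞 K) // absNorm I = 0} by simp [Ideal.absNorm_eq_zero_iff],
    Finset.sum_Ioc_add_eq_sum_Icc (n.zero_le),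
    ← Finset.card_preimage_eq_sum_card_image_eq (fun k _ ↦ finite_setOfPred_absNorm_eq k)]
  simp [Set.coe_eq_subtype]

lemma lseriesSummable_idealCount {s : ℝ} (hs : 1 < s) :
    LSeriesSummable (fun n ↦ ((idealCount K n : ℝ) : ℂ)) (s : ℂ) := by
  refine LSeriesSummable_of_sum_norm_bigO_and_nonneg ?_ (fun n => Nat.cast_nonneg _) zero_le_one
    (by simpa using hs)
  exact isBigO_atTop_natCast_rpow_of_tendsto_div_rpow
    (by simpa using tendsto_sum_idealCount_div K)

lemma term_eq {s : ℝ} (hs : 1 < s) (n : ℕ) :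
    LSeries.term (fun n ↦ ((idealCount K n : ℝ) : ℂ)) (s : ℂ) n =
      (((idealCount K n : ℝ) * (n : ℝ) ^ (-s) : ℝ) : ℂ) := by
  rcases eq_or_ne n 0 with rfl | hn
  · have : (0 : ℝ) ^ (-s) = 0 := Real.zero_rpow (by linarith)
    simp [this]
  · rw [LSeries.term_of_ne_zero hn, Complex.ofReal_mul,
      Complex.ofReal_cpow (Nat.cast_nonneg n), Complex.ofReal_neg, Complex.cpow_neg]
    simp [div_eq_mul_inv]

/-- the `ℕ`-indexed real series is summable for `s > 1` -/
lemma summable_idealCount {s : ℝ} (hs : 1 < s) :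
    Summable (fun n : ℕ ↦ (idealCount K n : ℝ) * (n : ℝ) ^ (-s)) := by
  have h := lseriesSummable_idealCount K hs
  have h2 : Summable (fun n : ℕ ↦ (((idealCount K n : ℝ) * (n : ℝ) ^ (-s) : ℝ) : ℂ)) :=
    h.congr fun n ↦ term_eq K hs n
  exact Complex.summable_ofReal.mp h2

/-- `N(I)^(-s)` is summable over all ideals, `s > 1`. -/
theorem summable_normPow {s : ℝ} (hs : 1 < s) : Summable (normPow K s) := by
  have key : Summable (fun x : Σ n : ℕ, {I : Ideal (𝓞 K) // absNorm I = n} =>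
      normPow K s x.2.1) := by
    rw [summable_sigma_of_nonneg (fun x => normPow_nonneg K s _)]
    refine ⟨fun n => ?_, ?_⟩
    · have hfin : Finite {I : Ideal (𝓞 K) // absNorm I = n} :=
        (Ideal.finite_setOfPred_absNorm_eq n).to_subtype
      exact Summable.of_finite
    · refine (summable_idealCount K hs).congr fun n => ?_
      exact (tsum_fiber K s n).symm
  exact ((Equiv.sigmaFiberEquiv (fun I : Ideal (𝓞 K) => absNorm I)).summable_iff
    (f := normPow K s)).mp key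

/-- the Dedekind zeta function as a sum over ideals -/
def zetaI (s : ℝ) : ℝ := ∑' I : Ideal (𝓞 K), normPow K s I

lemma zetaI_eq_tsum_nat {s : ℝ} (hs : 1 < s) :
    zetaI K s = ∑' n : ℕ, (idealCount K n : ℝ) * (n : ℝ) ^ (-s) := by
  have hsum := summable_normPow K hs
  have hsum' : Summable (fun x : Σ n : ℕ, {I : Ideal (𝓞 K) // absNorm I = n} =>
      normPow K s x.2.1) :=
    ((Equiv.sigmaFiberEquiv (fun I : Ideal (𝓞 K) => absNorm I)).summable_iff
      (f := normPow K s)).mpr hsum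
  calc zetaI K s
      = ∑' x : Σ n : ℕ, {I : Ideal (𝓞 K) // absNorm I = n}, normPow K s x.2.1 :=
        ((Equiv.sigmaFiberEquiv (fun I : Ideal (𝓞 K) => absNorm I)).tsum_eq (normPow K s)).symm
    _ = ∑' n : ℕ, ∑' I : {I : Ideal (𝓞 K) // absNorm I = n}, normPow K s I.1 :=
        hsum'.tsum_sigma
    _ = _ := tsum_congr fun n => tsum_fiber K s n

theorem dedekindZeta_eq_zetaI {s : ℝ} (hs : 1 < s) :
    dedekindZeta K (s : ℂ) = ((zetaI K s : ℝ) : ℂ) := by
  rw [zetaI_eq_tsum_nat K hs, dedekindZeta, LSeries, Complex.ofReal_tsum]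
  refine tsum_congr fun n ↦ ?_
  rw [← term_eq K hs n]
  rcases eq_or_ne n 0 with rfl | hn
  · simp
  · rw [LSeries.term_of_ne_zero hn, LSeries.term_of_ne_zero hn]
    simp [idealCount]

theorem tendsto_sub_one_mul_zetaI :
    Tendsto (fun s : ℝ ↦ (s - 1) * zetaI K s) (𝓝[>] 1) (𝓝 (dedekindZeta_residue K)) := by
  have h := tendsto_sub_one_mul_dedekindZeta_nhdsGT K
  have h2 : Tendsto (fun s : ℝ ↦ (((s - 1) * zetaI K s : ℝ) : ℂ)) (𝓝[>] 1)
      (𝓝 (dedekindZeta_residue K : ℂ)) := by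
    refine h.congr' ?_
    filter_upwards [self_mem_nhdsWithin] with s hs
    rw [dedekindZeta_eq_zetaI K hs]
    push_cast
    ring
  have h3 := (Complex.continuous_re.tendsto _).comp h2
  simpa [Function.comp_def] using h3

/-- the sum over nonzero ideals is `zetaI` -/
lemma tsum_sieveSet_empty {s : ℝ} (hs : 1 < s) :
    ∑' I : sieveSet (∅ : Set (HeightOneSpectrum (𝓞 K))), normPow K s I = zetaI K s := by
  have hsum := summable_normPow K hs
  have h : sieveSet (∅ : Set (HeightOneSpectrum (𝓞 K))) = ({⊥} : Set (Ideal (𝓞 K)))ᶜ := by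
    ext I
    simp [mem_sieveSet_empty]
  rw [tsum_congr_set_coe _ h, zetaI,
    ← (hsum.subtype _).tsum_add_tsum_compl (s := ({⊥} : Set (Ideal (𝓞 K)))) (hsum.subtype _),
    tsum_singleton (⊥ : Ideal (𝓞 K)) (normPow K s), normPow_bot K (by linarith), zero_add]

theorem one_le_zetaI {s : ℝ} (hs : 1 < s) : 1 ≤ zetaI K s := by
  have hsum := summable_normPow K hs
  have := hsum.sum_le_tsum {⊤} (fun I _ => normPow_nonneg K s I)
  simpa [normPow_top, zetaI] using this

theorem zetaI_pos {s : ℝ} (hs : 1 < s) : 0 < zetaI K s :=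
  lt_of_lt_of_le one_pos (one_le_zetaI K hs)

/-- **Euler product** for the Dedekind zeta function. -/
theorem tendsto_prod_zetaI {s : ℝ} (hs : 1 < s) :
    Tendsto (fun T : Finset (HeightOneSpectrum (𝓞 K)) =>
      ∏ 𝔭 ∈ T, (1 - normPow K s 𝔭.asIdeal)) atTop (𝓝 (zetaI K s)⁻¹) := by
  have h := tendsto_prod_one_sub (summable_normPow K hs) (normPow_mul K s) (normPow_top K s)
  rwa [tsum_sieveSet_empty K hs] at h

/-- the prime ideal sum `∑_𝔭 N𝔭^(-s)` -/
def primeSum (s : ℝ) : ℝ := ∑' 𝔭 : HeightOneSpectrum (𝓞 K), normPow K s 𝔭.asIdeal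

lemma asIdeal_injective :
    Function.Injective (fun 𝔭 : HeightOneSpectrum (𝓞 K) => 𝔭.asIdeal) :=
  fun _ _ h => HeightOneSpectrum.ext h

theorem summable_primeSum {s : ℝ} (hs : 1 < s) :
    Summable (fun 𝔭 : HeightOneSpectrum (𝓞 K) => normPow K s 𝔭.asIdeal) :=
  (summable_normPow K hs).comp_injective (asIdeal_injective K)

lemma two_le_absNorm (𝔭 : HeightOneSpectrum (𝓞 K)) : 2 ≤ absNorm 𝔭.asIdeal := by
  have h0 : absNorm 𝔭.asIdeal ≠ 0 := by
    rw [Ne, Ideal.absNorm_eq_zero_iff]; exact 𝔭.ne_bot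
  have h1 : absNorm 𝔭.asIdeal ≠ 1 := by
    rw [Ne, Ideal.absNorm_eq_one_iff]; exact 𝔭.isPrime.ne_top
  omega

lemma normPow_le_half {s : ℝ} (hs : 1 ≤ s) (𝔭 : HeightOneSpectrum (𝓞 K)) :
    normPow K s 𝔭.asIdeal ≤ 1 / 2 := by
  have h2 : (2 : ℝ) ≤ absNorm 𝔭.asIdeal := by exact_mod_cast two_le_absNorm K 𝔭
  have h0 : (0 : ℝ) < absNorm 𝔭.asIdeal := by linarith
  rw [normPow, Real.rpow_neg h0.le, one_div]
  apply inv_anti₀ (by norm_num)
  calc (2 : ℝ) ≤ absNorm 𝔭.asIdeal := h2
    _ = (absNorm 𝔭.asIdeal : ℝ) ^ (1 : ℝ) := (Real.rpow_one _).symm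
    _ ≤ (absNorm 𝔭.asIdeal : ℝ) ^ s := Real.rpow_le_rpow_of_exponent_le (by linarith) hs

lemma normPow_sq (s : ℝ) (I : Ideal (𝓞 K)) : normPow K s I ^ 2 = normPow K (2 * s) I := by
  rw [normPow, normPow, ← Real.rpow_natCast, ← Real.rpow_mul (Nat.cast_nonneg _)]
  congr 1
  push_cast
  ring

/-- `-log (1 - x) ≥ x` and `≤ x + 2 x²` for `0 ≤ x ≤ 1/2`. -/
lemma neg_log_one_sub_bounds {x : ℝ} (h0 : 0 ≤ x) (h1 : x ≤ 1 / 2) :
    x ≤ -Real.log (1 - x) ∧ -Real.log (1 - x) ≤ x + 2 * x ^ 2 := by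
  have hpos : 0 < 1 - x := by linarith
  constructor
  · have := Real.log_le_sub_one_of_pos hpos
    linarith
  · have h := Real.log_le_sub_one_of_pos (inv_pos.mpr hpos)
    rw [Real.log_inv] at h
    have h2 : (1 - x)⁻¹ - 1 ≤ x + 2 * x ^ 2 := by
      rw [sub_le_iff_le_add, inv_le_iff_one_le_mul₀ hpos]
      nlinarith [mul_nonneg h0 h0, mul_nonneg (mul_nonneg h0 h0) h0]
    linarith

/-- The sum of `log (1 - N𝔭^(-s))` over the primes is `-log ζ_K(s)`. -/
theorem hasSum_log_one_sub {s : ℝ} (hs : 1 < s) :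
    HasSum (fun 𝔭 : HeightOneSpectrum (𝓞 K) => Real.log (1 - normPow K s 𝔭.asIdeal))
      (-Real.log (zetaI K s)) := by
  have h := tendsto_prod_zetaI K hs
  have hZ : (zetaI K s)⁻¹ ≠ 0 := inv_ne_zero (zetaI_pos K hs).ne'
  have h2 := (Real.continuousAt_log hZ).tendsto.comp h
  rw [Real.log_inv] at h2
  rw [HasSum]
  refine h2.congr fun T => ?_
  simp only [Function.comp_apply]
  rw [Real.log_prod]
  intro 𝔭 _
  have := normPow_le_half K hs.le 𝔭
  linarith

/-- `∑_𝔭 N𝔭^(-s) ≤ log ζ_K(s) ≤ ∑_𝔭 N𝔭^(-s) + 2 ∑_𝔭 N𝔭^(-2s)`. -/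
theorem primeSum_le_log_zetaI {s : ℝ} (hs : 1 < s) :
    primeSum K s ≤ Real.log (zetaI K s) ∧
      Real.log (zetaI K s) ≤ primeSum K s + 2 * primeSum K (2 * s) := by
  have hlog := (hasSum_log_one_sub K hs).neg
  rw [neg_neg] at hlog
  have hP := (summable_primeSum K hs).hasSum
  have hP2 := (summable_primeSum K (show 1 < 2 * s by linarith)).hasSum
  constructor
  · refine hasSum_le (fun 𝔭 => ?_) hP hlog
    exact (neg_log_one_sub_bounds (normPow_nonneg K s _) (normPow_le_half K hs.le 𝔭)).1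
  · refine hasSum_le (fun 𝔭 => ?_) hlog (hP.add (hP2.mul_left 2))
    have := (neg_log_one_sub_bounds (normPow_nonneg K s _) (normPow_le_half K hs.le 𝔭)).2
    rw [normPow_sq] at this
    exact this

lemma normPow_anti {s t : ℝ} (hst : s ≤ t) (I : Ideal (𝓞 K)) (h0 : 0 < s) :
    normPow K t I ≤ normPow K s I := by
  rcases eq_or_ne I ⊥ with rfl | hI
  · rw [normPow_bot K h0.ne', normPow_bot K (h0.trans_le hst).ne']
  · have h1 : (1 : ℝ) ≤ absNorm I := by
      have : absNorm I ≠ 0 := by rwa [Ne, Ideal.absNorm_eq_zero_iff]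
      exact_mod_cast Nat.one_le_iff_ne_zero.mpr this
    exact Real.rpow_le_rpow_of_exponent_le h1 (by linarith)

theorem zetaI_anti {s t : ℝ} (hs : 1 < s) (hst : s ≤ t) : zetaI K t ≤ zetaI K s :=
  (summable_normPow K (hs.trans_le hst)).tsum_le_tsum
    (fun I => normPow_anti K hst I (by linarith)) (summable_normPow K hs)

theorem primeSum_nonneg (s : ℝ) : 0 ≤ primeSum K s :=
  tsum_nonneg fun _ => normPow_nonneg K s _

theorem primeSum_anti {s t : ℝ} (hs : 1 < s) (hst : s ≤ t) : primeSum K t ≤ primeSum K s :=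
  (summable_primeSum K (hs.trans_le hst)).tsum_le_tsum
    (fun 𝔭 => normPow_anti K hst 𝔭.asIdeal (by linarith)) (summable_primeSum K hs)

/-- `(s - 1) ζ_K(s)` is bounded above and below by positive constants on `(1, 2]`. -/
theorem exists_bounds_sub_one_mul_zetaI :
    ∃ c₁ c₂ : ℝ, 0 < c₁ ∧ c₁ ≤ c₂ ∧ ∀ s : ℝ, 1 < s → s ≤ 2 →
      c₁ ≤ (s - 1) * zetaI K s ∧ (s - 1) * zetaI K s ≤ c₂ := by
  have hρ := dedekindZeta_residue_pos K
  set ρ := dedekindZeta_residue K with hρdef
  have h := tendsto_sub_one_mul_zetaI K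
  have hev : ∀ᶠ s : ℝ in 𝓝[>] 1, ρ / 2 < (s - 1) * zetaI K s ∧ (s - 1) * zetaI K s < 2 * ρ :=
    (h.eventually (lt_mem_nhds (show ρ / 2 < ρ by linarith))).and
      (h.eventually (gt_mem_nhds (show ρ < 2 * ρ by linarith)))
  rw [eventually_nhdsWithin_iff, Metric.eventually_nhds_iff] at hev
  obtain ⟨δ, hδ, hδ2⟩ := hev
  set δ' := min δ 1 with hδ'
  have hδ'pos : 0 < δ' := lt_min hδ one_pos
  have hδ'le : δ' ≤ δ := min_le_left _ _
  set s₀ : ℝ := 1 + δ' / 2 with hs₀
  have hs₀1 : 1 < s₀ := by rw [hs₀]; linarith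
  have hZ₀ := one_le_zetaI K hs₀1
  refine ⟨min (ρ / 2) (δ' / 2), max (2 * ρ) (zetaI K s₀), lt_min (by linarith) (by linarith),
    (min_le_left _ _).trans ((by linarith : ρ / 2 ≤ 2 * ρ).trans (le_max_left _ _)),
    fun s hs1 hs2 => ?_⟩
  rcases lt_or_ge s s₀ with hlt | hge
  · have hd : dist s 1 < δ := by
      rw [Real.dist_eq, abs_of_pos (by linarith)]
      rw [hs₀] at hlt
      linarith
    have := hδ2 hd hs1
    exact ⟨(min_le_left _ _).trans this.1.le, this.2.le.trans (le_max_left _ _)⟩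
  · have h1 := one_le_zetaI K hs1
    have h2 := zetaI_anti K hs₀1 hge
    have hs0 : 0 < s - 1 := by linarith
    constructor
    · calc min (ρ / 2) (δ' / 2) ≤ δ' / 2 := min_le_right _ _
        _ ≤ (s - 1) * 1 := by rw [hs₀] at hge; linarith
        _ ≤ (s - 1) * zetaI K s := by gcongr
    · calc (s - 1) * zetaI K s ≤ 1 * zetaI K s₀ := by
            apply mul_le_mul (by linarith) h2 (by linarith) (by norm_num)
        _ ≤ max (2 * ρ) (zetaI K s₀) := by rw [one_mul]; exact le_max_right _ _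

/-- **The prime ideal sum** `∑_𝔭 N𝔭^(-s)` is `log (1 / (s - 1)) + O(1)` on `(1, 2]`. -/
theorem exists_primeSum_bound :
    ∃ C : ℝ, ∀ s : ℝ, 1 < s → s ≤ 2 → |primeSum K s + Real.log (s - 1)| ≤ C := by
  obtain ⟨c₁, c₂, hc₁, hc₁₂, hb⟩ := exists_bounds_sub_one_mul_zetaI K
  have hc₂ : 0 < c₂ := hc₁.trans_le hc₁₂
  refine ⟨max |Real.log c₁| |Real.log c₂| + 2 * primeSum K 2, fun s hs1 hs2 => ?_⟩
  obtain ⟨hlo, hhi⟩ := hb s hs1 hs2
  obtain ⟨hP1, hP2⟩ := primeSum_le_log_zetaI K hs1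
  have hs0 : 0 < s - 1 := by linarith
  have hZ := zetaI_pos K hs1
  have hlog : Real.log ((s - 1) * zetaI K s) = Real.log (s - 1) + Real.log (zetaI K s) :=
    Real.log_mul hs0.ne' hZ.ne'
  have hl1 : Real.log c₁ ≤ Real.log ((s - 1) * zetaI K s) := Real.log_le_log hc₁ hlo
  have hl2 : Real.log ((s - 1) * zetaI K s) ≤ Real.log c₂ :=
    Real.log_le_log (hc₁.trans_le hlo) hhi
  have hB : primeSum K (2 * s) ≤ primeSum K 2 :=
    primeSum_anti K (by norm_num) (by linarith)
  have hB0 := primeSum_nonneg K 2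
  have hm1 : -max |Real.log c₁| |Real.log c₂| ≤ Real.log c₁ :=
    (neg_le_neg (le_max_left _ _)).trans (neg_abs_le _)
  have hm2 : Real.log c₂ ≤ max |Real.log c₁| |Real.log c₂| :=
    (le_abs_self _).trans (le_max_right _ _)
  rw [abs_le]
  constructor <;> linarith

end

end Fermat.Agent.Lib.Cheb.H761

end
-- ===== PACK-END Lib/Cheb/H761/ZetaEuler.lean

-- ===== PACK-BEGIN Lib/Cheb/H993/Induction.lean
section


/-!
# The subgroup induction (abstract core of piece `M`)

`v X p ≥ 0` bounded weights indexed by subgroups `X` of a finite group `G` and numbers `p`.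
If for every subgroup `H` the prime sum of `∑_{X ≤ H} v X` is `|H| · log (1/(s-1)) + O(1)`, then
for every subgroup `X` the prime sum of `v X` is `ψ(X) · log (1/(s-1)) + O(1)`, where `ψ(X)` is the
number of generators of `X`.  Hence if `X` is cyclic, `v X p > 0` for primes outside any finite set.
-/

set_option autoImplicit false

namespace Fermat.Agent.Lib.Cheb.H993

open scoped Classical

noncomputable section

variable {G : Type*} [Group G] [Finite G]

/-- Number of generators of the subgroup `X`. -/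
def gens (X : Subgroup G) : ℕ := Nat.card {x : G // Subgroup.zpowers x = X}

/-- The subgroups contained in `H`, as a finset. -/
def below (H : Subgroup G) : Finset (Subgroup G) :=
  haveI : Fintype (Subgroup G) := Fintype.ofFinite _
  Finset.univ.filter (· ≤ H)

theorem mem_below {H X : Subgroup G} : X ∈ below H ↔ X ≤ H := by
  unfold below
  simp

theorem card_eq_sum_gens (H : Subgroup G) : Nat.card H = ∑ X ∈ below H, gens X := by
  have : Fintype G := Fintype.ofFinite _
  have h1 : Nat.card H = (Finset.univ.filter (fun x : G => x ∈ H)).card := by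
    rw [Nat.card_eq_fintype_card, Fintype.card_subtype]
  have h2 : ∀ X : Subgroup G, gens X
      = ((Finset.univ.filter (fun x : G => x ∈ H)).filter
          (fun x => Subgroup.zpowers x = X)).card ∨ ¬ X ≤ H := by
    intro X
    by_cases hX : X ≤ H
    · left
      unfold gens
      rw [Nat.card_eq_fintype_card, Fintype.card_subtype]
      congr 1
      ext x
      simp only [Finset.mem_filter, Finset.mem_univ, true_and, iff_and_self]
      intro hx
      exact hX (hx ▸ Subgroup.mem_zpowers x)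
    · right; exact hX
  rw [h1, Finset.card_eq_sum_card_fiberwise (f := fun x : G => Subgroup.zpowers x)
    (t := below H)]
  · refine Finset.sum_congr rfl fun X hX => ?_
    rcases h2 X with h | h
    · exact h.symm
    · exact absurd (mem_below.mp hX) h
  · intro x hx
    simp only [Finset.coe_filter, Finset.mem_univ, true_and, Set.mem_ofPred_eq] at hx
    simp only [Finset.mem_coe]
    exact mem_below.mpr ((Subgroup.zpowers_le).mpr hx)

theorem self_mem_below (X : Subgroup G) : X ∈ below X := mem_below.mpr le_rfl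

theorem card_lt_of_mem_erase {X Y : Subgroup G} (hY : Y ∈ (below X).erase X) :
    Nat.card Y < Nat.card X := by
  rw [Finset.mem_erase, mem_below] at hY
  have hlt : Y < X := lt_of_le_of_ne hY.2 hY.1
  have hss : (Y : Set G) ⊂ (X : Set G) := by
    exact_mod_cast hlt
  have h := Set.ncard_lt_ncard hss (Set.toFinite _)
  rw [← Nat.card_coe_set_eq, ← Nat.card_coe_set_eq] at h
  exact h

/-- The induction: prime sums of `v X` are `gens X · log (1/(s-1)) + O(1)`. -/
theorem logAsymp_pSum (v : Subgroup G → ℕ → ℝ) (K : ℝ) (h0 : ∀ X p, 0 ≤ v X p)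
    (hK : ∀ X p, v X p ≤ K)
    (hW : ∀ H : Subgroup G,
      LogAsymp (pSum (fun p => ∑ X ∈ below H, v X p)) (Nat.card H)) :
    ∀ X : Subgroup G, LogAsymp (pSum (v X)) (gens X) := by
  suffices h : ∀ n : ℕ, ∀ X : Subgroup G, Nat.card X = n → LogAsymp (pSum (v X)) (gens X) from
    fun X => h _ X rfl
  intro n
  induction n using Nat.strong_induction_on with
  | _ n ih =>
    intro X hX
    have hsmall : ∀ Y ∈ (below X).erase X, LogAsymp (pSum (v Y)) (gens Y) := by
      intro Y hY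
      exact ih (Nat.card Y) (hX ▸ card_lt_of_mem_erase hY) Y rfl
    have hsum := LogAsymp.sum ((below X).erase X) hsmall
    have hdiff := (hW X).sub hsum
    have hcoef : ((Nat.card X : ℕ) : ℝ) - ∑ Y ∈ (below X).erase X, ((gens Y : ℕ) : ℝ)
        = (gens X : ℝ) := by
      have h1 := card_eq_sum_gens X
      rw [← Finset.add_sum_erase (below X) _ (self_mem_below X)] at h1
      rw [h1]
      push_cast
      ring
    rw [hcoef] at hdiff
    refine hdiff.congr fun s h1 _ => ?_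
    have hsplit : pSum (fun p => ∑ Y ∈ below X, v Y p) s = ∑ Y ∈ below X, pSum (v Y) s :=
      pSum_finset_sum (below X) h0 hK h1
    rw [hsplit, ← Finset.add_sum_erase (below X) _ (self_mem_below X)]
    ring

/-- Consequence: if `X` has a generator, `v X p > 0` for some `p` outside any finite set. -/
theorem exists_pos_of_gens_pos (v : Subgroup G → ℕ → ℝ) (K : ℝ) (h0 : ∀ X p, 0 ≤ v X p)
    (hK : ∀ X p, v X p ≤ K)
    (hW : ∀ H : Subgroup G,
      LogAsymp (pSum (fun p => ∑ X ∈ below H, v X p)) (Nat.card H))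
    (X : Subgroup G) (hX : 0 < gens X) (S : Finset ℕ) :
    ∃ p : ℕ, p.Prime ∧ p ∉ S ∧ 0 < v X p := by
  by_contra hcon
  have hcon : ∀ p : ℕ, p.Prime → p ∉ S → v X p ≤ 0 := by
    intro p hp hpS
    by_contra h
    exact hcon ⟨p, hp, hpS, not_le.mp h⟩
  have hsupp : ∀ p : Nat.Primes, (p : ℕ) ∉ S → v X p = 0 := fun p hp =>
    le_antisymm (hcon p p.2 hp) (h0 X p)
  have hasym := logAsymp_pSum v K h0 hK hW X
  have hK0 : 0 ≤ K := (h0 X 0).trans (hK X 0)
  obtain ⟨s, h1, -, hs⟩ := hasym.exists_gt (by exact_mod_cast hX) (K * S.card)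
  -- but the prime sum is supported on `S`
  let w : ℕ → ℝ := fun p => if p ∈ S then v X p else 0
  have hw : pSum (v X) s = pSum w s := by
    unfold pSum
    congr 1
    funext p
    by_cases hp : (p : ℕ) ∈ S
    · simp [w, hp]
    · simp [w, hp, hsupp p hp]
  have hle : |pSum w s| ≤ K * S.card := by
    apply abs_pSum_le_of_support S
    · intro p; by_cases hp : p ∈ S <;> simp [w, hp, h0 X p]
    · intro p; by_cases hp : p ∈ S <;> simp [w, hp, hK X p, hK0]
    · intro p hp; simp [w, hp]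
    · exact h1
  rw [hw] at hs
  exact absurd (le_abs_self _ |>.trans hle) (not_le.mpr hs)

end

end Fermat.Agent.Lib.Cheb.H993

end
-- ===== PACK-END Lib/Cheb/H993/Induction.lean

-- ===== PACK-BEGIN S31/Defs.lean
section




/-!
# Row S31 — frozen interface definitions (row-lead helper22)

S31: in a Hecke–Galois datum of level `N` away from `S`, the representation `H.ρ` is unramified at
every prime `q ∉ S`.

Route (plan: `coord/S31.md` on `origin/helper22`):
`S31 ⇐ S30 + Lib/Cheb (FrobeniusDivisionStatement) + PTS (p-adic points of the Hecke algebra are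
topologically separating; from S22 + SS) + ALG (trace criterion, trace of powers, continuity)`.

This file contains ONLY sorry-free definitions.  It is FROZEN once published.
-/

set_option autoImplicit false

open Polynomial

namespace Fermat.Agent.S31

/-- `ℚ̄`. -/
abbrev Qb : Type := AlgebraicClosure ℚ

/-- `Gal(ℚ̄/ℚ)`. -/
abbrev GQ : Type := Qb ≃ₐ[ℚ] Qb

/-- The exact type of the frozen statement S30 (existence of the Galois representation attached
to a `p`-adic point of the Hecke algebra).  Input of the row, provided by the S30 row. -/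
def S30Statement : Prop :=
  ∀ (p : ℕ) [Fact p.Prime] (N : ℕ) [NeZero N] (S : Finset ℕ)
    (_hpS : p ∈ S) (_hNS : ∀ q : ℕ, q.Prime → q ∣ N → q ∈ S)
    (𝒪' : Type) [CommRing 𝒪'] [IsDomain 𝒪'] [IsDiscreteValuationRing 𝒪']
    [IsAdicComplete (IsLocalRing.maximalIdeal 𝒪') 𝒪'] [Finite (IsLocalRing.ResidueField 𝒪')]
    [CharZero 𝒪'] (_hp𝒪' : (p : 𝒪') ∈ IsLocalRing.maximalIdeal 𝒪')
    (χ : CuspForm.heckeAlgebra N 2 (↑S : Set ℕ) →+* 𝒪'),
    ∃ (𝒪'' : Type) (_ : CommRing 𝒪'') (_ : IsDomain 𝒪'') (_ : IsDiscreteValuationRing 𝒪'')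
      (_ : IsAdicComplete (IsLocalRing.maximalIdeal 𝒪'') 𝒪'')
      (_ : Finite (IsLocalRing.ResidueField 𝒪'')) (_ : CharZero 𝒪'')
      (_ : Algebra 𝒪' 𝒪'') (_ : Module.Finite 𝒪' 𝒪'') (_ : IsLocalHom (algebraMap 𝒪' 𝒪'')),
    Function.Injective (algebraMap 𝒪' 𝒪'') ∧
    ∃ ρ : GaloisRepAdic 𝒪'',
      (∀ (ℓ : ℕ) (hℓ : ℓ.Prime) (hℓN : ¬ ℓ ∣ N) (hℓS : ℓ ∉ (↑S : Set ℕ)),
        ∀ A : ValuationSubring (AlgebraicClosure ℚ), A.LiesOverPrime ℓ →
          ∀ σ : AlgebraicClosure ℚ ≃ₐ[ℚ] AlgebraicClosure ℚ, A.IsFrobeniusAt σ ℓ →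
            LinearMap.charpoly (ρ.ρ σ) =
              X ^ 2 - C (algebraMap 𝒪' 𝒪'' (χ (CuspForm.heckeAlgebra.T hℓ hℓN hℓS))) * X
                + C ((ℓ : 𝒪''))) ∧
      (∀ q : ℕ, q.Prime → ¬ q ∣ N → q ≠ p → ρ.IsUnramifiedAt q)

/-- Frobenius density input (Tier 1 of the shared library CHEB, frozen on main). -/
abbrev ChebStatement : Prop := Fermat.Agent.Lib.Cheb.Spec.FrobeniusDivisionStatement

/-- A `p`-adic point of a commutative ring `R`: a ring hom to a complete DVR of characteristic zero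
with finite residue field and residue characteristic `p`. -/
structure PadicPoint (p : ℕ) (R : Type) [CommRing R] : Type 1 where
  /-- the coefficient ring -/
  O : Type
  [commRing : CommRing O]
  [isDomain : IsDomain O]
  [isDVR : IsDiscreteValuationRing O]
  [isComplete : IsAdicComplete (IsLocalRing.maximalIdeal O) O]
  [finiteResidue : Finite (IsLocalRing.ResidueField O)]
  [charZero : CharZero O]
  hp : (p : O) ∈ IsLocalRing.maximalIdeal O
  /-- the point -/
  χ : R →+* O

attribute [instance] PadicPoint.commRing PadicPoint.isDomain PadicPoint.isDVR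
  PadicPoint.isComplete PadicPoint.finiteResidue PadicPoint.charZero

/-- **PTS**: the `p`-adic points of `R` are topologically separating at every prime `m ∋ p`:
for every `n` there are finitely many `p`-adic points and `n'` such that an element of `R` lying in
the `n'`-th power of the maximal ideal at each of these points lies in `m ^ n`. -/
def PTS (p : ℕ) (R : Type) [CommRing R] : Prop :=
  ∀ (m : Ideal R), m.IsPrime → (p : R) ∈ m → ∀ n : ℕ,
    ∃ (F : List (PadicPoint p R)) (n' : ℕ), ∀ t : R,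
      (∀ P ∈ F, P.χ t ∈ IsLocalRing.maximalIdeal P.O ^ n') → t ∈ m ^ n

/-- The universal polynomial `tr (f ^ j)` in terms of `a = tr f`, `d = det f` for `2 × 2`
matrices: `P₀ = 2`, `P₁ = a`, `P_{j+2} = a P_{j+1} - d P_j`. -/
def powTr {R : Type*} [CommRing R] (a d : R) : ℕ → R
  | 0 => 2
  | 1 => a
  | (j + 2) => a * powTr a d (j + 1) - d * powTr a d j

/-- The conclusion of S31 for a given datum, as a `Prop` (to shorten statements). -/
def UnramifiedOutside {T : Type} [CommRing T] [IsLocalRing T] (ρ : GaloisRepAdic T)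
    (S : Finset ℕ) : Prop :=
  ∀ q : ℕ, q.Prime → q ∉ S → ρ.IsUnramifiedAt q

end Fermat.Agent.S31

end
-- ===== PACK-END S31/Defs.lean

-- ===== PACK-BEGIN S30/H529/TateTensor.lean
section



/-!
# S30 helper (helper529): the Tate module of `O ⊗ J`

`J` is an abelian group with an action of a group `G` and commuting endomorphisms `T i`.
We transfer torsion statements from `J` to `O ⊗[ℤ] J` (flatness of `O` over `ℤ`) and apply
the core results of `TateCore`.
-/

set_option autoImplicit false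
set_option linter.unusedSectionVars false

namespace Fermat.Agent.S30.H529

open IsLocalRing TensorProduct

noncomputable section

section Transfer

variable (O : Type*) [CommRing O] [Module.Flat ℤ O]
variable {J : Type*} [AddCommGroup J]

/-- Elements of `O ⊗ J` killed by `m` come from `O ⊗ J[m]`. -/
theorem exists_lTensor_eq_of_smul_eq_zero (m : ℤ) (x : O ⊗[ℤ] J) (hx : m • x = 0) :
    ∃ z : O ⊗[ℤ] LinearMap.ker (m • (LinearMap.id : J →ₗ[ℤ] J)),
      (LinearMap.ker (m • (LinearMap.id : J →ₗ[ℤ] J))).subtype.lTensor O z = x := by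
  have hex := LinearMap.exact_subtype_ker_map (m • (LinearMap.id : J →ₗ[ℤ] J))
  have hex2 := Module.Flat.lTensor_exact O hex
  have h1 : (m • (LinearMap.id : J →ₗ[ℤ] J)).lTensor O x = 0 := by
    rw [LinearMap.lTensor_smul, LinearMap.lTensor_id, LinearMap.smul_apply, LinearMap.id_apply,
      hx]
  obtain ⟨z, hz⟩ := (hex2 x).mp h1
  exact ⟨z, hz⟩

/-- An endomorphism of `J` killing the `m`-torsion of `J` has a base change killing the
`m`-torsion of `O ⊗ J`. -/
theorem baseChange_eq_zero_of_torsion (m : ℤ) (A : J →ₗ[ℤ] J)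
    (hA : ∀ y : J, m • y = 0 → A y = 0) (x : O ⊗[ℤ] J) (hx : m • x = 0) :
    A.baseChange O x = 0 := by
  obtain ⟨z, rfl⟩ := exists_lTensor_eq_of_smul_eq_zero O m x hx
  have h1 : A ∘ₗ (LinearMap.ker (m • (LinearMap.id : J →ₗ[ℤ] J))).subtype = 0 := by
    apply LinearMap.ext
    intro y
    have hy := y.2
    rw [LinearMap.mem_ker, LinearMap.smul_apply, LinearMap.id_apply] at hy
    simpa using hA y hy
  have h2 : A.baseChange O ((LinearMap.ker (m • (LinearMap.id : J →ₗ[ℤ] J))).subtype.lTensor O z)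
      = (A ∘ₗ (LinearMap.ker (m • (LinearMap.id : J →ₗ[ℤ] J))).subtype).lTensor O z := by
    rw [LinearMap.lTensor_comp]
    rfl
  rw [h2, h1, LinearMap.lTensor_zero, LinearMap.zero_apply]

/-- The `m`-torsion of `O ⊗ J` lies in a finitely generated submodule if `J[m]` is finite. -/
theorem exists_fg_of_finite_torsion (m : ℤ) (hfin : {y : J | m • y = 0}.Finite) :
    ∃ Y : Submodule O (O ⊗[ℤ] J), Y.FG ∧ ∀ x : O ⊗[ℤ] J, m • x = 0 → x ∈ Y := by
  set K := LinearMap.ker (m • (LinearMap.id : J →ₗ[ℤ] J)) with hK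
  have hKfin : Finite K := by
    have : (K : Set J) = {y : J | m • y = 0} := by
      ext y
      simp [hK]
    exact Set.finite_coe_iff.mpr (this ▸ hfin)
  have hmod : Module.Finite ℤ K := Module.Finite.of_finite
  refine ⟨LinearMap.range (K.subtype.baseChange O), ?_, ?_⟩
  · rw [LinearMap.range_eq_map]
    exact Submodule.FG.map _ (Module.Finite.fg_top)
  · intro x hx
    obtain ⟨z, hz⟩ := exists_lTensor_eq_of_smul_eq_zero O m x hx
    exact ⟨z, hz⟩

end Transfer

/-! ### The action on `O ⊗ J` -/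

section TensorAction

variable (O : Type*) [CommRing O]
variable {G : Type*} [Group G]
variable (J : Type*) [AddCommGroup J] [DistribMulAction G J]
variable {ι : Type*} (T : ι → J →+ J)

/-- The action of `γ` as a `ℤ`-linear map. -/
def actLin (γ : G) : J →ₗ[ℤ] J := (DistribSMul.toAddMonoidHom J γ).toIntLinearMap

@[simp] theorem actLin_apply (γ : G) (x : J) : actLin J γ x = γ • x := rfl

/-- The action of `G` on `O ⊗ J`. -/
def tensorRep : G →* Module.End O (O ⊗[ℤ] J) where
  toFun γ := (actLin J γ).baseChange O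
  map_one' := by
    have h : actLin J (1 : G) = LinearMap.id := by
      ext x
      simp
    rw [h, LinearMap.baseChange_id]
    rfl
  map_mul' γ δ := by
    have h : actLin J (γ * δ) = actLin J γ ∘ₗ actLin J δ := by
      ext x
      simp [mul_smul]
    rw [h, LinearMap.baseChange_comp]
    rfl

theorem tensorRep_apply (γ : G) (x : O ⊗[ℤ] J) :
    tensorRep O J γ x = (actLin J γ).baseChange O x := rfl

variable {J}

/-- The operators on `O ⊗ J`. -/
def tensorOp (i : ι) : O ⊗[ℤ] J →ₗ[O] O ⊗[ℤ] J := (T i).toIntLinearMap.baseChange O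

theorem tensorOp_apply (i : ι) (x : O ⊗[ℤ] J) :
    tensorOp O T i x = (T i).toIntLinearMap.baseChange O x := rfl

theorem tensorRep_tensorOp (hT : ∀ (i : ι) (γ : G) (x : J), T i (γ • x) = γ • T i x)
    (γ : G) (i : ι) (x : O ⊗[ℤ] J) :
    tensorRep O J γ (tensorOp O T i x) = tensorOp O T i (tensorRep O J γ x) := by
  have h : actLin J γ ∘ₗ (T i).toIntLinearMap = (T i).toIntLinearMap ∘ₗ actLin J γ := by
    ext y
    simp [hT]
  have h2 := congrArg (fun f : J →ₗ[ℤ] J => f.baseChange O x) h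
  simp only [LinearMap.baseChange_comp, LinearMap.comp_apply] at h2
  exact h2

end TensorAction

/-! ### Main theorem -/

section Main

variable (p : ℕ)
variable (O : Type) [CommRing O] [IsDomain O] [IsDiscreteValuationRing O]
  [IsAdicComplete (maximalIdeal O) O] [CharZero O]
variable {G : Type*} [Group G]
variable (J : Type) [AddCommGroup J] [DistribMulAction G J]
variable {ι : Type*} (T : ι → J →+ J) (a : ι → O)

theorem natCast_pow_smul (n : ℕ) (x : O ⊗[ℤ] J) :
    ((p : O)) ^ n • x = ((p ^ n : ℕ) : ℤ) • x := by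
  rw [← Int.cast_smul_eq_zsmul O]
  push_cast
  rfl

/-- **Abstract Tate module.**  Let `J` be an abelian group with an action of `G` and commuting
endomorphisms `T i`, with finite `p`-torsion, and let `v` be a nonzero compatible sequence of
eigenvectors in `(O ⊗ J)[p ^ (n + 1)]`.  Then there is a nonzero finite free `O`-module `M`
with an action `ρ` of `G` such that: elements of `G` fixing `J[p ^ n]` act trivially on
`M / 𝔪 ^ n M`; elements fixing `J[p ^ ∞]` act trivially; quadratic relations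
`γ² - T i γ + c = 0` on `J[p ^ ∞]` give `ρ γ² - a i ρ γ + c = 0`. -/
theorem exists_adic_eigenmodule (hpO : (p : O) ∈ maximalIdeal O) (hp0 : p ≠ 0)
    (hT : ∀ (i : ι) (γ : G) (x : J), T i (γ • x) = γ • T i x)
    (hfin : {x : J | p • x = 0}.Finite)
    (v : ℕ → O ⊗[ℤ] J) (hv0 : (p : O) • v 0 = 0) (hv : ∀ n, (p : O) • v (n + 1) = v n)
    (hne : v ≠ 0) (heig : ∀ i n, tensorOp O T i (v n) = a i • v n) :
    ∃ (M : Type) (_ : AddCommGroup M) (_ : Module O M) (_ : Module.Free O M)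
      (_ : Module.Finite O M) (ρ : G →* Module.End O M),
      Nontrivial M ∧
      (∀ (n : ℕ) (γ : G), (∀ x : J, p ^ n • x = 0 → γ • x = x) →
        ∀ m : M, ρ γ m - m ∈ (maximalIdeal O ^ n • ⊤ : Submodule O M)) ∧
      (∀ γ : G, (∀ x : J, (∃ n : ℕ, p ^ n • x = 0) → γ • x = x) → ρ γ = 1) ∧
      (∀ (γ : G) (i : ι) (c : ℤ),
        (∀ x : J, (∃ n : ℕ, p ^ n • x = 0) → γ • γ • x - T i (γ • x) + c • x = 0) →
        ρ γ * ρ γ - a i • ρ γ + (c : O) • (1 : Module.End O M) = 0) := by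
  have hϖ0 : (p : O) ≠ 0 := by exact_mod_cast hp0
  have hX : ∃ Y : Submodule O (O ⊗[ℤ] J), Y.FG ∧ ∀ x : O ⊗[ℤ] J, (p : O) • x = 0 → x ∈ Y := by
    obtain ⟨Y, hY, hYX⟩ := exists_fg_of_finite_torsion O (J := J) (p : ℤ) (by
      have : {y : J | (p : ℤ) • y = 0} = {x : J | p • x = 0} := by
        ext y
        simp
      rw [this]
      exact hfin)
    refine ⟨Y, hY, fun x hx => hYX x ?_⟩
    have := natCast_pow_smul p O J 1 x
    simp only [pow_one] at this
    rw [← this]
    exact hx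
  have hρ := tensorRep_tensorOp O T hT
  have hfree := tateEigen_free (t := tensorOp O T) (a := a) hpO hϖ0 hX
  have hfinite := tateEigen_finite (t := tensorOp O T) (a := a) hpO hϖ0 hX
  -- transfer of relations
  have htrans : ∀ (A : J →ₗ[ℤ] J) (n : ℕ), (∀ y : J, p ^ n • y = 0 → A y = 0) →
      ∀ x : O ⊗[ℤ] J, (p : O) ^ n • x = 0 → A.baseChange O x = 0 := by
    intro A n hA x hx
    apply baseChange_eq_zero_of_torsion O ((p ^ n : ℕ) : ℤ) A
    · intro y hy
      apply hA
      rwa [natCast_zsmul] at hy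
    · rw [← natCast_pow_smul]
      exact hx
  refine ⟨tateEigen (p : O) (tensorOp O T) a, inferInstance, inferInstance, hfree, hfinite,
    tateRep (tensorRep O J) hρ, ?_, ?_, ?_, ?_⟩
  · refine ⟨⟨⟨v, hv0, hv, heig⟩, 0, ?_⟩⟩
    intro h
    exact hne (congrArg Subtype.val h)
  · intro n γ hγ m
    apply tateRep_sub_mem (tensorRep O J) hρ hpO n γ
    intro x hx
    have h1 := htrans (actLin J γ - LinearMap.id) n (fun y hy => by
      simp [hγ y hy]) x hx
    rw [LinearMap.baseChange_sub, LinearMap.baseChange_id, LinearMap.sub_apply,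
      LinearMap.id_apply, sub_eq_zero] at h1
    exact h1
  · intro γ hγ
    apply tateRep_eq_one
    rintro x ⟨n, hx⟩
    have h1 := htrans (actLin J γ - LinearMap.id) n (fun y hy => by
      simp [hγ y ⟨n, hy⟩]) x hx
    rw [LinearMap.baseChange_sub, LinearMap.baseChange_id, LinearMap.sub_apply,
      LinearMap.id_apply, sub_eq_zero] at h1
    exact h1
  · intro γ i c hγ
    apply tateRep_quadratic
    rintro x ⟨n, hx⟩
    have h1 := htrans (actLin J γ ∘ₗ actLin J γ - (T i).toIntLinearMap ∘ₗ actLin J γ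
      + c • LinearMap.id) n (fun y hy => by
        have := hγ y ⟨n, hy⟩
        simpa using this) x hx
    rw [LinearMap.baseChange_add, LinearMap.baseChange_sub, LinearMap.baseChange_comp,
      LinearMap.baseChange_comp, LinearMap.baseChange_smul, LinearMap.baseChange_id] at h1
    simp only [LinearMap.add_apply, LinearMap.sub_apply, LinearMap.comp_apply,
      LinearMap.smul_apply, LinearMap.id_apply] at h1
    rw [Int.cast_smul_eq_zsmul]
    exact h1

end Main

end

end Fermat.Agent.S30.H529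

end
-- ===== PACK-END S30/H529/TateTensor.lean

-- ===== PACK-BEGIN A2/H129/Kummer.lean
section



/-!
# A2 / K1: the Kummer dictionary (Prelude language, any `K`, `F`)

`x ∈ Pic0 K F` with `m • x = 0`, `x = [D]`, `m D = div f`.  For a semilinear automorphism `g`:
`(g - 1)² x = 0` as soon as `(g - 1)² f = c · y ^ m` for a constant `c` and a function `y`
(multiplicative notation `tauSubOne`).

* `KummerTwice g m` : the Kummer-side statement (what K2 + K3 have to prove).
* `unipotent_of_kummerTwice` : `KummerTwice g m → ∀ x, m • x = 0 → g • (g • x - x) = g • x - x`.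
-/

set_option autoImplicit false

namespace Fermat.Agent.A2.H129

open AlgebraicCurve

variable {K F : Type*} [Field K] [Field F] [Algebra K F]

/-- **Kummer-side statement.** For every `f ≠ 0` whose divisor is divisible by `m`, the function
`(g - 1)² f = g(g f / f) / (g f / f)` is a constant times an `m`-th power. -/
def KummerTwice (g : SemilinearAut K F) (m : ℕ) : Prop :=
  ∀ f : F, f ≠ 0 → (∀ v : Place K F, (m : ℤ) ∣ v.ord f) →
    ∃ y : F, ∃ c : K, c ≠ 0 ∧
      tauSubOne (SemilinearAut.toRingAut g) (tauSubOne (SemilinearAut.toRingAut g) f)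
        = algebraMap K F c * y ^ m

theorem ord_algebraMap_eq_zero (v : Place K F) (c : K) : v.ord (algebraMap K F c) = 0 := by
  rcases eq_or_ne c 0 with rfl | hc
  · simp
  have h1 : algebraMap K F c ∈ v.toValuationSubring := v.algebraMap_mem' c
  have h2 : algebraMap K F c⁻¹ ∈ v.toValuationSubring := v.algebraMap_mem' c⁻¹
  have hu : IsUnit (⟨algebraMap K F c, h1⟩ : v.toValuationSubring) := by
    refine IsUnit.of_mul_eq_one (⟨algebraMap K F c⁻¹, h2⟩ : v.toValuationSubring) ?_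
    ext
    show algebraMap K F c * algebraMap K F c⁻¹ = 1
    rw [← map_mul, mul_inv_cancel₀ hc, map_one]
  exact v.ord_coe_unit hu.unit

theorem ord_smul_eq (g : SemilinearAut K F) (w : Place K F) (f : F) :
    w.ord (SemilinearAut.toRingAut g f) = (g⁻¹ • w).ord f := by
  have h := SemilinearAut.ord_smul g (g⁻¹ • w) f
  rw [smul_inv_smul] at h
  exact h

theorem ord_div (v : Place K F) {f h : F} (hf : f ≠ 0) (hh : h ≠ 0) :
    v.ord (f * h⁻¹) = v.ord f - v.ord h := by
  rw [v.ord_mul hf (inv_ne_zero hh), v.ord_inv, sub_eq_add_neg]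

theorem ord_pow (v : Place K F) (y : F) (m : ℕ) : v.ord (y ^ m) = m * v.ord y := by
  have := v.ord_zpow y (m : ℤ)
  simpa using this

/-- **K1.**  The Kummer-side statement implies `(g - 1)² = 0` on the `m`-torsion of `Pic0`. -/
theorem unipotent_of_kummerTwice (g : SemilinearAut K F) (m : ℕ) (hm : m ≠ 0)
    (H : KummerTwice g m) (x : Pic0 K F) (hx : m • x = 0) :
    g • (g • x - x) = g • x - x := by
  obtain ⟨D, rfl⟩ := Pic0.mk_surjective x
  -- the Kummer generator
  have hprin : ((m • D : Divisor.degZero (K := K) (F := F)) : Divisor K F) ∈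
      Divisor.principal (K := K) (F := F) := by
    have h0 : Pic0.mk (m • D) = 0 := hx
    have := (QuotientAddGroup.eq_zero_iff (m • D)).1 h0
    simpa [AddSubgroup.mem_addSubgroupOf] using this
  obtain ⟨f, hf, hfD⟩ := hprin
  have hfD' : ∀ v : Place K F, v.ord f = (m : ℤ) * (D : Divisor K F) v := by
    intro v
    rw [← hfD v]
    simp [Finsupp.smul_apply]
  obtain ⟨y, c, hc, hyc⟩ := H f hf (fun v => ⟨_, hfD' v⟩)
  set τ := SemilinearAut.toRingAut g with hτ
  have hτf : τ f ≠ 0 := by simpa using hf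
  have h1 : tauSubOne τ f ≠ 0 := tauSubOne_ne_zero τ hf
  have h2 : tauSubOne τ (tauSubOne τ f) ≠ 0 := tauSubOne_ne_zero τ h1
  have hy : y ≠ 0 := by
    rintro rfl
    rw [zero_pow hm, mul_zero] at hyc
    exact h2 hyc
  have hcF : algebraMap K F c ≠ 0 := by simpa using hc
  -- the divisor `E = (g-1)² D`
  set E : Divisor.degZero (K := K) (F := F) :=
    SemilinearAut.degZeroSMulHom g (SemilinearAut.degZeroSMulHom g D - D)
      - (SemilinearAut.degZeroSMulHom g D - D) with hE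
  have hgoal : g • (g • Pic0.mk D - Pic0.mk D) - (g • Pic0.mk D - Pic0.mk D) = Pic0.mk E := by
    rw [SemilinearAut.pic0_smul_mk]
    rfl
  rw [← sub_eq_zero, hgoal]
  refine (QuotientAddGroup.eq_zero_iff E).2 ?_
  rw [AddSubgroup.mem_addSubgroupOf]
  refine ⟨y, hy, fun w => ?_⟩
  -- compare `m * E w` and `m * ord_w y`
  have hEw : (E : Divisor K F) w =
      (D : Divisor K F) (g⁻¹ • (g⁻¹ • w)) - (D : Divisor K F) (g⁻¹ • w)
        - ((D : Divisor K F) (g⁻¹ • w) - (D : Divisor K F) w) := by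
    simp only [hE, AddSubgroupClass.coe_sub, SemilinearAut.coe_degZeroSMulHom, smul_sub,
      Finsupp.sub_apply, SemilinearAut.divisor_smul_apply]
  have e1 : ∀ (h : F), h ≠ 0 → ∀ v : Place K F,
      v.ord (tauSubOne τ h) = (g⁻¹ • v).ord h - v.ord h := by
    intro h hh v
    have hτh : τ h ≠ 0 := by simpa using hh
    show v.ord (τ h * h⁻¹) = _
    rw [ord_div v hτh hh, hτ, ord_smul_eq]
  have hord : w.ord (tauSubOne τ (tauSubOne τ f)) =
      (g⁻¹ • (g⁻¹ • w)).ord f - (g⁻¹ • w).ord f - ((g⁻¹ • w).ord f - w.ord f) := by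
    rw [e1 _ h1 w, e1 f hf (g⁻¹ • w), e1 f hf w]
  have hord2 : w.ord (tauSubOne τ (tauSubOne τ f)) = (m : ℤ) * w.ord y := by
    rw [hyc, w.ord_mul hcF (pow_ne_zero m hy), ord_algebraMap_eq_zero, zero_add, ord_pow]
  have hmE : (m : ℤ) * (E : Divisor K F) w = (m : ℤ) * w.ord y := by
    rw [← hord2, hord, hEw, hfD', hfD', hfD']
    ring
  have hm' : (m : ℤ) ≠ 0 := by exact_mod_cast hm
  exact mul_left_cancel₀ hm' hmE

end Fermat.Agent.A2.H129

end
-- ===== PACK-END A2/H129/Kummer.lean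

-- ===== PACK-BEGIN Lib/Cheb/H943/PrimeCountBound.lean
section


/-!
# CHEB piece B0: `Spec.PrimeCountBoundStatement` (helper943)

For every number field `F` and every `n : ℕ` there are at most `[F:ℚ]` prime ideals of `𝓞 F` of
absolute norm `n`: they all lie over the same prime of `ℤ` (`absNorm 𝔮 = absNorm (𝔮 ∩ ℤ) ^ f`),
and `∑ e f = [F:ℚ]` (`Ideal.sum_ramification_inertia_eq_finrank`).
-/

set_option autoImplicit false
set_option linter.unusedSectionVars false
set_option linter.style.haveILetI false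

open NumberField
open scoped Pointwise

namespace Fermat.Agent.Lib.Cheb.H943

variable {F : Type} [Field F] [NumberField F]

/-- The absolute norm of the prime of `ℤ` below a prime `𝔮` is `0` or a prime number. -/
lemma absNorm_under_eq_zero_or_prime (𝔮 : Ideal (𝓞 F)) [h𝔮 : 𝔮.IsPrime] :
    Ideal.absNorm (𝔮.under ℤ) = 0 ∨ (Ideal.absNorm (𝔮.under ℤ)).Prime := by
  by_cases h0 : 𝔮.under ℤ = ⊥
  · left; rw [h0]; simp
  · right
    have hprime : (𝔮.under ℤ).IsPrime := inferInstance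
    have hspan := Int.ideal_span_absNorm_eq_self (𝔮.under ℤ)
    rw [← hspan] at hprime h0
    have hne : ((Ideal.absNorm (𝔮.under ℤ) : ℕ) : ℤ) ≠ 0 := by
      intro h; apply h0; rw [h]; simp
    rw [Ideal.span_singleton_prime hne] at hprime
    exact Nat.prime_iff_prime_int.mpr hprime

/-- Two primes of `𝓞 F` with the same absolute norm lie over the same prime of `ℤ`. -/
lemma under_eq_of_absNorm_eq (𝔮 𝔮' : Ideal (𝓞 F)) [h𝔮 : 𝔮.IsPrime] [h𝔮' : 𝔮'.IsPrime]
    (h : Ideal.absNorm 𝔮 = Ideal.absNorm 𝔮') : 𝔮.under ℤ = 𝔮'.under ℤ := by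
  have e1 := Ideal.absNorm_pow_inertiaDeg (𝔮.under ℤ) 𝔮
  have e2 := Ideal.absNorm_pow_inertiaDeg (𝔮'.under ℤ) 𝔮'
  have f1 : 0 < 𝔮.inertiaDeg ℤ := Ideal.inertiaDeg_pos 𝔮 ℤ
  have f2 : 0 < 𝔮'.inertiaDeg ℤ := Ideal.inertiaDeg_pos 𝔮' ℤ
  have key : Ideal.absNorm (𝔮.under ℤ) = Ideal.absNorm (𝔮'.under ℤ) := by
    have e3 : Ideal.absNorm (𝔮.under ℤ) ^ 𝔮.inertiaDeg ℤ
        = Ideal.absNorm (𝔮'.under ℤ) ^ 𝔮'.inertiaDeg ℤ := by rw [e1, e2, h]
    rcases absNorm_under_eq_zero_or_prime 𝔮 with ha | ha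
    · rw [ha, zero_pow f1.ne'] at e3
      rw [ha]
      exact (pow_eq_zero_iff f2.ne').mp e3.symm |>.symm
    · rcases absNorm_under_eq_zero_or_prime 𝔮' with ha' | ha'
      · rw [ha', zero_pow f2.ne'] at e3
        rw [ha']
        exact (pow_eq_zero_iff f1.ne').mp e3
      · have hdvd : Ideal.absNorm (𝔮.under ℤ) ∣ Ideal.absNorm (𝔮'.under ℤ) ^ 𝔮'.inertiaDeg ℤ := by
          rw [← e3]; exact dvd_pow_self _ f1.ne'
        exact (Nat.prime_dvd_prime_iff_eq ha ha').mp (ha.dvd_of_dvd_pow hdvd)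
  rw [← Int.ideal_span_absNorm_eq_self (𝔮.under ℤ), ← Int.ideal_span_absNorm_eq_self (𝔮'.under ℤ),
    key]

/-- The number of primes over a prime of `ℤ` is at most the degree. -/
lemma card_primesOver_le (p : Ideal ℤ) [p.IsPrime] :
    Nat.card (p.primesOver (𝓞 F)) ≤ Module.finrank ℚ F := by
  haveI : Fintype (p.primesOver (𝓞 F)) := (Algebra.QuasiFinite.finite_primesOver p).fintype
  rw [← RingOfIntegers.rank F, ← Ideal.sum_ramification_inertia_eq_finrank p (𝓞 F),
    Nat.card_eq_fintype_card, ← Finset.card_univ, Finset.card_eq_sum_ones]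
  refine Finset.sum_le_sum fun q _ => ?_
  haveI := q.2.1
  exact Right.one_le_mul (Ideal.ramificationIdx_pos q.1 ℤ) (Ideal.inertiaDeg_pos q.1 ℤ)

/-- **Piece B0** of row CHEB: `Spec.PrimeCountBoundStatement`. -/
theorem primeCountBoundStatement : Spec.PrimeCountBoundStatement := by
  intro F _ _ n
  unfold Spec.primeCount
  by_cases hne : Nonempty {𝔮 : Ideal (𝓞 F) // 𝔮.IsPrime ∧ Ideal.absNorm 𝔮 = n}
  · obtain ⟨⟨𝔮₀, h𝔮₀, hn₀⟩⟩ := hne
    haveI := h𝔮₀
    haveI : Finite ((𝔮₀.under ℤ).primesOver (𝓞 F)) := Algebra.QuasiFinite.finite_primesOver _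
    refine le_trans (Nat.card_le_card_of_injective
      (fun 𝔮 : {𝔮 : Ideal (𝓞 F) // 𝔮.IsPrime ∧ Ideal.absNorm 𝔮 = n} =>
        (⟨𝔮.1, 𝔮.2.1, ⟨by
          haveI := 𝔮.2.1
          exact under_eq_of_absNorm_eq 𝔮₀ 𝔮.1 (hn₀.trans 𝔮.2.2.symm)⟩⟩ :
          (𝔮₀.under ℤ).primesOver (𝓞 F))) ?_) (card_primesOver_le (𝔮₀.under ℤ))
    intro a b hab
    have := congrArg Subtype.val hab
    exact Subtype.ext this
  · rw [not_nonempty_iff] at hne
    rw [Nat.card_of_isEmpty]
    exact Nat.zero_le _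

end Fermat.Agent.Lib.Cheb.H943

end
-- ===== PACK-END Lib/Cheb/H943/PrimeCountBound.lean

-- ===== PACK-BEGIN S18/H425/HsepLocal.lean
section


/-!
# S18 / b2.5 HSEP (helper425): local lemmas

* `isSeparable_of_aeval_derivative_ne_zero` : over a field, a root `y` of `P` with `P'(y) ≠ 0`
  is separable.
* `isUnit_discr_of_isSeparable_quotient` : `R` local, `S` finite free over `R`, `𝔪 S` maximal and
  `S/𝔪S` separable over `R/𝔪` (elementwise) ⟹ the discriminant of any basis is a unit.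

Mathlib-only.
-/

set_option autoImplicit false

namespace Fermat.Agent.S18.H425

open Polynomial

/-- A root `y` of `P` with `P'(y) ≠ 0` is separable over the base field. -/
theorem isSeparable_of_aeval_derivative_ne_zero {K F : Type*} [Field K] [Field F] [Algebra K F]
    (y : F) (P : K[X]) (h0 : aeval y P = 0) (h1 : aeval y (derivative P) ≠ 0) :
    IsSeparable K y := by
  have hP0 : P ≠ 0 := by
    rintro rfl
    simp at h1
  have hint : IsIntegral K y := (isAlgebraic_iff_isIntegral).mp ⟨P, hP0, h0⟩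
  obtain ⟨Q, hQ⟩ := minpoly.dvd K y h0
  have hirr : Irreducible (minpoly K y) := minpoly.irreducible hint
  rw [IsSeparable, separable_iff_derivative_ne_zero hirr]
  intro hd
  apply h1
  rw [hQ, derivative_mul, hd, zero_mul, zero_add, map_mul, minpoly.aeval, zero_mul]

open IsLocalRing in
/-- `R` local, `S` finite free over `R` with basis `b`.  If `𝔪 S` is a maximal ideal of `S` and
every element of `S / 𝔪 S` is separable over `R / 𝔪`, then `discr R b` is a unit. -/
theorem isUnit_discr_of_isSeparable_quotient {R S : Type*} [CommRing R] [CommRing S]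
    [Algebra R S] [IsLocalRing R] [Module.Free R S] [Module.Finite R S]
    {ι : Type*} [Fintype ι] [DecidableEq ι] (b : Module.Basis ι R S)
    (hmax : (Ideal.map (algebraMap R S) (maximalIdeal R)).IsMaximal)
    (hsep : ∀ y : S ⧸ Ideal.map (algebraMap R S) (maximalIdeal R),
      IsSeparable (R ⧸ maximalIdeal R) y) :
    IsUnit (Algebra.discr R b) := by
  let : Field (R ⧸ maximalIdeal R) := Ideal.Quotient.field _
  let : Field (S ⧸ Ideal.map (algebraMap R S) (maximalIdeal R)) := Ideal.Quotient.field _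
  have : Algebra.IsSeparable (R ⧸ maximalIdeal R)
      (S ⧸ Ideal.map (algebraMap R S) (maximalIdeal R)) := ⟨hsep⟩
  have : Module.Finite (R ⧸ maximalIdeal R)
      (S ⧸ Ideal.map (algebraMap R S) (maximalIdeal R)) :=
    Module.Finite.of_restrictScalars_finite R _ _
  have hne := Algebra.discr_not_zero_of_basis (R ⧸ maximalIdeal R) (basisQuotient b)
  have hmk : Algebra.discr (R ⧸ maximalIdeal R) (basisQuotient b) =
      Ideal.Quotient.mk (maximalIdeal R) (Algebra.discr R b) := by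
    rw [Algebra.discr_def, Algebra.discr_def, RingHom.map_det]
    congr 1
    ext i j
    simp only [Algebra.traceMatrix_apply, Algebra.traceForm_apply, basisQuotient_apply,
      RingHom.mapMatrix_apply, Matrix.map_apply, ← map_mul]
    exact Algebra.trace_quotient_mk (b i * b j)
  rw [hmk] at hne
  by_contra hu
  apply hne
  rw [Ideal.Quotient.eq_zero_iff_mem]
  exact (IsLocalRing.mem_maximalIdeal _).mpr hu

end Fermat.Agent.S18.H425

end
-- ===== PACK-END S18/H425/HsepLocal.lean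

-- ===== PACK-BEGIN A2/H609/RootIdeal.lean
section





/-!
# Node purity, part 1: the root ideals `I_j = {f : u ^ j ∣ f ^ m}`

`R` is an integrally closed domain, `u : R`, `m ≥ 1`.  The set `{f | u ^ j ∣ f ^ m}` is an ideal
(integral closedness), `I_0 = ⊤`, `I_m = (u)`, `I_{j+1} ≤ I_j`, `I_j * I_k ≤ I_{j+k}`.
Mathlib only.
-/

set_option autoImplicit false

namespace Fermat.Agent.A2.H609

variable {R : Type*} [CommRing R] [IsDomain R] [IsIntegrallyClosed R]

/-- In an integrally closed domain, `a ^ m ∣ b ^ m → a ∣ b`. -/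
theorem dvd_of_pow_dvd_pow {m : ℕ} (hm : m ≠ 0) {a b : R} (h : a ^ m ∣ b ^ m) : a ∣ b :=
  (IsIntegrallyClosed.pow_dvd_pow_iff hm).1 h

/-- Key closure property: if `c ∣ f ^ m` and `c ∣ g ^ m` then `c ∣ f ^ i * g ^ (m - i)`. -/
theorem dvd_pow_mul_pow {m : ℕ} (hm : m ≠ 0) {c f g : R} (hf : c ∣ f ^ m) (hg : c ∣ g ^ m)
    {i : ℕ} (hi : i ≤ m) : c ∣ f ^ i * g ^ (m - i) := by
  apply dvd_of_pow_dvd_pow hm
  have h1 : (f ^ i * g ^ (m - i)) ^ m = (f ^ m) ^ i * (g ^ m) ^ (m - i) := by ring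
  have h2 : c ^ m = c ^ i * c ^ (m - i) := by
    rw [← pow_add, Nat.add_sub_cancel' hi]
  rw [h1, h2]
  exact mul_dvd_mul (pow_dvd_pow_of_dvd hf i) (pow_dvd_pow_of_dvd hg (m - i))

/-- The root ideal `I_j = {f | u ^ j ∣ f ^ m}`. -/
def rootIdeal (u : R) (m : ℕ) (hm : m ≠ 0) (j : ℕ) : Ideal R where
  carrier := {f | u ^ j ∣ f ^ m}
  add_mem' := by
    intro f g hf hg
    change u ^ j ∣ f ^ m at hf
    change u ^ j ∣ g ^ m at hg
    change u ^ j ∣ (f + g) ^ m
    rw [add_pow]
    refine Finset.dvd_sum fun i hi => ?_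
    have hi' : i ≤ m := Nat.lt_succ_iff.mp (Finset.mem_range.mp hi)
    exact Dvd.dvd.mul_right (dvd_pow_mul_pow hm hf hg hi') _
  zero_mem' := by
    change u ^ j ∣ (0 : R) ^ m
    rw [zero_pow hm]
    exact dvd_zero _
  smul_mem' := by
    intro c f hf
    change u ^ j ∣ f ^ m at hf
    change u ^ j ∣ (c * f) ^ m
    rw [mul_pow]
    exact Dvd.dvd.mul_left hf _

theorem mem_rootIdeal {u : R} {m : ℕ} {hm : m ≠ 0} {j : ℕ} {f : R} :
    f ∈ rootIdeal u m hm j ↔ u ^ j ∣ f ^ m := Iff.rfl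

theorem rootIdeal_zero (u : R) (m : ℕ) (hm : m ≠ 0) : rootIdeal u m hm 0 = ⊤ := by
  rw [Ideal.eq_top_iff_one, mem_rootIdeal, pow_zero]
  exact one_dvd _

theorem rootIdeal_self (u : R) (m : ℕ) (hm : m ≠ 0) :
    rootIdeal u m hm m = Ideal.span {u} := by
  ext f
  rw [mem_rootIdeal, Ideal.mem_span_singleton]
  exact IsIntegrallyClosed.pow_dvd_pow_iff hm

theorem rootIdeal_antitone (u : R) (m : ℕ) (hm : m ≠ 0) {j k : ℕ} (h : j ≤ k) :
    rootIdeal u m hm k ≤ rootIdeal u m hm j := by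
  intro f hf
  rw [mem_rootIdeal] at hf ⊢
  exact (pow_dvd_pow u h).trans hf

theorem mul_mem_rootIdeal {u : R} {m : ℕ} {hm : m ≠ 0} {j k : ℕ} {f g : R}
    (hf : f ∈ rootIdeal u m hm j) (hg : g ∈ rootIdeal u m hm k) :
    f * g ∈ rootIdeal u m hm (j + k) := by
  rw [mem_rootIdeal] at hf hg ⊢
  rw [mul_pow, pow_add]
  exact mul_dvd_mul hf hg

theorem pow_mem_rootIdeal {u : R} {m : ℕ} {hm : m ≠ 0} {f : R}
    (hf : f ∈ rootIdeal u m hm 1) (j : ℕ) : f ^ j ∈ rootIdeal u m hm j := by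
  rw [mem_rootIdeal] at hf ⊢
  rw [pow_one] at hf
  rw [← pow_mul, mul_comm, pow_mul]
  exact pow_dvd_pow_of_dvd hf j

theorem self_mem_rootIdeal_one (u : R) (m : ℕ) (hm : m ≠ 0) : u ∈ rootIdeal u m hm 1 := by
  rw [mem_rootIdeal, pow_one]
  exact dvd_pow_self u hm

theorem self_mul_mem_rootIdeal_succ {u : R} {m : ℕ} {hm : m ≠ 0} {j : ℕ} {f : R}
    (hf : f ∈ rootIdeal u m hm j) : u * f ∈ rootIdeal u m hm (j + 1) := by
  have := mul_mem_rootIdeal (self_mem_rootIdeal_one u m hm) hf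
  rwa [add_comm] at this

/-- `π`-saturation: if `u` is regular modulo `π` (i.e. `π ∣ u * r → π ∣ r`), then
`π * f ∈ I_j → f ∈ I_j`. -/
theorem mem_rootIdeal_of_mul_mem {u π : R} {m : ℕ} {hm : m ≠ 0} {j : ℕ}
    (hπ0 : π ≠ 0) (hreg : ∀ r : R, π ∣ u * r → π ∣ r) {f : R}
    (hf : π * f ∈ rootIdeal u m hm j) : f ∈ rootIdeal u m hm j := by
  rw [mem_rootIdeal] at hf ⊢
  -- `π ^ k ∣ u ^ j * r → π ^ k ∣ r`
  have hreg_pow : ∀ i : ℕ, ∀ r : R, π ∣ u ^ i * r → π ∣ r := by
    intro i
    induction i with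
    | zero => intro r h; simpa using h
    | succ i ih =>
      intro r h
      apply ih
      apply hreg
      rwa [← mul_assoc, ← pow_succ']
  have hkey : ∀ k : ℕ, ∀ r x : R, π ^ k * x = u ^ j * r → ∃ r', x = u ^ j * r' := by
    intro k
    induction k with
    | zero => intro r x h; exact ⟨r, by simpa using h⟩
    | succ k ih =>
      intro r x h
      have h1 : π ∣ u ^ j * r := ⟨π ^ k * x, by rw [← h]; ring⟩
      obtain ⟨r1, hr1⟩ := hreg_pow j r h1
      apply ih r1 x
      have h2 : π * (π ^ k * x) = π * (u ^ j * r1) := by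
        rw [← mul_assoc, ← pow_succ', h, hr1]; ring
      exact mul_left_cancel₀ hπ0 h2
  obtain ⟨r, hr⟩ := hf
  rw [mul_pow] at hr
  obtain ⟨r', hr'⟩ := hkey m r (f ^ m) hr
  exact ⟨r', hr'⟩

end Fermat.Agent.A2.H609

end
-- ===== PACK-END A2/H609/RootIdeal.lean

-- ===== PACK-BEGIN A2/H372/Transversal.lean
section


/-!
# A2 / T-ALG : abstract transversality at the crossing points (helper372)

Mathlib-only commutative algebra.  Intended instance (helper609 memo `coord/A2-helper609.md`, (T)):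

* `A = B_M`, `B = B_N` (`N = qM`): integral closures of `R[j]` in the function fields of level
  `M` and `N` over a DVR `R` (uniformiser `w`, residue characteristic `q`);
* `α β : A →+* B` the two degeneracy maps (`j_d ↦ j_d`, `j_d ↦ j_{qd}`);
* `P₁ P₂` the centres on `B` of the two Gauss valuations (`P₁ ⊓ P₂ = wB`);
* `n` a maximal ideal of `B` containing `P₁` and `P₂` (a crossing point).

The Kronecker congruences are used in the SEMILINEAR form `KronCong`:
`∀ a, ∃ a', β a - (α a') ^ q ∈ P₁` and `∀ a, ∃ a', α a - (β a') ^ q ∈ P₂`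
(over `ℤ_(q)` one takes `a' = a`; over a general `R` one takes for `a'` a lift of the
coefficientwise inverse Frobenius of `a`), so no `𝔽_q`-structure and no base change is needed.

Main results (all elementwise, no localisation needed to state them):

* `KronCong.exists_transversal` : a local generator `α a₀` of the branch `B/P₁` at `n` is,
  up to a unit at `n` and modulo `P₁`, an element `f ∈ P₂`.
* `KronCong.exists_local_gen`   : `n = (f) + P₁` locally at `n`, with `f ∈ P₂`.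
* `KronCong.exists_node`        : node datum `f ∈ P₂`, `g ∈ P₁` with
  `n = (f, g) + P₁ ⊓ P₂`, `P₁ = (g) + P₁ ⊓ P₂`, `P₂ = (f) + P₁ ⊓ P₂` locally at `n`.
* `exists_smooth_gen`           : at a point of `P₁` not on `P₂`: `n = (α a₀) + P₁ ⊓ P₂` locally.
* `exists_isBranchUnif_of_isDedekindDomain` : the local generator `a₀` exists when
  `A ⧸ comap α P₁` is a Dedekind domain.
* `surjective_of_birational_of_integral` : `α` is onto `B/P₁` (finite birational onto normal).
* localised forms `KronCong.maximalIdeal_eq_span_node`.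
-/

set_option autoImplicit false

namespace Fermat.Agent.A2.H372

open Ideal

variable {A B : Type*} [CommRing A] [CommRing B]

/-- Semilinear Kronecker congruences between two ring homomorphisms `α β : A →+* B`
modulo two ideals `P₁ P₂` of `B`. -/
structure KronCong (q : ℕ) (α β : A →+* B) (P₁ P₂ : Ideal B) : Prop where
  cong₁ : ∀ a : A, ∃ a' : A, β a - (α a') ^ q ∈ P₁
  cong₂ : ∀ a : A, ∃ a' : A, α a - (β a') ^ q ∈ P₂

theorem KronCong.symm {q : ℕ} {α β : A →+* B} {P₁ P₂ : Ideal B}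
    (h : KronCong q α β P₁ P₂) : KronCong q β α P₂ P₁ :=
  ⟨h.cong₂, h.cong₁⟩

/-- The linear Kronecker congruences (`a' = a`) give a `KronCong`. -/
theorem KronCong.of_linear {q : ℕ} {α β : A →+* B} {P₁ P₂ : Ideal B}
    (h₁ : ∀ a : A, β a - (α a) ^ q ∈ P₁) (h₂ : ∀ a : A, α a - (β a) ^ q ∈ P₂) :
    KronCong q α β P₁ P₂ :=
  ⟨fun a => ⟨a, h₁ a⟩, fun a => ⟨a, h₂ a⟩⟩

/-- `a₀` is a local generator at `n` of the branch `B/P` parametrised by `α`:
`α a₀ ∈ n` and every `α a ∈ n` is, up to a factor `α s ∉ n` and modulo `P`, a multiple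
of `α a₀`. -/
def IsBranchUnif (α : A →+* B) (P n : Ideal B) (a₀ : A) : Prop :=
  α a₀ ∈ n ∧ ∀ a : A, α a ∈ n → ∃ s y : A, α s ∉ n ∧ α s * α a - α a₀ * α y ∈ P

theorem pow_sub_pow_mem_of_sub_mem {I : Ideal B} {x y : B} (h : x - y ∈ I) (k : ℕ) :
    x ^ k - y ^ k ∈ I := by
  obtain ⟨c, hc⟩ := sub_dvd_pow_sub_pow x y k
  rw [hc]
  exact I.mul_mem_right c h

/-- **Transversality, core.**  A local generator `α a₀` of the first branch at a crossing
point `n` agrees modulo `P₁`, up to a factor `u ∉ n`, with an element `f` of `P₂`. -/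
theorem KronCong.exists_transversal {q : ℕ} (hq : 2 ≤ q) {α β : A →+* B}
    {P₁ P₂ n : Ideal B} [n.IsPrime] (hP₁ : P₁ ≤ n) (hP₂ : P₂ ≤ n)
    (h : KronCong q α β P₁ P₂) {a₀ : A} (ha₀ : IsBranchUnif α P₁ n a₀) :
    ∃ f ∈ P₂, ∃ u : B, u ∉ n ∧ f - u * α a₀ ∈ P₁ := by
  obtain ⟨a₁, h₁⟩ := h.cong₂ a₀
  obtain ⟨a₂, h₂⟩ := h.cong₁ a₁
  have hq0 : q ≠ 0 := by omega
  have hβ : β a₁ ∈ n := by
    have : (β a₁) ^ q ∈ n := by
      have := n.sub_mem ha₀.1 (hP₂ h₁)
      simpa using this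
    exact Ideal.IsPrime.mem_of_pow_mem inferInstance q this
  have hα₂ : α a₂ ∈ n := by
    have : (α a₂) ^ q ∈ n := by
      have := n.sub_mem hβ (hP₁ h₂)
      simpa using this
    exact Ideal.IsPrime.mem_of_pow_mem inferInstance q this
  obtain ⟨s, y, hs, hsy⟩ := ha₀.2 a₂ hα₂
  have hQ : 1 ≤ q ^ 2 := Nat.one_le_pow _ _ (by omega)
  refine ⟨(α s) ^ (q ^ 2) * (α a₀ - (β a₁) ^ q), P₂.mul_mem_left _ h₁,
    (α s) ^ (q ^ 2) - (α a₀) ^ (q ^ 2 - 1) * (α y) ^ (q ^ 2), ?_, ?_⟩
  · intro hu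
    have h1 : (α a₀) ^ (q ^ 2 - 1) ∈ n := by
      have hpos : q ^ 2 - 1 ≠ 0 := by
        have : 4 ≤ q ^ 2 := by nlinarith
        omega
      exact Ideal.pow_mem_of_mem n ha₀.1 _ (Nat.pos_of_ne_zero hpos)
    have h2 : (α s) ^ (q ^ 2) ∈ n := by
      have := n.add_mem hu (n.mul_mem_right ((α y) ^ (q ^ 2)) h1)
      simpa using this
    exact hs (Ideal.IsPrime.mem_of_pow_mem inferInstance _ h2)
  · have e1 : ((β a₁) ^ q) - ((α a₂) ^ q) ^ q ∈ P₁ := pow_sub_pow_mem_of_sub_mem h₂ q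
    have e2 : (α s * α a₂) ^ (q ^ 2) - (α a₀ * α y) ^ (q ^ 2) ∈ P₁ :=
      pow_sub_pow_mem_of_sub_mem hsy (q ^ 2)
    have hpow : (α a₀) ^ (q ^ 2 - 1) * α a₀ = (α a₀) ^ (q ^ 2) := by
      rw [← pow_succ, Nat.sub_add_cancel hQ]
    have key : (α s) ^ (q ^ 2) * (α a₀ - (β a₁) ^ q)
        - ((α s) ^ (q ^ 2) - (α a₀) ^ (q ^ 2 - 1) * (α y) ^ (q ^ 2)) * α a₀
        = -((α s) ^ (q ^ 2) * ((β a₁) ^ q - ((α a₂) ^ q) ^ q))
          - ((α s * α a₂) ^ (q ^ 2) - (α a₀ * α y) ^ (q ^ 2)) := by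
      have hp2 : ((α a₂) ^ q) ^ q = (α a₂) ^ (q ^ 2) := by rw [← pow_mul, sq]
      rw [hp2, mul_pow, mul_pow, ← hpow]
      ring
    rw [key]
    exact P₁.sub_mem (P₁.neg_mem (P₁.mul_mem_left _ e1)) e2

/-- **Transversality.**  If moreover `α` is onto `B/P₁`, then locally at the crossing point
`n` one has `n = (f) + P₁` with `f ∈ P₂`; in particular `n = P₁ + P₂` locally at `n`. -/
theorem KronCong.exists_local_gen {q : ℕ} (hq : 2 ≤ q) {α β : A →+* B}
    {P₁ P₂ n : Ideal B} [n.IsPrime] (hP₁ : P₁ ≤ n) (hP₂ : P₂ ≤ n)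
    (h : KronCong q α β P₁ P₂) (hα : ∀ b : B, ∃ a : A, b - α a ∈ P₁)
    {a₀ : A} (ha₀ : IsBranchUnif α P₁ n a₀) :
    ∃ f ∈ P₂, ∀ x ∈ n, ∃ t : B, t ∉ n ∧ ∃ z : B, t * x - f * z ∈ P₁ := by
  obtain ⟨f, hf, u, hu, hfu⟩ := h.exists_transversal hq hP₁ hP₂ ha₀
  refine ⟨f, hf, fun x hx => ?_⟩
  obtain ⟨a, ha⟩ := hα x
  have han : α a ∈ n := by
    have := n.sub_mem hx (hP₁ ha)
    simpa using this
  obtain ⟨s, y, hs, hsy⟩ := ha₀.2 a han
  refine ⟨u * α s, fun hmem => ?_, α y, ?_⟩
  · rcases Ideal.IsPrime.mem_or_mem inferInstance hmem with h' | h'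
    · exact hu h'
    · exact hs h'
  · have key : u * α s * x - f * α y
        = u * α s * (x - α a) + u * (α s * α a - α a₀ * α y) - (f - u * α a₀) * α y := by
      ring
    rw [key]
    exact P₁.sub_mem (P₁.add_mem (P₁.mul_mem_left _ ha) (P₁.mul_mem_left _ hsy))
      (P₁.mul_mem_right _ hfu)

/-- `P₁ + P₂` is the maximal ideal locally at a crossing point. -/
theorem KronCong.mem_sup_of_mem {q : ℕ} (hq : 2 ≤ q) {α β : A →+* B}
    {P₁ P₂ n : Ideal B} [n.IsPrime] (hP₁ : P₁ ≤ n) (hP₂ : P₂ ≤ n)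
    (h : KronCong q α β P₁ P₂) (hα : ∀ b : B, ∃ a : A, b - α a ∈ P₁)
    {a₀ : A} (ha₀ : IsBranchUnif α P₁ n a₀) {x : B} (hx : x ∈ n) :
    ∃ t : B, t ∉ n ∧ t * x ∈ P₁ ⊔ P₂ := by
  obtain ⟨f, hf, hloc⟩ := h.exists_local_gen hq hP₁ hP₂ hα ha₀
  obtain ⟨t, ht, z, hz⟩ := hloc x hx
  refine ⟨t, ht, ?_⟩
  have : t * x = (t * x - f * z) + f * z := by ring
  rw [this]
  exact Ideal.add_mem _ (Ideal.mem_sup_left hz) (Ideal.mem_sup_right (P₂.mul_mem_right _ hf))

/-- **Node datum at a crossing point.**  There are `f ∈ P₂`, `g ∈ P₁` such that, locally at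
`n` and modulo `P₁ ⊓ P₂` (`= wB` in the application): `n = (f, g)`, `P₁ = (g)`, `P₂ = (f)`;
and `f * g ∈ P₁ ⊓ P₂`. -/
theorem KronCong.exists_node {q : ℕ} (hq : 2 ≤ q) {α β : A →+* B}
    {P₁ P₂ n : Ideal B} [n.IsPrime] (hP₁ : P₁ ≤ n) (hP₂ : P₂ ≤ n)
    (h : KronCong q α β P₁ P₂)
    (hα : ∀ b : B, ∃ a : A, b - α a ∈ P₁) (hβ : ∀ b : B, ∃ a : A, b - β a ∈ P₂)
    {a₀ b₀ : A} (ha₀ : IsBranchUnif α P₁ n a₀) (hb₀ : IsBranchUnif β P₂ n b₀) :
    ∃ f g : B, f ∈ P₂ ∧ g ∈ P₁ ∧ f * g ∈ P₁ ⊓ P₂ ∧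
      (∀ x ∈ n, ∃ t : B, t ∉ n ∧ ∃ y z : B, t * x - (f * y + g * z) ∈ P₁ ⊓ P₂) ∧
      (∀ x ∈ P₁, ∃ t : B, t ∉ n ∧ ∃ z : B, t * x - g * z ∈ P₁ ⊓ P₂) ∧
      (∀ x ∈ P₂, ∃ t : B, t ∉ n ∧ ∃ y : B, t * x - f * y ∈ P₁ ⊓ P₂) := by
  obtain ⟨f, hf, hlocf⟩ := h.exists_local_gen hq hP₁ hP₂ hα ha₀
  obtain ⟨g, hg, hlocg⟩ := h.symm.exists_local_gen hq hP₂ hP₁ hβ hb₀
  have hP1 : ∀ x ∈ P₁, ∃ t : B, t ∉ n ∧ ∃ z : B, t * x - g * z ∈ P₁ ⊓ P₂ := by
    intro x hx
    obtain ⟨t, ht, z, hz⟩ := hlocg x (hP₁ hx)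
    exact ⟨t, ht, z, ⟨P₁.sub_mem (P₁.mul_mem_left _ hx) (P₁.mul_mem_right _ hg), hz⟩⟩
  have hP2 : ∀ x ∈ P₂, ∃ t : B, t ∉ n ∧ ∃ y : B, t * x - f * y ∈ P₁ ⊓ P₂ := by
    intro x hx
    obtain ⟨t, ht, z, hz⟩ := hlocf x (hP₂ hx)
    exact ⟨t, ht, z, ⟨hz, P₂.sub_mem (P₂.mul_mem_left _ hx) (P₂.mul_mem_right _ hf)⟩⟩
  refine ⟨f, g, hf, hg, ⟨P₁.mul_mem_left _ hg, P₂.mul_mem_right _ hf⟩, ?_, hP1, hP2⟩
  intro x hx
  obtain ⟨t, ht, y, hy⟩ := hlocf x hx
  obtain ⟨t', ht', z, hz⟩ := hP1 _ hy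
  refine ⟨t' * t, fun hmem => ?_, t' * y, z, ?_⟩
  · rcases Ideal.IsPrime.mem_or_mem inferInstance hmem with h' | h'
    · exact ht' h'
    · exact ht h'
  · have key : t' * t * x - (f * (t' * y) + g * z) = t' * (t * x - f * y) - g * z := by ring
    rw [key]
    exact hz

/-- **Smooth points.**  At a point `n` of the first branch which is not on the second one,
`n = (α a₀) + P₁ ⊓ P₂` locally at `n`. -/
theorem exists_smooth_gen {α : A →+* B} {P₁ P₂ n : Ideal B} [n.IsPrime]
    (hP₁ : P₁ ≤ n) (hP₂ : ¬ P₂ ≤ n) (hα : ∀ b : B, ∃ a : A, b - α a ∈ P₁)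
    {a₀ : A} (ha₀ : IsBranchUnif α P₁ n a₀) :
    ∀ x ∈ n, ∃ t : B, t ∉ n ∧ ∃ z : B, t * x - α a₀ * z ∈ P₁ ⊓ P₂ := by
  intro x hx
  obtain ⟨e, he, hen⟩ := SetLike.not_le_iff_exists.mp hP₂
  obtain ⟨a, ha⟩ := hα x
  have han : α a ∈ n := by
    have := n.sub_mem hx (hP₁ ha)
    simpa using this
  obtain ⟨s, y, hs, hsy⟩ := ha₀.2 a han
  refine ⟨e * α s, fun hmem => ?_, e * α y, ?_⟩
  · rcases Ideal.IsPrime.mem_or_mem inferInstance hmem with h' | h'
    · exact hen h'
    · exact hs h'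
  · have key : e * α s * x - α a₀ * (e * α y)
        = e * (α s * (x - α a) + (α s * α a - α a₀ * α y)) := by ring
    rw [key]
    exact ⟨P₁.mul_mem_left _ (P₁.add_mem (P₁.mul_mem_left _ ha) hsy), P₂.mul_mem_right _ he⟩

/-! ### Existence of the local generator on a Dedekind branch -/

/-- In a Dedekind domain every prime ideal is locally principal, in elementwise form. -/
theorem exists_local_generator_of_isDedekindDomain (D : Type*) [CommRing D]
    [IsDedekindDomain D] (m : Ideal D) [m.IsPrime] :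
    ∃ a₀ ∈ m, ∀ a ∈ m, ∃ s y : D, s ∉ m ∧ s * a = a₀ * y := by
  by_cases hm : m = ⊥
  · refine ⟨0, m.zero_mem, fun a ha => ⟨1, 0, ?_, ?_⟩⟩
    · exact fun h1 => (Ideal.IsPrime.ne_top inferInstance) ((Ideal.eq_top_iff_one m).mpr h1)
    · rw [hm] at ha
      rw [Ideal.mem_bot.mp ha]
      simp
  · let L := Localization.AtPrime m
    have : IsDiscreteValuationRing L :=
      IsLocalization.AtPrime.isDiscreteValuationRing_of_dedekind_domain D hm L
    obtain ⟨ϖ, hϖ⟩ := IsDiscreteValuationRing.exists_irreducible L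
    obtain ⟨a₀, s₀, rfl⟩ := IsLocalization.exists_mk'_eq m.primeCompl ϖ
    have hs₀ : IsUnit (algebraMap D L (s₀ : D)) := IsLocalization.map_units L s₀
    have hmax : IsLocalRing.maximalIdeal L = Ideal.span {algebraMap D L a₀} := by
      rw [hϖ.maximalIdeal_eq]
      apply Ideal.span_singleton_eq_span_singleton.mpr
      refine ⟨hs₀.unit, ?_⟩
      simp [IsLocalization.mk'_spec]
    have hinj : Function.Injective (algebraMap D L) :=
      IsLocalization.injective L (Ideal.primeCompl_le_nonZeroDivisors m)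
    have ha₀ : a₀ ∈ m := by
      rw [← IsLocalization.AtPrime.to_map_mem_maximal_iff L m a₀, hmax]
      exact Ideal.mem_span_singleton_self _
    refine ⟨a₀, ha₀, fun a ha => ?_⟩
    have : algebraMap D L a ∈ Ideal.span {algebraMap D L a₀} := by
      rw [← hmax]
      exact (IsLocalization.AtPrime.to_map_mem_maximal_iff L m a).mpr ha
    obtain ⟨c, hc⟩ := Ideal.mem_span_singleton'.mp this
    obtain ⟨y, s, rfl⟩ := IsLocalization.exists_mk'_eq m.primeCompl c
    refine ⟨s, y, s.2, hinj ?_⟩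
    rw [map_mul, map_mul, ← hc, ← IsLocalization.mk'_spec L y s]
    ring

/-- If the branch `A ⧸ comap α P` is a Dedekind domain, every prime `n ⊇ P` of `B` has a
local generator in the sense of `IsBranchUnif`. -/
theorem exists_isBranchUnif_of_isDedekindDomain (α : A →+* B) (P n : Ideal B) [n.IsPrime]
    (hP : P ≤ n) [IsDedekindDomain (A ⧸ Ideal.comap α P)] :
    ∃ a₀ : A, IsBranchUnif α P n a₀ := by
  have hle : Ideal.comap α P ≤ Ideal.comap α n := Ideal.comap_mono hP
  let ψ : A ⧸ Ideal.comap α P →+* B ⧸ n := Ideal.quotientMap n α hle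
  let m : Ideal (A ⧸ Ideal.comap α P) := RingHom.ker ψ
  have : m.IsPrime := RingHom.ker_isPrime ψ
  have hmem : ∀ a : A, Ideal.Quotient.mk (Ideal.comap α P) a ∈ m ↔ α a ∈ n := by
    intro a
    simp only [m, ψ, RingHom.mem_ker, Ideal.quotientMap_mk, Ideal.Quotient.eq_zero_iff_mem]
  obtain ⟨a₀', ha₀', hgen⟩ := exists_local_generator_of_isDedekindDomain _ m
  obtain ⟨a₀, rfl⟩ := Ideal.Quotient.mk_surjective a₀'
  refine ⟨a₀, (hmem a₀).mp ha₀', fun a ha => ?_⟩
  obtain ⟨s', y', hs', hsy'⟩ := hgen _ ((hmem a).mpr ha)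
  obtain ⟨s, rfl⟩ := Ideal.Quotient.mk_surjective s'
  obtain ⟨y, rfl⟩ := Ideal.Quotient.mk_surjective y'
  refine ⟨s, y, fun h => hs' ((hmem s).mpr h), ?_⟩
  have h0 : Ideal.Quotient.mk (Ideal.comap α P) (s * a - a₀ * y) = 0 := by
    rw [map_sub, map_mul, map_mul, hsy', sub_self]
  have := Ideal.Quotient.eq_zero_iff_mem.mp h0
  rw [Ideal.mem_comap, map_sub, map_mul, map_mul] at this
  exact this

/-! ### Localised forms -/

section Localised

variable (R : Type*) [CommRing R] [Algebra B R]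

/-- If every element of `n` lies in `J` up to a factor outside `n`, then `n` and `J` generate
the same ideal in the localisation at `n`. -/
theorem map_eq_map_of_local {n J : Ideal B} [n.IsPrime] [IsLocalization.AtPrime R n]
    (hJ : J ≤ n) (h : ∀ x ∈ n, ∃ t : B, t ∉ n ∧ t * x ∈ J) :
    Ideal.map (algebraMap B R) n = Ideal.map (algebraMap B R) J := by
  refine le_antisymm ?_ (Ideal.map_mono hJ)
  rw [Ideal.map_le_iff_le_comap]
  intro x hx
  obtain ⟨t, ht, htx⟩ := h x hx
  have hu : IsUnit (algebraMap B R t) :=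
    IsLocalization.map_units R (⟨t, ht⟩ : n.primeCompl)
  rw [Ideal.mem_comap]
  have hmem : algebraMap B R t * algebraMap B R x ∈ Ideal.map (algebraMap B R) J := by
    rw [← map_mul]
    exact Ideal.mem_map_of_mem _ htx
  exact (Ideal.unit_mul_mem_iff_mem _ hu).mp hmem

/-- **Node datum, localised form.**  In the local ring `R = B_n` at a crossing point:
`𝔪 = (f, g) + (P₁ ⊓ P₂)R`, `P₁R = (g) + (P₁ ⊓ P₂)R`, `P₂R = (f) + (P₁ ⊓ P₂)R`. -/
theorem KronCong.map_eq_span_node {q : ℕ} (hq : 2 ≤ q) {α β : A →+* B}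
    {P₁ P₂ n : Ideal B} [n.IsPrime] [IsLocalization.AtPrime R n]
    (hP₁ : P₁ ≤ n) (hP₂ : P₂ ≤ n) (h : KronCong q α β P₁ P₂)
    (hα : ∀ b : B, ∃ a : A, b - α a ∈ P₁) (hβ : ∀ b : B, ∃ a : A, b - β a ∈ P₂)
    {a₀ b₀ : A} (ha₀ : IsBranchUnif α P₁ n a₀) (hb₀ : IsBranchUnif β P₂ n b₀) :
    ∃ f g : B, f ∈ P₂ ∧ g ∈ P₁ ∧ f * g ∈ P₁ ⊓ P₂ ∧
      Ideal.map (algebraMap B R) n =
        Ideal.span {algebraMap B R f, algebraMap B R g}
          ⊔ Ideal.map (algebraMap B R) (P₁ ⊓ P₂) ∧
      Ideal.map (algebraMap B R) P₁ =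
        Ideal.span {algebraMap B R g} ⊔ Ideal.map (algebraMap B R) (P₁ ⊓ P₂) ∧
      Ideal.map (algebraMap B R) P₂ =
        Ideal.span {algebraMap B R f} ⊔ Ideal.map (algebraMap B R) (P₁ ⊓ P₂) := by
  obtain ⟨f, g, hf, hg, hfg, hn, h1, h2⟩ := h.exists_node hq hP₁ hP₂ hα hβ ha₀ hb₀
  refine ⟨f, g, hf, hg, hfg, ?_, ?_, ?_⟩
  · have hJ : Ideal.span {f, g} ⊔ (P₁ ⊓ P₂) ≤ n := by
      refine sup_le ?_ (inf_le_left.trans hP₁)
      rw [Ideal.span_le]
      rintro x (rfl | rfl)
      · exact hP₂ hf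
      · exact hP₁ hg
    rw [map_eq_map_of_local R hJ, Ideal.map_sup, Ideal.map_span, Set.image_pair]
    intro x hx
    obtain ⟨t, ht, y, z, hyz⟩ := hn x hx
    refine ⟨t, ht, ?_⟩
    have : t * x = (f * y + g * z) + (t * x - (f * y + g * z)) := by ring
    rw [this]
    refine Ideal.add_mem _ (Ideal.mem_sup_left ?_) (Ideal.mem_sup_right hyz)
    exact Ideal.add_mem _
      (Ideal.mul_mem_right _ _ (Ideal.subset_span (Set.mem_insert _ _)))
      (Ideal.mul_mem_right _ _ (Ideal.subset_span (Set.mem_insert_of_mem _ rfl)))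
  · refine le_antisymm ?_ ?_
    · rw [Ideal.map_le_iff_le_comap]
      intro x hx
      obtain ⟨t, ht, z, hz⟩ := h1 x hx
      have hu : IsUnit (algebraMap B R t) :=
        IsLocalization.map_units R (⟨t, ht⟩ : n.primeCompl)
      rw [Ideal.mem_comap]
      refine (Ideal.unit_mul_mem_iff_mem _ hu).mp ?_
      have : algebraMap B R t * algebraMap B R x
          = algebraMap B R g * algebraMap B R z + algebraMap B R (t * x - g * z) := by
        simp only [map_sub, map_mul]; ring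
      rw [this]
      exact Ideal.add_mem _
        (Ideal.mem_sup_left (Ideal.mul_mem_right _ _ (Ideal.mem_span_singleton_self _)))
        (Ideal.mem_sup_right (Ideal.mem_map_of_mem _ hz))
    · refine sup_le ?_ (Ideal.map_mono inf_le_left)
      rw [Ideal.span_le, Set.singleton_subset_iff]
      exact Ideal.mem_map_of_mem _ hg
  · refine le_antisymm ?_ ?_
    · rw [Ideal.map_le_iff_le_comap]
      intro x hx
      obtain ⟨t, ht, z, hz⟩ := h2 x hx
      have hu : IsUnit (algebraMap B R t) :=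
        IsLocalization.map_units R (⟨t, ht⟩ : n.primeCompl)
      rw [Ideal.mem_comap]
      refine (Ideal.unit_mul_mem_iff_mem _ hu).mp ?_
      have : algebraMap B R t * algebraMap B R x
          = algebraMap B R f * algebraMap B R z + algebraMap B R (t * x - f * z) := by
        simp only [map_sub, map_mul]; ring
      rw [this]
      exact Ideal.add_mem _
        (Ideal.mem_sup_left (Ideal.mul_mem_right _ _ (Ideal.mem_span_singleton_self _)))
        (Ideal.mem_sup_right (Ideal.mem_map_of_mem _ hz))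
    · refine sup_le ?_ (Ideal.map_mono inf_le_right)
      rw [Ideal.span_le, Set.singleton_subset_iff]
      exact Ideal.mem_map_of_mem _ hf

/-- **Node datum with a uniformiser.**  If moreover `P₁ ⊓ P₂ = (w)` (reduced special fibre with
exactly the two branches), then in `R = B_n`: `𝔪 = (f, g, w)` and `f * g = w * h`. -/
theorem KronCong.map_eq_span_triple {q : ℕ} (hq : 2 ≤ q) {α β : A →+* B}
    {P₁ P₂ n : Ideal B} [n.IsPrime] [IsLocalization.AtPrime R n]
    (hP₁ : P₁ ≤ n) (hP₂ : P₂ ≤ n) (h : KronCong q α β P₁ P₂)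
    (hα : ∀ b : B, ∃ a : A, b - α a ∈ P₁) (hβ : ∀ b : B, ∃ a : A, b - β a ∈ P₂)
    {a₀ b₀ : A} (ha₀ : IsBranchUnif α P₁ n a₀) (hb₀ : IsBranchUnif β P₂ n b₀)
    {w : B} (hw : P₁ ⊓ P₂ = Ideal.span {w}) :
    ∃ f g k : B, f ∈ P₂ ∧ g ∈ P₁ ∧ f * g = w * k ∧
      Ideal.map (algebraMap B R) n =
        Ideal.span {algebraMap B R f, algebraMap B R g, algebraMap B R w} ∧
      Ideal.map (algebraMap B R) P₁ = Ideal.span {algebraMap B R g, algebraMap B R w} ∧
      Ideal.map (algebraMap B R) P₂ = Ideal.span {algebraMap B R f, algebraMap B R w} := by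
  obtain ⟨f, g, hf, hg, hfg, hn, h1, h2⟩ :=
    h.map_eq_span_node R hq hP₁ hP₂ hα hβ ha₀ hb₀
  rw [hw] at hfg hn h1 h2
  obtain ⟨k, hk⟩ := Ideal.mem_span_singleton'.mp hfg
  refine ⟨f, g, k, hf, hg, by rw [← hk, mul_comm], ?_, ?_, ?_⟩
  · rw [hn, Ideal.map_span, Set.image_singleton, ← Ideal.span_union]
    congr 1
    ext x
    simp only [Set.union_singleton, Set.mem_insert_iff, Set.mem_singleton_iff]
    tauto
  · rw [h1, Ideal.map_span, Set.image_singleton, ← Ideal.span_union]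
    congr 1
  · rw [h2, Ideal.map_span, Set.image_singleton, ← Ideal.span_union]
    congr 1

/-- **Smooth points, localised form.** -/
theorem map_eq_span_smooth {α : A →+* B} {P₁ P₂ n : Ideal B} [n.IsPrime]
    [IsLocalization.AtPrime R n]
    (hP₁ : P₁ ≤ n) (hP₂ : ¬ P₂ ≤ n) (hα : ∀ b : B, ∃ a : A, b - α a ∈ P₁)
    {a₀ : A} (ha₀ : IsBranchUnif α P₁ n a₀) :
    Ideal.map (algebraMap B R) n =
      Ideal.span {algebraMap B R (α a₀)} ⊔ Ideal.map (algebraMap B R) (P₁ ⊓ P₂) := by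
  have hJ : Ideal.span {α a₀} ⊔ (P₁ ⊓ P₂) ≤ n := by
    refine sup_le ?_ (inf_le_left.trans hP₁)
    rw [Ideal.span_le, Set.singleton_subset_iff]
    exact ha₀.1
  rw [map_eq_map_of_local R hJ, Ideal.map_sup, Ideal.map_span, Set.image_singleton]
  intro x hx
  obtain ⟨t, ht, z, hz⟩ := exists_smooth_gen hP₁ hP₂ hα ha₀ x hx
  refine ⟨t, ht, ?_⟩
  have : t * x = α a₀ * z + (t * x - α a₀ * z) := by ring
  rw [this]
  exact Ideal.add_mem _
    (Ideal.mem_sup_left (Ideal.mul_mem_right _ _ (Ideal.mem_span_singleton_self _)))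
    (Ideal.mem_sup_right hz)

end Localised

/-! ### `α` is onto the branch: finite birational onto a normal domain -/

/-- An injective, integral, birational ring homomorphism out of an integrally closed domain is
surjective.  (Used for `A ⧸ wA → B ⧸ P₁`: both have the same fraction field by the residue
degree count, the target is integral over `κ[j]`, the source is normal by `b2`.) -/
theorem surjective_of_birational_of_integral {C D : Type*} [CommRing C] [IsDomain C]
    [IsIntegrallyClosed C] [CommRing D] [IsDomain D] (φ : C →+* D)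
    (hinj : Function.Injective φ) (hint : φ.IsIntegral)
    (hbir : ∀ d : D, ∃ c₁ c₂ : C, c₂ ≠ 0 ∧ φ c₂ * d = φ c₁) : Function.Surjective φ := by
  intro d
  obtain ⟨c₁, c₂, hc₂, hd⟩ := hbir d
  obtain ⟨p, hp, hpd⟩ := hint d
  let K := FractionRing C
  let L := FractionRing D
  let g : C →+* L := (algebraMap D L).comp φ
  have hg : Function.Injective g := (IsFractionRing.injective D L).comp hinj
  let ι : K →+* L := IsFractionRing.lift hg
  have hι : ∀ c : C, ι (algebraMap C K c) = algebraMap D L (φ c) := fun c =>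
    IsFractionRing.lift_algebraMap hg c
  have hc₂K : algebraMap C K c₂ ≠ 0 := by
    simpa using (IsFractionRing.injective C K).ne hc₂
  have hφc₂ : φ c₂ ≠ 0 := by
    simpa using hinj.ne hc₂
  have hc₂L : algebraMap D L (φ c₂) ≠ 0 := by
    simpa using (IsFractionRing.injective D L).ne hφc₂
  set k : K := algebraMap C K c₁ / algebraMap C K c₂ with hk
  have hιk : ι k = algebraMap D L d := by
    rw [hk, map_div₀, hι, hι, ← hd, map_mul, mul_div_cancel_left₀ _ hc₂L]
  have hcomp : ι.comp (algebraMap C K) = (algebraMap D L).comp φ := by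
    ext c; exact hι c
  have he : Polynomial.eval₂ (algebraMap C K) k p = 0 := by
    apply ι.injective
    rw [Polynomial.hom_eval₂, hcomp, hιk, ← Polynomial.hom_eval₂, hpd, map_zero, map_zero]
  have hint' : IsIntegral C k := ⟨p, hp, he⟩
  obtain ⟨c, hc⟩ := IsIntegrallyClosed.isIntegral_iff.mp hint'
  refine ⟨c, ?_⟩
  have h1 : c * c₂ = c₁ := by
    apply IsFractionRing.injective C K
    rw [map_mul, hc, hk, div_mul_cancel₀ _ hc₂K]
  apply mul_left_cancel₀ hφc₂
  rw [hd, ← h1, map_mul, mul_comm]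

end Fermat.Agent.A2.H372

end
-- ===== PACK-END A2/H372/Transversal.lean

-- ===== PACK-BEGIN A2/H48/TwoVal.lean
section


/-!
# A2 / piece QEP2, part 1 (helper48): two valuation rings with a common uniformiser

Mathlib-only.  `F` a field, `V₁ ≠ V₂` valuation subrings of `F` whose maximal ideals are both
generated by the same element `ϖ` (both "unramified" over a common base).

* `IsUnif V ϖ` : `ϖ ∈ V`, `ϖ⁻¹ ∉ V`, and every non-unit of `V` is divisible by `ϖ` in `V`;
* `exists_separating` : there is `c` with `c ∈ 𝔪₁` and `c⁻¹ ∈ 𝔪₂`;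
* `exists_approx` : for `f ∈ V₁` with `ϖ ^ k * f ∈ V₂` there is `g ∈ V₁ ∩ V₂` with
  `g ≡ f mod ϖ V₁` and `g ∈ ϖ V₂` (explicit weak approximation).
-/

set_option autoImplicit false

namespace Fermat.Agent.A2.H48

variable {F : Type*} [Field F]

/-- `ϖ` generates the maximal ideal of the valuation subring `V` (elementwise form). -/
structure IsUnif (V : ValuationSubring F) (ϖ : F) : Prop where
  mem : ϖ ∈ V
  inv_not_mem : ϖ⁻¹ ∉ V
  gen : ∀ f ∈ V, f⁻¹ ∉ V → f * ϖ⁻¹ ∈ V

namespace IsUnif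

variable {V : ValuationSubring F} {ϖ : F}

theorem ne_zero (h : IsUnif V ϖ) : ϖ ≠ 0 := by
  rintro rfl
  exact h.inv_not_mem (by simp)

theorem val_lt_one (h : IsUnif V ϖ) : V.valuation ϖ < 1 := by
  have h1 : V.valuation ϖ ≤ 1 := (V.valuation_le_one_iff ϖ).2 h.mem
  rcases lt_or_eq_of_le h1 with h2 | h2
  · exact h2
  · exfalso
    apply h.inv_not_mem
    rw [← V.valuation_le_one_iff, map_inv₀, h2, inv_one]

theorem val_ne_zero (h : IsUnif V ϖ) : V.valuation ϖ ≠ 0 :=
  (Valuation.ne_zero_iff _).2 h.ne_zero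

theorem val_le_of_lt_one (h : IsUnif V ϖ) {f : F} (hf : V.valuation f < 1) :
    V.valuation f ≤ V.valuation ϖ := by
  by_cases hf0 : f = 0
  · subst hf0; simp
  have hfV : f ∈ V := (V.valuation_le_one_iff f).1 hf.le
  have hfinv : f⁻¹ ∉ V := by
    intro hmem
    have h1 : V.valuation f⁻¹ ≤ 1 := (V.valuation_le_one_iff _).2 hmem
    rw [map_inv₀] at h1
    have h2 : V.valuation f ≠ 0 := (Valuation.ne_zero_iff _).2 hf0
    have h3 : 1 ≤ V.valuation f := by
      rwa [inv_le_one₀ (zero_lt_iff.2 h2)] at h1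
    exact absurd hf (not_lt.2 h3)
  have h4 := h.gen f hfV hfinv
  have h5 : V.valuation (f * ϖ⁻¹) ≤ 1 := (V.valuation_le_one_iff _).2 h4
  rw [map_mul, map_inv₀] at h5
  rwa [mul_inv_le_iff₀ (zero_lt_iff.2 h.val_ne_zero), one_mul] at h5

/-- membership in `ϖ V` in terms of the valuation -/
theorem mul_inv_mem_iff (h : IsUnif V ϖ) {f : F} :
    f * ϖ⁻¹ ∈ V ↔ V.valuation f < 1 := by
  rw [← V.valuation_le_one_iff, map_mul, map_inv₀,
    mul_inv_le_iff₀ (zero_lt_iff.2 h.val_ne_zero), one_mul]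
  constructor
  · intro h1; exact lt_of_le_of_lt h1 h.val_lt_one
  · intro h1; exact h.val_le_of_lt_one h1

theorem pow_mul_inv_mem (h : IsUnif V ϖ) {f : F} (k : ℕ) (hf : V.valuation f ≤ V.valuation ϖ ^ k) :
    f * (ϖ ^ k)⁻¹ ∈ V := by
  rw [← V.valuation_le_one_iff, map_mul, map_inv₀, map_pow,
    mul_inv_le_iff₀ (pow_pos (zero_lt_iff.2 h.val_ne_zero) k), one_mul]
  exact hf

end IsUnif

section Two

variable {V₁ V₂ : ValuationSubring F} {ϖ : F}

theorem not_le_of_ne (h₁ : IsUnif V₁ ϖ) (h₂ : IsUnif V₂ ϖ) (hne : V₁ ≠ V₂) : ¬ V₁ ≤ V₂ := by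
  intro hle
  have : ¬ V₂ ≤ V₁ := fun h => hne (le_antisymm hle h)
  obtain ⟨b, hb2, hb1⟩ := SetLike.not_le_iff_exists.1 this
  have hb0 : b ≠ 0 := by rintro rfl; exact hb1 (zero_mem _)
  have hv1 : 1 < V₁.valuation b := by
    rw [← not_le, V₁.valuation_le_one_iff]; exact hb1
  have hv1' : V₁.valuation b⁻¹ < 1 := by
    rw [map_inv₀]
    exact inv_lt_one_of_one_lt₀ hv1
  have h3 : b⁻¹ * ϖ⁻¹ ∈ V₁ := h₁.mul_inv_mem_iff.2 hv1'
  have h4 : b⁻¹ * ϖ⁻¹ ∈ V₂ := hle h3
  apply h₂.inv_not_mem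
  have : ϖ⁻¹ = b * (b⁻¹ * ϖ⁻¹) := by field_simp
  rw [this]
  exact mul_mem hb2 h4

/-- Two distinct valuation rings with the same uniformiser are incomparable: there is `c` in the
maximal ideal of `V₁` whose inverse lies in the maximal ideal of `V₂`. -/
theorem exists_separating (h₁ : IsUnif V₁ ϖ) (h₂ : IsUnif V₂ ϖ) (hne : V₁ ≠ V₂) :
    ∃ c : F, c ≠ 0 ∧ V₁.valuation c < 1 ∧ V₂.valuation c⁻¹ < 1 := by
  obtain ⟨a, ha1, ha2⟩ := SetLike.not_le_iff_exists.1 (not_le_of_ne h₁ h₂ hne)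
  obtain ⟨b, hb2, hb1⟩ := SetLike.not_le_iff_exists.1 (not_le_of_ne h₂ h₁ (Ne.symm hne))
  have ha0 : a ≠ 0 := by rintro rfl; exact ha2 (zero_mem _)
  have hb0 : b ≠ 0 := by rintro rfl; exact hb1 (zero_mem _)
  have hv1a : V₁.valuation a ≤ 1 := (V₁.valuation_le_one_iff a).2 ha1
  have hv2b : V₂.valuation b ≤ 1 := (V₂.valuation_le_one_iff b).2 hb2
  have hv1b : 1 < V₁.valuation b := by
    rw [← not_le, V₁.valuation_le_one_iff]; exact hb1
  have hv2a : 1 < V₂.valuation a := by
    rw [← not_le, V₂.valuation_le_one_iff]; exact ha2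
  refine ⟨a * b⁻¹, mul_ne_zero ha0 (inv_ne_zero hb0), ?_, ?_⟩
  · rw [map_mul, map_inv₀]
    calc V₁.valuation a * (V₁.valuation b)⁻¹ ≤ 1 * (V₁.valuation b)⁻¹ :=
          mul_le_mul_left hv1a _
      _ < 1 := by rw [one_mul]; exact inv_lt_one_of_one_lt₀ hv1b
  · rw [mul_inv, inv_inv, map_mul, map_inv₀]
    calc (V₂.valuation a)⁻¹ * V₂.valuation b ≤ (V₂.valuation a)⁻¹ * 1 :=
          mul_le_mul_right hv2b _
      _ < 1 := by rw [mul_one]; exact inv_lt_one_of_one_lt₀ hv2a

/-- Explicit weak approximation: an element `f ∈ V₁` can be corrected, modulo `ϖ V₁`, to an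
element of `V₁ ∩ ϖ V₂`. -/
theorem exists_approx (h₁ : IsUnif V₁ ϖ) (h₂ : IsUnif V₂ ϖ) (hne : V₁ ≠ V₂)
    {f : F} (hf : f ∈ V₁) {k : ℕ} (hk : ϖ ^ k * f ∈ V₂) :
    ∃ g : F, g ∈ V₁ ∧ (g - f) * ϖ⁻¹ ∈ V₁ ∧ g * ϖ⁻¹ ∈ V₂ := by
  obtain ⟨c, hc0, hc1, hc2⟩ := exists_separating h₁ h₂ hne
  set n := k + 1 with hn
  have hcn1 : V₁.valuation (c ^ n) < 1 := by
    rw [map_pow]; exact pow_lt_one₀ zero_le hc1 (by omega)
  have hcn2 : V₂.valuation ((c⁻¹) ^ n) < 1 := by
    rw [map_pow]; exact pow_lt_one₀ zero_le hc2 (by omega)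
  have hu1 : V₁.valuation (1 + c ^ n) = 1 := Valuation.map_one_add_of_lt _ hcn1
  have hu2 : V₂.valuation (1 + (c⁻¹) ^ n) = 1 := Valuation.map_one_add_of_lt _ hcn2
  have hne1 : 1 + c ^ n ≠ 0 := by
    intro h; rw [h, map_zero] at hu1; exact zero_ne_one hu1
  have hne2 : 1 + (c⁻¹) ^ n ≠ 0 := by
    intro h; rw [h, map_zero] at hu2; exact zero_ne_one hu2
  set e := (1 + c ^ n)⁻¹ with he
  have he1 : V₁.valuation e = 1 := by rw [he, map_inv₀, hu1, inv_one]
  have hee : e - 1 = -(c ^ n) * e := by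
    rw [he]; field_simp; ring
  have he1' : V₁.valuation (e - 1) < 1 := by
    rw [hee, map_mul, Valuation.map_neg, he1, mul_one]; exact hcn1
  have hee2 : e = (c⁻¹) ^ n * (1 + (c⁻¹) ^ n)⁻¹ := by
    have hcn0 : c ^ n ≠ 0 := pow_ne_zero _ hc0
    have h3 : 1 + (c ^ n)⁻¹ ≠ 0 := by rwa [inv_pow] at hne2
    rw [he, inv_pow, eq_comm, ← div_eq_mul_inv, div_eq_iff h3, ← div_eq_inv_mul, 
      eq_div_iff hne1]
    field_simp
    ring
  have he2 : V₂.valuation e ≤ V₂.valuation ϖ ^ n := by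
    rw [hee2, map_mul, map_inv₀, hu2, inv_one, mul_one, map_pow]
    exact pow_le_pow_left₀ zero_le (h₂.val_le_of_lt_one hc2) n
  refine ⟨f * e, ?_, ?_, ?_⟩
  · exact mul_mem hf ((V₁.valuation_le_one_iff e).1 he1.le)
  · rw [h₁.mul_inv_mem_iff]
    have : f * e - f = f * (e - 1) := by ring
    rw [this, map_mul]
    calc V₁.valuation f * V₁.valuation (e - 1) ≤ 1 * V₁.valuation (e - 1) :=
          mul_le_mul_left ((V₁.valuation_le_one_iff f).2 hf) _
      _ < 1 := by rw [one_mul]; exact he1'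
  · rw [h₂.mul_inv_mem_iff]
    have hk' : V₂.valuation ϖ ^ k * V₂.valuation f ≤ 1 := by
      have := (V₂.valuation_le_one_iff _).2 hk
      rwa [map_mul, map_pow] at this
    rw [map_mul]
    calc V₂.valuation f * V₂.valuation e ≤ V₂.valuation f * V₂.valuation ϖ ^ n :=
          mul_le_mul_right he2 _
      _ = (V₂.valuation ϖ ^ k * V₂.valuation f) * V₂.valuation ϖ := by
          rw [hn, pow_succ, mul_comm (V₂.valuation ϖ ^ k) (V₂.valuation f), mul_assoc]
      _ ≤ 1 * V₂.valuation ϖ := mul_le_mul_left hk' _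
      _ < 1 := by rw [one_mul]; exact h₂.val_lt_one

end Two

end Fermat.Agent.A2.H48

end
-- ===== PACK-END A2/H48/TwoVal.lean

-- ===== PACK-BEGIN A2/Mod/H31/Biv.lean
section


/-!
# A2 / MOD leaf L8 (helper31) — part 1: bivariate degree lemmas (Mathlib only)

`k ⊆ L` fields, `a b : L`, `a` transcendental over `k`.  For an irreducible `P ∈ k[X][Y]` of
positive `Y`-degree with `P(a, b) = 0` we have `[k(a)(b) : k(a)] = deg_Y P`
(`finrank_adjoin_of_irreducible`).  For a polynomial `A`, monic of degree `n` in `Y`, with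
`A(a, b) = A(b, a) = 0` and `[k(a)(b) : k(a)] = n`, the polynomial `A` is symmetric up to a constant
(`exists_swap_eq`) and `[k(ab)(a) : k(ab)] = 2 n` (`finrank_adjoin_mul`).
-/

set_option autoImplicit false

noncomputable section

namespace Fermat.Agent.A2.Mod.H31

open Polynomial IntermediateField
open scoped Polynomial.Bivariate

section Biv

variable {k L : Type*} [Field k] [Field L] [Algebra k L]

/-- The image of a bivariate polynomial over `k` in `k(a)[Y]`, `X ↦ a`. -/
def bivMap (a : L) : k[X][Y] →+* (k⟮a⟯)[X] :=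
  mapRingHom (aeval (AdjoinSimple.gen k a)).toRingHom

theorem transcendental_gen {a : L} (ha : Transcendental k a) :
    Transcendental k (AdjoinSimple.gen k a) := by
  intro h
  apply ha
  have := h.algebraMap (A := L)
  simpa using this

theorem aeval_gen_injective {a : L} (ha : Transcendental k a) :
    Function.Injective (aeval (R := k) (AdjoinSimple.gen k a)).toRingHom :=
  transcendental_iff_injective.mp (transcendental_gen ha)

theorem bivMap_injective {a : L} (ha : Transcendental k a) :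
    Function.Injective (bivMap (k := k) a) :=
  Polynomial.map_injective _ (aeval_gen_injective ha)

theorem aevalAeval_eq_eval₂ (a b : L) (P : k[X][Y]) :
    aevalAeval a b P = eval₂ (aeval (R := k) a).toRingHom b P := by
  induction P using Polynomial.induction_on' with
  | add p q hp hq => simp only [eval₂_add, map_add, hp, hq]
  | monomial n c =>
    rw [eval₂_monomial, ← C_mul_X_pow_eq_monomial, map_mul, map_pow, aevalAeval_C, aevalAeval_Y]
    rfl

theorem aeval_bivMap (a b : L) (P : k[X][Y]) :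
    aeval b (bivMap a P) = aevalAeval a b P := by
  have h : (algebraMap k⟮a⟯ L).comp (aeval (R := k) (AdjoinSimple.gen k a)).toRingHom
      = (aeval (R := k) a).toRingHom := by
    apply Polynomial.ringHom_ext
    · intro r; simp
    · simp
  rw [bivMap, coe_mapRingHom, aeval_def, eval₂_map, h, aevalAeval_eq_eval₂]

/-- The algebra structure `k[X] → k(a)`, `X ↦ a`. -/
@[reducible] def algPoly (a : L) : Algebra k[X] k⟮a⟯ :=
  (aeval (R := k) (AdjoinSimple.gen k a)).toRingHom.toAlgebra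

theorem isFractionRing_poly {a : L} (ha : Transcendental k a) :
    letI := algPoly (k := k) a
    IsFractionRing k[X] k⟮a⟯ := by
  letI := algPoly (k := k) a
  haveI : FaithfulSMul k[X] k⟮a⟯ :=
    (faithfulSMul_iff_algebraMap_injective _ _).mpr (aeval_gen_injective ha)
  refine IsFractionRing.of_field _ _ fun x => ?_
  obtain ⟨r, s, hrs⟩ := (mem_adjoin_simple_iff k (x : L)).mp x.2
  refine ⟨r, s, Subtype.ext ?_⟩
  rw [hrs]
  have h1 : ∀ p : k[X], ((algebraMap k[X] k⟮a⟯ p : k⟮a⟯) : L) = aeval a p := by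
    intro p
    show ((aeval (R := k) (AdjoinSimple.gen k a) p : k⟮a⟯) : L) = aeval a p
    rw [← IntermediateField.algebraMap_apply, ← aeval_algebraMap_apply, AdjoinSimple.algebraMap_gen]
  push_cast
  rw [h1, h1]

theorem irreducible_bivMap {a : L} (ha : Transcendental k a) {P : k[X][Y]}
    (hP : Irreducible P) (hdeg : P.natDegree ≠ 0) : Irreducible (bivMap a P) := by
  letI := algPoly (k := k) a
  haveI := isFractionRing_poly ha
  exact (IsPrimitive.irreducible_iff_irreducible_map_fraction_map (K := k⟮a⟯)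
    (hP.isPrimitive hdeg)).mp hP

theorem natDegree_bivMap {a : L} (ha : Transcendental k a) (P : k[X][Y]) :
    (bivMap a P).natDegree = P.natDegree :=
  natDegree_map_eq_of_injective (aeval_gen_injective ha) P

/-- **Degree from an irreducible relation.** -/
theorem minpoly_eq_of_irreducible {a b : L} (ha : Transcendental k a) {P : k[X][Y]}
    (hP : Irreducible P) (hdeg : P.natDegree ≠ 0) (h0 : aevalAeval a b P = 0) :
    minpoly k⟮a⟯ b = bivMap a P * C (bivMap a P).leadingCoeff⁻¹ :=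
  (minpoly.eq_of_irreducible (irreducible_bivMap ha hP hdeg)
    ((aeval_bivMap a b P).trans h0)).symm

theorem isIntegral_of_irreducible {a b : L} (ha : Transcendental k a) {P : k[X][Y]}
    (hP : Irreducible P) (hdeg : P.natDegree ≠ 0) (h0 : aevalAeval a b P = 0) :
    IsIntegral k⟮a⟯ b := by
  have hne : bivMap a P ≠ 0 := (irreducible_bivMap ha hP hdeg).ne_zero
  exact (isAlgebraic_iff_isIntegral).mp ⟨bivMap a P, hne, (aeval_bivMap a b P).trans h0⟩

theorem finrank_adjoin_of_irreducible {a b : L} (ha : Transcendental k a) {P : k[X][Y]}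
    (hP : Irreducible P) (hdeg : P.natDegree ≠ 0) (h0 : aevalAeval a b P = 0) :
    Module.finrank k⟮a⟯ (k⟮a⟯)⟮b⟯ = P.natDegree := by
  have hne : bivMap a P ≠ 0 := (irreducible_bivMap ha hP hdeg).ne_zero
  rw [adjoin.finrank (isIntegral_of_irreducible ha hP hdeg h0),
    minpoly_eq_of_irreducible ha hP hdeg h0,
    natDegree_mul_C (inv_ne_zero (leadingCoeff_ne_zero.mpr hne)), natDegree_bivMap ha]

/-- A monic relation of the right degree is irreducible, and is the minimal polynomial. -/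
theorem irreducible_of_monic_of_finrank {a b : L} (ha : Transcendental k a) {P : k[X][Y]}
    (hP : P.Monic) (h0 : aevalAeval a b P = 0)
    (hfr : Module.finrank k⟮a⟯ (k⟮a⟯)⟮b⟯ = P.natDegree) :
    Irreducible P ∧ bivMap a P = minpoly k⟮a⟯ b := by
  have hmon : (bivMap a P).Monic := hP.map _
  have hroot : aeval b (bivMap a P) = 0 := (aeval_bivMap a b P).trans h0
  have hint : IsIntegral k⟮a⟯ b := ⟨_, hmon, hroot⟩
  have hdeg : (minpoly k⟮a⟯ b).natDegree = (bivMap a P).natDegree := by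
    rw [← adjoin.finrank hint, hfr, natDegree_bivMap ha]
  have heq : bivMap a P = minpoly k⟮a⟯ b :=
    Polynomial.eq_of_monic_of_dvd_of_natDegree_le (minpoly.monic hint) hmon
      (minpoly.dvd k⟮a⟯ b hroot) hdeg.ge
  refine ⟨?_, heq⟩
  apply Monic.irreducible_of_irreducible_map (aeval (R := k) (AdjoinSimple.gen k a)).toRingHom P hP
  show Irreducible (bivMap a P)
  rw [heq]
  exact minpoly.irreducible hint

/-- **Symmetry of the modular equation** (up to a constant). -/
theorem exists_swap_eq {a b : L} (ha : Transcendental k a) {A : k[X][Y]}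
    (hA : A.Monic) (h0 : aevalAeval a b A = 0) (h0' : aevalAeval b a A = 0)
    (hfr : Module.finrank k⟮a⟯ (k⟮a⟯)⟮b⟯ = A.natDegree) :
    ∃ c : k, c ≠ 0 ∧ Bivariate.swap A = C (C c) * A := by
  obtain ⟨-, heq⟩ := irreducible_of_monic_of_finrank ha hA h0 hfr
  have hdvd : A ∣ Bivariate.swap A := by
    rw [← Polynomial.modByMonic_eq_zero_iff_dvd hA]
    apply bivMap_injective ha
    rw [map_zero]
    show (Bivariate.swap A %ₘ A).map _ = 0
    rw [Polynomial.map_modByMonic _ hA]
    show bivMap a (Bivariate.swap A) %ₘ bivMap a A = 0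
    have hmon : (bivMap a A).Monic := hA.map _
    rw [Polynomial.modByMonic_eq_zero_iff_dvd hmon, heq]
    apply minpoly.dvd
    rw [aeval_bivMap, Bivariate.aevalAeval_swap]
    exact h0'
  obtain ⟨C₁, hC₁⟩ := hdvd
  have h2 : A * (C₁ * Bivariate.swap C₁) = A * 1 := by
    have := congrArg Bivariate.swap hC₁
    rw [Bivariate.swap_swap_apply, map_mul, hC₁] at this
    rw [mul_one, ← mul_assoc]
    exact this.symm
  have h3 : C₁ * Bivariate.swap C₁ = 1 := mul_left_cancel₀ hA.ne_zero h2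
  have hu : IsUnit C₁ := IsUnit.of_mul_eq_one _ h3
  obtain ⟨r, hr, rfl⟩ := Polynomial.isUnit_iff.mp hu
  obtain ⟨c, hc, rfl⟩ := Polynomial.isUnit_iff.mp hr
  exact ⟨c, hc.ne_zero, by rw [hC₁, mul_comm]⟩

theorem coeff_coeff_swap {R : Type*} [CommSemiring R] (P : R[X][Y]) (i m : ℕ) :
    ((Bivariate.swap P).coeff i).coeff m = (P.coeff m).coeff i := by
  induction P using Polynomial.induction_on' with
  | add p q hp hq => simp only [map_add, coeff_add, hp, hq]
  | monomial n c =>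
    induction c using Polynomial.induction_on' with
    | add p q hp hq => simp only [map_add, coeff_add, hp, hq]
    | monomial j r =>
      rw [Bivariate.swap_monomial_monomial, coeff_monomial, coeff_monomial]
      by_cases h1 : j = i <;> by_cases h2 : n = m <;> simp [h1, h2, coeff_monomial]

/-- Inner degree bound from the symmetry. -/
theorem coeff_coeff_eq_zero_of_swap {A : k[X][Y]} {c : k}
    (hsw : Bivariate.swap A = C (C c) * A) (m i : ℕ) (hi : A.natDegree < i) :
    (A.coeff m).coeff i = 0 := by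
  rw [← coeff_coeff_swap, hsw, coeff_C_mul, coeff_C_mul, coeff_eq_zero_of_natDegree_lt hi,
    coeff_zero, mul_zero]

theorem coeff_coeff_natDegree_of_swap {A : k[X][Y]} {c : k} (hA : A.Monic)
    (hsw : Bivariate.swap A = C (C c) * A) :
    (A.coeff 0).coeff A.natDegree = c := by
  rw [← coeff_coeff_swap, hsw, coeff_C_mul, coeff_C_mul, coeff_natDegree, hA.leadingCoeff,
    coeff_one_zero, mul_one]

/-- The `Y`-degree of `swap (Xⁿ A(X, Y/X))` is `2 n`. -/
theorem natDegree_swap_scaleRoots {A : k[X][Y]} {c : k} (hc : c ≠ 0) (hA : A.Monic)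
    (hsw : Bivariate.swap A = C (C c) * A) :
    (Bivariate.swap (scaleRoots A (X : k[X]))).natDegree = 2 * A.natDegree := by
  have key : ∀ i m : ℕ, ((Bivariate.swap (scaleRoots A (X : k[X]))).coeff i).coeff m
      = (A.coeff m * X ^ (A.natDegree - m)).coeff i := by
    intro i m
    rw [coeff_coeff_swap, coeff_scaleRoots]
  apply le_antisymm
  · rw [natDegree_le_iff_coeff_eq_zero]
    intro N hN
    ext m
    rw [key, coeff_zero, coeff_mul_X_pow']
    split_ifs with h
    · by_cases hm : m ≤ A.natDegree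
      · apply coeff_coeff_eq_zero_of_swap hsw
        omega
      · rw [coeff_eq_zero_of_natDegree_lt (not_le.mp hm), coeff_zero]
    · rfl
  · apply le_natDegree_of_ne_zero
    intro h
    have h1 : ((Bivariate.swap (scaleRoots A (X : k[X]))).coeff (2 * A.natDegree)).coeff 0
        = 0 := by rw [h, coeff_zero]
    rw [key, Nat.sub_zero, coeff_mul_X_pow', if_pos (by omega)] at h1
    have h2 : 2 * A.natDegree - A.natDegree = A.natDegree := by omega
    rw [h2, coeff_coeff_natDegree_of_swap hA hsw] at h1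
    exact hc h1

theorem aevalAeval_scaleRoots (a b : L) (A : k[X][Y]) :
    aevalAeval a (a * b) (scaleRoots A (X : k[X])) = a ^ A.natDegree * aevalAeval a b A := by
  rw [aevalAeval_eq_eval₂, aevalAeval_eq_eval₂]
  have := scaleRoots_eval₂_mul (p := A) (aeval (R := k) a).toRingHom b (X : k[X])
  simpa using this

/-- **The degree of `k(a, b)` over `k(ab)`** for a pair `(a, b)` satisfying a symmetric monic
relation of degree `n = [k(a,b) : k(a)]`: it is `2 n`. -/
theorem finrank_adjoin_mul {a b : L} (ha : Transcendental k a) (hx : Transcendental k (a * b))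
    {A : k[X][Y]} (hA : A.Monic) (h0 : aevalAeval a b A = 0) (h0' : aevalAeval b a A = 0)
    (hfr : Module.finrank k⟮a⟯ (k⟮a⟯)⟮b⟯ = A.natDegree) :
    Module.finrank k⟮a * b⟯ (k⟮a * b⟯)⟮a⟯ = 2 * A.natDegree := by
  have ha0 : a ≠ 0 := by
    rintro rfl
    exact ha isAlgebraic_zero
  have hn : A.natDegree ≠ 0 := by
    intro hn
    have h1 : A = 1 := by
      exact hA.natDegree_eq_zero.mp hn
    rw [h1, map_one] at h0
    exact one_ne_zero h0
  -- `k(a)(ab) = k(a)(b)`
  have hfields : (k⟮a⟯)⟮a * b⟯ = (k⟮a⟯)⟮b⟯ := by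
    have hamem : ∀ F : IntermediateField k⟮a⟯ L, a ∈ F := fun F =>
      F.algebraMap_mem (⟨a, mem_adjoin_simple_self k a⟩ : k⟮a⟯)
    apply le_antisymm
    · rw [adjoin_simple_le_iff]
      exact mul_mem (hamem _) (mem_adjoin_simple_self _ b)
    · rw [adjoin_simple_le_iff]
      have h1 : a⁻¹ * (a * b) = b := by field_simp
      have h2 : a⁻¹ * (a * b) ∈ (k⟮a⟯)⟮a * b⟯ :=
        mul_mem (inv_mem (hamem _)) (mem_adjoin_simple_self _ (a * b))
      rwa [h1] at h2
  obtain ⟨c, hc, hsw⟩ := exists_swap_eq ha hA h0 h0' hfr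
  -- the scaled polynomial
  have hG'mon : (scaleRoots A (X : k[X])).Monic := (monic_scaleRoots_iff _).mpr hA
  have hG'0 : aevalAeval a (a * b) (scaleRoots A (X : k[X])) = 0 := by
    rw [aevalAeval_scaleRoots, h0, mul_zero]
  have hG'fr : Module.finrank k⟮a⟯ (k⟮a⟯)⟮a * b⟯ = (scaleRoots A (X : k[X])).natDegree := by
    rw [natDegree_scaleRoots, hfields, hfr]
  obtain ⟨hG'irr, -⟩ := irreducible_of_monic_of_finrank ha hG'mon hG'0 hG'fr
  have hGirr : Irreducible (Bivariate.swap (scaleRoots A (X : k[X]))) :=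
    (MulEquiv.irreducible_iff (Bivariate.swap (R := k))).mpr hG'irr
  have hGdeg := natDegree_swap_scaleRoots hc hA hsw
  have hG0 : aevalAeval (a * b) a (Bivariate.swap (scaleRoots A (X : k[X]))) = 0 := by
    rw [Bivariate.aevalAeval_swap]
    exact hG'0
  rw [finrank_adjoin_of_irreducible hx hGirr (by rw [hGdeg]; omega) hG0, hGdeg]

end Biv

end Fermat.Agent.A2.Mod.H31

end

end
-- ===== PACK-END A2/Mod/H31/Biv.lean

-- ===== PACK-BEGIN A2/Mod/H372/KronClosure.lean
section


/-!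
# A2 / MODASM S3, abstract part (helper372): closure of a chart under the Kronecker twist

Mathlib-only.  Setting (residue-field form): `S` a ring (the Gauss valuation ring `V∞_M` of
level `M`), `A → S` a subring (the level-`M` chart), `κ` a reduced ring of characteristic `q`
(the residue field of a Gauss valuation ring of level `Mq`), `f g : S →+* κ` the reductions of the
two degeneracy maps.

* `isIntegralElem_of_forall_exists` : integrality is inherited along an inclusion of ranges;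
* `isIntegralElem_of_frobenius`     : `y ^ q` integral over `Frob ∘ f` ⟹ `y` integral over `f`;
* `exists_eq_pow_of_normal`         : **Kronecker closure**: if `g s = (f s') ^ q` is solvable in
  `S` (leaf L12), `A` is "normal in `S` modulo `ker f`" (`GoodRedAt.normal`), `A` is integral over
  a polynomial ring `R[y]` with `g = f` on `R` and `g y = (f y) ^ q`, then `g a = (f a') ^ q` is
  solvable in `A` (`a ∈ A`);
* `exists_eq_of_normal`             : **residue degree one on the chart**: the same mechanism gives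
  `ρ b = f a` for `b` in a chart `B` of level `Mq` (leaf L11).
-/

set_option autoImplicit false

namespace Fermat.Agent.A2.Mod.H372

open Polynomial

section Integral

variable {A C κ : Type*} [CommRing A] [CommRing C] [CommRing κ]

/-- Integrality with respect to `h` implies integrality with respect to `f` when the range of
`h` is contained in the range of `f`. -/
theorem isIntegralElem_of_forall_exists (h : C →+* κ) (f : A →+* κ)
    (hr : ∀ c, ∃ a, f a = h c) {x : κ} (hx : h.IsIntegralElem x) : f.IsIntegralElem x := by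
  obtain ⟨p, hp, hpx⟩ := hx
  have hlift : p.map h ∈ Polynomial.lifts f := by
    rw [Polynomial.lifts_iff_coeff_lifts]
    intro n
    rw [Polynomial.coeff_map]
    obtain ⟨a, ha⟩ := hr (p.coeff n)
    exact ⟨a, ha⟩
  obtain ⟨p', hp', -, hmon⟩ := Polynomial.lifts_and_natDegree_eq_and_monic hlift (hp.map h)
  refine ⟨p', hmon, ?_⟩
  rw [← Polynomial.eval_map, hp', Polynomial.eval_map, hpx]

/-- Integrality is preserved by ring homomorphisms. -/
theorem isIntegralElem_map {B : Type*} [CommRing B] (j : C →+* A) (φ : A →+* B) {a : A}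
    (ha : j.IsIntegralElem a) : (φ.comp j).IsIntegralElem (φ a) := by
  obtain ⟨p, hp, hpa⟩ := ha
  refine ⟨p, hp, ?_⟩
  rw [← Polynomial.hom_eval₂, hpa, map_zero]

/-- Frobenius descent of integrality. -/
theorem isIntegralElem_of_frobenius (q : ℕ) [ExpChar κ q] [IsReduced κ] (f : A →+* κ) {y : κ}
    (h : ((frobenius κ q).comp f).IsIntegralElem (y ^ q)) : f.IsIntegralElem y := by
  obtain ⟨p, hp, hpy⟩ := h
  refine ⟨p, hp, ?_⟩
  have h1 : frobenius κ q (p.eval₂ f y) = 0 := by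
    rw [Polynomial.hom_eval₂, frobenius_def, hpy]
  exact frobenius_inj κ q (by rw [h1, map_zero])

end Integral

section Closure

variable {R S A κ : Type*} [CommRing R] [CommRing S] [CommRing A] [CommRing κ]

/-- **Kronecker closure of the chart.** -/
theorem exists_eq_pow_of_normal (q : ℕ) [ExpChar κ q] [IsReduced κ]
    (f g : S →+* κ) (ι : A →+* S)
    (hnormal : ∀ s : S, (f.comp ι).IsIntegralElem (f s) → ∃ a : A, f s = f (ι a))
    (hK : ∀ s : S, ∃ s' : S, g s = (f s') ^ q)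
    (c : R →+* A) (y : A)
    (hint : ∀ a : A, (Polynomial.eval₂RingHom c y).IsIntegralElem a)
    (hc : ∀ r : R, g (ι (c r)) = f (ι (c r)))
    (hy : g (ι y) = (f (ι y)) ^ q) :
    ∀ a : A, ∃ a' : A, g (ι a) = (f (ι a')) ^ q := by
  -- constants
  have hconst : ∀ r : R, ∃ a : A, g (ι (c r)) = (f (ι a)) ^ q := by
    intro r
    obtain ⟨s', hs'⟩ := hK (ι (c r))
    have hint' : (f.comp ι).IsIntegralElem (f s') := by
      refine ⟨X ^ q - C (c r), ?_, ?_⟩
      · exact Polynomial.monic_X_pow_sub_C _ (expChar_pos κ q).ne'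
      · rw [Polynomial.eval₂_sub, Polynomial.eval₂_pow, Polynomial.eval₂_X, Polynomial.eval₂_C,
          RingHom.comp_apply, ← hs', hc, sub_self]
    obtain ⟨a, ha⟩ := hnormal s' hint'
    exact ⟨a, by rw [hs', ha]⟩
  -- polynomials
  have hpoly : ∀ p : Polynomial R, ∃ a : A,
      g (ι (Polynomial.eval₂RingHom c y p)) = (f (ι a)) ^ q := by
    intro p
    induction p using Polynomial.induction_on' with
    | add p₁ p₂ h₁ h₂ =>
      obtain ⟨a₁, h₁⟩ := h₁
      obtain ⟨a₂, h₂⟩ := h₂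
      refine ⟨a₁ + a₂, ?_⟩
      rw [map_add, map_add, map_add, h₁, h₂, map_add, map_add, add_pow_expChar]
    | monomial n r =>
      obtain ⟨a, ha⟩ := hconst r
      refine ⟨a * y ^ n, ?_⟩
      rw [Polynomial.coe_eval₂RingHom, Polynomial.eval₂_monomial, map_mul, map_mul, map_pow,
        map_pow, ha, hy, map_mul, map_mul, map_pow, map_pow, mul_pow, ← pow_mul, ← pow_mul,
        mul_comm q n]
  intro a
  obtain ⟨s', hs'⟩ := hK (ι a)
  have h1 : ((g.comp ι).comp (Polynomial.eval₂RingHom c y)).IsIntegralElem (g (ι a)) :=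
    isIntegralElem_map (Polynomial.eval₂RingHom c y) (g.comp ι) (hint a)
  have h2 : ((frobenius κ q).comp (f.comp ι)).IsIntegralElem ((f s') ^ q) := by
    rw [← hs']
    refine isIntegralElem_of_forall_exists _ _ (fun p => ?_) h1
    obtain ⟨a', ha'⟩ := hpoly p
    exact ⟨a', by
      rw [RingHom.comp_apply, RingHom.comp_apply, frobenius_def, RingHom.comp_apply,
        RingHom.comp_apply, ha']⟩
  obtain ⟨a', ha'⟩ := hnormal s' (isIntegralElem_of_frobenius q _ h2)
  exact ⟨a', by rw [hs', ha']⟩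

/-- **Residue degree one on the chart.** -/
theorem exists_eq_of_normal {B : Type*} [CommRing B]
    (f : S →+* κ) (ι : A →+* S)
    (hnormal : ∀ s : S, (f.comp ι).IsIntegralElem (f s) → ∃ a : A, f s = f (ι a))
    (ρ : B →+* κ) (hres : ∀ b : B, ∃ s : S, ρ b = f s)
    (c : R →+* B) (y : B)
    (hc : ∀ r : R, ∃ a : A, ρ (c r) = f (ι a))
    (hy : ∃ a : A, ρ y = f (ι a)) :
    ∀ b : B, (Polynomial.eval₂RingHom c y).IsIntegralElem b → ∃ a : A, ρ b = f (ι a) := by
  have hpoly : ∀ p : Polynomial R, ∃ a : A, ρ (Polynomial.eval₂RingHom c y p) = f (ι a) := by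
    intro p
    induction p using Polynomial.induction_on' with
    | add p₁ p₂ h₁ h₂ =>
      obtain ⟨a₁, h₁⟩ := h₁
      obtain ⟨a₂, h₂⟩ := h₂
      exact ⟨a₁ + a₂, by rw [map_add, map_add, h₁, h₂, map_add, map_add]⟩
    | monomial n r =>
      obtain ⟨a, ha⟩ := hc r
      obtain ⟨ay, hay⟩ := hy
      refine ⟨a * ay ^ n, ?_⟩
      rw [Polynomial.coe_eval₂RingHom, Polynomial.eval₂_monomial, map_mul, map_pow, ha, hay,
        map_mul, map_mul, map_pow, map_pow]
  intro b hb
  obtain ⟨s, hs⟩ := hres b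
  have h1 : (ρ.comp (Polynomial.eval₂RingHom c y)).IsIntegralElem (ρ b) :=
    isIntegralElem_map (Polynomial.eval₂RingHom c y) ρ hb
  have h2 : (f.comp ι).IsIntegralElem (f s) := by
    rw [← hs]
    refine isIntegralElem_of_forall_exists _ _ (fun p => ?_) h1
    obtain ⟨a, ha⟩ := hpoly p
    exact ⟨a, by rw [RingHom.comp_apply, RingHom.comp_apply, ha]⟩
  obtain ⟨a, ha⟩ := hnormal s h2
  exact ⟨a, by rw [hs, ha]⟩

end Closure

end Fermat.Agent.A2.Mod.H372

end
-- ===== PACK-END A2/Mod/H372/KronClosure.lean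

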