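import Fermat.Prelude.Def_EllipticCurve_FrobeniusTrace
import Mathlib
import Mathlib.RingTheory.Length
import Mathlib.RingTheory.Localization.AsSubring
import Mathlib.RingTheory.Localization.AtPrime.Basic
import Mathlib.RingTheory.Localization.Ideal
import Mathlib.RingTheory.DiscreteValuationRing.TFAE
import Mathlib.RingTheory.Ideal.AssociatedPrime.Basic
import Mathlib.RingTheory.Valuation.ValuationSubring
import Mathlib.RingTheory.Valuation.ValuationRing
import Mathlib.RingTheory.IntegralClosure.IntegrallyClosed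
import Mathlib.Tactic
import Fermat.Agent.Pack.S34.G0E0L2
import Fermat.Agent.Pack.S34.G0E0L1
import Fermat.Agent.Pack.S34.G0E0L0
import Fermat.Agent.Pack.S34.G0E0L3

-- ===== PACK-BEGIN S54/FrobExists.lean
section




set_option autoImplicit false

namespace Fermat.Agent.S54

open scoped Pointwise

/-- The prime of the ring of algebraic integers below a valuation subring. -/
def primeBelow (A : ValuationSubring (AlgebraicClosure ℚ)) :
    Ideal (integralClosure ℤ (AlgebraicClosure ℚ)) where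
  carrier := {b | (b : AlgebraicClosure ℚ) ∈ A.nonunits}
  add_mem' := fun {a b} ha hb => A.nonunits.add_mem ha hb
  zero_mem' := A.nonunits.zero_mem
  smul_mem' := fun c b hb => by
    obtain ⟨hb1, hb2⟩ := ValuationSubring.mem_nonunits_iff_exists_mem_maximalIdeal.mp hb
    have hc : (c : AlgebraicClosure ℚ) ∈ A := isIntegral_mem_valuationSubring A c.2
    have := Ideal.mul_mem_left _ (⟨c, hc⟩ : A) hb2
    exact ValuationSubring.mem_nonunits_iff_exists_mem_maximalIdeal.mpr ⟨_, this⟩

theorem mem_primeBelow (A : ValuationSubring (AlgebraicClosure ℚ))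
    (b : integralClosure ℤ (AlgebraicClosure ℚ)) :
    b ∈ primeBelow A ↔ (b : AlgebraicClosure ℚ) ∈ A.nonunits := Iff.rfl

theorem primeBelow_isPrime (A : ValuationSubring (AlgebraicClosure ℚ)) :
    (primeBelow A).IsPrime := by
  constructor
  · intro h
    have : (1 : integralClosure ℤ (AlgebraicClosure ℚ)) ∈ primeBelow A := by
      rw [h]; trivial
    rw [mem_primeBelow, ValuationSubring.mem_nonunits_iff] at this
    simp at this
  · intro a b hab
    rw [mem_primeBelow, ValuationSubring.mem_nonunits_iff] at hab ⊢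
    rw [mem_primeBelow, ValuationSubring.mem_nonunits_iff]
    have ha : A.valuation (a : AlgebraicClosure ℚ) ≤ 1 :=
      (A.valuation_le_one_iff _).mpr (isIntegral_mem_valuationSubring A a.2)
    have hb : A.valuation (b : AlgebraicClosure ℚ) ≤ 1 :=
      (A.valuation_le_one_iff _).mpr (isIntegral_mem_valuationSubring A b.2)
    by_contra hcon
    rw [not_or, not_lt, not_lt] at hcon
    have ha1 : A.valuation (a : AlgebraicClosure ℚ) = 1 := le_antisymm ha hcon.1
    have hb1 : A.valuation (b : AlgebraicClosure ℚ) = 1 := le_antisymm hb hcon.2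
    have : A.valuation ((a * b : integralClosure ℤ (AlgebraicClosure ℚ)) : AlgebraicClosure ℚ)
        = 1 := by
      push_cast
      rw [map_mul, ha1, hb1, mul_one]
    exact absurd hab (by rw [this]; exact lt_irrefl _)

/-- There is a valuation subring of `ℚ̄` over every prime number. -/
theorem exists_valuationSubring_liesOver (ℓ : ℕ) (hℓ : ℓ.Prime) :
    ∃ A : ValuationSubring (AlgebraicClosure ℚ), A.LiesOverPrime ℓ := by
  let A₀ : Subring (AlgebraicClosure ℚ) := (algebraMap ℤ (AlgebraicClosure ℚ)).range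
  let l₀ : A₀ := ⟨(ℓ : AlgebraicClosure ℚ), ⟨(ℓ : ℤ), by simp⟩⟩
  have hI : Ideal.span {l₀} ≠ ⊤ := by
    intro h
    rw [Ideal.span_singleton_eq_top] at h
    obtain ⟨⟨m, n, rfl⟩, hm⟩ := h.exists_right_inv
    have h1 : ((ℓ : ℤ) : AlgebraicClosure ℚ) * ((n : ℤ) : AlgebraicClosure ℚ) = 1 := by
      have := congrArg Subtype.val hm
      simpa [l₀] using this
    have h2 : (ℓ : ℤ) * n = 1 := by exact_mod_cast h1
    have h3 : (ℓ : ℤ) ∣ 1 := ⟨n, h2.symm⟩
    have h4 : ℓ ∣ 1 := by exact_mod_cast h3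
    exact hℓ.one_lt.ne' (Nat.dvd_one.mp h4)
  obtain ⟨A, -, hA⟩ := Ideal.image_subset_nonunits_valuationSubring _ hI
  refine ⟨A, ?_⟩
  apply hA
  exact ⟨l₀, Ideal.subset_span rfl, rfl⟩

/-- Existence of Frobenius elements in the absolute Galois group of `ℚ`: for every prime
number `ℓ` there are a valuation subring `A` of `ℚ̄` over `ℓ` and `σ ∈ Gal(ℚ̄/ℚ)` which is a
Frobenius element at `A`. -/
theorem exists_frobenius (ℓ : ℕ) (hℓ : ℓ.Prime) :
    ∃ (A : ValuationSubring (AlgebraicClosure ℚ))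
      (σ : AlgebraicClosure ℚ ≃ₐ[ℚ] AlgebraicClosure ℚ),
      A.LiesOverPrime ℓ ∧ A.IsFrobeniusAt σ ℓ := by
  have : Algebra.IsAlgebraic ℚ (AlgebraicClosure ℚ) := AlgebraicClosure.isAlgebraic ℚ
  obtain ⟨A, hA⟩ := exists_valuationSubring_liesOver ℓ hℓ
  have := primeBelow_isPrime A
  have hℓQ : (ℓ : integralClosure ℤ (AlgebraicClosure ℚ)) ∈ primeBelow A := by
    rw [mem_primeBelow]
    exact hA
  obtain ⟨σ, hσQ', hσF⟩ := exists_frob_integralClosure ℓ hℓ (primeBelow A) hℓQ
  have hσQ : ∀ x, σ • x ∈ primeBelow A ↔ x ∈ primeBelow A := by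
    intro x
    conv_lhs => rw [← hσQ']
    exact Ideal.smul_mem_pointwise_smul_iff
  have key : ∀ τ : AlgebraicClosure ℚ ≃ₐ[ℚ] AlgebraicClosure ℚ,
      (∀ x, τ • x ∈ primeBelow A ↔ x ∈ primeBelow A) → ∀ x ∈ A, τ x ∈ A := by
    intro τ hτ x hx
    obtain ⟨b, s, hb, hs, hsA, hxs⟩ := (mem_valuationSubring_iff A ℓ hℓ hA x).mp hx
    refine (mem_valuationSubring_iff A ℓ hℓ hA (τ x)).mpr
      ⟨τ b, τ s, hb.map τ, hs.map τ, ?_, ?_⟩
    · exact (hτ ⟨s, hs⟩).not.mpr hsA
    · rw [← map_mul, hxs]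
  have hσA : σ ∈ A.decompositionSubgroup ℚ := by
    rw [MulAction.mem_stabilizer_iff]
    ext x
    rw [ValuationSubring.mem_smul_pointwise_iff_exists]
    constructor
    · rintro ⟨s, hs, rfl⟩
      exact key σ hσQ s hs
    · intro hx
      refine ⟨σ⁻¹ • x, key σ⁻¹ ?_ x hx, by simp⟩
      intro y
      rw [← hσQ (σ⁻¹ • y)]
      simp
  refine ⟨A, σ, hA, hσA, ?_⟩
  intro x
  obtain ⟨a, rfl⟩ := IsLocalRing.residue_surjective x
  obtain ⟨b, s, hb, hs, hsA, hxs⟩ := (mem_valuationSubring_iff A ℓ hℓ hA a).mp a.2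
  have hbA : b ∈ A := isIntegral_mem_valuationSubring A hb
  have hsA' : s ∈ A := isIntegral_mem_valuationSubring A hs
  have hint : ∀ (y : AlgebraicClosure ℚ) (hy : IsIntegral ℤ y),
      (⟨σ, hσA⟩ : A.decompositionSubgroup ℚ) •
        IsLocalRing.residue A ⟨y, isIntegral_mem_valuationSubring A hy⟩ =
      (IsLocalRing.residue A ⟨y, isIntegral_mem_valuationSubring A hy⟩) ^ ℓ := by
    intro y hy
    rw [← IsLocalRing.ResidueField.residue_smul, ← map_pow, ← sub_eq_zero, ← map_sub,
      IsLocalRing.residue_eq_zero_iff, ← ValuationSubring.coe_mem_nonunits_iff]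
    exact hσF ⟨y, hy⟩
  have h1 : IsLocalRing.residue A a * IsLocalRing.residue A ⟨s, hsA'⟩ =
      IsLocalRing.residue A ⟨b, hbA⟩ := by
    rw [← map_mul]
    congr 1
    exact Subtype.ext hxs
  have h2 : IsLocalRing.residue A ⟨s, hsA'⟩ ≠ 0 := by
    rw [Ne, IsLocalRing.residue_eq_zero_iff, ← ValuationSubring.coe_mem_nonunits_iff]
    exact hsA
  have h3 := congrArg (fun z => (⟨σ, hσA⟩ : A.decompositionSubgroup ℚ) • z) h1
  simp only [smul_mul'] at h3
  rw [hint s hs, hint b hb, ← h1, mul_pow] at h3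
  exact mul_right_cancel₀ (pow_ne_zero _ h2) h3

end Fermat.Agent.S54

end
-- ===== PACK-END S54/FrobExists.lean

-- ===== PACK-BEGIN Lib/Cheb/H764/Count.lean
section



/-!
# CHEB / piece A: `Spec.CountStatement`

For a Galois number field `L/ℚ`, a subgroup `H ≤ Gal(L/ℚ)`, `F = L^H` and a prime `p` not dividing
the discriminant of `L`:
`#{primes of 𝓞 F of norm p} * |H| = ∑_{P ∣ p, D_P ≤ H} |D_P|`.
-/

set_option autoImplicit false
set_option linter.unusedSectionVars false
set_option linter.unusedVariables false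
set_option linter.style.haveILetI false

open NumberField Ideal MulAction
open scoped Pointwise

namespace Fermat.Agent.Lib.Cheb.H764

open Fermat.Agent.Lib.Cheb.Spec

section

variable (L : Type) [Field L] [NumberField L] [IsGalois ℚ L]

/-- the bad set: primes dividing the discriminant -/
noncomputable def badPrimes : Finset ℕ := (NumberField.discr L).natAbs.primeFactors

lemma not_dvd_discr_of_not_mem_badPrimes {p : ℕ} (hp : p.Prime) (hpB : p ∉ badPrimes L) :
    ¬ (p : ℤ) ∣ NumberField.discr L := by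
  intro h
  apply hpB
  rw [badPrimes, Nat.mem_primeFactors]
  refine ⟨hp, ?_, ?_⟩
  · exact Int.natCast_dvd.mp h
  · exact Int.natAbs_ne_zero.mpr (NumberField.discr_ne_zero L)

lemma liesOver_of_mem {F : Type} [Field F] [NumberField F] {p : ℕ} (hp : p.Prime)
    (P : Ideal (𝓞 F)) [P.IsPrime] (hP : (p : 𝓞 F) ∈ P) :
    P.LiesOver (Ideal.span {(p : ℤ)}) := by
  have hp' : Prime (p : ℤ) := Nat.prime_iff_prime_int.mp hp
  rw [Ideal.liesOver_span_iff (IsPrime.ne_top inferInstance) hp']
  simpa using hP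

lemma mem_of_liesOver {F : Type} [Field F] [NumberField F] {p : ℕ} (hp : p.Prime)
    (P : Ideal (𝓞 F)) [P.IsPrime] [hP : P.LiesOver (Ideal.span {(p : ℤ)})] :
    (p : 𝓞 F) ∈ P := by
  have hp' : Prime (p : ℤ) := Nat.prime_iff_prime_int.mp hp
  have := (Ideal.liesOver_span_iff (IsPrime.ne_top inferInstance) hp').mp hP
  simpa using this

lemma ramificationIdx_eq_one_of_not_mem_badPrimes {p : ℕ} (hp : p.Prime) (hpB : p ∉ badPrimes L)
    (P : Ideal (𝓞 L)) [P.IsPrime] (hP : (p : 𝓞 L) ∈ P) : P.ramificationIdx ℤ = 1 := by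
  have hp' : Prime (p : ℤ) := Nat.prime_iff_prime_int.mp hp
  have h := (NumberField.not_dvd_discr_iff_forall_mem L (𝓞 L) hp').mp
    (not_dvd_discr_of_not_mem_badPrimes L hp hpB) P inferInstance (by simpa using hP)
  exact Ideal.ramificationIdx_eq_one_of_isUnramifiedAt

end

section main

variable (L : Type) [Field L] [NumberField L] [IsGalois ℚ L] (H : Subgroup (L ≃ₐ[ℚ] L))

lemma isGaloisGroup_fixedField :
    IsGaloisGroup H (IntermediateField.fixedField H) L :=
  IsGaloisGroup.subgroup (L ≃ₐ[ℚ] L) ℚ L H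

lemma isGaloisGroup_ringOfIntegers :
    IsGaloisGroup H (𝓞 (IntermediateField.fixedField H)) (𝓞 L) := by
  haveI := isGaloisGroup_fixedField L H
  exact IsGaloisGroup.of_isFractionRing H (𝓞 (IntermediateField.fixedField H)) (𝓞 L)
    (IntermediateField.fixedField H) L

lemma span_isPrime {p : ℕ} (hp : p.Prime) : (Ideal.span {(p : ℤ)}).IsPrime :=
  (Ideal.span_singleton_prime (by exact_mod_cast hp.ne_zero)).mpr (Nat.prime_iff_prime_int.mp hp)

/-- data attached to a prime `𝔮` of `𝓞 F` of norm `p` -/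
lemma ef_eq_one_of_absNorm_eq {p : ℕ} (hp : p.Prime) (hpB : p ∉ badPrimes L)
    (q : Ideal (𝓞 (IntermediateField.fixedField H))) [q.IsPrime] (hq : absNorm q = p) :
    q.LiesOver (Ideal.span {(p : ℤ)}) ∧ q.ramificationIdx ℤ * q.inertiaDeg ℤ = 1 := by
  have hmem : (p : 𝓞 (IntermediateField.fixedField H)) ∈ q := by
    have := Ideal.absNorm_mem q
    rwa [hq] at this
  haveI hlo : q.LiesOver (Ideal.span {(p : ℤ)}) := liesOver_of_mem hp q hmem
  refine ⟨hlo, ?_⟩
  have hf : q.inertiaDeg ℤ = 1 := by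
    have h1 := Ideal.pow_inertiaDeg p q
    rw [hq] at h1
    exact Nat.pow_right_injective hp.two_le (by simpa using h1)
  obtain ⟨⟨P, hP1, hP2⟩⟩ := (inferInstance : Nonempty (q.primesOver (𝓞 L)))
  haveI := hP1
  haveI := hP2
  have hPmem : (p : 𝓞 L) ∈ P := by
    have h2 : algebraMap (𝓞 (IntermediateField.fixedField H)) (𝓞 L)
        (p : 𝓞 (IntermediateField.fixedField H)) ∈ P := by
      rw [← Ideal.mem_comap, ← Ideal.under_def, ← Ideal.over_def P q]
      exact hmem
    simpa using h2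
  have he := ramificationIdx_eq_one_of_not_mem_badPrimes L hp hpB P hPmem
  rw [Ideal.ramificationIdx_tower (R := ℤ) q P] at he
  rw [hf, mul_one]
  exact Nat.eq_one_of_mul_eq_one_right he

/-- a prime `P` of `𝓞 L` over `p` with `D_P ≤ H` restricts to a prime of `𝓞 F` of norm `p` -/
lemma absNorm_under_eq {p : ℕ} (hp : p.Prime)
    (P : Ideal (𝓞 L)) [P.IsPrime] (hP : (p : 𝓞 L) ∈ P)
    (hle : stabilizer (L ≃ₐ[ℚ] L) P ≤ H) :
    (P.under (𝓞 (IntermediateField.fixedField H))).IsPrime ∧
      absNorm (P.under (𝓞 (IntermediateField.fixedField H))) = p := by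
  haveI := isGaloisGroup_ringOfIntegers L H
  haveI := span_isPrime hp
  haveI : P.LiesOver (Ideal.span {(p : ℤ)}) := liesOver_of_mem hp P hP
  haveI hqp : (P.under (𝓞 (IntermediateField.fixedField H))).IsPrime := inferInstance
  haveI : (P.under (𝓞 (IntermediateField.fixedField H))).LiesOver (Ideal.span {(p : ℤ)}) :=
    LiesOver.tower_bot P _ _
  refine ⟨hqp, ?_⟩
  have h1 := (ramificationIdx_mul_inertiaDeg_eq_one_iff (G := L ≃ₐ[ℚ] L) H
    (Ideal.span {(p : ℤ)}) (P.under (𝓞 (IntermediateField.fixedField H))) P).mpr hle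
  have hf : (P.under (𝓞 (IntermediateField.fixedField H))).inertiaDeg ℤ = 1 :=
    Nat.eq_one_of_mul_eq_one_left h1
  have h2 := Ideal.pow_inertiaDeg p (P.under (𝓞 (IntermediateField.fixedField H)))
  rw [hf, pow_one] at h2
  exact h2.symm

/-- **Piece A**, for primes not dividing the discriminant. -/
theorem count_of_not_mem_badPrimes {p : ℕ} (hp : p.Prime) (hpB : p ∉ badPrimes L) :
    primeCount (IntermediateField.fixedField H) p * Nat.card H = decompWeight L H p := by
  classical
  haveI := isGaloisGroup_ringOfIntegers L H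
  haveI := span_isPrime hp
  have hfinT : {q : Ideal (𝓞 (IntermediateField.fixedField H)) |
      q.IsPrime ∧ absNorm q = p}.Finite :=
    (Ideal.finite_setOf_absNorm_eq p).subset (fun q h => h.2)
  have hfinS : (primesLe L H p).Finite := by
    refine Set.Finite.subset
      (Algebra.QuasiFinite.finite_primesOver (S := 𝓞 L) (Ideal.span {(p : ℤ)})) ?_
    rintro P ⟨hP1, hP2, -⟩
    haveI := hP1
    exact ⟨hP1, liesOver_of_mem hp P hP2⟩
  -- the left-hand side
  have hL : primeCount (IntermediateField.fixedField H) p = hfinT.toFinset.card := by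
    rw [← Set.ncard_eq_toFinset_card _ hfinT, ← Nat.card_coe_set_eq]
    rfl
  -- the right-hand side
  have hR : decompWeight L H p = ∑ P ∈ hfinS.toFinset, Nat.card (decomp L P) := by
    rw [decompWeight, finsum_set_coe_eq_finsum_mem (f := fun P => Nat.card (decomp L P)),
      finsum_mem_eq_finite_toFinset_sum _ hfinS]
  rw [hL, hR]
  have hmaps : ∀ P ∈ hfinS.toFinset,
      P.under (𝓞 (IntermediateField.fixedField H)) ∈ hfinT.toFinset := by
    intro P hP
    rw [Set.Finite.mem_toFinset] at hP ⊢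
    obtain ⟨hP1, hP2, hP3⟩ := hP
    haveI := hP1
    exact absNorm_under_eq L H hp P hP2 hP3
  rw [← Finset.sum_fiberwise_of_maps_to hmaps, Finset.card_eq_sum_ones, Finset.sum_mul]
  refine Finset.sum_congr rfl fun q hq => ?_
  rw [Set.Finite.mem_toFinset] at hq
  obtain ⟨hq1, hq2⟩ := hq
  haveI := hq1
  obtain ⟨hlo, hef⟩ := ef_eq_one_of_absNorm_eq L H hp hpB q hq2
  haveI := hlo
  rw [one_mul, ← finsum_card_stabilizer_primesOver (G := L ≃ₐ[ℚ] L) H (Ideal.span {(p : ℤ)}) q hef
    (Algebra.QuasiFinite.finite_primesOver (S := 𝓞 L) q) Set.Nonempty.of_subtype,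
    ← finsum_mem_coe_finset]
  refine finsum_mem_congr ?_ (fun _ _ => rfl)
  ext P
  rw [Finset.coe_filter, Set.mem_setOf_eq, Set.Finite.mem_toFinset]
  constructor
  · intro hP
    have hP1 : P.IsPrime := hP.1
    have hP2 : P.LiesOver q := hP.2
    haveI := hP1
    haveI := hP2
    haveI : P.LiesOver (Ideal.span {(p : ℤ)}) := LiesOver.trans P q _
    refine ⟨⟨hP1, mem_of_liesOver hp P, ?_⟩, (Ideal.over_def P q).symm⟩
    exact (ramificationIdx_mul_inertiaDeg_eq_one_iff (G := L ≃ₐ[ℚ] L) H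
      (Ideal.span {(p : ℤ)}) q P).mp hef
  · rintro ⟨hP, hP4⟩
    exact ⟨hP.1, ⟨hP4.symm⟩⟩

/-- **Piece A** of the CHEB library: `Spec.CountStatement`. -/
theorem count : Spec.CountStatement := by
  intro L _ _ _ H
  exact ⟨badPrimes L, fun p hp hpB => count_of_not_mem_badPrimes L H hp hpB⟩

end main

end Fermat.Agent.Lib.Cheb.H764

end
-- ===== PACK-END Lib/Cheb/H764/Count.lean

-- ===== PACK-BEGIN Lib/Cheb/H943/Frob.lean
section


/-!
# CHEB piece D: `Spec.FrobStatement` (helper943)

Outside the finite set of prime divisors of the absolute norm of the different ideal of a Galois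
number field `L/ℚ`, every prime `P` of `𝓞 L` has trivial inertia group, an arithmetic Frobenius
`τ`, and decomposition group `zpowers τ`.

Ingredients (all Mathlib): `not_dvd_differentIdeal_iff` (unramified ⇔ not dividing the
different), `AlgHom.IsArithFrobAt.eq_of_isUnramifiedAt` (uniqueness of Frobenius),
`IsArithFrobAt.exists_of_isInvariant` (existence), `Ideal.Quotient.stabilizerHom` and
`FiniteField.bijective_frobeniusAlgEquivOfAlgebraic_pow` (Galois groups of finite fields are
generated by Frobenius).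
-/

set_option autoImplicit false
set_option linter.unusedSectionVars false
set_option linter.style.haveILetI false

open NumberField
open scoped Pointwise

namespace Fermat.Agent.Lib.Cheb.H943

section Bad

attribute [local instance] FractionRing.liftAlgebra

variable (L : Type) [Field L] [NumberField L]

/-- The bad number: the absolute norm of the different ideal (`= |discr L|`). -/
noncomputable def badNat : ℕ := Ideal.absNorm (differentIdeal ℤ (𝓞 L))

lemma badNat_ne_zero : badNat L ≠ 0 := by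
  unfold badNat
  rw [Ne, Ideal.absNorm_eq_zero_iff]
  exact differentIdeal_ne_bot

variable {L}

/-- A rational prime contained in a prime ideal divides its absolute norm. -/
lemma prime_dvd_absNorm {p : ℕ} (hp : p.Prime) {P : Ideal (𝓞 L)} (hP : P.IsPrime)
    (hpP : (p : 𝓞 L) ∈ P) : p ∣ Ideal.absNorm P := by
  by_contra h
  have hcop : Nat.Coprime p (Ideal.absNorm P) := (Nat.Prime.coprime_iff_not_dvd hp).mpr h
  have h1 : ((Nat.gcd p (Ideal.absNorm P) : ℤ) : 𝓞 L) ∈ P := by
    rw [Nat.gcd_eq_gcd_ab]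
    push_cast
    exact P.add_mem (P.mul_mem_right _ hpP) (P.mul_mem_right _ (Ideal.absNorm_mem P))
  rw [hcop] at h1
  simp only [Nat.cast_one, Int.cast_one] at h1
  exact hP.ne_top ((Ideal.eq_top_iff_one P).mpr h1)

/-- Primes not dividing `badNat L` are unramified in `L`. -/
lemma isUnramifiedAt_of_not_dvd_badNat {p : ℕ} (hp : p.Prime) (hpB : ¬ p ∣ badNat L)
    {P : Ideal (𝓞 L)} [hP : P.IsPrime] (hpP : (p : 𝓞 L) ∈ P) :
    Algebra.IsUnramifiedAt ℤ P := by
  rw [← not_dvd_differentIdeal_iff]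
  intro hdvd
  apply hpB
  exact (prime_dvd_absNorm hp hP hpP).trans
    (Ideal.absNorm_dvd_absNorm_of_le (Ideal.le_of_dvd hdvd))

end Bad

variable {L : Type} [Field L] [NumberField L] [IsGalois ℚ L]

lemma faithful_gal : FaithfulSMul (L ≃ₐ[ℚ] L) (𝓞 L) :=
  IsGaloisGroup.faithful ℤ

lemma prime_ne_bot {p : ℕ} (hp : p.Prime) {P : Ideal (𝓞 L)} (hpP : (p : 𝓞 L) ∈ P) : P ≠ ⊥ := by
  rintro rfl
  rw [Ideal.mem_bot] at hpP
  exact hp.ne_zero (by exact_mod_cast hpP)

lemma finite_quot {p : ℕ} (hp : p.Prime) {P : Ideal (𝓞 L)} (hpP : (p : 𝓞 L) ∈ P) :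
    Finite (𝓞 L ⧸ P) :=
  Ideal.finiteQuotientOfFreeOfNeBot P (prime_ne_bot hp hpP)

/-- Existence of an arithmetic Frobenius at every prime above `p`. -/
lemma exists_isArithFrobAt {p : ℕ} (hp : p.Prime) {P : Ideal (𝓞 L)} [hP : P.IsPrime]
    (hpP : (p : 𝓞 L) ∈ P) : ∃ τ : L ≃ₐ[ℚ] L, IsArithFrobAt ℤ τ P := by
  haveI := finite_quot hp hpP
  exact IsArithFrobAt.exists_of_isInvariant ℤ (L ≃ₐ[ℚ] L) P

/-- Inertia is trivial at an unramified prime. -/
lemma inertiaTrivial_of_isUnramifiedAt {p : ℕ} (hp : p.Prime) {P : Ideal (𝓞 L)} [hP : P.IsPrime]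
    (hpP : (p : 𝓞 L) ∈ P) [Algebra.IsUnramifiedAt ℤ P] : Spec.InertiaTrivial L P := by
  intro ι hι
  obtain ⟨τ, hτ⟩ := exists_isArithFrobAt hp hpP
  have hιτ : IsArithFrobAt ℤ (ι * τ) P := by
    intro x
    have h1 := hι (τ • x)
    have h2 := hτ x
    have : (MulSemiringAction.toAlgHom ℤ (𝓞 L) (ι * τ)) x - x ^ Nat.card (ℤ ⧸ P.under ℤ)
        = (ι • (τ • x) - τ • x) + ((MulSemiringAction.toAlgHom ℤ (𝓞 L) τ) x
            - x ^ Nat.card (ℤ ⧸ P.under ℤ)) := by
      simp [mul_smul]
    rw [this]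
    exact P.add_mem h1 h2
  have heq := AlgHom.IsArithFrobAt.eq_of_isUnramifiedAt hιτ hτ
    (by intro x hx; exact mem_nonZeroDivisors_of_ne_zero (by rintro rfl; exact hx P.zero_mem))
  haveI := faithful_gal (L := L)
  have h3 : ι * τ = τ := by
    apply FaithfulSMul.eq_of_smul_eq_smul (α := 𝓞 L)
    intro x
    exact DFunLike.congr_fun heq x
  simpa using h3

attribute [local instance] Ideal.Quotient.field in
/-- If the inertia group is trivial, the decomposition group is generated by any Frobenius. -/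
lemma decomp_eq_zpowers {p : ℕ} (hp : p.Prime) {P : Ideal (𝓞 L)} [hP : P.IsPrime]
    (hpP : (p : 𝓞 L) ∈ P) (hI : Spec.InertiaTrivial L P) {τ : L ≃ₐ[ℚ] L}
    (hτ : IsArithFrobAt ℤ τ P) : Spec.decomp L P = Subgroup.zpowers τ := by
  have hne : P ≠ ⊥ := prime_ne_bot hp hpP
  haveI hmax : P.IsMaximal := Ideal.IsPrime.isMaximal hP hne
  haveI : Finite (𝓞 L ⧸ P) := Ideal.finiteQuotientOfFreeOfNeBot P hne
  haveI hmax' : (P.under ℤ).IsMaximal := Ideal.IsMaximal.under ℤ P
  haveI : Finite (ℤ ⧸ P.under ℤ) := hτ.finite_quotient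
  letI : Fintype (ℤ ⧸ P.under ℤ) := Fintype.ofFinite _
  have hτmem : τ ∈ MulAction.stabilizer (L ≃ₐ[ℚ] L) P := hτ.mem_stabilizer
  apply le_antisymm
  · intro σ hσ
    obtain ⟨n, hn⟩ := (FiniteField.bijective_frobeniusAlgEquivOfAlgebraic_pow
      (ℤ ⧸ P.under ℤ) (𝓞 L ⧸ P)).2
      (Ideal.Quotient.stabilizerHom P (P.under ℤ) (L ≃ₐ[ℚ] L) ⟨σ, hσ⟩)
    have hfrob : Ideal.Quotient.stabilizerHom P (P.under ℤ) (L ≃ₐ[ℚ] L) ⟨τ, hτmem⟩
        = FiniteField.frobeniusAlgEquivOfAlgebraic (ℤ ⧸ P.under ℤ) (𝓞 L ⧸ P) := by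
      ext x
      obtain ⟨y, rfl⟩ := Ideal.Quotient.mk_surjective x
      rw [FiniteField.coe_frobeniusAlgEquivOfAlgebraic]
      simp only [Ideal.Quotient.stabilizerHom_apply]
      rw [← Nat.card_eq_fintype_card]
      exact hτ.mk_apply y
    have hker : Ideal.Quotient.stabilizerHom P (P.under ℤ) (L ≃ₐ[ℚ] L)
        (⟨σ, hσ⟩ * (⟨τ, hτmem⟩ ^ n.1)⁻¹) = 1 := by
      rw [map_mul, map_inv, map_pow, hfrob]
      simp only at hn
      rw [hn, mul_inv_cancel]
    have h1 : σ * (τ ^ n.1)⁻¹ = 1 := by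
      apply hI
      intro x
      have := DFunLike.congr_fun hker (Ideal.Quotient.mk P x)
      simp only [Ideal.Quotient.stabilizerHom_apply, AlgEquiv.one_apply] at this
      rw [Ideal.Quotient.eq] at this
      exact this
    rw [mul_inv_eq_one] at h1
    rw [h1]
    exact Subgroup.pow_mem _ (Subgroup.mem_zpowers τ) _
  · rw [Subgroup.zpowers_le]
    exact hτmem

/-- Piece D with an explicit bad set: all conclusions at every prime not dividing `badNat L`. -/
theorem frob_of_not_dvd_badNat {p : ℕ} (hp : p.Prime) (hpB : ¬ p ∣ badNat L)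
    (P : Ideal (𝓞 L)) (hP : P.IsPrime) (hpP : (p : 𝓞 L) ∈ P) :
    Algebra.IsUnramifiedAt ℤ P ∧ Spec.InertiaTrivial L P ∧
      ∃ τ : L ≃ₐ[ℚ] L, IsArithFrobAt ℤ τ P ∧ Spec.decomp L P = Subgroup.zpowers τ := by
  haveI := hP
  haveI hU : Algebra.IsUnramifiedAt ℤ P := isUnramifiedAt_of_not_dvd_badNat hp hpB hpP
  have hI := inertiaTrivial_of_isUnramifiedAt hp hpP
  obtain ⟨τ, hτ⟩ := exists_isArithFrobAt hp hpP
  exact ⟨hU, hI, τ, hτ, decomp_eq_zpowers hp hpP hI hτ⟩

/-- **Piece D** of row CHEB: `Spec.FrobStatement`. -/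
theorem frobStatement : Spec.FrobStatement := by
  intro L _ _ _
  refine ⟨(badNat L).primeFactors, fun p hp hpB P hP hpP => ?_⟩
  have hpB' : ¬ p ∣ badNat L := fun h =>
    hpB (Nat.mem_primeFactors.mpr ⟨hp, h, badNat_ne_zero L⟩)
  obtain ⟨-, hI, hτ⟩ := frob_of_not_dvd_badNat hp hpB' P hP hpP
  exact ⟨hI, hτ⟩

end Fermat.Agent.Lib.Cheb.H943

end
-- ===== PACK-END Lib/Cheb/H943/Frob.lean

-- ===== PACK-BEGIN S31/H262/Strict.lean
section


/-!
# S31 / SS6 (helper262): joint `p`-adic strictness of a separating family of points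

`B` is a commutative ring, finite free over `ℤ`; `E = ℚ_[p] ⊗[ℤ] B`; `L j` is a finite family of
finite field extensions of `ℚ_[p]` and `Φ : E →ₐ[ℚ_[p]] Π j, L j` is injective.  Then the points
`B → intRing p (L j)` are jointly `p`-adically strict.
-/

set_option autoImplicit false
set_option linter.unusedSectionVars false
set_option linter.style.haveILetI false

noncomputable section

namespace Fermat.Agent.S31.H262

open scoped TensorProduct
open IsLocalRing

section Lattice

variable (p : ℕ) [Fact p.Prime]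
variable (B : Type) [CommRing B]

/-- The `ℤ_[p]`-lattice in `E = ℚ_[p] ⊗[ℤ] B` spanned by the pure tensors `1 ⊗ b`. -/
def lat : Submodule ℤ_[p] (ℚ_[p] ⊗[ℤ] B) :=
  Submodule.span ℤ_[p] (Set.range fun b : B => (1 : ℚ_[p]) ⊗ₜ[ℤ] b)

theorem one_tmul_mem_lat (b : B) : (1 : ℚ_[p]) ⊗ₜ[ℤ] b ∈ lat p B :=
  Submodule.subset_span ⟨b, rfl⟩

theorem padicInt_tmul_mem_lat (a : ℤ_[p]) (b : B) : (a : ℚ_[p]) ⊗ₜ[ℤ] b ∈ lat p B := by
  have h : (a : ℚ_[p]) ⊗ₜ[ℤ] b = a • ((1 : ℚ_[p]) ⊗ₜ[ℤ] b) := by
    rw [TensorProduct.smul_tmul', Algebra.smul_def, mul_one]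
    rfl
  rw [h]
  exact (lat p B).smul_mem a (one_tmul_mem_lat p B b)

/-- Every `p`-adic number becomes integral after multiplication by a power of `p`. -/
theorem exists_pow_mul_mem_padicInt (x : ℚ_[p]) :
    ∃ (c : ℕ) (a : ℤ_[p]), (p : ℚ_[p]) ^ c * x = (a : ℚ_[p]) := by
  have hp1 : ‖(p : ℚ_[p])‖ < 1 := Padic.norm_p_lt_one
  have hpos : (0 : ℝ) < 1 / (‖x‖ + 1) := by positivity
  obtain ⟨c, hc⟩ := exists_pow_lt_of_lt_one hpos hp1
  have hle : ‖(p : ℚ_[p]) ^ c * x‖ ≤ 1 := by
    rw [norm_mul, norm_pow]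
    have h1 : ‖(p : ℚ_[p])‖ ^ c * ‖x‖ ≤ 1 / (‖x‖ + 1) * ‖x‖ :=
      mul_le_mul_of_nonneg_right hc.le (norm_nonneg x)
    have h2 : 1 / (‖x‖ + 1) * ‖x‖ ≤ 1 := by
      rw [one_div, inv_mul_le_iff₀ (by positivity)]
      linarith [norm_nonneg x]
    exact h1.trans h2
  exact ⟨c, ⟨(p : ℚ_[p]) ^ c * x, hle⟩, rfl⟩

/-- Every element of `E` lies in the lattice after multiplication by a power of `p`. -/
theorem exists_pow_smul_mem_lat (e : ℚ_[p] ⊗[ℤ] B) :
    ∃ c : ℕ, ∀ c' : ℕ, c ≤ c' → ((p : ℚ_[p]) ^ c') • e ∈ lat p B := by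
  induction e using TensorProduct.induction_on with
  | zero => exact ⟨0, fun c' _ => by rw [smul_zero]; exact (lat p B).zero_mem⟩
  | tmul x b =>
    obtain ⟨c, a, hca⟩ := exists_pow_mul_mem_padicInt p x
    refine ⟨c, fun c' hc' => ?_⟩
    obtain ⟨d, rfl⟩ := Nat.exists_eq_add_of_le hc'
    have h : ((p : ℚ_[p]) ^ (c + d)) • (x ⊗ₜ[ℤ] b) =
        (((p : ℤ_[p]) ^ d * a : ℤ_[p]) : ℚ_[p]) ⊗ₜ[ℤ] b := by
      rw [TensorProduct.smul_tmul', smul_eq_mul, pow_add, mul_comm ((p : ℚ_[p]) ^ c), mul_assoc, hca]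
      simp
    rw [h]
    exact padicInt_tmul_mem_lat p B _ b
  | add x y hx hy =>
    obtain ⟨c1, h1⟩ := hx
    obtain ⟨c2, h2⟩ := hy
    refine ⟨max c1 c2, fun c' hc' => ?_⟩
    rw [smul_add]
    exact (lat p B).add_mem (h1 c' (le_trans (le_max_left _ _) hc'))
      (h2 c' (le_trans (le_max_right _ _) hc'))

end Lattice

section Coordinates

variable (p : ℕ) [Fact p.Prime]
variable (B : Type) [CommRing B] [Module.Finite ℤ B] [Module.Free ℤ B]

/-- Coordinates lemma: if `p⁻ⁿ • (1 ⊗ t)` lies in the lattice, then `t ∈ pⁿ B`. -/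
theorem mem_span_of_inv_smul_mem_lat (n : ℕ) (t : B)
    (h : (((p : ℚ_[p]) ^ n)⁻¹) • ((1 : ℚ_[p]) ⊗ₜ[ℤ] t) ∈ lat p B) :
    t ∈ Ideal.span {((p : ℕ) : B) ^ n} := by
  classical
  set b := Module.Free.chooseBasis ℤ B with hb
  set bE := Algebra.TensorProduct.basis ℚ_[p] b with hbE
  -- the lattice is contained in the `ℤ_[p]`-span of the basis
  have hle : lat p B ≤ Submodule.span ℤ_[p] (Set.range bE) := by
    unfold lat
    rw [Submodule.span_le]
    rintro _ ⟨x, rfl⟩
    rw [SetLike.mem_coe, Module.Basis.mem_span_iff_repr_mem]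
    intro i
    refine ⟨((b.repr x i : ℤ) : ℤ_[p]), ?_⟩
    rw [hbE, Algebra.TensorProduct.basis_repr_tmul]
    simp
  have h' := hle h
  rw [Module.Basis.mem_span_iff_repr_mem] at h'
  -- each coordinate of `t` is divisible by `p ^ n`
  have hdvd : ∀ i, ((p : ℤ) ^ n) ∣ b.repr t i := by
    intro i
    obtain ⟨a, ha⟩ := h' i
    rw [hbE, map_smul, Algebra.TensorProduct.basis_repr_tmul] at ha
    simp only [one_smul, Finsupp.smul_apply, Finsupp.mapRange_apply, smul_eq_mul, eq_intCast,
      PadicInt.algebraMap_apply] at ha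
    have hp0 : (p : ℚ_[p]) ^ n ≠ 0 := pow_ne_zero _ (by exact_mod_cast (Fact.out : p.Prime).ne_zero)
    have hval : ((b.repr t i : ℤ) : ℚ_[p]) = (p : ℚ_[p]) ^ n * (a : ℚ_[p]) := by
      rw [ha]; field_simp
    rw [← Padic.norm_int_le_pow_iff_dvd, hval, norm_mul, norm_pow, Padic.norm_p, zpow_neg,
      zpow_natCast, inv_pow]
    have hnn : (0 : ℝ) ≤ ((p : ℝ) ^ n)⁻¹ := by positivity
    calc ((p : ℝ) ^ n)⁻¹ * ‖(a : ℚ_[p])‖ ≤ ((p : ℝ) ^ n)⁻¹ * 1 :=
          mul_le_mul_of_nonneg_left (PadicInt.norm_le_one a) hnn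
      _ = ((p : ℝ) ^ n)⁻¹ := mul_one _
  rw [Ideal.mem_span_singleton, ← b.sum_repr t]
  refine Finset.dvd_sum fun i _ => ?_
  obtain ⟨k, hk⟩ := hdvd i
  rw [hk, mul_smul, zsmul_eq_mul]
  refine Dvd.intro (k • b i) ?_
  push_cast
  rfl

end Coordinates

section Strict

variable (p : ℕ) [Fact p.Prime]
variable (B : Type) [CommRing B] [Module.Finite ℤ B] [Module.Free ℤ B]
variable {ι : Type} [Finite ι] (L : ι → Type) [∀ j, Field (L j)] [∀ j, Algebra ℚ_[p] (L j)]
  [∀ j, Algebra ℤ_[p] (L j)] [∀ j, IsScalarTower ℤ_[p] ℚ_[p] (L j)]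
  [∀ j, FiniteDimensional ℚ_[p] (L j)]
variable (Φ : (ℚ_[p] ⊗[ℤ] B) →ₐ[ℚ_[p]] (∀ j, L j))

/-- The `j`-th point, with values in the field `L j`. -/
def ptL (j : ι) : B →+* L j :=
  (Pi.evalRingHom L j).comp
    ((Φ : (ℚ_[p] ⊗[ℤ] B) →+* (∀ j, L j)).comp
      (Algebra.TensorProduct.includeRight : B →ₐ[ℤ] ℚ_[p] ⊗[ℤ] B).toRingHom)

theorem ptL_apply (j : ι) (t : B) : ptL p B L Φ j t = Φ ((1 : ℚ_[p]) ⊗ₜ[ℤ] t) j := rfl

theorem isIntegral_ptL (j : ι) (t : B) : IsIntegral ℤ_[p] (ptL p B L Φ j t) := by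
  have h1 : IsIntegral ℤ t := Algebra.IsIntegral.isIntegral (R := ℤ) t
  have h2 : IsIntegral ℤ (ptL p B L Φ j t) := h1.map (ptL p B L Φ j).toIntAlgHom
  exact h2.tower_top

/-- The `j`-th point, with values in the ring of integers of `L j`. -/
def pt (j : ι) : B →+* intRing p (L j) where
  toFun t := ⟨ptL p B L Φ j t, isIntegral_ptL p B L Φ j t⟩
  map_one' := Subtype.ext (map_one _)
  map_mul' x y := Subtype.ext (map_mul _ x y)
  map_zero' := Subtype.ext (map_zero _)
  map_add' x y := Subtype.ext (map_add _ x y)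

theorem coe_pt (j : ι) (t : B) :
    ((pt p B L Φ j t : intRing p (L j)) : L j) = Φ ((1 : ℚ_[p]) ⊗ₜ[ℤ] t) j := rfl

/-- The `ℤ_[p]`-submodule of `E` of elements all of whose components are integral. -/
def intSub : Submodule ℤ_[p] (ℚ_[p] ⊗[ℤ] B) :=
  Submodule.comap (Φ.toLinearMap.restrictScalars ℤ_[p])
    (Submodule.pi Set.univ fun j => Subalgebra.toSubmodule (intRing p (L j)))

theorem mem_intSub (e : ℚ_[p] ⊗[ℤ] B) :
    e ∈ intSub p B L Φ ↔ ∀ j, IsIntegral ℤ_[p] (Φ e j) := by
  unfold intSub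
  rw [Submodule.mem_comap, Submodule.mem_pi]
  constructor
  · intro h j
    exact h j (Set.mem_univ j)
  · intro h j _
    exact h j

/-- The comparison map from `intSub` to the product of the rings of integers. -/
def intSubToPi : intSub p B L Φ →ₗ[ℤ_[p]] (∀ j, intRing p (L j)) where
  toFun w := fun j => ⟨Φ w.1 j, (mem_intSub p B L Φ w.1).mp w.2 j⟩
  map_add' x y := by
    funext j
    apply Subtype.ext
    simp
  map_smul' a x := by
    funext j
    apply Subtype.ext
    have h : Φ (a • (x : ℚ_[p] ⊗[ℤ] B)) = a • Φ (x : ℚ_[p] ⊗[ℤ] B) :=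
      (Φ.toLinearMap.restrictScalars ℤ_[p]).map_smul a x.1
    simp [h]

variable {p B L Φ} in
theorem intSubToPi_injective (hΦ : Function.Injective Φ) :
    Function.Injective (intSubToPi p B L Φ) := by
  intro x y h
  apply Subtype.ext
  apply hΦ
  funext j
  have := congrArg (fun f : (∀ j, intRing p (L j)) => ((f j : intRing p (L j)) : L j)) h
  exact this

variable {p B L Φ} in
theorem intSub_fg (hΦ : Function.Injective Φ) : (intSub p B L Φ).FG := by
  haveI : Fintype ι := Fintype.ofFinite ι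
  haveI : Module.Finite ℤ_[p] (∀ j, intRing p (L j)) := Module.Finite.pi
  haveI : IsNoetherian ℤ_[p] (∀ j, intRing p (L j)) := inferInstance
  haveI : Module.Finite ℤ_[p] (intSub p B L Φ) :=
    Module.Finite.of_injective (intSubToPi p B L Φ) (intSubToPi_injective hΦ)
  exact (Submodule.fg_top _).mp (Module.finite_def.mp this)

variable {p B L Φ} in
/-- A uniform power of `p` maps `intSub` into the lattice. -/
theorem exists_pow_smul_intSub_le (hΦ : Function.Injective Φ) :
    ∃ c : ℕ, ∀ w ∈ intSub p B L Φ, ((p : ℚ_[p]) ^ c) • w ∈ lat p B := by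
  classical
  obtain ⟨G, hG⟩ := intSub_fg hΦ
  choose cf hcf using fun e : ℚ_[p] ⊗[ℤ] B => exists_pow_smul_mem_lat p B e
  refine ⟨G.sup cf, fun w hw => ?_⟩
  -- the set of `e` with `p ^ c • e ∈ lat` is a `ℤ_[p]`-submodule containing the generators
  have hsub : intSub p B L Φ ≤
      Submodule.comap (LinearMap.lsmul ℤ_[p] (ℚ_[p] ⊗[ℤ] B) ((p : ℤ_[p]) ^ G.sup cf))
        (lat p B) := by
    rw [← hG, Submodule.span_le]
    intro g hg
    rw [SetLike.mem_coe, Submodule.mem_comap, LinearMap.lsmul_apply]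
    have h1 := hcf g (G.sup cf) (Finset.le_sup (f := cf) hg)
    have h2 : ((p : ℤ_[p]) ^ G.sup cf) • g = ((p : ℚ_[p]) ^ G.sup cf) • g := by
      rw [← algebraMap_smul ℚ_[p] ((p : ℤ_[p]) ^ G.sup cf) g]
      simp
    rw [h2]
    exact h1
  have h3 := hsub hw
  rw [Submodule.mem_comap, LinearMap.lsmul_apply] at h3
  have h2 : ((p : ℤ_[p]) ^ G.sup cf) • w = ((p : ℚ_[p]) ^ G.sup cf) • w := by
    rw [← algebraMap_smul ℚ_[p] ((p : ℤ_[p]) ^ G.sup cf) w]
    simp
  rw [← h2]
  exact h3

variable {p B L Φ} in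
/-- **Joint strictness** of the points `pt j : B → intRing p (L j)`. -/
theorem strict_of_injective (hΦ : Function.Injective Φ) (n : ℕ) :
    ∃ m : ℕ, ∀ t : B,
      (∀ j, pt p B L Φ j t ∈ maximalIdeal (intRing p (L j)) ^ m) →
        t ∈ Ideal.span {((p : ℕ) : B) ^ n} := by
  classical
  haveI : Fintype ι := Fintype.ofFinite ι
  obtain ⟨c, hc⟩ := exists_pow_smul_intSub_le hΦ
  choose mf hmf using fun j : ι => exists_maximalIdeal_pow_le_span_p_pow p (L j) (n + c)
  refine ⟨Finset.univ.sup mf, fun t ht => ?_⟩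
  have hp0 : (p : ℚ_[p]) ≠ 0 := by exact_mod_cast (Fact.out : p.Prime).ne_zero
  apply mem_span_of_inv_smul_mem_lat p B n t
  -- the element `e = p^{-(n+c)} • (1 ⊗ t)` has integral components
  have he : (((p : ℚ_[p]) ^ (n + c))⁻¹) • ((1 : ℚ_[p]) ⊗ₜ[ℤ] t) ∈ intSub p B L Φ := by
    rw [mem_intSub]
    intro j
    have h1 : pt p B L Φ j t ∈ Ideal.span {((p : ℕ) : intRing p (L j)) ^ (n + c)} :=
      hmf j (Ideal.pow_le_pow_right (Finset.le_sup (f := mf) (Finset.mem_univ j)) (ht j))
    rw [Ideal.mem_span_singleton] at h1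
    obtain ⟨y, hy⟩ := h1
    have hy' : Φ ((1 : ℚ_[p]) ⊗ₜ[ℤ] t) j = (p : L j) ^ (n + c) * (y : L j) := by
      have := congrArg (fun x : intRing p (L j) => (x : L j)) hy
      simpa [coe_pt] using this
    have hpL : (p : L j) ≠ 0 := by
      haveI : CharZero (L j) := charZero_of_injective_algebraMap (algebraMap ℚ_[p] (L j)).injective
      exact_mod_cast (Fact.out : p.Prime).ne_zero
    have hval : Φ ((((p : ℚ_[p]) ^ (n + c))⁻¹) • ((1 : ℚ_[p]) ⊗ₜ[ℤ] t)) j = (y : L j) := by
      rw [map_smul, Pi.smul_apply, hy', Algebra.smul_def, map_inv₀, map_pow, map_natCast]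
      field_simp
    rw [hval]
    exact y.2
  have h2 := hc _ he
  have h3 : ((p : ℚ_[p]) ^ c) • ((((p : ℚ_[p]) ^ (n + c))⁻¹) • ((1 : ℚ_[p]) ⊗ₜ[ℤ] t)) =
      (((p : ℚ_[p]) ^ n)⁻¹) • ((1 : ℚ_[p]) ⊗ₜ[ℤ] t) := by
    rw [smul_smul]
    congr 1
    rw [pow_add]
    field_simp
  rw [h3] at h2
  exact h2

end Strict

end Fermat.Agent.S31.H262

end
end
-- ===== PACK-END S31/H262/Strict.lean

-- ===== PACK-BEGIN S22/H262/Cocycle.lean
section


set_option autoImplicit false

/-!
# The Eichler cocycle via primitive towers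
-/

open Complex Filter Function Metric Set
open UpperHalfPlane hiding I
open scoped Real Topology Manifold ModularForm MatrixGroups

namespace Fermat.Agent.S22.H262

/-- The action of `GL₂(ℝ)` on `ℂ²` (column vectors). -/
def actV (A : GL (Fin 2) ℝ) (v : ℂ × ℂ) : ℂ × ℂ :=
  ((A 0 0 : ℝ) * v.1 + (A 0 1 : ℝ) * v.2, (A 1 0 : ℝ) * v.1 + (A 1 1 : ℝ) * v.2)

theorem actV_mul (A B : GL (Fin 2) ℝ) (v : ℂ × ℂ) : actV (A * B) v = actV A (actV B v) := by
  simp only [actV, Matrix.GeneralLinearGroup.coe_mul, Matrix.mul_apply, Fin.sum_univ_two]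
  ext <;> push_cast <;> ring

@[simp] theorem actV_one (v : ℂ × ℂ) : actV 1 v = v := by
  simp [actV]

/-- The polynomial-valued Eichler integral attached to a tower, evaluated at a vector `v`. -/
noncomputable def bigG (n : ℕ) (E : ℕ → ℍ → ℂ) (z : ℍ) (v : ℂ × ℂ) : ℂ :=
  ∑ j ∈ Finset.range (n + 1),
    (n.descFactorial j : ℂ) * E (j + 1) z * (v.1 - z * v.2) ^ (n - j) * v.2 ^ j

theorem hasDerivAt_bigG (n : ℕ) {h : ℍ → ℂ} {E : ℕ → ℍ → ℂ} (hE : IsTower h E) (v : ℂ × ℂ)
    (z : ℍ) :
    HasDerivAt (fun w : ℂ => bigG n E (ofComplex w) v) (h z * (v.1 - z * v.2) ^ n) (z : ℂ) := by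
  -- first the derivative of the version with `w` in place of `↑(ofComplex w)`
  have key : HasDerivAt (fun w : ℂ => ∑ j ∈ Finset.range (n + 1),
      (n.descFactorial j : ℂ) * (E (j + 1) ∘ ofComplex) w * (v.1 - w * v.2) ^ (n - j) * v.2 ^ j)
      (∑ j ∈ Finset.range (n + 1),
        ((n.descFactorial j : ℂ) * E j z * (v.1 - z * v.2) ^ (n - j) * v.2 ^ j -
         (n.descFactorial (j + 1) : ℂ) * E (j + 1) z * (v.1 - z * v.2) ^ (n - (j + 1)) *
            v.2 ^ (j + 1))) (z : ℂ) := by
    apply HasDerivAt.fun_sum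
    intro j _
    have h1 : HasDerivAt (E (j + 1) ∘ ofComplex) (E j z) (z : ℂ) := hE.hasDeriv j z
    have h2 : HasDerivAt (fun w : ℂ => (v.1 - w * v.2) ^ (n - j))
        (((n - j : ℕ) : ℂ) * (v.1 - z * v.2) ^ (n - j - 1) * (-v.2)) (z : ℂ) := by
      have h3 : HasDerivAt (fun w : ℂ => v.1 - w * v.2) (-v.2) (z : ℂ) := by
        simpa using ((hasDerivAt_id (z : ℂ)).mul_const v.2).const_sub v.1
      exact h3.pow (n - j)
    have h4 := ((h1.const_mul (n.descFactorial j : ℂ)).mul h2).mul_const (v.2 ^ j)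
    refine h4.congr_deriv ?_
    have hofz : (E (j + 1) ∘ ofComplex) (z : ℂ) = E (j + 1) z := by simp
    rw [hofz, Nat.descFactorial_succ]
    have : n - (j + 1) = n - j - 1 := by omega
    rw [this]
    push_cast
    ring
  have hsum : (∑ j ∈ Finset.range (n + 1),
        ((n.descFactorial j : ℂ) * E j z * (v.1 - z * v.2) ^ (n - j) * v.2 ^ j -
         (n.descFactorial (j + 1) : ℂ) * E (j + 1) z * (v.1 - z * v.2) ^ (n - (j + 1)) *
            v.2 ^ (j + 1))) = h z * (v.1 - z * v.2) ^ n := by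
    rw [Finset.sum_range_sub' (fun j => (n.descFactorial j : ℂ) * E j z *
      (v.1 - z * v.2) ^ (n - j) * v.2 ^ j)]
    have hlt : n.descFactorial (n + 1) = 0 := Nat.descFactorial_of_lt (Nat.lt_succ_self n)
    rw [hlt]
    simp [hE.zero]
  rw [hsum] at key
  refine key.congr_of_eventuallyEq ?_
  have hopen : {z : ℂ | 0 < z.im} ∈ 𝓝 (z : ℂ) :=
    (isOpen_lt continuous_const Complex.continuous_im).mem_nhds z.im_pos
  filter_upwards [hopen] with w hw
  simp [bigG, ofComplex_apply_of_im_pos hw]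

/-- The key identity `x' - (Az) y' = det A (x - z y) / (cz + d)` where `(x', y') = A v`. -/
theorem actV_sub (A : GL (Fin 2) ℝ) (hA : 0 < A.det.val) (z : ℍ) (v : ℂ × ℂ) :
    (actV A v).1 - ((A • z : ℍ) : ℂ) * (actV A v).2 =
      (A.det.val : ℂ) * (v.1 - z * v.2) / denom A z := by
  have hd : denom A z ≠ 0 := denom_ne_zero A z
  rw [coe_smul_of_det_pos hA]
  have hdet : (A.det.val : ℂ) = (A 0 0 : ℝ) * (A 1 1 : ℝ) - (A 0 1 : ℝ) * (A 1 0 : ℝ) := by
    rw [Matrix.GeneralLinearGroup.val_det_apply, Matrix.det_fin_two]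
    push_cast
    ring
  have key : ((actV A v).1 * denom A z - num A z * (actV A v).2) =
      (A.det.val : ℂ) * (v.1 - z * v.2) := by
    simp only [actV, num, denom, hdet]
    ring
  rw [eq_div_iff hd, sub_mul, ← key]
  congr 1
  field_simp

theorem hasDerivAt_bigG_smul (n : ℕ) {h : ℍ → ℂ} {E : ℕ → ℍ → ℂ} (hE : IsTower h E)
    (A : GL (Fin 2) ℝ) (hA : 0 < A.det.val) (v : ℂ × ℂ) (z : ℍ) :
    HasDerivAt (fun w : ℂ => bigG n E (A • ofComplex w) (actV A v))
      ((h ∣[(n : ℤ) + 2] A) z * (v.1 - z * v.2) ^ n) (z : ℂ) := by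
  have h1 := hasDerivAt_bigG n hE (actV A v) (A • z)
  have h2 : HasDerivAt (fun w : ℂ => ((A • ofComplex w : ℍ) : ℂ))
      (A.det.val / denom A z ^ 2) (z : ℂ) := (hasStrictDerivAt_smul hA z).hasDerivAt
  have h3 := h1.comp_of_eq (x := (z : ℂ)) h2 (by simp)
  have hd : denom A z ≠ 0 := denom_ne_zero A z
  have hval : h (A • z) * ((actV A v).1 - ((A • z : ℍ) : ℂ) * (actV A v).2) ^ n *
      ((A.det.val : ℂ) / denom A z ^ 2) = (h ∣[(n : ℤ) + 2] A) z * (v.1 - z * v.2) ^ n := by
    rw [actV_sub A hA z v, ModularForm.slash_apply, UpperHalfPlane.σ, if_pos hA]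
    simp only [ContinuousAlgEquiv.refl_apply, abs_of_pos hA]
    have e1 : ((n : ℤ) + 2 - 1) = ((n + 1 : ℕ) : ℤ) := by push_cast; ring
    have e2 : -((n : ℤ) + 2) = -((n + 2 : ℕ) : ℤ) := by push_cast; ring
    rw [e1, e2, zpow_natCast, zpow_neg, zpow_natCast, div_pow, mul_pow]
    field_simp
    ring
  rw [hval] at h3
  refine h3.congr_of_eventuallyEq ?_
  filter_upwards with w
  simp

/-- The difference `G_h(Az, Av) - G_{h|A}(z, v)` does not depend on `z`. -/
theorem bigG_sub_const (n : ℕ) {h : ℍ → ℂ} (A : GL (Fin 2) ℝ) (hA : 0 < A.det.val)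
    (hh : HasTower h) (hhA : HasTower (h ∣[(n : ℤ) + 2] A)) (v : ℂ × ℂ) (z w : ℍ) :
    bigG n (tower h) (A • z) (actV A v) - bigG n (tower (h ∣[(n : ℤ) + 2] A)) z v =
      bigG n (tower h) (A • w) (actV A v) - bigG n (tower (h ∣[(n : ℤ) + 2] A)) w v := by
  let D : ℍ → ℂ := fun z =>
    bigG n (tower h) (A • z) (actV A v) - bigG n (tower (h ∣[(n : ℤ) + 2] A)) z v
  have hD : ∀ z : ℍ, HasDerivAt (D ∘ ofComplex) 0 (z : ℂ) := by
    intro z
    have := (hasDerivAt_bigG_smul n hh.isTower A hA v z).sub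
      (hasDerivAt_bigG n hhA.isTower v z)
    rw [sub_self] at this
    exact this
  exact const_of_hasDerivAt_zero hD z w

/-- The Eichler cocycle of `h` at the matrix `A`, evaluated at the vector `v`. -/
noncomputable def cocyc (n : ℕ) (h : ℍ → ℂ) (A : GL (Fin 2) ℝ) (v : ℂ × ℂ) : ℂ :=
  bigG n (tower h) (A • UpperHalfPlane.I) (actV A v) -
    bigG n (tower (h ∣[(n : ℤ) + 2] A)) UpperHalfPlane.I v

theorem cocyc_eq (n : ℕ) {h : ℍ → ℂ} (A : GL (Fin 2) ℝ) (hA : 0 < A.det.val)
    (hh : HasTower h) (hhA : HasTower (h ∣[(n : ℤ) + 2] A)) (v : ℂ × ℂ) (z : ℍ) :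
    cocyc n h A v =
      bigG n (tower h) (A • z) (actV A v) - bigG n (tower (h ∣[(n : ℤ) + 2] A)) z v :=
  bigG_sub_const n A hA hh hhA v _ _

/-- The cocycle relation. -/
theorem cocyc_mul (n : ℕ) {h : ℍ → ℂ} (A B : GL (Fin 2) ℝ) (hA : 0 < A.det.val)
    (hB : 0 < B.det.val) (hh : HasTower h) (hhA : HasTower (h ∣[(n : ℤ) + 2] A))
    (hhAB : HasTower (h ∣[(n : ℤ) + 2] (A * B))) (v : ℂ × ℂ) :
    cocyc n h (A * B) v = cocyc n h A (actV B v) + cocyc n (h ∣[(n : ℤ) + 2] A) B v := by
  have hAB : 0 < (A * B).det.val := by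
    rw [map_mul, Units.val_mul]
    exact mul_pos hA hB
  have hslash : h ∣[(n : ℤ) + 2] (A * B) = (h ∣[(n : ℤ) + 2] A) ∣[(n : ℤ) + 2] B :=
    SlashAction.slash_mul _ _ _ _
  have hhAB' : HasTower ((h ∣[(n : ℤ) + 2] A) ∣[(n : ℤ) + 2] B) := hslash ▸ hhAB
  rw [cocyc_eq n (A * B) hAB hh hhAB v UpperHalfPlane.I,
    cocyc_eq n A hA hh hhA (actV B v) (B • UpperHalfPlane.I),
    cocyc_eq n B hB hhA hhAB' v UpperHalfPlane.I, actV_mul, mul_smul, hslash]
  ring

end Fermat.Agent.S22.H262

end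
-- ===== PACK-END S22/H262/Cocycle.lean

-- ===== PACK-BEGIN S18/H394/Graded.lean
section


/-!
# S18, Route K, pieces b3+b4 (helper394): the graded Kummer algebra

`C` is a commutative `F`-algebra with a power basis `1, T, …, T^(m-1)` and `T ^ m = u`
(think `C = F[T]/(T^m - u)`).  For a subalgebra `B ⊆ F` which is `m`-root closed
(`f ^ m ∈ B → f ∈ B`) we define

  `kummerSub B = { ∑ fᵢ Tⁱ | fᵢ ^ m * u ^ i ∈ B }`

and show that it is a subalgebra of `C` (it is the integral closure of `B` in `C` when `B` is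
normal, but we never need that).
-/

set_option autoImplicit false

namespace Fermat.Agent.S18.H394

open Polynomial

section RootSets

variable {R F : Type*} [CommRing R] [Field F] [Algebra R F]

/-- `B` is closed under `m`-th roots taken in `F`. -/
def RootClosed (m : ℕ) (B : Subalgebra R F) : Prop := ∀ f : F, f ^ m ∈ B → f ∈ B

/-- `degSet B m u n = {f | f ^ m * u ^ n ∈ B}`: the coefficients allowed in degree `n`. -/
def degSet (B : Subalgebra R F) (m : ℕ) (u : F) (n : ℕ) : Set F := {f | f ^ m * u ^ n ∈ B}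

variable {B : Subalgebra R F} {m : ℕ} {u : F}

theorem mem_degSet {n : ℕ} {f : F} : f ∈ degSet B m u n ↔ f ^ m * u ^ n ∈ B := Iff.rfl

theorem zero_mem_degSet (hm : 0 < m) (n : ℕ) : (0 : F) ∈ degSet B m u n := by
  rw [mem_degSet, zero_pow hm.ne', zero_mul]
  exact B.zero_mem

theorem neg_mem_degSet {n : ℕ} {f : F} (hf : f ∈ degSet B m u n) : -f ∈ degSet B m u n := by
  rw [mem_degSet] at hf ⊢
  rcases Nat.even_or_odd m with h | h
  · rwa [h.neg_pow]
  · rw [h.neg_pow, neg_mul]
    exact B.neg_mem hf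

theorem mul_mem_degSet {i j : ℕ} {f g : F} (hf : f ∈ degSet B m u i) (hg : g ∈ degSet B m u j) :
    f * g ∈ degSet B m u (i + j) := by
  rw [mem_degSet] at hf hg ⊢
  have : (f * g) ^ m * u ^ (i + j) = (f ^ m * u ^ i) * (g ^ m * u ^ j) := by ring
  rw [this]
  exact B.mul_mem hf hg

theorem smul_mem_degSet {n : ℕ} {b f : F} (hb : b ∈ B) (hf : f ∈ degSet B m u n) :
    b * f ∈ degSet B m u n := by
  rw [mem_degSet] at hf ⊢
  have : (b * f) ^ m * u ^ n = b ^ m * (f ^ m * u ^ n) := by ring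
  rw [this]
  exact B.mul_mem (B.pow_mem hb m) hf

theorem mem_degSet_zero_of_mem {b : F} (hb : b ∈ B) : b ∈ degSet B m u 0 := by
  rw [mem_degSet, pow_zero, mul_one]
  exact B.pow_mem hb m

theorem mem_of_mem_degSet_zero (hB : RootClosed m B) {b : F} (hb : b ∈ degSet B m u 0) :
    b ∈ B := by
  rw [mem_degSet, pow_zero, mul_one] at hb
  exact hB b hb

theorem mul_pow_mem_degSet {q r : ℕ} {f : F} (hf : f ∈ degSet B m u (q * m + r)) :
    f * u ^ q ∈ degSet B m u r := by
  rw [mem_degSet] at hf ⊢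
  have : (f * u ^ q) ^ m * u ^ r = f ^ m * u ^ (q * m + r) := by ring
  rwa [this]

theorem degSet_mono {B B' : Subalgebra R F} (h : B ≤ B') (n : ℕ) :
    degSet B m u n ⊆ degSet B' m u n := fun _ hf => h hf

/-- The key point: `degSet` is closed under addition when `B` is `m`-root closed. -/
theorem add_mem_degSet (hB : RootClosed m B) {n : ℕ} {f g : F}
    (hf : f ∈ degSet B m u n) (hg : g ∈ degSet B m u n) : f + g ∈ degSet B m u n := by
  rw [mem_degSet] at hf hg ⊢
  rw [add_pow, Finset.sum_mul]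
  refine B.sum_mem fun a ha => ?_
  have ham : a ≤ m := Nat.lt_succ_iff.mp (Finset.mem_range.mp ha)
  have hroot : f ^ a * g ^ (m - a) * u ^ n ∈ B := by
    apply hB
    have : (f ^ a * g ^ (m - a) * u ^ n) ^ m
        = (f ^ m * u ^ n) ^ a * (g ^ m * u ^ n) ^ (m - a) := by
      have h1 : (u ^ n) ^ m = (u ^ n) ^ a * (u ^ n) ^ (m - a) := by
        rw [← pow_add, Nat.add_sub_cancel' ham]
      calc (f ^ a * g ^ (m - a) * u ^ n) ^ m
          = (f ^ m) ^ a * (g ^ m) ^ (m - a) * (u ^ n) ^ m := by ring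
        _ = (f ^ m) ^ a * (g ^ m) ^ (m - a) * ((u ^ n) ^ a * (u ^ n) ^ (m - a)) := by rw [h1]
        _ = (f ^ m * u ^ n) ^ a * (g ^ m * u ^ n) ^ (m - a) := by ring
    rw [this]
    exact B.mul_mem (B.pow_mem hf _) (B.pow_mem hg _)
  have : f ^ a * g ^ (m - a) * (m.choose a : F) * u ^ n
      = (m.choose a : F) * (f ^ a * g ^ (m - a) * u ^ n) := by ring
  rw [this]
  exact B.mul_mem (natCast_mem B _) hroot

theorem sum_mem_degSet (hB : RootClosed m B) (hm : 0 < m) {n : ℕ} {ι : Type*} (s : Finset ι)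
    (f : ι → F) (hf : ∀ i ∈ s, f i ∈ degSet B m u n) : ∑ i ∈ s, f i ∈ degSet B m u n := by
  classical
  induction s using Finset.induction_on with
  | empty => simpa using zero_mem_degSet (B := B) (u := u) hm n
  | insert a s ha ih =>
    rw [Finset.sum_insert ha]
    exact add_mem_degSet hB (hf a (Finset.mem_insert_self a s))
      (ih fun i hi => hf i (Finset.mem_insert_of_mem hi))

end RootSets

section Coeff

variable {F C : Type*} [Field F] [CommRing C] [Algebra F C]
variable (pb : PowerBasis F C) {u : F}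

/-- The `k`-th coefficient of `c` in the power basis. -/
noncomputable def co (k : Fin pb.dim) : C →ₗ[F] F :=
  (Finsupp.lapply k).comp pb.basis.repr.toLinearMap

theorem co_apply (k : Fin pb.dim) (c : C) : co pb k c = pb.basis.repr c k := rfl

theorem sum_co (c : C) : ∑ k : Fin pb.dim, algebraMap F C (co pb k c) * pb.gen ^ (k : ℕ) = c := by
  conv_rhs => rw [← pb.basis.sum_repr c]
  refine Finset.sum_congr rfl fun k _ => ?_
  rw [co_apply, pb.basis_eq_pow, Algebra.smul_def]

theorem gen_pow_eq (hT : pb.gen ^ pb.dim = algebraMap F C u) (q r : ℕ) :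
    pb.gen ^ (q * pb.dim + r) = algebraMap F C (u ^ q) * pb.gen ^ r := by
  rw [pow_add, mul_comm q, pow_mul, hT, map_pow]

theorem co_monomial (hT : pb.gen ^ pb.dim = algebraMap F C u) (f : F) (q : ℕ)
    (r k : Fin pb.dim) :
    co pb k (algebraMap F C f * pb.gen ^ (q * pb.dim + (r : ℕ))) = if r = k then f * u ^ q else 0 := by
  classical
  rw [gen_pow_eq pb hT, ← mul_assoc, ← map_mul, ← Algebra.smul_def, ← pb.basis_eq_pow, co_apply,
    map_smul, pb.basis.repr_self, Finsupp.smul_apply, Finsupp.single_apply, smul_eq_mul]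
  split_ifs <;> simp

theorem co_algebraMap_mul (f : F) (c : C) (k : Fin pb.dim) :
    co pb k (algebraMap F C f * c) = f * co pb k c := by
  rw [← Algebra.smul_def, map_smul, smul_eq_mul]

end Coeff

section KummerSub

variable {R F C : Type*} [CommRing R] [Field F] [Algebra R F] [CommRing C] [Algebra F C]
  [Algebra R C] [IsScalarTower R F C]
variable (pb : PowerBasis F C) {u : F}

/-- Coefficients of a monomial `f * T ^ n` (any `n`) with `f` allowed in degree `n` are allowed. -/
theorem co_monomial_mem (hT : pb.gen ^ pb.dim = algebraMap F C u) (hm : 0 < pb.dim)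
    {B : Subalgebra R F} {n : ℕ} {f : F}
    (hf : f ∈ degSet B pb.dim u n) (k : Fin pb.dim) :
    co pb k (algebraMap F C f * pb.gen ^ n) ∈ degSet B pb.dim u k := by
  have hn : n = n / pb.dim * pb.dim + ((⟨n % pb.dim, Nat.mod_lt _ hm⟩ : Fin pb.dim) : ℕ) := by
    simp only
    rw [mul_comm]
    exact (Nat.div_add_mod n pb.dim).symm
  have hco := co_monomial pb hT f (n / pb.dim) ⟨n % pb.dim, Nat.mod_lt _ hm⟩ k
  rw [← hn] at hco
  rw [hco]
  split_ifs with h
  · subst h
    apply mul_pow_mem_degSet (q := n / pb.dim)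
    simp only
    rw [mul_comm, Nat.div_add_mod]
    exact hf
  · exact zero_mem_degSet hm _

variable (u) in
/-- The graded Kummer subalgebra attached to a root-closed subalgebra `B ⊆ F`. -/
noncomputable def kummerSub (hT : pb.gen ^ pb.dim = algebraMap F C u) (hm : 0 < pb.dim)
    (B : Subalgebra R F) (hB : RootClosed pb.dim B) : Subalgebra R C where
  carrier := {c | ∀ k : Fin pb.dim, co pb k c ∈ degSet B pb.dim u k}
  zero_mem' := fun k => by
    rw [map_zero]
    exact zero_mem_degSet hm _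
  add_mem' := fun {a b} ha hb k => by
    rw [map_add]
    exact add_mem_degSet hB (ha k) (hb k)
  one_mem' := fun k => by
    have h1 : (1 : C) = algebraMap F C 1 * pb.gen ^ 0 := by simp
    rw [h1]
    exact co_monomial_mem pb hT hm (mem_degSet_zero_of_mem B.one_mem) k
  mul_mem' := fun {a b} ha hb k => by
    have hab : a * b = ∑ i : Fin pb.dim, ∑ j : Fin pb.dim,
        algebraMap F C (co pb i a * co pb j b) * pb.gen ^ ((i : ℕ) + (j : ℕ)) := by
      conv_lhs => rw [← sum_co pb a, ← sum_co pb b, Finset.sum_mul_sum]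
      refine Finset.sum_congr rfl fun i _ => Finset.sum_congr rfl fun j _ => ?_
      rw [map_mul, pow_add]
      ring
    rw [hab, map_sum]
    refine sum_mem_degSet hB hm _ _ fun i _ => ?_
    rw [map_sum]
    refine sum_mem_degSet hB hm _ _ fun j _ => ?_
    exact co_monomial_mem pb hT hm (mul_mem_degSet (ha i) (hb j)) k
  algebraMap_mem' := fun r k => by
    have h1 : algebraMap R C r = algebraMap F C (algebraMap R F r) * pb.gen ^ 0 := by
      rw [pow_zero, mul_one, ← IsScalarTower.algebraMap_apply]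
    rw [h1]
    exact co_monomial_mem pb hT hm (mem_degSet_zero_of_mem (B.algebraMap_mem r)) k

variable {pb}

theorem mem_kummerSub {hT : pb.gen ^ pb.dim = algebraMap F C u} {hm : 0 < pb.dim}
    {B : Subalgebra R F} {hB : RootClosed pb.dim B} {c : C} :
    c ∈ kummerSub pb u hT hm B hB ↔ ∀ k : Fin pb.dim, co pb k c ∈ degSet B pb.dim u k :=
  Iff.rfl

theorem monomial_mem_kummerSub (hT : pb.gen ^ pb.dim = algebraMap F C u) (hm : 0 < pb.dim)
    {B : Subalgebra R F} (hB : RootClosed pb.dim B) {n : ℕ} {f : F}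
    (hf : f ∈ degSet B pb.dim u n) :
    algebraMap F C f * pb.gen ^ n ∈ kummerSub pb u hT hm B hB :=
  fun k => co_monomial_mem pb hT hm hf k

theorem algebraMap_mem_kummerSub (hT : pb.gen ^ pb.dim = algebraMap F C u) (hm : 0 < pb.dim)
    {B : Subalgebra R F} (hB : RootClosed pb.dim B) {b : F} (hb : b ∈ B) :
    algebraMap F C b ∈ kummerSub pb u hT hm B hB := by
  have := monomial_mem_kummerSub hT hm hB (n := 0) (mem_degSet_zero_of_mem (m := pb.dim) (u := u) hb)
  simpa using this

theorem kummerSub_mono (hT : pb.gen ^ pb.dim = algebraMap F C u) (hm : 0 < pb.dim)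
    {B B' : Subalgebra R F} (hB : RootClosed pb.dim B) (hB' : RootClosed pb.dim B')
    (h : B ≤ B') : kummerSub pb u hT hm B hB ≤ kummerSub pb u hT hm B' hB' :=
  fun _ hc k => degSet_mono h _ (hc k)

end KummerSub

end Fermat.Agent.S18.H394

end
-- ===== PACK-END S18/H394/Graded.lean

-- ===== PACK-BEGIN A2/Alg/H34/Val.lean
section


/-!
# WALL A2 / ALG — the `w`-adic valuation at a component (helper34), Mathlib-only

`B` a noetherian domain, `p` a prime with `p B_p = w B_p` (elementwise: every `a ∈ p` satisfies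
`a * s = w * a'` with `s ∉ p`).  Then every `b ≠ 0` is `w ^ k * a / t` with `a, t ∉ p`
(`exists_pow_mul_eq`): `B_p` is a discrete valuation ring with uniformiser `w`.
-/

set_option autoImplicit false
set_option linter.unusedSectionVars false

namespace Fermat.Agent.A2.Alg.H34

open IsLocalRing

variable {B : Type*} [CommRing B] [IsDomain B] [IsNoetherianRing B]

theorem maximalIdeal_atPrime_eq_span (p : Ideal B) [hp : p.IsPrime] (w : B) (hw : w ∈ p)
    (hloc : ∀ a ∈ p, ∃ s, s ∉ p ∧ ∃ a', a * s = w * a') :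
    maximalIdeal (Localization.AtPrime p) =
      Ideal.span {algebraMap B (Localization.AtPrime p) w} := by
  rw [← Localization.AtPrime.map_eq_maximalIdeal]
  set L := Localization.AtPrime p with hL
  apply le_antisymm
  · rw [Ideal.map_le_iff_le_comap]
    intro a ha
    obtain ⟨s, hs, a', h⟩ := hloc a ha
    rw [Ideal.mem_comap, Ideal.mem_span_singleton']
    have hsu : IsUnit (algebraMap B L s) :=
      (IsLocalization.AtPrime.isUnit_to_map_iff _ p s).2 hs
    obtain ⟨v, hv⟩ := hsu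
    refine ⟨algebraMap B L a' * (↑v⁻¹ : L), ?_⟩
    have h2 := congrArg (algebraMap B L) h
    rw [map_mul, map_mul, ← hv] at h2
    calc algebraMap B L a' * (↑v⁻¹ : L) * algebraMap B L w
        = (algebraMap B L w * algebraMap B L a') * (↑v⁻¹ : L) := by ring
      _ = (algebraMap B L a * (↑v : L)) * (↑v⁻¹ : L) := by rw [h2]
      _ = algebraMap B L a := by rw [mul_assoc, Units.mul_inv, mul_one]
  · rw [Ideal.span_le, Set.singleton_subset_iff]
    exact Ideal.mem_map_of_mem _ hw

/-- `B_p` is a discrete valuation ring with uniformiser `w`, elementwise. -/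
theorem exists_pow_mul_eq (p : Ideal B) [hp : p.IsPrime] (w : B) (hw : w ∈ p)
    (hloc : ∀ a ∈ p, ∃ s, s ∉ p ∧ ∃ a', a * s = w * a')
    (b : B) (hb : b ≠ 0) : ∃ (k : ℕ) (a t : B), a ∉ p ∧ t ∉ p ∧ t * b = w ^ k * a := by
  set L := Localization.AtPrime p with hL
  have hinj : Function.Injective (algebraMap B L) :=
    IsLocalization.injective L p.primeCompl_le_nonZeroDivisors
  have : IsNoetherianRing L := IsLocalization.isNoetherianRing p.primeCompl L inferInstance
  have hm := maximalIdeal_atPrime_eq_span p w hw hloc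
  have hkrull : ⨅ i, maximalIdeal L ^ i = ⊥ :=
    Ideal.iInf_pow_eq_bot_of_isLocalRing _ (maximalIdeal.isMaximal L).ne_top
  have hφb : algebraMap B L b ≠ 0 := fun h => hb (hinj (by rw [h, map_zero]))
  have hex : ∃ k, algebraMap B L b ∉ maximalIdeal L ^ k := by
    by_contra hcon
    push Not at hcon
    apply hφb
    have : algebraMap B L b ∈ ⨅ i, maximalIdeal L ^ i := by
      rw [Ideal.mem_iInf]
      exact hcon
    rw [hkrull] at this
    exact this
  classical
  set k₀ := Nat.find hex with hk₀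
  have hk₀spec : algebraMap B L b ∉ maximalIdeal L ^ k₀ := Nat.find_spec hex
  have hk₀pos : k₀ ≠ 0 := by
    intro h0
    rw [h0, pow_zero, Ideal.one_eq_top] at hk₀spec
    exact hk₀spec Submodule.mem_top
  obtain ⟨k, hk⟩ := Nat.exists_eq_succ_of_ne_zero hk₀pos
  have hmem : algebraMap B L b ∈ maximalIdeal L ^ k := by
    by_contra hcon
    have := Nat.find_min' hex hcon
    omega
  rw [hm, Ideal.span_singleton_pow, Ideal.mem_span_singleton'] at hmem
  obtain ⟨y, hy⟩ := hmem
  obtain ⟨⟨a, t⟩, hat⟩ := IsLocalization.mk'_surjective p.primeCompl y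
  simp only at hat
  have htu : IsUnit (algebraMap B L t) :=
    (IsLocalization.AtPrime.isUnit_to_map_iff _ p t).2 t.2
  have hspec : y * algebraMap B L t = algebraMap B L a := by
    rw [← hat]
    exact IsLocalization.mk'_spec L a t
  refine ⟨k, a, t, ?_, t.2, ?_⟩
  · intro ha
    apply hk₀spec
    rw [hk, pow_succ]
    have hya : y ∈ maximalIdeal L := by
      have h1 : algebraMap B L a ∈ maximalIdeal L :=
        (IsLocalization.AtPrime.to_map_mem_maximal_iff L p a).2 ha
      rw [← hspec] at h1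
      rcases (maximalIdeal.isMaximal L).isPrime.mem_or_mem h1 with h | h
      · exact h
      · exact absurd htu ((IsLocalRing.mem_maximalIdeal _).1 h)
    have h1 : algebraMap B L w ^ k ∈ maximalIdeal L ^ k := by
      rw [hm, Ideal.span_singleton_pow]
      exact Ideal.mem_span_singleton_self _
    have h2 : algebraMap B L w ^ k * y ∈ maximalIdeal L ^ k * maximalIdeal L :=
      Ideal.mul_mem_mul h1 hya
    rw [← hy, mul_comm y]
    exact h2
  · apply hinj
    rw [map_mul, map_mul, map_pow, ← hspec, ← hy]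
    ring

end Fermat.Agent.A2.Alg.H34

end
-- ===== PACK-END A2/Alg/H34/Val.lean

-- ===== PACK-BEGIN A2/H609/RelLen.lean
section


/-!
# Node purity, part 2: relative lengths `ℓ(N / N')` of submodules

`relLen N' N = Module.length R (N ⧸ N')` for submodules `N' N` of `M` (meaningful for `N' ≤ N`),
with the chain rule and a transport lemma along a linear map.  Mathlib only.
-/

set_option autoImplicit false

namespace Fermat.Agent.A2.H609

open Submodule

variable {R : Type*} [CommRing R] {M M' : Type*} [AddCommGroup M] [Module R M]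
  [AddCommGroup M'] [Module R M']

/-- The relative length `ℓ(N / N')`. -/
noncomputable def relLen (N' N : Submodule R M) : ℕ∞ :=
  Module.length R (↥N ⧸ N'.submoduleOf N)

/-- The map `N / N' → P / P'` induced by a linear map `φ` with `φ N ⊆ P`, `φ N' ⊆ P'`. -/
noncomputable def relMap (φ : M →ₗ[R] M') {N' N : Submodule R M} {P' P : Submodule R M'}
    (hNP : ∀ x ∈ N, φ x ∈ P) (hNP' : ∀ x ∈ N', φ x ∈ P') :
    (↥N ⧸ N'.submoduleOf N) →ₗ[R] (↥P ⧸ P'.submoduleOf P) :=
  Submodule.mapQ (N'.submoduleOf N) (P'.submoduleOf P) (φ.restrict hNP) (by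
    intro x hx
    rw [Submodule.mem_comap]
    exact hNP' _ hx)

theorem relMap_mk (φ : M →ₗ[R] M') {N' N : Submodule R M} {P' P : Submodule R M'}
    (hNP : ∀ x ∈ N, φ x ∈ P) (hNP' : ∀ x ∈ N', φ x ∈ P') (x : N) :
    relMap φ hNP hNP' (Submodule.Quotient.mk x) =
      Submodule.Quotient.mk (⟨φ x, hNP x x.2⟩ : P) := rfl

theorem relMap_injective (φ : M →ₗ[R] M') {N' N : Submodule R M} {P' P : Submodule R M'}
    (hNP : ∀ x ∈ N, φ x ∈ P) (hNP' : ∀ x ∈ N', φ x ∈ P')
    (hinj : ∀ x ∈ N, φ x ∈ P' → x ∈ N') : Function.Injective (relMap φ hNP hNP') := by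
  rw [← LinearMap.ker_eq_bot, eq_bot_iff]
  intro y hy
  obtain ⟨x, rfl⟩ := Submodule.Quotient.mk_surjective _ y
  rw [LinearMap.mem_ker, relMap_mk, Submodule.Quotient.mk_eq_zero] at hy
  rw [Submodule.mem_bot, Submodule.Quotient.mk_eq_zero]
  exact hinj x x.2 hy

theorem relMap_surjective (φ : M →ₗ[R] M') {N' N : Submodule R M} {P' P : Submodule R M'}
    (hNP : ∀ x ∈ N, φ x ∈ P) (hNP' : ∀ x ∈ N', φ x ∈ P')
    (hsurj : ∀ y ∈ P, ∃ x ∈ N, y - φ x ∈ P') : Function.Surjective (relMap φ hNP hNP') := by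
  intro z
  obtain ⟨y, rfl⟩ := Submodule.Quotient.mk_surjective _ z
  obtain ⟨x, hx, hxy⟩ := hsurj y y.2
  refine ⟨Submodule.Quotient.mk ⟨x, hx⟩, ?_⟩
  rw [relMap_mk, eq_comm, Submodule.Quotient.eq]
  exact hxy

/-- Transport of relative length along a linear map inducing a bijection `N / N' → P / P'`. -/
theorem relLen_eq_of_map (φ : M →ₗ[R] M') {N' N : Submodule R M} {P' P : Submodule R M'}
    (hNP : ∀ x ∈ N, φ x ∈ P) (hNP' : ∀ x ∈ N', φ x ∈ P')
    (hinj : ∀ x ∈ N, φ x ∈ P' → x ∈ N')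
    (hsurj : ∀ y ∈ P, ∃ x ∈ N, y - φ x ∈ P') : relLen N' N = relLen P' P :=
  (LinearEquiv.ofBijective (relMap φ hNP hNP')
    ⟨relMap_injective φ hNP hNP' hinj, relMap_surjective φ hNP hNP' hsurj⟩).length_eq

/-- Chain rule for relative lengths. -/
theorem relLen_add {A B C : Submodule R M} (hAB : A ≤ B) (hBC : B ≤ C) :
    relLen A C = relLen A B + relLen B C := by
  have h1 : ∀ x ∈ B, (LinearMap.id : M →ₗ[R] M) x ∈ C := fun x hx => hBC hx
  have h2 : ∀ x ∈ A, (LinearMap.id : M →ₗ[R] M) x ∈ A := fun x hx => hx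
  have h3 : ∀ x ∈ C, (LinearMap.id : M →ₗ[R] M) x ∈ C := fun x hx => hx
  have h4 : ∀ x ∈ A, (LinearMap.id : M →ₗ[R] M) x ∈ B := fun x hx => hAB hx
  let f := relMap (LinearMap.id : M →ₗ[R] M) (N' := A) (N := B) (P' := A) (P := C) h1 h2
  let g := relMap (LinearMap.id : M →ₗ[R] M) (N' := A) (N := C) (P' := B) (P := C) h3 h4
  have hf : Function.Injective f := relMap_injective _ h1 h2 (fun x _ hx => hx)
  have hg : Function.Surjective g :=
    relMap_surjective _ h3 h4 (fun y hy => ⟨y, hy, by simp⟩)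
  have hfg : Function.Exact f g := by
    intro z
    constructor
    · intro hz
      obtain ⟨y, rfl⟩ := Submodule.Quotient.mk_surjective _ z
      have hy : (y : M) ∈ B := by
        have := hz
        simp only [g] at this
        rw [relMap_mk, Submodule.Quotient.mk_eq_zero] at this
        exact this
      refine ⟨Submodule.Quotient.mk ⟨y, hy⟩, ?_⟩
      simp only [f]
      rw [relMap_mk]
      rfl
    · rintro ⟨w, rfl⟩
      obtain ⟨x, rfl⟩ := Submodule.Quotient.mk_surjective _ w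
      simp only [f, g]
      rw [relMap_mk, relMap_mk, Submodule.Quotient.mk_eq_zero]
      exact x.2
  exact Module.length_eq_add_of_exact f g hf hg hfg

/-- A surjection `N / N' → P / P'` induced by a linear map bounds the relative length. -/
theorem relLen_le_of_map (φ : M →ₗ[R] M') {N' N : Submodule R M} {P' P : Submodule R M'}
    (hNP : ∀ x ∈ N, φ x ∈ P) (hNP' : ∀ x ∈ N', φ x ∈ P')
    (hsurj : ∀ y ∈ P, ∃ x ∈ N, y - φ x ∈ P') : relLen P' P ≤ relLen N' N :=
  Module.length_le_of_surjective (relMap φ hNP hNP') (relMap_surjective φ hNP hNP' hsurj)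

theorem relLen_self (A : Submodule R M) : relLen A A = 0 := by
  rw [relLen, Module.length_eq_zero_iff]
  refine ⟨fun x y => ?_⟩
  obtain ⟨a, rfl⟩ := Submodule.Quotient.mk_surjective _ x
  obtain ⟨b, rfl⟩ := Submodule.Quotient.mk_surjective _ y
  rw [Submodule.Quotient.eq]
  exact A.sub_mem a.2 b.2

theorem relLen_mono_right {A B C : Submodule R M} (hAB : A ≤ B) (hBC : B ≤ C) :
    relLen A B ≤ relLen A C := by
  rw [relLen_add hAB hBC]
  exact le_self_add

theorem relLen_mono_left {A B C : Submodule R M} (hAB : A ≤ B) (hBC : B ≤ C) :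
    relLen B C ≤ relLen A C := by
  rw [relLen_add hAB hBC]
  exact le_add_self

/-- `ℓ(M / N)` as a relative length. -/
theorem relLen_top (N : Submodule R M) : relLen N ⊤ = Module.length R (M ⧸ N) := by
  have h1 : ∀ x ∈ (⊤ : Submodule R M), (LinearMap.id : M →ₗ[R] M) x ∈ (⊤ : Submodule R M) :=
    fun _ _ => trivial
  -- build the equivalence `⊤ / N ≃ M / N`
  let φ : (↥(⊤ : Submodule R M) ⧸ N.submoduleOf ⊤) →ₗ[R] (M ⧸ N) :=
    Submodule.mapQ (N.submoduleOf ⊤) N (⊤ : Submodule R M).subtype (by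
      intro x hx
      exact hx)
  have hφ : Function.Bijective φ := by
    constructor
    · rw [← LinearMap.ker_eq_bot, eq_bot_iff]
      intro y hy
      obtain ⟨x, rfl⟩ := Submodule.Quotient.mk_surjective _ y
      rw [LinearMap.mem_ker] at hy
      have : (Submodule.Quotient.mk (x : M) : M ⧸ N) = 0 := hy
      rw [Submodule.Quotient.mk_eq_zero] at this
      rw [Submodule.mem_bot, Submodule.Quotient.mk_eq_zero]
      exact this
    · intro z
      obtain ⟨y, rfl⟩ := Submodule.Quotient.mk_surjective _ z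
      exact ⟨Submodule.Quotient.mk ⟨y, trivial⟩, rfl⟩
  exact (LinearEquiv.ofBijective φ hφ).length_eq

end Fermat.Agent.A2.H609

end
-- ===== PACK-END A2/H609/RelLen.lean

-- ===== PACK-BEGIN A2/H849/Hartogs.lean
section










/-!
# Algebraic Hartogs lemma for noetherian integrally closed domains (helper849, cell A2)

Mathlib-only.  `R` a noetherian integrally closed domain with fraction field `K`.

* `locAt K P` : the localisation `R_P` as a subalgebra of `K`.
* `isDiscreteValuationRing_locAt_of_colon` : if the prime `P` is a colon ideal `(a) : c`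
  (`a ≠ 0`), then `R_P` is a discrete valuation ring.
* `hartogs_locAt` : an element of `K` lying in `R_P` for every prime `P` with `R_P` a DVR lies
  in `R`.
* `exists_valuationSubring_not_mem` : if `u ∉ R` there is a discrete valuation subring `O ⊇ R`
  of `K`, equal to the localisation of `R` at its centre, with `u ∉ O`.
* `isUnit_of_forall_valuationSubring` : an element with trivial Weil divisor is a unit.
-/

set_option autoImplicit false

namespace Fermat.Agent.A2.H849

open IsLocalRing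

variable {R : Type*} [CommRing R] [IsDomain R]
variable (K : Type*) [Field K] [Algebra R K] [IsFractionRing R K]

/-- The localisation `R_P` as a subalgebra of the fraction field `K`. -/
noncomputable def locAt (P : Ideal R) [P.IsPrime] : Subalgebra R K :=
  Localization.subalgebra.ofField K P.primeCompl P.primeCompl_le_nonZeroDivisors

variable {K}

theorem mem_locAt_iff (P : Ideal R) [P.IsPrime] (x : K) :
    x ∈ locAt K P ↔ ∃ a s : R, s ∉ P ∧ x = algebraMap R K a * (algebraMap R K s)⁻¹ := by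
  constructor
  · rintro ⟨a, s, hs, rfl⟩
    exact ⟨a, s, hs, rfl⟩
  · rintro ⟨a, s, hs, rfl⟩
    exact ⟨a, s, hs, rfl⟩

instance locAt_isLocalization (P : Ideal R) [P.IsPrime] :
    IsLocalization.AtPrime (locAt K P) P :=
  Localization.subalgebra.isLocalization_ofField K P.primeCompl P.primeCompl_le_nonZeroDivisors

instance locAt_isLocalRing (P : Ideal R) [P.IsPrime] : IsLocalRing (locAt K P) :=
  IsLocalization.AtPrime.isLocalRing (locAt K P) P

instance locAt_isNoetherianRing [IsNoetherianRing R] (P : Ideal R) [P.IsPrime] :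
    IsNoetherianRing (locAt K P) :=
  IsLocalization.isNoetherianRing P.primeCompl (locAt K P) inferInstance


/-- **Key lemma.** In a noetherian integrally closed domain, a prime which is a colon ideal
`(a) : c` with `a ≠ 0` has a discrete valuation ring as localisation. -/
theorem isDiscreteValuationRing_locAt_of_colon [IsNoetherianRing R] [IsIntegrallyClosed R]
    (P : Ideal R) [hPp : P.IsPrime] (a c : R) (ha : a ≠ 0)
    (hP : ∀ r, r ∈ P ↔ a ∣ r * c) : IsDiscreteValuationRing (locAt K P) := by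
  have haP : a ∈ P := (hP a).2 ⟨c, rfl⟩
  have hc : ¬ a ∣ c := fun h => by
    have h1 : (1 : R) ∈ P := (hP 1).2 (by simpa using h)
    exact (Ideal.ne_top_iff_one P).1 hPp.ne_top h1
  have hc0 : c ≠ 0 := fun h => hc (h ▸ dvd_zero a)
  have hinj : Function.Injective (algebraMap R K) := IsFractionRing.injective R K
  have haK : algebraMap R K a ≠ 0 := fun h => ha (hinj (by rw [h, map_zero]))
  have hcK : algebraMap R K c ≠ 0 := fun h => hc0 (hinj (by rw [h, map_zero]))
  set v : K := algebraMap R K c / algebraMap R K a with hv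
  have hv0 : v ≠ 0 := div_ne_zero hcK haK
  have hk : ∀ r ∈ P, ∃ k : R, algebraMap R K k = algebraMap R K r * v := by
    intro r hr
    obtain ⟨k, hk⟩ := (hP r).1 hr
    refine ⟨k, ?_⟩
    rw [hv, mul_div_assoc', eq_div_iff haK, ← map_mul, ← map_mul, hk, mul_comm]
  by_cases hcase : ∀ r ∈ P, ∀ k : R, algebraMap R K k = algebraMap R K r * v → k ∈ P
  · exfalso
    let N : Submodule R K := Submodule.map (Algebra.linearMap R K) P
    have hint : IsIntegral R v := by
      refine isIntegral_of_smul_mem_submodule N ?_ ?_ v ?_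
      · rw [Submodule.ne_bot_iff]
        exact ⟨_, ⟨a, haP, rfl⟩, haK⟩
      · exact Submodule.FG.map _ (IsNoetherian.noetherian _)
      · rintro n ⟨r, hr, rfl⟩
        obtain ⟨k, hk'⟩ := hk r hr
        refine ⟨k, hcase r hr k hk', ?_⟩
        rw [Algebra.linearMap_apply, hk', Algebra.linearMap_apply, smul_eq_mul, mul_comm]
    obtain ⟨y, hy⟩ := IsIntegrallyClosed.algebraMap_eq_of_integral hint
    apply hc
    refine ⟨y, hinj ?_⟩
    rw [map_mul, hy, hv, mul_div_cancel₀ _ haK]
  · push Not at hcase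
    obtain ⟨t, htP, k, hkt, hkP⟩ := hcase
    have hk0 : k ≠ 0 := fun h => hkP (h ▸ P.zero_mem)
    have hkK : algebraMap R K k ≠ 0 := fun h => hk0 (hinj (by rw [h, map_zero]))
    have htK : algebraMap R K t ≠ 0 := by
      intro h
      rw [h, zero_mul] at hkt
      exact hkK hkt
    have hmax : maximalIdeal (locAt K P) =
        Ideal.span {algebraMap R (locAt K P) t} := by
      rw [← IsLocalization.AtPrime.map_eq_maximalIdeal P (locAt K P)]
      apply le_antisymm
      · rw [Ideal.map_le_iff_le_comap]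
        intro r hr
        rw [Ideal.mem_comap, Ideal.mem_span_singleton']
        obtain ⟨kr, hkr⟩ := hk r hr
        refine ⟨⟨algebraMap R K kr * (algebraMap R K k)⁻¹,
          (mem_locAt_iff P _).2 ⟨kr, k, hkP, rfl⟩⟩, ?_⟩
        apply Subtype.ext
        show algebraMap R K kr * (algebraMap R K k)⁻¹ * algebraMap R K t = algebraMap R K r
        rw [hkr, hkt]
        field_simp
      · rw [Ideal.span_le, Set.singleton_subset_iff]
        exact Ideal.mem_map_of_mem _ htP
    have hprinc : (maximalIdeal (locAt K P)).IsPrincipal := ⟨⟨_, hmax⟩⟩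
    have hpir : IsPrincipalIdealRing (locAt K P) :=
      ((tfae_of_isNoetherianRing_of_isLocalRing_of_isDomain
        (R := locAt K P)).out 4 0).mp hprinc
    refine { toIsPrincipalIdealRing := hpir, toIsLocalRing := inferInstance, not_a_field' := ?_ }
    intro hbot
    have h1 : algebraMap R (locAt K P) t ∈ maximalIdeal (locAt K P) := by
      rw [hmax]
      exact Ideal.mem_span_singleton_self _
    rw [hbot, Ideal.mem_bot] at h1
    have h2 := congrArg (fun z : locAt K P => (z : K)) h1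
    exact htK h2


omit [IsDomain R] in
theorem smul_mk_span_eq_zero_iff (a r c : R) :
    r • (Ideal.Quotient.mk (Ideal.span {a}) c) = 0 ↔ a ∣ r * c := by
  have h1 : r • (Ideal.Quotient.mk (Ideal.span {a}) c) = Ideal.Quotient.mk (Ideal.span {a}) (r * c) :=
    rfl
  rw [h1, Ideal.Quotient.eq_zero_iff_mem, Ideal.mem_span_singleton]

/-- **Algebraic Hartogs lemma**, localisation form: an element of `K` which lies in `R_P` for
every prime `P` such that `R_P` is a discrete valuation ring lies in `R`. -/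
theorem hartogs_locAt [IsNoetherianRing R] [IsIntegrallyClosed R] (u : K)
    (h : ∀ (P : Ideal R) [P.IsPrime], IsDiscreteValuationRing (locAt K P) → u ∈ locAt K P) :
    u ∈ (algebraMap R K).range := by
  have hinj : Function.Injective (algebraMap R K) := IsFractionRing.injective R K
  obtain ⟨b, a, ha, rfl⟩ := IsFractionRing.div_surjective R u
  have ha0 : a ≠ 0 := nonZeroDivisors.ne_zero ha
  have haK : algebraMap R K a ≠ 0 := fun h => ha0 (hinj (by rw [h, map_zero]))
  by_cases hab : a ∣ b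
  · obtain ⟨y, rfl⟩ := hab
    refine ⟨y, ?_⟩
    rw [map_mul, mul_div_cancel_left₀ _ haK]
  exfalso
  -- the module `R / (a)` and the class of `b`
  set x : R ⧸ Ideal.span {a} := Ideal.Quotient.mk _ b with hx
  have hx0 : x ≠ 0 := by
    rw [hx, Ne, Ideal.Quotient.eq_zero_iff_mem, Ideal.mem_span_singleton]
    exact hab
  obtain ⟨P, hPass, hle⟩ := exists_le_isAssociatedPrime_of_isNoetherianRing R x hx0
  obtain ⟨hPp, y, hy⟩ := (isAssociatedPrime_iff (I := P) (M := R ⧸ Ideal.span {a})).1 hPass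
  obtain ⟨c, rfl⟩ := Ideal.Quotient.mk_surjective y
  have hP : ∀ r, r ∈ P ↔ a ∣ r * c := by
    intro r
    rw [hy, Submodule.mem_colon_singleton, Submodule.mem_bot]
    exact smul_mk_span_eq_zero_iff a r c
  have hdvr : IsDiscreteValuationRing (locAt K P) :=
    isDiscreteValuationRing_locAt_of_colon P a c ha0 hP
  obtain ⟨r, s, hs, hrs⟩ := (mem_locAt_iff P _).1 (h P hdvr)
  have hsK : algebraMap R K s ≠ 0 := by
    intro h0
    apply hs
    rw [hinj (by rw [h0, map_zero] : algebraMap R K s = algebraMap R K 0)]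
    exact P.zero_mem
  have hsb : s * b = r * a := by
    apply hinj
    rw [map_mul, map_mul]
    field_simp at hrs
    rw [mul_comm, hrs, mul_comm]
  apply hs
  apply hle
  rw [Submodule.mem_colon_singleton, Submodule.mem_bot, hx]
  exact (smul_mk_span_eq_zero_iff a s b).2 ⟨r, by rw [hsb, mul_comm]⟩


/-- The valuation subring of `K` given by a localisation `R_P` which is a valuation ring. -/
noncomputable def locValuationSubring (P : Ideal R) [P.IsPrime]
    (h : ValuationRing (locAt K P)) : ValuationSubring K :=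
  { (locAt K P).toSubring with
    mem_or_inv_mem' := fun x => by
      rcases ValuationRing.isInteger_or_isInteger (locAt K P) (K := K) x with ⟨y, hy⟩ | ⟨y, hy⟩
      · left
        rw [← hy]
        exact y.2
      · right
        rw [← hy]
        exact y.2 }

theorem mem_locValuationSubring_iff (P : Ideal R) [P.IsPrime]
    (h : ValuationRing (locAt K P)) (x : K) :
    x ∈ locValuationSubring P h ↔ x ∈ locAt K P := Iff.rfl

theorem algebraMap_mem_locValuationSubring (P : Ideal R) [P.IsPrime]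
    (h : ValuationRing (locAt K P)) (r : R) : algebraMap R K r ∈ locValuationSubring P h :=
  (locAt K P).algebraMap_mem r

/-- The obvious ring isomorphism. -/
noncomputable def locValuationSubringEquiv (P : Ideal R) [P.IsPrime]
    (h : ValuationRing (locAt K P)) : locAt K P ≃+* locValuationSubring P h :=
  { toFun := fun x => ⟨x.1, x.2⟩
    invFun := fun x => ⟨x.1, x.2⟩
    left_inv := fun _ => rfl
    right_inv := fun _ => rfl
    map_mul' := fun _ _ => rfl
    map_add' := fun _ _ => rfl }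

theorem isDiscreteValuationRing_locValuationSubring (P : Ideal R) [P.IsPrime]
    (h : IsDiscreteValuationRing (locAt K P)) :
    IsDiscreteValuationRing (locValuationSubring P (inferInstance : ValuationRing (locAt K P))) :=
  IsDiscreteValuationRing.RingEquivClass.isDiscreteValuationRing
    (locValuationSubringEquiv P inferInstance)

/-- A prime with DVR localisation has height one: it contains no nonzero prime other than
itself. -/
theorem eq_of_le_of_isDiscreteValuationRing (P Q : Ideal R) [hP : P.IsPrime] (hQ : Q.IsPrime)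
    (hdvr : IsDiscreteValuationRing (locAt K P)) (hQ0 : Q ≠ ⊥) (hle : Q ≤ P) : Q = P := by
  have hd : Disjoint (P.primeCompl : Set R) (Q : Set R) := by
    rw [Set.disjoint_left]
    intro x hx hxQ
    exact hx (hle hxQ)
  have hdP : Disjoint (P.primeCompl : Set R) (P : Set R) := by
    rw [Set.disjoint_left]
    intro x hx hxP
    exact hx hxP
  have hQ' : (Ideal.map (algebraMap R (locAt K P)) Q).IsPrime :=
    IsLocalization.isPrime_of_isPrime_disjoint P.primeCompl (locAt K P) Q hQ hd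
  have hne : Ideal.map (algebraMap R (locAt K P)) Q ≠ ⊥ := by
    obtain ⟨q, hq, hq0⟩ := Submodule.exists_mem_ne_zero_of_ne_bot hQ0
    intro h
    have h1 : algebraMap R (locAt K P) q ∈ Ideal.map (algebraMap R (locAt K P)) Q :=
      Ideal.mem_map_of_mem _ hq
    rw [h, Ideal.mem_bot] at h1
    apply hq0
    apply IsFractionRing.injective R K
    have h2 := congrArg (fun z : locAt K P => (z : K)) h1
    simpa using h2
  have hmax : (Ideal.map (algebraMap R (locAt K P)) Q).IsMaximal := hQ'.isMaximal hne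
  have h3 : Ideal.map (algebraMap R (locAt K P)) Q = maximalIdeal (locAt K P) :=
    IsLocalRing.eq_maximalIdeal hmax
  rw [← IsLocalization.AtPrime.map_eq_maximalIdeal P (locAt K P)] at h3
  have h4 : (Ideal.map (algebraMap R (locAt K P)) Q).under R =
      (Ideal.map (algebraMap R (locAt K P)) P).under R := by rw [h3]
  rwa [IsLocalization.under_map_of_isPrime_disjoint P.primeCompl (locAt K P) hQ hd,
    IsLocalization.under_map_of_isPrime_disjoint P.primeCompl (locAt K P) hP hdP] at h4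

/-- `O` is a discrete valuation subring of `K` which is the localisation of `R` at the height-one
prime `P`. -/
structure IsLocDVR (O : ValuationSubring K) (P : Ideal R) : Prop where
  prime : P.IsPrime
  ne_bot : P ≠ ⊥
  dvr : IsDiscreteValuationRing O
  le : ∀ r : R, algebraMap R K r ∈ O
  exists_frac : ∀ x ∈ O, ∃ r s : R, s ∉ P ∧ x = algebraMap R K r * (algebraMap R K s)⁻¹
  inv_mem : ∀ s : R, s ∉ P → (algebraMap R K s)⁻¹ ∈ O
  inv_not_mem : ∀ r : R, r ∈ P → r ≠ 0 → (algebraMap R K r)⁻¹ ∉ O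
  height_one : ∀ Q : Ideal R, Q.IsPrime → Q ≠ ⊥ → Q ≤ P → Q = P

theorem isLocDVR_locValuationSubring (P : Ideal R) [hPp : P.IsPrime]
    (hdvr : IsDiscreteValuationRing (locAt K P)) :
    IsLocDVR (locValuationSubring P (inferInstance : ValuationRing (locAt K P))) P := by
  have hinj : Function.Injective (algebraMap R K) := IsFractionRing.injective R K
  refine ⟨hPp, ?_, isDiscreteValuationRing_locValuationSubring P hdvr,
    algebraMap_mem_locValuationSubring P inferInstance, ?_, ?_, ?_, ?_⟩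
  · intro hbot
    apply IsDiscreteValuationRing.not_a_field (locAt K P)
    rw [← IsLocalization.AtPrime.map_eq_maximalIdeal P (locAt K P), Ideal.map_eq_bot_iff_le_ker]
    intro x hx
    rw [hbot, Ideal.mem_bot] at hx
    rw [hx]
    exact Ideal.zero_mem _
  · intro x hx
    exact (mem_locAt_iff P x).1 hx
  · intro s hs
    exact (mem_locAt_iff P _).2 ⟨1, s, hs, by rw [map_one, one_mul]⟩
  · intro r hr hr0 hinv
    have h1 : algebraMap R (locAt K P) r ∈ maximalIdeal (locAt K P) := by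
      rw [← IsLocalization.AtPrime.map_eq_maximalIdeal P (locAt K P)]
      exact Ideal.mem_map_of_mem _ hr
    have h2 : IsUnit (algebraMap R (locAt K P) r) := by
      have hrK : algebraMap R K r ≠ 0 := fun h => hr0 (hinj (by rw [h, map_zero]))
      refine IsUnit.of_mul_eq_one ⟨(algebraMap R K r)⁻¹, hinv⟩ ?_
      apply Subtype.ext
      show algebraMap R K r * (algebraMap R K r)⁻¹ = 1
      exact mul_inv_cancel₀ hrK
    exact (mem_nonunits_iff.1 ((IsLocalRing.mem_maximalIdeal _).1 h1)) h2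
  · intro Q hQ hQ0 hle
    exact eq_of_le_of_isDiscreteValuationRing P Q hQ hdvr hQ0 hle

/-- **Algebraic Hartogs lemma**, valuation form.  If `u ∈ K` is not in `R` there is a discrete
valuation subring `O` of `K`, the localisation of `R` at a height-one prime `P`, with `u ∉ O`. -/
theorem exists_isLocDVR_not_mem [IsNoetherianRing R] [IsIntegrallyClosed R] (u : K)
    (hu : u ∉ (algebraMap R K).range) :
    ∃ (O : ValuationSubring K) (P : Ideal R), IsLocDVR O P ∧ u ∉ O := by
  by_contra hcon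
  apply hu
  apply hartogs_locAt u
  intro P hPp hdvr
  by_contra huP
  exact hcon ⟨_, P, isLocDVR_locValuationSubring P hdvr, huP⟩

/-- **Algebraic Hartogs lemma**, positive form. -/
theorem mem_range_of_forall_isLocDVR [IsNoetherianRing R] [IsIntegrallyClosed R] (u : K)
    (h : ∀ (O : ValuationSubring K) (P : Ideal R), IsLocDVR O P → u ∈ O) :
    u ∈ (algebraMap R K).range := by
  by_contra hu
  obtain ⟨O, P, hOP, huO⟩ := exists_isLocDVR_not_mem u hu
  exact huO (h O P hOP)

/-- An element of `K` lying in every discrete valuation subring of `K` containing `R` lies in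
`R`. -/
theorem mem_range_of_forall_valuationSubring [IsNoetherianRing R] [IsIntegrallyClosed R] (u : K)
    (h : ∀ O : ValuationSubring K, IsDiscreteValuationRing O →
      (∀ r : R, algebraMap R K r ∈ O) → u ∈ O) :
    u ∈ (algebraMap R K).range :=
  mem_range_of_forall_isLocDVR u (fun O _ hOP => h O hOP.dvr hOP.le)

/-- **Trivial Weil divisor ⇒ unit.**  If `u ≠ 0` is a unit of every discrete valuation subring
of `K` which is the localisation of `R` at a height-one prime, then `u` is (the image of) a unit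
of `R`. -/
theorem isUnit_of_forall_isLocDVR [IsNoetherianRing R] [IsIntegrallyClosed R] (u : K)
    (hu : u ≠ 0)
    (h : ∀ (O : ValuationSubring K) (P : Ideal R), IsLocDVR O P → u ∈ O ∧ u⁻¹ ∈ O) :
    ∃ r : Rˣ, algebraMap R K (r : R) = u := by
  obtain ⟨r, hr⟩ := mem_range_of_forall_isLocDVR u (fun O P hOP => (h O P hOP).1)
  obtain ⟨r', hr'⟩ := mem_range_of_forall_isLocDVR u⁻¹ (fun O P hOP => (h O P hOP).2)
  have hinj : Function.Injective (algebraMap R K) := IsFractionRing.injective R K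
  have hmul : r * r' = 1 := by
    apply hinj
    rw [map_mul, map_one]
    show algebraMap R K r * algebraMap R K r' = 1
    rw [hr, hr', mul_inv_cancel₀ hu]
  exact ⟨⟨r, r', hmul, by rw [mul_comm, hmul]⟩, hr⟩

/-- Same with all discrete valuation subrings containing `R`. -/
theorem isUnit_of_forall_valuationSubring [IsNoetherianRing R] [IsIntegrallyClosed R] (u : K)
    (hu : u ≠ 0)
    (h : ∀ O : ValuationSubring K, IsDiscreteValuationRing O →
      (∀ r : R, algebraMap R K r ∈ O) → u ∈ O ∧ u⁻¹ ∈ O) :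
    ∃ r : Rˣ, algebraMap R K (r : R) = u :=
  isUnit_of_forall_isLocDVR u hu (fun O _ hOP => h O hOP.dvr hOP.le)

end Fermat.Agent.A2.H849

end
-- ===== PACK-END A2/H849/Hartogs.lean

-- ===== PACK-BEGIN A2/Alg/H754/ChartDim.lean
section


/-!
# A2 / ALG / P-S (helper754): the components of a two-dimensional chart are Dedekind

`B` a domain, integral over a Noetherian ring `A₀` of Krull dimension `≤ 2` (`A₀ = R[x]`, `R` a
DVR).  Then every prime `q` strictly containing a nonzero prime `p` is maximal; hence `B ⧸ p` is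
a Dedekind domain as soon as it is Noetherian and integrally closed.
-/

set_option autoImplicit false
set_option linter.style.haveILetI false

namespace Fermat.Agent.A2.Alg.H754

section Dim

variable {A₀ B : Type*} [CommRing A₀] [IsNoetherianRing A₀] [CommRing B] [IsDomain B]
  [Algebra A₀ B] [Algebra.IsIntegral A₀ B]

/-- No chain of primes `⊥ < p < q < M` in an integral extension of a ring of dimension `≤ 2`. -/
theorem isMaximal_of_lt_of_ne_bot (hdim : ringKrullDim A₀ ≤ 2) (p q : Ideal B) [hp : p.IsPrime]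
    [hq : q.IsPrime] (hp0 : p ≠ ⊥) (hpq : p < q) : q.IsMaximal := by
  by_contra hmax
  obtain ⟨M, hM, hqM⟩ := Ideal.exists_le_maximal q hq.ne_top
  have hqM' : q < M := lt_of_le_of_ne hqM (fun h => hmax (h ▸ hM))
  haveI hMp : M.IsPrime := hM.isPrime
  haveI hbot : (⊥ : Ideal B).IsPrime := Ideal.isPrime_bot
  have key : ∀ (I J : Ideal B) [I.IsPrime], I < J →
      I.comap (algebraMap A₀ B) < J.comap (algebraMap A₀ B) := by
    intro I J _ hIJ
    obtain ⟨x, hxJ, hxI⟩ := SetLike.exists_of_lt hIJ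
    exact Ideal.comap_lt_comap_of_integral_mem_sdiff hIJ.le ⟨hxJ, hxI⟩
      (Algebra.IsIntegral.isIntegral x)
  have h0 := key ⊥ p (bot_lt_iff_ne_bot.2 hp0)
  have h1 := key p q hpq
  have h2 := key q M hqM'
  haveI := Ideal.finiteHeight_of_isNoetherianRing ((⊥ : Ideal B).comap (algebraMap A₀ B))
  haveI := Ideal.finiteHeight_of_isNoetherianRing (p.comap (algebraMap A₀ B))
  haveI := Ideal.finiteHeight_of_isNoetherianRing (q.comap (algebraMap A₀ B))
  have e0 := Order.add_one_le_of_lt (Ideal.height_strict_mono_of_isPrime h0)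
  have e1 := Order.add_one_le_of_lt (Ideal.height_strict_mono_of_isPrime h1)
  have e2 := Order.add_one_le_of_lt (Ideal.height_strict_mono_of_isPrime h2)
  have hne : M.comap (algebraMap A₀ B) ≠ ⊤ := (Ideal.comap_isPrime _ M).ne_top
  have e3 : ((M.comap (algebraMap A₀ B)).height : WithBot ℕ∞) ≤ 2 :=
    le_trans (Ideal.height_le_ringKrullDim_of_ne_top hne) hdim
  have e3' : (M.comap (algebraMap A₀ B)).height ≤ 2 := by
    have h2 : ((2 : ℕ∞) : WithBot ℕ∞) = 2 := rfl
    rw [← h2] at e3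
    exact WithBot.coe_le_coe.1 e3
  have e4 : (3 : ℕ∞) ≤ (M.comap (algebraMap A₀ B)).height := by
    calc (3 : ℕ∞) = 0 + 1 + 1 + 1 := by norm_num
      _ ≤ ((⊥ : Ideal B).comap (algebraMap A₀ B)).height + 1 + 1 + 1 := by gcongr; exact zero_le
      _ ≤ (p.comap (algebraMap A₀ B)).height + 1 + 1 := by gcongr
      _ ≤ (q.comap (algebraMap A₀ B)).height + 1 := by gcongr
      _ ≤ _ := e2
  have : (3 : ℕ∞) ≤ 2 := le_trans e4 e3'
  exact absurd this (by decide)

/-- The components of the special fibre are Dedekind. -/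
theorem isDedekindDomain_quotient_of_dim [IsNoetherianRing B] (hdim : ringKrullDim A₀ ≤ 2)
    (p : Ideal B) [hp : p.IsPrime] (hp0 : p ≠ ⊥) (hnorm : IsIntegrallyClosed (B ⧸ p)) :
    IsDedekindDomain (B ⧸ p) := by
  have hsurj : Function.Surjective (Ideal.Quotient.mk p) := Ideal.Quotient.mk_surjective
  have h1 : IsNoetherianRing (B ⧸ p) := inferInstance
  have h2 : Ring.DimensionLEOne (B ⧸ p) := by
    refine ⟨fun {Q} hQ0 hQ => ?_⟩
    haveI := hQ
    have hle : p ≤ Q.comap (Ideal.Quotient.mk p) := by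
      intro b hb
      rw [Ideal.mem_comap, Ideal.Quotient.eq_zero_iff_mem.2 hb]
      exact Q.zero_mem
    have hne : p ≠ Q.comap (Ideal.Quotient.mk p) := by
      intro h
      apply hQ0
      rw [← Ideal.map_comap_of_surjective _ hsurj Q, ← h, Ideal.map_quotient_self]
    have hmax : (Q.comap (Ideal.Quotient.mk p)).IsMaximal :=
      isMaximal_of_lt_of_ne_bot (A₀ := A₀) hdim p _ hp0 (lt_of_le_of_ne hle hne)
    rw [← Ideal.map_comap_of_surjective _ hsurj Q]
    haveI := hmax
    exact Ideal.IsMaximal.map_of_surjective_of_ker_le hsurj (by rw [Ideal.mk_ker]; exact hle)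
  have h3 : IsIntegrallyClosed (B ⧸ p) := hnorm
  exact { h1, h2, h3 with }

end Dim

end Fermat.Agent.A2.Alg.H754

end
-- ===== PACK-END A2/Alg/H754/ChartDim.lean

-- ===== PACK-BEGIN A2/H729/RegSeq.lean
section


/-!
# A2 (helper729): the regular-sequence lemma on a normal model

`A` an integrally closed domain, `F` a field containing `A`, `w ∈ A` prime, `s ∈ A` not divisible
by `w`.  If `w t` and `s t` are integral over `A` then `t` is integral over `A`.
(No noetherian hypothesis, no Krull domains: minimal polynomials and `scaleRoots`.)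
-/

set_option autoImplicit false

namespace Fermat.Agent.A2.H729

open Polynomial

variable {A : Type*} [CommRing A] [IsDomain A] [IsIntegrallyClosed A]
  {F : Type*} [Field F] [Algebra A F] [Module.IsTorsionFree A F]

theorem isIntegral_of_smul_of_smul {w s : A} (hw : Prime w) (hs : ¬ w ∣ s) {t : F}
    (h1 : IsIntegral A (w • t)) (h2 : IsIntegral A (s • t)) : IsIntegral A t := by
  classical
  have hw0 : w ≠ 0 := hw.ne_zero
  have hs0 : s ≠ 0 := fun h => hs (h ▸ dvd_zero w)
  set p := minpoly A (w • t) with hp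
  set p' := minpoly A (s • t) with hp'
  have hcomm : s • (w • t) = w • (s • t) := smul_comm s w t
  have hE : p.scaleRoots s = p'.scaleRoots w := by
    rw [hp, hp', ← IsIntegrallyClosed.minpoly_smul hs0 h1, ← IsIntegrallyClosed.minpoly_smul hw0 h2,
      hcomm]
  set n := p.natDegree with hn
  have hn' : p'.natDegree = n := by
    have := congrArg natDegree hE
    rw [natDegree_scaleRoots, natDegree_scaleRoots] at this
    exact this.symm
  have hcoef : ∀ i, p.coeff i * s ^ (n - i) = p'.coeff i * w ^ (n - i) := by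
    intro i
    have := congrArg (fun q => q.coeff i) hE
    simp only [coeff_scaleRoots] at this
    rw [hn'] at this
    exact this
  have hspow : ∀ k : ℕ, ¬ w ∣ s ^ k := fun k h => hs (hw.dvd_of_dvd_pow h)
  have hdvd : ∀ i, w ^ (n - i) ∣ p.coeff i := by
    intro i
    refine hw.pow_dvd_of_dvd_mul_right _ (hspow (n - i)) ?_
    rw [hcoef i]
    exact Dvd.intro_left _ rfl
  choose c hc using hdvd
  have hmonic : p.Monic := minpoly.monic h1
  -- the monic polynomial annihilating `t`
  set q : A[X] := X ^ n + ∑ i : Fin n, C (c i) * X ^ (i : ℕ) with hq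
  have hqm : q.Monic := monic_X_pow_add (degree_sum_fin_lt fun i : Fin n => c i)
  refine ⟨q, hqm, ?_⟩
  have hp_eval : aeval (w • t) p = 0 := minpoly.aeval A (w • t)
  -- expand `p` as a sum over `range (n+1)`
  have hpsum : aeval (w • t) p = ∑ i ∈ Finset.range (n + 1), p.coeff i • (w • t) ^ i := by
    rw [aeval_eq_sum_range]
  have key : (w ^ n) • (eval₂ (algebraMap A F) t q) = aeval (w • t) p := by
    rw [hpsum, hq, eval₂_add, eval₂_pow, eval₂_X, eval₂_finsetSum, Finset.sum_range_succ,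
      Finset.sum_range fun i => p.coeff i • (w • t) ^ i]
    have hlead : p.coeff n = 1 := hmonic.coeff_natDegree
    rw [hlead, one_smul, smul_add, Finset.smul_sum, add_comm]
    congr 1
    · refine Finset.sum_congr rfl fun i _ => ?_
      rw [eval₂_mul, eval₂_C, eval₂_pow, eval₂_X, hc i, _root_.smul_pow, Algebra.smul_def,
        Algebra.smul_def, Algebra.smul_def, map_mul, map_pow, map_pow, map_pow]
      have hpow : (algebraMap A F w) ^ n =
          (algebraMap A F w) ^ (n - (i : ℕ)) * (algebraMap A F w) ^ (i : ℕ) := by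
        rw [← pow_add]
        congr 1
        have := i.2
        omega
      rw [hpow]
      ring
    · rw [_root_.smul_pow]
  have h0 : (w ^ n) • (eval₂ (algebraMap A F) t q) = 0 := by rw [key, hp_eval]
  rcases smul_eq_zero.1 h0 with h | h
  · exact absurd h (pow_ne_zero _ hw0)
  · exact h

end Fermat.Agent.A2.H729

end
-- ===== PACK-END A2/H729/RegSeq.lean

-- ===== PACK-BEGIN A2/H489/TwoExt.lean
section


/-!
# A2 / M1-abs (helper489): extensions of a discrete valuation to a finite separable extension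

Mathlib-only.  `S` Dedekind domain with fraction field `F`.

* `center V hV` : the centre on `S` of a valuation subring `V ⊇ S` of `F`.
* `eq_valuationSubring_of_center` : a valuation subring `V ≠ ⊤` of `F` containing `S` is the
  valuation subring of the `𝔓`-adic valuation, `𝔓` its centre.
-/

set_option autoImplicit false

namespace Fermat.Agent.A2.H489

open IsDedekindDomain IsLocalRing

section Center

variable {S F : Type*} [CommRing S] [Field F] [Algebra S F]

/-- the structure map `S → V` for a valuation subring `V` of `F` containing the image of `S`. -/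
def toValSub (V : ValuationSubring F) (hV : ∀ s : S, algebraMap S F s ∈ V) : S →+* V :=
  (algebraMap S F).codRestrict V.toSubring hV

@[simp]
theorem coe_toValSub (V : ValuationSubring F) (hV : ∀ s : S, algebraMap S F s ∈ V) (s : S) :
    ((toValSub V hV s : V) : F) = algebraMap S F s := rfl

/-- The centre on `S` of a valuation subring `V ⊇ S` of `F`. -/
def center (V : ValuationSubring F) (hV : ∀ s : S, algebraMap S F s ∈ V) : Ideal S :=
  (IsLocalRing.maximalIdeal V).comap (toValSub V hV)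

instance center_isPrime (V : ValuationSubring F) (hV : ∀ s : S, algebraMap S F s ∈ V) :
    (center V hV).IsPrime :=
  Ideal.comap_isPrime _ _

theorem mem_center_iff (V : ValuationSubring F) (hV : ∀ s : S, algebraMap S F s ∈ V) (s : S) :
    s ∈ center V hV ↔ algebraMap S F s ∈ V.nonunits := by
  rw [center, Ideal.mem_comap, ← ValuationSubring.coe_mem_nonunits_iff, coe_toValSub]

theorem mem_center_iff_valuation (V : ValuationSubring F)
    (hV : ∀ s : S, algebraMap S F s ∈ V) (s : S) :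
    s ∈ center V hV ↔ V.valuation (algebraMap S F s) < 1 := by
  rw [mem_center_iff, ValuationSubring.mem_nonunits_iff]

theorem inv_mem_of_not_mem_center (V : ValuationSubring F)
    (hV : ∀ s : S, algebraMap S F s ∈ V) {s : S} (hs : s ∉ center V hV) :
    (algebraMap S F s)⁻¹ ∈ V := by
  rw [mem_center_iff, ValuationSubring.mem_nonunits_iff_or, not_or, not_not] at hs
  exact hs.2

end Center

section Dedekind

variable {S F : Type*} [CommRing S] [IsDedekindDomain S] [Field F] [Algebra S F]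
  [IsFractionRing S F]

/-- A valuation subring `V ≠ ⊤` of `F = Frac S` containing the Dedekind domain `S` is the
valuation subring of the adic valuation at its centre. -/
theorem eq_valuationSubring_of_center (V : ValuationSubring F)
    (hV : ∀ s : S, algebraMap S F s ∈ V) (hne : V ≠ ⊤)
    (v : HeightOneSpectrum S) (hv : v.asIdeal = center V hV) :
    V = (v.valuation F).valuationSubring := by
  have hle : (v.valuation F).valuationSubring ≤ V := by
    intro x hx
    obtain ⟨n, d, hnd⟩ := v.exists_primeCompl_mul_eq_of_integer x hx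
    have hd : (d : S) ∉ center V hV := by
      rw [← hv]; exact d.2
    have hdinv := inv_mem_of_not_mem_center V hV hd
    have hd0 : algebraMap S F (d : S) ≠ 0 := by
      intro h0
      apply hd
      rw [mem_center_iff, h0]
      exact V.nonunits.zero_mem
    have hx' : x = algebraMap S F n * (algebraMap S F (d : S))⁻¹ := by
      rw [← hnd]; field_simp
    rw [hx']
    exact V.mul_mem _ _ (hV n) hdinv
  have h1 := v.valuationSubringAtPrime_eq_valuationSubring (K := F)
  have h2 : v.valuationSubringAtPrime F ≤ V := by rw [h1]; exact hle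
  rw [← h1]
  exact (ValuationSubring.eq_of_le_of_ne_top (v.valuationSubringAtPrime F) h2 hne).symm

/-- The centre of a valuation subring `V ≠ ⊤` containing `S` is nonzero. -/
theorem center_ne_bot (V : ValuationSubring F) (hV : ∀ s : S, algebraMap S F s ∈ V)
    (hne : V ≠ ⊤) : center V hV ≠ ⊥ := by
  intro hbot
  apply hne
  rw [eq_top_iff]
  intro x _
  obtain ⟨a, b, hb, rfl⟩ := IsFractionRing.div_surjective (A := S) x
  have hb' : b ∉ center V hV := by
    rw [hbot]
    intro h
    exact (nonZeroDivisors.ne_zero hb) (by simpa using h)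
  rw [div_eq_mul_inv]
  exact V.mul_mem _ _ (hV a) (inv_mem_of_not_mem_center V hV hb')

/-- The centre as a height-one prime. -/
def centerSpec (V : ValuationSubring F) (hV : ∀ s : S, algebraMap S F s ∈ V)
    (hne : V ≠ ⊤) : HeightOneSpectrum S where
  asIdeal := center V hV
  isPrime := center_isPrime V hV
  ne_bot := center_ne_bot V hV hne

theorem eq_valuationSubring_centerSpec (V : ValuationSubring F)
    (hV : ∀ s : S, algebraMap S F s ∈ V) (hne : V ≠ ⊤) :
    V = ((centerSpec V hV hne).valuation F).valuationSubring :=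
  eq_valuationSubring_of_center V hV hne _ rfl

/-- Two valuation subrings `≠ ⊤` containing `S` with the same centre are equal. -/
theorem eq_of_center_eq (V W : ValuationSubring F)
    (hV : ∀ s : S, algebraMap S F s ∈ V) (hW : ∀ s : S, algebraMap S F s ∈ W)
    (hVne : V ≠ ⊤) (hWne : W ≠ ⊤) (h : center V hV = center W hW) : V = W := by
  rw [eq_valuationSubring_centerSpec V hV hVne,
    eq_valuationSubring_of_center W hW hWne (centerSpec V hV hVne) h]

end Dedekind

end Fermat.Agent.A2.H489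

end
-- ===== PACK-END A2/H489/TwoExt.lean

-- ===== PACK-BEGIN A2/Mod/H378/L11Abstract.lean
section


/-!
# A2 / MOD leaf L11 (helper378): residue degree one, abstract form

`K` a field, `V ⊆ K` a subring (a discrete valuation ring with uniformiser `w` in the
application), `O ⊆ V` a subring with `O ∩ w V = w O` and `O ∩ Vˣ = Oˣ`, `X ⊆ V` a set of
elements each satisfying a "Kronecker relation" `s (x - a) = w c` with `a ∈ O`,
`s, c ∈ B := O[X]`, `s ∈ Vˣ`.  If `K` is generated as a field by `O ∪ X`, then `V = O + w V`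
(`ResOneData.exists_congr`): the localisation of `B` at `B ∩ w V` is a discrete valuation ring
with fraction field `K` contained in `V`, hence equal to `V`, and its residue field is the
residue field of `O`.
-/

set_option autoImplicit false

namespace Fermat.Agent.A2.Mod.H378

variable {K : Type*} [Field K]

/-- The hypotheses of the abstract residue-degree-one lemma. -/
structure ResOneData (V O : Subring K) (w : K) (X : Set K) : Prop where
  O_le : ∀ x ∈ O, x ∈ V
  w_mem : w ∈ O
  w_ne : w ≠ 0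
  w_nonunit : w⁻¹ ∉ V
  O_div : ∀ x ∈ O, x * w⁻¹ ∈ V → x * w⁻¹ ∈ O
  O_inv : ∀ x ∈ O, x⁻¹ ∈ V → x⁻¹ ∈ O
  X_le : ∀ x ∈ X, x ∈ V
  disc : ∀ x ∈ V, x ≠ 0 → ∃ (n : ℕ) (u : K), u ∈ V ∧ u⁻¹ ∈ V ∧ x = w ^ n * u
  kron : ∀ x ∈ X, ∃ a ∈ O, ∃ s ∈ Subring.closure ((O : Set K) ∪ X), s ≠ 0 ∧ s⁻¹ ∈ V ∧
    ∃ c ∈ Subring.closure ((O : Set K) ∪ X), s * (x - a) = w * c
  gen : ∀ f : K, f ∈ Subfield.closure ((O : Set K) ∪ X)

namespace ResOneData

variable {V O : Subring K} {w : K} {X : Set K}

/-- `x ≡ g mod w V` for some `g ∈ O`. -/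
def Cong (V O : Subring K) (w : K) (x : K) : Prop := ∃ g ∈ O, (x - g) * w⁻¹ ∈ V

theorem w_mem_V (h : ResOneData V O w X) : w ∈ V := h.O_le w h.w_mem

theorem closure_le (h : ResOneData V O w X) : Subring.closure ((O : Set K) ∪ X) ≤ V := by
  rw [Subring.closure_le]
  rintro x (hx | hx)
  · exact h.O_le x hx
  · exact h.X_le x hx

theorem mem_closure_of_O (O : Subring K) (X : Set K) {x : K} (hx : x ∈ O) :
    x ∈ Subring.closure ((O : Set K) ∪ X) :=
  Subring.subset_closure (Or.inl hx)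

theorem Cong.mem (h : ResOneData V O w X) {x : K} (hx : Cong V O w x) : x ∈ V := by
  obtain ⟨g, hg, hv⟩ := hx
  have h1 : x = g + w * ((x - g) * w⁻¹) := by
    have := h.w_ne
    field_simp
    ring
  rw [h1]
  exact V.add_mem (h.O_le g hg) (V.mul_mem h.w_mem_V hv)

theorem Cong.of_O {x : K} (hx : x ∈ O) : Cong V O w x :=
  ⟨x, hx, by rw [sub_self, zero_mul]; exact V.zero_mem⟩

theorem Cong.add {x y : K} (hx : Cong V O w x) (hy : Cong V O w y) : Cong V O w (x + y) := by
  obtain ⟨g, hg, hv⟩ := hx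
  obtain ⟨g', hg', hv'⟩ := hy
  refine ⟨g + g', O.add_mem hg hg', ?_⟩
  have : (x + y - (g + g')) * w⁻¹ = (x - g) * w⁻¹ + (y - g') * w⁻¹ := by ring
  rw [this]
  exact V.add_mem hv hv'

theorem Cong.neg {x : K} (hx : Cong V O w x) : Cong V O w (-x) := by
  obtain ⟨g, hg, hv⟩ := hx
  refine ⟨-g, O.neg_mem hg, ?_⟩
  have : (-x - -g) * w⁻¹ = -((x - g) * w⁻¹) := by ring
  rw [this]
  exact V.neg_mem hv

theorem Cong.mul (h : ResOneData V O w X) {x y : K} (hx : Cong V O w x) (hy : Cong V O w y) :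
    Cong V O w (x * y) := by
  have hyV := Cong.mem h hy
  obtain ⟨g, hg, hv⟩ := hx
  obtain ⟨g', hg', hv'⟩ := hy
  refine ⟨g * g', O.mul_mem hg hg', ?_⟩
  have : (x * y - g * g') * w⁻¹ = (x - g) * w⁻¹ * y + g * ((y - g') * w⁻¹) := by ring
  rw [this]
  exact V.add_mem (V.mul_mem hv hyV) (V.mul_mem (h.O_le g hg) hv')

/-- A unit of `V` which is congruent to an element of `O` has its inverse congruent to an
element of `O`. -/
theorem Cong.inv (h : ResOneData V O w X) {x : K} (hx : Cong V O w x) (hx0 : x ≠ 0)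
    (hxi : x⁻¹ ∈ V) : Cong V O w x⁻¹ := by
  obtain ⟨g, hg, hv⟩ := hx
  have hw := h.w_ne
  have hxg : x = g + w * ((x - g) * w⁻¹) := by
    field_simp
    ring
  have hgV : g ∈ V := h.O_le g hg
  -- `g` is a unit of `V`
  have hg0 : g ≠ 0 := by
    rintro rfl
    apply h.w_nonunit
    have h1 : w⁻¹ = x⁻¹ * ((x - 0) * w⁻¹) := by
      rw [sub_zero]
      field_simp
    rw [h1]
    exact V.mul_mem hxi hv
  have hgi : g⁻¹ ∈ V := by
    obtain ⟨n, u, hu, hui, hgu⟩ := h.disc g hgV hg0
    rcases Nat.eq_zero_or_pos n with hn | hn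
    · rw [hn, pow_zero, one_mul] at hgu
      rw [hgu]
      exact hui
    · exfalso
      apply h.w_nonunit
      obtain ⟨m, rfl⟩ : ∃ m, n = m + 1 := ⟨n - 1, by omega⟩
      have h1 : w⁻¹ = x⁻¹ * (w ^ m * u + (x - g) * w⁻¹) := by
        have h2 : x = w * (w ^ m * u + (x - g) * w⁻¹) := by
          have h5 : w * (w ^ m * u + (x - g) * w⁻¹)
              = w ^ (m + 1) * u + w * ((x - g) * w⁻¹) := by ring
          rw [h5, ← hgu]
          exact hxg
        have h3 : w ^ m * u + (x - g) * w⁻¹ ≠ 0 := by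
          intro h0
          rw [h0, mul_zero] at h2
          exact hx0 h2
        set z := w ^ m * u + (x - g) * w⁻¹ with hz
        have h4 : x⁻¹ = w⁻¹ * z⁻¹ := by
          rw [h2, mul_inv]
        rw [h4, mul_assoc, inv_mul_cancel₀ h3, mul_one]
      rw [h1]
      exact V.mul_mem hxi (V.add_mem (V.mul_mem (V.pow_mem h.w_mem_V m) hu) hv)
  refine ⟨g⁻¹, h.O_inv g hg hgi, ?_⟩
  have : (x⁻¹ - g⁻¹) * w⁻¹ = -((x - g) * w⁻¹) * x⁻¹ * g⁻¹ := by
    field_simp
    ring
  rw [this]
  exact V.mul_mem (V.mul_mem (V.neg_mem hv) hxi) hgi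

/-- Every element of `B = O[X]` is congruent to an element of `O`. -/
theorem cong_of_mem_closure (h : ResOneData V O w X) {b : K}
    (hb : b ∈ Subring.closure ((O : Set K) ∪ X)) : Cong V O w b := by
  induction hb using Subring.closure_induction with
  | mem x hx =>
    rcases hx with hx | hx
    · exact Cong.of_O hx
    · obtain ⟨a, ha, s, hs, hs0, hsi, c, hc, he⟩ := h.kron x hx
      refine ⟨a, ha, ?_⟩
      have h1 : (x - a) * w⁻¹ = c * s⁻¹ := by
        have hw := h.w_ne
        field_simp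
        rw [mul_comm, he, mul_comm]
      rw [h1]
      exact V.mul_mem (h.closure_le hc) hsi
  | zero => exact Cong.of_O O.zero_mem
  | one => exact Cong.of_O O.one_mem
  | add x y _ _ hx hy => exact Cong.add hx hy
  | neg x _ hx => exact Cong.neg hx
  | mul x y _ _ hx hy => exact Cong.mul h hx hy

/-- The Kronecker relation for every element of `B = O[X]`. -/
theorem kron_closure (h : ResOneData V O w X) {b : K}
    (hb : b ∈ Subring.closure ((O : Set K) ∪ X)) :
    ∃ a ∈ O, ∃ s ∈ Subring.closure ((O : Set K) ∪ X), s ≠ 0 ∧ s⁻¹ ∈ V ∧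
      ∃ c ∈ Subring.closure ((O : Set K) ∪ X), s * (b - a) = w * c := by
  induction hb using Subring.closure_induction with
  | mem x hx =>
    rcases hx with hx | hx
    · exact ⟨x, hx, 1, Subring.one_mem _, one_ne_zero, by rw [inv_one]; exact V.one_mem,
        0, Subring.zero_mem _, by rw [sub_self, mul_zero, mul_zero]⟩
    · exact h.kron x hx
  | zero =>
    exact ⟨0, O.zero_mem, 1, Subring.one_mem _, one_ne_zero, by rw [inv_one]; exact V.one_mem,
        0, Subring.zero_mem _, by rw [sub_self, mul_zero, mul_zero]⟩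
  | one =>
    exact ⟨1, O.one_mem, 1, Subring.one_mem _, one_ne_zero, by rw [inv_one]; exact V.one_mem,
        0, Subring.zero_mem _, by rw [sub_self, mul_zero, mul_zero]⟩
  | add x y _ _ hx hy =>
    obtain ⟨a, ha, s, hs, hs0, hsi, c, hc, he⟩ := hx
    obtain ⟨a', ha', s', hs', hs0', hsi', c', hc', he'⟩ := hy
    refine ⟨a + a', O.add_mem ha ha', s * s', Subring.mul_mem _ hs hs', mul_ne_zero hs0 hs0', ?_,
      s' * c + s * c', Subring.add_mem _ (Subring.mul_mem _ hs' hc) (Subring.mul_mem _ hs hc'), ?_⟩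
    · rw [mul_inv]
      exact V.mul_mem hsi hsi'
    · have : s * s' * (x + y - (a + a')) = s' * (s * (x - a)) + s * (s' * (y - a')) := by ring
      rw [this, he, he']
      ring
  | neg x _ hx =>
    obtain ⟨a, ha, s, hs, hs0, hsi, c, hc, he⟩ := hx
    refine ⟨-a, O.neg_mem ha, s, hs, hs0, hsi, -c, Subring.neg_mem _ hc, ?_⟩
    have : s * (-x - -a) = -(s * (x - a)) := by ring
    rw [this, he]
    ring
  | mul x y hxB hyB hx hy =>
    obtain ⟨a, ha, s, hs, hs0, hsi, c, hc, he⟩ := hx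
    obtain ⟨a', ha', s', hs', hs0', hsi', c', hc', he'⟩ := hy
    refine ⟨a * a', O.mul_mem ha ha', s * s', Subring.mul_mem _ hs hs', mul_ne_zero hs0 hs0', ?_,
      c * s' * y + a * s * c', Subring.add_mem _
        (Subring.mul_mem _ (Subring.mul_mem _ hc hs') hyB)
        (Subring.mul_mem _ (Subring.mul_mem _ (mem_closure_of_O O X ha) hs) hc'), ?_⟩
    · rw [mul_inv]
      exact V.mul_mem hsi hsi'
    · have : s * s' * (x * y - a * a') = (s * (x - a)) * s' * y + a * s * (s' * (y - a')) := by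
        ring
      rw [this, he, he']
      ring

/-- `B ∩ w V ⊆ w B_𝔪`. -/
theorem div_closure (h : ResOneData V O w X) {b : K}
    (hb : b ∈ Subring.closure ((O : Set K) ∪ X)) (hbw : b * w⁻¹ ∈ V) :
    ∃ s ∈ Subring.closure ((O : Set K) ∪ X), s ≠ 0 ∧ s⁻¹ ∈ V ∧
      ∃ c ∈ Subring.closure ((O : Set K) ∪ X), s * b = w * c := by
  obtain ⟨a, ha, s, hs, hs0, hsi, c, hc, he⟩ := h.kron_closure hb
  have hw := h.w_ne
  have haw : a * w⁻¹ ∈ V := by
    have h1 : a * w⁻¹ = b * w⁻¹ - c * s⁻¹ := by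
      have h2 : c = s * (b - a) * w⁻¹ := by
        rw [he]
        field_simp
      rw [h2]
      field_simp
      ring
    rw [h1]
    exact V.sub_mem hbw (V.mul_mem (h.closure_le hc) hsi)
  have haO : a * w⁻¹ ∈ O := h.O_div a ha haw
  refine ⟨s, hs, hs0, hsi, s * (a * w⁻¹) + c,
    Subring.add_mem _ (Subring.mul_mem _ hs (mem_closure_of_O O X haO)) hc, ?_⟩
  have h1 : s * b = s * (b - a) + s * a := by ring
  rw [h1, he]
  field_simp
  ring

/-- Every nonzero element of `B` is `w ^ n` times a unit of `B_𝔪`. -/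
theorem unit_closure (h : ResOneData V O w X) (n : ℕ) :
    ∀ b ∈ Subring.closure ((O : Set K) ∪ X), ∀ u : K, u ∈ V → u⁻¹ ∈ V → u ≠ 0 →
      b = w ^ n * u →
      ∃ s ∈ Subring.closure ((O : Set K) ∪ X), s ≠ 0 ∧ s⁻¹ ∈ V ∧
        ∃ s' ∈ Subring.closure ((O : Set K) ∪ X), s' ≠ 0 ∧ s'⁻¹ ∈ V ∧ s * b = w ^ n * s' := by
  have hw := h.w_ne
  induction n with
  | zero =>
    intro b hb u hu hui hu0 hbu
    rw [pow_zero, one_mul] at hbu
    refine ⟨1, Subring.one_mem _, one_ne_zero, by rw [inv_one]; exact V.one_mem,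
      b, hb, by rw [hbu]; exact hu0, by rw [hbu]; exact hui, by rw [pow_zero]⟩
  | succ n ih =>
    intro b hb u hu hui hu0 hbu
    have hbw : b * w⁻¹ ∈ V := by
      have : b * w⁻¹ = w ^ n * u := by
        rw [hbu, pow_succ]
        field_simp
      rw [this]
      exact V.mul_mem (V.pow_mem h.w_mem_V n) hu
    obtain ⟨s, hs, hs0, hsi, c, hc, he⟩ := h.div_closure hb hbw
    have hc' : c = w ^ n * (s * u) := by
      have h1 : w * c = w * (w ^ n * (s * u)) := by
        rw [← he, hbu, pow_succ]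
        ring
      exact mul_left_cancel₀ hw h1
    obtain ⟨s₁, hs₁, hs₁0, hs₁i, s₂, hs₂, hs₂0, hs₂i, he₁⟩ :=
      ih c hc (s * u) (V.mul_mem (h.closure_le hs) hu)
        (by rw [mul_inv]; exact V.mul_mem hsi hui) (mul_ne_zero hs0 hu0) hc'
    refine ⟨s₁ * s, Subring.mul_mem _ hs₁ hs, mul_ne_zero hs₁0 hs0,
      by rw [mul_inv]; exact V.mul_mem hs₁i hsi, s₂, hs₂, hs₂0, hs₂i, ?_⟩
    rw [mul_assoc, he, mul_left_comm, he₁, pow_succ]
    ring

/-- Every element of `K` is a fraction of elements of `B`. -/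
theorem exists_frac (h : ResOneData V O w X) (f : K) :
    ∃ b₁ ∈ Subring.closure ((O : Set K) ∪ X), ∃ b₂ ∈ Subring.closure ((O : Set K) ∪ X),
      b₂ ≠ 0 ∧ f * b₂ = b₁ := by
  have hf := h.gen f
  induction hf using Subfield.closure_induction with
  | mem x hx =>
    exact ⟨x, Subring.subset_closure hx, 1, Subring.one_mem _, one_ne_zero, mul_one _⟩
  | one => exact ⟨1, Subring.one_mem _, 1, Subring.one_mem _, one_ne_zero, mul_one _⟩
  | add x y _ _ hx hy =>
    obtain ⟨b₁, hb₁, b₂, hb₂, h0, he⟩ := hx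
    obtain ⟨b₁', hb₁', b₂', hb₂', h0', he'⟩ := hy
    refine ⟨b₁ * b₂' + b₁' * b₂, Subring.add_mem _ (Subring.mul_mem _ hb₁ hb₂')
      (Subring.mul_mem _ hb₁' hb₂), b₂ * b₂', Subring.mul_mem _ hb₂ hb₂', mul_ne_zero h0 h0', ?_⟩
    rw [← he, ← he']
    ring
  | neg x _ hx =>
    obtain ⟨b₁, hb₁, b₂, hb₂, h0, he⟩ := hx
    exact ⟨-b₁, Subring.neg_mem _ hb₁, b₂, hb₂, h0, by rw [← he, neg_mul]⟩
  | inv x _ hx =>
    obtain ⟨b₁, hb₁, b₂, hb₂, h0, he⟩ := hx
    by_cases hx0 : x = 0
    · exact ⟨0, Subring.zero_mem _, 1, Subring.one_mem _, one_ne_zero,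
        by rw [hx0, inv_zero, zero_mul]⟩
    · have hb₁0 : b₁ ≠ 0 := by
        rw [← he]
        exact mul_ne_zero hx0 h0
      refine ⟨b₂, hb₂, b₁, hb₁, hb₁0, ?_⟩
      rw [← he, ← mul_assoc, inv_mul_cancel₀ hx0, one_mul]
  | mul x y _ _ hx hy =>
    obtain ⟨b₁, hb₁, b₂, hb₂, h0, he⟩ := hx
    obtain ⟨b₁', hb₁', b₂', hb₂', h0', he'⟩ := hy
    refine ⟨b₁ * b₁', Subring.mul_mem _ hb₁ hb₁', b₂ * b₂', Subring.mul_mem _ hb₂ hb₂',
      mul_ne_zero h0 h0', ?_⟩
    rw [← he, ← he']
    ring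

/-- **Residue degree one.**  Every element of `V` is congruent modulo `w V` to an element
of `O`. -/
theorem exists_congr (h : ResOneData V O w X) {f : K} (hf : f ∈ V) :
    ∃ g ∈ O, (f - g) * w⁻¹ ∈ V := by
  have hw := h.w_ne
  by_cases hf0 : f = 0
  · exact ⟨0, O.zero_mem, by rw [hf0, sub_zero, zero_mul]; exact V.zero_mem⟩
  obtain ⟨b₁, hb₁, b₂, hb₂, hb₂0, he⟩ := h.exists_frac f
  have hb₁0 : b₁ ≠ 0 := by
    rw [← he]
    exact mul_ne_zero hf0 hb₂0
  obtain ⟨n₁, u₁, hu₁, hu₁i, hbu₁⟩ := h.disc b₁ (h.closure_le hb₁) hb₁0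
  obtain ⟨n₂, u₂, hu₂, hu₂i, hbu₂⟩ := h.disc b₂ (h.closure_le hb₂) hb₂0
  have hu₁0 : u₁ ≠ 0 := by
    rintro rfl
    rw [mul_zero] at hbu₁
    exact hb₁0 hbu₁
  have hu₂0 : u₂ ≠ 0 := by
    rintro rfl
    rw [mul_zero] at hbu₂
    exact hb₂0 hbu₂
  obtain ⟨s₁, hs₁, hs₁0, hs₁i, t₁, ht₁, ht₁0, ht₁i, he₁⟩ :=
    h.unit_closure n₁ b₁ hb₁ u₁ hu₁ hu₁i hu₁0 hbu₁
  obtain ⟨s₂, hs₂, hs₂0, hs₂i, t₂, ht₂, ht₂0, ht₂i, he₂⟩ :=
    h.unit_closure n₂ b₂ hb₂ u₂ hu₂ hu₂i hu₂0 hbu₂
  -- `n₂ ≤ n₁`
  have hle : n₂ ≤ n₁ := by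
    by_contra hlt
    rw [not_le] at hlt
    obtain ⟨m, rfl⟩ : ∃ m, n₂ = n₁ + (m + 1) := ⟨n₂ - n₁ - 1, by omega⟩
    apply h.w_nonunit
    have h1 : w⁻¹ = w ^ m * f * u₂ * u₁⁻¹ := by
      have h2 : f * (w ^ (n₁ + (m + 1)) * u₂) = w ^ n₁ * u₁ := by
        rw [← hbu₂, ← hbu₁, he]
      have h3 : w ^ n₁ * (w * (w ^ m * f * u₂ * u₁⁻¹)) = w ^ n₁ * 1 := by
        have : w ^ n₁ * (w * (w ^ m * f * u₂ * u₁⁻¹))
            = f * (w ^ (n₁ + (m + 1)) * u₂) * u₁⁻¹ := by
          rw [pow_add, pow_succ]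
          ring
        rw [this, h2, mul_assoc, mul_inv_cancel₀ hu₁0]
      have h4 := mul_left_cancel₀ (pow_ne_zero n₁ hw) h3
      exact (eq_inv_of_mul_eq_one_right h4).symm ▸ rfl
    rw [h1]
    exact V.mul_mem (V.mul_mem (V.mul_mem (V.pow_mem h.w_mem_V m) hf) hu₂) hu₁i
  obtain ⟨k, rfl⟩ : ∃ k, n₁ = n₂ + k := ⟨n₁ - n₂, by omega⟩
  -- `f = w ^ k * (t₁ s₂) / (s₁ t₂)`
  have hfe : f = w ^ k * ((t₁ * s₂) * (s₁ * t₂)⁻¹) := by
    have h1 : b₁ = w ^ (n₂ + k) * t₁ * s₁⁻¹ := by
      rw [← he₁]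
      field_simp
    have h2 : b₂ = w ^ n₂ * t₂ * s₂⁻¹ := by
      rw [← he₂]
      field_simp
    have h3 : f = b₁ * b₂⁻¹ := by
      rw [← he]
      field_simp
    rw [h3, h1, h2, pow_add]
    field_simp
  have hC : Cong V O w f := by
    rw [hfe]
    refine Cong.mul h ?_ (Cong.mul h (Cong.mul h (h.cong_of_mem_closure ht₁)
      (h.cong_of_mem_closure hs₂)) ?_)
    · exact Cong.of_O (O.pow_mem h.w_mem k)
    · refine Cong.inv h (Cong.mul h (h.cong_of_mem_closure hs₁) (h.cong_of_mem_closure ht₂))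
        (mul_ne_zero hs₁0 ht₂0) ?_
      rw [mul_inv]
      exact V.mul_mem hs₁i ht₂i
  exact hC

end ResOneData

end Fermat.Agent.A2.Mod.H378

end
-- ===== PACK-END A2/Mod/H378/L11Abstract.lean

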