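import Fermat.Prelude.Def_ModularCurve_HeckeModule
import Mathlib
import Fermat.Prelude.Def_AlgebraicCurve_DivisorClassGroup
import Fermat.Prelude.Thm_ModularCurve_coeffMap_qExpand
import Fermat.Prelude.Def_ModularCurve_JqCoeff
import Fermat.Prelude.Def_ModularForm_HeckeOperator
import Mathlib.GroupTheory.Index
import Mathlib.SetTheory.Cardinal.NatCard
import Mathlib.SetTheory.Cardinal.Finite
import Fermat.Agent.Pack.S34.G0E0L0
import Fermat.Agent.Pack.S34.G0E0L3
import Fermat.Agent.Pack.S34.G0E0L2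
import Fermat.Agent.Pack.S34.G0E0L1
import Fermat.Agent.Pack.S34.G0E1L3
import Fermat.Agent.Pack.S34.G0E1L2
import Fermat.Agent.Pack.S34.G0E1L1
import Fermat.Agent.Pack.S34.G0E1L0

-- ===== PACK-BEGIN S18/H845/ConstExt.lean
section



/-!
# S18 / d1(c): extending a discrete valuation ring along a constant-field extension

`E ⊆ K ⊆ L` fields, `E` perfect, `V ⊆ K` a discrete valuation subring containing `E`, and
`L = K[algebraic constants]` (every element of `L` lies in `K[α]` for some `α` algebraic over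
`E`).  Then there is a valuation subring `B` of `L` with `B ∩ K = V` which is again a discrete
valuation ring, and a uniformiser of `V` is a uniformiser of `B` (`e = 1`).
-/

set_option autoImplicit false
set_option linter.unusedSectionVars false

namespace Fermat.Agent.S18.H845

open Polynomial IsLocalRing

section DVR

variable {L : Type*} [Field L] (B : ValuationSubring L) {ϖ : L} (hϖ0 : ϖ ≠ 0)
  (hϖ : B.valuation ϖ < 1)
  (hval : ∀ f : L, f ≠ 0 → ∃ k : ℤ, B.valuation f = B.valuation ϖ ^ k)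

include hϖ in
lemma unif_mem : ϖ ∈ B := (B.valuation_le_one_iff _).mp hϖ.le

include hϖ0 in
lemma val_unif_pos : 0 < B.valuation ϖ := zero_lt_iff.mpr ((Valuation.ne_zero_iff _).mpr hϖ0)

include hϖ0 hϖ hval in
/-- Every nonzero element of `B` is associated to a power of `ϖ`. -/
lemma associated_pow (x : B) (hx : x ≠ 0) :
    ∃ n : ℕ, Associated ((⟨ϖ, unif_mem B hϖ⟩ : B) ^ n) x := by
  have hxL : (x : L) ≠ 0 := fun h => hx (Subtype.ext h)
  obtain ⟨k, hk⟩ := hval x hxL
  have hpos := val_unif_pos B hϖ0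
  have hk0 : 0 ≤ k := by
    have h1 : B.valuation (x : L) ≤ 1 := B.valuation_le_one x
    rw [hk] at h1
    exact (zpow_le_one_iff_right_of_lt_one₀ hpos hϖ).mp h1
  obtain ⟨n, rfl⟩ : ∃ n : ℕ, k = n := ⟨k.toNat, by omega⟩
  refine ⟨n, ?_⟩
  rw [zpow_natCast] at hk
  -- the unit
  have hu : B.valuation ((x : L) / ϖ ^ n) = 1 := by
    rw [map_div₀, map_pow, hk]
    exact div_self (pow_ne_zero n hpos.ne')
  have huB : (x : L) / ϖ ^ n ∈ B := (B.valuation_le_one_iff _).mp hu.le
  have hunit : IsUnit (⟨(x : L) / ϖ ^ n, huB⟩ : B) := (B.valuation_eq_one_iff _).mpr hu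
  obtain ⟨u, hu'⟩ := hunit
  refine ⟨u, ?_⟩
  apply Subtype.ext
  rw [hu']
  show ϖ ^ n * ((x : L) / ϖ ^ n) = x
  field_simp

include hϖ0 hϖ hval in
/-- `ϖ` is irreducible in `B`. -/
lemma irreducible_unif : Irreducible (⟨ϖ, unif_mem B hϖ⟩ : B) := by
  have hpos := val_unif_pos B hϖ0
  refine ⟨?_, ?_⟩
  · intro hu
    have := (B.valuation_eq_one_iff _).mp hu
    exact absurd this hϖ.ne
  · intro a b hab
    have habL : ϖ = (a : L) * (b : L) := congrArg Subtype.val hab
    have ha0 : (a : L) ≠ 0 := fun h => hϖ0 (by rw [habL, h, zero_mul])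
    have hb0 : (b : L) ≠ 0 := fun h => hϖ0 (by rw [habL, h, mul_zero])
    obtain ⟨i, hi⟩ := hval a ha0
    obtain ⟨j, hj⟩ := hval b hb0
    have hi0 : 0 ≤ i := by
      have h1 : B.valuation (a : L) ≤ 1 := B.valuation_le_one a
      rw [hi] at h1
      exact (zpow_le_one_iff_right_of_lt_one₀ hpos hϖ).mp h1
    have hj0 : 0 ≤ j := by
      have h1 : B.valuation (b : L) ≤ 1 := B.valuation_le_one b
      rw [hj] at h1
      exact (zpow_le_one_iff_right_of_lt_one₀ hpos hϖ).mp h1
    have hsum : i + j = 1 := by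
      have h1 : B.valuation ϖ ^ (1 : ℤ) = B.valuation ϖ ^ (i + j) := by
        rw [zpow_add₀ hpos.ne', ← hi, ← hj, ← map_mul, ← habL, zpow_one]
      exact (zpow_right_injective₀ hpos hϖ.ne h1).symm
    rcases (show i = 0 ∨ j = 0 by omega) with h | h
    · left
      rw [B.valuation_eq_one_iff, hi, h, zpow_zero]
    · right
      rw [B.valuation_eq_one_iff, hj, h, zpow_zero]

include hϖ0 hϖ hval in
/-- `B` is a discrete valuation ring. -/
theorem isDiscreteValuationRing_of_val : IsDiscreteValuationRing B :=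
  IsDiscreteValuationRing.ofHasUnitMulPowIrreducibleFactorization
    ⟨⟨ϖ, unif_mem B hϖ⟩, irreducible_unif B hϖ0 hϖ hval,
      fun {x} hx => associated_pow B hϖ0 hϖ hval x hx⟩

end DVR

section Generic

variable {E K L : Type*} [Field E] [Field K] [Field L] [Algebra E K] [Algebra K L] [Algebra E L]
  [IsScalarTower E K L] [PerfectField E]

/-- Value-group statement for one valuation subring `B` of `L` dominating `V`. -/
theorem val_eq_zpow_of_dominates (V : ValuationSubring K) [IsDiscreteValuationRing V]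
    (hEV : ∀ c : E, algebraMap E K c ∈ V)
    (B : ValuationSubring L) (hVB : ∀ x : K, x ∈ V → algebraMap K L x ∈ B)
    {π : V} (hπ : Irreducible π) (hπB : B.valuation (algebraMap K L (π : K)) < 1)
    {α : L} (hα : IsAlgebraic E α) (q : K[X]) (hq : aeval α q ≠ 0) :
    ∃ k : ℤ, B.valuation (aeval α q) = B.valuation (algebraMap K L (π : K)) ^ k := by
  let _ : Algebra V L := ((algebraMap K L).comp (algebraMap V K)).toAlgebra
  have : IsScalarTower V K L := IsScalarTower.of_algebraMap_eq (fun _ => rfl)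
  have hinj : Function.Injective (algebraMap V L) := by
    intro a b hab
    have h1 : algebraMap K L (a : K) = algebraMap K L (b : K) := hab
    exact Subtype.ext ((algebraMap K L).injective h1)
  have hRB : ∀ r : V, algebraMap V L r ∈ B := fun r => hVB r r.2
  -- the polynomial
  let fEV : E →+* V := (algebraMap E K).codRestrict V hEV
  let p₀ := minpoly E α
  let p : V[X] := p₀.map fEV
  have hp : p.Monic := (minpoly.monic hα.isIntegral).map _
  have hpα : aeval α p = 0 := by
    show Polynomial.eval₂ (algebraMap V L) α (p₀.map fEV) = 0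
    rw [Polynomial.eval₂_map]
    have : (algebraMap V L).comp fEV = algebraMap E L := by
      ext c
      show algebraMap K L (algebraMap E K c) = algebraMap E L c
      rw [← IsScalarTower.algebraMap_apply]
    rw [this]
    exact minpoly.aeval E α
  have hsep : (p.map (residue V)).Separable := by
    rw [Polynomial.map_map]
    exact (PerfectField.separable_of_irreducible (minpoly.irreducible hα.isIntegral)).map
  -- clear denominators
  obtain ⟨b, hbM, hb⟩ := IsLocalization.integerNormalization_spec (nonZeroDivisors V) q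
  set g := IsLocalization.integerNormalization (nonZeroDivisors V) q with hg
  have hb0 : (b : V) ≠ 0 := nonZeroDivisors.ne_zero hbM
  have hsm : b • q = C ((b : V) : K) * q := by
    rw [← Polynomial.smul_eq_C_mul]
    rfl
  have hev : aeval α g = algebraMap K L ((b : V) : K) * aeval α q := by
    have h1 : aeval α (g.map (algebraMap V K)) = aeval α g := Polynomial.aeval_map_algebraMap K α g
    rw [← h1, hb, hsm, map_mul, aeval_C]
  have hbL : algebraMap K L ((b : V) : K) ≠ 0 := by
    intro h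
    apply hb0
    have h' : ((b : V) : K) = 0 := (algebraMap K L).injective (by rw [h, map_zero])
    exact Subtype.ext h'
  have hg0 : aeval α g ≠ 0 := by
    rw [hev]
    exact mul_ne_zero hbL hq
  obtain ⟨j, hj⟩ := val_aeval_eq_pow B hRB hπ hπB hp hpα hsep hinj g hg0
  obtain ⟨k, hk⟩ := val_algebraMap_eq_pow B hRB hπ hb0
  have hπ0 : B.valuation (algebraMap K L (π : K)) ≠ 0 := by
    rw [Valuation.ne_zero_iff]
    intro h
    have h' : (π : K) = 0 := (algebraMap K L).injective (by rw [h, map_zero])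
    exact hπ.ne_zero (Subtype.ext h')
  refine ⟨(j : ℤ) - k, ?_⟩
  have e1 : B.valuation (algebraMap K L ((b : V) : K)) * B.valuation (aeval α q) =
      B.valuation (algebraMap K L (π : K)) ^ j := by
    rw [← map_mul, ← hev]
    exact hj
  have e2 : B.valuation (algebraMap K L ((b : V) : K)) =
      B.valuation (algebraMap K L (π : K)) ^ k := hk
  rw [e2] at e1
  rw [zpow_sub₀ hπ0, zpow_natCast, zpow_natCast, ← e1]
  field_simp


omit [PerfectField E] [Algebra E K] [Algebra E L] [IsScalarTower E K L] in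
/-- A valuation subring of `L` dominating the valuation subring `V` of `K`. -/
theorem exists_dominating (V : ValuationSubring K) :
    ∃ B : ValuationSubring L, B.comap (algebraMap K L) = V ∧
      ∀ x : V, ¬ IsUnit x → B.valuation (algebraMap K L (x : K)) < 1 := by
  let f : V →+* L := (algebraMap K L).comp V.subtype
  obtain ⟨B, hB, hloc⟩ := IsLocalRing.exists_factor_valuationRing f
  have hnon : ∀ x : V, ¬ IsUnit x → B.valuation (algebraMap K L (x : K)) < 1 := by
    intro x hx
    have hx' : ¬ IsUnit (⟨f x, hB x⟩ : B) := fun h => hx (hloc.map_nonunit x h)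
    have hmem : (⟨f x, hB x⟩ : B) ∈ maximalIdeal B :=
      (mem_maximalIdeal _).mpr hx'
    exact (B.valuation_lt_one_iff _).mp hmem
  refine ⟨B, ?_, hnon⟩
  ext x
  rw [ValuationSubring.mem_comap]
  constructor
  · intro hxB
    by_contra hxV
    have hx0 : x ≠ 0 := fun h => hxV (h ▸ V.zero_mem)
    have hinv : x⁻¹ ∈ V := (V.mem_or_inv_mem x).resolve_left hxV
    have hnu : ¬ IsUnit (⟨x⁻¹, hinv⟩ : V) := by
      intro hu
      obtain ⟨u, hu⟩ := hu
      apply hxV
      have : x = ((u⁻¹ : Vˣ) : V) := by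
        have h1 : ((u : V) : K) = x⁻¹ := congrArg Subtype.val hu
        have h2 : ((u : V) : K) * ((u⁻¹ : Vˣ) : V) = 1 := by
          exact congrArg Subtype.val (Units.mul_inv u)
        rw [h1] at h2
        field_simp at h2
        exact h2.symm
      rw [this]
      exact Subtype.mem _
    have hlt := hnon ⟨x⁻¹, hinv⟩ hnu
    have hle : B.valuation (algebraMap K L x) ≤ 1 := (B.valuation_le_one_iff _).mpr hxB
    have hmul : B.valuation (algebraMap K L x⁻¹) * B.valuation (algebraMap K L x) = 1 := by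
      rw [← map_mul, ← map_mul, inv_mul_cancel₀ hx0, map_one, map_one]
    have : B.valuation (algebraMap K L x⁻¹) * B.valuation (algebraMap K L x) < 1 :=
      mul_lt_one_of_lt_of_le hlt hle
    exact absurd hmul this.ne
  · intro hxV
    exact hB ⟨x, hxV⟩

/-- If `B` dominates `V` and `L = K[algebraic constants]`, every nonzero element of `L` has
valuation an integral power of the valuation of a uniformiser of `V`. -/
theorem val_eq_zpow (V : ValuationSubring K) [IsDiscreteValuationRing V]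
    (hEV : ∀ c : E, algebraMap E K c ∈ V)
    (hL : ∀ f : L, ∃ α : L, IsAlgebraic E α ∧ f ∈ Algebra.adjoin K {α})
    (B : ValuationSubring L) (hcomap : B.comap (algebraMap K L) = V)
    (hdom : ∀ x : V, ¬ IsUnit x → B.valuation (algebraMap K L (x : K)) < 1)
    {π : V} (hπ : Irreducible π) {f : L} (hf : f ≠ 0) :
    ∃ k : ℤ, B.valuation f = B.valuation (algebraMap K L (π : K)) ^ k := by
  obtain ⟨α, hα, hfα⟩ := hL f
  rw [Algebra.adjoin_singleton_eq_range_aeval] at hfα
  obtain ⟨q, rfl⟩ := hfα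
  have hVB : ∀ x : K, x ∈ V → algebraMap K L x ∈ B := fun x hx => by
    rw [← hcomap] at hx
    exact hx
  exact val_eq_zpow_of_dominates V hEV B hVB hπ (hdom π hπ.not_isUnit) hα q hf

/-- **d1(c), generic form.**  A discrete valuation ring `V` of `K` containing the perfect field
`E` extends to a discrete valuation ring `B` of `L = K(algebraic constants)` with `B ∩ K = V`,
containing all algebraic constants, in which every uniformiser of `V` stays a uniformiser. -/
theorem exists_dvr_extension (V : ValuationSubring K) [IsDiscreteValuationRing V]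
    (hEV : ∀ c : E, algebraMap E K c ∈ V)
    (hgen : IntermediateField.adjoin K {α : L | IsAlgebraic E α} = ⊤) :
    ∃ B : ValuationSubring L, B.comap (algebraMap K L) = V ∧ IsDiscreteValuationRing B ∧
      (∀ α : L, IsAlgebraic E α → α ∈ B) ∧
      (∀ π : V, Irreducible π →
        ∃ h : algebraMap K L (π : K) ∈ B, Irreducible (⟨algebraMap K L (π : K), h⟩ : B)) ∧
      (∀ π : V, Irreducible π → ∀ f : L, f ≠ 0 →
        ∃ k : ℤ, B.valuation f = B.valuation (algebraMap K L (π : K)) ^ k) := by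
  obtain ⟨B, hcomap, hdom⟩ := exists_dominating (L := L) V
  have hL := exists_mem_adjoin_singleton (E := E) (K := K) (L := L) hgen
  have hval : ∀ π : V, Irreducible π → ∀ f : L, f ≠ 0 →
      ∃ k : ℤ, B.valuation f = B.valuation (algebraMap K L (π : K)) ^ k :=
    fun π hπ f hf => val_eq_zpow V hEV hL B hcomap hdom hπ hf
  have hπ0 : ∀ π : V, Irreducible π → algebraMap K L (π : K) ≠ 0 := by
    intro π hπ h
    have h' : (π : K) = 0 := (algebraMap K L).injective (by rw [h, map_zero])
    exact hπ.ne_zero (Subtype.ext h')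
  obtain ⟨π, hπ⟩ := IsDiscreteValuationRing.exists_irreducible V
  refine ⟨B, hcomap,
    isDiscreteValuationRing_of_val B (hπ0 π hπ) (hdom π hπ.not_isUnit) (hval π hπ), ?_, ?_, hval⟩
  · intro α hα
    have hEB : ∀ c : E, algebraMap E L c ∈ B := by
      intro c
      rw [IsScalarTower.algebraMap_apply E K L]
      have : algebraMap E K c ∈ B.comap (algebraMap K L) := by rw [hcomap]; exact hEV c
      exact this
    exact mem_of_monic_root B hEB (minpoly.monic hα.isIntegral) (minpoly.aeval E α)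
  · intro π' hπ'
    exact ⟨unif_mem B (hdom π' hπ'.not_isUnit),
      irreducible_unif B (hπ0 π' hπ') (hdom π' hπ'.not_isUnit) (hval π' hπ')⟩

end Generic


end Fermat.Agent.S18.H845

end
-- ===== PACK-END S18/H845/ConstExt.lean

-- ===== PACK-BEGIN S29/DefsM.lean
section
/-
S29 row — FROZEN interface definitions for layer M (the torsion module).  Row-lead helper269.
Namespace `Fermat.Agent.S29`.  Do not edit; propose changes via a note kind='question' stmt='S29'.
-/



set_option autoImplicit false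

noncomputable section

namespace Fermat.Agent.S29

open ModularCurve AlgebraicCurve
open scoped TensorProduct MatrixGroups

/-! ### The `p`-torsion of `J₀(N)(ℚ̄)` (Prelude `JZero N`) with Hecke and Galois operators -/

section Jp

variable (N : ℕ) [NeZero N] (p : ℕ)

/-- `J₀(N)(ℚ̄)[p]` as a `ℤ`-submodule of the Prelude's `JZero N`. -/
abbrev Jp : Submodule ℤ (JZero N) := Submodule.torsionBy ℤ (JZero N) (p : ℤ)

/-- The Prelude Hecke operator `T_ℓ` restricted to `J₀(N)[p]`. -/
def heckeJp (ℓ : Nat.Primes) : Jp N p →ₗ[ℤ] Jp N p :=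
  (heckeOperatorBar N ℓ).restrict (p := Jp N p) (q := Jp N p) (fun x hx => by
    rw [Submodule.mem_torsionBy_iff] at hx ⊢
    rw [← map_smul, hx, map_zero])

@[simp] theorem coe_heckeJp (ℓ : Nat.Primes) (x : Jp N p) :
    ((heckeJp N p ℓ x : Jp N p) : JZero N) = heckeOperatorBar N ℓ (x : JZero N) := rfl

/-- The Galois action on `J₀(N)[p]`. -/
def galJp (σ : GQ) : Jp N p →ₗ[ℤ] Jp N p :=
  ((DistribSMul.toAddMonoidHom (JZero N) σ).toIntLinearMap).restrict
    (p := Jp N p) (q := Jp N p) (fun x hx => by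
    rw [Submodule.mem_torsionBy_iff] at hx ⊢
    rw [← map_smul, hx, map_zero])

omit [NeZero N] in
@[simp] theorem coe_galJp (σ : GQ) (x : Jp N p) :
    ((galJp N p σ x : Jp N p) : JZero N) = σ • (x : JZero N) := rfl

end Jp

/-! ### Parabolic additive characters of `Γ₀(N)` and the cohomological Hecke operator -/

section ParHom

variable (N : ℕ)

/-- The group `Γ₀(N)` as a type. -/
abbrev G0 : Type := ↥(CongruenceSubgroup.Gamma0 N)

/-- Integer matrix of an element of `Γ₀(N)`. -/
def G0.mat {N : ℕ} (γ : G0 N) : Matrix (Fin 2) (Fin 2) ℤ := ((γ : SL(2, ℤ)) : Matrix (Fin 2) (Fin 2) ℤ)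

/-- `c : Γ₀(N) → A` is an additive character vanishing on all elements of trace `±2`
(cusp stabilisers, `-1`) and on all torsion (elliptic) elements. -/
structure IsParHom {N : ℕ} {A : Type*} [AddCommGroup A] (c : G0 N → A) : Prop where
  map_mul : ∀ γ γ' : G0 N, c (γ * γ') = c γ + c γ'
  parabolic : ∀ γ : G0 N, (γ.mat.trace = 2 ∨ γ.mat.trace = -2) → c γ = 0
  elliptic : ∀ (γ : G0 N) (n : ℕ), 0 < n → γ ^ n = 1 → c γ = 0

/-- Coset representatives of `Γ₀(N) \ Γ₀(N) diag(1,ℓ) Γ₀(N)` (`ℓ ∤ N` prime):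
`none ↦ [[ℓ,0],[0,1]]`, `some b ↦ [[1,b],[0,ℓ]]`. -/
def heckeRep (ℓ : ℕ) : Option (Fin ℓ) → Matrix (Fin 2) (Fin 2) ℤ
  | none => !![(ℓ : ℤ), 0; 0, 1]
  | some b => !![1, ((b : ℕ) : ℤ); 0, (ℓ : ℤ)]

/-- `heckeRep i * γ = γ' * heckeRep j`. -/
def IsHeckeFactor {N : ℕ} (ℓ : ℕ) (γ : G0 N) (i : Option (Fin ℓ)) (q : Option (Fin ℓ) × G0 N) :
    Prop :=
  heckeRep ℓ i * γ.mat = q.2.mat * heckeRep ℓ q.1

open Classical in
/-- The (unique, for `ℓ ∤ N` prime) pair `(j, γ')` with `heckeRep i * γ = γ' * heckeRep j`. -/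
def heckeFac (ℓ : ℕ) (γ : G0 N) (i : Option (Fin ℓ)) : Option (Fin ℓ) × G0 N :=
  if h : ∃ q : Option (Fin ℓ) × G0 N, IsHeckeFactor ℓ γ i q then Classical.choose h else (i, 1)

/-- The cohomological Hecke operator on functions `Γ₀(N) → A`:
`(T_ℓ c)(γ) = ∑ᵢ c(γ'ᵢ)` where `αᵢ γ = γ'ᵢ α_{π(i)}`. -/
def heckeCoh {A : Type*} [AddCommMonoid A] (ℓ : ℕ) (c : G0 N → A) : G0 N → A :=
  fun γ => ∑ i : Option (Fin ℓ), c (heckeFac N ℓ γ i).2

end ParHom

/-! ### External input: the frozen statement S37 -/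

/-- The frozen statement S37 as a `Prop` (row S37 proves it as `Fermat.Agent.S37.result`). -/
def S37Statement : Prop :=
  ∀ (N p : ℕ) [NeZero N] (_ : ModularCurve.HeckeOperatorsCommuteBar N),
    letI := ModularCurve.heckeModuleBar N
    ∀ (_ : SMulCommClass GQ ModularCurve.HeckeAlg (ModularCurve.JZero N)),
      ModularCurve.SpecializationExists (K := ℚ) (L := AlgebraicClosure ℚ) N p
        (ModularCurve.JZero N)

end Fermat.Agent.S29

end
end
-- ===== PACK-END S29/DefsM.lean

-- ===== PACK-BEGIN S24/Deg/H648Height.lean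
section


/-!
# S24 / M6-AN (helper648): the height lemma and `τ ↦ J (d τ) ∈ goodRing N`

No Hermite normal form is needed: an integer matrix of determinant `d` maps `{im τ ≥ 1}` into
`{im ≤ d · im τ}`.
-/

set_option autoImplicit false

noncomputable section

open UpperHalfPlane ModularGroup CongruenceSubgroup Polynomial
open scoped MatrixGroups Manifold Modular Real

namespace Fermat.Agent.S24.H648

/-- A nonzero integral linear form in `τ` with `im τ ≥ 1` has absolute value at least `1`. -/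
lemma one_le_normSq_int_linear (c e : ℤ) (τ : ℍ) (hτ : 1 ≤ τ.im)
    (h : (c : ℂ) * τ + e ≠ 0) : 1 ≤ Complex.normSq ((c : ℂ) * τ + e) := by
  have hval : Complex.normSq ((c : ℂ) * τ + e) = (c * τ.re + e) ^ 2 + (c * τ.im) ^ 2 := by
    rw [Complex.normSq_apply]
    simp [pow_two]
  rw [hval]
  by_cases hc : c = 0
  · subst hc
    have he : e ≠ 0 := by
      rintro rfl
      simp at h
    have he1 : (1 : ℝ) ≤ (e : ℝ) ^ 2 := by
      have : (1 : ℤ) ≤ e ^ 2 := by
        have := Int.one_le_abs he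
        nlinarith [abs_nonneg e, sq_abs e]
      exact_mod_cast this
    simpa using he1
  · have hc1 : (1 : ℝ) ≤ (c : ℝ) ^ 2 := by
      have : (1 : ℤ) ≤ c ^ 2 := by
        have := Int.one_le_abs hc
        nlinarith [abs_nonneg c, sq_abs c]
      exact_mod_cast this
    have h1 : (1 : ℝ) ≤ (c * τ.im) ^ 2 := by
      rw [mul_pow]
      have : (1 : ℝ) ≤ τ.im ^ 2 := by nlinarith
      nlinarith
    nlinarith [sq_nonneg ((c : ℝ) * τ.re + e)]

/-- **Height lemma.** -/
lemma im_smul_scale_le (γ g : SL(2, ℤ)) (d : ℕ) (τ w : ℍ)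
    (hw : (w : ℂ) = d * ((g • τ : ℍ) : ℂ)) (hτ : 1 ≤ τ.im) :
    (γ • w).im ≤ d * τ.im := by
  have hwim : w.im = d * (g • τ).im := by
    have := congrArg Complex.im hw
    simpa using this
  have hgτ : ((g • τ : ℍ) : ℂ) * denom g τ = num g τ := by
    have h1 : ((g • τ : ℍ) : ℂ) = num g τ / denom g τ := by
      rw [sl_moeb, coe_smul_of_det_pos (by simp)]
    rw [h1, div_mul_cancel₀ _ (denom_ne_zero _ τ)]
  have hprod : denom γ w * denom g τ
      = ((γ 1 0 * d * g 0 0 + γ 1 1 * g 1 0 : ℤ) : ℂ) * τ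
        + ((γ 1 0 * d * g 0 1 + γ 1 1 * g 1 1 : ℤ) : ℂ) := by
    have e1 : denom γ w = (γ 1 0 : ℂ) * w + γ 1 1 := by
      simp [denom]
    have e2 : denom g τ = (g 1 0 : ℂ) * τ + g 1 1 := by
      simp [denom]
    have e3 : num g τ = (g 0 0 : ℂ) * τ + g 0 1 := by
      simp [num]
    rw [e1, hw, add_mul]
    have : (γ 1 0 : ℂ) * (d * ((g • τ : ℍ) : ℂ)) * denom g τ
        = (γ 1 0 : ℂ) * d * (((g • τ : ℍ) : ℂ) * denom g τ) := by ring
    rw [this, hgτ, e3, e2]
    push_cast
    ring
  have hne : denom γ w * denom g τ ≠ 0 :=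
    mul_ne_zero (denom_ne_zero _ w) (denom_ne_zero _ τ)
  have hge : 1 ≤ Complex.normSq (denom γ w * denom g τ) := by
    rw [hprod] at hne ⊢
    exact one_le_normSq_int_linear _ _ τ hτ hne
  rw [ModularGroup.im_smul_eq_div_normSq, hwim, ModularGroup.im_smul_eq_div_normSq]
  rw [Complex.normSq_mul] at hge
  have h1 : 0 < Complex.normSq (denom g τ) := Complex.normSq_pos.mpr (denom_ne_zero _ τ)
  have h2 : 0 < Complex.normSq (denom γ w) := Complex.normSq_pos.mpr (denom_ne_zero _ w)
  have hd : (0 : ℝ) ≤ d * τ.im := by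
    have := τ.im_pos
    positivity
  have hAB : 1 ≤ Complex.normSq (denom g τ) * Complex.normSq (denom γ w) := by
    rw [mul_comm]; exact hge
  calc (d : ℝ) * (τ.im / Complex.normSq (denom g τ)) / Complex.normSq (denom γ w)
      = (d * τ.im) / (Complex.normSq (denom g τ) * Complex.normSq (denom γ w)) := by
        field_simp
    _ ≤ d * τ.im := div_le_self hd hAB


/-- Points of the fundamental domain have imaginary part `≥ 1/2`. -/
lemma half_le_im_of_mem_fd {τ : ℍ} (h : τ ∈ 𝒟) : 1 / 2 ≤ τ.im := by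
  have h1 := ModularGroup.three_le_four_mul_im_sq_of_mem_fd h
  have h2 := τ.im_pos
  nlinarith

section JScale

variable {J : ℍ → ℂ}

/-- Growth of all `SL₂(ℤ)`-translates of `τ ↦ J (d τ)`, from a bound for `J` on the fundamental
domain. -/
lemma expGrowth_J_scale (hJinv : ∀ (γ : SL(2, ℤ)) (τ : ℍ), J (γ • τ) = J τ)
    (hJfd : ∃ C : ℝ, ∀ τ : ℍ, τ ∈ 𝒟 → ‖J τ‖ ≤ C * Real.exp (2 * π * τ.im))
    (d : ℕ) (s : ℍ → ℍ) (hs : ∀ τ : ℍ, (s τ : ℂ) = d * τ) (g : SL(2, ℤ)) :
    ExpGrowth (fun τ => J (s (g • τ))) := by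
  obtain ⟨C, hC⟩ := hJfd
  refine ⟨|C|, d, fun τ hτ => ?_⟩
  obtain ⟨γ, hγ⟩ := ModularGroup.exists_smul_mem_fd (s (g • τ))
  have h1 : J (s (g • τ)) = J (γ • s (g • τ)) := (hJinv γ _).symm
  have h2 := hC _ hγ
  have h3 : (γ • s (g • τ)).im ≤ d * τ.im := im_smul_scale_le γ g d τ _ (hs _) hτ
  show ‖J (s (g • τ))‖ ≤ _
  rw [h1]
  refine h2.trans ?_
  have h4 : Real.exp (2 * π * (γ • s (g • τ)).im) ≤ Real.exp (2 * π * d * τ.im) := by
    apply Real.exp_le_exp.mpr
    have := Real.pi_pos
    nlinarith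
  calc C * Real.exp (2 * π * (γ • s (g • τ)).im)
      ≤ |C| * Real.exp (2 * π * (γ • s (g • τ)).im) := by
        gcongr
        exact le_abs_self C
    _ ≤ |C| * Real.exp (2 * π * d * τ.im) := by gcongr

/-- `τ ↦ J (d τ)` is holomorphic. -/
lemma mdifferentiable_J_scale (hJ : MDifferentiable 𝓘(ℂ) 𝓘(ℂ) J)
    (d : ℕ) (hd : 0 < d) (s : ℍ → ℍ) (hs : ∀ τ : ℍ, (s τ : ℂ) = d * τ) :
    MDifferentiable 𝓘(ℂ) 𝓘(ℂ) (fun τ => J (s τ)) := by
  rw [UpperHalfPlane.mdifferentiable_iff] at hJ ⊢
  have hmaps : Set.MapsTo (fun z : ℂ => (d : ℂ) * z) {z | 0 < z.im} {z | 0 < z.im} := by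
    intro z hz
    simp only [Set.mem_ofPred_eq] at hz ⊢
    have : ((d : ℂ) * z).im = d * z.im := by simp
    rw [this]
    positivity
  have hcomp : DifferentiableOn ℂ ((J ∘ ofComplex) ∘ fun z : ℂ => (d : ℂ) * z) {z | 0 < z.im} :=
    hJ.comp (by fun_prop) hmaps
  refine hcomp.congr fun z hz => ?_
  simp only [Set.mem_ofPred_eq] at hz
  have hz' : 0 < ((d : ℂ) * z).im := hmaps hz
  simp only [Function.comp_apply]
  congr 1
  apply UpperHalfPlane.ext
  rw [hs, ofComplex_apply_of_im_pos hz, ofComplex_apply_of_im_pos hz']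

/-- For `d ∣ N` and `γ ∈ Γ₀(N)` there is `γ' ∈ SL₂(ℤ)` with `d (γ τ) = γ' (d τ)`. -/
lemma exists_smul_scale_eq {N : ℕ} (d : ℕ) (hd : 0 < d) (hdN : d ∣ N) (γ : SL(2, ℤ))
    (hγ : γ ∈ Gamma0 N) :
    ∃ γ' : SL(2, ℤ), ∀ τ w w' : ℍ, (w : ℂ) = d * τ → (w' : ℂ) = d * ((γ • τ : ℍ) : ℂ) →
      γ' • w = w' := by
  have hN : (N : ℤ) ∣ γ 1 0 := by
    rw [Gamma0_mem] at hγ
    exact (ZMod.intCast_zmod_eq_zero_iff_dvd _ _).mp hγ
  have hdc : (d : ℤ) ∣ γ 1 0 := (Int.natCast_dvd_natCast.mpr hdN).trans hN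
  obtain ⟨k, hk⟩ := hdc
  have hdet : γ 0 0 * γ 1 1 - γ 0 1 * γ 1 0 = 1 := by
    have := γ.det_coe
    rw [Matrix.det_fin_two] at this
    exact this
  have hdet' : (!![γ 0 0, γ 0 1 * d; k, γ 1 1] : Matrix (Fin 2) (Fin 2) ℤ).det = 1 := by
    rw [Matrix.det_fin_two_of]
    rw [hk] at hdet
    linear_combination hdet
  set γ' : SL(2, ℤ) := ⟨!![γ 0 0, γ 0 1 * d; k, γ 1 1], hdet'⟩ with hγ'def
  have e00 : γ' 0 0 = γ 0 0 := rfl
  have e01 : γ' 0 1 = γ 0 1 * d := rfl
  have e10 : γ' 1 0 = k := rfl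
  have e11 : γ' 1 1 = γ 1 1 := rfl
  refine ⟨γ', fun τ w w' hw hw' => ?_⟩
  apply UpperHalfPlane.ext
  rw [hw', coe_specialLinearGroup_apply γ τ, coe_specialLinearGroup_apply γ' w, hw, e00, e01,
    e10, e11]
  simp only [algebraMap_int_eq, Int.coe_castRingHom, Complex.ofReal_intCast]
  have hden : ((γ 1 0 : ℤ) : ℂ) * τ + ((γ 1 1 : ℤ) : ℂ) ≠ 0 := by
    have := denom_ne_zero (γ : GL (Fin 2) ℝ) τ
    simpa [denom] using this
  have hd0 : (d : ℂ) ≠ 0 := by exact_mod_cast hd.ne'
  have hk' : ((γ 1 0 : ℤ) : ℂ) = d * k := by rw [hk]; push_cast; ring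
  have hden' : (k : ℂ) * (d * τ) + ((γ 1 1 : ℤ) : ℂ) ≠ 0 := by
    have : (k : ℂ) * (d * τ) + ((γ 1 1 : ℤ) : ℂ) = ((γ 1 0 : ℤ) : ℂ) * τ + ((γ 1 1 : ℤ) : ℂ) := by
      rw [hk']; ring
    rw [this]; exact hden
  rw [div_eq_iff hden', mul_div_assoc', div_mul_eq_mul_div, eq_div_iff hden, hk']
  push_cast
  ring

variable (N : ℕ)

/-- **`τ ↦ J (d τ)` is a good function of level `N` for `d ∣ N`.** -/
theorem J_scale_mem_goodRing (hJ : MDifferentiable 𝓘(ℂ) 𝓘(ℂ) J)
    (hJinv : ∀ (γ : SL(2, ℤ)) (τ : ℍ), J (γ • τ) = J τ)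
    (hJfd : ∃ C : ℝ, ∀ τ : ℍ, τ ∈ 𝒟 → ‖J τ‖ ≤ C * Real.exp (2 * π * τ.im))
    (d : ℕ) (hd : 0 < d) (hdN : d ∣ N) (s : ℍ → ℍ) (hs : ∀ τ : ℍ, (s τ : ℂ) = d * τ) :
    (fun τ => J (s τ)) ∈ goodRing N := by
  refine ⟨mdifferentiable_J_scale hJ d hd s hs, fun γ hγ τ => ?_,
    fun g => expGrowth_J_scale hJinv hJfd d s hs g⟩
  obtain ⟨γ', hγ'⟩ := exists_smul_scale_eq d hd hdN γ hγ
  show J (s (γ • τ)) = J (s τ)
  rw [← hγ' τ (s τ) (s (γ • τ)) (hs τ) (hs _), hJinv]

end JScale

end Fermat.Agent.S24.H648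

end
end
-- ===== PACK-END S24/Deg/H648Height.lean

-- ===== PACK-BEGIN S24/FFOrdLike.lean
section




/-!
# S24 / FF layer: recognising `Place.ord` from any order-like function

If `N : F → ℤ` is additive on nonzero elements and `O_v = {N ≥ 0}` then `N = N(ϖ) · ord_v`.
(helper804)
-/

set_option autoImplicit false

namespace Fermat.Agent.S24.FF

open AlgebraicCurve

variable {K F : Type*} [Field K] [Field F] [Algebra K F]

section OrdLike

variable (N : F → ℤ) (hmul : ∀ f g : F, f ≠ 0 → g ≠ 0 → N (f * g) = N f + N g)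

include hmul

theorem ordLike_one : N 1 = 0 := by
  have := hmul 1 1 one_ne_zero one_ne_zero
  rw [mul_one] at this
  omega

theorem ordLike_inv {f : F} (hf : f ≠ 0) : N f⁻¹ = -N f := by
  have := hmul f f⁻¹ hf (inv_ne_zero hf)
  rw [mul_inv_cancel₀ hf, ordLike_one N hmul] at this
  omega

theorem ordLike_pow {f : F} (hf : f ≠ 0) (n : ℕ) : N (f ^ n) = n * N f := by
  induction n with
  | zero => simp [ordLike_one N hmul]
  | succ n ih =>
    rw [pow_succ, hmul _ _ (pow_ne_zero n hf) hf, ih]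
    push_cast
    ring

theorem ordLike_zpow {f : F} (hf : f ≠ 0) (n : ℤ) : N (f ^ n) = n * N f := by
  obtain ⟨m, rfl | rfl⟩ := n.eq_nat_or_neg
  · rw [zpow_natCast, ordLike_pow N hmul hf]
  · rw [zpow_neg, zpow_natCast, ordLike_inv N hmul (pow_ne_zero m hf), ordLike_pow N hmul hf]
    ring

/-- An order-like function with valuation ring `O_v` is a multiple of `ord_v`. -/
theorem ordLike_eq_ord_mul (v : Place K F)
    (hmem : ∀ f : F, f ≠ 0 → (f ∈ v.toValuationSubring ↔ 0 ≤ N f))
    {ϖ : v.toValuationSubring} (hϖ : Irreducible ϖ) {f : F} (hf : f ≠ 0) :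
    N f = v.ord f * N (ϖ : F) := by
  have hϖF : (ϖ : F) ≠ 0 := by
    simpa [ne_eq, ZeroMemClass.coe_eq_zero] using hϖ.ne_zero
  obtain ⟨u, hu⟩ := v.exists_unit_mul_zpow hf hϖ
  have hu0 : ((u : v.toValuationSubring) : F) ≠ 0 := by
    simp [ne_eq, ZeroMemClass.coe_eq_zero]
  have hNu : N ((u : v.toValuationSubring) : F) = 0 := by
    have h1 := (hmem _ hu0).mp (u : v.toValuationSubring).2
    have hinv : (((u⁻¹ : v.toValuationSubringˣ) : v.toValuationSubring) : F)
        = (((u : v.toValuationSubring) : F))⁻¹ := by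
      apply eq_inv_of_mul_eq_one_left
      have h := congrArg (fun a : v.toValuationSubring => (a : F)) (Units.inv_mul u)
      exact h
    have h2 := (hmem _ (inv_ne_zero hu0)).mp (by
      rw [← hinv]
      exact ((u⁻¹ : v.toValuationSubringˣ) : v.toValuationSubring).2)
    rw [ordLike_inv N hmul hu0] at h2
    omega
  conv_lhs => rw [hu]
  rw [hmul _ _ hu0 (zpow_ne_zero _ hϖF), hNu, zero_add, ordLike_zpow N hmul hϖF]

/-- Normalised version: if moreover some nonzero element has `N = 1`, then `N = ord_v`. -/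
theorem ordLike_eq_ord (v : Place K F)
    (hmem : ∀ f : F, f ≠ 0 → (f ∈ v.toValuationSubring ↔ 0 ≤ N f))
    {π : F} (hπ0 : π ≠ 0) (hπ : N π = 1) {f : F} (hf : f ≠ 0) :
    N f = v.ord f := by
  obtain ⟨ϖ, hϖ⟩ := IsDiscreteValuationRing.exists_irreducible v.toValuationSubring
  have hϖF : (ϖ : F) ≠ 0 := by
    simpa [ne_eq, ZeroMemClass.coe_eq_zero] using hϖ.ne_zero
  have key := ordLike_eq_ord_mul N hmul v hmem hϖ hπ0
  have hNϖ : 0 ≤ N (ϖ : F) := (hmem _ hϖF).mp ϖ.2
  rw [hπ] at key
  have hone : N (ϖ : F) = 1 := by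
    have h1 : v.ord π * N (ϖ : F) = 1 := key.symm
    rcases Int.eq_one_or_neg_one_of_mul_eq_one' h1 with ⟨_, h⟩ | ⟨_, h⟩
    · exact h
    · omega
  rw [ordLike_eq_ord_mul N hmul v hmem hϖ hf, hone, mul_one]

end OrdLike

end Fermat.Agent.S24.FF

end
-- ===== PACK-END S24/FFOrdLike.lean

-- ===== PACK-BEGIN S29/H571/HeckeGalois.lean
section




/-!
# Galois-equivariance of the Prelude Hecke operators on `JZero N`
(helper571, piece GEQ of the S29 route)

* `heckeOperatorAlong_smul` : `T_ℓ (σ • x) = σ • T_ℓ x` on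
  `Pic0 L (laurentBaseChange L (modularFunctionFieldFull N))`, for every field `L ⊇ ℚ`,
  UNCONDITIONALLY (if the Hecke inputs fail the operator is `0`).
* `heckeOperatorBar_smul` : the same for `heckeOperatorBar N ℓ` on `JZero N`.
* `smulCommClass_heckeModuleBar` :
  `letI := heckeModuleBar N; SMulCommClass Gal(ℚ̄/ℚ) HeckeAlg (JZero N)`,
  i.e. the second hypothesis of the frozen statement S37, unconditionally.
-/

set_option autoImplicit false
set_option linter.style.haveILetI false

noncomputable section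

namespace Fermat.Agent.S29.H571

open AlgebraicCurve ModularCurve

section General

variable {L : Type*} [Field L] [Algebra ℚ L]
variable (N ℓ : ℕ) [NeZero N] [NeZero ℓ]

theorem intertwines_heckeAlphaBar (σ : L ≃ₐ[ℚ] L) :
    SemilinearAut.IntertwinesAlong
      ((heckeAlphaBar L N ℓ : laurentBaseChange L (modularFunctionFieldFull N) →ₐ[L]
        laurentBaseChange L (modularFunctionFieldFull (N * ℓ))) : _ →+* _)
      (arithmeticGalois (modularFunctionFieldFull N) σ)
      (arithmeticGalois (modularFunctionFieldFull (N * ℓ)) σ) := by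
  intro x
  apply Subtype.ext
  rw [coe_arithmeticGalois_smul]
  show coeffMap (σ : L →+* L) ((heckeAlphaBar L N ℓ x : _) : LaurentSeries L) = _
  rw [coe_heckeAlphaBar]
  show _ = ((heckeAlphaBar L N ℓ (arithmeticGalois (modularFunctionFieldFull N) σ • x) : _) :
    LaurentSeries L)
  rw [coe_heckeAlphaBar, coe_arithmeticGalois_smul]

omit [NeZero N] in
theorem intertwines_heckeBetaBar (σ : L ≃ₐ[ℚ] L) :
    SemilinearAut.IntertwinesAlong
      ((heckeBetaBar L N ℓ : laurentBaseChange L (modularFunctionFieldFull N) →ₐ[L]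
        laurentBaseChange L (modularFunctionFieldFull (N * ℓ))) : _ →+* _)
      (arithmeticGalois (modularFunctionFieldFull N) σ)
      (arithmeticGalois (modularFunctionFieldFull (N * ℓ)) σ) := by
  intro x
  apply Subtype.ext
  rw [coe_arithmeticGalois_smul]
  show coeffMap (σ : L →+* L) ((heckeBetaBar L N ℓ x : _) : LaurentSeries L) = _
  rw [coe_heckeBetaBar]
  show _ = ((heckeBetaBar L N ℓ (arithmeticGalois (modularFunctionFieldFull N) σ • x) : _) :
    LaurentSeries L)
  rw [coe_heckeBetaBar, coe_arithmeticGalois_smul, coeffMap_qExpand]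

/-- Galois-equivariance of the Prelude Hecke operator `heckeOperatorAlong L N ℓ`. -/
theorem heckeOperatorAlong_smul (σ : L ≃ₐ[ℚ] L)
    (x : Pic0 L (laurentBaseChange L (modularFunctionFieldFull N))) :
    heckeOperatorAlong L N ℓ (σ • x) = σ • heckeOperatorAlong L N ℓ x := by
  by_cases h : HeckeInputsAlong L N ℓ
  · obtain ⟨hα, hβ, hP, hfin, hFI, hN⟩ := h
    rw [heckeOperatorAlong_eq hα hβ hFI hfin hN, galois_smul_pic0_def, galois_smul_pic0_def]
    exact pic0_correspondence_smul (heckeBetaBar L N ℓ) (heckeAlphaBar L N ℓ) hβ hα hFI hfin hN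
      (intertwines_heckeBetaBar N ℓ σ) (intertwines_heckeAlphaBar N ℓ σ) x
  · rw [heckeOperatorAlong_of_not h]
    simp

end General

section Bar

variable (N : ℕ) [NeZero N]

/-- Galois-equivariance of `heckeOperatorBar N ℓ` on `JZero N`. -/
theorem heckeOperatorBar_smul (ℓ : Nat.Primes)
    (σ : AlgebraicClosure ℚ ≃ₐ[ℚ] AlgebraicClosure ℚ) (x : JZero N) :
    heckeOperatorBar N ℓ (σ • x) = σ • heckeOperatorBar N ℓ x := by
  haveI : NeZero (ℓ : ℕ) := ⟨ℓ.2.ne_zero⟩
  rw [heckeOperatorBar_apply, heckeOperatorBar_apply]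
  exact heckeOperatorAlong_smul N (ℓ : ℕ) σ x

/-- Every element of the Hecke algebra acts Galois-equivariantly (commuting case). -/
theorem heckeEvalBar_smul (h : HeckeOperatorsCommuteBar N) (t : HeckeAlg)
    (σ : AlgebraicClosure ℚ ≃ₐ[ℚ] AlgebraicClosure ℚ) (x : JZero N) :
    heckeEvalBar h t (σ • x) = σ • heckeEvalBar h t x := by
  induction t using MvPolynomial.induction_on generalizing x with
  | C a =>
    rw [heckeEvalBar_C, Module.End.intCast_apply, Module.End.intCast_apply, smul_comm]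
  | add p q hp hq =>
    rw [map_add, LinearMap.add_apply, LinearMap.add_apply, hp, hq, smul_add]
  | mul_X p ℓ hp =>
    rw [map_mul, Module.End.mul_apply, Module.End.mul_apply,
      show (MvPolynomial.X ℓ : HeckeAlg) = heckeGen ℓ from rfl, heckeEvalBar_heckeGen,
      heckeOperatorBar_smul, hp]

/-- The Galois action on `JZero N` commutes with the `HeckeAlg`-module structure
`heckeModuleBar N`, unconditionally.  This is exactly the `SMulCommClass` hypothesis of the
frozen statement S37. -/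
theorem smulCommClass_heckeModuleBar :
    letI := heckeModuleBar N
    SMulCommClass (AlgebraicClosure ℚ ≃ₐ[ℚ] AlgebraicClosure ℚ) HeckeAlg (JZero N) := by
  letI := heckeModuleBar N
  refine ⟨fun σ t x => ?_⟩
  by_cases h : HeckeOperatorsCommuteBar N
  · rw [heckeModuleBar_smul_def h, heckeModuleBar_smul_def h, heckeEvalBar_smul]
  · rw [heckeModuleBar_smul_of_not h, heckeModuleBar_smul_of_not h]
    exact (smul_comm _ σ x).symm

end Bar

end Fermat.Agent.S29.H571


end
end
-- ===== PACK-END S29/H571/HeckeGalois.lean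

-- ===== PACK-BEGIN S29/H152/DescInt.lean
section
/-
S29 / DESC (helper152) — part 6: integrality lemmas.  Mathlib-only.
-/



set_option autoImplicit false

namespace Fermat.Agent.S29.H152

open Polynomial

variable {C : Type*} [Field C]

/-- A root of a monic polynomial with coefficients in a subalgebra is integral over it. -/
theorem descInt_isIntegral_of_poly {A : Type*} [CommRing A] [Algebra C A] (S : Subalgebra C A)
    (Q : A[X]) (hQ : Q.Monic) (hc : ∀ i, Q.coeff i ∈ S) {x : A} (hx : Q.eval x = 0) :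
    IsIntegral S x := by
  have hl : Q ∈ Polynomial.lifts (algebraMap S A) := by
    rw [Polynomial.lifts_iff_coeff_lifts]
    intro n
    exact ⟨⟨Q.coeff n, hc n⟩, rfl⟩
  obtain ⟨q, hq, -, hqm⟩ := Polynomial.lifts_and_natDegree_eq_and_monic hl hQ
  refine ⟨q, hqm, ?_⟩
  rw [← Polynomial.eval_map, hq]
  exact hx

/-- Converse: an integral element is a root of a monic polynomial with coefficients in `S`. -/
theorem descInt_exists_poly {A : Type*} [CommRing A] [Algebra C A] (S : Subalgebra C A)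
    {x : A} (hx : IsIntegral S x) :
    ∃ Q : A[X], Q.Monic ∧ (∀ i, Q.coeff i ∈ S) ∧ Q.eval x = 0 := by
  obtain ⟨P, hP, hPx⟩ := hx
  refine ⟨P.map (algebraMap S A), hP.map _, fun i => ?_, ?_⟩
  · rw [Polynomial.coeff_map]
    exact (P.coeff i).2
  · rw [Polynomial.eval_map]
    exact hPx

/-- Ring endomorphisms preserving a subalgebra (as a set) preserve integrality over it. -/
theorem descInt_isIntegral_map {A : Type*} [CommRing A] [Algebra C A] (S : Subalgebra C A)
    (Φ : A →+* A) (hS : ∀ x ∈ S, Φ x ∈ S) {x : A} (hx : IsIntegral S x) :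
    IsIntegral S (Φ x) := by
  obtain ⟨Q, hQ, hc, hQx⟩ := descInt_exists_poly S hx
  refine descInt_isIntegral_of_poly S (Q.map Φ) (hQ.map _) (fun i => ?_) ?_
  · rw [Polynomial.coeff_map]
    exact hS _ (hc i)
  · rw [Polynomial.eval_map, Polynomial.eval₂_hom, hQx, map_zero]

/-- A ring endomorphism fixing `s` and mapping constants to constants preserves `C[s]`. -/
theorem descInt_map_mem_adjoin {A : Type*} [CommRing A] [Algebra C A] (Φ : A →+* A) (s : A)
    (hs : Φ s = s) (hconst : ∀ c : C, ∃ c' : C, Φ (algebraMap C A c) = algebraMap C A c')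
    {x : A} (hx : x ∈ Algebra.adjoin C {s}) : Φ x ∈ Algebra.adjoin C {s} := by
  induction hx using Algebra.adjoin_induction with
  | mem y hy =>
    rw [Set.mem_singleton_iff] at hy
    rw [hy, hs]
    exact Algebra.self_mem_adjoin_singleton C s
  | algebraMap c =>
    obtain ⟨c', hc'⟩ := hconst c
    rw [hc']
    exact Subalgebra.algebraMap_mem _ _
  | add x y _ _ hx hy =>
    rw [map_add]
    exact Subalgebra.add_mem _ hx hy
  | mul x y _ _ hx hy =>
    rw [map_mul]
    exact Subalgebra.mul_mem _ hx hy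

/-- An element integral over `C[j]` becomes integral over `C[j⁻¹]` after multiplication by a
power of `j⁻¹`. -/
theorem descInt_exists_pow {j : LaurentSeries C} (hj : j.order = -1) {y : LaurentSeries C}
    (hy : IsIntegral (Algebra.adjoin C {j}) y) :
    ∃ M : ℕ, IsIntegral (Algebra.adjoin C {j⁻¹}) (y * j⁻¹ ^ M) := by
  classical
  obtain ⟨P, hP, hc, hPy⟩ := descInt_exists_poly _ hy
  choose D hD using fun i => descBound_mul_inv_pow_mem hj (hc i)
  set d := P.natDegree with hd
  set M := (Finset.range (d + 1)).sup D with hM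
  have hDM : ∀ i, i ≤ d → D i ≤ M := fun i hi =>
    Finset.le_sup (f := D) (Finset.mem_range.mpr (Nat.lt_succ_of_le hi))
  refine ⟨M, descInt_isIntegral_of_poly _ (P.scaleRoots (j⁻¹ ^ M))
    ((monic_scaleRoots_iff _).mpr hP) (fun i => ?_) ?_⟩
  · rw [coeff_scaleRoots, ← hd]
    rcases lt_trichotomy i d with hi | hi | hi
    · rw [← pow_mul]
      refine hD i _ ((hDM i hi.le).trans ?_)
      exact Nat.le_mul_of_pos_right M (Nat.sub_pos_of_lt hi)
    · rw [hi, Nat.sub_self, pow_zero, mul_one, hd, hP.coeff_natDegree]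
      exact Subalgebra.one_mem _
    · rw [Polynomial.coeff_eq_zero_of_natDegree_lt (hd ▸ hi), zero_mul]
      exact Subalgebra.zero_mem _
  · rw [mul_comm, scaleRoots_eval_mul, hPy, mul_zero]

/-- In a field extension of an algebraically closed field, algebraic elements are constants. -/
theorem descInt_mem_range_of_isIntegral {Ω A : Type*} [Field Ω] [IsAlgClosed Ω] [Field A]
    [Algebra Ω A] {x : A} (hx : IsIntegral Ω x) : x ∈ Set.range (algebraMap Ω A) := by
  have hdeg : (minpoly Ω x).degree = 1 :=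
    IsAlgClosed.degree_eq_one_of_irreducible Ω (minpoly.irreducible hx)
  exact minpoly.mem_range_of_degree_eq_one Ω x hdeg

/-- Roots of unity in a field extension of an algebraically closed field are constants. -/
theorem descInt_mem_range_of_pow_eq_one {Ω A : Type*} [Field Ω] [IsAlgClosed Ω] [Field A]
    [Algebra Ω A] {x : A} {p : ℕ} (hp : 0 < p) (hx : x ^ p = 1) :
    x ∈ Set.range (algebraMap Ω A) := by
  apply descInt_mem_range_of_isIntegral
  refine IsIntegral.of_pow hp ?_
  rw [hx]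
  exact isIntegral_one

end Fermat.Agent.S29.H152

end
-- ===== PACK-END S29/H152/DescInt.lean

-- ===== PACK-BEGIN S37/H400/KronChar.lean
section
/-
S37 / helper400 — piece KRON, part (K2)–(K5): the Kronecker congruence, formal version.

Notation: `V_p = qExpand R p` (`q ↦ q ^ p`), `secMat p f` the section matrix of `f` (matrix of
multiplication by `f(T)` on `R((T))` over `R((T^p))`), `G_f := (secMat p f).charpoly`
(`= ∏_b (Y - f(ζ^b q^{1/p}))` classically) and `Ψ_f := (Y - V_p f) · G_f`
(`= ∏ over the p+1 conjugates`).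

* `charpoly_secMat_char` : over a domain of characteristic `p`,  `G_f = Y ^ p - frob f`.
* `kronPoly_map_zmod` : for `f ∈ ℤ((q))` (or any `S → ZMod p`),
    `Ψ_f ≡ (Y - f ^ p) (Y ^ p - f)  mod p`.
* `kronPoly_eval_qExpand`, `kronPoly_map_eval` : `Ψ_f (V_p f) = 0` and `(V_p Ψ_f)(f) = 0`.
-/



set_option autoImplicit false

noncomputable section

set_option linter.style.haveILetI false

open ModularCurve Polynomial Matrix

namespace Fermat.Agent.S37.H400

variable {R : Type*} [CommRing R]

theorem charP_laurentSeries (p : ℕ) [CharP R p] : CharP (LaurentSeries R) p :=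
  charP_of_injective_ringHom (f := (HahnSeries.C : R →+* LaurentSeries R))
    HahnSeries.C_injective p

/-- In characteristic `p`, the `p`-th power of the section matrix is scalar. -/
theorem secMat_pow_char (p : ℕ) [Fact p.Prime] [CharP R p] (f : LaurentSeries R) :
    haveI : NeZero p := ⟨(Fact.out : p.Prime).ne_zero⟩
    secMat p f ^ p = Matrix.scalar (Fin p) (coeffMap (frobenius R p) f) := by
  haveI : NeZero p := ⟨(Fact.out : p.Prime).ne_zero⟩
  show secMat p f ^ p = Matrix.scalar (Fin p) (coeffMap (frobenius R p) f)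
  rw [← secMat_pow, laurent_pow_char, secMat_qExpand]

/-- A `p × p` matrix over a domain of characteristic `p` whose `p`-th power is the scalar
`c` has characteristic polynomial `Y ^ p - c`. -/
theorem charpoly_of_pow_eq_scalar {A : Type*} [CommRing A] [IsDomain A] (p : ℕ) [Fact p.Prime]
    [CharP A p] (M : Matrix (Fin p) (Fin p) A) (c : A)
    (hM : M ^ p = Matrix.scalar (Fin p) c) :
    M.charpoly = X ^ p - C c := by
  haveI : NeZero p := ⟨(Fact.out : p.Prime).ne_zero⟩
  have hcomm : Commute (Matrix.scalar (Fin p) (X : A[X])) (C.mapMatrix M) :=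
    Matrix.scalar_commute _ (fun r => Commute.all _ r) _
  have h1 : M.charmatrix = Matrix.scalar (Fin p) (X : A[X]) - C.mapMatrix M := rfl
  have h2 : M.charmatrix ^ p = Matrix.scalar (Fin p) ((X : A[X]) ^ p - C c) := by
    rw [h1, sub_pow_char_of_commute p hcomm, ← map_pow, ← map_pow, hM, map_sub]
    congr 1
    ext i j
    simp [Matrix.scalar_apply, Matrix.diagonal_apply, apply_ite]
  have h3 : M.charpoly ^ p = ((X : A[X]) ^ p - C c) ^ p := by
    rw [Matrix.charpoly, ← Matrix.det_pow, h2, Matrix.scalar_apply, Matrix.det_diagonal,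
      Finset.prod_const, Finset.card_univ, Fintype.card_fin]
  exact frobenius_inj A[X] p h3

/-- **(K2) Kronecker, characteristic `p`.**  Over a domain of characteristic `p`, the
characteristic polynomial of the section matrix of `f` is `Y ^ p - frob f`. -/
theorem charpoly_secMat_char [IsDomain R] (p : ℕ) [Fact p.Prime] [CharP R p]
    (f : LaurentSeries R) :
    haveI : NeZero p := ⟨(Fact.out : p.Prime).ne_zero⟩
    (secMat p f).charpoly = X ^ p - C (coeffMap (frobenius R p) f) := by
  haveI : NeZero p := ⟨(Fact.out : p.Prime).ne_zero⟩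
  haveI := charP_laurentSeries (R := R) p
  exact charpoly_of_pow_eq_scalar p _ _ (secMat_pow_char p f)

theorem coeffMap_frobenius_zmod (p : ℕ) [Fact p.Prime] (f : LaurentSeries (ZMod p)) :
    coeffMap (frobenius (ZMod p) p) f = f := by
  ext k
  simp

/-- Kronecker over `𝔽_p`: `G_f = Y ^ p - f`. -/
theorem charpoly_secMat_zmod (p : ℕ) [Fact p.Prime] (f : LaurentSeries (ZMod p)) :
    haveI : NeZero p := ⟨(Fact.out : p.Prime).ne_zero⟩
    (secMat p f).charpoly = X ^ p - C f := by
  haveI : NeZero p := ⟨(Fact.out : p.Prime).ne_zero⟩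
  have h := charpoly_secMat_char p f
  rwa [coeffMap_frobenius_zmod] at h

/-- The polynomial `Ψ_f(Y) = (Y - f(q^p)) · ∏_b (Y - f(ζ^b q^{1/p}))`, defined without roots of
unity as `(Y - V_p f) · charpoly (secMat p f)`. -/
def kronPoly (p : ℕ) [NeZero p] (f : LaurentSeries R) : (LaurentSeries R)[X] :=
  (X - C (qExpand R p f)) * (secMat p f).charpoly

theorem kronPoly_monic (p : ℕ) [NeZero p] [Nontrivial R] (f : LaurentSeries R) :
    (kronPoly p f).Monic :=
  (monic_X_sub_C _).mul (Matrix.charpoly_monic _)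

theorem kronPoly_natDegree (p : ℕ) [NeZero p] [Nontrivial R] (f : LaurentSeries R) :
    (kronPoly p f).natDegree = p + 1 := by
  rw [kronPoly, Polynomial.Monic.natDegree_mul (monic_X_sub_C _) (Matrix.charpoly_monic _),
    natDegree_X_sub_C, Matrix.charpoly_natDegree_eq_dim, Fintype.card_fin, add_comm]

private theorem coeffMap_qExpand'' {S : Type*} [CommRing S] (φ : R →+* S) (n : ℕ)
    [NeZero n] (x : LaurentSeries R) : coeffMap φ (qExpand R n x) = qExpand S n (coeffMap φ x) := by
  ext k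
  by_cases hk : (n : ℤ) ∣ k
  · obtain ⟨m, rfl⟩ := hk
    rw [coeffMap_coeff, qExpand_coeff_mul, qExpand_coeff_mul, coeffMap_coeff]
  · rw [coeffMap_coeff, qExpand_coeff_of_not_dvd n _ hk, qExpand_coeff_of_not_dvd n _ hk,
      map_zero]

/-- Base change of `Ψ_f` along a coefficient homomorphism. -/
theorem kronPoly_map {S : Type*} [CommRing S] (φ : R →+* S) (p : ℕ) [NeZero p]
    (f : LaurentSeries R) :
    (kronPoly p f).map (coeffMap φ) = kronPoly p (coeffMap φ f) := by
  rw [kronPoly, kronPoly, Polynomial.map_mul, Polynomial.map_sub, Polynomial.map_X,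
    Polynomial.map_C, coeffMap_qExpand'', secMat_coeffMap, Matrix.charpoly_map]

/-- **(K3) Kronecker congruence.**  Over a domain of characteristic `p`,
`Ψ_f = (Y - V_p f) (Y ^ p - frob f)`. -/
theorem kronPoly_char [IsDomain R] (p : ℕ) [Fact p.Prime] [CharP R p] (f : LaurentSeries R) :
    haveI : NeZero p := ⟨(Fact.out : p.Prime).ne_zero⟩
    kronPoly p f = (X - C (qExpand R p f)) * (X ^ p - C (coeffMap (frobenius R p) f)) := by
  haveI : NeZero p := ⟨(Fact.out : p.Prime).ne_zero⟩
  show kronPoly p f = _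
  rw [kronPoly, charpoly_secMat_char]

/-- **(K3') Kronecker congruence over `𝔽_p`**: `Ψ_f = (Y - f ^ p) (Y ^ p - f)`. -/
theorem kronPoly_zmod (p : ℕ) [Fact p.Prime] (f : LaurentSeries (ZMod p)) :
    haveI : NeZero p := ⟨(Fact.out : p.Prime).ne_zero⟩
    kronPoly p f = (X - C (f ^ p)) * (X ^ p - C f) := by
  haveI : NeZero p := ⟨(Fact.out : p.Prime).ne_zero⟩
  show kronPoly p f = _
  rw [kronPoly_char, laurent_pow_char, coeffMap_frobenius_zmod]

/-- **(K3'') Kronecker congruence, integral form**: for `f` with coefficients in any ring `S`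
mapping to `𝔽_p` (e.g. `ℤ`, `ℤ_(p)`), `Ψ_f ≡ (Y - f̄ ^ p)(Y ^ p - f̄)` after reduction. -/
theorem kronPoly_map_zmod {S : Type*} [CommRing S] (p : ℕ) [Fact p.Prime] (φ : S →+* ZMod p)
    (f : LaurentSeries S) :
    haveI : NeZero p := ⟨(Fact.out : p.Prime).ne_zero⟩
    (kronPoly p f).map (coeffMap φ) =
      (X - C ((coeffMap φ f) ^ p)) * (X ^ p - C (coeffMap φ f)) := by
  haveI : NeZero p := ⟨(Fact.out : p.Prime).ne_zero⟩
  show (kronPoly p f).map (coeffMap φ) = _
  rw [kronPoly_map, kronPoly_zmod]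

/-- **(K4a)** `V_p f = f(q^p)` is a root of `Ψ_f`. -/
theorem kronPoly_eval_qExpand (p : ℕ) [NeZero p] (f : LaurentSeries R) :
    (kronPoly p f).eval (qExpand R p f) = 0 := by
  rw [kronPoly, eval_mul, eval_sub, eval_X, eval_C, sub_self, zero_mul]

/-- **(K4b)** `f` is a root of `V_p Ψ_f` (coefficients pushed along `q ↦ q ^ p`). -/
theorem kronPoly_map_eval (p : ℕ) [NeZero p] (f : LaurentSeries R) :
    ((kronPoly p f).map (qExpand R p)).eval f = 0 := by
  rw [kronPoly, Polynomial.map_mul, eval_mul, secMat_charpoly_eval, mul_zero]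

end Fermat.Agent.S37.H400

end

end
-- ===== PACK-END S37/H400/KronChar.lean

-- ===== PACK-BEGIN S24/H504/EmbPlace.lean
section



/-!
# The place of `F/K` attached to an embedding `F → C((z))`
-/

set_option autoImplicit false

namespace Fermat.Agent.S24.H504

open AlgebraicCurve

variable {K F : Type*} [Field K] [Field F] [Algebra K F]
variable {C : Type*} [Field C]

/-! ### Order calculus in `C((z))` -/

theorem ls_orderTop_eq_order {A : LaurentSeries C} (hA : A ≠ 0) :
    A.orderTop = (A.order : WithTop ℤ) :=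
  (HahnSeries.order_eq_orderTop_of_ne_zero hA).symm

theorem ls_orderTop_nonneg_iff (A : LaurentSeries C) : 0 ≤ A.orderTop ↔ 0 ≤ A.order := by
  rcases eq_or_ne A 0 with rfl | hA
  · simp
  · rw [ls_orderTop_eq_order hA]
    exact_mod_cast Iff.rfl

theorem ls_orderTop_pos_iff (A : LaurentSeries C) : 0 < A.orderTop ↔ A = 0 ∨ 0 < A.order := by
  rcases eq_or_ne A 0 with rfl | hA
  · simp
  · rw [ls_orderTop_eq_order hA]
    simp only [hA, false_or]
    exact_mod_cast Iff.rfl

theorem ls_orderTop_inv {A : LaurentSeries C} (hA : A ≠ 0) :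
    A⁻¹.orderTop = ((-A.order : ℤ) : WithTop ℤ) := by
  have h1 : A * A⁻¹ = 1 := mul_inv_cancel₀ hA
  have h2 := HahnSeries.order_mul hA (inv_ne_zero hA)
  rw [h1, HahnSeries.order_one] at h2
  rw [ls_orderTop_eq_order (inv_ne_zero hA)]
  congr 1
  omega

theorem ls_order_inv (A : LaurentSeries C) : A⁻¹.order = -A.order := by
  rcases eq_or_ne A 0 with rfl | hA
  · simp
  have h1 : A * A⁻¹ = 1 := mul_inv_cancel₀ hA
  have h2 := HahnSeries.order_mul hA (inv_ne_zero hA)
  rw [h1, HahnSeries.order_one] at h2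
  omega

theorem ls_order_zpow (A : LaurentSeries C) (n : ℤ) : (A ^ n).order = n * A.order := by
  rcases n with n | n
  · simp [HahnSeries.order_pow]
  · rw [zpow_negSucc, ls_order_inv, HahnSeries.order_pow]
    simp only [nsmul_eq_mul, Int.negSucc_eq]
    push_cast
    ring

/-! ### The valuation subring attached to an embedding -/

/-- The valuation subring `{f | 0 ≤ ord_z (σ f)}` of `F`. -/
def embSubring (σ : F →+* LaurentSeries C) : ValuationSubring F where
  carrier := {f | 0 ≤ (σ f).orderTop}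
  mul_mem' := by
    intro a b ha hb
    simp only [Set.mem_ofPred_eq, map_mul, HahnSeries.orderTop_mul] at *
    exact add_nonneg ha hb
  one_mem' := by simp
  add_mem' := by
    intro a b ha hb
    simp only [Set.mem_ofPred_eq, map_add] at *
    exact le_trans (le_min ha hb) HahnSeries.min_orderTop_le_orderTop_add
  zero_mem' := by simp
  neg_mem' := by
    intro a ha
    simpa [HahnSeries.orderTop_neg] using ha
  mem_or_inv_mem' := by
    intro a
    rcases eq_or_ne a 0 with rfl | ha
    · left; simp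
    have hσa : σ a ≠ 0 := (map_ne_zero σ).mpr ha
    simp only [Set.mem_ofPred_eq, map_inv₀]
    rw [ls_orderTop_inv hσa, ls_orderTop_eq_order hσa]
    rcases le_total 0 (σ a).order with h | h
    · left; exact_mod_cast h
    · right
      have : (0 : ℤ) ≤ -(σ a).order := by omega
      exact_mod_cast this

theorem mem_embSubring (σ : F →+* LaurentSeries C) (f : F) :
    f ∈ embSubring σ ↔ 0 ≤ (σ f).orderTop := Iff.rfl

theorem mem_embSubring' (σ : F →+* LaurentSeries C) (f : F) :
    f ∈ embSubring σ ↔ 0 ≤ (σ f).order := by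
  rw [mem_embSubring, ls_orderTop_nonneg_iff]

theorem isPrincipalIdealRing_embSubring (σ : F →+* LaurentSeries C) :
    IsPrincipalIdealRing (embSubring σ) := by
  classical
  refine ⟨fun I => ?_⟩
  by_cases hI : I = ⊥
  · rw [hI]; exact bot_isPrincipal
  -- pick a nonzero element of minimal order
  have hex : ∃ n : ℕ, ∃ a ∈ I, a ≠ 0 ∧ (σ (a : F)).order = n := by
    obtain ⟨a, haI, ha0⟩ := Submodule.exists_mem_ne_zero_of_ne_bot hI
    have hnn : 0 ≤ (σ (a : F)).order := (mem_embSubring' σ _).mp a.2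
    exact ⟨(σ (a : F)).order.toNat, a, haI, ha0, (Int.toNat_of_nonneg hnn).symm⟩
  obtain ⟨a, haI, ha0, han⟩ := Nat.find_spec hex
  refine ⟨⟨a, ?_⟩⟩
  apply le_antisymm
  · intro b hb
    rw [Submodule.mem_span_singleton]
    rcases eq_or_ne b 0 with rfl | hb0
    · exact ⟨0, by simp⟩
    have haF : (a : F) ≠ 0 := by simpa using ha0
    have hbF : (b : F) ≠ 0 := by simpa using hb0
    have hbnn : 0 ≤ (σ (b : F)).order := (mem_embSubring' σ _).mp b.2
    have hmin : Nat.find hex ≤ (σ (b : F)).order.toNat :=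
      Nat.find_min' hex ⟨b, hb, hb0, (Int.toNat_of_nonneg hbnn).symm⟩
    have hle : (σ (a : F)).order ≤ (σ (b : F)).order := by
      rw [han]
      have : ((Nat.find hex : ℕ) : ℤ) ≤ ((σ (b : F)).order.toNat : ℤ) := by exact_mod_cast hmin
      rwa [Int.toNat_of_nonneg hbnn] at this
    have hq : (b : F) / (a : F) ∈ embSubring σ := by
      rw [mem_embSubring', map_div₀, div_eq_mul_inv,
        HahnSeries.order_mul ((map_ne_zero σ).mpr hbF) (inv_ne_zero ((map_ne_zero σ).mpr haF)),
        ls_order_inv]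
      omega
    refine ⟨⟨_, hq⟩, ?_⟩
    ext
    simp only [smul_eq_mul, MulMemClass.coe_mul]
    field_simp
  · rw [Submodule.span_le]
    simpa using haI

/-- The place of `F/K` attached to an embedding `σ : F → C((z))` which is integral on `K` and
has some element of nonzero order. -/
def placeOfEmb (σ : F →+* LaurentSeries C)
    (hK : ∀ c : K, 0 ≤ (σ (algebraMap K F c)).order)
    (ht : ∃ t : F, (σ t).order ≠ 0) : Place K F where
  toValuationSubring := embSubring σ
  algebraMap_mem' := fun c => (mem_embSubring' σ _).mpr (hK c)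
  ne_top' := by
    obtain ⟨t, ht⟩ := ht
    intro htop
    have h1 : t ∈ embSubring σ := htop ▸ ValuationSubring.mem_top t
    have h2 : t⁻¹ ∈ embSubring σ := htop ▸ ValuationSubring.mem_top t⁻¹
    rw [mem_embSubring'] at h1 h2
    rw [map_inv₀, ls_order_inv] at h2
    omega
  isPrincipalIdealRing' := isPrincipalIdealRing_embSubring σ

@[simp]
theorem placeOfEmb_toValuationSubring (σ : F →+* LaurentSeries C)
    (hK : ∀ c : K, 0 ≤ (σ (algebraMap K F c)).order)
    (ht : ∃ t : F, (σ t).order ≠ 0) :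
    (placeOfEmb σ hK ht).toValuationSubring = embSubring σ := rfl

/-! ### Proportionality of orders -/

/-- `σ` induces the place `v`: the valuation ring of `v` is the pullback of `C[[z]]`. -/
def Induces (σ : F →+* LaurentSeries C) (v : Place K F) : Prop :=
  ∀ f : F, f ∈ v.toValuationSubring ↔ 0 ≤ (σ f).order

theorem induces_placeOfEmb (σ : F →+* LaurentSeries C)
    (hK : ∀ c : K, 0 ≤ (σ (algebraMap K F c)).order)
    (ht : ∃ t : F, (σ t).order ≠ 0) : Induces σ (placeOfEmb σ hK ht) :=
  fun f => mem_embSubring' σ f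

theorem Induces.eq_placeOfEmb {σ : F →+* LaurentSeries C} {v : Place K F} (h : Induces σ v)
    (hK : ∀ c : K, 0 ≤ (σ (algebraMap K F c)).order)
    (ht : ∃ t : F, (σ t).order ≠ 0) : v = placeOfEmb σ hK ht := by
  apply Place.ext
  ext f
  rw [placeOfEmb_toValuationSubring, mem_embSubring', h f]

theorem Induces.unique {σ : F →+* LaurentSeries C} {v w : Place K F} (h : Induces σ v)
    (h' : Induces σ w) : v = w := by
  apply Place.ext
  ext f
  rw [h f, h' f]

theorem Induces.order_nonneg_iff {σ : F →+* LaurentSeries C} {v : Place K F} (h : Induces σ v)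
    (f : F) : 0 ≤ (σ f).order ↔ 0 ≤ v.ord f := by
  rw [← h f, mem_iff_ord_nonneg']

theorem Induces.order_eq_zero_iff {σ : F →+* LaurentSeries C} {v : Place K F} (h : Induces σ v)
    (f : F) : (σ f).order = 0 ↔ v.ord f = 0 := by
  have h1 := h.order_nonneg_iff f
  have h2 := h.order_nonneg_iff f⁻¹
  rw [map_inv₀, ls_order_inv, Place.ord_inv] at h2
  constructor <;> intro h0 <;> omega

/-- The multiplicity of an embedding inducing `v`: the `z`-order of a uniformizer. -/
theorem Induces.exists_mult {σ : F →+* LaurentSeries C} {v : Place K F} (h : Induces σ v) :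
    ∃ μ : ℕ, 0 < μ ∧ ∀ f : F, (σ f).order = μ * v.ord f := by
  obtain ⟨π, hπ⟩ := IsDiscreteValuationRing.exists_irreducible v.toValuationSubring
  have hπ1 : v.ord (π : F) = 1 := v.ord_coe_irreducible hπ
  have hpos : 0 < (σ (π : F)).order := by
    have h1 := (h.order_nonneg_iff (π : F)).mpr (by omega)
    have h2 := (h.order_eq_zero_iff (π : F)).not.mpr (by omega)
    omega
  refine ⟨(σ (π : F)).order.toNat, by omega, fun f => ?_⟩
  rcases eq_or_ne f 0 with rfl | hf
  · simp
  obtain ⟨u, hu⟩ := v.exists_unit_mul_zpow hf hπ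
  have hu0 : ((u : v.toValuationSubring) : F) ≠ 0 := by simp
  have hπ0 : (π : F) ≠ 0 := by
    intro h0; rw [h0] at hπ1; simp at hπ1
  have huo : (σ ((u : v.toValuationSubring) : F)).order = 0 :=
    (h.order_eq_zero_iff _).mpr (v.ord_coe_unit u)
  conv_lhs => rw [hu]
  rw [map_mul, map_zpow₀,
    HahnSeries.order_mul ((map_ne_zero σ).mpr hu0) (zpow_ne_zero _ ((map_ne_zero σ).mpr hπ0)),
    huo, ls_order_zpow, Int.toNat_of_nonneg hpos.le]
  ring

end Fermat.Agent.S24.H504

end
-- ===== PACK-END S24/H504/EmbPlace.lean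

-- ===== PACK-BEGIN S24/H504/Residue.lean
section



/-!
# The residue field of a place over `t = 0` is the (algebraically closed) constant field
-/

set_option autoImplicit false

namespace Fermat.Agent.S24.H504

open AlgebraicCurve Polynomial

variable {K F : Type*} [Field K] [Field F] [Algebra K F] (v : Place K F)

/-- Membership in the maximal ideal of the valuation ring of `v`. -/
def InMax (f : F) : Prop := f = 0 ∨ 0 < v.ord f

variable {v}

theorem InMax.ord_nonneg {f : F} (h : InMax v f) : 0 ≤ v.ord f := by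
  rcases h with rfl | h
  · simp
  · exact h.le

theorem inMax_zero : InMax v (0 : F) := Or.inl rfl

theorem InMax.add {f g : F} (hf : InMax v f) (hg : InMax v g) : InMax v (f + g) :=
  ord_add_pos v hf hg

theorem InMax.neg {f : F} (hf : InMax v f) : InMax v (-f) := by
  rcases hf with rfl | hf
  · simpa using inMax_zero
  · right; rwa [_root_.Fermat.Agent.S24.H504.ord_neg]

theorem InMax.sub {f g : F} (hf : InMax v f) (hg : InMax v g) : InMax v (f - g) := by
  rw [sub_eq_add_neg]; exact hf.add hg.neg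

theorem InMax.mul_right {f g : F} (hf : InMax v f) (hg : 0 ≤ v.ord g) : InMax v (f * g) := by
  rcases hf with rfl | hf
  · left; simp
  rcases eq_or_ne g 0 with rfl | hg0
  · left; simp
  right
  rw [v.ord_mul (ne_zero_of_ord_ne_zero v hf.ne') hg0]
  omega

theorem InMax.mul_left {f g : F} (hf : InMax v f) (hg : 0 ≤ v.ord g) : InMax v (g * f) := by
  rw [mul_comm]; exact hf.mul_right hg

theorem inMax_sum {ι : Type*} (s : Finset ι) (f : ι → F) (h : ∀ i ∈ s, InMax v (f i)) :
    InMax v (∑ i ∈ s, f i) := by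
  classical
  induction s using Finset.induction_on with
  | empty => simpa using inMax_zero
  | insert a s ha ih =>
    rw [Finset.sum_insert ha]
    exact (h a (Finset.mem_insert_self a s)).add
      (ih fun i hi => h i (Finset.mem_insert_of_mem hi))

theorem inMax_or_of_mul {f g : F} (hf : 0 ≤ v.ord f) (hg : 0 ≤ v.ord g) (h : InMax v (f * g)) :
    InMax v f ∨ InMax v g := by
  rcases eq_or_ne f 0 with rfl | hf0
  · exact Or.inl inMax_zero
  rcases eq_or_ne g 0 with rfl | hg0
  · exact Or.inr inMax_zero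
  rcases h with h | h
  · exact absurd h (mul_ne_zero hf0 hg0)
  rw [v.ord_mul hf0 hg0] at h
  by_cases h1 : 0 < v.ord f
  · exact Or.inl (Or.inr h1)
  · exact Or.inr (Or.inr (by omega))

theorem not_inMax_algebraMap {c : K} (hc : c ≠ 0) : ¬ InMax v (algebraMap K F c) := by
  rintro (h | h)
  · exact hc ((map_eq_zero (algebraMap K F)).mp h)
  · rw [_root_.Fermat.Agent.S24.H504.ord_algebraMap] at h
    exact lt_irrefl _ h

theorem ord_aeval_nonneg {f : F} (hf : 0 ≤ v.ord f) (Q : K[X]) : 0 ≤ v.ord (aeval f Q) := by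
  rw [← mem_iff_ord_nonneg'] at *
  rw [aeval_def, eval₂_eq_sum_range]
  refine Subring.sum_mem v.toValuationSubring.toSubring fun i _ => ?_
  exact v.toValuationSubring.mul_mem _ _ (v.algebraMap_mem' _) (pow_mem hf i)

/-- If a nonzero polynomial over `K` takes a value in the maximal ideal at an integral `f`,
then `f` is congruent to a constant. -/
theorem exists_sub_inMax_of_aeval [IsAlgClosed K] {f : F} (hf : 0 ≤ v.ord f) :
    ∀ (n : ℕ) (Q : K[X]), Q.natDegree = n → Q ≠ 0 → InMax v (aeval f Q) →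
      ∃ c : K, InMax v (f - algebraMap K F c) := by
  intro n
  induction n with
  | zero =>
    intro Q hdeg hQ h
    exfalso
    rw [natDegree_eq_zero] at hdeg
    obtain ⟨c, rfl⟩ := hdeg
    rw [aeval_C] at h
    exact not_inMax_algebraMap (by simpa using hQ) h
  | succ n ih =>
    intro Q hdeg hQ h
    have hdeg' : Q.degree ≠ 0 :=
      (natDegree_pos_iff_degree_pos.mp (by omega)).ne'
    obtain ⟨c, hc⟩ := IsAlgClosed.exists_root Q hdeg'
    obtain ⟨Q₁, hQ₁⟩ := dvd_iff_isRoot.mpr hc
    have hQ₁0 : Q₁ ≠ 0 := by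
      rintro rfl
      simp at hQ₁
      exact hQ hQ₁
    have hdeg₁ : Q₁.natDegree = n := by
      have := congrArg natDegree hQ₁
      rw [natDegree_mul (X_sub_C_ne_zero c) hQ₁0, natDegree_X_sub_C, hdeg] at this
      omega
    have hval : aeval f Q = (f - algebraMap K F c) * aeval f Q₁ := by
      rw [hQ₁, map_mul]
      simp
    rw [hval] at h
    have hfc : 0 ≤ v.ord (f - algebraMap K F c) := by
      rw [← mem_iff_ord_nonneg'] at *
      exact sub_mem hf (v.algebraMap_mem' c)
    rcases inMax_or_of_mul hfc (ord_aeval_nonneg hf Q₁) h with h1 | h1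
    · exact ⟨c, h1⟩
    · exact ih Q₁ hdeg₁ hQ₁0 h1

theorem inMax_aeval_sub_coeff_zero {t : F} (ht : 0 < v.ord t) (q : K[X]) :
    InMax v (aeval t q - algebraMap K F (q.coeff 0)) := by
  have h : q = divX q * X + C (q.coeff 0) := (divX_mul_X_add q).symm
  have h2 : aeval t q - algebraMap K F (q.coeff 0) = t * aeval t (divX q) := by
    conv_lhs => rw [h]
    simp only [map_add, map_mul, aeval_X, aeval_C]
    simp only [coeff_add, coeff_C_zero, mul_coeff_zero, coeff_X_zero, mul_zero, zero_add]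
    ring
  rw [h2]
  exact InMax.mul_right (Or.inr ht) (ord_aeval_nonneg ht.le _)

/-- Two-variable relation: a nonzero `P ∈ K[T][Y]` with `P(t, f) = 0` can be normalised so
that `P(0, Y) ≠ 0`. -/
theorem exists_normalised_relation {t : F} (ht : t ≠ 0) (f : F) (P : K[X][X]) (hP : P ≠ 0)
    (hPf : P.eval₂ (aeval t : K[X] →ₐ[K] F).toRingHom f = 0) :
    ∃ Q : K[X][X], Q.map (constantCoeff : K[X] →+* K) ≠ 0 ∧
      Q.eval₂ (aeval t : K[X] →ₐ[K] F).toRingHom f = 0 := by
  have hX : ¬ IsUnit (C (X : K[X]) : K[X][X]) := by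
    rw [isUnit_C]
    exact not_isUnit_X
  obtain ⟨n, Q, hndvd, rfl⟩ := WfDvdMonoid.max_power_factor' hP hX
  refine ⟨Q, ?_, ?_⟩
  · intro h0
    apply hndvd
    rw [C_dvd_iff_dvd_coeff]
    intro i
    rw [X_dvd_iff]
    have := congrArg (fun p => p.coeff i) h0
    simpa [coeff_map] using this
  · rw [eval₂_mul, eval₂_pow, eval₂_C] at hPf
    simp only [AlgHom.toRingHom_eq_coe, RingHom.coe_coe, aeval_X] at hPf
    rcases mul_eq_zero.mp hPf with h | h
    · exact absurd h (pow_ne_zero n ht)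
    · simpa using h

/-- Reduction of a two-variable relation modulo the maximal ideal. -/
theorem inMax_aeval_map_constantCoeff {t f : F} (ht : 0 < v.ord t) (hf : 0 ≤ v.ord f)
    (Q : K[X][X]) (hQf : Q.eval₂ (aeval t : K[X] →ₐ[K] F).toRingHom f = 0) :
    InMax v (aeval f (Q.map (constantCoeff : K[X] →+* K))) := by
  have h1 : aeval f (Q.map (constantCoeff : K[X] →+* K))
      = Q.eval₂ ((algebraMap K F).comp (constantCoeff : K[X] →+* K)) f := by
    rw [aeval_def, eval₂_map]
  have h2 : aeval f (Q.map (constantCoeff : K[X] →+* K))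
      = -(Q.eval₂ (aeval t : K[X] →ₐ[K] F).toRingHom f
          - Q.eval₂ ((algebraMap K F).comp (constantCoeff : K[X] →+* K)) f) := by
    rw [hQf, h1]; ring
  rw [h2]
  apply InMax.neg
  rw [eval₂_eq_sum_range, eval₂_eq_sum_range, ← Finset.sum_sub_distrib]
  apply inMax_sum
  intro i _
  rw [← sub_mul]
  refine InMax.mul_right ?_ ?_
  · simpa using inMax_aeval_sub_coeff_zero ht (Q.coeff i)
  · rw [ord_pow]
    positivity

open scoped IntermediateField.algebraAdjoinAdjoin in
/-- **Residue field is `K`.**  If `K` is algebraically closed, `F` is algebraic over `K(t)` and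
`v` is a place with `v(t) > 0`, every `v`-integral element is congruent to a constant. -/
theorem exists_sub_inMax [IsAlgClosed K] {t : F} (ht : 0 < v.ord t)
    [Algebra.IsAlgebraic (IntermediateField.adjoin K {t}) F] {f : F} (hf : 0 ≤ v.ord f) :
    ∃ c : K, InMax v (f - algebraMap K F c) := by
  have halg : IsAlgebraic (IntermediateField.adjoin K {t}) f :=
    Algebra.IsAlgebraic.isAlgebraic f
  have halg' : IsAlgebraic (Algebra.adjoin K {t}) f :=
    (IsFractionRing.isAlgebraic_iff (Algebra.adjoin K {t}) (IntermediateField.adjoin K {t})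
      F).mpr halg
  obtain ⟨p, hp0, hpf⟩ := halg'
  let φ : K[X] →+* Algebra.adjoin K {t} :=
    ((aeval t : K[X] →ₐ[K] F).codRestrict (Algebra.adjoin K {t})
      (fun q => aeval_mem_adjoin_singleton K t)).toRingHom
  have hφ : Function.Surjective φ := by
    rintro ⟨a, ha⟩
    have ha' := ha
    rw [Algebra.adjoin_singleton_eq_range_aeval] at ha'
    obtain ⟨q, hq⟩ := ha'
    exact ⟨q, Subtype.ext hq⟩
  obtain ⟨P, hP⟩ := Polynomial.map_surjective φ hφ p
  have hP0 : P ≠ 0 := by
    rintro rfl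
    rw [Polynomial.map_zero] at hP
    exact hp0 hP.symm
  have hcomp : (algebraMap (Algebra.adjoin K {t}) F).comp φ
      = (aeval t : K[X] →ₐ[K] F).toRingHom := by
    ext <;> rfl
  have hPf : P.eval₂ (aeval t : K[X] →ₐ[K] F).toRingHom f = 0 := by
    rw [← hcomp, ← eval₂_map, hP]
    exact hpf
  have ht0 : t ≠ 0 := ne_zero_of_ord_ne_zero v ht.ne'
  obtain ⟨Q, hQ0, hQf⟩ := exists_normalised_relation ht0 f P hP0 hPf
  exact exists_sub_inMax_of_aeval hf _ _ rfl hQ0 (inMax_aeval_map_constantCoeff ht hf Q hQf)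

/-- Decomposition `f = c + g` with `c` constant and `g` in the maximal ideal. -/
theorem exists_eq_const_add [IsAlgClosed K] {t : F} (ht : 0 < v.ord t)
    [Algebra.IsAlgebraic (IntermediateField.adjoin K {t}) F] {f : F} (hf : 0 ≤ v.ord f) :
    ∃ (c : K) (g : F), InMax v g ∧ f = algebraMap K F c + g := by
  obtain ⟨c, hc⟩ := exists_sub_inMax ht hf
  exact ⟨c, f - algebraMap K F c, hc, by ring⟩

/-- Decomposition `f = c + ϖ f₁` for a uniformizer `ϖ`. -/
theorem exists_eq_const_add_mul [IsAlgClosed K] {t : F} (ht : 0 < v.ord t)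
    [Algebra.IsAlgebraic (IntermediateField.adjoin K {t}) F] {ϖ : F} (hϖ : v.ord ϖ = 1)
    {f : F} (hf : 0 ≤ v.ord f) :
    ∃ (c : K) (f₁ : F), 0 ≤ v.ord f₁ ∧ f = algebraMap K F c + ϖ * f₁ := by
  obtain ⟨c, g, hg, rfl⟩ := exists_eq_const_add ht hf
  have hϖ0 : ϖ ≠ 0 := ne_zero_of_ord_ne_zero v (by omega)
  refine ⟨c, g / ϖ, ?_, by field_simp⟩
  rcases hg with rfl | hg
  · simp
  · rw [ord_div v (ne_zero_of_ord_ne_zero v hg.ne') hϖ0]
    omega

theorem inMax_iff_mem_maximalIdeal (f : v.toValuationSubring) :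
    InMax v (f : F) ↔ f ∈ IsLocalRing.maximalIdeal v.toValuationSubring := by
  rw [IsLocalRing.mem_maximalIdeal, mem_nonunits_iff]
  constructor
  · rintro (h | h) hu
    · have : f = 0 := Subtype.ext h
      rw [this] at hu
      exact not_isUnit_zero hu
    · have := v.ord_coe_unit hu.unit
      rw [IsUnit.unit_spec] at this
      omega
  · intro hu
    by_cases h0 : (f : F) = 0
    · exact Or.inl h0
    right
    have h1 : 0 ≤ v.ord (f : F) := (mem_iff_ord_nonneg' v _).mp f.2
    rcases h1.lt_or_eq with h | h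
    · exact h
    exfalso
    apply hu
    have hinv : (f : F)⁻¹ ∈ v.toValuationSubring := by
      rw [mem_iff_ord_nonneg', Place.ord_inv]
      omega
    refine IsUnit.of_mul_eq_one (⟨(f : F)⁻¹, hinv⟩ : v.toValuationSubring) ?_
    ext
    simp [h0]

/-- **Places over `t = 0` have degree one.** -/
theorem deg_eq_one [IsAlgClosed K] {t : F} (ht : 0 < v.ord t)
    [Algebra.IsAlgebraic (IntermediateField.adjoin K {t}) F] : v.deg = 1 := by
  rw [Place.deg, finrank_eq_one_iff']
  refine ⟨1, one_ne_zero, fun w => ?_⟩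
  obtain ⟨f, rfl⟩ := IsLocalRing.residue_surjective w
  obtain ⟨c, hc⟩ := exists_sub_inMax ht ((mem_iff_ord_nonneg' v _).mp f.2)
  refine ⟨c, ?_⟩
  rw [Algebra.smul_def, mul_one]
  have hmem : f - algebraMap K v.toValuationSubring c
      ∈ IsLocalRing.maximalIdeal v.toValuationSubring := by
    rw [← inMax_iff_mem_maximalIdeal]
    simpa using hc
  have := (IsLocalRing.residue_eq_zero_iff _).mpr hmem
  rw [map_sub, sub_eq_zero] at this
  rw [this]
  rfl

end Fermat.Agent.S24.H504

end
-- ===== PACK-END S24/H504/Residue.lean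

-- ===== PACK-BEGIN S28/H867/Leaves.lean
section
/-
S28 [L] (helper867): leaf interface for the degree bookkeeping behind `coreData`.
Only definitions and `Prop`-valued leaf statements live here (no proofs needed).
-/



set_option autoImplicit false

noncomputable section

open ModularCurve HahnSeries IntermediateField

namespace Fermat.Agent.S28.H867

variable (k : Type*) [Field k]

/-- `j(q^p)` as a Laurent series over `k`. -/
abbrev jp (p : ℕ) [NeZero p] : LaurentSeries k := qExpand k p (jqModC k)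

/-- `k(j(q^p)) ⊂ k((q))`. -/
def jpField (p : ℕ) [NeZero p] : IntermediateField k (LaurentSeries k) :=
  IntermediateField.adjoin k {jp k p}

/-- `E_M = k(j(q^d) : d ∣ M)`. -/
abbrev EF (M : ℕ) : IntermediateField k (LaurentSeries k) := modularFunctionFieldFullC k M

/-- `[E_M : k(j)]` (zero if infinite). -/
def degE (M : ℕ) : ℕ := (jField k).relfinrank (EF k M)

/-- The expected degree `ψ(N) = ∏_{p ∣ N} (p + 1) p^{v_p(N) - 1}`. -/
def gFun (N : ℕ) : ℕ := ∏ p ∈ N.primeFactors, (p + 1) * p ^ (N.factorization p - 1)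

/-- Leaf [L.I]: `1, j, …, j^{p-1}` are linearly independent over every subfield of
`k((q^p)) = range V_p`. True for every field `k` and every `p ≥ 1`. -/
def LeafI (p : ℕ) [NeZero p] : Prop :=
  ∀ B : IntermediateField k (LaurentSeries k),
    B ≤ (qExpandAlgHomC k p).fieldRange →
    LinearIndependent B (fun i : Fin p => (jqModC k) ^ (i : ℕ))

/-- Leaf [L.B1]: `j(q^p) ∉ k(j)`. True when `p` is prime and `(p : k) ≠ 0`. -/
def LeafB1 (p : ℕ) [NeZero p] : Prop := jp k p ∉ jField k

/-- Leaf [L.UP]: upper bound in characteristic zero. -/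
def LeafUP (N : ℕ) : Prop := ∀ M : ℕ, M ∣ N → degE ℚ M ≤ gFun M

/-- Prime-level degrees: `[k(j, j_p) : k(j)] = p + 1 = [k(j, j_p) : k(j_p)]`. -/
structure PrimeLevel (p : ℕ) [NeZero p] : Prop where
  deg_j : (jField k).relfinrank (jField k ⊔ jpField k p) = p + 1
  deg_jp : (jpField k p).relfinrank (jField k ⊔ jpField k p) = p + 1

end Fermat.Agent.S28.H867

end

end
-- ===== PACK-END S28/H867/Leaves.lean

-- ===== PACK-BEGIN S28/H325/PolyIndep.lean
section



/-!
# S28, piece [L-glue], part 1: polynomial independence and change of coefficients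

`PolyIndep J v` says that the family `v` admits no nontrivial linear relation with coefficients
polynomials in `J`.  For a field `k` and transcendental `J` this is linear independence over
`k(J)`.  We transfer it along `ℤ → k` (content descent) and `ℤ → ℚ` (clearing denominators).
-/

set_option autoImplicit false

noncomputable section

open ModularCurve HahnSeries Polynomial

namespace Fermat.Agent.S28.H325

/-- No nontrivial relation `∑ Pᵢ(J) vᵢ = 0` with polynomial coefficients. -/
def PolyIndep {A : Type*} [CommRing A] {n : ℕ} (J : LaurentSeries A)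
    (v : Fin n → LaurentSeries A) : Prop :=
  ∀ P : Fin n → A[X], ∑ i, aeval J (P i) * v i = 0 → ∀ i, P i = 0

section Transport

variable {A B : Type*} [CommRing A] [CommRing B]

theorem coeffMap_aeval (f : A →+* B) (J : LaurentSeries A) (P : A[X]) :
    coeffMap f (aeval J P) = aeval (coeffMap f J) (P.map f) := by
  induction P using Polynomial.induction_on' with
  | add p q hp hq => simp only [map_add, Polynomial.map_add, hp, hq]
  | monomial m a =>
    rw [Polynomial.map_monomial, Polynomial.aeval_monomial, Polynomial.aeval_monomial, map_mul,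
      map_pow]
    congr 1
    rw [HahnSeries.algebraMap_apply', HahnSeries.algebraMap_apply', coeffMap_ofPowerSeries]
    congr 1
    ext k
    simp

theorem coeffMap_injective_of_injective (f : A →+* B) (hf : Function.Injective f) :
    Function.Injective (coeffMap f) := by
  intro x y h
  ext m
  apply hf
  have := congrArg (fun z => z.coeff m) h
  simpa using this

/-- Polynomial independence descends along an injective coefficient map. -/
theorem PolyIndep.of_injective {n : ℕ} (f : A →+* B) (hf : Function.Injective f)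
    {J : LaurentSeries A} {v : Fin n → LaurentSeries A}
    (h : PolyIndep (coeffMap f J) (fun i => coeffMap f (v i))) : PolyIndep J v := by
  intro P hP i
  have h1 : ∑ i, aeval (coeffMap f J) ((P i).map f) * coeffMap f (v i) = 0 := by
    have := congrArg (coeffMap f) hP
    rw [map_sum, map_zero] at this
    rw [← this]
    refine Finset.sum_congr rfl fun i _ => ?_
    rw [map_mul, coeffMap_aeval]
  have h2 := h (fun i => (P i).map f) h1 i
  exact (Polynomial.map_eq_zero_iff hf).mp h2

end Transport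

section Transcendence

variable (A : Type*) [CommRing A]

theorem algebraMap_laurent_eq_C (a : A) :
    algebraMap A (LaurentSeries A) a = HahnSeries.C a := by
  rw [HahnSeries.algebraMap_apply']
  have h1 : algebraMap A (PowerSeries A) a = PowerSeries.C a := by simp
  rw [h1, HahnSeries.ofPowerSeries_C]

theorem laurent_coeff_smul (a : A) (x : LaurentSeries A) (m : ℤ) :
    (@HSMul.hSMul A (LaurentSeries A) (LaurentSeries A)
      (@instHSMul A (LaurentSeries A) (powerSeriesAlgebra ℤ A).toSMul) a x).coeff m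
      = a * x.coeff m := by
  rw [Algebra.smul_def, algebraMap_laurent_eq_C, HahnSeries.C_mul_eq_smul]
  exact @HahnSeries.coeff_smul ℤ A _ A _ _ a x m

/-- The coefficient of `q^{-deg P}` in `P(j)` is the leading coefficient of `P`. -/
theorem coeff_aeval_jqModC (P : A[X]) :
    (aeval (jqModC A) P).coeff (-(P.natDegree : ℤ)) = P.leadingCoeff := by
  rw [Polynomial.aeval_eq_sum_range, HahnSeries.coeff_sum, Finset.sum_range_succ]
  rw [Finset.sum_eq_zero, zero_add]
  · refine (laurent_coeff_smul A _ _ _).trans ?_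
    rw [coeff_jqModC_pow_self, mul_one]
    rfl
  · intro m hm
    refine (laurent_coeff_smul A _ _ _).trans ?_
    rw [coeff_jqModC_pow_of_lt, mul_zero]
    have := Finset.mem_range.mp hm
    omega

theorem aeval_jqModC_eq_zero_iff (P : A[X]) : aeval (jqModC A) P = 0 ↔ P = 0 := by
  refine ⟨fun h => ?_, fun h => by rw [h, map_zero]⟩
  have := coeff_aeval_jqModC A P
  rw [h, HahnSeries.coeff_zero] at this
  exact Polynomial.leadingCoeff_eq_zero.mp this.symm

end Transcendence

section Field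

variable {k : Type*} [Field k] {n : ℕ}

/-- Linear independence over `k(J)` implies polynomial independence, for transcendental `J`. -/
theorem polyIndep_of_linearIndependent {J : LaurentSeries k}
    (hJ : ∀ P : k[X], aeval J P = 0 → P = 0) {v : Fin n → LaurentSeries k}
    (h : LinearIndependent (IntermediateField.adjoin k {J}) v) : PolyIndep J v := by
  intro P hP i
  rw [Fintype.linearIndependent_iff] at h
  have hmem : ∀ i, aeval J (P i) ∈ IntermediateField.adjoin k {J} := fun i =>
    (IntermediateField.mem_adjoin_simple_iff k _).mpr ⟨P i, 1, by simp⟩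
  have h1 := h (fun i => ⟨aeval J (P i), hmem i⟩) (by
    rw [← hP]
    exact Finset.sum_congr rfl fun i _ => rfl) i
  exact hJ _ (congrArg Subtype.val h1)

/-- Polynomial independence implies linear independence over `k(J)`. -/
theorem linearIndependent_of_polyIndep {J : LaurentSeries k} {v : Fin n → LaurentSeries k}
    (h : PolyIndep J v) : LinearIndependent (IntermediateField.adjoin k {J}) v := by
  classical
  rw [Fintype.linearIndependent_iff]
  intro g hg
  have hrs : ∀ i, ∃ r s : k[X], aeval J s ≠ 0 ∧ (g i : LaurentSeries k) * aeval J s = aeval J r := by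
    intro i
    obtain ⟨r, s, hrs⟩ := (IntermediateField.mem_adjoin_simple_iff k _).mp (g i).2
    by_cases hs : aeval J s = 0
    · refine ⟨0, 1, by simp, ?_⟩
      rw [hs, div_zero] at hrs
      simp [hrs]
    · exact ⟨r, s, hs, by rw [hrs, div_mul_cancel₀ _ hs]⟩
  choose r s hs hrs using hrs
  set t : Fin n → k[X] := fun i => r i * ∏ l ∈ Finset.univ.erase i, s l with ht
  have hS : ∀ i, aeval J (t i) = (g i : LaurentSeries k) * aeval J (∏ l, s l) := by
    intro i
    rw [ht]
    simp only [map_mul]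
    rw [← hrs i, ← Finset.mul_prod_erase Finset.univ s (Finset.mem_univ i)]
    simp only [map_mul]
    ring
  have hrel : ∑ i, aeval J (t i) * v i = 0 := by
    have : ∑ i, aeval J (t i) * v i = aeval J (∏ l, s l) * ∑ i, (g i) • v i := by
      rw [Finset.mul_sum]
      refine Finset.sum_congr rfl fun i _ => ?_
      rw [hS i, IntermediateField.smul_def, smul_eq_mul]
      ring
    rw [this, hg, mul_zero]
  have ht0 := h t hrel
  intro i
  have h1 : (g i : LaurentSeries k) * aeval J (∏ l, s l) = 0 := by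
    rw [← hS i, ht0 i, map_zero]
  have h2 : aeval J (∏ l, s l) ≠ 0 := by
    rw [map_prod]
    exact Finset.prod_ne_zero_iff.mpr fun l _ => hs l
  have h3 : (g i : LaurentSeries k) = 0 := (mul_eq_zero.mp h1).resolve_right h2
  exact Subtype.ext h3

end Field

section Integers

variable {n : ℕ}

/-- Clearing denominators: polynomial independence over `ℤ` gives it over `ℚ`. -/
theorem PolyIndep.rat_of_int {J : LaurentSeries ℤ} {Y : Fin n → LaurentSeries ℤ}
    (h : PolyIndep J Y) :
    PolyIndep (coeffMap (Int.castRingHom ℚ) J) (fun i => coeffMap (Int.castRingHom ℚ) (Y i)) := by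
  classical
  intro P hP
  have hnorm : ∀ i, ∃ (b : ℤ) (Q : ℤ[X]), b ≠ 0 ∧
      Q.map (Int.castRingHom ℚ) = Polynomial.C (b : ℚ) * P i := by
    intro i
    obtain ⟨b, hbM, hb⟩ := IsLocalization.integerNormalization_spec (nonZeroDivisors ℤ) (P i)
    refine ⟨b, IsLocalization.integerNormalization (nonZeroDivisors ℤ) (P i),
      nonZeroDivisors.ne_zero hbM, ?_⟩
    rw [algebraMap_int_eq] at hb
    rw [hb, Polynomial.C_mul', Int.cast_smul_eq_zsmul ℚ b (P i)]
  choose b Q hb hQ using hnorm
  set c : Fin n → ℤ := fun i => ∏ l ∈ Finset.univ.erase i, b l with hc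
  set m : ℤ := ∏ l, b l with hm
  have hm0 : (m : ℚ) ≠ 0 := by
    rw [hm]; exact_mod_cast Finset.prod_ne_zero_iff.mpr fun l _ => hb l
  have hcm : ∀ i, c i * b i = m := fun i => by
    rw [hc, hm, mul_comm]
    exact Finset.mul_prod_erase Finset.univ b (Finset.mem_univ i)
  have hQ' : ∀ i, (Polynomial.C (c i) * Q i).map (Int.castRingHom ℚ)
      = Polynomial.C (m : ℚ) * P i := by
    intro i
    rw [Polynomial.map_mul, Polynomial.map_C, hQ i, ← mul_assoc, ← Polynomial.C_mul]
    congr 2
    rw [eq_intCast, ← hcm i]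
    push_cast
    ring
  have hrel : ∑ i, aeval J (Polynomial.C (c i) * Q i) * Y i = 0 := by
    apply coeffMap_injective_of_injective (Int.castRingHom ℚ) Int.cast_injective
    rw [map_sum, map_zero]
    have : ∑ i, coeffMap (Int.castRingHom ℚ) (aeval J (Polynomial.C (c i) * Q i) * Y i)
        = aeval (coeffMap (Int.castRingHom ℚ) J) (Polynomial.C (m : ℚ)) *
          ∑ i, aeval (coeffMap (Int.castRingHom ℚ) J) (P i) *
            coeffMap (Int.castRingHom ℚ) (Y i) := by
      rw [Finset.mul_sum]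
      refine Finset.sum_congr rfl fun i _ => ?_
      rw [map_mul, coeffMap_aeval, hQ' i, map_mul]
      ring
    rw [this, hP, mul_zero]
  have h0 := h _ hrel
  intro i
  have h1 : Polynomial.C (m : ℚ) * P i = 0 := by rw [← hQ' i, h0 i, Polynomial.map_zero]
  exact (mul_eq_zero.mp h1).resolve_left (by simpa using hm0)

/-- Content descent: polynomial independence over a field `k` (after reducing coefficients along
`ℤ → k`) gives polynomial independence over `ℤ`. -/
theorem PolyIndep.int_of_field {k : Type*} [Field k] {J : LaurentSeries ℤ}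
    {Y : Fin n → LaurentSeries ℤ}
    (h : PolyIndep (coeffMap (Int.castRingHom k) J)
      (fun i => coeffMap (Int.castRingHom k) (Y i))) : PolyIndep J Y := by
  classical
  obtain ⟨p, hp⟩ := CharP.exists k
  -- every relation has all coefficients divisible by `p`
  have hdvd : ∀ P : Fin n → ℤ[X], ∑ i, aeval J (P i) * Y i = 0 →
      ∀ i, Polynomial.C (p : ℤ) ∣ P i := by
    intro P hP i
    have h1 : ∑ i, aeval (coeffMap (Int.castRingHom k) J) ((P i).map (Int.castRingHom k)) *
        coeffMap (Int.castRingHom k) (Y i) = 0 := by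
      have := congrArg (coeffMap (Int.castRingHom k)) hP
      rw [map_sum, map_zero] at this
      rw [← this]
      refine Finset.sum_congr rfl fun i _ => ?_
      rw [map_mul, coeffMap_aeval]
    have h2 := h _ h1 i
    rw [Polynomial.C_dvd_iff_dvd_coeff]
    intro d
    have h3 := congrArg (fun q => q.coeff d) h2
    simp only [Polynomial.coeff_map, Polynomial.coeff_zero, eq_intCast] at h3
    exact (CharP.intCast_eq_zero_iff k p _).mp h3
  rcases Nat.eq_zero_or_pos p with hp0 | hppos
  · intro P hP i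
    obtain ⟨R, hR⟩ := hdvd P hP i
    rw [hR, hp0]
    simp
  · have hp2 : 2 ≤ p := by
      rcases (CharP.char_is_prime_or_zero k p) with h | h
      · exact h.two_le
      · omega
    -- all coefficients are divisible by every power of `p`
    have hpow : ∀ e : ℕ, ∀ P : Fin n → ℤ[X], ∑ i, aeval J (P i) * Y i = 0 →
        ∀ i d, (p : ℤ) ^ e ∣ (P i).coeff d := by
      intro e
      induction e with
      | zero => intro P _ i d; simp
      | succ e ih =>
        intro P hP i d
        have hall := hdvd P hP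
        choose R hR using hall
        have hRrel : ∑ i, aeval J (R i) * Y i = 0 := by
          have h1 : ((p : ℤ) : LaurentSeries ℤ) * ∑ i, aeval J (R i) * Y i = 0 := by
            rw [← hP, Finset.mul_sum]
            refine Finset.sum_congr rfl fun i _ => ?_
            rw [hR i, map_mul, Polynomial.aeval_C, mul_assoc]
            simp
          rcases mul_eq_zero.mp h1 with h2 | h2
          · exfalso
            have h3 : ((p : ℤ) : LaurentSeries ℤ) ≠ 0 := by
              rw [← map_intCast (HahnSeries.C : ℤ →+* LaurentSeries ℤ)]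
              intro h4
              have h5 : ((p : ℤ) : ℤ) = 0 :=
                HahnSeries.C_injective (h4.trans (map_zero _).symm)
              simp at h5
              omega
            exact h3 h2
          · exact h2
        have := ih R hRrel i d
        rw [hR i, Polynomial.coeff_C_mul, pow_succ, mul_comm]
        exact mul_dvd_mul_left _ this
    intro P hP i
    ext d
    rw [Polynomial.coeff_zero]
    set a := (P i).coeff d with ha
    have h1 := hpow a.natAbs P hP i d
    refine Int.eq_zero_of_dvd_of_natAbs_lt_natAbs h1 ?_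
    rw [Int.natAbs_pow, Int.natAbs_natCast]
    calc a.natAbs < 2 ^ a.natAbs := Nat.lt_two_pow_self
      _ ≤ p ^ a.natAbs := Nat.pow_le_pow_left hp2 _

end Integers

end Fermat.Agent.S28.H325

end
end
-- ===== PACK-END S28/H325/PolyIndep.lean

-- ===== PACK-BEGIN S28/H505/LevelOne.lean
section



open UpperHalfPlane ModularForm EisensteinSeries Filter Topology MatrixGroups
  SlashInvariantForm SlashInvariantFormClass ModularFormClass CuspFormClass
open scoped PowerSeries.WithPiTopology

namespace Fermat.Agent.S28.H505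

/-- the modular `j`-function (normalised as `q⁻¹ + 744 + ⋯`) -/
noncomputable def jFun (z : ℍ) : ℂ := E₄ z ^ 3 / ModularForm.discriminant z

/-- formal `E₄` over `ℂ` -/
noncomputable def e4C : PowerSeries ℂ := ModularCurve.eisenstein4.map (Int.castRingHom ℂ)

/-- formal `Δ` over `ℂ` -/
noncomputable def deltaC : PowerSeries ℂ :=
  PowerSeries.X * (ModularCurve.etaProd.map (Int.castRingHom ℂ)) ^ 24

theorem qExpansion_E₄_eq_e4C : qExpansion 1 E₄ = e4C := qExpansion_E₄_eq

theorem qExpansion_discriminant_eq_deltaC : qExpansion 1 ModularForm.discriminant = deltaC :=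
  qExpansion_discriminant_eq

theorem ofPowerSeries_e4C_pow_three :
    (HahnSeries.ofPowerSeries ℤ ℂ e4C) ^ 3 =
      ModularCurve.jqModC ℂ * HahnSeries.ofPowerSeries ℤ ℂ deltaC := by
  have h1 : ModularCurve.jNum * ModularCurve.etaProd ^ 24 = ModularCurve.eisenstein4 ^ 3 := by
    have := ModularCurve.dedekindEtaUnit_mul_inv
    rw [ModularCurve.dedekindEtaUnit] at this
    rw [ModularCurve.jNum, mul_assoc, mul_comm ModularCurve.dedekindEtaUnitInv, this, mul_one]
  have h2 := congrArg (PowerSeries.map (Int.castRingHom ℂ)) h1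
  rw [map_mul, map_pow, map_pow] at h2
  have h3 : HahnSeries.ofPowerSeries ℤ ℂ deltaC =
      HahnSeries.single (1 : ℤ) (1 : ℂ) *
        HahnSeries.ofPowerSeries ℤ ℂ ((ModularCurve.etaProd.map (Int.castRingHom ℂ)) ^ 24) := by
    rw [deltaC, map_mul, HahnSeries.ofPowerSeries_X]
  rw [h3, ModularCurve.jqModC, e4C, ← map_pow, ← h2, map_mul]
  have h4 : HahnSeries.single (-1 : ℤ) (1 : ℂ) * HahnSeries.single (1 : ℤ) (1 : ℂ) = 1 := by
    rw [HahnSeries.single_mul_single]; simp
  calc _ = (HahnSeries.single (-1 : ℤ) (1 : ℂ) * HahnSeries.single (1 : ℤ) (1 : ℂ)) *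
        (HahnSeries.ofPowerSeries ℤ ℂ (ModularCurve.jNum.map (Int.castRingHom ℂ)) *
        HahnSeries.ofPowerSeries ℤ ℂ ((ModularCurve.etaProd.map (Int.castRingHom ℂ)) ^ 24)) := by
          rw [h4, one_mul]
    _ = _ := by ring


theorem algebraMap_laurent_eq_C (c : ℂ) :
    algebraMap ℂ (LaurentSeries ℂ) c = HahnSeries.C c := by
  rw [HahnSeries.algebraMap_apply']
  simp

theorem aeval_laurent_eq_eval₂ (x : LaurentSeries ℂ) (P : Polynomial ℂ) :
    Polynomial.aeval x P = Polynomial.eval₂ HahnSeries.C x P := by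
  rw [Polynomial.aeval_def]
  congr 1
  ext c : 1
  exact algebraMap_laurent_eq_C c

theorem e4C_coeff_zero : e4C.coeff 0 = 1 := by
  rw [← qExpansion_E₄_eq_e4C]
  exact E_qExpansion_coeff_zero (by norm_num) (by decide)

/-- `E₄ ^ n` as a modular form of weight `k = 4 n`. -/
noncomputable def E4pow (n : ℕ) (k : ℤ) (hk : (n : ℤ) * 4 = k) : ModularForm 𝒮ℒ k :=
  ModularForm.mcast hk (E₄.pow n)

theorem E4pow_apply (n : ℕ) (k : ℤ) (hk : (n : ℤ) * 4 = k) (z : ℍ) :
    E4pow n k hk z = E₄ z ^ n := by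
  simp [E4pow]

theorem qExpansion_E4pow (n : ℕ) (k : ℤ) (hk : (n : ℤ) * 4 = k) :
    qExpansion 1 (E4pow n k hk) = e4C ^ n := by
  rw [E4pow, ModularForm.qExpansion_mcast,
    ModularForm.qExpansion_pow one_pos one_mem_strictPeriods_SL, qExpansion_E₄_eq_e4C]

theorem levelOne_structure (m : ℕ) : ∀ (k : ℤ) (_ : k = 12 * m) (F : ModularForm 𝒮ℒ k),
    ∃ P : Polynomial ℂ, P.natDegree ≤ m ∧
      (∀ z : ℍ, F z = ModularForm.discriminant z ^ m * P.eval (jFun z)) ∧
      (HahnSeries.ofPowerSeries ℤ ℂ (qExpansion 1 F) =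
        (HahnSeries.ofPowerSeries ℤ ℂ deltaC) ^ m *
          Polynomial.aeval (ModularCurve.jqModC ℂ) P) := by
  induction m with
  | zero =>
    intro k hk F
    simp only [Nat.cast_zero, mul_zero] at hk
    subst hk
    obtain ⟨c, hc⟩ := levelOne_weight_zero_const F
    refine ⟨Polynomial.C c, by simp, fun z => by simp [hc], ?_⟩
    have h1 : qExpansion 1 F = PowerSeries.C c := by
      have : (F : ℍ → ℂ) = c • ⇑(1 : ModularForm 𝒮ℒ 0) := by
        rw [hc]; ext z; simp
      rw [this, ModularForm.qExpansion_smul one_pos one_mem_strictPeriods_SL,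
        ModularForm.qExpansion_one, PowerSeries.smul_eq_C_mul, mul_one]
    rw [h1, HahnSeries.ofPowerSeries_C, pow_zero, one_mul, Polynomial.aeval_C,
      algebraMap_laurent_eq_C]
  | succ m ih =>
    intro k hk F
    set c₀ : ℂ := (qExpansion 1 F).coeff 0 with hc₀
    have hk4 : ((3 * (m + 1) : ℕ) : ℤ) * 4 = k := by rw [hk]; push_cast; ring
    set G : ModularForm 𝒮ℒ k := F - c₀ • E4pow (3 * (m + 1)) k hk4 with hG
    have hGq : qExpansion 1 G = qExpansion 1 F - PowerSeries.C c₀ * e4C ^ (3 * (m + 1)) := by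
      have h1 : (G : ℍ → ℂ) = ⇑F - ⇑(c₀ • E4pow (3 * (m + 1)) k hk4) := rfl
      rw [h1, ModularForm.qExpansion_sub one_pos one_mem_strictPeriods_SL]
      have h2 : (⇑(c₀ • E4pow (3 * (m + 1)) k hk4) : ℍ → ℂ) = c₀ • ⇑(E4pow (3 * (m + 1)) k hk4) :=
        rfl
      rw [h2, ModularForm.qExpansion_smul one_pos one_mem_strictPeriods_SL, qExpansion_E4pow,
        PowerSeries.smul_eq_C_mul]
    have hG0 : (qExpansion 1 G).coeff 0 = 0 := by
      rw [hGq, map_sub, PowerSeries.coeff_zero_eq_constantCoeff, map_mul, map_pow]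
      simp only [← PowerSeries.coeff_zero_eq_constantCoeff, e4C_coeff_zero]
      simp [hc₀]
    set H : ModularForm 𝒮ℒ (k - 12) := CuspForm.discriminantEquiv (G.toCuspForm hG0) with hH
    obtain ⟨P, hPdeg, hPval, hPq⟩ := ih (k - 12) (by rw [hk]; push_cast; ring) H
    have hGH : ∀ z, G z = ModularForm.discriminant z * H z := fun z => by
      rw [hH, discriminant_mul_discriminantEquiv_apply]; rfl
    have hFG : ∀ z, F z = c₀ * E₄ z ^ (3 * (m + 1)) + G z := fun z => by
      have : G z = F z - c₀ * E4pow (3 * (m + 1)) k hk4 z := rfl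
      rw [this, E4pow_apply]; ring
    refine ⟨Polynomial.C c₀ * Polynomial.X ^ (m + 1) + P, ?_, ?_, ?_⟩
    · refine (Polynomial.natDegree_add_le _ _).trans (max_le ?_ (hPdeg.trans (Nat.le_succ m)))
      exact Polynomial.natDegree_C_mul_X_pow_le _ _
    · intro z
      rw [hFG, hGH, hPval, Polynomial.eval_add, Polynomial.eval_mul, Polynomial.eval_C,
        Polynomial.eval_pow, Polynomial.eval_X, jFun]
      have hΔ := discriminant_ne_zero z
      have hJ : ModularForm.discriminant z * (E₄ z ^ 3 / ModularForm.discriminant z) = E₄ z ^ 3 :=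
        mul_div_cancel₀ _ hΔ
      have : ModularForm.discriminant z ^ (m + 1) *
          (c₀ * (E₄ z ^ 3 / ModularForm.discriminant z) ^ (m + 1) +
            Polynomial.eval (E₄ z ^ 3 / ModularForm.discriminant z) P) =
          c₀ * (ModularForm.discriminant z * (E₄ z ^ 3 / ModularForm.discriminant z)) ^ (m + 1) +
          ModularForm.discriminant z * (ModularForm.discriminant z ^ m *
            Polynomial.eval (E₄ z ^ 3 / ModularForm.discriminant z) P) := by ring
      rw [this, hJ, pow_mul]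
    · have h1 : qExpansion 1 F = PowerSeries.C c₀ * e4C ^ (3 * (m + 1)) +
          deltaC * qExpansion 1 H := by
        have := ModularForm.qExpansion_eq_qExpansion_discriminant_mul G hG0
        rw [qExpansion_discriminant_eq_deltaC, ← hH, hGq] at this
        rw [← this]; ring
      rw [h1, map_add, map_mul, map_mul, map_pow, hPq, pow_mul, ofPowerSeries_e4C_pow_three,
        HahnSeries.ofPowerSeries_C, map_add, map_mul, Polynomial.aeval_C, map_pow,
        Polynomial.aeval_X, algebraMap_laurent_eq_C]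
      ring

end Fermat.Agent.S28.H505

end
-- ===== PACK-END S28/H505/LevelOne.lean

-- ===== PACK-BEGIN S18/H333/Forms.lean
section




/-!
# S18 / c3 (helper333): level-one forms on `Γ₀(p)` — restriction and `V_p`

* `restr p H` : a level-one modular form `H` viewed on `Γ₀(p)`;
* `raise p H` : `τ ↦ H (p τ)` as a modular form on `Γ₀(p)`;
* `qExpansion_raise` : the `q`-expansion of `raise p H` is `Vser p (qExpansion H)`.
-/

set_option autoImplicit false
set_option linter.unusedSectionVars false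

noncomputable section

namespace Fermat.Agent.S18.H333

open UpperHalfPlane ModularForm CongruenceSubgroup MatrixGroups Matrix.SpecialLinearGroup

variable (p : ℕ) [NeZero p]

theorem det_eq_one' (g : SL(2, ℤ)) : g 0 0 * g 1 1 - g 0 1 * g 1 0 = 1 := by
  have h := g.det_coe
  rwa [Matrix.det_fin_two] at h

theorem diag_mul_mapGL (g : SL(2, ℤ)) (e : ℤ) (he : g 1 0 = p * e) :
    ∃ g' : SL(2, ℤ), heckeDiagMatrix p * mapGL ℝ g = mapGL ℝ g' * heckeDiagMatrix p := by
  have hp := NeZero.ne p
  have hdet := det_eq_one' g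
  obtain ⟨g', hg'⟩ : ∃ g' : SL(2, ℤ),
      (g' : Matrix (Fin 2) (Fin 2) ℤ) = !![g 0 0, p * g 0 1; e, g 1 1] := by
    refine ⟨⟨!![g 0 0, p * g 0 1; e, g 1 1], ?_⟩, rfl⟩
    rw [Matrix.det_fin_two_of]
    linear_combination hdet + (g 0 1) * he
  refine ⟨g', ?_⟩
  apply Units.ext
  rw [Units.val_mul, Units.val_mul, val_heckeDiagMatrix hp, mapGL_coe_matrix, mapGL_coe_matrix]
  have he' : ((g 1 0 : ℤ) : ℝ) = p * e := by exact_mod_cast he
  ext i j
  fin_cases i <;> fin_cases j <;>
    simp [Matrix.mul_apply, Fin.sum_univ_two, he', hg'] <;> ring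

open ConjAct Pointwise in
theorem Gamma0_le_conj_diag :
    (Gamma0 p : Subgroup (GL (Fin 2) ℝ)) ≤
      toConjAct (heckeDiagMatrix p)⁻¹ • (𝒮ℒ : Subgroup (GL (Fin 2) ℝ)) := by
  rintro _ ⟨g, hg, rfl⟩
  obtain ⟨e, he⟩ : (p : ℤ) ∣ g 1 0 := by
    have hg' : g ∈ Gamma0 p := hg
    rwa [CongruenceSubgroup.Gamma0_mem, ZMod.intCast_zmod_eq_zero_iff_dvd] at hg'
  obtain ⟨g', hg'⟩ := diag_mul_mapGL p g e he
  rw [Subgroup.mem_pointwise_smul_iff_inv_smul_mem, ← toConjAct_inv, inv_inv, toConjAct_smul, hg',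
    mul_inv_cancel_right]
  exact ⟨g', rfl⟩

omit [NeZero p] in
theorem Gamma0_le_top : (Gamma0 p : Subgroup (GL (Fin 2) ℝ)) ≤ (𝒮ℒ : Subgroup (GL (Fin 2) ℝ)) := by
  rintro _ ⟨g, -, rfl⟩
  exact ⟨g, rfl⟩

/-- `H ∣[k] diag(p,1)`, i.e. `τ ↦ p^(k-1) H(p τ)`, as a modular form on `Γ₀(p)`. -/
def raise0 {k : ℤ} (H : ModularForm 𝒮ℒ k) : ModularForm (Gamma0 p) k where
  toFun := (⇑H : ℍ → ℂ) ∣[k] heckeDiagMatrix p
  slash_action_eq' γ hγ :=
    (ModularForm.translate H (heckeDiagMatrix p)).slash_action_eq' γ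
      (Gamma0_le_conj_diag p hγ)
  holo' := (ModularForm.translate H (heckeDiagMatrix p)).holo'
  bdd_at_cusps' hc :=
    (ModularForm.translate H (heckeDiagMatrix p)).bdd_at_cusps'
      (hc.mono (Gamma0_le_conj_diag p))

/-- a level-one form viewed on `Γ₀(p)` -/
def restr {k : ℤ} (H : ModularForm 𝒮ℒ k) : ModularForm (Gamma0 p) k where
  toFun := (⇑H : ℍ → ℂ)
  slash_action_eq' γ hγ := H.slash_action_eq' γ (Gamma0_le_top p hγ)
  holo' := H.holo'
  bdd_at_cusps' hc := H.bdd_at_cusps' (hc.mono (Gamma0_le_top p))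

@[simp] theorem coe_restr {k : ℤ} (H : ModularForm 𝒮ℒ k) : (⇑(restr p H) : ℍ → ℂ) = ⇑H := rfl

/-- `τ ↦ H(p τ)` as a modular form on `Γ₀(p)`. -/
def raise {k : ℤ} (H : ModularForm 𝒮ℒ k) : ModularForm (Gamma0 p) k :=
  ((p : ℂ) ^ (1 - k)) • raise0 p H

theorem raise_apply {k : ℤ} (H : ModularForm 𝒮ℒ k) (τ : ℍ) :
    raise p H τ = H (heckeDiagMatrix p • τ) := by
  have hp' : (p : ℂ) ≠ 0 := by exact_mod_cast NeZero.ne p
  show ((p : ℂ) ^ (1 - k)) • ((⇑H : ℍ → ℂ) ∣[k] heckeDiagMatrix p) τ = _
  rw [slash_heckeDiagMatrix_apply k (NeZero.ne p), smul_eq_mul, ← mul_assoc, ← zpow_add₀ hp']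
  simp

theorem one_mem_strictPeriods_Gamma0 :
    (1 : ℝ) ∈ (Gamma0 p : Subgroup (GL (Fin 2) ℝ)).strictPeriods := by
  simp [CongruenceSubgroup.strictPeriods_Gamma0]

theorem one_mem_strictPeriods_top :
    (1 : ℝ) ∈ (𝒮ℒ : Subgroup (GL (Fin 2) ℝ)).strictPeriods := by
  simp

theorem qParam_diag (τ : ℍ) :
    Function.Periodic.qParam 1 ((heckeDiagMatrix p • τ : ℍ) : ℂ) =
      Function.Periodic.qParam 1 (τ : ℂ) ^ p := by
  rw [coe_heckeDiagMatrix_smul (NeZero.ne p), Function.Periodic.qParam,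
    Function.Periodic.qParam, ← Complex.exp_nat_mul]
  congr 1
  push_cast
  ring

theorem qExpansion_raise {k : ℤ} (H : ModularForm 𝒮ℒ k) :
    qExpansion 1 (raise p H) = Vser p (qExpansion 1 H) := by
  ext n
  symm
  refine ModularFormClass.qExpansion_coeff_unique (h := 1)
    (c := fun n => PowerSeries.coeff n (Vser p (qExpansion 1 H))) one_pos
    (_root_.Fermat.Agent.S18.H333.one_mem_strictPeriods_Gamma0 p) (f := raise p H) (fun τ => ?_) n
  rw [raise_apply]
  have h1 := ModularForm.hasSum_qExpansion (f := H) one_pos one_mem_strictPeriods_top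
    (heckeDiagMatrix p • τ)
  rw [qParam_diag] at h1
  have hinj : Function.Injective (fun m : ℕ => p * m) :=
    fun a b hab => Nat.eq_of_mul_eq_mul_left (Nat.pos_of_ne_zero (NeZero.ne p)) hab
  refine (hinj.hasSum_iff ?_).mp ?_
  · intro n hn
    have : ¬ p ∣ n := fun ⟨m, hm⟩ => hn ⟨m, hm.symm⟩
    simp [this]
  · convert h1 using 2 with m
    simp only [Function.comp_apply, coeff_Vser, dvd_mul_right, if_true,
      Nat.mul_div_cancel_left m (Nat.pos_of_ne_zero (NeZero.ne p)), smul_eq_mul, pow_mul]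

end Fermat.Agent.S18.H333

end
end
-- ===== PACK-END S18/H333/Forms.lean

-- ===== PACK-BEGIN S20/Comb/RelIndex.lean
section





/-!
# Relative index of `Gamma0 (p * M)` in `Gamma0 M`

`(Gamma0 (p * M)).relIndex (Gamma0 M) = p` if `p ∣ M`, and `p + 1` otherwise (`p` prime, `M ≠ 0`).
-/

set_option autoImplicit false

namespace Fermat.Agent.S20.Comb

open Matrix MatrixGroups CongruenceSubgroup

lemma mem_Gamma0_iff_dvd (N : ℕ) (g : SL(2, ℤ)) : g ∈ Gamma0 N ↔ (N : ℤ) ∣ g 1 0 := by
  rw [Gamma0_mem]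
  exact ZMod.intCast_zmod_eq_zero_iff_dvd _ _

lemma Gamma0_mul_le (p M : ℕ) : Gamma0 (p * M) ≤ Gamma0 M := by
  intro g hg
  rw [mem_Gamma0_iff_dvd] at hg ⊢
  refine dvd_trans ?_ hg
  push_cast
  exact dvd_mul_left _ _

/-- The matrix `[[1, 0], [c, 1]]` in `SL(2,ℤ)`. -/
def lowRep (c : ℤ) : SL(2, ℤ) := ⟨!![1, 0; c, 1], by simp [Matrix.det_fin_two]⟩

@[simp] lemma lowRep_apply_zero_zero (c : ℤ) : lowRep c 0 0 = 1 := rfl
@[simp] lemma lowRep_apply_one_zero (c : ℤ) : lowRep c 1 0 = c := rfl

lemma lowRep_mem (M : ℕ) (t : ℤ) : lowRep ((M : ℤ) * t) ∈ Gamma0 M := by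
  rw [mem_Gamma0_iff_dvd, lowRep_apply_one_zero]
  exact dvd_mul_right _ _

/-- Coset criterion for `Gamma0 M ⧸ (Gamma0 (p * M)).subgroupOf (Gamma0 M)`. -/
lemma subMk_eq_iff (p M : ℕ) (hM : M ≠ 0) (g g' : Gamma0 M) (c₁ c₁' : ℤ)
    (hc : (g : SL(2, ℤ)) 1 0 = M * c₁) (hc' : (g' : SL(2, ℤ)) 1 0 = M * c₁') :
    (QuotientGroup.mk g : Gamma0 M ⧸ (Gamma0 (p * M)).subgroupOf (Gamma0 M))
        = QuotientGroup.mk g' ↔
      (p : ℤ) ∣ ((g : SL(2, ℤ)) 0 0 * c₁' - c₁ * (g' : SL(2, ℤ)) 0 0) := by
  rw [QuotientGroup.eq, Subgroup.mem_subgroupOf, mem_Gamma0_iff_dvd]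
  simp only [Subgroup.coe_mul, Subgroup.coe_inv, inv_mul_apply_one_zero, hc, hc']
  have h : (g : SL(2, ℤ)) 0 0 * ((M : ℤ) * c₁') - (M : ℤ) * c₁ * (g' : SL(2, ℤ)) 0 0
      = (M : ℤ) * ((g : SL(2, ℤ)) 0 0 * c₁' - c₁ * (g' : SL(2, ℤ)) 0 0) := by ring
  rw [h]
  push_cast
  rw [mul_comm (p : ℤ) (M : ℤ)]
  exact mul_dvd_mul_iff_left (by exact_mod_cast hM)

/-- For `g ∈ Gamma0 M` with `p ∣ M`, the entry `g 0 0` is nonzero mod `p`. -/
lemma a_ne_zero_of_dvd (p M : ℕ) (hp : p.Prime) (h : p ∣ M) (g : Gamma0 M) :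
    ¬ (p : ℤ) ∣ (g : SL(2, ℤ)) 0 0 := by
  intro ha
  have hg := (mem_Gamma0_iff_dvd M _).mp g.2
  have hpc : (p : ℤ) ∣ (g : SL(2, ℤ)) 1 0 := dvd_trans (by exact_mod_cast h) hg
  have hdet := (g : SL(2, ℤ)).det_coe
  rw [Matrix.det_fin_two] at hdet
  have h1 : (p : ℤ) ∣ 1 := by
    rw [← hdet]
    exact dvd_sub (dvd_mul_of_dvd_left ha _) (dvd_mul_of_dvd_right hpc _)
  have := Int.natCast_dvd_natCast.mp (by simpa using h1 : ((p : ℕ) : ℤ) ∣ ((1 : ℕ) : ℤ))
  exact hp.one_lt.ne' (Nat.dvd_one.mp this)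

/-- The coset representative attached to `t : ZMod p`. -/
noncomputable def relRep (p M : ℕ) (t : ZMod p) :
    Gamma0 M ⧸ (Gamma0 (p * M)).subgroupOf (Gamma0 M) :=
  QuotientGroup.mk ⟨lowRep ((M : ℤ) * (ZMod.cast t : ℤ)), lowRep_mem M _⟩

lemma relRep_injective (p M : ℕ) (hM : M ≠ 0) : Function.Injective (relRep p M) := by
  intro t t' h
  simp only [relRep] at h
  rw [subMk_eq_iff p M hM _ _ (ZMod.cast t : ℤ) (ZMod.cast t' : ℤ) rfl rfl] at h
  simp only [lowRep_apply_zero_zero, one_mul, mul_one] at h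
  have := (ZMod.intCast_zmod_eq_zero_iff_dvd _ p).mpr h
  push_cast at this
  exact (sub_eq_zero.mp this).symm

/-- Elements with `p ∤ a` are in the range of `relRep`. -/
lemma mem_range_relRep (p M : ℕ) (hM : M ≠ 0) (hp : p.Prime) (g : Gamma0 M)
    (ha : ¬ (p : ℤ) ∣ (g : SL(2, ℤ)) 0 0) :
    (QuotientGroup.mk g : Gamma0 M ⧸ (Gamma0 (p * M)).subgroupOf (Gamma0 M))
      ∈ Set.range (relRep p M) := by
  haveI : Fact p.Prime := ⟨hp⟩
  obtain ⟨c₁, hc₁⟩ := (mem_Gamma0_iff_dvd M _).mp g.2
  have ha' : (((g : SL(2, ℤ)) 0 0 : ℤ) : ZMod p) ≠ 0 := by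
    rwa [Ne, ZMod.intCast_zmod_eq_zero_iff_dvd]
  refine ⟨(c₁ : ZMod p) * (((g : SL(2, ℤ)) 0 0 : ℤ) : ZMod p)⁻¹, ?_⟩
  simp only [relRep]
  rw [subMk_eq_iff p M hM _ _ _ c₁ rfl hc₁]
  simp only [lowRep_apply_zero_zero, one_mul]
  rw [← ZMod.intCast_zmod_eq_zero_iff_dvd]
  push_cast
  rw [mul_assoc, inv_mul_cancel₀ ha', mul_one, sub_self]

/-- **Relative index, ramified case**: `[Γ₀(M) : Γ₀(pM)] = p` if `p ∣ M`. -/
theorem relIndex_Gamma0_of_dvd (p M : ℕ) (hM : M ≠ 0) (hp : p.Prime) (h : p ∣ M) :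
    (Gamma0 (p * M)).relIndex (Gamma0 M) = p := by
  have hbij : Function.Bijective (relRep p M) := by
    refine ⟨relRep_injective p M hM, ?_⟩
    intro q
    obtain ⟨g, rfl⟩ := QuotientGroup.mk_surjective q
    exact mem_range_relRep p M hM hp g (a_ne_zero_of_dvd p M hp h g)
  rw [Subgroup.relIndex, Subgroup.index, ← Nat.card_eq_of_bijective _ hbij, Nat.card_zmod]

/-- An element of `Gamma0 M` with first column `(p, M)`, for `p ∤ M`. -/
lemma exists_special (p M : ℕ) (hp : p.Prime) (h : ¬ p ∣ M) :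
    ∃ g : Gamma0 M, (g : SL(2, ℤ)) 0 0 = p ∧ (g : SL(2, ℤ)) 1 0 = M := by
  have hcop : IsCoprime (p : ℤ) (M : ℤ) := by
    rw [Int.isCoprime_iff_gcd_eq_one, Int.gcd_natCast_natCast]
    exact (Nat.Prime.coprime_iff_not_dvd hp).mpr h
  obtain ⟨g, hg0, hg1⟩ := IsCoprime.exists_SL2_col hcop 0
  refine ⟨⟨g, ?_⟩, hg0, hg1⟩
  rw [mem_Gamma0_iff_dvd, hg1]

/-- **Relative index, unramified case**: `[Γ₀(M) : Γ₀(pM)] = p + 1` if `p ∤ M`. -/
theorem relIndex_Gamma0_of_not_dvd (p M : ℕ) (hM : M ≠ 0) (hp : p.Prime) (h : ¬ p ∣ M) :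
    (Gamma0 (p * M)).relIndex (Gamma0 M) = p + 1 := by
  haveI : Fact p.Prime := ⟨hp⟩
  obtain ⟨g₀, hg₀0, hg₀1⟩ := exists_special p M hp h
  let f : Option (ZMod p) → Gamma0 M ⧸ (Gamma0 (p * M)).subgroupOf (Gamma0 M) :=
    fun o => o.elim (QuotientGroup.mk g₀) (relRep p M)
  have hne : ∀ t : ZMod p, relRep p M t ≠ QuotientGroup.mk g₀ := by
    intro t ht
    simp only [relRep] at ht
    rw [subMk_eq_iff p M hM _ _ (ZMod.cast t : ℤ) 1 rfl (by rw [hg₀1, mul_one])] at ht
    simp only [lowRep_apply_zero_zero, one_mul, hg₀0] at ht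
    have h1 : (p : ℤ) ∣ 1 := by
      have := dvd_add ht (dvd_mul_left (p : ℤ) (ZMod.cast t : ℤ))
      simpa using this
    have := Int.natCast_dvd_natCast.mp (by simpa using h1 : ((p : ℕ) : ℤ) ∣ ((1 : ℕ) : ℤ))
    exact hp.one_lt.ne' (Nat.dvd_one.mp this)
  have hbij : Function.Bijective f := by
    constructor
    · rintro (_ | t) (_ | t') hh
      · rfl
      · exact absurd hh.symm (hne t')
      · exact absurd hh (hne t)
      · exact congrArg some (relRep_injective p M hM hh)
    · intro q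
      obtain ⟨g, rfl⟩ := QuotientGroup.mk_surjective q
      by_cases ha : (p : ℤ) ∣ (g : SL(2, ℤ)) 0 0
      · refine ⟨none, ?_⟩
        obtain ⟨c₁, hc₁⟩ := (mem_Gamma0_iff_dvd M _).mp g.2
        show QuotientGroup.mk g₀ = _
        rw [subMk_eq_iff p M hM _ _ 1 c₁ (by rw [hg₀1, mul_one]) hc₁, hg₀0]
        exact dvd_sub (dvd_mul_right _ _) (by simpa using ha)
      · obtain ⟨t, ht⟩ := mem_range_relRep p M hM hp g ha
        exact ⟨some t, ht⟩
  rw [Subgroup.relIndex, Subgroup.index, ← Nat.card_eq_of_bijective _ hbij, Finite.card_option,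
    Nat.card_zmod]

end Fermat.Agent.S20.Comb

end
-- ===== PACK-END S20/Comb/RelIndex.lean

-- ===== PACK-BEGIN S18/H602/DVR.lean
section



/-!
# S18, piece d1 (continued): `R_E = A ∩ E` is a discrete valuation ring  (owner helper602)

For a valuation subring `A ⊆ Q̄` lying over a prime `ℓ` (`(ℓ : Q̄) ∈ A.nonunits`, which is the
Prelude's `A.LiesOverPrime ℓ` unfolded) and a finite extension `E/ℚ` inside `Q̄`, the ring
`R_E = A ∩ E` is the localisation of `𝓞 E` at a nonzero prime; in particular it is a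
discrete valuation ring.
-/

set_option autoImplicit false

noncomputable section

namespace Fermat.Agent.S18.H602

open ModularCurve AlgebraicCurve HahnSeries IntermediateField IsDedekindDomain

open scoped NumberField

local notation "Q̄" => AlgebraicClosure ℚ

section DVR

/-- Valuation subrings contain all algebraic integers. -/
theorem mem_of_isIntegral_int {K : Type*} [Field K] (B : ValuationSubring K) {x : K}
    (hx : IsIntegral ℤ x) : x ∈ B := by
  have h : IsIntegral B x := hx.tower_top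
  obtain ⟨y, rfl⟩ := (IsIntegrallyClosed.isIntegral_iff (R := B) (K := K)).mp h
  exact y.2

variable (A : ValuationSubring Q̄) (E : IntermediateField ℚ Q̄)

theorem natCast_mem_RE (n : ℕ) : (n : E) ∈ RE A E := natCast_mem _ n

theorem natCast_not_isUnit_RE {ℓ : ℕ} (hA : (ℓ : Q̄) ∈ A.nonunits) :
    ¬ IsUnit (⟨(ℓ : E), natCast_mem_RE A E ℓ⟩ : RE A E) := by
  intro hu
  have hu' := (toA A E).isUnit_map hu
  rw [ValuationSubring.mem_nonunits_iff_exists_mem_maximalIdeal] at hA
  obtain ⟨hℓA, hmem⟩ := hA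
  rw [IsLocalRing.mem_maximalIdeal, mem_nonunits_iff] at hmem
  apply hmem
  convert hu' using 1
  exact Subtype.ext (by simp)

theorem RE_ne_top {ℓ : ℕ} (hℓ : ℓ ≠ 0) (hA : (ℓ : Q̄) ∈ A.nonunits) : RE A E ≠ ⊤ := by
  intro h
  apply natCast_not_isUnit_RE A E hA
  have hinv : ((ℓ : E)⁻¹ : E) ∈ RE A E := h ▸ ValuationSubring.mem_top _
  have hℓE : (ℓ : E) ≠ 0 := by exact_mod_cast hℓ
  exact isUnit_iff_exists_inv.mpr ⟨⟨_, hinv⟩, Subtype.ext (mul_inv_cancel₀ hℓE)⟩

theorem algebraMap_ringOfIntegers_mem_RE (x : 𝓞 E) : algebraMap (𝓞 E) E x ∈ RE A E :=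
  mem_of_isIntegral_int _ (NumberField.RingOfIntegers.isIntegral_coe x)

/-- The inclusion `𝓞 E → R_E`. -/
def ofInt : 𝓞 E →+* RE A E :=
  (algebraMap (𝓞 E) E).codRestrict (RE A E) (algebraMap_ringOfIntegers_mem_RE A E)

@[simp]
theorem coe_ofInt (x : 𝓞 E) : ((ofInt A E x : RE A E) : E) = algebraMap (𝓞 E) E x := rfl

/-- The prime of `𝓞 E` below the maximal ideal of `R_E`. -/
def primeBelow : Ideal (𝓞 E) := (IsLocalRing.maximalIdeal (RE A E)).comap (ofInt A E)

instance primeBelow_isPrime : (primeBelow A E).IsPrime :=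
  Ideal.comap_isPrime (ofInt A E) _

theorem natCast_mem_primeBelow {ℓ : ℕ} (hA : (ℓ : Q̄) ∈ A.nonunits) :
    (ℓ : 𝓞 E) ∈ primeBelow A E := by
  rw [primeBelow, Ideal.mem_comap, IsLocalRing.mem_maximalIdeal, mem_nonunits_iff]
  convert natCast_not_isUnit_RE A E hA using 2
  exact Subtype.ext (by simp)

theorem primeBelow_ne_bot {ℓ : ℕ} (hℓ : ℓ ≠ 0) (hA : (ℓ : Q̄) ∈ A.nonunits) :
    primeBelow A E ≠ ⊥ := by
  intro h
  have h1 := natCast_mem_primeBelow A E hA
  rw [h, Ideal.mem_bot] at h1
  exact hℓ (by exact_mod_cast h1)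

theorem numberField_of_finiteDimensional [FiniteDimensional ℚ E] : NumberField E :=
  NumberField.mk

variable [NumberField E]

/-- The height-one prime of `𝓞 E` cut out by `A`. -/
def primeSpec {ℓ : ℕ} (hℓ : ℓ ≠ 0) (hA : (ℓ : Q̄) ∈ A.nonunits) : HeightOneSpectrum (𝓞 E) :=
  ⟨primeBelow A E, inferInstance, primeBelow_ne_bot A E hℓ hA⟩

theorem valuationSubringAtPrime_le_RE {ℓ : ℕ} (hℓ : ℓ ≠ 0) (hA : (ℓ : Q̄) ∈ A.nonunits) :
    (primeSpec A E hℓ hA).valuationSubringAtPrime E ≤ RE A E := by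
  rintro x ⟨a, s, hs, rfl⟩
  have hs' : IsUnit (ofInt A E s) := by
    by_contra hnu
    exact hs ((IsLocalRing.mem_maximalIdeal _).mpr hnu)
  obtain ⟨b, hb⟩ := isUnit_iff_exists_inv.mp hs'
  have hb' : algebraMap (𝓞 E) E s * (b : E) = 1 := congrArg (fun z : RE A E => (z : E)) hb
  have hinv : (algebraMap (𝓞 E) E s)⁻¹ = (b : E) := inv_eq_of_mul_eq_one_right hb'
  rw [hinv]
  exact mul_mem (algebraMap_ringOfIntegers_mem_RE A E a) b.2

/-- `R_E = A ∩ E` is the localisation of `𝓞 E` at the prime below `A`. -/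
theorem RE_eq_valuationSubringAtPrime {ℓ : ℕ} (hℓ : ℓ ≠ 0) (hA : (ℓ : Q̄) ∈ A.nonunits) :
    (primeSpec A E hℓ hA).valuationSubringAtPrime E = RE A E :=
  ValuationSubring.eq_of_le_of_ne_top _ (valuationSubringAtPrime_le_RE A E hℓ hA)
    (RE_ne_top A E hℓ hA)

/-- `R_E = A ∩ E` is a discrete valuation ring (`E` a number field, `A` over a prime). -/
theorem isDiscreteValuationRing_RE' {ℓ : ℕ} (hℓ : ℓ ≠ 0) (hA : (ℓ : Q̄) ∈ A.nonunits) :
    IsDiscreteValuationRing ↥(RE A E) := by
  rw [← RE_eq_valuationSubringAtPrime A E hℓ hA]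
  exact IsLocalization.AtPrime.isDiscreteValuationRing_of_dedekind_domain (𝓞 E)
    (primeSpec A E hℓ hA).ne_bot _

omit [NumberField E] in
/-- **`R_E = A ∩ E` is a discrete valuation ring** (for `E/ℚ` finite and `A` over a prime). -/
theorem isDiscreteValuationRing_RE [FiniteDimensional ℚ E] {ℓ : ℕ} (hℓ : ℓ ≠ 0)
    (hA : (ℓ : Q̄) ∈ A.nonunits) : IsDiscreteValuationRing ↥(RE A E) :=
  haveI := numberField_of_finiteDimensional E
  isDiscreteValuationRing_RE' A E hℓ hA

end DVR

end Fermat.Agent.S18.H602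

end
end
-- ===== PACK-END S18/H602/DVR.lean

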