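import Mathlib
import Fermat.Prelude.Def_EllipticCurve_FrobeniusTrace
import Fermat.Prelude.Def_ModularCurve_ArithmeticGalois
import Fermat.Prelude.Def_CuspForm_HeckeGaloisRepDatum
import Mathlib.RingTheory.RootsOfUnity.EnoughRootsOfUnity
import Mathlib.RingTheory.RootsOfUnity.AlgebraicallyClosed
import Fermat.Prelude.Def_AlgebraicCurve_DivisorPushPull
import Mathlib.Algebra.Polynomial.Degree.Lemmas
import Mathlib.Algebra.Polynomial.Monic
import Mathlib.Tactic.FieldSimp
import Mathlib.Tactic.Ring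
import Mathlib.Tactic.FinCases
import Fermat.Agent.Pack.S34.G0E0L1
import Fermat.Agent.Pack.S34.G0E2L2
import Fermat.Agent.Pack.S34.G0E2L3
import Fermat.Agent.Pack.S34.G0E3L3
import Fermat.Agent.Pack.S34.G0E3L1
import Fermat.Agent.Pack.S34.G0E1L3
import Fermat.Agent.Pack.S34.G0E2L1
import Fermat.Agent.Pack.S34.G0E1L2
import Fermat.Agent.Pack.S34.G0E0L3

-- ===== PACK-BEGIN Lib/Cheb/H761/PrimeSum.lean
section



/-!
# Piece Z of the shared library CHEB: `Spec.PrimeSumStatement`

`∑_p c_F(p) p^(-s) = log (1 / (s - 1)) + O(1)` on `(1, 2]`, where `c_F(p)` is the number of prime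
ideals of `𝓞 F` of norm `p`.
-/

set_option autoImplicit false
set_option linter.unusedSectionVars false
set_option linter.unusedVariables false

namespace Fermat.Agent.Lib.Cheb.H761

open IsDedekindDomain Filter Topology NumberField Ideal

noncomputable section

variable (F : Type*) [Field F] [NumberField F]

/-- At most `[F : ℚ]` primes of `𝓞 F` contain a given rational prime. -/
lemma card_le_of_natCast_mem {p : ℕ} (hp : p.Prime) (T : Finset (HeightOneSpectrum (𝓞 F)))
    (hT : ∀ 𝔭 ∈ T, (p : 𝓞 F) ∈ 𝔭.asIdeal) : T.card ≤ Module.finrank ℤ (𝓞 F) := by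
  classical
  have hdvd : ∀ 𝔭 ∈ T, 𝔭.asIdeal ∣ span {(p : 𝓞 F)} := fun 𝔭 h𝔭 =>
    Ideal.dvd_iff_le.mpr ((span_singleton_le_iff_mem _).mpr (hT 𝔭 h𝔭))
  have hprod : ∏ 𝔭 ∈ T, 𝔭.asIdeal ∣ span {(p : 𝓞 F)} := by
    have := Finset.prod_primes_dvd (s := T.image (fun 𝔭 => 𝔭.asIdeal)) (span {(p : 𝓞 F)})
      (by
        intro a ha
        obtain ⟨𝔭, -, rfl⟩ := Finset.mem_image.mp ha
        exact 𝔭.prime)
      (by
        intro a ha
        obtain ⟨𝔭, h𝔭, rfl⟩ := Finset.mem_image.mp ha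
        exact hdvd 𝔭 h𝔭)
    rwa [Finset.prod_image (fun x _ y _ h => HeightOneSpectrum.ext h)] at this
  have hnorm := Ideal.absNorm_dvd_absNorm_of_le (Ideal.dvd_iff_le.mp hprod)
  rw [Ideal.absNorm_span_natCast, map_prod] at hnorm
  have hle : ∀ 𝔭 ∈ T, p ≤ absNorm 𝔭.asIdeal := by
    intro 𝔭 h𝔭
    have h1 := Ideal.absNorm_dvd_absNorm_of_le (Ideal.dvd_iff_le.mp (hdvd 𝔭 h𝔭))
    rw [Ideal.absNorm_span_natCast] at h1
    obtain ⟨k, -, hk⟩ := (Nat.dvd_prime_pow hp).mp h1
    have hk0 : k ≠ 0 := by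
      rintro rfl
      rw [pow_zero, Ideal.absNorm_eq_one_iff] at hk
      exact 𝔭.isPrime.ne_top hk
    rw [hk]
    exact Nat.le_self_pow hk0 p
  have h2 : p ^ T.card ≤ ∏ 𝔭 ∈ T, absNorm 𝔭.asIdeal := by
    rw [← Finset.prod_const]
    exact Finset.prod_le_prod' hle
  have h3 : ∏ 𝔭 ∈ T, absNorm 𝔭.asIdeal ≤ p ^ Module.finrank ℤ (𝓞 F) :=
    Nat.le_of_dvd (pow_pos hp.pos _) hnorm
  exact (Nat.pow_le_pow_iff_right hp.one_lt).mp (h2.trans h3)

/-- the rational prime below a prime ideal -/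
def primeBelow (𝔭 : HeightOneSpectrum (𝓞 F)) : ℕ :=
  haveI := 𝔭.isMaximal
  (Ideal.exists_prime_and_absNorm_eq_pow 𝔭.asIdeal).choose

lemma primeBelow_spec (𝔭 : HeightOneSpectrum (𝓞 F)) :
    ∃ n, 0 < n ∧ (primeBelow F 𝔭 : 𝓞 F) ∈ 𝔭.asIdeal ∧ (primeBelow F 𝔭).Prime ∧
      absNorm 𝔭.asIdeal = primeBelow F 𝔭 ^ n :=
  haveI := 𝔭.isMaximal
  (Ideal.exists_prime_and_absNorm_eq_pow 𝔭.asIdeal).choose_spec

/-- For a prime of non-prime norm, `N𝔭 ≥ p²`. -/
lemma sq_primeBelow_le (𝔭 : HeightOneSpectrum (𝓞 F)) (h : ¬ (absNorm 𝔭.asIdeal).Prime) :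
    primeBelow F 𝔭 ^ 2 ≤ absNorm 𝔭.asIdeal := by
  obtain ⟨n, hn, -, hp, hN⟩ := primeBelow_spec F 𝔭
  have hn2 : 2 ≤ n := by
    by_contra hlt
    have : n = 1 := by omega
    rw [this, pow_one] at hN
    exact h (hN ▸ hp)
  rw [hN]
  exact Nat.pow_le_pow_right hp.pos hn2

/-- the primes of non-prime norm -/
def highPrimes : Set (HeightOneSpectrum (𝓞 F)) := {𝔭 | ¬ (absNorm 𝔭.asIdeal).Prime}

/-- the constant bounding the contribution of the primes of degree `≥ 2` -/
def highBound : ℝ := (Module.finrank ℤ (𝓞 F) : ℝ) * ∑' n : ℕ, ((n : ℝ) ^ 2)⁻¹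

lemma summable_inv_sq : Summable (fun n : ℕ => ((n : ℝ) ^ 2)⁻¹) := by
  have := (Real.summable_nat_pow_inv (p := 2)).mpr (by norm_num)
  exact this

lemma sum_highPrimes_le {s : ℝ} (hs : 1 ≤ s) (T : Finset (HeightOneSpectrum (𝓞 F)))
    (hT : ∀ 𝔭 ∈ T, ¬ (absNorm 𝔭.asIdeal).Prime) :
    ∑ 𝔭 ∈ T, normPow F s 𝔭.asIdeal ≤ highBound F := by
  classical
  have h1 : ∀ 𝔭 ∈ T, normPow F s 𝔭.asIdeal ≤ (((primeBelow F 𝔭 : ℕ) : ℝ) ^ 2)⁻¹ := by
    intro 𝔭 h𝔭
    have hsq := sq_primeBelow_le F 𝔭 (hT 𝔭 h𝔭)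
    obtain ⟨n, hn, -, hp, hN⟩ := primeBelow_spec F 𝔭
    have hpos : (0 : ℝ) < (primeBelow F 𝔭 : ℝ) ^ 2 := by
      have : (0 : ℝ) < primeBelow F 𝔭 := by exact_mod_cast hp.pos
      positivity
    have hle : ((primeBelow F 𝔭 : ℝ)) ^ 2 ≤ (absNorm 𝔭.asIdeal : ℝ) := by exact_mod_cast hsq
    have h1N : (1 : ℝ) ≤ absNorm 𝔭.asIdeal := by
      have : (1 : ℝ) ≤ (primeBelow F 𝔭 : ℝ) ^ 2 := by
        have : (1 : ℝ) ≤ primeBelow F 𝔭 := by exact_mod_cast hp.one_lt.le
        nlinarith
      linarith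
    calc normPow F s 𝔭.asIdeal ≤ normPow F 1 𝔭.asIdeal :=
          normPow_anti F hs 𝔭.asIdeal one_pos
      _ = (absNorm 𝔭.asIdeal : ℝ)⁻¹ := by
          rw [normPow, Real.rpow_neg_one]
      _ ≤ (((primeBelow F 𝔭 : ℕ) : ℝ) ^ 2)⁻¹ := inv_anti₀ hpos hle
  calc ∑ 𝔭 ∈ T, normPow F s 𝔭.asIdeal
      ≤ ∑ 𝔭 ∈ T, (((primeBelow F 𝔭 : ℕ) : ℝ) ^ 2)⁻¹ := Finset.sum_le_sum h1
    _ = ∑ p ∈ T.image (primeBelow F),
          ∑ 𝔭 ∈ T.filter (fun 𝔭 => primeBelow F 𝔭 = p), (((primeBelow F 𝔭 : ℕ) : ℝ) ^ 2)⁻¹ := by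
        rw [Finset.sum_fiberwise_of_maps_to (fun 𝔭 h𝔭 => Finset.mem_image_of_mem _ h𝔭)]
    _ ≤ ∑ p ∈ T.image (primeBelow F), (Module.finrank ℤ (𝓞 F) : ℝ) * ((p : ℝ) ^ 2)⁻¹ := by
        refine Finset.sum_le_sum fun p hp => ?_
        obtain ⟨𝔮, h𝔮, rfl⟩ := Finset.mem_image.mp hp
        have hcard : (T.filter (fun 𝔭 => primeBelow F 𝔭 = primeBelow F 𝔮)).card ≤
            Module.finrank ℤ (𝓞 F) := by
          obtain ⟨n, -, -, hpr, -⟩ := primeBelow_spec F 𝔮
          refine card_le_of_natCast_mem F hpr _ fun 𝔭 h𝔭 => ?_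
          obtain ⟨-, h⟩ := Finset.mem_filter.mp h𝔭
          obtain ⟨m, -, hmem, -, -⟩ := primeBelow_spec F 𝔭
          rwa [h] at hmem
        calc ∑ 𝔭 ∈ T.filter (fun 𝔭 => primeBelow F 𝔭 = primeBelow F 𝔮),
              (((primeBelow F 𝔭 : ℕ) : ℝ) ^ 2)⁻¹
            = ∑ 𝔭 ∈ T.filter (fun 𝔭 => primeBelow F 𝔭 = primeBelow F 𝔮),
              (((primeBelow F 𝔮 : ℕ) : ℝ) ^ 2)⁻¹ := by
              refine Finset.sum_congr rfl fun 𝔭 h𝔭 => ?_
              rw [(Finset.mem_filter.mp h𝔭).2]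
          _ = ((T.filter (fun 𝔭 => primeBelow F 𝔭 = primeBelow F 𝔮)).card : ℝ) *
              (((primeBelow F 𝔮 : ℕ) : ℝ) ^ 2)⁻¹ := by
              rw [Finset.sum_const, nsmul_eq_mul]
          _ ≤ (Module.finrank ℤ (𝓞 F) : ℝ) * (((primeBelow F 𝔮 : ℕ) : ℝ) ^ 2)⁻¹ := by
              gcongr
    _ = (Module.finrank ℤ (𝓞 F) : ℝ) * ∑ p ∈ T.image (primeBelow F), ((p : ℝ) ^ 2)⁻¹ := by
        rw [Finset.mul_sum]
    _ ≤ highBound F := by
        rw [highBound]
        gcongr
        exact summable_inv_sq.sum_le_tsum _ (fun n _ => by positivity)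

lemma highBound_nonneg : 0 ≤ highBound F := by
  rw [highBound]
  have : 0 ≤ ∑' n : ℕ, ((n : ℝ) ^ 2)⁻¹ := tsum_nonneg fun n => by positivity
  positivity

/-- The primes of degree `≥ 2` contribute at most `highBound F`. -/
theorem tsum_highPrimes_le {s : ℝ} (hs : 1 < s) :
    ∑' 𝔭 : highPrimes F, normPow F s 𝔭.1.asIdeal ≤ highBound F := by
  classical
  have hsum : Summable (fun 𝔭 : highPrimes F => normPow F s 𝔭.1.asIdeal) :=
    (summable_primeSum F hs).subtype _
  refine hsum.tsum_le_of_sum_le fun T => ?_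
  have := sum_highPrimes_le F hs.le (T.image Subtype.val) (by
    intro 𝔭 h𝔭
    obtain ⟨x, -, rfl⟩ := Finset.mem_image.mp h𝔭
    exact x.2)
  rwa [Finset.sum_image (fun x _ y _ h => Subtype.ext h)] at this

/-- the primes of prime norm -/
def lowPrimes : Set (HeightOneSpectrum (𝓞 F)) := {𝔭 | (absNorm 𝔭.asIdeal).Prime}

/-- the norm map on primes of prime norm -/
def lowNorm (𝔭 : lowPrimes F) : Nat.Primes := ⟨absNorm 𝔭.1.asIdeal, 𝔭.2⟩

/-- the fibre of `lowNorm` is the set counted by `Spec.primeCount` -/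
def fibreEquiv (p : Nat.Primes) :
    {𝔭 : lowPrimes F // lowNorm F 𝔭 = p} ≃
      {𝔮 : Ideal (𝓞 F) // 𝔮.IsPrime ∧ Ideal.absNorm 𝔮 = (p : ℕ)} where
  toFun x := ⟨x.1.1.asIdeal, x.1.1.isPrime, congrArg Subtype.val x.2⟩
  invFun 𝔮 := ⟨⟨⟨𝔮.1, 𝔮.2.1, by
      rintro h
      have := 𝔮.2.2
      rw [h, Ideal.absNorm_bot] at this
      exact p.2.ne_zero this.symm⟩, by
      show (absNorm 𝔮.1).Prime
      rw [𝔮.2.2]; exact p.2⟩, Subtype.ext 𝔮.2.2⟩
  left_inv x := by
    apply Subtype.ext
    apply Subtype.ext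
    apply HeightOneSpectrum.ext
    rfl
  right_inv 𝔮 := by
    apply Subtype.ext
    rfl

end

noncomputable section Final

variable (F : Type) [Field F] [NumberField F]

lemma finite_fibre (p : Nat.Primes) : Finite {𝔭 : lowPrimes F // lowNorm F 𝔭 = p} := by
  have hfin : Finite {𝔮 : Ideal (𝓞 F) // 𝔮.IsPrime ∧ Ideal.absNorm 𝔮 = (p : ℕ)} :=
    ((Ideal.finite_setOfPred_absNorm_eq (S := 𝓞 F) (p : ℕ)).subset
      (fun 𝔮 h𝔮 => h𝔮.2)).to_subtype
  exact Finite.of_equiv _ (fibreEquiv F p).symm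

lemma card_fibre (p : Nat.Primes) :
    Nat.card {𝔭 : lowPrimes F // lowNorm F 𝔭 = p} = Spec.primeCount F p :=
  Nat.card_congr (fibreEquiv F p)

lemma tsum_fibre (s : ℝ) (p : Nat.Primes) :
    ∑' x : {𝔭 : lowPrimes F // lowNorm F 𝔭 = p}, normPow F s x.1.1.asIdeal =
      (Spec.primeCount F p : ℝ) * ((p : ℕ) : ℝ) ^ (-s) := by
  have := finite_fibre F p
  have : Fintype {𝔭 : lowPrimes F // lowNorm F 𝔭 = p} := Fintype.ofFinite _
  rw [tsum_fintype]
  have h : ∀ x : {𝔭 : lowPrimes F // lowNorm F 𝔭 = p},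
      normPow F s x.1.1.asIdeal = ((p : ℕ) : ℝ) ^ (-s) := by
    intro x
    have := congrArg Subtype.val x.2
    simp only [lowNorm] at this
    simp only [normPow, this]
  simp only [h, Finset.sum_const, Finset.card_univ, nsmul_eq_mul, ← card_fibre F p,
    Nat.card_eq_fintype_card]

/-- The sum over the primes of prime norm, indexed by the rational primes. -/
theorem tsum_lowPrimes_eq {s : ℝ} (hs : 1 < s) :
    ∑' 𝔭 : lowPrimes F, normPow F s 𝔭.1.asIdeal =
      ∑' p : Nat.Primes, (Spec.primeCount F p : ℝ) * ((p : ℕ) : ℝ) ^ (-s) := by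
  have hsum : Summable (fun 𝔭 : lowPrimes F => normPow F s 𝔭.1.asIdeal) :=
    (summable_primeSum F hs).subtype _
  have hsum' : Summable (fun y : Σ p : Nat.Primes, {𝔭 : lowPrimes F // lowNorm F 𝔭 = p} =>
      normPow F s y.2.1.1.asIdeal) :=
    ((Equiv.sigmaFiberEquiv (lowNorm F)).summable_iff
      (f := fun 𝔭 : lowPrimes F => normPow F s 𝔭.1.asIdeal)).mpr hsum
  calc ∑' 𝔭 : lowPrimes F, normPow F s 𝔭.1.asIdeal
      = ∑' y : Σ p : Nat.Primes, {𝔭 : lowPrimes F // lowNorm F 𝔭 = p},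
          normPow F s y.2.1.1.asIdeal :=
        ((Equiv.sigmaFiberEquiv (lowNorm F)).tsum_eq
          (fun 𝔭 : lowPrimes F => normPow F s 𝔭.1.asIdeal)).symm
    _ = ∑' p : Nat.Primes, ∑' x : {𝔭 : lowPrimes F // lowNorm F 𝔭 = p},
          normPow F s x.1.1.asIdeal := hsum'.tsum_sigma
    _ = _ := tsum_congr fun p => tsum_fibre F s p

/-- **Piece Z**: `Spec.PrimeSumStatement`. -/
theorem primeSum_statement : Spec.PrimeSumStatement := by
  intro F _ _
  obtain ⟨C, hC⟩ := exists_primeSum_bound F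
  refine ⟨C + highBound F, fun s hs1 hs2 => ?_⟩
  have h1 := hC s hs1 hs2
  have hsum := summable_primeSum F hs1
  have hsplit : primeSum F s =
      (∑' 𝔭 : lowPrimes F, normPow F s 𝔭.1.asIdeal) +
        ∑' 𝔭 : highPrimes F, normPow F s 𝔭.1.asIdeal := by
    have hc : highPrimes F = (lowPrimes F)ᶜ := rfl
    rw [primeSum, hc]
    exact ((hsum.subtype _).tsum_add_tsum_compl (hsum.subtype _)).symm
  have hhigh := tsum_highPrimes_le F hs1
  have hhigh0 : 0 ≤ ∑' 𝔭 : highPrimes F, normPow F s 𝔭.1.asIdeal :=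
    tsum_nonneg fun _ => normPow_nonneg F s _
  have hlog : Real.log (1 / (s - 1)) = -Real.log (s - 1) := by
    rw [one_div, Real.log_inv]
  rw [← tsum_lowPrimes_eq F hs1, hlog]
  rw [abs_le] at h1 ⊢
  rw [hsplit] at h1
  constructor <;> linarith [h1.1, h1.2]

end Final

end Fermat.Agent.Lib.Cheb.H761

end
-- ===== PACK-END Lib/Cheb/H761/PrimeSum.lean

-- ===== PACK-BEGIN Lib/Cheb/H993/Glue.lean
section



/-!
# Piece `M` of CHEB: the finite-level Frobenius density theorem from `Z`, `B0`, `A`, `D`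

`frobFinite : PrimeSumStatement → PrimeCountBoundStatement → CountStatement → FrobStatement →
  FrobFiniteStatement`.
-/

set_option autoImplicit false

namespace Fermat.Agent.Lib.Cheb.H993

open NumberField
open scoped Pointwise Classical
open Fermat.Agent.Lib.Cheb

noncomputable section

variable (L : Type) [Field L] [NumberField L]

/-- The primes of `𝓞 L` above `p` whose decomposition group is exactly `X`. -/
def primesEq (X : Subgroup (L ≃ₐ[ℚ] L)) (p : ℕ) : Set (Ideal (𝓞 L)) :=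
  {P | P.IsPrime ∧ (p : 𝓞 L) ∈ P ∧ Spec.decomp L P = X}

/-- `|D_P|`. -/
def dcard (P : Ideal (𝓞 L)) : ℕ := Nat.card (Spec.decomp L P)

theorem finite_above {p : ℕ} (hp : p ≠ 0) : {P : Ideal (𝓞 L) | (p : 𝓞 L) ∈ P}.Finite := by
  refine (Ideal.finite_setOfPred_absNorm_le (S := 𝓞 L) (p ^ Module.finrank ℤ (𝓞 L))).subset ?_
  intro P hP
  have hle : Ideal.span {(p : 𝓞 L)} ≤ P := (Ideal.span_singleton_le_iff_mem P).mpr hP
  have hdvd := Ideal.absNorm_dvd_absNorm_of_le hle
  rw [Ideal.absNorm_span_natCast] at hdvd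
  exact Nat.le_of_dvd (pow_pos (Nat.pos_of_ne_zero hp) _) hdvd

theorem finite_primesEq (X : Subgroup (L ≃ₐ[ℚ] L)) {p : ℕ} (hp : p ≠ 0) :
    (primesEq L X p).Finite :=
  (finite_above L hp).subset fun _ h => h.2.1

theorem finite_primesLe (H : Subgroup (L ≃ₐ[ℚ] L)) {p : ℕ} (hp : p ≠ 0) :
    (Spec.primesLe L H p).Finite :=
  (finite_above L hp).subset fun _ h => h.2.1

/-- The weight of the subgroup `X` at `p`. -/
def wt (X : Subgroup (L ≃ₐ[ℚ] L)) (p : ℕ) : ℕ := ∑ᶠ P ∈ primesEq L X p, dcard L P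

theorem decompWeight_eq (H : Subgroup (L ≃ₐ[ℚ] L)) (p : ℕ) :
    Spec.decompWeight L H p = ∑ᶠ P ∈ Spec.primesLe L H p, dcard L P := by
  unfold Spec.decompWeight dcard
  exact finsum_set_coe_eq_finsum_mem (s := Spec.primesLe L H p)
    (f := fun P => Nat.card (Spec.decomp L P))

variable [IsGalois ℚ L]

theorem primesLe_eq_iUnion (H : Subgroup (L ≃ₐ[ℚ] L)) (p : ℕ) :
    Spec.primesLe L H p = ⋃ X ∈ (below H : Set (Subgroup (L ≃ₐ[ℚ] L))), primesEq L X p := by
  ext P
  simp only [Spec.primesLe, primesEq, Set.mem_iUnion, Finset.mem_coe, mem_below,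
    Set.mem_ofPred_eq, exists_prop]
  constructor
  · rintro ⟨h1, h2, h3⟩
    exact ⟨_, h3, h1, h2, rfl⟩
  · rintro ⟨X, hX, h1, h2, h3⟩
    exact ⟨h1, h2, h3 ▸ hX⟩

theorem decompWeight_eq_sum (H : Subgroup (L ≃ₐ[ℚ] L)) {p : ℕ} (hp : p ≠ 0) :
    Spec.decompWeight L H p = ∑ X ∈ below H, wt L X p := by
  rw [decompWeight_eq, primesLe_eq_iUnion, finsum_mem_biUnion]
  · exact finsum_mem_coe_finset (fun X => ∑ᶠ P ∈ primesEq L X p, dcard L P) (below H)
  · intro X _ Y _ hXY
    rw [Function.onFun, Set.disjoint_left]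
    intro P hPX hPY
    exact hXY (hPX.2.2.symm.trans hPY.2.2)
  · exact (below H).finite_toSet
  · intro X _
    exact finite_primesEq L X hp

theorem exists_of_wt_pos {X : Subgroup (L ≃ₐ[ℚ] L)} {p : ℕ} (h : 0 < wt L X p) :
    ∃ P : Ideal (𝓞 L), P.IsPrime ∧ (p : 𝓞 L) ∈ P ∧ Spec.decomp L P = X := by
  by_contra hcon
  have hempty : primesEq L X p = ∅ := by
    ext P
    simp only [primesEq, Set.mem_ofPred_eq, Set.mem_empty_iff_false, iff_false]
    exact fun hP => hcon ⟨P, hP⟩
  unfold wt at h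
  rw [hempty] at h
  simp at h

theorem wt_le_decompWeight_top (X : Subgroup (L ≃ₐ[ℚ] L)) {p : ℕ} (hp : p ≠ 0) :
    wt L X p ≤ Spec.decompWeight L ⊤ p := by
  rw [decompWeight_eq_sum L ⊤ hp]
  exact Finset.single_le_sum (f := fun X => wt L X p) (fun _ _ => Nat.zero_le _)
    (mem_below.mpr le_top)

/-- **Piece M.** -/
theorem frobFinite (hZ : Spec.PrimeSumStatement) (hB0 : Spec.PrimeCountBoundStatement)
    (hA : Spec.CountStatement) (hD : Spec.FrobStatement) : Spec.FrobFiniteStatement := by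
  intro L _ _ _ σ S
  haveI : Fintype (Subgroup (L ≃ₐ[ℚ] L)) := Fintype.ofFinite _
  -- bad primes
  choose BA hBA using fun H : Subgroup (L ≃ₐ[ℚ] L) => hA L H
  obtain ⟨BD, hBD⟩ := hD L
  let Bad : Finset ℕ := Finset.univ.biUnion BA
  have hBad : ∀ (H : Subgroup (L ≃ₐ[ℚ] L)) (p : ℕ), p ∉ Bad → p ∉ BA H := by
    intro H p hp hpH
    exact hp (Finset.mem_biUnion.mpr ⟨H, Finset.mem_univ _, hpH⟩)
  -- weights
  let v : Subgroup (L ≃ₐ[ℚ] L) → ℕ → ℝ := fun X p =>
    if p.Prime ∧ p ∉ Bad then (wt L X p : ℝ) else 0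
  let K : ℝ := (Module.finrank ℚ (IntermediateField.fixedField (⊤ : Subgroup (L ≃ₐ[ℚ] L))) : ℝ) *
    (Nat.card (⊤ : Subgroup (L ≃ₐ[ℚ] L)) : ℝ)
  have hv0 : ∀ X p, 0 ≤ v X p := by
    intro X p
    simp only [v]
    split_ifs
    · exact Nat.cast_nonneg _
    · exact le_rfl
  have hK0 : 0 ≤ K := by positivity
  have hvK : ∀ X p, v X p ≤ K := by
    intro X p
    simp only [v]
    split_ifs with h
    · have h1 := wt_le_decompWeight_top L X h.1.ne_zero
      have h2 := hBA ⊤ p h.1 (hBad ⊤ p h.2)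
      have h3 := hB0 (IntermediateField.fixedField (⊤ : Subgroup (L ≃ₐ[ℚ] L))) p
      have h4 : wt L X p ≤ Module.finrank ℚ (IntermediateField.fixedField
          (⊤ : Subgroup (L ≃ₐ[ℚ] L))) * Nat.card (⊤ : Subgroup (L ≃ₐ[ℚ] L)) := by
        rw [← h2] at h1
        exact h1.trans (Nat.mul_le_mul_right _ h3)
      simp only [K]
      exact_mod_cast h4
    · exact hK0
  -- the hypothesis of the induction
  have hW : ∀ H : Subgroup (L ≃ₐ[ℚ] L),
      LogAsymp (pSum (fun p => ∑ X ∈ below H, v X p)) (Nat.card H) := by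
    intro H
    set F := IntermediateField.fixedField H with hF
    obtain ⟨C, hC⟩ := hZ F
    -- full prime sum of `primeCount F`
    have h1 : LogAsymp (pSum (fun p => (Spec.primeCount F p : ℝ))) 1 := by
      refine ⟨C, fun s hs1 hs2 => ?_⟩
      rw [one_mul]
      exact hC s hs1 hs2
    -- the part supported on the bad primes
    let b : ℕ → ℝ := fun p => if p ∈ Bad then (Spec.primeCount F p : ℝ) else 0
    have hb0 : ∀ p, 0 ≤ b p := fun p => by
      simp only [b]; split_ifs
      · exact Nat.cast_nonneg _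
      · exact le_rfl
    have hbK : ∀ p, b p ≤ (Module.finrank ℚ F : ℝ) := fun p => by
      simp only [b]; split_ifs
      · exact_mod_cast hB0 F p
      · exact Nat.cast_nonneg _
    have h2 : LogAsymp (pSum b) 0 :=
      LogAsymp.zero_of_bounded (K := (Module.finrank ℚ F : ℝ) * Bad.card) fun s hs1 _ =>
        abs_pSum_le_of_support Bad hb0 hbK (fun p hp => by simp [b, hp]) hs1
    have h3 := (h1.sub h2).const_mul (Nat.card H : ℝ)
    rw [sub_zero, mul_one] at h3
    refine h3.congr fun s hs1 _ => ?_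
    -- pointwise identity of the coefficients at primes
    have hc0 : ∀ p, 0 ≤ (Spec.primeCount F p : ℝ) := fun p => Nat.cast_nonneg _
    have hcK : ∀ p, (Spec.primeCount F p : ℝ) ≤ (Module.finrank ℚ F : ℝ) := fun p => by
      exact_mod_cast hB0 F p
    have hs1' := summable_pSum hc0 hcK hs1
    have hs2' := summable_pSum hb0 hbK hs1
    unfold pSum
    rw [← Summable.tsum_sub hs1' hs2', ← tsum_mul_left]
    congr 1
    funext p
    by_cases hp : (p : ℕ) ∈ Bad
    · have hv : ∀ X, v X p = 0 := fun X => by simp [v, hp]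
      simp [hv, b, hp]
    · have hv : ∀ X, v X p = (wt L X p : ℝ) := fun X => by simp [v, hp, p.2]
      have h5 := decompWeight_eq_sum L H p.2.ne_zero
      have h6 := hBA H p p.2 (hBad H p hp)
      simp only [hv, b, hp, if_false, sub_zero]
      rw [← Nat.cast_sum, ← h5, ← h6]
      push_cast
      ring
  -- apply the induction to `X = zpowers σ`
  have hgens : 0 < gens (Subgroup.zpowers σ) := by
    unfold gens
    haveI : Nonempty {x : L ≃ₐ[ℚ] L // Subgroup.zpowers x = Subgroup.zpowers σ} := ⟨⟨σ, rfl⟩⟩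
    exact Nat.card_pos
  obtain ⟨p, hp, hpS, hpos⟩ :=
    exists_pos_of_gens_pos v K hv0 hvK hW (Subgroup.zpowers σ) hgens (S ∪ Bad ∪ BD)
  have hpS' : p ∉ S := fun h => hpS (Finset.mem_union_left _ (Finset.mem_union_left _ h))
  have hpBad : p ∉ Bad := fun h => hpS (Finset.mem_union_left _ (Finset.mem_union_right _ h))
  have hpBD : p ∉ BD := fun h => hpS (Finset.mem_union_right _ h)
  have hwt : 0 < wt L (Subgroup.zpowers σ) p := by
    have : v (Subgroup.zpowers σ) p = (wt L (Subgroup.zpowers σ) p : ℝ) := by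
      simp [v, hp, hpBad]
    rw [this] at hpos
    exact_mod_cast hpos
  obtain ⟨P, hP, hpP, hdec⟩ := exists_of_wt_pos L hwt
  obtain ⟨hin, τ, hτ, hτd⟩ := hBD p hp hpBD P hP hpP
  exact ⟨p, P, τ, hp, hpS', hP, hpP, hin, hτ, hτd.symm.trans hdec⟩

end

end Fermat.Agent.Lib.Cheb.H993

end
-- ===== PACK-END Lib/Cheb/H993/Glue.lean

-- ===== PACK-BEGIN Lib/Cheb/H476/FrobAt.lean
section





/-!
# CHEB piece F6 (bridge), part 1: Frobenius elements at a GIVEN valuation subring of `ℚ̄`

`exists_frobenius_at`: for every valuation subring `A` of `ℚ̄` over a prime number `ℓ` there is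
`σ ∈ Gal(ℚ̄/ℚ)` which is a Frobenius element at `A`, and which satisfies `σ x ≡ x ^ ℓ` modulo
the prime of `ℤ̄` below `A`.

Also: elementwise descriptions of Frobenius elements and of the inertia group.
-/

set_option autoImplicit false

open scoped Pointwise

namespace Fermat.Agent.Lib.Cheb.H476

open Fermat.Agent.Lib.Cheb.Spec

/-- Frobenius elements exist at every valuation subring of `ℚ̄` over a prime number. -/
theorem exists_frobenius_at (ℓ : ℕ) (hℓ : ℓ.Prime) (A : ValuationSubring Qb)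
    (hA : A.LiesOverPrime ℓ) :
    ∃ σ : GQ, A.IsFrobeniusAt σ ℓ ∧
      ∀ x : integralClosure ℤ Qb, σ • x - x ^ ℓ ∈ Fermat.Agent.S54.primeBelow A := by
  have : Algebra.IsAlgebraic ℚ (AlgebraicClosure ℚ) := AlgebraicClosure.isAlgebraic ℚ
  have := Fermat.Agent.S54.primeBelow_isPrime A
  have hℓQ : (ℓ : integralClosure ℤ (AlgebraicClosure ℚ)) ∈ Fermat.Agent.S54.primeBelow A := by
    rw [Fermat.Agent.S54.mem_primeBelow]
    exact hA
  obtain ⟨σ, hσQ', hσF⟩ :=
    Fermat.Agent.S54.exists_frob_integralClosure ℓ hℓ (Fermat.Agent.S54.primeBelow A) hℓQ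
  have hσQ : ∀ x, σ • x ∈ Fermat.Agent.S54.primeBelow A ↔
      x ∈ Fermat.Agent.S54.primeBelow A := by
    intro x
    conv_lhs => rw [← hσQ']
    exact Ideal.smul_mem_pointwise_smul_iff
  have key : ∀ τ : AlgebraicClosure ℚ ≃ₐ[ℚ] AlgebraicClosure ℚ,
      (∀ x, τ • x ∈ Fermat.Agent.S54.primeBelow A ↔ x ∈ Fermat.Agent.S54.primeBelow A) →
      ∀ x ∈ A, τ x ∈ A := by
    intro τ hτ x hx
    obtain ⟨b, s, hb, hs, hsA, hxs⟩ :=
      (Fermat.Agent.S54.mem_valuationSubring_iff A ℓ hℓ hA x).mp hx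
    refine (Fermat.Agent.S54.mem_valuationSubring_iff A ℓ hℓ hA (τ x)).mpr
      ⟨τ b, τ s, hb.map τ, hs.map τ, ?_, ?_⟩
    · exact (hτ ⟨s, hs⟩).not.mpr hsA
    · rw [← map_mul, hxs]
  have hσA : σ ∈ A.decompositionSubgroup ℚ := by
    rw [MulAction.mem_stabilizer_iff]
    ext x
    rw [ValuationSubring.mem_smul_pointwise_iff_exists]
    constructor
    · rintro ⟨s, hs, rfl⟩
      exact key σ hσQ s hs
    · intro hx
      refine ⟨σ⁻¹ • x, key σ⁻¹ ?_ x hx, by simp⟩
      intro y
      rw [← hσQ (σ⁻¹ • y)]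
      simp
  refine ⟨σ, ⟨hσA, ?_⟩, hσF⟩
  intro x
  obtain ⟨a, rfl⟩ := IsLocalRing.residue_surjective x
  obtain ⟨b, s, hb, hs, hsA, hxs⟩ :=
    (Fermat.Agent.S54.mem_valuationSubring_iff A ℓ hℓ hA a).mp a.2
  have hbA : b ∈ A := Fermat.Agent.S54.isIntegral_mem_valuationSubring A hb
  have hsA' : s ∈ A := Fermat.Agent.S54.isIntegral_mem_valuationSubring A hs
  have hint : ∀ (y : AlgebraicClosure ℚ) (hy : IsIntegral ℤ y),
      (⟨σ, hσA⟩ : A.decompositionSubgroup ℚ) •
        IsLocalRing.residue A ⟨y, Fermat.Agent.S54.isIntegral_mem_valuationSubring A hy⟩ =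
      (IsLocalRing.residue A ⟨y, Fermat.Agent.S54.isIntegral_mem_valuationSubring A hy⟩) ^ ℓ := by
    intro y hy
    rw [← IsLocalRing.ResidueField.residue_smul, ← map_pow, ← sub_eq_zero, ← map_sub,
      IsLocalRing.residue_eq_zero_iff, ← ValuationSubring.coe_mem_nonunits_iff]
    exact hσF ⟨y, hy⟩
  have h1 : IsLocalRing.residue A a * IsLocalRing.residue A ⟨s, hsA'⟩ =
      IsLocalRing.residue A ⟨b, hbA⟩ := by
    rw [← map_mul]
    congr 1
    exact Subtype.ext hxs
  have h2 : IsLocalRing.residue A ⟨s, hsA'⟩ ≠ 0 := by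
    rw [Ne, IsLocalRing.residue_eq_zero_iff, ← ValuationSubring.coe_mem_nonunits_iff]
    exact hsA
  have h3 := congrArg (fun z => (⟨σ, hσA⟩ : A.decompositionSubgroup ℚ) • z) h1
  simp only [smul_mul'] at h3
  rw [hint s hs, hint b hb, ← h1, mul_pow] at h3
  exact mul_right_cancel₀ (pow_ne_zero _ h2) h3

/-- Elements of the inertia group move elements of the valuation ring by nonunits. -/
theorem sub_mem_nonunits_of_mem_inertia (A : ValuationSubring Qb) (ι : GQ)
    (hι : ι ∈ A.inertiaSubgroupIn ℚ) (a : Qb) (ha : a ∈ A) : ι a - a ∈ A.nonunits := by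
  obtain ⟨ι', hι', rfl⟩ := hι
  have h1 : ι' • IsLocalRing.residue A ⟨a, ha⟩ = IsLocalRing.residue A ⟨a, ha⟩ := by
    have := congrArg (fun f => f (IsLocalRing.residue A ⟨a, ha⟩)) (MonoidHom.mem_ker.mp hι')
    simpa using this
  rw [← IsLocalRing.ResidueField.residue_smul, ← sub_eq_zero, ← map_sub,
    IsLocalRing.residue_eq_zero_iff, ← ValuationSubring.coe_mem_nonunits_iff] at h1
  exact h1

end Fermat.Agent.Lib.Cheb.H476

end
-- ===== PACK-END Lib/Cheb/H476/FrobAt.lean

-- ===== PACK-BEGIN A2/H129/KummerJZero.lean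
section



/-!
# A2 / K1 for `JZero N`: the wall A2 from its Kummer form

`A2Kummer N m σ` is the Kummer-side statement for the arithmetic Galois action of `σ` on
`Q̄(X₀(N)) ⊂ Q̄((q))`; `unipotent_JZero_of_kummer` turns it into `(σ - 1)² = 0` on `J₀(N)[m]`.
-/

set_option autoImplicit false

namespace Fermat.Agent.A2.H129

open AlgebraicCurve ModularCurve

/-- The Kummer form of wall A2 for one `σ`: for every `f ∈ Q̄(X₀(N))^×` whose divisor is divisible
by `m`, `(σ-1)² f` is a constant times an `m`-th power. -/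
def A2Kummer (N m : ℕ) (σ : AlgebraicClosure ℚ ≃ₐ[ℚ] AlgebraicClosure ℚ) : Prop :=
  KummerTwice (K := AlgebraicClosure ℚ) (F := modularFunctionFieldBar N)
    (arithmeticGalois (modularFunctionFieldFull N) σ) m

theorem unipotent_JZero_of_kummer (N m : ℕ) (hm : m ≠ 0)
    (σ : AlgebraicClosure ℚ ≃ₐ[ℚ] AlgebraicClosure ℚ) (H : A2Kummer N m σ)
    (x : JZero N) (hx : m • x = 0) :
    σ • (σ • x - x) = σ • x - x := by
  have h := unipotent_of_kummerTwice
    (arithmeticGalois (modularFunctionFieldFull N) σ) m hm H x hx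
  exact h

end Fermat.Agent.A2.H129

end
-- ===== PACK-END A2/H129/KummerJZero.lean

-- ===== PACK-BEGIN S30/H330/AdicDefs.lean
section
/-
S30 (p-adic Galois representation attached to a Hecke eigensystem) -- ADIC MODULE LAYER.
Interface definitions (sorry-free).  helper330.  Namespace `Fermat.Agent.S30.H330`.

The layer turns
  * the frozen statement S37 (through "torsion relations" on `J₀(N)(ℚ̄)[p^∞]`),
  * a Kummer map on `ℚ/ℤ`-valued parabolic characters (p-adic form of S29 piece M4b),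
  * an eigen parabolic character with values in `𝒪'` (characteristic-0 form of S29 piece M4a)
into a nonzero finite free `𝒪'`-module with adically continuous `G_ℚ`-action, unramified outside
`N p`, on which every Frobenius at `ℓ ∉ S` satisfies `σ² - χ(T_ℓ) σ + ℓ = 0` (`HasAdicFrobModule`).
The top glue of S30 (helper990) consumes `HasAdicFrobModule`.
-/



set_option autoImplicit false

noncomputable section

namespace Fermat.Agent.S30.H330

open Fermat.Agent.S29 ModularCurve

/-- `ℚ/ℤ`, the value group of finite-order characters. -/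
abbrev QZ : Type := AddCircle (1 : ℚ)

/-- OUTPUT of the adic module layer: a nonzero finite free `O`-module with an adically continuous
action of `G_ℚ`, unramified at all primes `ℓ ∤ S`, on which all Frobenii at the primes `ℓ` with
`good ℓ` satisfy `σ² - a ℓ • σ + ℓ = 0`. -/
def HasAdicFrobModule (O : Type) [CommRing O] [IsLocalRing O] (S : ℕ) (good : ℕ → Prop)
    (a : ℕ → O) : Prop :=
  ∃ (M : Type) (_ : AddCommGroup M) (_ : Module O M) (_ : Module.Free O M) (_ : Module.Finite O M)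
    (ρ : GQ →* Module.End O M),
    Nontrivial M ∧ GaloisActionIsAdicContinuous O ρ ∧
    (∀ ℓ : ℕ, ℓ.Prime → ¬ ℓ ∣ S → ∀ A : VQ, A.LiesOverPrime ℓ →
      ∀ σ ∈ A.inertiaSubgroupIn ℚ, ρ σ = 1) ∧
    (∀ ℓ : ℕ, ℓ.Prime → good ℓ → ∀ A : VQ, A.LiesOverPrime ℓ →
      ∀ σ : GQ, A.IsFrobeniusAt σ ℓ →
        ρ σ * ρ σ - a ℓ • ρ σ + (ℓ : O) • (1 : Module.End O M) = 0)

/-- INPUT (K): the Kummer map on `ℚ/ℤ`-valued parabolic characters of `Γ₀(N)`:
additive, injective, onto the torsion of `J₀(N)(ℚ̄)`, Hecke-equivariant.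
(`κ c = ` class of `div(h)`, `h` any nonzero meromorphic function on `ℍ ∪ cusps` with
`h(γ z) = exp(2πi c(γ)) h(z)`; S29 piece M4b is the restriction to `(1/p)ℤ/ℤ`.) -/
def KummerStatement (N : ℕ) [NeZero N] (p : ℕ) : Prop :=
  ∃ κ : (G0 N → QZ) → JZero N,
    (∀ c c', IsParHom c → IsParHom c' → κ (c + c') = κ c + κ c') ∧
    (∀ c, IsParHom c → κ c = 0 → c = 0) ∧
    (∀ x : JZero N, (∃ n : ℕ, (p ^ n) • x = 0) → ∃ c, IsParHom c ∧ κ c = x) ∧
    (∀ ℓ : Nat.Primes, ¬ (ℓ : ℕ) ∣ N * p → ∀ c, IsParHom c →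
      κ (heckeCoh N ℓ c) = heckeOperatorBar N ℓ (κ c))

/-- INPUT (P): the eigensystem `χ` occurs in the parabolic cohomology with coefficients in `O`. -/
def ParEigenStatement (N : ℕ) [NeZero N] (S : Finset ℕ) (O : Type) [CommRing O]
    (χ : CuspForm.heckeAlgebra N 2 (↑S : Set ℕ) →+* O) : Prop :=
  ∃ c : G0 N → O, IsParHom c ∧ c ≠ 0 ∧
    ∀ (ℓ : ℕ) (hℓ : ℓ.Prime) (hℓN : ¬ ℓ ∣ N) (hℓS : ℓ ∉ (↑S : Set ℕ)) (γ : G0 N),
      heckeCoh N ℓ c γ = χ (CuspForm.heckeAlgebra.T hℓ hℓN hℓS) * c γ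

/-- INPUT (T): the consequences of S37 on the `p`-power torsion of `J₀(N)(ℚ̄)`
(inertia acts trivially, Eichler–Shimura relation), for all primes `ℓ ∤ N p`. -/
def TorsionRelations (N : ℕ) [NeZero N] (p : ℕ) : Prop :=
  ∀ (ℓ : ℕ) (hℓ : ℓ.Prime), ¬ ℓ ∣ N * p → ∀ A : VQ, A.LiesOverPrime ℓ →
    (∀ σ ∈ A.inertiaSubgroupIn ℚ, ∀ x : JZero N, (∃ n : ℕ, (p ^ n) • x = 0) → σ • x = x) ∧
    (∀ σ : GQ, A.IsFrobeniusAt σ ℓ → ∀ x : JZero N, (∃ n : ℕ, (p ^ n) • x = 0) →
      σ • σ • x - heckeOperatorBar N ⟨ℓ, hℓ⟩ (σ • x) + ℓ • x = 0)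

/-- INPUT (Sm) = S29 piece M3. -/
def SmoothStatement (N : ℕ) [NeZero N] : Prop :=
  ∀ x : JZero N, ∃ L : IntermediateField ℚ (AlgebraicClosure ℚ), FiniteDimensional ℚ L ∧
    ∀ σ : GQ, (∀ y ∈ L, σ y = y) → σ • x = x

/-- INPUT (GH) = S29 piece M2. -/
def GaloisHeckeStatement (N : ℕ) [NeZero N] : Prop :=
  ∀ (σ : GQ) (ℓ : Nat.Primes) (x : JZero N),
    σ • heckeOperatorBar N ℓ x = heckeOperatorBar N ℓ (σ • x)

/-- The eigenvalue function attached to `χ`. -/
def eigenvalue {N : ℕ} [NeZero N] {S : Finset ℕ} {O : Type} [CommRing O]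
    (χ : CuspForm.heckeAlgebra N 2 (↑S : Set ℕ) →+* O) (ℓ : ℕ) : O :=
  open Classical in
  if h : ℓ.Prime ∧ ¬ ℓ ∣ N ∧ ℓ ∉ (↑S : Set ℕ) then χ (CuspForm.heckeAlgebra.T h.1 h.2.1 h.2.2) else 0

end Fermat.Agent.S30.H330

end
end
-- ===== PACK-END S30/H330/AdicDefs.lean

-- ===== PACK-BEGIN S24/Mod/H997Bridge.lean
section


/-!
# S24 / MOD — analytic interface (`HolBase`) and the bridge `e : R_N → Hol`

`HolBase N` packages a ring `Hol` of functions `ℍ → ℂ` (intended: holomorphic functions on `ℍ`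
invariant under `Γ(N)` and meromorphic at the cusps), stable under the action of `SL(2,ℤ)`,
containing the functions `J d = (τ ↦ j(dτ))` for `d ∣ N`, together with ONE injective expansion
ring hom `qexp : Hol →+* ℂ((z))` (intended: expansion at `i∞` in `z = q^{1/N}`) such that the
expansion of `J d` is the formal series `jq(z^{N d})` of the Prelude.

From this we construct the *bridge* `e : R_N →+* Hol` (injective, `e (j(q^d)) = J d`,
`e c = const (ι c)`), i.e. "formal relation ⇔ analytic relation".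
-/

set_option autoImplicit false

noncomputable section

open ModularCurve HahnSeries UpperHalfPlane
open scoped MatrixGroups

namespace Fermat.Agent.S24.H997

/-- Precomposition of a function on `ℍ` with the action of `g ∈ SL(2,ℤ)`. -/
def compSL (g : SL(2, ℤ)) (f : ℍ → ℂ) : ℍ → ℂ := fun τ => f (g • τ)

@[simp] theorem compSL_apply (g : SL(2, ℤ)) (f : ℍ → ℂ) (τ : ℍ) : compSL g f τ = f (g • τ) := rfl

theorem compSL_one (f : ℍ → ℂ) : compSL 1 f = f := by
  funext τ; simp [compSL]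

theorem compSL_mul (g h : SL(2, ℤ)) (f : ℍ → ℂ) : compSL (g * h) f = compSL h (compSL g f) := by
  funext τ; simp [compSL, mul_smul]

/-- The fixed embedding `ℚ̄ → ℂ`. -/
def ιKAlg : Kbar →ₐ[ℚ] ℂ :=
  haveI : Algebra.IsAlgebraic ℚ (AlgebraicClosure ℚ) := AlgebraicClosure.isAlgebraic ℚ
  IsAlgClosed.lift

/-- The fixed embedding `ℚ̄ → ℂ`. -/
def ιK : Kbar →+* ℂ := ιKAlg.toRingHom

theorem ιK_injective : Function.Injective ιK := ιK.injective

theorem ιK_algebraMap (c : ℚ) : ιK (algebraMap ℚ Kbar c) = (c : ℂ) := by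
  have := ιKAlg.commutes c
  simpa [ιK] using this

/-- Basic analytic interface. -/
structure HolBase (N : ℕ) [NeZero N] where
  /-- the ring of nice functions on `ℍ` -/
  Hol : Subring (ℍ → ℂ)
  const_mem : ∀ c : ℂ, (fun _ : ℍ => c) ∈ Hol
  comp_mem : ∀ (g : SL(2, ℤ)) (f : ℍ → ℂ), f ∈ Hol → compSL g f ∈ Hol
  /-- `J d τ = j(dτ)` -/
  J : ℕ → ℍ → ℂ
  J_mem : ∀ d, d ∣ N → J d ∈ Hol
  J_one_inv : ∀ (g : SL(2, ℤ)) (τ : ℍ), J 1 (g • τ) = J 1 τ
  J_inv : ∀ d, d ∣ N → ∀ g ∈ CongruenceSubgroup.Gamma0 N, ∀ τ : ℍ, J d (g • τ) = J d τ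
  J_distinct : ∀ g : SL(2, ℤ), (∀ τ : ℍ, J N (g • τ) = J N τ) → g ∈ CongruenceSubgroup.Gamma0 N
  /-- expansion at `i∞` in the variable `z = q^{1/N}` -/
  qexp : Hol →+* LaurentSeries ℂ
  qexp_injective : Function.Injective qexp
  qexp_const : ∀ c : ℂ, qexp ⟨_, const_mem c⟩ = HahnSeries.C c
  qexp_J : ∀ (d : ℕ) (hd : d ∣ N) (k : ℤ),
    (qexp ⟨J d, J_mem d hd⟩).coeff k
      = if ((N * d : ℕ) : ℤ) ∣ k then ((jq.coeff (k / ((N * d : ℕ) : ℤ)) : ℚ) : ℂ) else 0

namespace HolBase

variable {N : ℕ} [NeZero N] (B : HolBase N)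

/-- constant functions as elements of `Hol` -/
def constH (c : ℂ) : B.Hol := ⟨_, B.const_mem c⟩

/-- `J d` as an element of `Hol` -/
def JH (d : ℕ) (hd : d ∣ N) : B.Hol := ⟨B.J d, B.J_mem d hd⟩

/-- precomposition with `g ∈ SL(2,ℤ)` as a ring endomorphism of `Hol` -/
def compH (g : SL(2, ℤ)) : B.Hol →+* B.Hol where
  toFun h := ⟨compSL g h.1, B.comp_mem g h.1 h.2⟩
  map_one' := rfl
  map_mul' _ _ := rfl
  map_zero' := rfl
  map_add' _ _ := rfl

@[simp] theorem compH_apply (g : SL(2, ℤ)) (h : B.Hol) (τ : ℍ) :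
    (B.compH g h : ℍ → ℂ) τ = (h : ℍ → ℂ) (g • τ) := rfl

theorem compH_one (h : B.Hol) : B.compH 1 h = h := by
  apply Subtype.ext; funext τ; simp

theorem compH_mul (g g' : SL(2, ℤ)) (h : B.Hol) :
    B.compH (g * g') h = B.compH g' (B.compH g h) := by
  apply Subtype.ext; funext τ; simp [mul_smul]

theorem compH_injective (g : SL(2, ℤ)) : Function.Injective (B.compH g) := by
  intro h h' hh
  have := congrArg (B.compH g⁻¹) hh
  rwa [← compH_mul, ← compH_mul, mul_inv_cancel, compH_one, compH_one] at this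

theorem compH_constH (g : SL(2, ℤ)) (c : ℂ) : B.compH g (B.constH c) = B.constH c := rfl

theorem compH_JH_one (g : SL(2, ℤ)) : B.compH g (B.JH 1 (one_dvd N)) = B.JH 1 (one_dvd N) := by
  apply Subtype.ext; funext τ; exact B.J_one_inv g τ

theorem compH_JH_of_mem (d : ℕ) (hd : d ∣ N) {g : SL(2, ℤ)}
    (hg : g ∈ CongruenceSubgroup.Gamma0 N) : B.compH g (B.JH d hd) = B.JH d hd := by
  apply Subtype.ext; funext τ; exact B.J_inv d hd g hg τ

/-- The formal comparison map `ℚ̄((q)) → ℂ((z))`, `q ↦ z^N`, coefficients via `ιK`. -/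
def Φ (N : ℕ) [NeZero N] : LaurentSeries Kbar →+* LaurentSeries ℂ :=
  (qExpand ℂ N).comp (coeffMap ιK)

theorem Φ_injective : Function.Injective (Φ N) := by
  intro x y h
  have h1 : coeffMap ιK x = coeffMap ιK y := qExpand_injective N h
  ext k
  apply ιK_injective
  have := congrArg (fun s => s.coeff k) h1
  simpa using this

theorem Φ_coeff (x : LaurentSeries Kbar) (k : ℤ) :
    (Φ N x).coeff k = if (N : ℤ) ∣ k then ιK (x.coeff (k / N)) else 0 := by
  split_ifs with h
  · obtain ⟨m, rfl⟩ := h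
    have hN : (N : ℤ) ≠ 0 := by exact_mod_cast NeZero.ne N
    rw [Int.mul_ediv_cancel_left _ hN]
    show (qExpand ℂ N (coeffMap ιK x)).coeff (N * m) = _
    rw [qExpand_coeff_mul]; rfl
  · exact qExpand_coeff_of_not_dvd N _ h

theorem Φ_algebraMap (c : Kbar) :
    Φ N (algebraMap Kbar (LaurentSeries Kbar) c) = HahnSeries.C (ιK c) := by
  rw [algebraMap_laurentSeries_eq_single]
  show qExpand ℂ N (coeffMap ιK (HahnSeries.single 0 c)) = _
  rw [coeffMap_single, qExpand_single, mul_zero]; rfl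

theorem Φ_gen (d : ℕ) [NeZero d] (hd : d ∣ N) :
    Φ N (coeffEmb Kbar (qExpand ℚ d jq)) = B.qexp (B.JH d hd) := by
  ext k
  rw [Φ_coeff]
  show _ = (B.qexp ⟨B.J d, B.J_mem d hd⟩).coeff k
  rw [B.qexp_J d hd k]
  have hN : (N : ℤ) ≠ 0 := by exact_mod_cast NeZero.ne N
  have hd0 : (d : ℤ) ≠ 0 := by exact_mod_cast NeZero.ne d
  by_cases h1 : (N : ℤ) ∣ k
  · obtain ⟨m, rfl⟩ := h1
    rw [if_pos (dvd_mul_right _ _), Int.mul_ediv_cancel_left _ hN, coeffEmb_coeff, ιK_algebraMap]
    by_cases h2 : (d : ℤ) ∣ m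
    · obtain ⟨l, rfl⟩ := h2
      have h3 : ((N * d : ℕ) : ℤ) ∣ (N : ℤ) * (d * l) := ⟨l, by push_cast; ring⟩
      rw [if_pos h3, qExpand_coeff_mul]
      have : (N : ℤ) * (d * l) / ((N * d : ℕ) : ℤ) = l := by
        have h4 : (N : ℤ) * (d * l) = ((N * d : ℕ) : ℤ) * l := by push_cast; ring
        rw [h4, Int.mul_ediv_cancel_left]
        exact_mod_cast (Nat.mul_ne_zero (NeZero.ne N) (NeZero.ne d))
      rw [this]
    · have h3 : ¬ ((N * d : ℕ) : ℤ) ∣ (N : ℤ) * m := by
        rintro ⟨l, hl⟩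
        apply h2
        refine ⟨l, ?_⟩
        have : (N : ℤ) * m = N * (d * l) := by rw [hl]; push_cast; ring
        exact mul_left_cancel₀ hN this
      rw [if_neg h3, qExpand_coeff_of_not_dvd d _ h2]
      simp
  · have h3 : ¬ ((N * d : ℕ) : ℤ) ∣ k := by
      intro h; apply h1
      exact dvd_trans ⟨(d : ℤ), by push_cast; ring⟩ h
    rw [if_neg h1, if_neg h3]

theorem Φ_mem_range {r : LaurentSeries Kbar} (hr : r ∈ RN N) : Φ N r ∈ B.qexp.range := by
  induction hr using Algebra.adjoin_induction with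
  | mem x hx =>
      obtain ⟨y, ⟨d, hne, hd, rfl⟩, rfl⟩ := hx
      exact ⟨B.JH d hd, (B.Φ_gen d hd).symm⟩
  | algebraMap c =>
      exact ⟨B.constH (ιK c), by rw [Φ_algebraMap]; exact B.qexp_const _⟩
  | add _ _ _ _ hx hy => rw [map_add]; exact add_mem hx hy
  | mul _ _ _ _ hx hy => rw [map_mul]; exact mul_mem hx hy

/-- `Hol ≃ range qexp`. -/
def qexpEquiv : B.Hol ≃+* B.qexp.range :=
  RingEquiv.ofBijective B.qexp.rangeRestrict
    ⟨fun x y h => B.qexp_injective (congrArg Subtype.val h), B.qexp.rangeRestrict_surjective⟩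

/-- The bridge `e : R_N →+* Hol`. -/
def bridge : RN N →+* B.Hol :=
  (B.qexpEquiv.symm : B.qexp.range →+* B.Hol).comp
    (((Φ N).comp (RN N).val.toRingHom).codRestrict B.qexp.range fun r => B.Φ_mem_range r.2)

theorem qexp_bridge (r : RN N) : B.qexp (B.bridge r) = Φ N (r : LaurentSeries Kbar) := by
  have h := B.qexpEquiv.apply_symm_apply
    ((((Φ N).comp (RN N).val.toRingHom).codRestrict B.qexp.range
      fun r => B.Φ_mem_range r.2) r)
  exact congrArg Subtype.val h

theorem bridge_injective : Function.Injective B.bridge := by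
  intro r r' h
  apply Subtype.ext
  apply Φ_injective (N := N)
  rw [← qexp_bridge, ← qexp_bridge, h]

theorem bridge_algebraMap (c : Kbar) : B.bridge (algebraMap Kbar (RN N) c) = B.constH (ιK c) := by
  apply B.qexp_injective
  rw [qexp_bridge]
  show Φ N (algebraMap Kbar (LaurentSeries Kbar) c) = _
  rw [Φ_algebraMap]
  exact (B.qexp_const _).symm

theorem bridge_jR (d : ℕ) [NeZero d] (hd : d ∣ N) : B.bridge (jR N d hd) = B.JH d hd := by
  apply B.qexp_injective
  rw [qexp_bridge]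
  exact B.Φ_gen d hd

/-- Every `e r` is `Γ₀(N)`-invariant. -/
theorem compH_bridge_of_mem {g : SL(2, ℤ)} (hg : g ∈ CongruenceSubgroup.Gamma0 N) (r : RN N) :
    B.compH g (B.bridge r) = B.bridge r := by
  obtain ⟨r, hr⟩ := r
  induction hr using Algebra.adjoin_induction with
  | mem x hx =>
      obtain ⟨y, ⟨d, hne, hd, rfl⟩, rfl⟩ := hx
      have : (⟨coeffEmb Kbar (qExpand ℚ d jq), Algebra.subset_adjoin
          ⟨_, ⟨d, hne, hd, rfl⟩, rfl⟩⟩ : RN N) = jR N d hd := rfl
      rw [this, bridge_jR]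
      exact B.compH_JH_of_mem d hd hg
  | algebraMap c =>
      have : (⟨algebraMap Kbar (LaurentSeries Kbar) c, Subalgebra.algebraMap_mem _ c⟩ : RN N)
          = algebraMap Kbar (RN N) c := rfl
      rw [this, bridge_algebraMap]
      rfl
  | add x y hx hy ihx ihy =>
      have : (⟨x + y, add_mem hx hy⟩ : RN N) = ⟨x, hx⟩ + ⟨y, hy⟩ := rfl
      rw [this, map_add, map_add, ihx, ihy]
  | mul x y hx hy ihx ihy =>
      have : (⟨x * y, mul_mem hx hy⟩ : RN N) = ⟨x, hx⟩ * ⟨y, hy⟩ := rfl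
      rw [this, map_mul, map_mul, ihx, ihy]

end HolBase

end Fermat.Agent.S24.H997

end
end
-- ===== PACK-END S24/Mod/H997Bridge.lean

-- ===== PACK-BEGIN S18/H274/TraceNil.lean
section


/-!
# S18 / b2 (helper274) — the radical of the trace form consists of nilpotents (char 0)

Mathlib-only.  `C` a commutative `Λ`-algebra with a finite basis `β`, `φ : Λ →+* K` a ring
homomorphism to a field of characteristic zero.

* `exists_pow_leftMulMatrix_map_eq_zero` : if `φ (Tr (z c)) = 0` for all `c`, then the matrix of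
  multiplication by some power `z ^ m` vanishes under `φ`.
* `exists_pow_dvd_of_trace_dvd` : (`φ` = reduction mod `t`)  if `t ∣ Tr (z c)` for all `c` then
  `t ∣ z ^ m` in `C` for some `m`.
* `eq_zero_of_trace_eq_zero` : (`φ` = inclusion into the fraction field) if `Tr (z c) = 0` for all
  `c` and `C` is reduced, then `z = 0`.
* `discr_ne_zero_of_charZero` : the discriminant of a basis of a reduced finite free algebra over
  a domain of characteristic zero is nonzero.
-/

namespace Fermat.Agent.S18.H274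

open Module

section basic

variable {Λ : Type*} [CommRing Λ] {C : Type*} [CommRing C] [Algebra Λ C]
variable {ι : Type*} [Fintype ι] [DecidableEq ι] (β : Basis ι Λ C)

omit [DecidableEq ι] in
include β in
theorem dvd_of_forall_dvd_repr (t : Λ) (x : C) (h : ∀ i, t ∣ β.repr x i) :
    algebraMap Λ C t ∣ x := by
  choose e he using h
  refine ⟨∑ i, e i • β i, ?_⟩
  conv_lhs => rw [← β.sum_repr x]
  rw [Finset.mul_sum]
  refine Finset.sum_congr rfl fun i _ => ?_
  rw [he i, mul_smul, Algebra.smul_def t]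

omit [Fintype ι] [DecidableEq ι] in
include β in
theorem dvd_repr_of_dvd (t : Λ) (x : C) (h : algebraMap Λ C t ∣ x) (i : ι) :
    t ∣ β.repr x i := by
  obtain ⟨c, rfl⟩ := h
  rw [← Algebra.smul_def, map_smul]
  exact ⟨β.repr c i, rfl⟩

omit [DecidableEq ι] in
theorem trace_mul_dvd_of_basis (d : Λ) (y : C)
    (h : ∀ k, d ∣ Algebra.trace Λ C (y * β k)) (c : C) :
    d ∣ Algebra.trace Λ C (y * c) := by
  conv_rhs => rw [← β.sum_repr c]
  rw [Finset.mul_sum, map_sum]
  refine Finset.dvd_sum fun k _ => ?_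
  rw [mul_smul_comm, map_smul, smul_eq_mul]
  exact Dvd.dvd.mul_left (h k) _

theorem exists_pow_leftMulMatrix_map_eq_zero {K : Type*} [Field K] [CharZero K]
    (φ : Λ →+* K) (z : C) (hz : ∀ c, φ (Algebra.trace Λ C (z * c)) = 0) :
    ∃ m : ℕ, (Algebra.leftMulMatrix β (z ^ m)).map φ = 0 := by
  let A := Algebra.leftMulMatrix β z
  have hA : ∀ k, 1 ≤ k → ((φ.mapMatrix A) ^ k).trace = 0 := by
    intro k hk
    obtain ⟨k, rfl⟩ : ∃ j, k = j + 1 := ⟨k - 1, by omega⟩
    rw [← map_pow, RingHom.mapMatrix_apply, ← AddMonoidHom.map_trace, ← map_pow,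
      ← Algebra.trace_eq_matrix_trace β, pow_succ']
    exact hz _
  obtain ⟨m, hm⟩ := matrix_isNilpotent_of_trace_pow_eq_zero (φ.mapMatrix A) hA
  refine ⟨m, ?_⟩
  rw [map_pow, ← RingHom.mapMatrix_apply, map_pow]
  exact hm

end basic

section quotient

variable {Λ : Type*} [CommRing Λ] {C : Type*} [CommRing C] [Algebra Λ C]
variable {ι : Type*} [Fintype ι] [DecidableEq ι] (β : Basis ι Λ C)

include β in
/-- If `K` is a characteristic zero field, `π : Λ →+* K` has kernel contained in `(t)` and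
`π (Tr (z c)) = 0` for all `c`, then `z` is nilpotent modulo `t C`. -/
theorem exists_pow_dvd_of_trace_map_eq_zero {K : Type*} [Field K] [CharZero K]
    (π : Λ →+* K) (t : Λ) (hker : ∀ x, π x = 0 → t ∣ x)
    (z : C) (hz : ∀ c, π (Algebra.trace Λ C (z * c)) = 0) :
    ∃ m : ℕ, algebraMap Λ C t ∣ z ^ m := by
  classical
  obtain ⟨m, hm⟩ := exists_pow_leftMulMatrix_map_eq_zero β π z hz
  refine ⟨m, dvd_of_forall_dvd_repr β t _ fun i => ?_⟩
  have h1 := Algebra.leftMulMatrix_mulVec_repr β (z ^ m) 1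
  rw [mul_one] at h1
  rw [← h1]
  simp only [Matrix.mulVec, dotProduct]
  refine Finset.dvd_sum fun j _ => ?_
  apply Dvd.dvd.mul_right
  apply hker
  have := congrFun (congrFun hm i) j
  simpa using this

end quotient

section domain

variable {Λ : Type*} [CommRing Λ] [IsDomain Λ] [CharZero Λ]
variable {C : Type*} [CommRing C] [IsReduced C] [Algebra Λ C]
variable {ι : Type*} [Fintype ι] [DecidableEq ι] (β : Basis ι Λ C)

include β in
theorem eq_zero_of_trace_eq_zero (z : C) (hz : ∀ c, Algebra.trace Λ C (z * c) = 0) : z = 0 := by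
  classical
  let K := FractionRing Λ
  have : CharZero K := charZero_of_injective_algebraMap (IsFractionRing.injective Λ K)
  obtain ⟨m, hm⟩ := exists_pow_leftMulMatrix_map_eq_zero β (algebraMap Λ K) z
    (fun c => by rw [hz c, map_zero])
  have h0 : Algebra.leftMulMatrix β (z ^ m) = 0 := by
    ext i j
    have := congrFun (congrFun hm i) j
    simp only [Matrix.map_apply, Matrix.zero_apply] at this
    rw [Matrix.zero_apply]
    exact IsFractionRing.injective Λ K (by rw [this, map_zero])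
  have h1 : z ^ m = 0 := Algebra.leftMulMatrix_injective β (by rw [h0, map_zero])
  exact IsReduced.eq_zero _ ⟨m, h1⟩

/-- The discriminant of a basis of a reduced finite free algebra over a domain of
characteristic zero is nonzero. -/
theorem discr_ne_zero_of_charZero : Algebra.discr Λ β ≠ 0 := by
  classical
  intro hD
  rw [Algebra.discr_def] at hD
  obtain ⟨v, hv0, hv⟩ := Matrix.exists_mulVec_eq_zero_iff.mpr hD
  have hz : ∀ c, Algebra.trace Λ C ((∑ i, v i • β i) * c) = 0 := by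
    intro c
    have hk : ∀ k, (0 : Λ) ∣ Algebra.trace Λ C ((∑ i, v i • β i) * β k) := by
      intro k
      rw [zero_dvd_iff]
      have := congrFun hv k
      simp only [Matrix.mulVec, dotProduct, Algebra.traceMatrix_apply, Algebra.traceForm_apply,
        Pi.zero_apply] at this
      rw [Finset.sum_mul, map_sum, ← this]
      refine Finset.sum_congr rfl fun i _ => ?_
      rw [smul_mul_assoc, map_smul, smul_eq_mul, mul_comm (β i) (β k), mul_comm]
    exact zero_dvd_iff.mp (trace_mul_dvd_of_basis β 0 _ hk c)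
  have h0 := eq_zero_of_trace_eq_zero β _ hz
  apply hv0
  funext i
  have h1 := congrArg (fun x => β.repr x i) h0
  simp only [β.repr_sum_self, map_zero, Finsupp.coe_zero, Pi.zero_apply] at h1
  exact h1

end domain

end Fermat.Agent.S18.H274

end
-- ===== PACK-END S18/H274/TraceNil.lean

-- ===== PACK-BEGIN S18/H754/HncUnram.lean
section


/-!
# S18 / ALG-FRONT / hNC adapter: `(π)` is radical in the chart `B` when the generic fibre is
unramified over the zeros of `π`

* `isDiscreteValuationRing_atPrime_of_height_one`, `exists_dvd_or_dvd_of_height_one` (N3):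
  `B_𝔓` is a valuation ring for a height-one prime `𝔓` of a Noetherian normal domain.
* `exists_valuationSubring_dominating` (N4): a valuation subring of `Ω ⊇ B` dominating `B_𝔓`.
* `isRadical_span_of_unramified` (N5, main): see the statement.
-/

set_option autoImplicit false

noncomputable section

namespace Fermat.Agent.S18.H754

open IsLocalRing

section HeightOne

variable {B : Type*} [CommRing B] [IsDomain B] [IsNoetherianRing B] [IsIntegrallyClosed B]

/-- Localisation at a height-one prime of a Noetherian normal domain is a DVR. -/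
theorem isDiscreteValuationRing_atPrime_of_height_one (𝔭 : Ideal B) [h𝔭 : 𝔭.IsPrime]
    (h : 𝔭.height = 1) : IsDiscreteValuationRing (Localization.AtPrime 𝔭) := by
  set A := Localization.AtPrime 𝔭 with hA
  haveI : IsNoetherianRing A := IsLocalization.isNoetherianRing 𝔭.primeCompl A inferInstance
  haveI : IsIntegrallyClosed A :=
    isIntegrallyClosed_of_isLocalization A 𝔭.primeCompl 𝔭.primeCompl_le_nonZeroDivisors
  have h𝔭bot : 𝔭 ≠ ⊥ := Ideal.ne_bot_of_height_eq_one h
  have hmax : maximalIdeal A = 𝔭.map (algebraMap B A) :=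
    (IsLocalization.AtPrime.map_eq_maximalIdeal 𝔭 A).symm
  have hinj : Function.Injective (algebraMap B A) :=
    IsLocalization.injective A 𝔭.primeCompl_le_nonZeroDivisors
  have hnf : ¬ IsField A := by
    rw [isField_iff_maximalIdeal_eq]
    intro hbot
    obtain ⟨x, hx, hx0⟩ := Submodule.exists_mem_ne_zero_of_ne_bot h𝔭bot
    have hxmem : algebraMap B A x ∈ maximalIdeal A := by
      rw [hmax]; exact Ideal.mem_map_of_mem _ hx
    rw [hbot, Ideal.mem_bot] at hxmem
    exact hx0 (hinj (by rw [hxmem, map_zero]))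
  have huniq : ∀ P : Ideal A, P ≠ ⊥ → P.IsPrime → P = maximalIdeal A := by
    intro P hP hPprime
    have hP' : (P.comap (algebraMap B A)).IsPrime := Ideal.comap_isPrime _ _
    have hmapcomap : (P.comap (algebraMap B A)).map (algebraMap B A) = P :=
      IsLocalization.map_comap 𝔭.primeCompl A P
    have hle : P.comap (algebraMap B A) ≤ 𝔭 := by
      have hdisj : Disjoint (𝔭.primeCompl : Set B) (P.comap (algebraMap B A) : Set B) :=
        ((IsLocalization.isPrime_iff_isPrime_disjoint 𝔭.primeCompl A P).1 hPprime).2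
      intro x hx
      by_contra hx𝔭
      exact Set.disjoint_left.1 hdisj hx𝔭 hx
    have hne : P.comap (algebraMap B A) ≠ ⊥ := by
      intro h0
      apply hP
      rw [← hmapcomap, h0, Ideal.map_bot]
    have h1 : 𝔭.height ≤ (P.comap (algebraMap B A)).height := by
      rw [h]
      rw [Order.one_le_iff_pos, pos_iff_ne_zero]
      intro h0
      rw [Ideal.height_eq_zero_iff, IsDomain.minimalPrimes_eq_singleton_bot,
        Set.mem_singleton_iff] at h0
      exact hne h0
    have hfin : (P.comap (algebraMap B A)).FiniteHeight := by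
      refine ⟨Or.inr ?_⟩
      intro htop
      have h2 := Ideal.height_mono hle
      rw [htop, h, top_le_iff] at h2
      exact ENat.one_ne_top h2
    have heq : P.comap (algebraMap B A) = 𝔭 := by
      by_contra hne'
      have hlt : P.comap (algebraMap B A) < 𝔭 := lt_of_le_of_ne hle hne'
      have h3 := Ideal.height_strict_mono_of_isPrime hlt
      exact absurd (lt_of_lt_of_le h3 h1) (lt_irrefl _)
    calc P = (P.comap (algebraMap B A)).map (algebraMap B A) := hmapcomap.symm
      _ = 𝔭.map (algebraMap B A) := by rw [heq]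
      _ = maximalIdeal A := hmax.symm
  have htfae := (IsDiscreteValuationRing.TFAE A hnf).out 0 3
  rw [htfae]
  refine ⟨inferInstance, maximalIdeal A, ⟨?_, inferInstance⟩, ?_⟩
  · exact isField_iff_maximalIdeal_eq.not.1 hnf
  · rintro P ⟨hP, hPprime⟩
    exact huniq P hP hPprime

/-- `B_𝔓` is a valuation ring (elementwise). -/
theorem exists_dvd_or_dvd_of_height_one (𝔭 : Ideal B) [h𝔭 : 𝔭.IsPrime] (h : 𝔭.height = 1)
    (a c : B) : ∃ s : B, s ∉ 𝔭 ∧ (c ∣ s * a ∨ a ∣ s * c) := by
  haveI := isDiscreteValuationRing_atPrime_of_height_one 𝔭 h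
  haveI : ValuationRing (Localization.AtPrime 𝔭) :=
    ValuationRing.iff_local_bezout_domain.mpr ⟨inferInstance, inferInstance⟩
  have hinj : Function.Injective (algebraMap B (Localization.AtPrime 𝔭)) :=
    IsLocalization.injective _ 𝔭.primeCompl_le_nonZeroDivisors
  have key : ∀ a c : B, algebraMap B (Localization.AtPrime 𝔭) a ∣
      algebraMap B (Localization.AtPrime 𝔭) c → ∃ s : B, s ∉ 𝔭 ∧ a ∣ s * c := by
    intro a c ⟨r, hr⟩
    obtain ⟨r₁, ⟨s₁, hs₁⟩, rfl⟩ := IsLocalization.exists_mk'_eq 𝔭.primeCompl r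
    refine ⟨s₁, hs₁, r₁, ?_⟩
    apply hinj
    have h1 : IsLocalization.mk' (Localization.AtPrime 𝔭) r₁ ⟨s₁, hs₁⟩ *
        algebraMap B (Localization.AtPrime 𝔭) s₁ = algebraMap B (Localization.AtPrime 𝔭) r₁ :=
      IsLocalization.mk'_spec _ r₁ ⟨s₁, hs₁⟩
    rw [map_mul, map_mul, hr, ← h1]
    ring
  rcases ValuationRing.dvd_total (algebraMap B (Localization.AtPrime 𝔭) a)
      (algebraMap B (Localization.AtPrime 𝔭) c) with h1 | h1
  · obtain ⟨s, hs, hd⟩ := key a c h1
    exact ⟨s, hs, Or.inr hd⟩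
  · obtain ⟨s, hs, hd⟩ := key c a h1
    exact ⟨s, hs, Or.inl hd⟩

end HeightOne

section Dominate

variable {B : Type*} [CommRing B] [IsDomain B]
  {Ω : Type*} [Field Ω] [Algebra B Ω] [FaithfulSMul B Ω]

/-- A valuation subring of `Ω ⊇ B` dominating `B_𝔓`. -/
theorem exists_valuationSubring_dominating (𝔭 : Ideal B) [h𝔭 : 𝔭.IsPrime] :
    ∃ O : ValuationSubring Ω, (∀ b : B, algebraMap B Ω b ∈ O) ∧
      (∀ b : B, b ∉ 𝔭 → (algebraMap B Ω b)⁻¹ ∈ O) ∧
      (∀ b : B, b ∈ 𝔭 → b ≠ 0 → (algebraMap B Ω b)⁻¹ ∉ O) := by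
  classical
  have hinj : Function.Injective (algebraMap B Ω) := FaithfulSMul.algebraMap_injective B Ω
  have hunit : ∀ y : 𝔭.primeCompl, IsUnit (algebraMap B Ω y) := by
    intro y
    rw [isUnit_iff_ne_zero]
    intro h0
    have : (y : B) = 0 := hinj (by rw [h0, map_zero])
    exact y.2 (this ▸ 𝔭.zero_mem)
  let f : Localization.AtPrime 𝔭 →+* Ω := IsLocalization.lift hunit
  have hf : ∀ b : B, f (algebraMap B (Localization.AtPrime 𝔭) b) = algebraMap B Ω b :=
    fun b => IsLocalization.lift_eq hunit b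
  have hfinj : Function.Injective f := by
    rw [IsLocalization.lift_injective_iff]
    intro a b
    rw [(IsLocalization.injective (Localization.AtPrime 𝔭)
      𝔭.primeCompl_le_nonZeroDivisors).eq_iff, hinj.eq_iff]
  let A : LocalSubring Ω := LocalSubring.range f
  obtain ⟨O, hO⟩ := A.exists_le_valuationSubring
  obtain ⟨hle, hloc⟩ := hO
  have hAmem : ∀ r : Localization.AtPrime 𝔭, f r ∈ A.toSubring := fun r => ⟨r, rfl⟩
  have hOmem : ∀ r : Localization.AtPrime 𝔭, f r ∈ O := fun r => hle (hAmem r)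
  refine ⟨O, fun b => ?_, fun b hb => ?_, fun b hb hb0 hinv => ?_⟩
  · rw [← hf b]
    exact hOmem _
  · have h1 : f (IsLocalization.mk' (Localization.AtPrime 𝔭) 1 (⟨b, hb⟩ : 𝔭.primeCompl)) =
        (algebraMap B Ω b)⁻¹ := by
      have hb0 : algebraMap B Ω b ≠ 0 := (hunit ⟨b, hb⟩).ne_zero
      rw [IsLocalization.lift_mk'_spec, map_one]
      exact (mul_inv_cancel₀ hb0).symm
    rw [← h1]
    exact hOmem _
  · -- `algebraMap b` would be a unit of `O`, hence of `A`, hence of `B_𝔓`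
    have hb' : algebraMap B Ω b ≠ 0 := fun h0 => hb0 (hinj (by rw [h0, map_zero]))
    let xA : A.toSubring := ⟨algebraMap B Ω b, by rw [← hf b]; exact hAmem _⟩
    have hu : IsUnit (Subring.inclusion hle xA) := by
      rw [isUnit_iff_exists_inv]
      refine ⟨⟨(algebraMap B Ω b)⁻¹, hinv⟩, ?_⟩
      apply Subtype.ext
      change algebraMap B Ω b * (algebraMap B Ω b)⁻¹ = 1
      exact mul_inv_cancel₀ hb'
    have hu' : IsUnit xA := hloc.map_nonunit xA hu
    obtain ⟨⟨y, r, hr⟩, hy⟩ := isUnit_iff_exists_inv.1 hu'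
    have h2 : algebraMap B Ω b * f r = 1 := by
      have := congrArg Subtype.val hy
      simpa [xA, ← hr] using this
    have h3 : f (algebraMap B (Localization.AtPrime 𝔭) b * r) = f 1 := by
      rw [map_mul, hf, h2, map_one]
    have h4 : algebraMap B (Localization.AtPrime 𝔭) b * r = 1 := hfinj h3
    have h5 : IsUnit (algebraMap B (Localization.AtPrime 𝔭) b) :=
      IsUnit.of_mul_eq_one _ h4
    have h6 := (IsLocalization.AtPrime.isUnit_to_map_iff (Localization.AtPrime 𝔭) 𝔭 b).1 h5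
    exact h6 hb

end Dominate

end Fermat.Agent.S18.H754

end

end
-- ===== PACK-END S18/H754/HncUnram.lean

-- ===== PACK-BEGIN S18/H754/IntLoc.lean
section


/-!
# S18 / Route K / étale Kummer cover: the ring `O'` (integral closure of `B_(ϖ)`) elementwise
-/

set_option autoImplicit false

noncomputable section

namespace Fermat.Agent.S18.H754

section IntLoc

variable {B : Type*} [CommRing B] {F' : Type*} [Field F'] [Algebra B F']

/-- The ring `O'` of elements of `F'` which become integral over `B` after multiplication by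
some `s ∈ B ∖ ϖB` (the integral closure of `B_(ϖ)` in `F'`). -/
def Oloc (ϖ : B) (hϖ : Prime ϖ) : Subring F' where
  carrier := {y | ∃ s : B, s ∉ Ideal.span {ϖ} ∧ IsIntegral B (algebraMap B F' s * y)}
  mul_mem' := by
    rintro x y ⟨s, hs, hx⟩ ⟨s', hs', hy⟩
    refine ⟨s * s', ?_, ?_⟩
    · intro h
      rw [Ideal.mem_span_singleton] at h hs hs'
      rcases hϖ.dvd_or_dvd h with h | h
      · exact hs h
      · exact hs' h
    · have e : algebraMap B F' (s * s') * (x * y) =
          (algebraMap B F' s * x) * (algebraMap B F' s' * y) := by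
        rw [map_mul]; ring
      rw [e]
      exact hx.mul hy
  one_mem' := by
    refine ⟨1, ?_, ?_⟩
    · rw [Ideal.mem_span_singleton]
      exact fun h => hϖ.not_unit (isUnit_of_dvd_one h)
    · rw [map_one, mul_one]
      exact isIntegral_one
  add_mem' := by
    rintro x y ⟨s, hs, hx⟩ ⟨s', hs', hy⟩
    refine ⟨s * s', ?_, ?_⟩
    · intro h
      rw [Ideal.mem_span_singleton] at h hs hs'
      rcases hϖ.dvd_or_dvd h with h | h
      · exact hs h
      · exact hs' h
    · have h1 : IsIntegral B (algebraMap B F' s' * (algebraMap B F' s * x)) :=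
        (isIntegral_algebraMap).mul hx
      have h2 : IsIntegral B (algebraMap B F' s * (algebraMap B F' s' * y)) :=
        (isIntegral_algebraMap).mul hy
      have e : algebraMap B F' (s * s') * (x + y) =
          algebraMap B F' s' * (algebraMap B F' s * x) +
            algebraMap B F' s * (algebraMap B F' s' * y) := by
        rw [map_mul]; ring
      rw [e]
      exact h1.add h2
  zero_mem' := by
    refine ⟨1, ?_, ?_⟩
    · rw [Ideal.mem_span_singleton]
      exact fun h => hϖ.not_unit (isUnit_of_dvd_one h)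
    · rw [mul_zero]
      exact isIntegral_zero
  neg_mem' := by
    rintro x ⟨s, hs, hx⟩
    refine ⟨s, hs, ?_⟩
    rw [mul_neg]
    exact hx.neg

lemma mem_Oloc {ϖ : B} {hϖ : Prime ϖ} {y : F'} :
    y ∈ Oloc (F' := F') ϖ hϖ ↔
      ∃ s : B, s ∉ Ideal.span {ϖ} ∧ IsIntegral B (algebraMap B F' s * y) := Iff.rfl

lemma mem_Oloc_of_isIntegral {ϖ : B} (hϖ : Prime ϖ) {y : F'} (hy : IsIntegral B y) :
    y ∈ Oloc (F' := F') ϖ hϖ := by
  refine ⟨1, ?_, ?_⟩
  · rw [Ideal.mem_span_singleton]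
    exact fun h => hϖ.not_unit (isUnit_of_dvd_one h)
  · rw [map_one, one_mul]
    exact hy

lemma algebraMap_mem_Oloc {ϖ : B} (hϖ : Prime ϖ) (b : B) :
    algebraMap B F' b ∈ Oloc (F' := F') ϖ hϖ :=
  mem_Oloc_of_isIntegral hϖ isIntegral_algebraMap

/-- `ϖ O'` in terms of `O'`. -/
lemma inPiO_iff [FaithfulSMul B F'] {ϖ : B} (hϖ : Prime ϖ) {y : F'} :
    InPiO ϖ y ↔ ∃ y' ∈ Oloc (F' := F') ϖ hϖ, y = algebraMap B F' ϖ * y' := by
  have hinj : Function.Injective (algebraMap B F') := FaithfulSMul.algebraMap_injective B F'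
  constructor
  · rintro ⟨s, hs, c, hc, h⟩
    have hs0 : algebraMap B F' s ≠ 0 := by
      intro h0
      apply hs
      have : s = 0 := hinj (by rw [h0, map_zero])
      rw [this]
      exact Ideal.zero_mem _
    refine ⟨c / algebraMap B F' s, ⟨s, hs, ?_⟩, ?_⟩
    · rw [mul_div_cancel₀ _ hs0]
      exact hc
    · field_simp
      rw [mul_comm]
      exact h
  · rintro ⟨y', ⟨s, hs, hy'⟩, rfl⟩
    exact ⟨s, hs, _, hy', by ring⟩

lemma InPiO.add [FaithfulSMul B F'] {ϖ : B} (hϖ : Prime ϖ) {x y : F'}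
    (hx : InPiO ϖ x) (hy : InPiO ϖ y) : InPiO ϖ (x + y) := by
  rw [inPiO_iff hϖ] at hx hy ⊢
  obtain ⟨x', hx', rfl⟩ := hx
  obtain ⟨y', hy', rfl⟩ := hy
  exact ⟨x' + y', add_mem hx' hy', by ring⟩

lemma InPiO.neg [FaithfulSMul B F'] {ϖ : B} (hϖ : Prime ϖ) {x : F'}
    (hx : InPiO ϖ x) : InPiO ϖ (-x) := by
  rw [inPiO_iff hϖ] at hx ⊢
  obtain ⟨x', hx', rfl⟩ := hx
  exact ⟨-x', neg_mem hx', by ring⟩

lemma InPiO.sub [FaithfulSMul B F'] {ϖ : B} (hϖ : Prime ϖ) {x y : F'}
    (hx : InPiO ϖ x) (hy : InPiO ϖ y) : InPiO ϖ (x - y) := by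
  rw [sub_eq_add_neg]
  exact hx.add hϖ (hy.neg hϖ)

lemma InPiO.mul_left [FaithfulSMul B F'] {ϖ : B} (hϖ : Prime ϖ) {x y : F'}
    (hx : x ∈ Oloc (F' := F') ϖ hϖ) (hy : InPiO ϖ y) : InPiO ϖ (x * y) := by
  rw [inPiO_iff hϖ] at hy ⊢
  obtain ⟨y', hy', rfl⟩ := hy
  exact ⟨x * y', mul_mem hx hy', by ring⟩

lemma InPiO.mul_right [FaithfulSMul B F'] {ϖ : B} (hϖ : Prime ϖ) {x y : F'}
    (hx : InPiO ϖ x) (hy : y ∈ Oloc (F' := F') ϖ hϖ) : InPiO ϖ (x * y) := by
  rw [mul_comm]
  exact hx.mul_left hϖ hy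

lemma InPiO.zero [FaithfulSMul B F'] {ϖ : B} (hϖ : Prime ϖ) : InPiO ϖ (0 : F') := by
  rw [inPiO_iff hϖ]
  exact ⟨0, zero_mem _, by ring⟩

lemma InPiO.sum [FaithfulSMul B F'] {ϖ : B} (hϖ : Prime ϖ) {ι : Type*} (s : Finset ι)
    (f : ι → F') (h : ∀ i ∈ s, InPiO ϖ (f i)) : InPiO ϖ (∑ i ∈ s, f i) := by
  classical
  induction s using Finset.induction_on with
  | empty => simpa using InPiO.zero hϖ
  | insert a s ha ih =>
    rw [Finset.sum_insert ha]
    exact (h a (Finset.mem_insert_self a s)).add hϖ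
      (ih fun i hi => h i (Finset.mem_insert_of_mem hi))

/-- `x ≡ y mod ϖ O'` implies `x ^ a ≡ y ^ a`. -/
lemma InPiO.pow_sub_pow [FaithfulSMul B F'] {ϖ : B} (hϖ : Prime ϖ) {x y : F'}
    (hx : x ∈ Oloc (F' := F') ϖ hϖ) (hy : y ∈ Oloc (F' := F') ϖ hϖ)
    (h : InPiO ϖ (x - y)) (a : ℕ) : InPiO ϖ (x ^ a - y ^ a) := by
  have h1 : x ^ a - y ^ a = (∑ i ∈ Finset.range a, x ^ i * y ^ (a - 1 - i)) * (x - y) :=
    (Commute.all x y).geom_sum₂_mul a |>.symm
  rw [h1]
  refine h.mul_left hϖ ?_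
  exact sum_mem fun i _ => mul_mem (pow_mem hx _) (pow_mem hy _)

end IntLoc

end Fermat.Agent.S18.H754

end

end
-- ===== PACK-END S18/H754/IntLoc.lean

-- ===== PACK-BEGIN A2/Alg/H348/Roots.lean
section




/-!
# A2 / ALG / GLUE, `hconst` part, step 3: roots of unity in a henselian local ring

`R` henselian local with algebraically closed residue field of characteristic `q ∤ m`:
`m` is a unit of `R` and `R` contains a primitive `m`-th root of unity.
-/

set_option autoImplicit false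
set_option linter.unusedSectionVars false

open Polynomial IsLocalRing

namespace Fermat.Agent.A2.Alg.H348

variable {R : Type*} [CommRing R] [IsLocalRing R]

theorem natCast_residue_ne_zero (q m : ℕ) (hq : q.Prime) (hqR : (q : R) ∈ maximalIdeal R)
    (hqm : ¬ q ∣ m) : (m : ResidueField R) ≠ 0 := by
  intro hm0
  apply hqm
  have h1 : ((q : ℕ) : ResidueField R) = 0 := by
    rw [← map_natCast (residue R)]
    exact (residue_eq_zero_iff _).mpr hqR
  have hdq : ringChar (ResidueField R) ∣ q := ringChar.dvd h1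
  have hdm : ringChar (ResidueField R) ∣ m := ringChar.dvd hm0
  rcases (Nat.dvd_prime hq).mp hdq with h | h
  · exact absurd h CharP.ringChar_ne_one
  · rwa [h] at hdm

theorem isUnit_natCast (q m : ℕ) (hq : q.Prime) (hqR : (q : R) ∈ maximalIdeal R)
    (hqm : ¬ q ∣ m) : IsUnit (m : R) := by
  rw [← IsLocalRing.notMem_maximalIdeal]
  intro h
  apply natCast_residue_ne_zero (R := R) q m hq hqR hqm
  rw [← map_natCast (residue R)]
  exact (residue_eq_zero_iff _).mpr h

theorem exists_primitiveRoot [HenselianLocalRing R] [IsAlgClosed (ResidueField R)] (q m : ℕ)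
    (hq : q.Prime) (hqR : (q : R) ∈ maximalIdeal R) (hm : 0 < m) (hqm : ¬ q ∣ m) :
    ∃ ζ : R, IsPrimitiveRoot ζ m := by
  have hmk := natCast_residue_ne_zero (R := R) q m hq hqR hqm
  haveI : NeZero (m : ResidueField R) := ⟨hmk⟩
  obtain ⟨ζ₀, hζ₀⟩ := HasEnoughRootsOfUnity.exists_primitiveRoot (ResidueField R) m
  have hζ₀0 : ζ₀ ≠ 0 := hζ₀.ne_zero hm.ne'
  obtain ⟨ζ, hζ, hres⟩ := Fermat.Agent.A2.H552.exists_root_of_residue_simple_root
    (X ^ m - C (1 : R)) (monic_X_pow_sub_C 1 hm.ne') ζ₀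
    (by simp [hζ₀.pow_eq_one])
    (by
      simp only [Polynomial.map_sub, Polynomial.map_pow, map_X, map_C, derivative_sub,
        derivative_X_pow, derivative_C, sub_zero, eval_mul, eval_C, eval_pow, eval_X]
      exact mul_ne_zero hmk (pow_ne_zero _ hζ₀0))
  have hpow : ζ ^ m = 1 := by
    have : (X ^ m - C (1 : R) : R[X]).eval ζ = 0 := hζ
    simpa [sub_eq_zero] using this
  refine ⟨ζ, ⟨hpow, fun l hl => ?_⟩⟩
  apply hζ₀.dvd_of_pow_eq_one
  rw [← hres, ← map_pow, hl, map_one]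

end Fermat.Agent.A2.Alg.H348

end
-- ===== PACK-END A2/Alg/H348/Roots.lean

-- ===== PACK-BEGIN A2/H708/GaussInf.lean
section




/-!
# A2 (helper708): the Gauss valuation at `∞`, generic construction

`L ⊇ ℚ` a field, `A` a valuation subring of `L`, `F₀ ⊆ ℚ((t))` a field,
`F = laurentBaseChange L F₀ = L·F₀ ⊆ L((t))`.  Hypotheses:

* `IntGen F₀` : every element of `F₀` is a fraction of series with INTEGER coefficients lying in
  `F₀` (true for `modularFunctionFieldFull N`, all `N`: see `GaussInfModular.lean`);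
* `AttainsMax A F₀` : a nonzero element of `F` with bounded denominators has a coefficient of
  maximal valuation (true if `A` is noetherian, e.g. a DVR: `attainsMax_of_isNoetherianRing`;
  true for every valuation subring of `ℚ̄` over a prime: `GaussInfQbar.lean`).

Results:

* `exists_normal_form` : every `f ∈ Fˣ` satisfies `f · U₂ = c · U₁` with `c ∈ Lˣ` and `U₁, U₂`
  PRIMITIVE `A`-integral series in `F` (nonzero reduction).
* `gaussInf A F₀ hgen hmax : ValuationSubring F` : the Gauss valuation ring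
  `{U₁ / U₂ : U₂ primitive}`; `mem_gaussInf_iff`, `algebraMap_mem_gaussInf_iff`
  (`V ∩ L = A`), `exists_const_mul_unit` (value group of `V` = value group of `A`),
  `valuation_lt_one_iff'` (description of the maximal ideal).
* `redInf : gaussInf →+* k((t))`, `redInf_eq_zero_iff` (kernel = maximal ideal),
  `redInf_of_incl` (on integral series it is the coefficientwise reduction).
-/

set_option autoImplicit false

noncomputable section

namespace Fermat.Agent.A2.H708

open ModularCurve HahnSeries IntermediateField Fermat.Agent.S18.H602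

variable {L : Type*} [Field L] (A : ValuationSubring L)

/-- inclusion of `A`-integral series. -/
abbrev incl : LaurentSeries A →+* LaurentSeries L := coeffMap A.subtype

/-- reduction of `A`-integral series. -/
abbrev red : LaurentSeries A →+* LaurentSeries (IsLocalRing.ResidueField A) :=
  coeffMap (IsLocalRing.residue A)

/-- constants. -/
abbrev cst (c : L) : LaurentSeries L := algebraMap L (LaurentSeries L) c

theorem incl_injective : Function.Injective (incl A) :=
  coeffMap_injective A.subtype Subtype.val_injective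

theorem coeff_cst_mul (c : L) (x : LaurentSeries L) (n : ℤ) :
    (cst c * x).coeff n = c * x.coeff n := by
  rw [cst, algebraMap_laurentSeries_eq_single, HahnSeries.coeff_single_zero_mul]

theorem cst_mul (c d : L) : cst (c * d) = cst c * cst d := map_mul _ _ _

theorem cst_one : cst (1 : L) = 1 := map_one _

theorem cst_ne_zero {c : L} (hc : c ≠ 0) : cst c ≠ 0 := by
  intro h
  have := congrArg (fun z => z.coeff 0) h
  simp [cst, algebraMap_laurentSeries_eq_single] at this
  exact hc this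

theorem cst_inv_mul_cst {c : L} (hc : c ≠ 0) : cst c⁻¹ * cst c = 1 := by
  rw [← cst_mul, inv_mul_cancel₀ hc, cst_one]

theorem cst_mul_cst_inv {c : L} (hc : c ≠ 0) : cst c * cst c⁻¹ = 1 := by
  rw [← cst_mul, mul_inv_cancel₀ hc, cst_one]

/-- constants of `A` as integral series. -/
def cstA (a : A) : LaurentSeries A := HahnSeries.single 0 a

theorem incl_cstA (a : A) : incl A (cstA A a) = cst (a : L) := by
  rw [cstA, cst, algebraMap_laurentSeries_eq_single, coeffMap_single]
  rfl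

theorem red_cstA (a : A) :
    red A (cstA A a) = HahnSeries.single 0 (IsLocalRing.residue A a) := by
  rw [cstA, coeffMap_single]

theorem coeff_incl (U : LaurentSeries A) (n : ℤ) : (incl A U).coeff n = ((U.coeff n : A) : L) :=
  rfl

theorem red_eq_zero_iff (U : LaurentSeries A) :
    red A U = 0 ↔ ∀ n, A.valuation ((U.coeff n : A) : L) < 1 := by
  constructor
  · intro h n
    have := congrArg (fun z => z.coeff n) h
    simp only [coeffMap_coeff, HahnSeries.coeff_zero, IsLocalRing.residue_eq_zero_iff] at this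
    exact (A.valuation_lt_one_iff _).mp this
  · intro h
    ext n
    simp only [coeffMap_coeff, HahnSeries.coeff_zero, IsLocalRing.residue_eq_zero_iff]
    exact (A.valuation_lt_one_iff _).mpr (h n)

theorem red_ne_zero_iff (U : LaurentSeries A) :
    red A U ≠ 0 ↔ ∃ n, A.valuation ((U.coeff n : A) : L) = 1 := by
  rw [Ne, red_eq_zero_iff]
  constructor
  · intro h
    by_contra hcon
    apply h
    intro n
    have h1 : A.valuation ((U.coeff n : A) : L) ≤ 1 := (A.valuation_le_one_iff _).mpr (U.coeff n).2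
    exact lt_of_le_of_ne h1 (fun h2 => hcon ⟨n, h2⟩)
  · rintro ⟨n, hn⟩ h
    exact (h n).ne hn

theorem ne_zero_of_red_ne_zero {U : LaurentSeries A} (h : red A U ≠ 0) : U ≠ 0 := by
  rintro rfl
  exact h (map_zero _)

theorem incl_ne_zero {U : LaurentSeries A} (h : U ≠ 0) : incl A U ≠ 0 :=
  fun h0 => h (incl_injective A (h0.trans (map_zero _).symm))

/-- Lifting a series with coefficients in `A`. -/
theorem exists_incl_eq {x : LaurentSeries L} (h : ∀ n, x.coeff n ∈ A) :
    ∃ U : LaurentSeries A, incl A U = x :=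
  exists_coeffMap_eq A.subtype Subtype.val_injective x (fun n => ⟨⟨x.coeff n, h n⟩, rfl⟩)

/-- If `c · (primitive) = integral` then `c ∈ A`. -/
theorem mem_of_cst_mul_prim {c : L} {U U' : LaurentSeries A} (hU : red A U ≠ 0)
    (h : cst c * incl A U = incl A U') : c ∈ A := by
  obtain ⟨n, hn⟩ := (red_ne_zero_iff A U).mp hU
  have h1 := congrArg (fun z => z.coeff n) h
  simp only [coeff_cst_mul, coeff_incl] at h1
  rw [← A.valuation_le_one_iff]
  have h2 : A.valuation (c * ((U.coeff n : A) : L)) ≤ 1 := by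
    rw [h1]; exact (A.valuation_le_one_iff _).mpr (U'.coeff n).2
  rwa [map_mul, hn, mul_one] at h2

/-- If `c · (primitive) = integral with zero reduction` then `v(c) < 1`. -/
theorem valuation_lt_one_of_cst_mul_prim {c : L} {U U' : LaurentSeries A} (hU : red A U ≠ 0)
    (hU' : red A U' = 0) (h : cst c * incl A U = incl A U') : A.valuation c < 1 := by
  obtain ⟨n, hn⟩ := (red_ne_zero_iff A U).mp hU
  have h1 := congrArg (fun z => z.coeff n) h
  simp only [coeff_cst_mul, coeff_incl] at h1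
  have h2 : A.valuation (c * ((U.coeff n : A) : L)) < 1 := by
    rw [h1]; exact (red_eq_zero_iff A U').mp hU' n
  rwa [map_mul, hn, mul_one] at h2

/-- `c · integral` with `v(c) < 1` has zero reduction. -/
theorem red_eq_zero_of_cst_mul {c : L} (hc : A.valuation c < 1) {U U' : LaurentSeries A}
    (h : cst c * incl A U = incl A U') : red A U' = 0 := by
  rw [red_eq_zero_iff]
  intro n
  have h1 := congrArg (fun z => z.coeff n) h
  simp only [coeff_cst_mul, coeff_incl] at h1
  rw [← h1, map_mul]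
  calc A.valuation c * A.valuation ((U.coeff n : A) : L) ≤ A.valuation c * 1 := by
        exact mul_le_mul_right ((A.valuation_le_one_iff _).mpr (U.coeff n).2) _
    _ = A.valuation c := mul_one _
    _ < 1 := hc


/-! ## Attained maximum and normalisation -/

section attained

variable [Algebra ℚ L] (F₀ : IntermediateField ℚ (LaurentSeries ℚ))

/-- A nonzero element of `F = L·F₀` with bounded denominators has a coefficient of maximal
valuation. -/
def AttainsMax : Prop :=
  ∀ x : LaurentSeries L, x ∈ laurentBaseChange L F₀ → x ≠ 0 →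
    (∃ d : L, d ≠ 0 ∧ ∀ n, d * x.coeff n ∈ A) →
    ∃ n₀, x.coeff n₀ ≠ 0 ∧ ∀ n, A.valuation (x.coeff n) ≤ A.valuation (x.coeff n₀)

omit [Algebra ℚ L] in
/-- The maximum is attained for every bounded series when `A` is noetherian (e.g. a DVR). -/
theorem exists_max_coeff_of_isNoetherianRing [IsNoetherianRing A] {x : LaurentSeries L}
    (hx0 : x ≠ 0) (hb : ∃ d : L, d ≠ 0 ∧ ∀ n, d * x.coeff n ∈ A) :
    ∃ n₀, x.coeff n₀ ≠ 0 ∧ ∀ n, A.valuation (x.coeff n) ≤ A.valuation (x.coeff n₀) := by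
  classical
  obtain ⟨d, hd0, hd⟩ := hb
  have hM : Submodule.span A (Set.range x.coeff) ≤ Submodule.span A {d⁻¹} := by
    rw [Submodule.span_le]
    rintro _ ⟨n, rfl⟩
    rw [SetLike.mem_coe, Submodule.mem_span_singleton]
    refine ⟨⟨d * x.coeff n, hd n⟩, ?_⟩
    show (d * x.coeff n) * d⁻¹ = x.coeff n
    field_simp
  have hfg : (Submodule.span A (Set.range x.coeff)).FG :=
    Submodule.FG.of_le (Submodule.fg_span_singleton _) hM
  obtain ⟨s, hs, hspan⟩ := (Submodule.fg_span_iff_fg_span_finset_subset _).mp hfg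
  obtain ⟨n₁, hn₁⟩ : ∃ n, x.coeff n ≠ 0 := by
    by_contra h
    push Not at h
    exact hx0 (HahnSeries.ext (funext h))
  have hsne : s.Nonempty := by
    by_contra h
    rw [Finset.not_nonempty_iff_eq_empty] at h
    rw [h, Finset.coe_empty, Submodule.span_empty] at hspan
    have : x.coeff n₁ ∈ Submodule.span A (Set.range x.coeff) :=
      Submodule.subset_span ⟨n₁, rfl⟩
    rw [hspan, Submodule.mem_bot] at this
    exact hn₁ this
  obtain ⟨e₀, he₀, hmax⟩ := Finset.exists_max_image s (fun e => A.valuation e) hsne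
  obtain ⟨n₀, rfl⟩ := hs he₀
  have key : ∀ z ∈ Submodule.span A (s : Set L), A.valuation z ≤ A.valuation (x.coeff n₀) := by
    intro z hz
    induction hz using Submodule.span_induction with
    | mem z hz => exact hmax z hz
    | zero => simp
    | add a b _ _ ha hb => exact (A.valuation.map_add a b).trans (max_le ha hb)
    | smul r z _ hz =>
      have : r • z = (r : L) * z := rfl
      rw [this, map_mul]
      calc A.valuation (r : L) * A.valuation z ≤ 1 * A.valuation z := by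
            exact mul_le_mul_left ((A.valuation_le_one_iff _).mpr r.2) _
        _ = A.valuation z := one_mul _
        _ ≤ _ := hz
  have hall : ∀ n, A.valuation (x.coeff n) ≤ A.valuation (x.coeff n₀) := fun n =>
    key _ (hspan ▸ Submodule.subset_span ⟨n, rfl⟩)
  refine ⟨n₀, ?_, hall⟩
  intro h0
  have h1 := hall n₁
  rw [h0, map_zero] at h1
  have h2 : A.valuation (x.coeff n₁) = 0 := le_antisymm h1 zero_le
  rw [map_eq_zero] at h2
  exact hn₁ h2

theorem attainsMax_of_isNoetherianRing [IsNoetherianRing A] : AttainsMax A F₀ :=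
  fun _ _ hx0 hb => exists_max_coeff_of_isNoetherianRing A hx0 hb

variable {A F₀}

/-- **Normalisation.** A nonzero `A`-integral element of `F` is a constant times a primitive
`A`-integral series. -/
theorem exists_prim_scale (hmax : AttainsMax A F₀) {U : LaurentSeries A}
    (hU : incl A U ∈ laurentBaseChange L F₀) (hU0 : U ≠ 0) :
    ∃ (c : A) (U' : LaurentSeries A), c ≠ 0 ∧ red A U' ≠ 0 ∧ U = cstA A c * U' ∧
      incl A U' ∈ laurentBaseChange L F₀ := by
  have hx0 : incl A U ≠ 0 := incl_ne_zero A hU0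
  obtain ⟨n₀, hn₀, hmax'⟩ := hmax _ hU hx0
    ⟨1, one_ne_zero, fun n => by rw [one_mul]; exact (U.coeff n).2⟩
  set c : A := U.coeff n₀ with hc
  have hcQ : (c : L) ≠ 0 := hn₀
  have hc0 : c ≠ 0 := fun h => hcQ (by rw [h]; rfl)
  have hint : ∀ n, (cst (c : L)⁻¹ * incl A U).coeff n ∈ A := by
    intro n
    rw [coeff_cst_mul, ← A.valuation_le_one_iff, map_mul, map_inv₀]
    have hv0 : A.valuation (c : L) ≠ 0 := (Valuation.ne_zero_iff _).mpr hcQ
    rw [inv_mul_le_iff₀ (zero_lt_iff.mpr hv0), mul_one]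
    exact hmax' n
  obtain ⟨U', hU'⟩ := exists_incl_eq A hint
  have hmul : U = cstA A c * U' := by
    apply incl_injective A
    rw [map_mul, incl_cstA, hU', ← mul_assoc, ← cst_mul, mul_inv_cancel₀ hcQ, cst_one, one_mul]
  refine ⟨c, U', hc0, ?_, hmul, ?_⟩
  · rw [red_ne_zero_iff]
    refine ⟨n₀, ?_⟩
    have h1 : ((U'.coeff n₀ : A) : L) = (c : L)⁻¹ * (incl A U).coeff n₀ := by
      rw [← coeff_cst_mul, ← hU']
      rfl
    rw [h1]
    have h2 : (incl A U).coeff n₀ = (c : L) := rfl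
    rw [h2, inv_mul_cancel₀ hcQ, map_one]
  · rw [hU']
    exact mul_mem ((laurentBaseChange L F₀).algebraMap_mem _) hU

end attained


/-! ## Every element of `F` is a fraction of integral series -/

section frac

variable [Algebra ℚ L] (F₀ : IntermediateField ℚ (LaurentSeries ℚ))

/-- integer series as `A`-integral series. -/
abbrev castA : LaurentSeries ℤ →+* LaurentSeries A := coeffMap (Int.castRingHom A)

/-- integer series as rational series. -/
abbrev castQ : LaurentSeries ℤ →+* LaurentSeries ℚ := coeffMap (Int.castRingHom ℚ)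

theorem incl_castA (P : LaurentSeries ℤ) : incl A (castA A P) = coeffEmb L (castQ P) := by
  rw [incl, castA, coeffMap_coeffMap, coeffEmb, castQ, coeffMap_coeffMap]
  exact coeffMap_congr (RingHom.ext_int _ _) P

theorem castA_injective : Function.Injective (castA A) := by
  have : CharZero L := algebraRat.charZero L
  have hA : Function.Injective (Int.castRingHom A) := by
    intro a b h
    have h1 : ((a : A) : L) = ((b : A) : L) := congrArg Subtype.val h
    have h2 : ((a : ℤ) : L) = ((b : ℤ) : L) := by simpa using h1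
    exact_mod_cast h2
  exact coeffMap_injective _ hA

/-- Every element of `F₀` is a fraction of series with integer coefficients lying in `F₀`. -/
def IntGen : Prop :=
  ∀ z ∈ F₀, ∃ P Q : LaurentSeries ℤ, Q ≠ 0 ∧ castQ Q ∈ F₀ ∧ z * castQ Q = castQ P

/-- `x` is a fraction of `A`-integral series of `F`. -/
def IsFrac (x : LaurentSeries L) : Prop :=
  ∃ U₁ U₂ : LaurentSeries A, U₂ ≠ 0 ∧ incl A U₂ ∈ laurentBaseChange L F₀ ∧
    x * incl A U₂ = incl A U₁

variable {A F₀}

theorem isFrac_of_mem (hgen : IntGen F₀) {x : LaurentSeries L}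
    (hx : x ∈ laurentBaseChange L F₀) : IsFrac A F₀ x := by
  have hF : ∀ y, y ∈ Subfield.closure (Set.range (algebraMap L (LaurentSeries L)) ∪
      ⇑(coeffEmb L) '' (F₀ : Set (LaurentSeries ℚ))) → y ∈ laurentBaseChange L F₀ :=
    fun y hy => mem_laurentBaseChange_iff.mpr hy
  rw [mem_laurentBaseChange_iff] at hx
  induction hx using Subfield.closure_induction with
  | mem y hy =>
    rcases hy with ⟨a, rfl⟩ | ⟨z, hz, rfl⟩
    · rcases A.mem_or_inv_mem a with ha | ha
      · refine ⟨cstA A ⟨a, ha⟩, 1, one_ne_zero, ?_, ?_⟩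
        · rw [map_one]; exact one_mem _
        · rw [map_one, mul_one, incl_cstA]
      · by_cases ha0 : a = 0
        · refine ⟨0, 1, one_ne_zero, ?_, ?_⟩
          · rw [map_one]; exact one_mem _
          · rw [ha0, map_zero, map_zero, zero_mul]
        · refine ⟨1, cstA A ⟨a⁻¹, ha⟩, ?_, ?_, ?_⟩
          · intro h
            have := congrArg (incl A) h
            rw [incl_cstA, map_zero] at this
            exact cst_ne_zero (inv_ne_zero ha0) this
          · rw [incl_cstA]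
            exact (laurentBaseChange L F₀).algebraMap_mem _
          · rw [incl_cstA, map_one]
            exact cst_mul_cst_inv ha0
    · obtain ⟨P, Q, hQ0, hQ, hPQ⟩ := hgen z hz
      refine ⟨castA A P, castA A Q, ?_, ?_, ?_⟩
      · intro h
        exact hQ0 (castA_injective A (h.trans (map_zero _).symm))
      · rw [incl_castA]
        exact coeffEmb_mem_laurentBaseChange L hQ
      · rw [incl_castA, incl_castA, ← map_mul, hPQ]
  | one =>
    refine ⟨1, 1, one_ne_zero, ?_, ?_⟩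
    · rw [map_one]; exact one_mem _
    · rw [map_one, mul_one]
  | add x y hx hy ihx ihy =>
    obtain ⟨U₁, U₂, h0, hm, he⟩ := ihx
    obtain ⟨U₁', U₂', h0', hm', he'⟩ := ihy
    refine ⟨U₁ * U₂' + U₁' * U₂, U₂ * U₂', mul_ne_zero h0 h0', ?_, ?_⟩
    · rw [map_mul]; exact mul_mem hm hm'
    · rw [map_add, map_mul, map_mul, map_mul, ← he, ← he']
      ring
  | neg x hx ihx =>
    obtain ⟨U₁, U₂, h0, hm, he⟩ := ihx
    exact ⟨-U₁, U₂, h0, hm, by rw [map_neg, ← he, neg_mul]⟩
  | inv x hx ihx =>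
    obtain ⟨U₁, U₂, h0, hm, he⟩ := ihx
    by_cases hx0 : x = 0
    · refine ⟨0, 1, one_ne_zero, ?_, ?_⟩
      · rw [map_one]; exact one_mem _
      · rw [hx0, inv_zero, zero_mul, map_zero]
    · have hU₁ : U₁ ≠ 0 := by
        rintro rfl
        rw [map_zero] at he
        rcases mul_eq_zero.mp he with h | h
        · exact hx0 h
        · exact incl_ne_zero A h0 h
      refine ⟨U₂, U₁, hU₁, ?_, ?_⟩
      · rw [← he]
        exact mul_mem (hF x hx) hm
      · rw [← he, ← mul_assoc, inv_mul_cancel₀ hx0, one_mul]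
  | mul x y hx hy ihx ihy =>
    obtain ⟨U₁, U₂, h0, hm, he⟩ := ihx
    obtain ⟨U₁', U₂', h0', hm', he'⟩ := ihy
    refine ⟨U₁ * U₁', U₂ * U₂', mul_ne_zero h0 h0', ?_, ?_⟩
    · rw [map_mul]; exact mul_mem hm hm'
    · rw [map_mul, map_mul, ← he, ← he']
      ring

/-- **Normal form.** Every nonzero `f ∈ F` satisfies `f · U₂ = c · U₁` with `c ∈ Lˣ` and
`U₁`, `U₂` primitive integral series of `F`. -/
theorem exists_normal_form (hgen : IntGen F₀) (hmax : AttainsMax A F₀) {x : LaurentSeries L}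
    (hx : x ∈ laurentBaseChange L F₀) (hx0 : x ≠ 0) :
    ∃ (c : L) (U₁ U₂ : LaurentSeries A), c ≠ 0 ∧ red A U₁ ≠ 0 ∧ red A U₂ ≠ 0 ∧
      incl A U₁ ∈ laurentBaseChange L F₀ ∧ incl A U₂ ∈ laurentBaseChange L F₀ ∧
      x * incl A U₂ = cst c * incl A U₁ := by
  obtain ⟨W₁, W₂, h0, hm, he⟩ := isFrac_of_mem (A := A) hgen hx
  have hW₁0 : W₁ ≠ 0 := by
    rintro rfl
    rw [map_zero] at he
    rcases mul_eq_zero.mp he with h | h
    · exact hx0 h
    · exact incl_ne_zero A h0 h
  have hm₁ : incl A W₁ ∈ laurentBaseChange L F₀ := by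
    rw [← he]; exact mul_mem hx hm
  obtain ⟨c₁, U₁, hc₁, hp₁, rfl, hU₁⟩ := exists_prim_scale hmax hm₁ hW₁0
  obtain ⟨c₂, U₂, hc₂, hp₂, rfl, hU₂⟩ := exists_prim_scale hmax hm h0
  have hc₂L : (c₂ : L) ≠ 0 := fun h => hc₂ (Subtype.ext h)
  have hc₁L : (c₁ : L) ≠ 0 := fun h => hc₁ (Subtype.ext h)
  refine ⟨(c₁ : L) * (c₂ : L)⁻¹, U₁, U₂, mul_ne_zero hc₁L (inv_ne_zero hc₂L), hp₁, hp₂, hU₁,
    hU₂, ?_⟩
  rw [map_mul, map_mul, incl_cstA, incl_cstA] at he
  have h1 : x * incl A U₂ = cst (c₂ : L)⁻¹ * (x * (cst (c₂ : L) * incl A U₂)) := by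
    rw [← mul_assoc, mul_comm (cst _) x, mul_assoc x, ← mul_assoc (cst _), cst_inv_mul_cst hc₂L,
      one_mul]
  rw [h1, he, ← mul_assoc, ← cst_mul, mul_comm (c₂ : L)⁻¹]

end frac


/-! ## The Gauss valuation ring -/

section gauss

variable [Algebra ℚ L] (F₀ : IntermediateField ℚ (LaurentSeries ℚ))

/-- `f = U₁ / U₂` with `U₁, U₂` integral series, `U₂ ∈ F` primitive. -/
def IsGaussInt (f : LaurentSeries L) : Prop :=
  ∃ U₁ U₂ : LaurentSeries A, red A U₂ ≠ 0 ∧ incl A U₂ ∈ laurentBaseChange L F₀ ∧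
    f * incl A U₂ = incl A U₁

variable {A F₀}

theorem IsGaussInt.zero : IsGaussInt A F₀ 0 :=
  ⟨0, 1, by rw [map_one]; exact one_ne_zero, by rw [map_one]; exact one_mem _,
    by rw [zero_mul, map_zero]⟩

theorem IsGaussInt.one : IsGaussInt A F₀ 1 :=
  ⟨1, 1, by rw [map_one]; exact one_ne_zero, by rw [map_one]; exact one_mem _,
    by rw [one_mul]⟩

theorem IsGaussInt.mul {f g : LaurentSeries L} (hf : IsGaussInt A F₀ f)
    (hg : IsGaussInt A F₀ g) : IsGaussInt A F₀ (f * g) := by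
  obtain ⟨U₁, U₂, h0, hm, he⟩ := hf
  obtain ⟨U₁', U₂', h0', hm', he'⟩ := hg
  refine ⟨U₁ * U₁', U₂ * U₂', ?_, ?_, ?_⟩
  · rw [map_mul]; exact mul_ne_zero h0 h0'
  · rw [map_mul]; exact mul_mem hm hm'
  · rw [map_mul, map_mul, ← he, ← he']
    ring

theorem IsGaussInt.add {f g : LaurentSeries L} (hf : IsGaussInt A F₀ f)
    (hg : IsGaussInt A F₀ g) : IsGaussInt A F₀ (f + g) := by
  obtain ⟨U₁, U₂, h0, hm, he⟩ := hf
  obtain ⟨U₁', U₂', h0', hm', he'⟩ := hg
  refine ⟨U₁ * U₂' + U₁' * U₂, U₂ * U₂', ?_, ?_, ?_⟩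
  · rw [map_mul]; exact mul_ne_zero h0 h0'
  · rw [map_mul]; exact mul_mem hm hm'
  · rw [map_add, map_mul, map_mul, map_mul, ← he, ← he']
    ring

theorem IsGaussInt.neg {f : LaurentSeries L} (hf : IsGaussInt A F₀ f) :
    IsGaussInt A F₀ (-f) := by
  obtain ⟨U₁, U₂, h0, hm, he⟩ := hf
  exact ⟨-U₁, U₂, h0, hm, by rw [map_neg, ← he, neg_mul]⟩

/-- integral elements of `F` are Gauss-integral. -/
theorem IsGaussInt.of_incl (U : LaurentSeries A) : IsGaussInt A F₀ (incl A U) :=
  ⟨U, 1, by rw [map_one]; exact one_ne_zero, by rw [map_one]; exact one_mem _,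
    by rw [map_one, mul_one]⟩

/-- In normal form `f · U₂ = c · U₁`: `f` is Gauss-integral iff `c ∈ A`. -/
theorem isGaussInt_iff_of_normal_form {f : LaurentSeries L} {c : L} {U₁ U₂ : LaurentSeries A}
    (h₁ : red A U₁ ≠ 0) (h₂ : red A U₂ ≠ 0) (hm₂ : incl A U₂ ∈ laurentBaseChange L F₀)
    (he : f * incl A U₂ = cst c * incl A U₁) : IsGaussInt A F₀ f ↔ c ∈ A := by
  constructor
  · rintro ⟨W₁, W₂, hW, -, heW⟩
    have key : cst c * incl A (U₁ * W₂) = incl A (W₁ * U₂) := by
      rw [map_mul, map_mul, ← mul_assoc, ← he, ← heW]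
      ring
    refine mem_of_cst_mul_prim A ?_ key
    rw [map_mul]
    exact mul_ne_zero h₁ hW
  · intro hc
    exact ⟨cstA A ⟨c, hc⟩ * U₁, U₂, h₂, hm₂, by rw [map_mul, incl_cstA, he]⟩

omit [Algebra ℚ L] in
/-- In normal form `f · U₂ = c · U₁`, the inverse has normal form `f⁻¹ · U₁ = c⁻¹ · U₂`. -/
theorem normal_form_inv {f : LaurentSeries L} {c : L} {U₁ U₂ : LaurentSeries A}
    (hf : f ≠ 0) (hc : c ≠ 0) (he : f * incl A U₂ = cst c * incl A U₁) :
    f⁻¹ * incl A U₁ = cst c⁻¹ * incl A U₂ := by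
  have h1 : incl A U₁ = cst c⁻¹ * (f * incl A U₂) := by
    rw [he, ← mul_assoc, cst_inv_mul_cst hc, one_mul]
  rw [h1]
  field_simp

variable (A F₀) in
/-- **The Gauss valuation ring at `∞`** of `F = L·F₀` with respect to the valuation ring `A` of
`L`: fractions `U₁ / U₂` of `A`-integral series with `U₂` primitive. -/
def gaussInf (hgen : IntGen F₀) (hmax : AttainsMax A F₀) :
    ValuationSubring ↥(laurentBaseChange L F₀) where
  carrier := {f | IsGaussInt A F₀ (f : LaurentSeries L)}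
  mul_mem' := fun hf hg => IsGaussInt.mul hf hg
  one_mem' := IsGaussInt.one
  add_mem' := fun hf hg => IsGaussInt.add hf hg
  zero_mem' := IsGaussInt.zero
  neg_mem' := fun hf => IsGaussInt.neg hf
  mem_or_inv_mem' := by
    intro f
    by_cases hf : f = 0
    · left
      rw [hf]
      exact IsGaussInt.zero
    · have hf' : (f : LaurentSeries L) ≠ 0 := fun h => hf (Subtype.ext h)
      obtain ⟨c, U₁, U₂, hc, h₁, h₂, hm₁, hm₂, he⟩ := exists_normal_form hgen hmax f.2 hf'
      rcases A.mem_or_inv_mem c with hcA | hcA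
      · left
        exact (isGaussInt_iff_of_normal_form h₁ h₂ hm₂ he).mpr hcA
      · right
        show IsGaussInt A F₀ ((f⁻¹ : ↥(laurentBaseChange L F₀)) : LaurentSeries L)
        rw [IntermediateField.coe_inv]
        exact (isGaussInt_iff_of_normal_form h₂ h₁ hm₁ (normal_form_inv hf' hc he)).mpr hcA

variable (hgen : IntGen F₀) (hmax : AttainsMax A F₀)

theorem mem_gaussInf_iff {f : ↥(laurentBaseChange L F₀)} :
    f ∈ gaussInf A F₀ hgen hmax ↔ IsGaussInt A F₀ (f : LaurentSeries L) := Iff.rfl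

/-- `V ∩ L = A`. -/
theorem algebraMap_mem_gaussInf_iff (c : L) :
    algebraMap L ↥(laurentBaseChange L F₀) c ∈ gaussInf A F₀ hgen hmax ↔ c ∈ A := by
  rw [mem_gaussInf_iff]
  have he : ((algebraMap L ↥(laurentBaseChange L F₀) c : ↥(laurentBaseChange L F₀)) :
      LaurentSeries L) * incl A 1 = cst c * incl A 1 := rfl
  exact isGaussInt_iff_of_normal_form (by rw [map_one]; exact one_ne_zero)
    (by rw [map_one]; exact one_ne_zero) (by rw [map_one]; exact one_mem _) he

/-- membership in normal form. -/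
theorem mem_gaussInf_iff_of_normal_form {f : ↥(laurentBaseChange L F₀)} {c : L}
    {U₁ U₂ : LaurentSeries A} (h₁ : red A U₁ ≠ 0) (h₂ : red A U₂ ≠ 0)
    (hm₂ : incl A U₂ ∈ laurentBaseChange L F₀)
    (he : (f : LaurentSeries L) * incl A U₂ = cst c * incl A U₁) :
    f ∈ gaussInf A F₀ hgen hmax ↔ c ∈ A :=
  isGaussInt_iff_of_normal_form h₁ h₂ hm₂ he

/-- the valuation in normal form: `v_V(f) ≤ 1 ↔ v_A(c) ≤ 1`. -/
theorem valuation_le_one_iff_of_normal_form {f : ↥(laurentBaseChange L F₀)} {c : L}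
    {U₁ U₂ : LaurentSeries A} (h₁ : red A U₁ ≠ 0) (h₂ : red A U₂ ≠ 0)
    (hm₂ : incl A U₂ ∈ laurentBaseChange L F₀)
    (he : (f : LaurentSeries L) * incl A U₂ = cst c * incl A U₁) :
    (gaussInf A F₀ hgen hmax).valuation f ≤ 1 ↔ A.valuation c ≤ 1 := by
  rw [ValuationSubring.valuation_le_one_iff, ValuationSubring.valuation_le_one_iff]
  exact mem_gaussInf_iff_of_normal_form hgen hmax h₁ h₂ hm₂ he

/-- the valuation in normal form: `v_V(f) < 1 ↔ v_A(c) < 1`. -/
theorem valuation_lt_one_iff_of_normal_form {f : ↥(laurentBaseChange L F₀)} {c : L}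
    {U₁ U₂ : LaurentSeries A} (hc : c ≠ 0) (h₁ : red A U₁ ≠ 0) (h₂ : red A U₂ ≠ 0)
    (hm₁ : incl A U₁ ∈ laurentBaseChange L F₀)
    (he : (f : LaurentSeries L) * incl A U₂ = cst c * incl A U₁) :
    (gaussInf A F₀ hgen hmax).valuation f < 1 ↔ A.valuation c < 1 := by
  have hf0 : (f : LaurentSeries L) ≠ 0 := by
    intro h
    rw [h, zero_mul] at he
    rcases mul_eq_zero.mp he.symm with h' | h'
    · exact cst_ne_zero hc h'
    · exact incl_ne_zero A (ne_zero_of_red_ne_zero A h₁) h'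
  have hf : f ≠ 0 := fun h => hf0 (by rw [h]; rfl)
  have hinv : ((f⁻¹ : ↥(laurentBaseChange L F₀)) : LaurentSeries L) * incl A U₁
      = cst c⁻¹ * incl A U₂ := by
    rw [IntermediateField.coe_inv]
    exact normal_form_inv hf0 hc he
  have h1 := valuation_le_one_iff_of_normal_form hgen hmax h₂ h₁ hm₁ hinv
  rw [map_inv₀, map_inv₀] at h1
  have hv : (gaussInf A F₀ hgen hmax).valuation f ≠ 0 := (Valuation.ne_zero_iff _).mpr hf
  have hvc : A.valuation c ≠ 0 := (Valuation.ne_zero_iff _).mpr hc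
  rw [inv_le_one₀ (zero_lt_iff.mpr hv), inv_le_one₀ (zero_lt_iff.mpr hvc)] at h1
  rw [← not_le, ← not_le, h1]

/-- **The value group of `V` is the value group of `A`**: every nonzero `f` is a constant
times a unit of `V`. -/
theorem exists_const_mul_unit {f : ↥(laurentBaseChange L F₀)} (hf : f ≠ 0) :
    ∃ c : L, c ≠ 0 ∧
      (gaussInf A F₀ hgen hmax).valuation
        (f * (algebraMap L ↥(laurentBaseChange L F₀) c)⁻¹) = 1 := by
  have hf' : (f : LaurentSeries L) ≠ 0 := fun h => hf (Subtype.ext h)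
  obtain ⟨c, U₁, U₂, hc, h₁, h₂, hm₁, hm₂, he⟩ := exists_normal_form hgen hmax f.2 hf'
  refine ⟨c, hc, ?_⟩
  set u : ↥(laurentBaseChange L F₀) := f * (algebraMap L ↥(laurentBaseChange L F₀) c)⁻¹ with hu
  have heu : (u : LaurentSeries L) * incl A U₂ = cst 1 * incl A U₁ := by
    have : (u : LaurentSeries L) = (f : LaurentSeries L) * (cst c)⁻¹ := by
      rw [hu, IntermediateField.coe_mul, IntermediateField.coe_inv]
      rfl
    rw [this, mul_assoc, mul_comm (cst c)⁻¹, ← mul_assoc, he, cst_one, one_mul,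
      mul_comm (cst c), mul_assoc, mul_inv_cancel₀ (cst_ne_zero hc), mul_one]
  have h1 := valuation_le_one_iff_of_normal_form hgen hmax h₁ h₂ hm₂ heu
  have h2 := valuation_lt_one_iff_of_normal_form hgen hmax one_ne_zero h₁ h₂ hm₁ heu
  rw [map_one] at h1 h2
  exact le_antisymm (h1.mpr le_rfl) (not_lt.mp (fun h => lt_irrefl _ (h2.mp h)))

end gauss

end Fermat.Agent.A2.H708

end
end
-- ===== PACK-END A2/H708/GaussInf.lean

-- ===== PACK-BEGIN S18/H876/Transfer.lean
section





/-!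
# S18 / d2 : transfer of CORE from level `M` to level `N ∣ M`

`core_descend_of_coprime` :
  `N ∣ M`, `[F_M : F_N]` finite and prime to `m`  ⟹  `CoreStatement M A m → CoreStatement N A m`.

Ingredients: restriction of places along `F_N ⊆ F_M` (Prelude `Place.restrict`,
`ord_w = e · ord_v`) and Kummer descent (`H876.exists_algebraMap_eq_of_pow_eq`).
-/

set_option autoImplicit false

noncomputable section

namespace Fermat.Agent.S18.H876

open ModularCurve AlgebraicCurve HahnSeries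

/-! ### Abstract part -/

/-- Divisibility of order differences passes from a field to an integral extension. -/
theorem dvd_ord_sub_algebraMap {K E F : Type*} [Field K] [Field E] [Field F]
    [Algebra K E] [Algebra K F] [Algebra E F] [IsScalarTower K E F] [Algebra.IsIntegral E F]
    (m : ℤ) (f g : E) (h : ∀ v : Place K E, m ∣ v.ord f - v.ord g) (w : Place K F) :
    m ∣ w.ord (algebraMap E F f) - w.ord (algebraMap E F g) := by
  rw [w.ord_restrict f, w.ord_restrict g, ← mul_sub]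
  exact Dvd.dvd.mul_left (h (w.restrict E)) _

/-! ### The tower `F_N ⊆ F_M` -/

section Tower

variable {N M : ℕ} [NeZero N] [NeZero M]

theorem bar_le_bar (h : N ∣ M) : modularFunctionFieldBar N ≤ modularFunctionFieldBar M :=
  IntermediateField.adjoin.mono _ _ _ (Set.image_mono (full_degeneracy_le h))

/-- The inclusion `F_N → F_M`. -/
def barIncl (h : N ∣ M) : modularFunctionFieldBar N →ₐ[Qb] modularFunctionFieldBar M :=
  IntermediateField.inclusion (bar_le_bar h)

@[simp] theorem coe_barIncl (h : N ∣ M) (x : modularFunctionFieldBar N) :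
    ((barIncl h x : modularFunctionFieldBar M) : LaurentSeries Qb) = x :=
  IntermediateField.coe_inclusion _ _

theorem barIncl_injective (h : N ∣ M) : Function.Injective (barIncl h) :=
  (barIncl h).toRingHom.injective

/-- The algebra structure `F_N → F_M` given by the inclusion. -/
@[reducible] def barAlgebra (h : N ∣ M) :
    Algebra (modularFunctionFieldBar N) (modularFunctionFieldBar M) :=
  (barIncl h).toRingHom.toAlgebra

theorem barAlgebra_isScalarTower (h : N ∣ M) :
    @IsScalarTower Qb (modularFunctionFieldBar N) (modularFunctionFieldBar M) _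
      (barAlgebra h).toSMul _ := by
  letI := barAlgebra h
  refine IsScalarTower.of_algebraMap_eq fun c => ?_
  exact ((barIncl h).commutes c).symm

theorem isInt_of_dvd (h : N ∣ M) {A : ValuationSubring Qb} {U : LaurentSeries A}
    (hU : IsInt A N U) : IsInt A M U :=
  ⟨bar_le_bar h hU.1, full_degeneracyC_le _ h hU.2.1, hU.2.2⟩

omit [NeZero N] in
theorem coe_toF {A : ValuationSubring Qb} {U : LaurentSeries A} (hU : IsInt A N U) :
    ((toF hU : modularFunctionFieldBar N) : LaurentSeries Qb) = coeffMap A.subtype U := rfl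

theorem toF_isInt_of_dvd (h : N ∣ M) {A : ValuationSubring Qb} {U : LaurentSeries A}
    (hU : IsInt A N U) :
    toF (isInt_of_dvd h hU) = barIncl h (toF hU) := by
  apply Subtype.ext
  rw [coe_toF, coe_barIncl, coe_toF]

omit [NeZero N] in
theorem toF_ne_zero {A : ValuationSubring Qb} {U : LaurentSeries A}
    (hU : IsInt A N U) : toF hU ≠ 0 := by
  intro h0
  have h1 : coeffMap A.subtype U = 0 := by
    rw [← coe_toF hU, h0]
    rfl
  have hU0 : U = 0 := by
    ext n
    have h2 := congrArg (fun s => HahnSeries.coeff s n) h1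
    simpa using h2
  exact hU.2.2 (by rw [hU0, map_zero])

end Tower

/-! ### The transfer -/

/-- **d2 (degree as hypothesis).** -/
theorem core_descend_of_coprime {N M : ℕ} [NeZero N] [NeZero M] (h : N ∣ M)
    (A : ValuationSubring Qb) (m : ℕ)
    (hfin : @Module.Finite (modularFunctionFieldBar N) (modularFunctionFieldBar M) _ _
      (barAlgebra h).toModule)
    (hcop : (@Module.finrank (modularFunctionFieldBar N) (modularFunctionFieldBar M) _ _
      (barAlgebra h).toModule).Coprime m)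
    (hM : CoreStatement M A m) : CoreStatement N A m := by
  letI := barAlgebra h
  haveI := barAlgebra_isScalarTower h
  haveI : FiniteDimensional (modularFunctionFieldBar N) (modularFunctionFieldBar M) := hfin
  haveI : Algebra.IsIntegral (modularFunctionFieldBar N) (modularFunctionFieldBar M) :=
    Algebra.IsIntegral.of_finite _ _
  have halg : ∀ x : modularFunctionFieldBar N,
      algebraMap (modularFunctionFieldBar N) (modularFunctionFieldBar M) x = barIncl h x :=
    fun _ => rfl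
  intro U₁ U₂ h₁ h₂ hred hdiv
  obtain ⟨c, y, hc, hy, hcy⟩ := hM U₁ U₂ (isInt_of_dvd h h₁) (isInt_of_dvd h h₂) hred
    (fun w => by
      rw [toF_isInt_of_dvd h h₁, toF_isInt_of_dvd h h₂, ← halg, ← halg]
      exact dvd_ord_sub_algebraMap (m : ℤ) (toF h₁) (toF h₂) hdiv w)
  rw [toF_isInt_of_dvd h h₁, toF_isInt_of_dvd h h₂] at hcy
  have hinj := barIncl_injective h
  have h₂0 : toF h₂ ≠ 0 := toF_ne_zero h₂
  have hc' : algebraMap Qb (modularFunctionFieldBar N) c ≠ 0 := by
    simpa using hc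
  rcases Nat.eq_zero_or_pos m with hm0 | hmpos
  · subst hm0
    refine ⟨c, 1, hc, one_ne_zero, ?_⟩
    apply hinj
    rw [hcy, pow_zero, pow_zero, mul_one, mul_one, map_mul, AlgHom.commutes]
  · -- `y ^ m` comes from `F_N`
    have hym : y ^ m = algebraMap (modularFunctionFieldBar N) (modularFunctionFieldBar M)
        (toF h₁ / (algebraMap Qb (modularFunctionFieldBar N) c * toF h₂)) := by
      rw [halg, map_div₀, map_mul, AlgHom.commutes, hcy]
      have h₂0' : barIncl h (toF h₂) ≠ 0 := fun h0 => h₂0 (hinj (by rw [h0, map_zero]))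
      have hc'' : algebraMap Qb (modularFunctionFieldBar M) c ≠ 0 := by simpa using hc
      field_simp
    obtain ⟨x, hx⟩ := exists_algebraMap_eq_of_pow_eq (K := Qb) m hmpos hcop y _ hym
    rw [halg] at hx
    refine ⟨c, x, hc, ?_, ?_⟩
    · rintro rfl
      exact hy (by rw [← hx, map_zero])
    · apply hinj
      rw [hcy, map_mul, map_mul, map_pow, hx, AlgHom.commutes]

end Fermat.Agent.S18.H876

end
end
-- ===== PACK-END S18/H876/Transfer.lean

-- ===== PACK-BEGIN A2/H489/TwoExtB.lean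
section


/-!
# A2 / M1-abs, part B (helper489): valuation subrings over a DVR and the integral closure
-/

set_option autoImplicit false

namespace Fermat.Agent.A2.H489

open IsDedekindDomain IsLocalRing

section Over

variable {A L : Type*} [CommRing A] [IsLocalRing A] [Field L] [Algebra A L]

/-- `V` lies over the local ring `A`: it contains `A` and the maximal ideal of `A` consists of
nonunits of `V`. -/
structure IsOver (A : Type*) {L : Type*} [CommRing A] [IsLocalRing A] [Field L] [Algebra A L]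
    (V : ValuationSubring L) : Prop where
  mem : ∀ a : A, algebraMap A L a ∈ V
  nonunit : ∀ a ∈ maximalIdeal A, algebraMap A L a ∈ V.nonunits

variable {V : ValuationSubring L}

theorem IsOver.integral_mem (hV : IsOver A V) {x : L} (hx : IsIntegral A x) : x ∈ V := by
  let _ : Algebra A V := (toValSub V hV.mem).toAlgebra
  have : IsScalarTower A V L := IsScalarTower.of_algebraMap_eq (fun _ => rfl)
  have h : IsIntegral V x := hx.tower_top
  obtain ⟨y, hy⟩ := (IsIntegrallyClosed.isIntegral_iff (R := V) (K := L)).mp h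
  rw [← hy]
  exact y.2

theorem IsOver.mem_integralClosure (hV : IsOver A V) (s : integralClosure A L) :
    algebraMap (integralClosure A L) L s ∈ V :=
  hV.integral_mem s.2

theorem IsOver.not_mem_nonunits_of_isUnit (hV : IsOver A V) {a : A} (ha : IsUnit a) :
    algebraMap A L a ∉ V.nonunits := by
  obtain ⟨u, rfl⟩ := ha
  intro h
  rw [ValuationSubring.mem_nonunits_iff] at h
  have h1 : V.valuation (algebraMap A L (↑u⁻¹ : A)) ≤ 1 :=
    (ValuationSubring.valuation_le_one_iff V _).mpr (hV.mem _)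
  have h2 : V.valuation (algebraMap A L (u : A)) * V.valuation (algebraMap A L (↑u⁻¹ : A)) = 1 := by
    rw [← map_mul, ← map_mul, Units.mul_inv, map_one, map_one]
  have h3 : V.valuation (algebraMap A L (u : A)) * V.valuation (algebraMap A L (↑u⁻¹ : A)) < 1 :=
    mul_lt_one_of_lt_of_le h h1
  exact absurd h2 (ne_of_lt h3)

theorem IsOver.mem_nonunits_iff (hV : IsOver A V) (a : A) :
    algebraMap A L a ∈ V.nonunits ↔ a ∈ maximalIdeal A := by
  constructor
  · intro h
    by_contra hna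
    rw [IsLocalRing.mem_maximalIdeal, _root_.mem_nonunits_iff, not_not] at hna
    exact hV.not_mem_nonunits_of_isUnit hna h
  · exact hV.nonunit a

theorem IsOver.center_liesOver (hV : IsOver A V) :
    (center V hV.mem_integralClosure).LiesOver (maximalIdeal A) := by
  constructor
  ext a
  rw [Ideal.under, Ideal.mem_comap, mem_center_iff, ← IsScalarTower.algebraMap_apply,
    hV.mem_nonunits_iff]

theorem IsOver.ne_top_of_nonunit (hV : IsOver A V) {w : A} (hw : w ∈ maximalIdeal A)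
    (hw0 : algebraMap A L w ≠ 0) : V ≠ ⊤ := by
  intro h
  have h1 := hV.nonunit w hw
  rw [ValuationSubring.mem_nonunits_iff_or] at h1
  rcases h1 with h1 | h1
  · exact hw0 h1
  · apply h1
    rw [h]
    exact ValuationSubring.mem_top _

end Over

section Main

variable {A K L : Type*} [CommRing A] [IsDomain A] [IsDiscreteValuationRing A]
  [Field K] [Algebra A K] [IsFractionRing A K]
  [Field L] [Algebra K L] [Algebra A L] [IsScalarTower A K L]

omit [IsDiscreteValuationRing A] in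
theorem algebraMap_injective_AL (A K L : Type*) [CommRing A] [IsDomain A]
    [Field K] [Algebra A K] [IsFractionRing A K]
    [Field L] [Algebra K L] [Algebra A L] [IsScalarTower A K L] :
    Function.Injective (algebraMap A L) := by
  rw [IsScalarTower.algebraMap_eq A K L]
  exact (algebraMap K L).injective.comp (IsFractionRing.injective A K)

theorem IsOver.ne_top (K : Type*) {A L : Type*} [CommRing A] [IsDomain A]
    [IsDiscreteValuationRing A] [Field K] [Algebra A K] [IsFractionRing A K]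
    [Field L] [Algebra K L] [Algebra A L] [IsScalarTower A K L]
    {V : ValuationSubring L} (hV : IsOver A V) : V ≠ ⊤ := by
  obtain ⟨w, hw⟩ := IsDiscreteValuationRing.exists_irreducible A
  refine hV.ne_top_of_nonunit (w := w) ?_ ?_
  · rw [IsLocalRing.mem_maximalIdeal, _root_.mem_nonunits_iff]
    exact hw.not_isUnit
  · intro h0
    apply hw.ne_zero
    apply algebraMap_injective_AL A K L
    rw [h0, map_zero]

end Main

end Fermat.Agent.A2.H489

end
-- ===== PACK-END A2/H489/TwoExtB.lean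

-- ===== PACK-BEGIN A2/Mod/H189/ChartChangeAux.lean
section







/-!
# Cell A2 / MOD, GOODRED part G3 (helper189): chart change, auxiliary lemmas (Mathlib only)

* `isIntegral_of_monic_eq`, `isIntegral_of_unit_eq`, `isIntegral_of_cubic`, `isIntegral_of_quartic`:
  integrality over a subalgebra from an explicit equation with unit leading coefficient;
* `icSub A` : the integral closure of a subalgebra `A ⊆ F`, as an `R`-subalgebra of `F`;
* `GoodOn V w A := QepOn V w A ∧ NormalOn V w A` with `GoodOn.loc`, `GoodOn.glue`, `GoodOn.congr`,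
  `GoodOn.of_le_of_le`.
-/

set_option autoImplicit false

namespace Fermat.Agent.A2.Mod.H189

open Polynomial

variable {R : Type*} [CommRing R] {F : Type*} [Field F] [Algebra R F]

/-- Integrality from a monic equation with coefficients in `A`. -/
theorem isIntegral_of_monic_eq {A : Subalgebra R F} {x : F} (n : ℕ) (c : Fin n → F)
    (hc : ∀ i, c i ∈ A) (h : x ^ n + ∑ i : Fin n, c i * x ^ (i : ℕ) = 0) : IsIntegral A x := by
  refine ⟨X ^ n + ∑ i : Fin n, C (⟨c i, hc i⟩ : A) * X ^ (i : ℕ),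
    monic_X_pow_add (degree_sum_fin_lt _), ?_⟩
  rw [eval₂_add, eval₂_pow, eval₂_X, eval₂_finsetSum]
  simp only [eval₂_mul, eval₂_C, eval₂_pow, eval₂_X]
  exact h

/-- Integrality from an equation whose leading coefficient is a unit of `A`. -/
theorem isIntegral_of_unit_eq {A : Subalgebra R F} {x : F} (n : ℕ) {a v : F}
    (hv : v ∈ A) (hav : v * a = 1) (c : Fin n → F)
    (hc : ∀ i, c i ∈ A) (h : a * x ^ n + ∑ i : Fin n, c i * x ^ (i : ℕ) = 0) :
    IsIntegral A x := by
  refine isIntegral_of_monic_eq n (fun i => v * c i) (fun i => A.mul_mem hv (hc i)) ?_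
  have h1 := congrArg (fun z => v * z) h
  simp only [mul_zero, mul_add, ← mul_assoc, hav, one_mul, Finset.mul_sum] at h1
  exact h1

/-- Integrality from a cubic equation with unit leading coefficient. -/
theorem isIntegral_of_cubic {A : Subalgebra R F} {x a v c₂ c₁ c₀ : F}
    (hv : v ∈ A) (hav : v * a = 1) (h₂ : c₂ ∈ A) (h₁ : c₁ ∈ A) (h₀ : c₀ ∈ A)
    (h : a * x ^ 3 + c₂ * x ^ 2 + c₁ * x + c₀ = 0) : IsIntegral A x := by
  refine isIntegral_of_unit_eq 3 hv hav ![c₀, c₁, c₂] ?_ ?_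
  · intro i
    fin_cases i <;> simpa
  · rw [Fin.sum_univ_three]
    simp only [Matrix.cons_val_zero, Matrix.cons_val_one, Matrix.cons_val_two, Matrix.head_cons,
      Matrix.tail_cons, Fin.val_zero, Fin.val_one, Fin.val_two, pow_zero, pow_one, mul_one]
    linear_combination h

/-- Integrality from a quartic equation with unit leading coefficient. -/
theorem isIntegral_of_quartic {A : Subalgebra R F} {x a v c₃ c₂ c₁ c₀ : F}
    (hv : v ∈ A) (hav : v * a = 1) (h₃ : c₃ ∈ A) (h₂ : c₂ ∈ A) (h₁ : c₁ ∈ A) (h₀ : c₀ ∈ A)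
    (h : a * x ^ 4 + c₃ * x ^ 3 + c₂ * x ^ 2 + c₁ * x + c₀ = 0) : IsIntegral A x := by
  refine isIntegral_of_unit_eq 4 hv hav ![c₀, c₁, c₂, c₃] ?_ ?_
  · intro i
    fin_cases i <;> simpa
  · rw [Fin.sum_univ_four]
    simp only [Matrix.cons_val_zero, Matrix.cons_val_one, Matrix.cons_val_two,
      Matrix.cons_val_three, Matrix.head_cons,
      Matrix.tail_cons, Fin.val_zero, Fin.val_one, Fin.val_two, pow_zero, pow_one, mul_one]
    simp
    linear_combination h

/-- The integral closure of a subalgebra `A ⊆ F`, as an `R`-subalgebra of `F`. -/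
def icSub (A : Subalgebra R F) : Subalgebra R F :=
  (integralClosure A F).restrictScalars R

theorem mem_icSub {A : Subalgebra R F} {x : F} : x ∈ icSub A ↔ IsIntegral A x := Iff.rfl

theorem le_icSub (A : Subalgebra R F) : A ≤ icSub A := fun _ ha => isIntegral_of_mem ha

/-- A subalgebra generated by integral elements is integral. -/
theorem isIntegral_of_mem_adjoin {A : Subalgebra R F} {S : Set F}
    (hS : ∀ x ∈ S, IsIntegral A x) {b : F} (hb : b ∈ Algebra.adjoin R S) : IsIntegral A b :=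
  (Algebra.adjoin_le (S := icSub A) hS) hb

/-- Elements of `A[1/s]` are integral over `A'` as soon as `A` and `1/s` are. -/
theorem isIntegral_of_mem_locSub {A A' : Subalgebra R F} {s : F}
    (hA : ∀ a ∈ A, IsIntegral A' a) (hs : IsIntegral A' s⁻¹) {b : F} (hb : b ∈ locSub A s) :
    IsIntegral A' b :=
  isIntegral_of_mem_adjoin (A := A') (by
    rintro x (hx | hx)
    · exact hA x hx
    · rw [Set.mem_singleton_iff] at hx
      rw [hx]
      exact hs) hb

/-- Both halves of `Mod.GoodRedAt` for the chart of `A`. -/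
def GoodOn (V : Subring F) (w : F) (A : Subalgebra R F) : Prop :=
  QepOn V w A ∧ NormalOn V w A

theorem GoodOn.congr {V : Subring F} {w : F} {A A' : Subalgebra R F}
    (h : ∀ a ∈ A, IsIntegral A' a) (h' : ∀ a ∈ A', IsIntegral A a) (hg : GoodOn V w A) :
    GoodOn V w A' :=
  ⟨hg.1.congr h h', hg.2.congr h h'⟩

theorem GoodOn.of_le_of_le {V : Subring F} {w : F} {A A' : Subalgebra R F}
    (h : A ≤ A') (h' : A' ≤ A) (hg : GoodOn V w A) : GoodOn V w A' :=
  hg.congr (fun _ ha => isIntegral_of_mem (h ha)) (fun _ ha => isIntegral_of_mem (h' ha))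

theorem GoodOn.loc {V : Subring F} {w : F} {A : Subalgebra R F} (hg : GoodOn V w A) {s : F}
    (hsA : s ∈ A) (hs0 : s ≠ 0) (hsV : s ∈ V) (hsV' : s⁻¹ ∈ V) : GoodOn V w (locSub A s) :=
  ⟨hg.1.loc hsA hs0 hsV, hg.2.loc hsA hs0 hsV hsV'⟩

theorem GoodOn.glue {V : Subring F} {w : F} {A : Subalgebra R F} {s₁ s₂ α β : F}
    (hAV : ∀ a ∈ A, a ∈ V)
    (hs₁ : s₁ ∈ A) (hs₂ : s₂ ∈ A) (hα : α ∈ A) (hβ : β ∈ A) (h1 : α * s₁ + β * s₂ = 1)
    (hg₁ : GoodOn V w (locSub A s₁)) (hg₂ : GoodOn V w (locSub A s₂)) : GoodOn V w A :=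
  ⟨QepOn.glue hs₁ hs₂ hα hβ h1 hg₁.1 hg₂.1, NormalOn.glue hAV hs₁ hs₂ hα hβ h1 hg₁.2 hg₂.2⟩

/-- A subalgebra generated by elements of `V` lies in `V` (`V ⊇ R` a subring). -/
theorem adjoin_subset_subring {V : Subring F} (hRV : ∀ r : R, algebraMap R F r ∈ V) {S : Set F}
    (hS : ∀ x ∈ S, x ∈ V) : ∀ a ∈ Algebra.adjoin R S, a ∈ V := by
  intro a ha
  induction ha using Algebra.adjoin_induction with
  | mem x hx => exact hS x hx
  | algebraMap r => exact hRV r
  | add x y _ _ hx hy => exact V.add_mem hx hy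
  | mul x y _ _ hx hy => exact V.mul_mem hx hy

end Fermat.Agent.A2.Mod.H189

end
-- ===== PACK-END A2/Mod/H189/ChartChangeAux.lean

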