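import Mathlib
import Mathlib.RingTheory.DiscreteValuationRing.Basic
import Mathlib.RingTheory.LocalRing.RingHom.Basic
import Fermat.Prelude.Def_FLTPrelim_Ramification
import Fermat.Agent.Pack.S34.G0E2L2
import Fermat.Agent.Pack.S34.G0E2L3
import Fermat.Agent.Pack.S34.G0E3L1
import Fermat.Agent.Pack.S34.G0E3L3
import Fermat.Agent.Pack.S34.G0E1L1
import Fermat.Agent.Pack.S34.G0E1L0
import Fermat.Agent.Pack.S34.G0E2L1
import Fermat.Agent.Pack.S34.G0E1L2
import Fermat.Agent.Pack.S34.G0E2L0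
import Fermat.Agent.Pack.S34.G0E0L1
import Fermat.Agent.Pack.S34.G0E0L2

-- ===== PACK-BEGIN S31/H22/PowTr.lean
section


/-!
# S31 piece B (helper22): trace of a power from the characteristic polynomial (rank 2)
-/

set_option autoImplicit false

open Polynomial

namespace Fermat.Agent.S31.H22

open Fermat.Agent.S31

theorem map_powTr {R R' : Type*} [CommRing R] [CommRing R'] (φ : R →+* R') (a d : R) (j : ℕ) :
    φ (powTr a d j) = powTr (φ a) (φ d) j := by
  induction j using Nat.strong_induction_on with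
  | _ j ih =>
    match j, ih with
    | 0, _ => simp only [powTr, map_ofNat]
    | 1, _ => simp only [powTr]
    | (j + 2), ih =>
      simp only [powTr, map_sub, map_mul]
      rw [ih (j + 1) (by omega), ih j (by omega)]

theorem trace_pow_of_charpoly {R : Type*} [CommRing R] {M : Type*} [AddCommGroup M] [Module R M]
    [Module.Free R M] [Module.Finite R M] (hrk : Module.finrank R M = 2) (f : Module.End R M)
    (a d : R) (h : f.charpoly = X ^ 2 - C a * X + C d) (j : ℕ) :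
    LinearMap.trace R M (f ^ j) = powTr a d j := by
  rcases subsingleton_or_nontrivial R with hR | hR
  · exact Subsingleton.elim _ _
  -- Cayley–Hamilton
  have hCH : f ^ 2 - a • f + d • (1 : Module.End R M) = 0 := by
    have := LinearMap.aeval_self_charpoly f
    rw [h] at this
    simpa [Algebra.smul_def, sub_eq_add_neg] using this
  have hrec : ∀ j : ℕ, f ^ (j + 2) = a • f ^ (j + 1) - d • f ^ j := by
    intro j
    have h2 : f ^ 2 = a • f - d • (1 : Module.End R M) := by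
      have := hCH
      rw [sub_add_eq_add_sub, sub_eq_zero] at this
      rw [← this]; simp
    calc f ^ (j + 2) = f ^ j * f ^ 2 := by rw [pow_add]
      _ = f ^ j * (a • f - d • (1 : Module.End R M)) := by rw [h2]
      _ = a • f ^ (j + 1) - d • f ^ j := by
          rw [mul_sub, mul_smul_comm, mul_smul_comm, mul_one, pow_succ]
  -- trace of f
  have htr1 : LinearMap.trace R M f = a := by
    classical
    let b := Module.Free.chooseBasis R M
    have hcard : Fintype.card (Module.Free.ChooseBasisIndex R M) = 2 := by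
      rw [← Module.finrank_eq_card_chooseBasisIndex, hrk]
    have : Nonempty (Module.Free.ChooseBasisIndex R M) := by
      rw [← Fintype.card_pos_iff, hcard]; norm_num
    rw [LinearMap.trace_eq_matrix_trace R b f, Matrix.trace_eq_neg_charpoly_coeff,
      LinearMap.charpoly_toMatrix f b, h, hcard]
    simp [coeff_C]
  induction j using Nat.strong_induction_on with
  | _ j ih =>
    match j, ih with
    | 0, _ =>
      simp only [pow_zero, powTr]
      rw [LinearMap.trace_one, hrk]; norm_num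
    | 1, _ => simpa [powTr] using htr1
    | (j + 2), ih =>
      rw [hrec, map_sub, map_smul, map_smul, ih (j + 1) (by omega), ih j (by omega)]
      simp [powTr]

end Fermat.Agent.S31.H22

end
-- ===== PACK-END S31/H22/PowTr.lean

-- ===== PACK-BEGIN S37/H99/FrobAt.lean
section


/-!
# S37 (helper99): Frobenius elements exist at EVERY valuation subring of `ℚ̄` over a prime

`Fermat.Agent.S54.exists_frobenius` produces *some* `A`; the same proof works for a given `A`.
Also: two Frobenius elements at `A` differ by an element of the inertia subgroup.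
-/

set_option autoImplicit false

namespace Fermat.Agent.S37.H99

open scoped Pointwise
open Fermat.Agent.S54

/-- For every valuation subring `A` of `ℚ̄` over the prime `ℓ` there is a Frobenius element
at `A`. -/
theorem exists_isFrobeniusAt (ℓ : ℕ) (hℓ : ℓ.Prime)
    (A : ValuationSubring (AlgebraicClosure ℚ)) (hA : A.LiesOverPrime ℓ) :
    ∃ σ : AlgebraicClosure ℚ ≃ₐ[ℚ] AlgebraicClosure ℚ, A.IsFrobeniusAt σ ℓ := by
  have : Algebra.IsAlgebraic ℚ (AlgebraicClosure ℚ) := AlgebraicClosure.isAlgebraic ℚ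
  have := primeBelow_isPrime A
  have hℓQ : (ℓ : integralClosure ℤ (AlgebraicClosure ℚ)) ∈ primeBelow A := by
    rw [mem_primeBelow]
    exact hA
  obtain ⟨σ, hσQ', hσF⟩ := exists_frob_integralClosure ℓ hℓ (primeBelow A) hℓQ
  have hσQ : ∀ x, σ • x ∈ primeBelow A ↔ x ∈ primeBelow A := by
    intro x
    conv_lhs => rw [← hσQ']
    exact Ideal.smul_mem_pointwise_smul_iff
  have key : ∀ τ : AlgebraicClosure ℚ ≃ₐ[ℚ] AlgebraicClosure ℚ,
      (∀ x, τ • x ∈ primeBelow A ↔ x ∈ primeBelow A) → ∀ x ∈ A, τ x ∈ A := by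
    intro τ hτ x hx
    obtain ⟨b, s, hb, hs, hsA, hxs⟩ := (mem_valuationSubring_iff A ℓ hℓ hA x).mp hx
    refine (mem_valuationSubring_iff A ℓ hℓ hA (τ x)).mpr
      ⟨τ b, τ s, hb.map τ, hs.map τ, ?_, ?_⟩
    · exact (hτ ⟨s, hs⟩).not.mpr hsA
    · rw [← map_mul, hxs]
  have hσA : σ ∈ A.decompositionSubgroup ℚ := by
    rw [MulAction.mem_stabilizer_iff]
    ext x
    rw [ValuationSubring.mem_smul_pointwise_iff_exists]
    constructor
    · rintro ⟨s, hs, rfl⟩
      exact key σ hσQ s hs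
    · intro hx
      refine ⟨σ⁻¹ • x, key σ⁻¹ ?_ x hx, by simp⟩
      intro y
      rw [← hσQ (σ⁻¹ • y)]
      simp
  refine ⟨σ, hσA, ?_⟩
  intro x
  obtain ⟨a, rfl⟩ := IsLocalRing.residue_surjective x
  obtain ⟨b, s, hb, hs, hsA, hxs⟩ := (mem_valuationSubring_iff A ℓ hℓ hA a).mp a.2
  have hbA : b ∈ A := isIntegral_mem_valuationSubring A hb
  have hsA' : s ∈ A := isIntegral_mem_valuationSubring A hs
  have hint : ∀ (y : AlgebraicClosure ℚ) (hy : IsIntegral ℤ y),
      (⟨σ, hσA⟩ : A.decompositionSubgroup ℚ) •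
        IsLocalRing.residue A ⟨y, isIntegral_mem_valuationSubring A hy⟩ =
      (IsLocalRing.residue A ⟨y, isIntegral_mem_valuationSubring A hy⟩) ^ ℓ := by
    intro y hy
    rw [← IsLocalRing.ResidueField.residue_smul, ← map_pow, ← sub_eq_zero, ← map_sub,
      IsLocalRing.residue_eq_zero_iff, ← ValuationSubring.coe_mem_nonunits_iff]
    exact hσF ⟨y, hy⟩
  have h1 : IsLocalRing.residue A a * IsLocalRing.residue A ⟨s, hsA'⟩ =
      IsLocalRing.residue A ⟨b, hbA⟩ := by
    rw [← map_mul]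
    congr 1
    exact Subtype.ext hxs
  have h2 : IsLocalRing.residue A ⟨s, hsA'⟩ ≠ 0 := by
    rw [Ne, IsLocalRing.residue_eq_zero_iff, ← ValuationSubring.coe_mem_nonunits_iff]
    exact hsA
  have h3 := congrArg (fun z => (⟨σ, hσA⟩ : A.decompositionSubgroup ℚ) • z) h1
  simp only [smul_mul'] at h3
  rw [hint s hs, hint b hb, ← h1, mul_pow] at h3
  exact mul_right_cancel₀ (pow_ne_zero _ h2) h3

end Fermat.Agent.S37.H99

end
-- ===== PACK-END S37/H99/FrobAt.lean

-- ===== PACK-BEGIN A2/T1/H669/T2.lean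
section



/-!
# WALL A2, piece T2 (helper669): divisibility of the divisor descends from `F̄` to `F_E`

`E ⊆ ℚ̄` an intermediate field, `F_E = laurentBaseChange E F₀`, `F̄ = laurentBaseChange ℚ̄ F₀`,
`iota : F_E → F̄`.  If `y ∈ F_E` and `m ∣ ord_v (iota y)` for every `Place` `v` of `F̄ / ℚ̄`, then
for every discrete valuation subring `V` of `F_E` containing `E` we have `y = u · h ^ m` with `u` a
unit of `V`, i.e. `Spec.DivisibleDiv E m y` (definition unfolded in the statement).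

Proof: `S18.H845.exists_dvr_extension` (constant field extensions are unramified) extends `V` to a
discrete valuation subring `B` of `F̄` with the same uniformiser; `B` is a `Place`.
-/

set_option autoImplicit false
set_option synthInstance.maxHeartbeats 400000
set_option maxHeartbeats 1600000

noncomputable section

namespace Fermat.Agent.A2.T1.H669

open ModularCurve AlgebraicCurve

variable (E : IntermediateField ℚ _root_.Fermat.Agent.A2.T1.H669.Qb) (F₀ : IntermediateField ℚ (LaurentSeries ℚ))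

/-- `F̄` as an algebra over `F_E` (via `iota`). -/
@[reducible] def algFEFbar : Algebra ↥(laurentBaseChange E F₀) ↥(laurentBaseChange _root_.Fermat.Agent.A2.T1.H669.Qb F₀) :=
  (iota E F₀).toAlgebra

theorem towerEFEFbar :
    letI := algFEFbar E F₀
    IsScalarTower E ↥(laurentBaseChange E F₀) ↥(laurentBaseChange _root_.Fermat.Agent.A2.T1.H669.Qb F₀) := by
  letI := algFEFbar E F₀
  exact IsScalarTower.of_algebraMap_eq fun e => (iota_algebraMap E F₀ e).symm

theorem isAlgebraic_const (a : _root_.Fermat.Agent.A2.T1.H669.Qb) :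
    IsAlgebraic E (algebraMap _root_.Fermat.Agent.A2.T1.H669.Qb ↥(laurentBaseChange _root_.Fermat.Agent.A2.T1.H669.Qb F₀) a) := by
  have hQ : Algebra.IsAlgebraic ℚ _root_.Fermat.Agent.A2.T1.H669.Qb := AlgebraicClosure.isAlgebraic ℚ
  have ha : IsAlgebraic E a := (hQ.isAlgebraic a).tower_top E
  exact ha.algebraMap

/-- `F̄` is generated over `F_E` by algebraic constants. -/
theorem adjoin_algebraic_eq_top :
    letI := algFEFbar E F₀
    IntermediateField.adjoin ↥(laurentBaseChange E F₀)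
      {α : ↥(laurentBaseChange _root_.Fermat.Agent.A2.T1.H669.Qb F₀) | IsAlgebraic E α} = ⊤ := by
  letI := algFEFbar E F₀
  rw [eq_top_iff]
  rintro ⟨z, hz⟩ -
  have key : ∃ w : ↥(laurentBaseChange _root_.Fermat.Agent.A2.T1.H669.Qb F₀),
      w ∈ IntermediateField.adjoin ↥(laurentBaseChange E F₀)
        {α : ↥(laurentBaseChange _root_.Fermat.Agent.A2.T1.H669.Qb F₀) | IsAlgebraic E α} ∧
      (w : LaurentSeries _root_.Fermat.Agent.A2.T1.H669.Qb) = z := by
    have hz2 := hz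
    rw [mem_laurentBaseChange_iff] at hz2
    induction hz2 using Subfield.closure_induction with
    | mem y hy =>
        rcases hy with ⟨a, rfl⟩ | ⟨z₀, hz₀, rfl⟩
        · exact ⟨algebraMap _root_.Fermat.Agent.A2.T1.H669.Qb ↥(laurentBaseChange _root_.Fermat.Agent.A2.T1.H669.Qb F₀) a,
            IntermediateField.subset_adjoin _ _ (isAlgebraic_const E F₀ a), rfl⟩
        · refine ⟨algebraMap ↥(laurentBaseChange E F₀) ↥(laurentBaseChange _root_.Fermat.Agent.A2.T1.H669.Qb F₀)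
                ⟨coeffEmb E z₀, coeffEmb_mem_laurentBaseChange E hz₀⟩,
            IntermediateField.algebraMap_mem _ _, ?_⟩
          exact Fermat.Agent.S18.H602.coeffMap_coeffEmb' (algebraMap E _root_.Fermat.Agent.A2.T1.H669.Qb) z₀
    | one => exact ⟨1, one_mem _, rfl⟩
    | add x y hx' hy' hx hy =>
        obtain ⟨w₁, hw₁, rfl⟩ := hx ((mem_laurentBaseChange_iff).2 hx')
        obtain ⟨w₂, hw₂, rfl⟩ := hy ((mem_laurentBaseChange_iff).2 hy')
        exact ⟨w₁ + w₂, add_mem hw₁ hw₂, rfl⟩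
    | neg x hx' hx =>
        obtain ⟨w₁, hw₁, rfl⟩ := hx ((mem_laurentBaseChange_iff).2 hx')
        exact ⟨-w₁, neg_mem hw₁, rfl⟩
    | inv x hx' hx =>
        obtain ⟨w₁, hw₁, rfl⟩ := hx ((mem_laurentBaseChange_iff).2 hx')
        exact ⟨w₁⁻¹, inv_mem hw₁, IntermediateField.coe_inv _ _⟩
    | mul x y hx' hy' hx hy =>
        obtain ⟨w₁, hw₁, rfl⟩ := hx ((mem_laurentBaseChange_iff).2 hx')
        obtain ⟨w₂, hw₂, rfl⟩ := hy ((mem_laurentBaseChange_iff).2 hy')
        exact ⟨w₁ * w₂, mul_mem hw₁ hw₂, rfl⟩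
  obtain ⟨w, hw, hwz⟩ := key
  have hwz' : w = ⟨z, hz⟩ := Subtype.ext hwz
  rw [← hwz']
  exact hw

/-- **T2.**  `m ∣ div (iota y)` on `F̄ / ℚ̄` implies `Spec.DivisibleDiv E m y` (unfolded). -/
theorem divisibleDiv_of_ord (m : ℕ) (y : ↥(laurentBaseChange E F₀)) (hy : y ≠ 0)
    (hdiv : ∀ v : Place _root_.Fermat.Agent.A2.T1.H669.Qb ↥(laurentBaseChange _root_.Fermat.Agent.A2.T1.H669.Qb F₀), (m : ℤ) ∣ v.ord (iota E F₀ y)) :
    ∀ V : ValuationSubring ↥(laurentBaseChange E F₀), IsDiscreteValuationRing V →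
      (∀ e : E, algebraMap E ↥(laurentBaseChange E F₀) e ∈ V) →
      ∃ h u : ↥(laurentBaseChange E F₀), h ≠ 0 ∧ u ∈ V ∧ u⁻¹ ∈ V ∧ y = u * h ^ m := by
  intro V hV hEV
  letI := algFEFbar E F₀
  haveI := towerEFEFbar E F₀
  obtain ⟨B, hcomap, hBdvr, hBalg, hBunif, -⟩ :=
    Fermat.Agent.S18.H845.exists_dvr_extension (E := E) (K := ↥(laurentBaseChange E F₀))
      (L := ↥(laurentBaseChange _root_.Fermat.Agent.A2.T1.H669.Qb F₀)) V hEV (adjoin_algebraic_eq_top E F₀)
  obtain ⟨π, hπ⟩ := IsDiscreteValuationRing.exists_irreducible V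
  obtain ⟨hπB, hπirr⟩ := hBunif π hπ
  have hmemV : ∀ x : ↥(laurentBaseChange E F₀), x ∈ V ↔ iota E F₀ x ∈ B := by
    intro x
    rw [← hcomap]
    exact Iff.rfl
  have hπ0 : (π : ↥(laurentBaseChange E F₀)) ≠ 0 := fun h => hπ.ne_zero (Subtype.ext h)
  -- `B` is a place of `F̄ / ℚ̄`
  have hne : B ≠ ⊤ := by
    intro htop
    apply hπirr.not_isUnit
    have hinv : (iota E F₀ (π : ↥(laurentBaseChange E F₀)))⁻¹ ∈ B := by
      rw [htop]; exact ValuationSubring.mem_top _
    refine IsUnit.of_mul_eq_one (⟨_, hinv⟩ : B) (Subtype.ext ?_)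
    exact mul_inv_cancel₀ (iota_ne_zero E F₀ hπ0)
  let v : Place _root_.Fermat.Agent.A2.T1.H669.Qb ↥(laurentBaseChange _root_.Fermat.Agent.A2.T1.H669.Qb F₀) :=
    { toValuationSubring := B
      algebraMap_mem' := fun a => hBalg _ (isAlgebraic_const E F₀ a)
      ne_top' := hne
      isPrincipalIdealRing' := inferInstance }
  obtain ⟨k, hk⟩ := hdiv v
  obtain ⟨u, hu⟩ := v.exists_unit_mul_zpow (iota_ne_zero E F₀ hy)
    (π := (⟨iota E F₀ (π : ↥(laurentBaseChange E F₀)), hπB⟩ : B)) hπirr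
  rw [hk] at hu
  have hu' : iota E F₀ y =
      ((u : B) : ↥(laurentBaseChange _root_.Fermat.Agent.A2.T1.H669.Qb F₀)) *
        (iota E F₀ (π : ↥(laurentBaseChange E F₀))) ^ ((m : ℤ) * k) := hu
  -- the unit over `E`
  set uK : ↥(laurentBaseChange E F₀) :=
    y * ((π : ↥(laurentBaseChange E F₀)) ^ ((m : ℤ) * k))⁻¹ with huK
  have hιuK : iota E F₀ uK = ((u : B) : ↥(laurentBaseChange _root_.Fermat.Agent.A2.T1.H669.Qb F₀)) := by
    rw [huK, map_mul, map_inv₀, map_zpow₀, hu', mul_assoc,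
      mul_inv_cancel₀ (zpow_ne_zero _ (iota_ne_zero E F₀ hπ0)), mul_one]
  refine ⟨(π : ↥(laurentBaseChange E F₀)) ^ k, uK, zpow_ne_zero _ hπ0, ?_, ?_, ?_⟩
  · rw [hmemV, hιuK]; exact (u : B).2
  · rw [hmemV, map_inv₀, hιuK]
    have h1 : ((u⁻¹ : Bˣ) : B) * (u : B) = 1 := by
      rw [← Units.val_mul, inv_mul_cancel, Units.val_one]
    have h2 : (((u⁻¹ : Bˣ) : B) : ↥(laurentBaseChange _root_.Fermat.Agent.A2.T1.H669.Qb F₀)) *
        ((u : B) : ↥(laurentBaseChange _root_.Fermat.Agent.A2.T1.H669.Qb F₀)) = 1 := congrArg Subtype.val h1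
    have h3 : (((u : B) : ↥(laurentBaseChange _root_.Fermat.Agent.A2.T1.H669.Qb F₀)))⁻¹ =
        (((u⁻¹ : Bˣ) : B) : ↥(laurentBaseChange _root_.Fermat.Agent.A2.T1.H669.Qb F₀)) :=
      (eq_inv_of_mul_eq_one_left h2).symm
    rw [h3]; exact ((u⁻¹ : Bˣ) : B).2
  · rw [huK, ← zpow_natCast ((π : ↥(laurentBaseChange E F₀)) ^ k) m, ← zpow_mul,
      mul_comm k (m : ℤ), mul_assoc,
      inv_mul_cancel₀ (zpow_ne_zero _ hπ0), mul_one]

end Fermat.Agent.A2.T1.H669

end
end
-- ===== PACK-END A2/T1/H669/T2.lean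

-- ===== PACK-BEGIN S18/H107/Branch.lean
section



/-!
# helper107 — S18 / M3-T : branch data in valuation-subring form (Mathlib-only)

`Unram107 O z` : `z` generates the maximal ideal of `O` as far as divisibility is concerned
(`∀ s ∈ 𝔪_O, s / z ∈ O`) — the conclusion of `GoodModel.unramified`.
`OrdLe107 O y k` : `ord_O y ≤ k` (`∀ s ∈ 𝔪_O, s ^ k / y ∈ O`).

`unram_of_factor107` : `y = z ^ k * U`, `U` a unit of `O`, `z ∈ 𝔪_O`, `ord_O y ≤ k` ⟹ `ord_O z ≤ 1`.
-/

set_option autoImplicit false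

namespace Fermat.Agent.S18.H107

variable {Ω : Type*} [Field Ω]

/-- `ord_O y ≤ k`, in valuation-subring language. -/
def OrdLe107 (O : ValuationSubring Ω) (y : Ω) (k : ℕ) : Prop :=
  ∀ s ∈ O, s⁻¹ ∉ O → s ^ k * y⁻¹ ∈ O

theorem val_lt_one107 (O : ValuationSubring Ω) {s : Ω} (hs : s ∈ O) (hs' : s⁻¹ ∉ O) :
    O.valuation s < 1 := by
  have h1 : O.valuation s ≤ 1 := (O.valuation_le_one_iff s).2 hs
  refine lt_of_le_of_ne h1 fun h => hs' ?_
  refine (O.valuation_le_one_iff _).1 ?_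
  rw [map_inv₀, h, inv_one]

theorem mem_of_val_lt_one107 (O : ValuationSubring Ω) {s : Ω} (h : O.valuation s < 1) : s ∈ O :=
  (O.valuation_le_one_iff s).1 h.le

theorem inv_not_mem_of_val_lt_one107 (O : ValuationSubring Ω) {s : Ω} (hs0 : s ≠ 0)
    (h : O.valuation s < 1) : s⁻¹ ∉ O := by
  intro hmem
  have h1 : O.valuation s⁻¹ ≤ 1 := (O.valuation_le_one_iff _).2 hmem
  rw [map_inv₀] at h1
  have hpos : 0 < O.valuation s := by
    rw [Valuation.pos_iff]
    exact hs0
  have h2 : (1 : O.ValueGroup) ≤ O.valuation s := by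
    have := (inv_le_one₀ hpos).1 h1
    exact this
  exact absurd h (not_lt.2 h2)

theorem val_eq_one_of_mem107 (O : ValuationSubring Ω) {c : Ω} (hc : c ∈ O) (hc' : c⁻¹ ∈ O)
    (hc0 : c ≠ 0) : O.valuation c = 1 := by
  have h1 : O.valuation c ≤ 1 := (O.valuation_le_one_iff c).2 hc
  have h2 : O.valuation c⁻¹ ≤ 1 := (O.valuation_le_one_iff _).2 hc'
  rw [map_inv₀] at h2
  have hpos : 0 < O.valuation c := by
    rw [Valuation.pos_iff]
    exact hc0
  exact le_antisymm h1 ((inv_le_one₀ hpos).1 h2)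

theorem val_const107 (O : ValuationSubring Ω) (Lc : Subfield Ω) (hL : ∀ a ∈ Lc, a ∈ O) {c : Ω}
    (hc : c ∈ Lc) (hc0 : c ≠ 0) : O.valuation c = 1 :=
  val_eq_one_of_mem107 O (hL c hc) (hL _ (Lc.inv_mem hc)) hc0

theorem val_add_eq_one107 (O : ValuationSubring Ω) {u m : Ω} (hu : O.valuation u = 1)
    (hm : O.valuation m < 1) : O.valuation (u + m) = 1 := by
  rw [← hu]
  exact Valuation.map_add_eq_of_lt_left _ (by rw [hu]; exact hm)

/-- `ord_O y ≤ k` in terms of the valuation. -/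
theorem OrdLe107.val_le {O : ValuationSubring Ω} {y : Ω} {k : ℕ} (h : OrdLe107 O y k)
    (hy : y ≠ 0) {s : Ω} (hs : O.valuation s < 1) : O.valuation s ^ k ≤ O.valuation y := by
  rcases eq_or_ne s 0 with rfl | hs0
  · rcases Nat.eq_zero_or_pos k with rfl | hk
    · -- `k = 0`: need `1 ≤ v y`
      simp only [pow_zero]
      by_contra hlt
      rw [not_le] at hlt
      -- then `y ∈ 𝔪_O`, and `OrdLe` with `s = y` gives `1 * y⁻¹ ∈ O`, contradiction
      have hyO : y ∈ O := mem_of_val_lt_one107 O hlt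
      have hy' : y⁻¹ ∉ O := inv_not_mem_of_val_lt_one107 O hy hlt
      have := h y hyO hy'
      rw [pow_zero, one_mul] at this
      exact hy' this
    · rw [map_zero, zero_pow hk.ne']
      exact zero_le
  · have hsO : s ∈ O := mem_of_val_lt_one107 O hs
    have hs' : s⁻¹ ∉ O := inv_not_mem_of_val_lt_one107 O hs0 hs
    have h1 := (O.valuation_le_one_iff _).2 (h s hsO hs')
    rw [map_mul, map_pow, map_inv₀] at h1
    have hpos : 0 < O.valuation y := by
      rw [Valuation.pos_iff]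
      exact hy
    have := (mul_inv_le_iff₀ hpos).1 h1
    rwa [one_mul] at this

/-- **Key lemma**: `y = z ^ k * U` with `U` a unit at `O`, `z ∈ 𝔪_O`, `ord_O y ≤ k`, `k ≥ 1`
⟹ `z` is a uniformiser of `O`. -/
theorem unram_of_factor107 (O : ValuationSubring Ω) {y z U : Ω} {k : ℕ} (hk : k ≠ 0)
    (hy : y = z ^ k * U) (hU : O.valuation U = 1) (hz0 : z ≠ 0)
    (hord : OrdLe107 O y k) : OrdLe107 O z 1 := by
  intro s hs hs'
  have hsv := val_lt_one107 O hs hs'
  have hU0 : U ≠ 0 := by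
    intro h0
    rw [h0, map_zero] at hU
    exact zero_ne_one hU
  have hy0 : y ≠ 0 := by
    rw [hy]
    exact mul_ne_zero (pow_ne_zero _ hz0) hU0
  have h1 := hord.val_le hy0 hsv
  rw [hy, map_mul, map_pow, hU, mul_one] at h1
  have h2 : O.valuation s ≤ O.valuation z := le_of_pow_le_pow_left₀ hk zero_le h1
  refine (O.valuation_le_one_iff _).1 ?_
  rw [pow_one, map_mul, map_inv₀]
  have hpos : 0 < O.valuation z := by
    rw [Valuation.pos_iff]
    exact hz0
  rw [mul_inv_le_iff₀ hpos, one_mul]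
  exact h2

theorem OrdLe107.one_iff {O : ValuationSubring Ω} {z : Ω} :
    OrdLe107 O z 1 ↔ ∀ s ∈ O, s⁻¹ ∉ O → s * z⁻¹ ∈ O := by
  unfold OrdLe107
  simp only [pow_one]

/-- The branch data of the `j`-line needed for the Hauptmodul transfers: `Ω / Lc(j)` is unramified
outside `0, 1728, ∞`, with ramification index `≤ 3` over `0` and `≤ 2` over `1728`. -/
structure BranchJ107 (Lc : Subfield Ω) (j : Ω) : Prop where
  generic : ∀ O : ValuationSubring Ω, (∀ a ∈ Lc, a ∈ O) → ∀ a ∈ Lc, a ≠ 0 → a ≠ 1728 →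
    j - a ∈ O → (j - a)⁻¹ ∉ O → OrdLe107 O (j - a) 1
  zero : ∀ O : ValuationSubring Ω, (∀ a ∈ Lc, a ∈ O) → j ∈ O → j⁻¹ ∉ O → OrdLe107 O j 3
  c1728 : ∀ O : ValuationSubring Ω, (∀ a ∈ Lc, a ∈ O) → j - 1728 ∈ O → (j - 1728)⁻¹ ∉ O →
    OrdLe107 O (j - 1728) 2

end Fermat.Agent.S18.H107

end
-- ===== PACK-END S18/H107/Branch.lean

-- ===== PACK-BEGIN S18/H107/IntTools.lean
section



/-!
# helper107 — S18 / M3-T : integrality toolkit for subrings of a field (Mathlib-only)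

All objects are sub-objects of one field `Ω` (as in the frozen interface `Alg/Spec.lean`).

* `intCl107 T`            : the integral closure of the subring `T` in `Ω`, as a subring.
* `isIntegral_iff_exists_poly107` : `IsIntegral T b ↔ ∃ P : Polynomial Ω` monic with coefficients in `T`,
  `P.eval b = 0`.
* `isIntegral_of_coeffs107` : a root of a monic polynomial with coefficients integral over `T` is
  integral over `T`.
* `exists_pow_mul_isIntegral107` (SCALING): `b` integral over `R'[y]`, `R' ≤ intCl T`,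
  `e, y·e ∈ intCl T`  ⟹  `∃ D, b·e^D ∈ intCl T`.
* `mem_of_comaximal107` (GLUING): `z·g₁^k₁, z·g₂^k₂ ∈ B`, `a g₁ + b g₂ = 1` in `B` ⟹ `z ∈ B`.
-/

set_option autoImplicit false

namespace Fermat.Agent.S18.H107

open Polynomial Fermat.Agent.S18.Alg

variable {Ω : Type*} [Field Ω]

/-- The integral closure of a subring `T` of `Ω` in `Ω`, as a subring of `Ω`. -/
def intCl107 (T : Subring Ω) : Subring Ω := (integralClosure T Ω).toSubring

theorem mem_intCl107 {T : Subring Ω} {b : Ω} : b ∈ intCl107 T ↔ IsIntegral T b := Iff.rfl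

theorem le_intCl107 (T : Subring Ω) : T ≤ intCl107 T := fun b hb =>
  mem_intCl107.2 (isIntegral_algebraMap (R := T) (A := Ω) (x := ⟨b, hb⟩))

theorem isIntegral_iff_exists_poly107 (T : Subring Ω) (b : Ω) :
    IsIntegral T b ↔ ∃ P : Polynomial Ω, P.Monic ∧ (∀ i, P.coeff i ∈ T) ∧ P.eval b = 0 := by
  constructor
  · rintro ⟨p, hp, hpb⟩
    refine ⟨p.map (algebraMap T Ω), hp.map _, fun i => ?_, ?_⟩
    · rw [coeff_map]
      exact (p.coeff i).2
    · rw [eval_map]
      exact hpb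
  · rintro ⟨P, hP, hc, hb⟩
    have hl : P ∈ lifts (algebraMap T Ω) := by
      rw [lifts_iff_coeff_lifts]
      intro n
      exact ⟨⟨P.coeff n, hc n⟩, rfl⟩
    obtain ⟨q, hq, -, hqm⟩ := lifts_and_degree_eq_and_monic hl hP
    refine ⟨q, hqm, ?_⟩
    rw [← eval_map, hq]
    exact hb

theorem isIntegral_of_coeffs107 (T : Subring Ω) (P : Polynomial Ω) (hP : P.Monic)
    (hc : ∀ i, P.coeff i ∈ intCl107 T) (b : Ω) (hb : P.eval b = 0) : b ∈ intCl107 T := by
  have hl : P ∈ lifts (algebraMap (integralClosure T Ω) Ω) := by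
    rw [lifts_iff_coeff_lifts]
    intro n
    exact ⟨⟨P.coeff n, hc n⟩, rfl⟩
  obtain ⟨q, hq, -, hqm⟩ := lifts_and_degree_eq_and_monic hl hP
  have hint : IsIntegral (integralClosure T Ω) b := by
    refine ⟨q, hqm, ?_⟩
    rw [← eval_map, hq]
    exact hb
  exact mem_intCl107.2 (isIntegral_trans (R := T) (A := integralClosure T Ω) b hint)

/-- Integral closedness of `intCl107 T` in polynomial form over another subring. -/
theorem isIntegral_mono107 {T T' : Subring Ω} (h : T ≤ intCl107 T') {b : Ω}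
    (hb : IsIntegral T b) : b ∈ intCl107 T' := by
  obtain ⟨P, hP, hc, hPb⟩ := (isIntegral_iff_exists_poly107 T b).1 hb
  exact isIntegral_of_coeffs107 T' P hP (fun i => h (hc i)) b hPb

theorem intCl107_mono {T T' : Subring Ω} (h : T ≤ intCl107 T') : intCl107 T ≤ intCl107 T' :=
  fun _ hb => isIntegral_mono107 h (mem_intCl107.1 hb)

theorem polyRing_le107 {R B : Subring Ω} {x : Ω} (hR : R ≤ B) (hx : x ∈ B) :
    polyRing R x ≤ B := by
  refine Subring.closure_le.2 ?_
  rintro c (hc | hc)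
  · exact hR hc
  · rw [Set.mem_singleton_iff] at hc
    rw [hc]
    exact hx

theorem le_polyRing107 (R : Subring Ω) (x : Ω) : R ≤ polyRing R x := fun _ hc =>
  Subring.subset_closure (Or.inl hc)

theorem self_mem_polyRing107 (R : Subring Ω) (x : Ω) : x ∈ polyRing R x :=
  Subring.subset_closure (Or.inr rfl)

/-- Elements of `R'[y]` become elements of `B` after multiplication by a high power of `e`,
if `e ∈ B` and `y * e ∈ B`. -/
theorem exists_pow_mul_mem107 {R' B : Subring Ω} {y e : Ω} (hR : R' ≤ B) (he : e ∈ B)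
    (hye : y * e ∈ B) {c : Ω} (hc : c ∈ polyRing R' y) :
    ∃ d : ℕ, ∀ d', d ≤ d' → c * e ^ d' ∈ B := by
  induction hc using Subring.closure_induction with
  | mem c hc =>
    rcases hc with hc | hc
    · exact ⟨0, fun d' _ => B.mul_mem (hR hc) (B.pow_mem he d')⟩
    · rw [Set.mem_singleton_iff] at hc
      subst hc
      refine ⟨1, fun d' hd' => ?_⟩
      obtain ⟨k, rfl⟩ := Nat.exists_eq_add_of_le hd'
      have : c * e ^ (1 + k) = (c * e) * e ^ k := by ring
      rw [this]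
      exact B.mul_mem hye (B.pow_mem he k)
  | zero => exact ⟨0, fun d' _ => by rw [zero_mul]; exact B.zero_mem⟩
  | one => exact ⟨0, fun d' _ => by rw [one_mul]; exact B.pow_mem he d'⟩
  | add a b _ _ ha hb =>
    obtain ⟨da, hda⟩ := ha
    obtain ⟨db, hdb⟩ := hb
    refine ⟨max da db, fun d' hd' => ?_⟩
    rw [add_mul]
    exact B.add_mem (hda d' (le_trans (le_max_left _ _) hd')) (hdb d' (le_trans (le_max_right _ _) hd'))
  | neg a _ ha =>
    obtain ⟨da, hda⟩ := ha
    refine ⟨da, fun d' hd' => ?_⟩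
    rw [neg_mul]
    exact B.neg_mem (hda d' hd')
  | mul a b _ _ ha hb =>
    obtain ⟨da, hda⟩ := ha
    obtain ⟨db, hdb⟩ := hb
    refine ⟨da + db, fun d' hd' => ?_⟩
    obtain ⟨k, rfl⟩ := Nat.exists_eq_add_of_le hd'
    have : a * b * e ^ (da + db + k) = (a * e ^ da) * (b * e ^ (db + k)) := by ring
    rw [this]
    exact B.mul_mem (hda da le_rfl) (hdb (db + k) (Nat.le_add_right _ _))

/-- **SCALING LEMMA.**  If `b` is integral over `R'[y]`, `R' ≤ intCl T` and `e`, `y * e` are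
integral over `T`, then `b * e ^ D` is integral over `T` for some `D`. -/
theorem exists_pow_mul_isIntegral107 {R' T : Subring Ω} {y e : Ω} (hR : R' ≤ intCl107 T)
    (he : e ∈ intCl107 T) (hye : y * e ∈ intCl107 T) {b : Ω}
    (hb : IsIntegral (polyRing R' y) b) : ∃ D : ℕ, b * e ^ D ∈ intCl107 T := by
  obtain ⟨P, hP, hc, hPb⟩ := (isIntegral_iff_exists_poly107 _ b).1 hb
  -- a uniform exponent for all coefficients
  have hex : ∀ i, ∃ d : ℕ, ∀ d', d ≤ d' → P.coeff i * e ^ d' ∈ intCl107 T := fun i =>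
    exists_pow_mul_mem107 hR he hye (hc i)
  choose d hd using hex
  obtain ⟨D, hD⟩ : ∃ D : ℕ, ∀ i ∈ Finset.range (P.natDegree + 1), d i ≤ D :=
    ⟨(Finset.range (P.natDegree + 1)).sup d, fun i hi => Finset.le_sup hi⟩
  refine ⟨D, ?_⟩
  refine isIntegral_of_coeffs107 T (scaleRoots P (e ^ D)) ((monic_scaleRoots_iff _).2 hP)
    (fun i => ?_) (b * e ^ D) ?_
  · rw [coeff_scaleRoots]
    rcases lt_trichotomy i P.natDegree with hi | hi | hi
    · rw [← pow_mul]
      refine hd i _ ?_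
      have h1 : d i ≤ D := hD i (Finset.mem_range.2 (by omega))
      have h2 : 1 ≤ P.natDegree - i := by omega
      calc d i ≤ D := h1
        _ = D * 1 := (mul_one D).symm
        _ ≤ D * (P.natDegree - i) := Nat.mul_le_mul_left D h2
    · subst hi
      rw [Nat.sub_self, pow_zero, mul_one]
      have : P.coeff P.natDegree = 1 := hP
      rw [this]
      exact (intCl107 T).one_mem
    · rw [coeff_eq_zero_of_natDegree_lt hi, zero_mul]
      exact (intCl107 T).zero_mem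
  · have h := scaleRoots_eval₂_mul (p := P) (RingHom.id Ω) b (e ^ D)
    rw [eval₂_id, eval₂_id, RingHom.id_apply, hPb, mul_zero] at h
    rw [mul_comm]
    exact h

/-- **GLUING over two comaximal opens.** -/
theorem mem_of_comaximal107 (B : Subring Ω) (z g₁ g₂ a b : Ω) (hg₁ : g₁ ∈ B) (hg₂ : g₂ ∈ B)
    (ha : a ∈ B) (hb : b ∈ B) (hab : a * g₁ + b * g₂ = 1) (k₁ k₂ : ℕ)
    (h₁ : z * g₁ ^ k₁ ∈ B) (h₂ : z * g₂ ^ k₂ ∈ B) : z ∈ B := by
  have hcop : IsCoprime (⟨g₁, hg₁⟩ : B) ⟨g₂, hg₂⟩ :=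
    ⟨⟨a, ha⟩, ⟨b, hb⟩, Subtype.ext hab⟩
  obtain ⟨a', b', hab'⟩ := (hcop.pow (m := k₁) (n := k₂))
  have h := congrArg (Subtype.val) hab'
  simp only [Subring.coe_add, Subring.coe_mul, Subring.coe_pow, Subring.coe_one] at h
  have hz : z = (a' : Ω) * (z * g₁ ^ k₁) + (b' : Ω) * (z * g₂ ^ k₂) := by
    calc z = z * 1 := (mul_one z).symm
      _ = z * ((a' : Ω) * g₁ ^ k₁ + (b' : Ω) * g₂ ^ k₂) := by rw [h]
      _ = _ := by ring
  rw [hz]
  exact B.add_mem (B.mul_mem a'.2 h₁) (B.mul_mem b'.2 h₂)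

end Fermat.Agent.S18.H107

end
-- ===== PACK-END S18/H107/IntTools.lean

-- ===== PACK-BEGIN S18/H138/ChartsConst.lean
section


/-!
# S18, Route K, ASM (helper138): constants and finiteness of the charts

* `mem_range_of_mem_adjoin_inter` : `R[x] ∩ R[x⁻¹] = R` for `x` transcendental over `R`.
* `isIntegral_of_mem_chart_inter` : an element of `F` integral over `R[x]` and over `R[x⁻¹]` is
  integral over `R` (for `R[X]` integrally closed, e.g. `R` a DVR).
* `exists_finite_gens`            : `B_fin` is generated over `R` by finitely many `x ^ j * bs i`.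
-/

set_option autoImplicit false
set_option linter.style.haveILetI false

namespace Fermat.Agent.S18.H138

open Polynomial

variable {R : Type*} [CommRing R] {F : Type*} [Field F] [Algebra R F]

theorem mem_adjoin_singleton_iff {x c : F} :
    c ∈ Algebra.adjoin R ({x} : Set F) ↔ ∃ P : R[X], aeval x P = c := by
  rw [Algebra.adjoin_singleton_eq_range_aeval]
  rfl

/-- `x ^ d * Q(x⁻¹) = (reflect d Q)(x)` for `natDegree Q ≤ d`. -/
theorem pow_mul_aeval_inv {x : F} (hx : x ≠ 0) (Q : R[X]) {d : ℕ} (hd : Q.natDegree ≤ d) :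
    x ^ d * aeval x⁻¹ Q = aeval x (reflect d Q) := by
  letI : Invertible x := invertibleOfNonzero hx
  have h := eval₂_reflect_mul_pow (algebraMap R F) x d (reflect d Q)
    (le_trans natDegree_reflect_le (by simp [hd]))
  rw [reflect_reflect] at h
  rw [invOf_eq_inv] at h
  rw [aeval_def, aeval_def, ← h, mul_comm]

theorem ne_zero_of_transcendental {x : F} (hx : Transcendental R x) : x ≠ 0 := by
  haveI : Nontrivial R := (algebraMap R F).domain_nontrivial
  rintro rfl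
  exact hx ⟨X, X_ne_zero, by simp⟩

theorem transcendental_inv {x : F} (hx : Transcendental R x) : Transcendental R x⁻¹ := by
  have hx0 : x ≠ 0 := ne_zero_of_transcendental hx
  rw [transcendental_iff] at hx ⊢
  intro Q hQ
  have h := pow_mul_aeval_inv (R := R) hx0 Q le_rfl
  rw [hQ, mul_zero] at h
  have h2 := hx _ h.symm
  have := congrArg (reflect Q.natDegree) h2
  rwa [reflect_reflect, reflect_zero] at this

/-- `R[x] ∩ R[x⁻¹] = R` inside `F`, for `x` transcendental over `R`. -/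
theorem mem_range_of_mem_adjoin_inter {x : F} (hx : Transcendental R x) {c : F}
    (h1 : c ∈ Algebra.adjoin R ({x} : Set F)) (h2 : c ∈ Algebra.adjoin R ({x⁻¹} : Set F)) :
    c ∈ Set.range (algebraMap R F) := by
  haveI : Nontrivial R := (algebraMap R F).domain_nontrivial
  have hx0 : x ≠ 0 := ne_zero_of_transcendental hx
  obtain ⟨P, rfl⟩ := mem_adjoin_singleton_iff.1 h1
  obtain ⟨Q, hQ⟩ := mem_adjoin_singleton_iff.1 h2
  have h := pow_mul_aeval_inv (R := R) hx0 Q le_rfl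
  rw [hQ] at h
  have h3 : aeval x (X ^ Q.natDegree * P) = aeval x (reflect Q.natDegree Q) := by
    rw [map_mul, map_pow, aeval_X, h]
  have h4 : X ^ Q.natDegree * P = reflect Q.natDegree Q := by
    have := (transcendental_iff.1 hx) (X ^ Q.natDegree * P - reflect Q.natDegree Q)
      (by rw [map_sub, h3, sub_self])
    exact sub_eq_zero.1 this
  by_cases hP : P = 0
  · subst hP
    exact ⟨0, by simp⟩
  have h5 : (X ^ Q.natDegree * P).natDegree = Q.natDegree + P.natDegree := by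
    rw [natDegree_X_pow_mul _ hP, add_comm]
  have h6 : (reflect Q.natDegree Q).natDegree ≤ Q.natDegree :=
    le_trans natDegree_reflect_le (by simp)
  rw [← h4, h5] at h6
  have h7 : P.natDegree = 0 := by omega
  obtain ⟨r, hr⟩ := natDegree_eq_zero.1 h7
  exact ⟨r, by rw [← hr]; simp⟩

section Integral

theorem isIntegrallyClosed_adjoin_singleton [IsIntegrallyClosed R[X]] {x : F}
    (hx : Transcendental R x) : IsIntegrallyClosed (Algebra.adjoin R ({x} : Set F)) := by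
  have hinj : Function.Injective (aeval (R := R) x) :=
    (injective_iff_map_eq_zero _).2 (transcendental_iff.1 hx)
  let e : R[X] ≃ₐ[R] Algebra.adjoin R ({x} : Set F) :=
    (AlgEquiv.ofInjective (aeval (R := R) x) hinj).trans
      (Subalgebra.equivOfEq _ _ (Algebra.adjoin_singleton_eq_range_aeval R x).symm)
  exact IsIntegrallyClosed.of_equiv e.toRingEquiv

theorem isNoetherianRing_adjoin_singleton [IsNoetherianRing R] {x : F}
    (hx : Transcendental R x) : IsNoetherianRing (Algebra.adjoin R ({x} : Set F)) := by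
  have hinj : Function.Injective (aeval (R := R) x) :=
    (injective_iff_map_eq_zero _).2 (transcendental_iff.1 hx)
  let e : R[X] ≃ₐ[R] Algebra.adjoin R ({x} : Set F) :=
    (AlgEquiv.ofInjective (aeval (R := R) x) hinj).trans
      (Subalgebra.equivOfEq _ _ (Algebra.adjoin_singleton_eq_range_aeval R x).symm)
  exact isNoetherianRing_of_ringEquiv _ e.toRingEquiv

/-- The field generated by `R` and `x` inside `F`. -/
def baseField (R : Type*) [CommRing R] {F : Type*} [Field F] [Algebra R F] (x : F) :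
    Subfield F :=
  Subfield.closure (Set.range (algebraMap R F) ∪ {x})

theorem adjoin_le_baseField (x : F) {a : F} (ha : a ∈ Algebra.adjoin R ({x} : Set F)) :
    a ∈ baseField R x := by
  have : a ∈ (Algebra.adjoin R ({x} : Set F)).toSubring := ha
  rw [Algebra.adjoin_eq_ring_closure] at this
  exact Subfield.subring_closure_le _ this

theorem inv_mem_baseField (x : F) : x⁻¹ ∈ baseField R x :=
  (baseField R x).inv_mem (Subfield.subset_closure (by simp))

theorem baseField_inv (x : F) : baseField R x⁻¹ = baseField R x := by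
  apply le_antisymm
  · refine Subfield.closure_le.2 ?_
    rintro y (hy | hy)
    · exact Subfield.subset_closure (Or.inl hy)
    · rw [Set.mem_singleton_iff] at hy
      rw [hy]
      exact inv_mem_baseField x
  · refine Subfield.closure_le.2 ?_
    rintro y (hy | hy)
    · exact Subfield.subset_closure (Or.inl hy)
    · rw [Set.mem_singleton_iff] at hy
      rw [hy]
      have := inv_mem_baseField (R := R) x⁻¹
      rwa [inv_inv] at this

theorem exists_div_of_mem_baseField (x : F) {z : F} (hz : z ∈ baseField R x) :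
    ∃ a ∈ Algebra.adjoin R ({x} : Set F), ∃ b ∈ Algebra.adjoin R ({x} : Set F), z = a / b := by
  obtain ⟨a, ha, b, hb, rfl⟩ := Subfield.mem_closure_iff.1 hz
  rw [← Algebra.adjoin_eq_ring_closure] at ha hb
  exact ⟨a, ha, b, hb, rfl⟩

/-- Coefficients of the minimal polynomial over the fraction field of an integrally closed
subalgebra `A` of `F` lie in `A`. -/
theorem minpoly_coeff_mem (A : Subalgebra R F) [IsIntegrallyClosed A] (K : Subfield F)
    (hAK : ∀ a ∈ A, a ∈ K) (hfrac : ∀ z ∈ K, ∃ a ∈ A, ∃ b ∈ A, z = a / b)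
    {y : F} (hy : IsIntegral A y) (n : ℕ) :
    (((minpoly K y).coeff n : K) : F) ∈ A := by
  let φ : A →+* K :=
    { toFun := fun a => ⟨a, hAK a a.2⟩
      map_one' := rfl
      map_mul' := fun _ _ => rfl
      map_zero' := rfl
      map_add' := fun _ _ => rfl }
  letI : Algebra A K := φ.toAlgebra
  haveI : IsScalarTower A K F := IsScalarTower.of_algebraMap_eq (fun _ => rfl)
  have hinj : Function.Injective (algebraMap A K) := by
    intro a b hab
    have : (a : F) = b := congrArg (fun t : K => (t : F)) hab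
    exact Subtype.ext this
  haveI : FaithfulSMul A K := (faithfulSMul_iff_algebraMap_injective A K).2 hinj
  haveI : IsFractionRing A K := by
    refine IsFractionRing.of_field A K (fun z => ?_)
    obtain ⟨a, ha, b, hb, h⟩ := hfrac z z.2
    exact ⟨⟨a, ha⟩, ⟨b, hb⟩, Subtype.ext h⟩
  have h := minpoly.isIntegrallyClosed_eq_field_fractions' (R := A) (S := F) K hy
  rw [h, coeff_map]
  exact ((minpoly A y).coeff n).2

/-- An element of `F` integral over `R[x]` and over `R[x⁻¹]` is integral over `R`. -/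
theorem isIntegral_of_mem_chart_inter [IsIntegrallyClosed R[X]] {x : F}
    (hx : Transcendental R x) {y : F}
    (h1 : y ∈ chart R ({x} : Set F)) (h2 : y ∈ chart R ({x⁻¹} : Set F)) :
    IsIntegral R y := by
  have hx0 : x ≠ 0 := ne_zero_of_transcendental hx
  have hxi : Transcendental R x⁻¹ := transcendental_inv hx
  haveI := isIntegrallyClosed_adjoin_singleton (R := R) hx
  haveI := isIntegrallyClosed_adjoin_singleton (R := R) hxi
  set K := baseField R x with hK
  have hc1 : ∀ n, (((minpoly K y).coeff n : K) : F) ∈ Algebra.adjoin R ({x} : Set F) :=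
    minpoly_coeff_mem _ K (fun a ha => adjoin_le_baseField x ha)
      (fun z hz => exists_div_of_mem_baseField x hz) h1
  have hc2 : ∀ n, (((minpoly K y).coeff n : K) : F) ∈ Algebra.adjoin R ({x⁻¹} : Set F) :=
    minpoly_coeff_mem _ K (fun a ha => by
        have := adjoin_le_baseField (R := R) x⁻¹ ha
        rwa [baseField_inv] at this)
      (fun z hz => by
        have hz' : z ∈ baseField R x⁻¹ := by rwa [baseField_inv]
        exact exists_div_of_mem_baseField x⁻¹ hz') h2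
  have hc : ∀ n, (((minpoly K y).coeff n : K) : F) ∈ Set.range (algebraMap R F) := fun n =>
    mem_range_of_mem_adjoin_inter hx (hc1 n) (hc2 n)
  have hyK : IsIntegral K y := by
    obtain ⟨p, hp, hp0⟩ := h1
    refine ⟨p.map (⟨⟨⟨fun a => (⟨a, adjoin_le_baseField x a.2⟩ : K), rfl⟩, fun _ _ => rfl⟩,
      rfl, fun _ _ => rfl⟩ : Algebra.adjoin R ({x} : Set F) →+* K), hp.map _, ?_⟩
    rw [eval₂_map]
    exact hp0
  have hmem : (minpoly K y).map (algebraMap K F) ∈ lifts (algebraMap R F) := by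
    rw [lifts_iff_coeff_lifts]
    intro n
    rw [coeff_map]
    exact hc n
  obtain ⟨q, hq, -, hqm⟩ := lifts_and_natDegree_eq_and_monic hmem ((minpoly.monic hyK).map _)
  refine ⟨q, hqm, ?_⟩
  rw [← eval_map, hq, eval_map, ← aeval_def]
  exact minpoly.aeval K y

end Integral

end Fermat.Agent.S18.H138

end
-- ===== PACK-END S18/H138/ChartsConst.lean

-- ===== PACK-BEGIN S18/H425/Hsep.lean
section




/-!
# S18 / b2.5 HSEP (helper425): the hypothesis `hsep` of `B2RegularStatement` / `B2Statement`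
from elementwise separability of the special fibre

EXACT STATEMENTS (Mathlib-only):

* `hsep_gen` : `Λ` noetherian integrally closed domain, `w ∈ Λ` prime, `B` integrally closed
  domain, finite and torsion-free over `Λ`, `w` prime in `B`, and
  `∀ b : B, ∃ P : Λ[X], w ∣ P(b) ∧ ¬ w ∣ P'(b)`.  Then
  `∃ x : Fin (finrank Λ B) → B, ¬ w ∣ det (intTrace Λ B (x i * x j))`.
* `hsep_poly` : the case `Λ = R[X]`, `w = C w₀`, `R` a DVR — the hypothesis `hsep` of
  `Fermat.Agent.S18.B12.B2RegularStatement` (origin/helper33 Spec3.lean), verbatim.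
-/

set_option autoImplicit false

noncomputable section

namespace Fermat.Agent.S18.H425

open Polynomial IsLocalRing

universe u v

/-- Compatibility of `aeval` with a commutative square of ring homomorphisms. -/
theorem aeval_map_of_comp_eq {Λ B K F : Type*} [CommRing Λ] [CommRing B] [Algebra Λ B]
    [CommRing K] [CommRing F] [Algebra K F] (g : Λ →+* K) (φ : B →+* F)
    (h : (algebraMap K F).comp g = φ.comp (algebraMap Λ B)) (Q : Λ[X]) (c : B) :
    aeval (φ c) (Q.map g) = φ (aeval c Q) := by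
  rw [aeval_def, eval₂_map, h, aeval_def, hom_eval₂]

theorem hsep_gen (Λ : Type u) [CommRing Λ] [IsDomain Λ] [IsIntegrallyClosed Λ]
    [IsNoetherianRing Λ] (w : Λ) (hw : Prime w)
    (B : Type v) [CommRing B] [IsDomain B] [IsIntegrallyClosed B] [Algebra Λ B]
    [Module.Finite Λ B] [Module.IsTorsionFree Λ B]
    (hwB : Prime (algebraMap Λ B w))
    (hel : ∀ b : B, ∃ P : Λ[X], algebraMap Λ B w ∣ aeval b P ∧
          ¬ algebraMap Λ B w ∣ aeval b (derivative P)) :
    ∃ x : Fin (Module.finrank Λ B) → B,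
        ¬ w ∣ (Matrix.of fun i j => Algebra.intTrace Λ B (x i * x j)).det := by
  classical
  -- the prime `𝔭 = (w)` of `Λ` and the prime `P = (w)` of `B`
  let 𝔭 : Ideal Λ := Ideal.span {w}
  have h𝔭 : 𝔭.IsPrime := (Ideal.span_singleton_prime hw.ne_zero).mpr hw
  let P : Ideal B := Ideal.span {algebraMap Λ B w}
  have hP : P.IsPrime := (Ideal.span_singleton_prime hwB.ne_zero).mpr hwB
  have hPover : P.LiesOver 𝔭 := by
    constructor
    ext s
    rw [Ideal.under_def, Ideal.mem_comap, Ideal.mem_span_singleton, Ideal.mem_span_singleton]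
    exact ⟨fun h => map_dvd (algebraMap Λ B) h, fun h => dvd_of_algebraMap_dvd hw.ne_zero h⟩
  have hP𝔭 : 𝔭.map (algebraMap Λ B) = P := by
    rw [Ideal.map_span, Set.image_singleton]
  -- localisations
  let Λₚ := Localization.AtPrime 𝔭
  let Bₚ := Localization (Algebra.algebraMapSubmonoid B 𝔭.primeCompl)
  let _ : Algebra Λₚ Bₚ := localizationAlgebra 𝔭.primeCompl B
  have : IsScalarTower Λ Λₚ Bₚ := IsScalarTower.of_algebraMap_eq'
    (by rw [RingHom.algebraMap_toAlgebra, IsLocalization.map_comp, ← IsScalarTower.algebraMap_eq])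
  have : IsLocalization (Submonoid.map (algebraMap Λ B) (Ideal.primeCompl 𝔭)) Bₚ :=
    inferInstanceAs (IsLocalization (Algebra.algebraMapSubmonoid B 𝔭.primeCompl) Bₚ)
  have e : Algebra.algebraMapSubmonoid B 𝔭.primeCompl ≤ nonZeroDivisors B :=
    Submonoid.map_le_of_le_comap _ <| 𝔭.primeCompl_le_nonZeroDivisors.trans
      (nonZeroDivisors_le_comap_nonZeroDivisors_of_injective _
        (FaithfulSMul.algebraMap_injective _ _))
  have : IsDomain Bₚ := IsLocalization.isDomain_of_le_nonZeroDivisors _ e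
  have hinjB : Function.Injective (algebraMap Λ B) := FaithfulSMul.algebraMap_injective Λ B
  have hinjp : Function.Injective (algebraMap Λₚ Bₚ) :=
    localizationAlgebra_injective (Rₘ := Λₚ) (Sₘ := Bₚ) hinjB
  have : Module.IsTorsionFree Λₚ Bₚ := Module.isTorsionFree_iff_algebraMap_injective.mpr hinjp
  have : Module.Finite Λₚ Bₚ := .of_isLocalization Λ B 𝔭.primeCompl
  have : IsIntegrallyClosed Bₚ := isIntegrallyClosed_of_isLocalization _ _ e
  have : IsNoetherianRing Λₚ := IsLocalization.isNoetherianRing 𝔭.primeCompl Λₚ inferInstance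
  have hmaxeq : maximalIdeal Λₚ = Ideal.span {algebraMap Λ Λₚ w} := by
    rw [← IsLocalization.AtPrime.map_eq_maximalIdeal 𝔭 Λₚ, Ideal.map_span, Set.image_singleton]
  have : IsPrincipalIdealRing Λₚ := by
    refine ((tfae_of_isNoetherianRing_of_isLocalRing_of_isDomain Λₚ).out 4 0).mp ?_
    rw [hmaxeq]
    exact ⟨⟨_, rfl⟩⟩
  have : Module.Free Λₚ Bₚ := Module.free_of_finite_type_torsion_free'
  -- the ideal `𝔪 Bₚ`
  have hmapeq : Ideal.map (algebraMap Λₚ Bₚ) (maximalIdeal Λₚ) = P.map (algebraMap B Bₚ) := by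
    rw [← IsLocalization.AtPrime.map_eq_maximalIdeal 𝔭 Λₚ, Ideal.map_map,
      ← IsScalarTower.algebraMap_eq, IsScalarTower.algebraMap_eq Λ B Bₚ, ← Ideal.map_map, hP𝔭]
  have hprime : (Ideal.map (algebraMap Λₚ Bₚ) (maximalIdeal Λₚ)).IsPrime := by
    rw [hmapeq]
    exact IsLocalization.AtPrime.isPrime_map_of_liesOver B 𝔭 Bₚ P
  -- the residue field `K̄ = Λₚ/𝔪` and the residue algebra `F̄ = Bₚ/𝔪Bₚ`
  let _ : Field (Λₚ ⧸ maximalIdeal Λₚ) := Ideal.Quotient.field _
  have hmax : (Ideal.map (algebraMap Λₚ Bₚ) (maximalIdeal Λₚ)).IsMaximal := by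
    have hdom : IsDomain (Bₚ ⧸ Ideal.map (algebraMap Λₚ Bₚ) (maximalIdeal Λₚ)) :=
      Ideal.Quotient.isDomain _
    have hfin : Module.Finite (Λₚ ⧸ maximalIdeal Λₚ)
        (Bₚ ⧸ Ideal.map (algebraMap Λₚ Bₚ) (maximalIdeal Λₚ)) :=
      Module.Finite.of_restrictScalars_finite Λₚ _ _
    have hint : Algebra.IsIntegral (Λₚ ⧸ maximalIdeal Λₚ)
        (Bₚ ⧸ Ideal.map (algebraMap Λₚ Bₚ) (maximalIdeal Λₚ)) := Algebra.IsIntegral.of_finite _ _
    exact Ideal.Quotient.maximal_of_isField _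
      (isField_of_isIntegral_of_isField' (Field.toIsField (Λₚ ⧸ maximalIdeal Λₚ)))
  let _ : Field (Bₚ ⧸ Ideal.map (algebraMap Λₚ Bₚ) (maximalIdeal Λₚ)) := Ideal.Quotient.field _
  -- the kernel of `B → F̄`
  have hker : ∀ c : B, Ideal.Quotient.mk (Ideal.map (algebraMap Λₚ Bₚ) (maximalIdeal Λₚ))
      (algebraMap B Bₚ c) = 0 ↔ algebraMap Λ B w ∣ c := by
    intro c
    rw [Ideal.Quotient.eq_zero_iff_mem, hmapeq, ← Ideal.mem_comap, ← Ideal.under_def,
      IsLocalization.under_map_of_isPrime_disjoint (Algebra.algebraMapSubmonoid B 𝔭.primeCompl)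
        Bₚ hP (Ideal.disjoint_primeCompl_of_liesOver P 𝔭), Ideal.mem_span_singleton]
  -- the two maps to the residue objects
  let g : Λ →+* (Λₚ ⧸ maximalIdeal Λₚ) :=
    (Ideal.Quotient.mk (maximalIdeal Λₚ)).comp (algebraMap Λ Λₚ)
  let φ : B →+* (Bₚ ⧸ Ideal.map (algebraMap Λₚ Bₚ) (maximalIdeal Λₚ)) :=
    (Ideal.Quotient.mk _).comp (algebraMap B Bₚ)
  have hsq : (algebraMap (Λₚ ⧸ maximalIdeal Λₚ)
      (Bₚ ⧸ Ideal.map (algebraMap Λₚ Bₚ) (maximalIdeal Λₚ))).comp g =
      φ.comp (algebraMap Λ B) := by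
    ext a
    simp only [g, φ, RingHom.comp_apply]
    rw [Ideal.Quotient.algebraMap_quotient_map_quotient, ← IsScalarTower.algebraMap_apply,
      ← IsScalarTower.algebraMap_apply]
  have hg : ∀ s₀ : Λ, s₀ ∈ 𝔭.primeCompl → g s₀ ≠ 0 := by
    intro s₀ hs₀ h0
    simp only [g, RingHom.comp_apply] at h0
    rw [Ideal.Quotient.eq_zero_iff_mem, IsLocalRing.mem_maximalIdeal, mem_nonunits_iff] at h0
    exact h0 ((IsLocalization.AtPrime.isUnit_to_map_iff Λₚ 𝔭 s₀).mpr hs₀)
  -- elementwise separability of `F̄ / K̄`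
  have hsepel : ∀ y : Bₚ ⧸ Ideal.map (algebraMap Λₚ Bₚ) (maximalIdeal Λₚ),
      IsSeparable (Λₚ ⧸ maximalIdeal Λₚ) y := by
    intro y
    obtain ⟨y, rfl⟩ := Ideal.Quotient.mk_surjective y
    obtain ⟨⟨b, s⟩, hbs⟩ := IsLocalization.surj (Algebra.algebraMapSubmonoid B 𝔭.primeCompl) y
    obtain ⟨s₀, hs₀, hs₀'⟩ := s.2
    obtain ⟨Q, hQ0, hQ1⟩ := hel b
    have hb : IsSeparable (Λₚ ⧸ maximalIdeal Λₚ) (φ b) := by
      apply isSeparable_of_aeval_derivative_ne_zero _ (Q.map g)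
      · rw [aeval_map_of_comp_eq g φ hsq]
        exact (hker _).mpr hQ0
      · rw [derivative_map, aeval_map_of_comp_eq g φ hsq]
        exact fun h => hQ1 ((hker _).mp h)
    have hrel : Ideal.Quotient.mk (Ideal.map (algebraMap Λₚ Bₚ) (maximalIdeal Λₚ)) y *
        algebraMap (Λₚ ⧸ maximalIdeal Λₚ) _ (g s₀) = φ b := by
      have h1 : algebraMap (Λₚ ⧸ maximalIdeal Λₚ)
          (Bₚ ⧸ Ideal.map (algebraMap Λₚ Bₚ) (maximalIdeal Λₚ)) (g s₀) =
          φ (algebraMap Λ B s₀) := by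
        have := congrArg (fun f => f s₀) hsq
        simpa using this
      rw [h1, hs₀']
      simp only [φ, RingHom.comp_apply]
      rw [← map_mul, hbs]
    have hy : Ideal.Quotient.mk (Ideal.map (algebraMap Λₚ Bₚ) (maximalIdeal Λₚ)) y =
        φ b * algebraMap (Λₚ ⧸ maximalIdeal Λₚ) _ (g s₀)⁻¹ := by
      rw [← hrel, mul_assoc, ← map_mul, mul_inv_cancel₀ (hg s₀ hs₀), map_one, mul_one]
    rw [hy]
    exact Field.isSeparable_mul hb (isSeparable_algebraMap _)
  -- rank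
  have hrank : Module.finrank Λₚ Bₚ = Module.finrank Λ B := by
    have h1 : Module.finrank Λₚ Bₚ = Module.finrank Λ Bₚ :=
      IsLocalization.finrank_eq Λₚ 𝔭.primeCompl 𝔭.primeCompl_le_nonZeroDivisors
    have h2 : Module.finrank Λ Bₚ = Module.finrank Λ B :=
      IsLocalizedModule.finrank_eq 𝔭.primeCompl (IsScalarTower.toAlgHom Λ B Bₚ).toLinearMap
        𝔭.primeCompl_le_nonZeroDivisors
    rw [h1, h2]
  let bas : Module.Basis (Fin (Module.finrank Λ B)) Λₚ Bₚ := Module.finBasisOfFinrankEq Λₚ Bₚ hrank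
  -- clear denominators
  have hex : ∀ i, ∃ (x : B) (s₀ : Λ), s₀ ∈ 𝔭.primeCompl ∧
      algebraMap Λ Λₚ s₀ • bas i = algebraMap B Bₚ x := by
    intro i
    obtain ⟨⟨b, s⟩, hbs⟩ :=
      IsLocalization.surj (Algebra.algebraMapSubmonoid B 𝔭.primeCompl) (bas i)
    obtain ⟨s₀, hs₀, hs₀'⟩ := s.2
    refine ⟨b, s₀, hs₀, ?_⟩
    rw [Algebra.smul_def, ← IsScalarTower.algebraMap_apply,
      IsScalarTower.algebraMap_apply Λ B Bₚ, hs₀', mul_comm]
    exact hbs
  choose x s₀ hs₀ hx using hex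
  have hunit : ∀ i, IsUnit (algebraMap Λ Λₚ (s₀ i)) := fun i =>
    (IsLocalization.AtPrime.isUnit_to_map_iff Λₚ 𝔭 (s₀ i)).mpr (hs₀ i)
  let bas' : Module.Basis (Fin (Module.finrank Λ B)) Λₚ Bₚ := bas.isUnitSMul hunit
  have hbas' : ∀ i, bas' i = algebraMap B Bₚ (x i) := fun i => by
    rw [Module.Basis.isUnitSMul_apply, hx]
  have hdiscr : IsUnit (Algebra.discr Λₚ bas') :=
    isUnit_discr_of_isSeparable_quotient bas' hmax hsepel
  refine ⟨x, fun hdvd => ?_⟩
  have hmap : algebraMap Λ Λₚ (Matrix.of fun i j => Algebra.intTrace Λ B (x i * x j)).det =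
      Algebra.discr Λₚ bas' := by
    rw [Algebra.discr_def, RingHom.map_det]
    congr 1
    ext i j
    simp only [RingHom.mapMatrix_apply, Matrix.map_apply, Matrix.of_apply,
      Algebra.traceMatrix_apply, Algebra.traceForm_apply, hbas']
    rw [Algebra.intTrace_eq_of_isLocalization Λ B 𝔭.primeCompl (Aₘ := Λₚ) (Bₘ := Bₚ),
      Algebra.intTrace_eq_trace, map_mul]
  rw [← hmap, IsLocalization.AtPrime.isUnit_to_map_iff Λₚ 𝔭] at hdiscr
  exact hdiscr (Ideal.mem_span_singleton.mpr hdvd)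

/-- **HSEP**, in the exact shape of the hypothesis `hsep` of
`Fermat.Agent.S18.B12.B2RegularStatement` / `B2Statement` (origin/helper33). -/
theorem hsep_poly (R : Type u) [CommRing R] [IsDomain R] [IsDiscreteValuationRing R]
    (w : R) (hw : Irreducible w)
    (B : Type v) [CommRing B] [IsDomain B] [IsIntegrallyClosed B] [Algebra R[X] B]
    [Module.Finite R[X] B] [Module.IsTorsionFree R[X] B]
    (hwB : Prime (algebraMap R[X] B (C w)))
    (hel : ∀ b : B, ∃ P : R[X][X], algebraMap R[X] B (C w) ∣ aeval b P ∧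
          ¬ algebraMap R[X] B (C w) ∣ aeval b (derivative P)) :
    ∃ x : Fin (Module.finrank R[X] B) → B,
        ¬ C w ∣ (Matrix.of fun i j => Algebra.intTrace R[X] B (x i * x j)).det := by
  have hwp : Prime (C w : R[X]) :=
    (Polynomial.prime_C_iff).mpr hw.prime
  exact hsep_gen R[X] (C w) hwp B hwB hel

end Fermat.Agent.S18.H425

end
end
-- ===== PACK-END S18/H425/Hsep.lean

-- ===== PACK-BEGIN S18/H214/LocalExist.lean
section




/-!
# S18, route K, piece LE ("local existence"): the input `σ₀, σ₁` of the Kummer endgame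

One chart (`exists_sigma`): `B` a noetherian integrally closed domain, `F = Frac B`, `ϖ ∈ B` prime,
special fibre regular (`H754.RegularAlong ϖ`, output of b2), `u ≡ 1 mod ϖ` (`H754.OneModPi`),
`m ∣ div u` (`H754.DivisibleDivisor B m u`).  Then there is `σ ∈ F` with
`σ ^ m * u ∈ 1 + ϖ B` and `σ ∈ 1 + ϖ B_(ϖ)`.
-/

set_option autoImplicit false

namespace Fermat.Agent.S18.H214

open Fermat.Agent.S18.H754

section LocalRing

variable {B : Type*} [CommRing B] [IsDomain B]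

/-- The image of a prime element `ϖ ∈ 𝔪` in the localisation at `𝔪` is prime. -/
theorem prime_algebraMap_atPrime (ϖ : B) (hϖ : Prime ϖ) (𝔪 : Ideal B) [𝔪.IsPrime]
    (hm : ϖ ∈ 𝔪) : Prime (algebraMap B (Localization.AtPrime 𝔪) ϖ) := by
  have hinj : Function.Injective (algebraMap B (Localization.AtPrime 𝔪)) :=
    IsLocalization.injective (Localization.AtPrime 𝔪) 𝔪.primeCompl_le_nonZeroDivisors
  have h0 : algebraMap B (Localization.AtPrime 𝔪) ϖ ≠ 0 := by
    rw [Ne, ← map_zero (algebraMap B (Localization.AtPrime 𝔪))]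
    exact fun h => hϖ.ne_zero (hinj h)
  rw [← Ideal.span_singleton_prime h0]
  have hp : (Ideal.span {ϖ}).IsPrime := (Ideal.span_singleton_prime hϖ.ne_zero).2 hϖ
  have hd : Disjoint (𝔪.primeCompl : Set B) (Ideal.span {ϖ} : Ideal B) := by
    rw [Set.disjoint_left]
    intro x hx hx'
    exact hx ((Ideal.span_singleton_le_iff_mem 𝔪).2 hm hx')
  have := IsLocalization.isPrime_of_isPrime_disjoint 𝔪.primeCompl (Localization.AtPrime 𝔪)
    (Ideal.span {ϖ}) hp hd
  rwa [Ideal.map_span, Set.image_singleton] at this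

/-- Divisibility by `ϖ` descends from the localisation at `𝔪 ∋ ϖ`. -/
theorem dvd_of_algebraMap_dvd_atPrime (ϖ : B) (hϖ : Prime ϖ) (𝔪 : Ideal B) [𝔪.IsPrime]
    (hm : ϖ ∈ 𝔪) (x : B)
    (h : algebraMap B (Localization.AtPrime 𝔪) ϖ ∣ algebraMap B (Localization.AtPrime 𝔪) x) :
    ϖ ∣ x := by
  have hinj : Function.Injective (algebraMap B (Localization.AtPrime 𝔪)) :=
    IsLocalization.injective (Localization.AtPrime 𝔪) 𝔪.primeCompl_le_nonZeroDivisors
  obtain ⟨y, hy⟩ := h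
  obtain ⟨b, r, rfl⟩ := IsLocalization.exists_mk'_eq 𝔪.primeCompl y
  have h1 : algebraMap B (Localization.AtPrime 𝔪) (x * r) =
      algebraMap B (Localization.AtPrime 𝔪) (ϖ * b) := by
    rw [map_mul, map_mul, hy, mul_assoc, IsLocalization.mk'_spec]
  have h2 : x * r = ϖ * b := hinj h1
  have h3 : ϖ ∣ x * r := ⟨b, h2⟩
  rcases hϖ.dvd_or_dvd h3 with h4 | h4
  · exact h4
  · exact absurd (𝔪.mem_of_dvd h4 hm) r.2

/-- b2 output ⟹ the local ring of the special fibre at a closed point is a principal ideal ring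
(a discrete valuation ring or a field). -/
theorem isPrincipalIdealRing_quotient_atPrime [IsNoetherianRing B] (ϖ : B) (hϖ : Prime ϖ)
    (hreg : RegularAlong ϖ) (𝔪 : Ideal B) [h𝔪 : 𝔪.IsMaximal] (hm : ϖ ∈ 𝔪) :
    IsPrincipalIdealRing (Localization.AtPrime 𝔪 ⧸
      Ideal.span {algebraMap B (Localization.AtPrime 𝔪) ϖ}) := by
  set A := Localization.AtPrime 𝔪 with hA
  set ϖA := algebraMap B A ϖ with hϖA
  have hpr : Prime ϖA := prime_algebraMap_atPrime ϖ hϖ 𝔪 hm
  have hI : (Ideal.span {ϖA}).IsPrime := (Ideal.span_singleton_prime hpr.ne_zero).2 hpr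
  have : IsLocalRing (A ⧸ Ideal.span {ϖA}) :=
    IsLocalRing.of_surjective' (Ideal.Quotient.mk (Ideal.span {ϖA})) Ideal.Quotient.mk_surjective
  obtain ⟨t, htm, ht⟩ := hreg 𝔪 h𝔪 hm
  have hϖmax : ϖA ∈ IsLocalRing.maximalIdeal A :=
    (IsLocalization.AtPrime.to_map_mem_maximal_iff A 𝔪 ϖ).2 hm
  have htmax : algebraMap B A t ∈ IsLocalRing.maximalIdeal A :=
    (IsLocalization.AtPrime.to_map_mem_maximal_iff A 𝔪 t).2 htm
  -- the maximal ideal of the quotient is generated by the image of `t`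
  have key : IsLocalRing.maximalIdeal (A ⧸ Ideal.span {ϖA}) =
      Ideal.span {Ideal.Quotient.mk (Ideal.span {ϖA}) (algebraMap B A t)} := by
    apply le_antisymm
    · intro x hx
      obtain ⟨y, rfl⟩ := Ideal.Quotient.mk_surjective x
      have hy : y ∈ IsLocalRing.maximalIdeal A := by
        rw [IsLocalRing.mem_maximalIdeal, mem_nonunits_iff] at hx ⊢
        exact fun hu => hx (hu.map _)
      obtain ⟨b, r, rfl⟩ := IsLocalization.exists_mk'_eq 𝔪.primeCompl y
      rw [IsLocalization.AtPrime.mk'_mem_maximal_iff A 𝔪] at hy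
      obtain ⟨s, hs, hsb⟩ := ht b hy
      obtain ⟨c₁, c₂, hc⟩ := Ideal.mem_span_pair.1 hsb
      have hsu : IsUnit (algebraMap B A s) :=
        (IsLocalization.AtPrime.isUnit_to_map_iff A 𝔪 s).2 hs
      have hru : IsUnit (algebraMap B A r) :=
        (IsLocalization.AtPrime.isUnit_to_map_iff A 𝔪 r).2 r.2
      obtain ⟨su, hsu'⟩ := hsu
      obtain ⟨ru, hru'⟩ := hru
      have e1 : IsLocalization.mk' A b r * algebraMap B A r = algebraMap B A b :=
        IsLocalization.mk'_spec A b r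
      have e2 : algebraMap B A s * algebraMap B A b =
          algebraMap B A c₁ * ϖA + algebraMap B A c₂ * algebraMap B A t := by
        rw [← map_mul, ← hc, map_add, map_mul, map_mul]
      have e3 : IsLocalization.mk' A b r =
          ((su⁻¹ * ru⁻¹ : Aˣ) : A) * algebraMap B A c₁ * ϖA +
            ((su⁻¹ * ru⁻¹ : Aˣ) : A) * algebraMap B A c₂ * algebraMap B A t := by
        have : IsLocalization.mk' A b r * ((su * ru : Aˣ) : A) =
            algebraMap B A c₁ * ϖA + algebraMap B A c₂ * algebraMap B A t := by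
          rw [Units.val_mul, hsu', hru', ← e2, ← e1]; ring
        calc IsLocalization.mk' A b r
            = IsLocalization.mk' A b r * ((su * ru : Aˣ) : A) * ((su⁻¹ * ru⁻¹ : Aˣ) : A) := by
              rw [mul_assoc, ← Units.val_mul]
              have : su * ru * (su⁻¹ * ru⁻¹) = 1 := by
                rw [mul_comm su⁻¹, mul_assoc, ← mul_assoc ru, mul_inv_cancel, one_mul,
                  mul_inv_cancel]
              rw [this, Units.val_one, mul_one]
          _ = _ := by rw [this]; ring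
      refine Ideal.mem_span_singleton'.2
        ⟨Ideal.Quotient.mk (Ideal.span {ϖA}) (((su⁻¹ * ru⁻¹ : Aˣ) : A) * algebraMap B A c₂), ?_⟩
      rw [← map_mul, Ideal.Quotient.eq, Ideal.mem_span_singleton]
      refine ⟨-(((su⁻¹ * ru⁻¹ : Aˣ) : A) * algebraMap B A c₁), ?_⟩
      rw [e3]; ring
    · rw [Ideal.span_singleton_le_iff_mem, IsLocalRing.mem_maximalIdeal, mem_nonunits_iff]
      intro hu
      obtain ⟨e, he⟩ := hu.exists_right_inv
      obtain ⟨e', rfl⟩ := Ideal.Quotient.mk_surjective e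
      have he' : algebraMap B A t * e' - 1 ∈ Ideal.span {ϖA} := by
        rw [← Ideal.Quotient.eq, map_mul, map_one]; exact he
      obtain ⟨d, hd⟩ := Ideal.mem_span_singleton.1 he'
      have h1 : (1 : A) = algebraMap B A t * e' - ϖA * d := by rw [← hd]; ring
      have h2 : (1 : A) ∈ IsLocalRing.maximalIdeal A := by
        rw [h1]
        exact Ideal.sub_mem _ (Ideal.mul_mem_right _ _ htmax) (Ideal.mul_mem_right _ _ hϖmax)
      exact (Ideal.ne_top_iff_one _).1 (IsLocalRing.maximalIdeal.isMaximal A).ne_top h2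
  have hprin : (IsLocalRing.maximalIdeal (A ⧸ Ideal.span {ϖA})).IsPrincipal := ⟨⟨_, key⟩⟩
  exact ((tfae_of_isNoetherianRing_of_isLocalRing_of_isDomain
    (R := A ⧸ Ideal.span {ϖA})).out 0 4).2 hprin

end LocalRing

section LocalData

variable {B : Type*} [CommRing B] [IsDomain B] [IsNoetherianRing B]
  {F : Type*} [Field F] [Algebra B F] [IsFractionRing B F]

/-- **Local data at a closed point of the special fibre**, written without denominators in `B`:
`u = a / s = (b / r) · (t₁ / t₂) ^ m` with `r ∉ 𝔪`, `t₁ ≡ t₂ ≢ 0 mod ϖ`. -/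
theorem exists_local_data (ϖ : B) (hϖ : Prime ϖ) (hreg : RegularAlong ϖ) (m : ℕ) (hm : m ≠ 0)
    (a s : B) (hs : ¬ ϖ ∣ s) (has : ϖ ∣ a - s)
    (u : F) (hu : u * algebraMap B F s = algebraMap B F a)
    (hdiv : DivisibleDivisor B m u)
    (𝔪 : Ideal B) [h𝔪 : 𝔪.IsMaximal] (hm𝔪 : ϖ ∈ 𝔪) :
    ∃ t₁ t₂ b r : B, r ∉ 𝔪 ∧ ¬ ϖ ∣ t₁ ∧ ¬ ϖ ∣ t₂ ∧ ϖ ∣ t₁ - t₂ ∧
      a * t₂ ^ m * r = b * s * t₁ ^ m := by
  classical
  set A := Localization.AtPrime 𝔪 with hA
  set f := algebraMap B A with hf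
  have hinj : Function.Injective f :=
    IsLocalization.injective A 𝔪.primeCompl_le_nonZeroDivisors
  have hinjF : Function.Injective (algebraMap B F) := IsFractionRing.injective B F
  have ha : ¬ ϖ ∣ a := by
    intro h
    apply hs
    have := dvd_sub h has
    rwa [sub_sub_cancel] at this
  have hpr : Prime (f ϖ) := prime_algebraMap_atPrime ϖ hϖ 𝔪 hm𝔪
  have hI : (Ideal.span {f ϖ}).IsPrime := (Ideal.span_singleton_prime hpr.ne_zero).2 hpr
  have : IsPrincipalIdealRing (A ⧸ Ideal.span {f ϖ}) :=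
    isPrincipalIdealRing_quotient_atPrime ϖ hϖ hreg 𝔪 hm𝔪
  have : UniqueFactorizationMonoid A :=
    ufd_of_quotient_isPrincipalIdealRing (f ϖ) hpr.ne_zero hpr.not_isUnit hI
  have hndvd : ∀ x : B, ¬ ϖ ∣ x → ¬ f ϖ ∣ f x := fun x hx h =>
    hx (dvd_of_algebraMap_dvd_atPrime ϖ hϖ 𝔪 hm𝔪 x h)
  -- the hypothesis of `local_kummer_structure`
  have hloc : ∀ π : A, Prime π → ¬ Associated π (f ϖ) → ∃ a' s' z₁ z₂ : A, ¬ π ∣ a' ∧ ¬ π ∣ s' ∧
      z₁ ≠ 0 ∧ z₂ ≠ 0 ∧ f a * s' * z₂ ^ m = a' * f s * z₁ ^ m := by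
    intro π hπ _
    have hπI : (Ideal.span {π}).IsPrime := (Ideal.span_singleton_prime hπ.ne_zero).2 hπ
    set 𝔭 : Ideal B := (Ideal.span {π}).under B with h𝔭
    have h𝔭prime : 𝔭.IsPrime := Ideal.IsPrime.under B (Ideal.span {π})
    have hht : 𝔭.height = 1 := by
      rw [h𝔭, IsLocalization.height_under 𝔪.primeCompl]
      exact Ideal.height_span_singleton_eq_one_of_mem_nonZeroDivisors
        (mem_nonZeroDivisors_of_ne_zero hπ.ne_zero) hπ.not_isUnit
    obtain ⟨t, a', s', ha', hs', heq⟩ := hdiv 𝔭 h𝔭prime hht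
    have hmem : ∀ x : B, x ∉ 𝔭 → ¬ π ∣ f x := by
      intro x hx hd
      apply hx
      rw [h𝔭, Ideal.under_def, Ideal.mem_comap, Ideal.mem_span_singleton]
      exact hd
    obtain ⟨n, d, hd, rfl⟩ := IsFractionRing.div_surjective B t
    have hd0 : d ≠ 0 := nonZeroDivisors.ne_zero hd
    have hdF : algebraMap B F d ≠ 0 := fun h => hd0 (hinjF (by rw [h, map_zero]))
    have hs0 : s ≠ 0 := fun h => hs (h ▸ dvd_zero ϖ)
    have hsF : algebraMap B F s ≠ 0 := fun h => hs0 (hinjF (by rw [h, map_zero]))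
    have ha'0 : a' ≠ 0 := fun h => ha' (h ▸ 𝔭.zero_mem)
    -- the identity in `B`
    have key : a * s' * n ^ m = a' * s * d ^ m := by
      apply hinjF
      simp only [map_mul, map_pow]
      have hu' : u = algebraMap B F a / algebraMap B F s := by
        rw [eq_div_iff hsF]; exact hu
      rw [hu', div_pow] at heq
      field_simp at heq
      linear_combination heq
    have hn0 : n ≠ 0 := by
      rintro rfl
      rw [zero_pow hm, mul_zero] at key
      have := key.symm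
      rcases mul_eq_zero.1 this with h | h
      · rcases mul_eq_zero.1 h with h | h
        · exact ha'0 h
        · exact hs0 h
      · exact hd0 (pow_eq_zero_iff hm |>.1 h)
    refine ⟨f a', f s', f d, f n, hmem a' ha', hmem s' hs', ?_, ?_, ?_⟩
    · exact fun h => hd0 (hinj (by rw [h, map_zero]))
    · exact fun h => hn0 (hinj (by rw [h, map_zero]))
    · rw [← map_pow, ← map_pow, ← map_mul, ← map_mul, ← map_mul, ← map_mul, key]
  obtain ⟨c, t₁, t₂, ht₁, ht₂, ht₁₂, -, heq⟩ :=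
    local_kummer_structure (f ϖ) hpr m hm (f a) (f s) (hndvd a ha) (hndvd s hs)
      (by rw [← map_sub]; exact map_dvd f has) hloc
  -- clear denominators
  obtain ⟨b₁, r₁, rfl⟩ := IsLocalization.exists_mk'_eq 𝔪.primeCompl t₁
  obtain ⟨b₂, r₂, rfl⟩ := IsLocalization.exists_mk'_eq 𝔪.primeCompl t₂
  obtain ⟨bc, rc, hc⟩ := IsLocalization.exists_mk'_eq 𝔪.primeCompl (c : A)
  have e₁ : f (b₁ * r₂) = IsLocalization.mk' A b₁ r₁ * (f r₁ * f r₂) := by
    rw [map_mul, ← mul_assoc, IsLocalization.mk'_spec]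
  have e₂ : f (b₂ * r₁) = IsLocalization.mk' A b₂ r₂ * (f r₁ * f r₂) := by
    rw [map_mul, mul_comm (f r₁), ← mul_assoc, IsLocalization.mk'_spec]
  have ec : (c : A) * f rc = f bc := by rw [← hc, IsLocalization.mk'_spec]
  have hr₁u : IsUnit (f r₁) := (IsLocalization.AtPrime.isUnit_to_map_iff A 𝔪 r₁).2 r₁.2
  have hr₂u : IsUnit (f r₂) := (IsLocalization.AtPrime.isUnit_to_map_iff A 𝔪 r₂).2 r₂.2
  have hru : IsUnit (f r₁ * f r₂) := hr₁u.mul hr₂u
  refine ⟨b₁ * r₂, b₂ * r₁, bc, rc, rc.2, ?_, ?_, ?_, ?_⟩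
  · intro h
    have h1 : f ϖ ∣ IsLocalization.mk' A b₁ r₁ * (f r₁ * f r₂) := by
      rw [← e₁]; exact map_dvd f h
    exact ht₁ ((hru.dvd_mul_right).1 h1)
  · intro h
    have h1 : f ϖ ∣ IsLocalization.mk' A b₂ r₂ * (f r₁ * f r₂) := by
      rw [← e₂]; exact map_dvd f h
    exact ht₂ ((hru.dvd_mul_right).1 h1)
  · apply dvd_of_algebraMap_dvd_atPrime ϖ hϖ 𝔪 hm𝔪
    rw [map_sub]
    show f ϖ ∣ f (b₁ * r₂) - f (b₂ * r₁)
    rw [e₁, e₂, ← sub_mul]
    exact Dvd.dvd.mul_right ht₁₂ _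
  · apply hinj
    rw [map_mul, map_mul, map_mul, map_mul, map_pow, map_pow, e₁, e₂, ← ec]
    have : f a * IsLocalization.mk' A b₂ r₂ ^ m =
        (c : A) * f s * IsLocalization.mk' A b₁ r₁ ^ m := heq
    rw [mul_pow, mul_pow]
    linear_combination (f r₁ * f r₂) ^ m * f rc * this

omit [IsNoetherianRing B] in
/-- Elements `σ` with `σ ^ m * u ∈ B` are closed under addition (`B` integrally closed). -/
theorem exists_add_pow_mul_eq [IsIntegrallyClosed B] (m : ℕ) (hm : m ≠ 0) (u σ₁ σ₂ : F)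
    (b₁ b₂ : B) (h₁ : σ₁ ^ m * u = algebraMap B F b₁) (h₂ : σ₂ ^ m * u = algebraMap B F b₂) :
    ∃ b : B, (σ₁ + σ₂) ^ m * u = algebraMap B F b := by
  classical
  have hterm : ∀ k ∈ Finset.range (m + 1), ∃ c : B,
      σ₁ ^ k * σ₂ ^ (m - k) * u = algebraMap B F c := by
    intro k hk
    have hk' : k ≤ m := Nat.lt_succ_iff.1 (Finset.mem_range.1 hk)
    have hpow : (σ₁ ^ k * σ₂ ^ (m - k) * u) ^ m = algebraMap B F (b₁ ^ k * b₂ ^ (m - k)) := by
      rw [map_mul, map_pow, map_pow, ← h₁, ← h₂]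
      have : u ^ m = u ^ k * u ^ (m - k) := by rw [← pow_add, Nat.add_sub_cancel' hk']
      rw [mul_pow, mul_pow, this]
      ring
    have hint : IsIntegral B (σ₁ ^ k * σ₂ ^ (m - k) * u) :=
      IsIntegral.of_pow (Nat.pos_of_ne_zero hm) (hpow ▸ isIntegral_algebraMap)
    obtain ⟨c, hc⟩ := IsIntegrallyClosed.isIntegral_iff.1 hint
    exact ⟨c, hc.symm⟩
  choose! c hc using hterm
  refine ⟨∑ k ∈ Finset.range (m + 1), c k * (m.choose k : B), ?_⟩
  rw [add_pow, Finset.sum_mul, map_sum]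
  refine Finset.sum_congr rfl fun k hk => ?_
  rw [map_mul, ← hc k hk, map_natCast]
  ring

/-- **LE, one chart.**  There is `σ ∈ F` with `σ ^ m * u ∈ 1 + ϖ B` and `σ ∈ 1 + ϖ B_(ϖ)`. -/
theorem exists_sigma [IsIntegrallyClosed B] (ϖ : B) (hϖ : Prime ϖ) (hreg : RegularAlong ϖ)
    (m : ℕ) (hm : m ≠ 0) (u : F) (hu : OneModPi ϖ u) (hdiv : DivisibleDivisor B m u) :
    ∃ σ : F, (∃ b : B, σ ^ m * u - 1 = algebraMap B F (ϖ * b)) ∧
      ∃ a' s' : B, ¬ ϖ ∣ s' ∧ (σ - 1) * algebraMap B F s' = algebraMap B F (ϖ * a') := by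
  classical
  obtain ⟨a, s, hs, has, hus⟩ := hu
  rw [Ideal.mem_span_singleton] at hs has
  have hinjF : Function.Injective (algebraMap B F) := IsFractionRing.injective B F
  have hs0 : s ≠ 0 := fun h => hs (h ▸ dvd_zero ϖ)
  have hsF : algebraMap B F s ≠ 0 := fun h => hs0 (hinjF (by rw [h, map_zero]))
  -- the ideal of "good" elements
  let Good : B → Prop := fun g => ∃ σ : F, (∃ b : B, σ ^ m * u = algebraMap B F b) ∧
    ∃ a' s' : B, ¬ ϖ ∣ s' ∧ (σ - algebraMap B F g) * algebraMap B F s' = algebraMap B F (ϖ * a')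
  let I : Ideal B :=
    { carrier := {g | Good g}
      zero_mem' := by
        refine ⟨0, ⟨0, by rw [zero_pow hm, zero_mul, map_zero]⟩, 0, 1, hϖ.not_dvd_one, ?_⟩
        simp
      add_mem' := by
        rintro g₁ g₂ ⟨σ₁, ⟨b₁, hb₁⟩, a₁, s₁, hs₁, e₁⟩ ⟨σ₂, ⟨b₂, hb₂⟩, a₂, s₂, hs₂, e₂⟩
        refine ⟨σ₁ + σ₂, exists_add_pow_mul_eq m hm u σ₁ σ₂ b₁ b₂ hb₁ hb₂,
          a₁ * s₂ + a₂ * s₁, s₁ * s₂, ?_, ?_⟩
        · exact fun h => (hϖ.dvd_or_dvd h).elim hs₁ hs₂
        · simp only [map_add, map_mul] at e₁ e₂ ⊢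
          linear_combination algebraMap B F s₂ * e₁ + algebraMap B F s₁ * e₂
      smul_mem' := by
        rintro c g ⟨σ, ⟨b, hb⟩, a', s', hs', e⟩
        refine ⟨algebraMap B F c * σ, ⟨c ^ m * b, ?_⟩, c * a', s', hs', ?_⟩
        · rw [mul_pow, mul_assoc, hb, map_mul, map_pow]
        · simp only [smul_eq_mul, map_mul] at e ⊢
          linear_combination algebraMap B F c * e }
  have hI : ∀ g : B, g ∈ I ↔ Good g := fun g => Iff.rfl
  -- `ϖ ∈ I`
  have hϖI : ϖ ∈ I := by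
    obtain ⟨k, rfl⟩ : ∃ k, m = k + 1 := ⟨m - 1, by omega⟩
    refine ⟨algebraMap B F (ϖ * s), ⟨ϖ ^ (k + 1) * s ^ k * a, ?_⟩, s - 1, 1, hϖ.not_dvd_one, ?_⟩
    · simp only [map_mul, map_pow]
      rw [← hus]; ring
    · simp only [map_mul, map_sub, map_one]; ring
  -- `I` is contained in no maximal ideal
  have htop : I = ⊤ := by
    by_contra hne
    obtain ⟨𝔪, h𝔪, hle⟩ := Ideal.exists_le_maximal I hne
    have hm𝔪 : ϖ ∈ 𝔪 := hle hϖI
    obtain ⟨t₁, t₂, b, r, hr, ht₁, ht₂, ⟨d, hd⟩, heq⟩ :=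
      exists_local_data ϖ hϖ hreg m hm a s hs has u hus hdiv 𝔪 hm𝔪
    apply hr
    apply hle
    have ht₁0 : t₁ ≠ 0 := fun h => ht₁ (h ▸ dvd_zero ϖ)
    have ht₁F : algebraMap B F t₁ ≠ 0 := fun h => ht₁0 (hinjF (by rw [h, map_zero]))
    obtain ⟨k, rfl⟩ : ∃ k, m = k + 1 := ⟨m - 1, by omega⟩
    refine ⟨algebraMap B F r * algebraMap B F t₂ / algebraMap B F t₁,
      ⟨r ^ k * b, ?_⟩, -(r * d), t₁, ht₁, ?_⟩
    · have hu' : u = algebraMap B F a / algebraMap B F s := by
        rw [eq_div_iff hsF]; exact hus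
      have heqF := congrArg (algebraMap B F) heq
      simp only [map_mul, map_pow] at heqF ⊢
      rw [hu', div_pow, div_mul_div_comm, div_eq_iff (mul_ne_zero (pow_ne_zero _ ht₁F) hsF)]
      linear_combination (algebraMap B F r) ^ k * heqF
    · have hdF := congrArg (algebraMap B F) hd
      simp only [map_mul, map_sub, map_neg] at hdF ⊢
      rw [sub_mul, div_mul_cancel₀ _ ht₁F]
      linear_combination (-(algebraMap B F r)) * hdF
  have h1 : (1 : B) ∈ I := by rw [htop]; exact Submodule.mem_top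
  obtain ⟨σ, ⟨b, hb⟩, a', s', hs', e⟩ := h1
  rw [map_one] at e
  refine ⟨σ, ?_, a', s', hs', e⟩
  -- `ϖ ∣ b - 1`
  obtain ⟨a'', ha''⟩ := has
  have key : b * s' ^ m * s = (s' + ϖ * a') ^ m * a := by
    apply hinjF
    simp only [map_mul, map_pow, map_add]
    rw [← hb, ← hus]
    have : algebraMap B F s' + algebraMap B F ϖ * algebraMap B F a' = σ * algebraMap B F s' := by
      rw [map_mul] at e
      linear_combination -e
    rw [this]; ring
  have hdvd1 : ϖ ∣ (s' + ϖ * a') ^ m - s' ^ m := by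
    have := sub_dvd_pow_sub_pow (s' + ϖ * a') s' m
    rw [add_sub_cancel_left] at this
    exact (Dvd.intro _ rfl).trans this
  have hdvd2 : ϖ ∣ (b - 1) * (s' ^ m * s) := by
    obtain ⟨e₁, he₁⟩ := hdvd1
    refine ⟨e₁ * a + s' ^ m * a'', ?_⟩
    linear_combination key + a * he₁ + s' ^ m * ha''
  have hdvd3 : ϖ ∣ b - 1 := by
    rcases hϖ.dvd_or_dvd hdvd2 with h | h
    · exact h
    · rcases hϖ.dvd_or_dvd h with h' | h'
      · exact absurd (hϖ.dvd_of_dvd_pow h') hs'
      · exact absurd h' hs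
  obtain ⟨b', hb'⟩ := hdvd3
  refine ⟨b', ?_⟩
  rw [hb, ← map_one (algebraMap B F), ← map_sub, hb']

end LocalData

section TwoCharts

variable {R : Type*} [CommRing R] {F : Type*} [Field F] [Algebra R F]

/-- In an `m`-root closed subalgebra, `{σ | σ ^ m * u ∈ M}` is closed under addition. -/
theorem add_pow_mul_mem_of_rootClosed (M : Subalgebra R F) (m : ℕ)
    (hrc : ∀ f : F, f ^ m ∈ M → f ∈ M) (u σ₁ σ₂ : F)
    (h₁ : σ₁ ^ m * u ∈ M) (h₂ : σ₂ ^ m * u ∈ M) : (σ₁ + σ₂) ^ m * u ∈ M := by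
  classical
  rw [add_pow, Finset.sum_mul]
  refine M.sum_mem fun k hk => ?_
  have hk' : k ≤ m := Nat.lt_succ_iff.1 (Finset.mem_range.1 hk)
  have hterm : σ₁ ^ k * σ₂ ^ (m - k) * u ∈ M := by
    apply hrc
    have : (σ₁ ^ k * σ₂ ^ (m - k) * u) ^ m = (σ₁ ^ m * u) ^ k * (σ₂ ^ m * u) ^ (m - k) := by
      have hu : u ^ m = u ^ k * u ^ (m - k) := by rw [← pow_add, Nat.add_sub_cancel' hk']
      rw [mul_pow, mul_pow, hu]
      ring
    rw [this]
    exact M.mul_mem (M.pow_mem h₁ _) (M.pow_mem h₂ _)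
  have : σ₁ ^ k * σ₂ ^ (m - k) * (m.choose k : F) * u =
      (m.choose k : F) * (σ₁ ^ k * σ₂ ^ (m - k) * u) := by ring
  rw [this]
  exact M.mul_mem (natCast_mem M _) hterm

/-- **LE, two charts**: exactly the input `σ₀, σ₁, h₀, h₁, h₀₁` of `H394.kummer_endgame`.

Hypotheses per chart `B ∈ {B₀, B₁}` (as a ring `↥B`): noetherian, integrally closed with fraction
field `F`, `w` prime, special fibre regular (b2), `u ≡ 1 mod w`, `m ∣ div u`.
On the overlap `M`: `m`-root closed, and saturated (`hsat`: an element `f` with `w f ∈ M` and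
`s₀ s₁ f ∈ M` for some `sᵢ ∈ Bᵢ ∖ w Bᵢ` lies in `M`; this is the `q`-expansion principle on `M`). -/
theorem local_existence (m : ℕ) (hm : m ≠ 0) (w : R) (u : F) (B₀ B₁ M : Subalgebra R F)
    (h0M : B₀ ≤ M) (h1M : B₁ ≤ M)
    [IsNoetherianRing B₀] [IsIntegrallyClosed B₀] [IsFractionRing B₀ F]
    [IsNoetherianRing B₁] [IsIntegrallyClosed B₁] [IsFractionRing B₁ F]
    (hw₀ : Prime (algebraMap R B₀ w)) (hw₁ : Prime (algebraMap R B₁ w))
    (hreg₀ : RegularAlong (algebraMap R B₀ w)) (hreg₁ : RegularAlong (algebraMap R B₁ w))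
    (hu₀ : OneModPi (algebraMap R B₀ w) u) (hu₁ : OneModPi (algebraMap R B₁ w) u)
    (hdiv₀ : DivisibleDivisor B₀ m u) (hdiv₁ : DivisibleDivisor B₁ m u)
    (hrcM : ∀ f : F, f ^ m ∈ M → f ∈ M)
    (hsat : ∀ f : F, ∀ s₀ : B₀, ¬ algebraMap R B₀ w ∣ s₀ → ∀ s₁ : B₁, ¬ algebraMap R B₁ w ∣ s₁ →
      (s₀ : F) * (s₁ : F) * f ∈ M → algebraMap R F w * f ∈ M → f ∈ M) :
    ∃ σ₀ σ₁ : F, (∃ b ∈ B₀, σ₀ ^ m * u - 1 = algebraMap R F w * b) ∧
      (∃ b ∈ B₁, σ₁ ^ m * u - 1 = algebraMap R F w * b) ∧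
      ∃ γ : F, σ₀ - σ₁ = algebraMap R F w * γ ∧ γ ^ m * u ∈ M := by
  classical
  obtain ⟨σ₀, ⟨b₀, hb₀⟩, a₀, s₀, hs₀, e₀⟩ := exists_sigma _ hw₀ hreg₀ m hm u hu₀ hdiv₀
  obtain ⟨σ₁, ⟨b₁, hb₁⟩, a₁, s₁, hs₁, e₁⟩ := exists_sigma _ hw₁ hreg₁ m hm u hu₁ hdiv₁
  obtain ⟨a, s, hs, -, hus⟩ := hu₀
  rw [Ideal.mem_span_singleton] at hs
  set W : F := algebraMap R F w with hW
  have hW0 : W ≠ 0 := by
    intro h
    apply hw₀.ne_zero
    apply Subtype.ext
    exact h
  have hc₀ : ∀ x : B₀, algebraMap B₀ F x = (x : F) := fun _ => rfl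
  have hc₁ : ∀ x : B₁, algebraMap B₁ F x = (x : F) := fun _ => rfl
  have hwc₀ : ((algebraMap R B₀ w : B₀) : F) = W := rfl
  have hwc₁ : ((algebraMap R B₁ w : B₁) : F) = W := rfl
  simp only [hc₀, Subalgebra.coe_mul, hwc₀] at hb₀ e₀ hus
  simp only [hc₁, Subalgebra.coe_mul, hwc₁] at hb₁ e₁
  refine ⟨σ₀, σ₁, ⟨b₀, b₀.2, hb₀⟩, ⟨b₁, b₁.2, hb₁⟩, (σ₀ - σ₁) / W, ?_, ?_⟩
  · rw [mul_div_cancel₀ _ hW0]
  -- `f := γ ^ m * u`
  set f : F := ((σ₀ - σ₁) / W) ^ m * u with hf
  -- (i) `W ^ m * f ∈ M`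
  have hσ₀M : σ₀ ^ m * u ∈ M := by
    have : σ₀ ^ m * u = 1 + W * b₀ := by rw [← hb₀]; ring
    rw [this]
    exact M.add_mem M.one_mem (M.mul_mem (M.algebraMap_mem w) (h0M b₀.2))
  have hσ₁M : σ₁ ^ m * u ∈ M := by
    have : σ₁ ^ m * u = 1 + W * b₁ := by rw [← hb₁]; ring
    rw [this]
    exact M.add_mem M.one_mem (M.mul_mem (M.algebraMap_mem w) (h1M b₁.2))
  have hnegM : (-σ₁) ^ m * u ∈ M := by
    rcases Nat.even_or_odd m with h | h
    · rwa [h.neg_pow]
    · rw [h.neg_pow, neg_mul]; exact M.neg_mem hσ₁M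
  have hi : W ^ m * f ∈ M := by
    have h := add_pow_mul_mem_of_rootClosed M m hrcM u σ₀ (-σ₁) hσ₀M hnegM
    have : W ^ m * f = (σ₀ + -σ₁) ^ m * u := by
      rw [hf, div_pow, ← sub_eq_add_neg]
      field_simp
    rw [this]; exact h
  -- (ii) `D * f ∈ M`
  set S₀ : B₀ := s₀ ^ m * s with hS₀
  set S₁ : B₁ := s₁ ^ m with hS₁
  have hS₀' : ¬ algebraMap R B₀ w ∣ S₀ := by
    intro h
    rcases hw₀.dvd_or_dvd h with h' | h'
    · exact hs₀ (hw₀.dvd_of_dvd_pow h')
    · exact hs h'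
  have hS₁' : ¬ algebraMap R B₁ w ∣ S₁ := fun h => hs₁ (hw₁.dvd_of_dvd_pow h)
  have hii : (S₀ : F) * (S₁ : F) * f ∈ M := by
    have hγ : (σ₀ - σ₁) / W * ((s₀ : F) * (s₁ : F)) = (a₀ : F) * s₁ - (a₁ : F) * s₀ := by
      field_simp
      linear_combination (s₁ : F) * e₀ - (s₀ : F) * e₁
    have hS₀c : (S₀ : F) = (s₀ : F) ^ m * (s : F) := by
      rw [hS₀, Subalgebra.coe_mul, Subalgebra.coe_pow]
    have hS₁c : (S₁ : F) = (s₁ : F) ^ m := by
      rw [hS₁, Subalgebra.coe_pow]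
    have : (S₀ : F) * (S₁ : F) * f = ((a₀ : F) * s₁ - (a₁ : F) * s₀) ^ m * (a : F) := by
      rw [← hγ, ← hus, hf, hS₀c, hS₁c, mul_pow, mul_pow]
      ring
    rw [this]
    exact M.mul_mem (M.pow_mem (M.sub_mem (M.mul_mem (h0M a₀.2) (h1M s₁.2))
      (M.mul_mem (h1M a₁.2) (h0M s₀.2))) _) (h0M a.2)
  -- (iii) descend
  have hdesc : ∀ k : ℕ, k ≤ m → W ^ (m - k) * f ∈ M := by
    intro k
    induction k with
    | zero => intro _; simpa using hi
    | succ k ih =>
      intro hk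
      have h1 := ih (Nat.le_of_succ_le hk)
      apply hsat _ S₀ hS₀' S₁ hS₁'
      · have : (S₀ : F) * (S₁ : F) * (W ^ (m - (k + 1)) * f) =
            W ^ (m - (k + 1)) * ((S₀ : F) * (S₁ : F) * f) := by ring
        rw [this]
        exact M.mul_mem (M.pow_mem (M.algebraMap_mem w) _) hii
      · have : W * (W ^ (m - (k + 1)) * f) = W ^ (m - k) * f := by
          rw [← mul_assoc, ← pow_succ']
          congr 2
          omega
        rw [this]; exact h1
  have := hdesc m le_rfl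
  simpa using this

end TwoCharts

end Fermat.Agent.S18.H214

end
-- ===== PACK-END S18/H214/LocalExist.lean

-- ===== PACK-BEGIN S18/H498/CechFinite.lean
section



/-!
# S18, piece b5 (continued): the torsion bound and finiteness of `C / (B₁ + B₂)`

* `exists_torsion_bound`: in a finite module over a noetherian ring, the `ϖ`-power torsion is
  killed by a fixed power `ϖ ^ c`.
* `finite_cech_quotient`: if `C = B₁[1/x]`, `B₁ ⊆ B₂[x]`, `x⁻¹ ∈ B₂` and `B₁` is a finite
  `R[x]`-module, then `C / (B₁ + B₂)` is a finite `R`-module (this is "H¹ of a projective curve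
  over `R` is finite", by hand).
* `idem_trivial_of_cech_finite`: the connectedness statement with these inputs.
-/

set_option autoImplicit false
set_option linter.style.haveILetI false

namespace Fermat.Agent.S18.H498

section Torsion

variable {R M : Type*} [CommRing R] [IsNoetherianRing R] [AddCommGroup M] [Module R M]
  [Module.Finite R M]

theorem exists_torsion_bound (ϖ : R) :
    ∃ c : ℕ, ∀ (n : ℕ) (m : M), ϖ ^ n • m = 0 → ϖ ^ c • m = 0 := by
  haveI : IsNoetherian R M := isNoetherian_of_isNoetherianRing_of_finite R M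
  let T : ℕ →o Submodule R M :=
    { toFun := fun n => LinearMap.ker (LinearMap.lsmul R M (ϖ ^ n))
      monotone' := by
        intro a b hab m hm
        simp only [LinearMap.mem_ker, LinearMap.lsmul_apply] at hm ⊢
        obtain ⟨k, rfl⟩ := Nat.exists_eq_add_of_le hab
        rw [pow_add, mul_comm, mul_smul, hm, smul_zero] }
  obtain ⟨c, hc⟩ := monotone_stabilizes_iff_noetherian.mpr ‹IsNoetherian R M› T
  have hT : ∀ (n : ℕ) (m : M), m ∈ T n ↔ ϖ ^ n • m = 0 := by
    intro n m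
    change m ∈ LinearMap.ker (LinearMap.lsmul R M (ϖ ^ n)) ↔ _
    rw [LinearMap.mem_ker, LinearMap.lsmul_apply]
  refine ⟨c, fun n m hm => ?_⟩
  rcases le_total c n with h | h
  · have hmem : m ∈ T n := (hT n m).mpr hm
    rw [← hc n h] at hmem
    exact (hT c m).mp hmem
  · obtain ⟨k, rfl⟩ := Nat.exists_eq_add_of_le h
    rw [pow_add, mul_comm, mul_smul, hm, smul_zero]

end Torsion

section Finite

variable {R C : Type*} [CommRing R] [CommRing C] [Algebra R C]

/-- Finiteness of the Čech `H¹` for two charts glued along `x ↦ x⁻¹`. -/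
theorem finite_cech_quotient (B₁ B₂ : Subalgebra R C) (x x' : C) (hx : x ∈ B₁) (hx' : x' ∈ B₂)
    (hxx' : x * x' = 1)
    (ι : Type*) [Finite ι] (g : ι → C) (hg : ∀ i, g i ∈ B₁)
    (hgen : ∀ b ∈ B₁, ∃ P : ι → Polynomial R, b = ∑ᶠ i, Polynomial.aeval x (P i) * g i)
    (hloc : ∀ y : C, ∃ n : ℕ, x ^ n * y ∈ B₁)
    (hinf : ∀ i, ∃ n : ℕ, x' ^ n * g i ∈ B₂) :
    Module.Finite R (C ⧸ (Subalgebra.toSubmodule B₁ ⊔ Subalgebra.toSubmodule B₂)) := by
  classical
  haveI : Fintype ι := Fintype.ofFinite ι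
  choose N hN using hinf
  let Nmax : ℕ := Finset.univ.sup N
  have hNmax : ∀ i, ∀ a, Nmax ≤ a → x' ^ a * g i ∈ B₂ := by
    intro i a ha
    have hle : N i ≤ a := le_trans (Finset.le_sup (f := N) (Finset.mem_univ i)) ha
    obtain ⟨k, rfl⟩ := Nat.exists_eq_add_of_le hle
    rw [pow_add, mul_comm (x' ^ N i), mul_assoc]
    exact B₂.mul_mem (B₂.pow_mem hx' k) (hN i)
  -- the finite generating family
  let W : Submodule R C := Submodule.span R
    (Set.range fun q : ι × Fin Nmax => x' ^ (q.2 : ℕ) * g q.1)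
  let S : Submodule R C := Subalgebra.toSubmodule B₁ ⊔ Subalgebra.toSubmodule B₂
  have hkey : ∀ (i : ι) (n j : ℕ), x' ^ n * (x ^ j * g i) ∈ S ⊔ W := by
    intro i n j
    rcases le_total n j with h | h
    · -- `x^(j-n) g i ∈ B₁`
      obtain ⟨k, rfl⟩ := Nat.exists_eq_add_of_le h
      have : x' ^ n * (x ^ (n + k) * g i) = x ^ k * g i := by
        rw [pow_add, ← mul_assoc, ← mul_assoc, ← mul_pow, mul_comm x' x, hxx', one_pow, one_mul]
      rw [this]
      exact Submodule.mem_sup_left (Submodule.mem_sup_left (B₁.mul_mem (B₁.pow_mem hx k) (hg i)))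
    · obtain ⟨k, rfl⟩ := Nat.exists_eq_add_of_le h
      have : x' ^ (j + k) * (x ^ j * g i) = x' ^ k * g i := by
        rw [pow_add, mul_comm (x' ^ j), mul_assoc, ← mul_assoc (x' ^ j), ← mul_pow,
          mul_comm x' x, hxx', one_pow, one_mul]
      rw [this]
      rcases lt_or_ge k Nmax with hk | hk
      · exact Submodule.mem_sup_right (Submodule.subset_span ⟨(i, ⟨k, hk⟩), rfl⟩)
      · exact Submodule.mem_sup_left (Submodule.mem_sup_right (hNmax i k hk))
  have hpoly : ∀ (i : ι) (n : ℕ) (P : Polynomial R),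
      x' ^ n * (Polynomial.aeval x P * g i) ∈ S ⊔ W := by
    intro i n P
    induction P using Polynomial.induction_on' with
    | add P Q hP hQ =>
      rw [map_add, add_mul, mul_add]
      exact Submodule.add_mem _ hP hQ
    | monomial j a =>
      rw [Polynomial.aeval_monomial, mul_assoc, ← Algebra.smul_def, mul_smul_comm]
      exact Submodule.smul_mem _ _ (hkey i n j)
  have htop : S ⊔ W = ⊤ := by
    rw [eq_top_iff]
    intro y _
    obtain ⟨n, hn⟩ := hloc y
    obtain ⟨P, hP⟩ := hgen _ hn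
    have hy : y = x' ^ n * (x ^ n * y) := by
      rw [← mul_assoc, ← mul_pow, mul_comm x' x, hxx', one_pow, one_mul]
    rw [hy, hP, finsum_eq_sum_of_fintype, Finset.mul_sum]
    exact Submodule.sum_mem _ fun i _ => hpoly i n (P i)
  have hWfg : W.FG := Submodule.fg_span (Set.finite_range _)
  -- `C ⧸ S` is the image of `W`
  have hsurj : Function.Surjective (S.mkQ.comp W.subtype) := by
    intro q
    obtain ⟨y, rfl⟩ := S.mkQ_surjective q
    have hy : y ∈ S ⊔ W := htop ▸ Submodule.mem_top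
    obtain ⟨s, hs, w, hw, rfl⟩ := Submodule.mem_sup.mp hy
    refine ⟨⟨w, hw⟩, ?_⟩
    simp only [LinearMap.comp_apply, Submodule.subtype_apply, Submodule.mkQ_apply,
      Submodule.Quotient.mk_add]
    rw [(Submodule.Quotient.mk_eq_zero S).mpr hs, zero_add]
  haveI : Module.Finite R W := Module.Finite.iff_fg.mpr hWfg
  exact Module.Finite.of_surjective _ hsurj

end Finite

section Main

variable {R C : Type*} [CommRing R] [IsLocalRing R] [IsNoetherianRing R] [CommRing C]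
  [Algebra R C]

/-- Connectedness with the finiteness hypothesis on `C / (B₁ + B₂)`. -/
theorem idem_trivial_of_cech_finite (ϖ : R) (B₁ B₂ : Subalgebra R C)
    (hint : ∀ y : C, y ∈ B₁ → y ∈ B₂ → ∃ r : R, algebraMap R C r = y)
    [Module.Finite R (C ⧸ (Subalgebra.toSubmodule B₁ ⊔ Subalgebra.toSubmodule B₂))]
    (e₁ e₂ : C) (he₁ : e₁ ∈ B₁) (he₂ : e₂ ∈ B₂)
    (h₁ : ∃ a ∈ B₁, e₁ ^ 2 - e₁ = algebraMap R C ϖ * a)
    (h₂ : ∃ a ∈ B₂, e₂ ^ 2 - e₂ = algebraMap R C ϖ * a)
    (h₁₂ : ∃ y : C, e₁ - e₂ = algebraMap R C ϖ * y) :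
    (∃ a ∈ B₁, e₁ = algebraMap R C ϖ * a) ∨ (∃ a ∈ B₁, 1 - e₁ = algebraMap R C ϖ * a) := by
  obtain ⟨c, hc⟩ := exists_torsion_bound
    (M := C ⧸ (Subalgebra.toSubmodule B₁ ⊔ Subalgebra.toSubmodule B₂)) ϖ
  refine idem_trivial_of_cech ϖ B₁ B₂ hint c ?_ e₁ e₂ he₁ he₂ h₁ h₂ h₁₂
  intro n y hy
  have hmem : ∀ k : ℕ, (∃ b₁ ∈ B₁, ∃ b₂ ∈ B₂, algebraMap R C ϖ ^ k * y = b₁ + b₂) ↔
      ϖ ^ k • (Submodule.Quotient.mk y :
        C ⧸ (Subalgebra.toSubmodule B₁ ⊔ Subalgebra.toSubmodule B₂)) = 0 := by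
    intro k
    rw [← Submodule.Quotient.mk_smul, Submodule.Quotient.mk_eq_zero, Submodule.mem_sup,
      Algebra.smul_def, map_pow]
    constructor
    · rintro ⟨b₁, hb₁, b₂, hb₂, h⟩
      exact ⟨b₁, hb₁, b₂, hb₂, h.symm⟩
    · rintro ⟨b₁, hb₁, b₂, hb₂, h⟩
      exact ⟨b₁, hb₁, b₂, hb₂, h.symm⟩
  exact (hmem c).mpr (hc n _ ((hmem n).mp hy))

end Main

end Fermat.Agent.S18.H498

end
-- ===== PACK-END S18/H498/CechFinite.lean

-- ===== PACK-BEGIN A2/Alg/Spec.lean
section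


/-!
# WALL A2 / ALG — frozen sub-interfaces (architect helper34), Mathlib-only

Decomposition of `Fermat.Agent.A2.algSS` (statement in `Fermat/Agent/A2/Skel.lean`, row-lead
helper13).  This file contains ONLY definitions (no `sorry`).  The exact theorem statements of the
sub-pieces are in `Fermat/Agent/A2/Alg/Skel.lean`; the board is `coord/A2-ALG.md` (origin/helper34).

Notation: `R` henselian DVR, uniformiser `w`, `E = Frac R`, `F / E` the function field,
`B ⊆ F` a chart (integral closure of `R[x]` or `R[x⁻¹]`), `c : SSChart w B` its two components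
`p₁`, `p₂`; `V_i := B_{p_i}` (a DVR with uniformiser `w`).

Elementwise local conditions (no localisation types, everything is a statement about elements
of `F`):

* `LocUnit B n u`   : `u ∈ (B_n)ˣ`            (`u = a / b`, `a, b ∈ B ∖ n`);
* `LocOne B n I u`  : `u ∈ 1 + I · B_n`       (`u = a / b`, `b ∉ n`, `a - b ∈ I`);
* `OneAt B p u`     : `u ∈ 1 + p B_p`         (`u ≡ 1` on the component `p`);
* `ConstAt B p u`   : `u ∈ c · (1 + p B_p)` for a unit `c` of `R` (`u` is a unit on the component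
                      `p`, with CONSTANT residue);
* `IsSplit B c u`   : `ConstAt` on both components of the chart;
* `LocalFactor B c m u n` : local factorisation of the Kummer problem `Y ^ m = u` at the closed
                      point `n` of the special fibre.
* `ChartCtx`, `TauCtx` : the standing hypotheses of `algSS`, bundled (one chart).
-/

set_option autoImplicit false

namespace Fermat.Agent.A2.Alg

section Defs

variable {R F : Type*} [CommRing R] [Field F] [Algebra R F]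

/-- `u` is a unit of the localisation `B_n`: `u = a / b` with `a, b ∈ B ∖ n`. -/
def LocUnit (B : Subalgebra R F) (n : Ideal B) (u : F) : Prop :=
  ∃ a b : B, a ∉ n ∧ b ∉ n ∧ u * (b : F) = (a : F)

/-- `u ∈ 1 + I · B_n`: `u = a / b` with `b ∉ n` and `a - b ∈ I`. -/
def LocOne (B : Subalgebra R F) (n I : Ideal B) (u : F) : Prop :=
  ∃ a b : B, b ∉ n ∧ a - b ∈ I ∧ u * (b : F) = (a : F)

/-- `u ≡ 1` on the component `p` (`u ∈ 1 + p B_p`). -/
def OneAt (B : Subalgebra R F) (p : Ideal B) (u : F) : Prop :=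
  LocOne B p p u

/-- `u` is a unit on the component `p` with constant residue: `u = a / b`, `b ∉ p`,
`a - c b ∈ p` for a unit `c` of `R`. -/
def ConstAt (B : Subalgebra R F) (p : Ideal B) (u : F) : Prop :=
  ∃ c : R, IsUnit c ∧ ∃ a b : B, b ∉ p ∧ a - algebraMap R B c * b ∈ p ∧ u * (b : F) = (a : F)

/-- `u` has constant (unit) residue on both components of the chart. -/
def IsSplit {w : R} (B : Subalgebra R F) (c : SSChart w B) (u : F) : Prop :=
  ConstAt B c.p₁ u ∧ ConstAt B c.p₂ u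

/-- The two components are incomparable (both are minimal primes over `w`, i.e. both are curves).
`SSChart` only records `p₁ ≠ p₂`, which also allows the degenerate case `p₁ = (w) ⊊ p₂`
(good reduction, `p₂` a closed point). -/
def Incomparable {w : R} {B : Subalgebra R F} (c : SSChart w B) : Prop :=
  ¬ c.p₁ ≤ c.p₂ ∧ ¬ c.p₂ ≤ c.p₁

/-- **Purity datum at a closed point `n`** for `u`: `u · d ^ m` is a unit of `B_n`, and `d` is a
unit on both components. -/
def PureAt {w : R} (B : Subalgebra R F) (c : SSChart w B) (m : ℕ) (u : F) (n : Ideal B) : Prop :=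
  ∃ d : F, d ≠ 0 ∧ LocUnit B n (u * d ^ m) ∧ LocUnit B c.p₁ d ∧ LocUnit B c.p₂ d

/-- **Local factorisation at a closed point `n`** of the special fibre of the chart `B`, for the
Kummer problem `Y ^ m = u`:  there is `h ∈ Fˣ` with `u · h ^ m ∈ 1 + w B_n` and `h ≡ 1` on both
components.
(Then `B_n[Y]/(Y^m - u h^m)` is finite étale over `B_n` with canonically split special fibre, and
the sheet `Y h ≡ 1` is the same on the two branches through `n`.) -/
def LocalFactor {w : R} (B : Subalgebra R F) (c : SSChart w B) (m : ℕ) (u : F)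
    (n : Ideal B) : Prop :=
  ∃ h : F, h ≠ 0 ∧ LocOne B n (Ideal.span {algebraMap R B w}) (u * h ^ m) ∧
    OneAt B c.p₁ h ∧ OneAt B c.p₂ h

/-- Local factorisations at ALL closed points of the special fibre of the chart `B`. -/
def LocallyFactored {w : R} (B : Subalgebra R F) (c : SSChart w B) (m : ℕ) (u : F) : Prop :=
  ∀ n : Ideal B, n.IsMaximal → algebraMap R B w ∈ n → LocalFactor B c m u n

end Defs

section Ctx

variable {R E F : Type*} [CommRing R] [Field E] [Algebra R E] [Field F] [Algebra E F]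
  [Algebra R F]

/-- The standing hypotheses of `algSS` on ONE chart `B` with coordinate `x`
(`(x, B) = (x, Bf)` or `(x⁻¹, Bi)`). -/
structure ChartCtx (E : Type*) [Field E] [Algebra R E] [Algebra E F] (w : R) (x : F)
    (B : Subalgebra R F) : Prop where
  hw : Irreducible w
  hx : Transcendental E x
  hfin : FiniteDimensional (IntermediateField.adjoin E ({x} : Set F)) F
  hconst : ∀ f : F, IsAlgebraic E f → f ∈ (algebraMap E F).range
  hB : ∀ f : F, f ∈ B ↔ IsIntegral (Algebra.adjoin R ({x} : Set F)) f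

/-- The standing hypotheses of `algSS` on the semilinear automorphism `τ`, on one chart. -/
structure TauCtx (w : R) (B : Subalgebra R F) (τ : F ≃+* F) (τE : E ≃+* E) (τR : R ≃+* R) :
    Prop where
  hτE : ∀ e : E, τ (algebraMap E F e) = algebraMap E F (τE e)
  hτR : ∀ r : R, τE (algebraMap R E r) = algebraMap R E (τR r)
  hτB : ∀ b ∈ B, ∃ c ∈ B, τ b - b = algebraMap R F w * c

end Ctx

end Fermat.Agent.A2.Alg

end
-- ===== PACK-END A2/Alg/Spec.lean

-- ===== PACK-BEGIN A2/H609/Branch.lean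
section




/-!
# Node purity, part 6: branches

Elementary facts on a discrete valuation ring `D` with a uniformiser `ϖ`, their translation to
a prime `𝔭` of a local ring `R` with `R ⧸ 𝔭` a discrete valuation ring (a "branch"), and the
length of the chain `(z ^ n) + 𝔞`.  Mathlib only.
-/

set_option autoImplicit false

namespace Fermat.Agent.A2.H609

open Ideal

section DVRFacts

variable {D : Type*} [CommRing D] [IsDomain D]

/-- `ϖ ^ b ≠ ϖ ^ (b + 1) * g` for an irreducible `ϖ`. -/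
theorem pow_ne_pow_succ_mul {ϖ : D} (hϖ : Irreducible ϖ) (b : ℕ) (g : D) :
    ϖ ^ b ≠ ϖ ^ (b + 1) * g := by
  intro h
  have h0 : ϖ ^ b ≠ 0 := pow_ne_zero _ hϖ.ne_zero
  have h1 : ϖ ^ b * 1 = ϖ ^ b * (ϖ * g) := by
    rw [mul_one, ← mul_assoc, ← pow_succ]
    exact h
  have h2 := mul_left_cancel₀ h0 h1
  exact hϖ.not_isUnit (IsUnit.of_mul_eq_one g h2.symm)

variable [IsDiscreteValuationRing D]

/-- In a discrete valuation ring, a nonzero element associated to an `m`-th power is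
`unit * ϖ ^ (m * a)`. -/
theorem exists_eq_unit_mul_pow_mul_of_associated_pow {ϖ : D} (hϖ : Irreducible ϖ) {m : ℕ}
    (hm : m ≠ 0) {v z : D} (hz : z ≠ 0) (h : Associated (v ^ m) z) :
    ∃ (a : ℕ) (ε : Dˣ), z = ε * ϖ ^ (m * a) := by
  have hv : v ≠ 0 := by
    rintro rfl
    rw [zero_pow hm] at h
    exact hz (by simpa using h.symm.eq_zero_iff.mpr rfl)
  obtain ⟨a, ε₀, hv'⟩ := IsDiscreteValuationRing.eq_unit_mul_pow_irreducible hv hϖ
  obtain ⟨w, hw⟩ := h
  refine ⟨a, ε₀ ^ m * w, ?_⟩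
  rw [← hw, hv']
  push_cast
  ring

/-- In a discrete valuation ring, `ϖ ^ (m * a + 1) ∣ z ^ m → ϖ ^ (a + 1) ∣ z`. -/
theorem pow_succ_dvd_of_pow_mul_succ_dvd_pow {ϖ : D} (hϖ : Irreducible ϖ) {m a : ℕ}
    {z : D} (h : ϖ ^ (m * a + 1) ∣ z ^ m) : ϖ ^ (a + 1) ∣ z := by
  by_cases hz : z = 0
  · rw [hz]
    exact dvd_zero _
  obtain ⟨n, ε, hn⟩ := IsDiscreteValuationRing.eq_unit_mul_pow_irreducible hz hϖ
  have h1 : ϖ ^ (m * a + 1) ∣ ϖ ^ (n * m) := by
    have h2 : z ^ m = (ε ^ m : Dˣ) * ϖ ^ (n * m) := by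
      rw [hn]
      push_cast
      ring
    rw [h2] at h
    exact (Units.dvd_mul_left).mp h
  have h3 : m * a + 1 ≤ n * m := (pow_dvd_pow_iff hϖ.ne_zero hϖ.not_isUnit).mp h1
  have h4 : a + 1 ≤ n := by
    rcases Nat.lt_or_ge n (a + 1) with hcon | hcon
    · have h5 : n ≤ a := Nat.lt_succ_iff.mp hcon
      have h6 : n * m ≤ m * a := by
        rw [mul_comm n m]
        exact Nat.mul_le_mul_left m h5
      omega
    · exact hcon
  rw [hn]
  exact Dvd.dvd.mul_left (pow_dvd_pow ϖ h4) _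

end DVRFacts

section Branch

variable {R : Type*} [CommRing R] [IsLocalRing R]
variable (𝔭 : Ideal R) [𝔭.IsPrime] [IsDiscreteValuationRing (R ⧸ 𝔭)]

/-- Non-units of `R` are divisible by a uniformiser modulo `𝔭`. -/
theorem exists_sub_mul_mem_of_mem_maximalIdeal {x : R}
    (hx : Irreducible (Ideal.Quotient.mk 𝔭 x)) {s : R} (hs : s ∈ IsLocalRing.maximalIdeal R) :
    ∃ g : R, s - x * g ∈ 𝔭 := by
  have hloc : IsLocalHom (Ideal.Quotient.mk 𝔭) :=
    Function.Surjective.isLocalHom _ Ideal.Quotient.mk_surjective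
  have h1 : ¬ IsUnit (Ideal.Quotient.mk 𝔭 s) := by
    intro h
    exact hs (IsLocalHom.map_nonunit s h)
  have h2 : Ideal.Quotient.mk 𝔭 s ∈ IsLocalRing.maximalIdeal (R ⧸ 𝔭) := h1
  rw [hx.maximalIdeal_eq, Ideal.mem_span_singleton] at h2
  obtain ⟨c, hc⟩ := h2
  obtain ⟨g, rfl⟩ := Ideal.Quotient.mk_surjective c
  refine ⟨g, ?_⟩
  rw [← Ideal.Quotient.eq, hc, map_mul]

omit [IsLocalRing R] [IsDiscreteValuationRing (R ⧸ 𝔭)] in
/-- `x ^ b ∉ (x ^ (b + 1)) + 𝔭` for a uniformiser `x` modulo `𝔭`. -/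
theorem pow_sub_pow_succ_mul_notMem {x : R}
    (hx : Irreducible (Ideal.Quotient.mk 𝔭 x)) (b : ℕ) (g : R) :
    x ^ b - x ^ (b + 1) * g ∉ 𝔭 := by
  intro h
  rw [← Ideal.Quotient.eq, map_mul, map_pow, map_pow] at h
  exact pow_ne_pow_succ_mul hx b _ h

omit [IsLocalRing R] in
/-- The data `(a, ε)` with `u ≡ ε x ^ (m a)` modulo `𝔭` extracted from (H2). -/
theorem exists_mk_eq_unit_mul_pow {x : R}
    (hx : Irreducible (Ideal.Quotient.mk 𝔭 x)) {m : ℕ} (hm : m ≠ 0) {u : R} (hu : u ∉ 𝔭)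
    (H2 : ∃ v : R ⧸ 𝔭, Associated (v ^ m) (Ideal.Quotient.mk 𝔭 u)) :
    ∃ (a : ℕ) (ε : (R ⧸ 𝔭)ˣ),
      Ideal.Quotient.mk 𝔭 u = ε * (Ideal.Quotient.mk 𝔭 x) ^ (m * a) := by
  obtain ⟨v, hv⟩ := H2
  have hu0 : Ideal.Quotient.mk 𝔭 u ≠ 0 := by
    rwa [Ne, Ideal.Quotient.eq_zero_iff_mem]
  exact exists_eq_unit_mul_pow_mul_of_associated_pow hx hm hu0 hv

omit [IsLocalRing R] [IsDiscreteValuationRing (R ⧸ 𝔭)] [𝔭.IsPrime] in
/-- `x ^ (m a) ∈ (u) + 𝔭` if `u ≡ ε x ^ (m a)` modulo `𝔭`. -/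
theorem exists_pow_sub_mul_mem {x u : R} {n : ℕ} {ε : (R ⧸ 𝔭)ˣ}
    (hu : Ideal.Quotient.mk 𝔭 u = ε * (Ideal.Quotient.mk 𝔭 x) ^ n) :
    ∃ e : R, x ^ n - u * e ∈ 𝔭 := by
  obtain ⟨e, he⟩ := Ideal.Quotient.mk_surjective ((ε⁻¹ : (R ⧸ 𝔭)ˣ) : R ⧸ 𝔭)
  refine ⟨e, ?_⟩
  rw [← Ideal.Quotient.eq, map_mul, map_pow, he, hu]
  rw [mul_comm, ← mul_assoc, Units.inv_mul, one_mul]

/-- If `u ≡ ε x ^ (m a)` modulo `𝔭`, `f ^ m = u r` and `r` is not a unit, then
`f ∈ (x ^ (a + 1)) + 𝔭`. -/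
theorem exists_sub_pow_succ_mul_mem {x : R}
    (hx : Irreducible (Ideal.Quotient.mk 𝔭 x)) {m a : ℕ} {u : R} {ε : (R ⧸ 𝔭)ˣ}
    (hu : Ideal.Quotient.mk 𝔭 u = ε * (Ideal.Quotient.mk 𝔭 x) ^ (m * a))
    {f r : R} (hf : f ^ m = u * r) (hr : r ∈ IsLocalRing.maximalIdeal R) :
    ∃ g : R, f - x ^ (a + 1) * g ∈ 𝔭 := by
  obtain ⟨c, hc⟩ := exists_sub_mul_mem_of_mem_maximalIdeal 𝔭 hx hr
  rw [← Ideal.Quotient.eq, map_mul] at hc
  have h0 : (Ideal.Quotient.mk 𝔭 f) ^ m =
      Ideal.Quotient.mk 𝔭 u * Ideal.Quotient.mk 𝔭 r := by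
    rw [← map_pow, hf, map_mul]
  have h1 : (Ideal.Quotient.mk 𝔭 x) ^ (m * a + 1) ∣ (Ideal.Quotient.mk 𝔭 f) ^ m := by
    rw [h0, hu, hc]
    refine ⟨ε * Ideal.Quotient.mk 𝔭 c, ?_⟩
    ring
  obtain ⟨d, hd⟩ := pow_succ_dvd_of_pow_mul_succ_dvd_pow hx h1
  obtain ⟨g, rfl⟩ := Ideal.Quotient.mk_surjective d
  refine ⟨g, ?_⟩
  rw [← Ideal.Quotient.eq, hd, map_mul, map_pow]

end Branch

section PowChain

variable {R : Type*} [CommRing R]

/-- A nonzero relative quotient has length at least one. -/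
theorem one_le_relLen_of_notMem {A B : Ideal R} {z : R} (hz : z ∈ B) (hzA : z ∉ A) :
    1 ≤ relLen A B := by
  rw [relLen, Order.one_le_iff_ne_zero, Ne, Module.length_eq_zero_iff]
  intro hsub
  apply hzA
  have h := hsub.elim (Submodule.Quotient.mk (⟨z, hz⟩ : B) : ↥B ⧸ A.submoduleOf B) 0
  rw [Submodule.Quotient.mk_eq_zero] at h
  exact h

variable [IsLocalRing R]

/-- The residue field has length one. -/
theorem relLen_maximalIdeal :
    relLen (IsLocalRing.maximalIdeal R) (⊤ : Ideal R) = 1 := by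
  rw [relLen_top, Module.length_eq_one_iff, isSimpleModule_iff_isCoatom]
  exact Ideal.isMaximal_def.mp (IsLocalRing.maximalIdeal.isMaximal R)

/-- A cyclic relative quotient killed by the maximal ideal has length at most one. -/
theorem relLen_le_one_of_kill {A B : Ideal R} {z : R} (hz : z ∈ B)
    (hB : B ≤ Ideal.span {z} ⊔ A)
    (hkill : ∀ s ∈ IsLocalRing.maximalIdeal R, s * z ∈ A) : relLen A B ≤ 1 := by
  rw [← relLen_maximalIdeal (R := R)]
  refine relLen_le_of_map (LinearMap.mulRight R z) (N' := IsLocalRing.maximalIdeal R)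
    (N := ⊤) (P' := A) (P := B) ?_ ?_ ?_
  · intro y _
    rw [LinearMap.mulRight_apply]
    exact B.mul_mem_left y hz
  · intro y hy
    rw [LinearMap.mulRight_apply]
    exact hkill y hy
  · intro b hb
    obtain ⟨c, hc, a, ha, rfl⟩ := Submodule.mem_sup.mp (hB hb)
    obtain ⟨d, rfl⟩ := Ideal.mem_span_singleton'.mp hc
    refine ⟨d, trivial, ?_⟩
    rw [LinearMap.mulRight_apply, add_sub_cancel_left]
    exact ha

/-- One step of the power chain has length one. -/
theorem relLen_pow_step (𝔭 : Ideal R) [𝔭.IsPrime] {z : R}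
    (hz : Irreducible (Ideal.Quotient.mk 𝔭 z)) (𝔞 : Ideal R) (h𝔞 : 𝔞 ≤ 𝔭) (n : ℕ)
    (hkill : ∀ s ∈ IsLocalRing.maximalIdeal R, s * z ^ n ∈ Ideal.span {z ^ (n + 1)} ⊔ 𝔞) :
    relLen (Ideal.span {z ^ (n + 1)} ⊔ 𝔞) (Ideal.span {z ^ n} ⊔ 𝔞) = 1 := by
  have hzB : z ^ n ∈ Ideal.span {z ^ n} ⊔ 𝔞 :=
    Ideal.mem_sup_left (Ideal.mem_span_singleton_self _)
  apply le_antisymm
  · refine relLen_le_one_of_kill hzB ?_ hkill
    refine sup_le le_sup_left ?_
    exact le_sup_of_le_right le_sup_right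
  · refine one_le_relLen_of_notMem hzB ?_
    intro hmem
    obtain ⟨c, hc, a, ha, hca⟩ := Submodule.mem_sup.mp hmem
    obtain ⟨g, rfl⟩ := Ideal.mem_span_singleton'.mp hc
    refine pow_sub_pow_succ_mul_notMem 𝔭 hz n g ?_
    have : z ^ n - z ^ (n + 1) * g = a := by
      rw [← hca]
      ring
    rw [this]
    exact h𝔞 ha

/-- The power chain: `ℓ(((z ^ n₀) + 𝔞) / ((z ^ (n₀ + k)) + 𝔞)) = k`. -/
theorem relLen_pow_chain (𝔭 : Ideal R) [𝔭.IsPrime] {z : R}
    (hz : Irreducible (Ideal.Quotient.mk 𝔭 z)) (𝔞 : Ideal R) (h𝔞 : 𝔞 ≤ 𝔭) (n₀ : ℕ)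
    (hkill : ∀ n, n₀ ≤ n → ∀ s ∈ IsLocalRing.maximalIdeal R,
      s * z ^ n ∈ Ideal.span {z ^ (n + 1)} ⊔ 𝔞) (k : ℕ) :
    relLen (Ideal.span {z ^ (n₀ + k)} ⊔ 𝔞) (Ideal.span {z ^ n₀} ⊔ 𝔞) = k := by
  have hmono : ∀ i j : ℕ, i ≤ j → Ideal.span {z ^ j} ⊔ 𝔞 ≤ Ideal.span {z ^ i} ⊔ 𝔞 := by
    intro i j hij
    refine sup_le_sup_right ?_ _
    rw [Ideal.span_singleton_le_span_singleton]
    exact pow_dvd_pow z hij
  induction k with
  | zero =>
    rw [add_zero, relLen_self]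
    rfl
  | succ k ih =>
    rw [relLen_add (hmono (n₀ + k) (n₀ + (k + 1)) (by omega)) (hmono n₀ (n₀ + k) (by omega)), ih,
      ← add_assoc, relLen_pow_step 𝔭 hz 𝔞 h𝔞 (n₀ + k) (hkill _ (by omega))]
    push_cast
    rw [add_comm]

end PowChain

end Fermat.Agent.A2.H609

end
-- ===== PACK-END A2/H609/Branch.lean

-- ===== PACK-BEGIN S13/H175/InertiaMem.lean
section




set_option autoImplicit false

/-!
# Membership criteria for the Prelude inertia subgroup `A.inertiaSubgroupIn K`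
-/

open scoped Pointwise

namespace Fermat.Agent.S13.H175

/-- An automorphism stabilising `A` and acting trivially on the residue field of `A` lies in
the inertia subgroup. -/
theorem mem_inertiaSubgroupIn_of {K L : Type*} [Field K] [Field L] [Algebra K L]
    (A : ValuationSubring L) (σ : L ≃ₐ[K] L) (hstab : σ • A = A)
    (h : ∀ x : L, x ∈ A → σ x - x ∈ A.nonunits) : σ ∈ A.inertiaSubgroupIn K := by
  unfold ValuationSubring.inertiaSubgroupIn
  rw [Subgroup.mem_map]
  refine ⟨⟨σ, hstab⟩, ?_, rfl⟩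
  unfold ValuationSubring.inertiaSubgroup
  rw [MonoidHom.mem_ker]
  ext r
  obtain ⟨x, rfl⟩ := IsLocalRing.residue_surjective r
  show (⟨σ, hstab⟩ : A.decompositionSubgroup K) • IsLocalRing.residue A x = IsLocalRing.residue A x
  rw [← IsLocalRing.ResidueField.residue_smul]
  rw [← sub_eq_zero, ← map_sub, IsLocalRing.residue_eq_zero_iff]
  have h1 := h x x.2
  rw [ValuationSubring.mem_nonunits_iff_exists_mem_maximalIdeal] at h1
  obtain ⟨h2, h3⟩ := h1
  convert h3 using 1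
  exact Subtype.ext rfl

/-- Over an algebraic extension of `ℚ`: an automorphism acting trivially modulo the maximal
ideal of `A` on all algebraic integers lies in the inertia subgroup of `A`. -/
theorem mem_inertiaSubgroupIn_of_integral
    (A : ValuationSubring (AlgebraicClosure ℚ)) (ℓ : ℕ) (hℓ : ℓ.Prime) (hA : A.LiesOverPrime ℓ)
    (σ : AlgebraicClosure ℚ ≃ₐ[ℚ] AlgebraicClosure ℚ)
    (h : ∀ x : AlgebraicClosure ℚ, IsIntegral ℤ x → σ x - x ∈ A.nonunits) :
    σ ∈ A.inertiaSubgroupIn ℚ := by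
  have : Algebra.IsAlgebraic ℚ (AlgebraicClosure ℚ) := AlgebraicClosure.isAlgebraic ℚ
  -- `σ` maps integral elements to integral elements
  have hint : ∀ (τ : AlgebraicClosure ℚ ≃ₐ[ℚ] AlgebraicClosure ℚ) (x : AlgebraicClosure ℚ),
      IsIntegral ℤ x → IsIntegral ℤ (τ x) := by
    intro τ x hx
    exact hx.map τ
  -- the same hypothesis holds for `σ⁻¹`
  have h' : ∀ x : AlgebraicClosure ℚ, IsIntegral ℤ x → σ.symm x - x ∈ A.nonunits := by
    intro x hx
    have h1 := h (σ.symm x) (hint σ.symm x hx)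
    rw [AlgEquiv.apply_symm_apply] at h1
    have := A.nonunits.neg_mem h1
    simpa using this
  -- key: such a `τ` maps `A` into `A` and acts trivially on the residue field
  have key : ∀ (τ : AlgebraicClosure ℚ ≃ₐ[ℚ] AlgebraicClosure ℚ),
      (∀ x : AlgebraicClosure ℚ, IsIntegral ℤ x → τ x - x ∈ A.nonunits) →
      ∀ x : AlgebraicClosure ℚ, x ∈ A → τ x ∈ A ∧ τ x - x ∈ A.nonunits := by
    intro τ hτ x hx
    obtain ⟨b, s, hb, hs, hsA, hxs⟩ := (Fermat.Agent.S54.mem_valuationSubring_iff A ℓ hℓ hA x).mp hx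
    have hbA : b ∈ A := Fermat.Agent.S54.isIntegral_mem_valuationSubring A hb
    have hsmem : s ∈ A := Fermat.Agent.S54.isIntegral_mem_valuationSubring A hs
    have hτs_mem : τ s ∈ A := Fermat.Agent.S54.isIntegral_mem_valuationSubring A (hint τ s hs)
    have hτb_mem : τ b ∈ A := Fermat.Agent.S54.isIntegral_mem_valuationSubring A (hint τ b hb)
    have hs0 : s ≠ 0 := fun h0 => hsA (h0 ▸ A.nonunits.zero_mem)
    have hτs0 : τ s ≠ 0 := fun h0 => hs0 (by simpa using h0)
    -- `τ s` is a unit of `A`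
    have hτsA : τ s ∉ A.nonunits := by
      intro hcon
      have h1 := hτ s hs
      have h2 : s = τ s - (τ s - s) := by ring
      apply hsA
      rw [h2]
      exact A.nonunits.sub_mem hcon h1
    have hsinv : s⁻¹ ∈ A := by
      by_contra hc
      exact hsA (A.mem_nonunits_iff_or.mpr (Or.inr hc))
    have hτsinv : (τ s)⁻¹ ∈ A := by
      by_contra hc
      exact hτsA (A.mem_nonunits_iff_or.mpr (Or.inr hc))
    have hx_eq : x = b * s⁻¹ := by
      rw [← hxs]; field_simp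
    have hτx_eq : τ x = τ b * (τ s)⁻¹ := by
      rw [hx_eq, map_mul, map_inv₀]
    refine ⟨?_, ?_⟩
    · rw [hτx_eq]
      exact A.mul_mem _ _ hτb_mem hτsinv
    · have hdiff : τ x - x = ((τ b - b) * s - b * (τ s - s)) * ((τ s)⁻¹ * s⁻¹) := by
        rw [hτx_eq, hx_eq]
        field_simp
        ring
      rw [hdiff]
      -- nonunits form an ideal-like subset
      have hmul : ∀ u v : AlgebraicClosure ℚ, u ∈ A.nonunits → v ∈ A → u * v ∈ A.nonunits := by
        intro u v hu hv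
        obtain ⟨h1, h2⟩ := ValuationSubring.mem_nonunits_iff_exists_mem_maximalIdeal.mp hu
        have := Ideal.mul_mem_right (⟨v, hv⟩ : A) _ h2
        exact ValuationSubring.mem_nonunits_iff_exists_mem_maximalIdeal.mpr ⟨_, this⟩
      apply hmul _ _ _ (A.mul_mem _ _ hτsinv hsinv)
      apply A.nonunits.sub_mem
      · exact hmul _ _ (hτ b hb) hsmem
      · rw [mul_comm]
        exact hmul _ _ (hτ s hs) hbA
  apply mem_inertiaSubgroupIn_of A σ
  · -- `σ • A = A`
    apply le_antisymm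
    · intro y hy
      obtain ⟨x, hx, rfl⟩ := (ValuationSubring.mem_smul_pointwise_iff_exists σ y A).mp hy
      exact (key σ h x hx).1
    · intro y hy
      rw [ValuationSubring.mem_smul_pointwise_iff_exists]
      refine ⟨σ.symm y, (key σ.symm h' y hy).1, ?_⟩
      simp
  · intro x hx
    exact (key σ h x hx).2

end Fermat.Agent.S13.H175

end
-- ===== PACK-END S13/H175/InertiaMem.lean

-- ===== PACK-BEGIN A2/Mod/H372/Side.lean
section




/-!
# A2 / MODASM S3, generic part (helper372): one side of the Kronecker correspondence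

Mathlib + `H48.IsUnif` only.  `V₁ ⊆ F₁`, `V₂ ⊆ F₂` valuation subrings with uniformisers
`ϖ₁`, `ϖ₂`; `φ : F₁ →+* F₂` maps `V₁` into `V₂`, `ϖ₁` to `ϖ₂` and reflects integrality
(`φ x ∈ V₂ → x ∈ V₁`); `A ⊆ V₁` a subring which is "normal modulo `ϖ₁`" in the elementwise form
of `Mod.GoodRedAt.normal`; the residue characteristic of `V₂` is `q`.  (`SideData`.)

* `SideData.cong` : if `ψ : F₁ →+* F₂` satisfies the semilinear Kronecker congruence
  `ψ a ≡ (φ a') ^ q mod ϖ₂ V₂` on `V₁` (leaf L12) and `A` is integral over `R[y]` with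
  `ψ = φ` on `R` and `ψ y ≡ (φ y) ^ q`, then the congruence is solvable inside `A`;
* `SideData.surj` : if `V₂ = φ(V₁) + ϖ₂ V₂` (leaf L11), then every element `b` integral over
  `R[y₂]`, `y₂ ≡ φ a`, is congruent to `φ a`, `a ∈ A`, modulo `ϖ₂ V₂`.
-/

set_option autoImplicit false
set_option linter.style.haveILetI false

noncomputable section

namespace Fermat.Agent.A2.Mod.H372

open Polynomial

/-! ## Valuation subrings with a uniformiser (elementwise) -/

section Unif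

variable {F : Type*} [Field F] {V : ValuationSubring F} {ϖ : F}

theorem mem_of_mul_inv_mem (hu : H48.IsUnif V ϖ) {x : F} (hx : x * ϖ⁻¹ ∈ V) : x ∈ V := by
  have : x = x * ϖ⁻¹ * ϖ := by
    rw [mul_assoc, inv_mul_cancel₀ hu.ne_zero, mul_one]
  rw [this]
  exact V.mul_mem _ _ hx hu.mem

/-- `x ∈ ϖ V` iff the residue class of `x` vanishes. -/
theorem residue_eq_zero_iff (hu : H48.IsUnif V ϖ) (x : V) :
    IsLocalRing.residue V x = 0 ↔ (x : F) * ϖ⁻¹ ∈ V := by
  rw [IsLocalRing.residue_eq_zero_iff, IsLocalRing.mem_maximalIdeal, mem_nonunits_iff]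
  constructor
  · intro hx
    rcases eq_or_ne (x : F) 0 with h0 | h0
    · rw [h0, zero_mul]; exact V.zero_mem
    · refine hu.gen _ x.2 (fun hinv => hx ?_)
      exact isUnit_iff_exists_inv.mpr ⟨⟨_, hinv⟩, Subtype.ext (mul_inv_cancel₀ h0)⟩
  · intro hx hunit
    obtain ⟨y, hy⟩ := isUnit_iff_exists_inv.mp hunit
    have hy' : (x : F) * (y : F) = 1 := congrArg Subtype.val hy
    apply hu.inv_not_mem
    have : ϖ⁻¹ = (x : F) * ϖ⁻¹ * y := by
      rw [mul_right_comm, hy', one_mul]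
    rw [this]
    exact V.mul_mem _ _ hx y.2

theorem residue_eq_iff (hu : H48.IsUnif V ϖ) (x y : V) :
    IsLocalRing.residue V x = IsLocalRing.residue V y ↔ ((x : F) - y) * ϖ⁻¹ ∈ V := by
  rw [← sub_eq_zero, ← map_sub, residue_eq_zero_iff hu]
  rfl

end Unif

/-! ## One side -/

section Side

variable {F₁ F₂ : Type*} [Field F₁] [Field F₂]

/-- The residue of a ring homomorphism mapping `V₁` into `V₂`. -/
def resHom (V₁ : ValuationSubring F₁) (V₂ : ValuationSubring F₂) (φ : F₁ →+* F₂)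
    (hφ : ∀ x ∈ V₁, φ x ∈ V₂) : V₁ →+* IsLocalRing.ResidueField V₂ :=
  (IsLocalRing.residue V₂).comp ((φ.comp V₁.subtype).codRestrict V₂ (fun x => hφ x x.2))

theorem resHom_apply (V₁ : ValuationSubring F₁) (V₂ : ValuationSubring F₂) (φ : F₁ →+* F₂)
    (hφ : ∀ x ∈ V₁, φ x ∈ V₂) (x : V₁) :
    resHom V₁ V₂ φ hφ x = IsLocalRing.residue V₂ ⟨φ x, hφ x x.2⟩ := rfl

/-- The hypotheses on one side of the correspondence. -/
structure SideData (V₁ : ValuationSubring F₁) (V₂ : ValuationSubring F₂) (ϖ₁ : F₁) (ϖ₂ : F₂)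
    (φ : F₁ →+* F₂) (q : ℕ) (A : Subring F₁) : Prop where
  unif₁ : H48.IsUnif V₁ ϖ₁
  unif₂ : H48.IsUnif V₂ ϖ₂
  map_mem : ∀ x ∈ V₁, φ x ∈ V₂
  map_unif : φ ϖ₁ = ϖ₂
  refl : ∀ x, φ x ∈ V₂ → x ∈ V₁
  prime : q.Prime
  q_mem : (q : F₂) * ϖ₂⁻¹ ∈ V₂
  le : ∀ a ∈ A, a ∈ V₁
  normal : ∀ f ∈ V₁, (∃ (n : ℕ) (c : Fin n → F₁), (∀ i, c i ∈ A) ∧
      (f ^ n + ∑ i : Fin n, c i * f ^ (i : ℕ)) * ϖ₁⁻¹ ∈ V₁) → ∃ b ∈ A, (f - b) * ϖ₁⁻¹ ∈ V₁

namespace SideData

variable {V₁ : ValuationSubring F₁} {V₂ : ValuationSubring F₂} {ϖ₁ : F₁} {ϖ₂ : F₂}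
  {φ : F₁ →+* F₂} {q : ℕ} {A : Subring F₁}

/-- The inclusion `A → V₁`. -/
def incl (h : SideData V₁ V₂ ϖ₁ ϖ₂ φ q A) : A →+* V₁ :=
  (A.subtype).codRestrict V₁ (fun a => h.le a a.2)

theorem coe_incl (h : SideData V₁ V₂ ϖ₁ ϖ₂ φ q A) (a : A) : ((h.incl a : V₁) : F₁) = a := rfl

/-- The reduction of `φ`. -/
def red (h : SideData V₁ V₂ ϖ₁ ϖ₂ φ q A) : V₁ →+* IsLocalRing.ResidueField V₂ :=
  resHom V₁ V₂ φ h.map_mem

theorem red_eq_zero_iff (h : SideData V₁ V₂ ϖ₁ ϖ₂ φ q A) (x : V₁) :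
    h.red x = 0 ↔ (x : F₁) * ϖ₁⁻¹ ∈ V₁ := by
  rw [red, resHom_apply, residue_eq_zero_iff h.unif₂]
  have e : φ ((x : F₁) * ϖ₁⁻¹) = φ x * ϖ₂⁻¹ := by rw [map_mul, map_inv₀, h.map_unif]
  constructor
  · intro hx
    exact h.refl _ (by rw [e]; exact hx)
  · intro hx
    have := h.map_mem _ hx
    rwa [e] at this

theorem red_eq_iff (h : SideData V₁ V₂ ϖ₁ ϖ₂ φ q A) (x y : V₁) :
    h.red x = h.red y ↔ ((x : F₁) - y) * ϖ₁⁻¹ ∈ V₁ := by
  rw [← sub_eq_zero, ← map_sub, h.red_eq_zero_iff]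
  rfl

theorem charP (h : SideData V₁ V₂ ϖ₁ ϖ₂ φ q A) : CharP (IsLocalRing.ResidueField V₂) q := by
  rw [CharP.charP_iff_prime_eq_zero h.prime]
  have h1 : ((q : ℕ) : IsLocalRing.ResidueField V₂) = IsLocalRing.residue V₂ ((q : ℕ) : V₂) :=
    (map_natCast (IsLocalRing.residue V₂) q).symm
  rw [h1, residue_eq_zero_iff h.unif₂]
  exact h.q_mem

/-- `GoodRedAt.normal` in residue form. -/
theorem normal_red (h : SideData V₁ V₂ ϖ₁ ϖ₂ φ q A) (s : V₁)
    (hs : (h.red.comp h.incl).IsIntegralElem (h.red s)) : ∃ a : A, h.red s = h.red (h.incl a) := by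
  obtain ⟨p, hp, hps⟩ := hs
  have h0 : h.red (p.eval₂ h.incl s) = 0 := by
    rw [Polynomial.hom_eval₂]
    exact hps
  rw [h.red_eq_zero_iff] at h0
  -- the explicit monic relation
  have hsum : ((p.eval₂ h.incl s : V₁) : F₁) =
      (s : F₁) ^ p.natDegree + ∑ i : Fin p.natDegree, ((p.coeff i : A) : F₁) * (s : F₁) ^ (i : ℕ) := by
    have h1 : ((p.eval₂ h.incl s : V₁) : F₁) = p.eval₂ (A.subtype) (s : F₁) := by
      have := Polynomial.hom_eval₂ p h.incl V₁.subtype s
      exact this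
    rw [h1]
    conv_lhs => rw [hp.as_sum]
    rw [Polynomial.eval₂_add, Polynomial.eval₂_pow, Polynomial.eval₂_X, Polynomial.eval₂_finsetSum,
      Finset.sum_range]
    congr 1
    refine Finset.sum_congr rfl (fun i _ => ?_)
    rw [Polynomial.eval₂_mul, Polynomial.eval₂_C, Polynomial.eval₂_pow, Polynomial.eval₂_X]
    rfl
  rw [hsum] at h0
  obtain ⟨b, hb, hsb⟩ := h.normal s s.2 ⟨p.natDegree, fun i => ((p.coeff i : A) : F₁),
    fun i => (p.coeff i).2, h0⟩
  refine ⟨⟨b, hb⟩, ?_⟩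
  rw [h.red_eq_iff]
  exact hsb

/-- **Kronecker congruence inside the chart.** -/
theorem cong (h : SideData V₁ V₂ ϖ₁ ϖ₂ φ q A) (ψ : F₁ →+* F₂) (hψ : ∀ x ∈ V₁, ψ x ∈ V₂)
    (hK : ∀ a ∈ V₁, ∃ a' ∈ V₁, (ψ a - (φ a') ^ q) * ϖ₂⁻¹ ∈ V₂)
    {R : Type*} [CommRing R] (c : R →+* F₁) (y : F₁)
    (hA : ∀ a ∈ A, (Polynomial.eval₂RingHom c y).IsIntegralElem a)
    (hcA : ∀ r, c r ∈ A) (hyA : y ∈ A)
    (hc : ∀ r, ψ (c r) = φ (c r)) (hy : (ψ y - (φ y) ^ q) * ϖ₂⁻¹ ∈ V₂) :
    ∀ a ∈ A, ∃ a' ∈ A, (ψ a - (φ a') ^ q) * ϖ₂⁻¹ ∈ V₂ := by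
  haveI : Fact q.Prime := ⟨h.prime⟩
  haveI := h.charP
  haveI : ExpChar (IsLocalRing.ResidueField V₂) q := ExpChar.prime h.prime
  set g : V₁ →+* IsLocalRing.ResidueField V₂ := resHom V₁ V₂ ψ hψ with hg
  set cA : R →+* A := c.codRestrict A hcA with hcA'
  set yA : A := ⟨y, hyA⟩ with hyA'
  have hcomp : (A.subtype).comp (Polynomial.eval₂RingHom cA yA) = Polynomial.eval₂RingHom c y := by
    apply Polynomial.ringHom_ext
    · intro r
      simp [cA]
    · simp [yA]
  have key : ∀ x y' : V₁, g x = (h.red y') ^ q ↔ (ψ x - (φ y') ^ q) * ϖ₂⁻¹ ∈ V₂ := by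
    intro x y'
    rw [hg, red, resHom_apply, resHom_apply, ← map_pow, residue_eq_iff h.unif₂]
    rfl
  have main := exists_eq_pow_of_normal q h.red g h.incl h.normal_red
    (fun s => by
      obtain ⟨a', ha', haa'⟩ := hK s s.2
      exact ⟨⟨a', ha'⟩, (key s ⟨a', ha'⟩).mpr haa'⟩)
    cA yA
    (fun a => by
      obtain ⟨p, hp, hpa⟩ := hA a a.2
      refine ⟨p, hp, Subtype.ext ?_⟩
      have := Polynomial.hom_eval₂ p (Polynomial.eval₂RingHom cA yA) A.subtype a
      rw [hcomp] at this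
      rw [ZeroMemClass.coe_zero, ← hpa]
      exact this)
    (fun r => by
      rw [hg, red, resHom_apply, resHom_apply]
      congr 1
      exact Subtype.ext (hc r))
    ((key _ _).mpr hy)
  intro a ha
  obtain ⟨a', ha'⟩ := main ⟨a, ha⟩
  exact ⟨a', a'.2, (key _ _).mp ha'⟩

/-- **Residue degree one on the chart.** -/
theorem surj (h : SideData V₁ V₂ ϖ₁ ϖ₂ φ q A)
    (hres : ∀ b ∈ V₂, ∃ s ∈ V₁, (b - φ s) * ϖ₂⁻¹ ∈ V₂)
    {R : Type*} [CommRing R] (c : R →+* F₂) (y : F₂)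
    (hcV : ∀ r, c r ∈ V₂) (hyV : y ∈ V₂)
    (hc : ∀ r, ∃ a ∈ A, (c r - φ a) * ϖ₂⁻¹ ∈ V₂) (hy : ∃ a ∈ A, (y - φ a) * ϖ₂⁻¹ ∈ V₂) :
    ∀ b : F₂, (Polynomial.eval₂RingHom c y).IsIntegralElem b →
      b ∈ V₂ ∧ ∃ a ∈ A, (b - φ a) * ϖ₂⁻¹ ∈ V₂ := by
  set cV : R →+* V₂ := c.codRestrict V₂ hcV with hcV'
  set yV : V₂ := ⟨y, hyV⟩ with hyV'
  have hcomp : (V₂.subtype).comp (Polynomial.eval₂RingHom cV yV) = Polynomial.eval₂RingHom c y := by
    apply Polynomial.ringHom_ext
    · intro r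
      simp [cV]
    · simp [yV]
  -- the integral closure of `R[y]` in `V₂`
  have hmemV : ∀ b : F₂, (Polynomial.eval₂RingHom c y).IsIntegralElem b → b ∈ V₂ := by
    intro b hb
    have hint : IsIntegral V₂ b := by
      obtain ⟨p, hp, hpb⟩ := hb
      refine ⟨p.map (Polynomial.eval₂RingHom cV yV), hp.map _, ?_⟩
      rw [Polynomial.eval₂_map]
      have : (algebraMap V₂ F₂).comp (Polynomial.eval₂RingHom cV yV) =
          Polynomial.eval₂RingHom c y := hcomp
      rw [this]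
      exact hpb
    obtain ⟨v, hv⟩ := (IsIntegrallyClosed.isIntegral_iff (R := V₂) (K := F₂)).mp hint
    rw [← hv]
    exact v.2
  have key : ∀ (x : V₂) (a : V₁), IsLocalRing.residue V₂ x = h.red a ↔
      ((x : F₂) - φ a) * ϖ₂⁻¹ ∈ V₂ := by
    intro x a
    rw [red, resHom_apply, residue_eq_iff h.unif₂]
  have main := exists_eq_of_normal h.red h.incl h.normal_red (IsLocalRing.residue V₂)
    (fun b => by
      obtain ⟨s, hs, hbs⟩ := hres b b.2
      exact ⟨⟨s, hs⟩, (key b ⟨s, hs⟩).mpr hbs⟩)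
    cV yV
    (fun r => by
      obtain ⟨a, ha, hra⟩ := hc r
      exact ⟨⟨a, ha⟩, (key (cV r) (h.incl ⟨a, ha⟩)).mpr hra⟩)
    (by
      obtain ⟨a, ha, hya⟩ := hy
      exact ⟨⟨a, ha⟩, (key yV (h.incl ⟨a, ha⟩)).mpr hya⟩)
  intro b hb
  have hbV := hmemV b hb
  refine ⟨hbV, ?_⟩
  have hb' : (Polynomial.eval₂RingHom cV yV).IsIntegralElem (⟨b, hbV⟩ : V₂) := by
    obtain ⟨p, hp, hpb⟩ := hb
    refine ⟨p, hp, Subtype.ext ?_⟩
    have := Polynomial.hom_eval₂ p (Polynomial.eval₂RingHom cV yV) V₂.subtype ⟨b, hbV⟩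
    rw [hcomp] at this
    rw [ZeroMemClass.coe_zero, ← hpb]
    exact this
  obtain ⟨a, ha⟩ := main ⟨b, hbV⟩ hb'
  exact ⟨a, a.2, (key ⟨b, hbV⟩ (h.incl a)).mp ha⟩

end SideData

end Side

end Fermat.Agent.A2.Mod.H372

end
end
-- ===== PACK-END A2/Mod/H372/Side.lean

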