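import Mathlib
import Fermat.Prelude.Def_GaloisRep_Adic
import Mathlib.RingTheory.Ideal.GoingUp
import Mathlib.RingTheory.DedekindDomain.Basic
import Mathlib.RingTheory.Polynomial.Quotient
import Mathlib.RingTheory.PrincipalIdealDomain
import Mathlib.RingTheory.IntegralClosure.IsIntegralClosure.Basic
import Mathlib.RingTheory.DedekindDomain.PID
import Mathlib.Algebra.Polynomial.AlgebraMap
import Mathlib.RingTheory.Ideal.Quotient.Noetherian
import Mathlib.RingTheory.Valuation.ValuationSubring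
import Mathlib.RingTheory.Polynomial.Cyclotomic.Basic
import Mathlib.RingTheory.Adjoin.Basic
import Mathlib.Tactic.FieldSimp
import Mathlib.Tactic.LinearCombination
import Mathlib.Tactic.Ring
import Mathlib.Tactic.GCongr
import Fermat.Prelude.Def_ModularCurve_JqCoeff
import Fermat.Prelude.Def_ModularCurve_LaurentCoeff
import Fermat.Prelude.Thm_ModularCurve_coeffMap_qExpand
import Fermat.Agent.Pack.S34.G0E0L0
import Fermat.Agent.Pack.S34.G0E0L3

-- ===== PACK-BEGIN S55/Bridge/Cyclo.lean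
section


/-!
# S55 bridge, part B2b: the mod `p` cyclotomic character is unramified outside `p`,
and `M.dualTwist (cycloChar p)` inherits smoothness and unramifiedness from `M`.
-/

set_option autoImplicit false

namespace Fermat.Agent.S55.Bridge

open ExtCitation

section inertia

variable (A : ValuationSubring (AlgebraicClosure ℚ))

/-- Elements of the inertia group act trivially on the residue field. -/
theorem inertia_val_sub_lt_one {σ : AlgebraicClosure ℚ ≃ₐ[ℚ] AlgebraicClosure ℚ}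
    (hσ : σ ∈ A.inertiaSubgroupIn ℚ) (z : AlgebraicClosure ℚ)
    (hz : A.valuation z ≤ 1) : A.valuation (σ z - z) < 1 := by
  obtain ⟨g, hg, rfl⟩ := hσ
  have hzA : z ∈ A := (A.valuation_le_one_iff z).mp hz
  have h1 : MulSemiringAction.toRingAut (A.decompositionSubgroup ℚ)
      (IsLocalRing.ResidueField A) g = 1 := hg
  have h2 : g • (IsLocalRing.residue A ⟨z, hzA⟩) = IsLocalRing.residue A ⟨z, hzA⟩ := by
    have := congrArg (fun f => f (IsLocalRing.residue A ⟨z, hzA⟩)) h1
    simpa using this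
  rw [← IsLocalRing.ResidueField.residue_smul] at h2
  have h3 : (g • (⟨z, hzA⟩ : A)) - ⟨z, hzA⟩ ∈ IsLocalRing.maximalIdeal A := by
    rw [← Ideal.Quotient.eq]
    exact h2
  rw [ValuationSubring.valuation_lt_one_iff] at h3
  exact h3

variable {A}

theorem val_intCast_le_one (n : ℤ) : A.valuation (n : AlgebraicClosure ℚ) ≤ 1 :=
  (A.valuation_le_one_iff _).mpr (intCast_mem A n)

/-- A prime `p ≠ q` is a unit at a place over `q`. -/
theorem val_prime_eq_one {q p : ℕ} (hq : A.LiesOverPrime q) (hqp : q.Prime) (hp : p.Prime)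
    (hne : q ≠ p) : A.valuation (p : AlgebraicClosure ℚ) = 1 := by
  have hq' : A.valuation (q : AlgebraicClosure ℚ) < 1 := (A.mem_nonunits_iff).mp hq
  have hcop : IsCoprime (q : ℤ) (p : ℤ) := by
    rw [Int.isCoprime_iff_gcd_eq_one, Int.gcd_natCast_natCast]
    exact (Nat.coprime_primes hqp hp).2 hne
  obtain ⟨u, w, huw⟩ := hcop
  have h1 : (u : AlgebraicClosure ℚ) * (q : AlgebraicClosure ℚ)
      + (w : AlgebraicClosure ℚ) * (p : AlgebraicClosure ℚ) = 1 := by
    exact_mod_cast congrArg (Int.cast : ℤ → AlgebraicClosure ℚ) huw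
  have hsmall : A.valuation ((u : AlgebraicClosure ℚ) * (q : AlgebraicClosure ℚ)) < 1 := by
    rw [map_mul]
    exact (mul_le_of_le_one_left' (val_intCast_le_one u)).trans_lt hq'
  have hwn : A.valuation ((w : AlgebraicClosure ℚ) * (p : AlgebraicClosure ℚ)) = 1 := by
    have : (w : AlgebraicClosure ℚ) * (p : AlgebraicClosure ℚ)
        = 1 + -((u : AlgebraicClosure ℚ) * (q : AlgebraicClosure ℚ)) := by linear_combination h1
    rw [this, (A.valuation).map_add_eq_of_lt_left
      (by rw [Valuation.map_neg, map_one]; exact hsmall), map_one]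
  rw [map_mul] at hwn
  have hp1 : A.valuation (p : AlgebraicClosure ℚ) ≤ 1 := by
    have := val_intCast_le_one (A := A) (p : ℤ)
    simpa using this
  refine le_antisymm hp1 ?_
  calc (1 : A.ValueGroup)
      = A.valuation (w : AlgebraicClosure ℚ) * A.valuation (p : AlgebraicClosure ℚ) := hwn.symm
    _ ≤ 1 * A.valuation (p : AlgebraicClosure ℚ) := mul_le_mul_left (val_intCast_le_one w) _
    _ = A.valuation (p : AlgebraicClosure ℚ) := one_mul _

/-- A nontrivial `p`-th root of unity `η` has `v (1 - η) = 1` at places where `p` is a unit. -/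
theorem val_one_sub_root_eq_one {p : ℕ} (hpv : A.valuation (p : AlgebraicClosure ℚ) = 1)
    {η : AlgebraicClosure ℚ} (hη : η ^ p = 1) (hη1 : η ≠ 1) (hηA : η ∈ A) :
    A.valuation (1 - η) = 1 := by
  -- work in the ring `A`
  let e : A := ⟨η, hηA⟩
  have hdvd : (1 : A) - e ∣ ((∑ i ∈ Finset.range p, (Polynomial.X : Polynomial A) ^ i).eval 1
      - (∑ i ∈ Finset.range p, (Polynomial.X : Polynomial A) ^ i).eval e) :=
    Polynomial.sub_dvd_eval_sub 1 e _
  have hsum : ∑ i ∈ Finset.range p, η ^ i = 0 := by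
    have h := geom_sum_mul η p
    rw [hη, sub_self] at h
    rcases mul_eq_zero.1 h with h | h
    · exact h
    · exact absurd (sub_eq_zero.1 h) hη1
  have hsumA : ∑ i ∈ Finset.range p, e ^ i = 0 := by
    apply Subtype.ext
    simpa [e] using hsum
  have heval1 : (∑ i ∈ Finset.range p, (Polynomial.X : Polynomial A) ^ i).eval 1 = (p : A) := by
    simp [Polynomial.eval_finsetSum]
  have hevale : (∑ i ∈ Finset.range p, (Polynomial.X : Polynomial A) ^ i).eval e = 0 := by
    simpa [Polynomial.eval_finsetSum] using hsumA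
  rw [heval1, hevale, sub_zero] at hdvd
  obtain ⟨y, hy⟩ := hdvd
  have hy' : (p : AlgebraicClosure ℚ) = (1 - η) * (y : AlgebraicClosure ℚ) := by
    have := congrArg (fun a : A => (a : AlgebraicClosure ℚ)) hy
    simpa [e] using this
  have hle : A.valuation (1 - η) ≤ 1 :=
    (A.valuation_le_one_iff _).mpr (A.sub_mem A.one_mem hηA)
  refine le_antisymm hle ?_
  have hyv : A.valuation (y : AlgebraicClosure ℚ) ≤ 1 := A.valuation_le_one y
  calc (1 : A.ValueGroup) = A.valuation (p : AlgebraicClosure ℚ) := hpv.symm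
    _ = A.valuation (1 - η) * A.valuation (y : AlgebraicClosure ℚ) := by rw [hy', map_mul]
    _ ≤ A.valuation (1 - η) * 1 := mul_le_mul_right hyv _
    _ = A.valuation (1 - η) := mul_one _

/-- Two distinct `p`-th roots of unity stay distinct in the residue field at places where `p`
is a unit. -/
theorem val_sub_roots_eq_one {p : ℕ} (hp0 : p ≠ 0)
    (hpv : A.valuation (p : AlgebraicClosure ℚ) = 1)
    {a b : AlgebraicClosure ℚ} (ha : a ^ p = 1) (hb : b ^ p = 1) (hab : a ≠ b) :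
    A.valuation (a - b) = 1 := by
  have hb0 : b ≠ 0 := by
    rintro rfl
    rw [zero_pow hp0] at hb
    exact zero_ne_one hb
  have hvb : A.valuation b = 1 := by
    have h : (A.valuation b) ^ p = 1 := by rw [← map_pow, hb, map_one]
    exact (pow_eq_one_iff.1 h).resolve_right hp0
  have hva : A.valuation a = 1 := by
    have h : (A.valuation a) ^ p = 1 := by rw [← map_pow, ha, map_one]
    exact (pow_eq_one_iff.1 h).resolve_right hp0
  have hη : (a / b) ^ p = 1 := by rw [div_pow, ha, hb, div_one]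
  have hη1 : a / b ≠ 1 := by
    intro h
    exact hab ((div_eq_one_iff_eq hb0).1 h)
  have hηA : a / b ∈ A := by
    rw [← A.valuation_le_one_iff, map_div₀, hva, hvb, div_one]
  have h1 := val_one_sub_root_eq_one hpv hη hη1 hηA
  have : a - b = -(b * (1 - a / b)) := by
    field_simp
    ring
  rw [this, Valuation.map_neg, map_mul, hvb, h1, one_mul]

end inertia

section cyclo

variable (p : ℕ) [Fact p.Prime]

/-- Defining property of `cycloChar`. -/
theorem cycloChar_spec (σ : AlgebraicClosure ℚ ≃ₐ[ℚ] AlgebraicClosure ℚ)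
    {t : (AlgebraicClosure ℚ)ˣ} (ht : t ∈ rootsOfUnity p (AlgebraicClosure ℚ)) :
    σ (t : AlgebraicClosure ℚ)
      = (t : AlgebraicClosure ℚ) ^ ((cycloChar p σ : (ZMod p)ˣ) : ZMod p).val := by
  haveI : NeZero p := ⟨(Fact.out : p.Prime).ne_zero⟩
  have h := modularCyclotomicCharacter.spec (AlgebraicClosure ℚ) (card_rootsOfUnity_eq_self p)
    (σ : AlgebraicClosure ℚ ≃+* AlgebraicClosure ℚ) ht
  exact h

/-- If `σ` fixes all `p`-th roots of unity then `cycloChar p σ = 1`. -/
theorem cycloChar_eq_one_of_fixes (σ : AlgebraicClosure ℚ ≃ₐ[ℚ] AlgebraicClosure ℚ)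
    (hσ : ∀ t : (AlgebraicClosure ℚ)ˣ, t ∈ rootsOfUnity p (AlgebraicClosure ℚ) →
      σ (t : AlgebraicClosure ℚ) = t) : cycloChar p σ = 1 := by
  haveI : NeZero p := ⟨(Fact.out : p.Prime).ne_zero⟩
  haveI : Fact (1 < p) := ⟨(Fact.out : p.Prime).one_lt⟩
  have h := modularCyclotomicCharacter.unique (AlgebraicClosure ℚ) (card_rootsOfUnity_eq_self p)
    (σ : AlgebraicClosure ℚ ≃+* AlgebraicClosure ℚ) (c := 1)
    (fun t ht => by rw [ZMod.val_one, pow_one]; exact hσ t ht)
  apply Units.ext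
  exact h.symm

/-- `cycloChar p σ = 1` iff `σ` fixes all `p`-th roots of unity. -/
theorem cycloChar_eq_one_iff (σ : AlgebraicClosure ℚ ≃ₐ[ℚ] AlgebraicClosure ℚ) :
    cycloChar p σ = 1 ↔ ∀ t : (AlgebraicClosure ℚ)ˣ, t ∈ rootsOfUnity p (AlgebraicClosure ℚ) →
      σ (t : AlgebraicClosure ℚ) = t := by
  haveI : Fact (1 < p) := ⟨(Fact.out : p.Prime).one_lt⟩
  refine ⟨fun h t ht => ?_, cycloChar_eq_one_of_fixes p σ⟩
  rw [cycloChar_spec p σ ht, h, Units.val_one, ZMod.val_one, pow_one]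

/-- **B2b.** The mod `p` cyclotomic character is unramified at every prime `q ≠ p`. -/
theorem cycloChar_eq_one_of_mem_inertia {q : ℕ} (hq : q.Prime) (hqp : q ≠ p)
    (A : ValuationSubring (AlgebraicClosure ℚ)) (hA : A.LiesOverPrime q)
    (σ : AlgebraicClosure ℚ ≃ₐ[ℚ] AlgebraicClosure ℚ) (hσ : σ ∈ A.inertiaSubgroupIn ℚ) :
    cycloChar p σ = 1 := by
  have hp : p.Prime := Fact.out
  apply cycloChar_eq_one_of_fixes
  intro t ht
  have htp : (t : AlgebraicClosure ℚ) ^ p = 1 := by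
    have := (mem_rootsOfUnity p t).1 ht
    rw [← Units.val_pow_eq_pow_val, this, Units.val_one]
  by_contra hne
  have hpv := val_prime_eq_one (A := A) hA hq hp hqp
  have hσt : (σ (t : AlgebraicClosure ℚ)) ^ p = 1 := by rw [← map_pow, htp, map_one]
  have h1 := val_sub_roots_eq_one (A := A) hp.ne_zero hpv hσt htp hne
  have hvt : A.valuation (t : AlgebraicClosure ℚ) ≤ 1 := by
    have h : (A.valuation (t : AlgebraicClosure ℚ)) ^ p = 1 := by rw [← map_pow, htp, map_one]
    exact ((pow_eq_one_iff.1 h).resolve_right hp.ne_zero).le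
  have h2 := inertia_val_sub_lt_one A hσ t hvt
  rw [h1] at h2
  exact lt_irrefl _ h2

end cyclo

end Fermat.Agent.S55.Bridge

end
-- ===== PACK-END S55/Bridge/Cyclo.lean

-- ===== PACK-BEGIN S31/H202/TraceRigid.lean
section





/-!
# S31 / ALG-1: trace rigidity (helper202)

For `ρ : GaloisRepAdic A` (`A` any local ring) with absolutely irreducible residual representation:

* `span_range_rho_eq_top` : the `A`-span of `ρ(G_ℚ)` is all of `End_A(V)`;
* `rho_eq_one_of_trace_invariant` : if `tr ρ(g τ) = tr ρ(g)` for all `g`, then `ρ(τ) = 1`;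
* `rho_eq_of_trace_eq` : more generally `tr (ρ(g) X) = 0` for all `g` implies `X = 0`.
-/

set_option autoImplicit false

namespace Fermat.Agent.S31.H202

open scoped TensorProduct

/-- `Gal(ℚ̄/ℚ)` (local notation of this file). -/
local notation "GQ" => (AlgebraicClosure ℚ ≃ₐ[ℚ] AlgebraicClosure ℚ)

variable {A : Type} [CommRing A] [IsLocalRing A]

/-- the chosen basis of the underlying module. -/
noncomputable def rhoBasis (ρ : GaloisRepAdic A) : Module.Basis (Fin 2) A ρ.V :=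
  Module.finBasisOfFinrankEq A ρ.V ρ.finrank_eq

/-- the matrices of `ρ` in the chosen basis. -/
noncomputable def rhoMat (ρ : GaloisRepAdic A) (g : GQ) : Matrix (Fin 2) (Fin 2) A :=
  LinearMap.toMatrix (rhoBasis ρ) (rhoBasis ρ) (ρ.ρ g)

/-- reduction `A → k → k̄`. -/
noncomputable def redHom (A : Type) [CommRing A] [IsLocalRing A] :
    A →+* AlgebraicClosure (IsLocalRing.ResidueField A) :=
  (algebraMap (IsLocalRing.ResidueField A) (AlgebraicClosure (IsLocalRing.ResidueField A))).comp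
    (algebraMap A (IsLocalRing.ResidueField A))

theorem redHom_eq_zero (a : A) (ha : a ∈ IsLocalRing.maximalIdeal A) : redHom A a = 0 := by
  unfold redHom
  rw [RingHom.comp_apply, IsLocalRing.ResidueField.algebraMap_eq,
    (IsLocalRing.residue_eq_zero_iff a).mpr ha, map_zero]

theorem span_rhoMat_map (ρ : GaloisRepAdic A) (habs : ρ.residual.IsAbsolutelyIrreducible) :
    Submodule.span (AlgebraicClosure (IsLocalRing.ResidueField A))
      (Set.range fun g => (rhoMat ρ g).map (redHom A)) = ⊤ := by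
  classical
  set k := IsLocalRing.ResidueField A with hk
  set K := AlgebraicClosure k with hK
  set b := rhoBasis ρ with hb
  set bk : Module.Basis (Fin 2) k (k ⊗[A] ρ.V) := Algebra.TensorProduct.basis k b with hbk
  set bK : Module.Basis (Fin 2) K (K ⊗[k] (k ⊗[A] ρ.V)) := Algebra.TensorProduct.basis K bk
    with hbK
  set ρK : GQ →* Module.End K (K ⊗[k] (k ⊗[A] ρ.V)) := (ρ.residual.baseChange K).ρ with hρK
  have hF : ∀ g, (rhoMat ρ g).map (redHom A) = LinearMap.toMatrix bK bK (ρK g) := by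
    intro g
    have h1 : ρK g = ((ρ.ρ g).baseChange k).baseChange K := rfl
    rw [h1, LinearMap.toMatrix_baseChange, LinearMap.toMatrix_baseChange, Matrix.map_map]
    rfl
  have hnt : Nontrivial (K ⊗[k] (k ⊗[A] ρ.V)) := by
    apply Module.nontrivial_of_finrank_pos (R := K)
    have h2 : Module.finrank K (K ⊗[k] (k ⊗[A] ρ.V)) = 2 := (ρ.residual.baseChange K).finrank_eq
    rw [h2]
    norm_num
  have hB : Algebra.adjoin K (Set.range ρK) = ⊤ := by
    apply Fermat.Agent.S29.H872.burnside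
    intro W hW
    refine habs W (fun σ x hx => ?_)
    exact hW (ρK σ) (Algebra.subset_adjoin ⟨σ, rfl⟩) hx
  have hspanK : Submodule.span K (Set.range ρK) = ⊤ := by
    have h1 := Algebra.adjoin_eq_span K (Set.range ρK)
    have h2 : (Submonoid.closure (Set.range ρK) : Set (Module.End K (K ⊗[k] (k ⊗[A] ρ.V))))
        = Set.range ρK := by
      have : Submonoid.closure (Set.range ρK) = MonoidHom.mrange ρK := by
        rw [← MonoidHom.coe_mrange, Submonoid.closure_eq]
      rw [this, MonoidHom.coe_mrange]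
    rw [h2, hB] at h1
    rw [← h1]
    rfl
  -- transport along `toMatrix`
  have hrange : (Set.range fun g => (rhoMat ρ g).map (redHom A))
      = (LinearMap.toMatrix bK bK) '' (Set.range ρK) := by
    ext M
    constructor
    · rintro ⟨g, rfl⟩
      exact ⟨ρK g, ⟨g, rfl⟩, (hF g).symm⟩
    · rintro ⟨_, ⟨g, rfl⟩, rfl⟩
      exact ⟨g, hF g⟩
  have hmap : Submodule.map ((LinearMap.toMatrix bK bK).toLinearMap)
      (Submodule.span K (Set.range ρK))
      = Submodule.span K ((LinearMap.toMatrix bK bK) '' (Set.range ρK)) :=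
    Submodule.map_span _ _
  rw [hrange, ← hmap, hspanK, Submodule.map_top, LinearMap.range_eq_top]
  exact (LinearMap.toMatrix bK bK).surjective

/-- **Burnside + lifting**: the `A`-span of the image of a residually absolutely irreducible
representation is the full endomorphism ring. -/
theorem span_range_rho_eq_top (ρ : GaloisRepAdic A)
    (habs : ρ.residual.IsAbsolutelyIrreducible) :
    Submodule.span A (Set.range ρ.ρ) = ⊤ := by
  classical
  have h := span_eq_top_of_span_map_eq_top (redHom A) redHom_eq_zero (rhoMat ρ)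
    (span_rhoMat_map ρ habs)
  set b := rhoBasis ρ with hb
  have hrange : Set.range (rhoMat ρ) = (LinearMap.toMatrix b b) '' (Set.range ρ.ρ) := by
    ext M
    constructor
    · rintro ⟨g, rfl⟩
      exact ⟨ρ.ρ g, ⟨g, rfl⟩, rfl⟩
    · rintro ⟨_, ⟨g, rfl⟩, rfl⟩
      exact ⟨g, rfl⟩
  have hmap : Submodule.map ((LinearMap.toMatrix b b).toLinearMap)
      (Submodule.span A (Set.range ρ.ρ))
      = Submodule.span A ((LinearMap.toMatrix b b) '' (Set.range ρ.ρ)) :=
    Submodule.map_span _ _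
  rw [hrange, ← hmap] at h
  have hinj : Function.Injective (Submodule.map ((LinearMap.toMatrix b b).toLinearMap)) :=
    Submodule.map_injective_of_injective (LinearMap.toMatrix b b).injective
  apply hinj
  rw [h, Submodule.map_top]
  exact (LinearMap.range_eq_top.mpr (LinearMap.toMatrix b b).surjective).symm

/-- **Trace orthogonality**: an endomorphism orthogonal (for the trace form) to the image of a
residually absolutely irreducible representation is zero. -/
theorem eq_zero_of_trace_orth (ρ : GaloisRepAdic A)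
    (habs : ρ.residual.IsAbsolutelyIrreducible) (X : Module.End A ρ.V)
    (hX : ∀ g : GQ, LinearMap.trace A ρ.V (ρ.ρ g * X) = 0) : X = 0 := by
  classical
  set b := rhoBasis ρ with hb
  have h := mat_eq_zero_of_trace_orth (redHom A) redHom_eq_zero (rhoMat ρ)
    (span_rhoMat_map ρ habs) (LinearMap.toMatrix b b X) (fun g => by
      have := hX g
      rw [LinearMap.trace_eq_matrix_trace A b, LinearMap.toMatrix_mul] at this
      exact this)
  exact (LinearMap.toMatrix b b).injective (by rw [h, map_zero])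

/-- **Trace rigidity** (ALG-1): if `tr ρ(g τ) = tr ρ(g)` for all `g`, then `ρ(τ) = 1`. -/
theorem rho_eq_one_of_trace_invariant (ρ : GaloisRepAdic A)
    (habs : ρ.residual.IsAbsolutelyIrreducible) (τ : GQ)
    (h : ∀ g : GQ, LinearMap.trace A ρ.V (ρ.ρ (g * τ)) = LinearMap.trace A ρ.V (ρ.ρ g)) :
    ρ.ρ τ = 1 := by
  have h0 := eq_zero_of_trace_orth ρ habs (ρ.ρ τ - 1) (fun g => by
    rw [mul_sub, mul_one, map_sub, ← map_mul, h g, sub_self])
  exact sub_eq_zero.mp h0

/-- two elements with the same trace pairing against the image are equal. -/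
theorem rho_eq_of_trace_eq (ρ : GaloisRepAdic A)
    (habs : ρ.residual.IsAbsolutelyIrreducible) (σ τ : GQ)
    (h : ∀ g : GQ, LinearMap.trace A ρ.V (ρ.ρ (g * σ)) = LinearMap.trace A ρ.V (ρ.ρ (g * τ))) :
    ρ.ρ σ = ρ.ρ τ := by
  have h0 := eq_zero_of_trace_orth ρ habs (ρ.ρ σ - ρ.ρ τ) (fun g => by
    rw [mul_sub, map_sub, ← map_mul, ← map_mul, h g, sub_self])
  exact sub_eq_zero.mp h0

end Fermat.Agent.S31.H202

end
-- ===== PACK-END S31/H202/TraceRigid.lean

-- ===== PACK-BEGIN S37/H278/AdaptedBasis.lean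
section


/-!
# S37 / S18, piece b2-core (helper278): adapted bases over a local ring

`M` finite free over a local ring `o`, `I ≤ M` a submodule with `I + span(u_1..u_s) = M`,
`z ∈ I` with `z ∉ 𝔪 M`.  Then `M` has a basis containing `z`, all of whose members except at most
`s` lie in `I`.
-/

set_option autoImplicit false
set_option linter.style.haveILetI false
set_option linter.unusedSectionVars false

namespace Fermat.Agent.S37.H278

open Module TensorProduct

universe u v

theorem exists_adapted_basis {o : Type u} {M : Type v} [CommRing o] [IsLocalRing o]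
    [AddCommGroup M] [Module o M] [Module.Free o M] [Module.Finite o M]
    (I : Submodule o M) (z : M) (hzI : z ∈ I)
    (hz : z ∉ (IsLocalRing.maximalIdeal o • ⊤ : Submodule o M))
    (s : ℕ) (u : Fin s → M) (hu : I ⊔ Submodule.span o (Set.range u) = ⊤) :
    ∃ (ι : Type (max u v)) (_ : Fintype ι) (_ : DecidableEq ι) (b : Basis ι o M)
      (Z : Finset ι) (i₀ : ι),
      i₀ ∈ Z ∧ b i₀ = z ∧ (∀ i ∈ Z, b i ∈ I) ∧ Fintype.card ι ≤ Z.card + s := by
  classical
  let κ := IsLocalRing.ResidueField o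
  let V := κ ⊗[o] M
  let π : M →ₗ[o] V := TensorProduct.mk o κ M 1
  have hπsurj : Function.Surjective π :=
    TensorProduct.mk_surjective o M κ Ideal.Quotient.mk_surjective
  have hπz : π z ≠ 0 := by
    intro h0
    apply hz
    rw [← LinearMap.ker_tensorProductMk]
    exact h0
  -- step 1 : maximal independent subset of π '' I containing π z
  have hs0 : LinearIndepOn κ id ({π z} : Set V) := by
    rw [linearIndepOn_singleton_iff]
    exact hπz
  have hsub0 : ({π z} : Set V) ⊆ π '' (I : Set M) :=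
    Set.singleton_subset_iff.mpr ⟨z, hzI, rfl⟩
  obtain ⟨B₁, hB₁sub, hzB₁, hspanB₁, hB₁li⟩ := exists_linearIndepOn_id_extension hs0 hsub0
  -- step 2 : extend by images of the u's
  set t' : Set V := B₁ ∪ π '' (Set.range u) with ht'def
  have hst : B₁ ⊆ t' := Set.subset_union_left
  have ht' : ⊤ ≤ Submodule.span κ t' := by
    intro x _
    obtain ⟨m, rfl⟩ := hπsurj x
    have hm : m ∈ I ⊔ Submodule.span o (Set.range u) := by rw [hu]; trivial
    obtain ⟨a, ha, c, hc, rfl⟩ := Submodule.mem_sup.mp hm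
    rw [map_add]
    refine Submodule.add_mem _ ?_ ?_
    · have : π a ∈ Submodule.span κ B₁ := hspanB₁ ⟨a, ha, rfl⟩
      exact Submodule.span_mono hst this
    · -- c in span of u
      have hle : Submodule.span o (Set.range u) ≤
          ((Submodule.span κ t').restrictScalars o).comap π := by
        rw [Submodule.span_le]
        rintro _ ⟨j, rfl⟩
        show π (u j) ∈ Submodule.span κ t'
        exact Submodule.subset_span (Or.inr ⟨u j, ⟨j, rfl⟩, rfl⟩)
      exact hle hc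
  let bV : Basis (hB₁li.extend hst) κ V := Basis.extendLe hB₁li hst ht'
  have hbV : ∀ i : hB₁li.extend hst, bV i = (i : V) := fun i => by
    simp [bV, Basis.coe_extendLe]
  have hBsub : hB₁li.extend hst ⊆ t' := hB₁li.extend_subset hst
  have hB₁B : B₁ ⊆ hB₁li.extend hst := hB₁li.subset_extend hst
  haveI : Finite (hB₁li.extend hst) := Module.Finite.finite_basis bV
  letI : Fintype (hB₁li.extend hst) := Fintype.ofFinite _
  -- lifts
  have hlift : ∀ i : hB₁li.extend hst, ∃ m : M, π m = (i : V) ∧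
      ((i : V) ∈ B₁ → m ∈ I) ∧ ((i : V) = π z → m = z) := by
    intro i
    by_cases h1 : (i : V) = π z
    · exact ⟨z, h1.symm, fun _ => hzI, fun _ => rfl⟩
    · by_cases h2 : (i : V) ∈ B₁
      · obtain ⟨m, hm, hmi⟩ := hB₁sub h2
        exact ⟨m, hmi, fun _ => hm, fun h => absurd h h1⟩
      · obtain ⟨m, hm⟩ := hπsurj (i : V)
        exact ⟨m, hm, fun h => absurd h h2, fun h => absurd h h1⟩
  choose w hw1 hw2 hw3 using hlift
  have hli : LinearIndependent κ (π ∘ w) := by
    have : (π ∘ w) = bV := by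
      funext i
      simp [hw1 i, hbV i]
    rw [this]
    exact bV.linearIndependent
  have hliM : LinearIndependent o w := IsLocalRing.linearIndependent_of_flat w hli
  have hspM : Submodule.span o (Set.range w) = ⊤ :=
    IsLocalRing.span_eq_top_of_tmul_eq_basis w bV (fun i => by
      rw [hbV i]; exact hw1 i)
  let b : Basis (hB₁li.extend hst) o M := Basis.mk hliM hspM.ge
  have hb : ∀ i, b i = w i := fun i => by simp [b]
  let i₀ : hB₁li.extend hst := ⟨π z, hB₁B (hzB₁ rfl)⟩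
  let Z : Finset (hB₁li.extend hst) := Finset.univ.filter fun i => (i : V) ∈ B₁
  refine ⟨hB₁li.extend hst, inferInstance, inferInstance, b, Z, i₀, ?_, ?_, ?_, ?_⟩
  · simp only [Z, Finset.mem_filter, Finset.mem_univ, true_and]
    exact hzB₁ rfl
  · rw [hb]; exact hw3 i₀ rfl
  · intro i hi
    simp only [Z, Finset.mem_filter, Finset.mem_univ, true_and] at hi
    rw [hb]; exact hw2 i hi
  · -- counting
    have hcompl : ∀ i : hB₁li.extend hst, i ∉ Z → ∃ j : Fin s, π (u j) = (i : V) := by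
      intro i hi
      simp only [Z, Finset.mem_filter, Finset.mem_univ, true_and] at hi
      rcases hBsub i.2 with h | h
      · exact absurd h hi
      · obtain ⟨_, ⟨j, rfl⟩, hj⟩ := h
        exact ⟨j, hj⟩
    have hcard : (Finset.univ.filter fun i : hB₁li.extend hst => i ∉ Z).card ≤ s := by
      rw [← Fintype.card_subtype]
      choose g hg using fun (i : {i : hB₁li.extend hst // i ∉ Z}) => hcompl i.1 i.2
      have hinj : Function.Injective g := by
        intro i j hij
        apply Subtype.ext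
        apply Subtype.ext
        rw [← hg i, ← hg j, hij]
      simpa using Fintype.card_le_of_injective g hinj
    have hsplit := Finset.card_filter_add_card_filter_not
      (s := (Finset.univ : Finset (hB₁li.extend hst))) (fun i => i ∈ Z)
    have hZ : (Finset.univ.filter fun i : hB₁li.extend hst => i ∈ Z) = Z := by
      ext i; simp
    rw [hZ] at hsplit
    rw [← Finset.card_univ, ← hsplit]
    omega

end Fermat.Agent.S37.H278

end
-- ===== PACK-END S37/H278/AdaptedBasis.lean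

-- ===== PACK-BEGIN S18/H214/LocalUFD.lean
section


/-!
# S18, route K, pieces b3/b4 — local structure at a closed point of the special fibre

Mathlib-only.  `A` is a noetherian local domain, `w ∈ A` a non-unit such that `A ⧸ (w)` is a
principal ideal domain (in the application: `A = B_𝔓`, `𝔓 ∋ w` a maximal ideal of the chart `B`,
and `A ⧸ (w)` is the local ring of the *normal* special fibre, piece b2).

* `isPrincipal_of_notMem_of_map_isPrincipal` : a prime `𝔮 ∌ w` whose image in `A ⧸ (w)` is principal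
  is principal (Nakayama).
* `ufd_of_quotient_isPrincipalIdealRing` : `A` is a UFD (Kaplansky's criterion).
* `exists_unit_mul_pow_of_dvd_count` : in a UFD, an element all of whose prime multiplicities are
  divisible by `p` is a unit times a `p`-th power.
* `local_kummer_structure` : (LS) if `u = a / s` with `a ≡ s ≢ 0 mod w` and `u ∈ (A_(π))ˣ · (Fˣ)^p`
  for every prime element `π` of `A` not associated to `w`, then `u = c · (t₁ / t₂)^p` with
  `c ∈ Aˣ`, `c ≡ 1`, `t₁ ≡ t₂ ≢ 0 mod w`.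
-/

set_option autoImplicit false

namespace Fermat.Agent.S18.H214

section Principal

variable {A : Type*} [CommRing A]

/-- Nakayama: if `w` lies in the Jacobson radical, `𝔮` is a finitely generated prime ideal not
containing `w`, and the image of `𝔮` in `A ⧸ (w)` is principal, then `𝔮` is principal. -/
theorem isPrincipal_of_notMem_of_map_isPrincipal (w : A) (hw : w ∈ (⊥ : Ideal A).jacobson)
    (𝔮 : Ideal A) [h𝔮 : 𝔮.IsPrime] (hfg : 𝔮.FG) (hq : w ∉ 𝔮)
    (hprin : (𝔮.map (Ideal.Quotient.mk (Ideal.span {w}))).IsPrincipal) :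
    ∃ f : A, 𝔮 = Ideal.span {f} := by
  obtain ⟨fbar, hfbar⟩ := hprin
  have hfmem : fbar ∈ 𝔮.map (Ideal.Quotient.mk (Ideal.span {w})) := by
    rw [hfbar]; exact Submodule.mem_span_singleton_self _
  obtain ⟨f, hf, rfl⟩ :=
    (Ideal.mem_map_iff_of_surjective _ Ideal.Quotient.mk_surjective).1 hfmem
  refine ⟨f, le_antisymm ?_ ((Ideal.span_singleton_le_iff_mem _).2 hf)⟩
  have key : 𝔮 ≤ Ideal.span {f} ⊔ (Ideal.span {w}) • 𝔮 := by
    intro g hg
    have hgm : Ideal.Quotient.mk (Ideal.span {w}) g ∈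
        𝔮.map (Ideal.Quotient.mk (Ideal.span {w})) := Ideal.mem_map_of_mem _ hg
    rw [hfbar] at hgm
    obtain ⟨cbar, hc⟩ := Submodule.mem_span_singleton.1 hgm
    obtain ⟨c, rfl⟩ := Ideal.Quotient.mk_surjective cbar
    have h1 : g - c * f ∈ Ideal.span {w} := by
      rw [← Ideal.Quotient.eq, ← hc]; simp [smul_eq_mul]
    obtain ⟨h, hh⟩ := Ideal.mem_span_singleton'.1 h1
    have h2 : h * w ∈ 𝔮 := by
      rw [hh]; exact 𝔮.sub_mem hg (𝔮.mul_mem_left _ hf)
    have h3 : h ∈ 𝔮 := (h𝔮.mem_or_mem h2).resolve_right hq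
    have h4 : g = c * f + w * h := by linear_combination hh.symm
    rw [h4]
    refine Submodule.add_mem_sup (Ideal.mul_mem_left _ _ (Ideal.mem_span_singleton_self f)) ?_
    exact Submodule.smul_mem_smul (Ideal.mem_span_singleton_self w) h3
  exact Submodule.le_of_le_smul_of_le_jacobson_bot hfg
    ((Ideal.span_singleton_le_iff_mem _).2 hw) key

/-- A noetherian local domain `A` with a nonzero non-unit `w` such that `(w)` is prime and
`A ⧸ (w)` is a principal ideal ring is a UFD. -/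
theorem ufd_of_quotient_isPrincipalIdealRing [IsDomain A] [IsNoetherianRing A] [IsLocalRing A]
    (w : A) (hw0 : w ≠ 0) (hw : ¬ IsUnit w) (hwp : (Ideal.span {w}).IsPrime)
    [IsPrincipalIdealRing (A ⧸ Ideal.span {w})] : UniqueFactorizationMonoid A := by
  refine UniqueFactorizationMonoid.iff_exists_prime_mem_of_isPrime.2 fun I hI hIp => ?_
  by_cases hwI : w ∈ I
  · exact ⟨w, hwI, (Ideal.span_singleton_prime hw0).1 hwp⟩
  · have hjac : w ∈ (⊥ : Ideal A).jacobson := by
      rw [IsLocalRing.jacobson_eq_maximalIdeal ⊥ bot_ne_top]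
      exact (IsLocalRing.mem_maximalIdeal w).2 hw
    obtain ⟨f, hf⟩ := isPrincipal_of_notMem_of_map_isPrincipal w hjac I
      (IsNoetherian.noetherian I) hwI (IsPrincipalIdealRing.principal _)
    have hf0 : f ≠ 0 := by
      rintro rfl
      apply hI
      rw [hf]; simp
    refine ⟨f, hf ▸ Ideal.mem_span_singleton_self f, (Ideal.span_singleton_prime hf0).1 ?_⟩
    rw [← hf]; exact hIp

end Principal

section UFD

variable {A : Type*} [CommRing A] [IsDomain A] [UniqueFactorizationMonoid A]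

/-- In a UFD, a nonzero element `n` which at every prime `π` dividing it is a `π`-adic unit times a
`p`-th power (written without denominators: `n * s' * z₂ ^ p = a' * z₁ ^ p` with `π ∤ a' s'`) is a
unit times a `p`-th power. -/
theorem exists_unit_mul_pow_of_forall_prime (p : ℕ) (n : A) (hn : n ≠ 0)
    (h : ∀ π : A, Prime π → π ∣ n → ∃ a' s' z₁ z₂ : A, ¬ π ∣ a' ∧ ¬ π ∣ s' ∧ z₁ ≠ 0 ∧ z₂ ≠ 0 ∧
      n * s' * z₂ ^ p = a' * z₁ ^ p) :
    ∃ (c : Aˣ) (z : A), n = c * z ^ p := by
  classical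
  have hn' : Associates.mk n ≠ 0 := Associates.mk_ne_zero.2 hn
  have hcount : ∀ q : Associates A, Irreducible q →
      p ∣ Associates.count q (Associates.mk n).factors := by
    intro q hq
    obtain ⟨π, rfl⟩ := Associates.mk_surjective q
    have hπirr : Irreducible π := Associates.irreducible_mk.1 hq
    have hπ : Prime π := UniqueFactorizationMonoid.irreducible_iff_prime.1 hπirr
    by_cases hdvd : π ∣ n
    · obtain ⟨a', s', z₁, z₂, ha', hs', hz₁, hz₂, heq⟩ := h π hπ hdvd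
      have ha'0 : a' ≠ 0 := fun h0 => ha' (h0 ▸ dvd_zero π)
      have hs'0 : s' ≠ 0 := fun h0 => hs' (h0 ▸ dvd_zero π)
      have hca : Associates.count (Associates.mk π) (Associates.mk a').factors = 0 := by
        by_contra hne
        exact ha' ((Associates.count_ne_zero_iff_dvd ha'0 hπirr).1 hne)
      have hcs : Associates.count (Associates.mk π) (Associates.mk s').factors = 0 := by
        by_contra hne
        exact hs' ((Associates.count_ne_zero_iff_dvd hs'0 hπirr).1 hne)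
      have e1 : Associates.mk (n * s' * z₂ ^ p) = Associates.mk (a' * z₁ ^ p) := by rw [heq]
      have e2 := congrArg (fun x => Associates.count (Associates.mk π) x.factors) e1
      simp only [Associates.mk_mul_mk.symm, Associates.mk_pow] at e2
      rw [Associates.count_mul (mul_ne_zero hn' (Associates.mk_ne_zero.2 hs'0))
          (pow_ne_zero _ (Associates.mk_ne_zero.2 hz₂)) hq,
        Associates.count_mul hn' (Associates.mk_ne_zero.2 hs'0) hq,
        Associates.count_mul (Associates.mk_ne_zero.2 ha'0)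
          (pow_ne_zero _ (Associates.mk_ne_zero.2 hz₁)) hq,
        Associates.count_pow (Associates.mk_ne_zero.2 hz₂) hq,
        Associates.count_pow (Associates.mk_ne_zero.2 hz₁) hq, hca, hcs] at e2
      rw [add_zero, zero_add] at e2
      have e3 : Associates.count (Associates.mk π) (Associates.mk n).factors =
          p * Associates.count (Associates.mk π) (Associates.mk z₁).factors -
            p * Associates.count (Associates.mk π) (Associates.mk z₂).factors := by
        omega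
      rw [e3, ← Nat.mul_sub]
      exact dvd_mul_right _ _
    · have : Associates.count (Associates.mk π) (Associates.mk n).factors = 0 := by
        by_contra hne
        exact hdvd ((Associates.count_ne_zero_iff_dvd hn hπirr).1 hne)
      rw [this]; exact dvd_zero p
  obtain ⟨b, hb⟩ := Associates.is_pow_of_dvd_count hn' hcount
  obtain ⟨z, rfl⟩ := Associates.mk_surjective b
  rw [← Associates.mk_pow, Associates.mk_eq_mk_iff_associated] at hb
  obtain ⟨c, hc⟩ := hb.symm
  exact ⟨c, z, by rw [← hc, mul_comm]⟩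

/-- (LS) **Local structure of a Kummer datum.**  `A` a local UFD, `w` a prime element with
`A ⧸ (w)` integrally closed.  Let `u = a / s` with `a ≡ s ≢ 0 mod w`, and suppose that at every
prime element `π` not associated to `w` the element `u` is a `π`-adic unit times a `p`-th power.
Then `u = c · (t₁ / t₂) ^ p` with `c ∈ Aˣ`, `c ≡ 1 mod w` and `t₁ ≡ t₂ ≢ 0 mod w`. -/
theorem local_kummer_structure [IsLocalRing A] (w : A) (hw : Prime w)
    [IsDomain (A ⧸ Ideal.span {w})] [IsIntegrallyClosed (A ⧸ Ideal.span {w})]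
    (p : ℕ) (hp : p ≠ 0) (a s : A) (ha : ¬ w ∣ a) (hs : ¬ w ∣ s) (has : w ∣ a - s)
    (h : ∀ π : A, Prime π → ¬ Associated π w → ∃ a' s' z₁ z₂ : A, ¬ π ∣ a' ∧ ¬ π ∣ s' ∧
      z₁ ≠ 0 ∧ z₂ ≠ 0 ∧ a * s' * z₂ ^ p = a' * s * z₁ ^ p) :
    ∃ (c : Aˣ) (t₁ t₂ : A), ¬ w ∣ t₁ ∧ ¬ w ∣ t₂ ∧ w ∣ t₁ - t₂ ∧ w ∣ (c : A) - 1 ∧
      a * t₂ ^ p = c * s * t₁ ^ p := by
  have ha0 : a ≠ 0 := fun h0 => ha (h0 ▸ dvd_zero w)
  have hs0 : s ≠ 0 := fun h0 => hs (h0 ▸ dvd_zero w)
  obtain ⟨k, rfl⟩ : ∃ k, p = k + 1 := ⟨p - 1, by omega⟩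
  -- step 1: `a * s ^ k` is a unit times a `p`-th power
  have hn0 : a * s ^ k ≠ 0 := mul_ne_zero ha0 (pow_ne_zero _ hs0)
  have hwn : ¬ w ∣ a * s ^ k := by
    intro hd
    rcases hw.dvd_or_dvd hd with h1 | h1
    · exact ha h1
    · exact hs (hw.dvd_of_dvd_pow h1)
  obtain ⟨c₀, z, hz⟩ := exists_unit_mul_pow_of_forall_prime (k + 1) (a * s ^ k) hn0 (by
    intro π hπ hπn
    have hπw : ¬ Associated π w := fun hass => hwn (hass.symm.dvd.trans hπn)
    obtain ⟨a', s', z₁, z₂, ha', hs', hz₁, hz₂, heq⟩ := h π hπ hπw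
    refine ⟨a', s', s * z₁, z₂, ha', hs', mul_ne_zero hs0 hz₁, hz₂, ?_⟩
    linear_combination s ^ k * heq)
  have hwz : ¬ w ∣ z := fun hd =>
    hwn (hz ▸ Dvd.dvd.mul_left (dvd_pow hd (Nat.succ_ne_zero k)) _)
  have hz0 : z ≠ 0 := fun h0 => hwz (h0 ▸ dvd_zero w)
  -- step 2: work in the quotient
  set q := Ideal.Quotient.mk (Ideal.span {w}) with hq
  have hqz : ∀ x : A, q x = 0 ↔ w ∣ x := fun x => by
    rw [hq, Ideal.Quotient.eq_zero_iff_mem, Ideal.mem_span_singleton]
  have hqa : q a = q s := by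
    rw [← sub_eq_zero, ← map_sub, hqz]; exact has
  have hqs0 : q s ≠ 0 := fun h0 => hs ((hqz s).1 h0)
  have hqz0 : q z ≠ 0 := fun h0 => hwz ((hqz z).1 h0)
  have e1 : q s ^ (k + 1) = q c₀ * q z ^ (k + 1) := by
    have := congrArg q hz
    simp only [map_mul, map_pow] at this
    rw [hqa] at this
    rw [pow_succ, mul_comm, this]
  have hdvd : q z ∣ q s := by
    rw [← IsIntegrallyClosed.pow_dvd_pow_iff (Nat.succ_ne_zero k), e1]
    exact dvd_mul_left _ _
  obtain ⟨dbar, hdbar⟩ := hdvd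
  have e2 : dbar ^ (k + 1) = q c₀ := by
    have : q z ^ (k + 1) * dbar ^ (k + 1) = q z ^ (k + 1) * q c₀ := by
      rw [← mul_pow, ← hdbar, e1, mul_comm]
    exact mul_left_cancel₀ (pow_ne_zero _ hqz0) this
  obtain ⟨d, rfl⟩ := Ideal.Quotient.mk_surjective dbar
  -- `d` is a unit of `A`
  have hwnu : ¬ IsUnit w := hw.not_isUnit
  have hdu : IsUnit d := by
    by_contra hnd
    have hdm : d ∈ IsLocalRing.maximalIdeal A := (IsLocalRing.mem_maximalIdeal d).2 hnd
    have hc0 : IsUnit (q (c₀ : A)) := (c₀.isUnit).map q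
    rw [← e2, ← map_pow] at hc0
    obtain ⟨e, he⟩ := hc0.exists_right_inv
    obtain ⟨e', rfl⟩ := Ideal.Quotient.mk_surjective e
    rw [← map_mul, ← sub_eq_zero, ← map_one q, ← map_sub, hqz] at he
    obtain ⟨r, hr⟩ := he
    have h1 : (1 : A) = d ^ (k + 1) * e' - w * r := by linear_combination -hr
    have h2 : (1 : A) ∈ IsLocalRing.maximalIdeal A := by
      rw [h1]
      refine Ideal.sub_mem _ (Ideal.mul_mem_right _ _ (Ideal.pow_mem_of_mem _ hdm _
        (Nat.succ_pos k))) (Ideal.mul_mem_right _ _ ((IsLocalRing.mem_maximalIdeal w).2 hwnu))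
    exact (Ideal.ne_top_iff_one _).1 (IsLocalRing.maximalIdeal.isMaximal A).ne_top h2
  obtain ⟨du, rfl⟩ := hdu
  refine ⟨c₀ * du⁻¹ ^ (k + 1), du * z, s, ?_, hs, ?_, ?_, ?_⟩
  · intro hd
    exact hwz ((hw.dvd_or_dvd hd).resolve_left
      (fun h1 => hwnu (isUnit_of_dvd_unit h1 du.isUnit)))
  · rw [← hqz, map_sub, map_mul, sub_eq_zero, mul_comm]
    exact hdbar.symm
  · rw [← hqz, map_sub, sub_eq_zero, map_one]
    have h3 : q ((c₀ * du⁻¹ ^ (k + 1) : Aˣ) : A) * q ((du : A)) ^ (k + 1) = q c₀ := by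
      rw [← map_pow, ← map_mul]
      congr 1
      rw [Units.val_mul, Units.val_pow_eq_pow_val, mul_assoc, ← mul_pow, Units.inv_mul, one_pow,
        mul_one]
    rw [e2] at h3
    have hc0ne : q (c₀ : A) ≠ 0 := ((c₀.isUnit).map q).ne_zero
    exact mul_right_cancel₀ hc0ne (by rw [h3, one_mul])
  · have h4 : ((c₀ * du⁻¹ ^ (k + 1) : Aˣ) : A) * (du : A) ^ (k + 1) = c₀ := by
      rw [Units.val_mul, Units.val_pow_eq_pow_val, mul_assoc, ← mul_pow, Units.inv_mul, one_pow,
        mul_one]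
    calc a * s ^ (k + 1) = s * (a * s ^ k) := by ring
      _ = s * (c₀ * z ^ (k + 1)) := by rw [hz]
      _ = s * ((((c₀ * du⁻¹ ^ (k + 1) : Aˣ) : A) * (du : A) ^ (k + 1)) * z ^ (k + 1)) := by
          rw [h4]
      _ = ((c₀ * du⁻¹ ^ (k + 1) : Aˣ) : A) * s * ((du : A) * z) ^ (k + 1) := by ring

end UFD

end Fermat.Agent.S18.H214

end
-- ===== PACK-END S18/H214/LocalUFD.lean

-- ===== PACK-BEGIN A2/Alg/H609/DimOne.lean
section









/-!
# WALL A2 / ALG (helper609): components of the special fibre have dimension one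

`R` a ring, `w ∈ R` generating a maximal ideal, `B` an `R`-algebra integral over `R[X]` via
`X ↦ x`, `p` a prime of `B` containing `w`.  Then every nonzero prime of `B ⧸ p` is maximal
(`dimensionLEOne_quotient`): `B ⧸ p` is integral over `(R/w)[X]`.  Mathlib only.
-/

set_option autoImplicit false

namespace Fermat.Agent.A2.Alg.H609

open Polynomial

/-- A domain integral over `k[X]` (`k` a field) has dimension at most one. -/
theorem dimensionLEOne_of_isIntegral_polynomial {k D : Type*} [Field k] [CommRing D]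
    [IsDomain D] (ψ : k[X] →+* D) (hψ : ψ.IsIntegral) : Ring.DimensionLEOne D := by
  refine ⟨fun {𝔮} h𝔮0 h𝔮 => ?_⟩
  let _ : Algebra k[X] D := ψ.toAlgebra
  obtain ⟨d, hd𝔮, hd0⟩ := Submodule.exists_mem_ne_zero_of_ne_bot h𝔮0
  have h1 : 𝔮.comap (algebraMap k[X] D) ≠ ⊥ :=
    Ideal.comap_ne_bot_of_integral_mem hd0 hd𝔮 (hψ d)
  have h2 : (𝔮.comap (algebraMap k[X] D)).IsPrime := Ideal.comap_isPrime _ 𝔮
  have h3 : (𝔮.comap (algebraMap k[X] D)).IsMaximal := h2.isMaximal h1
  exact Ideal.isMaximal_of_isIntegral_of_isMaximal_comap' ψ hψ 𝔮 h3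

variable {R B : Type*} [CommRing R] [CommRing B] [Algebra R B]

/-- **Components have dimension one.** -/
theorem dimensionLEOne_quotient {w : R} (hw : (Ideal.span {w}).IsMaximal) (x : B)
    (hint : (aeval (R := R) x).toRingHom.IsIntegral)
    (p : Ideal B) [p.IsPrime] (hwp : algebraMap R B w ∈ p) : Ring.DimensionLEOne (B ⧸ p) := by
  let _ : Field (R ⧸ Ideal.span {w}) := Ideal.Quotient.field _
  let ψ₀ : R ⧸ Ideal.span {w} →+* B ⧸ p :=
    Ideal.Quotient.lift (Ideal.span {w}) ((Ideal.Quotient.mk p).comp (algebraMap R B)) (by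
      intro a ha
      obtain ⟨c, rfl⟩ := Ideal.mem_span_singleton'.mp ha
      rw [RingHom.comp_apply, map_mul, map_mul, Ideal.Quotient.eq_zero_iff_mem.mpr hwp,
        mul_zero])
  let ψ : (R ⧸ Ideal.span {w})[X] →+* B ⧸ p := eval₂RingHom ψ₀ (Ideal.Quotient.mk p x)
  let π : R[X] →+* (R ⧸ Ideal.span {w})[X] := mapRingHom (Ideal.Quotient.mk (Ideal.span {w}))
  have hcomp : ψ.comp π = (Ideal.Quotient.mk p).comp (aeval (R := R) x).toRingHom := by
    refine Polynomial.ringHom_ext (fun r => ?_) ?_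
    · simp only [RingHom.comp_apply, ψ, π, ψ₀, coe_mapRingHom, map_C, coe_eval₂RingHom, eval₂_C,
        Ideal.Quotient.lift_mk, AlgHom.toRingHom_eq_coe, RingHom.coe_coe, aeval_C]
    · simp only [RingHom.comp_apply, ψ, π, coe_mapRingHom, map_X, coe_eval₂RingHom, eval₂_X,
        AlgHom.toRingHom_eq_coe, RingHom.coe_coe, aeval_X]
  have h1 : ((Ideal.Quotient.mk p).comp (aeval (R := R) x).toRingHom).IsIntegral :=
    RingHom.IsIntegral.trans _ _ hint
      (RingHom.isIntegral_of_surjective _ Ideal.Quotient.mk_surjective)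
  have h2 : ψ.IsIntegral := RingHom.IsIntegral.tower_top π ψ (by rw [hcomp]; exact h1)
  exact dimensionLEOne_of_isIntegral_polynomial ψ h2

/-- The components of the special fibre are Dedekind. -/
theorem isDedekindDomain_quotient [IsNoetherianRing B] {w : R}
    (hw : (Ideal.span {w}).IsMaximal) (x : B)
    (hint : (aeval (R := R) x).toRingHom.IsIntegral)
    (p : Ideal B) [p.IsPrime] (hwp : algebraMap R B w ∈ p) [IsIntegrallyClosed (B ⧸ p)] :
    IsDedekindDomain (B ⧸ p) := by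
  have hdim : Ring.DimensionLEOne (B ⧸ p) := dimensionLEOne_quotient hw x hint p hwp
  have hded : IsDedekindRing (B ⧸ p) :=
    { toIsNoetherian := inferInstance
      toDimensionLEOne := hdim
      toIsIntegralClosure := inferInstance }
  exact { toIsDomain := inferInstance, toIsDedekindRing := hded }

end Fermat.Agent.A2.Alg.H609

end
-- ===== PACK-END A2/Alg/H609/DimOne.lean

-- ===== PACK-BEGIN A2/Alg/H754/LocU.lean
section


/-!
# A2 / ALG / P-S (helper754): elementwise local units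

`B` a domain with fraction field `F`, `𝔮` a prime of `B`.  `LocU 𝔮 f` : `f` is a unit of `B_𝔮`,
elementwise (`f = a / b`, `a, b ∈ B ∖ 𝔮`).  Closure under products, inverses, integer powers;
comparison with a valuation subring `W = B_𝔮` of `F`.
-/

set_option autoImplicit false

namespace Fermat.Agent.A2.Alg.H754

variable {B F : Type*} [CommRing B] [Field F] [Algebra B F]

/-- `f` is a unit of `B_𝔮`, elementwise. -/
def LocU (𝔮 : Ideal B) (f : F) : Prop :=
  ∃ a b : B, a ∉ 𝔮 ∧ b ∉ 𝔮 ∧ f * algebraMap B F b = algebraMap B F a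

namespace LocU

variable {𝔮 : Ideal B}

theorem one (h1 : (1 : B) ∉ 𝔮) : LocU 𝔮 (1 : F) :=
  ⟨1, 1, h1, h1, by rw [map_one, mul_one]⟩

theorem of_notMem {b : B} (hb : b ∉ 𝔮) (h1 : (1 : B) ∉ 𝔮) : LocU 𝔮 (algebraMap B F b) :=
  ⟨b, 1, hb, h1, by rw [map_one, mul_one]⟩

theorem mono {𝔮' : Ideal B} (h : 𝔮 ≤ 𝔮') {f : F} (hf : LocU 𝔮' f) : LocU 𝔮 f := by
  obtain ⟨a, b, ha, hb, hab⟩ := hf
  exact ⟨a, b, fun h' => ha (h h'), fun h' => hb (h h'), hab⟩

theorem mul [h𝔮 : 𝔮.IsPrime] {f g : F} (hf : LocU 𝔮 f) (hg : LocU 𝔮 g) : LocU 𝔮 (f * g) := by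
  obtain ⟨a, b, ha, hb, hab⟩ := hf
  obtain ⟨a', b', ha', hb', hab'⟩ := hg
  refine ⟨a * a', b * b', ?_, ?_, ?_⟩
  · exact fun h => (h𝔮.mem_or_mem h).elim ha ha'
  · exact fun h => (h𝔮.mem_or_mem h).elim hb hb'
  · rw [map_mul, map_mul, ← hab, ← hab']
    ring

theorem pow [h𝔮 : 𝔮.IsPrime] {f : F} (hf : LocU 𝔮 f) (k : ℕ) : LocU 𝔮 (f ^ k) := by
  induction k with
  | zero =>
    rw [pow_zero]
    exact one (fun h => h𝔮.ne_top ((Ideal.eq_top_iff_one _).2 h))
  | succ k ih =>
    rw [pow_succ]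
    exact ih.mul hf

variable [FaithfulSMul B F]

theorem algebraMap_ne_zero {b : B} (hb : b ∉ 𝔮) : algebraMap B F b ≠ 0 := by
  intro h
  have : b = 0 := FaithfulSMul.algebraMap_injective B F (by rw [h, map_zero])
  exact hb (this ▸ 𝔮.zero_mem)

theorem ne_zero {f : F} (hf : LocU 𝔮 f) : f ≠ 0 := by
  obtain ⟨a, b, ha, hb, hab⟩ := hf
  rintro rfl
  rw [zero_mul] at hab
  exact algebraMap_ne_zero ha hab.symm

theorem inv {f : F} (hf : LocU 𝔮 f) : LocU 𝔮 f⁻¹ := by
  have hf0 := hf.ne_zero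
  obtain ⟨a, b, ha, hb, hab⟩ := hf
  refine ⟨b, a, hb, ha, ?_⟩
  rw [← hab, ← mul_assoc, inv_mul_cancel₀ hf0, one_mul]

theorem zpow [h𝔮 : 𝔮.IsPrime] {f : F} (hf : LocU 𝔮 f) (k : ℤ) : LocU 𝔮 (f ^ k) := by
  cases k with
  | ofNat k =>
    rw [Int.ofNat_eq_natCast, zpow_natCast]
    exact hf.pow k
  | negSucc k =>
    rw [zpow_negSucc]
    exact (hf.pow (k + 1)).inv

/-- cancel a power: used with a valuation ring. -/
theorem of_mul_left [h𝔮 : 𝔮.IsPrime] {f g : F} (hfg : LocU 𝔮 (f * g)) (hg : LocU 𝔮 g) :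
    LocU 𝔮 f := by
  have hg0 := hg.ne_zero
  have := hfg.mul hg.inv
  rwa [mul_assoc, mul_inv_cancel₀ hg0, mul_one] at this

end LocU

section Val

variable [FaithfulSMul B F]

/-- `f` and `f⁻¹` both in `B_𝔮` (elementwise) implies `f` is a unit of `B_𝔮`. -/
theorem locU_of_frac_of_inv_frac (𝔮 : Ideal B) [h𝔮 : 𝔮.IsPrime] {f : F} (hf : f ≠ 0)
    (h1 : ∃ a s : B, s ∉ 𝔮 ∧ f * algebraMap B F s = algebraMap B F a)
    (h2 : ∃ a s : B, s ∉ 𝔮 ∧ f⁻¹ * algebraMap B F s = algebraMap B F a) : LocU 𝔮 f := by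
  obtain ⟨a, s, hs, has⟩ := h1
  obtain ⟨a', s', hs', has'⟩ := h2
  refine ⟨a, s, ?_, hs, has⟩
  intro ha
  have e : algebraMap B F (a * a') = algebraMap B F (s * s') := by
    rw [map_mul, map_mul, ← has, ← has']
    field_simp
  have e' : a * a' = s * s' := FaithfulSMul.algebraMap_injective B F e
  have : s * s' ∈ 𝔮 := e' ▸ 𝔮.mul_mem_right a' ha
  exact (h𝔮.mem_or_mem this).elim hs hs'

/-- Units of a valuation subring `W = B_𝔮`. -/
theorem locU_iff_of_valuationSubring (𝔮 : Ideal B) [h𝔮 : 𝔮.IsPrime] (W : ValuationSubring F)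
    (hW : ∀ f : F, f ∈ W ↔ ∃ a s : B, s ∉ 𝔮 ∧ f * algebraMap B F s = algebraMap B F a)
    {f : F} (hf : f ≠ 0) : LocU 𝔮 f ↔ f ∈ W ∧ f⁻¹ ∈ W := by
  constructor
  · intro h
    refine ⟨?_, ?_⟩
    · obtain ⟨a, b, -, hb, hab⟩ := h
      exact (hW f).2 ⟨a, b, hb, hab⟩
    · obtain ⟨a, b, -, hb, hab⟩ := h.inv
      exact (hW f⁻¹).2 ⟨a, b, hb, hab⟩
  · rintro ⟨h1, h2⟩
    exact locU_of_frac_of_inv_frac 𝔮 hf ((hW f).1 h1) ((hW f⁻¹).1 h2)

/-- In a valuation ring, an element whose positive power is a unit is a unit. -/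
theorem locU_of_pow (𝔮 : Ideal B) [h𝔮 : 𝔮.IsPrime] (W : ValuationSubring F)
    (hW : ∀ f : F, f ∈ W ↔ ∃ a s : B, s ∉ 𝔮 ∧ f * algebraMap B F s = algebraMap B F a)
    {f : F} {m : ℕ} (hm : 0 < m) (h : LocU 𝔮 (f ^ m)) : LocU 𝔮 f := by
  have hf0 : f ≠ 0 := by
    rintro rfl
    rw [zero_pow hm.ne'] at h
    exact h.ne_zero rfl
  obtain ⟨k, rfl⟩ : ∃ k, m = k + 1 := ⟨m - 1, (Nat.sub_add_cancel hm).symm⟩
  obtain ⟨h1, h2⟩ := (locU_iff_of_valuationSubring 𝔮 W hW (pow_ne_zero _ hf0)).1 h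
  rw [locU_iff_of_valuationSubring 𝔮 W hW hf0]
  rcases W.mem_or_inv_mem f with hf | hf
  · refine ⟨hf, ?_⟩
    have e : f⁻¹ = f ^ k * (f ^ (k + 1))⁻¹ := by
      rw [pow_succ]
      field_simp
    rw [e]
    exact W.mul_mem _ _ (pow_mem hf k) h2
  · refine ⟨?_, hf⟩
    have e : f = f⁻¹ ^ k * f ^ (k + 1) := by
      rw [pow_succ, inv_pow]
      field_simp
    rw [e]
    exact W.mul_mem _ _ (pow_mem hf k) h1

end Val

end Fermat.Agent.A2.Alg.H754

end
-- ===== PACK-END A2/Alg/H754/LocU.lean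

-- ===== PACK-BEGIN S18/H754/LocalUFD.lean
section


/-!
# S18 / Route K / étale Kummer cover, piece P1 (helper754)

A Noetherian local domain whose maximal ideal is generated by a prime element `ϖ` and one more
element `t` is a unique factorisation domain.
-/

set_option autoImplicit false

noncomputable section

namespace Fermat.Agent.S18.H754

open IsLocalRing

section P1

variable {R : Type*} [CommRing R] [IsDomain R] [IsNoetherianRing R] [IsLocalRing R]

/-- The quotient of a Noetherian local domain by a prime element `ϖ` with `𝔪 = (ϖ, t)` is a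
principal ideal ring. -/
theorem isPrincipalIdealRing_quotient_of_regular_pair (ϖ t : R) (hϖ : Prime ϖ)
    (hm : maximalIdeal R = Ideal.span {ϖ, t}) :
    letI : (Ideal.span {ϖ}).IsPrime := (Ideal.span_singleton_prime hϖ.ne_zero).mpr hϖ
    IsPrincipalIdealRing (R ⧸ Ideal.span {ϖ}) := by
  haveI hprime : (Ideal.span {ϖ}).IsPrime := (Ideal.span_singleton_prime hϖ.ne_zero).mpr hϖ
  haveI : Nontrivial (R ⧸ Ideal.span {ϖ}) := Ideal.Quotient.nontrivial_iff.mpr hprime.ne_top
  haveI : IsLocalRing (R ⧸ Ideal.span {ϖ}) :=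
    IsLocalRing.of_surjective' (Ideal.Quotient.mk _) Ideal.Quotient.mk_surjective
  have hmax : maximalIdeal (R ⧸ Ideal.span {ϖ}) =
      Ideal.span {Ideal.Quotient.mk (Ideal.span {ϖ}) t} := by
    have h1 : maximalIdeal (R ⧸ Ideal.span {ϖ}) =
        (maximalIdeal R).map (Ideal.Quotient.mk (Ideal.span {ϖ})) := by
      haveI := IsLocalHom.of_surjective (Ideal.Quotient.mk (Ideal.span {ϖ}))
        Ideal.Quotient.mk_surjective
      ext x
      obtain ⟨x, rfl⟩ := Ideal.Quotient.mk_surjective x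
      simp [sup_eq_left.mpr (le_maximalIdeal hprime.ne_top)]
    rw [h1, hm, Ideal.map_span, Set.image_pair]
    have h0 : Ideal.Quotient.mk (Ideal.span {ϖ}) ϖ = 0 :=
      Ideal.Quotient.eq_zero_iff_mem.mpr (Ideal.mem_span_singleton_self ϖ)
    rw [h0]
    apply le_antisymm
    · rw [Ideal.span_le]
      rintro x (rfl | rfl)
      · exact Ideal.zero_mem _
      · exact Ideal.subset_span rfl
    · apply Ideal.span_mono
      intro x hx
      right
      exact hx
  have htfae := (tfae_of_isNoetherianRing_of_isLocalRing_of_isDomain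
    (R := R ⧸ Ideal.span {ϖ})).out 4 0
  exact htfae.mp ⟨⟨_, hmax⟩⟩

/-- **P1.** A Noetherian local domain with `𝔪 = (ϖ, t)`, `ϖ` prime, is a UFD. -/
theorem ufd_of_regular_pair (ϖ t : R) (hϖ : Prime ϖ)
    (hm : maximalIdeal R = Ideal.span {ϖ, t}) : UniqueFactorizationMonoid R := by
  haveI hprime : (Ideal.span {ϖ}).IsPrime := (Ideal.span_singleton_prime hϖ.ne_zero).mpr hϖ
  haveI hpid : IsPrincipalIdealRing (R ⧸ Ideal.span {ϖ}) :=
    isPrincipalIdealRing_quotient_of_regular_pair ϖ t hϖ hm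
  apply UniqueFactorizationMonoid.of_forall_isPrincipal_of_height_eq_one
  intro 𝔮 h𝔮 hht
  by_cases hϖ𝔮 : ϖ ∈ 𝔮
  · exact ⟨ϖ, 𝔮.eq_span_singleton_of_height_eq_one hht hϖ𝔮 hϖ⟩
  · -- the image of `𝔮` modulo `ϖ` is principal
    obtain ⟨fbar, hfbar⟩ := (hpid.principal (𝔮.map (Ideal.Quotient.mk (Ideal.span {ϖ})))).principal
    have hfmem : fbar ∈ 𝔮.map (Ideal.Quotient.mk (Ideal.span {ϖ})) := by
      rw [hfbar]
      exact Submodule.mem_span_singleton_self fbar
    obtain ⟨f, hf𝔮, rfl⟩ :=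
      (Ideal.mem_map_iff_of_surjective _ Ideal.Quotient.mk_surjective).1 hfmem
    refine ⟨f, le_antisymm ?_ ?_⟩
    · have key : 𝔮 ≤ Ideal.span {f} ⊔ Ideal.span {ϖ} • 𝔮 := by
        intro g hg
        have hgbar : Ideal.Quotient.mk (Ideal.span {ϖ}) g ∈
            𝔮.map (Ideal.Quotient.mk (Ideal.span {ϖ})) := Ideal.mem_map_of_mem _ hg
        rw [hfbar] at hgbar
        obtain ⟨abar, habar⟩ := Submodule.mem_span_singleton.1 hgbar
        obtain ⟨a, rfl⟩ := Ideal.Quotient.mk_surjective abar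
        have h1 : g - a * f ∈ Ideal.span {ϖ} := by
          rw [← Ideal.Quotient.eq_zero_iff_mem, map_sub, map_mul, sub_eq_zero]
          rw [← habar]
          rfl
        obtain ⟨g₁, hg₁⟩ := Ideal.mem_span_singleton'.1 h1
        have hg₁𝔮 : g₁ ∈ 𝔮 := by
          have h2 : g₁ * ϖ ∈ 𝔮 := by
            rw [hg₁]
            exact 𝔮.sub_mem hg (𝔮.mul_mem_left a hf𝔮)
          exact (h𝔮.mem_or_mem h2).resolve_right hϖ𝔮
        have h3 : g = a * f + ϖ * g₁ := by
          rw [mul_comm ϖ g₁, hg₁]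
          ring
        rw [h3]
        refine Submodule.add_mem_sup ?_ ?_
        · exact Ideal.mul_mem_left _ a (Ideal.mem_span_singleton_self f)
        · exact Submodule.smul_mem_smul (Ideal.mem_span_singleton_self ϖ) hg₁𝔮
      have hjac : Ideal.span {ϖ} ≤ Ideal.jacobson (⊥ : Ideal R) := by
        rw [IsLocalRing.jacobson_eq_maximalIdeal ⊥ bot_ne_top, Ideal.span_singleton_le_iff_mem]
        exact hϖ.not_unit
      exact Submodule.le_of_le_smul_of_le_jacobson_bot (IsNoetherian.noetherian 𝔮) hjac key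
    · rw [Submodule.span_singleton_le_iff_mem]
      exact hf𝔮

end P1

end Fermat.Agent.S18.H754

end

end
-- ===== PACK-END S18/H754/LocalUFD.lean

-- ===== PACK-BEGIN A2/H348/KummerCoord.lean
section


/-!
# A2 / piece E (ALG_ss), part 1: coordinates of integral elements in a Kummer algebra

Mathlib-only.  `F'` a commutative `F`-algebra (NOT necessarily a field: the case
`F' = F[X]/(X^m - ε)` with `X^m - ε` reducible is the important one) with a *Kummer basis*:
`ζ ^ m = ε ∈ F` and `1, ζ, …, ζ^(m-1)` is an `F`-basis of `F'`.  For a subalgebra `O ⊆ F` which is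
integrally closed in `F` and contains `ε`, `(m ε)⁻¹`:

* `KummerBasis.isIntegral_iff` : `c ∈ F'` is integral over `O` iff all its coordinates in the
  basis `ζ^i` lie in `O`
  (`⟸` trivial, `⟹` by the discrete Fourier transform over the `m` evaluations
  `ζ ↦ ω^k r` in an algebraic closure, `KummerBasis.sum_evalAt`).
* `KummerBasis.scale` : `ζ / h` is again a Kummer basis (for `ε / h^m`).
* `KummerBasis.evalAt` : the `F`-algebra map `F' → Ω`, `ζ ↦ y` for `y ^ m = ε`.
-/

set_option autoImplicit false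
set_option linter.unusedSectionVars false
set_option linter.style.haveILetI false

open Module Polynomial

namespace Fermat.Agent.A2.H348

variable {A F F' : Type*} [CommRing A] [Field F] [CommRing F'] [Nontrivial F'] [Algebra A F]
  [Algebra F F'] [Algebra A F'] [IsScalarTower A F F']

/-- Kummer basis: `ζ ^ m = ε` and `(ζ ^ i)_{i < m}` is an `F`-basis of `F'`. -/
structure KummerBasis (m : ℕ) (ε : F) (ζ : F') where
  pow_eq : ζ ^ m = algebraMap F F' ε
  basis : Basis (Fin m) F F'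
  basis_apply : ∀ i : Fin m, basis i = ζ ^ (i : ℕ)

namespace KummerBasis

variable {m : ℕ} {ε : F} {ζ : F'} (kb : KummerBasis m ε ζ)

include kb

theorem finiteDimensional : FiniteDimensional F F' :=
  Module.Finite.of_basis kb.basis

theorem finrank_eq : Module.finrank F F' = m := by
  rw [Module.finrank_eq_card_basis kb.basis, Fintype.card_fin]

theorem m_pos : 0 < m := by
  by_contra h
  have hm : m = 0 := by omega
  subst hm
  have h1 : (1 : F') = 0 := by
    have := kb.basis.repr.injective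
    apply this
    ext i
    exact i.elim0
  exact one_ne_zero h1

/-- every element is the sum of its coordinates times the powers of `ζ`. -/
theorem sum_repr (c : F') :
    c = ∑ i : Fin m, algebraMap F F' (kb.basis.repr c i) * ζ ^ (i : ℕ) := by
  conv_lhs => rw [← kb.basis.sum_repr c]
  refine Finset.sum_congr rfl fun i _ => ?_
  rw [kb.basis_apply, Algebra.smul_def]

/-- coordinates of a combination of powers of `ζ`. -/
theorem repr_sum (f : Fin m → F) (i : Fin m) :
    kb.basis.repr (∑ j : Fin m, algebraMap F F' (f j) * ζ ^ (j : ℕ)) i = f i := by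
  have : (∑ j : Fin m, algebraMap F F' (f j) * ζ ^ (j : ℕ)) = ∑ j : Fin m, f j • kb.basis j := by
    refine Finset.sum_congr rfl fun j _ => ?_
    rw [kb.basis_apply, Algebra.smul_def]
  rw [this, kb.basis.repr_sum_self]

/-- rescaling a Kummer basis by a nonzero element of `F`. -/
noncomputable def scale (h : F) (hh : h ≠ 0) :
    KummerBasis m (ε * (h ^ m)⁻¹) (ζ * algebraMap F F' h⁻¹) where
  pow_eq := by
    rw [mul_pow, kb.pow_eq, map_mul, ← map_pow, inv_pow]
  basis := kb.basis.unitsSMul fun i => Units.mk0 ((h ^ (i : ℕ))⁻¹) (inv_ne_zero (pow_ne_zero _ hh))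
  basis_apply := by
    intro i
    rw [Basis.unitsSMul_apply, kb.basis_apply, Units.smul_def, Units.val_mk0, Algebra.smul_def,
      mul_pow, ← map_pow, inv_pow, mul_comm]

/-- the associated power basis. -/
noncomputable def powerBasis : PowerBasis F F' where
  gen := ζ
  dim := m
  basis := kb.basis
  basis_eq_pow := kb.basis_apply

theorem minpoly_eq : minpoly F ζ = X ^ m - C ε := by
  have h1 : (minpoly F ζ).natDegree = m := kb.powerBasis.natDegree_minpoly
  have h2 : minpoly F ζ ∣ X ^ m - C ε := minpoly.dvd F ζ (by simp [kb.pow_eq])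
  have h3 : IsIntegral F ζ := kb.powerBasis.isIntegral_gen
  exact (eq_of_monic_of_dvd_of_natDegree_le (minpoly.monic h3)
    (monic_X_pow_sub_C _ kb.m_pos.ne') h2 (by rw [h1, natDegree_X_pow_sub_C])).symm

section Eval

variable {Ω : Type*} [Field Ω] [Algebra F Ω]

/-- evaluation `ζ ↦ y` at a root `y` of `X ^ m - ε`. -/
noncomputable def evalAt (y : Ω) (hy : y ^ m = algebraMap F Ω ε) : F' →ₐ[F] Ω :=
  kb.powerBasis.lift y (by
    rw [show kb.powerBasis.gen = ζ from rfl, kb.minpoly_eq]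
    simp [hy])

theorem evalAt_zeta (y : Ω) (hy : y ^ m = algebraMap F Ω ε) : kb.evalAt y hy ζ = y :=
  kb.powerBasis.lift_gen _ _

theorem evalAt_apply (y : Ω) (hy : y ^ m = algebraMap F Ω ε) (c : F') :
    kb.evalAt y hy c = ∑ i : Fin m, algebraMap F Ω (kb.basis.repr c i) * y ^ (i : ℕ) := by
  conv_lhs => rw [kb.sum_repr c]
  rw [map_sum]
  refine Finset.sum_congr rfl fun i _ => ?_
  rw [map_mul, map_pow, kb.evalAt_zeta, AlgHom.commutes]

omit kb in
theorem sum_pow_primitiveRoot {ω : Ω} (hω : IsPrimitiveRoot ω m) (n : ℕ) :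
    ∑ k ∈ Finset.range m, (ω ^ n) ^ k = if m ∣ n then (m : Ω) else 0 := by
  split_ifs with h
  · have : ω ^ n = 1 := (hω.pow_eq_one_iff_dvd n).2 h
    simp [this]
  · have h1 : ω ^ n ≠ 1 := fun h1 => h ((hω.pow_eq_one_iff_dvd n).1 h1)
    have h2 : (ω ^ n - 1) * ∑ k ∈ Finset.range m, (ω ^ n) ^ k = 0 := by
      rw [mul_geom_sum, ← pow_mul, mul_comm, pow_mul, hω.pow_eq_one, one_pow, sub_self]
    rcases mul_eq_zero.1 h2 with h3 | h3
    · exact absurd (sub_eq_zero.1 h3) h1
    · exact h3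

omit kb in
theorem mul_pow_eq {ω r : Ω} (hω : IsPrimitiveRoot ω m) (hr : r ^ m = algebraMap F Ω ε) (k : ℕ) :
    (ω ^ k * r) ^ m = algebraMap F Ω ε := by
  rw [mul_pow, ← pow_mul, mul_comm k m, pow_mul, hω.pow_eq_one, one_pow, one_mul, hr]

/-- **discrete Fourier transform**: recover the `i`-th coordinate from the `m` evaluations. -/
theorem sum_evalAt {ω r : Ω} (hω : IsPrimitiveRoot ω m) (hr : r ^ m = algebraMap F Ω ε)
    (c : F') (i : Fin m) :
    ∑ k ∈ Finset.range m, (ω ^ (m - (i : ℕ))) ^ k * kb.evalAt (ω ^ k * r) (mul_pow_eq hω hr k) c =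
      (m : Ω) * (algebraMap F Ω (kb.basis.repr c i) * r ^ (i : ℕ)) := by
  classical
  have h1 : ∀ k ∈ Finset.range m,
      (ω ^ (m - (i : ℕ))) ^ k * kb.evalAt (ω ^ k * r) (mul_pow_eq hω hr k) c =
      ∑ j : Fin m, (algebraMap F Ω (kb.basis.repr c j) * r ^ (j : ℕ)) *
        (ω ^ (m - (i : ℕ) + (j : ℕ))) ^ k := by
    intro k _
    rw [kb.evalAt_apply, Finset.mul_sum]
    refine Finset.sum_congr rfl fun j _ => ?_
    rw [mul_pow, pow_add, mul_pow, ← pow_mul ω (j : ℕ) k, ← pow_mul ω k (j : ℕ),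
      mul_comm (j : ℕ) k]
    ring
  rw [Finset.sum_congr rfl h1, Finset.sum_comm]
  have h2 : ∀ j ∈ (Finset.univ : Finset (Fin m)),
      ∑ k ∈ Finset.range m, (algebraMap F Ω (kb.basis.repr c j) * r ^ (j : ℕ)) *
        (ω ^ (m - (i : ℕ) + (j : ℕ))) ^ k =
      if j = i then (m : Ω) * (algebraMap F Ω (kb.basis.repr c i) * r ^ (i : ℕ)) else 0 := by
    intro j _
    rw [← Finset.mul_sum, sum_pow_primitiveRoot hω]
    have hi := i.2
    have hj := j.2
    by_cases hji : j = i
    · subst hji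
      rw [if_pos rfl, if_pos ⟨1, by omega⟩, mul_comm]
    · rw [if_neg hji, if_neg, mul_zero]
      rintro ⟨q, hq⟩
      have hne : (j : ℕ) ≠ (i : ℕ) := fun h => hji (Fin.ext h)
      rcases Nat.lt_or_ge (j : ℕ) (i : ℕ) with h | h
      · have h1 : 0 < m - (i : ℕ) + (j : ℕ) := by omega
        have h2 : m - (i : ℕ) + (j : ℕ) < m := by omega
        rcases Nat.eq_zero_or_pos q with rfl | hq0
        · omega
        · have : m ≤ m * q := Nat.le_mul_of_pos_right m hq0
          omega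
      · have h1 : m < m - (i : ℕ) + (j : ℕ) := by omega
        have h2 : m - (i : ℕ) + (j : ℕ) < 2 * m := by omega
        rcases Nat.lt_or_ge q 2 with hq2 | hq2
        · interval_cases q <;> omega
        · have : m * 2 ≤ m * q := Nat.mul_le_mul_left m hq2
          omega
  rw [Finset.sum_congr rfl h2, Finset.sum_ite_eq' Finset.univ i]
  simp

end Eval

end KummerBasis

section Integral

variable {m : ℕ} {ε : F} {ζ : F'} (kb : KummerBasis m ε ζ) (O : Subalgebra A F)

include kb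

/-- `ζ` is integral over `O` if `ε ∈ O`. -/
theorem KummerBasis.isIntegral_zeta (hε : ε ∈ O) : IsIntegral O ζ := by
  refine ⟨Polynomial.X ^ m - Polynomial.C (⟨ε, hε⟩ : O), ?_, ?_⟩
  · exact Polynomial.monic_X_pow_sub_C _ kb.m_pos.ne'
  · rw [Polynomial.eval₂_sub, Polynomial.eval₂_pow, Polynomial.eval₂_X, Polynomial.eval₂_C,
      kb.pow_eq]
    exact sub_self _

omit kb [Nontrivial F'] in
/-- elements of `O` are integral over `O` (as elements of `F'`). -/
theorem isIntegral_algebraMap_of_mem' (O : Subalgebra A F) {a : F} (ha : a ∈ O) :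
    IsIntegral O (algebraMap F F' a) := by
  have : algebraMap F F' a = algebraMap O F' ⟨a, ha⟩ := rfl
  rw [this]
  exact isIntegral_algebraMap

/-- **Key lemma, easy direction.** -/
theorem KummerBasis.isIntegral_of_repr_mem (hε : ε ∈ O) {c : F'}
    (hc : ∀ i, kb.basis.repr c i ∈ O) : IsIntegral O c := by
  rw [kb.sum_repr c]
  refine IsIntegral.sum _ fun i _ => ?_
  exact (isIntegral_algebraMap_of_mem' O (hc i)).mul ((kb.isIntegral_zeta O hε).pow _)

/-- the evaluations of an integral element are integral. -/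
theorem KummerBasis.isIntegral_evalAt {Ω : Type*} [Field Ω] [Algebra F Ω]
    (y : Ω) (hy : y ^ m = algebraMap F Ω ε) {c : F'} (hc : IsIntegral O c) :
    IsIntegral O (kb.evalAt y hy c) := by
  obtain ⟨P, hP, hPc⟩ := hc
  refine ⟨P, hP, ?_⟩
  have h := congrArg (kb.evalAt y hy : F' →+* Ω) hPc
  rw [map_zero, Polynomial.hom_eval₂] at h
  have h2 : ((kb.evalAt y hy : F' →+* Ω).comp (algebraMap O F')) = algebraMap O Ω := by
    ext a
    exact (kb.evalAt y hy).commutes (a : F)
  rw [h2] at h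
  exact h

/-- **Key lemma, main direction**: the coordinates of an element integral over `O` lie in `O`,
if `O` is integrally closed in `F` and `ε`, `(m ε)⁻¹ ∈ O`. -/
theorem KummerBasis.repr_mem_of_isIntegral (hO : ∀ f : F, IsIntegral O f → f ∈ O)
    (hε : ε ∈ O) (hmε : ((m : F) * ε)⁻¹ ∈ O) (hmε0 : (m : F) * ε ≠ 0) {c : F'}
    (hc : IsIntegral O c) (i : Fin m) : kb.basis.repr c i ∈ O := by
  classical
  have hm0 : (m : F) ≠ 0 := left_ne_zero_of_mul hmε0
  have hε0 : ε ≠ 0 := right_ne_zero_of_mul hmε0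
  haveI : NeZero (m : F) := ⟨hm0⟩
  set Ω := AlgebraicClosure F with hΩ
  obtain ⟨ω, hω⟩ := HasEnoughRootsOfUnity.exists_primitiveRoot Ω m
  obtain ⟨r, hr⟩ := IsAlgClosed.exists_pow_nat_eq (algebraMap F Ω ε) kb.m_pos
  have hmO : (m : F) ∈ O := by
    have : (m : F) = algebraMap A F (m : A) := by simp
    rw [this]; exact O.algebraMap_mem _
  have hminv : ((m : F))⁻¹ ∈ O := by
    have : ((m : F))⁻¹ = ε * ((m : F) * ε)⁻¹ := by
      rw [mul_inv, mul_left_comm, mul_inv_cancel₀ hε0, mul_one]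
    rw [this]; exact O.mul_mem hε hmε
  have hεinv : ε⁻¹ ∈ O := by
    have : ε⁻¹ = (m : F) * ((m : F) * ε)⁻¹ := by
      rw [mul_inv, ← mul_assoc, mul_inv_cancel₀ hm0, one_mul]
    rw [this]; exact O.mul_mem hmO hmε
  have hr0 : r ≠ 0 := by
    intro h
    rw [h, zero_pow kb.m_pos.ne'] at hr
    exact hε0 ((map_eq_zero (algebraMap F Ω)).1 hr.symm)
  have hωint : IsIntegral O ω := by
    refine IsIntegral.of_pow kb.m_pos ?_
    rw [hω.pow_eq_one]; exact isIntegral_one
  have hrinv : IsIntegral O r⁻¹ := by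
    refine IsIntegral.of_pow kb.m_pos ?_
    rw [inv_pow, hr, ← map_inv₀]
    exact isIntegral_algebraMap_of_mem' O hεinv
  have hsum := kb.sum_evalAt hω hr c i
  have hint : IsIntegral O ((m : Ω) * (algebraMap F Ω (kb.basis.repr c i) * r ^ (i : ℕ))) := by
    rw [← hsum]
    refine IsIntegral.sum _ fun k _ => ?_
    exact ((hωint.pow _).pow _).mul (kb.isIntegral_evalAt O _ _ hc)
  have hminvΩ : IsIntegral O (algebraMap F Ω ((m : F))⁻¹) := isIntegral_algebraMap_of_mem' O hminv
  have h3 : algebraMap F Ω (kb.basis.repr c i) =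
      algebraMap F Ω ((m : F))⁻¹ *
        ((m : Ω) * (algebraMap F Ω (kb.basis.repr c i) * r ^ (i : ℕ))) * r⁻¹ ^ (i : ℕ) := by
    have hmΩ : (m : Ω) ≠ 0 := by
      have : (m : Ω) = algebraMap F Ω (m : F) := by simp
      rw [this]; exact (_root_.map_ne_zero _).2 hm0
    have : algebraMap F Ω ((m : F))⁻¹ = ((m : Ω))⁻¹ := by rw [map_inv₀]; simp
    rw [this, inv_pow, ← mul_assoc, inv_mul_cancel₀ hmΩ, one_mul, mul_assoc,
      mul_inv_cancel₀ (pow_ne_zero _ hr0), mul_one]
  have h4 : IsIntegral O (algebraMap F Ω (kb.basis.repr c i)) := by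
    rw [h3]
    exact (hminvΩ.mul hint).mul (hrinv.pow _)
  exact hO _ ((isIntegral_algebraMap_iff (algebraMap F Ω).injective).1 h4)

/-- **Key lemma.** -/
theorem KummerBasis.isIntegral_iff (hO : ∀ f : F, IsIntegral O f → f ∈ O)
    (hε : ε ∈ O) (hmε : ((m : F) * ε)⁻¹ ∈ O) (hmε0 : (m : F) * ε ≠ 0) (c : F') :
    IsIntegral O c ↔ ∀ i, kb.basis.repr c i ∈ O :=
  ⟨fun hc i => kb.repr_mem_of_isIntegral O hO hε hmε hmε0 hc i,
    fun h => kb.isIntegral_of_repr_mem O hε h⟩

end Integral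

end Fermat.Agent.A2.H348

end
-- ===== PACK-END A2/H348/KummerCoord.lean

-- ===== PACK-BEGIN A2/H348/SubLoc.lean
section


/-!
# A2 / piece E (ALG_ss), part 2: localisations of a subalgebra of a field, conductor argument

Mathlib-only.  `B ⊆ F` a subalgebra of a field, `F'` an `F`-algebra.

* `exists_smul_isIntegral_of_subLoc` : if `O ⊇ B` is "a localisation of `B` at `S`" inside `F`
  (every `f ∈ O` has a denominator in `S`, elements of `S` are invertible in `O`), then an element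
  of `F'` integral over `O` becomes integral over `B` after multiplication by some `s ∈ S`.
* `locAt B 𝔪` : the localisation of `B` at a prime ideal, as a subalgebra of `F`.
* `mem_of_forall_maximal` : the conductor argument: a `B`-submodule `M ⊆ F'` contains `c` as soon
  as for every maximal ideal `𝔪` some `s ∉ 𝔪` satisfies `s • c ∈ M`.
-/

set_option autoImplicit false
set_option linter.unusedSectionVars false

namespace Fermat.Agent.A2.H348

variable {A F F' : Type*} [CommRing A] [Field F] [CommRing F'] [Algebra A F] [Algebra F F']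
  [Algebra A F'] [IsScalarTower A F F']

section SubLoc

variable (B O : Subalgebra A F)

/-- integrality over a localisation descends up to a denominator. -/
theorem exists_smul_isIntegral_of_subLoc (hBO : B ≤ O) (S : Submonoid B)
    (hS0 : ∀ s ∈ S, (s : F) ≠ 0)
    (hS : ∀ f ∈ O, ∃ s ∈ S, (s : F) * f ∈ B) (hSinv : ∀ s ∈ S, ((s : F))⁻¹ ∈ O)
    (c : F') (hc : IsIntegral O c) :
    ∃ s ∈ S, IsIntegral B (algebraMap F F' (s : F) * c) := by
  letI : Algebra B O := (Subalgebra.inclusion hBO).toRingHom.toAlgebra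
  have halg : ∀ b : B, ((algebraMap B O b : O) : F) = (b : F) := fun b => rfl
  haveI : IsScalarTower B O F' := IsScalarTower.of_algebraMap_eq fun b => rfl
  haveI : IsLocalization S O := by
    rw [isLocalization_iff]
    refine ⟨?_, ?_, ?_⟩
    · intro y
      refine IsUnit.of_mul_eq_one (⟨((y : B) : F)⁻¹, hSinv y y.2⟩ : O) ?_
      apply Subtype.ext
      show ((y : B) : F) * ((y : B) : F)⁻¹ = 1
      exact mul_inv_cancel₀ (hS0 y y.2)
    · intro z
      obtain ⟨s, hs, hsz⟩ := hS z z.2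
      refine ⟨(⟨(s : F) * z, hsz⟩, ⟨s, hs⟩), ?_⟩
      apply Subtype.ext
      show (z : F) * (s : F) = (s : F) * z
      exact mul_comm _ _
    · intro x y hxy
      refine ⟨1, ?_⟩
      have : (x : F) = (y : F) := congrArg (fun t : O => (t : F)) hxy
      rw [Subtype.ext this]
  obtain ⟨m, hm⟩ := IsIntegral.exists_multiple_integral_of_isLocalization S c hc
  refine ⟨m, m.2, ?_⟩
  have : (m • c : F') = algebraMap F F' ((m : B) : F) * c := by
    rw [Submonoid.smul_def, Algebra.smul_def]; rfl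
  rwa [this] at hm

end SubLoc

section LocAt

variable (B : Subalgebra A F)

/-- The localisation of `B ⊆ F` at the prime ideal `𝔪`, as a subalgebra of `F`. -/
def locAt (𝔪 : Ideal B) [h𝔪 : 𝔪.IsPrime] : Subalgebra A F where
  carrier := {f | ∃ s : B, s ∉ 𝔪 ∧ (s : F) * f ∈ B}
  mul_mem' := by
    rintro f g ⟨s, hs, hsf⟩ ⟨t, ht, htg⟩
    refine ⟨s * t, fun h => (h𝔪.mem_or_mem h).elim hs ht, ?_⟩
    have : ((s * t : B) : F) * (f * g) = ((s : F) * f) * ((t : F) * g) := by
      push_cast; ring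
    rw [this]
    exact B.mul_mem hsf htg
  add_mem' := by
    rintro f g ⟨s, hs, hsf⟩ ⟨t, ht, htg⟩
    refine ⟨s * t, fun h => (h𝔪.mem_or_mem h).elim hs ht, ?_⟩
    have : ((s * t : B) : F) * (f + g) = (t : F) * ((s : F) * f) + (s : F) * ((t : F) * g) := by
      push_cast; ring
    rw [this]
    exact B.add_mem (B.mul_mem t.2 hsf) (B.mul_mem s.2 htg)
  algebraMap_mem' := by
    intro r
    refine ⟨1, fun h => h𝔪.ne_top ((Ideal.eq_top_iff_one _).2 h), ?_⟩
    simp only [OneMemClass.coe_one, one_mul]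
    exact B.algebraMap_mem r

variable {B}

theorem mem_locAt {𝔪 : Ideal B} [𝔪.IsPrime] {f : F} :
    f ∈ locAt B 𝔪 ↔ ∃ s : B, s ∉ 𝔪 ∧ (s : F) * f ∈ B := Iff.rfl

theorem le_locAt (𝔪 : Ideal B) [h𝔪 : 𝔪.IsPrime] : B ≤ locAt B 𝔪 := by
  intro f hf
  refine ⟨1, fun h => h𝔪.ne_top ((Ideal.eq_top_iff_one _).2 h), ?_⟩
  simpa using hf

theorem inv_mem_locAt (𝔪 : Ideal B) [𝔪.IsPrime] {s : B} (hs : s ∉ 𝔪) :
    ((s : F))⁻¹ ∈ locAt B 𝔪 := by
  refine ⟨s, hs, ?_⟩
  rcases eq_or_ne (s : F) 0 with h | h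
  · rw [h, zero_mul]; exact B.zero_mem
  · rw [mul_inv_cancel₀ h]; exact B.one_mem

theorem coe_ne_zero_of_notMem (𝔪 : Ideal B) {s : B} (hs : s ∉ 𝔪) : (s : F) ≠ 0 := by
  intro h
  apply hs
  have : s = 0 := Subtype.ext h
  rw [this]
  exact 𝔪.zero_mem

/-- integrality over `B_𝔪` descends to `B` up to a denominator outside `𝔪`. -/
theorem exists_smul_isIntegral_of_locAt (𝔪 : Ideal B) [𝔪.IsPrime] (c : F')
    (hc : IsIntegral (locAt B 𝔪) c) :
    ∃ s : B, s ∉ 𝔪 ∧ IsIntegral B (algebraMap F F' (s : F) * c) := by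
  obtain ⟨s, hs, h⟩ := exists_smul_isIntegral_of_subLoc B (locAt B 𝔪) (le_locAt 𝔪) 𝔪.primeCompl
    (fun s hs => coe_ne_zero_of_notMem 𝔪 hs)
    (fun f hf => by
      obtain ⟨s, hs, hsf⟩ := hf
      exact ⟨s, hs, hsf⟩)
    (fun s hs => inv_mem_locAt 𝔪 hs) c hc
  exact ⟨s, hs, h⟩

/-- `B_𝔪` is integrally closed in `F` if `B` is. -/
theorem locAt_integrallyClosed (hB : ∀ f : F, IsIntegral B f → f ∈ B) (𝔪 : Ideal B) [𝔪.IsPrime]
    (f : F) (hf : IsIntegral (locAt B 𝔪) f) : f ∈ locAt B 𝔪 := by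
  obtain ⟨s, hs, h⟩ := exists_smul_isIntegral_of_locAt (F' := F) 𝔪 f hf
  exact ⟨s, hs, hB _ h⟩

/-- `1 + ϖ t` is invertible in `B_𝔪` for `ϖ ∈ 𝔪`. -/
theorem one_add_mul_inv_mem_locAt (𝔪 : Ideal B) [𝔪.IsPrime] {ϖ : B} (hϖ : ϖ ∈ 𝔪) {t : F}
    (ht : t ∈ locAt B 𝔪) : (1 + (ϖ : F) * t)⁻¹ ∈ locAt B 𝔪 := by
  obtain ⟨s, hs, hst⟩ := ht
  have hmem : s + ϖ * ⟨(s : F) * t, hst⟩ ∉ 𝔪 := by
    intro h
    apply hs
    have h2 : ϖ * ⟨(s : F) * t, hst⟩ ∈ 𝔪 := 𝔪.mul_mem_right _ hϖ
    have := 𝔪.sub_mem h h2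
    simpa using this
  have hs0 : (s : F) ≠ 0 := coe_ne_zero_of_notMem 𝔪 hs
  have hne : ((s + ϖ * ⟨(s : F) * t, hst⟩ : B) : F) ≠ 0 := coe_ne_zero_of_notMem 𝔪 hmem
  have hval : ((s + ϖ * ⟨(s : F) * t, hst⟩ : B) : F) = (s : F) * (1 + (ϖ : F) * t) := by
    push_cast; ring
  have h1 : (1 + (ϖ : F) * t) ≠ 0 := by
    intro h
    rw [hval, h, mul_zero] at hne
    exact hne rfl
  refine ⟨s + ϖ * ⟨(s : F) * t, hst⟩, hmem, ?_⟩
  rw [hval, mul_assoc, mul_inv_cancel₀ h1, mul_one]
  exact s.2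

end LocAt

section Conductor

variable (B : Subalgebra A F)

/-- **Conductor argument.** -/
theorem mem_of_forall_maximal (M : Submodule B F') (c : F')
    (h : ∀ 𝔪 : Ideal B, 𝔪.IsMaximal → ∃ s : B, s ∉ 𝔪 ∧ s • c ∈ M) : c ∈ M := by
  let I : Ideal B := M.comap (LinearMap.toSpanSingleton B F' c)
  have hI : ∀ s : B, s ∈ I ↔ s • c ∈ M := fun s => by
    simp [I, Submodule.mem_comap, LinearMap.toSpanSingleton_apply]
  by_cases hIt : I = ⊤
  · have h1 : (1 : B) ∈ I := by rw [hIt]; trivial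
    have := (hI 1).1 h1
    simpa using this
  · obtain ⟨𝔪, h𝔪, hle⟩ := Ideal.exists_le_maximal I hIt
    obtain ⟨s, hs, hsc⟩ := h 𝔪 h𝔪
    exact absurd (hle ((hI s).2 hsc)) hs

end Conductor

end Fermat.Agent.A2.H348

end
-- ===== PACK-END A2/H348/SubLoc.lean

-- ===== PACK-BEGIN A2/H93/CoverSplit.lean
section








/-!
# Cell A2, route G, obligation C2 (COVER-SPLIT) — helper93 — Mathlib-only

Setting (`CoverSplit`): `V` a valuation subring of a field `F` whose maximal ideal is generated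
by `w` and which is discrete (`∀ f, ∃ k, f * w ^ k ∈ V`); `m` invertible in `V`, `ζ ∈ F` a
primitive `m`-th root of unity; `L = F[y_i]` with `y_i ^ m = g_i`, `g_i ∈ Vˣ`,
`g_i ≡ c_i ^ m mod w` (`c_i ∈ V`); `W` ANY valuation subring of `L` with `W ∩ F = V`.

Results (elementary: `W` is the localisation of `V[y_i]` at its centre; no étale / Dedekind /
Henselian API):

* `CoverSplit.exists_sub_mem`   : `W = V + w W`  (residue field of `W` = residue field of `V`);
* `CoverSplit.mul_inv_mem`      : `𝔪_W = w W`     (`e = 1`);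
* `CoverSplit.eq_one_of_map_eq` : an `F`-automorphism `σ` of `L` with `σ W = W` is the identity
  (the decomposition group is trivial: `V` splits completely in `L`).
-/

set_option autoImplicit false
set_option linter.style.haveILetI false

namespace Fermat.Agent.A2.H93

variable {F L : Type*} [Field F] [Field L] [Algebra F L]

/-- Hypotheses of COVER-SPLIT (see the module docstring). -/
structure CoverSplit (V : ValuationSubring F) (W : ValuationSubring L) (w : F) (m : ℕ) (ζ : F)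
    {ι : Type*} (y : ι → L) (g c : ι → F) : Prop where
  ext : ∀ f : F, algebraMap F L f ∈ W ↔ f ∈ V
  w_inv_notMem : w⁻¹ ∉ V
  w_gen : ∀ f ∈ V, f⁻¹ ∉ V → f * w⁻¹ ∈ V
  w_disc : ∀ f : F, ∃ k : ℕ, f * w ^ k ∈ V
  zeta : IsPrimitiveRoot ζ m
  m_pos : 0 < m
  m_inv : (m : F)⁻¹ ∈ V
  pow_eq : ∀ i, y i ^ m = algebraMap F L (g i)
  g_mem : ∀ i, g i ∈ V
  g_ne_zero : ∀ i, g i ≠ 0
  g_inv : ∀ i, (g i)⁻¹ ∈ V
  c_mem : ∀ i, c i ∈ V
  cong : ∀ i, (g i - c i ^ m) * w⁻¹ ∈ V
  gen : Algebra.adjoin F (Set.range y) = ⊤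

section Val

variable (W : ValuationSubring L)

theorem val_lt_one_of_inv_notMem {x : L} (hx : x⁻¹ ∉ W) : W.valuation x < 1 := by
  by_contra h
  rw [not_lt] at h
  apply hx
  rw [← W.valuation_le_one_iff, map_inv₀]
  exact inv_le_one_of_one_le₀ h

theorem inv_notMem_of_val_lt_one {x : L} (hx0 : x ≠ 0) (h : W.valuation x < 1) : x⁻¹ ∉ W := by
  intro hmem
  have h1 : W.valuation x⁻¹ ≤ 1 := (W.valuation_le_one_iff _).2 hmem
  have h2 : W.valuation x * W.valuation x⁻¹ = 1 := by
    rw [← map_mul, mul_inv_cancel₀ hx0, map_one]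
  have h3 : W.valuation x * W.valuation x⁻¹ < 1 := by
    calc W.valuation x * W.valuation x⁻¹ ≤ W.valuation x * 1 := by gcongr
      _ = W.valuation x := mul_one _
      _ < 1 := h
  rw [h2] at h3
  exact lt_irrefl _ h3

theorem val_eq_one_of_mem_of_inv_mem {x : L} (hx0 : x ≠ 0) (hx : x ∈ W) (hx' : x⁻¹ ∈ W) :
    W.valuation x = 1 := by
  have h1 : W.valuation x ≤ 1 := (W.valuation_le_one_iff _).2 hx
  rcases lt_or_eq_of_le h1 with h | h
  · exact absurd hx' (inv_notMem_of_val_lt_one W hx0 h)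
  · exact h

theorem inv_mem_of_val_eq_one {x : L} (h : W.valuation x = 1) : x⁻¹ ∈ W := by
  rw [← W.valuation_le_one_iff, map_inv₀, h, inv_one]

end Val

namespace CoverSplit

variable {V : ValuationSubring F} {W : ValuationSubring L} {w : F} {m : ℕ} {ζ : F}
  {ι : Type*} {y : ι → L} {g c : ι → F}

local notation "φ" => algebraMap F L

theorem w_mem (D : CoverSplit V W w m ζ y g c) : w ∈ V :=
  (V.mem_or_inv_mem w).resolve_right D.w_inv_notMem

theorem w_ne_zero (D : CoverSplit V W w m ζ y g c) : w ≠ 0 := by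
  intro h
  apply D.w_inv_notMem
  rw [h, inv_zero]
  exact V.zero_mem

theorem φw_ne_zero (D : CoverSplit V W w m ζ y g c) : φ w ≠ 0 := by
  intro h
  exact D.w_ne_zero ((algebraMap F L).injective (by rw [h, map_zero]))

theorem val_w_lt (D : CoverSplit V W w m ζ y g c) : W.valuation (φ w) < 1 := by
  apply val_lt_one_of_inv_notMem
  rw [← map_inv₀, D.ext]
  exact D.w_inv_notMem

theorem val_le_one (D : CoverSplit V W w m ζ y g c) {a : F} (ha : a ∈ V) :
    W.valuation (φ a) ≤ 1 :=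
  (W.valuation_le_one_iff _).2 ((D.ext a).2 ha)

theorem val_eq_one (D : CoverSplit V W w m ζ y g c) {a : F} (ha : a ∈ V) (ha' : a⁻¹ ∈ V)
    (ha0 : a ≠ 0) : W.valuation (φ a) = 1 := by
  apply val_eq_one_of_mem_of_inv_mem
  · intro h
    exact ha0 ((algebraMap F L).injective (by rw [h, map_zero]))
  · exact (D.ext a).2 ha
  · rw [← map_inv₀]; exact (D.ext _).2 ha'

/-- An element of `F` which is a non-unit at `W` is divisible by `w` in `V`. -/
theorem mul_inv_mem_of_val_lt (D : CoverSplit V W w m ζ y g c) {a : F}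
    (ha : W.valuation (φ a) < 1) : a * w⁻¹ ∈ V := by
  by_cases ha0 : a = 0
  · rw [ha0, zero_mul]; exact V.zero_mem
  have haV : a ∈ V := (D.ext a).1 ((W.valuation_le_one_iff _).1 ha.le)
  refine D.w_gen a haV ?_
  intro h
  have := D.val_eq_one haV h ha0
  rw [this] at ha
  exact lt_irrefl _ ha

/-- In `V`: an element with unit `m`-th power modulo `w`... more precisely, if `a ^ m ≡ u` mod
`w` with `u` a unit, then `a` is a unit. -/
theorem inv_mem_of_pow_cong (D : CoverSplit V W w m ζ y g c) {a u : F} (ha : a ∈ V)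
    (hu' : u⁻¹ ∈ V) (hu0 : u ≠ 0) (h : (u - a ^ m) * w⁻¹ ∈ V) : a⁻¹ ∈ V := by
  by_contra hcon
  -- `a ∈ 𝔪_V`, so `a = w a'`
  have h1 : a * w⁻¹ ∈ V := D.w_gen a ha hcon
  -- then `u = (u - a^m) + a^m ∈ w V`
  have h2 : u * w⁻¹ ∈ V := by
    have : u * w⁻¹ = (u - a ^ m) * w⁻¹ + a ^ (m - 1) * (a * w⁻¹) := by
      have : a ^ m = a ^ (m - 1) * a := by
        rw [← pow_succ, Nat.sub_add_cancel D.m_pos]
      rw [this]; ring
    rw [this]
    exact V.add_mem _ _ h (V.mul_mem _ _ (pow_mem ha _) h1)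
  -- so `w⁻¹ = u⁻¹ (u w⁻¹) ∈ V`
  apply D.w_inv_notMem
  have : w⁻¹ = u⁻¹ * (u * w⁻¹) := by
    field_simp
  rw [this]
  exact V.mul_mem _ _ hu' h2

theorem c_inv (D : CoverSplit V W w m ζ y g c) (i : ι) : (c i)⁻¹ ∈ V :=
  D.inv_mem_of_pow_cong (D.c_mem i) (D.g_inv i) (D.g_ne_zero i) (D.cong i)

/-! ### Roots of unity -/

theorem m_ne_zero (D : CoverSplit V W w m ζ y g c) : (m : F) ≠ 0 := by
  haveI : NeZero m := ⟨D.m_pos.ne'⟩
  exact (D.zeta.neZero').out

theorem root_mem (D : CoverSplit V W w m ζ y g c) {ξ : F} (hξ : ξ ^ m = 1) : ξ ∈ V := by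
  rcases V.mem_or_inv_mem ξ with h | h
  · exact h
  · have hξ0 : ξ ≠ 0 := by
      rintro rfl
      rw [zero_pow D.m_pos.ne'] at hξ
      exact zero_ne_one hξ
    have h1 : ξ = ξ⁻¹ ^ (m - 1) := by
      have h2 : ξ ^ (m - 1) * ξ = 1 := by
        rw [← pow_succ, Nat.sub_add_cancel D.m_pos, hξ]
      rw [inv_pow]
      exact eq_inv_of_mul_eq_one_right h2
    rw [h1]
    exact pow_mem h _

theorem root_inv_mem (D : CoverSplit V W w m ζ y g c) {ξ : F} (hξ : ξ ^ m = 1) : ξ⁻¹ ∈ V :=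
  D.root_mem (by rw [inv_pow, hξ, inv_one])

theorem root_ne_zero (D : CoverSplit V W w m ζ y g c) {ξ : F} (hξ : ξ ^ m = 1) : ξ ≠ 0 := by
  rintro rfl
  rw [zero_pow D.m_pos.ne'] at hξ
  exact zero_ne_one hξ

/-- `1 - ξ` is a unit of `V` for every `m`-th root of unity `ξ ≠ 1`. -/
theorem one_sub_root_inv_mem (D : CoverSplit V W w m ζ y g c) {ξ : F} (hξ : ξ ^ m = 1)
    (hξ1 : ξ ≠ 1) : (1 - ξ)⁻¹ ∈ V := by
  have hsum : ∑ k ∈ Finset.range m, ξ ^ k = 0 := by
    have h := mul_geom_sum ξ m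
    rw [hξ, sub_self] at h
    exact (mul_eq_zero.1 h).resolve_left (sub_ne_zero.2 hξ1)
  have hq : (m : F) = (1 - ξ) * ∑ k ∈ Finset.range m, ∑ j ∈ Finset.range k, ξ ^ j := by
    calc (m : F) = ∑ k ∈ Finset.range m, (1 - ξ ^ k) := by
          rw [Finset.sum_sub_distrib, hsum]; simp
      _ = ∑ k ∈ Finset.range m, (1 - ξ) * ∑ j ∈ Finset.range k, ξ ^ j := by
          refine Finset.sum_congr rfl fun k _ => ?_
          have h := mul_geom_sum ξ k
          linear_combination h
      _ = (1 - ξ) * ∑ k ∈ Finset.range m, ∑ j ∈ Finset.range k, ξ ^ j := by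
          rw [Finset.mul_sum]
  have hqV : (∑ k ∈ Finset.range m, ∑ j ∈ Finset.range k, ξ ^ j) ∈ V :=
    sum_mem (fun k _ => sum_mem (fun j _ => pow_mem (D.root_mem hξ) j))
  have h1 : (1 - ξ)⁻¹ = (∑ k ∈ Finset.range m, ∑ j ∈ Finset.range k, ξ ^ j) * (m : F)⁻¹ := by
    apply inv_eq_of_mul_eq_one_right
    rw [← mul_assoc, ← hq, mul_inv_cancel₀ D.m_ne_zero]
  rw [h1]
  exact V.mul_mem _ _ hqV D.m_inv

/-- every `m`-th root of unity of `L` comes from `F` -/
theorem exists_root_eq (D : CoverSplit V W w m ζ y g c) {ξ : L} (hξ : ξ ^ m = 1) :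
    ∃ ξ₀ : F, ξ₀ ^ m = 1 ∧ φ ξ₀ = ξ := by
  haveI : NeZero m := ⟨D.m_pos.ne'⟩
  have hζL : IsPrimitiveRoot (φ ζ) m := D.zeta.map_of_injective (algebraMap F L).injective
  obtain ⟨i, -, hi⟩ := hζL.eq_pow_of_pow_eq_one hξ
  refine ⟨ζ ^ i, ?_, by rw [map_pow, hi]⟩
  rw [← pow_mul, mul_comm, pow_mul, D.zeta.pow_eq_one, one_pow]

/-! ### The generators -/

theorem val_y (D : CoverSplit V W w m ζ y g c) (i : ι) : W.valuation (y i) = 1 := by
  have h : W.valuation (y i) ^ m = 1 := by
    rw [← map_pow, D.pow_eq]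
    exact D.val_eq_one (D.g_mem i) (D.g_inv i) (D.g_ne_zero i)
  exact (pow_eq_one_iff_left D.m_pos.ne').mp h

theorem y_mem (D : CoverSplit V W w m ζ y g c) (i : ι) : y i ∈ W :=
  (W.valuation_le_one_iff _).1 (D.val_y i).le

theorem val_pow_sub (D : CoverSplit V W w m ζ y g c) (i : ι) :
    W.valuation (y i ^ m - φ (c i) ^ m) < 1 := by
  rw [D.pow_eq, ← map_pow, ← map_sub]
  have h : g i - c i ^ m = (g i - c i ^ m) * w⁻¹ * w := by
    have := D.w_ne_zero
    field_simp
  rw [h, map_mul, map_mul]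
  calc W.valuation (φ ((g i - c i ^ m) * w⁻¹)) * W.valuation (φ w)
      ≤ 1 * W.valuation (φ w) := by
        gcongr
        exact D.val_le_one (D.cong i)
    _ < 1 := by rw [one_mul]; exact D.val_w_lt

/-- The centre: `y_i ≡ ξ c_i` modulo `𝔪_W` for some `m`-th root of unity `ξ ∈ F`. -/
theorem exists_root_val_lt (D : CoverSplit V W w m ζ y g c) (i : ι) :
    ∃ ξ₀ : F, ξ₀ ^ m = 1 ∧ W.valuation (y i - φ (ξ₀ * c i)) < 1 := by
  classical
  have hζL : IsPrimitiveRoot (φ ζ) m := D.zeta.map_of_injective (algebraMap F L).injective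
  have hprod := hζL.pow_sub_pow_eq_prod_sub_mul (y i) (φ (c i)) D.m_pos
  have hlhs := D.val_pow_sub i
  by_contra hcon
  push Not at hcon
  have hall : ∀ ξ ∈ Polynomial.nthRootsFinset m (1 : L),
      W.valuation (y i - ξ * φ (c i)) = 1 := by
    intro ξ hξ
    rw [Polynomial.mem_nthRootsFinset D.m_pos] at hξ
    obtain ⟨ξ₀, h1, rfl⟩ := D.exists_root_eq hξ
    have hle : W.valuation (y i - φ ξ₀ * φ (c i)) ≤ 1 :=
      (W.valuation_le_one_iff _).2 (sub_mem (D.y_mem i)
        (mul_mem ((D.ext _).2 (D.root_mem h1)) ((D.ext _).2 (D.c_mem i))))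
    have h2 := hcon ξ₀ h1
    rw [map_mul] at h2
    exact le_antisymm hle h2
  rw [hprod, map_prod, Finset.prod_eq_one hall] at hlhs
  exact lt_irrefl _ hlhs

/-- The other roots give units of `W`. -/
theorem val_sub_root_eq_one (D : CoverSplit V W w m ζ y g c) (i : ι) {ξ₀ η₀ : F}
    (hξ : ξ₀ ^ m = 1) (hη : η₀ ^ m = 1) (hne : η₀ ≠ ξ₀)
    (h : W.valuation (y i - φ (ξ₀ * c i)) < 1) : W.valuation (y i - φ (η₀ * c i)) = 1 := by
  have hξ0 := D.root_ne_zero hξ
  have hc0 : c i ≠ 0 := by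
    intro h0
    have h1 := D.cong i
    rw [h0, zero_pow D.m_pos.ne', sub_zero] at h1
    apply D.w_inv_notMem
    have : w⁻¹ = (g i)⁻¹ * (g i * w⁻¹) := by
      have := D.g_ne_zero i
      field_simp
    rw [this]
    exact V.mul_mem _ _ (D.g_inv i) h1
  -- the root of unity `ρ = η₀ / ξ₀ ≠ 1`
  have hρ : (η₀ * ξ₀⁻¹) ^ m = 1 := by rw [mul_pow, inv_pow, hξ, hη, inv_one, mul_one]
  have hρ1 : η₀ * ξ₀⁻¹ ≠ 1 := by
    intro h1
    apply hne
    field_simp at h1
    exact h1
  have hunit : (1 - η₀ * ξ₀⁻¹)⁻¹ ∈ V := D.one_sub_root_inv_mem hρ hρ1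
  have hd0 : (ξ₀ - η₀) * c i ≠ 0 :=
    mul_ne_zero (sub_ne_zero.2 (Ne.symm hne)) hc0
  have hdV : (ξ₀ - η₀) * c i ∈ V :=
    V.mul_mem _ _ (sub_mem (D.root_mem hξ) (D.root_mem hη)) (D.c_mem i)
  have hdV' : ((ξ₀ - η₀) * c i)⁻¹ ∈ V := by
    have : ((ξ₀ - η₀) * c i)⁻¹ = (1 - η₀ * ξ₀⁻¹)⁻¹ * ξ₀⁻¹ * (c i)⁻¹ := by
      have h1 : 1 - η₀ * ξ₀⁻¹ ≠ 0 := sub_ne_zero.2 (Ne.symm hρ1)
      have h2 : ξ₀ - η₀ ≠ 0 := sub_ne_zero.2 (Ne.symm hne)
      field_simp
    rw [this]
    exact V.mul_mem _ _ (V.mul_mem _ _ hunit (D.root_inv_mem hξ)) (D.c_inv i)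
  have hv : W.valuation (φ ((ξ₀ - η₀) * c i)) = 1 := D.val_eq_one hdV hdV' hd0
  have hsum : y i - φ (η₀ * c i) = (y i - φ (ξ₀ * c i)) + φ ((ξ₀ - η₀) * c i) := by
    simp only [map_mul, map_sub]; ring
  rw [hsum, Valuation.map_add_eq_of_lt_right]
  · exact hv
  · rw [hv]; exact h

section Rings

variable (V W y)

/-- `V[y_i] ⊆ L`. -/
def ringB : Subring L := Subring.closure ((algebraMap F L) '' (V : Set F) ∪ Set.range y)

/-- The localisation of `V[y_i]` at its centre in `W`. -/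
def ringB' : Subring L :=
  Subring.closure ((ringB V y : Set L) ∪ {x | ∃ s ∈ ringB V y, W.valuation s = 1 ∧ x = s⁻¹})

end Rings

theorem algebraMap_mem_ringB {a : F} (ha : a ∈ V) : φ a ∈ ringB V y :=
  Subring.subset_closure (Or.inl ⟨a, ha, rfl⟩)

theorem y_mem_ringB (i : ι) : y i ∈ ringB V y :=
  Subring.subset_closure (Or.inr ⟨i, rfl⟩)

theorem ringB_le_ringB' : ringB V y ≤ ringB' V W y :=
  fun _ hx => Subring.subset_closure (Or.inl hx)

theorem inv_mem_ringB' {s : L} (hs : s ∈ ringB V y) (hv : W.valuation s = 1) :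
    s⁻¹ ∈ ringB' V W y :=
  Subring.subset_closure (Or.inr ⟨s, hs, hv, rfl⟩)

theorem ringB_le (D : CoverSplit V W w m ζ y g c) : ringB V y ≤ W.toSubring := by
  rw [ringB, Subring.closure_le]
  rintro x (⟨a, ha, rfl⟩ | ⟨i, rfl⟩)
  · exact (D.ext a).2 ha
  · exact D.y_mem i

theorem ringB'_le (D : CoverSplit V W w m ζ y g c) : ringB' V W y ≤ W.toSubring := by
  rw [ringB', Subring.closure_le]
  rintro x (hx | ⟨s, -, hv, rfl⟩)
  · exact D.ringB_le hx
  · exact inv_mem_of_val_eq_one W hv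

/-- `y_i - ξ c_i = w · t` with `t` in the localisation. -/
theorem exists_unit_mul (D : CoverSplit V W w m ζ y g c) (i : ι) {ξ₀ : F} (hξ : ξ₀ ^ m = 1)
    (h : W.valuation (y i - φ (ξ₀ * c i)) < 1) :
    ∃ u ∈ ringB V y, W.valuation u = 1 ∧ (y i - φ (ξ₀ * c i)) * u = φ (g i - c i ^ m) := by
  classical
  have hζL : IsPrimitiveRoot (φ ζ) m := D.zeta.map_of_injective (algebraMap F L).injective
  have hprod := hζL.pow_sub_pow_eq_prod_sub_mul (y i) (φ (c i)) D.m_pos
  have hmem : φ ξ₀ ∈ Polynomial.nthRootsFinset m (1 : L) := by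
    rw [Polynomial.mem_nthRootsFinset D.m_pos, ← map_pow, hξ, map_one]
  refine ⟨∏ η ∈ (Polynomial.nthRootsFinset m (1 : L)).erase (φ ξ₀), (y i - η * φ (c i)),
    ?_, ?_, ?_⟩
  · refine Subring.prod_mem _ fun η hη => ?_
    have hη' := Finset.mem_of_mem_erase hη
    rw [Polynomial.mem_nthRootsFinset D.m_pos] at hη'
    obtain ⟨η₀, h1, rfl⟩ := D.exists_root_eq hη'
    exact Subring.sub_mem _ (y_mem_ringB i)
      (Subring.mul_mem _ (algebraMap_mem_ringB (D.root_mem h1)) (algebraMap_mem_ringB (D.c_mem i)))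
  · rw [map_prod]
    refine Finset.prod_eq_one fun η hη => ?_
    have hη' := Finset.mem_of_mem_erase hη
    have hne := Finset.ne_of_mem_erase hη
    rw [Polynomial.mem_nthRootsFinset D.m_pos] at hη'
    obtain ⟨η₀, h1, rfl⟩ := D.exists_root_eq hη'
    have hne' : η₀ ≠ ξ₀ := fun h0 => hne (by rw [h0])
    have := D.val_sub_root_eq_one i hξ h1 hne' h
    rwa [map_mul] at this
  · rw [map_mul, Finset.mul_prod_erase _ (fun η => y i - η * φ (c i)) hmem, ← hprod, D.pow_eq,
      map_sub, map_pow]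

/-- The property `x ∈ V + w B'`. -/
def Good (V : ValuationSubring F) (W : ValuationSubring L) (w : F) (y : ι → L) (x : L) : Prop :=
  ∃ a ∈ V, ∃ t ∈ ringB' V W y, x = algebraMap F L a + algebraMap F L w * t

theorem good_algebraMap {a : F} (ha : a ∈ V) : Good V W w y (φ a) :=
  ⟨a, ha, 0, Subring.zero_mem _, by rw [mul_zero, add_zero]⟩

theorem good_add {x x' : L} (hx : Good V W w y x) (hx' : Good V W w y x') :
    Good V W w y (x + x') := by
  obtain ⟨a, ha, t, ht, rfl⟩ := hx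
  obtain ⟨a', ha', t', ht', rfl⟩ := hx'
  exact ⟨a + a', V.add_mem _ _ ha ha', t + t', Subring.add_mem _ ht ht', by
    rw [map_add]; ring⟩

theorem good_neg {x : L} (hx : Good V W w y x) : Good V W w y (-x) := by
  obtain ⟨a, ha, t, ht, rfl⟩ := hx
  exact ⟨-a, V.neg_mem _ ha, -t, Subring.neg_mem _ ht, by rw [map_neg]; ring⟩

theorem good_mul (D : CoverSplit V W w m ζ y g c) {x x' : L} (hx : Good V W w y x)
    (hx' : Good V W w y x') : Good V W w y (x * x') := by
  obtain ⟨a, ha, t, ht, rfl⟩ := hx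
  obtain ⟨a', ha', t', ht', rfl⟩ := hx'
  have hB : ∀ {b : F}, b ∈ V → φ b ∈ ringB' V W y :=
    fun hb => ringB_le_ringB' (algebraMap_mem_ringB hb)
  refine ⟨a * a', V.mul_mem _ _ ha ha', φ a * t' + φ a' * t + φ w * t * t', ?_, ?_⟩
  · exact Subring.add_mem _ (Subring.add_mem _ (Subring.mul_mem _ (hB ha) ht')
      (Subring.mul_mem _ (hB ha') ht))
      (Subring.mul_mem _ (Subring.mul_mem _ (hB D.w_mem) ht) ht')
  · rw [map_mul]; ring

theorem good_y (D : CoverSplit V W w m ζ y g c) (i : ι) : Good V W w y (y i) := by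
  obtain ⟨ξ₀, hξ, h⟩ := D.exists_root_val_lt i
  obtain ⟨u, huB, hu, hmul⟩ := D.exists_unit_mul i hξ h
  have hu0 : u ≠ 0 := by
    rintro rfl
    rw [map_zero] at hu
    exact zero_ne_one hu
  refine ⟨ξ₀ * c i, V.mul_mem _ _ (D.root_mem hξ) (D.c_mem i),
    φ ((g i - c i ^ m) * w⁻¹) * u⁻¹, ?_, ?_⟩
  · exact Subring.mul_mem _ (ringB_le_ringB' (algebraMap_mem_ringB (D.cong i)))
      (inv_mem_ringB' huB hu)
  · have h1 : y i - φ (ξ₀ * c i) = φ (g i - c i ^ m) * u⁻¹ := by
      rw [← hmul, mul_assoc, mul_inv_cancel₀ hu0, mul_one]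
    have h2 : φ (g i - c i ^ m) = φ w * φ ((g i - c i ^ m) * w⁻¹) := by
      rw [← map_mul]
      congr 1
      have := D.w_ne_zero
      field_simp
    rw [h2] at h1
    rw [← mul_assoc, ← h1]; ring

theorem good_of_mem_ringB (D : CoverSplit V W w m ζ y g c) {x : L} (hx : x ∈ ringB V y) :
    Good V W w y x := by
  induction hx using Subring.closure_induction with
  | mem x hx =>
    rcases hx with ⟨a, ha, rfl⟩ | ⟨i, rfl⟩
    · exact good_algebraMap ha
    · exact D.good_y i
  | zero => simpa using good_algebraMap (V := V) (W := W) (w := w) (y := y) V.zero_mem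
  | one => simpa using good_algebraMap (V := V) (W := W) (w := w) (y := y) V.one_mem
  | add x x' _ _ hx hx' => exact good_add hx hx'
  | neg x _ hx => exact good_neg hx
  | mul x x' _ _ hx hx' => exact D.good_mul hx hx'

/-- If `x = a + w t` is a unit of `W` then `a` is a unit of `V`. -/
theorem inv_mem_of_good_of_val_eq_one (D : CoverSplit V W w m ζ y g c) {a : F} (ha : a ∈ V)
    {t x : L} (ht : t ∈ W) (hx : x = φ a + φ w * t) (hv : W.valuation x = 1) :
    a ≠ 0 ∧ a⁻¹ ∈ V := by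
  have hwt : W.valuation (φ w * t) < 1 := by
    rw [map_mul]
    calc W.valuation (φ w) * W.valuation t ≤ W.valuation (φ w) * 1 := by
          gcongr
          exact (W.valuation_le_one_iff _).2 ht
      _ = W.valuation (φ w) := mul_one _
      _ < 1 := D.val_w_lt
  have hva : W.valuation (φ a) = 1 := by
    have h1 : φ a = x + -(φ w * t) := by rw [hx]; ring
    rw [h1, Valuation.map_add_eq_of_lt_left]
    · exact hv
    · rw [Valuation.map_neg, hv]; exact hwt
  have ha0 : a ≠ 0 := by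
    rintro rfl
    rw [map_zero, map_zero] at hva
    exact zero_ne_one hva
  refine ⟨ha0, ?_⟩
  rw [← D.ext, map_inv₀]
  exact inv_mem_of_val_eq_one W hva

/-- If `x = a + w t` is a non-unit of `W` then `w ∣ a` in `V`. -/
theorem mul_inv_mem_of_good_of_val_lt (D : CoverSplit V W w m ζ y g c) {a : F}
    {t x : L} (ht : t ∈ W) (hx : x = φ a + φ w * t) (hv : W.valuation x < 1) :
    a * w⁻¹ ∈ V := by
  have hwt : W.valuation (φ w * t) < 1 := by
    rw [map_mul]
    calc W.valuation (φ w) * W.valuation t ≤ W.valuation (φ w) * 1 := by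
          gcongr
          exact (W.valuation_le_one_iff _).2 ht
      _ = W.valuation (φ w) := mul_one _
      _ < 1 := D.val_w_lt
  apply D.mul_inv_mem_of_val_lt
  have h1 : φ a = x + -(φ w * t) := by rw [hx]; ring
  rw [h1]
  refine lt_of_le_of_lt (Valuation.map_add _ _ _) (max_lt hv ?_)
  rw [Valuation.map_neg]; exact hwt

theorem good_inv (D : CoverSplit V W w m ζ y g c) {s : L} (hs : s ∈ ringB V y)
    (hv : W.valuation s = 1) : Good V W w y s⁻¹ := by
  obtain ⟨a, ha, t, ht, hst⟩ := D.good_of_mem_ringB hs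
  obtain ⟨ha0, ha'⟩ := D.inv_mem_of_good_of_val_eq_one ha (D.ringB'_le ht) hst hv
  have hs0 : s ≠ 0 := by
    rintro rfl
    rw [map_zero] at hv
    exact zero_ne_one hv
  have hφa0 : φ a ≠ 0 := fun h => ha0 ((algebraMap F L).injective (by rw [h, map_zero]))
  refine ⟨a⁻¹, ha', -(t * s⁻¹ * φ a⁻¹), ?_, ?_⟩
  · exact Subring.neg_mem _ (Subring.mul_mem _ (Subring.mul_mem _ ht (inv_mem_ringB' hs hv))
      (ringB_le_ringB' (algebraMap_mem_ringB ha')))
  · rw [map_inv₀]
    have h1 : φ w * t = s - φ a := by rw [hst]; ring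
    have : φ w * -(t * s⁻¹ * (φ a)⁻¹) = -((φ w * t) * s⁻¹ * (φ a)⁻¹) := by ring
    rw [this, h1]
    field_simp
    ring

theorem good_of_mem_ringB' (D : CoverSplit V W w m ζ y g c) {x : L} (hx : x ∈ ringB' V W y) :
    Good V W w y x := by
  induction hx using Subring.closure_induction with
  | mem x hx =>
    rcases hx with hx | ⟨s, hs, hv, rfl⟩
    · exact D.good_of_mem_ringB hx
    · exact D.good_inv hs hv
  | zero => simpa using good_algebraMap (V := V) (W := W) (w := w) (y := y) V.zero_mem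
  | one => simpa using good_algebraMap (V := V) (W := W) (w := w) (y := y) V.one_mem
  | add x x' _ _ hx hx' => exact good_add hx hx'
  | neg x _ hx => exact good_neg hx
  | mul x x' _ _ hx hx' => exact D.good_mul hx hx'

/-- Clearing denominators: `w ^ k x ∈ V[y_i]` for `k ≫ 0`. -/
theorem exists_pow_mul_mem_ringB (D : CoverSplit V W w m ζ y g c) (x : L) :
    ∃ k : ℕ, φ w ^ k * x ∈ ringB V y := by
  have hx : x ∈ Algebra.adjoin F (Set.range y) := by rw [D.gen]; trivial
  have hwB : φ w ∈ ringB V y := algebraMap_mem_ringB D.w_mem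
  induction hx using Algebra.adjoin_induction with
  | mem x hx =>
    obtain ⟨i, rfl⟩ := hx
    exact ⟨0, by rw [pow_zero, one_mul]; exact y_mem_ringB i⟩
  | algebraMap a =>
    obtain ⟨k, hk⟩ := D.w_disc a
    refine ⟨k, ?_⟩
    have : φ w ^ k * φ a = φ (a * w ^ k) := by rw [map_mul, map_pow]; ring
    rw [this]
    exact algebraMap_mem_ringB hk
  | add x x' _ _ hx hx' =>
    obtain ⟨k, hk⟩ := hx
    obtain ⟨k', hk'⟩ := hx'
    refine ⟨k + k', ?_⟩
    have : φ w ^ (k + k') * (x + x') = φ w ^ k' * (φ w ^ k * x) + φ w ^ k * (φ w ^ k' * x') := by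
      rw [pow_add]; ring
    rw [this]
    exact Subring.add_mem _ (Subring.mul_mem _ (Subring.pow_mem _ hwB _) hk)
      (Subring.mul_mem _ (Subring.pow_mem _ hwB _) hk')
  | mul x x' _ _ hx hx' =>
    obtain ⟨k, hk⟩ := hx
    obtain ⟨k', hk'⟩ := hx'
    refine ⟨k + k', ?_⟩
    have : φ w ^ (k + k') * (x * x') = (φ w ^ k * x) * (φ w ^ k' * x') := by
      rw [pow_add]; ring
    rw [this]
    exact Subring.mul_mem _ hk hk'

/-- Descending induction: dividing by `w` stays in the localisation as long as we stay in `W`. -/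
theorem mem_ringB'_of_mul_inv_pow_mem (D : CoverSplit V W w m ζ y g c) :
    ∀ (k : ℕ) (z : L), z ∈ ringB' V W y → z * (φ w)⁻¹ ^ k ∈ W → z * (φ w)⁻¹ ^ k ∈ ringB' V W y := by
  intro k
  induction k with
  | zero =>
    intro z hz _
    rwa [pow_zero, mul_one]
  | succ k ih =>
    intro z hz hzW
    have hw0 := D.φw_ne_zero
    -- `z` is a non-unit of `W`
    have hzlt : W.valuation z < 1 := by
      have h1 : z = z * (φ w)⁻¹ ^ (k + 1) * φ w ^ (k + 1) := by
        rw [inv_pow, mul_assoc, inv_mul_cancel₀ (pow_ne_zero _ hw0), mul_one]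
      rw [h1, map_mul, map_pow]
      calc W.valuation (z * (φ w)⁻¹ ^ (k + 1)) * W.valuation (φ w) ^ (k + 1)
          ≤ 1 * W.valuation (φ w) ^ (k + 1) := by
            gcongr
            exact (W.valuation_le_one_iff _).2 hzW
        _ = W.valuation (φ w) ^ (k + 1) := one_mul _
        _ < 1 := pow_lt_one₀ zero_le D.val_w_lt (Nat.succ_ne_zero k)
    obtain ⟨a, ha, t, ht, hzt⟩ := D.good_of_mem_ringB' hz
    have haw : a * w⁻¹ ∈ V := D.mul_inv_mem_of_good_of_val_lt (D.ringB'_le ht) hzt hzlt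
    -- `z / w = a / w + t`
    have hz1 : z * (φ w)⁻¹ = φ (a * w⁻¹) + t := by
      rw [hzt, map_mul, map_inv₀]
      field_simp
    have hz1B : z * (φ w)⁻¹ ∈ ringB' V W y := by
      rw [hz1]
      exact Subring.add_mem _ (ringB_le_ringB' (algebraMap_mem_ringB haw)) ht
    have heq : z * (φ w)⁻¹ ^ (k + 1) = z * (φ w)⁻¹ * (φ w)⁻¹ ^ k := by
      rw [pow_succ]; ring
    rw [heq] at hzW ⊢
    exact ih _ hz1B hzW

/-- `W` is the localisation of `V[y_i]` at its centre. -/
theorem mem_ringB' (D : CoverSplit V W w m ζ y g c) {x : L} (hx : x ∈ W) : x ∈ ringB' V W y := by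
  obtain ⟨k, hk⟩ := D.exists_pow_mul_mem_ringB x
  have hw0 := D.φw_ne_zero
  have h1 : x = (φ w ^ k * x) * (φ w)⁻¹ ^ k := by
    rw [inv_pow, mul_comm (φ w ^ k) x, mul_assoc, mul_inv_cancel₀ (pow_ne_zero _ hw0), mul_one]
  rw [h1]
  refine D.mem_ringB'_of_mul_inv_pow_mem k _ (ringB_le_ringB' hk) ?_
  rw [← h1]
  exact hx

/-- **COVER-SPLIT (2)**: `W = V + w W`: the residue field of `W` is that of `V`. -/
theorem exists_sub_mem (D : CoverSplit V W w m ζ y g c) {x : L} (hx : x ∈ W) :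
    ∃ a ∈ V, (x - φ a) * (φ w)⁻¹ ∈ W := by
  obtain ⟨a, ha, t, ht, hxt⟩ := D.good_of_mem_ringB' (D.mem_ringB' hx)
  refine ⟨a, ha, ?_⟩
  have hw0 := D.φw_ne_zero
  have : (x - φ a) * (φ w)⁻¹ = t := by
    rw [hxt]; field_simp; ring
  rw [this]
  exact D.ringB'_le ht

/-- **COVER-SPLIT (1)**: `𝔪_W = w W` (`e = 1`). -/
theorem mul_inv_mem (D : CoverSplit V W w m ζ y g c) {x : L} (hx : x ∈ W) (hx' : x⁻¹ ∉ W) :
    x * (φ w)⁻¹ ∈ W := by
  obtain ⟨a, ha, t, ht, hxt⟩ := D.good_of_mem_ringB' (D.mem_ringB' hx)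
  have hlt : W.valuation x < 1 := val_lt_one_of_inv_notMem W hx'
  have haw : a * w⁻¹ ∈ V := D.mul_inv_mem_of_good_of_val_lt (D.ringB'_le ht) hxt hlt
  have hw0 := D.φw_ne_zero
  have : x * (φ w)⁻¹ = φ (a * w⁻¹) + t := by
    rw [hxt, map_mul, map_inv₀]
    field_simp
  rw [this]
  exact W.add_mem _ _ ((D.ext _).2 haw) (D.ringB'_le ht)

/-! ### The decomposition group is trivial -/

/-- A ring endomorphism of `L` fixing `F` and mapping `𝔪_W` into itself fixes every `y_i`. -/
theorem map_y_eq (D : CoverSplit V W w m ζ y g c) (σ : L →+* L) (hσF : ∀ a : F, σ (φ a) = φ a)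
    (hσ : ∀ x, W.valuation x < 1 → W.valuation (σ x) < 1) (i : ι) : σ (y i) = y i := by
  have hy0 : y i ≠ 0 := by
    intro h
    have := D.val_y i
    rw [h, map_zero] at this
    exact zero_ne_one this
  -- `σ y = ρ y` with `ρ` a root of unity of `F`
  have hpow : (σ (y i) * (y i)⁻¹) ^ m = 1 := by
    rw [mul_pow, ← map_pow, D.pow_eq, hσF, inv_pow, D.pow_eq]
    exact mul_inv_cancel₀ (by
      intro h
      exact D.g_ne_zero i ((algebraMap F L).injective (by rw [h, map_zero])))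
  obtain ⟨ρ, hρ, hρy⟩ := D.exists_root_eq hpow
  have hσy : σ (y i) = φ ρ * y i := by
    rw [hρy, mul_assoc, inv_mul_cancel₀ hy0, mul_one]
  by_cases hρ1 : ρ = 1
  · rw [hσy, hρ1, map_one, one_mul]
  exfalso
  obtain ⟨ξ₀, hξ, h⟩ := D.exists_root_val_lt i
  -- `(ρ - 1) ξ₀ c ∈ 𝔪_W`
  have h1 : W.valuation (σ (y i - φ (ξ₀ * c i))) < 1 := hσ _ h
  rw [map_sub, hσF, hσy] at h1
  have h2 : W.valuation (φ ρ * (y i - φ (ξ₀ * c i))) < 1 := by
    rw [map_mul]
    calc W.valuation (φ ρ) * W.valuation (y i - φ (ξ₀ * c i))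
        ≤ 1 * W.valuation (y i - φ (ξ₀ * c i)) := by
          gcongr
          exact D.val_le_one (D.root_mem hρ)
      _ = W.valuation (y i - φ (ξ₀ * c i)) := one_mul _
      _ < 1 := h
  have h3 : φ ((ρ - 1) * (ξ₀ * c i)) =
      (φ ρ * y i - φ (ξ₀ * c i)) + -(φ ρ * (y i - φ (ξ₀ * c i))) := by
    simp only [map_mul, map_sub, map_one]; ring
  have h4 : W.valuation (φ ((ρ - 1) * (ξ₀ * c i))) < 1 := by
    rw [h3]
    refine lt_of_le_of_lt (Valuation.map_add _ _ _) (max_lt h1 ?_)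
    rw [Valuation.map_neg]; exact h2
  -- but it is a unit of `V`
  have hu : ((ρ - 1) * (ξ₀ * c i))⁻¹ ∈ V := by
    have h5 : (1 - ρ)⁻¹ ∈ V := D.one_sub_root_inv_mem hρ hρ1
    have : ((ρ - 1) * (ξ₀ * c i))⁻¹ = -((1 - ρ)⁻¹ * (ξ₀⁻¹ * (c i)⁻¹)) := by
      have e1 : ρ - 1 = -(1 - ρ) := by ring
      rw [e1, neg_mul, inv_neg, mul_inv, mul_inv]
    rw [this]
    exact V.neg_mem _ (V.mul_mem _ _ h5 (V.mul_mem _ _ (D.root_inv_mem hξ) (D.c_inv i)))
  have hc0 : c i ≠ 0 := by
    intro h0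
    have h6 := D.cong i
    rw [h0, zero_pow D.m_pos.ne', sub_zero] at h6
    apply D.w_inv_notMem
    have : w⁻¹ = (g i)⁻¹ * (g i * w⁻¹) := by
      have := D.g_ne_zero i
      field_simp
    rw [this]
    exact V.mul_mem _ _ (D.g_inv i) h6
  have hne : (ρ - 1) * (ξ₀ * c i) ≠ 0 :=
    mul_ne_zero (sub_ne_zero.2 hρ1) (mul_ne_zero (D.root_ne_zero hξ) hc0)
  have hV : (ρ - 1) * (ξ₀ * c i) ∈ V :=
    V.mul_mem _ _ (sub_mem (D.root_mem hρ) V.one_mem)
      (V.mul_mem _ _ (D.root_mem hξ) (D.c_mem i))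
  have h7 := D.val_eq_one hV hu hne
  rw [h7] at h4
  exact lt_irrefl _ h4

/-- **COVER-SPLIT (3)**, ring-hom form: a ring endomorphism of `L` over `F` which maps the
maximal ideal of `W` into itself is the identity. -/
theorem eq_id_of_map_lt (D : CoverSplit V W w m ζ y g c) (σ : L →+* L)
    (hσF : ∀ a : F, σ (φ a) = φ a) (hσ : ∀ x, W.valuation x < 1 → W.valuation (σ x) < 1)
    (x : L) : σ x = x := by
  let σ' : L →ₐ[F] L := { σ with commutes' := hσF }
  have h : σ' = AlgHom.id F L := by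
    refine AlgHom.ext_of_adjoin_eq_top D.gen ?_
    rintro _ ⟨i, rfl⟩
    exact D.map_y_eq σ hσF hσ i
  have := congrArg (fun f : L →ₐ[F] L => f x) h
  exact this

/-- **COVER-SPLIT (3)**: an `F`-automorphism of `L` with `σ W = W` is the identity
(`V` splits completely in `L`). -/
theorem eq_one_of_map_eq (D : CoverSplit V W w m ζ y g c) (σ : L ≃ₐ[F] L)
    (hσ : ∀ x, x ∈ W ↔ σ x ∈ W) : σ = 1 := by
  ext x
  refine D.eq_id_of_map_lt (σ : L →+* L) (fun a => σ.commutes a) ?_ x
  intro z hz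
  by_cases hz0 : z = 0
  · rw [hz0, map_zero, map_zero]; exact zero_lt_one
  have hzW : z ∈ W := (W.valuation_le_one_iff _).1 hz.le
  have hzinv : z⁻¹ ∉ W := inv_notMem_of_val_lt_one W hz0 hz
  apply val_lt_one_of_inv_notMem
  show (σ z)⁻¹ ∉ W
  rw [← map_inv₀, ← hσ]
  exact hzinv

end CoverSplit

end Fermat.Agent.A2.H93

end
-- ===== PACK-END A2/H93/CoverSplit.lean

-- ===== PACK-BEGIN S13/H175/InertiaLift.lean
section


set_option autoImplicit false

/-!
# Lifting inertia elements along a closed normal subgroup of a profinite group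

`G` profinite acting continuously on a discrete commutative ring `B`, `N` a closed normal
subgroup, `Q` a prime of `B`.  If `g₀ ∈ G` acts trivially modulo `Q` on the `N`-invariants of `B`
then there is `σ ∈ g₀ N` acting trivially modulo `Q` on all of `B`.
-/

open scoped Pointwise

namespace Fermat.Agent.S13.H175

universe u

section

variable {B : Type*} [CommRing B]
variable {G : Type u} [Group G] [MulSemiringAction G B]

theorem isInvariant_fixedPoints (N : Subgroup G) :
    Algebra.IsInvariant (FixedPoints.subalgebra ℤ B N) B N :=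
  ⟨fun b hb => ⟨⟨b, fun n => hb n⟩, rfl⟩⟩

theorem smul_mem_fixedPoints (N : Subgroup G) [hn : N.Normal] (g : G) {x : B}
    (hx : ∀ n ∈ N, n • x = x) : ∀ n ∈ N, n • (g • x) = g • x := by
  intro n hnN
  have h1 : g⁻¹ * n * g ∈ N := by
    have := hn.conj_mem n hnN g⁻¹
    simpa using this
  have h2 := hx _ h1
  calc n • (g • x) = g • ((g⁻¹ * n * g) • x) := by
        simp [mul_smul]
    _ = g • x := by rw [h2]

end

variable {B : Type*} [CommRing B]
variable {G : Type u} [Group G] [MulSemiringAction G B]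
variable [TopologicalSpace G] [CompactSpace G] [TotallyDisconnectedSpace G]
variable [IsTopologicalGroup G] [TopologicalSpace B] [DiscreteTopology B] [ContinuousSMul G B]

theorem exists_inertia_lift (N : Subgroup G) [hn : N.Normal] (hN : IsClosed (N : Set G))
    (Q : Ideal B) [hQ : Q.IsPrime] (g₀ : G)
    (h₀ : ∀ x : B, (∀ n ∈ N, n • x = x) → g₀ • x - x ∈ Q) :
    ∃ σ : G, g₀⁻¹ * σ ∈ N ∧ ∀ x : B, σ • x - x ∈ Q := by
  have : CompactSpace N := isCompact_iff_compactSpace.mp hN.isCompact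
  have := isInvariant_fixedPoints (B := B) N
  -- Step 1: move `g₀ • Q` back to `Q` by an element of `N`.
  have hunder : (g₀ • Q).under (FixedPoints.subalgebra ℤ B N) =
      Q.under (FixedPoints.subalgebra ℤ B N) := by
    ext ⟨x, hx⟩
    have hx' : ∀ n ∈ N, n • x = x := fun n hn' => hx ⟨n, hn'⟩
    simp only [Ideal.mem_comap]
    show x ∈ g₀ • Q ↔ x ∈ Q
    rw [Ideal.mem_pointwise_smul_iff_inv_smul_mem]
    have hy : ∀ n ∈ N, n • (g₀⁻¹ • x) = g₀⁻¹ • x := smul_mem_fixedPoints N g₀⁻¹ hx'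
    have h1 := h₀ _ hy
    rw [smul_inv_smul] at h1
    constructor
    · intro h
      have := Q.add_mem h1 h
      simpa using this
    · intro h
      have := Q.sub_mem h h1
      simpa using this
  obtain ⟨n, hn1⟩ := Algebra.IsInvariant.exists_smul_of_under_eq_of_profinite
    (A := FixedPoints.subalgebra ℤ B N) (G := N) (g₀ • Q) Q hunder
  -- `g₁ = n g₀` stabilises `Q` and still acts trivially mod `Q` on the `N`-invariants
  set g₁ : G := (n : G) * g₀ with hg₁
  have hg₁Q : g₁ • Q = Q := by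
    rw [hg₁, mul_smul]
    exact hn1.symm
  have hg₁fix : ∀ x : B, (∀ m ∈ N, m • x = x) → g₁ • x - x ∈ Q := by
    intro x hx
    have h1 : (n : G) • (g₀ • x) = g₀ • x := smul_mem_fixedPoints N g₀ hx n n.2
    rw [hg₁, mul_smul, h1]
    exact h₀ x hx
  -- Step 2: the automorphism of `B ⧸ Q` induced by `g₁` is `B' ⧸ Q'`-linear
  let e₀ : (B ⧸ Q) ≃ₐ[ℤ ⧸ Q.under ℤ] (B ⧸ Q) :=
    Ideal.Quotient.stabilizerHom Q (Q.under ℤ) G ⟨g₁, hg₁Q⟩
  have he₀ : ∀ x : B, e₀ (Ideal.Quotient.mk Q x) = Ideal.Quotient.mk Q (g₁ • x) := fun x => rfl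
  let e : (B ⧸ Q) ≃ₐ[FixedPoints.subalgebra ℤ B N ⧸ Q.under (FixedPoints.subalgebra ℤ B N)]
      (B ⧸ Q) :=
    AlgEquiv.ofRingEquiv (f := e₀.toRingEquiv) (by
      intro x
      obtain ⟨⟨b, hb⟩, rfl⟩ := Ideal.Quotient.mk_surjective x
      have hb' : ∀ m ∈ N, m • b = b := fun m hm => hb ⟨m, hm⟩
      show e₀ (Ideal.Quotient.mk Q b) = Ideal.Quotient.mk Q b
      rw [he₀, Ideal.Quotient.eq]
      exact hg₁fix b hb')
  obtain ⟨n', hn'⟩ := Ideal.Quotient.stabilizerHom_surjective_of_profinite (G := N)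
    (Q.under (FixedPoints.subalgebra ℤ B N)) Q e
  have hn'Q : (n' : N) • Q = Q := n'.2
  have hkey : ∀ x : B, ((n' : N) : G) • x - g₁ • x ∈ Q := by
    intro x
    have h1 := congrArg (fun t => t (Ideal.Quotient.mk Q x)) hn'
    simp only [Ideal.Quotient.stabilizerHom_apply] at h1
    have h2 : e (Ideal.Quotient.mk Q x) = Ideal.Quotient.mk Q (g₁ • x) := he₀ x
    rw [h2] at h1
    exact Ideal.Quotient.eq.mp h1
  refine ⟨((n' : N) : G)⁻¹ * g₁, ?_, fun x => ?_⟩
  · have h1 : ((n' : N) : G)⁻¹ * (n : G) ∈ N := N.mul_mem (N.inv_mem (n' : N).2) n.2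
    have h2 := hn.conj_mem _ h1 g₀⁻¹
    have h3 : g₀⁻¹ * (((n' : N) : G)⁻¹ * g₁) = g₀⁻¹ * (((n' : N) : G)⁻¹ * (n : G)) * g₀⁻¹⁻¹ := by
      rw [hg₁]; group
    rw [h3]
    exact h2
  · have h1 : g₁ • x - ((n' : N) : G) • x ∈ Q := by
      have := Q.neg_mem (hkey x)
      simpa using this
    have h2 : ((n' : N) : G)⁻¹ • (g₁ • x - ((n' : N) : G) • x) ∈ Q := by
      have h3 : g₁ • x - ((n' : N) : G) • x ∈ ((n' : N) : G) • Q := by
        have : ((n' : N) : G) • Q = Q := hn'Q
        rw [this]; exact h1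
      exact Ideal.mem_pointwise_smul_iff_inv_smul_mem.mp h3
    have h4 : ((n' : N) : G)⁻¹ • (g₁ • x - ((n' : N) : G) • x) =
        (((n' : N) : G)⁻¹ * g₁) • x - x := by
      rw [smul_sub, inv_smul_smul, ← mul_smul]
    rw [← h4]
    exact h2

end Fermat.Agent.S13.H175

end
-- ===== PACK-END S13/H175/InertiaLift.lean

-- ===== PACK-BEGIN A2/H528/FrobCong.lean
section





/-!
# A2 — the Frobenius congruence `f(q^ℓ) ≡ f(q)^ℓ (mod ℓ)` for Laurent series

* `qExpand_eq_pow_zmod` : over `𝔽_ℓ`, `f(q^ℓ) = f(q)^ℓ`;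
* `exists_frobCong`     : over `ℤ`, `f(q^ℓ) - f(q)^ℓ = ℓ · g` with `g ∈ ℤ((q))`.
-/

set_option autoImplicit false

noncomputable section

open ModularCurve HahnSeries

namespace Fermat.Agent.A2.H528

theorem qExpand_ofPowerSeries {R : Type*} [CommRing R] (n : ℕ) [NeZero n] (u : PowerSeries R) :
    qExpand R n (HahnSeries.ofPowerSeries ℤ R u)
      = HahnSeries.ofPowerSeries ℤ R (u.expand n (NeZero.ne n)) := by
  have hn : (n : ℤ) ≠ 0 := by exact_mod_cast NeZero.ne n
  have hn0 : 0 < (n : ℤ) := by exact_mod_cast Nat.pos_of_ne_zero (NeZero.ne n)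
  ext k
  by_cases hk : (n : ℤ) ∣ k
  · obtain ⟨m, rfl⟩ := hk
    rw [qExpand_coeff_mul]
    rcases le_or_gt 0 m with hm | hm
    · lift m to ℕ using hm
      rw [HahnSeries.ofPowerSeries_apply_coeff,
        show (n : ℤ) * (m : ℤ) = ((n * m : ℕ) : ℤ) by push_cast; ring,
        HahnSeries.ofPowerSeries_apply_coeff, PowerSeries.coeff_expand_mul]
    · rw [ofPowerSeries_coeff_of_neg _ hm,
        ofPowerSeries_coeff_of_neg _ (mul_neg_of_pos_of_neg hn0 hm)]
  · rw [qExpand_coeff_of_not_dvd n _ hk]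
    rcases le_or_gt 0 k with hk0 | hk0
    · lift k to ℕ using hk0
      rw [HahnSeries.ofPowerSeries_apply_coeff, PowerSeries.coeff_expand_of_not_dvd]
      intro h
      exact hk (by exact_mod_cast h)
    · rw [ofPowerSeries_coeff_of_neg _ hk0]

variable (ℓ : ℕ) [hℓ : Fact ℓ.Prime]

theorem powerSeries_pow_eq_expand (u : PowerSeries (ZMod ℓ)) :
    u ^ ℓ = u.expand ℓ hℓ.out.ne_zero := by
  have h := MvPowerSeries.map_frobenius_expand (σ := Unit) (R := ZMod ℓ) ℓ hℓ.out.ne_zero (f := u)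
  have hf : frobenius (ZMod ℓ) ℓ = RingHom.id (ZMod ℓ) := by
    ext a
    simp
  rw [hf, MvPowerSeries.map_id] at h
  exact h.symm

/-- **Frobenius in characteristic `ℓ`**: `f(q^ℓ) = f(q)^ℓ` for `f ∈ 𝔽_ℓ((q))`. -/
theorem qExpand_eq_pow_zmod (f : LaurentSeries (ZMod ℓ)) :
    qExpand (ZMod ℓ) ℓ f = f ^ ℓ := by
  conv_lhs => rw [← LaurentSeries.single_order_mul_powerSeriesPart f]
  conv_rhs => rw [← LaurentSeries.single_order_mul_powerSeriesPart f]
  rw [map_mul, mul_pow, qExpand_single, HahnSeries.single_pow, one_pow, qExpand_ofPowerSeries,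
    ← map_pow, powerSeries_pow_eq_expand, nsmul_eq_mul]

/-- division by `ℓ` as a zero-preserving map of `ℤ` -/
def divPrime : ZeroHom ℤ ℤ where
  toFun c := c / ℓ
  map_zero' := by simp

/-- **Frobenius congruence**: `f(q^ℓ) - f(q)^ℓ ∈ ℓ · ℤ((q))` for `f ∈ ℤ((q))`. -/
theorem exists_frobCong (x : LaurentSeries ℤ) :
    ∃ g : LaurentSeries ℤ, qExpand ℤ ℓ x - x ^ ℓ = HahnSeries.C (ℓ : ℤ) * g := by
  set D : LaurentSeries ℤ := qExpand ℤ ℓ x - x ^ ℓ with hD
  have h0 : coeffMap (Int.castRingHom (ZMod ℓ)) D = 0 := by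
    rw [hD, map_sub, map_pow, coeffMap_qExpand, qExpand_eq_pow_zmod, sub_self]
  have hdvd : ∀ k : ℤ, (ℓ : ℤ) ∣ D.coeff k := by
    intro k
    have h1 := congrArg (fun s => s.coeff k) h0
    simp only [coeffMap_coeff, HahnSeries.coeff_zero, eq_intCast] at h1
    exact (ZMod.intCast_zmod_eq_zero_iff_dvd _ _).mp h1
  refine ⟨D.map (divPrime ℓ), ?_⟩
  ext k
  rw [HahnSeries.C_mul_eq_smul, HahnSeries.coeff_smul, HahnSeries.map_coeff, smul_eq_mul]
  show D.coeff k = (ℓ : ℤ) * (D.coeff k / ℓ)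
  rw [Int.mul_ediv_cancel' (hdvd k)]

end Fermat.Agent.A2.H528

end
end
-- ===== PACK-END A2/H528/FrobCong.lean

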