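import Mathlib.RingTheory.Finiteness.Basic
import Mathlib.LinearAlgebra.Quotient.Basic
import Mathlib
import Fermat.Agent.Pack.S34.G0E2L2
import Fermat.Agent.Pack.S34.G0E2L0
import Fermat.Agent.Pack.S34.G0E3L2
import Fermat.Agent.Pack.S34.G0E3L3
import Fermat.Agent.Pack.S34.G0E1L1
import Fermat.Agent.Pack.S34.G0E1L2
import Fermat.Agent.Pack.S34.G0E1L0
import Fermat.Agent.Pack.S34.G0E2L3

-- ===== PACK-BEGIN S30/H990/Limit.lean
section
/-
S30 top glue (helper990): the quadratic relation for every element of `G_ℚ`.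
* `adic_compactness`: a decreasing sequence of nonempty "closed" subsets of a complete ring with
  finite quotients `R ⧸ I ^ n` has a common point.
* `rel_mod_of_mul`: the quadratic relation is stable under multiplication by elements
  congruent to `1`.
* `exists_rel_of_mod`: relations modulo all `𝔪 ^ n` give an exact relation.
-/


set_option autoImplicit false

namespace Fermat.Agent.S30.H990

section Compactness

variable {R : Type*} [CommRing R] (I : Ideal R)

theorem adic_compactness [IsPrecomplete I R] (hfin : ∀ n, Finite (R ⧸ I ^ n))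
    (A : ℕ → Set R) (hne : ∀ n, (A n).Nonempty) (hanti : ∀ m n, m ≤ n → A n ⊆ A m)
    (hclosed : ∀ n a a', a ∈ A n → a' - a ∈ I ^ n → a' ∈ A n) :
    ∃ a, ∀ n, a ∈ A n := by
  classical
  -- `x` is approximable to order `n` by elements of all `A N`
  let Good : ℕ → R → Prop := fun n x => ∀ N, ∃ a ∈ A N, a - x ∈ I ^ n
  have good0 : Good 0 0 := by
    intro N
    obtain ⟨a, ha⟩ := hne N
    exact ⟨a, ha, by simp⟩
  have step : ∀ n x, Good n x → ∃ y, y - x ∈ I ^ n ∧ Good (n + 1) y := by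
    intro n x hx
    choose a ha hax using hx
    have := hfin (n + 1)
    obtain ⟨y₀, hy₀⟩ := Finite.exists_infinite_fiber
      (fun N : ℕ => Ideal.Quotient.mk (I ^ (n + 1)) (a N))
    have hinf : (((fun N : ℕ => Ideal.Quotient.mk (I ^ (n + 1)) (a N)) ⁻¹' {y₀}) : Set ℕ).Infinite :=
      Set.infinite_coe_iff.mp hy₀
    obtain ⟨N₀, hN₀⟩ := hinf.nonempty
    refine ⟨a N₀, hax N₀, fun N => ?_⟩
    obtain ⟨N', hN', hlt⟩ := hinf.exists_gt N
    refine ⟨a N', hanti N N' hlt.le (ha N'), ?_⟩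
    rw [← Ideal.Quotient.eq]
    have h1 : Ideal.Quotient.mk (I ^ (n + 1)) (a N') = y₀ := hN'
    have h2 : Ideal.Quotient.mk (I ^ (n + 1)) (a N₀) = y₀ := hN₀
    rw [h1, h2]
  let s : (n : ℕ) → {x : R // Good n x} := fun n =>
    Nat.rec (motive := fun n => {x : R // Good n x}) ⟨0, good0⟩
      (fun n prev => ⟨(step n prev.1 prev.2).choose, (step n prev.1 prev.2).choose_spec.2⟩) n
  have hs : ∀ n, (s (n + 1)).1 - (s n).1 ∈ I ^ n := fun n =>
    (step n (s n).1 (s n).2).choose_spec.1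
  have hcauchy : ∀ m n, m ≤ n → (s n).1 - (s m).1 ∈ I ^ m := by
    intro m n hmn
    induction n, hmn using Nat.le_induction with
    | base => simp
    | succ n hmn ih =>
      have h1 : (s (n + 1)).1 - (s n).1 ∈ I ^ m := Ideal.pow_le_pow_right hmn (hs n)
      have : (s (n + 1)).1 - (s m).1 = ((s (n + 1)).1 - (s n).1) + ((s n).1 - (s m).1) := by ring
      rw [this]
      exact (I ^ m).add_mem h1 ih
  obtain ⟨L, hL⟩ := IsPrecomplete.prec' (I := I) (M := R) (fun n => (s n).1) (by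
    intro m n hmn
    rw [SModEq.sub_mem, smul_eq_mul, Ideal.mul_top]
    have := hcauchy m n hmn
    rw [← neg_sub]
    exact (I ^ m).neg_mem this)
  refine ⟨L, fun n => ?_⟩
  obtain ⟨a, ha, hax⟩ := (s n).2 n
  refine hclosed n a L ha ?_
  have h1 := hL n
  rw [SModEq.sub_mem, smul_eq_mul, Ideal.mul_top] at h1
  have : L - a = -((s n).1 - L) - (a - (s n).1) := by ring
  rw [this]
  exact (I ^ n).sub_mem ((I ^ n).neg_mem h1) hax

end Compactness

section ModRel

variable {𝒪 M : Type*} [CommRing 𝒪] [AddCommGroup M] [Module 𝒪 M]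

theorem map_mem_smul_top (I : Ideal 𝒪) (f : M →ₗ[𝒪] M) {x : M}
    (hx : x ∈ I • (⊤ : Submodule 𝒪 M)) : f x ∈ I • (⊤ : Submodule 𝒪 M) := by
  refine Submodule.smul_induction_on hx ?_ ?_
  · intro r hr n _
    rw [map_smul]
    exact Submodule.smul_mem_smul hr Submodule.mem_top
  · intro x y hx hy
    rw [map_add]
    exact Submodule.add_mem _ hx hy

/-- The quadratic relation of `h` passes, modulo `I`, to `h * s` for `s ≡ 1` and `u ≡ 1`. -/
theorem rel_mod_of_mul (I : Ideal 𝒪) (h s : Module.End 𝒪 M) (t b u : 𝒪)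
    (hrel : h * h - t • h + b • (1 : Module.End 𝒪 M) = 0)
    (hs : ∀ v, s v - v ∈ I • (⊤ : Submodule 𝒪 M)) (hu : u - 1 ∈ I) (v : M) :
    (h * s) ((h * s) v) - t • (h * s) v + (b * u) • v ∈ I • (⊤ : Submodule 𝒪 M) := by
  have h0 : h (h v) - t • h v + b • v = 0 := by
    have := congrArg (fun f : Module.End 𝒪 M => f v) hrel
    simpa using this
  have key : (h * s) ((h * s) v) - t • (h * s) v + (b * u) • v
      = h (s (h v) - h v) + h (s (h (s v - v))) - t • h (s v - v) + (b * (u - 1)) • v := by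
    simp only [Module.End.mul_apply, map_sub]
    rw [← sub_eq_zero]
    rw [← h0]
    module
  rw [key]
  have m1 : s v - v ∈ I • (⊤ : Submodule 𝒪 M) := hs v
  have m2 : s (h v) - h v ∈ I • (⊤ : Submodule 𝒪 M) := hs (h v)
  refine Submodule.add_mem _ (Submodule.sub_mem _ (Submodule.add_mem _ ?_ ?_) ?_) ?_
  · exact map_mem_smul_top I h m2
  · exact map_mem_smul_top I h (map_mem_smul_top I s (map_mem_smul_top I h m1))
  · exact Submodule.smul_mem _ _ (map_mem_smul_top I h m1)
  · exact Submodule.smul_mem_smul (I.mul_mem_left _ hu) Submodule.mem_top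

end ModRel

section Exact

variable {𝒪 M G : Type*} [CommRing 𝒪] [IsLocalRing 𝒪] [IsNoetherianRing 𝒪]
  [IsPrecomplete (IsLocalRing.maximalIdeal 𝒪) 𝒪] [Finite (IsLocalRing.ResidueField 𝒪)]
  [AddCommGroup M] [Module 𝒪 M] [Module.Finite 𝒪 M] [Group G]

/-- Relations modulo all powers of the maximal ideal give an exact relation. -/
theorem exists_rel_of_mod (ρ : G →* Module.End 𝒪 M) (d : G →* 𝒪ˣ) (g : G)
    (hmod : ∀ n : ℕ, ∃ a : 𝒪, ∀ v : M,
      ρ g (ρ g v) - a • ρ g v + ((d g : 𝒪ˣ) : 𝒪) • v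
        ∈ (IsLocalRing.maximalIdeal 𝒪 ^ n) • (⊤ : Submodule 𝒪 M)) :
    ∃ a, Rel ρ d g a := by
  have hfin : ∀ n, Finite (𝒪 ⧸ IsLocalRing.maximalIdeal 𝒪 ^ n) := by
    intro n
    have : Finite (𝒪 ⧸ IsLocalRing.maximalIdeal 𝒪) :=
      (inferInstance : Finite (IsLocalRing.ResidueField 𝒪))
    exact Ideal.finite_quotient_pow (IsNoetherian.noetherian _) n
  obtain ⟨a, ha⟩ := adic_compactness (IsLocalRing.maximalIdeal 𝒪) hfin
    (fun n => {a : 𝒪 | ∀ v : M, ρ g (ρ g v) - a • ρ g v + ((d g : 𝒪ˣ) : 𝒪) • v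
        ∈ (IsLocalRing.maximalIdeal 𝒪 ^ n) • (⊤ : Submodule 𝒪 M)})
    (fun n => hmod n)
    (fun m n hmn a ha v =>
      Submodule.smul_mono_left (Ideal.pow_le_pow_right hmn) (ha v))
    (fun n a a' ha haa' v => by
      have : ρ g (ρ g v) - a' • ρ g v + ((d g : 𝒪ˣ) : 𝒪) • v
          = (ρ g (ρ g v) - a • ρ g v + ((d g : 𝒪ˣ) : 𝒪) • v) - (a' - a) • ρ g v := by
        module
      rw [this]
      exact Submodule.sub_mem _ (ha v) (Submodule.smul_mem_smul haa' Submodule.mem_top))
  refine ⟨a, ?_⟩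
  unfold Rel
  ext v
  have hv : ρ g (ρ g v) - a • ρ g v + ((d g : 𝒪ˣ) : 𝒪) • v
      ∈ ⨅ i : ℕ, (IsLocalRing.maximalIdeal 𝒪 ^ i) • (⊤ : Submodule 𝒪 M) := by
    rw [Submodule.mem_iInf]
    exact fun n => ha n v
  rw [Ideal.iInf_pow_smul_eq_bot_of_isLocalRing _ (IsLocalRing.maximalIdeal.isMaximal 𝒪).ne_top,
    Submodule.mem_bot] at hv
  simpa using hv

end Exact

end Fermat.Agent.S30.H990

end
-- ===== PACK-END S30/H990/Limit.lean

-- ===== PACK-BEGIN S55/H414/CycloLevel.lean
section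


/-!
# S55, leaf CYC-INF (helper414), part 1: the cyclotomic levels `ℚ(ζ_N) ⊆ ℚ̄`

For `N ≠ 0` we define `cycloLevel N = ℚ(ζ_N)` as an intermediate field of `ℚ̄/ℚ`, show that it is
Galois with commutative Galois group, and that it is unramified at every prime not dividing `N`
(in the Prelude sense: inertia groups of valuation subrings of `ℚ̄` fix it pointwise).
-/

set_option autoImplicit false

namespace Fermat.Agent.S55.H414

open ExtCitation Fermat.Agent.S55.Bridge

/-- A chosen primitive `N`-th root of unity in `ℚ̄`. -/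
noncomputable def zetaBar (N : ℕ) [NeZero N] : AlgebraicClosure ℚ :=
  (HasEnoughRootsOfUnity.exists_primitiveRoot (AlgebraicClosure ℚ) N).choose

theorem zetaBar_spec (N : ℕ) [NeZero N] : IsPrimitiveRoot (zetaBar N) N :=
  (HasEnoughRootsOfUnity.exists_primitiveRoot (AlgebraicClosure ℚ) N).choose_spec

/-- The cyclotomic field `ℚ(ζ_N)` inside `ℚ̄`. -/
noncomputable def cycloLevel (N : ℕ) [NeZero N] : IntermediateField ℚ (AlgebraicClosure ℚ) :=
  IntermediateField.adjoin ℚ {zetaBar N}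

theorem zetaBar_mem_cycloLevel (N : ℕ) [NeZero N] : zetaBar N ∈ cycloLevel N :=
  IntermediateField.subset_adjoin ℚ _ rfl

instance isCyclotomicExtension_cycloLevel (N : ℕ) [NeZero N] :
    IsCyclotomicExtension {N} ℚ (cycloLevel N) :=
  haveI : Algebra.IsAlgebraic ℚ (AlgebraicClosure ℚ) := AlgebraicClosure.isAlgebraic ℚ
  haveI : Algebra.IsIntegral ℚ (AlgebraicClosure ℚ) := Algebra.IsAlgebraic.isIntegral
  (zetaBar_spec N).intermediateField_adjoin_isCyclotomicExtension ℚ

instance finiteDimensional_cycloLevel (N : ℕ) [NeZero N] :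
    FiniteDimensional ℚ (cycloLevel N) :=
  IsCyclotomicExtension.finiteDimensional {N} ℚ (cycloLevel N)

instance isGalois_cycloLevel (N : ℕ) [NeZero N] : IsGalois ℚ (cycloLevel N) :=
  IsCyclotomicExtension.isGalois {N} ℚ (cycloLevel N)

/-- An automorphism of `ℚ̄` fixes `ℚ(ζ_N)` pointwise iff it fixes `ζ_N`. -/
theorem mem_fixingSubgroup_cycloLevel_iff (N : ℕ) [NeZero N]
    (σ : AlgebraicClosure ℚ ≃ₐ[ℚ] AlgebraicClosure ℚ) :
    σ ∈ (cycloLevel N).fixingSubgroup ↔ σ (zetaBar N) = zetaBar N := by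
  constructor
  · intro h
    exact (IntermediateField.mem_fixingSubgroup_iff _ σ).1 h _ (zetaBar_mem_cycloLevel N)
  · intro h
    rw [IntermediateField.mem_fixingSubgroup_iff]
    intro x hx
    have hle : cycloLevel N ≤ IntermediateField.fixedField (Subgroup.zpowers σ) := by
      rw [cycloLevel, IntermediateField.adjoin_le_iff]
      rintro y rfl
      rw [SetLike.mem_coe, IntermediateField.mem_fixedField_iff]
      intro τ hτ
      obtain ⟨k, rfl⟩ := Subgroup.mem_zpowers_iff.1 hτ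
      have hfix : ∀ m : ℕ, (σ ^ m) (zetaBar N) = zetaBar N := by
        intro m
        induction m with
        | zero => simp
        | succ m ih => rw [pow_succ, AlgEquiv.mul_apply, h, ih]
      rcases Int.eq_nat_or_neg k with ⟨m, rfl | rfl⟩
      · rw [zpow_natCast]; exact hfix m
      · rw [zpow_neg, zpow_natCast]
        have := hfix m
        calc (σ ^ m)⁻¹ (zetaBar N) = (σ ^ m)⁻¹ ((σ ^ m) (zetaBar N)) := by rw [this]
          _ = zetaBar N := by
            show ((σ ^ m)⁻¹ * (σ ^ m)) (zetaBar N) = zetaBar N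
            rw [inv_mul_cancel]; rfl
    have := hle hx
    rw [IntermediateField.mem_fixedField_iff] at this
    exact this σ (Subgroup.mem_zpowers σ)

/-- Any `N`-th root of unity has valuation `1`. -/
theorem valuation_eq_one_of_pow_eq_one (A : ValuationSubring (AlgebraicClosure ℚ)) {N : ℕ}
    (hN : N ≠ 0) {a : AlgebraicClosure ℚ} (ha : a ^ N = 1) : A.valuation a = 1 := by
  have h : (A.valuation a) ^ N = 1 := by rw [← map_pow, ha, map_one]
  exact (pow_eq_one_iff.1 h).resolve_right hN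

/-- If `N` is a unit at `A` then `ℚ(ζ_N)` is fixed by the inertia group at `A`. -/
theorem inertia_le_fixingSubgroup_cycloLevel (N : ℕ) [NeZero N]
    (A : ValuationSubring (AlgebraicClosure ℚ))
    (hNv : A.valuation (N : AlgebraicClosure ℚ) = 1) :
    A.inertiaSubgroupIn ℚ ≤ (cycloLevel N).fixingSubgroup := by
  intro σ hσ
  rw [mem_fixingSubgroup_cycloLevel_iff]
  by_contra hne
  have hz : zetaBar N ^ N = 1 := (zetaBar_spec N).pow_eq_one
  have hσz : (σ (zetaBar N)) ^ N = 1 := by rw [← map_pow, hz, map_one]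
  have h1 := val_sub_roots_eq_one (A := A) (NeZero.ne N) hNv hσz hz hne
  have h2 := inertia_val_sub_lt_one A hσ (zetaBar N)
    (valuation_eq_one_of_pow_eq_one A (NeZero.ne N) hz).le
  rw [h1] at h2
  exact lt_irrefl _ h2

/-- `ℚ(ζ_{p^n})` is unramified outside every set of primes containing `p`. -/
theorem isUnramifiedOutside_cycloLevel (p : ℕ) [Fact p.Prime] (n : ℕ)
    (S : Finset Nat.Primes) (hpS : pPrime p ∈ S) :
    (cycloLevel (p ^ n)).IsUnramifiedOutside S := by
  refine ⟨inferInstance, fun q hq A hA => ?_⟩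
  apply inertia_le_fixingSubgroup_cycloLevel
  have hp : p.Prime := Fact.out
  have hqp : (q : ℕ) ≠ p := by
    rintro h
    apply hq
    have : q = pPrime p := Subtype.ext h
    rw [this]; exact hpS
  have := val_prime_eq_one (A := A) hA q.2 hp hqp
  rw [Nat.cast_pow, map_pow, this, one_pow]

end Fermat.Agent.S55.H414

end
-- ===== PACK-END S55/H414/CycloLevel.lean

-- ===== PACK-BEGIN S21/IntA.lean
section


/-!
# S21 — INT-A: the `Γ₀(N)`-partition of unity `chi N χ₁` built from an `SL(2,ℤ)`-partition `χ₁`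
-/

set_option autoImplicit false
set_option linter.unusedSectionVars false
set_option linter.style.haveILetI false

open UpperHalfPlane CongruenceSubgroup MeasureTheory
open scoped MatrixGroups ContDiff

namespace Fermat.Agent.S21

namespace IntAAux

theorem mob_mem_Uhp (g : SL(2, ℤ)) (z : ℂ) : mob g z ∈ Uhp := (g • ofComplex z).im_pos

theorem mob_mul (g h : SL(2, ℤ)) (z : ℂ) : mob (g * h) z = mob g (mob h z) := by
  simp only [mob, ofComplex_apply, mul_smul]

theorem continuousOn_mob (g : SL(2, ℤ)) : ContinuousOn (mob g) Uhp := by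
  intro z hz
  have h1 : ContinuousAt (ofComplex : ℂ → ℍ) z := (contMDiffAt_ofComplex (n := 0) hz).continuousAt
  have h2 : ContinuousAt (fun w : ℍ => g • w) (ofComplex z) :=
    (continuous_const_smul (g : GL (Fin 2) ℝ)).continuousAt
  have h3 : ContinuousAt (fun w : ℍ => (w : ℂ)) (g • ofComplex z) :=
    UpperHalfPlane.continuous_coe.continuousAt
  have h4 : ContinuousAt (fun w : ℂ => g • ofComplex w) z :=
    ContinuousAt.comp (f := (ofComplex : ℂ → ℍ)) (g := fun w : ℍ => g • w) h2 h1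
  exact (ContinuousAt.comp (f := fun w : ℂ => g • ofComplex w)
    (g := fun w : ℍ => (w : ℂ)) h3 h4).continuousWithinAt

/-- The support of `g ↦ χ₁ (mob g z)` is finite. -/
theorem finite_support (χ₁ : ℂ → ℝ) (hχ : IsSL2ZPartition χ₁) (z : ℂ) (hz : z ∈ Uhp) :
    (Function.support fun g : SL(2, ℤ) => χ₁ (mob g z)).Finite := by
  refine (hχ.locfin {z} isCompact_singleton (by simpa using hz)).subset ?_
  intro g hg
  exact ⟨z, rfl, hg⟩

/-- `chi` on the upper half plane. -/
theorem chi_of_mem (N : ℕ) (χ₁ : ℂ → ℝ) {z : ℂ} (hz : z ∈ Uhp) :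
    chi N χ₁ z = ∑ᶠ q : SL(2, ℤ) ⧸ Gamma0 N, χ₁ (mob (Quotient.out q) z) := by
  unfold chi
  rw [Set.indicator_of_mem hz]

theorem chi_of_notMem (N : ℕ) (χ₁ : ℂ → ℝ) {z : ℂ} (hz : z ∉ Uhp) :
    chi N χ₁ z = 0 := by
  unfold chi
  rw [Set.indicator_of_notMem hz]

/-- The bijection `(γ, q) ↦ q.out * γ`. -/
noncomputable def prodEquiv (Γ : Subgroup SL(2, ℤ)) : Γ × (SL(2, ℤ) ⧸ Γ) ≃ SL(2, ℤ) where
  toFun p := Quotient.out p.2 * (p.1 : SL(2, ℤ))
  invFun g := (⟨(Quotient.out (QuotientGroup.mk g : SL(2, ℤ) ⧸ Γ))⁻¹ * g, by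
      rw [← QuotientGroup.eq]
      exact QuotientGroup.out_eq' _⟩, QuotientGroup.mk g)
  left_inv := by
    rintro ⟨γ, q⟩
    have h : (QuotientGroup.mk (Quotient.out q * (γ : SL(2, ℤ))) : SL(2, ℤ) ⧸ Γ) = q := by
      rw [QuotientGroup.mk_mul_of_mem _ γ.2]
      exact QuotientGroup.out_eq' q
    ext1
    · apply Subtype.ext
      simp only [h]
      group
    · exact h
  right_inv := by
    intro g
    simp

theorem prodEquiv_apply (Γ : Subgroup SL(2, ℤ)) (γ : Γ) (q : SL(2, ℤ) ⧸ Γ) :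
    prodEquiv Γ (γ, q) = Quotient.out q * (γ : SL(2, ℤ)) := rfl

end IntAAux

open IntAAux

section INT

variable (N : ℕ) [NeZero N] {χ₁ : ℂ → ℝ}

theorem chi_nonneg (hχ : IsSL2ZPartition χ₁) (z : ℂ) : 0 ≤ chi N χ₁ z := by
  unfold chi
  exact Set.indicator_nonneg (fun w _ => finsum_nonneg fun q => hχ.nonneg _) z

theorem chi_le_one (hχ : IsSL2ZPartition χ₁) (z : ℂ) : chi N χ₁ z ≤ 1 := by
  by_cases hz : z ∈ Uhp
  · rw [chi_of_mem N χ₁ hz, ← hχ.sum_eq_one z hz]
    have hfin := finite_support χ₁ hχ z hz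
    -- rewrite the left-hand side as a sum over `SL(2,ℤ)` supported on the range of `Quotient.out`
    classical
    have hinj : Function.Injective (Quotient.out : SL(2, ℤ) ⧸ Gamma0 N → SL(2, ℤ)) :=
      Quotient.out_injective
    have h1 : ∑ᶠ q : SL(2, ℤ) ⧸ Gamma0 N, χ₁ (mob (Quotient.out q) z)
        = ∑ᶠ g ∈ Set.range (Quotient.out : SL(2, ℤ) ⧸ Gamma0 N → SL(2, ℤ)), χ₁ (mob g z) :=
      (finsum_mem_range (f := fun g : SL(2, ℤ) => χ₁ (mob g z)) hinj).symm
    rw [h1, finsum_mem_def]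
    refine finsum_le_finsum' ?_ hfin (fun g => ?_)
    · refine hfin.subset fun g hg => ?_
      simp only [Function.mem_support, ne_eq] at hg ⊢
      intro h0
      apply hg
      rw [Set.indicator_apply, h0, ite_self]
    · show Set.indicator _ _ g ≤ _
      rw [Set.indicator_apply]
      split_ifs
      · exact le_rfl
      · exact hχ.nonneg _
  · rw [chi_of_notMem N χ₁ hz]
    exact zero_le_one

theorem continuousOn_chi (hχ : IsSL2ZPartition χ₁) : ContinuousOn (chi N χ₁) Uhp := by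
  haveI : Finite (SL(2, ℤ) ⧸ Gamma0 N) := Subgroup.finite_quotient_of_finiteIndex
  letI : Fintype (SL(2, ℤ) ⧸ Gamma0 N) := Fintype.ofFinite _
  have h : ContinuousOn
      (fun z => ∑ q : SL(2, ℤ) ⧸ Gamma0 N, χ₁ (mob (Quotient.out q) z)) Uhp := by
    refine continuousOn_finsetSum _ fun q _ => ?_
    exact hχ.smooth.continuousOn.comp (continuousOn_mob _) fun z _ => mob_mem_Uhp _ z
  refine h.congr fun z hz => ?_
  rw [chi_of_mem N χ₁ hz, finsum_eq_sum_of_fintype]

theorem measurable_chi (hχ : IsSL2ZPartition χ₁) : Measurable (chi N χ₁) := by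
  classical
  have h1 : chi N χ₁ = Uhp.piecewise (chi N χ₁) (fun _ => (0 : ℝ)) := by
    funext z
    by_cases hz : z ∈ Uhp
    · rw [Set.piecewise_eq_of_mem _ _ _ hz]
    · rw [Set.piecewise_eq_of_notMem _ _ _ hz, chi_of_notMem N χ₁ hz]
  rw [h1]
  exact (continuousOn_chi N hχ).measurable_piecewise continuousOn_const isOpen_Uhp.measurableSet

theorem chi_locfin (hχ : IsSL2ZPartition χ₁) (K : Set ℂ) (hK : IsCompact K) (hKU : K ⊆ Uhp) :
    {γ : Gamma0 N | ∃ z ∈ K, chi N χ₁ (mob (γ : SL(2, ℤ)) z) ≠ 0}.Finite := by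
  haveI : Finite (SL(2, ℤ) ⧸ Gamma0 N) := Subgroup.finite_quotient_of_finiteIndex
  have hF := hχ.locfin K hK hKU
  -- the finite set of all `q.out⁻¹ * g`, `g ∈ F`
  have hfin : (Set.image2 (fun (q : SL(2, ℤ) ⧸ Gamma0 N) (g : SL(2, ℤ)) => (Quotient.out q)⁻¹ * g)
      Set.univ {g : SL(2, ℤ) | ∃ z ∈ K, χ₁ (mob g z) ≠ 0}).Finite :=
    Set.Finite.image2 _ Set.finite_univ hF
  refine Set.Finite.of_finite_image (f := fun γ : Gamma0 N => (γ : SL(2, ℤ)))
    (hfin.subset ?_) Subtype.val_injective.injOn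
  rintro _ ⟨γ, ⟨z, hzK, hz⟩, rfl⟩
  rw [chi_of_mem N χ₁ (mob_mem_Uhp _ z)] at hz
  obtain ⟨q, hq⟩ : ∃ q : SL(2, ℤ) ⧸ Gamma0 N,
      χ₁ (mob (Quotient.out q) (mob (γ : SL(2, ℤ)) z)) ≠ 0 := by
    by_contra hcon
    push Not at hcon
    exact hz (by simp [hcon])
  refine ⟨q, Set.mem_univ _, Quotient.out q * (γ : SL(2, ℤ)), ⟨z, hzK, ?_⟩, by group⟩
  rwa [mob_mul]

theorem chi_sum_eq_one (hχ : IsSL2ZPartition χ₁) (z : ℂ) (hz : z ∈ Uhp) :
    ∑ᶠ γ : Gamma0 N, chi N χ₁ (mob (γ : SL(2, ℤ)) z) = 1 := by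
  have hfin := finite_support χ₁ hχ z hz
  have h1 : ∀ γ : Gamma0 N, chi N χ₁ (mob (γ : SL(2, ℤ)) z)
      = ∑ᶠ q : SL(2, ℤ) ⧸ Gamma0 N, χ₁ (mob (prodEquiv (Gamma0 N) (γ, q)) z) := by
    intro γ
    rw [chi_of_mem N χ₁ (mob_mem_Uhp _ z)]
    refine finsum_congr fun q => ?_
    rw [prodEquiv_apply, mob_mul]
  simp only [h1]
  have hfin' : (Function.support fun p : Gamma0 N × (SL(2, ℤ) ⧸ Gamma0 N) =>
      χ₁ (mob (prodEquiv (Gamma0 N) p) z)).Finite := by
    have : (Function.support fun p : Gamma0 N × (SL(2, ℤ) ⧸ Gamma0 N) =>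
        χ₁ (mob (prodEquiv (Gamma0 N) p) z))
        = (prodEquiv (Gamma0 N)) ⁻¹' (Function.support fun g : SL(2, ℤ) => χ₁ (mob g z)) := rfl
    rw [this]
    exact hfin.preimage (prodEquiv (Gamma0 N)).injective.injOn
  rw [← finsum_curry (fun p : Gamma0 N × (SL(2, ℤ) ⧸ Gamma0 N) =>
      χ₁ (mob (prodEquiv (Gamma0 N) p) z)) hfin']
  rw [finsum_comp_equiv (prodEquiv (Gamma0 N)) (f := fun g : SL(2, ℤ) => χ₁ (mob g z))]
  exact hχ.sum_eq_one z hz

end INT

end Fermat.Agent.S21

end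
-- ===== PACK-END S21/IntA.lean

-- ===== PACK-BEGIN S24/Deg/H648JBound.lean
section


/-!
# S24 / M6-AN (helper648): the concrete `j`-function satisfies the hypotheses of
`J_scale_mem_goodRing`
-/

set_option autoImplicit false

noncomputable section

open UpperHalfPlane ModularGroup CongruenceSubgroup Polynomial ModularForm Filter Asymptotics
open scoped MatrixGroups Manifold Modular Real

namespace Fermat.Agent.S24.H648

/-- A continuous function on `ℍ` which is `O(exp(2π m im τ))` at `i∞` is bounded by a multiple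
of `exp(2π m im τ)` on the whole fundamental domain. -/
lemma exists_bound_fd_of_isBigO_exp {f : ℍ → ℂ} (hf : Continuous f) (m : ℝ)
    (hO : f =O[atImInfty] fun τ : ℍ => Real.exp (2 * π * m * τ.im)) :
    ∃ C : ℝ, ∀ τ : ℍ, τ ∈ 𝒟 → ‖f τ‖ ≤ C * Real.exp (2 * π * m * τ.im) := by
  obtain ⟨D, hD, hO'⟩ := hO.exists_pos
  rw [IsBigOWith, atImInfty, eventually_comap, eventually_atTop] at hO'
  obtain ⟨y, hy⟩ := hO'
  have hfm : ContinuousOn (fun τ : ℍ => ‖f τ‖ / Real.exp (2 * π * m * τ.im))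
      (truncatedFundamentalDomain y) := by
    apply Continuous.continuousOn
    refine hf.norm.div ?_ fun τ => (Real.exp_pos _).ne'
    exact Real.continuous_exp.comp (continuous_const.mul UpperHalfPlane.continuous_im)
  obtain ⟨E, hE⟩ : ∃ E, ∀ τ ∈ truncatedFundamentalDomain y,
      ‖f τ‖ / Real.exp (2 * π * m * τ.im) ≤ E := by
    obtain ⟨E, hE⟩ := (isCompact_truncatedFundamentalDomain y).exists_bound_of_continuousOn hfm
    refine ⟨E, fun τ hτ => ?_⟩
    have := hE τ hτ
    rwa [Real.norm_of_nonneg (by positivity)] at this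
  refine ⟨max D E, fun τ hτ => ?_⟩
  rcases le_total y (im τ) with hτ' | hτ'
  · have := hy _ hτ' τ rfl
    rw [Real.norm_of_nonneg (Real.exp_pos _).le] at this
    exact this.trans (mul_le_mul_of_nonneg_right (le_max_left _ _) (Real.exp_pos _).le)
  · rw [← div_le_iff₀ (Real.exp_pos _)]
    exact (hE τ ⟨hτ, hτ'⟩).trans (le_max_right _ _)

/-- The analytic `j`-function `E₄³/Δ`. -/
def jFun (τ : ℍ) : ℂ := E₄ τ ^ 3 / ModularForm.discriminant τ

lemma jFun_def (τ : ℍ) : jFun τ = E₄ τ ^ 3 / ModularForm.discriminant τ := rfl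

lemma mdifferentiable_jFun : MDifferentiable 𝓘(ℂ) 𝓘(ℂ) jFun := by
  have h4 : MDifferentiable 𝓘(ℂ) 𝓘(ℂ) (E₄ : ℍ → ℂ) := ModularFormClass.holo E₄
  have hΔ : MDifferentiable 𝓘(ℂ) 𝓘(ℂ) (ModularForm.discriminant : ℍ → ℂ) :=
    ModularFormClass.holo CuspForm.discriminant
  rw [UpperHalfPlane.mdifferentiable_iff] at h4 hΔ ⊢
  have : DifferentiableOn ℂ
      (fun z => ((E₄ : ℍ → ℂ) ∘ ofComplex) z ^ 3 / ((ModularForm.discriminant : ℍ → ℂ) ∘ ofComplex) z)
      {z | 0 < z.im} :=
    (h4.pow 3).div hΔ fun z _ => discriminant_ne_zero _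
  exact this

lemma jFun_smul (γ : SL(2, ℤ)) (τ : ℍ) : jFun (γ • τ) = jFun τ := by
  have : SlashInvariantFormClass (ModularForm 𝒮ℒ 4) Γ(1) 4 := Gamma_one_coe_eq_SL ▸ inferInstance
  have : SlashInvariantFormClass (CuspForm 𝒮ℒ 12) Γ(1) 12 :=
    Gamma_one_coe_eq_SL ▸ inferInstance
  have h4 := SlashInvariantForm.slash_action_eqn_SL'' E₄ (mem_Gamma_one γ) τ
  have h12 := SlashInvariantForm.slash_action_eqn_SL'' CuspForm.discriminant (mem_Gamma_one γ) τ
  have hd : denom γ τ ≠ 0 := denom_ne_zero _ τ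
  have hΔ : ModularForm.discriminant τ ≠ 0 := discriminant_ne_zero τ
  have h12' : ModularForm.discriminant (γ • τ) = denom γ τ ^ (12 : ℤ) * ModularForm.discriminant τ :=
    h12
  rw [jFun_def, jFun_def, h4, h12']
  have e1 : (denom γ τ ^ (4 : ℤ) * E₄ τ) ^ 3 = denom γ τ ^ (12 : ℤ) * E₄ τ ^ 3 := by
    rw [mul_pow, ← zpow_natCast, ← zpow_mul]
    norm_num
  rw [e1, mul_div_mul_left _ _ (zpow_ne_zero _ hd)]

lemma continuous_jFun : Continuous jFun := mdifferentiable_jFun.continuous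

lemma jFun_isBigO : jFun =O[atImInfty] fun τ : ℍ => Real.exp (2 * π * (1 : ℝ) * τ.im) := by
  have h4 : IsBoundedAtImInfty (E₄ : ℍ → ℂ) := ModularFormClass.bdd_at_infty E₄
  have h4' : (fun τ : ℍ => E₄ τ ^ 3) =O[atImInfty] (fun _ : ℍ => (1 : ℝ)) := by
    have h1 : (E₄ : ℍ → ℂ) =O[atImInfty] (fun _ : ℍ => (1 : ℝ)) := h4
    simpa using h1.pow 3
  have hΔ := exp_isBigO_discriminant
  -- `1/Δ = O(exp(2π im))`
  have hinv : (fun τ : ℍ => (ModularForm.discriminant τ)⁻¹)
      =O[atImInfty] fun τ : ℍ => (Real.exp (-2 * π * τ.im))⁻¹ := by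
    refine hΔ.inv_rev ?_
    exact Eventually.of_forall fun τ h => absurd h (Real.exp_pos _).ne'
  have hmul := h4'.mul hinv
  refine (hmul.congr_left fun τ => by rw [jFun_def, div_eq_mul_inv]).congr_right fun τ => ?_
  rw [one_mul, ← Real.exp_neg]
  congr 1
  ring

theorem jFun_bound_fd :
    ∃ C : ℝ, ∀ τ : ℍ, τ ∈ 𝒟 → ‖jFun τ‖ ≤ C * Real.exp (2 * π * τ.im) := by
  obtain ⟨C, hC⟩ := exists_bound_fd_of_isBigO_exp continuous_jFun 1 jFun_isBigO
  exact ⟨C, fun τ hτ => by simpa using hC τ hτ⟩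

/-- **`τ ↦ j (d τ)` is a good function of level `N` for `d ∣ N`.** -/
theorem jFun_scale_mem_goodRing (N : ℕ) (d : ℕ) (hd : 0 < d) (hdN : d ∣ N) (s : ℍ → ℍ)
    (hs : ∀ τ : ℍ, (s τ : ℂ) = d * τ) : (fun τ => jFun (s τ)) ∈ goodRing N :=
  J_scale_mem_goodRing N mdifferentiable_jFun jFun_smul jFun_bound_fd d hd hdN s hs

end Fermat.Agent.S24.H648

end
end
-- ===== PACK-END S24/Deg/H648JBound.lean

-- ===== PACK-BEGIN S18/H438/Front/Gauss.lean
section



/-!
# S18 / ALG-FRONT (helper438), part 2: the chart and the Gauss valuation ring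

Setting: `F` a field, `R : Subring F`, `z : F`, `B := chartRing R z` (integral closure of `R[z]`),
`V : ValuationSubring F` ("Gauss valuation ring") and `w ∈ R` with

* `hRV : ∀ r ∈ R, r ∈ V`, `hzV : z ∈ V`,
* `hwV : w⁻¹ ∉ V`, `hVgen : ∀ f ∈ V, f⁻¹ ∉ V → f * w⁻¹ ∈ V`   (`𝔪_V = w V`),
* `qep : ∀ b ∈ B, b * w⁻¹ ∈ V → b * w⁻¹ ∈ B`                  (`q`-expansion principle).

Results:

* `chartRing_le_valuationSubring` : `B ⊆ V`;
* `prime_chartUnif`               : `ϖ := w` is a prime element of `B`;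
* `exists_fraction_of_mem_valuationSubring` : `V = B_(ϖ)`: every `v ∈ V` is `b / t`, `t ∉ ϖ B`;
* `oneModPi_of_sub_one_mem`       : `(u - 1) / w ∈ V` ⟹ `H754.OneModPi ϖ u`.
-/

set_option autoImplicit false
set_option linter.style.haveILetI false
set_option linter.unusedSectionVars false

noncomputable section

namespace Fermat.Agent.S18.H438

open Polynomial

variable {F : Type*} [Field F] (R : Subring F) (z : F) (V : ValuationSubring F)

/-- `R[z] ⊆ V` as soon as `R ⊆ V` and `z ∈ V`. -/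
theorem baseRing_le_valuationSubring (hRV : ∀ r ∈ R, r ∈ V) (hzV : z ∈ V) {f : F}
    (hf : f ∈ baseRing R z) : f ∈ V := by
  obtain ⟨P, rfl⟩ := exists_aeval_eq_of_mem_baseRing R z hf
  rw [Polynomial.aeval_eq_sum_range]
  refine V.toSubring.sum_mem fun i _ => ?_
  rw [Algebra.smul_def]
  exact mul_mem (hRV _ (P.coeff i).2) (pow_mem hzV i)

/-- An element integral over a subring contained in `V` lies in `V`. -/
theorem mem_valuationSubring_of_isIntegral {A : Type*} [CommRing A] [Algebra A F]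
    (hA : ∀ a : A, algebraMap A F a ∈ V) {f : F} (hf : IsIntegral A f) : f ∈ V := by
  -- transport integrality to `V`
  let i : A →+* V := (algebraMap A F).codRestrict V.toSubring hA
  have hi : (algebraMap V F).comp i = algebraMap A F := by
    ext a; rfl
  have hint : IsIntegral V f := by
    obtain ⟨p, hp, hpf⟩ := hf
    refine ⟨p.map i, hp.map i, ?_⟩
    rw [Polynomial.eval₂_map, hi]
    exact hpf
  obtain ⟨y, hy⟩ := (IsIntegrallyClosed.isIntegral_iff (R := V) (K := F)).1 hint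
  rw [← hy]
  exact y.2

/-- The chart is contained in the Gauss valuation ring. -/
theorem chartRing_le_valuationSubring (hRV : ∀ r ∈ R, r ∈ V) (hzV : z ∈ V) {f : F}
    (hf : f ∈ chartRing R z) : f ∈ V :=
  mem_valuationSubring_of_isIntegral V
    (fun a => baseRing_le_valuationSubring R z V hRV hzV a.2) hf

variable {R z V}

/-- the uniformiser as an element of the chart -/
def chartUnif {w : F} (hwR : w ∈ R) : chartRing R z :=
  algebraMap (baseRing R z) (chartRing R z) ⟨w, coe_mem_baseRing R z ⟨w, hwR⟩⟩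

@[simp] theorem coe_chartUnif {w : F} (hwR : w ∈ R) :
    ((chartUnif (z := z) hwR : chartRing R z) : F) = w := rfl

theorem algebraMap_chartUnif {w : F} (hwR : w ∈ R) :
    algebraMap (chartRing R z) F (chartUnif (z := z) hwR) = w := rfl

/-- divisibility by `ϖ` in the chart, elementwise -/
theorem chartUnif_dvd_iff {w : F} (hwR : w ∈ R) (hw0 : w ≠ 0) (b : chartRing R z) :
    chartUnif (z := z) hwR ∣ b ↔ (b : F) * w⁻¹ ∈ chartRing R z := by
  constructor
  · rintro ⟨c, rfl⟩
    have : ((chartUnif (z := z) hwR * c : chartRing R z) : F) * w⁻¹ = (c : F) := by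
      rw [MulMemClass.coe_mul, coe_chartUnif]
      field_simp
    rw [this]
    exact c.2
  · intro h
    refine ⟨⟨(b : F) * w⁻¹, h⟩, Subtype.ext ?_⟩
    rw [MulMemClass.coe_mul, coe_chartUnif]
    field_simp

section Prime

variable {w : F} (hwR : w ∈ R) (hw0 : w ≠ 0) (hRV : ∀ r ∈ R, r ∈ V) (hzV : z ∈ V)
  (hwV : w⁻¹ ∉ V) (hVgen : ∀ f ∈ V, f⁻¹ ∉ V → f * w⁻¹ ∈ V)
  (qep : ∀ b ∈ chartRing R z, b * w⁻¹ ∈ V → b * w⁻¹ ∈ chartRing R z)

include hw0 hRV hzV hwV hVgen qep

/-- In `V`, an element which is not a unit is divisible by `w`; in particular for `a b ∈ V` with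
`a * b ∈ w V` one of them is in `w V`. -/
theorem mem_smul_of_mul_mem {a b : F} (ha : a ∈ V) (hb : b ∈ V) (hab : a * b * w⁻¹ ∈ V) :
    a * w⁻¹ ∈ V ∨ b * w⁻¹ ∈ V := by
  by_cases ha0 : a = 0
  · left; rw [ha0, zero_mul]; exact V.zero_mem
  by_cases hb0 : b = 0
  · right; rw [hb0, zero_mul]; exact V.zero_mem
  by_cases hau : a⁻¹ ∈ V
  · -- `a` is a unit of `V`
    right
    have : b * w⁻¹ = a⁻¹ * (a * b * w⁻¹) := by field_simp
    rw [this]
    exact mul_mem hau hab
  · left
    exact hVgen a ha hau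

/-- **`ϖ` is a prime element of the chart.** -/
theorem prime_chartUnif : Prime (chartUnif (z := z) hwR) := by
  refine ⟨?_, ?_, ?_⟩
  · intro h
    exact hw0 (congrArg Subtype.val h)
  · rintro ⟨⟨u, v, huv, hvu⟩, hu⟩
    have hv : (v : F) = w⁻¹ := by
      have h1 : (u : F) * (v : F) = 1 := congrArg Subtype.val huv
      have h2 : (u : F) = w := by
        have h3 : u = chartUnif (z := z) hwR := hu
        rw [h3]; rfl
      rw [h2] at h1
      exact eq_inv_of_mul_eq_one_right h1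
    exact hwV (hv ▸ chartRing_le_valuationSubring R z V hRV hzV v.2)
  · intro a b hab
    rw [chartUnif_dvd_iff hwR hw0] at hab
    have haV := chartRing_le_valuationSubring R z V hRV hzV a.2
    have hbV := chartRing_le_valuationSubring R z V hRV hzV b.2
    have habV : (a : F) * (b : F) * w⁻¹ ∈ V := by
      have := chartRing_le_valuationSubring R z V hRV hzV hab
      simpa using this
    rcases mem_smul_of_mul_mem hw0 hRV hzV hwV hVgen qep haV hbV habV with h | h
    · left
      rw [chartUnif_dvd_iff hwR hw0]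
      exact qep _ a.2 h
    · right
      rw [chartUnif_dvd_iff hwR hw0]
      exact qep _ b.2 h

end Prime

section Fraction

variable {w : F} (hwR : w ∈ R) (hw0 : w ≠ 0) (hRV : ∀ r ∈ R, r ∈ V) (hzV : z ∈ V)
  (hwV : w⁻¹ ∉ V) (hVgen : ∀ f ∈ V, f⁻¹ ∉ V → f * w⁻¹ ∈ V)
  (qep : ∀ b ∈ chartRing R z, b * w⁻¹ ∈ V → b * w⁻¹ ∈ chartRing R z)
  [IsFractionRing (chartRing R z) F] [IsNoetherianRing (chartRing R z)]

include hw0 hRV hzV hwV hVgen qep

/-- **`V = B_(ϖ)`.**  Every element of the Gauss valuation ring is a fraction `b / t` of elements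
of the chart with `ϖ ∤ t`. -/
theorem exists_fraction_of_mem_valuationSubring {v : F} (hv : v ∈ V) :
    ∃ b t : chartRing R z, ¬ chartUnif (z := z) hwR ∣ t ∧ v * (t : F) = (b : F) := by
  have hprime := prime_chartUnif hwR hw0 hRV hzV hwV hVgen qep
  obtain ⟨b₀, t₀, ht₀, hbt⟩ := IsFractionRing.div_surjective (A := chartRing R z) v
  have ht₀0 : t₀ ≠ 0 := nonZeroDivisors.ne_zero ht₀
  obtain ⟨n, t, hnt, rfl⟩ := WfDvdMonoid.max_power_factor ht₀0 hprime.irreducible
  -- `v * (ϖ ^ n * t) = b₀`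
  have hv0 : v * ((chartUnif (z := z) hwR ^ n * t : chartRing R z) : F) = (b₀ : F) := by
    have hne : algebraMap (chartRing R z) F (chartUnif (z := z) hwR ^ n * t) ≠ 0 := by
      intro h
      exact ht₀0 ((FaithfulSMul.algebraMap_injective (chartRing R z) F) (by rw [h, map_zero]))
    rw [← hbt]
    exact div_mul_cancel₀ _ hne
  -- strip the powers of `ϖ`
  have key : ∀ (n : ℕ) (b : chartRing R z),
      v * ((chartUnif (z := z) hwR ^ n * t : chartRing R z) : F) = (b : F) →
      ∃ b' : chartRing R z, v * (t : F) = (b' : F) := by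
    intro n
    induction n with
    | zero => intro b hb; exact ⟨b, by simpa using hb⟩
    | succ n ih =>
      intro b hb
      -- `b / w = v * ϖ ^ n * t ∈ V`
      have hbw : (b : F) * w⁻¹ = v * ((chartUnif (z := z) hwR ^ n * t : chartRing R z) : F) := by
        rw [← hb]
        simp only [MulMemClass.coe_mul, SubmonoidClass.coe_pow, coe_chartUnif, pow_succ]
        field_simp
      have hmemV : (b : F) * w⁻¹ ∈ V := by
        rw [hbw]
        exact mul_mem hv (chartRing_le_valuationSubring R z V hRV hzV (Subtype.mem _))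
      have hmemB := qep _ b.2 hmemV
      exact ih ⟨(b : F) * w⁻¹, hmemB⟩ hbw.symm
  obtain ⟨b', hb'⟩ := key n b₀ hv0
  exact ⟨b', t, hnt, hb'⟩

/-- **`OneModPi`**: if `(u - 1) / w ∈ V` then `u = a / s` with `a ≡ s mod ϖ`, `ϖ ∤ s`
(the hypothesis shape of the Kummer pieces `H754`). -/
theorem oneModPi_of_sub_one_mem {u : F} (hu : (u - 1) * w⁻¹ ∈ V) :
    H754.OneModPi (chartUnif (z := z) hwR) u := by
  obtain ⟨b, t, ht, hbt⟩ :=
    exists_fraction_of_mem_valuationSubring hwR hw0 hRV hzV hwV hVgen qep hu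
  refine ⟨t + chartUnif (z := z) hwR * b, t, ?_, ?_, ?_⟩
  · rw [Ideal.mem_span_singleton]; exact ht
  · rw [Ideal.mem_span_singleton]
    exact ⟨b, by ring⟩
  · show u * (t : F) = ((t + chartUnif (z := z) hwR * b : chartRing R z) : F)
    simp only [AddMemClass.coe_add, MulMemClass.coe_mul, coe_chartUnif, ← hbt]
    field_simp
    ring

end Fraction

end Fermat.Agent.S18.H438

end
end
-- ===== PACK-END S18/H438/Front/Gauss.lean

-- ===== PACK-BEGIN S18/H558/CechFG.lean
section




/-!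
# S18 / piece b5 (continued): `H¹` of the two-chart cover is finitely generated

`B = B_mid`, `x ∈ B` a unit with inverse `y`, `Bfin ∋ x` finitely generated as a module over
`A[x]`, `Binf ∋ y`, `B = Bfin[1/x]`, and every generator of `Bfin` lies in `x ^ D • Binf`.
Then `B / (Bfin + Binf)` is a finitely generated `A`-module, hence (for noetherian `A`) its
`w`-power torsion is bounded, which is the hypothesis `hH1` of `cech_idempotent_trivial`.
-/

namespace Fermat.Agent.S18.H558

variable {A B : Type*} [CommRing A] [CommRing B] [Algebra A B]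

/-- The two charts together with finitely many explicit elements span `B` over `A`. -/
theorem cech_span_top {ι : Type*} [Finite ι] (x y : B) (hxy : x * y = 1)
    (Bfin Binf : Subalgebra A B) (hx : x ∈ Bfin) (hy : y ∈ Binf)
    (bs : ι → B) (hbs : ∀ i, bs i ∈ Bfin)
    (hgen : ∀ b ∈ Bfin, b ∈ Submodule.span A {z : B | ∃ (j : ℕ) (i : ι), z = x ^ j * bs i})
    (hloc : ∀ b : B, ∃ K : ℕ, x ^ K * b ∈ Bfin)
    (hinf : ∀ i, ∃ D : ℕ, y ^ D * bs i ∈ Binf) :
    ∃ G : Set B, G.Finite ∧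
      Bfin.toSubmodule ⊔ Binf.toSubmodule ⊔ Submodule.span A G = ⊤ := by
  classical
  cases nonempty_fintype ι
  choose Df hDf using hinf
  let D : ℕ := Finset.univ.sup Df
  have hD : ∀ i, Df i ≤ D := fun i => Finset.le_sup (f := Df) (Finset.mem_univ i)
  let G : Set B := (fun p : ι × ℕ => y ^ p.2 * bs p.1) '' ((Finset.univ ×ˢ Finset.range D : Finset (ι × ℕ)) : Set (ι × ℕ))
  refine ⟨G, (Finset.finite_toSet _).image _, ?_⟩
  set T : Submodule A B := Bfin.toSubmodule ⊔ Binf.toSubmodule ⊔ Submodule.span A G with hT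
  have hfinT : ∀ b ∈ Bfin, b ∈ T := fun b hb =>
    Submodule.mem_sup_left (Submodule.mem_sup_left hb)
  have hinfT : ∀ b ∈ Binf, b ∈ T := fun b hb =>
    Submodule.mem_sup_left (Submodule.mem_sup_right hb)
  have hGT : ∀ b ∈ G, b ∈ T := fun b hb =>
    Submodule.mem_sup_right (Submodule.subset_span hb)
  have hyx : ∀ n : ℕ, y ^ n * x ^ n = 1 := fun n => by
    rw [← mul_pow, mul_comm y x, hxy, one_pow]
  -- the monomials
  have hmono : ∀ (K j : ℕ) (i : ι), y ^ K * (x ^ j * bs i) ∈ T := by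
    intro K j i
    rcases le_or_gt K j with hKj | hjK
    · obtain ⟨d, rfl⟩ := Nat.exists_eq_add_of_le hKj
      have : y ^ K * (x ^ (K + d) * bs i) = x ^ d * bs i := by
        rw [pow_add, ← mul_assoc, ← mul_assoc, hyx, one_mul]
      rw [this]
      exact hfinT _ (Bfin.mul_mem (Bfin.pow_mem hx d) (hbs i))
    · obtain ⟨k, rfl⟩ := Nat.exists_eq_add_of_le hjK.le
      have : y ^ (j + k) * (x ^ j * bs i) = y ^ k * bs i := by
        rw [pow_add, mul_comm (y ^ j) (y ^ k), mul_assoc, ← mul_assoc (y ^ j), hyx, one_mul]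
      rw [this]
      rcases le_or_gt (Df i) k with hDk | hkD
      · obtain ⟨d, rfl⟩ := Nat.exists_eq_add_of_le hDk
        have : y ^ (Df i + d) * bs i = y ^ d * (y ^ Df i * bs i) := by
          rw [pow_add]; ring
        rw [this]
        exact hinfT _ (Binf.mul_mem (Binf.pow_mem hy d) (hDf i))
      · apply hGT
        refine ⟨(i, k), ?_, rfl⟩
        simp only [Finset.coe_product, Finset.coe_univ, Finset.coe_range, Set.mem_prod,
          Set.mem_univ, Set.mem_Iio, true_and]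
        exact lt_of_lt_of_le hkD (hD i)
  rw [eq_top_iff]
  rintro b -
  obtain ⟨K, hK⟩ := hloc b
  have hb : b = y ^ K * (x ^ K * b) := by rw [← mul_assoc, hyx, one_mul]
  rw [hb]
  have hspan := hgen _ hK
  refine Submodule.span_induction (p := fun z _ => y ^ K * z ∈ T) ?_ ?_ ?_ ?_ hspan
  · rintro z ⟨j, i, rfl⟩
    exact hmono K j i
  · simp
  · intro u v _ _ hu hv
    rw [mul_add]
    exact T.add_mem hu hv
  · intro a u _ hu
    rw [mul_smul_comm]
    exact T.smul_mem a hu

/-- Bounded `w`-power torsion of `B / (Bfin + Binf)` from finite generation, for noetherian `A`. -/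
theorem cech_h1_bound [IsNoetherianRing A] (w : A) (Bfin Binf : Subalgebra A B)
    (G : Set B) (hG : G.Finite)
    (htop : Bfin.toSubmodule ⊔ Binf.toSubmodule ⊔ Submodule.span A G = ⊤) :
    ∃ c : ℕ, ∀ (n : ℕ) (h : B),
      algebraMap A B w ^ n * h ∈ Bfin.toSubmodule ⊔ Binf.toSubmodule →
      algebraMap A B w ^ c * h ∈ Bfin.toSubmodule ⊔ Binf.toSubmodule := by
  set S : Submodule A B := Bfin.toSubmodule ⊔ Binf.toSubmodule with hS
  have hfinG : Module.Finite A (Submodule.span A G) := Module.Finite.span_of_finite A hG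
  let φ : Submodule.span A G →ₗ[A] B ⧸ S := S.mkQ.comp (Submodule.span A G).subtype
  have hφ : Function.Surjective φ := by
    intro m
    obtain ⟨b, rfl⟩ := S.mkQ_surjective m
    have hb : b ∈ S ⊔ Submodule.span A G := by rw [htop]; trivial
    obtain ⟨s, hs, g, hg, rfl⟩ := Submodule.mem_sup.1 hb
    refine ⟨⟨g, hg⟩, ?_⟩
    change S.mkQ g = S.mkQ (s + g)
    have hs0 : S.mkQ s = 0 := (Submodule.Quotient.mk_eq_zero S).2 hs
    rw [map_add, hs0, zero_add]
  have hfinQ : Module.Finite A (B ⧸ S) := Module.Finite.of_surjective φ hφ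
  obtain ⟨c, hc⟩ := exists_torsion_bound (A := A) (M := B ⧸ S) w
  refine ⟨c, fun n h hn => ?_⟩
  have e : ∀ k : ℕ, algebraMap A B w ^ k * h = w ^ k • h := fun k => by
    rw [Algebra.smul_def, map_pow]
  rw [e] at hn ⊢
  have h1 : w ^ n • (S.mkQ h) = 0 := by
    rw [← map_smul]
    exact (Submodule.Quotient.mk_eq_zero S).2 hn
  have h2 := hc n _ h1
  rw [← map_smul] at h2
  exact (Submodule.Quotient.mk_eq_zero S).1 h2

/-- **Connectedness of the two-chart model (piece b5).**  Packaged form: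
noetherian base `A`, `(w)` prime in `A`, two charts `Bfin ∋ x`, `Binf ∋ x⁻¹` of `B = Bfin[1/x]`
with `Bfin` finite over `A[x]`, `Bfin ∩ Binf = A` and `A / w → Bfin / w` injective.  Then every
compatible pair of idempotents modulo `w` on the two charts is `(0, 0)` or `(1, 1)`. -/
theorem cech_connected [IsNoetherianRing A] {ι : Type*} [Finite ι] (w : A) (x y : B)
    (hxy : x * y = 1) (Bfin Binf : Subalgebra A B) (hx : x ∈ Bfin) (hy : y ∈ Binf)
    (bs : ι → B) (hbs : ∀ i, bs i ∈ Bfin)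
    (hgen : ∀ b ∈ Bfin, b ∈ Submodule.span A {z : B | ∃ (j : ℕ) (i : ι), z = x ^ j * bs i})
    (hloc : ∀ b : B, ∃ K : ℕ, x ^ K * b ∈ Bfin)
    (hinf : ∀ i, ∃ D : ℕ, y ^ D * bs i ∈ Binf)
    (hH0 : ∀ b : B, b ∈ Bfin → b ∈ Binf → ∃ a : A, algebraMap A B a = b)
    (hinj : ∀ a : A, (∃ t ∈ Bfin, algebraMap A B a = algebraMap A B w * t) → w ∣ a)
    (hprime : ∀ a b : A, w ∣ a * b → w ∣ a ∨ w ∣ b)
    (e₁ e₂ : B) (he₁ : e₁ ∈ Bfin) (he₂ : e₂ ∈ Binf)
    (hi₁ : ∃ t ∈ Bfin, e₁ ^ 2 - e₁ = algebraMap A B w * t)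
    (hi₂ : ∃ t ∈ Binf, e₂ ^ 2 - e₂ = algebraMap A B w * t)
    (h₁₂ : ∃ t : B, e₁ - e₂ = algebraMap A B w * t) :
    ((∃ t ∈ Bfin, e₁ = algebraMap A B w * t) ∧ (∃ t ∈ Binf, e₂ = algebraMap A B w * t)) ∨
    ((∃ t ∈ Bfin, 1 - e₁ = algebraMap A B w * t) ∧ (∃ t ∈ Binf, 1 - e₂ = algebraMap A B w * t)) := by
  obtain ⟨G, hG, htop⟩ := cech_span_top x y hxy Bfin Binf hx hy bs hbs hgen hloc hinf
  obtain ⟨c, hc⟩ := cech_h1_bound w Bfin Binf G hG htop
  exact cech_idempotent_trivial w Bfin Binf c (fun h hh => hc (c + 1) h hh) hH0 hinj hprime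
    e₁ e₂ he₁ he₂ hi₁ hi₂ h₁₂

end Fermat.Agent.S18.H558

end
-- ===== PACK-END S18/H558/CechFG.lean

-- ===== PACK-BEGIN S18/H203/TorsionFree.lean
section


/-!
# S18 / b1 (helper203): `B / w B` is torsion-free over `S / w S`

`S` an integrally closed domain, `w ∈ S` prime, `F / Frac S` a field extension, `B` the integral
closure of `S` in `F`.

* `dvd_of_dvd_smul` : `w ∣ t • b` in `B`, `w ∤ t` in `S`  ⟹  `w ∣ b` in `B`.
* `dvd_of_dvd_mul` : the same with `algebraMap S B t * b`.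
* `not_dvd_of_not_dvd` : if `w ∤ b` in `B` and `w ∤ t` in `S` then `w ∤ t • b`.
-/

set_option autoImplicit false

namespace Fermat.Agent.S18.H203

section

variable {S B : Type*} [CommRing S] [IsDomain S] [IsIntegrallyClosed S]
  [CommRing B] [Algebra S B]

/-- **b1, regular sequence.** In the integral closure `B` of `S`: if the prime element `w`
divides `t • b` and `w ∤ t` in `S`, then `w ∣ b` in `B`. -/
theorem dvd_of_dvd_smul (K F : Type*) [Field K] [Algebra S K] [IsFractionRing S K]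
    [Field F] [Algebra K F] [Algebra S F] [IsScalarTower S K F]
    [Algebra B F] [IsScalarTower S B F] [IsIntegralClosure B S F]
    {w t : S} (hw : Prime w) (ht : ¬ w ∣ t) {b : B}
    (h : algebraMap S B w ∣ t • b) : algebraMap S B w ∣ b := by
  obtain ⟨y, hy⟩ := h
  have hinjK : Function.Injective (algebraMap S K) := IsFractionRing.injective S K
  have hw0 : algebraMap S K w ≠ 0 := by
    simpa using (map_ne_zero_iff _ hinjK).mpr hw.ne_zero
  have hwF : algebraMap S F w ≠ 0 := by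
    rw [IsScalarTower.algebraMap_apply S K F]
    simpa using (map_ne_zero_iff _ (algebraMap K F).injective).mpr hw0
  set z : F := (algebraMap S F w)⁻¹ * algebraMap B F b with hz
  have h1 : algebraMap S F w * z = algebraMap B F b := by
    rw [hz, mul_inv_cancel_left₀ hwF]
  have h2 : algebraMap S F t * z = algebraMap B F y := by
    have e1 : algebraMap B F (t • b) = algebraMap S F t * algebraMap B F b := by
      rw [Algebra.smul_def, map_mul, ← IsScalarTower.algebraMap_apply]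
    have e2 : algebraMap B F (t • b) = algebraMap S F w * algebraMap B F y := by
      rw [hy, map_mul, ← IsScalarTower.algebraMap_apply]
    rw [hz]
    calc algebraMap S F t * ((algebraMap S F w)⁻¹ * algebraMap B F b)
        = (algebraMap S F w)⁻¹ * (algebraMap S F t * algebraMap B F b) := by ring
      _ = (algebraMap S F w)⁻¹ * (algebraMap S F w * algebraMap B F y) := by rw [← e1, e2]
      _ = algebraMap B F y := inv_mul_cancel_left₀ hwF _
  have hi1 : IsIntegral S (algebraMap S F w * z) := by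
    rw [h1]; exact (IsIntegralClosure.isIntegral S F b).algebraMap
  have hi2 : IsIntegral S (algebraMap S F t * z) := by
    rw [h2]; exact (IsIntegralClosure.isIntegral S F y).algebraMap
  have hzi : IsIntegral S z := isIntegral_of_isIntegral_mul K hw ht hi1 hi2
  obtain ⟨b', hb'⟩ := (IsIntegralClosure.isIntegral_iff (A := B)).mp hzi
  refine ⟨b', ?_⟩
  apply IsIntegralClosure.algebraMap_injective B S F
  rw [map_mul, hb', ← IsScalarTower.algebraMap_apply, h1]

/-- Multiplicative form of `dvd_of_dvd_smul`. -/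
theorem dvd_of_dvd_mul (K F : Type*) [Field K] [Algebra S K] [IsFractionRing S K]
    [Field F] [Algebra K F] [Algebra S F] [IsScalarTower S K F]
    [Algebra B F] [IsScalarTower S B F] [IsIntegralClosure B S F]
    {w t : S} (hw : Prime w) (ht : ¬ w ∣ t) {b : B}
    (h : algebraMap S B w ∣ algebraMap S B t * b) : algebraMap S B w ∣ b := by
  rw [← Algebra.smul_def] at h
  exact dvd_of_dvd_smul K F hw ht h

end

end Fermat.Agent.S18.H203

end
-- ===== PACK-END S18/H203/TorsionFree.lean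

-- ===== PACK-BEGIN S18/H394/KummerFinite.lean
section



/-!
# S18, Route K, pieces b3+b4 (helper394): finiteness of the Kummer chart

If `B` is contained in a finitely generated `R[x]`-submodule of `F` and `u` has a denominator in
`B`, then `kummerSub B` is finitely generated over `R[x]` (in the explicit form consumed by the
two-chart connectedness theorem).
-/

set_option autoImplicit false

namespace Fermat.Agent.S18.H394

open Polynomial

section Finite

variable {R F C : Type*} [CommRing R] [IsNoetherianRing R] [Field F] [Algebra R F]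
  [CommRing C] [Algebra F C] [Algebra R C] [IsScalarTower R F C]

omit [IsNoetherianRing R] [Algebra R C] [IsScalarTower R F C] [CommRing C] [Algebra F C] in
theorem pow_mul_mem_of_mem_degSet {m : ℕ} (hm0 : 0 < m) {u : F} (hu : u ≠ 0)
    {B : Subalgebra R F} (hB : RootClosed m B) {d : F} (hdB : d ∈ B) (hdu : d * u⁻¹ ∈ B)
    {k : ℕ} {f : F} (hf : f ∈ degSet B m u k) : d ^ k * f ∈ B := by
  apply hB
  obtain ⟨m', rfl⟩ : ∃ m', m = m' + 1 := Nat.exists_eq_succ_of_ne_zero hm0.ne'
  have hf' : f ^ (m' + 1) * u ^ k ∈ B := hf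
  have key : (d ^ k * f) ^ (m' + 1) = (d * u⁻¹) ^ k * (d ^ k) ^ m' * (f ^ (m' + 1) * u ^ k) := by
    have hu' : (u⁻¹) ^ k * u ^ k = 1 := by rw [← mul_pow, inv_mul_cancel₀ hu, one_pow]
    calc (d ^ k * f) ^ (m' + 1) = d ^ k * (d ^ k) ^ m' * f ^ (m' + 1) * 1 := by ring
      _ = d ^ k * (d ^ k) ^ m' * f ^ (m' + 1) * ((u⁻¹) ^ k * u ^ k) := by rw [hu']
      _ = (d * u⁻¹) ^ k * (d ^ k) ^ m' * (f ^ (m' + 1) * u ^ k) := by ring
  rw [key]
  exact B.mul_mem (B.mul_mem (B.pow_mem hdu k) (B.pow_mem (B.pow_mem hdB k) m')) hf'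

theorem kummerSub_fg (pb : PowerBasis F C) (u : F) (hu : u ≠ 0)
    (hT : pb.gen ^ pb.dim = algebraMap F C u) (hm0 : 0 < pb.dim)
    (B : Subalgebra R F) (hB : RootClosed pb.dim B)
    (x : F) (hx : x ∈ B)
    (hfin : ∃ s : Finset F, ∀ b ∈ B, ∃ P : F → Polynomial R,
      b = ∑ β ∈ s, Polynomial.aeval x (P β) * β)
    (hden : ∃ d ∈ B, d ≠ 0 ∧ d * u⁻¹ ∈ B) :
    ∃ S : Finset C, (∀ c ∈ S, c ∈ kummerSub pb u hT hm0 B hB) ∧
      ∀ b ∈ kummerSub pb u hT hm0 B hB, ∃ P : C → Polynomial R,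
        b = ∑ c ∈ S, Polynomial.aeval (algebraMap F C x) (P c) * c := by
  classical
  letI modF : Module R[X] F := Module.compHom F (aeval x : R[X] →ₐ[R] F).toRingHom
  letI modC : Module R[X] C :=
    Module.compHom C (aeval (algebraMap F C x) : R[X] →ₐ[R] C).toRingHom
  have smulF : ∀ (p : R[X]) (f : F), p • f = aeval x p * f := fun _ _ => rfl
  have smulC : ∀ (p : R[X]) (c : C), p • c = aeval (algebraMap F C x) p * c := fun _ _ => rfl
  have haevalB : ∀ p : R[X], aeval x p ∈ B := fun p => by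
    have : aeval x p ∈ Algebra.adjoin R {x} := Polynomial.aeval_mem_adjoin_singleton R x
    exact (Algebra.adjoin_le (Set.singleton_subset_iff.mpr hx)) this
  set K := kummerSub pb u hT hm0 B hB with hK
  have haevalC : ∀ p : R[X], aeval (algebraMap F C x) p = algebraMap F C (aeval x p) := fun p =>
    Polynomial.aeval_algebraMap_apply C x p
  obtain ⟨s₀, hs₀⟩ := hfin
  obtain ⟨d, hdB, hd0, hdu⟩ := hden
  -- the ambient finitely generated module
  let N : Submodule R[X] F := Submodule.span R[X] (s₀ : Set F)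
  have hNfg : N.FG := Submodule.fg_span (Finset.finite_toSet s₀)
  have hBN : ∀ b ∈ B, b ∈ N := by
    intro b hb
    obtain ⟨P, hP⟩ := hs₀ b hb
    rw [hP]
    refine N.sum_mem fun β hβ => ?_
    rw [← smulF]
    exact N.smul_mem (P β) (Submodule.subset_span hβ)
  -- the graded pieces as `R[X]`-submodules of `F`
  let I : ℕ → Submodule R[X] F := fun k =>
    { carrier := degSet B pb.dim u k
      add_mem' := fun ha hb => add_mem_degSet hB ha hb
      zero_mem' := zero_mem_degSet hm0 k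
      smul_mem' := fun p f hf => by
        show p • f ∈ degSet B pb.dim u k
        rw [smulF]
        exact smul_mem_degSet (haevalB p) hf }
  -- multiplication by a constant as an `R[X]`-linear map
  let mulL : F → (F →ₗ[R[X]] F) := fun a =>
    { toFun := fun f => a * f
      map_add' := fun f g => mul_add a f g
      map_smul' := fun p f => by
        show a * (p • f) = p • (a * f)
        rw [smulF, smulF]; ring }
  have hIfg : ∀ k, (I k).FG := by
    intro k
    have hJle : (I k).map (mulL (d ^ k)) ≤ N := by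
      rintro _ ⟨f, hf, rfl⟩
      exact hBN _ (pow_mul_mem_of_mem_degSet hm0 hu hB hdB hdu hf)
    have hJfg : ((I k).map (mulL (d ^ k))).FG := Submodule.FG.of_le hNfg hJle
    have hI : I k = ((I k).map (mulL (d ^ k))).map (mulL (d ^ k)⁻¹) := by
      rw [← Submodule.map_comp]
      have : (mulL (d ^ k)⁻¹).comp (mulL (d ^ k)) = LinearMap.id := by
        apply LinearMap.ext
        intro f
        show (d ^ k)⁻¹ * (d ^ k * f) = f
        rw [← mul_assoc, inv_mul_cancel₀ (pow_ne_zero k hd0), one_mul]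
      rw [this, Submodule.map_id]
    rw [hI]
    exact hJfg.map _
  -- the Kummer algebra as an `R[X]`-submodule of `C`
  let K' : Submodule R[X] C :=
    { carrier := K
      add_mem' := fun ha hb => K.add_mem ha hb
      zero_mem' := K.zero_mem
      smul_mem' := fun p c hc => by
        show p • c ∈ K
        rw [smulC, haevalC]
        exact K.mul_mem (algebraMap_mem_kummerSub hT hm0 hB (haevalB p)) hc }
  let φ : ℕ → (F →ₗ[R[X]] C) := fun k =>
    { toFun := fun f => algebraMap F C f * pb.gen ^ k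
      map_add' := fun f g => by rw [map_add, add_mul]
      map_smul' := fun p f => by
        show algebraMap F C (p • f) * pb.gen ^ k = p • (algebraMap F C f * pb.gen ^ k)
        rw [smulF, smulC, haevalC, map_mul, mul_assoc] }
  have hK' : K' = ⨆ k : Fin pb.dim, (I (k : ℕ)).map (φ (k : ℕ)) := by
    apply le_antisymm
    · intro c hc
      have hcK : c ∈ K := hc
      rw [← sum_co pb c]
      refine Submodule.sum_mem _ fun k _ => ?_
      refine (le_iSup (fun k : Fin pb.dim => (I (k : ℕ)).map (φ (k : ℕ))) k) ?_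
      exact ⟨co pb k c, hcK k, rfl⟩
    · refine iSup_le fun k => ?_
      rintro _ ⟨f, hf, rfl⟩
      exact monomial_mem_kummerSub hT hm0 hB hf
  have hK'fg : K'.FG := by
    rw [hK']
    exact Submodule.fg_iSup _ fun k => (hIfg k).map _
  obtain ⟨S, hS⟩ := hK'fg
  refine ⟨S, fun c hc => ?_, fun b hb => ?_⟩
  · have : c ∈ K' := hS ▸ Submodule.subset_span hc
    exact this
  · have hb' : b ∈ Submodule.span R[X] (S : Set C) := by rw [hS]; exact hb
    obtain ⟨f, -, hf⟩ := Submodule.mem_span_finset.mp hb'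
    exact ⟨f, hf.symm⟩

end Finite

end Fermat.Agent.S18.H394

end
-- ===== PACK-END S18/H394/KummerFinite.lean

-- ===== PACK-BEGIN S18/H425/GoodModelInv.lean
section


/-!
# S18 / ALG (helper425): `GoodModel` is symmetric under `x ↦ x⁻¹`

* `mem_polyRing_iff` : `c ∈ polyRing R x ↔ ∃ Q : R[X], aeval x Q = c`.
* `goodModel_x_inv_mem_V` : `x⁻¹ ∈ V` (so `x` is a unit of `V`, with the field `x_mem_V`).
* `not_isIntegral_mul_inv` : `z / w` is not integral over `R[z]` (`z` transcendental, `w` a non-unit).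
* `goodModel_inv` : `GoodModel Lc Ec Fc R V w x S →
    GoodModel Lc Ec Fc R V w x⁻¹ (insert 0 ((S.erase 0).image (·⁻¹)))`.
* `goodFamily_inv` : the same for `GoodFamily` (same family `𝓕`).

So the chart at infinity needs no separate treatment: apply any chart theorem to `x⁻¹`.
Imports only the frozen interface `Alg/Spec.lean`.
-/

set_option autoImplicit false

noncomputable section

namespace Fermat.Agent.S18.H425

open Polynomial Fermat.Agent.S18.Alg

variable {Ω : Type*} [Field Ω]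

/-- `R[x]` consists of the values at `x` of the polynomials with coefficients in `R`. -/
theorem mem_polyRing_iff {R : Subring Ω} {x c : Ω} :
    c ∈ polyRing R x ↔ ∃ Q : Polynomial R, aeval x Q = c := by
  have h : polyRing R x = (Algebra.adjoin R {x}).toSubring := by
    rw [Algebra.adjoin_eq_ring_closure]
    unfold polyRing
    congr 1
    have hr : Set.range (algebraMap R Ω) = (R : Set Ω) := by
      ext y
      constructor
      · rintro ⟨a, rfl⟩
        exact a.2
      · intro hy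
        exact ⟨⟨y, hy⟩, rfl⟩
    rw [hr]
  rw [h, Subalgebra.mem_toSubring, Algebra.adjoin_singleton_eq_range_aeval]
  rfl

theorem mem_polyRing_of_mem {R : Subring Ω} (x : Ω) {r : Ω} (hr : r ∈ R) : r ∈ polyRing R x :=
  Subring.subset_closure (Or.inl hr)

theorem self_mem_polyRing (R : Subring Ω) (x : Ω) : x ∈ polyRing R x :=
  Subring.subset_closure (Or.inr rfl)

/-- `x⁻¹ ^ N * Q(x) = (reflect N Q)(x⁻¹)` for `natDegree Q ≤ N`. -/
theorem aeval_inv_reflect {R : Subring Ω} {x : Ω} (hx : x ≠ 0) (N : ℕ) (Q : Polynomial R)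
    (hQ : Q.natDegree ≤ N) : aeval x⁻¹ (reflect N Q) = aeval x Q * (x⁻¹) ^ N := by
  let _ : Invertible x := invertibleOfNonzero hx
  have h := eval₂_reflect_mul_pow (algebraMap R Ω) x N Q hQ
  rw [invOf_eq_inv] at h
  rw [aeval_def, aeval_def, ← h, mul_assoc, ← mul_pow, mul_inv_cancel₀ hx, one_pow, mul_one]

/-- A polynomial relation over a subring `R ≤ Lc` is a polynomial relation over `Lc`. -/
theorem transcendental_subring {R : Subring Ω} {Lc : Subfield Ω} (hRL : ∀ r ∈ R, r ∈ Lc)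
    {z : Ω} (hz : Transcendental Lc z) : Transcendental R z := by
  rw [transcendental_iff]
  intro Q hQ
  let ι : R →+* Lc :=
    { toFun := fun r => ⟨r.1, hRL r.1 r.2⟩
      map_one' := rfl
      map_mul' := fun _ _ => rfl
      map_zero' := rfl
      map_add' := fun _ _ => rfl }
  have hι : Function.Injective ι := fun a b hab =>
    Subtype.ext (congrArg (fun y : Lc => (y : Ω)) hab)
  have hcomp : (algebraMap Lc Ω).comp ι = algebraMap R Ω := rfl
  have h0 : aeval z (Q.map ι) = 0 := by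
    rw [aeval_def, eval₂_map, hcomp, ← aeval_def, hQ]
  have := (transcendental_iff.mp hz) (Q.map ι) h0
  exact (Polynomial.map_eq_zero_iff hι).mp this

/-- If `z` is transcendental over `R` and `w ∈ R` is a nonzero non-unit of `R`, then `z / w` is
not integral over `R[z]`. -/
theorem not_isIntegral_mul_inv {R : Subring Ω} {z w : Ω} (hz : Transcendental R z)
    (hw : w ∈ R) (hw0 : w ≠ 0) (hwinv : w⁻¹ ∉ R) :
    ¬ IsIntegral (polyRing R z) (z * w⁻¹) := by
  rintro ⟨p, hp, hp0⟩
  set n := p.natDegree with hn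
  have hcoeff : ∀ i, ∃ Q : Polynomial R, aeval z Q = ((p.coeff i : polyRing R z) : Ω) :=
    fun i => mem_polyRing_iff.mp (p.coeff i).2
  choose Q hQ using hcoeff
  let ω : R := ⟨w, hw⟩
  let H : Polynomial R := ∑ i ∈ Finset.range n, Q i * C ω ^ (n - 1 - i) * X ^ i
  have hsum : (z * w⁻¹) ^ n +
      ∑ i ∈ Finset.range n, ((p.coeff i : polyRing R z) : Ω) * (z * w⁻¹) ^ i = 0 := by
    rw [eval₂_eq_sum_range, Finset.sum_range_succ, ← hn] at hp0
    have hlead : p.coeff n = 1 := hp
    rw [hlead, map_one, one_mul, add_comm] at hp0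
    exact hp0
  have hG : aeval z (X ^ n + C ω * H) = 0 := by
    have hω : algebraMap R Ω ω = w := rfl
    rw [map_add, map_mul, map_pow, aeval_X, aeval_C, hω, map_sum]
    have : w ^ n * ((z * w⁻¹) ^ n +
        ∑ i ∈ Finset.range n, ((p.coeff i : polyRing R z) : Ω) * (z * w⁻¹) ^ i) = 0 := by
      rw [hsum, mul_zero]
    rw [← this, mul_add, Finset.mul_sum, Finset.mul_sum]
    congr 1
    · rw [mul_pow, mul_comm (z ^ n), ← mul_assoc, ← mul_pow, mul_inv_cancel₀ hw0, one_pow,
        one_mul]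
    · apply Finset.sum_congr rfl
      intro i hi
      have hi' : i < n := Finset.mem_range.mp hi
      rw [map_mul, map_mul, map_pow, map_pow, aeval_X, aeval_C, hω, hQ]
      have hwn : w ^ n = w * w ^ (n - 1 - i) * w ^ i := by
        rw [← pow_succ', ← pow_add]
        congr 1
        omega
      rw [hwn, mul_pow]
      have hwi : w ^ i * (w⁻¹) ^ i = 1 := by
        rw [← mul_pow, mul_inv_cancel₀ hw0, one_pow]
      calc w * (((p.coeff i : polyRing R z) : Ω) * w ^ (n - 1 - i) * z ^ i)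
          = w * w ^ (n - 1 - i) * (((p.coeff i : polyRing R z) : Ω) * z ^ i) * 1 := by ring
        _ = w * w ^ (n - 1 - i) * (((p.coeff i : polyRing R z) : Ω) * z ^ i) *
              (w ^ i * (w⁻¹) ^ i) := by rw [hwi]
        _ = w * w ^ (n - 1 - i) * w ^ i *
              (((p.coeff i : polyRing R z) : Ω) * (z ^ i * w⁻¹ ^ i)) := by ring
  have hG0 := (transcendental_iff.mp hz) _ hG
  have hc := congrArg (fun P => P.coeff n) hG0
  simp only [coeff_add, coeff_X_pow, if_true, coeff_C_mul, coeff_zero] at hc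
  apply hwinv
  have h1 : w * (-(H.coeff n : R) : R) = 1 := by
    have h2 : (1 : R) + ω * H.coeff n = 0 := hc
    have h3 := congrArg (fun r : R => (r : Ω)) h2
    simp only [Subring.coe_add, Subring.coe_one, Subring.coe_mul, Subring.coe_zero] at h3
    have hω : (ω : Ω) = w := rfl
    rw [hω] at h3
    rw [Subring.coe_neg, mul_neg]
    linear_combination -h3
  have h4 : w⁻¹ = ((-(H.coeff n : R) : R) : Ω) := by
    exact inv_eq_of_mul_eq_one_right h1
  rw [h4]
  exact (-(H.coeff n)).2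

/-- `P(x⁻¹) = (reflect N P)(x) * x⁻¹ ^ N` for a polynomial over `Ω`, `natDegree P ≤ N`. -/
theorem eval_inv_eq_reflect {x : Ω} (hx : x ≠ 0) (N : ℕ) (P : Polynomial Ω)
    (hP : P.natDegree ≤ N) : P.eval x⁻¹ = (reflect N P).eval x * (x⁻¹) ^ N := by
  let _ : Invertible x⁻¹ := invertibleOfNonzero (inv_ne_zero hx)
  have h := eval₂_reflect_mul_pow (RingHom.id Ω) x⁻¹ N P hP
  rw [invOf_eq_inv, inv_inv] at h
  rw [eval, eval, h]

/-- For a valuation subring: `a⁻¹ ∉ O` iff `a ≠ 0` and `v a < 1`. -/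
theorem inv_not_mem_iff (O : ValuationSubring Ω) {a : Ω} :
    a⁻¹ ∉ O ↔ a ≠ 0 ∧ O.valuation a < 1 := by
  constructor
  · intro h
    have ha : a ≠ 0 := by
      rintro rfl
      exact h (by simp)
    refine ⟨ha, ?_⟩
    by_contra hlt
    apply h
    rw [← ValuationSubring.valuation_le_one_iff, map_inv₀]
    exact inv_le_one_of_one_le₀ (not_lt.mp hlt)
  · rintro ⟨ha, hlt⟩ hmem
    rw [← ValuationSubring.valuation_le_one_iff, map_inv₀] at hmem
    have hv0 : O.valuation a ≠ 0 := (Valuation.ne_zero_iff _).mpr ha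
    have : 1 ≤ O.valuation a := by
      have := (inv_le_one₀ (zero_lt_iff.mpr hv0)).mp hmem
      exact this
    exact absurd hlt (not_lt.mpr this)

section GoodModel

variable {Lc Ec Fc : Subfield Ω} {R V : Subring Ω} {w x : Ω} {S : Finset Ω}

theorem goodModel_x_ne_zero (h : GoodModel Lc Ec Fc R V w x S) : x ≠ 0 := by
  rintro rfl
  exact h.x_transcendental isAlgebraic_zero

theorem goodModel_R_le_Lc (h : GoodModel Lc Ec Fc R V w x S) : ∀ r ∈ R, r ∈ Lc :=
  fun _ hr => h.E_le_L (h.R_le hr)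

theorem goodModel_transcendental_inv (h : GoodModel Lc Ec Fc R V w x S) :
    Transcendental Lc x⁻¹ := by
  intro hx
  apply h.x_transcendental
  have := hx.inv
  rwa [inv_inv] at this

/-- `x⁻¹ ∈ V`. -/
theorem goodModel_x_inv_mem_V (h : GoodModel Lc Ec Fc R V w x S) : x⁻¹ ∈ V := by
  have := h.gauss X (fun i => by
    rw [coeff_X]
    split_ifs
    · exact R.one_mem
    · exact R.zero_mem) ⟨1, by simp, by simp⟩
  simpa using this

theorem ratField_inv (Ec : Subfield Ω) (x : Ω) : ratField Ec x⁻¹ = ratField Ec x := by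
  unfold ratField
  apply le_antisymm
  · rw [Subfield.closure_le]
    rintro y (hy | hy)
    · exact Subfield.subset_closure (Or.inl hy)
    · rw [Set.mem_singleton_iff] at hy
      rw [hy]
      exact Subfield.inv_mem _ (Subfield.subset_closure (Or.inr rfl))
  · rw [Subfield.closure_le]
    rintro y (hy | hy)
    · exact Subfield.subset_closure (Or.inl hy)
    · rw [Set.mem_singleton_iff] at hy
      rw [hy]
      have : x⁻¹ ∈ Subfield.closure ((Ec : Set Ω) ∪ {x⁻¹}) :=
        Subfield.subset_closure (Or.inr rfl)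
      have := Subfield.inv_mem _ this
      rwa [inv_inv] at this

/-- `gauss` for `x⁻¹`. -/
theorem goodModel_gauss_inv (h : GoodModel Lc Ec Fc R V w x S) (P : Polynomial Ω)
    (hP : ∀ i, P.coeff i ∈ R) (hu : ∃ i, P.coeff i ≠ 0 ∧ (P.coeff i)⁻¹ ∈ R) :
    (P.eval x⁻¹)⁻¹ ∈ V := by
  have hx := goodModel_x_ne_zero h
  rw [eval_inv_eq_reflect hx P.natDegree P le_rfl, mul_inv, ← inv_pow, inv_inv]
  refine V.mul_mem (h.gauss _ (fun i => ?_) ?_) (V.pow_mem h.x_mem_V _)
  · rw [coeff_reflect]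
    exact hP _
  · obtain ⟨i, hi0, hi⟩ := hu
    refine ⟨revAt P.natDegree i, ?_, ?_⟩
    · rw [coeff_reflect, revAt_invol]
      exact hi0
    · rw [coeff_reflect, revAt_invol]
      exact hi

/-- `separable` for `x⁻¹`. -/
theorem goodModel_separable_inv (h : GoodModel Lc Ec Fc R V w x S) (f : Ω) (hf : f ∈ V) :
    ∃ P : Polynomial Ω, (∀ i, P.coeff i ∈ polyRing R x⁻¹) ∧
      P.eval f * w⁻¹ ∈ V ∧ (Polynomial.derivative P).eval f ≠ 0 ∧
      ((Polynomial.derivative P).eval f)⁻¹ ∈ V := by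
  have hx := goodModel_x_ne_zero h
  obtain ⟨P, hPc, hP0, hP1, hP2⟩ := h.separable f hf
  have hex : ∀ i, ∃ Q : Polynomial R, aeval x Q = P.coeff i := fun i => mem_polyRing_iff.mp (hPc i)
  choose Q hQ using hex
  let D : ℕ := P.support.sup fun i => (Q i).natDegree
  refine ⟨C ((x⁻¹) ^ D) * P, fun i => ?_, ?_, ?_, ?_⟩
  · rw [coeff_C_mul]
    by_cases hi : i ∈ P.support
    · have hdeg : (Q i).natDegree ≤ D := Finset.le_sup (f := fun i => (Q i).natDegree) hi
      rw [mem_polyRing_iff]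
      exact ⟨reflect D (Q i), by rw [aeval_inv_reflect hx D (Q i) hdeg, hQ, mul_comm]⟩
    · rw [notMem_support_iff.mp hi, mul_zero]
      exact Subring.zero_mem _
  · rw [eval_mul, eval_C, mul_assoc]
    exact V.mul_mem (V.pow_mem (goodModel_x_inv_mem_V h) _) hP0
  · rw [derivative_C_mul, eval_mul, eval_C]
    exact mul_ne_zero (pow_ne_zero _ (inv_ne_zero hx)) hP1
  · rw [derivative_C_mul, eval_mul, eval_C, mul_inv, ← inv_pow, inv_inv]
    exact V.mul_mem (V.pow_mem h.x_mem_V _) hP2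

/-- `unramified` for `x⁻¹`. -/
theorem goodModel_unramified_inv [DecidableEq Ω] (h : GoodModel Lc Ec Fc R V w x S)
    (O : ValuationSubring Ω) (hL : ∀ a ∈ Lc, a ∈ O) (c : Ω) (hc : c ∈ Lc)
    (hcS : c ∉ insert 0 ((S.erase 0).image (·⁻¹)))
    (h1 : x⁻¹ - c ∈ O) (h2 : (x⁻¹ - c)⁻¹ ∉ O) (t : Ω) (ht : t ∈ O) (ht' : t⁻¹ ∉ O) :
    t * (x⁻¹ - c)⁻¹ ∈ O := by
  have hx := goodModel_x_ne_zero h
  have hc0 : c ≠ 0 := by
    rintro rfl
    exact hcS (Finset.mem_insert_self _ _)
  have hcinvS : c⁻¹ ∉ S := by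
    intro hmem
    apply hcS
    apply Finset.mem_insert_of_mem
    rw [Finset.mem_image]
    exact ⟨c⁻¹, Finset.mem_erase.mpr ⟨inv_ne_zero hc0, hmem⟩, inv_inv c⟩
  have hcO : c ∈ O := hL c hc
  have hcinvO : c⁻¹ ∈ O := hL _ (Lc.inv_mem hc)
  obtain ⟨hne, hlt⟩ := (inv_not_mem_iff O).mp h2
  have hvc : O.valuation c = 1 := by
    apply le_antisymm ((ValuationSubring.valuation_le_one_iff O c).mpr hcO)
    have := (ValuationSubring.valuation_le_one_iff O c⁻¹).mpr hcinvO
    rw [map_inv₀] at this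
    exact (inv_le_one₀ (zero_lt_iff.mpr ((Valuation.ne_zero_iff _).mpr hc0))).mp this
  have hvxinv : O.valuation x⁻¹ = 1 := by
    have : x⁻¹ = (x⁻¹ - c) + c := by ring
    rw [this, Valuation.map_add_eq_of_lt_right _ (by rw [hvc]; exact hlt), hvc]
  have hvx : O.valuation x = 1 := by
    rw [map_inv₀] at hvxinv
    exact inv_eq_one.mp hvxinv
  have hxO : x ∈ O := (ValuationSubring.valuation_le_one_iff O x).mp hvx.le
  have hid : x - c⁻¹ = -(c⁻¹ * x * (x⁻¹ - c)) := by
    field_simp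
    ring
  have h1' : x - c⁻¹ ∈ O := by
    rw [hid]
    exact O.neg_mem _ (O.mul_mem _ _ (O.mul_mem _ _ hcinvO hxO) h1)
  have h2' : (x - c⁻¹)⁻¹ ∉ O := by
    rw [inv_not_mem_iff]
    refine ⟨?_, ?_⟩
    · rw [hid]
      exact neg_ne_zero.mpr (mul_ne_zero (mul_ne_zero (inv_ne_zero hc0) hx) hne)
    · rw [hid, Valuation.map_neg, map_mul, map_mul, map_inv₀, hvc, hvx, inv_one, one_mul, one_mul]
      exact hlt
  have key := h.unramified O hL c⁻¹ (Lc.inv_mem hc) hcinvS h1' h2' t ht ht'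
  have hid2 : t * (x⁻¹ - c)⁻¹ = -(t * (x - c⁻¹)⁻¹ * (c⁻¹ * x)) := by
    have hne' : x - c⁻¹ ≠ 0 := by
      rw [hid]
      exact neg_ne_zero.mpr (mul_ne_zero (mul_ne_zero (inv_ne_zero hc0) hx) hne)
    rw [hid]
    field_simp
  rw [hid2]
  exact O.neg_mem _ (O.mul_mem _ _ key (O.mul_mem _ _ hcinvO hxO))

/-- **`GoodModel` is symmetric under `x ↦ x⁻¹`**, with branch set
`S' = {0} ∪ {s⁻¹ : s ∈ S, s ≠ 0}`. -/
theorem goodModel_inv [DecidableEq Ω] (h : GoodModel Lc Ec Fc R V w x S) :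
    GoodModel Lc Ec Fc R V w x⁻¹ (insert 0 ((S.erase 0).image (·⁻¹))) where
  charZero := h.charZero
  R_le := h.R_le
  R_total := h.R_total
  w_mem := h.w_mem
  w_ne_zero := h.w_ne_zero
  w_inv_not_mem := h.w_inv_not_mem
  w_gen := h.w_gen
  w_discrete := h.w_discrete
  residue_perfect := h.residue_perfect
  E_le_L := h.E_le_L
  E_le_F := h.E_le_F
  L_algebraic := h.L_algebraic
  L_algClosed := h.L_algClosed
  E_closed_in_F := h.E_closed_in_F
  compositum := h.compositum
  x_mem := Fc.inv_mem h.x_mem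
  x_transcendental := goodModel_transcendental_inv h
  finite := by
    rw [ratField_inv]
    exact h.finite
  V_le := h.V_le
  V_total := h.V_total
  R_le_V := h.R_le_V
  w_inv_not_mem_V := h.w_inv_not_mem_V
  V_gen := h.V_gen
  x_mem_V := goodModel_x_inv_mem_V h
  gauss := goodModel_gauss_inv h
  qep_fin := h.qep_inf
  qep_inf := by
    rw [inv_inv]
    exact h.qep_fin
  separable := goodModel_separable_inv h
  S_mem := by
    intro s hs
    rcases Finset.mem_insert.mp hs with rfl | hs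
    · exact R.zero_mem
    · obtain ⟨s', hs', rfl⟩ := Finset.mem_image.mp hs
      obtain ⟨hs0, hsS⟩ := Finset.mem_erase.mp hs'
      exact h.S_unit s' hsS hs0
  S_distinct := by
    intro a ha b hb hab
    rcases Finset.mem_insert.mp ha with rfl | ha
    · rcases Finset.mem_insert.mp hb with rfl | hb
      · exact absurd rfl hab
      · obtain ⟨s', hs', rfl⟩ := Finset.mem_image.mp hb
        obtain ⟨hs0, hsS⟩ := Finset.mem_erase.mp hs'
        have : (0 - s'⁻¹)⁻¹ = -s' := by
          rw [zero_sub, inv_neg, inv_inv]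
        rw [this]
        exact R.neg_mem (h.S_mem s' hsS)
    · obtain ⟨s', hs', rfl⟩ := Finset.mem_image.mp ha
      obtain ⟨hs0, hsS⟩ := Finset.mem_erase.mp hs'
      rcases Finset.mem_insert.mp hb with rfl | hb
      · have : (s'⁻¹ - 0)⁻¹ = s' := by
          rw [sub_zero, inv_inv]
        rw [this]
        exact h.S_mem s' hsS
      · obtain ⟨t', ht', rfl⟩ := Finset.mem_image.mp hb
        obtain ⟨ht0, htS⟩ := Finset.mem_erase.mp ht'
        have hst : s' ≠ t' := by
          rintro rfl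
          exact hab rfl
        have hts : t' - s' ≠ 0 := sub_ne_zero.mpr (Ne.symm hst)
        have : (s'⁻¹ - t'⁻¹)⁻¹ = s' * t' * (t' - s')⁻¹ := by
          field_simp
        rw [this]
        exact R.mul_mem (R.mul_mem (h.S_mem s' hsS) (h.S_mem t' htS))
          (h.S_distinct t' htS s' hsS (Ne.symm hst))
  S_unit := by
    intro s hs hs0
    rcases Finset.mem_insert.mp hs with rfl | hs
    · exact absurd rfl hs0
    · obtain ⟨s', hs', rfl⟩ := Finset.mem_image.mp hs
      obtain ⟨_, hsS⟩ := Finset.mem_erase.mp hs'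
      rw [inv_inv]
      exact h.S_mem s' hsS
  unramified := goodModel_unramified_inv h

/-- A good family for `x` is a good family for `x⁻¹`. -/
theorem goodFamily_inv [DecidableEq Ω] {𝓕 : Set (Model Ω)} (h : GoodFamily Lc x S 𝓕) :
    GoodFamily Lc x⁻¹ (insert 0 ((S.erase 0).image (·⁻¹))) 𝓕 where
  good := fun p hp => goodModel_inv (h.good p hp)
  enlarge := h.enlarge

end GoodModel

end Fermat.Agent.S18.H425

end
end
-- ===== PACK-END S18/H425/GoodModelInv.lean

-- ===== PACK-BEGIN A2/H609/Multiplicity.lean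
section



/-!
# Node purity, part 3: the multiplicity identity

`R` integrally closed noetherian domain, `u π : R`, `u` regular modulo `π`, `ℓ(R/(u,π)) < ∞`.
If `t ^ m = u * r` with `π ^ k ∈ (u, r)` (i.e. `t` generates the root ideal `I = I_1` at every
"horizontal" prime through `u`), then

  `ℓ(R / ((u) + (π))) = m • ℓ(R / (I + (π)))`.

Mathlib only.
-/

set_option autoImplicit false

namespace Fermat.Agent.A2.H609

open Ideal

variable {R : Type*} [CommRing R]

section Basic

variable [IsDomain R]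

/-- `u` regular mod `π` implies `π` regular mod `u` (in a domain). -/
theorem dvd_of_dvd_mul_of_reg {u π : R} (hπ0 : π ≠ 0) (hreg : ∀ x : R, π ∣ u * x → π ∣ x)
    {z : R} (h : u ∣ π * z) : u ∣ z := by
  obtain ⟨w, hw⟩ := h
  obtain ⟨w', hw'⟩ := hreg w ⟨z, hw.symm⟩
  refine ⟨w', ?_⟩
  have : π * z = π * (u * w') := by rw [hw, hw']; ring
  exact mul_left_cancel₀ hπ0 this

theorem dvd_of_dvd_pow_mul_of_reg {u π : R} (hπ0 : π ≠ 0) (hreg : ∀ x : R, π ∣ u * x → π ∣ x)
    (k : ℕ) {z : R} (h : u ∣ π ^ k * z) : u ∣ z := by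
  induction k with
  | zero => simpa using h
  | succ k ih =>
    apply ih
    apply dvd_of_dvd_mul_of_reg hπ0 hreg
    rwa [← mul_assoc, ← pow_succ']

/-- `r` is regular modulo `u` as soon as `π ^ k ∈ (u, r)`. -/
theorem dvd_of_dvd_mul_of_pow_mem {u π r : R} (hπ0 : π ≠ 0)
    (hreg : ∀ x : R, π ∣ u * x → π ∣ x) {k : ℕ} (hk : π ^ k ∈ Ideal.span {u, r})
    {y : R} (h : u ∣ r * y) : u ∣ y := by
  obtain ⟨a, b, hab⟩ := Ideal.mem_span_pair.mp hk
  apply dvd_of_dvd_pow_mul_of_reg hπ0 hreg k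
  rw [← hab, add_mul]
  apply dvd_add
  · exact Dvd.intro_left (a * y) (by ring)
  · have : b * r * y = b * (r * y) := by ring
    rw [this]
    exact Dvd.dvd.mul_left h b

theorem dvd_of_dvd_pow_mul_of_pow_mem {u π r : R} (hπ0 : π ≠ 0)
    (hreg : ∀ x : R, π ∣ u * x → π ∣ x) {k : ℕ} (hk : π ^ k ∈ Ideal.span {u, r})
    (j : ℕ) {y : R} (h : u ∣ r ^ j * y) : u ∣ y := by
  induction j with
  | zero => simpa using h
  | succ j ih =>
    apply ih
    apply dvd_of_dvd_mul_of_pow_mem hπ0 hreg hk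
    rwa [← mul_assoc, ← pow_succ']

omit [IsDomain R] in
/-- `π ^ (k * j) ∈ (u, r ^ j)` if `π ^ k ∈ (u, r)`. -/
theorem pow_mul_mem_span_pair {u π r : R} {k : ℕ} (hk : π ^ k ∈ Ideal.span {u, r}) (j : ℕ) :
    π ^ (k * j) ∈ Ideal.span {u, r ^ j} := by
  obtain ⟨a, b, hab⟩ := Ideal.mem_span_pair.mp hk
  rw [pow_mul, ← hab]
  -- `(a u + b r)^j - (b r)^j` is divisible by `a u`
  have h1 : (a * u + b * r - b * r) ∣ (a * u + b * r) ^ j - (b * r) ^ j := sub_dvd_pow_sub_pow _ _ j
  rw [add_sub_cancel_right] at h1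
  obtain ⟨c, hc⟩ := h1
  have h2 : (a * u + b * r) ^ j = (a * c) * u + b ^ j * r ^ j := by
    have : (a * u + b * r) ^ j = a * u * c + (b * r) ^ j := by rw [← hc]; ring
    rw [this, mul_pow]; ring
  rw [h2]
  exact Ideal.mem_span_pair.mpr ⟨a * c, b ^ j, rfl⟩

end Basic

section Finiteness

/-- A cyclic module killed by `𝔞` has length at most `ℓ(R/𝔞)`. -/
theorem relLen_span_singleton_le (𝔞 : Ideal R) (x : R) :
    relLen (𝔞 * Ideal.span {x}) (Ideal.span {x}) ≤ relLen 𝔞 (⊤ : Ideal R) := by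
  refine relLen_le_of_map (LinearMap.mulRight R x) (N' := 𝔞) (N := ⊤)
    (P' := 𝔞 * Ideal.span {x}) (P := Ideal.span {x}) ?_ ?_ ?_
  · intro y _
    rw [LinearMap.mulRight_apply]
    exact Ideal.mem_span_singleton.mpr (Dvd.intro_left y rfl)
  · intro y hy
    rw [LinearMap.mulRight_apply]
    exact Ideal.mul_mem_mul hy (Ideal.mem_span_singleton_self x)
  · intro y hy
    obtain ⟨c, rfl⟩ := Ideal.mem_span_singleton'.mp hy
    refine ⟨c, trivial, ?_⟩
    rw [LinearMap.mulRight_apply, sub_self]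
    exact Ideal.zero_mem _

/-- For a finitely generated ideal `A` and an ideal `𝔞` with `ℓ(R/𝔞) < ∞`: `ℓ(A/𝔞A) < ∞`. -/
theorem relLen_mul_ne_top (𝔞 : Ideal R) (h𝔞 : relLen 𝔞 (⊤ : Ideal R) ≠ ⊤)
    (A : Ideal R) (hA : A.FG) : relLen (𝔞 * A) A ≠ ⊤ := by
  refine Submodule.fg_induction
    (motive := fun (A : Submodule R R) _ => relLen (𝔞 * (A : Ideal R)) A ≠ ⊤) ?_ ?_ A hA
  · intro x
    exact ne_top_of_le_ne_top h𝔞 (relLen_span_singleton_le 𝔞 x)
  · intro M₁ M₂ _ _ h₁ h₂
    -- chain `𝔞 M₁ ⊔ 𝔞 M₂ ≤ M₁ ⊔ 𝔞 M₂ ≤ M₁ ⊔ M₂`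
    have hmul : 𝔞 * ((M₁ ⊔ M₂ : Submodule R R) : Ideal R) = 𝔞 * (M₁ : Ideal R) ⊔ 𝔞 * (M₂ : Ideal R) :=
      Ideal.mul_sup 𝔞 M₁ M₂
    have hle1 : 𝔞 * (M₁ : Ideal R) ≤ M₁ := Ideal.mul_le_right
    have hle2 : 𝔞 * (M₂ : Ideal R) ≤ M₂ := Ideal.mul_le_right
    have hAB : (𝔞 * (M₁ : Ideal R) ⊔ 𝔞 * (M₂ : Ideal R) : Ideal R) ≤ M₁ ⊔ 𝔞 * (M₂ : Ideal R) :=
      sup_le_sup_right hle1 _
    have hBC : (M₁ ⊔ 𝔞 * (M₂ : Ideal R) : Ideal R) ≤ M₁ ⊔ M₂ := sup_le_sup_left hle2 _
    show relLen (𝔞 * ((M₁ ⊔ M₂ : Submodule R R) : Ideal R)) (M₁ ⊔ M₂) ≠ ⊤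
    rw [hmul, relLen_add hAB hBC]
    have hfirst : relLen (𝔞 * (M₁ : Ideal R) ⊔ 𝔞 * (M₂ : Ideal R) : Ideal R)
        (M₁ ⊔ 𝔞 * (M₂ : Ideal R) : Ideal R) ≤ relLen (𝔞 * (M₁ : Ideal R)) M₁ := by
      refine relLen_le_of_map (LinearMap.id : R →ₗ[R] R) ?_ ?_ ?_
      · intro x hx
        exact Submodule.mem_sup_left hx
      · intro x hx
        exact Submodule.mem_sup_left hx
      · intro y hy
        obtain ⟨a, ha, b, hb, rfl⟩ := Submodule.mem_sup.mp hy
        refine ⟨a, ha, ?_⟩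
        rw [LinearMap.id_apply, add_sub_cancel_left]
        exact Submodule.mem_sup_right hb
    have hsecond : relLen (M₁ ⊔ 𝔞 * (M₂ : Ideal R) : Ideal R) (M₁ ⊔ M₂ : Ideal R) ≤
        relLen (𝔞 * (M₂ : Ideal R)) M₂ := by
      refine relLen_le_of_map (LinearMap.id : R →ₗ[R] R) ?_ ?_ ?_
      · intro x hx
        exact Submodule.mem_sup_right hx
      · intro x hx
        exact Submodule.mem_sup_right hx
      · intro y hy
        obtain ⟨a, ha, b, hb, rfl⟩ := Submodule.mem_sup.mp hy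
        refine ⟨b, hb, ?_⟩
        rw [LinearMap.id_apply, add_sub_cancel_right]
        exact Submodule.mem_sup_left ha
    intro htop
    rcases ENat.add_eq_top.mp htop with h | h
    · exact ne_top_of_le_ne_top h₁ hfirst h
    · exact ne_top_of_le_ne_top h₂ hsecond h

/-- `ℓ(R/(u, π^N)) < ∞` if `ℓ(R/(u, π)) < ∞`. -/
theorem relLen_span_pair_pow_ne_top (u π : R)
    (hfin : relLen (Ideal.span {u, π}) (⊤ : Ideal R) ≠ ⊤) (N : ℕ) :
    relLen (Ideal.span {u, π ^ N}) (⊤ : Ideal R) ≠ ⊤ := by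
  induction N with
  | zero =>
    have : Ideal.span {u, π ^ 0} = (⊤ : Ideal R) := by
      rw [Ideal.eq_top_iff_one, pow_zero]
      exact Ideal.subset_span (by simp)
    rw [this, relLen_self]
    exact ENat.zero_ne_top
  | succ N ih =>
    have hAB : Ideal.span {u, π ^ (N + 1)} ≤ Ideal.span {u, π ^ N} := by
      rw [Ideal.span_le]
      intro x hx
      rcases hx with rfl | rfl
      · exact Ideal.subset_span (by simp)
      · rw [pow_succ]
        exact Ideal.mul_mem_right _ _ (Ideal.subset_span (by simp))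
    rw [relLen_add hAB le_top]
    intro htop
    rcases ENat.add_eq_top.mp htop with h | h
    swap
    · exact ih h
    revert h
    refine ne_top_of_le_ne_top hfin ?_
    refine relLen_le_of_map (LinearMap.mulLeft R (π ^ N)) (N' := Ideal.span {u, π})
      (N := (⊤ : Ideal R)) ?_ ?_ ?_
    · intro x _
      rw [LinearMap.mulLeft_apply]
      exact Ideal.mul_mem_right _ _ (Ideal.subset_span (by simp))
    · intro x hx
      rw [LinearMap.mulLeft_apply]
      obtain ⟨a, b, rfl⟩ := Ideal.mem_span_pair.mp hx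
      refine Ideal.mem_span_pair.mpr ⟨π ^ N * a, b, ?_⟩
      rw [pow_succ]; ring
    · intro y hy
      obtain ⟨a, b, rfl⟩ := Ideal.mem_span_pair.mp hy
      refine ⟨b, trivial, ?_⟩
      rw [LinearMap.mulLeft_apply]
      have : a * u + b * π ^ N - π ^ N * b = a * u := by ring
      rw [this]
      exact Ideal.mul_mem_left _ _ (Ideal.subset_span (by simp))

end Finiteness

end Fermat.Agent.A2.H609

end
-- ===== PACK-END A2/H609/Multiplicity.lean

-- ===== PACK-BEGIN A2/H372/Radical.lean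
section


/-!
# A2 / MOD M5 (d4) : `p₁ + p₂` is a radical ideal (helper372)

Corollaries of `Fermat.Agent.A2.H372.Transversal` in the exact form of the field
`SSChart.transversal` of `Fermat/Agent/A2/Spec.lean` (row-lead helper13):
`(P₁ ⊔ P₂).IsRadical`.

* `isRadical_of_local` : an ideal `J` such that every maximal ideal `n ⊇ J` is generated by `J`
  locally at `n` (elementwise form) is radical.
* `KronCong.sup_isRadical` : transversality from the (semilinear) Kronecker congruences, `α` onto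
  `B/P₁`, and local generators of the first branch at the crossing points.
* `KronCong.sup_isRadical_of_isDedekindDomain` : the same when the first branch
  `A ⧸ comap α P₁` is a Dedekind domain (= `B_M / w` normal, S18 b2 at level `M`).
-/

set_option autoImplicit false

namespace Fermat.Agent.A2.H372

open Ideal

variable {A B : Type*} [CommRing A] [CommRing B]

/-- An ideal which, locally at every maximal ideal containing it, is equal to that maximal
ideal, is radical. -/
theorem isRadical_of_local {J : Ideal B}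
    (h : ∀ n : Ideal B, n.IsMaximal → J ≤ n → ∀ x ∈ n, ∃ t : B, t ∉ n ∧ t * x ∈ J) :
    J.IsRadical := by
  intro x hx
  -- the conductor `I = (J : x)`
  let I : Ideal B :=
    { carrier := {t | t * x ∈ J}
      add_mem' := fun {a b} ha hb => by
        change (a + b) * x ∈ J
        rw [add_mul]; exact J.add_mem ha hb
      zero_mem' := by simp
      smul_mem' := fun c a ha => by
        change c * a * x ∈ J
        rw [mul_assoc]; exact J.mul_mem_left c ha }
  have hI : ∀ t, t ∈ I ↔ t * x ∈ J := fun t => Iff.rfl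
  by_contra hxJ
  have hne : I ≠ ⊤ := by
    intro htop
    have : (1 : B) ∈ I := by rw [htop]; trivial
    rw [hI, one_mul] at this
    exact hxJ this
  obtain ⟨n, hn, hIn⟩ := Ideal.exists_le_maximal I hne
  have hJI : J ≤ I := fun t ht => (hI t).mpr (J.mul_mem_right x ht)
  have hJn : J ≤ n := hJI.trans hIn
  have hxn : x ∈ n := by
    obtain ⟨k, hk⟩ := hx
    exact hn.isPrime.mem_of_pow_mem k (hJn hk)
  obtain ⟨t, ht, htx⟩ := h n hn hJn x hxn
  exact ht (hIn ((hI t).mpr htx))

/-- **Transversality** (`SSChart.transversal`): `P₁ + P₂` is radical. -/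
theorem KronCong.sup_isRadical {q : ℕ} (hq : 2 ≤ q) {α β : A →+* B} {P₁ P₂ : Ideal B}
    (h : KronCong q α β P₁ P₂) (hα : ∀ b : B, ∃ a : A, b - α a ∈ P₁)
    (huni : ∀ n : Ideal B, n.IsMaximal → P₁ ≤ n → P₂ ≤ n → ∃ a₀ : A, IsBranchUnif α P₁ n a₀) :
    (P₁ ⊔ P₂).IsRadical := by
  refine isRadical_of_local fun n hn hJn x hx => ?_
  have hP₁ : P₁ ≤ n := le_sup_left.trans hJn
  have hP₂ : P₂ ≤ n := le_sup_right.trans hJn
  obtain ⟨a₀, ha₀⟩ := huni n hn hP₁ hP₂
  have := hn.isPrime
  exact h.mem_sup_of_mem hq hP₁ hP₂ hα ha₀ hx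

/-- **Transversality** when the first branch is a Dedekind domain. -/
theorem KronCong.sup_isRadical_of_isDedekindDomain {q : ℕ} (hq : 2 ≤ q) {α β : A →+* B}
    {P₁ P₂ : Ideal B} (h : KronCong q α β P₁ P₂) (hα : ∀ b : B, ∃ a : A, b - α a ∈ P₁)
    [IsDedekindDomain (A ⧸ Ideal.comap α P₁)] :
    (P₁ ⊔ P₂).IsRadical :=
  h.sup_isRadical hq hα fun n hn hP₁ _ =>
    haveI := hn.isPrime
    exists_isBranchUnif_of_isDedekindDomain α P₁ n hP₁

end Fermat.Agent.A2.H372

end
-- ===== PACK-END A2/H372/Radical.lean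

-- ===== PACK-BEGIN A2/Alg/H348/CompDvr.lean
section


/-!
# A2 / ALG / GLUE, `hconst` part, step 1: the local ring of a component is a discrete valuation ring

Mathlib-only (plus `H348.locAt`).  Abstract setting: `A ≤ B` subalgebras of a field `F` over `R`,
`p` a prime of `B` ("a component of the special fibre"), `p'` an ideal of `B` ("the union of the
other components") with `p ⊓ p' = (w)` and `p' ⊄ p`.  If moreover

* `p ∩ A = w A`                      (`contract`),
* no nonzero element of `A` is divisible by all powers of `w`   (`finite_mult`),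
* every nonzero `b ∈ B` divides a nonzero element of `A` in `B`  (`cofactor`),
* `F` is the fraction field of `B`, with denominators in `A`      (`frac`),

then `B_p = locAt B p` is a valuation subring of `F` (`CompData.valuationSubring`), its maximal
ideal is generated by `w` (`CompData.mul_inv_mem`) and it is discrete (`CompData.exists_pow_mul`).
No noetherian hypothesis on `B` is needed.
-/

set_option autoImplicit false
set_option linter.unusedSectionVars false
set_option linter.style.haveILetI false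

namespace Fermat.Agent.A2.Alg.H348

open Fermat.Agent.A2.H348

variable {R F : Type*} [CommRing R] [Field F] [Algebra R F]

/-- `p` is a component of the special fibre `w = 0` of `B`, `p'` the union of the other ones;
`A ≤ B` is a "base" (polynomial ring) over which `B` is integral. -/
structure CompData (A B : Subalgebra R F) (p p' : Ideal B) (w : R) : Prop where
  inf_eq : p ⊓ p' = Ideal.span {algebraMap R B w}
  not_le : ¬ p' ≤ p
  w_ne : algebraMap R F w ≠ 0
  contract : ∀ a : B, (a : F) ∈ A → a ∈ p → ∃ a' ∈ A, (a : F) = algebraMap R F w * a'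
  finite_mult : ∀ a ∈ A, a ≠ 0 → ∃ n : ℕ, ∀ a' ∈ A, a ≠ algebraMap R F w ^ (n + 1) * a'
  cofactor : ∀ b ∈ B, b ≠ 0 → ∃ g ∈ B, b * g ∈ A ∧ b * g ≠ 0
  frac : ∀ f : F, ∃ a ∈ A, a ≠ 0 ∧ a ∈ B ∧ a * f ∈ B

namespace CompData

variable {A B : Subalgebra R F} {p p' : Ideal B} [hp : p.IsPrime] {w : R}

theorem w_mem (D : CompData A B p p' w) : algebraMap R B w ∈ p := by
  have h : algebraMap R B w ∈ p ⊓ p' := by
    rw [D.inf_eq]; exact Ideal.mem_span_singleton_self _
  exact h.1

theorem exists_notMem (D : CompData A B p p' w) : ∃ t : B, t ∈ p' ∧ t ∉ p :=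
  SetLike.not_le_iff_exists.1 D.not_le

theorem w_inv_notMem (D : CompData A B p p' w) : (algebraMap R F w)⁻¹ ∉ locAt B p := by
  rintro ⟨s, hs, hsw⟩
  apply hs
  have h1 : s = algebraMap R B w * ⟨(s : F) * (algebraMap R F w)⁻¹, hsw⟩ := by
    apply Subtype.ext
    have hw := D.w_ne
    show (s : F) = algebraMap R F w * ((s : F) * (algebraMap R F w)⁻¹)
    field_simp
  rw [h1]
  exact p.mul_mem_right _ D.w_mem

/-- the maximal ideal of `B_p` is generated by `w`. -/
theorem mul_inv_mem (D : CompData A B p p' w) {f : F} (hf : f ∈ locAt B p)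
    (hf' : f⁻¹ ∉ locAt B p) : f * (algebraMap R F w)⁻¹ ∈ locAt B p := by
  obtain ⟨s, hs, hsf⟩ := hf
  by_cases hb : (⟨(s : F) * f, hsf⟩ : B) ∈ p
  · obtain ⟨t, ht', ht⟩ := D.exists_notMem
    have hbt : (⟨(s : F) * f, hsf⟩ : B) * t ∈ p ⊓ p' :=
      ⟨p.mul_mem_right _ hb, p'.mul_mem_left _ ht'⟩
    rw [D.inf_eq, Ideal.mem_span_singleton'] at hbt
    obtain ⟨c, hc⟩ := hbt
    refine ⟨s * t, fun h => (hp.mem_or_mem h).elim hs ht, ?_⟩
    have hc' : (c : F) * algebraMap R F w = (s : F) * f * (t : F) := congrArg Subtype.val hc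
    have hw := D.w_ne
    have : ((s * t : B) : F) * (f * (algebraMap R F w)⁻¹) = (c : F) := by
      have h3 : ((s * t : B) : F) * (f * (algebraMap R F w)⁻¹)
          = ((s : F) * f * (t : F)) * (algebraMap R F w)⁻¹ := by
        push_cast; ring
      rw [h3, ← hc', mul_assoc, mul_inv_cancel₀ hw, mul_one]
    rw [this]
    exact c.2
  · exfalso
    apply hf'
    have hf0 : f ≠ 0 := by
      rintro rfl
      apply hb
      have : (⟨(s : F) * 0, hsf⟩ : B) = 0 := Subtype.ext (mul_zero _)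
      rw [this]
      exact p.zero_mem
    refine ⟨⟨(s : F) * f, hsf⟩, hb, ?_⟩
    show (s : F) * f * f⁻¹ ∈ B
    rw [mul_assoc, mul_inv_cancel₀ hf0, mul_one]
    exact s.2

/-- `B ∩ w B_p = p`. -/
theorem mem_of_eq_w_mul (D : CompData A B p p' w) {b : B} {v : F} (hv : v ∈ locAt B p)
    (h : (b : F) = algebraMap R F w * v) : b ∈ p := by
  obtain ⟨s, hs, hsv⟩ := hv
  have h1 : s * b = algebraMap R B w * ⟨(s : F) * v, hsv⟩ := by
    apply Subtype.ext
    show (s : F) * (b : F) = algebraMap R F w * ((s : F) * v)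
    rw [h]; ring
  have h2 : s * b ∈ p := by
    rw [h1]; exact p.mul_mem_right _ D.w_mem
  exact (hp.mem_or_mem h2).resolve_left hs

/-- `A ∩ w ^ k B_p = w ^ k A`. -/
theorem dvd_of_eq_pow_mul (D : CompData A B p p' w) (hAB : A ≤ B) :
    ∀ (k : ℕ) (a : F), a ∈ A → (∃ v ∈ locAt B p, a = algebraMap R F w ^ k * v) →
      ∃ a' ∈ A, a = algebraMap R F w ^ k * a' := by
  intro k
  induction k with
  | zero =>
    intro a ha _
    exact ⟨a, ha, by simp⟩
  | succ k ih =>
    rintro a ha ⟨v, hv, hav⟩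
    have hwv : algebraMap R F w ^ k * v ∈ locAt B p :=
      (locAt B p).mul_mem ((locAt B p).pow_mem ((locAt B p).algebraMap_mem w) k) hv
    have hmem : (⟨a, hAB ha⟩ : B) ∈ p := D.mem_of_eq_w_mul hwv (by
      show a = algebraMap R F w * (algebraMap R F w ^ k * v)
      rw [hav, pow_succ]; ring)
    obtain ⟨a₁, ha₁, h1⟩ := D.contract ⟨a, hAB ha⟩ ha hmem
    have h1' : a = algebraMap R F w * a₁ := h1
    have h2 : a₁ = algebraMap R F w ^ k * v := by
      have hw := D.w_ne
      have : algebraMap R F w * a₁ = algebraMap R F w * (algebraMap R F w ^ k * v) := by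
        rw [← h1', hav, pow_succ]; ring
      exact mul_left_cancel₀ hw this
    obtain ⟨a', ha', h3⟩ := ih a₁ ha₁ ⟨v, hv, h2⟩
    exact ⟨a', ha', by rw [h1', h3, pow_succ]; ring⟩

/-- a nonzero element of `B` is not divisible by all powers of `w` in `B_p`. -/
theorem exists_bound (D : CompData A B p p' w) (hAB : A ≤ B) {b : F} (hb : b ∈ B)
    (hb0 : b ≠ 0) :
    ∃ n : ℕ, ¬ ∃ v ∈ locAt B p, b = algebraMap R F w ^ (n + 1) * v := by
  obtain ⟨g, hg, hbgA, hbg0⟩ := D.cofactor b hb hb0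
  obtain ⟨n, hn⟩ := D.finite_mult _ hbgA hbg0
  refine ⟨n, ?_⟩
  rintro ⟨v, hv, hbv⟩
  obtain ⟨a', ha', h⟩ := D.dvd_of_eq_pow_mul hAB (n + 1) (b * g) hbgA
    ⟨v * g, (locAt B p).mul_mem hv (le_locAt p hg), by rw [hbv]; ring⟩
  exact hn a' ha' h

theorem exists_pow_mul_aux (D : CompData A B p p' w) :
    ∀ (n : ℕ) (v : F), v ∈ locAt B p →
      (¬ ∃ v' ∈ locAt B p, v = algebraMap R F w ^ (n + 1) * v') →
      ∃ (k : ℕ) (ε : F), ε ∈ locAt B p ∧ ε⁻¹ ∈ locAt B p ∧ v = algebraMap R F w ^ k * ε := by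
  have hw := D.w_ne
  intro n
  induction n with
  | zero =>
    intro v hv hn
    by_cases hv' : v⁻¹ ∈ locAt B p
    · exact ⟨0, v, hv, hv', by simp⟩
    · exfalso
      apply hn
      refine ⟨v * (algebraMap R F w)⁻¹, D.mul_inv_mem hv hv', ?_⟩
      rw [zero_add, pow_one]
      field_simp
  | succ n ih =>
    intro v hv hn
    by_cases hv' : v⁻¹ ∈ locAt B p
    · exact ⟨0, v, hv, hv', by simp⟩
    · have h1 := D.mul_inv_mem hv hv'
      obtain ⟨k, ε, hε, hε', h⟩ := ih (v * (algebraMap R F w)⁻¹) h1 (by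
        rintro ⟨v', hv'', h2⟩
        apply hn
        refine ⟨v', hv'', ?_⟩
        have : v = algebraMap R F w * (v * (algebraMap R F w)⁻¹) := by field_simp
        rw [this, h2, pow_succ (algebraMap R F w) (n + 1)]
        ring)
      refine ⟨k + 1, ε, hε, hε', ?_⟩
      have : v = algebraMap R F w * (v * (algebraMap R F w)⁻¹) := by field_simp
      rw [this, h, pow_succ]
      ring

/-- every nonzero element of `B` is a power of `w` times a unit of `B_p`. -/
theorem exists_pow_mul (D : CompData A B p p' w) (hAB : A ≤ B) {b : F} (hb : b ∈ B)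
    (hb0 : b ≠ 0) :
    ∃ (k : ℕ) (ε : F), ε ∈ locAt B p ∧ ε⁻¹ ∈ locAt B p ∧ b = algebraMap R F w ^ k * ε := by
  obtain ⟨n, hn⟩ := D.exists_bound hAB hb hb0
  exact D.exists_pow_mul_aux n b (le_locAt p hb) hn

/-- every nonzero element of `F` is a power of `w` times a unit of `B_p`. -/
theorem exists_zpow_mul (D : CompData A B p p' w) (hAB : A ≤ B) {f : F} (hf : f ≠ 0) :
    ∃ (k l : ℕ) (ε : F), ε ∈ locAt B p ∧ ε⁻¹ ∈ locAt B p ∧
      f * algebraMap R F w ^ k = algebraMap R F w ^ l * ε := by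
  have hw := D.w_ne
  obtain ⟨a, haA, ha0, haB, haf⟩ := D.frac f
  obtain ⟨k, ε, hε, hε', hk⟩ := D.exists_pow_mul hAB haB ha0
  obtain ⟨l, η, hη, hη', hl⟩ := D.exists_pow_mul hAB haf (mul_ne_zero ha0 hf)
  have hε0 : ε ≠ 0 := by
    rintro rfl
    apply ha0
    rw [hk, mul_zero]
  refine ⟨k, l, η * ε⁻¹, (locAt B p).mul_mem hη hε', ?_, ?_⟩
  · rw [mul_inv, inv_inv]
    exact (locAt B p).mul_mem hη' hε
  · have h1 : f * (algebraMap R F w ^ k * ε) = algebraMap R F w ^ l * η := by
      rw [← hk, mul_comm f a, hl]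
    have h2 : f * algebraMap R F w ^ k = f * (algebraMap R F w ^ k * ε) * ε⁻¹ := by
      field_simp
    rw [h2, h1]
    ring

/-- discreteness. -/
theorem exists_mul_pow_mem (D : CompData A B p p' w) (hAB : A ≤ B) (f : F) :
    ∃ k : ℕ, f * algebraMap R F w ^ k ∈ locAt B p := by
  rcases eq_or_ne f 0 with rfl | hf
  · exact ⟨0, by rw [zero_mul]; exact (locAt B p).zero_mem⟩
  obtain ⟨k, l, ε, hε, -, h⟩ := D.exists_zpow_mul hAB hf
  exact ⟨k, by
    rw [h]
    exact (locAt B p).mul_mem ((locAt B p).pow_mem ((locAt B p).algebraMap_mem w) l) hε⟩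

theorem mem_or_inv_mem (D : CompData A B p p' w) (hAB : A ≤ B) (f : F) :
    f ∈ locAt B p ∨ f⁻¹ ∈ locAt B p := by
  have hw := D.w_ne
  rcases eq_or_ne f 0 with rfl | hf
  · exact Or.inl (locAt B p).zero_mem
  obtain ⟨k, l, ε, hε, hε', h⟩ := D.exists_zpow_mul hAB hf
  have hwmem : ∀ j : ℕ, algebraMap R F w ^ j ∈ locAt B p := fun j =>
    (locAt B p).pow_mem ((locAt B p).algebraMap_mem w) j
  have hε0 : ε ≠ 0 := by
    rintro rfl
    rw [mul_zero] at h
    exact (mul_ne_zero hf (pow_ne_zero _ hw)) h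
  rcases le_total k l with hkl | hkl
  · left
    obtain ⟨d, rfl⟩ := Nat.exists_eq_add_of_le hkl
    have : f = algebraMap R F w ^ d * ε := by
      have h2 : f * algebraMap R F w ^ k = (algebraMap R F w ^ d * ε) * algebraMap R F w ^ k := by
        rw [h, pow_add]; ring
      exact mul_right_cancel₀ (pow_ne_zero _ hw) h2
    rw [this]
    exact (locAt B p).mul_mem (hwmem d) hε
  · right
    obtain ⟨d, rfl⟩ := Nat.exists_eq_add_of_le hkl
    have : f⁻¹ = algebraMap R F w ^ d * ε⁻¹ := by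
      have h2 : f * algebraMap R F w ^ d * algebraMap R F w ^ l = ε * algebraMap R F w ^ l := by
        rw [mul_assoc, ← pow_add, add_comm, h]; ring
      have h3 : f * algebraMap R F w ^ d = ε := mul_right_cancel₀ (pow_ne_zero _ hw) h2
      rw [← h3]
      field_simp
    rw [this]
    exact (locAt B p).mul_mem (hwmem d) hε'

/-- `B_p` as a valuation subring of `F`. -/
def valuationSubring (D : CompData A B p p' w) (hAB : A ≤ B) : ValuationSubring F :=
  { (locAt B p).toSubring with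
    mem_or_inv_mem' := D.mem_or_inv_mem hAB }

theorem mem_valuationSubring (D : CompData A B p p' w) (hAB : A ≤ B) {f : F} :
    f ∈ D.valuationSubring hAB ↔ f ∈ locAt B p := Iff.rfl

end CompData

end Fermat.Agent.A2.Alg.H348

end
-- ===== PACK-END A2/Alg/H348/CompDvr.lean

-- ===== PACK-BEGIN A2/H48/TwoExt.lean
section


/-!
# A2 / piece QEP2, part 2 (helper48): no third extension

Mathlib-only.  `K` a field with a rank-one valuation ring `O` with uniformiser `ϖ`; `F / K` a finite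
extension of degree `n`; `V₁ ≠ V₂` valuation rings of `F` lying over `O`, both with uniformiser
`ϖ` (`e = 1`); families `b` in `V₁`, `c` in `V₂` whose residues are linearly independent over the
residue field of `O`, with `f₁ + f₂ = n` members altogether.  Then

* `TwoExt.exists_basis` : `V₁ ∩ V₂` is a free `O`-module on `n` generators which form a
  `K`-basis of `F`;
* `TwoExt.exists_monic_of_mem` : every `u ∈ V₁ ∩ V₂` is integral over `O`
  (so `V₁`, `V₂` are the only extensions of `O`: the fundamental inequality is an equality).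
-/

set_option autoImplicit false

namespace Fermat.Agent.A2.H48

open Polynomial

section Closed

variable {F : Type*} [Field F]

/-- A valuation ring is integrally closed (elementwise form, for polynomials over the field). -/
theorem mem_of_monic_root (V : ValuationSubring F) {p : F[X]} (hp : p.Monic)
    (hc : ∀ i, p.coeff i ∈ V) {g : F} (hg : p.eval g = 0) : g ∈ V := by
  by_contra hgV
  have hv : 1 < V.valuation g := by
    rw [← not_le, V.valuation_le_one_iff]; exact hgV
  have hg0 : g ≠ 0 := by rintro rfl; exact hgV (zero_mem _)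
  have hvpos : 0 < V.valuation g := lt_trans zero_lt_one hv
  set d := p.natDegree with hd
  have hsum : p.eval g = g ^ d + ∑ i ∈ Finset.range d, p.coeff i * g ^ i := by
    rw [eval_eq_sum_range, Finset.sum_range_succ, ← hd, hp.coeff_natDegree, one_mul, add_comm]
  rw [hsum] at hg
  have h1 : g ^ d = -∑ i ∈ Finset.range d, p.coeff i * g ^ i := eq_neg_of_add_eq_zero_left hg
  have h2 : V.valuation (∑ i ∈ Finset.range d, p.coeff i * g ^ i) < V.valuation g ^ d := by
    apply Valuation.map_sum_lt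
    · exact pow_ne_zero _ hvpos.ne'
    · intro i hi
      rw [Finset.mem_range] at hi
      rw [map_mul, map_pow]
      calc V.valuation (p.coeff i) * V.valuation g ^ i ≤ 1 * V.valuation g ^ i :=
            mul_le_mul_left ((V.valuation_le_one_iff _).2 (hc i)) _
        _ = V.valuation g ^ i := one_mul _
        _ < V.valuation g ^ d := pow_lt_pow_right₀ hv hi
  have h3 : V.valuation (g ^ d) = V.valuation g ^ d := map_pow _ _ _
  rw [h1, Valuation.map_neg] at h3
  exact absurd h3 h2.ne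

end Closed

section Arch

variable {K F : Type*} [Field K] [Field F] [Algebra K F]

/-- A rank-one condition on `O` propagates to every valuation ring of an algebraic extension
which contains `O`. -/
theorem exists_pow_mul_mem {O : ValuationSubring K} {ϖ : K} (hϖ : ϖ ∈ O)
    (harch : ∀ a : K, ∃ k : ℕ, ϖ ^ k * a ∈ O)
    (V : ValuationSubring F) (hOV : ∀ a ∈ O, algebraMap K F a ∈ V)
    {f : F} (hf : IsIntegral K f) : ∃ k : ℕ, (algebraMap K F ϖ) ^ k * f ∈ V := by
  classical
  set μ := minpoly K f with hμ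
  have hmonic : μ.Monic := minpoly.monic hf
  choose kk hkk using fun i : ℕ => harch (μ.coeff i)
  set k := (∑ i ∈ Finset.range (μ.natDegree + 1), kk i) + 1 with hk
  have hk1 : ∀ i ∈ Finset.range (μ.natDegree + 1), ϖ ^ k * μ.coeff i ∈ O := by
    intro i hi
    have hle : kk i ≤ k := by
      have := Finset.single_le_sum (f := kk) (fun j _ => Nat.zero_le _) hi
      omega
    obtain ⟨r, hr⟩ := Nat.exists_eq_add_of_le hle
    rw [hr, pow_add, mul_comm (ϖ ^ kk i), mul_assoc]
    exact mul_mem (pow_mem hϖ _) (hkk i)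
  refine ⟨k, ?_⟩
  set p := μ.scaleRoots (ϖ ^ k) with hp
  have hpm : p.Monic := (monic_scaleRoots_iff _).2 hmonic
  have hroot : aeval (algebraMap K F (ϖ ^ k) * f) p = 0 :=
    scaleRoots_aeval_eq_zero (minpoly.aeval K f)
  have hcoef : ∀ i, p.coeff i ∈ O := by
    intro i
    rw [hp, coeff_scaleRoots]
    rcases lt_trichotomy i μ.natDegree with h | h | h
    · obtain ⟨r, hr⟩ := Nat.exists_eq_add_of_lt (Nat.sub_pos_of_lt h)
      have h1 : μ.natDegree - i = r + 1 := by omega
      rw [h1, pow_succ, ← mul_assoc]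
      have h2 : ϖ ^ k * μ.coeff i ∈ O := hk1 i (Finset.mem_range.2 (by omega))
      have h3 : μ.coeff i * (ϖ ^ k) ^ r * ϖ ^ k = (ϖ ^ k * μ.coeff i) * (ϖ ^ k) ^ r := by ring
      rw [h3]
      exact mul_mem h2 (pow_mem (pow_mem hϖ _) _)
    · rw [h, hmonic.coeff_natDegree, Nat.sub_self, pow_zero, mul_one]
      exact one_mem _
    · rw [coeff_eq_zero_of_natDegree_lt h, zero_mul]
      exact zero_mem _
  have hq : (p.map (algebraMap K F)).eval (algebraMap K F (ϖ ^ k) * f) = 0 := by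
    rw [eval_map, ← aeval_def]; exact hroot
  have := mem_of_monic_root V (hpm.map (algebraMap K F))
    (fun i => by rw [coeff_map]; exact hOV _ (hcoef i)) hq
  rwa [map_pow] at this

end Arch

section Scale

variable {K : Type*} [Field K]

/-- Scaling a finite family by its entry of largest valuation. -/
theorem exists_scale_family {ι : Type*} [Fintype ι] (O : ValuationSubring K) (g : ι → K)
    (l : ι) :
    ∃ l₀, O.valuation (g l) ≤ O.valuation (g l₀) ∧
      ∀ l', O.valuation (g l') ≤ O.valuation (g l₀) := by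
  obtain ⟨l₀, -, h⟩ := Finset.exists_max_image Finset.univ (fun l => O.valuation (g l))
    ⟨l, Finset.mem_univ l⟩
  exact ⟨l₀, h l (Finset.mem_univ l), fun l' => h l' (Finset.mem_univ l')⟩

theorem mul_inv_mem_of_val_le (O : ValuationSubring K) {x y : K} (hy : y ≠ 0)
    (h : O.valuation x ≤ O.valuation y) : x * y⁻¹ ∈ O := by
  rw [← O.valuation_le_one_iff, map_mul, map_inv₀,
    mul_inv_le_iff₀ (zero_lt_iff.2 ((Valuation.ne_zero_iff _).2 hy)), one_mul]
  exact h

end Scale

section Main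

variable {K F : Type*} [Field K] [Field F] [Algebra K F]

/-- The hypotheses of the "no third extension" theorem. -/
structure TwoExt (O : ValuationSubring K) (V₁ V₂ : ValuationSubring F) (ϖ : K)
    {f₁ f₂ : ℕ} (b : Fin f₁ → F) (c : Fin f₂ → F) : Prop where
  unifO : IsUnif O ϖ
  unif₁ : IsUnif V₁ (algebraMap K F ϖ)
  unif₂ : IsUnif V₂ (algebraMap K F ϖ)
  le₁ : ∀ a ∈ O, algebraMap K F a ∈ V₁
  le₂ : ∀ a ∈ O, algebraMap K F a ∈ V₂
  ne : V₁ ≠ V₂
  arch : ∀ a : K, ∃ k : ℕ, ϖ ^ k * a ∈ O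
  b_mem : ∀ i, b i ∈ V₁
  c_mem : ∀ j, c j ∈ V₂
  b_indep : ∀ a : Fin f₁ → K, (∀ i, a i ∈ O) →
    (∑ i, algebraMap K F (a i) * b i) * (algebraMap K F ϖ)⁻¹ ∈ V₁ → ∀ i, a i * ϖ⁻¹ ∈ O
  c_indep : ∀ a : Fin f₂ → K, (∀ j, a j ∈ O) →
    (∑ j, algebraMap K F (a j) * c j) * (algebraMap K F ϖ)⁻¹ ∈ V₂ → ∀ j, a j * ϖ⁻¹ ∈ O
  card : f₁ + f₂ = Module.finrank K F

namespace TwoExt

variable {O : ValuationSubring K} {V₁ V₂ : ValuationSubring F} {ϖ : K}
  {f₁ f₂ : ℕ} {b : Fin f₁ → F} {c : Fin f₂ → F}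

/-- A good generating family: `m` lies in `V₁ ∩ V₂` and a combination with coefficients in `O`
which is divisible by `ϖ` in both `V₁` and `V₂` has all its coefficients divisible by `ϖ`. -/
def IsGood (O : ValuationSubring K) (V₁ V₂ : ValuationSubring F) (ϖ : K)
    {ι : Type*} [Fintype ι] (m : ι → F) : Prop :=
  (∀ l, m l ∈ V₁) ∧ (∀ l, m l ∈ V₂) ∧
    ∀ a : ι → K, (∀ l, a l ∈ O) →
      (∑ l, algebraMap K F (a l) * m l) * (algebraMap K F ϖ)⁻¹ ∈ V₁ →
      (∑ l, algebraMap K F (a l) * m l) * (algebraMap K F ϖ)⁻¹ ∈ V₂ → ∀ l, a l * ϖ⁻¹ ∈ O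

theorem exists_good [FiniteDimensional K F] (h : TwoExt O V₁ V₂ ϖ b c) :
    ∃ m : Fin f₁ ⊕ Fin f₂ → F, IsGood O V₁ V₂ ϖ m := by
  classical
  set π := algebraMap K F ϖ with hπ
  have hπ0 : π ≠ 0 := h.unif₁.ne_zero
  have hA₁ : ∀ i, ∃ g : F, g ∈ V₁ ∧ (g - b i) * π⁻¹ ∈ V₁ ∧ g * π⁻¹ ∈ V₂ := fun i => by
    obtain ⟨k, hk⟩ := exists_pow_mul_mem h.unifO.mem h.arch V₂ h.le₂
      (Algebra.IsIntegral.isIntegral (R := K) (b i))
    exact exists_approx h.unif₁ h.unif₂ h.ne (h.b_mem i) hk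
  have hA₂ : ∀ j, ∃ g : F, g ∈ V₂ ∧ (g - c j) * π⁻¹ ∈ V₂ ∧ g * π⁻¹ ∈ V₁ := fun j => by
    obtain ⟨k, hk⟩ := exists_pow_mul_mem h.unifO.mem h.arch V₁ h.le₁
      (Algebra.IsIntegral.isIntegral (R := K) (c j))
    exact exists_approx h.unif₂ h.unif₁ (Ne.symm h.ne) (h.c_mem j) hk
  choose g hg1 hg2 hg3 using hA₁
  choose g' hg'1 hg'2 hg'3 using hA₂
  have hgV₂ : ∀ i, g i ∈ V₂ := fun i => by
    have : g i = g i * π⁻¹ * π := by field_simp
    rw [this]; exact mul_mem (hg3 i) h.unif₂.mem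
  have hg'V₁ : ∀ j, g' j ∈ V₁ := fun j => by
    have : g' j = g' j * π⁻¹ * π := by field_simp
    rw [this]; exact mul_mem (hg'3 j) h.unif₁.mem
  refine ⟨Sum.elim g g', ?_, ?_, ?_⟩
  · rintro (i | j)
    · exact hg1 i
    · exact hg'V₁ j
  · rintro (i | j)
    · exact hgV₂ i
    · exact hg'1 j
  · intro a ha hS₁ hS₂
    have hsplit : (∑ l, algebraMap K F (a l) * Sum.elim g g' l) =
        (∑ i, algebraMap K F (a (Sum.inl i)) * g i) +
          ∑ j, algebraMap K F (a (Sum.inr j)) * g' j := by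
      rw [Fintype.sum_sum_type]; simp only [Sum.elim_inl, Sum.elim_inr]
    rw [hsplit] at hS₁ hS₂
    rintro (i | j)
    · refine h.b_indep (fun i => a (Sum.inl i)) (fun i => ha _) ?_ i
      have e1 : (∑ i, algebraMap K F (a (Sum.inl i)) * b i) * π⁻¹ =
          ((∑ i, algebraMap K F (a (Sum.inl i)) * g i) +
            ∑ j, algebraMap K F (a (Sum.inr j)) * g' j) * π⁻¹
          - ∑ i, algebraMap K F (a (Sum.inl i)) * ((g i - b i) * π⁻¹)
          - ∑ j, algebraMap K F (a (Sum.inr j)) * (g' j * π⁻¹) := by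
        have hW : ∑ i, algebraMap K F (a (Sum.inl i)) * ((g i - b i) * π⁻¹) =
            (∑ i, algebraMap K F (a (Sum.inl i)) * g i) * π⁻¹ -
              (∑ i, algebraMap K F (a (Sum.inl i)) * b i) * π⁻¹ := by
          rw [Finset.sum_mul, Finset.sum_mul, ← Finset.sum_sub_distrib]
          exact Finset.sum_congr rfl fun i _ => by ring
        have hZ : ∑ j, algebraMap K F (a (Sum.inr j)) * (g' j * π⁻¹) =
            (∑ j, algebraMap K F (a (Sum.inr j)) * g' j) * π⁻¹ := by
          rw [Finset.sum_mul]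
          exact Finset.sum_congr rfl fun j _ => by ring
        rw [hW, hZ]; ring
      rw [e1]
      refine sub_mem (sub_mem hS₁ (sum_mem fun i _ => mul_mem (h.le₁ _ (ha _)) (hg2 i)))
        (sum_mem fun j _ => mul_mem (h.le₁ _ (ha _)) (hg'3 j))
    · refine h.c_indep (fun j => a (Sum.inr j)) (fun j => ha _) ?_ j
      have e1 : (∑ j, algebraMap K F (a (Sum.inr j)) * c j) * π⁻¹ =
          ((∑ i, algebraMap K F (a (Sum.inl i)) * g i) +
            ∑ j, algebraMap K F (a (Sum.inr j)) * g' j) * π⁻¹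
          - ∑ j, algebraMap K F (a (Sum.inr j)) * ((g' j - c j) * π⁻¹)
          - ∑ i, algebraMap K F (a (Sum.inl i)) * (g i * π⁻¹) := by
        have hW : ∑ j, algebraMap K F (a (Sum.inr j)) * ((g' j - c j) * π⁻¹) =
            (∑ j, algebraMap K F (a (Sum.inr j)) * g' j) * π⁻¹ -
              (∑ j, algebraMap K F (a (Sum.inr j)) * c j) * π⁻¹ := by
          rw [Finset.sum_mul, Finset.sum_mul, ← Finset.sum_sub_distrib]
          exact Finset.sum_congr rfl fun j _ => by ring
        have hZ : ∑ i, algebraMap K F (a (Sum.inl i)) * (g i * π⁻¹) =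
            (∑ i, algebraMap K F (a (Sum.inl i)) * g i) * π⁻¹ := by
          rw [Finset.sum_mul]
          exact Finset.sum_congr rfl fun i _ => by ring
        rw [hW, hZ]; ring
      rw [e1]
      refine sub_mem (sub_mem hS₂ (sum_mem fun j _ => mul_mem (h.le₂ _ (ha _)) (hg'2 j)))
        (sum_mem fun i _ => mul_mem (h.le₂ _ (ha _)) (hg3 i))

namespace IsGood

variable {ι : Type*} [Fintype ι] {m : ι → F}

theorem linearIndependent (hO : IsUnif O ϖ) (hm : IsGood O V₁ V₂ ϖ m) :
    LinearIndependent K m := by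
  classical
  rw [Fintype.linearIndependent_iff]
  intro g hg
  by_contra hne
  rw [not_forall] at hne
  obtain ⟨l, hl⟩ := hne
  obtain ⟨l₀, hl₀, hmax⟩ := exists_scale_family O g l
  have hg0 : g l₀ ≠ 0 := by
    intro h0
    rw [h0, map_zero] at hl₀
    exact (Valuation.ne_zero_iff _).2 hl (le_antisymm hl₀ zero_le)
  have ha : ∀ l', g l' * (g l₀)⁻¹ ∈ O := fun l' => mul_inv_mem_of_val_le O hg0 (hmax l')
  have hsum : ∑ l', algebraMap K F (g l' * (g l₀)⁻¹) * m l' = 0 := by
    have : ∑ l', algebraMap K F (g l' * (g l₀)⁻¹) * m l' =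
        algebraMap K F (g l₀)⁻¹ * ∑ l', g l' • m l' := by
      rw [Finset.mul_sum]
      refine Finset.sum_congr rfl fun l' _ => ?_
      rw [map_mul, Algebra.smul_def]; ring
    rw [this, hg, mul_zero]
  have := hm.2.2 _ ha (by rw [hsum, zero_mul]; exact zero_mem _)
    (by rw [hsum, zero_mul]; exact zero_mem _) l₀
  rw [mul_inv_cancel₀ hg0, one_mul] at this
  exact hO.inv_not_mem this

/-- The coordinates of an element of `V₁ ∩ V₂` in a good basis lie in `O`. -/
theorem repr_mem (hO : IsUnif O ϖ) (le₁ : ∀ a ∈ O, algebraMap K F a ∈ V₁)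
    (le₂ : ∀ a ∈ O, algebraMap K F a ∈ V₂) (hm : IsGood O V₁ V₂ ϖ m)
    (B : Module.Basis ι K F) (hB : ∀ l, B l = m l) {z : F} (hz₁ : z ∈ V₁) (hz₂ : z ∈ V₂)
    (l : ι) : B.repr z l ∈ O := by
  classical
  by_contra hl
  set g : ι → K := fun l => B.repr z l with hg
  obtain ⟨l₀, hl₀, hmax⟩ := exists_scale_family O g l
  have hv : 1 < O.valuation (g l₀) := by
    refine lt_of_lt_of_le ?_ hl₀
    rw [← not_le, O.valuation_le_one_iff]; exact hl
  have hg0 : g l₀ ≠ 0 := by
    intro h0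
    rw [h0, map_zero] at hv
    exact absurd hv (not_lt.2 zero_le)
  have ha : ∀ l', g l' * (g l₀)⁻¹ ∈ O := fun l' => mul_inv_mem_of_val_le O hg0 (hmax l')
  have hz : ∑ l', g l' • m l' = z := by
    have := B.sum_repr z
    simpa only [hB] using this
  have hsum : ∑ l', algebraMap K F (g l' * (g l₀)⁻¹) * m l' = algebraMap K F (g l₀)⁻¹ * z := by
    rw [← hz, Finset.mul_sum]
    refine Finset.sum_congr rfl fun l' _ => ?_
    rw [map_mul, Algebra.smul_def]; ring
  have hinv : (g l₀)⁻¹ * ϖ⁻¹ ∈ O := by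
    rw [hO.mul_inv_mem_iff, map_inv₀]
    exact inv_lt_one_of_one_lt₀ hv
  have hkey : (∑ l', algebraMap K F (g l' * (g l₀)⁻¹) * m l') * (algebraMap K F ϖ)⁻¹ =
      algebraMap K F ((g l₀)⁻¹ * ϖ⁻¹) * z := by
    rw [hsum, map_mul, map_inv₀, map_inv₀]; ring
  have := hm.2.2 _ ha (by rw [hkey]; exact mul_mem (le₁ _ hinv) hz₁)
    (by rw [hkey]; exact mul_mem (le₂ _ hinv) hz₂) l₀
  rw [mul_inv_cancel₀ hg0, one_mul] at this
  exact hO.inv_not_mem this

/-- Every element of `V₁ ∩ V₂` is integral over `O`. -/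
theorem exists_monic (hO : IsUnif O ϖ) (le₁ : ∀ a ∈ O, algebraMap K F a ∈ V₁)
    (le₂ : ∀ a ∈ O, algebraMap K F a ∈ V₂) (hm : IsGood O V₁ V₂ ϖ m)
    (hcard : Fintype.card ι = Module.finrank K F) [FiniteDimensional K F]
    {u : F} (hu₁ : u ∈ V₁) (hu₂ : u ∈ V₂) :
    ∃ p : K[X], p.Monic ∧ (∀ i, p.coeff i ∈ O) ∧ aeval u p = 0 := by
  classical
  have hpos : 0 < Module.finrank K F := Module.finrank_pos
  have : Nonempty ι := by
    rw [← Fintype.card_pos_iff, hcard]; exact hpos
  set B := basisOfLinearIndependentOfCardEqFinrank (hm.linearIndependent hO) hcard with hBdef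
  have hB : ∀ l, B l = m l := fun l => by
    rw [hBdef, coe_basisOfLinearIndependentOfCardEqFinrank]
  let _ : Algebra O F := ((algebraMap K F).comp O.subtype).toAlgebra
  have hsmul : ∀ (r : O) (x : F), r • x = algebraMap K F (r : K) * x := fun r x => rfl
  set N : Submodule O F := Submodule.span O (Set.range m) with hN
  have hmem : ∀ z : F, z ∈ V₁ → z ∈ V₂ → z ∈ N := by
    intro z hz₁ hz₂
    have hz : z = ∑ l, (⟨B.repr z l, repr_mem hO le₁ le₂ hm B hB hz₁ hz₂ l⟩ : O) • m l := by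
      conv_lhs => rw [← B.sum_repr z]
      refine Finset.sum_congr rfl fun l _ => ?_
      rw [hsmul, hB, Algebra.smul_def]
    rw [hz]
    exact Submodule.sum_mem _ fun l _ =>
      Submodule.smul_mem _ _ (Submodule.subset_span (Set.mem_range_self l))
  have hNV : ∀ n ∈ N, n ∈ V₁ ∧ n ∈ V₂ := by
    intro n hn
    induction hn using Submodule.span_induction with
    | mem x hx =>
        obtain ⟨l, rfl⟩ := hx
        exact ⟨hm.1 l, hm.2.1 l⟩
    | zero => exact ⟨zero_mem _, zero_mem _⟩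
    | add x y _ _ hx hy => exact ⟨add_mem hx.1 hy.1, add_mem hx.2 hy.2⟩
    | smul r x _ hx =>
        rw [hsmul]
        exact ⟨mul_mem (le₁ _ r.2) hx.1, mul_mem (le₂ _ r.2) hx.2⟩
  have hstable : ∀ n ∈ N, u • n ∈ N := by
    intro n hn
    obtain ⟨h1, h2⟩ := hNV n hn
    exact hmem _ (mul_mem hu₁ h1) (mul_mem hu₂ h2)
  have hNne : N ≠ ⊥ := by
    obtain ⟨l⟩ := ‹Nonempty ι›
    intro hbot
    have h1 : m l ∈ N := Submodule.subset_span (Set.mem_range_self l)
    rw [hbot, Submodule.mem_bot] at h1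
    exact B.ne_zero l (by rw [hB]; exact h1)
  have hFG : N.FG := Submodule.fg_span (Set.finite_range m)
  have hint : IsIntegral O u := isIntegral_of_smul_mem_submodule N hNne hFG u hstable
  obtain ⟨p, hp, hpu⟩ := hint
  refine ⟨p.map O.subtype, hp.map _, fun i => ?_, ?_⟩
  · rw [coeff_map]; exact (p.coeff i).2
  · rw [aeval_def, eval₂_map]; exact hpu

end IsGood

/-- **No third extension.**  Under `TwoExt`, every element of `V₁ ∩ V₂` is integral over `O`. -/
theorem exists_monic_of_mem [FiniteDimensional K F] (h : TwoExt O V₁ V₂ ϖ b c)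
    {u : F} (hu₁ : u ∈ V₁) (hu₂ : u ∈ V₂) :
    ∃ p : K[X], p.Monic ∧ (∀ i, p.coeff i ∈ O) ∧ aeval u p = 0 := by
  obtain ⟨m, hm⟩ := h.exists_good
  refine hm.exists_monic h.unifO h.le₁ h.le₂ ?_ hu₁ hu₂
  rw [Fintype.card_sum, Fintype.card_fin, Fintype.card_fin, h.card]

end TwoExt

end Main

end Fermat.Agent.A2.H48

end
-- ===== PACK-END A2/H48/TwoExt.lean

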