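import Mathlib
import Fermat.Prelude.Def_GaloisRep_Adic
import Fermat.Prelude.Def_ModularCurve_X0ModL
import Fermat.Prelude.Def_ModularCurve_JqCoeff
import Fermat.Agent.Pack.S34.G0E2L2
import Fermat.Agent.Pack.S34.G0E2L0
import Fermat.Agent.Pack.S34.G0E2L3
import Fermat.Agent.Pack.S34.G0E0L2
import Fermat.Agent.Pack.S34.G0E2L1
import Fermat.Agent.Pack.S34.G0E3L1
import Fermat.Agent.Pack.S34.G0E0L3
import Fermat.Agent.Pack.S34.G0E3L2
import Fermat.Agent.Pack.S34.G0E3L0
import Fermat.Agent.Pack.S34.G0E1L0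
import Fermat.Agent.Pack.S34.G0E1L1
import Fermat.Agent.Pack.S34.G0E1L3

-- ===== PACK-BEGIN S30/H990/Lattice.lean
section
/-
S30 top glue (helper990): pure algebra, part 4.
Restriction of a representation to a stable saturated lattice; congruences pass to saturated
lattices; rank one lattices give characters.
-/


set_option autoImplicit false

namespace Fermat.Agent.S30.H990

open Module Polynomial

section Restrict

variable {𝒪 M G : Type*} [CommRing 𝒪] [AddCommGroup M] [Module 𝒪 M] [Group G]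

/-- Restriction of a representation to a stable submodule. -/
def restrictRep (ρ : G →* Module.End 𝒪 M) (Λ : Submodule 𝒪 M)
    (h : ∀ g, ∀ x ∈ Λ, ρ g x ∈ Λ) : G →* Module.End 𝒪 Λ where
  toFun g := (ρ g).restrict (h g)
  map_one' := by
    ext x
    simp
  map_mul' g g' := by
    ext x
    simp

@[simp] theorem restrictRep_apply (ρ : G →* Module.End 𝒪 M) (Λ : Submodule 𝒪 M)
    (h : ∀ g, ∀ x ∈ Λ, ρ g x ∈ Λ) (g : G) (x : Λ) :
    ((restrictRep ρ Λ h g x : Λ) : M) = ρ g (x : M) := rfl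

theorem rel_restrictRep (ρ : G →* Module.End 𝒪 M) (d : G →* 𝒪ˣ) (Λ : Submodule 𝒪 M)
    (h : ∀ g, ∀ x ∈ Λ, ρ g x ∈ Λ) {g : G} {a : 𝒪} (hr : Rel ρ d g a) :
    Rel (restrictRep ρ Λ h) d g a := by
  unfold Rel
  ext x
  have := rel_apply ρ d hr (x : M)
  simpa using this

end Restrict

section SatCong

variable {𝒪 M : Type*} [CommRing 𝒪] [IsDomain 𝒪] [IsPrincipalIdealRing 𝒪]
  [AddCommGroup M] [Module 𝒪 M]

/-- Congruences modulo an ideal pass to saturated submodules. -/
theorem mem_smul_top_sat (N : Submodule 𝒪 M) (I : Ideal 𝒪) (x : sat N)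
    (hx : (x : M) ∈ I • (⊤ : Submodule 𝒪 M)) :
    x ∈ I • (⊤ : Submodule 𝒪 (sat N)) := by
  obtain ⟨ϖ, hϖ⟩ := IsPrincipalIdealRing.principal I
  have hI : I = Ideal.span {ϖ} := hϖ
  rw [hI, Submodule.ideal_span_singleton_smul, Submodule.mem_smul_pointwise_iff_exists] at hx
  obtain ⟨m, -, hm⟩ := hx
  by_cases h0 : ϖ = 0
  · have : x = 0 := by
      apply Subtype.ext
      rw [← hm, h0, zero_smul]; rfl
    rw [this]; exact Submodule.zero_mem _
  · have hmem : m ∈ sat N := by
      apply mem_sat_of_smul_mem h0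
      rw [hm]; exact x.2
    have : x = ϖ • (⟨m, hmem⟩ : sat N) := Subtype.ext hm.symm
    rw [this]
    exact Submodule.smul_mem_smul (hI ▸ Ideal.subset_span (Set.mem_singleton ϖ))
      Submodule.mem_top

end SatCong

section RankOne

variable {𝒪 V : Type*} [CommRing 𝒪] [IsDomain 𝒪] [AddCommGroup V] [Module 𝒪 V]
  [Module.Free 𝒪 V] [Module.Finite 𝒪 V]

/-- On a free module of rank one every endomorphism is multiplication by its determinant. -/
theorem apply_eq_det_smul (h1 : Module.finrank 𝒪 V = 1) (f : Module.End 𝒪 V) (x : V) :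
    f x = LinearMap.det f • x := by
  classical
  let b : Basis (Fin 1) 𝒪 V := Module.finBasisOfFinrankEq 𝒪 V h1
  have hdet : LinearMap.det f = b.repr (f (b 0)) 0 := by
    rw [← LinearMap.det_toMatrix b f, Matrix.det_fin_one, LinearMap.toMatrix_apply]
  have hb : f (b 0) = LinearMap.det f • b 0 := by
    conv_lhs => rw [← b.sum_repr (f (b 0))]
    rw [Fin.sum_univ_one, hdet]
  have hx : x = b.repr x 0 • b 0 := by
    conv_lhs => rw [← b.sum_repr x]
    rw [Fin.sum_univ_one]
  rw [hx, map_smul, hb, smul_comm]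

/-- In a free module of rank one, `r • e ∈ I • ⊤` for a basis vector `e` forces `r ∈ I`. -/
theorem mem_of_smul_basis_mem (h1 : Module.finrank 𝒪 V = 1) (I : Ideal 𝒪) (r : 𝒪)
    (h : ∀ x : V, r • x ∈ I • (⊤ : Submodule 𝒪 V)) : r ∈ I := by
  classical
  let b : Basis (Fin 1) 𝒪 V := Module.finBasisOfFinrankEq 𝒪 V h1
  have key : ∀ y ∈ I • (⊤ : Submodule 𝒪 V), b.repr y 0 ∈ I := by
    intro y hy
    refine Submodule.smul_induction_on hy ?_ ?_
    · intro i hi n _
      rw [map_smul, Finsupp.smul_apply, smul_eq_mul]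
      exact I.mul_mem_right _ hi
    · intro y z hy hz
      rw [map_add, Finsupp.add_apply]
      exact I.add_mem hy hz
  have := key _ (h (b 0))
  rwa [map_smul, Finsupp.smul_apply, Basis.repr_self, Finsupp.single_eq_same, smul_eq_mul,
    mul_one] at this

end RankOne

end Fermat.Agent.S30.H990

end
-- ===== PACK-END S30/H990/Lattice.lean

-- ===== PACK-BEGIN S31/H22/TraceCont.lean
section


/-!
# S31 piece C (helper22): traces are locally constant modulo `m ^ n`
-/

set_option autoImplicit false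

open Polynomial

namespace Fermat.Agent.S31.H22

open Fermat.Agent.S31

/-- coordinates of an element of `I • ⊤` lie in `I` -/
lemma repr_mem_of_mem_smul_top {R : Type*} [CommRing R] {M : Type*} [AddCommGroup M] [Module R M]
    {ι : Type*} (b : Module.Basis ι R M) (I : Ideal R) {x : M}
    (hx : x ∈ I • (⊤ : Submodule R M)) (i : ι) : b.repr x i ∈ I := by
  refine Submodule.smul_induction_on (p := fun x => b.repr x i ∈ I) hx ?_ ?_
  · intro a ha w _
    rw [map_smul, Finsupp.smul_apply, smul_eq_mul]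
    exact I.mul_mem_right _ ha
  · intro x y hx hy
    rw [map_add, Finsupp.add_apply]
    exact I.add_mem hx hy

/-- an endomorphism of a finite free module with image in `I • ⊤` has trace in `I` -/
lemma trace_mem_of_range_le {R : Type*} [CommRing R] {M : Type*} [AddCommGroup M] [Module R M]
    [Module.Free R M] [Module.Finite R M] (I : Ideal R) (f : Module.End R M)
    (hf : ∀ v, f v ∈ I • (⊤ : Submodule R M)) : LinearMap.trace R M f ∈ I := by
  classical
  let b := Module.Free.chooseBasis R M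
  rw [LinearMap.trace_eq_matrix_trace R b f, Matrix.trace]
  refine I.sum_mem fun i _ => ?_
  rw [Matrix.diag_apply, LinearMap.toMatrix_apply]
  exact repr_mem_of_mem_smul_top b I (hf _) i

/-- **C**.  From `GaloisActionIsAdicContinuous`. -/
theorem trace_congr_of_agree {A : Type} [CommRing A] [IsLocalRing A] (ρ : GaloisRepAdic A)
    (n : ℕ) :
    ∃ L : IntermediateField ℚ Qb, FiniteDimensional ℚ L ∧
      ∀ g g' : GQ, (∀ x ∈ L, g x = g' x) →
        ρ.trace g - ρ.trace g' ∈ IsLocalRing.maximalIdeal A ^ n := by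
  obtain ⟨L, hL, h1⟩ := ρ.isAdicContinuous n
  refine ⟨L, hL, fun g g' hgg' => ?_⟩
  have hσ : ∀ x ∈ L, (g'⁻¹ * g) x = x := by
    intro x hx
    rw [AlgEquiv.mul_apply, hgg' x hx]
    exact (g'.symm_apply_apply x)
  have hg : g = g' * (g'⁻¹ * g) := by group
  have key : ρ.ρ g - ρ.ρ g' = ρ.ρ g' * (ρ.ρ (g'⁻¹ * g) - 1) := by
    rw [mul_sub, mul_one, ← map_mul, ← hg]
  have : ρ.trace g - ρ.trace g' = LinearMap.trace A ρ.V (ρ.ρ g' * (ρ.ρ (g'⁻¹ * g) - 1)) := by
    rw [← key, map_sub]; rfl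
  rw [this]
  refine trace_mem_of_range_le _ _ fun v => ?_
  rw [Module.End.mul_apply]
  have h2 : (ρ.ρ (g'⁻¹ * g) - 1) v ∈ (IsLocalRing.maximalIdeal A ^ n) • (⊤ : Submodule A ρ.V) := by
    simpa using h1 _ hσ v
  have h3 : ((IsLocalRing.maximalIdeal A ^ n) • (⊤ : Submodule A ρ.V)).map (ρ.ρ g') ≤
      (IsLocalRing.maximalIdeal A ^ n) • (⊤ : Submodule A ρ.V) := by
    rw [Submodule.map_smul'']
    exact Submodule.smul_mono le_rfl le_top
  exact h3 (Submodule.mem_map_of_mem h2)

end Fermat.Agent.S31.H22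

end
-- ===== PACK-END S31/H22/TraceCont.lean

-- ===== PACK-BEGIN S30/H529/AdicEigen.lean
section




/-!
# S30 helper (helper529): the adic eigenmodule attached to a Galois module with finite
`p`-torsion

Specialisation of `exists_adic_eigenmodule` to `G = Gal(ℚ̄/ℚ)`, with the conclusion in the
language of the Prelude (`GaloisActionIsAdicContinuous`).
-/

set_option autoImplicit false
set_option linter.unusedSectionVars false

namespace Fermat.Agent.S30.H529

open IsLocalRing TensorProduct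

noncomputable section

/-- If `J[p]` is finite then `J[p ^ n]` is finite. -/
theorem finite_torsion_pow (J : Type*) [AddCommGroup J] (p : ℕ)
    (hfin : {x : J | p • x = 0}.Finite) (n : ℕ) : {x : J | p ^ n • x = 0}.Finite := by
  induction n with
  | zero =>
    have : {x : J | p ^ 0 • x = 0} = {0} := by
      ext x
      simp
    rw [this]
    exact Set.finite_singleton 0
  | succ n ih =>
    have hsub : {x : J | p ^ (n + 1) • x = 0}
        ⊆ ⋃ y ∈ {y : J | p ^ n • y = 0}, {x : J | p • x = y} := by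
      intro x hx
      simp only [Set.mem_ofPred_eq] at hx
      simp only [Set.mem_iUnion, Set.mem_ofPred_eq, exists_prop]
      refine ⟨p • x, ?_, rfl⟩
      rw [← mul_smul, ← pow_succ]
      exact hx
    refine Set.Finite.subset (Set.Finite.biUnion ih ?_) hsub
    intro y _
    by_cases hy : ∃ x₀ : J, p • x₀ = y
    · obtain ⟨x₀, hx₀⟩ := hy
      have hsub2 : {x : J | p • x = y} ⊆ (fun z => x₀ + z) '' {z : J | p • z = 0} := by
        intro x hx
        simp only [Set.mem_ofPred_eq] at hx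
        refine ⟨x - x₀, ?_, add_sub_cancel x₀ x⟩
        simp only [Set.mem_ofPred_eq]
        rw [smul_sub, hx, hx₀, sub_self]
      exact Set.Finite.subset (hfin.image _) hsub2
    · have : {x : J | p • x = y} = ∅ := by
        ext x
        simp only [Set.mem_ofPred_eq, Set.mem_empty_iff_false, iff_false]
        intro hx
        exact hy ⟨x, hx⟩
      rw [this]
      exact Set.finite_empty

/-- A common finite level for finitely many smooth vectors. -/
theorem exists_common_level {J : Type*} [AddCommGroup J]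
    [DistribMulAction (AlgebraicClosure ℚ ≃ₐ[ℚ] AlgebraicClosure ℚ) J] (S : Set J)
    (hS : S.Finite)
    (hsm : ∀ x ∈ S, ∃ L : IntermediateField ℚ (AlgebraicClosure ℚ), FiniteDimensional ℚ L ∧
      ∀ σ : AlgebraicClosure ℚ ≃ₐ[ℚ] AlgebraicClosure ℚ, (∀ y ∈ L, σ y = y) → σ • x = x) :
    ∃ L : IntermediateField ℚ (AlgebraicClosure ℚ), FiniteDimensional ℚ L ∧
      ∀ σ : AlgebraicClosure ℚ ≃ₐ[ℚ] AlgebraicClosure ℚ, (∀ y ∈ L, σ y = y) →
        ∀ x ∈ S, σ • x = x := by
  induction S, hS using Set.Finite.induction_on with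
  | empty =>
    exact ⟨⊥, inferInstance, fun _ _ x hx => absurd hx (Set.notMem_empty x)⟩
  | @insert b S _ _ ih =>
    obtain ⟨L₁, hL₁, h₁⟩ := ih (fun x hx => hsm x (Set.mem_insert_of_mem _ hx))
    obtain ⟨L₂, hL₂, h₂⟩ := hsm b (Set.mem_insert _ _)
    refine ⟨L₁ ⊔ L₂, inferInstance, fun σ hσ x hx => ?_⟩
    rcases Set.mem_insert_iff.mp hx with rfl | hx
    · exact h₂ σ (fun y hy => hσ y ((le_sup_right : L₂ ≤ L₁ ⊔ L₂) hy))
    · exact h₁ σ (fun y hy => hσ y ((le_sup_left : L₁ ≤ L₁ ⊔ L₂) hy)) x hx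

section Main

variable (p : ℕ)
variable (O : Type) [CommRing O] [IsDomain O] [IsDiscreteValuationRing O]
  [IsAdicComplete (maximalIdeal O) O] [CharZero O]
variable (J : Type) [AddCommGroup J]
  [DistribMulAction (AlgebraicClosure ℚ ≃ₐ[ℚ] AlgebraicClosure ℚ) J]
variable {ι : Type*} (T : ι → J →+ J) (a : ι → O)

/-- **Adic eigenmodule from a smooth Galois module with finite `p`-torsion.** -/
theorem exists_adic_galois_eigenmodule (hpO : (p : O) ∈ maximalIdeal O) (hp0 : p ≠ 0)
    (hT : ∀ (i : ι) (γ : AlgebraicClosure ℚ ≃ₐ[ℚ] AlgebraicClosure ℚ) (x : J),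
      T i (γ • x) = γ • T i x)
    (hfin : {x : J | p • x = 0}.Finite)
    (hsm : ∀ x : J, (∃ n : ℕ, p ^ n • x = 0) →
      ∃ L : IntermediateField ℚ (AlgebraicClosure ℚ), FiniteDimensional ℚ L ∧
        ∀ σ : AlgebraicClosure ℚ ≃ₐ[ℚ] AlgebraicClosure ℚ, (∀ y ∈ L, σ y = y) → σ • x = x)
    (v : ℕ → O ⊗[ℤ] J) (hv0 : (p : O) • v 0 = 0) (hv : ∀ n, (p : O) • v (n + 1) = v n)
    (hne : v ≠ 0) (heig : ∀ i n, tensorOp O T i (v n) = a i • v n) :
    ∃ (M : Type) (_ : AddCommGroup M) (_ : Module O M) (_ : Module.Free O M)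
      (_ : Module.Finite O M)
      (ρ : (AlgebraicClosure ℚ ≃ₐ[ℚ] AlgebraicClosure ℚ) →* Module.End O M),
      Nontrivial M ∧ GaloisActionIsAdicContinuous O ρ ∧
      (∀ γ : AlgebraicClosure ℚ ≃ₐ[ℚ] AlgebraicClosure ℚ,
        (∀ x : J, (∃ n : ℕ, p ^ n • x = 0) → γ • x = x) → ρ γ = 1) ∧
      (∀ (γ : AlgebraicClosure ℚ ≃ₐ[ℚ] AlgebraicClosure ℚ) (i : ι) (c : ℤ),
        (∀ x : J, (∃ n : ℕ, p ^ n • x = 0) → γ • γ • x - T i (γ • x) + c • x = 0) →
        ρ γ * ρ γ - a i • ρ γ + (c : O) • (1 : Module.End O M) = 0) := by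
  obtain ⟨M, i1, i2, i3, i4, ρ, hnt, hcont, hunr, hquad⟩ :=
    exists_adic_eigenmodule p O J T a hpO hp0 hT hfin v hv0 hv hne heig
  refine ⟨M, i1, i2, i3, i4, ρ, hnt, ?_, hunr, hquad⟩
  intro n
  obtain ⟨L, hL, hLfix⟩ := exists_common_level {x : J | p ^ n • x = 0}
    (finite_torsion_pow J p hfin n) (fun x hx => hsm x ⟨n, hx⟩)
  exact ⟨L, hL, fun σ hσ m => hcont n σ (fun x hx => hLfix σ hσ x hx) m⟩

end Main

end

end Fermat.Agent.S30.H529

end
-- ===== PACK-END S30/H529/AdicEigen.lean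

-- ===== PACK-BEGIN S31/H202/PieceA.lean
section



/-!
# S31 piece A (`trace_criterion`), exact skeleton shape (helper202)
-/

set_option autoImplicit false

namespace Fermat.Agent.S31.H202

open Fermat.Agent.S31

/-- **A**.  If `ρ` is residually absolutely irreducible and `tr ρ(g τ) = tr ρ(g)` for all `g`,
then `ρ(τ) = 1`. -/
theorem trace_criterion {T : Type} [CommRing T] [IsLocalRing T] (ρ : GaloisRepAdic T)
    (hirr : ρ.residual.IsAbsolutelyIrreducible) (τ : GQ)
    (h : ∀ g : GQ, ρ.trace (g * τ) = ρ.trace g) : ρ.ρ τ = 1 :=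
  rho_eq_one_of_trace_invariant ρ hirr τ h

end Fermat.Agent.S31.H202

end
-- ===== PACK-END S31/H202/PieceA.lean

-- ===== PACK-BEGIN S31/H262/Points.lean
section




/-!
# S31 / piece D (helper262): `pts_of_reduced`, verbatim, by the `ℚ_[p] ⊗ R` route

For a reduced commutative ring `R`, finite and torsion-free over `ℤ`, the algebra
`E = ℚ_[p] ⊗[ℤ] R` is a finite reduced `ℚ_[p]`-algebra, hence (Artinian decomposition) the product
of the finitely many fields `L_J = E ⧸ J`, finite over `ℚ_[p]`.  The rings of integers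
`intRing p L_J` are complete discrete valuation rings of characteristic zero with finite residue
field (`PadicDVR.lean`), and the points `R → intRing p L_J` are jointly `p`-adically strict
(`Strict.lean`).  This gives the topological separation statement `PTS p R` of the row interface
without any use of completions of number fields.
-/

set_option autoImplicit false
set_option linter.unusedSectionVars false
set_option linter.style.haveILetI false

noncomputable section

namespace Fermat.Agent.S31.H262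

open scoped TensorProduct
open IsLocalRing

section Points

variable (p : ℕ) [Fact p.Prime]
variable (B : Type) [CommRing B] [Module.Finite ℤ B] [Module.Free ℤ B] [IsReduced B]

attribute [local instance] IsArtinianRing.fieldOfSubtypeIsMaximal

theorem isArtinianRing_padic_tensor : IsArtinianRing (ℚ_[p] ⊗[ℤ] B) :=
  isArtinian_of_tower ℚ_[p] inferInstance

theorem isReduced_padic_tensor : IsReduced (ℚ_[p] ⊗[ℤ] B) :=
  isReduced_field_tensor B ℚ_[p]

/-- **Strict `p`-adic points** (unbundled form): a reduced ring, finite free over `ℤ`, has finitely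
many points with values in complete discrete valuation rings of characteristic zero with finite
residue fields of characteristic `p`, which are jointly `p`-adically strict. -/
theorem exists_padic_points :
    ∃ (ι : Type) (_ : Finite ι) (𝒪 : ι → Type) (_ : ∀ j, CommRing (𝒪 j))
      (_ : ∀ j, IsDomain (𝒪 j)) (_ : ∀ j, IsDiscreteValuationRing (𝒪 j))
      (_ : ∀ j, IsAdicComplete (maximalIdeal (𝒪 j)) (𝒪 j))
      (_ : ∀ j, Finite (ResidueField (𝒪 j))) (_ : ∀ j, CharZero (𝒪 j))
      (χ : ∀ j, B →+* 𝒪 j),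
      (∀ j, ((p : ℕ) : 𝒪 j) ∈ maximalIdeal (𝒪 j)) ∧
      ∀ n : ℕ, ∃ m : ℕ, ∀ t : B, (∀ j, χ j t ∈ maximalIdeal (𝒪 j) ^ m) →
        t ∈ Ideal.span {((p : ℕ) : B) ^ n} := by
  haveI := isArtinianRing_padic_tensor p B
  haveI := isReduced_padic_tensor p B
  let E := ℚ_[p] ⊗[ℤ] B
  let L : MaximalSpectrum E → Type := fun J => E ⧸ J.asIdeal
  let Φ : E →ₐ[ℚ_[p]] (∀ J, L J) := ((IsArtinianRing.equivPi E).restrictScalars ℚ_[p]).toAlgHom
  have hΦ : Function.Injective Φ := ((IsArtinianRing.equivPi E).restrictScalars ℚ_[p]).injective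
  refine ⟨MaximalSpectrum E, inferInstance, fun J => intRing p (L J), fun J => inferInstance,
    fun J => inferInstance, fun J => inferInstance, fun J => inferInstance,
    fun J => inferInstance, fun J => inferInstance, fun J => pt p B L Φ J, ?_, ?_⟩
  · intro J
    exact natCast_p_mem_maximalIdeal p (L J)
  · intro n
    exact strict_of_injective hΦ n

end Points

section PTS

open Fermat.Agent.S31

/-- **Piece D of row S31** (`Skeleton.pts_of_reduced`, verbatim).  A reduced, torsion-free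
commutative ring, finite over `ℤ`, has topologically separating `p`-adic points. -/
theorem pts_of_reduced (p : ℕ) (hp : p.Prime) (R : Type) [CommRing R] [Module.Finite ℤ R]
    [IsReduced R] [IsAddTorsionFree R] : PTS p R := by
  classical
  haveI : Fact p.Prime := ⟨hp⟩
  obtain ⟨ι, hι, 𝒪, i1, i2, i3, i4, i5, i6, χ, hpm, hstrict⟩ := exists_padic_points p R
  haveI : Fintype ι := Fintype.ofFinite ι
  intro m _ hpmem n
  obtain ⟨n', hn'⟩ := hstrict n
  refine ⟨(Finset.univ : Finset ι).toList.map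
    (fun j => (⟨𝒪 j, hpm j, χ j⟩ : PadicPoint p R)), n', fun t ht => ?_⟩
  have h1 : t ∈ Ideal.span {((p : ℕ) : R) ^ n} := by
    apply hn'
    intro j
    exact ht ⟨𝒪 j, hpm j, χ j⟩ (List.mem_map.mpr ⟨j, by simp, rfl⟩)
  have h2 : Ideal.span {((p : ℕ) : R) ^ n} ≤ m ^ n := by
    rw [Ideal.span_le, Set.singleton_subset_iff]
    exact Ideal.pow_mem_pow hpmem n
  exact h2 h1

end PTS

end Fermat.Agent.S31.H262

end
end
-- ===== PACK-END S31/H262/Points.lean

-- ===== PACK-BEGIN Lib/EulerProd/EulerNF.lean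
section



/-!
# Euler products for the Dedekind zeta function and class-group L-series of a number field
-/

set_option autoImplicit false
set_option linter.style.haveILetI false
set_option linter.unusedSectionVars false

namespace Fermat.Agent.Lib.EulerProd

open NumberField Ideal Filter Topology Finset
open scoped nonZeroDivisors

variable (K : Type*) [Field K] [NumberField K]

/-- The type of nonzero prime ideals of `𝓞 K`, as prime elements of the monoid of ideals. -/
abbrev PrimeIdeal : Type _ := {𝔭 : Ideal (𝓞 K) // Prime 𝔭}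

variable {K}

theorem PrimeIdeal.ne_bot (𝔭 : PrimeIdeal K) : 𝔭.1 ≠ ⊥ := 𝔭.2.ne_zero

theorem PrimeIdeal.isPrime (𝔭 : PrimeIdeal K) : 𝔭.1.IsPrime := Ideal.isPrime_of_prime 𝔭.2

theorem PrimeIdeal.ne_top (𝔭 : PrimeIdeal K) : 𝔭.1 ≠ ⊤ := 𝔭.isPrime.ne_top

theorem PrimeIdeal.two_le_absNorm (𝔭 : PrimeIdeal K) : 2 ≤ absNorm 𝔭.1 := by
  have h0 : absNorm 𝔭.1 ≠ 0 := fun h => 𝔭.ne_bot (Ideal.absNorm_eq_zero_iff.mp h)
  have h1 : absNorm 𝔭.1 ≠ 1 := fun h => 𝔭.ne_top (Ideal.absNorm_eq_one_iff.mp h)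
  omega

/-- `x_𝔭 = N(𝔭)^(-s)`. -/
noncomputable def PrimeIdeal.x (𝔭 : PrimeIdeal K) (s : ℝ) : ℝ := ((absNorm 𝔭.1 : ℕ) : ℝ) ^ (-s)

theorem PrimeIdeal.x_pos (𝔭 : PrimeIdeal K) (s : ℝ) : 0 < 𝔭.x s := by
  have : (0 : ℝ) < ((absNorm 𝔭.1 : ℕ) : ℝ) := by
    have := 𝔭.two_le_absNorm
    positivity
  exact Real.rpow_pos_of_pos this _

theorem PrimeIdeal.x_le_inv (𝔭 : PrimeIdeal K) {s : ℝ} (hs : 1 ≤ s) :
    𝔭.x s ≤ ((absNorm 𝔭.1 : ℕ) : ℝ)⁻¹ := by
  have h1 : (1 : ℝ) ≤ ((absNorm 𝔭.1 : ℕ) : ℝ) := by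
    have := 𝔭.two_le_absNorm
    exact_mod_cast (by omega : 1 ≤ absNorm 𝔭.1)
  rw [PrimeIdeal.x, ← Real.rpow_neg_one]
  exact Real.rpow_le_rpow_of_exponent_le h1 (by linarith)

theorem PrimeIdeal.x_le_half (𝔭 : PrimeIdeal K) {s : ℝ} (hs : 1 ≤ s) : 𝔭.x s ≤ 1 / 2 := by
  refine (𝔭.x_le_inv hs).trans ?_
  have h2 : (2 : ℝ) ≤ ((absNorm 𝔭.1 : ℕ) : ℝ) := by exact_mod_cast 𝔭.two_le_absNorm
  rw [one_div]
  exact inv_anti₀ (by norm_num) h2

variable (K)

/-- Euler product of the Dedekind zeta function (real argument `s > 1`). -/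
theorem hasProd_zetaR {s : ℝ} (hs : 1 < s) :
    HasProd (fun 𝔭 : PrimeIdeal K ↦ (1 - 𝔭.x s)⁻¹) (zetaR K s) := by
  have hs0 : -s ≠ 0 := by linarith
  have h := hasProd_one_sub_inv (M := Ideal (𝓞 K)) (F := ℝ)
    (f := fun I => ((absNorm I : ℕ) : ℝ) ^ (-s))
    (by simp [Real.zero_rpow hs0]) (by simp)
    (fun a b => by
      simp only [map_mul, Nat.cast_mul]
      exact Real.mul_rpow (Nat.cast_nonneg _) (Nat.cast_nonneg _))
    (by
      refine (summable_absNorm_rpow K hs).congr fun I => ?_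
      rw [Real.norm_of_nonneg (by positivity)])
  exact h


/-! ### Class group characters -/

/-- Extension by zero of a class group character to all ideals. -/
noncomputable def chiI (χ : ClassGroup (𝓞 K) →* ℂˣ) (I : Ideal (𝓞 K)) : ℂ :=
  if h : I = ⊥ then 0 else (χ (ClassGroup.mk0 ⟨I, mem_nonZeroDivisors_iff_ne_zero.mpr h⟩) : ℂ)

variable {K}

theorem chiI_bot (χ : ClassGroup (𝓞 K) →* ℂˣ) : chiI K χ ⊥ = 0 := by
  rw [chiI, dif_pos rfl]

theorem chiI_zero (χ : ClassGroup (𝓞 K) →* ℂˣ) : chiI K χ 0 = 0 := chiI_bot χ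

theorem chiI_of_ne_bot (χ : ClassGroup (𝓞 K) →* ℂˣ) {I : Ideal (𝓞 K)} (h : I ≠ ⊥) :
    chiI K χ I = (χ (ClassGroup.mk0 ⟨I, mem_nonZeroDivisors_iff_ne_zero.mpr h⟩) : ℂ) := by
  rw [chiI, dif_neg h]

theorem chiI_coe (χ : ClassGroup (𝓞 K) →* ℂˣ) (I : (Ideal (𝓞 K))⁰) :
    chiI K χ (I : Ideal (𝓞 K)) = (χ (ClassGroup.mk0 I) : ℂ) := by
  rw [chiI_of_ne_bot χ (nonZeroDivisors.coe_ne_zero I)]

theorem chiI_one (χ : ClassGroup (𝓞 K) →* ℂˣ) : chiI K χ 1 = 1 := by
  have h := chiI_coe χ (1 : (Ideal (𝓞 K))⁰)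
  rw [map_one, map_one, Units.val_one] at h
  exact h

theorem chiI_mul (χ : ClassGroup (𝓞 K) →* ℂˣ) (I J : Ideal (𝓞 K)) :
    chiI K χ (I * J) = chiI K χ I * chiI K χ J := by
  by_cases hI : I = ⊥
  · subst hI
    rw [Ideal.bot_mul, chiI_bot, zero_mul]
  by_cases hJ : J = ⊥
  · subst hJ
    rw [Ideal.mul_bot, chiI_bot, mul_zero]
  have h := chiI_coe χ ((⟨I, mem_nonZeroDivisors_iff_ne_zero.mpr hI⟩ : (Ideal (𝓞 K))⁰) *
    (⟨J, mem_nonZeroDivisors_iff_ne_zero.mpr hJ⟩ : (Ideal (𝓞 K))⁰))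
  rw [map_mul, map_mul, Units.val_mul] at h
  rw [chiI_of_ne_bot χ hI, chiI_of_ne_bot χ hJ]
  rw [← h]
  rfl

theorem chi_pow_card (χ : ClassGroup (𝓞 K) →* ℂˣ) (c : ClassGroup (𝓞 K)) :
    ((χ c : ℂˣ) : ℂ) ^ Fintype.card (ClassGroup (𝓞 K)) = 1 := by
  rw [← Units.val_pow_eq_pow_val, ← map_pow, pow_card_eq_one, map_one, Units.val_one]

theorem norm_chi (χ : ClassGroup (𝓞 K) →* ℂˣ) (c : ClassGroup (𝓞 K)) :
    ‖((χ c : ℂˣ) : ℂ)‖ = 1 :=
  Complex.norm_eq_one_of_pow_eq_one (chi_pow_card χ c) Fintype.card_ne_zero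

theorem norm_chiI_le (χ : ClassGroup (𝓞 K) →* ℂˣ) (I : Ideal (𝓞 K)) : ‖chiI K χ I‖ ≤ 1 := by
  by_cases hI : I = ⊥
  · subst hI
    rw [chiI_bot, norm_zero]
    exact zero_le_one
  · rw [chiI_of_ne_bot χ hI, norm_chi]

theorem norm_chiI_of_ne_bot (χ : ClassGroup (𝓞 K) →* ℂˣ) {I : Ideal (𝓞 K)} (hI : I ≠ ⊥) :
    ‖chiI K χ I‖ = 1 := by
  rw [chiI_of_ne_bot χ hI, norm_chi]

theorem chiI_pow_char (χ : ClassGroup (𝓞 K) →* ℂˣ) (k : ℕ) {I : Ideal (𝓞 K)} (hI : I ≠ ⊥) :
    chiI K (χ ^ k) I = chiI K χ I ^ k := by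
  rw [chiI_of_ne_bot _ hI, chiI_of_ne_bot _ hI, MonoidHom.pow_apply, Units.val_pow_eq_pow_val]

theorem chiI_one_char {I : Ideal (𝓞 K)} (hI : I ≠ ⊥) :
    chiI K (1 : ClassGroup (𝓞 K) →* ℂˣ) I = 1 := by
  rw [chiI_of_ne_bot _ hI, MonoidHom.one_apply, Units.val_one]

variable (K)

/-- The class L-series at a real argument, as a sum over all ideals. -/
noncomputable def classL (χ : ClassGroup (𝓞 K) →* ℂˣ) (s : ℝ) : ℂ :=
  ∑' I : Ideal (𝓞 K), chiI K χ I * ((((absNorm I : ℕ) : ℝ) ^ (-s) : ℝ) : ℂ)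

theorem classL_eq_tsum_nonZeroDivisors (χ : ClassGroup (𝓞 K) →* ℂˣ) (s : ℝ) :
    classL K χ s = ∑' I : (Ideal (𝓞 K))⁰,
      (χ (ClassGroup.mk0 I) : ℂ) * ((((absNorm (I : Ideal (𝓞 K)) : ℕ) : ℝ) ^ (-s) : ℝ) : ℂ) := by
  rw [classL]
  have hinj : Function.Injective (Subtype.val : (Ideal (𝓞 K))⁰ → Ideal (𝓞 K)) :=
    Subtype.val_injective
  rw [← hinj.tsum_eq (f := fun I : Ideal (𝓞 K) =>
    chiI K χ I * ((((absNorm I : ℕ) : ℝ) ^ (-s) : ℝ) : ℂ))]
  · refine tsum_congr fun I => ?_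
    rw [chiI_coe]
  · intro I hI
    rw [Function.mem_support] at hI
    have hI0 : I ≠ ⊥ := by
      rintro rfl
      exact hI (by rw [chiI_bot, zero_mul])
    exact ⟨⟨I, mem_nonZeroDivisors_iff_ne_zero.mpr hI0⟩, rfl⟩

theorem summable_norm_classL_term (χ : ClassGroup (𝓞 K) →* ℂˣ) {s : ℝ} (hs : 1 < s) :
    Summable (fun I : Ideal (𝓞 K) =>
      ‖chiI K χ I * ((((absNorm I : ℕ) : ℝ) ^ (-s) : ℝ) : ℂ)‖) := by
  refine Summable.of_nonneg_of_le (fun _ => norm_nonneg _) (fun I => ?_)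
    (summable_absNorm_rpow K hs)
  rw [norm_mul, Complex.norm_real, Real.norm_of_nonneg (by positivity)]
  calc ‖chiI K χ I‖ * ((absNorm I : ℕ) : ℝ) ^ (-s)
      ≤ 1 * ((absNorm I : ℕ) : ℝ) ^ (-s) := by
        gcongr
        exact norm_chiI_le χ I
    _ = _ := one_mul _

/-- Euler product of a class L-series (real argument `s > 1`). -/
theorem hasProd_classL (χ : ClassGroup (𝓞 K) →* ℂˣ) {s : ℝ} (hs : 1 < s) :
    HasProd (fun 𝔭 : PrimeIdeal K ↦ (1 - chiI K χ 𝔭.1 * ((𝔭.x s : ℝ) : ℂ))⁻¹)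
      (classL K χ s) := by
  have hs0 : -s ≠ 0 := by linarith
  have h := hasProd_one_sub_inv (M := Ideal (𝓞 K)) (F := ℂ)
    (f := fun I => chiI K χ I * ((((absNorm I : ℕ) : ℝ) ^ (-s) : ℝ) : ℂ))
    (by rw [chiI_zero, zero_mul]) (by
      rw [chiI_one, one_mul, Ideal.one_eq_top, Ideal.absNorm_top, Nat.cast_one, Real.one_rpow,
        Complex.ofReal_one])
    (fun a b => by
      simp only [map_mul, Nat.cast_mul, chiI_mul]
      rw [Real.mul_rpow (Nat.cast_nonneg _) (Nat.cast_nonneg _)]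
      push_cast
      ring)
    (summable_norm_classL_term K χ hs)
  exact h

theorem classL_one {s : ℝ} (hs : 1 < s) :
    classL K (1 : ClassGroup (𝓞 K) →* ℂˣ) s = ((zetaR K s : ℝ) : ℂ) := by
  have hs0 : -s ≠ 0 := by linarith
  rw [classL, zetaR, Complex.ofReal_tsum]
  refine tsum_congr fun I => ?_
  by_cases hI : I = ⊥
  · subst hI
    rw [chiI_bot, zero_mul, Ideal.absNorm_bot, Nat.cast_zero, Real.zero_rpow hs0,
      Complex.ofReal_zero]
  · rw [chiI_one_char hI, one_mul]

end Fermat.Agent.Lib.EulerProd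

end
-- ===== PACK-END Lib/EulerProd/EulerNF.lean

-- ===== PACK-BEGIN S22/H262/Cocycle2.lean
section


set_option autoImplicit false

/-!
# Further properties of the Eichler cocycle: upper triangular matrices, additivity
-/

open Complex Filter Function Metric Set
open UpperHalfPlane hiding I
open scoped Real Topology Manifold ModularForm MatrixGroups

namespace Fermat.Agent.S22.H262

theorem bigG_add (n : ℕ) (E₁ E₂ : ℕ → ℍ → ℂ) (z : ℍ) (v : ℂ × ℂ) :
    bigG n (E₁ + E₂) z v = bigG n E₁ z v + bigG n E₂ z v := by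
  simp only [bigG, Pi.add_apply, ← Finset.sum_add_distrib]
  refine Finset.sum_congr rfl fun j _ => ?_
  ring

theorem bigG_smul (n : ℕ) (c : ℂ) (E : ℕ → ℍ → ℂ) (z : ℍ) (v : ℂ × ℂ) :
    bigG n (c • E) z v = c * bigG n E z v := by
  simp only [bigG, Pi.smul_apply, smul_eq_mul, Finset.mul_sum]
  refine Finset.sum_congr rfl fun j _ => ?_
  ring

theorem bigG_zero (n : ℕ) (z : ℍ) (v : ℂ × ℂ) : bigG n 0 z v = 0 := by
  simp [bigG]

theorem bigG_sum {ι : Type*} (n : ℕ) (s : Finset ι) (E : ι → ℕ → ℍ → ℂ) (z : ℍ) (v : ℂ × ℂ) :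
    bigG n (∑ i ∈ s, E i) z v = ∑ i ∈ s, bigG n (E i) z v := by
  classical
  induction s using Finset.induction_on with
  | empty => simp [bigG_zero]
  | insert a s ha ih => rw [Finset.sum_insert ha, Finset.sum_insert ha, bigG_add, ih]

/-- On the "diagonal" `v = (z y, y)` only the top term of `bigG` survives. -/
theorem bigG_diag (n : ℕ) (E : ℕ → ℍ → ℂ) (z : ℍ) (y : ℂ) :
    bigG n E z ((z : ℂ) * y, y) = (n.factorial : ℂ) * E (n + 1) z * y ^ n := by
  unfold bigG
  rw [Finset.sum_range_succ, Finset.sum_eq_zero]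
  · simp [Nat.descFactorial_self]
  · intro j hj
    have hj' : j < n := Finset.mem_range.mp hj
    have : n - j ≠ 0 := by omega
    simp [this]

theorem cocyc_add (n : ℕ) {h₁ h₂ : ℍ → ℂ} (A : GL (Fin 2) ℝ) (h1 : HasTower h₁)
    (h2 : HasTower h₂) (h1A : HasTower (h₁ ∣[(n : ℤ) + 2] A))
    (h2A : HasTower (h₂ ∣[(n : ℤ) + 2] A)) (v : ℂ × ℂ) :
    cocyc n (h₁ + h₂) A v = cocyc n h₁ A v + cocyc n h₂ A v := by
  unfold cocyc
  rw [SlashAction.add_slash, tower_add h1 h2, tower_add h1A h2A, bigG_add, bigG_add]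
  ring

theorem cocyc_smul (n : ℕ) {h : ℍ → ℂ} (A : GL (Fin 2) ℝ) (hA : 0 < A.det.val)
    (hh : HasTower h) (hhA : HasTower (h ∣[(n : ℤ) + 2] A)) (c : ℂ) (v : ℂ × ℂ) :
    cocyc n (c • h) A v = c * cocyc n h A v := by
  unfold cocyc
  have hs : (c • h) ∣[(n : ℤ) + 2] A = c • (h ∣[(n : ℤ) + 2] A) := by
    rw [ModularForm.smul_slash, UpperHalfPlane.σ, if_pos hA]
    rfl
  rw [hs, tower_smul hh, tower_smul hhA, bigG_smul, bigG_smul]
  ring

theorem cocyc_sum {ι : Type*} (n : ℕ) (s : Finset ι) (h : ι → ℍ → ℂ) (A : GL (Fin 2) ℝ)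
    (hh : ∀ i ∈ s, HasTower (h i)) (hhA : ∀ i ∈ s, HasTower (h i ∣[(n : ℤ) + 2] A))
    (v : ℂ × ℂ) :
    cocyc n (∑ i ∈ s, h i) A v = ∑ i ∈ s, cocyc n (h i) A v := by
  unfold cocyc
  rw [SlashAction.sum_slash, (tower_sum s h hh).2,
    (tower_sum s (fun i => h i ∣[(n : ℤ) + 2] A) hhA).2, bigG_sum, bigG_sum,
    ← Finset.sum_sub_distrib]

/-- The explicit tower of `h ∣[k] δ` for an upper triangular `δ` with positive determinant. -/
theorem IsTower.slash_upper (n : ℕ) {h : ℍ → ℂ} {E : ℕ → ℍ → ℂ} (hE : IsTower h E)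
    (δ : GL (Fin 2) ℝ) (hδ : 0 < δ.det.val) (h10 : δ 1 0 = 0) :
    IsTower (h ∣[(n : ℤ) + 2] δ) (fun r z =>
      (δ.det.val : ℂ) ^ (n + 1) * ((δ 1 1 : ℝ) : ℂ)⁻¹ ^ (n + 2) *
        (((δ 1 1 : ℝ) : ℂ) ^ 2 / (δ.det.val : ℂ)) ^ r * E r (δ • z)) where
  zero := by
    funext z
    rw [ModularForm.slash_apply, UpperHalfPlane.σ, if_pos hδ]
    simp only [ContinuousAlgEquiv.refl_apply, abs_of_pos hδ, pow_zero, mul_one, hE.zero]
    have e1 : ((n : ℤ) + 2 - 1) = ((n + 1 : ℕ) : ℤ) := by push_cast; ring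
    have e2 : -((n : ℤ) + 2) = -((n + 2 : ℕ) : ℤ) := by push_cast; ring
    have hden : denom δ z = ((δ 1 1 : ℝ) : ℂ) := by simp [denom, h10]
    rw [e1, e2, zpow_natCast, zpow_neg, zpow_natCast, hden, inv_pow]
    ring
  hasDeriv r z := by
    have h1 : HasDerivAt (E (r + 1) ∘ ofComplex) (E r (δ • z)) ((δ • z : ℍ) : ℂ) :=
      hE.hasDeriv r (δ • z)
    have h2 : HasDerivAt (fun w : ℂ => ((δ • ofComplex w : ℍ) : ℂ))
        (δ.det.val / denom δ z ^ 2) (z : ℂ) := (hasStrictDerivAt_smul hδ z).hasDerivAt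
    have h3 := h1.comp_of_eq (x := (z : ℂ)) h2 (by simp)
    have h4 := h3.const_mul ((δ.det.val : ℂ) ^ (n + 1) * ((δ 1 1 : ℝ) : ℂ)⁻¹ ^ (n + 2) *
        (((δ 1 1 : ℝ) : ℂ) ^ 2 / (δ.det.val : ℂ)) ^ (r + 1))
    have hden : denom δ z = ((δ 1 1 : ℝ) : ℂ) := by simp [denom, h10]
    have hdet : (δ.det.val : ℂ) ≠ 0 := by exact_mod_cast hδ.ne'
    have hd : ((δ 1 1 : ℝ) : ℂ) ≠ 0 := by
      rw [← hden]
      exact denom_ne_zero δ z
    refine (h4.congr_deriv ?_).congr_of_eventuallyEq ?_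
    · rw [hden, pow_succ (((δ 1 1 : ℝ) : ℂ) ^ 2 / (δ.det.val : ℂ)) r]
      field_simp
    · filter_upwards with w
      simp [Function.comp_def]
  isZero r := by
    have h1 : Tendsto (fun z : ℍ => E (r + 1) (δ • z)) atImInfty (𝓝 0) :=
      (hE.isZero r).comp (tendsto_smul_atImInfty h10)
    have h2 := h1.const_mul ((δ.det.val : ℂ) ^ (n + 1) * ((δ 1 1 : ℝ) : ℂ)⁻¹ ^ (n + 2) *
        (((δ 1 1 : ℝ) : ℂ) ^ 2 / (δ.det.val : ℂ)) ^ (r + 1))
    rw [mul_zero] at h2
    exact h2

theorem HasTower.slash_upper (n : ℕ) {h : ℍ → ℂ} (hh : HasTower h)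
    (δ : GL (Fin 2) ℝ) (hδ : 0 < δ.det.val) (h10 : δ 1 0 = 0) :
    HasTower (h ∣[(n : ℤ) + 2] δ) :=
  ⟨_, hh.isTower.slash_upper n δ hδ h10⟩

/-- The cocycle vanishes on upper triangular matrices. -/
theorem cocyc_upper (n : ℕ) {h : ℍ → ℂ} (hh : HasTower h)
    (δ : GL (Fin 2) ℝ) (hδ : 0 < δ.det.val) (h10 : δ 1 0 = 0) (v : ℂ × ℂ) :
    cocyc n h δ v = 0 := by
  unfold cocyc
  rw [(hh.isTower.slash_upper n δ hδ h10).tower_eq, sub_eq_zero]
  unfold bigG
  refine Finset.sum_congr rfl fun j hj => ?_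
  have hj' : j ≤ n := Nat.lt_succ_iff.mp (Finset.mem_range.mp hj)
  have hden : denom δ UpperHalfPlane.I = ((δ 1 1 : ℝ) : ℂ) := by simp [denom, h10]
  have hdet : (δ.det.val : ℂ) ≠ 0 := by exact_mod_cast hδ.ne'
  have hd : ((δ 1 1 : ℝ) : ℂ) ≠ 0 := by
    rw [← hden]
    exact denom_ne_zero δ _
  rw [actV_sub δ hδ, hden]
  have hv2 : (actV δ v).2 = ((δ 1 1 : ℝ) : ℂ) * v.2 := by simp [actV, h10]
  rw [hv2]
  obtain ⟨m, rfl⟩ : ∃ m, n = j + m := ⟨n - j, by omega⟩
  simp only [Nat.add_sub_cancel_left, div_pow, mul_pow, inv_pow]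
  field_simp
  ring

end Fermat.Agent.S22.H262

end
-- ===== PACK-END S22/H262/Cocycle2.lean

-- ===== PACK-BEGIN S24/Deg/H457_Alg.lean
section




/-!
# S24 / DEG-ALG (helper457), part 3: the degree bound from relations over `ℂ`

Interface hypothesis `Hyp L N n` (to be proved analytically for `L = ℂ`, `n = |SL₂(ℤ)/Γ₀(N)|`):
every element of the `L`-subalgebra of `L((q))` generated by the `j(q^d)`, `d ∣ N`, is a root of a
monic polynomial of degree `n` with coefficients in `L[j]`.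

Main result: `finiteDimensional_and_finrank_le`.
-/

set_option autoImplicit false

noncomputable section

open Polynomial ModularCurve IntermediateField

namespace Fermat.Agent.S24.Deg457

section General

variable (K : Type*) [Field K] [Algebra ℚ K]

/-- `j` as a Laurent series over `K` -/
def JK : LaurentSeries K := coeffEmb K jq

theorem JK_eq : JK K = jqModC K := by
  rw [JK, coeffEmb, ← jqModC_rat, coeffMap_jqModC]

theorem aeval_JK_ne_zero {t : K[X]} (ht : t ≠ 0) : aeval (JK K) t ≠ 0 := by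
  intro hp
  rw [JK_eq] at hp
  set n := t.natDegree with hn
  have hcoeff : (aeval (jqModC K) t).coeff (-(n : ℤ)) = t.coeff n := by
    rw [aeval_def, eval₂_eq_sum_range, HahnSeries.coeff_sum, Finset.sum_eq_single n]
    · rw [algebraMap_laurentSeries_eq_single, HahnSeries.coeff_single_zero_mul,
        coeff_jqModC_pow_self, mul_one]
    · intro i hi hin
      have hilt : i < n := lt_of_le_of_ne (Nat.lt_succ_iff.mp (Finset.mem_range.mp hi)) hin
      rw [algebraMap_laurentSeries_eq_single, HahnSeries.coeff_single_zero_mul,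
        coeff_jqModC_pow_of_lt, mul_zero]
      omega
    · intro hn'
      exact absurd (Finset.self_mem_range_succ n) hn'
  rw [hp] at hcoeff
  simp only [HahnSeries.coeff_zero] at hcoeff
  exact ht (leadingCoeff_eq_zero.mp hcoeff.symm)

/-- the generators `j(q^d)`, `d ∣ N`, over `K` -/
def gens (N : ℕ) : Set (LaurentSeries K) := ⇑(coeffEmb K) '' divisorExpansions N

/-- the `K`-algebra generated by the `j(q^d)` -/
def AK (N : ℕ) : Subalgebra K (LaurentSeries K) := Algebra.adjoin K (gens K N)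

theorem JK_mem_gens (N : ℕ) : JK K ∈ gens K N := by
  refine ⟨jq, ?_, rfl⟩
  have := mem_divisorExpansions N (d := 1) (one_dvd N)
  rwa [qExpand_one_apply] at this

theorem JK_mem_AK (N : ℕ) : JK K ∈ AK K N := Algebra.subset_adjoin (JK_mem_gens K N)

theorem aeval_JK_mem_AK (N : ℕ) (t : K[X]) : aeval (JK K) t ∈ AK K N := by
  rw [aeval_def, eval₂_eq_sum_range]
  refine Subalgebra.sum_mem _ fun i _ => ?_
  exact Subalgebra.mul_mem _ (Subalgebra.algebraMap_mem _ _)
    (Subalgebra.pow_mem _ (JK_mem_AK K N) _)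

/-- The interface hypothesis. -/
def Hyp (N n : ℕ) : Prop :=
  ∀ b ∈ AK K N, ∃ P : K[X][X], P.Monic ∧ P.natDegree = n ∧ P.eval₂ (evJ (JK K)) b = 0

/-- `x` is a root of a nonzero polynomial of degree `≤ n` over `K[j]`. -/
def AlgDeg (n : ℕ) (x : LaurentSeries K) : Prop :=
  ∃ Q : K[X][X], Q ≠ 0 ∧ Q.natDegree ≤ n ∧ Q.eval₂ (evJ (JK K)) x = 0

variable {K}

theorem eval₂_mem_AK {N : ℕ} (Q : K[X][X]) {s : LaurentSeries K} (hs : s ∈ AK K N) :
    Q.eval₂ (evJ (JK K)) s ∈ AK K N := by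
  rw [eval₂_eq_sum_range]
  refine Subalgebra.sum_mem _ fun i _ => ?_
  exact Subalgebra.mul_mem _ (aeval_JK_mem_AK K N _) (Subalgebra.pow_mem _ hs _)

theorem AlgDeg.of_mul_eq {n : ℕ} {x a : LaurentSeries K} {t : K[X]} (ht : t ≠ 0)
    (hxa : x * aeval (JK K) t = a) (ha : AlgDeg K n a) : AlgDeg K n x := by
  obtain ⟨Q, hQ0, hQn, hQ⟩ := ha
  have hlin : (C t * X : K[X][X]) ≠ C ((C t * X : K[X][X]).coeff 0) := by
    intro h
    have h1 := congrArg (fun p : K[X][X] => p.coeff 1) h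
    simp only [coeff_C_mul, coeff_X_one, mul_one, coeff_X_zero, mul_zero, map_zero,
      coeff_zero] at h1
    exact ht h1
  refine ⟨Q.comp (C t * X), ?_, ?_, ?_⟩
  · intro h
    rcases (comp_eq_zero_iff.mp h) with h | ⟨_, h⟩
    · exact hQ0 h
    · exact hlin h
  · rw [natDegree_comp]
    have : (C t * X : K[X][X]).natDegree ≤ 1 := by
      refine (natDegree_C_mul_le _ _).trans ?_
      exact natDegree_X_le
    calc Q.natDegree * (C t * X : K[X][X]).natDegree ≤ Q.natDegree * 1 :=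
          Nat.mul_le_mul_left _ this
      _ = Q.natDegree := mul_one _
      _ ≤ n := hQn
  · rw [eval₂_comp, eval₂_mul, eval₂_C, eval₂_X, evJ_apply, mul_comm, hxa]
    exact hQ

/-- a nonzero algebraic element of `A` has an "inverse up to a polynomial in `j`" in `A`. -/
theorem exists_mul_eq_aeval {N n : ℕ} {s : LaurentSeries K} (hs : s ∈ AK K N) (hs0 : s ≠ 0)
    (ha : AlgDeg K n s) : ∃ g ∈ AK K N, ∃ t : K[X], t ≠ 0 ∧ s * g = aeval (JK K) t := by
  obtain ⟨Q, hQ0, -, hQ⟩ := ha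
  -- strong induction on the degree to reach a nonzero constant coefficient
  have key : ∀ m : ℕ, ∀ Q : K[X][X], Q.natDegree ≤ m → Q ≠ 0 → Q.eval₂ (evJ (JK K)) s = 0 →
      ∃ Q₁ : K[X][X], Q₁.coeff 0 ≠ 0 ∧ Q₁.eval₂ (evJ (JK K)) s = 0 := by
    intro m
    induction m with
    | zero =>
      intro Q hdeg hQ0 hQ
      refine ⟨Q, ?_, hQ⟩
      intro h0
      apply hQ0
      rw [eq_C_of_natDegree_le_zero hdeg, h0, map_zero]
    | succ m ih =>
      intro Q hdeg hQ0 hQ
      by_cases h0 : Q.coeff 0 = 0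
      · have hdiv : Q = divX Q * X := by
          conv_lhs => rw [← divX_mul_X_add Q, h0, map_zero, add_zero]
        have hd0 : divX Q ≠ 0 := by
          intro h; apply hQ0; rw [hdiv, h, zero_mul]
        have hev : (divX Q).eval₂ (evJ (JK K)) s = 0 := by
          rw [hdiv, eval₂_mul, eval₂_X] at hQ
          rcases mul_eq_zero.mp hQ with h | h
          · exact h
          · exact absurd h hs0
        refine ih (divX Q) ?_ hd0 hev
        rw [natDegree_divX_eq_natDegree_tsub_one]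
        omega
      · exact ⟨Q, h0, hQ⟩
  obtain ⟨Q₁, h0, hQ₁⟩ := key Q.natDegree Q le_rfl hQ0 hQ
  refine ⟨-(divX Q₁).eval₂ (evJ (JK K)) s, Subalgebra.neg_mem _ (eval₂_mem_AK _ hs),
    Q₁.coeff 0, h0, ?_⟩
  have hsplit : Q₁.eval₂ (evJ (JK K)) s
      = (divX Q₁).eval₂ (evJ (JK K)) s * s + aeval (JK K) (Q₁.coeff 0) := by
    conv_lhs => rw [← divX_mul_X_add Q₁]
    rw [eval₂_add, eval₂_mul, eval₂_X, eval₂_C, evJ_apply]
  rw [hQ₁] at hsplit
  linear_combination hsplit

end General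

section Descent

variable {K L : Type*} [Field K] [Algebra ℚ K] [Field L] [Algebra ℚ L]

theorem coeffMap_coeffEmb' (ι : K →+* L) (y : LaurentSeries ℚ) :
    coeffMap ι (coeffEmb K y) = coeffEmb L y := by
  rw [coeffEmb, coeffMap_coeffMap, coeffEmb]
  exact coeffMap_congr (Subsingleton.elim _ _) y

theorem coeffMap_JK (ι : K →+* L) : coeffMap ι (JK K) = JK L := coeffMap_coeffEmb' ι jq

theorem coeffMap_mem_AK (ι : K →+* L) {N : ℕ} {a : LaurentSeries K} (ha : a ∈ AK K N) :
    coeffMap ι a ∈ AK L N := by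
  unfold AK at ha
  induction ha using Algebra.adjoin_induction with
  | mem x hx =>
    obtain ⟨y, hy, rfl⟩ := hx
    rw [coeffMap_coeffEmb']
    exact Algebra.subset_adjoin ⟨y, hy, rfl⟩
  | algebraMap r =>
    rw [coeffMap_algebraMap']
    exact Subalgebra.algebraMap_mem _ _
  | add x y _ _ hx hy =>
    rw [map_add]; exact Subalgebra.add_mem _ hx hy
  | mul x y _ _ hx hy =>
    rw [map_mul]; exact Subalgebra.mul_mem _ hx hy

/-- Lemma B: elements of `A_K` are algebraic of degree `≤ n` over `K[j]`, given the hypothesis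
over the bigger field `L`. -/
theorem algDeg_of_mem_AK (ι : K →+* L) {N n : ℕ} (hyp : Hyp L N n) {a : LaurentSeries K}
    (ha : a ∈ AK K N) : AlgDeg K n a := by
  obtain ⟨P, hP, hn, h0⟩ := hyp _ (coeffMap_mem_AK ι ha)
  rw [← coeffMap_JK ι] at h0
  exact exists_relation_of_coeffMap_monic ι (JK K) a n P hP hn h0

end Descent

section Field

variable {K L : Type*} [Field K] [Algebra ℚ K] [Field L] [Algebra ℚ L]

theorem coeffEmb_mem_adjoin_gens (N : ℕ) {y : LaurentSeries ℚ}
    (hy : y ∈ IntermediateField.adjoin ℚ (divisorExpansions N)) :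
    coeffEmb K y ∈ IntermediateField.adjoin K (gens K N) := by
  refine IntermediateField.adjoin_induction ℚ
    (p := fun y _ => coeffEmb K y ∈ IntermediateField.adjoin K (gens K N)) ?_ ?_ ?_ ?_ ?_ hy
  · intro x hx
    exact IntermediateField.subset_adjoin K _ ⟨x, hx, rfl⟩
  · intro c
    have : coeffEmb K (algebraMap ℚ (LaurentSeries ℚ) c)
        = algebraMap K (LaurentSeries K) (algebraMap ℚ K c) := by
      rw [coeffEmb, coeffMap_algebraMap']
    rw [this]
    exact IntermediateField.algebraMap_mem _ _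
  · intro x y _ _ hx hy
    rw [map_add]; exact add_mem hx hy
  · intro x _ hx
    rw [map_inv₀]; exact inv_mem hx
  · intro x y _ _ hx hy
    rw [map_mul]; exact mul_mem hx hy

/-- the base-changed function field is generated over `K` by the `j(q^d)`. -/
theorem laurentBaseChange_full_le (N : ℕ) :
    laurentBaseChange K (modularFunctionFieldFull N) ≤ IntermediateField.adjoin K (gens K N) := by
  rw [laurentBaseChange, IntermediateField.adjoin_le_iff]
  rintro _ ⟨y, hy, rfl⟩
  exact coeffEmb_mem_adjoin_gens N hy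

/-- Lemma H: every element of the function field is algebraic of degree `≤ n` over `K[j]`. -/
theorem algDeg_of_mem_field (ι : K →+* L) {N n : ℕ} (hyp : Hyp L N n) {x : LaurentSeries K}
    (hx : x ∈ laurentBaseChange K (modularFunctionFieldFull N)) : AlgDeg K n x := by
  have hx' := laurentBaseChange_full_le (K := K) N hx
  rw [IntermediateField.mem_adjoin_iff_div] at hx'
  obtain ⟨r, hr, s, hs, rfl⟩ := hx'
  have hr' : r ∈ AK K N := hr
  have hs' : s ∈ AK K N := hs
  by_cases hs0 : s = 0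
  · subst hs0
    rw [div_zero]
    exact algDeg_of_mem_AK ι hyp (Subalgebra.zero_mem _)
  · obtain ⟨g, hg, t, ht, hst⟩ := exists_mul_eq_aeval hs' hs0 (algDeg_of_mem_AK ι hyp hs')
    refine AlgDeg.of_mul_eq (a := r * g) ht ?_ (algDeg_of_mem_AK ι hyp (Subalgebra.mul_mem _ hr' hg))
    rw [← hst]
    field_simp

end Field

end Fermat.Agent.S24.Deg457

end
end
-- ===== PACK-END S24/Deg/H457_Alg.lean

-- ===== PACK-BEGIN S24/JFun/Laurent.lean
section



/-!
# Laurent (ℤ-indexed) form of the bridge `j(τ) = ∑ₙ jq_n qⁿ`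

Adapters of `hasSum_qjFun` to the Prelude's Laurent series `ModularCurve.jqModC ℂ`.
-/

set_option autoImplicit false

namespace Fermat.Agent.S24.JFun

open Filter Topology Complex Function
open UpperHalfPlane hiding I
open ModularForm EisensteinSeries MatrixGroups

local notation "𝕢" => Function.Periodic.qParam

/-- Coefficients of the Prelude's Laurent series `jqModC ℂ` in terms of `jNum`. -/
theorem coeff_jqModC_natCast_sub_one (k : ℕ) :
    (ModularCurve.jqModC ℂ).coeff ((k : ℤ) - 1) = ((ModularCurve.jNum.coeff k : ℤ) : ℂ) := by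
  rw [ModularCurve.jqModC, HahnSeries.coeff_single_mul, one_mul,
    show ((k : ℤ) - 1 - (-1)) = (k : ℤ) by ring, HahnSeries.ofPowerSeries_apply_coeff,
    PowerSeries.coeff_map]
  simp

theorem coeff_jqModC_of_lt {n : ℤ} (hn : n < -1) : (ModularCurve.jqModC ℂ).coeff n = 0 := by
  rw [ModularCurve.jqModC, HahnSeries.coeff_single_mul, one_mul]
  exact ModularCurve.ofPowerSeries_coeff_of_neg _ (by omega)

/-- **Bridge, Laurent form**: `j(τ) = ∑_{n ∈ ℤ} (jqModC ℂ)_n qⁿ` for every `τ : ℍ`. -/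
theorem hasSum_jFun (τ : ℍ) :
    HasSum (fun n : ℤ => (ModularCurve.jqModC ℂ).coeff n * 𝕢 1 (τ : ℂ) ^ n) (jFun τ) := by
  have hq : 𝕢 1 (τ : ℂ) ≠ 0 := qParam_one_ne_zero _
  have hinj : Function.Injective (fun k : ℕ => ((k : ℤ) - 1)) := by
    intro a b hab
    simp only [sub_left_inj, Nat.cast_inj] at hab
    exact hab
  have hsupp : ∀ n : ℤ, n ∉ Set.range (fun k : ℕ => ((k : ℤ) - 1)) →
      (ModularCurve.jqModC ℂ).coeff n * 𝕢 1 (τ : ℂ) ^ n = 0 := by
    intro n hn
    have hlt : n < -1 := by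
      by_contra hcon
      have hcon : -1 ≤ n := not_lt.mp hcon
      apply hn
      refine ⟨(n + 1).toNat, ?_⟩
      simp only
      rw [Int.toNat_of_nonneg (by omega)]
      ring
    rw [coeff_jqModC_of_lt hlt, zero_mul]
  rw [← hinj.hasSum_iff hsupp]
  have h := (hasSum_qjFun τ).mul_left ((𝕢 1 (τ : ℂ))⁻¹)
  rw [← mul_assoc, inv_mul_cancel₀ hq, one_mul] at h
  have hfun : ((fun n : ℤ => (ModularCurve.jqModC ℂ).coeff n * 𝕢 1 (τ : ℂ) ^ n) ∘
      fun k : ℕ => ((k : ℤ) - 1))
      = fun i : ℕ => (𝕢 1 (τ : ℂ))⁻¹ *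
          (((ModularCurve.jNum.coeff i : ℤ) : ℂ) * 𝕢 1 (τ : ℂ) ^ i) := by
    funext k
    simp only [comp_apply]
    rw [coeff_jqModC_natCast_sub_one, zpow_sub₀ hq, zpow_natCast, zpow_one]
    field_simp
  rw [hfun]
  exact h

/-- The same with `q` written out as `exp (2πiτ)`. -/
theorem hasSum_jFun_cexp (τ : ℍ) :
    HasSum (fun n : ℤ => (ModularCurve.jqModC ℂ).coeff n *
      Complex.exp (2 * (Real.pi : ℂ) * I * (τ : ℂ)) ^ n) (jFun τ) := by
  have h := hasSum_jFun τ
  have hq : 𝕢 1 (τ : ℂ) = Complex.exp (2 * (Real.pi : ℂ) * I * (τ : ℂ)) := by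
    simp [Function.Periodic.qParam]
  rw [hq] at h
  exact h

/-- `ℕ`-indexed form with `q` written out as `exp (2πiτ)`. -/
theorem hasSum_qjFun_cexp (τ : ℍ) :
    HasSum (fun n : ℕ => ((ModularCurve.jNum.coeff n : ℤ) : ℂ) *
      Complex.exp (2 * (Real.pi : ℂ) * I * (τ : ℂ)) ^ n)
      (Complex.exp (2 * (Real.pi : ℂ) * I * (τ : ℂ)) * jFun τ) := by
  have h := hasSum_qjFun τ
  have hq : 𝕢 1 (τ : ℂ) = Complex.exp (2 * (Real.pi : ℂ) * I * (τ : ℂ)) := by
    simp [Function.Periodic.qParam]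
  rw [hq] at h
  exact h

end Fermat.Agent.S24.JFun

end
-- ===== PACK-END S24/JFun/Laurent.lean

-- ===== PACK-BEGIN S24/H624/Moebius.lean
section


/-!
# Order of vanishing under Möbius transformations; the rotation lemma
-/

set_option autoImplicit false

namespace Fermat.Agent.S24.H624

open UpperHalfPlane Complex
open scoped Manifold Topology MatrixGroups

/-- The Möbius map of `g` on `ℂ` (junk where the denominator vanishes). -/
noncomputable def moeb (g : GL (Fin 2) ℝ) (z : ℂ) : ℂ := num g z / denom g z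

theorem moeb_coe {g : GL (Fin 2) ℝ} (hg : 0 < g.det.val) (τ : ℍ) :
    moeb g (τ : ℂ) = ((g • τ : ℍ) : ℂ) :=
  (coe_smul_of_det_pos hg τ).symm

theorem hasDerivAt_num (g : GL (Fin 2) ℝ) (z : ℂ) :
    HasDerivAt (num g) ((g 0 0 : ℝ) : ℂ) z := by
  have h : HasDerivAt (fun w : ℂ => ((g 0 0 : ℝ) : ℂ) * w + ((g 0 1 : ℝ) : ℂ))
      (((g 0 0 : ℝ) : ℂ) * 1) z :=
    ((hasDerivAt_id z).const_mul _).add_const _
  rw [mul_one] at h
  exact h

theorem hasDerivAt_denom (g : GL (Fin 2) ℝ) (z : ℂ) :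
    HasDerivAt (denom g) ((g 1 0 : ℝ) : ℂ) z := by
  have h : HasDerivAt (fun w : ℂ => ((g 1 0 : ℝ) : ℂ) * w + ((g 1 1 : ℝ) : ℂ))
      (((g 1 0 : ℝ) : ℂ) * 1) z :=
    ((hasDerivAt_id z).const_mul _).add_const _
  rw [mul_one] at h
  exact h

theorem det_eq (g : GL (Fin 2) ℝ) :
    ((g.det.val : ℝ) : ℂ) = (g 0 0 : ℂ) * (g 1 1 : ℂ) - (g 0 1 : ℂ) * (g 1 0 : ℂ) := by
  rw [Matrix.GeneralLinearGroup.val_det_apply, Matrix.det_fin_two]
  push_cast
  rfl

theorem hasDerivAt_moeb (g : GL (Fin 2) ℝ) {z : ℂ} (hz : denom g z ≠ 0) :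
    HasDerivAt (moeb g) (((g.det.val : ℝ) : ℂ) / denom g z ^ 2) z := by
  have h := (hasDerivAt_num g z).div (hasDerivAt_denom g z) hz
  have e : (((g 0 0 : ℝ) : ℂ) * denom g z - num g z * ((g 1 0 : ℝ) : ℂ)) / denom g z ^ 2
      = ((g.det.val : ℝ) : ℂ) / denom g z ^ 2 := by
    rw [det_eq]
    congr 1
    simp only [num, denom]
    ring
  rw [e] at h
  exact h

theorem analyticAt_moeb (g : GL (Fin 2) ℝ) {z : ℂ} (hz : denom g z ≠ 0) :
    AnalyticAt ℂ (moeb g) z := by
  have hn : AnalyticAt ℂ (num g) z := by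
    have : num g = fun w : ℂ => ((g 0 0 : ℝ) : ℂ) * w + ((g 0 1 : ℝ) : ℂ) := by
      funext w; simp [num]
    rw [this]
    fun_prop
  have hd : AnalyticAt ℂ (denom g) z := by
    have : denom g = fun w : ℂ => ((g 1 0 : ℝ) : ℂ) * w + ((g 1 1 : ℝ) : ℂ) := by
      funext w; simp [denom]
    rw [this]
    fun_prop
  exact hn.div hd hz

theorem deriv_moeb_ne_zero {g : GL (Fin 2) ℝ} (hg : 0 < g.det.val) {z : ℂ}
    (hz : denom g z ≠ 0) : deriv (moeb g) z ≠ 0 := by
  rw [(hasDerivAt_moeb g hz).deriv]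
  refine div_ne_zero ?_ (pow_ne_zero _ hz)
  exact_mod_cast hg.ne'

theorem eventuallyEq_comp_smul {g : GL (Fin 2) ℝ} (hg : 0 < g.det.val) (f : ℍ → ℂ) (τ : ℍ) :
    ((fun z : ℍ => f (g • z)) ∘ ofComplex) =ᶠ[𝓝 (τ : ℂ)] ((f ∘ ofComplex) ∘ moeb g) := by
  filter_upwards [isOpen_upperHalfPlaneSet.mem_nhds τ.im_pos] with z hz
  have hz' : 0 < z.im := hz
  simp only [Function.comp_apply]
  rw [ofComplex_apply_of_im_pos hz']
  have : moeb g z = ((g • (⟨z, hz'⟩ : ℍ) : ℍ) : ℂ) := moeb_coe hg ⟨z, hz'⟩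
  rw [this, ofComplex_apply]

/-- Order of vanishing is invariant under Möbius transformations. -/
theorem ordAt_comp_smul {g : GL (Fin 2) ℝ} (hg : 0 < g.det.val) (f : ℍ → ℂ) (τ : ℍ) :
    ordAt τ (fun z : ℍ => f (g • z)) = ordAt (g • τ) f := by
  have hd : denom g (τ : ℂ) ≠ 0 := denom_ne_zero g τ
  rw [ordAt_def, analyticOrderAt_congr (eventuallyEq_comp_smul hg f τ),
    analyticOrderAt_comp_of_deriv_ne_zero (analyticAt_moeb g hd) (deriv_moeb_ne_zero hg hd),
    moeb_coe hg, ordAt_def]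

theorem mdiff_comp_smul {g : GL (Fin 2) ℝ} (hg : 0 < g.det.val) {f : ℍ → ℂ} (hf : MDiff f) :
    MDiff (fun z : ℍ => f (g • z)) :=
  hf.comp (mdifferentiable_smul hg)

/-- Key algebraic identity: `g z - g w = det g * (z - w) / (denom z * denom w)`. -/
theorem moeb_sub_moeb (g : GL (Fin 2) ℝ) {z w : ℂ} (hz : denom g z ≠ 0) (hw : denom g w ≠ 0) :
    moeb g z - moeb g w = ((g.det.val : ℝ) : ℂ) * (z - w) / (denom g z * denom g w) := by
  rw [det_eq]
  unfold moeb
  rw [div_sub_div _ _ hz hw]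
  congr 1
  simp only [num, denom]
  ring

/-- **Rotation lemma.** If `g` fixes `τ`, and the nonzero holomorphic function `f` is invariant
under `g`, then `(deriv of g at τ) ^ ord_τ f = 1`, i.e. `(det g / denom g τ ^ 2) ^ n = 1`. -/
theorem rotation_lemma {g : GL (Fin 2) ℝ} (hg : 0 < g.det.val) {f : ℍ → ℂ} (hf : MDiff f)
    (hf0 : f ≠ 0) {τ : ℍ} (hτ : g • τ = τ) (hinv : ∀ z : ℍ, f (g • z) = f z) :
    (((g.det.val : ℝ) : ℂ) / denom g (τ : ℂ) ^ 2) ^ (ordAt τ f).toNat = 1 := by
  set n := (ordAt τ f).toNat with hn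
  have hne := ordAt_ne_top hf hf0 τ
  have hord : analyticOrderAt (f ∘ ofComplex) (τ : ℂ) = (n : ℕ∞) := by
    rw [← ordAt_def, hn, ENat.natCast_toNat hne]
  obtain ⟨u, hu, hu0, hfu⟩ :=
    ((analyticAt_of_mdiff hf τ).analyticOrderAt_eq_natCast).mp hord
  have hd : denom g (τ : ℂ) ≠ 0 := denom_ne_zero g τ
  have hmτ : moeb g (τ : ℂ) = (τ : ℂ) := by rw [moeb_coe hg, hτ]
  have hmcont : ContinuousAt (moeb g) (τ : ℂ) := (analyticAt_moeb g hd).continuousAt
  -- near τ: f ∘ ofComplex ∘ moeb = f ∘ ofComplex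
  have h1 : ∀ᶠ z in 𝓝 (τ : ℂ), (f ∘ ofComplex) (moeb g z) = (f ∘ ofComplex) z := by
    filter_upwards [eventuallyEq_comp_smul hg f τ] with z hz
    have := hz
    simp only [Function.comp_apply] at this ⊢
    rw [← this, hinv]
  -- near τ: moeb z is near τ so factorization applies at moeb z
  have h2 : ∀ᶠ z in 𝓝 (τ : ℂ), (f ∘ ofComplex) (moeb g z)
      = (moeb g z - (τ : ℂ)) ^ n • u (moeb g z) := by
    have : Filter.Tendsto (moeb g) (𝓝 (τ : ℂ)) (𝓝 (τ : ℂ)) := by
      have := hmcont.tendsto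
      rwa [hmτ] at this
    exact this.eventually hfu
  have h3 : ∀ᶠ z in 𝓝 (τ : ℂ), denom g z ≠ 0 :=
    (hasDerivAt_denom g _).continuousAt.eventually_ne hd
  set c : ℂ := ((g.det.val : ℝ) : ℂ) with hc
  -- on a punctured neighbourhood: (c / (denom z * denom τ))^n * u (moeb z) = u z
  have h4 : ∀ᶠ z in 𝓝[≠] (τ : ℂ),
      (c / (denom g z * denom g (τ : ℂ))) ^ n * u (moeb g z) = u z := by
    have hall := (h1.and (h2.and (h3.and hfu)))
    filter_upwards [hall.filter_mono nhdsWithin_le_nhds, self_mem_nhdsWithin] with z hz hzne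
    obtain ⟨e1, e2, e3, e4⟩ := hz
    have hzne' : z - (τ : ℂ) ≠ 0 := sub_ne_zero.mpr hzne
    have e5 : moeb g z - (τ : ℂ) = c * (z - (τ : ℂ)) / (denom g z * denom g (τ : ℂ)) := by
      have := moeb_sub_moeb g e3 hd
      rwa [hmτ] at this
    rw [e2, e4, e5] at e1
    simp only [smul_eq_mul] at e1
    have e6 : c * (z - (τ : ℂ)) / (denom g z * denom g (τ : ℂ))
        = (z - (τ : ℂ)) * (c / (denom g z * denom g (τ : ℂ))) := by ring
    rw [e6, mul_pow, mul_assoc] at e1
    exact mul_left_cancel₀ (pow_ne_zero n hzne') e1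
  -- pass to the limit
  have hL : Filter.Tendsto (fun z => (c / (denom g z * denom g (τ : ℂ))) ^ n * u (moeb g z))
      (𝓝[≠] (τ : ℂ)) (𝓝 ((c / (denom g (τ : ℂ) * denom g (τ : ℂ))) ^ n * u (τ : ℂ))) := by
    have hcd : ContinuousAt (fun z => (c / (denom g z * denom g (τ : ℂ))) ^ n) (τ : ℂ) := by
      have hden : ContinuousAt (fun z => denom g z * denom g (τ : ℂ)) (τ : ℂ) :=
        ((hasDerivAt_denom g _).continuousAt).mul continuousAt_const
      exact ((continuousAt_const.div hden (mul_ne_zero hd hd))).pow n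
    have hu' : ContinuousAt (fun z => u (moeb g z)) (τ : ℂ) := by
      have : ContinuousAt u (moeb g (τ : ℂ)) := by rw [hmτ]; exact hu.continuousAt
      exact ContinuousAt.comp (f := moeb g) (g := u) this hmcont
    have hmul : ContinuousAt
        (fun z => (c / (denom g z * denom g (τ : ℂ))) ^ n * u (moeb g z)) (τ : ℂ) := hcd.mul hu'
    have := hmul.tendsto
    simp only [hmτ] at this
    exact this.mono_left nhdsWithin_le_nhds
  have hR : Filter.Tendsto u (𝓝[≠] (τ : ℂ)) (𝓝 (u (τ : ℂ))) :=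
    hu.continuousAt.tendsto.mono_left nhdsWithin_le_nhds
  have hlim := tendsto_nhds_unique (hL.congr' h4) hR
  have hfin : (c / (denom g (τ : ℂ) * denom g (τ : ℂ))) ^ n = 1 := by
    have := mul_right_cancel₀ hu0 (hlim.trans (one_mul _).symm)
    exact this
  rw [← hfin, sq]

end Fermat.Agent.S24.H624

end
-- ===== PACK-END S24/H624/Moebius.lean

-- ===== PACK-BEGIN S24/Inf/Unique.lean
section


/-!
# S24 / MOD-INF — uniqueness of convergent Laurent expansions, the expansion ring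
-/

set_option autoImplicit false

noncomputable section

open HahnSeries ModularCurve UpperHalfPlane Complex
open scoped Real

namespace Fermat.Agent.S24

/-- A power series converging to `0` on the punctured unit disc has zero constant coefficient. -/
theorem inf_coeff_zero_eq_zero_of_hasSum_zero (a : ℕ → ℂ)
    (h : ∀ z : ℂ, z ≠ 0 → ‖z‖ < 1 → HasSum (fun n => a n * z ^ n) 0) : a 0 = 0 := by
  have hhalf : HasSum (fun n => a n * ((1 / 2 : ℝ) : ℂ) ^ n) 0 :=
    h _ (by norm_num) (by rw [Complex.norm_real]; norm_num)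
  have hs1 : Summable (fun n => ‖a (n + 1)‖ * (1 / 2 : ℝ) ^ n) := by
    have h1 : Summable (fun n => ‖a n * ((1 / 2 : ℝ) : ℂ) ^ n‖) := hhalf.summable.norm
    have h2 := (summable_nat_add_iff 1).mpr h1
    have h3 := h2.mul_left 2
    refine h3.congr fun n => ?_
    rw [norm_mul, norm_pow, Complex.norm_real, pow_succ]
    simp only [Real.norm_eq_abs]
    rw [abs_of_pos (by norm_num : (0 : ℝ) < 1 / 2)]
    ring
  set C : ℝ := ∑' n, ‖a (n + 1)‖ * (1 / 2 : ℝ) ^ n with hC
  have hC0 : 0 ≤ C := tsum_nonneg fun n => by positivity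
  have key : ∀ t : ℝ, 0 < t → t ≤ 1 / 2 → ‖a 0‖ ≤ t * C := by
    intro t ht0 ht
    have hz : HasSum (fun n => a n * ((t : ℝ) : ℂ) ^ n) 0 :=
      h _ (by exact_mod_cast ht0.ne') (by
        rw [Complex.norm_real, Real.norm_eq_abs, abs_of_pos ht0]; linarith)
    have hz' := (hasSum_nat_add_iff' 1).mpr hz
    simp only [Finset.range_one, Finset.sum_singleton, pow_zero, mul_one, zero_sub] at hz'
    have hb : HasSum (fun n => t * (‖a (n + 1)‖ * (1 / 2 : ℝ) ^ n)) (t * C) :=
      hs1.hasSum.mul_left t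
    have := hz'.norm_le_of_bounded hb (fun n => by
      rw [norm_mul, norm_pow, Complex.norm_real, Real.norm_eq_abs, abs_of_pos ht0, pow_succ]
      have : t ^ n ≤ (1 / 2 : ℝ) ^ n := pow_le_pow_left₀ ht0.le ht n
      have h0 : 0 ≤ ‖a (n + 1)‖ := norm_nonneg _
      calc ‖a (n + 1)‖ * (t ^ n * t) = t * (‖a (n + 1)‖ * t ^ n) := by ring
        _ ≤ t * (‖a (n + 1)‖ * (1 / 2 : ℝ) ^ n) := by gcongr)
    rwa [norm_neg] at this
  by_contra hne
  have hpos : 0 < ‖a 0‖ := norm_pos_iff.mpr hne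
  set t : ℝ := min (1 / 2) (‖a 0‖ / (2 * (C + 1))) with ht
  have ht0 : 0 < t := lt_min (by norm_num) (by positivity)
  have ht1 : t ≤ 1 / 2 := min_le_left _ _
  have ht2 : t ≤ ‖a 0‖ / (2 * (C + 1)) := min_le_right _ _
  have h1 := key t ht0 ht1
  have h2 : t * C ≤ ‖a 0‖ / (2 * (C + 1)) * C := by gcongr
  have h3 : ‖a 0‖ / (2 * (C + 1)) * C < ‖a 0‖ := by
    rw [div_mul_eq_mul_div, div_lt_iff₀ (by positivity)]
    nlinarith
  linarith

variable {N : ℕ} [NeZero N]

theorem InfPExp.coeff_zero_eq_zero {ψ : PowerSeries ℂ} (h : InfPExp N (fun _ => 0) ψ) :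
    PowerSeries.coeff 0 ψ = 0 := by
  refine inf_coeff_zero_eq_zero_of_hasSum_zero (fun n => PowerSeries.coeff n ψ) ?_
  intro z hz hz1
  obtain ⟨τ, rfl⟩ := exists_infZ_eq N hz hz1
  exact h τ

/-- Uniqueness of the expansion: only the zero series converges to the zero function. -/
theorem InfExp.eq_zero {φ : LaurentSeries ℂ} (h : InfExp N (fun _ => 0) φ) : φ = 0 := by
  by_contra hφ
  have h1 := h.powerSeriesPart
  simp only [mul_zero] at h1
  have h2 := h1.coeff_zero_eq_zero
  rw [LaurentSeries.powerSeriesPart_coeff] at h2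
  simp only [Nat.cast_zero, add_zero] at h2
  exact hφ (coeff_order_eq_zero.mp h2)

theorem InfExp.unique {f : ℍ → ℂ} {φ ψ : LaurentSeries ℂ} (hφ : InfExp N f φ)
    (hψ : InfExp N f ψ) : φ = ψ := by
  have h := hφ.sub hψ
  simp only [sub_self] at h
  exact sub_eq_zero.mp h.eq_zero

theorem InfExp.unique' {f g : ℍ → ℂ} {φ ψ : LaurentSeries ℂ} (hφ : InfExp N f φ)
    (hψ : InfExp N g ψ) (hfg : ∀ τ, f τ = g τ) : φ = ψ :=
  (hφ.congr hfg).unique hψ

variable (N) in
/-- The ring of functions on `ℍ` admitting a convergent Laurent expansion in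
`z = exp (2πiτ/N)` (finitely many negative exponents). -/
def expRing : Subring (ℍ → ℂ) where
  carrier := {f | ∃ φ, InfExp N f φ}
  mul_mem' := by
    rintro f g ⟨φ, hφ⟩ ⟨ψ, hψ⟩
    exact ⟨φ * ψ, hφ.mul hψ⟩
  one_mem' := ⟨1, InfExp.one⟩
  add_mem' := by
    rintro f g ⟨φ, hφ⟩ ⟨ψ, hψ⟩
    exact ⟨φ + ψ, hφ.add hψ⟩
  zero_mem' := ⟨0, InfExp.zero⟩
  neg_mem' := by
    rintro f ⟨φ, hφ⟩
    exact ⟨-φ, hφ.neg⟩

theorem mem_expRing {f : ℍ → ℂ} : f ∈ expRing N ↔ ∃ φ, InfExp N f φ := Iff.rfl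

theorem InfExp.mem_expRing {f : ℍ → ℂ} {φ : LaurentSeries ℂ} (h : InfExp N f φ) :
    f ∈ expRing N := ⟨φ, h⟩

variable (N) in
/-- The expansion at `∞` as a function. -/
def expInfFun (f : expRing N) : LaurentSeries ℂ := Classical.choose f.2

theorem expInfFun_spec (f : expRing N) : InfExp N (f : ℍ → ℂ) (expInfFun N f) :=
  Classical.choose_spec f.2

theorem InfExp.expInfFun_eq {f : ℍ → ℂ} {φ : LaurentSeries ℂ} (h : InfExp N f φ) :
    expInfFun N ⟨f, h.mem_expRing⟩ = φ :=
  (expInfFun_spec _).unique h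

variable (N) in
/-- The expansion at `∞` as a ring homomorphism. -/
def expInf : expRing N →+* LaurentSeries ℂ where
  toFun := expInfFun N
  map_one' := (expInfFun_spec (1 : expRing N)).unique InfExp.one
  map_mul' f g := (expInfFun_spec (f * g)).unique ((expInfFun_spec f).mul (expInfFun_spec g))
  map_zero' := (expInfFun_spec (0 : expRing N)).unique InfExp.zero
  map_add' f g := (expInfFun_spec (f + g)).unique ((expInfFun_spec f).add (expInfFun_spec g))

theorem expInf_spec (f : expRing N) : InfExp N (f : ℍ → ℂ) (expInf N f) :=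
  expInfFun_spec f

theorem InfExp.expInf_eq {f : ℍ → ℂ} {φ : LaurentSeries ℂ} (h : InfExp N f φ) :
    expInf N ⟨f, h.mem_expRing⟩ = φ :=
  h.expInfFun_eq

theorem expInf_injective : Function.Injective (expInf N) := by
  intro f g hfg
  apply Subtype.ext
  have hf := expInf_spec f
  have hg := expInf_spec g
  rw [hfg] at hf
  exact hf.fun_unique hg

instance expRing_isDomain : IsDomain (expRing N) :=
  Function.Injective.isDomain (expInf N) expInf_injective

end Fermat.Agent.S24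

end
end
-- ===== PACK-END S24/Inf/Unique.lean

-- ===== PACK-BEGIN S18/B12/Spec2.lean
section



/-!
# S18, Route K, b2: assembly pieces (squad S18/S33, squad-lead helper33) — FROZEN statements

Abstract setting for the assembly of `B2Statement` (see `coord/S18-b1b2.md`, section "Assembly"):
`P` = a noetherian UFD (later `R[X]`), `w ∈ P` a prime (later `C w`) with `P/(w)` a PID (later `k'[X]`)
and `P[1/w]` a PID containing `ℚ` (later `E[X]`); `B` = integrally closed domain, finite and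
torsion-free over `P`.  Special fibre `B/wB := B ⧸ (span {w}).map (algebraMap P B)` as an algebra over
`P ⧸ span {w}` (Mathlib instance `Ideal.Quotient.algebraQuotientMapQuotient`).
-/

set_option autoImplicit false

noncomputable section

namespace Fermat.Agent.S18.B12

open Polynomial

universe u v

/-- Gram determinant of the integral trace form of an `n`-tuple of `B`. -/
def intDiscr (P : Type u) (B : Type v) [CommRing P] [IsDomain P] [IsIntegrallyClosed P]
    [CommRing B] [IsDomain B] [IsIntegrallyClosed B] [Algebra P B] [Module.Finite P B]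
    [Module.IsTorsionFree P B] {n : ℕ} (x : Fin n → B) : P :=
  (Matrix.of fun i j => Algebra.intTrace P B (x i * x j)).det

/-- `x` is a basis of `B` over `P` locally at the ideal `𝔪`: linearly independent, and
`g • B ⊆ span x` for some `g ∉ 𝔪`. -/
def IsLocalBasis (P : Type u) (B : Type v) [CommRing P] [CommRing B] [Algebra P B]
    (𝔪 : Ideal P) (n : ℕ) (x : Fin n → B) : Prop :=
  LinearIndependent P x ∧ ∃ g : P, g ∉ 𝔪 ∧ ∀ b : B, g • b ∈ Submodule.span P (Set.range x)

/-- **A0 (abstract regular sequence).**  `w` prime in `P`, `w ∤ u`: if `u * b = w * b'` in the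
normal `B` then `b = w * b''`, `b' = u * b''`.  (Implies both statements of P1.) -/
def RegSeqAbsStatement : Prop :=
  ∀ (P : Type u) [CommRing P] [IsDomain P] [IsIntegrallyClosed P]
    (B : Type v) [CommRing B] [IsDomain B] [IsIntegrallyClosed B] [Algebra P B]
    [Algebra.IsIntegral P B] [Module.IsTorsionFree P B]
    (u w : P) (_ : Prime w) (_ : ¬ w ∣ u) (b b' : B),
    algebraMap P B u * b = algebraMap P B w * b' →
    ∃ b'' : B, b = algebraMap P B w * b'' ∧ b' = algebraMap P B u * b''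

/-- **A2 (local basis).**  `P` noetherian domain, `𝔪 = (w, p)` maximal, `(p, w)` regular on `B`
(hypothesis `hreg`).  Then `B` has a basis locally at `𝔪`. -/
def LocalBasisStatement : Prop :=
  ∀ (P : Type u) [CommRing P] [IsDomain P] [IsNoetherianRing P]
    (B : Type v) [CommRing B] [Algebra P B] [Module.Finite P B] [Module.IsTorsionFree P B]
    (w p : P) (_ : (Ideal.span {w, p}).IsMaximal)
    (_ : ∀ b b' : B, algebraMap P B p * b = algebraMap P B w * b' →
      ∃ b'' : B, b = algebraMap P B w * b'' ∧ b' = algebraMap P B p * b''),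
    ∃ (n : ℕ) (x : Fin n → B), IsLocalBasis P B (Ideal.span {w, p}) n x

/-- **A2' (rank).**  A local basis has `n = Module.finrank P B` elements, and the Gram determinant
of any other `n`-tuple `x'` satisfies `g² · intDiscr x' = u² · intDiscr x` with `g ∉ 𝔪`. -/
def LocalBasisRankStatement : Prop :=
  ∀ (P : Type u) [CommRing P] [IsDomain P] [IsIntegrallyClosed P]
    (B : Type v) [CommRing B] [IsDomain B] [IsIntegrallyClosed B] [Algebra P B]
    [Module.Finite P B] [Module.IsTorsionFree P B]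
    (𝔪 : Ideal P) [𝔪.IsPrime] (n : ℕ) (x : Fin n → B), IsLocalBasis P B 𝔪 n x →
    n = Module.finrank P B ∧
    ∀ x' : Fin n → B, ∃ g u : P, g ∉ 𝔪 ∧ g ^ 2 * intDiscr P B x' = u ^ 2 * intDiscr P B x

/-- **A3 (discriminant reduction mod `w`).**  `w` prime with `P/(w)` a PID, `x` a local basis at a
prime `𝔪 ∋ w`, `bb` a basis of `B/wB` over `P/(w)`.  Then `bb` has `n` elements and
`intDiscr x mod w = ū² · disc(bb)` with `u ∉ 𝔪`. -/
def DiscrRedStatement : Prop :=
  ∀ (P : Type u) [CommRing P] [IsDomain P] [IsIntegrallyClosed P]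
    (B : Type v) [CommRing B] [IsDomain B] [IsIntegrallyClosed B] [Algebra P B]
    [Module.Finite P B] [Module.IsTorsionFree P B]
    (w : P) (_ : Prime w) (𝔪 : Ideal P) [𝔪.IsPrime] (_ : w ∈ 𝔪)
    (n : ℕ) (x : Fin n → B) (_ : IsLocalBasis P B 𝔪 n x)
    (n' : ℕ) (bb : Module.Basis (Fin n') (P ⧸ Ideal.span {w})
      (B ⧸ (Ideal.span {w}).map (algebraMap P B))),
    n' = n ∧ ∃ u : P, u ∉ 𝔪 ∧
      Ideal.Quotient.mk (Ideal.span {w}) (intDiscr P B x) =
        Ideal.Quotient.mk (Ideal.span {w}) u ^ 2 * Algebra.discr (P ⧸ Ideal.span {w}) bb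

/-- **A4 (UFD step).**  If every prime factor of `D ≠ 0` lying in the prime ideal `𝔪` is
associated to `p`, then `D = p ^ a * D₁` with `D₁ ∉ 𝔪`. -/
def UFDStepStatement : Prop :=
  ∀ (P : Type u) [CommRing P] [IsDomain P] [UniqueFactorizationMonoid P]
    (𝔪 : Ideal P) [𝔪.IsPrime] (p : P) (_ : Prime p) (D : P) (_ : D ≠ 0)
    (_ : ∀ π : P, Prime π → π ∣ D → π ∈ 𝔪 → Associated π p),
    ∃ (a : ℕ) (D₁ : P), D = p ^ a * D₁ ∧ D₁ ∉ 𝔪

/-- **A5 (generic fibre).**  `P[1/w]` a PID in which every positive integer is invertible.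
`π ≠ w` a prime of `P`, `x` a local basis at `(π)`, `y` a family of `r` elements of `B` that is
independent modulo `rad(πB)`.  Then `π ^ (n - r + 1) ∤ intDiscr x`.
(Apply `TameDiscrStatement` to `Λ = P[1/w]`, `C₀ = B[1/w]`, which is a Dedekind domain.) -/
def GenericDiscrStatement : Prop :=
  ∀ (P : Type u) [CommRing P] [IsDomain P] [UniqueFactorizationMonoid P] [IsNoetherianRing P]
    (w : P) (_ : Prime w) (_ : IsPrincipalIdealRing (Localization.Away w))
    (_ : ∀ m : ℕ, m ≠ 0 → IsUnit (algebraMap P (Localization.Away w) (m : P)))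
    (B : Type v) [CommRing B] [IsDomain B] [IsIntegrallyClosed B] [Algebra P B]
    [Module.Finite P B] [Module.IsTorsionFree P B]
    (π : P) (_ : Prime π) (_ : ¬ Associated π w)
    (n : ℕ) (x : Fin n → B) (_ : IsLocalBasis P B (Ideal.span {π}) n x)
    (r : ℕ) (y : Fin r → B)
    (_ : ∀ a : Fin r → P,
      (∑ i, a i • y i) ∈ (Ideal.span {algebraMap P B π}).radical → ∀ i, π ∣ a i),
    ¬ π ^ (n - r + 1) ∣ intDiscr P B x

/-- **A5' (reduced basis at a prime `s` with `P/(s)` a PID).**  There is a family `y` of elements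
of `B` which is independent modulo `rad(sB)` and spans `B` modulo `rad(sB)`. -/
def RedBasisAbsStatement : Prop :=
  ∀ (P : Type u) [CommRing P] [IsDomain P] [IsIntegrallyClosed P]
    (B : Type v) [CommRing B] [IsDomain B] [IsIntegrallyClosed B] [Algebra P B]
    [Module.Finite P B] [Module.IsTorsionFree P B]
    (s : P) (_ : Prime s) (_ : IsPrincipalIdealRing (P ⧸ Ideal.span {s})),
    ∃ (r : ℕ) (y : Fin r → B),
      (∀ a : Fin r → P,
        (∑ i, a i • y i) ∈ (Ideal.span {algebraMap P B s}).radical → ∀ i, s ∣ a i) ∧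
      (∀ b : B, ∃ a : Fin r → P,
        b - ∑ i, a i • y i ∈ (Ideal.span {algebraMap P B s}).radical)

/-- **P2'' (special fibre, internal idempotent form).**  `Λ` a PID, `t` prime, `C` a commutative
`Λ`-algebra with basis `b`; `(C/tC)_red` spanned by `s` elements; `disc b ≠ 0`,
`t ^ (n - s + 1) ∤ disc b`.  If `e * e = g • e` with `g ≠ 0` (so `e/g` is an idempotent of
`Frac C`), then `h • e = g • c` for some `h ∉ (t)`, `c ∈ C`. -/
def SFIdemIntStatement : Prop :=
  ∀ (Λ : Type u) [CommRing Λ] [IsDomain Λ] [IsPrincipalIdealRing Λ] (t : Λ) (_ : Prime t)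
    (C : Type v) [CommRing C] [Algebra Λ C] (n : ℕ) (b : Module.Basis (Fin n) Λ C)
    (s : ℕ) (y : Fin s → C)
    (_ : ∀ x : C, ∃ a : Fin s → Λ,
        x - ∑ i, a i • y i ∈ (Ideal.span {algebraMap Λ C t}).radical),
    Algebra.discr Λ b ≠ 0 → ¬ t ^ (n - s + 1) ∣ Algebra.discr Λ b →
    ∀ (e : C) (g : Λ), g ≠ 0 → e * e = g • e → ∃ (h : Λ) (c : C), ¬ t ∣ h ∧ h • e = g • c

/-- **A6 (special fibre at the closed point `𝔪 = (w, p)`).**  `x` local basis at `𝔪`,
`intDiscr x = p ^ a * D₁` with `D₁ ∉ 𝔪`, `y` spans `B` modulo `rad(𝔪B)` with `a ≤ n - r`.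
Then every idempotent `e/g` of `Frac(B/wB)` is regular at `𝔪`: `h e ≡ g c mod wB`, `h ∉ 𝔪`. -/
def SpecialFibreStatement : Prop :=
  ∀ (P : Type u) [CommRing P] [IsDomain P] [UniqueFactorizationMonoid P] [IsNoetherianRing P]
    (w : P) (_ : Prime w) (_ : IsPrincipalIdealRing (P ⧸ Ideal.span {w}))
    (B : Type v) [CommRing B] [IsDomain B] [IsIntegrallyClosed B] [Algebra P B]
    [Module.Finite P B] [Module.IsTorsionFree P B]
    (p : P) (_ : (Ideal.span {w, p}).IsMaximal) (_ : ¬ w ∣ p)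
    (n : ℕ) (x : Fin n → B) (_ : IsLocalBasis P B (Ideal.span {w, p}) n x)
    (a : ℕ) (D₁ : P) (_ : intDiscr P B x = p ^ a * D₁) (_ : D₁ ∉ Ideal.span {w, p})
    (r : ℕ) (y : Fin r → B)
    (_ : ∀ b : B, ∃ c : Fin r → P, b - ∑ i, c i • y i ∈
      (Ideal.span {algebraMap P B w, algebraMap P B p}).radical)
    (_ : a ≤ n - r)
    (e : B) (g : P), ¬ w ∣ g →
      e ^ 2 - algebraMap P B g * e ∈ Ideal.span {algebraMap P B w} →
      ∃ (h : P) (c : B), h ∉ Ideal.span {w, p} ∧
        algebraMap P B h * e - algebraMap P B g * c ∈ Ideal.span {algebraMap P B w}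

/-- **A7 (abstract b2).**  `S` = finite set of branch primes. -/
def B2AbsStatement : Prop :=
  ∀ (P : Type u) [CommRing P] [IsDomain P] [UniqueFactorizationMonoid P] [IsNoetherianRing P]
    (w : P) (_ : Prime w) (_ : IsPrincipalIdealRing (P ⧸ Ideal.span {w}))
    (_ : IsPrincipalIdealRing (Localization.Away w))
    (_ : ∀ m : ℕ, m ≠ 0 → IsUnit (algebraMap P (Localization.Away w) (m : P)))
    (B : Type v) [CommRing B] [IsDomain B] [IsIntegrallyClosed B] [Algebra P B]
    [Module.Finite P B] [Module.IsTorsionFree P B]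
    (_ : ∃ x : Fin (Module.finrank P B) → B, ¬ w ∣ intDiscr P B x)
    (S : Finset P)
    (_ : ∀ s ∈ S, Prime s ∧ ¬ Associated s w ∧ (Ideal.span {w, s}).IsMaximal ∧
      IsPrincipalIdealRing (P ⧸ Ideal.span {s}))
    (_ : ∀ s ∈ S, ∀ s' ∈ S, s ≠ s' → s' ∉ Ideal.span {w, s})
    (_ : ∀ π : P, Prime π → ¬ Associated π w → (∀ s ∈ S, ¬ Associated π s) →
        (Ideal.span {algebraMap P B π}).IsRadical)
    (e : B) (g : P), ¬ w ∣ g →
      e ^ 2 - algebraMap P B g * e ∈ Ideal.span {algebraMap P B w} →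
      ∃ c : B, e - algebraMap P B g * c ∈ Ideal.span {algebraMap P B w}

/-- **A1 (instantiation `P = R[X]`).**  The ring-theoretic facts about `R[X]` needed to deduce
`B2Statement` from `B2AbsStatement`. -/
def PolyInstStatement : Prop :=
  ∀ (R : Type u) [CommRing R] [IsDomain R] [IsDiscreteValuationRing R] [CharZero R]
    (w : R) (_ : Irreducible w),
    Prime (C w : R[X]) ∧
    IsPrincipalIdealRing (R[X] ⧸ Ideal.span {(C w : R[X])}) ∧
    IsPrincipalIdealRing (Localization.Away (C w : R[X])) ∧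
    (∀ m : ℕ, m ≠ 0 → IsUnit (algebraMap R[X] (Localization.Away (C w : R[X])) (m : R[X]))) ∧
    ∀ c : R, Prime (X - C c : R[X]) ∧ ¬ Associated (X - C c : R[X]) (C w) ∧
      (Ideal.span {(C w : R[X]), X - C c}).IsMaximal ∧
      IsPrincipalIdealRing (R[X] ⧸ Ideal.span {(X - C c : R[X])}) ∧
      ∀ c' : R, X - C c' ∈ Ideal.span {(C w : R[X]), X - C c} → ¬ IsUnit (c - c')

end Fermat.Agent.S18.B12

end
end
-- ===== PACK-END S18/B12/Spec2.lean

-- ===== PACK-BEGIN S37/H278/Normal.lean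
section




/-!
# S37 / S18, piece b2-core (helper278): normality criterion via the discriminant

`o` a DVR with uniformizer `t` and fraction field `K`; `C` a finite free `o`-algebra with basis `b`
(rank `n`); `L = K ⊗ C` (any localization of `C` at `o \ {0}`).  Let `J = rad(tC)` (equal to the
Jacobson radical of `C`).  If `C / J` is generated by `s` elements as an `o`-module (e.g. `C` has
at most `s` maximal ideals, all with residue field `o / t`) and `t ^ (n - s + 1) ∤ disc(b)`, then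
`C` is integrally closed in `L`.

No differents, no completions: the trace form kills `J` modulo `t`, and an integral element
`y = z / t ∉ C` produces one more factor `t` in the Gram determinant of an adapted basis.
-/

set_option autoImplicit false
set_option linter.style.haveILetI false
set_option linter.unusedSectionVars false

namespace Fermat.Agent.S37.H278

open Module Polynomial

section Basics

variable {o : Type*} [CommRing o] [IsDomain o]
  {C : Type*} [CommRing C] [Algebra o C]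

/-- divisibility of the discriminant by `r` does not depend on the basis -/
theorem dvd_discr_of_dvd_discr {ι ι' : Type*} [Fintype ι] [Fintype ι'] [DecidableEq ι]
    [DecidableEq ι'] (b : Basis ι o C) (b' : Basis ι' o C) (r : o)
    (h : r ∣ Algebra.discr o b') : r ∣ Algebra.discr o b := by
  let e : ι' ≃ ι := b'.indexEquiv b
  let b'' : Basis ι o C := b'.reindex e
  have h1 : Algebra.discr o b'' = Algebra.discr o b' := by
    have := Algebra.discr_reindex o b' e
    rwa [← Basis.coe_reindex] at this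
  have h2 : Algebra.discr o b'' = (b.toMatrix b'').det ^ 2 * Algebra.discr o b := by
    rw [← Algebra.discr_of_matrix_vecMul, Basis.toMatrix_map_vecMul]
  have h3 : IsUnit (b.toMatrix b'').det := by
    rw [← LinearMap.toMatrix_id_eq_basis_toMatrix b'' b]
    exact LinearEquiv.isUnit_det (LinearEquiv.refl o C) b'' b
  rw [← h1, h2] at h
  exact ((h3.pow 2).dvd_mul_left).mp h

end Basics

section Main

variable {o : Type*} [CommRing o] [IsDomain o] [IsDiscreteValuationRing o]
  {K : Type*} [Field K] [Algebra o K] [IsFractionRing o K]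
  {C : Type*} [CommRing C] [Algebra o C] [Module.Free o C] [Module.Finite o C]
  {L : Type*} [CommRing L] [Algebra K L] [Algebra o L] [Algebra C L]
  [IsScalarTower o K L] [IsScalarTower o C L]
  [IsLocalization (Algebra.algebraMapSubmonoid C (nonZeroDivisors o)) L]

omit [IsDiscreteValuationRing o] [Module.Finite o C] in
theorem smul_eq_zero_imp {σ : o} (hσ : σ ≠ 0) {c : C} (h : σ • c = 0) : c = 0 := by
  have hreg : IsSMulRegular C σ :=
    Module.IsTorsionFree.isSMulRegular (IsRegular.of_ne_zero hσ)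
  exact hreg (by simpa using h)

omit [IsDiscreteValuationRing o] [Module.Finite o C] in
include o in
theorem algebraMap_injective_of_free (L : Type*) [CommRing L] [Algebra o L] [Algebra C L]
    [IsScalarTower o C L]
    [IsLocalization (Algebra.algebraMapSubmonoid C (nonZeroDivisors o)) L] :
    Function.Injective (algebraMap C L) := by
  apply IsLocalization.injective L (M := Algebra.algebraMapSubmonoid C (nonZeroDivisors o))
  rintro _ ⟨σ, hσ, rfl⟩
  rw [mem_nonZeroDivisors_iff_right]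
  intro c hc
  have hσ0 : σ ≠ 0 := nonZeroDivisors.ne_zero hσ
  apply smul_eq_zero_imp hσ0
  rw [Algebra.smul_def, mul_comm]
  exact hc

omit [IsDiscreteValuationRing o] [Module.Free o C] [Module.Finite o C] in
include o in
theorem exists_smul_mem_range (l : L) :
    ∃ σ : o, σ ≠ 0 ∧ σ • l ∈ (algebraMap C L).range := by
  obtain ⟨⟨c, ⟨_, σ, hσ, rfl⟩⟩, h⟩ :=
    IsLocalization.surj (Algebra.algebraMapSubmonoid C (nonZeroDivisors o)) l
  refine ⟨σ, nonZeroDivisors.ne_zero hσ, c, ?_⟩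
  simp only at h
  rw [← h, ← IsScalarTower.algebraMap_apply, Algebra.smul_def, mul_comm]

include K in
/-- Step A: a minimal counterexample. -/
theorem exists_minimal_counterexample {t : o} (ht : Irreducible t) (x : L) (hx : IsIntegral o x)
    (hxC : x ∉ (algebraMap C L).range) :
    ∃ (y : L) (z : C), IsIntegral o y ∧ y ∉ (algebraMap C L).range ∧
      algebraMap C L z = t • y ∧
      z ∉ (IsLocalRing.maximalIdeal o • ⊤ : Submodule o C) := by
  classical
  -- some power of t moves x into the range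
  have hex : ∃ k : ℕ, t ^ k • x ∈ (algebraMap C L).range := by
    obtain ⟨σ, hσ, c, hc⟩ := exists_smul_mem_range (o := o) (C := C) x
    obtain ⟨n, w, hw⟩ := IsDiscreteValuationRing.eq_unit_mul_pow_irreducible hσ ht
    refine ⟨n, (↑w⁻¹ : o) • c, ?_⟩
    rw [Algebra.smul_def, map_mul, hc, ← IsScalarTower.algebraMap_apply, ← Algebra.smul_def,
      smul_smul, hw]
    congr 1
    rw [← mul_assoc, Units.inv_mul, one_mul]
  let k := Nat.find hex
  have hk : t ^ k • x ∈ (algebraMap C L).range := Nat.find_spec hex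
  have hk0 : k ≠ 0 := by
    intro h0
    rw [h0, pow_zero, one_smul] at hk
    exact hxC hk
  obtain ⟨k', hk'⟩ : ∃ k', k = k' + 1 := ⟨k - 1, by omega⟩
  have hmin : t ^ k' • x ∉ (algebraMap C L).range := by
    have : k' < k := by omega
    exact Nat.find_min hex this
  obtain ⟨z, hz⟩ := hk
  refine ⟨t ^ k' • x, z, ?_, hmin, ?_, ?_⟩
  · rw [Algebra.smul_def]
    exact (isIntegral_algebraMap).mul hx
  · rw [hz, hk', pow_succ, smul_smul, mul_comm]
  · intro hzmem
    rw [ht.maximalIdeal_eq, Submodule.ideal_span_singleton_smul] at hzmem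
    obtain ⟨z', -, hz'⟩ := hzmem
    have hz'' : t • z' = z := hz'
    apply hmin
    refine ⟨z', ?_⟩
    have h1 : t • (algebraMap C L z' - t ^ k' • x) = 0 := by
      rw [smul_sub, smul_smul, ← pow_succ', ← hk', ← hz, ← hz'']
      rw [Algebra.smul_def t z', map_mul, ← IsScalarTower.algebraMap_apply, ← Algebra.smul_def,
        sub_self]
    have := smul_eq_zero_of_fractionRing K ht.ne_zero h1
    exact sub_eq_zero.mp this

omit [IsDiscreteValuationRing o] [Module.Finite o C] in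
include o in
/-- Step A': `z = t y` with `y` integral is nilpotent modulo `t`. -/
theorem exists_pow_eq_smul {t : o} {y : L} {z : C} (hy : IsIntegral o y)
    (hz : algebraMap C L z = t • y) : ∃ (d : ℕ) (c : C), z ^ d = t • c := by
  obtain ⟨p, hp, hpy⟩ := hy
  have hq : eval₂ (algebraMap o L) (algebraMap o L t * y) (p.scaleRoots t) = 0 :=
    scaleRoots_eval₂_eq_zero (algebraMap o L) hpy
  rw [← Algebra.smul_def, ← hz] at hq
  have hq' : algebraMap C L (eval₂ (algebraMap o C) z (p.scaleRoots t)) = 0 := by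
    rw [Polynomial.hom_eval₂, ← IsScalarTower.algebraMap_eq]
    exact hq
  have hq0 : eval₂ (algebraMap o C) z (p.scaleRoots t) = 0 :=
    (algebraMap_injective_of_free (o := o) L) (by rw [hq', map_zero])
  have hmonic : (p.scaleRoots t).Monic := (monic_scaleRoots_iff t).mpr hp
  have hsum := hmonic.as_sum
  rw [natDegree_scaleRoots] at hsum
  rw [hsum, eval₂_add, eval₂_pow, eval₂_X, eval₂_finsetSum] at hq0
  refine ⟨p.natDegree, -∑ i ∈ Finset.range p.natDegree,
    (p.coeff i * t ^ (p.natDegree - i - 1)) • z ^ i, ?_⟩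
  rw [eq_neg_of_add_eq_zero_left hq0, smul_neg, Finset.smul_sum]
  congr 1
  refine Finset.sum_congr rfl fun i hi => ?_
  have hi' : i < p.natDegree := Finset.mem_range.mp hi
  have hpow : t ^ (p.natDegree - i) = t * t ^ (p.natDegree - i - 1) := by
    rw [← pow_succ']
    congr 1
    omega
  rw [eval₂_mul, eval₂_C, eval₂_pow, eval₂_X, coeff_scaleRoots, smul_smul, Algebra.smul_def, hpow]
  congr 2
  ring

omit [IsDiscreteValuationRing o] [Module.Free o C] [Module.Finite o C] in
theorem mem_radical_span_iff {t : o} (c : C) :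
    c ∈ (Ideal.span {algebraMap o C t}).radical ↔ ∃ (k : ℕ) (c' : C), c ^ k = t • c' := by
  constructor
  · rintro ⟨k, hk⟩
    obtain ⟨c', hc'⟩ := Ideal.mem_span_singleton'.mp hk
    exact ⟨k, c', by rw [← hc', Algebra.smul_def, mul_comm]⟩
  · rintro ⟨k, c', hk⟩
    refine ⟨k, Ideal.mem_span_singleton'.mpr ⟨c', ?_⟩⟩
    rw [hk, Algebra.smul_def, mul_comm]

include K in
/-- **Normality criterion (b2-core).**  `o` a DVR with uniformizer `t`, `C` a finite free
`o`-algebra with basis `b`, `L` its localization at `o \ {0}`.  If `C / rad(tC)` is generated by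
`s` elements as `o`-module and `t ^ (n - s + 1) ∤ disc(b)` (`n = #ι`), then every element of `L`
integral over `o` lies in (the image of) `C`. -/
theorem mem_range_of_isIntegral {t : o} (ht : Irreducible t)
    {ι : Type*} [Fintype ι] [DecidableEq ι] (b : Basis ι o C)
    (s : ℕ) (u : Fin s → C)
    (hu : ((Ideal.span {algebraMap o C t}).radical.restrictScalars o) ⊔
        Submodule.span o (Set.range u) = ⊤)
    (hd : ¬ t ^ (Fintype.card ι - s + 1) ∣ Algebra.discr o b)
    (x : L) (hx : IsIntegral o x) : x ∈ (algebraMap C L).range := by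
  classical
  by_contra hxC
  obtain ⟨y, z, hy, hyC, hzy, hzt⟩ := exists_minimal_counterexample (K := K) ht x hx hxC
  set J : Ideal C := (Ideal.span {algebraMap o C t}).radical with hJ
  have hzJ : z ∈ J := (mem_radical_span_iff z).mpr (exists_pow_eq_smul hy hzy)
  obtain ⟨ι', _, _, b', Z, i₀, hi₀Z, hbi₀, hbZ, hcard⟩ :=
    exists_adapted_basis (J.restrictScalars o) z hzJ hzt s u hu
  -- the lattice generated by `C` and `y`
  let G : Set L := Set.range (fun i => algebraMap C L (b' i)) ∪ {y}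
  have hGfin : G.Finite := (Set.finite_range _).union (Set.finite_singleton y)
  have hGint : ∀ g ∈ G, IsIntegral o g := by
    rintro g (⟨i, rfl⟩ | rfl)
    · exact (Algebra.IsIntegral.isIntegral (R := o) (b' i)).map (IsScalarTower.toAlgHom o C L)
    · exact hy
  have hrange : ∀ c : C, algebraMap C L c ∈ Algebra.adjoin o G := by
    intro c
    have hc : c = ∑ i, (b'.repr c i) • b' i := (b'.sum_repr c).symm
    rw [hc, map_sum]
    refine Subalgebra.sum_mem _ fun i _ => ?_
    rw [Algebra.smul_def, map_mul, ← IsScalarTower.algebraMap_apply, ← Algebra.smul_def]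
    exact Subalgebra.smul_mem _
      (Algebra.subset_adjoin (Set.mem_union_left _ (Set.mem_range_self i))) _
  have hspan : ∀ l : L, ∃ σ : o, σ ≠ 0 ∧ σ • l ∈ Algebra.adjoin o G := by
    intro l
    obtain ⟨σ, hσ, c, hc⟩ := exists_smul_mem_range (o := o) (C := C) l
    exact ⟨σ, hσ, hc ▸ hrange c⟩
  have hR : IsLattice (Algebra.adjoin o G) := isLattice_adjoin hGfin hGint hspan
  let φ : C →ₐ[o] Algebra.adjoin o G :=
    (IsScalarTower.toAlgHom o C L).codRestrict (Algebra.adjoin o G) hrange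
  let yR : Algebra.adjoin o G :=
    ⟨y, Algebra.subset_adjoin (Set.mem_union_right _ (Set.mem_singleton y))⟩
  have hφ : ∀ c : C, ((φ c : Algebra.adjoin o G) : L) = algebraMap C L c := fun c => rfl
  have hφz : φ z = t • yR := Subtype.ext (by
    rw [hφ, hzy]; rfl)
  -- compatibility of traces
  have hτ : ∀ c : C, Algebra.trace o C c = Algebra.trace o (Algebra.adjoin o G) (φ c) := by
    intro c
    apply IsFractionRing.injective o K
    rw [← hR.trace_eq (K := K), hφ,
      ← Algebra.trace_localization o (nonZeroDivisors o) (Rₘ := K) (Sₘ := L)]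
  have hE1 : ∀ c ∈ J, t ∣ Algebra.trace o C c := fun c hc => by
    obtain ⟨k, c', hk⟩ := (mem_radical_span_iff c).mp hc
    exact dvd_trace_of_pow_mem ht c k ⟨c', hk⟩
  have hE2 : ∀ c : C, Algebra.trace o C (z * c) =
      t * Algebra.trace o (Algebra.adjoin o G) (yR * φ c) := by
    intro c
    rw [hτ, map_mul, hφz, smul_mul_assoc, map_smul, smul_eq_mul]
  have hE3 : ∀ c ∈ J, t ∣ Algebra.trace o (Algebra.adjoin o G) (yR * φ c) := by
    intro c hc
    obtain ⟨k, c', hk⟩ := (mem_radical_span_iff c).mp hc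
    refine hR.dvd_trace (K := K) ht _ k ⟨yR ^ k * φ c', ?_⟩
    rw [mul_pow, ← map_pow, hk, map_smul, mul_smul_comm]
  -- the Gram matrix of the adapted basis
  have hdet : t ^ (Z.card + 1) ∣ Algebra.discr o b' := by
    rw [Algebra.discr_def]
    refine pow_card_succ_dvd_det t _ Z i₀ ?_ ?_ ?_
    · intro i hi j
      rw [Algebra.traceMatrix_apply, Algebra.traceForm_apply]
      exact hE1 _ (J.mul_mem_right _ (hbZ i hi))
    · intro i hi
      rw [Algebra.traceMatrix_apply, Algebra.traceForm_apply, hbi₀, mul_comm, hE2, pow_two]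
      exact mul_dvd_mul_left t (hE3 _ (hbZ i hi))
    · intro j
      rw [Algebra.traceMatrix_apply, Algebra.traceForm_apply, hbi₀, mul_comm, hE2]
      exact dvd_mul_right t _
  have hcard' : Fintype.card ι = Fintype.card ι' := Fintype.card_congr (b.indexEquiv b')
  have hfin : t ^ (Fintype.card ι - s + 1) ∣ Algebra.discr o b' :=
    (pow_dvd_pow t (by omega)).trans hdet
  exact hd (dvd_discr_of_dvd_discr b b' _ hfin)

include K in
/-- **Normality criterion**, `IsIntegrallyClosedIn` form. -/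
theorem isIntegrallyClosedIn_of_discr {t : o} (ht : Irreducible t)
    {ι : Type*} [Fintype ι] [DecidableEq ι] (b : Basis ι o C)
    (s : ℕ) (u : Fin s → C)
    (hu : ((Ideal.span {algebraMap o C t}).radical.restrictScalars o) ⊔
        Submodule.span o (Set.range u) = ⊤)
    (hd : ¬ t ^ (Fintype.card ι - s + 1) ∣ Algebra.discr o b) :
    IsIntegrallyClosedIn C L := by
  refine ⟨algebraMap_injective_of_free (o := o) L, fun {x} => ⟨fun hx => ?_, ?_⟩⟩
  · have hx' : IsIntegral o x := isIntegral_trans (R := o) (A := C) x hx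
    exact mem_range_of_isIntegral (K := K) ht b s u hu hd x hx'
  · rintro ⟨c, rfl⟩
    exact isIntegral_algebraMap

omit [Module.Free o C] [Module.Finite o C] in
/-- The discriminant is always divisible by `t ^ (n - s)` when `C / rad(tC)` is generated by
`s` elements (no hypothesis on `L`). -/
theorem pow_dvd_discr [Module.Free o C] [Module.Finite o C] {t : o} (ht : Irreducible t)
    {ι : Type*} [Fintype ι] [DecidableEq ι] (b : Basis ι o C)
    (s : ℕ) (u : Fin s → C)
    (hu : ((Ideal.span {algebraMap o C t}).radical.restrictScalars o) ⊔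
        Submodule.span o (Set.range u) = ⊤) :
    t ^ (Fintype.card ι - s) ∣ Algebra.discr o b := by
  classical
  by_cases hn : Fintype.card ι ≤ s
  · rw [Nat.sub_eq_zero_of_le hn, pow_zero]
    exact one_dvd _
  -- `t • b i₁` is a nonzero element of `rad(tC)`, not in `t 𝔪`... we use `z := t`-free variant:
  -- pick an element of the radical outside `𝔪 C`; it exists since `n > s`.
  set J : Ideal C := (Ideal.span {algebraMap o C t}).radical with hJ
  have hex : ∃ z ∈ J, z ∉ (IsLocalRing.maximalIdeal o • ⊤ : Submodule o C) := by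
    by_contra hcon
    -- then `C = 𝔪 C + span u`, so `C` is generated by `s` elements (Nakayama), contradiction
    have hle : (J.restrictScalars o) ≤ (IsLocalRing.maximalIdeal o • ⊤ : Submodule o C) := by
      intro z hz
      by_contra hz'
      exact hcon ⟨z, hz, hz'⟩
    have htop : (⊤ : Submodule o C) ≤
        Submodule.span o (Set.range u) ⊔ (IsLocalRing.maximalIdeal o • ⊤ : Submodule o C) :=
      calc (⊤ : Submodule o C) = J.restrictScalars o ⊔ Submodule.span o (Set.range u) := hu.symm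
        _ ≤ (IsLocalRing.maximalIdeal o • ⊤ : Submodule o C) ⊔ Submodule.span o (Set.range u) :=
            sup_le_sup_right hle _
        _ = _ := sup_comm _ _
    have hjac : IsLocalRing.maximalIdeal o ≤ Ideal.jacobson ⊥ :=
      (IsLocalRing.jacobson_eq_maximalIdeal ⊥ bot_ne_top).ge
    have hspan : (⊤ : Submodule o C) ≤ Submodule.span o (Set.range u) :=
      Submodule.le_of_le_smul_of_le_jacobson_bot (Module.Finite.fg_top) hjac htop
    have hcardle : Fintype.card ι ≤ s := by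
      have h1 : Module.finrank o C = Fintype.card ι := Module.finrank_eq_card_basis b
      have h2 := finrank_span_le_card (R := o) (Set.range u)
      rw [top_le_iff.mp hspan, finrank_top] at h2
      have h4 : (Set.range u).toFinset.card ≤ s := by
        calc (Set.range u).toFinset.card ≤ (Finset.univ : Finset (Fin s)).card := by
              rw [Set.toFinset_range]
              exact Finset.card_image_le
          _ = s := by simp
      omega
    exact hn hcardle
  obtain ⟨z, hzJ, hzt⟩ := hex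
  obtain ⟨ι', _, _, b', Z, i₀, hi₀Z, hbi₀, hbZ, hcard⟩ :=
    exists_adapted_basis (J.restrictScalars o) z hzJ hzt s u hu
  have hE1 : ∀ c ∈ J, t ∣ Algebra.trace o C c := fun c hc => by
    obtain ⟨k, c', hk⟩ := (mem_radical_span_iff c).mp hc
    exact dvd_trace_of_pow_mem ht c k ⟨c', hk⟩
  have hdet : t ^ Z.card ∣ Algebra.discr o b' := by
    rw [Algebra.discr_def]
    refine pow_card_dvd_det t _ Z ?_
    intro i hi j
    rw [Algebra.traceMatrix_apply, Algebra.traceForm_apply]
    exact hE1 _ (J.mul_mem_right _ (hbZ i hi))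
  have hcard' : Fintype.card ι = Fintype.card ι' := Fintype.card_congr (b.indexEquiv b')
  have hfin : t ^ (Fintype.card ι - s) ∣ Algebra.discr o b' :=
    (pow_dvd_pow t (by omega)).trans hdet
  exact dvd_discr_of_dvd_discr b b' _ hfin

end Main

end Fermat.Agent.S37.H278

end
-- ===== PACK-END S37/H278/Normal.lean

-- ===== PACK-BEGIN A2/H348/Glue.lean
section



/-!
# A2 / piece E (ALG_ss), part 3: the Kummer idempotent on a two-chart model with reduced fibre

Mathlib-only.  See `exists_kummer_idempotents` at the end of the file.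
-/

set_option autoImplicit false
set_option linter.unusedSectionVars false
set_option linter.style.haveILetI false

open Module

namespace Fermat.Agent.A2.H348

variable {A F F' : Type*} [CommRing A] [Field F] [CommRing F'] [Nontrivial F'] [Algebra A F]
  [Algebra F F'] [Algebra A F'] [IsScalarTower A F F']

/-- integrality over a smaller subalgebra implies integrality over a bigger one. -/
theorem isIntegral_of_le {B O : Subalgebra A F} (hBO : B ≤ O) {c : F'} (hc : IsIntegral B c) :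
    IsIntegral O c := by
  letI : Algebra B O := (Subalgebra.inclusion hBO).toRingHom.toAlgebra
  haveI : IsScalarTower B O F' := IsScalarTower.of_algebraMap_eq fun b => rfl
  exact hc.tower_top

/-- The data attached to the semilocal "Gauss ring" `V` (intersection of the valuation rings of the
generic points of the special fibre). -/
structure GaussData (ϖ : A) (m : ℕ) (u : F) (V : Subalgebra A F) : Prop where
  closed : ∀ f : F, IsIntegral V f → f ∈ V
  ϖ_inv_notMem : (algebraMap A F ϖ)⁻¹ ∉ V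
  rad : ∀ t ∈ V, (1 + algebraMap A F ϖ * t)⁻¹ ∈ V
  m_ne : (m : F) ≠ 0
  m_inv : ((m : F))⁻¹ ∈ (⊥ : Subalgebra A F)
  u_one : ∃ t ∈ V, u = 1 + algebraMap A F ϖ * t

/-- The data attached to one chart `B` of the model. -/
structure ChartData (ϖ : A) (m : ℕ) (u : F) (B V : Subalgebra A F) : Prop where
  le_V : B ≤ V
  closed : ∀ f : F, IsIntegral B f → f ∈ B
  /-- reducedness of the special fibre (`q`-expansion principle): `B ∩ ϖ V = ϖ B`. -/
  qep : ∀ b ∈ B, ∀ t ∈ V, b = algebraMap A F ϖ * t → t ∈ B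
  /-- local factorisation `u = ε h ^ m` at every closed point of the special fibre,
  `ε ∈ 1 + ϖ B_𝔪`, `h ∈ 1 + ϖ V`. -/
  loc : ∀ 𝔪 : Ideal B, 𝔪.IsMaximal → algebraMap A B ϖ ∈ 𝔪 →
    ∃ h : F, (∃ t ∈ V, h = 1 + algebraMap A F ϖ * t) ∧
      ∃ s a : B, s ∉ 𝔪 ∧ u * (s : F) = h ^ m * ((s : F) + algebraMap A F ϖ * (a : F))

section Gauss

variable {ϖ : A} {m : ℕ} {u : F} {V : Subalgebra A F} (hV : GaussData ϖ m u V)

include hV

theorem GaussData.ϖ_ne : algebraMap A F ϖ ≠ 0 := by
  intro h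
  apply hV.ϖ_inv_notMem
  rw [h, inv_zero]
  exact V.zero_mem

theorem GaussData.one_add_ne {t : F} (ht : t ∈ V) : 1 + algebraMap A F ϖ * t ≠ 0 := by
  intro h
  apply hV.ϖ_inv_notMem
  have h1 : algebraMap A F ϖ * (-t) = 1 := by linear_combination -h
  have h2 : (algebraMap A F ϖ)⁻¹ = -t := inv_eq_of_mul_eq_one_right h1
  rw [h2]
  exact V.neg_mem ht

theorem GaussData.m_inv_mem (O : Subalgebra A F) : ((m : F))⁻¹ ∈ O := by
  have := hV.m_inv
  rw [Algebra.mem_bot] at this
  obtain ⟨a, ha⟩ := this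
  rw [← ha]
  exact O.algebraMap_mem a

theorem GaussData.u_mem : u ∈ V := by
  obtain ⟨t, ht, rfl⟩ := hV.u_one
  exact V.add_mem V.one_mem (V.mul_mem (V.algebraMap_mem ϖ) ht)

theorem GaussData.u_ne : u ≠ 0 := by
  obtain ⟨t, ht, rfl⟩ := hV.u_one
  exact hV.one_add_ne ht

theorem GaussData.u_inv_mem : u⁻¹ ∈ V := by
  obtain ⟨t, ht, rfl⟩ := hV.u_one
  exact hV.rad t ht

end Gauss

section Chart

variable {ϖ : A} {m : ℕ} {u : F} {B V : Subalgebra A F}

theorem smul_eq_algebraMap_mul (B : Subalgebra A F) (b : B) (c : F') :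
    b • c = algebraMap F F' (b : F) * c := by
  rw [Algebra.smul_def]; rfl

variable (F) in
theorem algebraMap_eq_comp (a : A) : algebraMap A F' a = algebraMap F F' (algebraMap A F a) :=
  IsScalarTower.algebraMap_apply A F F' a

/-- local package at a closed point of the special fibre. -/
theorem ChartData.exists_local (hV : GaussData ϖ m u V) (hB : ChartData ϖ m u B V)
    {z : F'} (kb : KummerBasis m u z) (𝔪 : Ideal B) [h𝔪 : 𝔪.IsMaximal]
    (hϖ : algebraMap A B ϖ ∈ 𝔪) :
    ∃ (h ε : F) (ζ : F') (_ : KummerBasis m ε ζ),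
      h ≠ 0 ∧ z = ζ * algebraMap F F' h ∧ (∃ t ∈ V, h = 1 + algebraMap A F ϖ * t) ∧
      ε ∈ locAt B 𝔪 ∧ ((m : F) * ε)⁻¹ ∈ locAt B 𝔪 ∧ ε ∈ V ∧ ((m : F) * ε)⁻¹ ∈ V ∧
      (m : F) * ε ≠ 0 := by
  obtain ⟨h, ⟨t, ht, hh⟩, s, a, hs, hus⟩ := hB.loc 𝔪 h𝔪 hϖ
  have hh0 : h ≠ 0 := by rw [hh]; exact hV.one_add_ne ht
  have hs0 : (s : F) ≠ 0 := coe_ne_zero_of_notMem 𝔪 hs
  have hhm0 : h ^ m ≠ 0 := pow_ne_zero _ hh0
  have hhV : h ∈ V := by
    rw [hh]; exact V.add_mem V.one_mem (V.mul_mem (V.algebraMap_mem ϖ) ht)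
  have hhinvV : h⁻¹ ∈ V := by rw [hh]; exact hV.rad t ht
  set ε : F := u * (h ^ m)⁻¹ with hε
  have hεs : (s : F) * ε = (s : F) + algebraMap A F ϖ * (a : F) := by
    rw [hε, ← mul_assoc, mul_comm (s : F) u, hus]
    field_simp
  have hε1 : ε = 1 + algebraMap A F ϖ * ((a : F) * (s : F)⁻¹) := by
    have : ε = ((s : F) * ε) * (s : F)⁻¹ := by field_simp
    rw [this, hεs]
    field_simp
  have hεO : ε ∈ locAt B 𝔪 := by
    refine ⟨s, hs, ?_⟩
    rw [hεs]
    exact B.add_mem s.2 (B.mul_mem (B.algebraMap_mem ϖ) a.2)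
  have hasO : (a : F) * (s : F)⁻¹ ∈ locAt B 𝔪 :=
    (locAt B 𝔪).mul_mem (le_locAt 𝔪 a.2) (inv_mem_locAt 𝔪 hs)
  have hεinvO : ε⁻¹ ∈ locAt B 𝔪 := by
    rw [hε1]
    exact one_add_mul_inv_mem_locAt 𝔪 hϖ hasO
  have hεV : ε ∈ V := V.mul_mem hV.u_mem (by rw [← inv_pow]; exact V.pow_mem hhinvV m)
  have hεinvV : ε⁻¹ ∈ V := by
    rw [hε, mul_inv, inv_inv]
    exact V.mul_mem hV.u_inv_mem (V.pow_mem hhV m)
  have hε0 : ε ≠ 0 := mul_ne_zero hV.u_ne (inv_ne_zero hhm0)
  refine ⟨h, ε, z * algebraMap F F' h⁻¹, kb.scale h hh0, hh0, ?_, ⟨t, ht, hh⟩, hεO, ?_, hεV, ?_,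
    mul_ne_zero hV.m_ne hε0⟩
  · rw [mul_assoc, ← map_mul, inv_mul_cancel₀ hh0, map_one, mul_one]
  · rw [mul_inv]
    exact (locAt B 𝔪).mul_mem (hV.m_inv_mem _) hεinvO
  · rw [mul_inv]
    exact V.mul_mem (hV.m_inv_mem _) hεinvV

/-- **Unmixedness** of `ϖ` on the integral closure of a chart in the Kummer extension:
an element integral over `B` which is `ϖ` times an element integral over `V` is `ϖ` times an
element integral over `B`. -/
theorem ChartData.unmixed (hV : GaussData ϖ m u V) (hB : ChartData ϖ m u B V)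
    {z : F'} (kb : KummerBasis m u z) {c c' : F'} (hc : IsIntegral B c) (hc' : IsIntegral V c')
    (hcc : c = algebraMap A F' ϖ * c') : IsIntegral B c' := by
  have key : c' ∈ (integralClosure B F').toSubmodule := by
    refine mem_of_forall_maximal B _ c' fun 𝔪 h𝔪 => ?_
    by_cases hϖ : algebraMap A B ϖ ∈ 𝔪
    · obtain ⟨h, ε, ζ, kb', -, -, -, hεO, hmεO, hεV, hmεV, hmε0⟩ :=
        hB.exists_local hV kb 𝔪 hϖ
      have hcO : IsIntegral (locAt B 𝔪) c := isIntegral_of_le (le_locAt 𝔪) hc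
      have hci : ∀ i, kb'.basis.repr c i ∈ locAt B 𝔪 := fun i =>
        kb'.repr_mem_of_isIntegral _ (locAt_integrallyClosed hB.closed 𝔪) hεO hmεO hmε0 hcO i
      have hc'i : ∀ i, kb'.basis.repr c' i ∈ V := fun i =>
        kb'.repr_mem_of_isIntegral _ hV.closed hεV hmεV hmε0 hc' i
      have hrel : ∀ i, kb'.basis.repr c i = algebraMap A F ϖ * kb'.basis.repr c' i := by
        intro i
        have : c = (algebraMap A F ϖ) • c' := by
          rw [hcc, Algebra.smul_def, algebraMap_eq_comp F]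
        rw [this, map_smul, Finsupp.smul_apply, smul_eq_mul]
      have hc'O : ∀ i, kb'.basis.repr c' i ∈ locAt B 𝔪 := by
        intro i
        obtain ⟨s, hs, hsc⟩ := hci i
        refine ⟨s, hs, ?_⟩
        refine hB.qep _ hsc ((s : F) * kb'.basis.repr c' i)
          (V.mul_mem (hB.le_V s.2) (hc'i i)) ?_
        rw [hrel i]; ring
      have hc'int : IsIntegral (locAt B 𝔪) c' := kb'.isIntegral_of_repr_mem _ hεO hc'O
      obtain ⟨s, hs, hsint⟩ := exists_smul_isIntegral_of_locAt 𝔪 c' hc'int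
      refine ⟨s, hs, ?_⟩
      rw [smul_eq_algebraMap_mul]
      exact hsint
    · refine ⟨algebraMap A B ϖ, hϖ, ?_⟩
      rw [smul_eq_algebraMap_mul]
      have : algebraMap F F' ((algebraMap A B ϖ : B) : F) * c' = c := by
        rw [hcc]
        congr 1
        exact (algebraMap_eq_comp F ϖ).symm
      rw [this]
      exact hc
  exact key

end Chart

section Idem

/-- The Kummer idempotent `m⁻¹ ∑_{i<m} z^i` (the sheet `z ≡ 1`). -/
noncomputable def kummerE (F : Type*) [Field F] {F' : Type*} [CommRing F'] [Algebra F F']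
    (m : ℕ) (z : F') : F' :=
  algebraMap F F' ((m : F)⁻¹) * ∑ i ∈ Finset.range m, z ^ i

variable {ϖ : A} {m : ℕ} {u : F} {B V : Subalgebra A F}

theorem sum_pow_sub_one (z : F') (n : ℕ) :
    ∑ i ∈ Finset.range n, (z ^ i - 1) =
      (z - 1) * ∑ i ∈ Finset.range n, ∑ j ∈ Finset.range i, z ^ j := by
  rw [Finset.mul_sum]
  refine Finset.sum_congr rfl fun i _ => ?_
  rw [mul_geom_sum]

theorem GaussData.isIntegral_z (hV : GaussData ϖ m u V) {z : F'} (kb : KummerBasis m u z) :
    IsIntegral V z := kb.isIntegral_zeta V hV.u_mem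

theorem GaussData.isIntegral_kummerE (hV : GaussData ϖ m u V) {z : F'}
    (kb : KummerBasis m u z) : IsIntegral V (kummerE F m z) :=
  (isIntegral_algebraMap_of_mem' V (hV.m_inv_mem V)).mul
    (IsIntegral.sum _ fun i _ => (hV.isIntegral_z kb).pow i)

/-- the Kummer idempotent is idempotent modulo `ϖ`. -/
theorem GaussData.kummerE_idem (hV : GaussData ϖ m u V) {z : F'} (kb : KummerBasis m u z) :
    ∃ q : F', IsIntegral V q ∧
      kummerE F m z ^ 2 - kummerE F m z = algebraMap A F' ϖ * q := by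
  obtain ⟨t₀, ht₀, hu⟩ := hV.u_one
  set S : F' := ∑ i ∈ Finset.range m, z ^ i with hS
  set Q : F' := ∑ i ∈ Finset.range m, ∑ j ∈ Finset.range i, z ^ j with hQ
  have hz := hV.isIntegral_z kb
  have hQint : IsIntegral V Q :=
    IsIntegral.sum _ fun i _ => IsIntegral.sum _ fun j _ => hz.pow j
  have h1 : (z - 1) * S = algebraMap A F' ϖ * algebraMap F F' t₀ := by
    rw [hS, mul_geom_sum, kb.pow_eq, hu, map_add, map_one, map_mul, ← algebraMap_eq_comp F]
    ring
  have h2 : S - (m : F') = (z - 1) * Q := by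
    rw [hQ, ← sum_pow_sub_one, Finset.sum_sub_distrib, hS]
    simp
  have hm : algebraMap F F' ((m : F)⁻¹) * (m : F') = 1 := by
    rw [← map_natCast (algebraMap F F') m, ← map_mul, inv_mul_cancel₀ hV.m_ne, map_one]
  refine ⟨algebraMap F F' ((m : F)⁻¹) ^ 2 * (algebraMap F F' t₀ * Q), ?_, ?_⟩
  · exact ((isIntegral_algebraMap_of_mem' V (hV.m_inv_mem V)).pow 2).mul
      ((isIntegral_algebraMap_of_mem' V ht₀).mul hQint)
  · have h3 : kummerE F m z ^ 2 - kummerE F m z
        = algebraMap F F' ((m : F)⁻¹) ^ 2 * (S * (S - (m : F'))) := by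
      unfold kummerE
      rw [← hS]
      have : algebraMap F F' ((m : F)⁻¹) * S
          = algebraMap F F' ((m : F)⁻¹) ^ 2 * (S * (m : F')) := by
        rw [pow_two, mul_assoc, mul_comm S, ← mul_assoc (algebraMap F F' ((m : F)⁻¹)) (m : F') S,
          hm, one_mul]
      rw [mul_sub, mul_sub, ← this]
      ring
    rw [h3, h2, ← mul_assoc S, mul_comm S, h1]
    ring

/-- coordinates of the Kummer idempotent. -/
theorem kummerE_repr {z : F'} (kb : KummerBasis m u z) (i : Fin m) :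
    kb.basis.repr (kummerE F m z) i = (m : F)⁻¹ := by
  have : kummerE F m z = ∑ j : Fin m, algebraMap F F' ((fun _ => (m : F)⁻¹) j) * z ^ (j : ℕ) := by
    unfold kummerE
    rw [Finset.mul_sum, Fin.sum_univ_eq_sum_range (fun j => algebraMap F F' ((m : F)⁻¹) * z ^ j) m]
  rw [this, kb.repr_sum]

/-- coordinates of `1`. -/
theorem one_repr {z : F'} (kb : KummerBasis m u z) (i : Fin m) :
    kb.basis.repr (1 : F') i = if (i : ℕ) = 0 then 1 else 0 := by
  classical
  have : (1 : F') = ∑ j : Fin m,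
      algebraMap F F' ((fun j : Fin m => if (j : ℕ) = 0 then (1 : F) else 0) j) * z ^ (j : ℕ) := by
    rw [Finset.sum_eq_single (⟨0, kb.m_pos⟩ : Fin m)]
    · simp
    · intro j _ hj
      have : (j : ℕ) ≠ 0 := fun h => hj (Fin.ext h)
      simp [this]
    · intro h; exact absurd (Finset.mem_univ _) h
  conv_lhs => rw [this]
  rw [kb.repr_sum]

/-- **Gluing**: the Kummer idempotent is congruent modulo `ϖ` to an element integral over the
chart `B`. -/
theorem ChartData.exists_lift (hV : GaussData ϖ m u V) (hB : ChartData ϖ m u B V)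
    {z : F'} (kb : KummerBasis m u z) :
    ∃ e c : F', IsIntegral B e ∧ IsIntegral V c ∧ kummerE F m z = e + algebraMap A F' ϖ * c := by
  let M : Submodule B F' :=
    { carrier := {y | ∃ y₁ y₂ : F', IsIntegral B y₁ ∧ IsIntegral V y₂ ∧
        y = y₁ + algebraMap A F' ϖ * y₂}
      add_mem' := by
        rintro a b ⟨a₁, a₂, ha₁, ha₂, rfl⟩ ⟨b₁, b₂, hb₁, hb₂, rfl⟩
        exact ⟨a₁ + b₁, a₂ + b₂, ha₁.add hb₁, ha₂.add hb₂, by ring⟩
      zero_mem' := ⟨0, 0, isIntegral_zero, isIntegral_zero, by simp⟩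
      smul_mem' := by
        rintro b y ⟨y₁, y₂, hy₁, hy₂, rfl⟩
        refine ⟨algebraMap F F' (b : F) * y₁, algebraMap F F' (b : F) * y₂,
          (isIntegral_algebraMap_of_mem' B b.2).mul hy₁,
          (isIntegral_algebraMap_of_mem' V (hB.le_V b.2)).mul hy₂, ?_⟩
        rw [smul_eq_algebraMap_mul]
        ring }
  have key : kummerE F m z ∈ M := by
    refine mem_of_forall_maximal B M _ fun 𝔪 h𝔪 => ?_
    by_cases hϖ : algebraMap A B ϖ ∈ 𝔪
    · obtain ⟨h, ε, ζ, kb', hh0, hz, ⟨t, ht, hh⟩, hεO, hmεO, hεV, hmεV, hmε0⟩ :=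
        hB.exists_local hV kb 𝔪 hϖ
      have hhV : h ∈ V := by
        rw [hh]; exact V.add_mem V.one_mem (V.mul_mem (V.algebraMap_mem ϖ) ht)
      have hζO : IsIntegral (locAt B 𝔪) ζ := kb'.isIntegral_zeta _ hεO
      have hζV : IsIntegral V ζ := kb'.isIntegral_zeta _ hεV
      have heO : IsIntegral (locAt B 𝔪) (kummerE F m ζ) :=
        (isIntegral_algebraMap_of_mem' _ (hV.m_inv_mem _)).mul
          (IsIntegral.sum _ fun i _ => hζO.pow i)
      obtain ⟨s, hs, hsint⟩ := exists_smul_isIntegral_of_locAt 𝔪 _ heO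
      -- the difference
      set y₂ : F' := algebraMap F F' ((m : F)⁻¹) * ∑ i ∈ Finset.range m,
        ζ ^ i * (algebraMap F F' t * ∑ j ∈ Finset.range i, algebraMap F F' h ^ j) with hy₂
      have hy₂int : IsIntegral V y₂ :=
        (isIntegral_algebraMap_of_mem' V (hV.m_inv_mem V)).mul
          (IsIntegral.sum _ fun i _ => (hζV.pow i).mul
            ((isIntegral_algebraMap_of_mem' V ht).mul
              (IsIntegral.sum _ fun j _ => (isIntegral_algebraMap_of_mem' V hhV).pow j)))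
      have hdiff : kummerE F m z = kummerE F m ζ + algebraMap A F' ϖ * y₂ := by
        unfold kummerE
        rw [hy₂, ← mul_assoc (algebraMap A F' ϖ), mul_comm (algebraMap A F' ϖ),
          mul_assoc _ (algebraMap A F' ϖ), ← mul_add, Finset.mul_sum (a := algebraMap A F' ϖ),
          ← Finset.sum_add_distrib]
        congr 1
        refine Finset.sum_congr rfl fun i _ => ?_
        have hgeom : algebraMap F F' h ^ i - 1
            = algebraMap A F' ϖ * algebraMap F F' t *
              ∑ j ∈ Finset.range i, algebraMap F F' h ^ j := by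
          rw [← mul_geom_sum, hh, map_add, map_one, map_mul, ← algebraMap_eq_comp F]
          ring
        rw [hz, mul_pow]
        have : ζ ^ i * algebraMap F F' h ^ i
            = ζ ^ i + ζ ^ i * (algebraMap F F' h ^ i - 1) := by ring
        rw [this, hgeom]
        ring
      refine ⟨s, hs, ?_⟩
      refine ⟨algebraMap F F' (s : F) * kummerE F m ζ, algebraMap F F' (s : F) * y₂, hsint,
        (isIntegral_algebraMap_of_mem' V (hB.le_V s.2)).mul hy₂int, ?_⟩
      rw [smul_eq_algebraMap_mul, hdiff]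
      ring
    · refine ⟨algebraMap A B ϖ, hϖ, ?_⟩
      refine ⟨0, kummerE F m z, isIntegral_zero, hV.isIntegral_kummerE kb, ?_⟩
      rw [smul_eq_algebraMap_mul, zero_add]
      congr 1
      exact (algebraMap_eq_comp F ϖ).symm
  obtain ⟨e, c, he, hc, hec⟩ := key
  exact ⟨e, c, he, hc, hec⟩

end Idem

section Main

variable {ϖ : A} {m : ℕ} {u : F} {Bfin Binf Bmid V : Subalgebra A F}

/-- unmixedness on the middle chart `Bmid = Bfin[1/x]`. -/
theorem unmixed_mid (hV : GaussData ϖ m u V) (hfin : ChartData ϖ m u Bfin V)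
    (hfm : Bfin ≤ Bmid) (x : Bfin) (hx0 : (x : F) ≠ 0) (hxinv : ((x : F))⁻¹ ∈ Bmid)
    (hloc : ∀ f ∈ Bmid, ∃ K : ℕ, (x : F) ^ K * f ∈ Bfin)
    {z : F'} (kb : KummerBasis m u z) {c c' : F'} (hc : IsIntegral Bmid c)
    (hc' : IsIntegral V c') (hcc : c = algebraMap A F' ϖ * c') : IsIntegral Bmid c' := by
  obtain ⟨s, ⟨K, hK⟩, hs⟩ := exists_smul_isIntegral_of_subLoc Bfin Bmid hfm (Submonoid.powers x)
    (by
      rintro s ⟨K, rfl⟩
      simpa using pow_ne_zero K hx0)
    (by
      intro f hf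
      obtain ⟨K, hK⟩ := hloc f hf
      exact ⟨x ^ K, ⟨K, rfl⟩, by simpa using hK⟩)
    (by
      rintro s ⟨K, rfl⟩
      have : (((x ^ K : Bfin) : F))⁻¹ = ((x : F)⁻¹) ^ K := by simp
      rw [this]
      exact Bmid.pow_mem hxinv K) c hc
  have hsF : (s : F) = (x : F) ^ K := by rw [← hK]; simp
  have hs0 : (s : F) ≠ 0 := by rw [hsF]; exact pow_ne_zero K hx0
  have h1 : IsIntegral Bfin (algebraMap F F' (s : F) * c') := by
    refine hfin.unmixed hV kb hs ((isIntegral_algebraMap_of_mem' V (hfin.le_V s.2)).mul hc') ?_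
    rw [hcc]; ring
  have h2 : IsIntegral Bmid (algebraMap F F' (s : F) * c') := isIntegral_of_le hfm h1
  have hsinv : ((s : F))⁻¹ ∈ Bmid := by
    rw [hsF, ← inv_pow]; exact Bmid.pow_mem hxinv K
  have h3 : c' = algebraMap F F' ((s : F)⁻¹) * (algebraMap F F' (s : F) * c') := by
    rw [← mul_assoc, ← map_mul, inv_mul_cancel₀ hs0, map_one, one_mul]
  rw [h3]
  exact (isIntegral_algebraMap_of_mem' Bmid hsinv).mul h2

/-- **ALG_ss, lifting form.**  On a two-chart model `(Bfin, Binf, Bmid = Bfin[1/x])` with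
semilocal Gauss ring `V` (reduced special fibre: `B ∩ ϖ V = ϖ B`), let `u ∈ 1 + ϖ V` admit at every
closed point `𝔪` of the special fibre of each chart a factorisation `u = ε h ^ m` with
`ε ∈ 1 + ϖ B_𝔪`, `h ∈ 1 + ϖ V`.  Then in the Kummer algebra `F' = F[z]/(z ^ m - u)` the element
`E = m⁻¹ ∑ z^i` has lifts `e₁`, `e₂` (modulo `ϖ` times `V`-integral elements) which are integral
over the two charts, idempotent modulo `ϖ` in the integral closure of each chart, and congruent
modulo `ϖ` on the overlap. -/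
theorem exists_kummer_lifts (hV : GaussData ϖ m u V)
    (hfin : ChartData ϖ m u Bfin V) (hinf : ChartData ϖ m u Binf V)
    (hfm : Bfin ≤ Bmid) (him : Binf ≤ Bmid)
    (x : Bfin) (hx0 : (x : F) ≠ 0) (hxinv : ((x : F))⁻¹ ∈ Bmid)
    (hloc : ∀ f ∈ Bmid, ∃ K : ℕ, (x : F) ^ K * f ∈ Bfin)
    {z : F'} (kb : KummerBasis m u z) :
    ∃ e₁ e₂ c₁ : F', IsIntegral Bfin e₁ ∧ IsIntegral Binf e₂ ∧ IsIntegral V c₁ ∧
      kummerE F m z = e₁ + algebraMap A F' ϖ * c₁ ∧
      (∃ t : F', IsIntegral Bfin t ∧ e₁ ^ 2 - e₁ = algebraMap A F' ϖ * t) ∧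
      (∃ t : F', IsIntegral Binf t ∧ e₂ ^ 2 - e₂ = algebraMap A F' ϖ * t) ∧
      (∃ t : F', IsIntegral Bmid t ∧ e₁ - e₂ = algebraMap A F' ϖ * t) := by
  obtain ⟨e₁, c₁, he₁, hc₁, h1⟩ := hfin.exists_lift hV kb
  obtain ⟨e₂, c₂, he₂, hc₂, h2⟩ := hinf.exists_lift hV kb
  obtain ⟨q, hq, hidem⟩ := hV.kummerE_idem kb
  have hE := hV.isIntegral_kummerE kb
  have hϖV : IsIntegral V (algebraMap A F' ϖ) := by
    rw [algebraMap_eq_comp F]
    exact isIntegral_algebraMap_of_mem' V (V.algebraMap_mem ϖ)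
  set E : F' := kummerE F m z with hEdef
  -- idempotency on a chart
  have idem : ∀ (B : Subalgebra A F) (hB : ChartData ϖ m u B V) (e c : F'),
      IsIntegral B e → IsIntegral V c → E = e + algebraMap A F' ϖ * c →
      ∃ t : F', IsIntegral B t ∧ e ^ 2 - e = algebraMap A F' ϖ * t := by
    intro B hB e c he hc hEe
    have hrel : e ^ 2 - e = algebraMap A F' ϖ *
        (q - 2 * c * E + algebraMap A F' ϖ * c ^ 2 + c) := by
      have he' : e = E - algebraMap A F' ϖ * c := by rw [hEe]; ring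
      have : e ^ 2 - e = (E ^ 2 - E) + algebraMap A F' ϖ *
          (- 2 * c * E + algebraMap A F' ϖ * c ^ 2 + c) := by
        rw [he']; ring
      rw [this, hidem]; ring
    have hint : IsIntegral V (q - 2 * c * E + algebraMap A F' ϖ * c ^ 2 + c) := by
      refine IsIntegral.add (IsIntegral.add (IsIntegral.sub hq ?_) (hϖV.mul (hc.pow 2))) hc
      have h2int : IsIntegral V (2 : F') := by
        have : (2 : F') = algebraMap F F' (2 : F) := (map_ofNat (algebraMap F F') 2).symm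
        rw [this]
        exact isIntegral_algebraMap_of_mem' V (by
          have : (2 : F) = 1 + 1 := by norm_num
          rw [this]; exact V.add_mem V.one_mem V.one_mem)
      exact (h2int.mul hc).mul hE
    exact ⟨_, hB.unmixed hV kb ((he.pow 2).sub he) hint hrel, hrel⟩
  refine ⟨e₁, e₂, c₁, he₁, he₂, hc₁, h1, idem Bfin hfin e₁ c₁ he₁ hc₁ h1,
    idem Binf hinf e₂ c₂ he₂ hc₂ h2, ?_⟩
  -- compatibility
  have hrel : e₁ - e₂ = algebraMap A F' ϖ * (c₂ - c₁) := by
    have e1 : e₁ = E - algebraMap A F' ϖ * c₁ := by rw [h1]; ring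
    have e2 : e₂ = E - algebraMap A F' ϖ * c₂ := by rw [h2]; ring
    rw [e1, e2]; ring
  refine ⟨c₂ - c₁, ?_, hrel⟩
  exact unmixed_mid hV hfin hfm x hx0 hxinv hloc kb
    ((isIntegral_of_le hfm he₁).sub (isIntegral_of_le him he₂)) (hc₂.sub hc₁) hrel

/-- coordinates of `V`-integral elements lie in `V`. -/
theorem GaussData.repr_mem (hV : GaussData ϖ m u V) {z : F'} (kb : KummerBasis m u z)
    {y : F'} (hy : IsIntegral V y) (i : Fin m) : kb.basis.repr y i ∈ V := by
  have hmεV : ((m : F) * u)⁻¹ ∈ V := by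
    rw [mul_inv]; exact V.mul_mem (hV.m_inv_mem V) hV.u_inv_mem
  have hmε0 : (m : F) * u ≠ 0 := mul_ne_zero hV.m_ne hV.u_ne
  exact kb.repr_mem_of_isIntegral V hV.closed hV.u_mem hmεV hmε0 hy i

/-- `m⁻¹` is not divisible by `ϖ` in `V`. -/
theorem GaussData.m_inv_ne (hV : GaussData ϖ m u V) (v : F) (hv : v ∈ V) :
    (m : F)⁻¹ ≠ algebraMap A F ϖ * v := by
  intro h
  apply hV.ϖ_inv_notMem
  have h1 : algebraMap A F ϖ * ((m : F) * v) = 1 := by
    rw [mul_left_comm, ← h, mul_inv_cancel₀ hV.m_ne]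
  rw [inv_eq_of_mul_eq_one_right h1]
  exact V.mul_mem (by
    have : (m : F) = algebraMap A F (m : A) := by simp
    rw [this]; exact V.algebraMap_mem _) hv

theorem smul_repr {z : F'} (kb : KummerBasis m u z) (y : F') (i : Fin m) :
    kb.basis.repr (algebraMap A F' ϖ * y) i = algebraMap A F ϖ * kb.basis.repr y i := by
  have : algebraMap A F' ϖ * y = (algebraMap A F ϖ) • y := by
    rw [Algebra.smul_def, algebraMap_eq_comp F]
  rw [this, map_smul, Finsupp.smul_apply, smul_eq_mul]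

/-- **ALG_ss, idempotent form.**  In the situation of `exists_kummer_lifts`, if `m ≥ 2`, the pair
`(e₁, e₂)` is NOT congruent to `0` or `1` modulo `ϖ`.  (If `F'` is a field with the same constants,
a two-chart Čech connectedness lemma for `F'` then gives a contradiction.) -/
theorem exists_kummer_idempotents (hV : GaussData ϖ m u V)
    (hfin : ChartData ϖ m u Bfin V) (hinf : ChartData ϖ m u Binf V)
    (hfm : Bfin ≤ Bmid) (him : Binf ≤ Bmid)
    (x : Bfin) (hx0 : (x : F) ≠ 0) (hxinv : ((x : F))⁻¹ ∈ Bmid)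
    (hloc : ∀ f ∈ Bmid, ∃ K : ℕ, (x : F) ^ K * f ∈ Bfin)
    (hm2 : 2 ≤ m) {z : F'} (kb : KummerBasis m u z) :
    ∃ e₁ e₂ : F', IsIntegral Bfin e₁ ∧ IsIntegral Binf e₂ ∧
      (∃ t : F', IsIntegral Bfin t ∧ e₁ ^ 2 - e₁ = algebraMap A F' ϖ * t) ∧
      (∃ t : F', IsIntegral Binf t ∧ e₂ ^ 2 - e₂ = algebraMap A F' ϖ * t) ∧
      (∃ t : F', IsIntegral Bmid t ∧ e₁ - e₂ = algebraMap A F' ϖ * t) ∧
      (¬ ∃ t : F', IsIntegral Bfin t ∧ e₁ = algebraMap A F' ϖ * t) ∧
      (¬ ∃ t : F', IsIntegral Bfin t ∧ 1 - e₁ = algebraMap A F' ϖ * t) := by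
  obtain ⟨e₁, e₂, c₁, he₁, he₂, hc₁, h1, hi1, hi2, h12⟩ :=
    exists_kummer_lifts hV hfin hinf hfm him x hx0 hxinv hloc kb
  set E : F' := kummerE F m z with hEdef
  refine ⟨e₁, e₂, he₁, he₂, hi1, hi2, h12, ?_, ?_⟩
  · rintro ⟨t, ht, het⟩
    have hEt : E = algebraMap A F' ϖ * (t + c₁) := by rw [h1, het]; ring
    have hint : IsIntegral V (t + c₁) := (isIntegral_of_le hfin.le_V ht).add hc₁
    have h0 := kummerE_repr kb ⟨0, by omega⟩
    rw [← hEdef, hEt, smul_repr] at h0
    exact hV.m_inv_ne _ (hV.repr_mem kb hint _) h0.symm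
  · rintro ⟨t, ht, het⟩
    have hEt : 1 - E = algebraMap A F' ϖ * (t - c₁) := by
      have : 1 - E = (1 - e₁) - algebraMap A F' ϖ * c₁ := by rw [h1]; ring
      rw [this, het]; ring
    have hint : IsIntegral V (t - c₁) := (isIntegral_of_le hfin.le_V ht).sub hc₁
    have h0 : kb.basis.repr (1 - E) ⟨1, by omega⟩ = -(m : F)⁻¹ := by
      rw [map_sub, Finsupp.sub_apply, one_repr kb, hEdef, kummerE_repr kb]
      simp
    rw [hEt, smul_repr] at h0
    refine hV.m_inv_ne (-(kb.basis.repr (t - c₁) ⟨1, by omega⟩)) (V.neg_mem (hV.repr_mem kb hint _)) ?_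
    rw [mul_neg, h0, neg_neg]

end Main

end Fermat.Agent.A2.H348

end
-- ===== PACK-END A2/H348/Glue.lean

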