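import Mathlib
import Fermat.Prelude.Def_ModularCurve_PeriodHomPair
import Fermat.Prelude.Def_ModularCurve_X0ModL
import Fermat.Agent.Pack.S34.G0E3L3
import Fermat.Agent.Pack.S34.G0E3L1
import Fermat.Agent.Pack.S34.G0E3L0
import Fermat.Agent.Pack.S34.G0E1L2
import Fermat.Agent.Pack.S34.G0E3L2
import Fermat.Agent.Pack.S34.G0E1L0
import Fermat.Agent.Pack.S34.G0E1L1
import Fermat.Agent.Pack.S34.G0E4L1
import Fermat.Agent.Pack.S34.G0E4L2
import Fermat.Agent.Pack.S34.G0E2L3

-- ===== PACK-BEGIN S29/H149/HCoh.lean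
section


/-!
# S29 layer M, piece `HCoh` (helper149)

For a prime `ℓ ∤ N` the factorisation `α_i γ = γ'_i α_{π(i)}` (`heckeFac`) exists, is unique,
permutes the index set and satisfies the cocycle rule; hence the cohomological Hecke operator
`heckeCoh` preserves parabolic characters (`IsParHom`): additivity is the transfer computation,
vanishing on parabolic / finite-order elements is the cycle argument (the product of the `γ'_i`
over a cycle of `π` is conjugate to a power of `γ`), done over the orbits of `π` so that it is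
valid with torsion coefficients (`A = ZMod p`).

Main results: `isParHom_heckeCoh` (the piece), `HCoh_isFactorSystem`, `HCoh_heckeFac_spec`,
`HCoh_heckeFac_unique`, `HCoh_exists_factor`, `HCoh_factor_unique`, `HCoh_perm`,
`HCoh_transfer_mul`, `HCoh_transfer_eq_zero`, `HCoh_sum_eq_zero_of_orbits`.
-/

set_option autoImplicit false

namespace Fermat.Agent.S29.H149

open Fermat.Agent.S29
open scoped MatrixGroups

/-! ### A combinatorial lemma: sums over the orbits of a permutation -/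

theorem HCoh_sum_eq_zero_of_orbits {ι : Type*} [Fintype ι] [DecidableEq ι] {A : Type*}
    [AddCommMonoid A] (σ : Equiv.Perm ι) (f : ι → A)
    (h : ∀ i : ι, ∀ r : ℕ, 0 < r → (σ ^ r) i = i → ∑ k ∈ Finset.range r, f ((σ ^ k) i) = 0) :
    ∑ i, f i = 0 := by
  suffices H : ∀ n : ℕ, ∀ s : Finset ι, s.card = n → (∀ i ∈ s, σ i ∈ s) → ∑ i ∈ s, f i = 0 from
    H _ Finset.univ rfl (fun i _ => Finset.mem_univ _)
  intro n
  induction n using Nat.strong_induction_on with
  | _ n ih =>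
    intro s hs hinv
    rcases s.eq_empty_or_nonempty with rfl | ⟨i₀, hi₀⟩
    · simp
    · have hpow : ∀ k : ℕ, (σ ^ k) i₀ ∈ s := by
        intro k
        induction k with
        | zero => simpa using hi₀
        | succ k ihk =>
          rw [pow_succ', Equiv.Perm.mul_apply]
          exact hinv _ ihk
      have hper : i₀ ∈ Function.periodicPts σ := by
        refine Function.mk_mem_periodicPts (orderOf_pos σ) ?_
        show σ^[orderOf σ] i₀ = i₀
        rw [Equiv.Perm.iterate_eq_pow, pow_orderOf_eq_one]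
        rfl
      set r := Function.minimalPeriod σ i₀ with hr
      have hrpos : 0 < r := Function.minimalPeriod_pos_of_mem_periodicPts hper
      have hfix : (σ ^ r) i₀ = i₀ := by
        have := Function.isPeriodicPt_minimalPeriod σ i₀
        rw [← Equiv.Perm.iterate_eq_pow]
        exact this
      set O : Finset ι := (Finset.range r).image (fun k => (σ ^ k) i₀) with hO
      have hOs : O ⊆ s := by
        intro x hx
        rw [hO, Finset.mem_image] at hx
        obtain ⟨k, -, rfl⟩ := hx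
        exact hpow k
      have hOne : O.Nonempty :=
        ⟨i₀, Finset.mem_image.mpr ⟨0, Finset.mem_range.mpr hrpos, by simp⟩⟩
      have hsumO : ∑ i ∈ O, f i = 0 := by
        rw [hO, Finset.sum_image]
        · exact h i₀ r hrpos hfix
        · intro a ha b hb hab
          rw [Finset.coe_range, Set.mem_Iio] at ha hb
          simp only [← Equiv.Perm.iterate_eq_pow] at hab
          exact (Function.iterate_eq_iterate_iff_of_lt_minimalPeriod ha hb).mp hab
      have hinv' : ∀ i ∈ s \ O, σ i ∈ s \ O := by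
        intro i hi
        rw [Finset.mem_sdiff] at hi ⊢
        refine ⟨hinv i hi.1, fun hσ => hi.2 ?_⟩
        rw [hO, Finset.mem_image] at hσ
        obtain ⟨k, hk, hk'⟩ := hσ
        rw [Finset.mem_range] at hk
        have key : ∃ m, m < r ∧ (σ ^ (m + 1)) i₀ = σ i := by
          rcases Nat.eq_zero_or_pos k with rfl | hkpos
          · refine ⟨r - 1, by omega, ?_⟩
            rw [Nat.sub_add_cancel hrpos, hfix, ← hk']
            simp
          · refine ⟨k - 1, by omega, ?_⟩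
            rw [Nat.sub_add_cancel hkpos, hk']
        obtain ⟨m, hm, hm'⟩ := key
        rw [pow_succ', Equiv.Perm.mul_apply] at hm'
        have := σ.injective hm'
        rw [hO, Finset.mem_image]
        exact ⟨m, Finset.mem_range.mpr hm, this⟩
      have hcard : (s \ O).card < n := by
        rw [← hs]
        exact Finset.card_lt_card (Finset.sdiff_ssubset hOs hOne)
      have := ih _ hcard (s \ O) rfl hinv'
      rw [← Finset.sum_sdiff hOs, this, hsumO, add_zero]

/-! ### Abstract factor systems -/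

section abstract

variable {Γ : Type*} [Group Γ] {ι : Type*}

/-- A "factor system": `fac γ i = (π_γ i, γ'_i)` with the cocycle rule. -/
structure HCoh_IsFactorSystem (fac : Γ → ι → ι × Γ) : Prop where
  one : ∀ i, fac 1 i = (i, 1)
  mul : ∀ γ δ i, fac (γ * δ) i = ((fac δ (fac γ i).1).1, (fac γ i).2 * (fac δ (fac γ i).1).2)

variable {fac : Γ → ι → ι × Γ}

/-- The permutation of the index set attached to `γ`. -/
def HCoh_perm (hf : HCoh_IsFactorSystem fac) (γ : Γ) : Equiv.Perm ι where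
  toFun i := (fac γ i).1
  invFun i := (fac γ⁻¹ i).1
  left_inv i := by
    have := hf.mul γ γ⁻¹ i
    rw [mul_inv_cancel, hf.one] at this
    exact (congrArg Prod.fst this).symm
  right_inv i := by
    have := hf.mul γ⁻¹ γ i
    rw [inv_mul_cancel, hf.one] at this
    exact (congrArg Prod.fst this).symm

@[simp] theorem HCoh_perm_apply (hf : HCoh_IsFactorSystem fac) (γ : Γ) (i : ι) :
    HCoh_perm hf γ i = (fac γ i).1 := rfl

theorem HCoh_pow_fst (hf : HCoh_IsFactorSystem fac) (γ : Γ) (n : ℕ) (i : ι) :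
    (fac (γ ^ n) i).1 = (HCoh_perm hf γ ^ n) i := by
  induction n with
  | zero => simp [hf.one]
  | succ n ih =>
    rw [pow_succ, hf.mul, pow_succ', Equiv.Perm.mul_apply, ← ih]
    rfl

theorem HCoh_map_one {A : Type*} [AddCommGroup A] {c : Γ → A}
    (hc : ∀ γ δ, c (γ * δ) = c γ + c δ) : c 1 = 0 := by
  have := hc 1 1
  rw [mul_one] at this
  exact (add_eq_left.mp this.symm)

theorem HCoh_map_pow_snd (hf : HCoh_IsFactorSystem fac) {A : Type*} [AddCommGroup A] {c : Γ → A}
    (hc : ∀ γ δ, c (γ * δ) = c γ + c δ) (γ : Γ) (n : ℕ) (i : ι) :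
    c (fac (γ ^ n) i).2 = ∑ k ∈ Finset.range n, c (fac γ ((HCoh_perm hf γ ^ k) i)).2 := by
  induction n with
  | zero => simp [hf.one, HCoh_map_one hc]
  | succ n ih =>
    rw [pow_succ, hf.mul, Finset.sum_range_succ, ← ih, hc, HCoh_pow_fst hf]

theorem HCoh_pow_of_fixed (hf : HCoh_IsFactorSystem fac) (g : Γ) (i : ι) (hi : (fac g i).1 = i)
    (m : ℕ) : fac (g ^ m) i = (i, (fac g i).2 ^ m) := by
  induction m with
  | zero => simp [hf.one]
  | succ m ih =>
    rw [pow_succ, hf.mul, ih]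
    simp only
    rw [hi, pow_succ]

/-- Additivity of the transfer. -/
theorem HCoh_transfer_mul [Fintype ι] (hf : HCoh_IsFactorSystem fac) {A : Type*}
    [AddCommGroup A] {c : Γ → A} (hc : ∀ γ δ, c (γ * δ) = c γ + c δ) (γ δ : Γ) :
    ∑ i, c (fac (γ * δ) i).2 = ∑ i, c (fac γ i).2 + ∑ i, c (fac δ i).2 := by
  simp only [hf.mul, hc, Finset.sum_add_distrib]
  congr 1
  exact Equiv.sum_comp (HCoh_perm hf γ) (fun j => c (fac δ j).2)

/-- Vanishing of the transfer on a class `Z` of elements stable under "cycle products". -/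
theorem HCoh_transfer_eq_zero [Fintype ι] (hf : HCoh_IsFactorSystem fac) {A : Type*}
    [AddCommGroup A] {c : Γ → A} (hc : ∀ γ δ, c (γ * δ) = c γ + c δ) (Z : Γ → Prop)
    (hZ : ∀ γ, Z γ → c γ = 0)
    (hclosed : ∀ γ, Z γ → ∀ r : ℕ, 0 < r → ∀ i, (fac (γ ^ r) i).1 = i → Z (fac (γ ^ r) i).2)
    (γ : Γ) (hγ : Z γ) : ∑ i, c (fac γ i).2 = 0 := by
  classical
  refine HCoh_sum_eq_zero_of_orbits (HCoh_perm hf γ) (fun i => c (fac γ i).2) ?_
  intro i r hr hfix
  rw [← HCoh_map_pow_snd hf hc]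
  refine hZ _ (hclosed γ hγ r hr i ?_)
  rw [HCoh_pow_fst hf]
  exact hfix

/-- Cycle products of elements of finite order have finite order. -/
theorem HCoh_finite_order_closed (hf : HCoh_IsFactorSystem fac) (γ : Γ) (n : ℕ) (hn : γ ^ n = 1)
    (r : ℕ) (i : ι) (hi : (fac (γ ^ r) i).1 = i) : (fac (γ ^ r) i).2 ^ n = 1 := by
  have h1 := HCoh_pow_of_fixed hf (γ ^ r) i hi n
  rw [← pow_mul, mul_comm, pow_mul, hn, one_pow, hf.one] at h1
  exact (congrArg Prod.snd h1).symm

end abstract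

/-! ### Integer matrices of elements of `Γ₀(N)` -/

section mat

variable {N : ℕ}

theorem HCoh_mat_one : (1 : G0 N).mat = 1 := rfl

theorem HCoh_mat_mul (γ γ' : G0 N) : (γ * γ').mat = γ.mat * γ'.mat := rfl

theorem HCoh_mat_pow (γ : G0 N) (n : ℕ) : (γ ^ n).mat = γ.mat ^ n := by
  induction n with
  | zero => simp [HCoh_mat_one]
  | succ n ih => rw [pow_succ, pow_succ, HCoh_mat_mul, ih]

theorem HCoh_mat_det (γ : G0 N) : γ.mat.det = 1 := (γ : SL(2, ℤ)).2

theorem HCoh_mat_det' (γ : G0 N) : γ.mat 0 0 * γ.mat 1 1 - γ.mat 0 1 * γ.mat 1 0 = 1 := by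
  rw [← Matrix.det_fin_two, HCoh_mat_det]

theorem HCoh_mat_injective :
    Function.Injective (G0.mat : G0 N → Matrix (Fin 2) (Fin 2) ℤ) := by
  intro γ γ' h
  apply Subtype.ext
  apply Subtype.ext
  exact h

theorem HCoh_mat_dvd (γ : G0 N) : (N : ℤ) ∣ γ.mat 1 0 := by
  have := CongruenceSubgroup.Gamma0_mem.mp γ.2
  exact (ZMod.intCast_zmod_eq_zero_iff_dvd _ _).mp this

/-- Build an element of `Γ₀(N)` from an integer matrix. -/
def HCoh_mk (M : Matrix (Fin 2) (Fin 2) ℤ) (hdet : M.det = 1) (hN : (N : ℤ) ∣ M 1 0) : G0 N :=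
  ⟨⟨M, hdet⟩, CongruenceSubgroup.Gamma0_mem.mpr ((ZMod.intCast_zmod_eq_zero_iff_dvd _ _).mpr hN)⟩

@[simp] theorem HCoh_mk_mat (M : Matrix (Fin 2) (Fin 2) ℤ) (hdet : M.det = 1)
    (hN : (N : ℤ) ∣ M 1 0) : (HCoh_mk M hdet hN : G0 N).mat = M := rfl

theorem HCoh_heckeRep_det {ℓ : ℕ} (i : Option (Fin ℓ)) : (heckeRep ℓ i).det = ℓ := by
  cases i <;> simp [heckeRep, Matrix.det_fin_two]

/-- Existence of the factorisation `M = γ' * α_j` for `det M = ℓ`, `N ∣ M₁₀`. -/
theorem HCoh_exists_factor {ℓ : ℕ} (hℓ : ℓ.Prime) (hℓN : ¬ ℓ ∣ N)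
    (M : Matrix (Fin 2) (Fin 2) ℤ) (hdet : M.det = ℓ) (hN : (N : ℤ) ∣ M 1 0) :
    ∃ q : Option (Fin ℓ) × G0 N, M = q.2.mat * heckeRep ℓ q.1 := by
  have : Fact ℓ.Prime := ⟨hℓ⟩
  have hd : M 0 0 * M 1 1 - M 0 1 * M 1 0 = ℓ := by rw [← hdet, Matrix.det_fin_two]
  have hℓ0 : (ℓ : ℤ) ≠ 0 := by exact_mod_cast hℓ.ne_zero
  by_cases h0 : (ℓ : ℤ) ∣ M 0 0 ∧ (ℓ : ℤ) ∣ M 1 0
  · obtain ⟨⟨a', ha'⟩, ⟨c', hc'⟩⟩ := h0
    have hdet' : (!![a', M 0 1; c', M 1 1] : Matrix (Fin 2) (Fin 2) ℤ).det = 1 := by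
      rw [Matrix.det_fin_two_of]
      apply mul_left_cancel₀ hℓ0
      rw [ha', hc'] at hd
      linear_combination hd
    have hN' : (N : ℤ) ∣ (!![a', M 0 1; c', M 1 1] : Matrix (Fin 2) (Fin 2) ℤ) 1 0 := by
      have hcop : IsCoprime (N : ℤ) (ℓ : ℤ) := by
        rw [Int.isCoprime_iff_gcd_eq_one, Int.gcd_natCast_natCast]
        exact Nat.Coprime.symm ((Nat.Prime.coprime_iff_not_dvd hℓ).mpr hℓN)
      have : (N : ℤ) ∣ (ℓ : ℤ) * c' := hc' ▸ hN
      simpa using hcop.dvd_of_dvd_mul_left this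
    refine ⟨(none, HCoh_mk _ hdet' hN'), ?_⟩
    ext i j
    fin_cases i <;> fin_cases j <;>
      simp [heckeRep, Matrix.mul_apply, Fin.sum_univ_two, ha', hc', mul_comm]
  · -- find `k` with `M₀₁ ≡ k M₀₀`, `M₁₁ ≡ k M₁₀` mod `ℓ`
    have hdz : ((M 0 0 : ℤ) : ZMod ℓ) * (M 1 1 : ℤ) - (M 0 1 : ℤ) * (M 1 0 : ℤ) = 0 := by
      have := congrArg (Int.cast : ℤ → ZMod ℓ) hd
      push_cast at this
      rw [this]
      simp
    have hk : ∃ k : ZMod ℓ, ((M 0 1 : ℤ) : ZMod ℓ) = (M 0 0 : ℤ) * k ∧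
        ((M 1 1 : ℤ) : ZMod ℓ) = (M 1 0 : ℤ) * k := by
      by_cases ha : ((M 0 0 : ℤ) : ZMod ℓ) = 0
      · have hc : ((M 1 0 : ℤ) : ZMod ℓ) ≠ 0 := by
          intro hc
          exact h0 ⟨(ZMod.intCast_zmod_eq_zero_iff_dvd _ _).mp ha,
            (ZMod.intCast_zmod_eq_zero_iff_dvd _ _).mp hc⟩
        refine ⟨(M 1 1 : ℤ) / (M 1 0 : ℤ), ?_, ?_⟩
        · rw [ha, zero_mul]
          rw [ha, zero_mul, zero_sub, neg_eq_zero] at hdz
          exact (mul_eq_zero.mp hdz).resolve_right hc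
        · field_simp
      · refine ⟨(M 0 1 : ℤ) / (M 0 0 : ℤ), ?_, ?_⟩
        · field_simp
        · field_simp
          linear_combination hdz
    obtain ⟨k, hk1, hk2⟩ := hk
    obtain ⟨kv, hkv, h1, h2⟩ : ∃ kv : ℕ, kv < ℓ ∧ (ℓ : ℤ) ∣ M 0 1 - M 0 0 * (kv : ℤ) ∧
        (ℓ : ℤ) ∣ M 1 1 - M 1 0 * (kv : ℤ) := by
      refine ⟨k.val, ZMod.val_lt k, ?_, ?_⟩
      · rw [← ZMod.intCast_zmod_eq_zero_iff_dvd]
        push_cast
        rw [ZMod.natCast_zmod_val, hk1, sub_self]
      · rw [← ZMod.intCast_zmod_eq_zero_iff_dvd]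
        push_cast
        rw [ZMod.natCast_zmod_val, hk2, sub_self]
    obtain ⟨b', hb'⟩ := h1
    obtain ⟨d', hd'⟩ := h2
    have hdet' : (!![M 0 0, b'; M 1 0, d'] : Matrix (Fin 2) (Fin 2) ℤ).det = 1 := by
      rw [Matrix.det_fin_two_of]
      apply mul_left_cancel₀ hℓ0
      linear_combination hd - M 0 0 * hd' + M 1 0 * hb'
    have hN' : (N : ℤ) ∣ (!![M 0 0, b'; M 1 0, d'] : Matrix (Fin 2) (Fin 2) ℤ) 1 0 := by
      simpa using hN
    refine ⟨(some ⟨kv, hkv⟩, HCoh_mk _ hdet' hN'), ?_⟩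
    ext i j
    fin_cases i <;> fin_cases j
    · simp [heckeRep, Matrix.mul_apply, Fin.sum_univ_two]
    · simp [heckeRep, Matrix.mul_apply, Fin.sum_univ_two]
      linear_combination hb'
    · simp [heckeRep, Matrix.mul_apply, Fin.sum_univ_two]
    · simp [heckeRep, Matrix.mul_apply, Fin.sum_univ_two]
      linear_combination hd'

end mat

section unique

variable {N : ℕ}

theorem HCoh_mul_right_cancel {A : Matrix (Fin 2) (Fin 2) ℤ} (hA : A.det ≠ 0)
    {X Y : Matrix (Fin 2) (Fin 2) ℤ} (h : X * A = Y * A) : X = Y := by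
  have h2 := congrArg (· * A.adjugate) h
  simp only [Matrix.mul_assoc, Matrix.mul_adjugate, Matrix.mul_smul, Matrix.mul_one] at h2
  ext i j
  have h3 := congrFun (congrFun h2 i) j
  simp only [Matrix.smul_apply, smul_eq_mul] at h3
  exact mul_left_cancel₀ hA h3

/-- Uniqueness of the factorisation. -/
theorem HCoh_factor_unique {ℓ : ℕ} (hℓ : ℓ.Prime) {i j : Option (Fin ℓ)} {γ γ' : G0 N}
    (h : γ.mat * heckeRep ℓ i = γ'.mat * heckeRep ℓ j) : i = j ∧ γ = γ' := by
  have hℓ0 : (ℓ : ℤ) ≠ 0 := by exact_mod_cast hℓ.ne_zero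
  have hℓp : Prime (ℓ : ℤ) := Nat.prime_iff_prime_int.mp hℓ
  have hnd : ¬ (ℓ : ℤ) ∣ 1 := fun h1 => hℓp.not_isUnit (isUnit_of_dvd_one h1)
  have hγ := HCoh_mat_det' γ
  have hγ' := HCoh_mat_det' γ'
  have e00 := congrFun (congrFun h 0) 0
  have e01 := congrFun (congrFun h 0) 1
  have e10 := congrFun (congrFun h 1) 0
  have e11 := congrFun (congrFun h 1) 1
  have hij : i = j := by
    rcases i with _ | k <;> rcases j with _ | k'
    · rfl
    · exfalso
      simp [heckeRep, Matrix.mul_apply, Fin.sum_univ_two] at e00 e10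
      apply hnd
      refine ⟨γ.mat 0 0 * γ'.mat 1 1 - γ'.mat 0 1 * γ.mat 1 0, ?_⟩
      rw [← e00, ← e10] at hγ'
      linear_combination -hγ'
    · exfalso
      simp [heckeRep, Matrix.mul_apply, Fin.sum_univ_two] at e00 e10
      apply hnd
      refine ⟨γ'.mat 0 0 * γ.mat 1 1 - γ.mat 0 1 * γ'.mat 1 0, ?_⟩
      rw [e00, e10] at hγ
      linear_combination -hγ
    · simp [heckeRep, Matrix.mul_apply, Fin.sum_univ_two] at e00 e01 e10 e11
      by_contra hne
      have hkk : (k : ℕ) ≠ (k' : ℕ) := fun hk => hne (by rw [Fin.ext hk])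
      have hnd' : ¬ (ℓ : ℤ) ∣ ((k : ℕ) : ℤ) - ((k' : ℕ) : ℤ) := by
        intro hd
        have hlt : |((k : ℕ) : ℤ) - ((k' : ℕ) : ℤ)| < (ℓ : ℤ) := by
          have h1 := k.2
          have h2 := k'.2
          rw [abs_lt]
          constructor <;> omega
        have := Int.eq_zero_of_abs_lt_dvd hd hlt
        apply hkk
        omega
      have ha : (ℓ : ℤ) ∣ γ.mat 0 0 := by
        have : (ℓ : ℤ) ∣ γ.mat 0 0 * (((k : ℕ) : ℤ) - ((k' : ℕ) : ℤ)) := by
          refine ⟨γ'.mat 0 1 - γ.mat 0 1, ?_⟩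
          rw [← e00] at e01
          linear_combination e01
        exact (hℓp.dvd_or_dvd this).resolve_right hnd'
      have hc : (ℓ : ℤ) ∣ γ.mat 1 0 := by
        have : (ℓ : ℤ) ∣ γ.mat 1 0 * (((k : ℕ) : ℤ) - ((k' : ℕ) : ℤ)) := by
          refine ⟨γ'.mat 1 1 - γ.mat 1 1, ?_⟩
          rw [← e10] at e11
          linear_combination e11
        exact (hℓp.dvd_or_dvd this).resolve_right hnd'
      apply hnd
      rw [← hγ]
      exact dvd_sub (Dvd.dvd.mul_right ha _) (Dvd.dvd.mul_left hc _)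
  subst hij
  refine ⟨rfl, HCoh_mat_injective (HCoh_mul_right_cancel ?_ h)⟩
  rw [HCoh_heckeRep_det]
  exact hℓ0

theorem HCoh_exists_isHeckeFactor {ℓ : ℕ} (hℓ : ℓ.Prime) (hℓN : ¬ ℓ ∣ N) (γ : G0 N)
    (i : Option (Fin ℓ)) : ∃ q : Option (Fin ℓ) × G0 N, IsHeckeFactor ℓ γ i q := by
  refine HCoh_exists_factor hℓ hℓN (heckeRep ℓ i * γ.mat) ?_ ?_
  · rw [Matrix.det_mul, HCoh_heckeRep_det, HCoh_mat_det, mul_one]
  · have := HCoh_mat_dvd γ
    rcases i with _ | k
    · simpa [heckeRep, Matrix.mul_apply, Fin.sum_univ_two] using this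
    · simpa [heckeRep, Matrix.mul_apply, Fin.sum_univ_two] using Dvd.dvd.mul_left this _

theorem HCoh_heckeFac_spec {ℓ : ℕ} (hℓ : ℓ.Prime) (hℓN : ¬ ℓ ∣ N) (γ : G0 N)
    (i : Option (Fin ℓ)) : IsHeckeFactor ℓ γ i (heckeFac N ℓ γ i) := by
  unfold heckeFac
  rw [dif_pos (HCoh_exists_isHeckeFactor hℓ hℓN γ i)]
  exact Classical.choose_spec (HCoh_exists_isHeckeFactor hℓ hℓN γ i)

theorem HCoh_heckeFac_unique {ℓ : ℕ} (hℓ : ℓ.Prime) (hℓN : ¬ ℓ ∣ N) {γ : G0 N}
    {i : Option (Fin ℓ)} {q : Option (Fin ℓ) × G0 N} (h : IsHeckeFactor ℓ γ i q) :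
    heckeFac N ℓ γ i = q := by
  have h' := HCoh_heckeFac_spec hℓ hℓN γ i
  unfold IsHeckeFactor at h h'
  obtain ⟨h1, h2⟩ := HCoh_factor_unique hℓ (h'.symm.trans h)
  exact Prod.ext h1 h2

theorem HCoh_isFactorSystem {ℓ : ℕ} (hℓ : ℓ.Prime) (hℓN : ¬ ℓ ∣ N) :
    HCoh_IsFactorSystem (heckeFac N ℓ) where
  one i := by
    apply HCoh_heckeFac_unique hℓ hℓN
    unfold IsHeckeFactor
    simp [HCoh_mat_one]
  mul γ δ i := by
    apply HCoh_heckeFac_unique hℓ hℓN
    have h1 := HCoh_heckeFac_spec hℓ hℓN γ i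
    have h2 := HCoh_heckeFac_spec hℓ hℓN δ (heckeFac N ℓ γ i).1
    unfold IsHeckeFactor at h1 h2 ⊢
    simp only [HCoh_mat_mul]
    rw [← Matrix.mul_assoc, h1, Matrix.mul_assoc, h2, Matrix.mul_assoc]

end unique

/-! ### Traces -/

section trace

theorem HCoh_trace_eq_of_conj {A G D : Matrix (Fin 2) (Fin 2) ℤ} (hA : A.det ≠ 0)
    (h : A * G = D * A) : G.trace = D.trace := by
  have h1 : (A.adjugate * (A * G)).trace = A.det * G.trace := by
    rw [← Matrix.mul_assoc, Matrix.adjugate_mul, Matrix.smul_mul, Matrix.one_mul,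
      Matrix.trace_smul, smul_eq_mul]
  have h2 : (A.adjugate * (D * A)).trace = A.det * D.trace := by
    rw [Matrix.trace_mul_comm, Matrix.mul_assoc, Matrix.mul_adjugate, Matrix.mul_smul,
      Matrix.mul_one, Matrix.trace_smul, smul_eq_mul]
  rw [h, h2] at h1
  exact (mul_left_cancel₀ hA h1).symm

theorem HCoh_sq_eq {G : Matrix (Fin 2) (Fin 2) ℤ} (hdet : G.det = 1) :
    G * G = G.trace • G - 1 := by
  rw [Matrix.det_fin_two] at hdet
  ext i j
  rw [Matrix.sub_apply, Matrix.smul_apply, Matrix.trace_fin_two, Matrix.mul_apply,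
    Fin.sum_univ_two, smul_eq_mul]
  fin_cases i <;> fin_cases j
  · simp only [Fin.zero_eta, Fin.isValue, Matrix.one_apply_eq]
    linear_combination (-1 : ℤ) * hdet
  · simp only [Fin.zero_eta, Fin.isValue, Fin.mk_one, ne_eq, zero_ne_one, not_false_eq_true,
      Matrix.one_apply_ne, sub_zero]
    ring
  · simp only [Fin.mk_one, Fin.isValue, Fin.zero_eta, ne_eq, one_ne_zero, not_false_eq_true,
      Matrix.one_apply_ne, sub_zero]
    ring
  · simp only [Fin.mk_one, Fin.isValue, Matrix.one_apply_eq]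
    linear_combination (-1 : ℤ) * hdet

theorem HCoh_trace_pow_rec {G : Matrix (Fin 2) (Fin 2) ℤ} (hdet : G.det = 1) (n : ℕ) :
    (G ^ (n + 2)).trace = G.trace * (G ^ (n + 1)).trace - (G ^ n).trace := by
  have : G ^ (n + 2) = G.trace • G ^ (n + 1) - G ^ n := by
    rw [pow_add, pow_two, HCoh_sq_eq hdet, mul_sub, mul_one, Matrix.mul_smul, ← pow_succ]
  rw [this, Matrix.trace_sub, Matrix.trace_smul, smul_eq_mul]

theorem HCoh_trace_pow {G : Matrix (Fin 2) (Fin 2) ℤ} (hdet : G.det = 1)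
    (ht : G.trace = 2 ∨ G.trace = -2) (r : ℕ) :
    (G ^ r).trace = 2 ∨ (G ^ r).trace = -2 := by
  have key : ∀ n : ℕ, ((G ^ n).trace = 2 ∨ (G ^ n).trace = -2) ∧
      ((G ^ (n + 1)).trace = G.trace * (G ^ n).trace / 2) := by
    intro n
    induction n with
    | zero =>
      refine ⟨Or.inl (by simp), ?_⟩
      simp
    | succ n ih =>
      obtain ⟨ih1, ih2⟩ := ih
      have hrec := HCoh_trace_pow_rec hdet n
      rcases ht with ht | ht <;> rcases ih1 with ih1 | ih1 <;>
        rw [ht, ih1] at ih2 <;> norm_num at ih2 <;>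
        rw [ht, ih1, ih2] at hrec <;> norm_num at hrec <;>
        rw [ht, ih2, hrec] <;> norm_num
  exact (key r).1

end trace

/-! ### The piece `HCoh` -/

theorem isParHom_heckeCoh {N : ℕ} {ℓ : ℕ} (hℓ : ℓ.Prime) (hℓN : ¬ ℓ ∣ N) {A : Type*}
    [AddCommGroup A] {c : G0 N → A} (hc : IsParHom c) : IsParHom (heckeCoh N ℓ c) := by
  have hf := HCoh_isFactorSystem (N := N) hℓ hℓN
  have hℓ0 : (ℓ : ℤ) ≠ 0 := by exact_mod_cast hℓ.ne_zero
  refine ⟨?_, ?_, ?_⟩
  · intro γ γ'
    exact HCoh_transfer_mul hf hc.map_mul γ γ'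
  · intro γ hγ
    refine HCoh_transfer_eq_zero hf hc.map_mul
      (fun γ : G0 N => γ.mat.trace = 2 ∨ γ.mat.trace = -2) hc.parabolic ?_ γ hγ
    intro γ hγ r _ i hi
    have h1 := HCoh_heckeFac_spec hℓ hℓN (γ ^ r) i
    unfold IsHeckeFactor at h1
    rw [hi] at h1
    have h2 := HCoh_trace_eq_of_conj (by rw [HCoh_heckeRep_det]; exact hℓ0) h1
    show (heckeFac N ℓ (γ ^ r) i).2.mat.trace = 2 ∨ (heckeFac N ℓ (γ ^ r) i).2.mat.trace = -2
    rw [← h2, HCoh_mat_pow]
    exact HCoh_trace_pow (HCoh_mat_det γ) hγ r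
  · intro γ n hn hγn
    refine HCoh_transfer_eq_zero hf hc.map_mul
      (fun γ : G0 N => ∃ n : ℕ, 0 < n ∧ γ ^ n = 1) (fun γ ⟨n, hn, h⟩ => hc.elliptic γ n hn h)
      ?_ γ ⟨n, hn, hγn⟩
    rintro γ ⟨n, hn, hγn⟩ r _ i hi
    exact ⟨n, hn, HCoh_finite_order_closed hf γ n hγn r i hi⟩

end Fermat.Agent.S29.H149

end
-- ===== PACK-END S29/H149/HCoh.lean

-- ===== PACK-BEGIN S24/H117/RatFun.lean
section


/-!
# S24 / H117 — orders of rational functions of `t` at places over `t = 0`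

If `0 < v.ord t` then for every `e ∈ K⟮t⟯` the order `v.ord e` is `n * v.ord t` for an integer
`n` depending only on `e` (the `t`-adic order of `e`).
-/

set_option autoImplicit false

noncomputable section

open AlgebraicCurve Polynomial IntermediateField

namespace Fermat.Agent.S24.H117

variable {K F : Type*} [Field K] [Field F] [Algebra K F]

theorem aeval_mem_place (v : Place K F) {t : F} (hv : 0 ≤ v.ord t) (p : K[X]) :
    aeval t p ∈ v.toValuationSubring := by
  rw [aeval_eq_sum_range]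
  refine Subring.sum_mem v.toValuationSubring.toSubring (fun i _ => ?_)
  rw [Algebra.smul_def]
  exact mul_mem (v.algebraMap_mem' _) (pow_mem (mem_of_ord_nonneg v hv) _)

theorem ord_aeval_of_coeff_zero_ne (v : Place K F) {t : F} (hv : 0 < v.ord t) (q : K[X])
    (hq : q.coeff 0 ≠ 0) : v.ord (aeval t q) = 0 := by
  have hdecomp : aeval t q = algebraMap K F (q.coeff 0) + aeval t q.divX * t := by
    conv_lhs => rw [← divX_mul_X_add q]
    simp only [map_add, map_mul, aeval_X, aeval_C]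
    ring
  have hc : v.ord (algebraMap K F (q.coeff 0)) = 0 := _root_.Fermat.Agent.S24.H117.ord_algebraMap v _
  have hc0 : algebraMap K F (q.coeff 0) ≠ 0 := by simpa using hq
  rw [hdecomp]
  rcases eq_or_ne (aeval t q.divX * t) 0 with h0 | h0
  · rw [h0, add_zero, hc]
  · have ht0 : t ≠ 0 := right_ne_zero_of_mul h0
    have hd0 : aeval t q.divX ≠ 0 := left_ne_zero_of_mul h0
    have h1 : 0 ≤ v.ord (aeval t q.divX) :=
      ord_nonneg_of_mem v (aeval_mem_place v hv.le _)
    have h2 : 0 < v.ord (aeval t q.divX * t) := by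
      rw [v.ord_mul hd0 ht0]; omega
    rw [ord_add_eq_of_lt v (by rw [hc]; exact h2) hc0, hc]

theorem ord_aeval_eq (v : Place K F) {t : F} (hv : 0 < v.ord t) (p : K[X]) (hp : p ≠ 0) :
    aeval t p ≠ 0 ∧ v.ord (aeval t p) = (p.rootMultiplicity 0 : ℤ) * v.ord t := by
  obtain ⟨q, hpq, hq⟩ := exists_eq_pow_rootMultiplicity_mul_and_not_dvd p hp 0
  have hq0 : q.coeff 0 ≠ 0 := by
    intro h
    apply hq
    rw [C_0, sub_zero]
    exact X_dvd_iff.mpr h
  have ht0 : t ≠ 0 := ne_zero_of_ord_ne_zero v hv.ne'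
  have hqu := ord_aeval_of_coeff_zero_ne v hv q hq0
  have hqne : aeval t q ≠ 0 := by
    intro h
    have hdecomp : aeval t q = algebraMap K F (q.coeff 0) + aeval t q.divX * t := by
      conv_lhs => rw [← divX_mul_X_add q]
      simp only [map_add, map_mul, aeval_X, aeval_C]
      ring
    -- if `aeval t q = 0` then the constant term has positive order
    have hc0 : algebraMap K F (q.coeff 0) ≠ 0 := by simpa using hq0
    have hc : v.ord (algebraMap K F (q.coeff 0)) = 0 := _root_.Fermat.Agent.S24.H117.ord_algebraMap v _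
    have heq : algebraMap K F (q.coeff 0) = -(aeval t q.divX * t) := by
      rw [h] at hdecomp
      exact eq_neg_of_add_eq_zero_left hdecomp.symm
    have hne : aeval t q.divX * t ≠ 0 := by
      intro h0
      rw [h0, neg_zero] at heq
      exact hc0 heq
    have hd0 : aeval t q.divX ≠ 0 := left_ne_zero_of_mul hne
    have h1 : 0 ≤ v.ord (aeval t q.divX) :=
      ord_nonneg_of_mem v (aeval_mem_place v hv.le _)
    rw [heq, _root_.Fermat.Agent.S24.H117.ord_neg, v.ord_mul hd0 ht0] at hc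
    omega
  have hval : aeval t p = t ^ p.rootMultiplicity 0 * aeval t q := by
    conv_lhs => rw [hpq]
    simp only [C_0, sub_zero, map_mul, map_pow, aeval_X]
  refine ⟨?_, ?_⟩
  · rw [hval]
    exact mul_ne_zero (pow_ne_zero _ ht0) hqne
  · rw [hval, v.ord_mul (pow_ne_zero _ ht0) hqne, ord_pow, hqu, add_zero]

/-- The order at a place over `t = 0` of an element of `K(t)` is a fixed multiple of `ord t`. -/
theorem exists_ord_eq_mul_of_mem_adjoin {t e : F} (he : e ∈ K⟮t⟯) :
    ∃ n : ℤ, ∀ v : Place K F, 0 < v.ord t → v.ord e = n * v.ord t := by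
  obtain ⟨r, s, rfl⟩ := (mem_adjoin_simple_iff K e).mp he
  by_cases hr : r = 0
  · exact ⟨0, fun v _ => by simp [hr]⟩
  by_cases hs : s = 0
  · exact ⟨0, fun v _ => by simp [hs]⟩
  refine ⟨(r.rootMultiplicity 0 : ℤ) - s.rootMultiplicity 0, fun v hv => ?_⟩
  obtain ⟨hr1, hr2⟩ := ord_aeval_eq v hv r hr
  obtain ⟨hs1, hs2⟩ := ord_aeval_eq v hv s hs
  rw [ord_div v hr1 hs1, hr2, hs2]
  ring

/-- Transfer of integrality on `K(t)` between two places over `t = 0`. -/
theorem ord_nonneg_of_mem_adjoin {t e : F} (he : e ∈ K⟮t⟯) {v w : Place K F}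
    (hv : 0 < v.ord t) (hw : 0 < w.ord t) (h : 0 ≤ w.ord e) : 0 ≤ v.ord e := by
  obtain ⟨n, hn⟩ := exists_ord_eq_mul_of_mem_adjoin (K := K) he
  rw [hn w hw] at h
  rw [hn v hv]
  have hn0 : 0 ≤ n := by
    by_contra hneg
    push Not at hneg
    nlinarith
  positivity

end Fermat.Agent.S24.H117

end
end
-- ===== PACK-END S24/H117/RatFun.lean

-- ===== PACK-BEGIN S21/H381/Parabolic.lean
section




/-!
# S21, piece B: periods of cusp forms are parabolic homomorphisms
-/

set_option autoImplicit false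

namespace Fermat.Agent.S21.H381

open CongruenceSubgroup ModularCurve ModularCurve.Period Filter Topology Function Complex
open UpperHalfPlane hiding I
open scoped Manifold MatrixGroups ModularForm

/-- An element of `SL(2, ℤ)` with `trace ^ 2 = 4` is conjugate (as a Möbius transformation)
to a translation `T ^ n`. -/
theorem exists_conj_T_zpow (γ : SL(2, ℤ))
    (htr : ((γ : Matrix (Fin 2) (Fin 2) ℤ).trace) ^ 2 = 4) :
    ∃ δ : SL(2, ℤ), ∃ n : ℤ, ∀ w : ℍ, γ • (δ • w) = δ • (ModularGroup.T ^ n • w) := by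
  have hdet := γ.det_coe
  rw [Matrix.det_fin_two] at hdet
  rw [Matrix.trace_fin_two] at htr
  by_cases hc : γ 1 0 = 0
  · obtain ⟨n, hn⟩ := ModularGroup.exists_eq_T_zpow_of_c_eq_zero hc
    exact ⟨1, n, fun w => by simp [hn]⟩
  · set a := γ 0 0 with ha
    set b := γ 0 1 with hb
    set c := γ 1 0 with hc'
    set d := γ 1 1 with hd
    set g : ℤ := (Int.gcd (a - d) (2 * c) : ℤ) with hg
    have hg0 : g ≠ 0 := by
      rw [hg]
      intro h
      have h2 : Int.gcd (a - d) (2 * c) = 0 := by exact_mod_cast h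
      rw [Int.gcd_eq_zero_iff] at h2
      have : c = 0 := by omega
      exact hc this
    have hga : g ∣ (a - d) := Int.gcd_dvd_left _ _
    have hgc : g ∣ (2 * c) := Int.gcd_dvd_right _ _
    obtain ⟨p, hp⟩ := hga
    obtain ⟨q, hq⟩ := hgc
    have hcop : IsCoprime p q := by
      have hbez := Int.gcd_eq_gcd_ab (a - d) (2 * c)
      rw [← hg] at hbez
      refine ⟨Int.gcdA (a - d) (2 * c), Int.gcdB (a - d) (2 * c), ?_⟩
      have : g * (Int.gcdA (a - d) (2 * c) * p + Int.gcdB (a - d) (2 * c) * q) = g * 1 := by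
        have e1 : g * p = a - d := hp.symm
        have e2 : g * q = 2 * c := hq.symm
        calc g * (Int.gcdA (a - d) (2 * c) * p + Int.gcdB (a - d) (2 * c) * q)
            = (g * p) * Int.gcdA (a - d) (2 * c) + (g * q) * Int.gcdB (a - d) (2 * c) := by ring
          _ = g := by rw [e1, e2]; exact hbez.symm
          _ = g * 1 := (mul_one g).symm
      exact mul_left_cancel₀ hg0 this
    obtain ⟨δ, hδ0, hδ1⟩ := hcop.exists_SL2_col 0
    have hδdet := δ.det_coe
    rw [Matrix.det_fin_two, hδ0, hδ1] at hδdet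
    have hM : (δ⁻¹ * γ * δ) 1 0 = 0 := by
      have hQ : g ^ 2 * (c * p ^ 2 + (d - a) * p * q - b * q ^ 2) = 0 := by
        have e1 : g * p = a - d := hp.symm
        have e2 : g * q = 2 * c := hq.symm
        have : g ^ 2 * (c * p ^ 2 + (d - a) * p * q - b * q ^ 2)
            = c * (g * p) ^ 2 + (d - a) * (g * p) * (g * q) - b * (g * q) ^ 2 := by ring
        rw [this, e1, e2]
        have h4 : (a + d) ^ 2 = 4 := htr
        have h1 : a * d - b * c = 1 := hdet
        linear_combination (-c) * h4 + (4 * c) * h1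
      have hQ' : c * p ^ 2 + (d - a) * p * q - b * q ^ 2 = 0 := by
        rcases mul_eq_zero.mp hQ with h | h
        · exact absurd (pow_eq_zero_iff two_ne_zero |>.mp h) hg0
        · exact h
      simp only [Matrix.SpecialLinearGroup.coe_mul, Matrix.SpecialLinearGroup.coe_inv,
        Matrix.adjugate_fin_two, Matrix.mul_apply, Fin.sum_univ_two, Matrix.of_apply,
        Matrix.cons_val', Matrix.cons_val_zero, Matrix.cons_val_one, Matrix.empty_val',
        Matrix.cons_val_fin_one, hδ0, hδ1]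
      rw [← ha, ← hb, ← hc', ← hd]
      linear_combination hQ'
    obtain ⟨n, hn⟩ := ModularGroup.exists_eq_T_zpow_of_c_eq_zero hM
    refine ⟨δ, n, fun w => ?_⟩
    rw [← hn w, ← mul_smul, ← mul_smul]
    congr 1
    group

/-- Translation by `T ^ n` preserves the filter `atImInfty`. -/
theorem tendsto_T_zpow_smul_atImInfty (n : ℤ) :
    Tendsto (fun w : ℍ => ModularGroup.T ^ n • w) atImInfty atImInfty := by
  rw [atImInfty, tendsto_comap_iff]
  have : (UpperHalfPlane.im ∘ fun w : ℍ => ModularGroup.T ^ n • w) = UpperHalfPlane.im := by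
    funext w
    exact ModularGroup.im_T_zpow_smul w n
  rw [this]
  exact tendsto_comap

variable {N : ℕ} [NeZero N]

/-- **Piece B**: the period homomorphism of a cusp form kills every `γ` with `trace ^ 2 = 4`. -/
theorem periodMap_mem_parabolicHoms (f : CuspForm (Gamma0 N) 2) :
    periodMap N f ∈ parabolicHoms ℂ (Gamma0 N) ℂ := by
  rw [mem_parabolicHoms_iff]
  intro γ hγ
  obtain ⟨F, hF⟩ := exists_hasEquivariantPrimitive f
  obtain ⟨δ, n, hδ⟩ := exists_conj_T_zpow (γ : SL(2, ℤ)) hγ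
  obtain ⟨L, hL⟩ := hF.2.2.2 δ
  have hconst : ∀ w : ℍ, periodMap N f (Additive.ofMul γ)
      = F (δ • (ModularGroup.T ^ n • w)) - F (δ • w) := by
    intro w
    rw [periodMap_apply hF γ (δ • w), hδ w]
  have h1 : Tendsto (fun w : ℍ => F (δ • (ModularGroup.T ^ n • w)) - F (δ • w)) atImInfty
      (𝓝 (L - L)) :=
    (hL.comp (tendsto_T_zpow_smul_atImInfty n)).sub hL
  have h2 : Tendsto (fun w : ℍ => F (δ • (ModularGroup.T ^ n • w)) - F (δ • w)) atImInfty
      (𝓝 (periodMap N f (Additive.ofMul γ))) := by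
    have : (fun w : ℍ => F (δ • (ModularGroup.T ^ n • w)) - F (δ • w))
        = fun _ => periodMap N f (Additive.ofMul γ) := funext fun w => (hconst w).symm
    rw [this]; exact tendsto_const_nhds
  have := tendsto_nhds_unique h2 h1
  rw [sub_self] at this
  exact this

/-- **Piece B'**: the range of `periodHomPair` consists of parabolic homomorphisms. -/
theorem range_periodHomPair_le :
    LinearMap.range (periodHomPair N) ≤ parabolicHoms ℂ (Gamma0 N) ℂ := by
  rintro ψ ⟨⟨f, g⟩, rfl⟩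
  rw [periodHomPair_apply]
  have hf := periodMap_mem_parabolicHoms f
  have hg := periodMap_mem_parabolicHoms g
  exact Submodule.add_mem _
    (Submodule.add_mem _ hf (charInvolution_mem_parabolicHoms N ℂ ℂ hf))
    (Submodule.sub_mem _ hg (charInvolution_mem_parabolicHoms N ℂ ℂ hg))

end Fermat.Agent.S21.H381

end
-- ===== PACK-END S21/H381/Parabolic.lean

-- ===== PACK-BEGIN S29/Parts.lean
section
/-
S29 row — the REMAINING INPUTS of the final chain, as `Prop`s (row-lead helper269).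
`Fermat/Agent/S29/Main.lean` proves  `S29_of_parts : FrobeniusDivisionStatement → RawESStatement →
M4aStatement → M4bStatement → HCohStatement → (frozen S29 statement)`,  sorry-free.
A piece is DONE when it proves one of these `Prop`s verbatim.
-/


set_option autoImplicit false

noncomputable section

namespace Fermat.Agent.S29

open ModularCurve AlgebraicCurve

/-- EXTERNAL (rows S37/S18): RAW Eichler–Shimura on the `p`-torsion of the Prelude `JZero N`:
inertia at `ℓ ∤ N p` acts trivially and every Frobenius at `ℓ` satisfies `σ² - T_ℓ σ + ℓ = 0`,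
`T_ℓ = heckeOperatorBar N ℓ`.  (Implied by `M.ESStatement` of helper30, by `M.RedStatement`, and by
the frozen S37 together with `HeckeOperatorsCommuteBar`.) -/
def RawESStatement : Prop :=
  ∀ (N p : ℕ) [NeZero N], p.Prime → ∀ (ℓ : ℕ) (hℓ : ℓ.Prime), ¬ ℓ ∣ N * p →
    ∀ A : VQ, A.LiesOverPrime ℓ →
      (∀ σ ∈ A.inertiaSubgroupIn ℚ, ∀ x : JZero N, (p : ℤ) • x = 0 → σ • x = x) ∧
      (∀ σ : GQ, A.IsFrobeniusAt σ ℓ → ∀ x : JZero N, (p : ℤ) • x = 0 →
        σ • σ • x - heckeOperatorBar N ⟨ℓ, hℓ⟩ (σ • x) + (ℓ : ℤ) • x = 0)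

/-- PIECE `M4a` (eigensystem occurs in `Hom_par(Γ₀(N), 𝔽_p) ⊗ F`, in coordinates). -/
def M4aStatement : Prop :=
  ∀ (N : ℕ) [NeZero N] (g : CuspForm (CongruenceSubgroup.Gamma0 N) 2),
    g.IsNormalizedEigenform → ∀ (p : ℕ) [Fact p.Prime] (F : Type) [Field F] [IsAlgClosed F]
    [CharP F p] [Algebra (ZMod p) F] (ψ : integralClosure ℤ ℂ →+* F)
    (a : ℕ → integralClosure ℤ ℂ),
    (∀ ℓ : ℕ, ℓ.Prime → ¬ ℓ ∣ N →
      ((a ℓ : integralClosure ℤ ℂ) : ℂ) = ModularFormClass.qCoeff g ℓ) →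
    ∃ (n : ℕ) (w : Fin n → F) (c : Fin n → G0 N → ZMod p),
      LinearIndependent (ZMod p) w ∧ (∀ j, IsParHom (c j)) ∧ (∃ j, c j ≠ 0) ∧
      ∀ ℓ : ℕ, ℓ.Prime → ¬ ℓ ∣ N * p → ∀ γ : G0 N,
        ∑ j, w j * algebraMap (ZMod p) F (heckeCoh N ℓ (c j) γ)
          = ψ (a ℓ) * ∑ j, w j * algebraMap (ZMod p) F (c j γ)

/-- PIECE `M4b` (the Kummer map / bridge). -/
def M4bStatement : Prop :=
  ∀ (N : ℕ) [NeZero N] (p : ℕ) [Fact p.Prime],
    ∃ κ : (G0 N → ZMod p) → Jp N p,
      (∀ c c', IsParHom c → IsParHom c' → κ (c + c') = κ c + κ c') ∧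
      (∀ c, IsParHom c → κ c = 0 → c = 0) ∧
      (∀ ℓ : Nat.Primes, ¬ (ℓ : ℕ) ∣ N * p → ∀ c, IsParHom c →
        κ (heckeCoh N ℓ c) = heckeJp N p ℓ (κ c))

/-- PIECE `HCoh` (the cohomological Hecke operator preserves parabolic characters), for the
coefficient groups `ℤ/p`. -/
def HCohStatement : Prop :=
  ∀ (N : ℕ) [NeZero N] (p : ℕ) (ℓ : ℕ), ℓ.Prime → ¬ ℓ ∣ N →
    ∀ c : G0 N → ZMod p, IsParHom c → IsParHom (heckeCoh N ℓ c)

end Fermat.Agent.S29

end
end
-- ===== PACK-END S29/Parts.lean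

-- ===== PACK-BEGIN S28/H565/JExp.lean
section





/-!
# S28 analytic bridge, part 3: the `q`-expansions of `Δ`, `E₄` and `j` (helper565)

We identify the analytic `q`-expansions of Mathlib's `Δ`, `E₄` and of `j = E₄³/Δ` with the
formal series of the Prelude (`ModularCurve.etaProd`, `ModularCurve.eisenstein4`,
`ModularCurve.jqModC ℂ`).
-/

set_option autoImplicit false

noncomputable section

open UpperHalfPlane Complex Function Filter Topology ModularForm
open scoped Real PowerSeries.WithPiTopology MatrixGroups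

namespace Fermat.Agent.S28.H565

local notation "𝕢" => Periodic.qParam

/-- The Taylor series at `0` of a function on the unit disc, as a formal power series. -/
def taylorPS (G : ℂ → ℂ) : PowerSeries ℂ :=
  PowerSeries.mk fun n => (n.factorial : ℂ)⁻¹ * iteratedDeriv n G 0

theorem hasPExp_of_differentiableOn {G : ℂ → ℂ}
    (hG : DifferentiableOn ℂ G (Metric.ball 0 1)) {h : ℝ} (hh : 0 < h) :
    HasPExp h (fun τ => G (𝕢 h τ)) (taylorPS G) := by
  intro τ
  have hq : 𝕢 h τ ∈ Metric.ball (0 : ℂ) 1 := by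
    simpa using Periodic.norm_qParam_lt_one hh τ.im_pos
  have := hasSum_taylorSeries_on_ball hG hq
  refine this.congr_fun ?_ |>.mono_left le_rfl
  intro k
  simp only [taylorPS, PowerSeries.coeff_mk, sub_zero, smul_eq_mul]
  ring

theorem hasPExp_eulerFun {h : ℝ} (hh : 0 < h) :
    HasPExp h (fun τ => eulerFun (𝕢 h τ)) etaProdC :=
  fun τ => hasSum_etaProdC (Periodic.norm_qParam_lt_one hh τ.im_pos)

theorem eulerFun_zero : eulerFun 0 = 1 := by
  simp [eulerFun]

theorem eulerFun_ne_zero {q : ℂ} (hq : ‖q‖ < 1) : eulerFun q ≠ 0 := by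
  rcases eq_or_ne q 0 with rfl | hq0
  · rw [eulerFun_zero]; exact one_ne_zero
  · have him := Periodic.im_invQParam_pos_of_norm_lt_one one_pos hq hq0
    have h1 := ModularForm.eta_tprod_ne_zero (z := Periodic.invQParam 1 q) him
    have h2 : ∀ n : ℕ, ModularForm.eta_q n (Periodic.invQParam 1 q) = q ^ (n + 1) := by
      intro n
      rw [ModularForm.eta_q_eq_pow]
      congr 1
      have := Periodic.qParam_right_inv one_ne_zero hq0
      simpa [Periodic.qParam] using this
    simpa [eulerFun, h2] using h1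

theorem discriminant_eq_eulerFun (τ : ℍ) :
    ModularForm.discriminant τ = 𝕢 1 τ * eulerFun (𝕢 1 τ) ^ 24 := by
  rw [ModularForm.discriminant_eq_q_prod]
  have hq : ‖𝕢 1 (τ : ℂ)‖ < 1 := Periodic.norm_qParam_lt_one one_pos τ.im_pos
  have h2 : ∀ n : ℕ, ModularForm.eta_q n (τ : ℂ) = 𝕢 1 τ ^ (n + 1) := by
    intro n
    rw [ModularForm.eta_q_eq_pow]
    simp [Periodic.qParam]
  simp only [h2]
  rw [(ModularForm.multipliable_one_sub_pow hq).tprod_pow 24]
  rfl

/-- The complex version of the formal series `dedekindEtaUnit = etaProd ^ 24`. -/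
theorem map_dedekindEtaUnit :
    PowerSeries.map (Int.castRingHom ℂ) ModularCurve.dedekindEtaUnit = etaProdC ^ 24 := by
  rw [ModularCurve.dedekindEtaUnit, map_pow, etaProdC]

/-- The complex version of the formal inverse of `etaProd ^ 24`. -/
def etaInvC : PowerSeries ℂ := PowerSeries.map (Int.castRingHom ℂ) ModularCurve.dedekindEtaUnitInv

theorem etaProdC_pow_mul_etaInvC : etaProdC ^ 24 * etaInvC = 1 := by
  rw [← map_dedekindEtaUnit, etaInvC, ← map_mul, ModularCurve.dedekindEtaUnit_mul_inv, map_one]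

theorem hasPExp_eulerFun_pow_inv {h : ℝ} (hh : 0 < h) :
    HasPExp h (fun τ => (eulerFun (𝕢 h τ) ^ 24)⁻¹) etaInvC := by
  have hd : DifferentiableOn ℂ (fun q => (eulerFun q ^ 24)⁻¹) (Metric.ball 0 1) := by
    refine DifferentiableOn.inv (differentiableOn_eulerFun.pow 24) ?_
    intro q hq
    exact pow_ne_zero _ (eulerFun_ne_zero (by simpa using hq))
  have h1 := hasPExp_of_differentiableOn hd hh
  have h2 := (hasPExp_eulerFun hh).pow 24
  have h3 := h1.mul h2
  have h4 : HasPExp h 1 (taylorPS (fun q => (eulerFun q ^ 24)⁻¹) * etaProdC ^ 24) := by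
    refine h3.congr fun τ => ?_
    have hne : eulerFun (𝕢 h τ) ^ 24 ≠ 0 :=
      pow_ne_zero _ (eulerFun_ne_zero (Periodic.norm_qParam_lt_one hh τ.im_pos))
    simp only [Pi.mul_apply, Pi.pow_apply, Pi.one_apply]
    exact inv_mul_cancel₀ hne
  have h5 : HasPExp h 1 1 := by
    have := HasPExp.const (h := h) 1
    rwa [map_one] at this
  have h6 := h4.unique hh h5
  have h7 : taylorPS (fun q => (eulerFun q ^ 24)⁻¹) = etaInvC := by
    calc taylorPS (fun q => (eulerFun q ^ 24)⁻¹)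
        = taylorPS (fun q => (eulerFun q ^ 24)⁻¹) * (etaProdC ^ 24 * etaInvC) := by
          rw [etaProdC_pow_mul_etaInvC, mul_one]
      _ = etaInvC := by rw [← mul_assoc, h6, one_mul]
  rw [← h7]
  exact h1

/-- The formal `q`-expansion of `Δ`, over `ℂ`. -/
def deltaSeriesC : LaurentSeries ℂ :=
  HahnSeries.single (1 : ℤ) (1 : ℂ) * HahnSeries.ofPowerSeries ℤ ℂ (etaProdC ^ 24)

/-- The formal `q`-expansion of `Δ⁻¹`, over `ℂ`. -/
def deltaInvSeriesC : LaurentSeries ℂ :=
  HahnSeries.single (-1 : ℤ) (1 : ℂ) * HahnSeries.ofPowerSeries ℤ ℂ etaInvC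

theorem deltaSeriesC_mul_inv : deltaSeriesC * deltaInvSeriesC = 1 := by
  rw [deltaSeriesC, deltaInvSeriesC]
  have h1 : HahnSeries.single (1 : ℤ) (1 : ℂ) * HahnSeries.single (-1 : ℤ) (1 : ℂ) = 1 := by
    rw [HahnSeries.single_mul_single]
    simp
  have h2 : HahnSeries.ofPowerSeries ℤ ℂ (etaProdC ^ 24) * HahnSeries.ofPowerSeries ℤ ℂ etaInvC
      = 1 := by
    rw [← map_mul, etaProdC_pow_mul_etaInvC, map_one]
  calc HahnSeries.single (1 : ℤ) (1 : ℂ) * HahnSeries.ofPowerSeries ℤ ℂ (etaProdC ^ 24) *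
        (HahnSeries.single (-1 : ℤ) (1 : ℂ) * HahnSeries.ofPowerSeries ℤ ℂ etaInvC)
      = (HahnSeries.single (1 : ℤ) (1 : ℂ) * HahnSeries.single (-1 : ℤ) (1 : ℂ)) *
        (HahnSeries.ofPowerSeries ℤ ℂ (etaProdC ^ 24) * HahnSeries.ofPowerSeries ℤ ℂ etaInvC) := by
          ring
    _ = 1 := by rw [h1, h2, mul_one]

/-- **`q`-expansion of `Δ`**. -/
theorem hasTExp_discriminant : HasTExp 1 ModularForm.discriminant deltaSeriesC := by
  rw [deltaSeriesC, hasTExp_single_mul_iff]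
  refine ((hasPExp_eulerFun one_pos).pow 24).congr fun τ => ?_
  have hq : 𝕢 1 (τ : ℂ) ≠ 0 := Periodic.qParam_ne_zero _
  rw [discriminant_eq_eulerFun, zpow_neg, zpow_one]
  simp only [Pi.pow_apply]
  field_simp

/-- **`q`-expansion of `Δ⁻¹`**. -/
theorem hasTExp_discriminant_inv :
    HasTExp 1 (fun τ => (ModularForm.discriminant τ)⁻¹) deltaInvSeriesC := by
  rw [deltaInvSeriesC, hasTExp_single_mul_iff]
  refine (hasPExp_eulerFun_pow_inv one_pos).congr fun τ => ?_
  have hq : 𝕢 1 (τ : ℂ) ≠ 0 := Periodic.qParam_ne_zero _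
  rw [discriminant_eq_eulerFun, neg_neg, zpow_one, mul_inv]
  field_simp

/-- The complex version of the formal Eisenstein series `E₄`. -/
def e4C : PowerSeries ℂ := PowerSeries.map (Int.castRingHom ℂ) ModularCurve.eisenstein4

theorem qExpansion_E₄ : qExpansion 1 E₄ = e4C := by
  ext m
  rw [EisensteinSeries.E_qExpansion_coeff _ ⟨2, rfl⟩, e4C, PowerSeries.coeff_map,
    ModularCurve.eisenstein4, PowerSeries.coeff_mk]
  by_cases hm : m = 0
  · simp [hm]
  · rw [if_neg hm, if_neg hm, show bernoulli 4 = -1 / 30 by decide +kernel,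
      ArithmeticFunction.sigma_apply, eq_intCast]
    push_cast
    ring

/-- **`q`-expansion of `E₄`**. -/
theorem hasPExp_E₄ : HasPExp 1 E₄ e4C := by
  intro τ
  have := ModularForm.hasSum_qExpansion E₄ one_pos one_mem_strictPeriods_SL τ
  rwa [qExpansion_E₄] at this

/-- The analytic `j`-function `E₄³/Δ`. -/
def jFun (τ : ℍ) : ℂ := E₄ τ ^ 3 / ModularForm.discriminant τ

theorem jqModC_eq : ModularCurve.jqModC ℂ =
    HahnSeries.single (-1 : ℤ) (1 : ℂ) * HahnSeries.ofPowerSeries ℤ ℂ (e4C ^ 3 * etaInvC) := by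
  rw [ModularCurve.jqModC, ModularCurve.jNum, map_mul, map_pow, e4C, etaInvC]

/-- **`q`-expansion of `j`**: the analytic `j`-function has the Prelude's formal series
`jqModC ℂ` as its convergent Laurent expansion in `q = exp (2πiτ)`. -/
theorem hasTExp_jFun : HasTExp 1 jFun (ModularCurve.jqModC ℂ) := by
  rw [jqModC_eq, hasTExp_single_mul_iff]
  refine ((hasPExp_E₄.pow 3).mul (hasPExp_eulerFun_pow_inv one_pos)).congr fun τ => ?_
  have hq : 𝕢 1 (τ : ℂ) ≠ 0 := Periodic.qParam_ne_zero _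
  have hE : eulerFun (𝕢 1 τ) ^ 24 ≠ 0 :=
    pow_ne_zero _ (eulerFun_ne_zero (Periodic.norm_qParam_lt_one one_pos τ.im_pos))
  simp only [Pi.mul_apply, Pi.pow_apply, jFun]
  rw [discriminant_eq_eulerFun, neg_neg, zpow_one]
  field_simp

end Fermat.Agent.S28.H565

end
end
-- ===== PACK-END S28/H565/JExp.lean

-- ===== PACK-BEGIN S29/H751/PthRootUHP.lean
section


/-!
# Holomorphic `p`-th roots on `ℍ` and the character of a root (helper751, S29 / P5)

* `exists_pow_eq_UHP`: a holomorphic `F : ℍ → ℂ` all of whose orders of vanishing are finite and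
  divisible by `p` is a `p`-th power of a holomorphic function.
* `eq_of_pow_eq_UHP`: two holomorphic functions on `ℍ` with the same `p`-th power which agree
  at one point where they do not vanish are equal.
* `exists_character_of_pow_eq`: if `U ^ p` is weakly modular of weight `k * p` for a group `Γ`
  of matrices of positive determinant, then `U` is weakly modular of weight `k` with a character
  `χ : Γ →* ℂˣ`, `χ ^ p = 1`.
-/

set_option autoImplicit false

open Complex Set Metric Filter Topology UpperHalfPlane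
open scoped Manifold MatrixGroups

namespace Fermat.Agent.S29.H751

/-- `F ∘ ofComplex` agrees with `u` on the upper half plane when `F τ = u τ`. -/
theorem comp_ofComplex_eqOn (u : ℂ → ℂ) :
    EqOn ((fun τ : ℍ => u τ) ∘ ofComplex) u {z : ℂ | 0 < z.im} := by
  intro z hz
  simp only [Function.comp_apply, ofComplex_apply_of_im_pos hz]

/-- **Holomorphic `p`-th roots on `ℍ`.** -/
theorem exists_pow_eq_UHP {F : ℍ → ℂ} (hF : MDifferentiable 𝓘(ℂ) 𝓘(ℂ) F) (p : ℕ) (hp : p ≠ 0)
    (hord : ∀ τ : ℍ, ∃ m : ℕ, analyticOrderAt (F ∘ ofComplex) (τ : ℂ) = ((p * m : ℕ) : ℕ∞)) :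
    ∃ U : ℍ → ℂ, MDifferentiable 𝓘(ℂ) 𝓘(ℂ) U ∧ ∀ τ : ℍ, U τ ^ p = F τ := by
  obtain ⟨u, hu, hup⟩ := exists_pow_eq_on_upperHalfPlane (G := F ∘ ofComplex) p hp
    (UpperHalfPlane.mdifferentiable_iff.1 hF) (fun z hz => hord ⟨z, hz⟩)
  refine ⟨fun τ => u τ, ?_, fun τ => ?_⟩
  · rw [UpperHalfPlane.mdifferentiable_iff]
    exact hu.congr (comp_ofComplex_eqOn u)
  · have := hup τ τ.im_pos
    rw [this, comp_ofComplex]

/-- Uniqueness of normalised holomorphic `p`-th roots on `ℍ`. -/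
theorem eq_of_pow_eq_UHP {A B : ℍ → ℂ} (hA : MDifferentiable 𝓘(ℂ) 𝓘(ℂ) A)
    (hB : MDifferentiable 𝓘(ℂ) 𝓘(ℂ) B) {p : ℕ} (hp : p ≠ 0)
    (h : ∀ τ : ℍ, A τ ^ p = B τ ^ p) {τ₀ : ℍ} (h0 : A τ₀ = B τ₀) (hne : A τ₀ ≠ 0) : A = B := by
  have hHo : IsOpen {z : ℂ | 0 < z.im} := isOpen_lt continuous_const Complex.continuous_im
  have hHc : IsPreconnected {z : ℂ | 0 < z.im} :=
    (convex_halfSpace_im_gt 0).isPreconnected
  have key := eqOn_of_pow_eq_of_eq hHo hHc (UpperHalfPlane.mdifferentiable_iff.1 hA)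
    (UpperHalfPlane.mdifferentiable_iff.1 hB) hp
    (fun z hz => by
      simp only [Function.comp_apply]
      exact h _)
    (z₀ := (τ₀ : ℂ)) τ₀.im_pos
    (by simp only [Function.comp_apply, ofComplex_apply]; exact h0)
    (by simp only [Function.comp_apply, ofComplex_apply]; exact hne)
  funext τ
  have := key τ.im_pos
  simpa only [Function.comp_apply, ofComplex_apply] using this

/-- **The character of a `p`-th root.**  Let `Γ` be a group of real matrices of positive
determinant and `U` a holomorphic function on `ℍ`, not identically zero, such that `U ^ p`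
is weakly modular of weight `k * p` for `Γ`.  Then `U` is weakly modular of weight `k` up to
a character `χ` of `Γ` with `χ ^ p = 1`. -/
theorem exists_character_of_pow_eq (Γ : Subgroup (GL (Fin 2) ℝ))
    (hdet : ∀ γ ∈ Γ, 0 < (γ.det : ℝ)) (k : ℤ) {p : ℕ} (hp : p ≠ 0) {U : ℍ → ℂ}
    (hU : MDifferentiable 𝓘(ℂ) 𝓘(ℂ) U) (hne : ∃ τ, U τ ≠ 0)
    (hpow : ∀ γ ∈ Γ, ∀ τ : ℍ, U (γ • τ) ^ p = (denom γ τ ^ k * U τ) ^ p) :
    ∃ χ : Γ →* ℂˣ, (∀ γ, χ γ ^ p = 1) ∧
      ∀ (γ : Γ) (τ : ℍ), U ((γ : GL (Fin 2) ℝ) • τ) = χ γ * denom γ τ ^ k * U τ := by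
  classical
  obtain ⟨τ₁, hτ₁⟩ := hne
  -- for each `γ`, the constant
  have key : ∀ γ : Γ, ∃ ζ : ℂˣ, ζ ^ p = 1 ∧
      ∀ τ : ℍ, U ((γ : GL (Fin 2) ℝ) • τ) = ζ * denom γ τ ^ k * U τ := by
    intro γ
    have hB1 : denom (γ : GL (Fin 2) ℝ) τ₁ ^ k * U τ₁ ≠ 0 :=
      mul_ne_zero (zpow_ne_zero _ (denom_ne_zero _ _)) hτ₁
    have hA1 : U ((γ : GL (Fin 2) ℝ) • τ₁) ≠ 0 := by
      intro h0
      have := hpow γ γ.2 τ₁
      rw [h0, zero_pow hp] at this
      exact pow_ne_zero p hB1 this.symm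
    set z : ℂ := U ((γ : GL (Fin 2) ℝ) • τ₁) / (denom (γ : GL (Fin 2) ℝ) τ₁ ^ k * U τ₁) with hz
    have hz0 : z ≠ 0 := div_ne_zero hA1 hB1
    have hzp : z ^ p = 1 := by
      rw [hz, div_pow, hpow γ γ.2 τ₁, div_self (pow_ne_zero p hB1)]
    refine ⟨Units.mk0 z hz0, ?_, ?_⟩
    · ext
      simp [hzp]
    · intro τ
      have hAd : MDifferentiable 𝓘(ℂ) 𝓘(ℂ) (fun τ : ℍ => U ((γ : GL (Fin 2) ℝ) • τ)) :=
        hU.comp (UpperHalfPlane.mdifferentiable_smul (hdet γ γ.2))
      have hBd : MDifferentiable 𝓘(ℂ) 𝓘(ℂ)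
          (fun τ : ℍ => z * denom (γ : GL (Fin 2) ℝ) τ ^ k * U τ) := by
        have h1 : MDifferentiable 𝓘(ℂ) 𝓘(ℂ)
            (fun τ : ℍ => denom (γ : GL (Fin 2) ℝ) τ ^ k) := mdifferentiable_denom_zpow _ k
        have h2 : MDifferentiable 𝓘(ℂ) 𝓘(ℂ)
            (fun τ : ℍ => z * denom (γ : GL (Fin 2) ℝ) τ ^ k) :=
          (mdifferentiable_const (c := z)).mul h1
        exact h2.mul hU
      have := eq_of_pow_eq_UHP hAd hBd hp (fun τ => by
        rw [hpow γ γ.2 τ, mul_assoc, mul_pow z, hzp, one_mul]) (τ₀ := τ₁)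
        (by
          simp only [hz]
          field_simp) hA1
      simpa using congrFun this τ
  choose χ hχp hχ using key
  have hmul : ∀ γ δ : Γ, χ (γ * δ) = χ γ * χ δ := by
    intro γ δ
    have h1 := hχ (γ * δ) τ₁
    have h2 := hχ γ ((δ : GL (Fin 2) ℝ) • τ₁)
    have h3 := hχ δ τ₁
    have hco : denom ((γ : GL (Fin 2) ℝ) * δ) τ₁ =
        denom (γ : GL (Fin 2) ℝ) (((δ : GL (Fin 2) ℝ) • τ₁ : ℍ) : ℂ) *
          denom (δ : GL (Fin 2) ℝ) τ₁ := by
      rw [denom_cocycle _ _ τ₁.im_ne_zero, coe_smul_of_det_pos (hdet δ δ.2)]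
    have hsm : ((γ * δ : Γ) : GL (Fin 2) ℝ) • τ₁ =
        (γ : GL (Fin 2) ℝ) • ((δ : GL (Fin 2) ℝ) • τ₁) := by
      rw [Subgroup.coe_mul, mul_smul]
    rw [hsm, h2, h3, Subgroup.coe_mul, hco, mul_zpow] at h1
    have hd1 := zpow_ne_zero k (denom_ne_zero (γ : GL (Fin 2) ℝ) ((δ : GL (Fin 2) ℝ) • τ₁))
    have hd2 := zpow_ne_zero k (denom_ne_zero (δ : GL (Fin 2) ℝ) τ₁)
    have h4 : ((χ (γ * δ) : ℂˣ) : ℂ) = (χ γ : ℂ) * (χ δ : ℂ) := by
      have h5 : (χ γ : ℂ) * (χ δ : ℂ) *
          (denom (γ : GL (Fin 2) ℝ) (((δ : GL (Fin 2) ℝ) • τ₁ : ℍ) : ℂ) ^ k *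
            denom (δ : GL (Fin 2) ℝ) τ₁ ^ k * U τ₁) =
          (χ (γ * δ) : ℂ) *
          (denom (γ : GL (Fin 2) ℝ) (((δ : GL (Fin 2) ℝ) • τ₁ : ℍ) : ℂ) ^ k *
            denom (δ : GL (Fin 2) ℝ) τ₁ ^ k * U τ₁) := by
        linear_combination h1
      exact (mul_right_cancel₀ (mul_ne_zero (mul_ne_zero hd1 hd2) hτ₁) h5).symm
    exact Units.ext (by simpa using h4)
  exact ⟨MonoidHom.mk' χ hmul, fun γ => hχp γ, fun γ τ => hχ γ τ⟩

end Fermat.Agent.S29.H751

end
-- ===== PACK-END S29/H751/PthRootUHP.lean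

-- ===== PACK-BEGIN S28/H626/Pair.lean
section
/-
S28 helper (helper626): the gcd lemma for the generators `j(q^d)`:
`j(q^{pre}) ∈ k(j(q^{re}), j(q^{pe}))` for distinct primes `p ≠ r` (invertible in `k`).
-/




set_option autoImplicit false

noncomputable section

open ModularCurve HahnSeries Polynomial

namespace Fermat.Agent.S28.H626

section Relations

variable (k : Type*) [Field k]

/-- `j(q^d) ∈ k((q))`. -/
abbrev jd (d : ℕ) [NeZero d] : LaurentSeries k := qExpand k d (jqModC k)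

theorem jd_congr {d d' : ℕ} [NeZero d] [NeZero d'] (h : d = d') : jd k d = jd k d' := by
  subst h; rfl

/-- the ring hom `ℤ((q)) → k((q))`, `q ↦ q^e`. -/
def levelHom (e : ℕ) [NeZero e] : LaurentSeries ℤ →+* LaurentSeries k :=
  (qExpand k e).comp (coeffMap (Int.castRingHom k))

theorem levelHom_j (e : ℕ) [NeZero e] : levelHom k e (jqModC ℤ) = jd k e := by
  simp only [levelHom, RingHom.comp_apply, coeffMap_jqModC]

theorem levelHom_jp (e : ℕ) [NeZero e] (p : ℕ) [NeZero p] :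
    levelHom k e (qExpand ℤ p (jqModC ℤ)) = jd k (e * p) := by
  simp only [levelHom, RingHom.comp_apply, coeffMap_qExpand, coeffMap_jqModC, qExpand_qExpand]

variable {k}

/-- `Φ_p(j(q^e), j(q^{ep})) = 0`. -/
theorem ev2_jd_up {p : ℕ} [NeZero p] {Φ : Polynomial (Polynomial ℤ)} (hΦ : IsModPoly p Φ)
    (e : ℕ) [NeZero e] : ev2 Φ (jd k e) (jd k (e * p)) = 0 := by
  have h := congrArg (levelHom k e) hΦ.eval_jp
  rwa [map_ev2, levelHom_j, levelHom_jp, map_zero] at h

/-- `Φ_p(j(q^{ep}), j(q^e)) = 0`. -/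
theorem ev2_jd_down {p : ℕ} [NeZero p] {Φ : Polynomial (Polynomial ℤ)} (hΦ : IsModPoly p Φ)
    (e : ℕ) [NeZero e] : ev2 Φ (jd k (e * p)) (jd k e) = 0 := by
  have h := congrArg (levelHom k e) hΦ.eval_j
  rwa [map_ev2, levelHom_j, levelHom_jp, map_zero] at h

theorem jd_ne_of_ne {d d' : ℕ} [NeZero d] [NeZero d'] (h : d ≠ d') : jd k d ≠ jd k d' := by
  have h1 : jd k d = jTw k 1 d := (jTw_one k d).symm
  have h2 : jd k d' = jTw k 1 d' := (jTw_one k d').symm
  rw [h1, h2]
  exact jTw_ne_of_ne h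

end Relations

section Embedding

variable (k : Type*) [Field k] (Ω : Type*) [Field Ω] [Algebra k Ω]

/-- The embedding `k((q)) → Ω((t))`, `q ↦ t^m`. -/
def embHom (m : ℕ) [NeZero m] : LaurentSeries k →+* LaurentSeries Ω :=
  (qExpand Ω m).comp (coeffMap (algebraMap k Ω))

theorem embHom_jd (m : ℕ) [NeZero m] (d : ℕ) [NeZero d] :
    embHom k Ω m (jd k d) = jTw Ω 1 (m * d) := by
  simp only [embHom, RingHom.comp_apply, jd, coeffMap_qExpand, coeffMap_jqModC, qExpand_qExpand,
    jTw_one]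

end Embedding

section Pair

variable {k : Type*} [Field k]

theorem exists_primitiveRoot_unit (Ω : Type*) [Field Ω] (p : ℕ) [HasEnoughRootsOfUnity Ω p]
    (hp : p ≠ 0) : ∃ ζ : Ωˣ, IsPrimitiveRoot ζ p := by
  obtain ⟨ζ, hζ⟩ := HasEnoughRootsOfUnity.exists_primitiveRoot Ω p
  obtain ⟨u, hu⟩ := hζ.isUnit hp
  refine ⟨u, ?_⟩
  rw [← IsPrimitiveRoot.coe_units_iff, hu]
  exact hζ

/-- **The gcd lemma.** For distinct primes `p ≠ r` invertible in `k`,
`j(q^{pre})` lies in every subfield of `k((q))` containing `j(q^{re})` and `j(q^{pe})`. -/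
theorem jd_mem_of_pair {p r : ℕ} [NeZero p] [NeZero r] (hp : p.Prime) (hr : r.Prime)
    (hpr : p ≠ r) [NeZero (p : k)] [NeZero (r : k)]
    {Φp Φr : Polynomial (Polynomial ℤ)} (hΦp : IsModPoly p Φp) (hΦr : IsModPoly r Φr)
    (e : ℕ) [NeZero e] (E : IntermediateField k (LaurentSeries k))
    (h1 : jd k (r * e) ∈ E) (h2 : jd k (p * e) ∈ E) : jd k (p * r * e) ∈ E := by
  classical
  obtain ⟨ζp, hζp⟩ := exists_primitiveRoot_unit (AlgebraicClosure k) p hp.ne_zero
  obtain ⟨ζr, hζr⟩ := exists_primitiveRoot_unit (AlgebraicClosure k) r hr.ne_zero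
  have hp0 : 0 < p := hp.pos
  have hr0 : 0 < r := hr.pos
  have he0 : 0 < e := Nat.pos_of_ne_zero (NeZero.ne e)
  -- the two polynomials over `E`
  set y1 : E := ⟨jd k (r * e), h1⟩ with hy1
  set y2 : E := ⟨jd k (p * e), h2⟩ with hy2
  set ι : LaurentSeries k →+* LaurentSeries (AlgebraicClosure k) :=
    embHom k (AlgebraicClosure k) (p * r) with hι
  have hP : ((spec Φp y1).map (ι.comp (algebraMap E (LaurentSeries k)))) =
      spec Φp (jTw (AlgebraicClosure k) 1 (r * r * e * p)) := by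
    rw [map_spec]
    congr 1
    show ι (jd k (r * e)) = _
    rw [hι, embHom_jd]
    exact jTw_congr _ (by ring)
  have hQ : ((spec Φr y2).map (ι.comp (algebraMap E (LaurentSeries k)))) =
      spec Φr (jTw (AlgebraicClosure k) 1 (p * p * e * r)) := by
    rw [map_spec]
    congr 1
    show ι (jd k (p * e)) = _
    rw [hι, embHom_jd]
    exact jTw_congr _ (by ring)
  have hx : ι (jd k (p * r * e)) = jTw (AlgebraicClosure k) 1 (r * r * e * p * p) := by
    rw [hι, embHom_jd]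
    exact jTw_congr _ (by ring)
  have hmem : jd k (p * r * e) ∈ (algebraMap E (LaurentSeries k)).range := by
    refine mem_range_of_unique_common_root ι (jd k (p * r * e)) (spec Φp y1) (spec Φr y2)
      (spec_monic hΦp.monic y1).ne_zero ?_ ?_ ?_ ?_ ?_
    · -- root of P
      rw [Polynomial.aeval_def, Polynomial.eval₂_eq_eval_map, map_spec, eval_spec]
      show ev2 Φp (jd k (r * e)) (jd k (p * r * e)) = 0
      rw [jd_congr k (show p * r * e = r * e * p by ring)]
      exact ev2_jd_up hΦp (r * e)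
    · rw [Polynomial.aeval_def, Polynomial.eval₂_eq_eval_map, map_spec, eval_spec]
      show ev2 Φr (jd k (p * e)) (jd k (p * r * e)) = 0
      rw [jd_congr k (show p * r * e = p * e * r by ring)]
      exact ev2_jd_up hΦr (p * e)
    · rw [hP]
      exact splits_spec hp.one_lt hΦp hζp (r * r * e)
    · rw [hP, roots_spec hp.one_lt hΦp hζp (r * r * e)]
      exact rootMultiset_nodup hp.one_lt hζp _
    · intro β hβ hQβ
      rw [hP, roots_spec hp.one_lt hΦp hζp (r * r * e)] at hβ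
      rw [hx]
      rcases mem_rootMultiset.mp hβ with hβ1 | ⟨b, -, hβ1⟩
      · exact hβ1
      · exfalso
        have hβroot : β ∈ (spec Φr (jTw (AlgebraicClosure k) 1 (p * p * e * r))).roots := by
          rw [Polynomial.mem_roots (spec_monic hΦr.monic _).ne_zero, Polynomial.IsRoot, ← hQ]
          exact hQβ
        rw [roots_spec hr.one_lt hΦr hζr (p * p * e)] at hβroot
        have hne : r * r ≠ p * p := by
          intro h
          exact hpr ((Nat.mul_self_inj.mp h).symm)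
        rcases mem_rootMultiset.mp hβroot with hβ2 | ⟨c, -, hβ2⟩
        · have h3 := (jTw_inj (hβ1.symm.trans hβ2)).1
          -- r*r*e = p*p*e*r*r
          have h4 : r * r * e * 1 = r * r * e * (p * p) := by
            rw [mul_one]; exact h3.trans (by ring)
          have h5 : 1 = p * p := Nat.eq_of_mul_eq_mul_left (by positivity) h4
          have : 1 < p * p := by nlinarith [hp.one_lt]
          omega
        · have h3 := (jTw_inj (hβ1.symm.trans hβ2)).1
          exact hne (Nat.eq_of_mul_eq_mul_right he0 h3)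
  obtain ⟨z, hz⟩ := hmem
  rw [← hz]
  exact z.2

end Pair

end Fermat.Agent.S28.H626

end

end
-- ===== PACK-END S28/H626/Pair.lean

-- ===== PACK-BEGIN S28/H325/Glue.lean
section




/-!
# S28, piece [L-glue], part 2: from degree bounds to `CoreData`

Input: integrality of the `j(q^d)` over `ℤ[j]`, an upper bound `n` for the degree of
`F = ℚ(j(q^d) : d ∣ N)` over `ℚ(j)` and `n` elements of `K'(j(q^d) : d ∣ N)` which are linearly
independent over `K'(j)` (for some field `K' ⊇ K`).  Output: `CoreData N K`.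
-/

set_option autoImplicit false

noncomputable section

open ModularCurve HahnSeries Polynomial

namespace Fermat.Agent.S28.H325

/-- reduction of integral `q`-series to a ring `k`. -/
abbrev castL (k : Type*) [CommRing k] : LaurentSeries ℤ →+* LaurentSeries k :=
  coeffMap (Int.castRingHom k)

theorem castL_jqModC (k : Type*) [CommRing k] : castL k (jqModC ℤ) = jqModC k :=
  coeffMap_jqModC _

theorem castL_comp {k k' : Type*} [CommRing k] [CommRing k'] (φ : k →+* k')
    (x : LaurentSeries ℤ) : coeffMap φ (castL k x) = castL k' x := by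
  rw [castL, castL, coeffMap_coeffMap]
  exact coeffMap_congr (RingHom.ext_int _ _) x

theorem castL_image_intDivisorExpansions (k : Type*) [Field k] (N : ℕ) :
    castL k '' intDivisorExpansions N = divisorExpansionsC k N := by
  ext x
  constructor
  · rintro ⟨y, ⟨d, hd, hdN, rfl⟩, rfl⟩
    exact ⟨d, hd, hdN, by rw [castL, coeffMap_qExpand, coeffMap_jqModC]⟩
  · rintro ⟨d, hd, hdN, rfl⟩
    exact ⟨_, ⟨d, hd, hdN, rfl⟩, by rw [castL, coeffMap_qExpand, coeffMap_jqModC]⟩

/-- `jField k` is `k(j)`. -/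
theorem jField_eq (k : Type*) [Field k] : jField k = IntermediateField.adjoin k {jqModC k} := rfl

theorem jqModC_mem_jField (k : Type*) [Field k] : jqModC k ∈ jField k :=
  IntermediateField.subset_adjoin k _ (Set.mem_singleton _)

/-- The transfer theorem: linear independence over `K'(j)` of the reductions implies linear
independence over `K(j)` (for a subfield `K → K'`) and over `ℚ(j)`. -/
theorem linearIndependent_transfer {K K' : Type*} [Field K] [Field K'] (φ : K →+* K') {n : ℕ}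
    (Y : Fin n → LaurentSeries ℤ)
    (h : LinearIndependent (jField K') (fun i => castL K' (Y i))) :
    LinearIndependent (jField K) (fun i => castL K (Y i)) ∧
      LinearIndependent (jField ℚ) (fun i => castL ℚ (Y i)) := by
  have h1 : PolyIndep (jqModC K') (fun i => castL K' (Y i)) :=
    polyIndep_of_linearIndependent (fun P hP => (aeval_jqModC_eq_zero_iff K' P).mp hP) h
  constructor
  · apply linearIndependent_of_polyIndep
    apply PolyIndep.of_injective φ φ.injective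
    rw [coeffMap_jqModC]
    simpa only [castL_comp] using h1
  · have h2 : PolyIndep (jqModC ℤ) Y := by
      apply PolyIndep.int_of_field (k := K')
      rw [coeffMap_jqModC]
      exact h1
    have h3 := PolyIndep.rat_of_int h2
    rw [coeffMap_jqModC] at h3
    exact linearIndependent_of_polyIndep h3

/-! ### Integrality and the monomial spanning set -/

theorem castL_comp_evalAt (k : Type*) [CommRing k] :
    (castL k).comp (evalAt (jqModC ℤ)) = evalAt (jqModC k) := by
  refine Polynomial.ringHom_ext' (Subsingleton.elim _ _) ?_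
  simp [evalAt, castL_jqModC]

/-- `ℤ[X] → k(j)`, `X ↦ j`. -/
def evalJField (k : Type*) [Field k] : Polynomial ℤ →+* jField k :=
  Polynomial.eval₂RingHom (Int.castRingHom (jField k)) ⟨jqModC k, jqModC_mem_jField k⟩

theorem algebraMap_comp_evalJField (k : Type*) [Field k] :
    (algebraMap (jField k) (LaurentSeries k)).comp (evalJField k) = evalAt (jqModC k) := by
  refine Polynomial.ringHom_ext' (Subsingleton.elim _ _) ?_
  simp [evalAt, evalJField]

theorem isIntegral_jField_of_monic (k : Type*) [Field k] (d : ℕ) [NeZero d]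
    (h : ∃ P : Polynomial (Polynomial ℤ), P.Monic ∧
      P.eval₂ (evalAt (jqModC ℤ)) (qExpand ℤ d (jqModC ℤ)) = 0) :
    IsIntegral (jField k) (qExpand k d (jqModC k)) := by
  obtain ⟨P, hmonic, hP⟩ := h
  refine ⟨P.map (evalJField k), hmonic.map _, ?_⟩
  rw [Polynomial.eval₂_map, algebraMap_comp_evalJField, ← castL_comp_evalAt]
  have := congrArg (castL k) hP
  rw [Polynomial.hom_eval₂, map_zero, castL, coeffMap_qExpand, coeffMap_jqModC] at this
  exact this

/-- Under integrality, `k(j(q^d) : d ∣ N)` is spanned over `k(j)` by the monomials in the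
`j(q^d)`. -/
theorem mem_span_monomials_of_mem_full (k : Type*) [Field k] (N : ℕ) [NeZero N]
    (hint : ∀ (d : ℕ) [NeZero d], d ∣ N →
      ∃ P : Polynomial (Polynomial ℤ), P.Monic ∧
        P.eval₂ (evalAt (jqModC ℤ)) (qExpand ℤ d (jqModC ℤ)) = 0)
    {x : LaurentSeries k} (hx : x ∈ modularFunctionFieldFullC k N) :
    x ∈ Submodule.span (jField k)
      ((Submonoid.closure (divisorExpansionsC k N) : Submonoid (LaurentSeries k)) :
        Set (LaurentSeries k)) := by
  have halg : ∀ y ∈ divisorExpansionsC k N, IsAlgebraic (jField k) y := by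
    rintro y ⟨d, hd, hdN, rfl⟩
    exact (isIntegral_jField_of_monic k d (hint d hdN)).isAlgebraic
  have h1 : x ∈ IntermediateField.adjoin (jField k) (divisorExpansionsC k N) := by
    have h2 : modularFunctionFieldFullC k N ≤
        (IntermediateField.adjoin (jField k) (divisorExpansionsC k N)).restrictScalars k := by
      rw [modularFunctionFieldFullC, IntermediateField.adjoin_le_iff]
      intro y hy
      exact IntermediateField.subset_adjoin (jField k) _ hy
    exact h2 hx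
  have h3 := IntermediateField.adjoin_toSubalgebra_of_isAlgebraic halg
  have h4 : x ∈ (IntermediateField.adjoin (jField k) (divisorExpansionsC k N)).toSubalgebra := h1
  rw [h3] at h4
  have h5 := Algebra.adjoin_eq_span (R := jField k) (s := divisorExpansionsC k N)
  have h6 : x ∈ Subalgebra.toSubmodule (Algebra.adjoin (jField k) (divisorExpansionsC k N)) := h4
  rw [h5] at h6
  exact h6

theorem monomials_subset_full (k : Type*) [Field k] (N : ℕ) :
    ((Submonoid.closure (divisorExpansionsC k N) : Submonoid (LaurentSeries k)) :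
        Set (LaurentSeries k)) ⊆ modularFunctionFieldFullC k N := by
  intro x hx
  have : Submonoid.closure (divisorExpansionsC k N) ≤
      (modularFunctionFieldFullC k N).toSubalgebra.toSubmonoid := by
    rw [Submonoid.closure_le]
    intro y hy
    exact IntermediateField.subset_adjoin k _ hy
  exact this hx

theorem castL_image_closure (k : Type*) [Field k] (N : ℕ) :
    castL k '' ((Submonoid.closure (intDivisorExpansions N) : Submonoid (LaurentSeries ℤ)) :
        Set (LaurentSeries ℤ)) =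
      ((Submonoid.closure (divisorExpansionsC k N) : Submonoid (LaurentSeries k)) :
        Set (LaurentSeries k)) := by
  rw [← castL_image_intDivisorExpansions]
  have := MonoidHom.map_mclosure ((castL k : LaurentSeries ℤ →+* LaurentSeries k) :
    LaurentSeries ℤ →* LaurentSeries k) (intDivisorExpansions N)
  have h2 := congrArg (fun S : Submonoid (LaurentSeries k) => (S : Set (LaurentSeries k))) this
  simp only [Submonoid.coe_map] at h2
  exact h2

/-! ### Extraction of independent monomials -/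

open Cardinal in
/-- If `k(j(q^d) : d ∣ N)` contains `n` elements linearly independent over `k(j)`, then there are
`n` integral monomials in the `j(q^d)` whose reductions are linearly independent over `k(j)`. -/
theorem exists_monomials_linearIndependent (k : Type*) [Field k] (N : ℕ) [NeZero N]
    (hint : ∀ (d : ℕ) [NeZero d], d ∣ N →
      ∃ P : Polynomial (Polynomial ℤ), P.Monic ∧
        P.eval₂ (evalAt (jqModC ℤ)) (qExpand ℤ d (jqModC ℤ)) = 0)
    (n : ℕ)
    (hL : ∃ x : Fin n → LaurentSeries k, (∀ i, x i ∈ modularFunctionFieldFullC k N) ∧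
      LinearIndependent (jField k) x) :
    ∃ Y : Fin n → LaurentSeries ℤ,
      (∀ i, Y i ∈ Submonoid.closure (intDivisorExpansions N)) ∧
      LinearIndependent (jField k) (fun i => castL k (Y i)) := by
  classical
  obtain ⟨x, hxF, hxli⟩ := hL
  set T : Set (LaurentSeries k) :=
    ((Submonoid.closure (divisorExpansionsC k N) : Submonoid (LaurentSeries k)) :
        Set (LaurentSeries k)) with hT
  obtain ⟨b, hbT, hspan, hli⟩ := exists_linearIndependent (jField k) T
  have hxb : ∀ i, x i ∈ Submodule.span (jField k) b := fun i => by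
    rw [hspan]
    exact mem_span_monomials_of_mem_full k N hint (hxF i)
  have hli' : LinearIndependent (jField k)
      (fun i => (⟨x i, hxb i⟩ : Submodule.span (jField k) b)) := by
    apply LinearIndependent.of_comp (Submodule.span (jField k) b).subtype
    exact hxli
  have h1 := hli'.cardinal_lift_le_rank
  have h2 : Module.rank (jField k) (Submodule.span (jField k) b) = #b := rank_span_set hli
  rw [h2] at h1
  obtain ⟨e⟩ := Cardinal.lift_mk_le'.mp h1
  have hmem : ∀ i, ∃ Y : LaurentSeries ℤ,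
      Y ∈ Submonoid.closure (intDivisorExpansions N) ∧ castL k Y = (e i : LaurentSeries k) := by
    intro i
    have h3 : (e i : LaurentSeries k) ∈ T := hbT (e i).2
    rw [hT, ← castL_image_closure] at h3
    obtain ⟨Y, hY, hYe⟩ := h3
    exact ⟨Y, hY, hYe⟩
  choose Y hY hYe using hmem
  refine ⟨Y, hY, ?_⟩
  have h4 : (fun i => castL k (Y i)) = (fun z : b => (z : LaurentSeries k)) ∘ e := by
    funext i
    exact hYe i
  rw [h4]
  exact hli.comp e e.injective

/-! ### Assembly -/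

/-- **Glue.** Degree bounds (upper bound `n` over `ℚ`, lower bound `n` over some field `K' ⊇ K`)
together with integrality of the `j(q^d)` produce `CoreData N K`. -/
theorem coreData_of_bounds (N : ℕ) [NeZero N] (K : Type) [Field K] {K' : Type*} [Field K']
    (φ : K →+* K') (n : ℕ)
    (hint : ∀ (d : ℕ) [NeZero d], d ∣ N →
      ∃ P : Polynomial (Polynomial ℤ), P.Monic ∧
        P.eval₂ (evalAt (jqModC ℤ)) (qExpand ℤ d (jqModC ℤ)) = 0)
    (hU : ∀ (m : ℕ) (x : Fin m → LaurentSeries ℚ), (∀ i, x i ∈ modularFunctionFieldFull N) →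
      LinearIndependent (jField ℚ) x → m ≤ n)
    (hL : ∃ x : Fin n → LaurentSeries K', (∀ i, x i ∈ modularFunctionFieldFullC K' N) ∧
      LinearIndependent (jField K') x) :
    CoreData N K := by
  obtain ⟨Y, hY, hYli⟩ := exists_monomials_linearIndependent K' N hint n hL
  obtain ⟨hK, hQ⟩ := linearIndependent_transfer φ Y hYli
  refine ⟨⟨n, Y, ?_, ?_, hK⟩, fun d _ hd => hint d hd⟩
  · intro i
    have : Submonoid.closure (intDivisorExpansions N) ≤
        (Subring.closure (intDivisorExpansions N)).toSubmonoid := by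
      rw [Submonoid.closure_le]
      exact Subring.subset_closure
    exact this (hY i)
  · intro x hx
    by_contra hxs
    have hYF : ∀ i, castL ℚ (Y i) ∈ modularFunctionFieldFull N := by
      intro i
      have h1 : castL ℚ (Y i) ∈ castL ℚ ''
          ((Submonoid.closure (intDivisorExpansions N) : Submonoid (LaurentSeries ℤ)) :
            Set (LaurentSeries ℤ)) := ⟨Y i, hY i, rfl⟩
      rw [castL_image_closure] at h1
      exact monomials_subset_full ℚ N h1
    have hcons : LinearIndependent (jField ℚ)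
        (Fin.cons x (fun i => castL ℚ (Y i)) : Fin (n + 1) → LaurentSeries ℚ) :=
      linearIndependent_finCons.mpr ⟨hQ, hxs⟩
    have := hU (n + 1) _ (fun i => by
      refine Fin.cases ?_ (fun j => ?_) i
      · simpa using hx
      · simpa using hYF j) hcons
    omega

end Fermat.Agent.S28.H325

end
end
-- ===== PACK-END S28/H325/Glue.lean

-- ===== PACK-BEGIN S28/H807/Eigen.lean
section
/-
S28 / helper807 — evaluation of the section-matrix characteristic polynomial:
`charpoly (secMat p g)` evaluated at `q = y^p` is `∏_b (X - G_b)`, where `G_b` is the value of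
`g` at the `p` distinct `p`-th roots `y_b` of `q`.
-/



set_option autoImplicit false
set_option maxHeartbeats 400000

noncomputable section

open ModularCurve Polynomial Matrix

namespace Fermat.Agent.S28.H807

/-- The subring of Laurent series converging at a nonzero point `z`. -/
def convSubring (z : ℂ) (hz : z ≠ 0) : Subring (LaurentSeries ℂ) where
  carrier := {c | Summable (fun n : ℤ => c.coeff n * z ^ n)}
  mul_mem' := fun {a b} ha hb =>
    (HasLSum.mul hz (c := a) (d := b) ha.hasSum hb.hasSum).summable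
  one_mem' := (hasLSum_one z).summable
  add_mem' := fun {a b} ha hb => (HasLSum.add (c := a) (d := b) ha.hasSum hb.hasSum).summable
  zero_mem' := (hasLSum_zero z).summable
  neg_mem' := fun {a} ha => (HasLSum.neg (c := a) ha.hasSum).summable

theorem mem_convSubring {z : ℂ} {hz : z ≠ 0} {c : LaurentSeries ℂ} :
    c ∈ convSubring z hz ↔ Summable (fun n : ℤ => c.coeff n * z ^ n) := Iff.rfl

theorem HasLSum.mem_convSubring {z A : ℂ} (hz : z ≠ 0) {c : LaurentSeries ℂ}
    (h : HasLSum c z A) : c ∈ convSubring z hz := h.summable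

/-- Evaluation of a Laurent series at a point (junk value if not convergent). -/
def evalL (z : ℂ) (c : LaurentSeries ℂ) : ℂ := ∑' n : ℤ, c.coeff n * z ^ n

theorem HasLSum.evalL_eq {z A : ℂ} {c : LaurentSeries ℂ} (h : HasLSum c z A) :
    evalL z c = A := HasSum.tsum_eq h

theorem hasLSum_evalL {z : ℂ} {hz : z ≠ 0} {c : LaurentSeries ℂ} (h : c ∈ convSubring z hz) :
    HasLSum c z (evalL z c) := Summable.hasSum h

/-- Evaluation at `z` as a ring homomorphism on the convergent subring. -/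
def evalHom (z : ℂ) (hz : z ≠ 0) : convSubring z hz →+* ℂ where
  toFun c := evalL z c.1
  map_one' := (hasLSum_one z).evalL_eq
  map_zero' := (hasLSum_zero z).evalL_eq
  map_add' := fun a b => ((hasLSum_evalL a.2).add (hasLSum_evalL b.2)).evalL_eq
  map_mul' := fun a b => ((hasLSum_evalL a.2).mul hz (hasLSum_evalL b.2)).evalL_eq

theorem evalHom_apply (z : ℂ) (hz : z ≠ 0) (c : convSubring z hz) :
    evalHom z hz c = evalL z c.1 := rfl

/-- A matrix with a full system of left eigenvectors `(y_b^i)_i` (Vandermonde) has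
characteristic polynomial `∏_b (X - G_b)`. -/
theorem charpoly_eq_prod_of_vandermonde {p : ℕ} (M : Matrix (Fin p) (Fin p) ℂ) (y : Fin p → ℂ)
    (hy : Function.Injective y) (G : Fin p → ℂ)
    (h : ∀ b i : Fin p, ∑ i' : Fin p, y b ^ (i' : ℕ) * M i' i = G b * y b ^ (i : ℕ)) :
    M.charpoly = ∏ b : Fin p, (X - C (G b)) := by
  set W : Matrix (Fin p) (Fin p) ℂ := Matrix.vandermonde y with hW
  have hWM : W * M = Matrix.diagonal G * W := by
    ext b i
    rw [Matrix.mul_apply, Matrix.diagonal_mul]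
    simp only [hW, Matrix.vandermonde_apply]
    exact h b i
  have hdet : IsUnit W.det := by
    rw [isUnit_iff_ne_zero]
    exact Matrix.det_vandermonde_ne_zero_iff.mpr hy
  have hWu : IsUnit W := (Matrix.isUnit_iff_isUnit_det W).mpr hdet
  obtain ⟨u, hu⟩ := hWu
  have hM : M = u.val⁻¹ * Matrix.diagonal G * u.val := by
    have h1 : u.val⁻¹ * (u.val * M) = M := by
      rw [← Matrix.mul_assoc, Matrix.nonsing_inv_mul _ (by rw [hu]; exact hdet), Matrix.one_mul]
    rw [← h1, hu, hWM, Matrix.mul_assoc]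
  rw [hM, Matrix.charpoly_units_conj', Matrix.charpoly_diagonal]

/-- **Evaluation of the section charpoly.** -/
theorem hasLSum_coeff_mul_charpoly {p : ℕ} [NeZero p] (g e : LaurentSeries ℂ) (q : ℂ)
    (y : Fin p → ℂ) (hy0 : ∀ b, y b ≠ 0) (hyq : ∀ b, y b ^ p = q) (hy : Function.Injective y)
    (Gv : Fin p → ℂ) (hG : ∀ b, HasLSum g (y b) (Gv b)) (Ev : ℂ) (hE : HasLSum e q Ev) (k : ℕ) :
    HasLSum (((X - C e) * (secMat p g).charpoly).coeff k) q
      (((X - C Ev) * ∏ b : Fin p, (X - C (Gv b))).coeff k) := by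
  have hp : 0 < p := Nat.pos_of_ne_zero (NeZero.ne p)
  set b0 : Fin p := ⟨0, hp⟩
  have hq : q ≠ 0 := by rw [← hyq b0]; exact pow_ne_zero _ (hy0 b0)
  -- entries of the section matrix converge at `q`
  have hent : ∀ i' i : Fin p, secMat p g i' i ∈ convSubring q hq := by
    intro i' i
    have := (hG b0).hasLSum_secL p (hy0 b0) ((i' : ℤ) - (i : ℤ))
    rw [hyq b0] at this
    exact this.mem_convSubring hq
  set M' : Matrix (Fin p) (Fin p) (convSubring q hq) := fun i' i => ⟨secMat p g i' i, hent i' i⟩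
    with hM'
  set e' : convSubring q hq := ⟨e, hE.mem_convSubring hq⟩ with he'
  set Φ' : Polynomial (convSubring q hq) := (X - C e') * M'.charpoly with hΦ'
  have hsub : Φ'.map (convSubring q hq).subtype = (X - C e) * (secMat p g).charpoly := by
    rw [hΦ', Polynomial.map_mul, Polynomial.map_sub, Polynomial.map_X, Polynomial.map_C,
      ← Matrix.charpoly_map]
    rfl
  -- evaluated matrix
  set Mτ : Matrix (Fin p) (Fin p) ℂ := M'.map (evalHom q hq) with hMτ
  have hMτ_apply : ∀ i' i : Fin p, Mτ i' i = secVal p g (y b0) ((i' : ℤ) - (i : ℤ)) := by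
    intro i' i
    simp only [hMτ, Matrix.map_apply, evalHom_apply, hM']
    have := (hG b0).hasLSum_secL p (hy0 b0) ((i' : ℤ) - (i : ℤ))
    rw [hyq b0] at this
    exact this.evalL_eq
  have hchar : Mτ.charpoly = ∏ b : Fin p, (X - C (Gv b)) := by
    apply charpoly_eq_prod_of_vandermonde Mτ y hy Gv
    intro b i
    have hreg := (hG b).regroup p (hy0 b) i
    rw [← hreg]
    apply Finset.sum_congr rfl
    intro i' _
    rw [hMτ_apply, secVal_congr p g (y := y b) (y' := y b0) (by rw [hyq, hyq])]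
  have hev : Φ'.map (evalHom q hq) = (X - C Ev) * ∏ b : Fin p, (X - C (Gv b)) := by
    rw [hΦ', Polynomial.map_mul, Polynomial.map_sub, Polynomial.map_X, Polynomial.map_C,
      ← Matrix.charpoly_map, ← hMτ, hchar]
    congr 3
    exact hE.evalL_eq
  have h1 : ((X - C e) * (secMat p g).charpoly).coeff k = ((Φ'.coeff k : convSubring q hq) :
      LaurentSeries ℂ) := by
    rw [← hsub, Polynomial.coeff_map]; rfl
  have h2 : ((X - C Ev) * ∏ b : Fin p, (X - C (Gv b))).coeff k = evalHom q hq (Φ'.coeff k) := by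
    rw [← hev, Polynomial.coeff_map]
  rw [h1, h2]
  exact hasLSum_evalL (Φ'.coeff k).2

end Fermat.Agent.S28.H807

end

end
-- ===== PACK-END S28/H807/Eigen.lean

-- ===== PACK-BEGIN S18/H456/ModBasic.lean
section


/-!
# S18 / MOD assembly (helper456, backup MOD-ASM): basic facts on the concrete objects

Membership lemmas for `Lc`, `Ec`, `Rc`, `Fc` and the "easy" fields of `Alg.GoodModel`
(`charZero`, `R_le`, `R_total`, `E_le_L`, `E_le_F`, `L_algebraic`, `L_algClosed`, `compositum`).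
-/

set_option autoImplicit false

noncomputable section

namespace Fermat.Agent.S18.H456

open ModularCurve AlgebraicCurve HahnSeries Fermat.Agent.S18 Fermat.Agent.S18.Mod

variable (M : ℕ) (A : ValuationSubring Qb) (E : IntermediateField ℚ Qb)

/-- The constant `c ∈ Q̄` as an element of `Ω`. -/
abbrev cst (c : Qb) : Om M := algebraMap Qb (Om M) c

theorem cst_injective : Function.Injective (cst M) := (algebraMap Qb (Om M)).injective

theorem mem_Lc_iff {f : Om M} : f ∈ Lc M ↔ ∃ c : Qb, cst M c = f := Iff.rfl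

theorem cst_mem_Lc (c : Qb) : cst M c ∈ Lc M := ⟨c, rfl⟩

theorem mem_Ec_iff {f : Om M} : f ∈ Ec M E ↔ ∃ c ∈ E, cst M c = f := by
  unfold Ec
  rw [Subfield.mem_map]
  rfl

theorem cst_mem_Ec {c : Qb} (hc : c ∈ E) : cst M c ∈ Ec M E := (mem_Ec_iff M E).2 ⟨c, hc, rfl⟩

theorem cst_mem_Ec_iff {c : Qb} : cst M c ∈ Ec M E ↔ c ∈ E := by
  refine ⟨fun h => ?_, cst_mem_Ec M E⟩
  obtain ⟨c', hc', h⟩ := (mem_Ec_iff M E).1 h
  rwa [← cst_injective M h]

theorem mem_Rc_iff {f : Om M} : f ∈ Rc M A E ↔ ∃ c, c ∈ A ∧ c ∈ E ∧ cst M c = f := by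
  unfold Rc
  rw [Subring.mem_map]
  constructor
  · rintro ⟨c, hc, rfl⟩
    exact ⟨c, hc.1, hc.2, rfl⟩
  · rintro ⟨c, hA, hE, rfl⟩
    exact ⟨c, ⟨hA, hE⟩, rfl⟩

theorem cst_mem_Rc {c : Qb} (hA : c ∈ A) (hE : c ∈ E) : cst M c ∈ Rc M A E :=
  (mem_Rc_iff M A E).2 ⟨c, hA, hE, rfl⟩

theorem cst_mem_Rc_iff {c : Qb} : cst M c ∈ Rc M A E ↔ c ∈ A ∧ c ∈ E := by
  refine ⟨fun h => ?_, fun h => cst_mem_Rc M A E h.1 h.2⟩
  obtain ⟨c', hA, hE, h⟩ := (mem_Rc_iff M A E).1 h
  rw [← cst_injective M h]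
  exact ⟨hA, hE⟩

/-! ### The easy fields -/

theorem field_charZero : CharZero (Om M) :=
  charZero_of_injective_algebraMap (algebraMap Qb (Om M)).injective

theorem field_R_le : (Rc M A E : Set (Om M)) ⊆ Ec M E := by
  intro f hf
  obtain ⟨c, -, hE, rfl⟩ := (mem_Rc_iff M A E).1 hf
  exact cst_mem_Ec M E hE

theorem field_R_total : ∀ e ∈ Ec M E, e ∈ Rc M A E ∨ e⁻¹ ∈ Rc M A E := by
  intro e he
  obtain ⟨c, hE, rfl⟩ := (mem_Ec_iff M E).1 he
  rcases A.mem_or_inv_mem c with h | h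
  · exact Or.inl (cst_mem_Rc M A E h hE)
  · right
    rw [← map_inv₀]
    exact cst_mem_Rc M A E h (inv_mem hE)

theorem field_E_le_L : Ec M E ≤ Lc M := by
  intro f hf
  obtain ⟨c, -, rfl⟩ := (mem_Ec_iff M E).1 hf
  exact cst_mem_Lc M c

theorem field_E_le_F : Ec M E ≤ Fc M E := by
  intro f hf
  exact Subfield.subset_closure (Or.inl hf)

theorem field_L_algebraic : ∀ a ∈ Lc M, IsAlgebraic (Ec M E) a := by
  intro a ha
  obtain ⟨c, rfl⟩ := (mem_Lc_iff M).1 ha
  have hc : IsAlgebraic ℚ c := (AlgebraicClosure.isAlgebraic ℚ).isAlgebraic c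
  obtain ⟨p, hp0, hp⟩ := hc
  -- the ring hom ℚ → Ec
  let φ : ℚ →+* Ec M E := algebraMap ℚ (Ec M E)
  refine ⟨p.map φ, (Polynomial.map_ne_zero_iff φ.injective).2 hp0, ?_⟩
  rw [Polynomial.aeval_def, Polynomial.eval₂_map]
  have hcomp : (algebraMap (Ec M E) (Om M)).comp φ = (algebraMap Qb (Om M)).comp (algebraMap ℚ Qb) :=
    RingHom.ext_rat _ _
  rw [hcomp, ← Polynomial.hom_eval₂]
  rw [Polynomial.aeval_def] at hp
  rw [hp, map_zero]

theorem field_L_algClosed : IsAlgClosed (Lc M) := by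
  let e : Qb ≃+* Lc M := RingEquiv.ofBijective (algebraMap Qb (Om M)).rangeRestrictField
    ⟨(algebraMap Qb (Om M)).rangeRestrictField.injective, fun ⟨y, c, hc⟩ => ⟨c, Subtype.ext hc⟩⟩
  exact IsAlgClosed.of_ringEquiv Qb (Lc M) e

end Fermat.Agent.S18.H456

end
end
-- ===== PACK-END S18/H456/ModBasic.lean

-- ===== PACK-BEGIN S18/H107/T3Branch.lean
section




/-!
# helper107 — S18 / M3-T : `unramified` for the Hauptmodul `t₃` (`j t³ = (t + 27)(t + 243)³`)

From the branch data of the `j`-line (`BranchJ107`): for every constant `c ∉ {-27, 0}`, at a place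
`O` with `t ≡ c`, `t - c` is a uniformiser.  (`t = -243` lies over `j = 0` with `e(t/j) = 3`, the
two roots of `t² - 486 t - 19683` over `j = 1728` with `e(t/j) = 2`; only `t = -27`, `0`, `∞` can
ramify in `Ω / Lc(t)`.)
-/

set_option autoImplicit false

namespace Fermat.Agent.S18.H107

variable {Ω : Type*} [Field Ω] [CharZero Ω]

theorem unramified_t3_107 (Lc : Subfield Ω) (j t : Ω)
    (hrel : j * t ^ 3 = (t + 27) * (t + 243) ^ 3)
    (hB : BranchJ107 Lc j) (O : ValuationSubring Ω) (hL : ∀ a ∈ Lc, a ∈ O) (c : Ω) (hc : c ∈ Lc)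
    (hc27 : c ≠ -27) (hc0 : c ≠ 0) (hz : t - c ∈ O) (hz' : (t - c)⁻¹ ∉ O) :
    ∀ s ∈ O, s⁻¹ ∉ O → s * (t - c)⁻¹ ∈ O := by
  rw [← OrdLe107.one_iff]
  have hzv : O.valuation (t - c) < 1 := val_lt_one107 O hz hz'
  have hz0 : t - c ≠ 0 := by
    intro h0
    rw [h0, inv_zero] at hz'
    exact hz' O.zero_mem
  have hcv : O.valuation c = 1 := val_const107 O Lc hL hc hc0
  have htv : O.valuation t = 1 := by
    have : t = c + (t - c) := by ring
    rw [this]
    exact val_add_eq_one107 O hcv hzv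
  have ht0 : t ≠ 0 := by
    intro h0
    rw [h0, map_zero] at htv
    exact zero_ne_one htv
  have htO : t ∈ O := (O.valuation_le_one_iff _).1 htv.le
  have hcO : c ∈ O := hL c hc
  have ht3v : O.valuation ((t ^ 3)⁻¹) = 1 := by
    rw [map_inv₀, map_pow, htv, one_pow, inv_one]
  by_cases h243 : c = -243
  · -- over `j = 0`
    subst h243
    have h216 : O.valuation (-216 : Ω) = 1 :=
      val_const107 O Lc hL (Lc.neg_mem (ofNat_mem Lc 216)) (by norm_num)
    have ht27 : O.valuation (t + 27) = 1 := by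
      have : t + 27 = -216 + (t - -243) := by ring
      rw [this]
      exact val_add_eq_one107 O h216 hzv
    have hUv : O.valuation ((t + 27) * (t ^ 3)⁻¹) = 1 := by
      rw [map_mul, ht27, ht3v, mul_one]
    have hU0 : (t + 27) * (t ^ 3)⁻¹ ≠ 0 := by
      intro h0
      rw [h0, map_zero] at hUv
      exact zero_ne_one hUv
    have hy : j = (t - -243) ^ 3 * ((t + 27) * (t ^ 3)⁻¹) := by
      field_simp
      linear_combination hrel
    have hj0 : j ≠ 0 := by
      rw [hy]
      exact mul_ne_zero (pow_ne_zero _ hz0) hU0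
    have hjv : O.valuation j < 1 := by
      rw [hy, map_mul, hUv, mul_one, map_pow]
      exact pow_lt_one₀ zero_le hzv (by norm_num)
    exact unram_of_factor107 O (k := 3) (by norm_num) hy hUv hz0
      (hB.zero O hL (mem_of_val_lt_one107 O hjv) (inv_not_mem_of_val_lt_one107 O hj0 hjv))
  by_cases hq : c ^ 2 - 486 * c - 19683 = 0
  · -- over `j = 1728`
    have h2c : 2 * c - 486 ≠ 0 := by
      intro h
      have h1 : (314928 : Ω) = 0 := by
        linear_combination (2 * c - 486) * h - 4 * hq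
      norm_num at h1
    have h2cL : 2 * c - 486 ∈ Lc :=
      Lc.sub_mem (Lc.mul_mem (ofNat_mem Lc 2) hc) (ofNat_mem Lc 486)
    have htc : O.valuation (t + c - 486) = 1 := by
      have : t + c - 486 = (2 * c - 486) + (t - c) := by ring
      rw [this]
      exact val_add_eq_one107 O (val_const107 O Lc hL h2cL h2c) hzv
    have hUv : O.valuation ((t + c - 486) ^ 2 * (t ^ 3)⁻¹) = 1 := by
      rw [map_mul, map_pow, htc, one_pow, ht3v, mul_one]
    have hU0 : (t + c - 486) ^ 2 * (t ^ 3)⁻¹ ≠ 0 := by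
      intro h0
      rw [h0, map_zero] at hUv
      exact zero_ne_one hUv
    have hy : j - 1728 = (t - c) ^ 2 * ((t + c - 486) ^ 2 * (t ^ 3)⁻¹) := by
      field_simp
      linear_combination hrel +
        (2 * (t - c) * (t + c - 486) + (c ^ 2 - 486 * c - 19683)) * hq
    have hy0 : j - 1728 ≠ 0 := by
      rw [hy]
      exact mul_ne_zero (pow_ne_zero _ hz0) hU0
    have hyv : O.valuation (j - 1728) < 1 := by
      rw [hy, map_mul, hUv, mul_one, map_pow]
      exact pow_lt_one₀ zero_le hzv (by norm_num)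
    exact unram_of_factor107 O (k := 2) (by norm_num) hy hUv hz0
      (hB.c1728 O hL (mem_of_val_lt_one107 O hyv) (inv_not_mem_of_val_lt_one107 O hy0 hyv))
  · -- generic point
    have hc27' : c + 27 ≠ 0 := fun h => hc27 (by linear_combination h)
    have hc243 : c + 243 ≠ 0 := fun h => h243 (by linear_combination h)
    set a : Ω := (c + 27) * (c + 243) ^ 3 * (c ^ 3)⁻¹ with ha
    have haL : a ∈ Lc :=
      Lc.mul_mem (Lc.mul_mem (Lc.add_mem hc (ofNat_mem Lc 27))
        (Lc.pow_mem (Lc.add_mem hc (ofNat_mem Lc 243)) 3)) (Lc.inv_mem (Lc.pow_mem hc 3))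
    have ha0 : a ≠ 0 :=
      mul_ne_zero (mul_ne_zero hc27' (pow_ne_zero _ hc243)) (inv_ne_zero (pow_ne_zero _ hc0))
    have ha1728 : a ≠ 1728 := by
      intro h
      have h1 : (c ^ 2 - 486 * c - 19683) ^ 2 = 0 := by
        have h2 : (c + 27) * (c + 243) ^ 3 = 1728 * c ^ 3 := by
          rw [ha] at h
          field_simp at h
          linear_combination h
        linear_combination h2
      exact hq (pow_eq_zero_iff (by norm_num) |>.1 h1)
    -- the cofactor
    set W : Ω := c ^ 3 * t ^ 3 - (196830 * c ^ 2 + 19131876 * c + 387420489) * t ^ 2 -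
      (19131876 * c ^ 2 + 387420489 * c) * t - 387420489 * c ^ 2 with hW
    set W₀ : Ω := c ^ 2 * (c + 243) ^ 2 * (c ^ 2 - 486 * c - 19683) with hW₀
    set W₁ : Ω := c ^ 3 * (t ^ 2 + t * c + c ^ 2) -
      (196830 * c ^ 2 + 19131876 * c + 387420489) * (t + c) -
      (19131876 * c ^ 2 + 387420489 * c) with hW₁
    have hW₀L : W₀ ∈ Lc :=
      Lc.mul_mem (Lc.mul_mem (Lc.pow_mem hc 2) (Lc.pow_mem (Lc.add_mem hc (ofNat_mem Lc 243)) 2))
        (Lc.sub_mem (Lc.sub_mem (Lc.pow_mem hc 2) (Lc.mul_mem (ofNat_mem Lc 486) hc))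
          (ofNat_mem Lc 19683))
    have hW₀0 : W₀ ≠ 0 := mul_ne_zero (mul_ne_zero (pow_ne_zero _ hc0) (pow_ne_zero _ hc243)) hq
    have hW₁O : W₁ ∈ O :=
      sub_mem (sub_mem
        (mul_mem (pow_mem hcO 3) (add_mem (add_mem (pow_mem htO 2) (mul_mem htO hcO))
          (pow_mem hcO 2)))
        (mul_mem (add_mem (add_mem (mul_mem (ofNat_mem O 196830) (pow_mem hcO 2))
          (mul_mem (ofNat_mem O 19131876) hcO)) (ofNat_mem O 387420489)) (add_mem htO hcO)))
        (add_mem (mul_mem (ofNat_mem O 19131876) (pow_mem hcO 2))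
          (mul_mem (ofNat_mem O 387420489) hcO))
    have hWv : O.valuation W = 1 := by
      have e : W = W₀ + (t - c) * W₁ := by
        rw [hW, hW₀, hW₁]
        ring
      rw [e]
      refine val_add_eq_one107 O (val_const107 O Lc hL hW₀L hW₀0) ?_
      rw [map_mul]
      calc O.valuation (t - c) * O.valuation W₁ ≤ O.valuation (t - c) * 1 := by
            gcongr
            exact (O.valuation_le_one_iff _).2 hW₁O
        _ = O.valuation (t - c) := mul_one _
        _ < 1 := hzv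
    have hUv : O.valuation (W * (t ^ 3 * c ^ 3)⁻¹) = 1 := by
      rw [map_mul, hWv, one_mul, map_inv₀, map_mul, map_pow, map_pow, htv, hcv, one_pow,
        mul_one, inv_one]
    have hy : j - a = (t - c) ^ 1 * (W * (t ^ 3 * c ^ 3)⁻¹) := by
      rw [ha, hW]
      field_simp
      linear_combination (c ^ 3) * hrel
    have hU0 : W * (t ^ 3 * c ^ 3)⁻¹ ≠ 0 := by
      intro h0
      rw [h0, map_zero] at hUv
      exact zero_ne_one hUv
    have hy0 : j - a ≠ 0 := by
      rw [hy]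
      exact mul_ne_zero (pow_ne_zero _ hz0) hU0
    have hyv : O.valuation (j - a) < 1 := by
      rw [hy, map_mul, hUv, mul_one, pow_one]
      exact hzv
    exact unram_of_factor107 O (k := 1) (by norm_num) hy hUv hz0
      (hB.generic O hL a haL ha0 ha1728 (mem_of_val_lt_one107 O hyv)
        (inv_not_mem_of_val_lt_one107 O hy0 hyv))

end Fermat.Agent.S18.H107

end
-- ===== PACK-END S18/H107/T3Branch.lean

-- ===== PACK-BEGIN S18/H845/ConstExtSub.lean
section


/-!
# S18 / d1(c) in the language of `Alg/Spec.lean` (sub-objects of one field `Ω`)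

`Ec ≤ Lc`, `Ec ≤ Fc` subfields of `Ω` (char 0), `Lc` algebraic over `Ec`, `Ω = Fc · Lc`.
Every discrete valuation ring `W` of `Fc` containing `Ec` is `O ∩ Fc` for a valuation subring `O`
of `Ω` containing `Lc`, in which a uniformiser of `W` is still a uniformiser.  Consequently a
divisibility statement `m ∣ ord_O(u)` at all `Lc`-places of `Ω` descends to all `Ec`-places of
`Fc`.
-/

set_option autoImplicit false
set_option linter.unusedSectionVars false

namespace Fermat.Agent.S18.H845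

section Sub

variable {Ω : Type*} [Field Ω] [CharZero Ω]

/-- **d1(c), sub-object form.** -/
theorem exists_valuationSubring_over (Lc Ec Fc : Subfield Ω) (E_le_F : Ec ≤ Fc)
    (L_algebraic : ∀ a ∈ Lc, IsAlgebraic Ec a)
    (compositum : Subfield.closure ((Fc : Set Ω) ∪ Lc) = ⊤)
    (W : ValuationSubring Fc) [IsDiscreteValuationRing W]
    (hEW : ∀ e : Fc, (e : Ω) ∈ Ec → e ∈ W) :
    ∃ O : ValuationSubring Ω, (∀ a ∈ Lc, a ∈ O) ∧ (∀ f : Fc, (f : Ω) ∈ O ↔ f ∈ W) ∧
      IsDiscreteValuationRing O ∧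
      (∀ π : W, Irreducible π → ∀ f : Ω, f ≠ 0 →
        ∃ k : ℤ, O.valuation f = O.valuation ((π : Fc) : Ω) ^ k) ∧
      ∀ π : W, Irreducible π → ((π : Fc) : Ω) ∈ O ∧ (((π : Fc) : Ω))⁻¹ ∉ O ∧
        ∀ t ∈ O, t⁻¹ ∉ O → t * (((π : Fc) : Ω))⁻¹ ∈ O := by
  let _ : Algebra Ec Fc := (Subfield.inclusion E_le_F).toAlgebra
  have : IsScalarTower Ec Fc Ω := IsScalarTower.of_algebraMap_eq (fun _ => rfl)
  have : CharZero Ec := ⟨fun a b h => by
    have h' := congrArg (Subtype.val : Ec → Ω) h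
    exact Nat.cast_injective (R := Ω) (by simpa using h')⟩
  have hEV : ∀ c : Ec, algebraMap Ec Fc c ∈ W := fun c => hEW _ c.2
  have hgen : IntermediateField.adjoin Fc {α : Ω | IsAlgebraic Ec α} = ⊤ := by
    rw [← IntermediateField.toSubfield_injective.eq_iff]
    show Subfield.closure (Set.range (algebraMap Fc Ω) ∪ {α : Ω | IsAlgebraic Ec α}) = ⊤
    rw [eq_top_iff, ← compositum]
    apply Subfield.closure_mono
    rintro x (hx | hx)
    · exact Or.inl ⟨⟨x, hx⟩, rfl⟩
    · exact Or.inr (L_algebraic x hx)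
  obtain ⟨O, hcomap, hdvr, hconst, hirr, hval⟩ :=
    exists_dvr_extension (E := Ec) (K := Fc) (L := Ω) W hEV hgen
  refine ⟨O, fun a ha => hconst a (L_algebraic a ha), ?_, hdvr, hval, ?_⟩
  · intro f
    rw [← hcomap]
    rfl
  · intro π hπ
    obtain ⟨hmem, hirrO⟩ := hirr π hπ
    have hπ0 : ((π : Fc) : Ω) ≠ 0 := by
      intro h
      apply hπ.ne_zero
      apply Subtype.ext
      apply Subtype.ext
      exact h
    have hlt : O.valuation ((π : Fc) : Ω) < 1 := by
      have h1 : ¬ IsUnit (⟨((π : Fc) : Ω), hmem⟩ : O) := hirrO.not_isUnit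
      rw [O.valuation_eq_one_iff] at h1
      exact lt_of_le_of_ne ((O.valuation_le_one_iff _).mpr hmem) h1
    have hpos : 0 < O.valuation ((π : Fc) : Ω) :=
      zero_lt_iff.mpr ((Valuation.ne_zero_iff _).mpr hπ0)
    refine ⟨hmem, ?_, ?_⟩
    · intro hinv
      have h1 : O.valuation (((π : Fc) : Ω))⁻¹ ≤ 1 := (O.valuation_le_one_iff _).mpr hinv
      rw [map_inv₀] at h1
      have h2 : 1 ≤ O.valuation ((π : Fc) : Ω) := by
        rwa [inv_le_one₀ hpos] at h1
      exact absurd hlt (not_lt.mpr h2)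
    · intro t ht htinv
      have ht0 : t ≠ 0 := by
        rintro rfl
        rw [inv_zero] at htinv
        exact htinv O.zero_mem
      obtain ⟨k, hk'⟩ := hval π hπ t ht0
      have hk : O.valuation t = O.valuation ((π : Fc) : Ω) ^ k := hk'
      have htlt : O.valuation t < 1 := by
        have h1 : O.valuation t ≤ 1 := (O.valuation_le_one_iff _).mpr ht
        refine lt_of_le_of_ne h1 ?_
        intro h1'
        apply htinv
        rw [← O.valuation_le_one_iff, map_inv₀, h1', inv_one]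
      rw [hk] at htlt
      have hk1 : 1 ≤ k := by
        have := (zpow_lt_one_iff_right_of_lt_one₀ hpos hlt).mp htlt
        omega
      rw [← O.valuation_le_one_iff, map_mul, map_inv₀, hk]
      have : O.valuation ((π : Fc) : Ω) ^ k * (O.valuation ((π : Fc) : Ω))⁻¹ =
          O.valuation ((π : Fc) : Ω) ^ (k - 1) := by
        rw [zpow_sub₀ hpos.ne', zpow_one, div_eq_mul_inv]
      rw [this]
      exact (zpow_le_one_iff_right_of_lt_one₀ hpos hlt).mpr (by omega)

/-- **Descent of divisibility.**  If `u ∈ Fc` has `m ∣ ord_O(u)` at every valuation subring `O`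
of `Ω` containing `Lc` (in the form used by `Alg.AlgMainStatement`), then `m ∣ ord_W(u)` at every
discrete valuation ring `W` of `Fc` containing `Ec`. -/
theorem exists_pow_unit_of_forall_over (Lc Ec Fc : Subfield Ω) (E_le_F : Ec ≤ Fc)
    (L_algebraic : ∀ a ∈ Lc, IsAlgebraic Ec a)
    (compositum : Subfield.closure ((Fc : Set Ω) ∪ Lc) = ⊤)
    {u : Fc} (hu : u ≠ 0) {m : ℕ}
    (hdiv : ∀ O : ValuationSubring Ω, (∀ a ∈ Lc, a ∈ O) →
      ∃ t : Ω, t ≠ 0 ∧ (u : Ω) * t ^ m ∈ O ∧ ((u : Ω) * t ^ m)⁻¹ ∈ O)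
    (W : ValuationSubring Fc) [IsDiscreteValuationRing W]
    (hEW : ∀ e : Fc, (e : Ω) ∈ Ec → e ∈ W) :
    ∃ s : Fc, s ≠ 0 ∧ u * s ^ m ∈ W ∧ (u * s ^ m)⁻¹ ∈ W := by
  obtain ⟨O, hL, hOW, _, hval, hunif⟩ :=
    exists_valuationSubring_over Lc Ec Fc E_le_F L_algebraic compositum W hEW
  obtain ⟨π, hπ⟩ := IsDiscreteValuationRing.exists_irreducible W
  obtain ⟨hπO, hπinv, _⟩ := hunif π hπ
  have hπ0 : ((π : Fc) : Ω) ≠ 0 := by
    rintro h
    rw [h, inv_zero] at hπinv
    exact hπinv O.zero_mem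
  have hπF0 : (π : Fc) ≠ 0 := fun h => hπ0 (by rw [h]; rfl)
  have hpos : 0 < O.valuation ((π : Fc) : Ω) :=
    zero_lt_iff.mpr ((Valuation.ne_zero_iff _).mpr hπ0)
  have hlt : O.valuation ((π : Fc) : Ω) < 1 := by
    refine lt_of_le_of_ne ((O.valuation_le_one_iff _).mpr hπO) ?_
    intro h1
    apply hπinv
    rw [← O.valuation_le_one_iff, map_inv₀, h1, inv_one]
  obtain ⟨t, ht0, ht1, ht2⟩ := hdiv O hL
  have hunit : O.valuation ((u : Ω) * t ^ m) = 1 := by
    have h1 : O.valuation ((u : Ω) * t ^ m) ≤ 1 := (O.valuation_le_one_iff _).mpr ht1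
    have h2 : O.valuation ((u : Ω) * t ^ m)⁻¹ ≤ 1 := (O.valuation_le_one_iff _).mpr ht2
    rw [map_inv₀] at h2
    have h0 : O.valuation ((u : Ω) * t ^ m) ≠ 0 := by
      rw [Valuation.ne_zero_iff]
      exact mul_ne_zero (fun h => hu (Subtype.ext h)) (pow_ne_zero m ht0)
    have h3 : 1 ≤ O.valuation ((u : Ω) * t ^ m) := by
      rwa [inv_le_one₀ (zero_lt_iff.mpr h0)] at h2
    exact le_antisymm h1 h3
  obtain ⟨k, hk⟩ := hval π hπ t ht0
  -- take `s = π ^ k`
  refine ⟨(π : Fc) ^ k, zpow_ne_zero k hπF0, ?_⟩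
  have hval1 : O.valuation (((u * ((π : Fc) ^ k) ^ m : Fc)) : Ω) = 1 := by
    have e : (((u * ((π : Fc) ^ k) ^ m : Fc)) : Ω) = (u : Ω) * (((π : Fc) : Ω) ^ k) ^ m := by
      push_cast
      rfl
    rw [e, map_mul, map_pow, map_zpow₀, ← hk, ← map_pow, ← map_mul]
    exact hunit
  constructor
  · rw [← hOW, ← O.valuation_le_one_iff]
    exact hval1.le
  · rw [← hOW, ← O.valuation_le_one_iff]
    have e : (((u * ((π : Fc) ^ k) ^ m)⁻¹ : Fc) : Ω) = ((((u * ((π : Fc) ^ k) ^ m : Fc)) : Ω))⁻¹ := by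
      push_cast
      rfl
    rw [e, map_inv₀, hval1, inv_one]

end Sub

end Fermat.Agent.S18.H845

end
-- ===== PACK-END S18/H845/ConstExtSub.lean

-- ===== PACK-BEGIN S18/B12/H203/UFDStep.lean
section



/-!
# S18 / b2.5, piece A4: the UFD step (`UFDStepStatement`)

If every prime factor of `D ≠ 0` lying in the prime ideal `𝔪` is associated to the prime `p`,
then `D = p ^ a * D₁` with `D₁ ∉ 𝔪`.
-/

set_option autoImplicit false

namespace Fermat.Agent.S18.B12.H203

universe u v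

/-- In a UFD, a nonzero element of a prime ideal has a prime factor in that ideal. -/
theorem exists_prime_dvd_mem_of_mem {P : Type u} [CommRing P] [IsDomain P]
    [UniqueFactorizationMonoid P] (𝔪 : Ideal P) [h𝔪 : 𝔪.IsPrime] (d : P) (hd0 : d ≠ 0)
    (hd : d ∈ 𝔪) : ∃ π : P, Prime π ∧ π ∣ d ∧ π ∈ 𝔪 := by
  revert hd0 hd
  refine UniqueFactorizationMonoid.induction_on_prime
    (P := fun d : P => d ≠ 0 → d ∈ 𝔪 → ∃ π : P, Prime π ∧ π ∣ d ∧ π ∈ 𝔪) d ?_ ?_ ?_
  · intro h0 _
    exact absurd rfl h0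
  · intro x hx _ hxm
    exact absurd (Ideal.eq_top_of_isUnit_mem 𝔪 hxm hx) h𝔪.ne_top
  · intro a q ha0 hq ih _ hmem
    rcases h𝔪.mem_or_mem hmem with hqm | ham
    · exact ⟨q, hq, dvd_mul_right q a, hqm⟩
    · obtain ⟨π, hπ, hπa, hπm⟩ := ih ha0 ham
      exact ⟨π, hπ, hπa.mul_left q, hπm⟩

/-- **A4 (UFD step).** -/
theorem ufdStep.{w} : UFDStepStatement.{w} := by
  intro P _ _ _ 𝔪 h𝔪 p hp D hD hass
  obtain ⟨a, D₁, hpD₁, hDeq⟩ := WfDvdMonoid.max_power_factor hD hp.irreducible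
  refine ⟨a, D₁, hDeq, ?_⟩
  intro hmem
  have hD₁0 : D₁ ≠ 0 := by
    rintro rfl
    exact hD (by rw [hDeq, mul_zero])
  obtain ⟨π, hπ, hπD₁, hπm⟩ := exists_prime_dvd_mem_of_mem 𝔪 D₁ hD₁0 hmem
  have hπD : π ∣ D := by
    rw [hDeq]
    exact hπD₁.mul_left _
  have hassoc : Associated π p := hass π hπ hπD hπm
  exact hpD₁ (hassoc.symm.dvd.trans hπD₁)

end Fermat.Agent.S18.B12.H203

end
-- ===== PACK-END S18/B12/H203/UFDStep.lean

-- ===== PACK-BEGIN S18/H394/KummerEndgame.lean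
section




/-!
# S18, Route K, pieces b3+b4 (helper394): the Kummer endgame

Abstract statement (`kummer_endgame_aux`): two charts `B₀, B₁ ⊆ M ⊆ F` over a noetherian local
ring `R`, an element `u ∈ F` of exact order `m` modulo constants and `m`-th powers, and
"local existence" data `σ₀, σ₁` (`σⱼ ^ m * u ≡ 1 mod w Bⱼ`, `σ₀ ≡ σ₁`) are contradictory.
The proof applies the two-chart connectedness theorem (b5, `H498.idem_trivial_of_cech_finite`)
to the graded Kummer algebra of `Graded.lean`.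
-/

set_option autoImplicit false

namespace Fermat.Agent.S18.H394

open Polynomial

section Identities

variable {C : Type*} [CommRing C]

theorem idem_identity (t β ω ν : C) (n : ℕ) (hn : ν * (n : C) = 1) (ht : t ^ n = 1 + ω * β) :
    (ν * ∑ i ∈ Finset.range n, t ^ i) ^ 2 - ν * ∑ i ∈ Finset.range n, t ^ i =
      ω * (ν ^ 2 * β * ∑ i ∈ Finset.range n, ∑ j ∈ Finset.range i, t ^ j) := by
  set S := ∑ i ∈ Finset.range n, t ^ i with hS
  have h1 : S * (t - 1) = ω * β := by rw [hS, geom_sum_mul, ht]; ring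
  have h2 : S * S - (n : C) * S = (∑ i ∈ Finset.range n, ∑ j ∈ Finset.range i, t ^ j) * (ω * β) := by
    have : S * S - (n : C) * S = ∑ i ∈ Finset.range n, (t ^ i - 1) * S := by
      rw [← Finset.sum_mul, Finset.sum_sub_distrib, ← hS]
      simp [sub_mul]
    rw [this, Finset.sum_mul]
    refine Finset.sum_congr rfl fun i _ => ?_
    rw [← geom_sum_mul, mul_assoc, mul_comm (t - 1) S, h1]
  have h3 : (ν * S) ^ 2 - ν * S = ν ^ 2 * (S * S - (n : C) * S) + ν * (ν * (n : C) - 1) * S := by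
    ring
  rw [h3, h2, hn]
  ring

theorem diff_identity (t₀ t₁ : C) (n : ℕ) :
    ∑ i ∈ Finset.range n, t₀ ^ i - ∑ i ∈ Finset.range n, t₁ ^ i =
      (t₀ - t₁) * ∑ i ∈ Finset.range n, ∑ a ∈ Finset.range i, t₀ ^ a * t₁ ^ (i - 1 - a) := by
  rw [← Finset.sum_sub_distrib, Finset.mul_sum]
  refine Finset.sum_congr rfl fun i _ => ?_
  rw [← geom_sum₂_mul, mul_comm]

end Identities

section Localisation

variable {R F C : Type*} [CommRing R] [Field F] [Algebra R F] [CommRing C] [Algebra F C]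
  [Algebra R C] [IsScalarTower R F C]

/-- If `M = B[1/z]` then the Kummer algebra of `M` is the localisation of that of `B`. -/
theorem exists_pow_mul_mem_kummerSub (pb : PowerBasis F C) (u : F)
    (hT : pb.gen ^ pb.dim = algebraMap F C u) (hm0 : 0 < pb.dim)
    (B M : Subalgebra R F) (hB : RootClosed pb.dim B) (hM : RootClosed pb.dim M)
    (z : F) (hz : z ∈ B) (hloc : ∀ y ∈ M, ∃ n : ℕ, z ^ n * y ∈ B)
    (c : C) (hc : c ∈ kummerSub pb u hT hm0 M hM) :
    ∃ n : ℕ, algebraMap F C z ^ n * c ∈ kummerSub pb u hT hm0 B hB := by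
  classical
  have h : ∀ k : Fin pb.dim, ∃ n : ℕ, z ^ n * (co pb k c ^ pb.dim * u ^ (k : ℕ)) ∈ B :=
    fun k => hloc _ (hc k)
  choose N hN using h
  refine ⟨∑ k, N k, fun k => ?_⟩
  rw [← map_pow, co_algebraMap_mul, mem_degSet]
  have hle : N k ≤ (∑ k, N k) * pb.dim := by
    calc N k ≤ ∑ k, N k := Finset.single_le_sum (fun _ _ => Nat.zero_le _) (Finset.mem_univ k)
      _ ≤ (∑ k, N k) * pb.dim := Nat.le_mul_of_pos_right _ hm0
  obtain ⟨d, hd⟩ := Nat.exists_eq_add_of_le hle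
  have : (z ^ (∑ k, N k) * co pb k c) ^ pb.dim * u ^ (k : ℕ)
      = z ^ d * (z ^ N k * (co pb k c ^ pb.dim * u ^ (k : ℕ))) := by
    rw [mul_pow, ← pow_mul, hd, pow_add]
    ring
  rw [this]
  exact B.mul_mem (B.pow_mem hz d) (hN k)

end Localisation

section Main

variable {R F C : Type*} [CommRing R] [IsLocalRing R] [IsNoetherianRing R] [Field F] [Algebra R F]
  [CommRing C] [Algebra F C] [Algebra R C] [IsScalarTower R F C]

omit [IsLocalRing R] [IsNoetherianRing R] in
/-- The intersection of the two Kummer charts consists of constants. -/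
theorem kummerSub_inf (pb : PowerBasis F C) (u : F)
    (hT : pb.gen ^ pb.dim = algebraMap F C u) (hm0 : 0 < pb.dim)
    (B₀ B₁ : Subalgebra R F) (hrc0 : RootClosed pb.dim B₀) (hrc1 : RootClosed pb.dim B₁)
    (hint : ∀ y : F, y ∈ B₀ → y ∈ B₁ → ∃ r : R, algebraMap R F r = y)
    (hord : ∀ i : ℕ, 0 < i → i < pb.dim → ∀ f : F, f ≠ 0 → ∀ r : R,
        f ^ pb.dim * u ^ i ≠ algebraMap R F r)
    (c : C) (h0 : c ∈ kummerSub pb u hT hm0 B₀ hrc0) (h1 : c ∈ kummerSub pb u hT hm0 B₁ hrc1) :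
    ∃ r : R, algebraMap R C r = c := by
  classical
  have hk : ∀ k : Fin pb.dim, (k : ℕ) ≠ 0 → co pb k c = 0 := by
    intro k hk0
    by_contra hne
    obtain ⟨r, hr⟩ := hint _ (h0 k) (h1 k)
    exact hord k (Nat.pos_of_ne_zero hk0) k.2 _ hne r hr.symm
  have h00 : co pb ⟨0, hm0⟩ c ∈ B₀ := mem_of_mem_degSet_zero hrc0 (h0 ⟨0, hm0⟩)
  have h01 : co pb ⟨0, hm0⟩ c ∈ B₁ := mem_of_mem_degSet_zero hrc1 (h1 ⟨0, hm0⟩)
  obtain ⟨r, hr⟩ := hint _ h00 h01
  refine ⟨r, ?_⟩
  rw [← sum_co pb c, Finset.sum_eq_single (⟨0, hm0⟩ : Fin pb.dim)]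
  · rw [← hr, pow_zero, mul_one, ← IsScalarTower.algebraMap_apply]
  · intro k _ hk0
    rw [hk k (fun h => hk0 (Fin.ext h)), map_zero, zero_mul]
  · intro h
    exact absurd (Finset.mem_univ _) h

/-- **Kummer endgame (abstract form).**  See the module docstring. -/
theorem kummer_endgame_aux
    (pb : PowerBasis F C) (u : F) (hT : pb.gen ^ pb.dim = algebraMap F C u)
    (hm0 : 0 < pb.dim) (hm1 : 1 < pb.dim)
    (ν : R) (hν : ν * (pb.dim : R) = 1)
    (w : R)
    (B₀ B₁ M : Subalgebra R F)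
    (hrc0 : RootClosed pb.dim B₀) (hrc1 : RootClosed pb.dim B₁) (hrcM : RootClosed pb.dim M)
    (x : F) (hx0 : x ≠ 0) (hx : x ∈ B₀) (hx' : x⁻¹ ∈ B₁)
    (h0M : B₀ ≤ M) (h1M : B₁ ≤ M)
    (hloc0 : ∀ y ∈ M, ∃ n : ℕ, x ^ n * y ∈ B₀)
    (hloc1 : ∀ y ∈ M, ∃ n : ℕ, x⁻¹ ^ n * y ∈ B₁)
    (hint : ∀ y : F, y ∈ B₀ → y ∈ B₁ → ∃ r : R, algebraMap R F r = y)
    (ι : Type*) [Finite ι] (g : ι → C)
    (hg : ∀ i, g i ∈ kummerSub pb u hT hm0 B₀ hrc0)
    (hgen : ∀ b ∈ kummerSub pb u hT hm0 B₀ hrc0, ∃ P : ι → Polynomial R,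
        b = ∑ᶠ i, Polynomial.aeval (algebraMap F C x) (P i) * g i)
    (hw1 : ∀ b ∈ B₀, algebraMap R F w * b ≠ 1)
    (hord : ∀ i : ℕ, 0 < i → i < pb.dim → ∀ f : F, f ≠ 0 → ∀ r : R,
        f ^ pb.dim * u ^ i ≠ algebraMap R F r)
    (σ₀ σ₁ : F)
    (h₀ : ∃ b ∈ B₀, σ₀ ^ pb.dim * u - 1 = algebraMap R F w * b)
    (h₁ : ∃ b ∈ B₁, σ₁ ^ pb.dim * u - 1 = algebraMap R F w * b)
    (h₀₁ : ∃ γ : F, σ₀ - σ₁ = algebraMap R F w * γ ∧ γ ^ pb.dim * u ∈ M) : False := by
  classical
  haveI : Fintype ι := Fintype.ofFinite ι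
  obtain ⟨b₀, hb₀, hσ₀⟩ := h₀
  obtain ⟨b₁, hb₁, hσ₁⟩ := h₁
  obtain ⟨γ, hγ, hγM⟩ := h₀₁
  -- the three Kummer algebras
  set K0 := kummerSub pb u hT hm0 B₀ hrc0 with hK0
  set K1 := kummerSub pb u hT hm0 B₁ hrc1 with hK1
  set KM := kummerSub pb u hT hm0 M hrcM with hKM
  have hK0M : K0 ≤ KM := kummerSub_mono hT hm0 hrc0 hrcM h0M
  have hK1M : K1 ≤ KM := kummerSub_mono hT hm0 hrc1 hrcM h1M
  -- basic elements
  have hwC : algebraMap R C w = algebraMap F C (algebraMap R F w) :=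
    IsScalarTower.algebraMap_apply R F C w
  have hνC : algebraMap R C ν * ((pb.dim : ℕ) : C) = 1 := by
    rw [← map_natCast (algebraMap R C), ← map_mul, hν, map_one]
  set t₀ : C := algebraMap F C σ₀ * pb.gen with ht₀
  set t₁ : C := algebraMap F C σ₁ * pb.gen with ht₁
  have hσ₀B : σ₀ ∈ degSet B₀ pb.dim u 1 := by
    rw [mem_degSet, pow_one]
    have : σ₀ ^ pb.dim * u = 1 + algebraMap R F w * b₀ := by rw [← hσ₀]; ring
    rw [this]
    exact B₀.add_mem B₀.one_mem (B₀.mul_mem (B₀.algebraMap_mem w) hb₀)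
  have hσ₁B : σ₁ ∈ degSet B₁ pb.dim u 1 := by
    rw [mem_degSet, pow_one]
    have : σ₁ ^ pb.dim * u = 1 + algebraMap R F w * b₁ := by rw [← hσ₁]; ring
    rw [this]
    exact B₁.add_mem B₁.one_mem (B₁.mul_mem (B₁.algebraMap_mem w) hb₁)
  have ht₀K : t₀ ∈ K0 := by
    have := monomial_mem_kummerSub hT hm0 hrc0 hσ₀B
    rwa [pow_one] at this
  have ht₁K : t₁ ∈ K1 := by
    have := monomial_mem_kummerSub hT hm0 hrc1 hσ₁B
    rwa [pow_one] at this
  have ht₀m : t₀ ^ pb.dim = 1 + algebraMap R C w * algebraMap F C b₀ := by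
    rw [ht₀, mul_pow, hT, ← map_pow, ← map_mul, hwC, ← map_mul, ← map_one (algebraMap F C),
      ← map_add]
    congr 1
    rw [← hσ₀]; ring
  have ht₁m : t₁ ^ pb.dim = 1 + algebraMap R C w * algebraMap F C b₁ := by
    rw [ht₁, mul_pow, hT, ← map_pow, ← map_mul, hwC, ← map_mul, ← map_one (algebraMap F C),
      ← map_add]
    congr 1
    rw [← hσ₁]; ring
  set E₀ : C := algebraMap R C ν * ∑ i ∈ Finset.range pb.dim, t₀ ^ i with hE₀
  set E₁ : C := algebraMap R C ν * ∑ i ∈ Finset.range pb.dim, t₁ ^ i with hE₁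
  have hE₀K : E₀ ∈ K0 :=
    K0.mul_mem (K0.algebraMap_mem ν) (K0.sum_mem fun i _ => K0.pow_mem ht₀K i)
  have hE₁K : E₁ ∈ K1 :=
    K1.mul_mem (K1.algebraMap_mem ν) (K1.sum_mem fun i _ => K1.pow_mem ht₁K i)
  -- idempotent mod `w`
  have hid₀ : ∃ a ∈ K0, E₀ ^ 2 - E₀ = algebraMap R C w * a := by
    refine ⟨_, ?_, idem_identity t₀ (algebraMap F C b₀) (algebraMap R C w) (algebraMap R C ν)
      pb.dim hνC ht₀m⟩
    refine K0.mul_mem (K0.mul_mem (K0.pow_mem (K0.algebraMap_mem ν) 2)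
      (algebraMap_mem_kummerSub hT hm0 hrc0 hb₀)) ?_
    exact K0.sum_mem fun i _ => K0.sum_mem fun j _ => K0.pow_mem ht₀K j
  have hid₁ : ∃ a ∈ K1, E₁ ^ 2 - E₁ = algebraMap R C w * a := by
    refine ⟨_, ?_, idem_identity t₁ (algebraMap F C b₁) (algebraMap R C w) (algebraMap R C ν)
      pb.dim hνC ht₁m⟩
    refine K1.mul_mem (K1.mul_mem (K1.pow_mem (K1.algebraMap_mem ν) 2)
      (algebraMap_mem_kummerSub hT hm0 hrc1 hb₁)) ?_
    exact K1.sum_mem fun i _ => K1.sum_mem fun j _ => K1.pow_mem ht₁K j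
  -- compatibility on the overlap
  have hγK : algebraMap F C γ * pb.gen ∈ KM := by
    have hγd : γ ∈ degSet M pb.dim u 1 := by rw [mem_degSet, pow_one]; exact hγM
    have := monomial_mem_kummerSub hT hm0 hrcM hγd
    rwa [pow_one] at this
  have hdiff : ∃ y ∈ KM, E₀ - E₁ = algebraMap R C w * y := by
    refine ⟨algebraMap R C ν * ((algebraMap F C γ * pb.gen) *
      ∑ i ∈ Finset.range pb.dim, ∑ a ∈ Finset.range i, t₀ ^ a * t₁ ^ (i - 1 - a)), ?_, ?_⟩
    · refine KM.mul_mem (KM.algebraMap_mem ν) (KM.mul_mem hγK ?_)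
      exact KM.sum_mem fun i _ => KM.sum_mem fun a _ =>
        KM.mul_mem (KM.pow_mem (hK0M ht₀K) a) (KM.pow_mem (hK1M ht₁K) _)
    · have htt : t₀ - t₁ = algebraMap R C w * (algebraMap F C γ * pb.gen) := by
        rw [ht₀, ht₁, ← sub_mul, ← map_sub, hγ, map_mul, hwC, mul_assoc]
      rw [hE₀, hE₁, ← mul_sub, diff_identity, htt]
      ring
  -- the ambient ring and the charts
  let C0 : Subalgebra R KM := K0.comap KM.val
  let C1 : Subalgebra R KM := K1.comap KM.val
  have hxK0 : algebraMap F C x ∈ K0 := algebraMap_mem_kummerSub hT hm0 hrc0 hx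
  have hxK1 : algebraMap F C x⁻¹ ∈ K1 := algebraMap_mem_kummerSub hT hm0 hrc1 hx'
  let xK : KM := ⟨algebraMap F C x, hK0M hxK0⟩
  let xK' : KM := ⟨algebraMap F C x⁻¹, hK1M hxK1⟩
  have hxx' : xK * xK' = 1 := by
    apply Subtype.ext
    show algebraMap F C x * algebraMap F C x⁻¹ = 1
    rw [← map_mul, mul_inv_cancel₀ hx0, map_one]
  have hlocK : ∀ y : KM, ∃ n : ℕ, xK ^ n * y ∈ C0 := by
    intro y
    obtain ⟨n, hn⟩ := exists_pow_mul_mem_kummerSub pb u hT hm0 B₀ M hrc0 hrcM x hx hloc0 y y.2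
    exact ⟨n, hn⟩
  have hlocK' : ∀ y : KM, ∃ n : ℕ, xK' ^ n * y ∈ C1 := by
    intro y
    obtain ⟨n, hn⟩ := exists_pow_mul_mem_kummerSub pb u hT hm0 B₁ M hrc1 hrcM x⁻¹ hx' hloc1 y y.2
    exact ⟨n, hn⟩
  let gK : ι → KM := fun i => ⟨g i, hK0M (hg i)⟩
  have hgenK : ∀ b ∈ C0, ∃ P : ι → Polynomial R, b = ∑ᶠ i, Polynomial.aeval xK (P i) * gK i := by
    intro b hb
    obtain ⟨P, hP⟩ := hgen (b : C) hb
    refine ⟨P, Subtype.ext ?_⟩
    rw [hP, finsum_eq_sum_of_fintype, finsum_eq_sum_of_fintype]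
    rw [show ((∑ i, Polynomial.aeval xK (P i) * gK i : KM) : C)
        = KM.val (∑ i, Polynomial.aeval xK (P i) * gK i) from rfl, map_sum]
    refine Finset.sum_congr rfl fun i _ => ?_
    rw [map_mul, ← Polynomial.aeval_algHom_apply]
    rfl
  haveI : Module.Finite R (↥KM ⧸ (Subalgebra.toSubmodule C0 ⊔ Subalgebra.toSubmodule C1)) :=
    H498.finite_cech_quotient C0 C1 xK xK' hxK0 hxK1 hxx' ι gK hg hgenK hlocK
      (fun i => hlocK' (gK i))
  have hintK : ∀ y : KM, y ∈ C0 → y ∈ C1 → ∃ r : R, algebraMap R KM r = y := by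
    intro y hy0 hy1
    obtain ⟨r, hr⟩ := kummerSub_inf pb u hT hm0 B₀ B₁ hrc0 hrc1 hint hord (y : C) hy0 hy1
    exact ⟨r, Subtype.ext hr⟩
  let e₀ : KM := ⟨E₀, hK0M hE₀K⟩
  let e₁ : KM := ⟨E₁, hK1M hE₁K⟩
  have h1K : ∃ a ∈ C0, e₀ ^ 2 - e₀ = algebraMap R KM w * a := by
    obtain ⟨a, ha, h⟩ := hid₀
    exact ⟨⟨a, hK0M ha⟩, ha, Subtype.ext h⟩
  have h2K : ∃ a ∈ C1, e₁ ^ 2 - e₁ = algebraMap R KM w * a := by
    obtain ⟨a, ha, h⟩ := hid₁
    exact ⟨⟨a, hK1M ha⟩, ha, Subtype.ext h⟩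
  have h12K : ∃ y : KM, e₀ - e₁ = algebraMap R KM w * y := by
    obtain ⟨y, hy, h⟩ := hdiff
    exact ⟨⟨y, hy⟩, Subtype.ext h⟩
  have hconcl := H498.idem_trivial_of_cech_finite w C0 C1 hintK e₀ e₁ hE₀K hE₁K h1K h2K h12K
  -- the coefficient of `T` in `E₀`
  let k1 : Fin pb.dim := ⟨1, hm1⟩
  have hco1 : co pb k1 (1 : C) = 0 := by
    have h1 : (1 : C) = algebraMap F C 1 * pb.gen ^ (0 * pb.dim + ((⟨0, hm0⟩ : Fin pb.dim) : ℕ)) := by
      simp
    rw [h1, co_monomial pb hT, if_neg]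
    intro h
    have := congrArg Fin.val h
    simp [k1] at this
  have hcoE : co pb k1 E₀ = algebraMap R F ν * σ₀ := by
    have hE : E₀ = ∑ i : Fin pb.dim,
        algebraMap F C (algebraMap R F ν * σ₀ ^ (i : ℕ)) * pb.gen ^ (0 * pb.dim + (i : ℕ)) := by
      rw [hE₀, ← Fin.sum_univ_eq_sum_range (fun i => t₀ ^ i) pb.dim, Finset.mul_sum]
      refine Finset.sum_congr rfl fun i _ => ?_
      rw [ht₀, mul_pow, zero_mul, zero_add, map_mul, map_pow,
        ← IsScalarTower.algebraMap_apply R F C, mul_assoc]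
    rw [hE, map_sum]
    rw [Finset.sum_congr rfl (fun i _ => co_monomial pb hT _ 0 i k1)]
    rw [Finset.sum_ite_eq' Finset.univ k1]
    simp [k1]
  have hfinal : ∀ a₁ : F, a₁ ∈ degSet B₀ pb.dim u 1 → ∀ ε : F, (ε = 1 ∨ ε = -1) →
      algebraMap R F ν * σ₀ = ε * (algebraMap R F w * a₁) → False := by
    intro a₁ ha₁ ε hε h
    rw [mem_degSet, pow_one] at ha₁
    have hνF : algebraMap R F ν * ((pb.dim : ℕ) : F) = 1 := by
      rw [← map_natCast (algebraMap R F), ← map_mul, hν, map_one]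
    have hσ : σ₀ = ((pb.dim : ℕ) : F) * ε * algebraMap R F w * a₁ := by
      calc σ₀ = (algebraMap R F ν * ((pb.dim : ℕ) : F)) * σ₀ := by rw [hνF, one_mul]
        _ = ((pb.dim : ℕ) : F) * (algebraMap R F ν * σ₀) := by ring
        _ = ((pb.dim : ℕ) : F) * ε * algebraMap R F w * a₁ := by rw [h]; ring
    obtain ⟨d, hd⟩ : ∃ d, pb.dim = d + 1 := Nat.exists_eq_succ_of_ne_zero hm0.ne'
    have hεB : ε ∈ B₀ := by
      rcases hε with rfl | rfl
      · exact B₀.one_mem
      · exact B₀.neg_mem B₀.one_mem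
    have hkey : (1 : F) = algebraMap R F w *
        ((((pb.dim : ℕ) : F) * ε) ^ pb.dim * algebraMap R F w ^ d * (a₁ ^ pb.dim * u) - b₀) := by
      have h1 : σ₀ ^ pb.dim * u = algebraMap R F w *
          ((((pb.dim : ℕ) : F) * ε) ^ pb.dim * algebraMap R F w ^ d * (a₁ ^ pb.dim * u)) := by
        conv_lhs => rw [hσ]
        rw [mul_pow, mul_pow]
        conv_lhs => rw [show algebraMap R F w ^ pb.dim = algebraMap R F w ^ d * algebraMap R F w
          from by rw [hd, pow_succ]]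
        ring
      rw [mul_sub, ← h1, ← hσ₀]
      ring
    refine hw1 _ ?_ hkey.symm
    refine B₀.sub_mem (B₀.mul_mem (B₀.mul_mem (B₀.pow_mem (B₀.mul_mem (natCast_mem B₀ _) hεB) _)
      (B₀.pow_mem (B₀.algebraMap_mem w) d)) ha₁) hb₀
  rcases hconcl with ⟨a, ha, hEa⟩ | ⟨a, ha, hEa⟩
  · have hEa' : E₀ = algebraMap R C w * (a : C) := congrArg Subtype.val hEa
    have h := congrArg (co pb k1) hEa'
    rw [hcoE, hwC, co_algebraMap_mul] at h
    exact hfinal (co pb k1 (a : C)) (ha k1) 1 (Or.inl rfl) (by rw [h, one_mul])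
  · have hEa' : 1 - E₀ = algebraMap R C w * (a : C) := congrArg Subtype.val hEa
    have h := congrArg (co pb k1) hEa'
    rw [map_sub, hco1, hcoE, hwC, co_algebraMap_mul, zero_sub] at h
    refine hfinal (co pb k1 (a : C)) (ha k1) (-1) (Or.inr rfl) ?_
    rw [neg_one_mul, ← h, neg_neg]

end Main

end Fermat.Agent.S18.H394

end
-- ===== PACK-END S18/H394/KummerEndgame.lean

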