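import Mathlib
import Fermat.Prelude.Def_AlgebraicCurve_DivisorClassGroup
import Fermat.Prelude.Def_ModularCurve_LaurentCoeff
import Mathlib.Data.Nat.Factorization.Induction
import Mathlib.Algebra.Squarefree.Basic
import Mathlib.Data.Nat.Squarefree
import Fermat.Agent.Pack.S34.G0E3L1
import Fermat.Agent.Pack.S34.G0E1L3
import Fermat.Agent.Pack.S34.G0E1L2
import Fermat.Agent.Pack.S34.G0E3L3
import Fermat.Agent.Pack.S34.G0E1L1
import Fermat.Agent.Pack.S34.G0E3L0
import Fermat.Agent.Pack.S34.G0E3L2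
import Fermat.Agent.Pack.S34.G0E4L1
import Fermat.Agent.Pack.S34.G0E4L2

-- ===== PACK-BEGIN S24/FFFinite.lean
section




/-!
# S24 / FF layer: change of coordinate, residue degree one

Embedding-free algebraic core (helper804).
-/

set_option autoImplicit false

namespace Fermat.Agent.S24.FF

open AlgebraicCurve Polynomial IntermediateField

variable {K F : Type*} [Field K] [Field F] [Algebra K F]

/-- Exchange: if `F` is finite over `K(x)` and `y` is transcendental, then `F` is finite over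
`K(y)`.  (Intrinsic version of Mathlib's `finiteDimensional_of_adjoin_transcendental`.) -/
theorem finiteDimensional_adjoin_of_transcendental {x y : F} (hx : Transcendental K x)
    (hy : Transcendental K y) [hfin : FiniteDimensional K⟮x⟯ F] : FiniteDimensional K⟮y⟯ F := by
  have halg : Algebra.IsAlgebraic K⟮x⟯ F := Algebra.IsAlgebraic.of_finite _ _
  have hxy : IsAlgebraic K⟮y⟯ x :=
    isAlgebraic_adjoin_iff.mpr
      (IsAlgebraic.adjoin_singleton hx hy (isAlgebraic_adjoin_iff.mp (halg.isAlgebraic y)))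
  let Fyx := restrictScalars K K⟮y⟯⟮x⟯
  let Fxy := restrictScalars K K⟮x⟯⟮y⟯
  let : Algebra K⟮y⟯ Fyx := K⟮y⟯⟮x⟯.algebra
  let : Module K⟮y⟯ Fyx := Algebra.toModule
  let : SMul K⟮y⟯ Fyx := Algebra.toSMul
  let : Algebra K⟮x⟯ Fxy := K⟮x⟯⟮y⟯.algebra
  let : Module K⟮x⟯ Fxy := Algebra.toModule
  let : SMul K⟮x⟯ Fxy := Algebra.toSMul
  have : FiniteDimensional K⟮y⟯ Fyx :=
    adjoin.finiteDimensional (isAlgebraic_iff_isIntegral.mp hxy)
  have : FiniteDimensional Fyx F := by
    unfold Fyx
    rw [adjoin_simple_comm]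
    have : IsScalarTower K⟮x⟯ Fxy F := isScalarTower_mid' K⟮x⟯⟮y⟯
    exact .right K⟮x⟯ Fxy F
  have : IsScalarTower K⟮y⟯ Fyx F := isScalarTower_mid' K⟮y⟯⟮x⟯
  exact .trans K⟮y⟯ Fyx F

/-- In an algebraically closed field `K ⊆ F`, an element of `F` algebraic over `K` is a
constant. -/
theorem mem_range_of_isAlgebraic [IsAlgClosed K] {f : F} (hf : IsAlgebraic K f) :
    f ∈ (algebraMap K F).range := by
  have hint : IsIntegral K f := hf.isIntegral
  exact minpoly.mem_range_of_degree_eq_one K f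
    (IsAlgClosed.degree_eq_one_of_irreducible K (minpoly.irreducible hint))

/-- Non-constants are transcendental (for `K` algebraically closed). -/
theorem transcendental_of_not_mem_range [IsAlgClosed K] {f : F}
    (hf : f ∉ (algebraMap K F).range) : Transcendental K f :=
  fun h => hf (mem_range_of_isAlgebraic h)

/-- Every element integral at `v` is congruent to a constant modulo the maximal ideal. -/
theorem exists_const_sub_mem_nonunits [IsAlgClosed K] (v : Place K F) {x : F}
    (hx : Transcendental K x) [FiniteDimensional K⟮x⟯ F] {f : F}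
    (hf : f ∈ v.toValuationSubring) :
    ∃ a : K, f - algebraMap K F a ∈ v.toValuationSubring.nonunits := by
  by_cases hfK : f ∈ (algebraMap K F).range
  · obtain ⟨a, rfl⟩ := hfK
    refine ⟨a, ?_⟩
    rw [sub_self]
    exact (ValuationSubring.mem_nonunits_iff _).mpr (by simp)
  · have hft := transcendental_of_not_mem_range hfK
    have : FiniteDimensional K⟮f⟯ F := finiteDimensional_adjoin_of_transcendental hx hft
    have halg : Algebra.IsAlgebraic K⟮f⟯ F := Algebra.IsAlgebraic.of_finite _ _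
    obtain ⟨a, ha⟩ := exists_ord_sub_pos v f (ord_nonneg_of_mem v hf)
    refine ⟨a, (ord_pos_iff_mem_nonunits v ?_).mp ha⟩
    intro h0
    rw [h0, v.ord_zero] at ha
    exact lt_irrefl _ ha

end Fermat.Agent.S24.FF

namespace Fermat.Agent.S24.FF

open AlgebraicCurve Polynomial IntermediateField

variable {K F : Type*} [Field K] [Field F] [Algebra K F]

/-- **FF2.** Over an algebraically closed constant field every place of a function field of
one variable has degree one. -/
theorem deg_eq_one [IsAlgClosed K] (v : Place K F) {x : F}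
    (hx : Transcendental K x) [FiniteDimensional K⟮x⟯ F] : v.deg = 1 := by
  have hsurj : Function.Surjective (algebraMap K v.ResidueField) := by
    intro c
    obtain ⟨f, rfl⟩ := IsLocalRing.residue_surjective c
    obtain ⟨a, ha⟩ := exists_const_sub_mem_nonunits v hx f.2
    refine ⟨a, ?_⟩
    have hmem : f - algebraMap K v.toValuationSubring a ∈
        IsLocalRing.maximalIdeal v.toValuationSubring := by
      rw [← ValuationSubring.coe_mem_nonunits_iff]
      exact ha
    have h0 := (IsLocalRing.residue_eq_zero_iff _).mpr hmem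
    rw [map_sub, sub_eq_zero] at h0
    rw [h0]
    rfl
  have hbij : Function.Bijective (algebraMap K v.ResidueField) :=
    ⟨(algebraMap K v.ResidueField).injective, hsurj⟩
  show Module.finrank K v.ResidueField = 1
  rw [← Module.finrank_self K]
  exact ((AlgEquiv.ofBijective (Algebra.ofId K v.ResidueField) hbij).toLinearEquiv.finrank_eq).symm

end Fermat.Agent.S24.FF

end
-- ===== PACK-END S24/FFFinite.lean

-- ===== PACK-BEGIN S24/H117/Approx.lean
section


/-!
# S24 / H117 — a weak approximation lemma for places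

For a place `v` and a finite set `s` of places not containing `v`, there is `f : F` with
`v.ord f < 0` and `0 < w.ord f` for all `w ∈ s`.
-/

set_option autoImplicit false

noncomputable section

open AlgebraicCurve

namespace Fermat.Agent.S24.H117

variable {K F : Type*} [Field K] [Field F] [Algebra K F]

/-- Two distinct places are separated by a function. -/
theorem exists_ord_pos_neg {v w : Place K F} (h : v ≠ w) :
    ∃ y : F, 0 < v.ord y ∧ w.ord y < 0 := by
  have h1 : ∃ a : F, 0 ≤ v.ord a ∧ w.ord a < 0 := by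
    by_contra hcon
    push Not at hcon
    exact h (place_ext_of_le hcon)
  have h2 : ∃ b : F, 0 ≤ w.ord b ∧ v.ord b < 0 := by
    by_contra hcon
    push Not at hcon
    exact h (place_ext_of_le hcon).symm
  obtain ⟨a, ha1, ha2⟩ := h1
  obtain ⟨b, hb1, hb2⟩ := h2
  have ha0 : a ≠ 0 := ne_zero_of_ord_ne_zero w ha2.ne
  have hb0 : b ≠ 0 := ne_zero_of_ord_ne_zero v hb2.ne
  refine ⟨a / b, ?_, ?_⟩
  · rw [ord_div v ha0 hb0]; omega
  · rw [ord_div w ha0 hb0]; omega

/-- There is a function with a zero at `v` and poles at all places of `s`. -/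
theorem exists_ord_pos_forall_neg (v : Place K F) (s : Finset (Place K F)) (hv : v ∉ s) :
    ∃ u : F, 0 < v.ord u ∧ ∀ w ∈ s, w.ord u < 0 := by
  classical
  induction s using Finset.induction_on with
  | empty =>
    obtain ⟨π, -, hπ⟩ := exists_ord_eq_one v
    exact ⟨π, by omega, by simp⟩
  | insert w s hw ih =>
    have hvs : v ∉ s := fun h => hv (Finset.mem_insert_of_mem h)
    have hvw : v ≠ w := fun h => hv (h ▸ Finset.mem_insert_self _ _)
    obtain ⟨u, hu1, hu2⟩ := ih hvs
    by_cases hwu : w.ord u < 0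
    · refine ⟨u, hu1, fun w' hw' => ?_⟩
      rcases Finset.mem_insert.mp hw' with rfl | h
      · exact hwu
      · exact hu2 w' h
    · push Not at hwu
      obtain ⟨y, hy1, hy2⟩ := exists_ord_pos_neg hvw
      have hu0 : u ≠ 0 := ne_zero_of_ord_ne_zero v hu1.ne'
      have hy0 : y ≠ 0 := ne_zero_of_ord_ne_zero v hy1.ne'
      -- choose a large exponent
      obtain ⟨N, hN1, hNbig⟩ : ∃ N : ℕ, 1 ≤ N ∧ ∀ w' ∈ s, (w'.ord u).natAbs < N := by
        refine ⟨1 + ∑ w' ∈ s, (w'.ord u).natAbs, by omega, fun w' hw' => ?_⟩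
        have := Finset.single_le_sum (f := fun w' : Place K F => (w'.ord u).natAbs)
          (fun _ _ => Nat.zero_le _) hw'
        have h2 : (w'.ord u).natAbs ≤ ∑ w' ∈ s, (w'.ord u).natAbs := this
        omega
      have hyN0 : y ^ N ≠ 0 := pow_ne_zero _ hy0
      have hwlt : w.ord (y ^ N) < w.ord u := by
        rw [ord_pow]
        have : (N : ℤ) * w.ord y < 0 := by
          have : (1 : ℤ) ≤ N := by exact_mod_cast hN1
          nlinarith
        omega
      have hsum_w : w.ord (u + y ^ N) = w.ord (y ^ N) := by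
        rw [add_comm]
        exact ord_add_eq_of_lt w hwlt hyN0
      have hne : u + y ^ N ≠ 0 := by
        apply ne_zero_of_ord_ne_zero w
        rw [hsum_w, ord_pow]
        have : (1 : ℤ) ≤ N := by exact_mod_cast hN1
        nlinarith
      refine ⟨u + y ^ N, ?_, fun w' hw' => ?_⟩
      · have := ord_add_ge v hne
        have h2 : 0 < v.ord (y ^ N) := by
          rw [ord_pow]
          have : (1 : ℤ) ≤ N := by exact_mod_cast hN1
          nlinarith
        have : 0 < min (v.ord u) (v.ord (y ^ N)) := lt_min hu1 h2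
        omega
      · rcases Finset.mem_insert.mp hw' with rfl | h
        · rw [hsum_w, ord_pow]
          have : (1 : ℤ) ≤ N := by exact_mod_cast hN1
          nlinarith
        · have hu' := hu2 w' h
          have hbig := hNbig w' h
          have hneq : w'.ord (y ^ N) ≠ w'.ord u := by
            rw [ord_pow]
            intro heq
            rcases eq_or_ne (w'.ord y) 0 with h0 | h0
            · rw [h0, mul_zero] at heq
              omega
            · have h1 : (w'.ord u).natAbs = N * (w'.ord y).natAbs := by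
                rw [← heq, Int.natAbs_mul, Int.natAbs_natCast]
              have h2 : 1 ≤ (w'.ord y).natAbs := Int.natAbs_pos.mpr h0
              have h3 : N ≤ N * (w'.ord y).natAbs := Nat.le_mul_of_pos_right N h2
              omega
          rcases lt_or_gt_of_ne hneq with hlt | hgt
          · rw [add_comm, ord_add_eq_of_lt w' hlt hyN0]
            omega
          · rw [ord_add_eq_of_lt w' hgt hu0]
            exact hu'

/-- **Weak approximation (the form we need).** -/
theorem exists_ord_neg_forall_pos (v : Place K F) (s : Finset (Place K F)) (hv : v ∉ s) :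
    ∃ f : F, v.ord f < 0 ∧ ∀ w ∈ s, 0 < w.ord f := by
  obtain ⟨u, hu1, hu2⟩ := exists_ord_pos_forall_neg v s hv
  refine ⟨u⁻¹, ?_, fun w hw => ?_⟩
  · rw [v.ord_inv]; omega
  · rw [w.ord_inv]
    have := hu2 w hw
    omega

end Fermat.Agent.S24.H117

end
end
-- ===== PACK-END S24/H117/Approx.lean

-- ===== PACK-BEGIN S29/H152/DescMain.lean
section
/-
S29 / DESC (helper152) — DESCENT `Ω → K` of Kummer classes (piece K3 of the S29 row plan).

Main result `desc_main`: let `K ⊆ Ω` be algebraically closed fields of characteristic `0`,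
`F₀ ⊆ ℚ((q))` a field containing a series `j₀` of order `-1` such that `Ω·F₀` has bounded degree
over `Ω(j₀)`.  If `f ∈ Ω·F₀` has a `p`-th root in `Ω((q))` and the `Aut(Ω/K)`-orbit of the class of
`f` modulo `p`-th powers of `Ω·F₀` is finite, then `f · g ^ p` has coefficients in `K` and lies in
`K·F₀` for some nonzero `g ∈ Ω·F₀`.

No places, no Riemann–Roch, no analysis: the space `W = h·(Ω·F₀) ∩ {integral over Ω[j], pole order
≤ m at the cusps}` is nonzero, stable under the finite-index stabiliser `H` of the class, and the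
orders of its nonzero elements are bounded (`descBound_order_le`); its element of maximal order
with leading coefficient `1` is fixed by `H`, so its coefficients lie in `Ω^H = K`.
-/









set_option autoImplicit false

namespace Fermat.Agent.S29.H152

open ModularCurve Polynomial

variable {K Ω : Type*} [Field K] [Field Ω] [Algebra K Ω]

theorem descMain_smul_eq (c : Ω) (v : LaurentSeries Ω) :
    c • v = algebraMap Ω (LaurentSeries Ω) c * v := by
  rw [algebraMap_laurentSeries_eq_single, HahnSeries.single_zero_mul_eq_smul]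

theorem descMain_order_coeffMap {R S : Type*} [CommRing R] [CommRing S] (φ : R →+* S)
    (hφ : Function.Injective φ) (x : LaurentSeries R) : (coeffMap φ x).order = x.order := by
  by_cases hx : x = 0
  · rw [hx, map_zero, HahnSeries.order_zero, HahnSeries.order_zero]
  have hx' : coeffMap φ x ≠ 0 := by
    intro h
    apply hx
    ext k
    have := congrArg (fun y => HahnSeries.coeff y k) h
    simp only [coeffMap_coeff, HahnSeries.coeff_zero] at this
    rw [HahnSeries.coeff_zero]
    exact hφ (by rw [this, map_zero])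
  apply le_antisymm
  · apply HahnSeries.order_le_of_coeff_ne_zero
    rw [coeffMap_coeff]
    intro h
    exact hx (HahnSeries.coeff_order_eq_zero.mp (hφ (by rw [h, map_zero])))
  · apply HahnSeries.order_le_of_coeff_ne_zero
    intro h
    apply hx'
    apply HahnSeries.coeff_order_eq_zero.mp
    rw [coeffMap_coeff, h, map_zero]

/-! ### The space `W` -/

section W

variable (F : IntermediateField Ω (LaurentSeries Ω)) (j h : LaurentSeries Ω) (m : ℕ)

/-- `W = {v ∈ h·F : v integral over Ω[j], v·j⁻ᵐ integral over Ω[j⁻¹]}`. -/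
def descW : Submodule Ω (LaurentSeries Ω) where
  carrier := {v | (∃ g ∈ F, v = h * g) ∧ IsIntegral (Algebra.adjoin Ω {j}) v ∧
      IsIntegral (Algebra.adjoin Ω {j⁻¹}) (v * j⁻¹ ^ m)}
  zero_mem' := ⟨⟨0, zero_mem _, (mul_zero h).symm⟩, isIntegral_zero, by
    rw [zero_mul]; exact isIntegral_zero⟩
  add_mem' := by
    rintro v w ⟨⟨g, hg, rfl⟩, hv1, hv2⟩ ⟨⟨g', hg', rfl⟩, hw1, hw2⟩
    refine ⟨⟨g + g', add_mem hg hg', (mul_add _ _ _).symm⟩, hv1.add hw1, ?_⟩
    rw [add_mul]
    exact hv2.add hw2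
  smul_mem' := by
    rintro c v ⟨⟨g, hg, rfl⟩, hv1, hv2⟩
    show c • (h * g) ∈ _
    rw [descMain_smul_eq]
    refine ⟨⟨algebraMap Ω _ c * g, mul_mem (F.algebraMap_mem c) hg, by ring⟩, ?_, ?_⟩
    · exact (isIntegral_algebraMap
        (x := (⟨_, Subalgebra.algebraMap_mem _ c⟩ : Algebra.adjoin Ω {j}))).mul hv1
    · rw [mul_assoc]
      exact (isIntegral_algebraMap
        (x := (⟨_, Subalgebra.algebraMap_mem _ c⟩ : Algebra.adjoin Ω {j⁻¹}))).mul hv2

variable {F j h m}

theorem mem_descW {v : LaurentSeries Ω} :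
    v ∈ descW F j h m ↔ (∃ g ∈ F, v = h * g) ∧ IsIntegral (Algebra.adjoin Ω {j}) v ∧
      IsIntegral (Algebra.adjoin Ω {j⁻¹}) (v * j⁻¹ ^ m) := Iff.rfl

end W

/-! ### The main theorem -/

section Main

variable [IsAlgClosed K] [IsAlgClosed Ω] [CharZero Ω] [Algebra ℚ K] [Algebra ℚ Ω]

open scoped IntermediateField.algebraAdjoinAdjoin in
/-- **DESCENT of Kummer classes** from `Ω` to `K`. -/
theorem desc_main (F₀ : IntermediateField ℚ (LaurentSeries ℚ))
    (j₀ : LaurentSeries ℚ) (hj₀ : j₀ ∈ F₀) (hj₀ord : j₀.order = -1) (n : ℕ)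
    (hdeg : ∀ u ∈ laurentBaseChange Ω F₀,
      IsIntegral (IntermediateField.adjoin Ω {coeffEmb Ω j₀}) u ∧
        (minpoly (IntermediateField.adjoin Ω {coeffEmb Ω j₀}) u).natDegree ≤ n)
    (p : ℕ) (hp : 0 < p) (f h : LaurentSeries Ω) (hf : f ∈ laurentBaseChange Ω F₀)
    (hf0 : f ≠ 0) (hh : h ^ p = f) (T : Set (LaurentSeries Ω)) (hT : T.Finite)
    (horb : ∀ σ : Ω ≃ₐ[K] Ω, ∃ t ∈ T, ∃ u ∈ laurentBaseChange Ω F₀, u ≠ 0 ∧
      coeffMap (σ : Ω →+* Ω) f = t * u ^ p) :
    ∃ g ∈ laurentBaseChange Ω F₀, g ≠ 0 ∧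
      IsIntegral (Algebra.adjoin Ω {coeffEmb Ω j₀}) (h * g) ∧
      (∃ m : ℕ, IsIntegral (Algebra.adjoin Ω {(coeffEmb Ω j₀)⁻¹}) (h * g * (coeffEmb Ω j₀)⁻¹ ^ m)) ∧
      (∃ v' : LaurentSeries K, h * g = coeffMap (algebraMap K Ω) v') ∧
      ∃ f' ∈ laurentBaseChange K F₀, f * g ^ p = coeffMap (algebraMap K Ω) f' := by
  classical
  set F := laurentBaseChange Ω F₀ with hFdef
  set j := coeffEmb Ω j₀ with hjdef
  have hjF : j ∈ F := coeffEmb_mem_laurentBaseChange Ω hj₀
  have hj : j.order = -1 := by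
    rw [hjdef, coeffEmb, descMain_order_coeffMap _ (algebraMap ℚ Ω).injective, hj₀ord]
  have hj0 : j ≠ 0 := descBound_j_ne_zero hj
  have hh0 : h ≠ 0 := by
    rintro rfl
    rw [zero_pow hp.ne'] at hh
    exact hf0 hh.symm
  have hFstab : ∀ (σ : Ω ≃ₐ[K] Ω) (x : LaurentSeries Ω), x ∈ F → descSig σ x ∈ F :=
    fun σ x hx => descSig_mem_laurentBaseChange F₀ σ hx
  have hσj : ∀ σ : Ω ≃ₐ[K] Ω, descSig σ j = j := fun σ => descSig_coeffEmb σ j₀
  have hσjinv : ∀ σ : Ω ≃ₐ[K] Ω, descSig σ j⁻¹ = j⁻¹ := fun σ => by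
    rw [map_inv₀, hσj]
  have hadjF : ∀ x ∈ Algebra.adjoin Ω {j}, x ∈ F := by
    intro x hx
    have hle : Algebra.adjoin Ω {j} ≤ F.toSubalgebra :=
      Algebra.adjoin_le (Set.singleton_subset_iff.mpr hjF)
    exact hle hx
  -- the stabiliser
  set H := descStab F hFstab f p with hH
  have hidx : H.index ≠ 0 := descStab_index_ne_zero F hFstab f p T hT horb
  -- a nonzero element of `W`
  obtain ⟨b, hbR, hb0, hbf⟩ : ∃ b ∈ Algebra.adjoin Ω {j}, b ≠ 0 ∧
      IsIntegral (Algebra.adjoin Ω {j}) (b * f) := by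
    have halg : IsAlgebraic (Algebra.adjoin Ω {j}) f :=
      (IsFractionRing.isAlgebraic_iff (Algebra.adjoin Ω {j})
        (IntermediateField.adjoin Ω {j}) (LaurentSeries Ω)).mpr (hdeg f hf).1.isAlgebraic
    obtain ⟨y, hy0, hy⟩ := halg.exists_integral_multiple
    refine ⟨y, y.2, fun h0 => hy0 (Subtype.ext h0), ?_⟩
    rwa [Algebra.smul_def] at hy
  have hbint : IsIntegral (Algebra.adjoin Ω {j}) b :=
    isIntegral_algebraMap (x := (⟨b, hbR⟩ : Algebra.adjoin Ω {j}))
  have hv₀int : IsIntegral (Algebra.adjoin Ω {j}) (h * b) := by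
    refine IsIntegral.of_pow hp ?_
    have : (h * b) ^ p = (b * f) * b ^ (p - 1) := by
      rw [mul_pow, hh, mul_comm f, mul_assoc, mul_comm f, ← mul_assoc, ← pow_succ',
        Nat.sub_add_cancel hp, mul_comm]
    rw [this]
    exact hbf.mul (hbint.pow _)
  obtain ⟨m, hm⟩ := descInt_exists_pow hj hv₀int
  have hv₀W : h * b ∈ descW F j h m := ⟨⟨b, hadjF b hbR, rfl⟩, hv₀int, hm⟩
  have hv₀0 : h * b ≠ 0 := mul_ne_zero hh0 hb0
  -- bounded orders
  have hbound : ∀ v ∈ descW F j h m, v ≠ 0 → v.order ≤ (m : ℤ) * ((n * p : ℕ) : ℤ) := by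
    rintro v ⟨⟨g, hg, rfl⟩, hv1, hv2⟩ hv0
    refine descBound_order_le hj m (n * p) hv0 hv1 hv2 ?_
    have hvp : (h * g) ^ p ∈ F := by
      rw [mul_pow, hh]
      exact mul_mem hf (pow_mem hg p)
    obtain ⟨hint, hdegp⟩ := hdeg _ hvp
    set E := IntermediateField.adjoin Ω {j} with hE
    have hQ0 : minpoly E ((h * g) ^ p) ≠ 0 := minpoly.ne_zero hint
    have hexp0 : Polynomial.expand E p (minpoly E ((h * g) ^ p)) ≠ 0 := by
      rwa [Ne, Polynomial.expand_eq_zero hp]
    have hroot : aeval (h * g) (Polynomial.expand E p (minpoly E ((h * g) ^ p))) = 0 := by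
      rw [Polynomial.expand_aeval, minpoly.aeval]
    have h1 := minpoly.degree_le_of_ne_zero E (h * g) hexp0 hroot
    have h2 := Polynomial.natDegree_le_natDegree h1
    rw [Polynomial.natDegree_expand] at h2
    exact h2.trans (Nat.mul_le_mul_right p hdegp)
  -- stability under `H`
  have hstab : ∀ φ ∈ {φ : Ω →+* Ω | ∃ σ ∈ H, φ = (σ : Ω →+* Ω)}, ∀ v ∈ descW F j h m,
      coeffMap φ v ∈ descW F j h m := by
    rintro φ ⟨σ, ⟨u, hu, hu0, hσ⟩, rfl⟩ v ⟨⟨g, hg, rfl⟩, hv1, hv2⟩
    show descSig σ (h * g) ∈ _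
    -- `σ h = h * (ζ u)` with `ζ` a constant
    have hhu0 : h * u ≠ 0 := mul_ne_zero hh0 hu0
    have hζ : (descSig σ h / (h * u)) ^ p = 1 := by
      rw [div_pow, ← map_pow, hh, hσ, mul_pow, hh]
      exact div_self (mul_ne_zero hf0 (pow_ne_zero _ hu0))
    obtain ⟨c, hc⟩ := descInt_mem_range_of_pow_eq_one (Ω := Ω) hp hζ
    have hσh : descSig σ h = h * (algebraMap Ω _ c * u) := by
      rw [hc, mul_comm (descSig σ h / (h * u)), ← mul_assoc, mul_div_assoc', mul_comm (h * u),
        mul_div_assoc, div_self hhu0, mul_one]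
    refine ⟨⟨algebraMap Ω _ c * u * descSig σ g,
      mul_mem (mul_mem (F.algebraMap_mem c) hu) (hFstab σ g hg), ?_⟩, ?_, ?_⟩
    · rw [map_mul, hσh]
      ring
    · exact descInt_isIntegral_map _ (descSig σ)
        (fun x hx => descInt_map_mem_adjoin (descSig σ) j (hσj σ)
          (fun c => ⟨σ c, descSig_algebraMap σ c⟩) hx) hv1
    · have h3 : descSig σ (h * g) * j⁻¹ ^ m = descSig σ (h * g * j⁻¹ ^ m) := by
        rw [map_mul (descSig σ) (h * g), map_pow, hσjinv]
      rw [h3]
      exact descInt_isIntegral_map _ (descSig σ)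
        (fun x hx => descInt_map_mem_adjoin (descSig σ) j⁻¹ (hσjinv σ)
          (fun c => ⟨σ c, descSig_algebraMap σ c⟩) hx) hv2
  -- the fixed vector
  obtain ⟨v, hvW, hv0, hvfix⟩ :=
    descEchelon_exists_fixed (descW F j h m) ⟨h * b, hv₀W, hv₀0⟩ _ hbound _ hstab
  have hcoeff : ∀ k, v.coeff k ∈ Set.range (algebraMap K Ω) := by
    intro k
    refine descAut_mem_range_of_fixed H hidx (v.coeff k) fun σ hσ => ?_
    have := congrArg (fun y => HahnSeries.coeff y k) (hvfix _ ⟨σ, hσ, rfl⟩)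
    simpa using this
  obtain ⟨v', hv'⟩ := descLin_exists_preimage v hcoeff
  obtain ⟨⟨g, hg, hvg⟩, hv1, hv2⟩ := hvW
  have hg0 : g ≠ 0 := by
    rintro rfl
    rw [mul_zero] at hvg
    exact hv0 hvg
  have hfg : f * g ^ p = coeffMap (algebraMap K Ω) (v' ^ p) := by
    rw [map_pow, hv', hvg, mul_pow, hh]
  refine ⟨g, hg, hg0, hvg ▸ hv1, ⟨m, hvg ▸ hv2⟩, ⟨v', by rw [hv', hvg]⟩, v' ^ p, ?_, hfg⟩
  apply descLin_mem_of_coeffMap_mem (Ω := Ω) F₀
  rw [← hfg]
  exact mul_mem hf (pow_mem hg p)

end Main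

end Fermat.Agent.S29.H152

end
-- ===== PACK-END S29/H152/DescMain.lean

-- ===== PACK-BEGIN S29/H942/MeroRootUnique.lean
section


/-!
# Uniqueness of meromorphic `p`-th roots up to a root of unity
-/

set_option autoImplicit false

noncomputable section

open Filter Topology Set Complex MeromorphicOn Function

namespace Fermat.Agent.S29.H942

/-- `h` is a `p`-th root of `f` on `V`, in normal form: `h` is meromorphic in normal form on `V`
and `h ^ p = f` on a punctured neighbourhood of every point of `V`. -/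
def IsNFRootOn (h f : ℂ → ℂ) (V : Set ℂ) (p : ℕ) : Prop :=
  MeromorphicNFOn h V ∧ ∀ x ∈ V, (h ^ p) =ᶠ[𝓝[≠] x] f

lemma IsNFRootOn.mono {h f : ℂ → ℂ} {V W : Set ℂ} {p : ℕ} (hh : IsNFRootOn h f V p)
    (hWV : W ⊆ V) : IsNFRootOn h f W p :=
  ⟨fun _ hz => hh.1 (hWV hz), fun x hx => hh.2 x (hWV hx)⟩

/-- Equality on a codiscrete subset of an open set gives equality on punctured neighbourhoods. -/
lemma eventuallyEq_nhdsNE_of_codiscreteWithin {f g : ℂ → ℂ} {V : Set ℂ} (hV : IsOpen V)
    (h : f =ᶠ[codiscreteWithin V] g) {x : ℂ} (hx : x ∈ V) : f =ᶠ[𝓝[≠] x] g := by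
  have h1 := (mem_codiscreteWithin_iff_forall_mem_nhdsNE.1 h) x hx
  have h2 : V ∈ 𝓝[≠] x := mem_nhdsWithin_of_mem_nhds (hV.mem_nhds hx)
  filter_upwards [h1, h2] with y hy hyV
  rcases hy with hy | hy
  · exact hy
  · exact absurd hyV hy

/-- From a meromorphic root to a root in normal form. -/
lemma isNFRootOn_toMeromorphicNFOn {h f : ℂ → ℂ} {V : Set ℂ} (hV : IsOpen V) {p : ℕ}
    (hh : MeromorphicOn h V) (hpow : (h ^ p) =ᶠ[codiscreteWithin V] f) :
    IsNFRootOn (toMeromorphicNFOn h V) f V p := by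
  refine ⟨meromorphicNFOn_toMeromorphicNFOn h V, fun x hx => ?_⟩
  have h1 := hh.toMeromorphicNFOn_eq_self_on_nhdsNE hx
  have h2 := eventuallyEq_nhdsNE_of_codiscreteWithin hV hpow hx
  filter_upwards [h1, h2] with y hy1 hy2
  simp only [Pi.pow_apply] at hy2 ⊢
  rw [hy1, hy2]

/-- The order of a root is finite if the order of the function is finite. -/
lemma IsNFRootOn.order_ne_top {h f : ℂ → ℂ} {V : Set ℂ} {p : ℕ} (hp : p ≠ 0)
    (hh : IsNFRootOn h f V p) {x : ℂ} (hx : x ∈ V) (hf : meromorphicOrderAt f x ≠ ⊤) :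
    meromorphicOrderAt h x ≠ ⊤ := by
  intro htop
  apply hf
  rw [← meromorphicOrderAt_congr (hh.2 x hx), meromorphicOrderAt_pow (hh.1 hx).meromorphicAt,
    htop]
  exact WithTop.mul_top (by exact_mod_cast hp)

/-- A root of a function of finite order does not vanish on a punctured neighbourhood. -/
lemma IsNFRootOn.eventually_ne_zero {h f : ℂ → ℂ} {V : Set ℂ} {p : ℕ} (hp : p ≠ 0)
    (hh : IsNFRootOn h f V p) {x : ℂ} (hx : x ∈ V) (hf : meromorphicOrderAt f x ≠ ⊤) :
    ∀ᶠ y in 𝓝[≠] x, h y ≠ 0 :=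
  (meromorphicOrderAt_ne_top_iff_eventually_ne_zero (hh.1 hx).meromorphicAt).1
    (hh.order_ne_top hp hx hf)

/-- A function in normal form whose `p`-th power is `1` on a punctured neighbourhood of `x` is
analytic at `x` and its `p`-th power is `1` at `x`. -/
lemma analyticAt_of_nf_pow_eq_one {q : ℂ → ℂ} {x : ℂ} {p : ℕ} (hp : p ≠ 0)
    (hq : MeromorphicNFAt q x) (hpow : (q ^ p) =ᶠ[𝓝[≠] x] (fun _ => (1 : ℂ))) :
    AnalyticAt ℂ q x ∧ q x ^ p = 1 := by
  have h1 : meromorphicOrderAt (q ^ p) x = 0 := by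
    rw [meromorphicOrderAt_congr hpow]
    have : AnalyticAt ℂ (fun _ : ℂ => (1 : ℂ)) x := analyticAt_const
    rw [this.meromorphicOrderAt_eq]
    simp [analyticOrderAt_eq_zero]
  rw [meromorphicOrderAt_pow hq.meromorphicAt] at h1
  have h2 : meromorphicOrderAt q x = 0 := by
    have hne : meromorphicOrderAt q x ≠ ⊤ := by
      intro h3
      rw [h3, WithTop.mul_top (by exact_mod_cast hp)] at h1
      exact absurd h1 (by simp)
    obtain ⟨n, hn⟩ := WithTop.ne_top_iff_exists.1 hne
    rw [← hn] at h1 ⊢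
    have h4 : (((p : ℤ) * n : ℤ) : WithTop ℤ) = 0 := by
      rw [← h1]
      push_cast
      rfl
    have h5 : (p : ℤ) * n = 0 := by exact_mod_cast h4
    have h6 : n = 0 := by
      rcases mul_eq_zero.1 h5 with h | h
      · exact absurd (by exact_mod_cast h) hp
      · exact h
    rw [h6]
    rfl
  have hA : AnalyticAt ℂ q x := hq.meromorphicOrderAt_nonneg_iff_analyticAt.1 (le_of_eq h2.symm)
  refine ⟨hA, ?_⟩
  have hc : ContinuousAt (q ^ p) x := (hA.pow p).continuousAt
  have hc1 : ContinuousAt (fun _ : ℂ => (1 : ℂ)) x := continuousAt_const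
  have := (hc.eventuallyEq_nhds_iff_eventuallyEq_nhdsNE hc1).1 hpow
  exact this.self_of_nhds

/-- **Uniqueness.** Two roots in normal form of the same function (of finite order everywhere)
on a preconnected open set differ by a `p`-th root of unity. -/
theorem IsNFRootOn.exists_eq_mul {h₁ h₂ f : ℂ → ℂ} {V : Set ℂ} {p : ℕ} (hp : p ≠ 0)
    (hV : IsOpen V) (hVc : IsPreconnected V) (hf : ∀ x ∈ V, meromorphicOrderAt f x ≠ ⊤)
    (hh₁ : IsNFRootOn h₁ f V p) (hh₂ : IsNFRootOn h₂ f V p) :
    ∃ ζ : ℂ, ζ ^ p = 1 ∧ ∀ x ∈ V, h₂ x = ζ * h₁ x := by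
  have hm₁ : MeromorphicOn h₁ V := hh₁.1.meromorphicOn
  have hm₂ : MeromorphicOn h₂ V := hh₂.1.meromorphicOn
  have hmq : MeromorphicOn (h₂ / h₁) V := hm₂.div hm₁
  set q := toMeromorphicNFOn (h₂ / h₁) V with hq
  have hqNF : MeromorphicNFOn q V := meromorphicNFOn_toMeromorphicNFOn _ _
  -- `q = h₂ / h₁` on punctured neighbourhoods
  have hq1 : ∀ x ∈ V, q =ᶠ[𝓝[≠] x] (h₂ / h₁) := fun x hx =>
    hmq.toMeromorphicNFOn_eq_self_on_nhdsNE hx
  -- `q ^ p = 1` on punctured neighbourhoods
  have hq2 : ∀ x ∈ V, (q ^ p) =ᶠ[𝓝[≠] x] (fun _ => (1 : ℂ)) := by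
    intro x hx
    filter_upwards [hq1 x hx, hh₁.2 x hx, hh₂.2 x hx, hh₁.eventually_ne_zero hp hx (hf x hx)]
      with y hy1 hy2 hy3 hy4
    simp only [Pi.pow_apply, Pi.div_apply] at hy1 hy2 hy3 ⊢
    rw [hy1, div_pow, hy2, hy3, div_self]
    rw [← hy2]
    exact pow_ne_zero p hy4
  have hq3 : ∀ x ∈ V, AnalyticAt ℂ q x ∧ q x ^ p = 1 := fun x hx =>
    analyticAt_of_nf_pow_eq_one hp (hqNF hx) (hq2 x hx)
  -- `q` is constant
  have hqc : ContinuousOn q V := fun x hx => (hq3 x hx).1.continuousAt.continuousWithinAt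
  have hT : IsDiscrete {t : ℂ | t ^ p = 1} := by
    have hfin : {t : ℂ | t ^ p = 1}.Finite := by
      refine Set.Finite.subset (Polynomial.nthRootsFinset p (1 : ℂ)).finite_toSet ?_
      intro t ht
      simp only [Finset.mem_coe]
      exact (Polynomial.mem_nthRootsFinset (Nat.pos_of_ne_zero hp) _).2 ht
    exact hfin.isDiscrete
  obtain ⟨ζ, hζ, hqζ⟩ := hVc.eqOn_const_of_mapsTo hT hqc (fun x hx => (hq3 x hx).2)
    ⟨1, by simp⟩
  have hζ0 : ζ ≠ 0 := by
    intro h0
    have hζ' : ζ ^ p = 1 := hζ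
    rw [h0, zero_pow hp] at hζ'
    exact zero_ne_one hζ'
  refine ⟨ζ, hζ, fun x hx => ?_⟩
  -- both sides are in normal form at `x` and agree on a punctured neighbourhood
  have hNF2 : MeromorphicNFAt h₂ x := hh₂.1 hx
  have hNF1 : MeromorphicNFAt ((fun _ : ℂ => ζ) • h₁) x :=
    (hh₁.1 hx).smul_analytic analyticAt_const hζ0
  have hVn : V ∈ 𝓝[≠] x := mem_nhdsWithin_of_mem_nhds (hV.mem_nhds hx)
  have heq : h₂ =ᶠ[𝓝[≠] x] ((fun _ : ℂ => ζ) • h₁) := by
    filter_upwards [hq1 x hx, hh₁.eventually_ne_zero hp hx (hf x hx), hVn] with y hy1 hy2 hyV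
    have h3 : q y = ζ := hqζ hyV
    simp only [Pi.div_apply] at hy1
    simp only [Pi.smul_apply', smul_eq_mul]
    rw [← h3, hy1, div_mul_cancel₀ _ hy2]
  have := (hNF2.eventuallyEq_nhdsNE_iff_eventuallyEq_nhds hNF1).1 heq
  simpa using this.self_of_nhds

end Fermat.Agent.S29.H942

end
end
-- ===== PACK-END S29/H942/MeroRootUnique.lean

-- ===== PACK-BEGIN S37/H700/GaussSpan.lean
section


/-!
# S37 / piece GAUSS (helper700): the integral monomials span `F̄_N` over `L(j)`
-/

set_option autoImplicit false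

noncomputable section

namespace Fermat.Agent.S37.H700

open ModularCurve HahnSeries Polynomial
open Fermat.Agent.S28 (jField intDivisorExpansions)

section IntSeries

variable (K : Type*) [Field K]

/-- Reduction/base change of an element of `ℤ[j(q^d) : d ∣ N]` lies in `K(j(q^d) : d ∣ N)`. -/
theorem coeffMap_intCast_mem_fullC (N : ℕ) {y : LaurentSeries ℤ}
    (hy : y ∈ Subring.closure (intDivisorExpansions N)) :
    coeffMap (Int.castRingHom K) y ∈ modularFunctionFieldFullC K N := by
  induction hy using Subring.closure_induction with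
  | mem x hx =>
    obtain ⟨d, hd, hdN, rfl⟩ := hx
    rw [coeffMap_qExpand, coeffMap_jqModC]
    exact jqModCd_mem_full K N hdN
  | zero => simp
  | one => simp
  | add x y _ _ hx hy => rw [map_add]; exact add_mem hx hy
  | neg x _ hx => rw [map_neg]; exact neg_mem hx
  | mul x y _ _ hx hy => rw [map_mul]; exact mul_mem hx hy

theorem smul_jField_def (c : jField K) (x : LaurentSeries K) :
    c • x = (c : LaurentSeries K) * x := rfl

end IntSeries

section Span

variable (L : Type*) [Field L] [Algebra ℚ L]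

theorem coeffEmb_evalJ (P : ℚ[X]) :
    coeffEmb L (evalJ ℚ P) = evalJ L (P.map (algebraMap ℚ L)) :=
  coeffMap_evalJ _ P

theorem coeffEmb_intCast (y : LaurentSeries ℤ) :
    coeffEmb L (coeffMap (Int.castRingHom ℚ) y) = coeffMap (Int.castRingHom L) y := by
  rw [coeffEmb, coeffMap_coeffMap]
  exact coeffMap_congr (RingHom.ext_int _ _) y

/-- `coeffEmb` maps `ℚ(j)` into `L(j)`. -/
theorem coeffEmb_mem_jField {c : LaurentSeries ℚ} (hc : c ∈ jField ℚ) :
    coeffEmb L c ∈ jField L := by
  obtain ⟨r, s, hs, hrs⟩ := exists_evalJ_of_mem_jField ℚ hc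
  have h := congrArg (coeffEmb L) hrs
  rw [map_mul, coeffEmb_evalJ, coeffEmb_evalJ] at h
  have hs' : evalJ L (s.map (algebraMap ℚ L)) ≠ 0 := by
    rw [Ne, evalJ_eq_zero_iff]
    exact (Polynomial.map_ne_zero_iff (algebraMap ℚ L).injective).mpr hs
  have : coeffEmb L c = evalJ L (r.map (algebraMap ℚ L)) * (evalJ L (s.map (algebraMap ℚ L)))⁻¹ := by
    rw [← h, mul_assoc, mul_inv_cancel₀ hs', mul_one]
  rw [this]
  exact mul_mem (evalJ_mem_jField L _) (inv_mem (evalJ_mem_jField L _))

variable {n : ℕ} (y : Fin n → LaurentSeries ℤ)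

/-- The `L(j)`-span of the base-changed monomials. -/
def spanL : Submodule (jField L) (LaurentSeries L) :=
  Submodule.span (jField L) (Set.range fun i => coeffMap (Int.castRingHom L) (y i))

theorem coeffEmb_mem_spanL {x : LaurentSeries ℚ}
    (hx : x ∈ Submodule.span (jField ℚ)
      (Set.range fun i => coeffMap (Int.castRingHom ℚ) (y i))) :
    coeffEmb L x ∈ spanL L y := by
  induction hx using Submodule.span_induction with
  | mem x hx =>
    obtain ⟨i, rfl⟩ := hx
    rw [coeffEmb_intCast]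
    exact Submodule.subset_span ⟨i, rfl⟩
  | zero => rw [map_zero]; exact zero_mem _
  | add x y _ _ hx hy => rw [map_add]; exact add_mem hx hy
  | smul c x _ hx =>
    rw [smul_jField_def, map_mul]
    exact (spanL L y).smul_mem ⟨coeffEmb L c, coeffEmb_mem_jField L c.2⟩ hx

variable (N : ℕ)
variable (hy_mem : ∀ i, y i ∈ Subring.closure (intDivisorExpansions N))
variable (hy_span : ∀ x ∈ modularFunctionFieldFull N,
      x ∈ Submodule.span (jField ℚ)
        (Set.range fun i => coeffMap (Int.castRingHom ℚ) (y i)))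

include hy_span in
theorem coeffEmb_mem_spanL_of_mem {x : LaurentSeries ℚ} (hx : x ∈ modularFunctionFieldFull N) :
    coeffEmb L x ∈ spanL L y :=
  coeffEmb_mem_spanL L y (hy_span x hx)

include hy_span in
theorem one_mem_spanL : (1 : LaurentSeries L) ∈ spanL L y := by
  have := coeffEmb_mem_spanL_of_mem L y N hy_span (one_mem (modularFunctionFieldFull N))
  rwa [map_one] at this

include hy_mem hy_span in
theorem gen_mul_gen_mem_spanL (i j : Fin n) :
    coeffMap (Int.castRingHom L) (y i) * coeffMap (Int.castRingHom L) (y j) ∈ spanL L y := by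
  rw [← coeffEmb_intCast L (y i), ← coeffEmb_intCast L (y j), ← map_mul]
  refine coeffEmb_mem_spanL_of_mem L y N hy_span (mul_mem ?_ ?_)
  · rw [← modularFunctionFieldFullC_rat]; exact coeffMap_intCast_mem_fullC ℚ N (hy_mem i)
  · rw [← modularFunctionFieldFullC_rat]; exact coeffMap_intCast_mem_fullC ℚ N (hy_mem j)

include hy_mem hy_span in
theorem mul_mem_spanL {a b : LaurentSeries L} (ha : a ∈ spanL L y) (hb : b ∈ spanL L y) :
    a * b ∈ spanL L y := by
  induction ha using Submodule.span_induction with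
  | mem a ha =>
    obtain ⟨i, rfl⟩ := ha
    induction hb using Submodule.span_induction with
    | mem b hb =>
      obtain ⟨j, rfl⟩ := hb
      exact gen_mul_gen_mem_spanL L y N hy_mem hy_span i j
    | zero => rw [mul_zero]; exact zero_mem _
    | add x z _ _ hx hz => rw [mul_add]; exact add_mem hx hz
    | smul c x _ hx =>
      rw [smul_jField_def, mul_left_comm]
      exact (spanL L y).smul_mem c hx
  | zero => rw [zero_mul]; exact zero_mem _
  | add x z _ _ hx hz => rw [add_mul]; exact add_mem hx hz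
  | smul c x _ hx =>
    rw [smul_jField_def, mul_assoc]
    exact (spanL L y).smul_mem c hx

/-- The span as a subalgebra over `L(j)`. -/
def spanAlg : Subalgebra (jField L) (LaurentSeries L) :=
  (spanL L y).toSubalgebra (one_mem_spanL L y N hy_span)
    (fun _ _ ha hb => mul_mem_spanL L y N hy_mem hy_span ha hb)

include hy_mem hy_span in
theorem inv_mem_spanL {a : LaurentSeries L} (ha : a ∈ spanL L y) : a⁻¹ ∈ spanL L y := by
  have hfg : (spanAlg L y N hy_mem hy_span).toSubmodule.FG := by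
    show (spanL L y).FG
    exact Submodule.fg_span (Set.finite_range _)
  have hint : IsIntegral (jField L) a :=
    IsIntegral.of_mem_of_fg (spanAlg L y N hy_mem hy_span) hfg a ha
  exact (spanAlg L y N hy_mem hy_span).inv_mem_of_algebraic
    (x := ⟨a, ha⟩) hint.isAlgebraic

include hy_mem hy_span in
/-- **Spanning over `L`**: every element of `F̄_N = L·F_N` is an `L(j)`-combination of the
integral monomials. -/
theorem mem_spanL_of_mem_baseChange {x : LaurentSeries L}
    (hx : x ∈ laurentBaseChange L (modularFunctionFieldFull N)) : x ∈ spanL L y := by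
  rw [mem_laurentBaseChange_iff] at hx
  induction hx using Subfield.closure_induction with
  | mem x hx =>
    rcases hx with ⟨a, rfl⟩ | ⟨z, hz, rfl⟩
    · have h1 := one_mem_spanL L y N hy_span
      have := (spanL L y).smul_mem
        (⟨algebraMap L (LaurentSeries L) a, (jField L).algebraMap_mem a⟩ : jField L) h1
      rwa [smul_jField_def, mul_one] at this
    · exact coeffEmb_mem_spanL_of_mem L y N hy_span hz
  | one => exact one_mem_spanL L y N hy_span
  | add x z _ _ hx hz => exact add_mem hx hz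
  | neg x _ hx => exact neg_mem hx
  | inv x _ hx => exact inv_mem_spanL L y N hy_mem hy_span hx
  | mul x z _ _ hx hz => exact mul_mem_spanL L y N hy_mem hy_span hx hz

end Span

end Fermat.Agent.S37.H700

end
end
-- ===== PACK-END S37/H700/GaussSpan.lean

-- ===== PACK-BEGIN S28/H88/PrimeLevel.lean
section
/-
S28 (Igusa) -- helper88: prime-level step [L2]: `j(q^p) ∉ k(j)` for `(p : k) ≠ 0`.
Inputs (explicit hypotheses): the unit polynomial `UnitPolyData p` and the θ-identity
`(θ j)^6 = Δ j^4 (j - 1728)^3` over `ℤ`.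
-/


set_option autoImplicit false

noncomputable section

open ModularCurve HahnSeries

namespace Fermat.Agent.S28

section KeyOrder

variable (k : Type*) [Field k]

/-- The coefficient of `q^{-deg P}` in `P(j)` is the leading coefficient of `P`. -/
theorem h88_coeff_aeval_jqModC (P : Polynomial k) :
    (Polynomial.aeval (jqModC k) P).coeff (-(P.natDegree : ℤ)) = P.leadingCoeff := by
  rw [Polynomial.aeval_eq_sum_range, HahnSeries.coeff_sum,
    Finset.sum_eq_single_of_mem P.natDegree (Finset.self_mem_range_succ _)]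
  · rw [Algebra.smul_def, algebraMap_laurentSeries_eq_single, HahnSeries.coeff_single_zero_mul,
      coeff_jqModC_pow_self, mul_one]; rfl
  · intro i hi hne
    have hlt : i < P.natDegree :=
      lt_of_le_of_ne (Nat.lt_succ_iff.mp (Finset.mem_range.mp hi)) hne
    rw [Algebra.smul_def, algebraMap_laurentSeries_eq_single, HahnSeries.coeff_single_zero_mul,
      coeff_jqModC_pow_of_lt k (by omega), mul_zero]

theorem h88_aeval_jqModC_injective :
    Function.Injective (Polynomial.aeval (jqModC k) : Polynomial k →ₐ[k] LaurentSeries k) := by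
  rw [injective_iff_map_eq_zero]
  intro P hP
  have h := h88_coeff_aeval_jqModC k P
  rw [hP, HahnSeries.coeff_zero] at h
  exact Polynomial.leadingCoeff_eq_zero.mp h.symm

theorem h88_order_aeval_jqModC_le {P : Polynomial k} (hP : P ≠ 0) :
    (Polynomial.aeval (jqModC k) P).order ≤ 0 := by
  have h : (Polynomial.aeval (jqModC k) P).coeff (-(P.natDegree : ℤ)) ≠ 0 := by
    rw [h88_coeff_aeval_jqModC]
    exact Polynomial.leadingCoeff_ne_zero.mpr hP
  have := HahnSeries.order_le_of_coeff_ne_zero h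
  omega

theorem h88_jqModC_mem_jField : jqModC k ∈ jField k :=
  IntermediateField.subset_adjoin k _ (Set.mem_singleton _)

/-- Chain rule: `θ` maps `k(j)` into `k(j) · θ j`. -/
theorem h88_chain_rule {x : LaurentSeries k} (hx : x ∈ jField k) :
    ∃ c ∈ jField k, thetaL k x = c * thetaL k (jqModC k) := by
  unfold jField at hx
  induction hx using IntermediateField.adjoin_induction with
  | mem x hx =>
    rw [Set.mem_singleton_iff] at hx; subst hx
    exact ⟨1, one_mem _, (one_mul _).symm⟩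
  | algebraMap c =>
    refine ⟨0, zero_mem _, ?_⟩
    rw [zero_mul, algebraMap_laurentSeries_eq_single]
    exact h88_thetaL_single_zero c
  | add x y hx hy ihx ihy =>
    obtain ⟨a, ha, hxa⟩ := ihx
    obtain ⟨b, hb, hyb⟩ := ihy
    exact ⟨a + b, add_mem ha hb, by rw [h88_thetaL_add, hxa, hyb, add_mul]⟩
  | inv x hx ih =>
    obtain ⟨a, ha, hxa⟩ := ih
    refine ⟨-a * x⁻¹ * x⁻¹, mul_mem (mul_mem (neg_mem ha) (inv_mem hx)) (inv_mem hx), ?_⟩
    by_cases hx0 : x = 0
    · subst hx0; simp [h88_thetaL_zero]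
    · have h1 : thetaL k (x * x⁻¹) = 0 := by
        rw [mul_inv_cancel₀ hx0]; exact h88_thetaL_one
      rw [h88_thetaL_mul, hxa] at h1
      have h2 : x * thetaL k x⁻¹ = -(a * thetaL k (jqModC k) * x⁻¹) :=
        eq_neg_of_add_eq_zero_right h1
      have h3 : thetaL k x⁻¹ = x⁻¹ * (x * thetaL k x⁻¹) := by
        rw [← mul_assoc, inv_mul_cancel₀ hx0, one_mul]
      rw [h3, h2]; ring
  | mul x y hx hy ihx ihy =>
    obtain ⟨a, ha, hxa⟩ := ihx
    obtain ⟨b, hb, hyb⟩ := ihy
    exact ⟨a * y + x * b, add_mem (mul_mem ha hy) (mul_mem hx hb), by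
      rw [h88_thetaL_mul, hxa, hyb]; ring⟩

end KeyOrder

section DeltaCoeff

variable (R : Type*) [CommRing R]

theorem h88_deltaL_coeff_of_le {m : ℤ} (hm : m ≤ 0) : (deltaL R).coeff m = 0 := by
  rw [deltaL, HahnSeries.coeff_single_mul, ofPowerSeries_coeff_of_neg _ (by omega), mul_zero]

theorem h88_deltaL_coeff_one : (deltaL R).coeff 1 = 1 := by
  rw [deltaL, HahnSeries.coeff_single_mul, sub_self, one_mul]
  have h := HahnSeries.ofPowerSeries_apply_coeff (Γ := ℤ)
    (dedekindEtaUnit.map (Int.castRingHom R)) 0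
  rw [Nat.cast_zero] at h
  rw [h, PowerSeries.coeff_map, PowerSeries.coeff_zero_eq_constantCoeff,
    constantCoeff_dedekindEtaUnit]
  simp

theorem h88_qExpand_deltaL_coeff_of_lt (p : ℕ) [NeZero p] {n : ℤ} (hn : n < p) :
    (qExpand R p (deltaL R)).coeff n = 0 := by
  by_cases hdvd : (p : ℤ) ∣ n
  · obtain ⟨m, rfl⟩ := hdvd
    rw [qExpand_coeff_mul]
    apply h88_deltaL_coeff_of_le
    by_contra hm
    rw [not_le] at hm
    have hp : (0 : ℤ) < p := by exact_mod_cast Nat.pos_of_ne_zero (NeZero.ne p)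
    nlinarith
  · exact qExpand_coeff_of_not_dvd p _ hdvd

end DeltaCoeff

section Transport

variable (k : Type*) [Field k]

theorem h88_coeffMap_comp_evalAt :
    (coeffMap (Int.castRingHom k)).comp (evalAt (jqModC ℤ)) = evalAt (jqModC k) := by
  apply Polynomial.ringHom_ext
  · intro a
    simp [evalAt]
  · simp [evalAt, coeffMap_jqModC]

/-- The θ-identity over `k`, transported from `ℤ`. -/
theorem h88_theta_identity_field
    (hθ : (thetaL ℤ (jqModC ℤ)) ^ 6 = deltaL ℤ * (jqModC ℤ) ^ 4 * (jqModC ℤ - 1728) ^ 3) :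
    (thetaL k (jqModC k)) ^ 6 = deltaL k * (jqModC k) ^ 4 * (jqModC k - 1728) ^ 3 := by
  have h := congrArg (coeffMap (Int.castRingHom k)) hθ
  simpa only [map_pow, map_mul, map_sub, h88_coeffMap_thetaL, coeffMap_jqModC,
    h88_coeffMap_deltaL, map_ofNat] using h

/-- The unit polynomial relation over `k`, transported from `ℤ`. -/
theorem h88_unitPoly_field (p : ℕ) [NeZero p] (W : UnitPolyData p) :
    W.W.eval₂ (evalAt (jqModC k)) ((p : LaurentSeries k) ^ 12 * unitL k p) = 0 := by
  have h := congrArg (coeffMap (Int.castRingHom k)) W.eval_unit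
  rw [Polynomial.hom_eval₂, map_zero, map_mul, map_pow, map_natCast, h88_coeffMap_unitL,
    h88_coeffMap_comp_evalAt] at h
  exact h

end Transport

section RatFuncEmbedding

variable (k : Type*) [Field k]

/-- The embedding `k(X) → k((q))`, `X ↦ j`. -/
def h88_iota : RatFunc k →ₐ[k] LaurentSeries k :=
  RatFunc.liftAlgHom (Polynomial.aeval (jqModC k))
    (nonZeroDivisors_le_comap_nonZeroDivisors_of_injective _ (h88_aeval_jqModC_injective k))

theorem h88_iota_injective : Function.Injective (h88_iota k) :=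
  RatFunc.liftAlgHom_injective _ (h88_aeval_jqModC_injective k)

theorem h88_iota_algebraMap (P : Polynomial k) :
    h88_iota k (algebraMap (Polynomial k) (RatFunc k) P) = Polynomial.aeval (jqModC k) P := by
  have h := RatFunc.liftAlgHom_apply_div (Polynomial.aeval (jqModC k))
    (nonZeroDivisors_le_comap_nonZeroDivisors_of_injective _ (h88_aeval_jqModC_injective k)) P 1
  simpa [h88_iota] using h

theorem h88_jField_le_range : jField k ≤ (h88_iota k).fieldRange := by
  unfold jField
  rw [IntermediateField.adjoin_le_iff]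
  intro x hx
  rw [Set.mem_singleton_iff] at hx
  subst hx
  exact ⟨algebraMap (Polynomial k) (RatFunc k) Polynomial.X,
    (h88_iota_algebraMap k Polynomial.X).trans (Polynomial.aeval_X _)⟩

/-- An element of `k(j)` which is a root of a monic polynomial with coefficients in the
image of `ℤ[j]` is a polynomial in `j`. -/
theorem h88_exists_poly_of_integral {w : LaurentSeries k} (hw : w ∈ jField k)
    (W : Polynomial (Polynomial ℤ)) (hW : W.Monic)
    (hroot : W.eval₂ (evalAt (jqModC k)) w = 0) :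
    ∃ P : Polynomial k, w = Polynomial.aeval (jqModC k) P := by
  obtain ⟨r, hr⟩ := h88_jField_le_range k hw
  let ψ : Polynomial ℤ →+* Polynomial k := Polynomial.mapRingHom (Int.castRingHom k)
  have hcomp : ((h88_iota k).toRingHom.comp (algebraMap (Polynomial k) (RatFunc k))).comp ψ
      = evalAt (jqModC k) := by
    apply Polynomial.ringHom_ext
    · intro a
      simp [ψ, evalAt]
    · show h88_iota k (algebraMap (Polynomial k) (RatFunc k)
          (Polynomial.map (Int.castRingHom k) Polynomial.X))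
        = Polynomial.aeval (jqModC k) Polynomial.X
      rw [Polynomial.map_X, h88_iota_algebraMap, Polynomial.aeval_X]
      exact (Polynomial.aeval_X (R := ℤ) (jqModC k)).symm
  have hint : IsIntegral (Polynomial k) r := by
    refine ⟨W.map ψ, hW.map ψ, ?_⟩
    apply h88_iota_injective k
    rw [map_zero, Polynomial.eval₂_map]
    have h2 := Polynomial.hom_eval₂ W ((algebraMap (Polynomial k) (RatFunc k)).comp ψ)
      (h88_iota k).toRingHom r
    rw [← RingHom.comp_assoc, hcomp, hr, hroot] at h2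
    exact h2
  obtain ⟨P, hP⟩ := IsIntegrallyClosed.isIntegral_iff.mp hint
  refine ⟨P, ?_⟩
  rw [← h88_iota_algebraMap, hP]
  exact hr.symm

end RatFuncEmbedding

section Main

variable (k : Type*) [Field k]

theorem h88_natCast_mem_jField (n : ℕ) : (n : LaurentSeries k) ∈ jField k :=
  natCast_mem _ n

theorem h88_natCast_ne_zero {p : ℕ} (hpk : (p : k) ≠ 0) : (p : LaurentSeries k) ≠ 0 := by
  have h : (p : LaurentSeries k) = algebraMap k (LaurentSeries k) (p : k) :=
    (map_natCast _ p).symm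
  rw [h]
  exact (map_ne_zero (algebraMap k (LaurentSeries k))).mpr hpk

theorem h88_deltaL_ne_zero : deltaL k ≠ 0 := by
  intro h
  have := h88_deltaL_coeff_one k
  rw [h, HahnSeries.coeff_zero] at this
  exact zero_ne_one this

theorem h88_qExpand_jqModC_coeff (p : ℕ) [NeZero p] :
    (qExpand k p (jqModC k)).coeff (-(p : ℤ)) = 1 := by
  have h := qExpand_coeff_mul (R := k) p (jqModC k) (-1)
  rw [coeff_jqModC_neg_one] at h
  rw [← h]
  congr 1
  ring

/-- **[L2]** For `(p : k) ≠ 0`, `p > 1`: `j(q^p) ∉ k(j)`. -/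
theorem h88_jp_not_mem_jField (p : ℕ) [NeZero p] (hpk : (p : k) ≠ 0) (hp1 : 1 < p)
    (W : UnitPolyData p)
    (hθ : (thetaL ℤ (jqModC ℤ)) ^ 6 = deltaL ℤ * (jqModC ℤ) ^ 4 * (jqModC ℤ - 1728) ^ 3) :
    qExpand k p (jqModC k) ∉ jField k := by
  intro hmem
  have hθk := h88_theta_identity_field k hθ
  have hjmem := h88_jqModC_mem_jField k
  have hp0 : (p : LaurentSeries k) ≠ 0 := h88_natCast_ne_zero k hpk
  have hpmem : (p : LaurentSeries k) ∈ jField k := h88_natCast_mem_jField k p
  have h1728 : (1728 : LaurentSeries k) ∈ jField k := by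
    have := h88_natCast_mem_jField k 1728
    rwa [Nat.cast_ofNat] at this
  have hd := h88_deltaL_mul_deltaInvL k
  obtain ⟨c, hc, hcj⟩ := h88_chain_rule k hmem
  have h1 : thetaL k (qExpand k p (jqModC k))
      = (p : LaurentSeries k) * qExpand k p (thetaL k (jqModC k)) :=
    h88_thetaL_qExpand p (jqModC k)
  have hVθ : (qExpand k p (thetaL k (jqModC k))) ^ 6
      = qExpand k p (deltaL k) * (qExpand k p (jqModC k)) ^ 4
        * (qExpand k p (jqModC k) - 1728) ^ 3 := by
    have h := congrArg (qExpand k p) hθk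
    simpa only [map_pow, map_mul, map_sub, map_ofNat] using h
  have h2 : (p : LaurentSeries k) ^ 6 * (qExpand k p (deltaL k) * (qExpand k p (jqModC k)) ^ 4
        * (qExpand k p (jqModC k) - 1728) ^ 3)
      = c ^ 6 * (deltaL k * (jqModC k) ^ 4 * (jqModC k - 1728) ^ 3) := by
    rw [← hVθ, ← hθk, ← mul_pow, ← mul_pow, ← h1, hcj]
  have h3 : (p : LaurentSeries k) ^ 6 * unitL k p * ((qExpand k p (jqModC k)) ^ 4
        * (qExpand k p (jqModC k) - 1728) ^ 3)
      = c ^ 6 * ((jqModC k) ^ 4 * (jqModC k - 1728) ^ 3) := by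
    have h : (p : LaurentSeries k) ^ 6 * (qExpand k p (deltaL k) * (qExpand k p (jqModC k)) ^ 4
              * (qExpand k p (jqModC k) - 1728) ^ 3) * deltaInvL k
        = c ^ 6 * (deltaL k * (jqModC k) ^ 4 * (jqModC k - 1728) ^ 3) * deltaInvL k := by
      rw [h2]
    unfold unitL
    calc _ = (p : LaurentSeries k) ^ 6 * (qExpand k p (deltaL k) * (qExpand k p (jqModC k)) ^ 4
              * (qExpand k p (jqModC k) - 1728) ^ 3) * deltaInvL k := by ring
      _ = c ^ 6 * (deltaL k * (jqModC k) ^ 4 * (jqModC k - 1728) ^ 3) * deltaInvL k := h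
      _ = c ^ 6 * ((jqModC k) ^ 4 * (jqModC k - 1728) ^ 3) * (deltaL k * deltaInvL k) := by ring
      _ = _ := by rw [hd, mul_one]
  have hp_neg : (-(p : ℤ)) ≠ 0 := by
    have : (0 : ℤ) < p := by exact_mod_cast Nat.pos_of_ne_zero (NeZero.ne p)
    omega
  have hVj : qExpand k p (jqModC k) ≠ 0 := by
    intro h
    have := h88_qExpand_jqModC_coeff k p
    rw [h, HahnSeries.coeff_zero] at this
    exact zero_ne_one this
  have hVj' : qExpand k p (jqModC k) - 1728 ≠ 0 := by
    intro h
    have h4 := h88_qExpand_jqModC_coeff k p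
    have h5 : qExpand k p (jqModC k) = ((1728 : ℕ) : LaurentSeries k) := by
      rw [Nat.cast_ofNat]; exact sub_eq_zero.mp h
    have h6 : ((1728 : ℕ) : LaurentSeries k) = HahnSeries.single 0 ((1728 : ℕ) : k) := by
      rw [← algebraMap_laurentSeries_eq_single, map_natCast]
    rw [h5, h6, HahnSeries.coeff_single_of_ne hp_neg] at h4
    exact zero_ne_one h4
  have hden : (p : LaurentSeries k) ^ 6 * ((qExpand k p (jqModC k)) ^ 4
        * (qExpand k p (jqModC k) - 1728) ^ 3) ≠ 0 :=
    mul_ne_zero (pow_ne_zero _ hp0) (mul_ne_zero (pow_ne_zero _ hVj) (pow_ne_zero _ hVj'))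
  have hu : unitL k p ∈ jField k := by
    have h : unitL k p = c ^ 6 * ((jqModC k) ^ 4 * (jqModC k - 1728) ^ 3)
        * ((p : LaurentSeries k) ^ 6 * ((qExpand k p (jqModC k)) ^ 4
          * (qExpand k p (jqModC k) - 1728) ^ 3))⁻¹ := by
      rw [eq_mul_inv_iff_mul_eq₀ hden, ← h3]; ring
    rw [h]
    exact mul_mem (mul_mem (pow_mem hc 6)
      (mul_mem (pow_mem hjmem 4) (pow_mem (sub_mem hjmem h1728) 3)))
      (inv_mem (mul_mem (pow_mem hpmem 6)
        (mul_mem (pow_mem hmem 4) (pow_mem (sub_mem hmem h1728) 3))))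
  have hw : (p : LaurentSeries k) ^ 12 * unitL k p ∈ jField k :=
    mul_mem (pow_mem hpmem 12) hu
  obtain ⟨P, hP⟩ := h88_exists_poly_of_integral k hw W.W W.monic (h88_unitPoly_field k p W)
  -- order contradiction
  have hwΔ : Polynomial.aeval (jqModC k) P * deltaL k
      = (p : LaurentSeries k) ^ 12 * qExpand k p (deltaL k) := by
    rw [← hP]
    unfold unitL
    calc _ = (p : LaurentSeries k) ^ 12 * qExpand k p (deltaL k) * (deltaL k * deltaInvL k) := by
          ring
      _ = _ := by rw [hd, mul_one]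
  have hVΔ : qExpand k p (deltaL k) ≠ 0 := fun h =>
    h88_deltaL_ne_zero k (qExpand_injective p (by rw [h, map_zero]))
  have hrhs : (p : LaurentSeries k) ^ 12 * qExpand k p (deltaL k) ≠ 0 :=
    mul_ne_zero (pow_ne_zero _ hp0) hVΔ
  have hP0 : P ≠ 0 := by
    intro h
    rw [h, map_zero, zero_mul] at hwΔ
    exact hrhs hwΔ.symm
  have hPj : Polynomial.aeval (jqModC k) P ≠ 0 := fun h =>
    hP0 (h88_aeval_jqModC_injective k (by rw [h, map_zero]))
  have hord : (Polynomial.aeval (jqModC k) P * deltaL k).order ≤ 1 := by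
    rw [HahnSeries.order_mul hPj (h88_deltaL_ne_zero k)]
    have ha := h88_order_aeval_jqModC_le k hP0
    have hb : (deltaL k).order ≤ 1 := HahnSeries.order_le_of_coeff_ne_zero (by
      rw [h88_deltaL_coeff_one]; exact one_ne_zero)
    omega
  have hne : (Polynomial.aeval (jqModC k) P * deltaL k).coeff
      (Polynomial.aeval (jqModC k) P * deltaL k).order ≠ 0 := by
    rw [Ne, HahnSeries.coeff_order_eq_zero]
    exact mul_ne_zero hPj (h88_deltaL_ne_zero k)
  have hlt : (Polynomial.aeval (jqModC k) P * deltaL k).order < (p : ℤ) := by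
    have : (1 : ℤ) < p := by exact_mod_cast hp1
    omega
  have hzero : ∀ n : ℤ, n < p →
      ((p : LaurentSeries k) ^ 12 * qExpand k p (deltaL k)).coeff n = 0 := by
    intro n hn
    rw [← Nat.cast_pow, ← nsmul_eq_mul, HahnSeries.coeff_smul,
      h88_qExpand_deltaL_coeff_of_lt k p hn, smul_zero]
  rw [hwΔ] at hne hlt
  exact hne (hzero _ hlt)

end Main

end Fermat.Agent.S28

end

end
-- ===== PACK-END S28/H88/PrimeLevel.lean

-- ===== PACK-BEGIN S28/H685/JPrinciple.lean
section



/-!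
# S28 helper (helper685): the `j`-polynomial principle (abstract Hauptmodul form)

A function on `ℍ` which is the sum of a convergent Laurent series in `q = exp (2 π i τ)` with
finitely many negative exponents and which is invariant under `τ ↦ -1/τ` is a polynomial in any
"Hauptmodul" `j` (an `S`-invariant function with a convergent expansion `q⁻¹ + O(1)`), and the
same identity holds for the formal Laurent series.
-/

set_option autoImplicit false

namespace Fermat.Agent.S28.H685

open UpperHalfPlane Function Complex Filter HahnSeries ModularForm SlashInvariantForm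
  ModularFormClass
open scoped Topology Manifold MatrixGroups

noncomputable section

local notation "𝕢" => Periodic.qParam

/-- Weight-zero slash invariance is invariance. -/
theorem slash_zero_eq_of_invariant (F : ℍ → ℂ) (γ : SL(2, ℤ))
    (hγ : ∀ τ, F (γ • τ) = F τ) : F ∣[(0 : ℤ)] γ = F := by
  ext z
  rw [SL_slash_apply]
  simp only [neg_zero, zpow_zero, mul_one]
  exact hγ z

/-- A holomorphic function, bounded at `i∞` and invariant under `S` and `T`, as a modular form
of weight zero and level one. -/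
def levelOneOfInvariant (F : ℍ → ℂ) (hol : MDiff F) (bdd : IsBoundedAtImInfty F)
    (hS : ∀ τ, F (ModularGroup.S • τ) = F τ) (hT : ∀ τ, F (ModularGroup.T • τ) = F τ) :
    ModularForm 𝒮ℒ 0 where
  toFun := F
  slash_action_eq' A hA := by
    obtain ⟨A, rfl⟩ := hA
    exact slash_action_generators_SL2Z (slash_zero_eq_of_invariant F _ hS)
      (slash_zero_eq_of_invariant F _ hT) A
  holo' := hol
  bdd_at_cusps' hc := by
    rw [Subgroup.IsArithmetic.isCusp_iff_isCusp_SL2Z] at hc
    rw [OnePoint.isBoundedAt_iff_forall_SL2Z hc]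
    intro γ _
    rw [slash_action_generators_SL2Z (slash_zero_eq_of_invariant F _ hS)
      (slash_zero_eq_of_invariant F _ hT)]
    exact bdd

/-- A holomorphic function on `ℍ`, bounded at `i∞` and invariant under `S` and `T`, is
constant. -/
theorem exists_const_of_invariant (F : ℍ → ℂ) (hol : MDiff F) (bdd : IsBoundedAtImInfty F)
    (hS : ∀ τ, F (ModularGroup.S • τ) = F τ) (hT : ∀ τ, F (ModularGroup.T • τ) = F τ) :
    ∃ c : ℂ, ∀ τ, F τ = c := by
  obtain ⟨c, hc⟩ := levelOne_weight_zero_const (levelOneOfInvariant F hol bdd hS hT)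
  exact ⟨c, fun τ => congrFun hc τ⟩

/-- Invariance under `T` of a function given by a `q`-series of period one. -/
theorem HasQLaurent.T_invariant {F : ℍ → ℂ} {φ : LaurentSeries ℂ} (hF : HasQLaurent 1 F φ)
    (τ : ℍ) : F (ModularGroup.T • τ) = F τ := by
  refine hF.vadd_period one_pos τ _ ?_
  rw [UpperHalfPlane.modular_T_smul]
  simp [add_comm]

/-- A Laurent series without negative exponents is a power series. -/
theorem exists_ofPowerSeries_eq (φ : LaurentSeries ℂ) (hφ : ∀ n : ℤ, n < 0 → φ.coeff n = 0) :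
    ∃ A : PowerSeries ℂ, HahnSeries.ofPowerSeries ℤ ℂ A = φ := by
  refine ⟨PowerSeries.mk fun n => φ.coeff n, ?_⟩
  ext n
  rcases lt_or_ge n 0 with hn | hn
  · rw [ofPS_coeff_of_neg _ hn, hφ n hn]
  · lift n to ℕ using hn
    rw [HahnSeries.ofPowerSeries_apply_coeff, PowerSeries.coeff_mk]

/-- The constant case of the principle. -/
theorem exists_const_of_S_invariant (F : ℍ → ℂ) (φ : LaurentSeries ℂ)
    (hφ : ∀ n : ℤ, n < 0 → φ.coeff n = 0) (hF : HasQLaurent 1 F φ)
    (hS : ∀ τ, F (ModularGroup.S • τ) = F τ) :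
    ∃ c : ℂ, φ = HahnSeries.C c ∧ ∀ τ, F τ = c := by
  obtain ⟨A, rfl⟩ := exists_ofPowerSeries_eq φ hφ
  have hA : HasQExp 1 F A := hF.hasQExp_of_ofPowerSeries
  obtain ⟨c, hc⟩ := exists_const_of_invariant F (hA.mdifferentiable one_pos)
    (hA.isBoundedAtImInfty one_pos) hS hF.T_invariant
  refine ⟨c, ?_, hc⟩
  have h1 : HasQLaurent 1 (fun _ => c) (HahnSeries.ofPowerSeries ℤ ℂ A) := hF.congr_fun hc
  exact h1.unique one_pos (HasQLaurent.const c)

/-- Structure of the powers of a series `q⁻¹ (1 + O(q))`. -/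
theorem hauptmodul_pow (J : PowerSeries ℂ) (n : ℕ) :
    (HahnSeries.single (-1 : ℤ) (1 : ℂ) * HahnSeries.ofPowerSeries ℤ ℂ J) ^ n =
      HahnSeries.single (-(n : ℤ)) (1 : ℂ) * HahnSeries.ofPowerSeries ℤ ℂ (J ^ n) := by
  have h : n • (-1 : ℤ) = -(n : ℤ) := by simp
  rw [mul_pow, HahnSeries.single_pow, one_pow, h, ← map_pow]

theorem coeff_hauptmodul_pow_self (J : PowerSeries ℂ) (hJ : PowerSeries.constantCoeff J = 1)
    (n : ℕ) :
    ((HahnSeries.single (-1 : ℤ) (1 : ℂ) * HahnSeries.ofPowerSeries ℤ ℂ J) ^ n).coeff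
      (-(n : ℤ)) = 1 := by
  rw [hauptmodul_pow]
  have := coeff_single_mul_ofPS (-(n : ℤ)) (J ^ n) 0
  simp only [Nat.cast_zero, zero_add] at this
  rw [this, PowerSeries.coeff_zero_eq_constantCoeff, map_pow, hJ, one_pow]

theorem coeff_hauptmodul_pow_of_lt (J : PowerSeries ℂ) (n : ℕ) {k : ℤ} (hk : k < -(n : ℤ)) :
    ((HahnSeries.single (-1 : ℤ) (1 : ℂ) * HahnSeries.ofPowerSeries ℤ ℂ J) ^ n).coeff k = 0 := by
  rw [hauptmodul_pow]
  exact coeff_single_mul_ofPS_of_lt _ _ hk

/-- **The `j`-polynomial principle**, abstract form. -/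
theorem exists_polynomial_of_S_invariant_aux
    (jF : ℍ → ℂ) (J : PowerSeries ℂ) (hJ0 : PowerSeries.constantCoeff J = 1)
    (hj : HasQLaurent 1 jF (HahnSeries.single (-1 : ℤ) (1 : ℂ) * HahnSeries.ofPowerSeries ℤ ℂ J))
    (hjS : ∀ τ, jF (ModularGroup.S • τ) = jF τ) :
    ∀ (m : ℕ) (F : ℍ → ℂ) (φ : LaurentSeries ℂ), (∀ n : ℤ, n < -(m : ℤ) → φ.coeff n = 0) →
      HasQLaurent 1 F φ → (∀ τ, F (ModularGroup.S • τ) = F τ) →
      ∃ P : Polynomial ℂ, P.natDegree ≤ m ∧
        φ = Polynomial.aeval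
          (HahnSeries.single (-1 : ℤ) (1 : ℂ) * HahnSeries.ofPowerSeries ℤ ℂ J) P ∧
        ∀ τ, F τ = P.eval (jF τ) := by
  intro m
  induction m with
  | zero =>
    intro F φ hφ hF hS
    obtain ⟨c, hc, hFc⟩ := exists_const_of_S_invariant F φ (by simpa using hφ) hF hS
    refine ⟨Polynomial.C c, by simp, ?_, fun τ => by simpa using hFc τ⟩
    rw [hc, Polynomial.aeval_C, algebraMap_eq_C]
  | succ m ih =>
    intro F φ hφ hF hS
    set jφ := HahnSeries.single (-1 : ℤ) (1 : ℂ) * HahnSeries.ofPowerSeries ℤ ℂ J with hjφ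
    set a := φ.coeff (-((m + 1 : ℕ) : ℤ)) with ha
    have hF' : HasQLaurent 1 (fun τ => F τ - a * jF τ ^ (m + 1))
        (φ - HahnSeries.C a * jφ ^ (m + 1)) := hF.sub ((hj.pow (m + 1)).const_mul a)
    have hS' : ∀ τ, (fun τ => F τ - a * jF τ ^ (m + 1)) (ModularGroup.S • τ) =
        (fun τ => F τ - a * jF τ ^ (m + 1)) τ := by
      intro τ
      simp only [hS τ, hjS τ]
    have hφ' : ∀ n : ℤ, n < -(m : ℤ) → (φ - HahnSeries.C a * jφ ^ (m + 1)).coeff n = 0 := by
      intro n hn
      rw [HahnSeries.coeff_sub, HahnSeries.C_mul_eq_smul, HahnSeries.coeff_smul, smul_eq_mul]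
      rcases lt_or_eq_of_le (show n ≤ -((m + 1 : ℕ) : ℤ) by push_cast; omega) with h1 | h1
      · rw [hφ n h1, coeff_hauptmodul_pow_of_lt J (m + 1) h1, mul_zero, sub_zero]
      · rw [h1, coeff_hauptmodul_pow_self J hJ0 (m + 1), mul_one, ← ha, sub_self]
    obtain ⟨P, hPdeg, hPφ, hPF⟩ := ih _ _ hφ' hF' hS'
    refine ⟨P + Polynomial.C a * Polynomial.X ^ (m + 1), ?_, ?_, ?_⟩
    · refine (Polynomial.natDegree_add_le _ _).trans (max_le (hPdeg.trans (Nat.le_succ m)) ?_)
      exact (Polynomial.natDegree_C_mul_X_pow_le a (m + 1))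
    · rw [map_add, ← hPφ, map_mul, map_pow, Polynomial.aeval_X, Polynomial.aeval_C,
        algebraMap_eq_C]
      ring
    · intro τ
      have := hPF τ
      simp only [Polynomial.eval_add, Polynomial.eval_mul, Polynomial.eval_C,
        Polynomial.eval_pow, Polynomial.eval_X]
      rw [← this]
      ring

end

end Fermat.Agent.S28.H685

end
-- ===== PACK-END S28/H685/JPrinciple.lean

-- ===== PACK-BEGIN S18/Mod/H216/QepAbs.lean
section



/-!
# S18 / MOD (helper216): the q-expansion principle, ABSTRACT form (Mathlib-only + Lemma M)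

Setting of `Alg/Spec.lean`: `R ⊆ Ec ⊆ Fc ⊆ Ω`, Gauss valuation ring `V`, uniformiser `w`,
coordinate `x`.  For `t ∈ {x, x⁻¹}` a **denominator statement**

    `Den t` : ∀ f ∈ Fc ∩ V, ∃ s ∈ R[t], s ∉ wV, s·f integral over R[t]

implies the q-expansion principle on the chart `R[t]` (`qep_of_den`; Lemma M of S28/H806).
`den_inv_of_den` transfers `Den x` to `Den x⁻¹`, so that

    `partQep_of_den` : PartR + PartV + x ∈ V + x transcendental over R + Den x  ⟹  PartQep.
-/

set_option autoImplicit false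
set_option linter.unusedSectionVars false
set_option linter.style.haveILetI false

noncomputable section

namespace Fermat.Agent.S18.Mod.H216

open Polynomial Fermat.Agent.S18.Alg

variable {Ω : Type*} [Field Ω]

section PolyRing

variable (R : Subring Ω) (t : Ω)

/-- Evaluation `R[X] → Ω`, `X ↦ t`. -/
def evR : (↥R)[X] →+* Ω := Polynomial.eval₂RingHom R.subtype t

theorem evR_apply (p : (↥R)[X]) : evR R t p = p.eval₂ R.subtype t := rfl

theorem evR_C (r : R) : evR R t (C r) = (r : Ω) := by simp [evR]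

theorem evR_X : evR R t X = t := by simp [evR]

theorem evR_eq_sum (p : (↥R)[X]) :
    evR R t p = ∑ i ∈ Finset.range (p.natDegree + 1), ((p.coeff i : R) : Ω) * t ^ i := by
  rw [evR_apply, Polynomial.eval₂_eq_sum_range]
  rfl

theorem polyRing_eq_range : polyRing R t = (evR R t).range := by
  apply le_antisymm
  · rw [polyRing, Subring.closure_le]
    rintro u (hu | hu)
    · exact ⟨C ⟨u, hu⟩, evR_C R t _⟩
    · rw [Set.mem_singleton_iff] at hu
      rw [hu]
      exact ⟨X, evR_X R t⟩
  · rintro _ ⟨p, rfl⟩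
    rw [evR_eq_sum]
    refine sum_mem fun i _ => mul_mem ?_ (pow_mem ?_ i)
    · exact Subring.subset_closure (Or.inl (p.coeff i).2)
    · exact Subring.subset_closure (Or.inr rfl)

theorem mem_polyRing_iff {u : Ω} : u ∈ polyRing R t ↔ ∃ p : (↥R)[X], evR R t p = u := by
  rw [polyRing_eq_range]
  rfl

theorem le_polyRing : R ≤ polyRing R t := fun _ hr => Subring.subset_closure (Or.inl hr)

theorem self_mem_polyRing : t ∈ polyRing R t := Subring.subset_closure (Or.inr rfl)

theorem polyRing_le {V : Subring Ω} (hRV : R ≤ V) (ht : t ∈ V) : polyRing R t ≤ V := by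
  rw [polyRing, Subring.closure_le]
  rintro u (hu | hu)
  · exact hRV hu
  · rw [Set.mem_singleton_iff] at hu
    rw [hu]
    exact ht

/-- `R[X] ≃ R[t]` when `t` is transcendental over `R`. -/
def polyEquiv (htr : Function.Injective (evR R t)) : (↥R)[X] ≃+* ↥(polyRing R t) :=
  (RingEquiv.ofBijective (evR R t).rangeRestrict
    ⟨fun a b h => htr (congrArg Subtype.val h), (evR R t).rangeRestrict_surjective⟩).trans
    (RingEquiv.subringCongr (polyRing_eq_range R t).symm)

end PolyRing

section Main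

variable {Ec Fc : Subfield Ω} {R V : Subring Ω} {w x : Ω}

theorem dvd_total_of_partR (hR : PartR Ec R w) (a b : ↥R) :
    ∃ c : ↥R, a * c = b ∨ b * c = a := by
  by_cases ha : (a : Ω) = 0
  · refine ⟨0, Or.inr ?_⟩
    apply Subtype.ext
    simp [ha]
  by_cases hb : (b : Ω) = 0
  · refine ⟨0, Or.inl ?_⟩
    apply Subtype.ext
    simp [hb]
  have hmem : (b : Ω) * (a : Ω)⁻¹ ∈ Ec := mul_mem (hR.R_le b.2) (inv_mem (hR.R_le a.2))
  rcases hR.R_total _ hmem with h | h
  · refine ⟨⟨_, h⟩, Or.inl ?_⟩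
    apply Subtype.ext
    show (a : Ω) * ((b : Ω) * (a : Ω)⁻¹) = b
    field_simp
  · refine ⟨⟨_, h⟩, Or.inr ?_⟩
    apply Subtype.ext
    show (b : Ω) * ((b : Ω) * (a : Ω)⁻¹)⁻¹ = a
    field_simp

theorem valuationRing_of_partR (hR : PartR Ec R w) : ValuationRing ↥R :=
  haveI : PreValuationRing ↥R := ⟨dvd_total_of_partR hR⟩
  {}

end Main

section Residue

variable {Fc : Subfield Ω} {R V : Subring Ω} {w x : Ω}

/-- The ideal `wV` of `V`. -/
def wIdeal (V : Subring Ω) (w : Ω) (hw : w ∈ V) : Ideal ↥V := Ideal.span {(⟨w, hw⟩ : ↥V)}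

theorem mem_wIdeal_iff (hw : w ∈ V) (hw0 : w ≠ 0) (u : ↥V) :
    u ∈ wIdeal V w hw ↔ (u : Ω) * w⁻¹ ∈ V := by
  rw [wIdeal, Ideal.mem_span_singleton]
  constructor
  · rintro ⟨c, hc⟩
    have h1 : (u : Ω) = w * c := congrArg Subtype.val hc
    have h2 : (u : Ω) * w⁻¹ = c := by rw [h1]; field_simp
    rw [h2]
    exact c.2
  · intro h
    refine ⟨⟨_, h⟩, Subtype.ext ?_⟩
    show (u : Ω) = w * ((u : Ω) * w⁻¹)
    field_simp

theorem wIdeal_isPrime (hV : PartV Fc R V w x) (hwV : w ∈ V) (hw0 : w ≠ 0) :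
    (wIdeal V w hwV).IsPrime := by
  rw [Ideal.isPrime_iff]
  constructor
  · intro h
    have h1 : (1 : ↥V) ∈ wIdeal V w hwV := by rw [h]; trivial
    rw [mem_wIdeal_iff hwV hw0] at h1
    apply hV.w_inv_not_mem_V
    simpa using h1
  · intro a b hab
    rw [mem_wIdeal_iff hwV hw0] at hab
    rw [mem_wIdeal_iff hwV hw0, mem_wIdeal_iff hwV hw0]
    by_contra hcon
    push Not at hcon
    have ha : (a : Ω)⁻¹ ∈ V := by
      by_contra h
      exact hcon.1 (hV.V_gen a a.2 h)
    have ha0 : (a : Ω) ≠ 0 := by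
      intro h0
      apply hcon.1
      rw [h0, zero_mul]
      exact zero_mem _
    have h3 : (b : Ω) * w⁻¹ = (a : Ω)⁻¹ * (((a * b : ↥V) : Ω) * w⁻¹) := by
      push_cast
      field_simp
    exact hcon.2 (h3 ▸ mul_mem ha hab)

end Residue

section Qep

variable {Ec Fc : Subfield Ω} {R V : Subring Ω} {w x : Ω}

/-- Kernel form of the Gauss property for the chart parameter `t`: a polynomial in `t` over `R`
lying in `wV` has all its coefficients in `wR`. -/
def KernelAt (R V : Subring Ω) (w t : Ω) : Prop :=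
  ∀ p : (↥R)[X], evR R t p * w⁻¹ ∈ V → ∀ i, ((p.coeff i : ↥R) : Ω) * w⁻¹ ∈ R

/-- The denominator statement on the chart `R[t]`. -/
def DenAt (Fc : Subfield Ω) (R V : Subring Ω) (w t : Ω) : Prop :=
  ∀ f ∈ Fc, f ∈ V → ∃ s ∈ polyRing R t, s * w⁻¹ ∉ V ∧ IsIntegral (polyRing R t) (s * f)

/-- **QEP from denominators** (Lemma M). -/
theorem qep_of_den (hR : PartR Ec R w) (hV : PartV Fc R V w x) (hEF : Ec ≤ Fc) {t : Ω}
    (htV : t ∈ V) (htr : Function.Injective (evR R t)) (hker : KernelAt R V w t)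
    (hden : DenAt Fc R V w t) :
    ∀ b ∈ chart Fc R t, b * w⁻¹ ∈ V → b * w⁻¹ ∈ chart Fc R t := by
  intro b hb hbV
  have hwR := hR.w_mem
  have hwV : w ∈ V := hV.R_le_V hwR
  have hw0 := hR.w_ne_zero
  have hwF : w ∈ Fc := hEF (hR.R_le hwR)
  have hyF : b * w⁻¹ ∈ Fc := mul_mem hb.1 (inv_mem hwF)
  refine ⟨hyF, ?_⟩
  obtain ⟨s, hsP, hsV, hsint⟩ := hden _ hyF hbV
  haveI := valuationRing_of_partR hR
  haveI : IsIntegrallyClosed ↥(polyRing R t) := IsIntegrallyClosed.of_equiv (polyEquiv R t htr)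
  haveI := wIdeal_isPrime hV hwV hw0
  have hPV : polyRing R t ≤ V := polyRing_le R t hV.R_le_V htV
  let red : ↥(polyRing R t) →+* (↥V ⧸ wIdeal V w hwV) :=
    (Ideal.Quotient.mk _).comp (Subring.inclusion hPV)
  have hred : ∀ u : ↥(polyRing R t), red u = 0 ↔ (u : Ω) * w⁻¹ ∈ V := by
    intro u
    show Ideal.Quotient.mk _ (Subring.inclusion hPV u) = 0 ↔ _
    rw [Ideal.Quotient.eq_zero_iff_mem, mem_wIdeal_iff hwV hw0]
    rfl
  let ell : ↥(polyRing R t) := ⟨w, le_polyRing R t hwR⟩
  refine Fermat.Agent.S28.H806.isIntegral_of_isIntegral_smul_of_isIntegral_smul red ell ⟨s, hsP⟩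
    ?_ ?_ ?_ ?_ (b * w⁻¹) ?_ ?_
  · intro h
    exact hw0 (congrArg Subtype.val h)
  · rw [hred]
    show w * w⁻¹ ∈ V
    rw [mul_inv_cancel₀ hw0]
    exact one_mem _
  · intro u hu
    rw [hred] at hu
    obtain ⟨p, hp⟩ := (mem_polyRing_iff R t).mp u.2
    have hc := hker p (by rw [hp]; exact hu)
    have hmem : (u : Ω) * w⁻¹ ∈ polyRing R t := by
      rw [← hp, evR_eq_sum, Finset.sum_mul]
      refine sum_mem fun i _ => ?_
      have h4 : ((p.coeff i : ↥R) : Ω) * t ^ i * w⁻¹ = (((p.coeff i : ↥R) : Ω) * w⁻¹) * t ^ i := by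
        ring
      rw [h4]
      exact mul_mem (le_polyRing R t (hc i)) (pow_mem (self_mem_polyRing R t) i)
    refine ⟨⟨_, hmem⟩, Subtype.ext ?_⟩
    show (u : Ω) = w * ((u : Ω) * w⁻¹)
    field_simp
  · rw [Ne, hred]
    exact hsV
  · have h5 : ell • (b * w⁻¹) = b := by
      show w * (b * w⁻¹) = b
      field_simp
    rw [h5]
    exact hb.2
  · exact hsint

/-- The kernel property for `x` from the `gauss` field. -/
theorem kernelAt_of_gauss (hR : PartR Ec R w) (hV : PartV Fc R V w x)
    (htr : Function.Injective (evR R x)) : KernelAt R V w x := by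
  intro p hp i
  by_contra hi
  have hci : ((p.coeff i : ↥R) : Ω) ≠ 0 := by
    intro h0
    apply hi
    rw [h0, zero_mul]
    exact zero_mem _
  have hunit : ((p.coeff i : ↥R) : Ω)⁻¹ ∈ R := by
    by_contra h
    exact hi (hR.w_gen _ (p.coeff i).2 h)
  have hg := hV.gauss (p.map R.subtype) (fun k => by rw [coeff_map]; exact (p.coeff k).2)
    ⟨i, by rw [coeff_map]; exact hci, by rw [coeff_map]; exact hunit⟩
  have hev : (p.map R.subtype).eval x = evR R x p := by rw [evR_apply, eval_map]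
  rw [hev] at hg
  have hne : evR R x p ≠ 0 := by
    intro h0
    have hp0 : p = 0 := htr (by rw [h0, map_zero])
    apply hci
    rw [hp0]
    simp
  apply hV.w_inv_not_mem_V
  have h6 : w⁻¹ = (evR R x p)⁻¹ * (evR R x p * w⁻¹) := by
    field_simp
  rw [h6]
  exact mul_mem hg hp

theorem inv_mem_V_of_gauss (hV : PartV Fc R V w x) : x⁻¹ ∈ V := by
  have h1 : (1 : Ω) ∈ R := one_mem _
  have hg := hV.gauss (X : Polynomial Ω) (fun k => by
      rw [coeff_X]
      split_ifs
      · exact one_mem _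
      · exact zero_mem _)
    ⟨1, by simp, by simp [h1]⟩
  simpa using hg

/-- `p(x⁻¹) = (reflect d p)(x) · x⁻ᵈ` for `d ≥ deg p`. -/
theorem evR_inv_eq (R : Subring Ω) {x : Ω} (hx0 : x ≠ 0) (p : (↥R)[X]) (d : ℕ)
    (hd : p.natDegree ≤ d) :
    evR R x⁻¹ p = evR R x (p.reflect d) * (x⁻¹) ^ d := by
  letI : Invertible x⁻¹ := invertibleOfNonzero (inv_ne_zero hx0)
  have h := eval₂_reflect_mul_pow R.subtype x⁻¹ d p hd
  rw [invOf_eq_inv, inv_inv] at h
  rw [evR_apply, evR_apply, h]

/-- `p(x) = (reflect d p)(x⁻¹) · xᵈ` for `d ≥ deg p`. -/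
theorem evR_eq_inv (R : Subring Ω) {x : Ω} (hx0 : x ≠ 0) (p : (↥R)[X]) (d : ℕ)
    (hd : p.natDegree ≤ d) :
    evR R x p = evR R x⁻¹ (p.reflect d) * x ^ d := by
  letI : Invertible x := invertibleOfNonzero hx0
  have h := eval₂_reflect_mul_pow R.subtype x d p hd
  rw [invOf_eq_inv] at h
  rw [evR_apply, evR_apply, h]

theorem coeff_eq_coeff_reflect (p : (↥R)[X]) (d i : ℕ) :
    p.coeff i = (p.reflect d).coeff (revAt d i) := by
  rw [coeff_reflect, revAt_invol]

theorem injective_evR_inv (hx0 : x ≠ 0) (htr : Function.Injective (evR R x)) :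
    Function.Injective (evR R x⁻¹) := by
  rw [injective_iff_map_eq_zero]
  intro p hp
  rw [evR_inv_eq R hx0 p p.natDegree le_rfl] at hp
  have h1 : evR R x (p.reflect p.natDegree) = 0 := by
    rcases mul_eq_zero.mp hp with h | h
    · exact h
    · exact absurd h (pow_ne_zero _ (inv_ne_zero hx0))
  have h2 : p.reflect p.natDegree = 0 := htr (by rw [h1, map_zero])
  ext i
  rw [coeff_eq_coeff_reflect p p.natDegree i, h2]
  simp

theorem kernelAt_inv (hx0 : x ≠ 0) (hxV : x ∈ V) (hker : KernelAt R V w x) :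
    KernelAt R V w x⁻¹ := by
  intro p hp i
  rw [coeff_eq_coeff_reflect p p.natDegree i]
  apply hker
  have h0 : (x⁻¹) ^ p.natDegree * x ^ p.natDegree = 1 := by
    rw [← mul_pow, inv_mul_cancel₀ hx0, one_pow]
  have h1 : evR R x (p.reflect p.natDegree) * w⁻¹ = evR R x⁻¹ p * w⁻¹ * x ^ p.natDegree := by
    rw [evR_inv_eq R hx0 p p.natDegree le_rfl]
    calc evR R x (p.reflect p.natDegree) * w⁻¹
        = evR R x (p.reflect p.natDegree) * w⁻¹ * ((x⁻¹) ^ p.natDegree * x ^ p.natDegree) := by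
          rw [h0, mul_one]
      _ = _ := by ring
  rw [h1]
  exact mul_mem hp (pow_mem hxV _)

/-- Integral over `R[x]` ⟹ `x⁻ᴰ · z` integral over `R[x⁻¹]` for some `D`. -/
theorem exists_pow_isIntegral_inv (R : Subring Ω) {x : Ω} (hx0 : x ≠ 0) {z : Ω}
    (hz : IsIntegral (polyRing R x) z) :
    ∃ D : ℕ, IsIntegral (polyRing R x⁻¹) ((x⁻¹) ^ D * z) := by
  classical
  obtain ⟨Q, hmonic, hroot⟩ := hz
  have hcoeff : ∀ i, ∃ p : (↥R)[X], evR R x p = ((Q.coeff i : ↥(polyRing R x)) : Ω) :=
    fun i => (mem_polyRing_iff R x).mp (Q.coeff i).2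
  choose p hp using hcoeff
  set D : ℕ := ∑ i ∈ Finset.range (Q.natDegree + 1), (p i).natDegree with hD
  have hpD : ∀ i ≤ Q.natDegree, (p i).natDegree ≤ D := fun i hi =>
    Finset.single_le_sum (f := fun i => (p i).natDegree) (fun _ _ => Nat.zero_le _)
      (Finset.mem_range.mpr (Nat.lt_succ_of_le hi))
  set q : Polynomial Ω := (Q.map (algebraMap (polyRing R x) Ω)).scaleRoots ((x⁻¹) ^ D) with hq
  have hqmonic : q.Monic := (Polynomial.monic_scaleRoots_iff _).mpr (hmonic.map _)
  have hqroot : q.eval ((x⁻¹) ^ D * z) = 0 := by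
    rw [hq, Polynomial.scaleRoots_eval_mul, Polynomial.eval_map, hroot, mul_zero]
  have hxx : ∀ n : ℕ, x ^ n * (x⁻¹) ^ n = 1 := fun n => by
    rw [← mul_pow, mul_inv_cancel₀ hx0, one_pow]
  have hqcoeff : ∀ i, q.coeff i ∈ polyRing R x⁻¹ := by
    intro i
    rw [hq, Polynomial.coeff_scaleRoots, Polynomial.coeff_map, hmonic.natDegree_map]
    by_cases hi : i < Q.natDegree
    · obtain ⟨k, hk⟩ : ∃ k, Q.natDegree - i = k + 1 := ⟨Q.natDegree - i - 1, by omega⟩
      have h1 : algebraMap (polyRing R x) Ω (Q.coeff i) = evR R x (p i) := (hp i).symm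
      have h2 : evR R x (p i) * (x⁻¹) ^ D = evR R x⁻¹ ((p i).reflect D) := by
        rw [evR_eq_inv R hx0 (p i) D (hpD i hi.le), mul_assoc, hxx, mul_one]
      have h3 : algebraMap (polyRing R x) Ω (Q.coeff i) * ((x⁻¹) ^ D) ^ (Q.natDegree - i) =
          evR R x⁻¹ ((p i).reflect D) * ((x⁻¹) ^ D) ^ k := by
        rw [hk, pow_succ, h1, ← h2]
        ring
      rw [h3]
      exact mul_mem ((mem_polyRing_iff R x⁻¹).mpr ⟨_, rfl⟩)
        (pow_mem (pow_mem (self_mem_polyRing R x⁻¹) D) k)
    · rcases (not_lt.mp hi).lt_or_eq with hlt | heq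
      · rw [Polynomial.coeff_eq_zero_of_natDegree_lt hlt, map_zero, zero_mul]
        exact zero_mem _
      · rw [← heq, hmonic.coeff_natDegree, map_one, one_mul, Nat.sub_self, pow_zero]
        exact one_mem _
  have hlifts : q ∈ Polynomial.lifts (algebraMap (polyRing R x⁻¹) Ω) :=
    (Polynomial.lifts_iff_coeff_lifts q).mpr fun i => ⟨⟨q.coeff i, hqcoeff i⟩, rfl⟩
  obtain ⟨q', hq'q, -, hq'monic⟩ := Polynomial.lifts_and_natDegree_eq_and_monic hlifts hqmonic
  refine ⟨D, q', hq'monic, ?_⟩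
  rw [Polynomial.eval₂_eq_eval_map, hq'q, hqroot]

/-- Transfer of the denominator statement from the chart `R[x]` to the chart `R[x⁻¹]`. -/
theorem denAt_inv (hx0 : x ≠ 0) (hxV : x ∈ V) (hden : DenAt Fc R V w x) :
    DenAt Fc R V w x⁻¹ := by
  intro f hf hfV
  obtain ⟨s, hsP, hsV, hsint⟩ := hden f hf hfV
  obtain ⟨p, hp⟩ := (mem_polyRing_iff R x).mp hsP
  obtain ⟨D, hD⟩ := exists_pow_isIntegral_inv R hx0 hsint
  have hxx : ∀ n : ℕ, x ^ n * (x⁻¹) ^ n = 1 := fun n => by
    rw [← mul_pow, mul_inv_cancel₀ hx0, one_pow]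
  have hs1 : (x⁻¹) ^ p.natDegree * s ∈ polyRing R x⁻¹ := by
    have h1 : (x⁻¹) ^ p.natDegree * s = evR R x⁻¹ (p.reflect p.natDegree) := by
      rw [← hp, evR_eq_inv R hx0 p p.natDegree le_rfl, mul_comm, mul_assoc, hxx, mul_one]
    rw [h1]
    exact (mem_polyRing_iff R x⁻¹).mpr ⟨_, rfl⟩
  refine ⟨(x⁻¹) ^ D * ((x⁻¹) ^ p.natDegree * s),
    mul_mem (pow_mem (self_mem_polyRing R x⁻¹) D) hs1, ?_, ?_⟩
  · intro h
    apply hsV
    have h2 : s * w⁻¹ =
        x ^ D * x ^ p.natDegree * ((x⁻¹) ^ D * ((x⁻¹) ^ p.natDegree * s) * w⁻¹) := by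
      calc s * w⁻¹ = (x ^ D * (x⁻¹) ^ D) * (x ^ p.natDegree * (x⁻¹) ^ p.natDegree) * (s * w⁻¹) := by
            rw [hxx, hxx, one_mul, one_mul]
        _ = _ := by ring
    rw [h2]
    exact mul_mem (mul_mem (pow_mem hxV D) (pow_mem hxV _)) h
  · have h3 : (x⁻¹) ^ D * ((x⁻¹) ^ p.natDegree * s) * f =
        (x⁻¹) ^ p.natDegree * ((x⁻¹) ^ D * (s * f)) := by ring
    rw [h3]
    have h4 : IsIntegral (polyRing R x⁻¹) ((x⁻¹) ^ p.natDegree) :=
      isIntegral_algebraMap (R := polyRing R x⁻¹) (A := Ω)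
        (x := ⟨(x⁻¹) ^ p.natDegree, pow_mem (self_mem_polyRing R x⁻¹) _⟩)
    exact h4.mul hD

/-- **G-QEP from denominators on the finite chart.** -/
theorem partQep_of_den (hR : PartR Ec R w) (hV : PartV Fc R V w x) (hEF : Ec ≤ Fc)
    (hxV : x ∈ V) (htr : Function.Injective (evR R x)) (hden : DenAt Fc R V w x) :
    PartQep Fc R V w x := by
  have hx0 : x ≠ 0 := by
    intro h0
    have h1 : evR R x X = evR R x 0 := by rw [evR_X, map_zero, h0]
    exact X_ne_zero (htr h1)
  have hker := kernelAt_of_gauss hR hV htr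
  exact ⟨qep_of_den hR hV hEF hxV htr hker hden,
    qep_of_den hR hV hEF (inv_mem_V_of_gauss hV) (injective_evR_inv hx0 htr)
      (kernelAt_inv hx0 hxV hker) (denAt_inv hx0 hxV hden)⟩

/-- Adapter: `x` transcendental over a subfield `Lc ⊇ R` (as in `GoodModel.x_transcendental`)
gives injectivity of `R[X] → Ω`. -/
theorem injective_evR_of_transcendental {Lc : Subfield Ω} (hRL : (R : Set Ω) ⊆ Lc)
    (hx : Transcendental Lc x) : Function.Injective (evR R x) := by
  rw [injective_iff_map_eq_zero]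
  intro p hp
  let ι : ↥R →+* ↥Lc := Subring.inclusion (S := R) (T := Lc.toSubring) hRL
  have h1 : Polynomial.aeval x (p.map ι) = 0 := by
    rw [Polynomial.aeval_def, Polynomial.eval₂_map]
    exact hp
  have h2 : p.map ι = 0 := by
    by_contra hne
    exact hx ⟨_, hne, h1⟩
  exact Polynomial.map_injective ι (Subring.inclusion_injective hRL) (by rw [h2, Polynomial.map_zero])

end Qep

end Fermat.Agent.S18.Mod.H216

end
end
-- ===== PACK-END S18/Mod/H216/QepAbs.lean

-- ===== PACK-BEGIN S18/Mod/H216/Family.lean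
section


/-!
# S18 / MOD-ASM (helper216): `GoodModelStatement` from `GoodAt`

`GoodAt M A x S` : for EVERY number field `E ⊆ Q̄` the concrete objects
`(Ec M E, Fc M E, Rc M A E, V, w)` (with `V` the subring whose carrier is `VcSet M A E` and `w` some
uniformiser) form an `Alg.GoodModel`.

`goodModelStatement_of_goodAt` : the frozen MOD deliverable `Mod.GoodModelStatement M ℓ A`
(node_mod of `Integ/Skeleton.lean`) follows from `GoodAt` for every admissible coordinate.
The family is `{ all concrete good models }`; directedness is monotonicity in `E`.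
-/

set_option autoImplicit false
set_option linter.style.haveILetI false

noncomputable section

namespace Fermat.Agent.S18.Mod.H216

open ModularCurve AlgebraicCurve HahnSeries Fermat.Agent.S18 Fermat.Agent.S18.Mod

/-- The per-number-field MOD deliverable. -/
def GoodAt (M : ℕ) (A : ValuationSubring Qb) (x : Om M) (S : Finset (Om M)) : Prop :=
  ∀ E : IntermediateField ℚ Qb, FiniteDimensional ℚ E →
    ∃ (V : Subring (Om M)) (w : Om M), (V : Set (Om M)) = VcSet M A E ∧
      Alg.GoodModel (Lc M) (Ec M E) (Fc M E) (Rc M A E) V w x S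

section Mono

variable (M : ℕ) (A : ValuationSubring Qb) {E E' : IntermediateField ℚ Qb}

theorem Ec_mono (h : E ≤ E') : Ec M E ≤ Ec M E' := by
  rintro _ ⟨a, ha, rfl⟩
  exact ⟨a, h ha, rfl⟩

theorem Fc_mono (h : E ≤ E') : Fc M E ≤ Fc M E' :=
  Subfield.closure_mono (Set.union_subset_union_left _ (Ec_mono M h))

theorem Rc_mono (h : E ≤ E') : Rc M A E ≤ Rc M A E' := by
  rintro _ ⟨a, ha, rfl⟩
  exact ⟨a, ⟨ha.1, h ha.2⟩, rfl⟩

theorem IsIntE_mono (h : E ≤ E') {U : LaurentSeries A} (hU : IsIntE M A E U) :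
    IsIntE M A E' U := by
  obtain ⟨h1, f, hf, hfU⟩ := hU
  exact ⟨fun n => h (h1 n), f, Fc_mono M h hf, hfU⟩

theorem VcSet_mono (h : E ≤ E') : VcSet M A E ⊆ VcSet M A E' := by
  rintro f ⟨hf, U₁, U₂, h₁, h₂, hne, heq⟩
  exact ⟨Fc_mono M h hf, U₁, U₂, IsIntE_mono M A h h₁, IsIntE_mono M A h h₂, hne, heq⟩

end Mono

/-- Every finite set of elements of `Q̄` lies in a number field containing a given one. -/
theorem exists_finite_ge (E : IntermediateField ℚ Qb) (hE : FiniteDimensional ℚ E)
    (T : Set Qb) (hT : T.Finite) :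
    ∃ E' : IntermediateField ℚ Qb, FiniteDimensional ℚ E' ∧ E ≤ E' ∧ ∀ a ∈ T, a ∈ E' := by
  haveI := hE
  haveI : Finite T := hT
  haveI : Algebra.IsAlgebraic ℚ Qb := AlgebraicClosure.isAlgebraic ℚ
  haveI : FiniteDimensional ℚ (IntermediateField.adjoin ℚ T) :=
    IntermediateField.finiteDimensional_adjoin
      (fun x _ => (Algebra.IsAlgebraic.isAlgebraic (R := ℚ) x).isIntegral)
  refine ⟨E ⊔ IntermediateField.adjoin ℚ T, inferInstance, le_sup_left, fun a ha => ?_⟩
  exact (le_sup_right : IntermediateField.adjoin ℚ T ≤ E ⊔ IntermediateField.adjoin ℚ T)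
    (IntermediateField.subset_adjoin ℚ T ha)

/-- **MOD assembly, top step**: the frozen `GoodModelStatement` from `GoodAt`. -/
theorem goodModelStatement_of_goodAt (M ℓ : ℕ) (A : ValuationSubring Qb)
    (h : ∀ (x : Om M) (S : Finset (Om M)), IsCoordinate M ℓ x S → GoodAt M A x S) :
    GoodModelStatement M ℓ A := by
  intro x S hxS
  have hg := h x S hxS
  refine ⟨{p | ∃ E : IntermediateField ℚ Qb, FiniteDimensional ℚ E ∧ p.1 = Ec M E ∧
      p.2.1 = Fc M E ∧ p.2.2.1 = Rc M A E ∧ (p.2.2.2.1 : Set (Om M)) = VcSet M A E ∧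
      Alg.GoodModel (Lc M) p.1 p.2.1 p.2.2.1 p.2.2.2.1 p.2.2.2.2 x S}, ?_, ⟨?_, ?_⟩, ?_⟩
  · rintro p ⟨E, hE, h1, h2, h3, h4, -⟩
    exact ⟨E, hE, h1, h2, h3, h4⟩
  · rintro p ⟨E, hE, h1, h2, h3, h4, h5⟩
    exact h5
  · rintro p ⟨E, hE, h1, h2, h3, h4, h5⟩ T hT
    have hfin : {b : Qb | algebraMap Qb (Om M) b ∈ T}.Finite :=
      T.finite_toSet.preimage (Set.injOn_of_injective (algebraMap Qb (Om M)).injective)
    obtain ⟨E', hE', hle, hT'⟩ := exists_finite_ge E hE _ hfin
    obtain ⟨V', w', hV', hgood'⟩ := hg E' hE'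
    refine ⟨(Ec M E', Fc M E', Rc M A E', V', w'), ⟨E', hE', rfl, rfl, rfl, hV', hgood'⟩,
      ⟨?_, ?_, ?_, ?_⟩, ?_⟩
    · rw [h1]; exact Ec_mono M hle
    · rw [h2]; exact Fc_mono M hle
    · rw [h3]; exact Rc_mono M A hle
    · intro f hf
      have hf' : f ∈ (p.2.2.2.1 : Set (Om M)) := hf
      rw [h4] at hf'
      have := VcSet_mono M A hle hf'
      rw [← hV'] at this
      exact this
    · intro a ha
      obtain ⟨b, rfl⟩ := hT a ha
      exact ⟨b, hT' b ha, rfl⟩
  · intro T
    obtain ⟨E', hE', -, hT'⟩ := exists_finite_ge ⊥ inferInstance (T : Set Qb) T.finite_toSet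
    obtain ⟨V', w', hV', hgood'⟩ := hg E' hE'
    exact ⟨E', V', w', hE', fun a ha => hT' a ha, hV', ⟨E', hE', rfl, rfl, rfl, hV', hgood'⟩⟩

end Fermat.Agent.S18.Mod.H216

end
end
-- ===== PACK-END S18/Mod/H216/Family.lean

-- ===== PACK-BEGIN S20/Comb694/Index.lean
section





/-!
# The index of `Gamma0 N` in `SL(2,ℤ)` is the Dedekind psi function

* `index_Gamma0 : (Gamma0 N).index = ModularCurve.dedekindPsi N` (all `N`, including `N = 0`)
* `card_quotient_Gamma0 : Nat.card (SL(2,ℤ) ⧸ Gamma0 N) = ModularCurve.dedekindPsi N`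
-/

set_option autoImplicit false

namespace Fermat.Agent.S20.Comb694

open Matrix MatrixGroups CongruenceSubgroup

lemma dedekindPsi_prime_mul_of_dvd (p M : ℕ) (hp : p.Prime) (hM : M ≠ 0) (h : p ∣ M) :
    ModularCurve.dedekindPsi (p * M) = p * ModularCurve.dedekindPsi M := by
  unfold ModularCurve.dedekindPsi
  have hset : (p * M).divisors.filter Squarefree = M.divisors.filter Squarefree := by
    ext d
    simp only [Finset.mem_filter, Nat.mem_divisors]
    constructor
    · rintro ⟨⟨hd, -⟩, hsq⟩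
      refine ⟨⟨?_, hM⟩, hsq⟩
      by_cases hpd : p ∣ d
      · obtain ⟨d', rfl⟩ := hpd
        have hd' : d' ∣ M := (Nat.mul_dvd_mul_iff_left hp.pos).mp hd
        have hcop : Nat.Coprime p d' := by
          rw [Nat.Prime.coprime_iff_not_dvd hp]
          intro hpd'
          have h2 : p * p ∣ p * d' := Nat.mul_dvd_mul_left p hpd'
          have h3 := hsq p h2
          exact hp.one_lt.ne' (Nat.isUnit_iff.mp h3)
        exact Nat.Coprime.mul_dvd_of_dvd_of_dvd hcop h hd'
      · exact Nat.Coprime.dvd_of_dvd_mul_left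
          ((Nat.Prime.coprime_iff_not_dvd hp).mpr hpd).symm hd
    · rintro ⟨⟨hd, -⟩, hsq⟩
      exact ⟨⟨dvd_mul_of_dvd_right hd p, mul_ne_zero hp.ne_zero hM⟩, hsq⟩
  rw [hset, Finset.mul_sum]
  refine Finset.sum_congr rfl fun d hd => ?_
  have hd' : d ∣ M := (Nat.mem_divisors.mp (Finset.mem_filter.mp hd).1).1
  exact Nat.mul_div_assoc p hd'

lemma dedekindPsi_prime_mul_of_not_dvd (p M : ℕ) (hp : p.Prime) (hM : M ≠ 0) (h : ¬ p ∣ M) :
    ModularCurve.dedekindPsi (p * M) = (p + 1) * ModularCurve.dedekindPsi M := by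
  unfold ModularCurve.dedekindPsi
  rw [← Finset.sum_filter_add_sum_filter_not ((p * M).divisors.filter Squarefree) (fun d => p ∣ d)]
  have hset1 : ((p * M).divisors.filter Squarefree).filter (fun d => ¬ p ∣ d)
      = M.divisors.filter Squarefree := by
    ext d
    simp only [Finset.mem_filter, Nat.mem_divisors]
    constructor
    · rintro ⟨⟨⟨hd, -⟩, hsq⟩, hpd⟩
      exact ⟨⟨Nat.Coprime.dvd_of_dvd_mul_left
        ((Nat.Prime.coprime_iff_not_dvd hp).mpr hpd).symm hd, hM⟩, hsq⟩
    · rintro ⟨⟨hd, -⟩, hsq⟩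
      exact ⟨⟨⟨dvd_mul_of_dvd_right hd p, mul_ne_zero hp.ne_zero hM⟩, hsq⟩,
        fun hpd => h (dvd_trans hpd hd)⟩
  have hset2 : ((p * M).divisors.filter Squarefree).filter (fun d => p ∣ d)
      = (M.divisors.filter Squarefree).image (fun d => p * d) := by
    ext d
    simp only [Finset.mem_filter, Nat.mem_divisors, Finset.mem_image]
    constructor
    · rintro ⟨⟨⟨hd, -⟩, hsq⟩, ⟨d', rfl⟩⟩
      exact ⟨d', ⟨⟨(Nat.mul_dvd_mul_iff_left hp.pos).mp hd, hM⟩, hsq.of_mul_right⟩, rfl⟩
    · rintro ⟨d', ⟨⟨hd', -⟩, hsq'⟩, rfl⟩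
      have hcop : Nat.Coprime p d' :=
        (Nat.Prime.coprime_iff_not_dvd hp).mpr fun hpd => h (dvd_trans hpd hd')
      exact ⟨⟨⟨Nat.mul_dvd_mul_left p hd', mul_ne_zero hp.ne_zero hM⟩,
        (Nat.squarefree_mul hcop).mpr ⟨hp.prime.squarefree, hsq'⟩⟩, dvd_mul_right _ _⟩
  rw [hset1, hset2, Finset.sum_image (fun x _ y _ hxy => Nat.eq_of_mul_eq_mul_left hp.pos hxy),
    add_mul, one_mul, Finset.mul_sum, add_comm]
  congr 1
  · refine Finset.sum_congr rfl fun d hd => ?_
    have hd' : d ∣ M := (Nat.mem_divisors.mp (Finset.mem_filter.mp hd).1).1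
    exact Nat.mul_div_assoc p hd'
  · refine Finset.sum_congr rfl fun d hd => ?_
    exact Nat.mul_div_mul_left M d hp.pos

lemma Gamma0_one_eq_top : Gamma0 1 = ⊤ := by
  ext g
  simp only [Gamma0_mem, Subgroup.mem_top, iff_true]
  exact Subsingleton.elim _ _

lemma index_Gamma0_zero : (Gamma0 0).index = 0 := by
  rw [Subgroup.index]
  haveI : Infinite (SL(2, ℤ) ⧸ Gamma0 0) := by
    refine Infinite.of_injective
      (fun t : ℤ => (QuotientGroup.mk (lowRep t) : SL(2, ℤ) ⧸ Gamma0 0)) ?_
    intro t t' h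
    simp only at h
    rw [mk_eq_mk_iff] at h
    simp only [lowRep_apply_zero_zero, lowRep_apply_one_zero, Int.cast_one, one_mul,
      mul_one] at h
    have h' : ((t' - t : ℤ) : ZMod 0) = 0 := h
    have h'' := (ZMod.intCast_zmod_eq_zero_iff_dvd (t' - t) 0).mp h'
    simp only [Nat.cast_zero, zero_dvd_iff] at h''
    exact (sub_eq_zero.mp h'').symm
  exact Nat.card_eq_zero_of_infinite

lemma dedekindPsi_zero : ModularCurve.dedekindPsi 0 = 0 := by
  simp [ModularCurve.dedekindPsi]

/-- **(I1)** The index of `Γ₀(N)` in `SL(2,ℤ)` is `ψ(N)` (for `N ≠ 0`). -/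
theorem index_Gamma0_of_ne_zero (N : ℕ) (hN : N ≠ 0) :
    (Gamma0 N).index = ModularCurve.dedekindPsi N := by
  induction N using induction_on_primes with
  | zero => exact absurd rfl hN
  | one => rw [ModularCurve.dedekindPsi_one, Gamma0_one_eq_top, Subgroup.index_top]
  | prime_mul p M hp ih =>
    have hM : M ≠ 0 := fun h => hN (by rw [h, mul_zero])
    rw [← Subgroup.relIndex_mul_index (Gamma0_mul_le p M), ih hM]
    by_cases h : p ∣ M
    · rw [relIndex_Gamma0_of_dvd p M hM hp h, dedekindPsi_prime_mul_of_dvd p M hp hM h]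
    · rw [relIndex_Gamma0_of_not_dvd p M hM hp h, dedekindPsi_prime_mul_of_not_dvd p M hp hM h]

/-- **(I1)** The index of `Γ₀(N)` in `SL(2,ℤ)` is `ψ(N)` (all `N`; both sides are `0` for
`N = 0`). -/
theorem index_Gamma0 (N : ℕ) : (Gamma0 N).index = ModularCurve.dedekindPsi N := by
  rcases eq_or_ne N 0 with rfl | hN
  · rw [index_Gamma0_zero, dedekindPsi_zero]
  · exact index_Gamma0_of_ne_zero N hN

/-- **(I1)** `#(SL(2,ℤ) ⧸ Γ₀(N)) = ψ(N)`. -/
theorem card_quotient_Gamma0 (N : ℕ) :
    Nat.card (SL(2, ℤ) ⧸ Gamma0 N) = ModularCurve.dedekindPsi N :=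
  index_Gamma0 N

end Fermat.Agent.S20.Comb694

end
-- ===== PACK-END S20/Comb694/Index.lean

-- ===== PACK-BEGIN S18/H107/PolyInt.lean
section




/-!
# helper107 — S18 / M3-T : explicit monic equations (cubic, quartic) give integrality
-/

set_option autoImplicit false

namespace Fermat.Agent.S18.H107

open Polynomial Fermat.Agent.S18.Alg

variable {Ω : Type*} [Field Ω]

theorem mem_intCl_of_cubic107 (T : Subring Ω) (b a₂ a₁ a₀ : Ω) (h₂ : a₂ ∈ T) (h₁ : a₁ ∈ T)
    (h₀ : a₀ ∈ T) (h : b ^ 3 + a₂ * b ^ 2 + a₁ * b + a₀ = 0) : b ∈ intCl107 T := by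
  rw [mem_intCl107]
  refine ⟨X ^ 3 + (C (⟨a₂, h₂⟩ : T) * X ^ 2 + C (⟨a₁, h₁⟩ : T) * X + C (⟨a₀, h₀⟩ : T)),
    monic_X_pow_add (lt_of_le_of_lt degree_quadratic_le (by norm_num)), ?_⟩
  simp only [eval₂_add, eval₂_mul, eval₂_pow, eval₂_X, eval₂_C]
  show b ^ 3 + (a₂ * b ^ 2 + a₁ * b + a₀) = 0
  linear_combination h

theorem mem_intCl_of_quartic107 (T : Subring Ω) (b a₃ a₂ a₁ a₀ : Ω) (h₃ : a₃ ∈ T) (h₂ : a₂ ∈ T)
    (h₁ : a₁ ∈ T) (h₀ : a₀ ∈ T) (h : b ^ 4 + a₃ * b ^ 3 + a₂ * b ^ 2 + a₁ * b + a₀ = 0) :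
    b ∈ intCl107 T := by
  rw [mem_intCl107]
  refine ⟨X ^ 4 + (C (⟨a₃, h₃⟩ : T) * X ^ 3 + C (⟨a₂, h₂⟩ : T) * X ^ 2 + C (⟨a₁, h₁⟩ : T) * X +
      C (⟨a₀, h₀⟩ : T)),
    monic_X_pow_add (lt_of_le_of_lt degree_cubic_le (by norm_num)), ?_⟩
  simp only [eval₂_add, eval₂_mul, eval₂_pow, eval₂_X, eval₂_C]
  show b ^ 4 + (a₃ * b ^ 3 + a₂ * b ^ 2 + a₁ * b + a₀) = 0
  linear_combination h

theorem natCast_mem_polyRing107 (R : Subring Ω) (x : Ω) (n : ℕ) : (n : Ω) ∈ polyRing R x :=
  natCast_mem _ n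

end Fermat.Agent.S18.H107

end
-- ===== PACK-END S18/H107/PolyInt.lean

-- ===== PACK-BEGIN S18/B12/H93/LocalBasis.lean
section



/-!
# S18 / B12 / A2: `LocalBasisStatement` (helper93).

`𝔪 = (w, p)` maximal, `(p, w)` regular on the finite `P`-module `B`: a lift of a basis of `B/𝔪B`
is a basis of `B` locally at `𝔪` (Nakayama twice).
-/

set_option autoImplicit false

namespace Fermat.Agent.S18.B12.H93

open Pointwise

attribute [local instance] Ideal.Quotient.field

universe u v

theorem localBasis : LocalBasisStatement.{u, v} := by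
  intro P _ _ _ B _ _ _ _ w p hmax hreg
  classical
  set 𝔪 : Ideal P := Ideal.span {w, p} with h𝔪
  have hw𝔪 : w ∈ 𝔪 := Ideal.subset_span (by simp)
  have hp𝔪 : p ∈ 𝔪 := Ideal.subset_span (by simp)
  let N : Submodule P B := 𝔪 • ⊤
  have hfin : Module.Finite (P ⧸ 𝔪) (B ⧸ N) := Module.Finite.of_restrictScalars_finite P _ _
  let β := Module.finBasis (P ⧸ 𝔪) (B ⧸ N)
  have hlift : ∀ i, ∃ x : B, N.mkQ x = β i := fun i => Submodule.mkQ_surjective N _
  choose x hx using hlift
  refine ⟨Module.finrank (P ⧸ 𝔪) (B ⧸ N), x, ?_⟩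
  have hmksmul : ∀ (a : P) (y : B ⧸ N), (Ideal.Quotient.mk 𝔪 a) • y = a • y := by
    intro a y
    rw [← Ideal.Quotient.algebraMap_eq, algebraMap_smul]
  -- reduction of a combination
  have hred : ∀ a : Fin (Module.finrank (P ⧸ 𝔪) (B ⧸ N)) → P,
      N.mkQ (∑ i, a i • x i) = ∑ i, (Ideal.Quotient.mk 𝔪 (a i)) • β i := by
    intro a
    rw [map_sum]
    refine Finset.sum_congr rfl fun i _ => ?_
    rw [map_smul, hx, hmksmul]
  -- spanning modulo `𝔪`
  have hspan : (⊤ : Submodule P B) ≤ Submodule.span P (Set.range x) ⊔ 𝔪 • ⊤ := by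
    intro b _
    have hl : ∀ i, ∃ a : P, Ideal.Quotient.mk 𝔪 a = β.repr (N.mkQ b) i :=
      fun i => Ideal.Quotient.mk_surjective _
    choose a ha using hl
    have h1 : N.mkQ (b - ∑ i, a i • x i) = 0 := by
      rw [map_sub, hred, sub_eq_zero]
      conv_lhs => rw [← β.sum_repr (N.mkQ b)]
      exact Finset.sum_congr rfl fun i _ => by rw [ha]
    have h2 : b - ∑ i, a i • x i ∈ N := by
      rwa [Submodule.mkQ_apply, Submodule.Quotient.mk_eq_zero] at h1
    have h3 : ∑ i, a i • x i ∈ Submodule.span P (Set.range x) :=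
      Submodule.sum_mem _ fun i _ => Submodule.smul_mem _ _ (Submodule.subset_span ⟨i, rfl⟩)
    have : b = ∑ i, a i • x i + (b - ∑ i, a i • x i) := by ring
    rw [this]
    exact Submodule.add_mem_sup h3 h2
  obtain ⟨g, hg1, hgle⟩ := Submodule.exists_sub_one_mem_and_smul_le_of_fg_of_le_sup
    (N := Submodule.span P (Set.range x)) (N' := ⊤) (P := ⊤) (I := 𝔪)
    (Module.finite_def.mp inferInstance) le_rfl hspan
  have hg𝔪 : g ∉ 𝔪 := by
    intro hg
    have : (1 : P) ∈ 𝔪 := by
      have := 𝔪.sub_mem hg hg1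
      simpa using this
    exact hmax.ne_top ((Ideal.eq_top_iff_one 𝔪).mpr this)
  have hgB : ∀ b : B, g • b ∈ Submodule.span P (Set.range x) := fun b =>
    hgle (Submodule.smul_mem_pointwise_smul b g ⊤ Submodule.mem_top)
  refine ⟨?_, g, hg𝔪, hgB⟩
  -- linear independence
  let L : (Fin (Module.finrank (P ⧸ 𝔪) (B ⧸ N)) → P) →ₗ[P] B := Fintype.linearCombination P x
  have hLapp : ∀ a, L a = ∑ i, a i • x i := fun a => Fintype.linearCombination_apply P x a
  set I : Submodule P (Fin (Module.finrank (P ⧸ 𝔪) (B ⧸ N)) → P) := LinearMap.ker L with hI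
  have hIfg : I.FG := IsNoetherian.noetherian I
  -- `g • I ≤ 𝔪 • I`
  have hkey : ∀ a ∈ I, g • a ∈ 𝔪 • I := by
    intro a ha
    have ha0 : ∑ i, a i • x i = 0 := by rw [← hLapp]; exact ha
    -- coefficients lie in `𝔪`
    have hmem : ∀ i, a i ∈ 𝔪 := by
      intro i
      have h1 := hred a
      rw [ha0, map_zero] at h1
      have h2 := (Fintype.linearIndependent_iff.mp β.linearIndependent) _ h1.symm i
      exact Ideal.Quotient.eq_zero_iff_mem.mp h2
    have hdec : ∀ i, ∃ c d : P, c * w + d * p = a i := fun i => Ideal.mem_span_pair.mp (hmem i)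
    choose c d hcd using hdec
    have hrel : algebraMap P B p * (∑ i, d i • x i) = algebraMap P B w * (-∑ i, c i • x i) := by
      have : ∑ i, (c i * w + d i * p) • x i = 0 := by
        rw [← ha0]; exact Finset.sum_congr rfl fun i _ => by rw [hcd]
      rw [← Algebra.smul_def, ← Algebra.smul_def, smul_neg, Finset.smul_sum, Finset.smul_sum,
        eq_neg_iff_add_eq_zero, ← Finset.sum_add_distrib, ← this]
      refine Finset.sum_congr rfl fun i _ => ?_
      rw [smul_smul, smul_smul, ← add_smul]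
      congr 1; ring
    obtain ⟨b'', hb1, hb2⟩ := hreg _ _ hrel
    obtain ⟨e, he⟩ := (Submodule.mem_span_range_iff_exists_fun P).mp (hgB b'')
    -- two relations
    have hr1 : (fun i => g * d i - w * e i) ∈ I := by
      rw [hI, LinearMap.mem_ker, hLapp]
      have : ∑ i, (g * d i - w * e i) • x i = g • ∑ i, d i • x i - w • ∑ i, e i • x i := by
        rw [Finset.smul_sum, Finset.smul_sum, ← Finset.sum_sub_distrib]
        exact Finset.sum_congr rfl fun i _ => by rw [sub_smul, smul_smul, smul_smul]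
      rw [this, hb1, he, ← Algebra.smul_def, smul_comm, sub_self]
    have hr2 : (fun i => g * c i + p * e i) ∈ I := by
      rw [hI, LinearMap.mem_ker, hLapp]
      have : ∑ i, (g * c i + p * e i) • x i = g • ∑ i, c i • x i + p • ∑ i, e i • x i := by
        rw [Finset.smul_sum, Finset.smul_sum, ← Finset.sum_add_distrib]
        exact Finset.sum_congr rfl fun i _ => by rw [add_smul, smul_smul, smul_smul]
      have hc : ∑ i, c i • x i = -(algebraMap P B p * b'') := by rw [← hb2, neg_neg]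
      rw [this, hc, he, ← Algebra.smul_def, smul_neg, smul_comm, neg_add_cancel]
    have hsum : g • a = w • (fun i => g * c i + p * e i) + p • (fun i => g * d i - w * e i) := by
      funext i
      simp only [Pi.smul_apply, Pi.add_apply, smul_eq_mul]
      rw [← hcd i]; ring
    rw [hsum]
    exact Submodule.add_mem _ (Submodule.smul_mem_smul hw𝔪 hr2) (Submodule.smul_mem_smul hp𝔪 hr1)
  have hIle : I ≤ 𝔪 • I := by
    intro a ha
    have h1 : g • a ∈ 𝔪 • I := hkey a ha
    have h2 : (g - 1) • a ∈ 𝔪 • I := Submodule.smul_mem_smul hg1 ha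
    have : a = g • a - (g - 1) • a := by rw [sub_smul, one_smul]; abel
    rw [this]
    exact Submodule.sub_mem _ h1 h2
  obtain ⟨r, hr1, hr0⟩ := Submodule.exists_sub_one_mem_and_smul_eq_zero_of_fg_of_le_smul 𝔪 I
    hIfg hIle
  have hrne : r ≠ 0 := by
    rintro rfl
    have : (1 : P) ∈ 𝔪 := by
      have := 𝔪.neg_mem hr1
      simpa using this
    exact hmax.ne_top ((Ideal.eq_top_iff_one 𝔪).mpr this)
  rw [Fintype.linearIndependent_iff]
  intro a ha i
  have haI : a ∈ I := by rw [hI, LinearMap.mem_ker, hLapp]; exact ha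
  have h0 := hr0 a haI
  have h1 := congrFun h0 i
  rw [Pi.smul_apply, smul_eq_mul, Pi.zero_apply] at h1
  exact (mul_eq_zero.mp h1).resolve_left hrne

end Fermat.Agent.S18.B12.H93

end
-- ===== PACK-END S18/B12/H93/LocalBasis.lean

-- ===== PACK-BEGIN S18/B12/H93/LocalBasisRank.lean
section



/-!
# S18 / B12 / A2': `LocalBasisRankStatement` (helper93).
-/

set_option autoImplicit false

namespace Fermat.Agent.S18.B12.H93

universe u v

theorem localBasisRank : LocalBasisRankStatement.{u, v} := by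
  intro P _ _ _ B _ _ _ _ _ _ 𝔪 _ n x hx
  obtain ⟨hli, g, hg, hgB⟩ := hx
  classical
  have hg0 : g ≠ 0 := fun h => hg (h ▸ 𝔪.zero_mem)
  constructor
  · apply le_antisymm
    · have := hli.fintype_card_le_finrank
      simpa using this
    · have hfin : Module.Finite P (Submodule.span P (Set.range x)) :=
        Module.Finite.span_of_finite P (Set.finite_range x)
      let f : B →ₗ[P] Submodule.span P (Set.range x) :=
        (LinearMap.lsmul P B g).codRestrict _ hgB
      have hf : Function.Injective f := by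
        intro a b hab
        have h1 : g • a = g • b := congrArg Subtype.val hab
        exact smul_right_injective B hg0 h1
      have h1 := LinearMap.finrank_le_finrank_of_injective hf
      have h2 : Module.finrank P (Submodule.span P (Set.range x)) = n := by
        rw [finrank_span_eq_card hli, Fintype.card_fin]
      omega
  · intro x'
    have hU : ∀ i, ∃ c : Fin n → P, ∑ j, c j • x j = g • x' i :=
      fun i => (Submodule.mem_span_range_iff_exists_fun P).mp (hgB (x' i))
    choose U hUx using hU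
    refine ⟨g ^ n, (Matrix.of U).det, fun h => hg (Ideal.IsPrime.mem_of_pow_mem inferInstance n h),
      ?_⟩
    set G : Matrix (Fin n) (Fin n) P := Matrix.of fun i j => Algebra.intTrace P B (x i * x j)
      with hG
    set G' : Matrix (Fin n) (Fin n) P := Matrix.of fun i j => Algebra.intTrace P B (x' i * x' j)
      with hG'
    have hmat : (g ^ 2) • G' = Matrix.of U * G * (Matrix.of U).transpose := by
      ext i j
      rw [Matrix.smul_apply, hG', Matrix.of_apply, smul_eq_mul, Matrix.mul_apply]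
      have h1 : g ^ 2 * Algebra.intTrace P B (x' i * x' j) =
          Algebra.intTrace P B ((g • x' i) * (g • x' j)) := by
        rw [smul_mul_smul_comm, ← sq, map_smul, smul_eq_mul]
      rw [h1, ← hUx i, ← hUx j, Finset.sum_mul_sum, map_sum]
      simp_rw [Matrix.mul_apply, Finset.sum_mul]
      rw [Finset.sum_comm]
      refine Finset.sum_congr rfl fun k _ => ?_
      rw [map_sum]
      refine Finset.sum_congr rfl fun l _ => ?_
      rw [smul_mul_smul_comm, map_smul, smul_eq_mul, Matrix.transpose_apply, Matrix.of_apply,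
        Matrix.of_apply, hG, Matrix.of_apply]
      ring
    have hdet := congrArg Matrix.det hmat
    rw [Matrix.det_smul, Matrix.det_mul, Matrix.det_mul, Matrix.det_transpose, Fintype.card_fin]
      at hdet
    show (g ^ n) ^ 2 * G'.det = (Matrix.of U).det ^ 2 * G.det
    rw [← pow_mul, mul_comm n 2, pow_mul, hdet]
    ring

end Fermat.Agent.S18.B12.H93

end
-- ===== PACK-END S18/B12/H93/LocalBasisRank.lean

-- ===== PACK-BEGIN S18/B12/H278/Transfer.lean
section


/-!
# b2-SF core over a PID (helper278)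

`Λ` a PID, `t` a prime element, `C` a finite free commutative `Λ`-algebra with basis `b`,
`f : C →ₐ[Λ] L` an injective map into a commutative `Λ`-algebra without `Λ`-torsion.
If `C / rad(tC)` is spanned by `s` elements over `Λ` and `t ^ (n - s + 1) ∤ disc(b)`, then every
`x : L` integral over `Λ` with `g₀ • x ∈ C` for some `g₀ ≠ 0` satisfies `g • x ∈ C` for some
`g ∉ (t)`:  **`C` is integrally closed in `L ∩ (C ⊗ Frac Λ)` locally at `t`**.

Proof: localise at `(t)` and apply the DVR criterion `mem_range_of_isIntegral` of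
`Fermat/Agent/S37/H278/Normal.lean`.
-/

set_option autoImplicit false
set_option linter.style.haveILetI false
set_option linter.unusedSectionVars false

namespace Fermat.Agent.S18.B12.H278

open Module Polynomial Fermat.Agent.S37.H278

section Transfer

variable {Λ : Type*} [CommRing Λ] [IsDomain Λ] [IsPrincipalIdealRing Λ]
  {C : Type*} [CommRing C] [Algebra Λ C]
  {L : Type*} [CommRing L] [Algebra Λ L]

/-- Divisibility by powers of `t` can be tested in the localisation at `(t)`. -/
theorem pow_dvd_of_pow_dvd_algebraMap {t : Λ} (ht : Prime t) (P : Ideal Λ) [P.IsPrime]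
    (hP : P = Ideal.span {t})
    (o : Type*) [CommRing o] [Algebra Λ o] [IsLocalization.AtPrime o P] (k : ℕ) (d : Λ)
    (h : algebraMap Λ o t ^ k ∣ algebraMap Λ o d) : t ^ k ∣ d := by
  obtain ⟨e, he⟩ := h
  obtain ⟨⟨a, g⟩, hag⟩ := IsLocalization.surj P.primeCompl e
  simp only at hag
  have hinj : Function.Injective (algebraMap Λ o) :=
    IsLocalization.injective o (Ideal.primeCompl_le_nonZeroDivisors P)
  have h1 : g.1 * d = t ^ k * a := by
    apply hinj
    rw [map_mul, map_mul, map_pow, he, ← hag]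
    ring
  have hg : ¬ t ∣ g.1 := by
    intro hdiv
    exact g.2 (hP.ge (Ideal.mem_span_singleton.mpr hdiv))
  exact ht.pow_dvd_of_dvd_mul_left k hg ⟨a, h1⟩

/-- The image of `t` is a uniformiser of the localisation at `(t)`. -/
theorem irreducible_algebraMap_of_atPrime {t : Λ} (P : Ideal Λ) [P.IsPrime]
    (hP : P = Ideal.span {t})
    (o : Type*) [CommRing o] [IsDomain o] [IsDiscreteValuationRing o] [Algebra Λ o]
    [IsLocalization.AtPrime o P] : Irreducible (algebraMap Λ o t) := by
  rw [IsDiscreteValuationRing.irreducible_iff_uniformizer,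
    ← IsLocalization.AtPrime.map_eq_maximalIdeal P o, hP, Ideal.map_span, Set.image_singleton]

/-- Transfer of the spanning hypothesis to the localisation. -/
theorem sup_eq_top_of_atPrime {t : Λ} (P : Ideal Λ) [P.IsPrime]
    (o : Type*) [CommRing o] [Algebra Λ o] [IsLocalization.AtPrime o P]
    (C' : Type*) [CommRing C'] [Algebra C C'] [Algebra o C'] [Algebra Λ C']
    [IsScalarTower Λ o C'] [IsScalarTower Λ C C']
    [IsLocalization (Algebra.algebraMapSubmonoid C P.primeCompl) C']
    (s : ℕ) (y : Fin s → C)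
    (hy : ∀ x : C, ∃ a : Fin s → Λ,
        x - ∑ i, a i • y i ∈ (Ideal.span {algebraMap Λ C t}).radical) :
    ((Ideal.span {algebraMap o C' (algebraMap Λ o t)}).radical.restrictScalars o) ⊔
        Submodule.span o (Set.range fun i => algebraMap C C' (y i)) = ⊤ := by
  rw [eq_top_iff]
  intro c' _
  obtain ⟨⟨c, m⟩, hcm⟩ := IsLocalization.surj (Algebra.algebraMapSubmonoid C P.primeCompl) c'
  obtain ⟨g, hg, hgm⟩ := m.2
  simp only at hcm
  -- `algebraMap g` is a unit of `o`
  obtain ⟨v, hv⟩ := (IsLocalization.map_units o (⟨g, hg⟩ : P.primeCompl)).exists_right_inv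
  simp only at hv
  have hc' : c' = v • algebraMap C C' c := by
    rw [← hcm, ← hgm, ← IsScalarTower.algebraMap_apply, IsScalarTower.algebraMap_apply Λ o C',
      Algebra.smul_def, mul_comm c', ← mul_assoc, ← map_mul, mul_comm v, hv, map_one, one_mul]
  rw [hc']
  refine Submodule.smul_mem _ _ ?_
  obtain ⟨a, ha⟩ := hy c
  have h1 : algebraMap C C' c =
      algebraMap C C' (c - ∑ i, a i • y i) + ∑ i, algebraMap Λ o (a i) • algebraMap C C' (y i) := by
    rw [map_sub, map_sum]
    have : ∀ i, algebraMap C C' (a i • y i) = algebraMap Λ o (a i) • algebraMap C C' (y i) := by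
      intro i
      rw [Algebra.smul_def, map_mul, Algebra.smul_def, ← IsScalarTower.algebraMap_apply,
        ← IsScalarTower.algebraMap_apply]
    simp only [this]
    ring
  rw [h1]
  refine Submodule.add_mem_sup ?_ ?_
  · show algebraMap C C' (c - ∑ i, a i • y i) ∈
      (Ideal.span {algebraMap o C' (algebraMap Λ o t)}).radical
    have h2 := Ideal.map_radical_le (algebraMap C C') (Ideal.mem_map_of_mem (algebraMap C C') ha)
    rw [Ideal.map_span, Set.image_singleton, ← IsScalarTower.algebraMap_apply,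
      IsScalarTower.algebraMap_apply Λ o C'] at h2
    exact h2
  · refine Submodule.sum_mem _ fun i _ => Submodule.smul_mem _ _ (Submodule.subset_span ⟨i, rfl⟩)

/-- Main transfer theorem, with abstract localisations `o = Λ_(t)`, `C' = C_(t)`,
`L' = C' ⊗ Frac o`. -/
theorem exists_smul_mem_range_aux {t : Λ} (ht : Prime t) (P : Ideal Λ) [P.IsPrime]
    (hP : P = Ideal.span {t})
    (o : Type*) [CommRing o] [IsDomain o] [IsDiscreteValuationRing o] [Algebra Λ o]
    [IsLocalization.AtPrime o P]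
    (C' : Type*) [CommRing C'] [Algebra C C'] [Algebra o C'] [Algebra Λ C']
    [IsScalarTower Λ o C'] [IsScalarTower Λ C C']
    [IsLocalization (Algebra.algebraMapSubmonoid C P.primeCompl) C']
    (L' : Type*) [CommRing L'] [Algebra o L'] [Algebra C' L']
    [IsScalarTower o C' L']
    [IsLocalization (Algebra.algebraMapSubmonoid C' (nonZeroDivisors o)) L']
    (hL : ∀ (g : Λ) (l : L), g ≠ 0 → g • l = 0 → l = 0)
    (f : C →ₐ[Λ] L) (hf : Function.Injective f)
    {ι : Type*} [Fintype ι] [DecidableEq ι] (b : Basis ι Λ C) (s : ℕ) (y : Fin s → C)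
    (hy : ∀ x : C, ∃ a : Fin s → Λ,
        x - ∑ i, a i • y i ∈ (Ideal.span {algebraMap Λ C t}).radical)
    (hd : ¬ t ^ (Fintype.card ι - s + 1) ∣ Algebra.discr Λ b)
    (x : L) (hx : IsIntegral Λ x) (hx0 : ∃ g₀ : Λ, g₀ ≠ 0 ∧ g₀ • x ∈ f.range) :
    ∃ g : Λ, ¬ t ∣ g ∧ g • x ∈ f.range := by
  classical
  -- `L'` is an algebra over `K = Frac o`
  have hunitK : ∀ z : nonZeroDivisors o, IsUnit (algebraMap o L' z) := by
    intro z
    rw [IsScalarTower.algebraMap_apply o C' L']
    exact IsLocalization.map_units L' (⟨algebraMap o C' z, ⟨z, z.2, rfl⟩⟩ :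
      Algebra.algebraMapSubmonoid C' (nonZeroDivisors o))
  letI : Algebra (FractionRing o) L' :=
    (IsLocalization.lift (M := nonZeroDivisors o) (g := algebraMap o L') hunitK).toAlgebra
  haveI : IsScalarTower o (FractionRing o) L' :=
    IsScalarTower.of_algebraMap_eq (fun z => (IsLocalization.lift_eq hunitK z).symm)
  obtain ⟨g₀, hg₀, c₀, hc₀'⟩ := hx0
  have hc₀ : f c₀ = g₀ • x := hc₀'
  obtain ⟨p, hpm, hpx⟩ := hx
  let b' : Basis ι o C' := b.localizationLocalization o P.primeCompl C'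
  haveI : Module.Free o C' := Module.Free.of_basis b'
  haveI : Module.Finite o C' := Module.Finite.of_basis b'
  haveI : Module.Free Λ C := Module.Free.of_basis b
  have ht' : Irreducible (algebraMap Λ o t) := irreducible_algebraMap_of_atPrime P hP o
  have hu' := sup_eq_top_of_atPrime (t := t) P o C' s y hy
  have hd' : ¬ algebraMap Λ o t ^ (Fintype.card ι - s + 1) ∣ Algebra.discr o b' := by
    rw [Algebra.discr_localizationLocalization Λ P.primeCompl C' b]
    exact fun h => hd (pow_dvd_of_pow_dvd_algebraMap ht P hP o _ _ h)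
  -- the maps
  have hinjΛo : Function.Injective (algebraMap Λ o) :=
    IsLocalization.injective o (Ideal.primeCompl_le_nonZeroDivisors P)
  have hinjC : Function.Injective (algebraMap C C') := by
    apply IsLocalization.injective C' (M := Algebra.algebraMapSubmonoid C P.primeCompl)
    rintro _ ⟨g, hg, rfl⟩
    rw [mem_nonZeroDivisors_iff_right]
    intro c hc
    have hg0 : g ≠ 0 := fun h => hg (h ▸ P.zero_mem)
    apply smul_eq_zero_imp hg0
    rw [Algebra.smul_def, mul_comm]
    exact hc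
  have hinjC' : Function.Injective (algebraMap C' L') := algebraMap_injective_of_free (o := o) L'
  let φ : C →+* L' := (algebraMap C' L').comp (algebraMap C C')
  have hφ : Function.Injective φ := hinjC'.comp hinjC
  let ψ : Λ →+* L' := φ.comp (algebraMap Λ C)
  have hψ : ∀ a, ψ a = algebraMap o L' (algebraMap Λ o a) := by
    intro a
    show algebraMap C' L' (algebraMap C C' (algebraMap Λ C a)) = _
    rw [← IsScalarTower.algebraMap_apply Λ C C', IsScalarTower.algebraMap_apply Λ o C',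
      ← IsScalarTower.algebraMap_apply o C' L']
  have hunit : IsUnit (ψ g₀) := by
    have hmem : algebraMap o C' (algebraMap Λ o g₀) ∈
        Algebra.algebraMapSubmonoid C' (nonZeroDivisors o) :=
      ⟨algebraMap Λ o g₀, mem_nonZeroDivisors_of_ne_zero
        (fun h => hg₀ (hinjΛo (by rw [h, map_zero]))), rfl⟩
    have := IsLocalization.map_units L' (⟨_, hmem⟩ :
      Algebra.algebraMapSubmonoid C' (nonZeroDivisors o))
    rw [hψ, IsScalarTower.algebraMap_apply o C' L']
    exact this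
  obtain ⟨w, hw⟩ := hunit.exists_left_inv
  -- the element `x' = c₀ / g₀` of `L'`
  set x' : L' := w * φ c₀ with hx'
  have hgx' : ψ g₀ * x' = φ c₀ := by
    rw [hx', ← mul_assoc, mul_comm (ψ g₀), hw, one_mul]
  -- `c₀` is a root of the scaled polynomial
  have hq : eval₂ (algebraMap Λ C) c₀ (scaleRoots p g₀) = 0 := by
    apply hf
    rw [map_zero]
    have h1 : f (eval₂ (algebraMap Λ C) c₀ (scaleRoots p g₀)) =
        eval₂ (algebraMap Λ L) (f c₀) (scaleRoots p g₀) := by
      rw [← Polynomial.aeval_def, ← Polynomial.aeval_def, Polynomial.aeval_algHom_apply]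
    rw [h1, hc₀, Algebra.smul_def, scaleRoots_eval₂_mul, hpx, mul_zero]
  have hx'int : IsIntegral o x' := by
    refine ⟨p.map (algebraMap Λ o), hpm.map _, ?_⟩
    rw [eval₂_map]
    have h2 : eval₂ ((algebraMap o L').comp (algebraMap Λ o)) x' p = eval₂ ψ x' p := by
      congr 1
      ext a
      exact (hψ a).symm
    rw [h2]
    have h3 : ψ g₀ ^ p.natDegree * eval₂ ψ x' p = 0 := by
      rw [← scaleRoots_eval₂_mul, hgx']
      have : eval₂ ψ (φ c₀) (scaleRoots p g₀) = φ (eval₂ (algebraMap Λ C) c₀ (scaleRoots p g₀)) := by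
        rw [Polynomial.hom_eval₂]
      rw [this, hq, map_zero]
    have hu2 : IsUnit (ψ g₀ ^ p.natDegree) := hunit.pow _
    exact (hu2.mul_right_eq_zero).mp h3
  -- apply the DVR criterion
  obtain ⟨c', hc'⟩ := mem_range_of_isIntegral (K := FractionRing o) ht' b' s
    (fun i => algebraMap C C' (y i)) hu' hd' x' hx'int
  obtain ⟨⟨c, m⟩, hcm⟩ := IsLocalization.surj (Algebra.algebraMapSubmonoid C P.primeCompl) c'
  obtain ⟨g, hg, hgm⟩ := m.2
  simp only at hcm
  refine ⟨g, fun hdiv => hg (hP.ge (Ideal.mem_span_singleton.mpr hdiv)), c, ?_⟩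
  -- `g • c₀ = g₀ • c` in `C`
  have hkey : g • c₀ = g₀ • c := by
    apply hφ
    have e1 : φ (g • c₀) = ψ g * φ c₀ := by
      rw [Algebra.smul_def, map_mul]; rfl
    have e2 : φ (g₀ • c) = ψ g₀ * φ c := by
      rw [Algebra.smul_def, map_mul]; rfl
    have e3 : φ c = x' * ψ g := by
      show algebraMap C' L' (algebraMap C C' c) = _
      rw [← hcm, map_mul, hc', ← hgm]
      rfl
    rw [e1, e2, e3, ← hgx']
    ring
  show f c = g • x
  have hfin : g₀ • (f c - g • x) = 0 := by
    rw [smul_sub, smul_comm g₀ g x, ← hc₀, ← map_smul, ← map_smul, hkey, sub_self]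
  exact sub_eq_zero.mp (hL g₀ _ hg₀ hfin)

/-- **Normality criterion over a PID, local at a prime `t`.**
`C` finite free `Λ`-algebra with basis `b`, `f : C → L` injective, `L` without `Λ`-torsion.  If
`C / rad(tC)` is spanned by `s` elements and `t ^ (n - s + 1) ∤ disc(b)`, then every `x : L`
integral over `Λ` which is a fraction of an element of `C` lies in `C` locally at `t`. -/
theorem exists_smul_mem_range_of_isIntegral {t : Λ} (ht : Prime t)
    (hL : ∀ (g : Λ) (l : L), g ≠ 0 → g • l = 0 → l = 0)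
    (f : C →ₐ[Λ] L) (hf : Function.Injective f)
    {ι : Type*} [Fintype ι] [DecidableEq ι] (b : Basis ι Λ C) (s : ℕ) (y : Fin s → C)
    (hy : ∀ x : C, ∃ a : Fin s → Λ,
        x - ∑ i, a i • y i ∈ (Ideal.span {algebraMap Λ C t}).radical)
    (hd : ¬ t ^ (Fintype.card ι - s + 1) ∣ Algebra.discr Λ b)
    (x : L) (hx : IsIntegral Λ x) (hx0 : ∃ g₀ : Λ, g₀ ≠ 0 ∧ g₀ • x ∈ f.range) :
    ∃ g : Λ, ¬ t ∣ g ∧ g • x ∈ f.range := by
  haveI hP : (Ideal.span {t} : Ideal Λ).IsPrime := (Ideal.span_singleton_prime ht.ne_zero).mpr ht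
  haveI : IsDiscreteValuationRing (Localization.AtPrime (Ideal.span {t} : Ideal Λ)) :=
    IsLocalization.AtPrime.isDiscreteValuationRing_of_dedekind_domain Λ
      (P := Ideal.span {t}) (by
        rw [Ne, Ideal.span_singleton_eq_bot]; exact ht.ne_zero) _
  exact exists_smul_mem_range_aux ht (Ideal.span {t}) rfl
    (Localization.AtPrime (Ideal.span {t} : Ideal Λ))
    (Localization (Algebra.algebraMapSubmonoid C (Ideal.span {t} : Ideal Λ).primeCompl))
    (Localization (Algebra.algebraMapSubmonoid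
      (Localization (Algebra.algebraMapSubmonoid C (Ideal.span {t} : Ideal Λ).primeCompl))
      (nonZeroDivisors (Localization.AtPrime (Ideal.span {t} : Ideal Λ)))))
    hL f hf b s y hy hd x hx hx0

end Transfer

end Fermat.Agent.S18.B12.H278

end
-- ===== PACK-END S18/B12/H278/Transfer.lean

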