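import Mathlib
import Fermat.Prelude.Def_AlgebraicCurve_DivisorClassGroup
import Fermat.Prelude.Def_ModularCurve_JqCoeff
import Fermat.Prelude.Def_ModularCurve_ReductionModL
import Fermat.Agent.Pack.S34.G0E3L3
import Fermat.Agent.Pack.S34.G0E3L0
import Fermat.Agent.Pack.S34.G0E1L0
import Fermat.Agent.Pack.S34.G0E1L3
import Fermat.Agent.Pack.S34.G0E3L2
import Fermat.Agent.Pack.S34.G0E1L1
import Fermat.Agent.Pack.S34.G0E4L1
import Fermat.Agent.Pack.S34.G0E4L3
import Fermat.Agent.Pack.S34.G0E4L2
import Fermat.Agent.Pack.S34.G0E4L0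

-- ===== PACK-BEGIN S24/H864/FF3b.lean
section




/-!
# S24 / ALG / FF1+FF3 (part b): places of a Dedekind domain with fraction field `F`
-/

set_option autoImplicit false

noncomputable section

open AlgebraicCurve IsDedekindDomain

namespace Fermat.Agent.S24.H864

section Dict

variable {K F : Type*} [Field K] [Field F] [Algebra K F]
variable {S : Type*} [CommRing S] [IsDedekindDomain S] [Algebra S F] [IsFractionRing S F]
  [Algebra K S] [IsScalarTower K S F]

/-- `ord` of the place attached to a height one prime is `-log` of the adic valuation. -/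
theorem ord_ofHeightOneSpectrum (w : HeightOneSpectrum S) (x : F) :
    (Place.ofHeightOneSpectrum (K := K) w).ord x = -(WithZero.log (w.valuation F x)) := by
  rcases eq_or_ne x 0 with rfl | hx
  · simp
  set N : F → ℤ := fun y => -(WithZero.log (w.valuation F y)) with hN
  have hmul : ∀ f g : F, f ≠ 0 → g ≠ 0 → N (f * g) = N f + N g := by
    intro f g hf hg
    simp only [hN, map_mul]
    rw [WithZero.log_mul ((Valuation.ne_zero_iff _).mpr hf) ((Valuation.ne_zero_iff _).mpr hg)]
    ring
  have hmem : ∀ f : F, f ≠ 0 →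
      (f ∈ (Place.ofHeightOneSpectrum (K := K) w).toValuationSubring ↔ 0 ≤ N f) := by
    intro f hf
    rw [Place.ofHeightOneSpectrum_toValuationSubring, Valuation.mem_valuationSubring_iff]
    have h0 : w.valuation F f ≠ 0 := (Valuation.ne_zero_iff _).mpr hf
    simp only [hN]
    rw [← WithZero.log_le_log h0 one_ne_zero, WithZero.log_one]
    omega
  obtain ⟨π, hπ⟩ := w.valuation_exists_uniformizer F
  have hπ0 : π ≠ 0 := by
    intro h
    rw [h, map_zero] at hπ
    exact WithZero.exp_ne_zero.symm hπ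
  have hNπ : N π = 1 := by
    simp only [hN, hπ, WithZero.log_exp]
    norm_num
  exact (FF.ordLike_eq_ord N hmul _ hmem hπ0 hNπ hx).symm

/-- On elements of `S`, `ord` is the multiplicity of the prime in the principal ideal. -/
theorem ord_ofHeightOneSpectrum_algebraMap (w : HeightOneSpectrum S) {s : S} (hs : s ≠ 0) :
    (Place.ofHeightOneSpectrum (K := K) w).ord (algebraMap S F s)
      = (multiplicity w.asIdeal (Ideal.span {s}) : ℤ) := by
  rw [ord_ofHeightOneSpectrum, HeightOneSpectrum.valuation_of_algebraMap,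
    HeightOneSpectrum.intValuation_eq_exp_neg_multiplicity w hs, WithZero.log_exp, neg_neg]

theorem ord_ofHeightOneSpectrum_pos_iff (w : HeightOneSpectrum S) {s : S} (hs : s ≠ 0) :
    0 < (Place.ofHeightOneSpectrum (K := K) w).ord (algebraMap S F s) ↔ s ∈ w.asIdeal := by
  rw [← HeightOneSpectrum.valuation_lt_one_iff_mem (K := F), ord_ofHeightOneSpectrum]
  have h0 : w.valuation F (algebraMap S F s) ≠ 0 :=
    (Valuation.ne_zero_iff _).mpr ((map_ne_zero_iff _ (IsFractionRing.injective S F)).mpr hs)
  rw [← WithZero.log_lt_log h0 one_ne_zero, WithZero.log_one]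
  omega

theorem ofHeightOneSpectrum_injective :
    Function.Injective (fun w : HeightOneSpectrum S => Place.ofHeightOneSpectrum (K := K) (F := F) w) := by
  intro w w' h
  simp only at h
  apply HeightOneSpectrum.ext
  ext s
  rcases eq_or_ne s 0 with rfl | hs
  · simp
  · rw [← ord_ofHeightOneSpectrum_pos_iff (K := K) (F := F) w hs,
      ← ord_ofHeightOneSpectrum_pos_iff (K := K) (F := F) w' hs, h]

/-- The prime of `S` cut out by a place whose valuation ring contains `S`. -/
def primeOfPlace (v : Place K F) (hS : ∀ s : S, algebraMap S F s ∈ v.toValuationSubring) :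
    Ideal S :=
  Ideal.comap ((algebraMap S F).codRestrict v.toValuationSubring.toSubring hS)
    (IsLocalRing.maximalIdeal v.toValuationSubring)

instance primeOfPlace_isPrime (v : Place K F)
    (hS : ∀ s : S, algebraMap S F s ∈ v.toValuationSubring) : (primeOfPlace v hS).IsPrime :=
  Ideal.comap_isPrime _ _

theorem mem_primeOfPlace (v : Place K F)
    (hS : ∀ s : S, algebraMap S F s ∈ v.toValuationSubring) {s : S} (hs : s ≠ 0) :
    s ∈ primeOfPlace v hS ↔ 0 < v.ord (algebraMap S F s) := by
  have hs' : algebraMap S F s ≠ 0 := (map_ne_zero_iff _ (IsFractionRing.injective S F)).mpr hs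
  rw [FF.ord_pos_iff_mem_nonunits v hs']
  rw [primeOfPlace, Ideal.mem_comap, IsLocalRing.mem_maximalIdeal, mem_nonunits_iff,
    ValuationSubring.mem_nonunits_iff_exists_mem_maximalIdeal]
  constructor
  · intro h
    exact ⟨hS s, by rw [IsLocalRing.mem_maximalIdeal, mem_nonunits_iff]; exact h⟩
  · rintro ⟨_, h⟩
    rw [IsLocalRing.mem_maximalIdeal, mem_nonunits_iff] at h
    exact h

/-- **Dictionary, surjectivity.**  A place whose valuation ring contains `S` and which is
positive on some nonzero element of `S` comes from a height one prime of `S`. -/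
theorem exists_heightOneSpectrum_of_place (v : Place K F)
    (hS : ∀ s : S, algebraMap S F s ∈ v.toValuationSubring)
    {s0 : S} (hs0 : s0 ≠ 0) (hpos : 0 < v.ord (algebraMap S F s0)) :
    ∃ w : HeightOneSpectrum S,
      Place.ofHeightOneSpectrum (K := K) w = v ∧ w.asIdeal = primeOfPlace v hS := by
  have hne : primeOfPlace v hS ≠ ⊥ := by
    intro h
    have : s0 ∈ primeOfPlace v hS := (mem_primeOfPlace v hS hs0).mpr hpos
    rw [h, Ideal.mem_bot] at this
    exact hs0 this
  refine ⟨⟨primeOfPlace v hS, inferInstance, hne⟩, ?_, rfl⟩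
  set w : HeightOneSpectrum S := ⟨primeOfPlace v hS, inferInstance, hne⟩ with hw
  apply Place.ext
  rw [Place.ofHeightOneSpectrum_toValuationSubring,
    ← HeightOneSpectrum.valuationSubringAtPrime_eq_valuationSubring]
  refine ValuationSubring.eq_of_le_of_ne_top _ ?_ v.ne_top'
  rintro x ⟨a, s, hs, rfl⟩
  have hsq : s ∉ primeOfPlace v hS := hs
  have hs0' : s ≠ 0 := by
    rintro rfl
    exact hsq (Ideal.zero_mem _)
  have hsF : algebraMap S F s ≠ 0 := (map_ne_zero_iff _ (IsFractionRing.injective S F)).mpr hs0'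
  have h1 : ¬ 0 < v.ord (algebraMap S F s) := fun h => hsq ((mem_primeOfPlace v hS hs0').mpr h)
  have h2 : 0 ≤ v.ord (algebraMap S F s) := (FF.mem_iff_ord_nonneg v).mp (hS s)
  have h3 : v.ord (algebraMap S F s) = 0 := by omega
  have h4 : (algebraMap S F s)⁻¹ ∈ v.toValuationSubring := by
    rw [FF.mem_iff_ord_nonneg, Place.ord_inv, h3]
    simp
  exact mul_mem (hS a) h4

end Dict

end Fermat.Agent.S24.H864

end
end
-- ===== PACK-END S24/H864/FF3b.lean

-- ===== PACK-BEGIN S37/H400/KronNorm.lean
section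
/-
S37 / helper400 — piece KRON, part (K6): the Kronecker NORM, formal version.

`kronNorm p f := V_p f · det (secMat p f)`  (classically `f(q^p) · ∏_b f(ζ^b q^{1/p})`, i.e. the
`q`-expansion of `Nm_α(β f)` once NORM-ID identifies the characteristic polynomial of `β f` over
`α F_N` with `kronPoly p f`).

* `kronNorm_mul`, `kronNorm_one`, `kronNorm_pow` : multiplicativity.
* `coeffMap_kronNorm` : compatibility with coefficient homomorphisms (reduction `A → k`).
* `det_secMat_char`, `kronNorm_char` : over a domain of characteristic `p`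
    `det (secMat p f) = frob f`,  `kronNorm p f = V_p f · frob f`.
* `kronNorm_char_of_frobenius` : if `f = frob g` coefficientwise then
    `kronNorm p f = g ^ p · frob f`  (`= (Φ⁻¹ f)^p · Φ f`, the form used in step (E)).
* `coeffMap_kronNorm_char` : the reduction statement
    `coeffMap φ (kronNorm p f) = V_p f̄ · frob f̄` for `φ : S → R`, `R` a domain of char. `p`.
* `kronPoly_coeff_zero` : constant term of `kronPoly` is `(-1)^(p+1) · kronNorm`.
-/


set_option autoImplicit false

noncomputable section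

set_option linter.style.haveILetI false

open ModularCurve Polynomial Matrix

namespace Fermat.Agent.S37.H400

variable {R : Type*} [CommRing R]

/-- The formal Kronecker norm `V_p f · det (secMat p f)`. -/
def kronNorm (p : ℕ) [NeZero p] (f : LaurentSeries R) : LaurentSeries R :=
  qExpand R p f * (secMat p f).det

theorem kronNorm_mul (p : ℕ) [NeZero p] (f g : LaurentSeries R) :
    kronNorm p (f * g) = kronNorm p f * kronNorm p g := by
  rw [kronNorm, kronNorm, kronNorm, map_mul, secMat_mul, Matrix.det_mul]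
  ring

theorem kronNorm_one (p : ℕ) [NeZero p] : kronNorm p (1 : LaurentSeries R) = 1 := by
  rw [kronNorm, map_one, secMat_one, Matrix.det_one, mul_one]

/-- `kronNorm` as a monoid homomorphism. -/
def kronNormHom (p : ℕ) [NeZero p] : LaurentSeries R →* LaurentSeries R where
  toFun := kronNorm p
  map_one' := kronNorm_one p
  map_mul' := kronNorm_mul p

theorem kronNormHom_apply (p : ℕ) [NeZero p] (f : LaurentSeries R) :
    kronNormHom p f = kronNorm p f := rfl

theorem kronNorm_pow (p : ℕ) [NeZero p] (f : LaurentSeries R) (n : ℕ) :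
    kronNorm p (f ^ n) = kronNorm p f ^ n :=
  map_pow (kronNormHom p) f n

theorem coeffMap_qExpand_h400 {S : Type*} [CommRing S] (φ : R →+* S) (n : ℕ)
    [NeZero n] (x : LaurentSeries R) : coeffMap φ (qExpand R n x) = qExpand S n (coeffMap φ x) := by
  ext k
  by_cases hk : (n : ℤ) ∣ k
  · obtain ⟨m, rfl⟩ := hk
    rw [coeffMap_coeff, qExpand_coeff_mul, qExpand_coeff_mul, coeffMap_coeff]
  · rw [coeffMap_coeff, qExpand_coeff_of_not_dvd n _ hk, qExpand_coeff_of_not_dvd n _ hk,
      map_zero]

/-- Base change of the Kronecker norm along a coefficient homomorphism. -/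
theorem coeffMap_kronNorm {S : Type*} [CommRing S] (φ : R →+* S) (p : ℕ) [NeZero p]
    (f : LaurentSeries R) :
    coeffMap φ (kronNorm p f) = kronNorm p (coeffMap φ f) := by
  rw [kronNorm, kronNorm, map_mul, coeffMap_qExpand_h400, RingHom.map_det,
    RingHom.mapMatrix_apply, secMat_coeffMap]

/-- Over a domain of characteristic `p`, `det (secMat p f) = frob f`. -/
theorem det_secMat_char [IsDomain R] (p : ℕ) [Fact p.Prime] [CharP R p]
    (f : LaurentSeries R) :
    haveI : NeZero p := ⟨(Fact.out : p.Prime).ne_zero⟩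
    (secMat p f).det = coeffMap (frobenius R p) f := by
  haveI : NeZero p := ⟨(Fact.out : p.Prime).ne_zero⟩
  haveI := charP_laurentSeries (R := R) p
  show (secMat p f).det = coeffMap (frobenius R p) f
  rw [Matrix.det_eq_sign_charpoly_coeff, charpoly_secMat_char, Fintype.card_fin,
    coeff_sub, coeff_X_pow, coeff_C_zero, if_neg (Fact.out : p.Prime).pos.ne, zero_sub]
  rcases (Fact.out : p.Prime).eq_two_or_odd' with h2 | hodd
  · subst h2
    have h2' : (2 : LaurentSeries R) = 0 := by
      have := CharP.cast_eq_zero (LaurentSeries R) 2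
      exact_mod_cast this
    have : -(coeffMap (frobenius R 2) f) = coeffMap (frobenius R 2) f := by
      rw [neg_eq_iff_add_eq_zero, ← two_mul, h2', zero_mul]
    rw [this]
    simp
  · rw [hodd.neg_one_pow]
    ring

/-- Over a domain of characteristic `p`: `kronNorm p f = V_p f · frob f`. -/
theorem kronNorm_char [IsDomain R] (p : ℕ) [Fact p.Prime] [CharP R p] (f : LaurentSeries R) :
    haveI : NeZero p := ⟨(Fact.out : p.Prime).ne_zero⟩
    kronNorm p f = qExpand R p f * coeffMap (frobenius R p) f := by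
  haveI : NeZero p := ⟨(Fact.out : p.Prime).ne_zero⟩
  show kronNorm p f = _
  rw [kronNorm, det_secMat_char]

/-- Over a domain of characteristic `p`, if `f = frob g` coefficientwise (`g = Φ⁻¹ f`), then
`kronNorm p f = g ^ p · frob f = (Φ⁻¹ f) ^ p · Φ f`. -/
theorem kronNorm_char_of_frobenius [IsDomain R] (p : ℕ) [Fact p.Prime] [CharP R p]
    (f g : LaurentSeries R) (hg : coeffMap (frobenius R p) g = f) :
    haveI : NeZero p := ⟨(Fact.out : p.Prime).ne_zero⟩
    kronNorm p f = g ^ p * coeffMap (frobenius R p) f := by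
  haveI : NeZero p := ⟨(Fact.out : p.Prime).ne_zero⟩
  show kronNorm p f = _
  rw [kronNorm_char, laurent_pow_char, hg]

/-- Over `𝔽_p`: `kronNorm p f = f ^ (p + 1)`. -/
theorem kronNorm_zmod (p : ℕ) [Fact p.Prime] (f : LaurentSeries (ZMod p)) :
    haveI : NeZero p := ⟨(Fact.out : p.Prime).ne_zero⟩
    kronNorm p f = f ^ (p + 1) := by
  haveI : NeZero p := ⟨(Fact.out : p.Prime).ne_zero⟩
  show kronNorm p f = _
  rw [kronNorm_char_of_frobenius p f f (coeffMap_frobenius_zmod p f), coeffMap_frobenius_zmod,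
    pow_succ]

/-- **Kronecker congruence for norms.**  For `f` with coefficients in `S` and a reduction
`φ : S → R` to a domain of characteristic `p`, the reduction of the Kronecker norm of `f` is
`V_p f̄ · frob f̄`. -/
theorem coeffMap_kronNorm_char {S : Type*} [CommRing S] [IsDomain R] (p : ℕ) [Fact p.Prime]
    [CharP R p] (φ : S →+* R) (f : LaurentSeries S) :
    haveI : NeZero p := ⟨(Fact.out : p.Prime).ne_zero⟩
    coeffMap φ (kronNorm p f) =
      qExpand R p (coeffMap φ f) * coeffMap (frobenius R p) (coeffMap φ f) := by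
  haveI : NeZero p := ⟨(Fact.out : p.Prime).ne_zero⟩
  show coeffMap φ (kronNorm p f) = _
  rw [coeffMap_kronNorm, kronNorm_char]

/-- The reduction of the Kronecker norm is nonzero as soon as the reduction of `f` is. -/
theorem coeffMap_kronNorm_ne_zero {S : Type*} [CommRing S] [IsDomain R] (p : ℕ) [Fact p.Prime]
    [CharP R p] (φ : S →+* R) (f : LaurentSeries S) (hf : coeffMap φ f ≠ 0) :
    haveI : NeZero p := ⟨(Fact.out : p.Prime).ne_zero⟩
    coeffMap φ (kronNorm p f) ≠ 0 := by
  haveI : NeZero p := ⟨(Fact.out : p.Prime).ne_zero⟩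
  show coeffMap φ (kronNorm p f) ≠ 0
  rw [coeffMap_kronNorm_char]
  refine mul_ne_zero ?_ ?_
  · intro h
    exact hf (qExpand_injective (R := R) (N := p) (by rw [h, map_zero]))
  · intro h
    apply hf
    ext k
    have hk := congrArg (fun x : LaurentSeries R => x.coeff k) h
    simp only [coeffMap_coeff, HahnSeries.coeff_zero] at hk ⊢
    exact frobenius_inj R p (by rw [hk, map_zero])

/-- The constant term of `kronPoly` is `(-1)^(p+1)` times the Kronecker norm. -/
theorem kronPoly_coeff_zero (p : ℕ) [NeZero p] (f : LaurentSeries R) :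
    (kronPoly p f).coeff 0 = (-1) ^ (p + 1) * kronNorm p f := by
  rw [kronPoly, Polynomial.mul_coeff_zero, coeff_sub, coeff_X_zero, coeff_C_zero, zero_sub,
    kronNorm, Matrix.det_eq_sign_charpoly_coeff, Fintype.card_fin, pow_succ]
  have h : ((-1 : LaurentSeries R) ^ p) * (-1) ^ p = 1 := by
    rw [← mul_pow]; simp
  linear_combination (qExpand R p f * (secMat p f).charpoly.coeff 0) * h

end Fermat.Agent.S37.H400

end

end
-- ===== PACK-END S37/H400/KronNorm.lean

-- ===== PACK-BEGIN S28/H867/Degree.lean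
section



set_option autoImplicit false
noncomputable section
open ModularCurve HahnSeries IntermediateField

namespace Fermat.Agent.S28.H867

section Generic

variable {k Ω : Type*} [Field k] [Field Ω] [Algebra k Ω]

/-- `[A(S) : A]` as a `relfinrank`. -/
theorem relfinrank_sup_adjoin (A : IntermediateField k Ω) (S : Set Ω) :
    A.relfinrank (A ⊔ adjoin k S) = Module.finrank A (adjoin A S) := by
  have h : A ≤ A ⊔ adjoin k S := le_sup_left
  rw [relfinrank_eq_finrank_of_le h]
  have : extendScalars h = adjoin A S := by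
    apply IntermediateField.restrictScalars_injective k
    rw [extendScalars_restrictScalars, restrictScalars_adjoin_eq_sup]
  rw [this]

theorem relfinrank_sup_adjoin_simple (A : IntermediateField k Ω) {x : Ω} (hx : IsIntegral A x) :
    A.relfinrank (A ⊔ adjoin k {x}) = (minpoly A x).natDegree := by
  rw [relfinrank_sup_adjoin, adjoin.finrank hx]

theorem relfinrank_sup_adjoin_ne_zero (A : IntermediateField k Ω) {S : Set Ω} (hS : S.Finite)
    (hint : ∀ x ∈ S, IsIntegral A x) : A.relfinrank (A ⊔ adjoin k S) ≠ 0 := by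
  rw [relfinrank_sup_adjoin]
  have : Finite S := hS
  have := finiteDimensional_adjoin (K := A) hint
  exact Module.finrank_pos.ne'

theorem relfinrank_ne_zero_of_le {A B C : IntermediateField k Ω} (hAB : A ≤ B) (hBC : B ≤ C)
    (h : A.relfinrank C ≠ 0) : A.relfinrank B ≠ 0 ∧ B.relfinrank C ≠ 0 := by
  rw [← relfinrank_mul_relfinrank hAB hBC] at h
  exact ⟨left_ne_zero_of_mul h, right_ne_zero_of_mul h⟩

/-- A linearly independent family of size `n` inside `C` bounds `[C : B]` from below
(when finite). -/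
theorem le_relfinrank_of_linearIndependent {B C : IntermediateField k Ω} (hBC : B ≤ C)
    (hfin : B.relfinrank C ≠ 0) {n : ℕ} (v : Fin n → Ω) (hv : ∀ i, v i ∈ C)
    (hli : LinearIndependent B v) : n ≤ B.relfinrank C := by
  rw [relfinrank_eq_finrank_of_le hBC] at hfin ⊢
  have hfd : FiniteDimensional B (extendScalars hBC) :=
    Module.finite_of_finrank_pos (Nat.pos_of_ne_zero hfin)
  let v' : Fin n → extendScalars hBC := fun i => ⟨v i, hv i⟩
  have hli' : LinearIndependent B v' := by
    apply LinearIndependent.of_comp (extendScalars hBC).val.toLinearMap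
    exact hli
  simpa using hli'.fintype_card_le_finrank

end Generic

section Basic

variable (k : Type*) [Field k]

theorem jField_le_EF (M : ℕ) : jField k ≤ EF k M := by
  rw [jField, adjoin_simple_le_iff]
  exact jqModC_mem_full k M

theorem jpField_eq_map (p : ℕ) [NeZero p] :
    jpField k p = (jField k).map (qExpandAlgHomC k p) := by
  rw [jpField, jField, adjoin_map, Set.image_singleton]
  rfl

theorem EF_le_EF_mul (M p : ℕ) [NeZero M] [NeZero p] : EF k M ≤ EF k (M * p) :=
  haveI : NeZero (M * p) := ⟨Nat.mul_ne_zero (NeZero.ne M) (NeZero.ne p)⟩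
  full_degeneracyC_le k (Dvd.intro _ rfl)

theorem map_EF_le (M p : ℕ) [NeZero p] :
    (EF k M).map (qExpandAlgHomC k p) ≤ EF k (M * p) :=
  full_degeneracyC_map_le k M p

/-- Step (b): `[E_{Mp} : k(j)] ≥ p · [E_M : k(j)]`. -/
theorem degE_mul_ge (M p : ℕ) [NeZero p] (hP : PrimeLevel k p) (hI : LeafI k p)
    (hfin : degE k (M * p) ≠ 0) : p * degE k M ≤ degE k (M * p) := by
  set V := qExpandAlgHomC k p with hV
  set A₀ := jField k with hA₀
  set A := jpField k p with hA
  set B := (EF k M).map V with hB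
  set C := B ⊔ A₀ with hC
  set E' := EF k (M * p) with hE'
  set P := A₀ ⊔ A with hPdef
  have hAB : A ≤ B := by
    rw [hA, jpField_eq_map, hB]
    exact IntermediateField.map_mono _ (jField_le_EF k M)
  have hBE : B ≤ E' := map_EF_le k M p
  have hA₀E : A₀ ≤ E' := jField_le_EF k (M * p)
  have hCE : C ≤ E' := sup_le hBE hA₀E
  have hBC : B ≤ C := le_sup_left
  have hPC : P ≤ C := sup_le le_sup_right (hAB.trans hBC)
  have hPE : P ≤ E' := hPC.trans hCE
  have hA₀P : A₀ ≤ P := le_sup_left
  have hAP : A ≤ P := le_sup_right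
  -- D_{Mp} = [E' : A]
  have h1 : A₀.relfinrank E' = A.relfinrank E' := by
    rw [← relfinrank_mul_relfinrank hA₀P hPE, ← relfinrank_mul_relfinrank hAP hPE,
      hP.deg_j, hP.deg_jp]
  have h2 : A.relfinrank E' = A.relfinrank B * (B.relfinrank C * C.relfinrank E') := by
    rw [relfinrank_mul_relfinrank hBC hCE, relfinrank_mul_relfinrank hAB hBE]
  have h3 : A.relfinrank B = degE k M := by
    rw [hA, jpField_eq_map, hB, relfinrank_map_map]
    rfl
  have hfin' : A.relfinrank E' ≠ 0 := by rw [← h1]; exact hfin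
  have hBCfin : B.relfinrank C ≠ 0 := by
    rw [h2] at hfin'
    exact left_ne_zero_of_mul (right_ne_zero_of_mul hfin')
  have hCEfin : C.relfinrank E' ≠ 0 := by
    rw [h2] at hfin'
    exact right_ne_zero_of_mul (right_ne_zero_of_mul hfin')
  have h4 : p ≤ B.relfinrank C := by
    refine le_relfinrank_of_linearIndependent hBC hBCfin _ ?_ (hI B ?_)
    · intro i
      refine pow_mem ?_ _
      exact (le_sup_right : A₀ ≤ C) (mem_adjoin_simple_self k _)
    · rw [hB]
      intro x hx
      obtain ⟨y, -, rfl⟩ := hx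
      exact ⟨y, rfl⟩
  show p * degE k M ≤ A₀.relfinrank E'
  rw [h1, h2, h3]
  calc p * degE k M = degE k M * (p * 1) := by ring
    _ ≤ degE k M * (B.relfinrank C * C.relfinrank E') := by
        apply Nat.mul_le_mul_left
        exact Nat.mul_le_mul h4 (Nat.one_le_iff_ne_zero.mpr hCEfin)

end Basic

end Fermat.Agent.S28.H867

end
end
-- ===== PACK-END S28/H867/Degree.lean

-- ===== PACK-BEGIN S28/H25/ThetaFormal.lean
section




/-!
# The `θ`-identity for `j`, formal part (helper25, S28 piece [A-θ])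

`(θ j)⁶ = Δ · j⁴ · (j - 1728)³` in `ℤ((q))`, for the Prelude's formal `j = jqModC ℤ`,
`Δ = q · dedekindEtaUnit`, `θ = q d/dq`, assuming the two bridges
* `qExpansion 1 E₄ = eisenstein4` (proved here) and
* `qExpansion 1 Δ = X * dedekindEtaUnit` (hypothesis `DeltaBridge`).
-/

set_option autoImplicit false

open UpperHalfPlane hiding I
open ModularForm EisensteinSeries ModularCurve
open scoped MatrixGroups

noncomputable section

namespace Fermat.Agent.S28.H25

section thetaP

variable {R : Type*} [CommRing R]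

theorem thetaP_mul (f g : PowerSeries R) :
    thetaP (f * g) = thetaP f * g + f * thetaP g := by
  unfold thetaP
  rw [Derivation.leibniz]
  simp only [smul_eq_mul]
  ring

theorem thetaP_X : thetaP (PowerSeries.X : PowerSeries R) = PowerSeries.X := by
  unfold thetaP
  rw [PowerSeries.derivative_X, mul_one]

theorem thetaP_pow_three (f : PowerSeries R) :
    thetaP (f ^ 3) = 3 * f ^ 2 * thetaP f := by
  have : f ^ 3 = f * (f * f) := by ring
  rw [this, thetaP_mul, thetaP_mul]
  ring

theorem thetaP_map {S : Type*} [CommRing S] (φ : R →+* S) (f : PowerSeries R) :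
    thetaP (f.map φ) = (thetaP f).map φ := by
  ext n
  simp [coeff_thetaP]

end thetaP

/-- Pure algebra: the `θ`-identity from the two analytic relations, over a field. -/
theorem theta_identity_of_relations {K : Type*} [Field K]
    (E e6 et eti u : PowerSeries K) (h0 : et * eti = 1) (hu : u = E ^ 3 * eti)
    (hi : E ^ 3 - e6 ^ 2 = 1728 * (PowerSeries.X * et))
    (hii : 3 * E ^ 2 * thetaP E * (PowerSeries.X * et) - E ^ 3 * thetaP (PowerSeries.X * et) =
      - (E ^ 2 * e6 * (PowerSeries.X * et))) :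
    (thetaP u - u) ^ 6 = et * u ^ 4 * (u - 1728 * PowerSeries.X) ^ 3 := by
  have heta : et ≠ 0 := by
    rintro rfl
    simp at h0
  have hX : (PowerSeries.X : PowerSeries K) ≠ 0 := PowerSeries.X_ne_zero
  have hueta : u * et = E ^ 3 := by
    rw [hu]
    linear_combination E ^ 3 * h0
  have hθ : thetaP u * et + u * thetaP et = 3 * E ^ 2 * thetaP E := by
    rw [← thetaP_mul, hueta, thetaP_pow_three]
  have hbr : 3 * E ^ 2 * thetaP E * et - E ^ 3 * et - E ^ 3 * thetaP et + E ^ 2 * e6 * et = 0 := by
    have h1 : PowerSeries.X * (3 * E ^ 2 * thetaP E * et - E ^ 3 * et - E ^ 3 * thetaP et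
        + E ^ 2 * e6 * et) = 0 := by
      rw [thetaP_mul, thetaP_X] at hii
      linear_combination hii
    rcases mul_eq_zero.mp h1 with h | h
    · exact absurd h hX
    · exact h
  have h1 : (thetaP u - u) * et = - (E ^ 2 * e6) := by
    apply mul_right_cancel₀ heta
    linear_combination et * hθ + hbr - (thetaP et + et) * hueta
  have h2 : e6 ^ 2 = et * (u - 1728 * PowerSeries.X) := by
    linear_combination -hi - hueta
  have h3 : ((thetaP u - u) * et) ^ 6 = et ^ 6 * (et * u ^ 4 * (u - 1728 * PowerSeries.X) ^ 3) := by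
    calc ((thetaP u - u) * et) ^ 6 = (- (E ^ 2 * e6)) ^ 6 := by rw [h1]
      _ = (E ^ 3) ^ 4 * (e6 ^ 2) ^ 3 := by ring
      _ = (u * et) ^ 4 * (et * (u - 1728 * PowerSeries.X)) ^ 3 := by rw [hueta, h2]
      _ = et ^ 6 * (et * u ^ 4 * (u - 1728 * PowerSeries.X) ^ 3) := by ring
  apply mul_left_cancel₀ (pow_ne_zero 6 heta)
  rw [← h3]
  ring

/-- Bridge B1: the `q`-expansion of `E₄` is the Prelude's `eisenstein4`. -/
theorem qExpansion_E4_eq_eisenstein4 :
    qExpansion 1 E₄ = eisenstein4.map (Int.castRingHom ℂ) := by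
  ext m
  rw [E_qExpansion_coeff _ ⟨2, rfl⟩]
  simp only [eisenstein4, PowerSeries.coeff_map, PowerSeries.coeff_mk]
  split_ifs with h
  · simp
  · norm_num [show bernoulli 4 = -1 / 30 by decide +kernel, ArithmeticFunction.sigma_apply]

/-- Bridge B2 (to be supplied): the `q`-expansion of `Δ` is `q ∏ (1 - qⁿ)²⁴`. -/
def DeltaBridge : Prop :=
  qExpansion 1 ModularForm.discriminant =
    PowerSeries.X * dedekindEtaUnit.map (Int.castRingHom ℂ)

/-- The `θ`-identity in `ℤ⟦q⟧`: with `u = q · j = E₄³ / ∏(1-qⁿ)²⁴`,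
`(θ u - u)⁶ = ∏(1-qⁿ)²⁴ · u⁴ · (u - 1728 q)³`. -/
theorem theta_identity_powerSeries (hΔ : DeltaBridge) :
    (thetaP jNum - jNum) ^ 6 =
      dedekindEtaUnit * jNum ^ 4 * (jNum - 1728 * PowerSeries.X) ^ 3 := by
  have hinj : Function.Injective (PowerSeries.map (Int.castRingHom ℂ)) := by
    intro f g hfg
    ext n
    have := congrArg (PowerSeries.coeff n) hfg
    simpa using this
  apply hinj
  have hΔ' : qExpansion 1 ModularForm.discriminant =
      PowerSeries.X * dedekindEtaUnit.map (Int.castRingHom ℂ) := hΔ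
  have h := theta_identity_of_relations (K := ℂ) (eisenstein4.map (Int.castRingHom ℂ))
    (qExpansion 1 E₆) (dedekindEtaUnit.map (Int.castRingHom ℂ))
    (dedekindEtaUnitInv.map (Int.castRingHom ℂ)) (jNum.map (Int.castRingHom ℂ))
    (by rw [← map_mul, dedekindEtaUnit_mul_inv, map_one])
    (by rw [jNum, map_mul, map_pow])
    (by rw [← qExpansion_E4_eq_eisenstein4, ← hΔ']; exact qExp_E4_cube_sub_E6_sq)
    (by rw [← qExpansion_E4_eq_eisenstein4, ← hΔ']; exact qExp_theta_relation)
  simp only [map_pow, map_mul, map_sub, map_ofNat, PowerSeries.map_X, ← thetaP_map]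
  exact h

end Fermat.Agent.S28.H25

end
end
-- ===== PACK-END S28/H25/ThetaFormal.lean

-- ===== PACK-BEGIN S18/H516/GaussDecomp.lean
section






/-!
# S18 / MOD (helper516): Gauss decomposition from the S28 basis

`A` a valuation subring of a field `L ⊇ ℚ`, `π : A →+* k` any ring hom to a field `k`
such that `CoreData N k` holds (S28; true when `char k ∤ N`).

* `exists_gauss_decomp` (G4): every `f ≠ 0` in `F_L` is `c · U₁ / U₂` with `U₁, U₂ ∈ A((q))`,
  images in `F_L`, reductions in `F_k` and nonzero.  (This is `PrincipalGeneratedByIntegral`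
  as a theorem, valid at every level.)
* `red_mem_of_incl_mem` (G5): `U ∈ A((q))` with image in `F_L` has reduction in `F_k`.
-/

set_option autoImplicit false
set_option linter.unusedSectionVars false

noncomputable section

namespace Fermat.Agent.S18.H516

open ModularCurve IntermediateField Polynomial Fermat.Agent.S28

section Scale

variable {L : Type*} [Field L] (A : ValuationSubring L)

/-- Joint scaling of a finite family of polynomials over the fraction field of a valuation ring:
after division by a suitable constant all coefficients are integral and one of them is `1`. -/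
theorem exists_scale {n : ℕ} (H : Fin n → L[X]) (hH : ∃ i, H i ≠ 0) :
    ∃ (c : L) (H' : Fin n → A[X]), c ≠ 0 ∧
      (∀ i, (H' i).map A.subtype = C c⁻¹ * H i) ∧ ∃ i m, (H' i).coeff m = 1 := by
  classical
  set T : Finset (Σ _ : Fin n, ℕ) := Finset.univ.sigma (fun i => (H i).support) with hT
  have hTne : T.Nonempty := by
    obtain ⟨i, hi⟩ := hH
    obtain ⟨m, hm⟩ : (H i).support.Nonempty := by
      rw [Finset.nonempty_iff_ne_empty, Ne, Polynomial.support_eq_empty]
      exact hi
    exact ⟨⟨i, m⟩, by simp [hT, hm]⟩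
  obtain ⟨⟨i0, m0⟩, h0T, hmax⟩ := Finset.exists_max_image T
    (fun p => A.valuation ((H p.1).coeff p.2)) hTne
  have hc : (H i0).coeff m0 ≠ 0 := by
    have : m0 ∈ (H i0).support := by simpa [hT] using h0T
    exact Polynomial.mem_support_iff.mp this
  set c : L := (H i0).coeff m0 with hcdef
  have hmem : ∀ i m, c⁻¹ * (H i).coeff m ∈ A := by
    intro i m
    by_cases h0 : (H i).coeff m = 0
    · rw [h0, mul_zero]; exact zero_mem _
    · have hT' : (⟨i, m⟩ : Σ _ : Fin n, ℕ) ∈ T := by
        simp [hT, Polynomial.mem_support_iff, h0]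
      have hle := hmax ⟨i, m⟩ hT'
      rw [← A.valuation_le_one_iff, map_mul, map_inv₀]
      have hvc : A.valuation c ≠ 0 := (_root_.map_ne_zero _).mpr hc
      rw [inv_mul_le_iff₀ (zero_lt_iff.mpr hvc), mul_one]
      exact hle
  have hsub : ∀ i, (↑(C c⁻¹ * H i).coeffs : Set L) ⊆ A.toSubring := by
    intro i x hx
    rw [Finset.mem_coe, Polynomial.mem_coeffs_iff] at hx
    obtain ⟨m, -, rfl⟩ := hx
    rw [Polynomial.coeff_C_mul]
    exact hmem i m
  refine ⟨c, fun i => (C c⁻¹ * H i).toSubring A.toSubring (hsub i), hc,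
    fun i => Polynomial.map_toSubring _ A.toSubring (hsub i), i0, m0, ?_⟩
  apply Subtype.ext
  rw [Polynomial.coeff_toSubring, Polynomial.coeff_C_mul]
  show c⁻¹ * c = 1
  exact inv_mul_cancel₀ hc

end Scale

section Eval

variable {R S : Type*} [CommRing R] [CommRing S]

theorem coeffMap_C (f : R →+* S) (a : R) :
    coeffMap f (HahnSeries.C (Γ := ℤ) a) = HahnSeries.C (f a) := by
  rw [HahnSeries.C_apply, HahnSeries.C_apply, coeffMap_single]

/-- Evaluation of a polynomial at `j ∈ R((q))`. -/
def evJ (P : R[X]) : LaurentSeries R := P.eval₂ (HahnSeries.C (Γ := ℤ) (R := R)) (jqModC R)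

theorem coeffMap_evJ (f : R →+* S) (P : R[X]) : coeffMap f (evJ P) = evJ (P.map f) := by
  rw [evJ, evJ, hom_eval₂, eval₂_map, coeffMap_jqModC]
  congr 1
  ext a
  exact congrArg (fun z : LaurentSeries S => z.coeff _) (coeffMap_C f a)

theorem evJ_add (P Q : R[X]) : evJ (P + Q) = evJ P + evJ Q := eval₂_add _ _

theorem evJ_mul (P Q : R[X]) : evJ (P * Q) = evJ P * evJ Q := eval₂_mul _ _

theorem evJ_C (a : R) : evJ (C a) = HahnSeries.C a := eval₂_C _ _

theorem evJ_zero : evJ (0 : R[X]) = 0 := eval₂_zero _ _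

theorem evJ_one : evJ (1 : R[X]) = 1 := eval₂_one _ _

theorem evJ_prod {ι : Type*} (s : Finset ι) (g : ι → R[X]) :
    evJ (∏ i ∈ s, g i) = ∏ i ∈ s, evJ (g i) :=
  eval₂_finsetProd _ _ _ _

end Eval

section Field

variable (K : Type*) [Field K]

theorem aeval_eq_evJ (Q : K[X]) : aeval (jqModC K) Q = evJ Q := by
  rw [aeval_def, evJ]
  congr 1
  ext a
  rw [algebraMap_laurentSeries_eq_single, HahnSeries.C_apply]

theorem evJ_eq_zero_iff {Q : K[X]} : evJ Q = 0 ↔ Q = 0 := by
  constructor
  · intro h
    exact Fermat.Agent.S28.H806.eq_zero_of_eval₂_C_eq_zero (jqModC K)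
      (Fermat.Agent.S28.H806.jqModC_order_ne_zero K) Q h
  · rintro rfl
    exact evJ_zero

theorem evJ_mem_jField (Q : K[X]) : evJ Q ∈ jField K := by
  rw [← aeval_eq_evJ, jField, mem_adjoin_simple_iff]
  exact ⟨Q, 1, by simp⟩

theorem exists_fraction {c : LaurentSeries K} (hc : c ∈ jField K) :
    ∃ r s : K[X], s ≠ 0 ∧ evJ s * c = evJ r := by
  rw [jField, mem_adjoin_simple_iff] at hc
  obtain ⟨r, s, rfl⟩ := hc
  by_cases hs : s = 0
  · refine ⟨0, 1, one_ne_zero, ?_⟩
    rw [hs, map_zero, div_zero, mul_zero, evJ_zero]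
  · refine ⟨r, s, hs, ?_⟩
    have hs' : aeval (jqModC K) s ≠ 0 := by
      rw [aeval_eq_evJ]
      exact fun h => hs (evJ_eq_zero_iff K |>.mp h)
    rw [← aeval_eq_evJ, ← aeval_eq_evJ]
    field_simp

/-- Clearing denominators in a `K(j)`-linear combination. -/
theorem exists_cleared {n : ℕ} (v : Fin n → LaurentSeries K) {x : LaurentSeries K}
    (hx : x ∈ Submodule.span (jField K) (Set.range v)) :
    ∃ (G : K[X]) (H : Fin n → K[X]), G ≠ 0 ∧ evJ G * x = ∑ i, evJ (H i) * v i := by
  classical
  obtain ⟨c, rfl⟩ := (Submodule.mem_span_range_iff_exists_fun (jField K)).mp hx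
  have hc : ∀ i, ∃ r s : K[X], s ≠ 0 ∧ evJ s * (c i : LaurentSeries K) = evJ r :=
    fun i => exists_fraction K (c i).2
  choose r s hs hrs using hc
  refine ⟨∏ i, s i, fun i => r i * ∏ j ∈ Finset.univ.erase i, s j, ?_, ?_⟩
  · exact Finset.prod_ne_zero_iff.mpr fun i _ => hs i
  · rw [Finset.mul_sum]
    refine Finset.sum_congr rfl fun i _ => ?_
    rw [← Finset.mul_prod_erase Finset.univ s (Finset.mem_univ i), evJ_mul, evJ_mul,
      IntermediateField.smul_def, smul_eq_mul, ← hrs i]
    ring

end Field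

section Decomp

variable {L : Type*} [Field L] [Algebra ℚ L] (A : ValuationSubring L)
variable {k : Type} [Field k] (π : A →+* k) (N : ℕ) [NeZero N]

/-- Integral series: image in `F_L`, reduction in `F_k` and nonzero. -/
def IsIntSeries (U : LaurentSeries A) : Prop :=
  coeffMap A.subtype U ∈ laurentBaseChange L (modularFunctionFieldFull N) ∧
    coeffMap π U ∈ modularFunctionFieldFullC k N ∧ coeffMap π U ≠ 0

omit [Algebra ℚ L] in
theorem incl_injective : Function.Injective (coeffMap A.subtype) := by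
  intro x y hxy
  ext m
  have := congrArg (fun z : LaurentSeries L => z.coeff m) hxy
  exact this

theorem jField_le_fullC (K : Type*) [Field K] : jField K ≤ modularFunctionFieldFullC K N := by
  rw [jField, adjoin_le_iff]
  rintro x rfl
  exact jqModC_mem_full K N

theorem C_mem_baseChange (c : L) :
    HahnSeries.C (Γ := ℤ) c ∈ laurentBaseChange L (modularFunctionFieldFull N) := by
  have := (laurentBaseChange L (modularFunctionFieldFull N)).algebraMap_mem c
  rwa [algebraMap_laurentSeries_eq_single, ← HahnSeries.C_apply] at this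

/-- **(G4) Gauss decomposition.** -/
theorem exists_gauss_decomp (core : CoreData N k) {f : LaurentSeries L}
    (hf : f ∈ laurentBaseChange L (modularFunctionFieldFull N)) (hf0 : f ≠ 0) :
    ∃ (c : L) (U₁ U₂ : LaurentSeries A), c ≠ 0 ∧ IsIntSeries A π N U₁ ∧ IsIntSeries A π N U₂ ∧
      f * coeffMap A.subtype U₂ = HahnSeries.C c * coeffMap A.subtype U₁ := by
  classical
  obtain ⟨n, y, hy, hspan, hli⟩ := core.exists_basis
  have hS : SpansQ N y := ⟨hy, hspan⟩
  have hfs := (mem_baseChange_iff_mem_spanL L hS).mp hf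
  obtain ⟨G, H, hG, hGH⟩ := exists_cleared L _ hfs
  have hGne : evJ G ≠ 0 := fun h => hG ((evJ_eq_zero_iff L).mp h)
  have hH : ∃ i, H i ≠ 0 := by
    by_contra hcon
    push Not at hcon
    have : evJ G * f = 0 := by
      rw [hGH]
      exact Finset.sum_eq_zero fun i _ => by rw [hcon i, evJ_zero, zero_mul]
    rcases mul_eq_zero.mp this with h | h
    · exact hGne h
    · exact hf0 h
  obtain ⟨g0, G', hg0, hG', i1, m1, hG1⟩ := exists_scale A (fun _ : Fin 1 => G) ⟨0, hG⟩
  obtain rfl : i1 = 0 := Subsingleton.elim _ _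
  obtain ⟨h0, H', hh0, hH', i0, m0, hH1⟩ := exists_scale A H hH
  set U₂ : LaurentSeries A := evJ (G' 0) with hU₂
  set U₁ : LaurentSeries A := ∑ i, evJ (H' i) * coeffMap (Int.castRingHom A) (y i) with hU₁
  have hU₂L : coeffMap A.subtype U₂ = HahnSeries.C g0⁻¹ * evJ G := by
    rw [hU₂, coeffMap_evJ, hG' 0, evJ_mul, evJ_C]
  have hU₁L : coeffMap A.subtype U₁ =
      HahnSeries.C h0⁻¹ * ∑ i, evJ (H i) * coeffMap (Int.castRingHom L) (y i) := by
    rw [hU₁, map_sum, Finset.mul_sum]
    refine Finset.sum_congr rfl fun i _ => ?_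
    rw [map_mul, coeffMap_evJ, hH' i, evJ_mul, evJ_C, coeffMap_coeffMap,
      show (A.subtype.comp (Int.castRingHom A)) = Int.castRingHom L from RingHom.ext_int _ _]
    ring
  have hU₁k : coeffMap π U₁ =
      ∑ i, evJ ((H' i).map π) * coeffMap (Int.castRingHom k) (y i) := by
    rw [hU₁, map_sum]
    refine Finset.sum_congr rfl fun i _ => ?_
    rw [map_mul, coeffMap_evJ, coeffMap_coeffMap,
      show (π.comp (Int.castRingHom A)) = Int.castRingHom k from RingHom.ext_int _ _]
  have hU₂k : coeffMap π U₂ = evJ ((G' 0).map π) := by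
    rw [hU₂, coeffMap_evJ]
  refine ⟨h0 * g0⁻¹, U₁, U₂, mul_ne_zero hh0 (inv_ne_zero hg0), ⟨?_, ?_, ?_⟩, ⟨?_, ?_, ?_⟩, ?_⟩
  · rw [hU₁L, ← hGH]
    exact mul_mem (C_mem_baseChange N _)
      (mul_mem (jField_le_baseChange L (evJ_mem_jField L G)) hf)
  · rw [hU₁k]
    refine sum_mem fun i _ => mul_mem (jField_le_fullC N k (evJ_mem_jField k _)) ?_
    exact coeffMap_mem_of_mem_closure N (hy i)
  · rw [hU₁k]
    intro h0'
    have hli' := Fintype.linearIndependent_iff.mp hli
      (fun i => (⟨evJ ((H' i).map π), evJ_mem_jField k _⟩ : jField k)) h0' i0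
    have h1 : evJ ((H' i0).map π) = 0 := congrArg Subtype.val hli'
    have h2 := (evJ_eq_zero_iff k).mp h1
    have h3 := congrArg (fun P : k[X] => P.coeff m0) h2
    simp only [Polynomial.coeff_map, Polynomial.coeff_zero, hH1, map_one] at h3
    exact one_ne_zero h3
  · rw [hU₂L]
    exact mul_mem (C_mem_baseChange N _) (jField_le_baseChange L (evJ_mem_jField L G))
  · rw [hU₂k]
    exact jField_le_fullC N k (evJ_mem_jField k _)
  · rw [hU₂k]
    intro h1
    have h2 := (evJ_eq_zero_iff k).mp h1
    have h3 := congrArg (fun P : k[X] => P.coeff m1) h2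
    simp only [Polynomial.coeff_map, Polynomial.coeff_zero, hG1, map_one] at h3
    exact one_ne_zero h3
  · rw [hU₂L, hU₁L, ← hGH, map_mul]
    have hC : HahnSeries.C (Γ := ℤ) h0 * HahnSeries.C h0⁻¹ = 1 := by
      rw [← map_mul, mul_inv_cancel₀ hh0, map_one]
    calc f * (HahnSeries.C g0⁻¹ * evJ G)
        = (HahnSeries.C (Γ := ℤ) h0 * HahnSeries.C h0⁻¹) * (HahnSeries.C g0⁻¹ * (evJ G * f)) := by
          rw [hC]; ring
      _ = HahnSeries.C h0 * HahnSeries.C g0⁻¹ * (HahnSeries.C h0⁻¹ * (evJ G * f)) := by ring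

theorem C_mem_fullC (K : Type*) [Field K] (c : K) :
    HahnSeries.C (Γ := ℤ) c ∈ modularFunctionFieldFullC K N := by
  have := (modularFunctionFieldFullC K N).algebraMap_mem c
  rwa [algebraMap_laurentSeries_eq_single, ← HahnSeries.C_apply] at this

/-- **(G5)** A series with coefficients in `A` lying in `F_L` reduces into `F_k`. -/
theorem red_mem_of_incl_mem (core : CoreData N k) {U : LaurentSeries A}
    (hU : coeffMap A.subtype U ∈ laurentBaseChange L (modularFunctionFieldFull N)) :
    coeffMap π U ∈ modularFunctionFieldFullC k N := by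
  by_cases hU0 : U = 0
  · rw [hU0, map_zero]; exact zero_mem _
  have hU0' : coeffMap A.subtype U ≠ 0 := fun h => hU0 (incl_injective A (by rw [h, map_zero]))
  obtain ⟨c, U₁, U₂, hc, h₁, h₂, heq⟩ := exists_gauss_decomp A π N core hU hU0'
  rcases A.mem_or_inv_mem c with hcA | hcA
  · have h1 : U * U₂ = HahnSeries.C ⟨c, hcA⟩ * U₁ := by
      apply incl_injective A
      rw [map_mul, map_mul, coeffMap_C, heq]
      rfl
    have hk := congrArg (coeffMap π) h1
    rw [map_mul, map_mul, coeffMap_C] at hk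
    have h2 : coeffMap π U =
        HahnSeries.C (π ⟨c, hcA⟩) * coeffMap π U₁ * (coeffMap π U₂)⁻¹ := by
      rw [← hk, mul_assoc, mul_inv_cancel₀ h₂.2.2, mul_one]
    rw [h2]
    exact mul_mem (mul_mem (C_mem_fullC N k _) h₁.2.1) (inv_mem h₂.2.1)
  · have h1 : HahnSeries.C ⟨c⁻¹, hcA⟩ * (U * U₂) = U₁ := by
      apply incl_injective A
      rw [map_mul, map_mul, coeffMap_C, heq]
      show HahnSeries.C c⁻¹ * (HahnSeries.C c * _) = _
      rw [← mul_assoc, ← map_mul, inv_mul_cancel₀ hc, map_one, one_mul]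
    have hk := congrArg (coeffMap π) h1
    rw [map_mul, map_mul, coeffMap_C] at hk
    have hne : HahnSeries.C (Γ := ℤ) (π ⟨c⁻¹, hcA⟩) ≠ 0 := by
      intro h0
      rw [h0, zero_mul] at hk
      exact h₁.2.2 hk.symm
    have h2 : coeffMap π U =
        (HahnSeries.C (Γ := ℤ) (π ⟨c⁻¹, hcA⟩))⁻¹ * coeffMap π U₁ * (coeffMap π U₂)⁻¹ := by
      rw [← hk, ← mul_assoc, inv_mul_cancel₀ hne, one_mul, mul_assoc,
        mul_inv_cancel₀ h₂.2.2, mul_one]
    rw [h2]
    exact mul_mem (mul_mem (inv_mem (C_mem_fullC N k _)) h₁.2.1) (inv_mem h₂.2.1)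

end Decomp

end Fermat.Agent.S18.H516

end
end
-- ===== PACK-END S18/H516/GaussDecomp.lean

-- ===== PACK-BEGIN Lib/RR/Basic.lean
section


/-!
# RR library, layer L1: the spaces `L(D)`

* `L(D) = 0` for `deg D < 0`;
* `L(D + P) ⊆ L(D) + K f₀`;
* `L(D)` is finite-dimensional and `ℓ(D) ≤ deg D + 1` for `deg D ≥ -1`;
* `L(0) = K`, `ℓ(0) = 1`;
* `ℓ(D + div z) = ℓ(D)`.
-/

set_option autoImplicit false

noncomputable section

open AlgebraicCurve

namespace Fermat.Agent.Lib.RR

variable {K F : Type*} [Field K] [Field F] [Algebra K F]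

/-! ### Divisors and degrees -/

theorem degree_eq_sum (D : Divisor K F) :
    Divisor.degree D = ∑ v ∈ D.support, D v * (v.deg : ℤ) := by
  simp [Divisor.degree, Finsupp.liftAddHom_apply, Finsupp.sum]

theorem degree_nonneg {D : Divisor K F} (h : 0 ≤ D) : 0 ≤ Divisor.degree D := by
  rw [degree_eq_sum]
  refine Finset.sum_nonneg fun v _ => mul_nonneg ?_ (Int.natCast_nonneg _)
  simpa using Finsupp.le_def.mp h v

theorem degree_mono {D D' : Divisor K F} (h : D ≤ D') :
    Divisor.degree D ≤ Divisor.degree D' := by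
  have h1 : 0 ≤ D' - D := sub_nonneg.mpr h
  have h2 := degree_nonneg h1
  rw [map_sub] at h2
  linarith

theorem degree_prim (v : Place K F) (hv : v.deg = 1) : Divisor.degree (prim v) = 1 := by
  simp [prim, hv]

@[simp] theorem prim_apply_self (v : Place K F) : prim v v = 1 := by
  simp [prim]

theorem prim_apply_of_ne {v w : Place K F} (h : w ≠ v) : prim v w = 0 := by
  simp [prim, h.symm]

/-! ### The spaces `L(D)` -/

theorem mem_L_iff {D : Divisor K F} {f : F} :
    f ∈ riemannRochSpace D ↔ ∀ v : Place K F, f = 0 ∨ -D v ≤ v.ord f :=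
  mem_riemannRochSpace_iff

theorem L_mono {D D' : Divisor K F} (h : D ≤ D') :
    riemannRochSpace D ≤ riemannRochSpace D' := by
  intro f hf
  rw [mem_L_iff] at hf ⊢
  intro v
  rcases hf v with h0 | h1
  · exact Or.inl h0
  · right
    have := Finsupp.le_def.mp h v
    omega

/-- A nonzero element of `L(D)` forces `deg D ≥ 0`. -/
theorem degree_nonneg_of_mem_L [HasPrincipalDivisors K F] {D : Divisor K F} {f : F}
    (hf : f ∈ riemannRochSpace D) (hf0 : f ≠ 0) : 0 ≤ Divisor.degree D := by
  obtain ⟨E, hE, hE0⟩ := HasPrincipalDivisors.exists_divisor (K := K) f hf0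
  have h1 : 0 ≤ D + E := by
    rw [Finsupp.le_def]
    intro v
    have := (mem_L_iff.mp hf v).resolve_left hf0
    simp only [Finsupp.coe_zero, Pi.zero_apply, Finsupp.coe_add, Pi.add_apply, hE v]
    omega
  have h2 := degree_nonneg h1
  rw [map_add, hE0, add_zero] at h2
  exact h2

theorem L_eq_bot_of_degree_neg [HasPrincipalDivisors K F] {D : Divisor K F}
    (h : Divisor.degree D < 0) : riemannRochSpace D = ⊥ := by
  rw [eq_bot_iff]
  intro f hf
  rw [Submodule.mem_bot]
  by_contra hf0
  have := degree_nonneg_of_mem_L hf hf0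
  omega

/-- One step: `L(D + P) ⊆ L(D) + K f₀` for any `f₀ ∈ L(D + P) \ L(D)`, `P` of degree one. -/
theorem L_add_prim_le (v : Place K F) (hv : v.deg = 1) (D : Divisor K F) {f₀ : F}
    (hf₀ : f₀ ∈ riemannRochSpace (D + prim v)) (hf₀' : f₀ ∉ riemannRochSpace D) :
    riemannRochSpace (D + prim v) ≤ riemannRochSpace D ⊔ Submodule.span K {f₀} := by
  classical
  have hf₀0 : f₀ ≠ 0 := fun h => hf₀' (h ▸ Submodule.zero_mem _)
  -- the order of `f₀` at `v` is exactly `-(D v + 1)`
  have hord₀ : v.ord f₀ = -(D v + 1) := by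
    have h1 := (mem_L_iff.mp hf₀ v).resolve_left hf₀0
    simp only [Finsupp.coe_add, Pi.add_apply, prim_apply_self] at h1
    by_contra hne
    apply hf₀'
    rw [mem_L_iff]
    intro w
    right
    by_cases hw : w = v
    · subst hw; omega
    · have h2 := (mem_L_iff.mp hf₀ w).resolve_left hf₀0
      simpa [prim_apply_of_ne hw] using h2
  intro f hf
  rcases eq_or_ne f 0 with rfl | hf0
  · exact Submodule.zero_mem _
  have hordf := (mem_L_iff.mp hf v).resolve_left hf0
  simp only [Finsupp.coe_add, Pi.add_apply, prim_apply_self] at hordf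
  have hg : 0 ≤ v.ord (f * f₀⁻¹) := by
    rw [v.ord_mul hf0 (inv_ne_zero hf₀0), v.ord_inv, hord₀]; omega
  obtain ⟨c, hc⟩ := exists_const_sub v hv hg
  have hdecomp : f = (f - c • f₀) + c • f₀ := by ring
  rw [hdecomp]
  refine Submodule.add_mem _ (Submodule.mem_sup_left ?_)
    (Submodule.mem_sup_right (Submodule.smul_mem _ _ (Submodule.mem_span_singleton_self _)))
  have hmem' : f - c • f₀ ∈ riemannRochSpace (D + prim v) :=
    Submodule.sub_mem _ hf (Submodule.smul_mem _ _ hf₀)
  rw [mem_L_iff]
  intro w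
  by_cases hw : w = v
  · subst hw
    have hfac : f - c • f₀ = (f * f₀⁻¹ - algebraMap K F c) * f₀ := by
      rw [Algebra.smul_def]; field_simp
    rcases hc with hc | hc
    · left; rw [hfac, hc, zero_mul]
    · rcases eq_or_ne (f - c • f₀) 0 with h0 | h0
      · exact Or.inl h0
      right
      have hne : f * f₀⁻¹ - algebraMap K F c ≠ 0 := by
        intro h; rw [hfac, h, zero_mul] at h0; exact h0 rfl
      rw [hfac, w.ord_mul hne hf₀0, hord₀]
      omega
  · have h2 := mem_L_iff.mp hmem' w
    simpa [prim_apply_of_ne hw] using h2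

/-- One step, dimension form. -/
theorem L_add_prim_finite (v : Place K F) (hv : v.deg = 1) (D : Divisor K F)
    [Module.Finite K (riemannRochSpace D)] :
    Module.Finite K (riemannRochSpace (D + prim v)) ∧
      ell (D + prim v) ≤ ell D + 1 := by
  classical
  by_cases h : riemannRochSpace (D + prim v) ≤ riemannRochSpace D
  · have hfin : Module.Finite K (riemannRochSpace (D + prim v)) :=
      Submodule.finiteDimensional_of_le h
    exact ⟨hfin, (Submodule.finrank_mono h).trans (Nat.le_succ _)⟩
  · obtain ⟨f₀, hf₀, hf₀'⟩ := SetLike.not_le_iff_exists.mp h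
    have hle := L_add_prim_le v hv D hf₀ hf₀'
    have hfin' : Module.Finite K ↥(riemannRochSpace D ⊔ Submodule.span K {f₀}) := inferInstance
    have hfin : Module.Finite K (riemannRochSpace (D + prim v)) :=
      Submodule.finiteDimensional_of_le hle
    refine ⟨hfin, ?_⟩
    calc ell (D + prim v) ≤ Module.finrank K ↥(riemannRochSpace D ⊔ Submodule.span K {f₀}) :=
          Submodule.finrank_mono hle
      _ ≤ Module.finrank K (riemannRochSpace D) + Module.finrank K (Submodule.span K {f₀}) :=
          Submodule.finrank_add_le_finrank_add_finrank _ _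
      _ ≤ ell D + 1 := by
          have := finrank_span_singleton (K := K) (fun h => hf₀' (h ▸ Submodule.zero_mem _) : f₀ ≠ 0)
          rw [this]; rfl


/-! ### Consequences under the standing hypotheses -/

section FF1

variable [hFF : FF1 K F]

instance (priority := 100) instHasPrincipalDivisors_of_FF1 : HasPrincipalDivisors K F := hFF.hpd

theorem deg_eq_one (v : Place K F) : v.deg = 1 := FF1.deg_eq_one v

@[simp] theorem degree_prim' (v : Place K F) : Divisor.degree (prim v) = 1 :=
  degree_prim v (deg_eq_one v)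

/-- `L(D)` is finite-dimensional, of dimension at most `deg D + 1`. -/
theorem finite_and_ell_le : ∀ (n : ℕ) (D : Divisor K F), Divisor.degree D + 1 ≤ n →
    Module.Finite K (riemannRochSpace D) ∧ ell D ≤ n := by
  intro n
  induction n with
  | zero =>
    intro D hD
    have h : riemannRochSpace D = ⊥ := L_eq_bot_of_degree_neg (by push_cast at hD; omega)
    refine ⟨by rw [h]; infer_instance, ?_⟩
    have h0 : ell D = 0 := by unfold ell; rw [h]; exact finrank_bot K F
    omega
  | succ n ih =>
    intro D hD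
    obtain ⟨v₀⟩ := hFF.nonempty_place
    have hdeg : Divisor.degree (D - prim v₀) + 1 ≤ n := by
      rw [map_sub, degree_prim']; push_cast at hD; omega
    obtain ⟨hfin, hle⟩ := ih (D - prim v₀) hdeg
    have := L_add_prim_finite v₀ (deg_eq_one v₀) (D - prim v₀)
    rw [sub_add_cancel] at this
    exact ⟨this.1, this.2.trans (by omega)⟩

instance finite_L (D : Divisor K F) : Module.Finite K (riemannRochSpace D) :=
  (finite_and_ell_le (Divisor.degree D + 1).toNat D (Int.self_le_toNat _)).1

theorem ell_le_toNat (D : Divisor K F) : ell D ≤ (Divisor.degree D + 1).toNat :=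
  (finite_and_ell_le (Divisor.degree D + 1).toNat D (Int.self_le_toNat _)).2

theorem ell_le_degree_add_one {D : Divisor K F} (h : -1 ≤ Divisor.degree D) :
    (ell D : ℤ) ≤ Divisor.degree D + 1 := by
  have := ell_le_toNat D
  have h2 : ((Divisor.degree D + 1).toNat : ℤ) = Divisor.degree D + 1 :=
    Int.toNat_of_nonneg (by omega)
  omega

theorem ell_eq_zero_of_degree_neg {D : Divisor K F} (h : Divisor.degree D < 0) : ell D = 0 := by
  unfold ell; rw [L_eq_bot_of_degree_neg h]; exact finrank_bot K F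

theorem ell_mono {D D' : Divisor K F} (h : D ≤ D') : ell D ≤ ell D' :=
  Submodule.finrank_mono (L_mono h)

theorem ell_add_prim_le (D : Divisor K F) (v : Place K F) : ell (D + prim v) ≤ ell D + 1 :=
  (L_add_prim_finite v (deg_eq_one v) D).2

/-- Induction principle: from `D` upwards, adding one place at a time. -/
theorem induction_ge {P : Divisor K F → Prop} (D : Divisor K F) (h0 : P D)
    (hstep : ∀ (D' : Divisor K F) (v : Place K F), D ≤ D' → P D' → P (D' + prim v)) :
    ∀ D', D ≤ D' → P D' := by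
  classical
  have key : ∀ (n : ℕ) (D' : Divisor K F), D ≤ D' → Divisor.degree (D' - D) ≤ n → P D' := by
    intro n
    induction n with
    | zero =>
      intro D' hle hdeg
      have hE : 0 ≤ D' - D := sub_nonneg.mpr hle
      have hE0 : D' - D = 0 := by
        by_contra hne
        obtain ⟨v, hv⟩ := Finsupp.support_nonempty_iff.mpr hne
        rw [Finsupp.mem_support_iff] at hv
        have hv0 : 0 ≤ (D' - D) v := by simpa using Finsupp.le_def.mp hE v
        have hge : prim v ≤ D' - D := by
          rw [Finsupp.le_def]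
          intro w
          by_cases hw : w = v
          · subst hw; rw [prim_apply_self]; omega
          · rw [prim_apply_of_ne hw]; simpa using Finsupp.le_def.mp hE w
        have := degree_mono hge
        rw [degree_prim'] at this
        push_cast at hdeg
        omega
      rw [sub_eq_zero] at hE0
      rw [hE0]; exact h0
    | succ n ih =>
      intro D' hle hdeg
      by_cases hE0 : D' - D = 0
      · rw [sub_eq_zero] at hE0
        rw [hE0]; exact h0
      have hE : 0 ≤ D' - D := sub_nonneg.mpr hle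
      obtain ⟨v, hv⟩ := Finsupp.support_nonempty_iff.mpr hE0
      rw [Finsupp.mem_support_iff] at hv
      have hv0 : 0 ≤ (D' - D) v := by simpa using Finsupp.le_def.mp hE v
      have hge : prim v ≤ D' - D := by
        rw [Finsupp.le_def]
        intro w
        by_cases hw : w = v
        · subst hw; rw [prim_apply_self]; omega
        · rw [prim_apply_of_ne hw]; simpa using Finsupp.le_def.mp hE w
      have hle' : D ≤ D' - prim v := by
        have : D + prim v ≤ D' := by
          have := add_le_add_left hge D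
          rwa [sub_add_cancel, add_comm] at this
        exact le_sub_iff_add_le.mpr this
      have hdeg' : Divisor.degree (D' - prim v - D) ≤ n := by
        have : D' - prim v - D = (D' - D) - prim v := by abel
        rw [this, map_sub, degree_prim']
        push_cast at hdeg; omega
      have := hstep (D' - prim v) v hle' (ih (D' - prim v) hle' hdeg')
      rwa [sub_add_cancel] at this
  intro D' hle
  exact key (Divisor.degree (D' - D)).toNat D' hle (Int.self_le_toNat _)

/-- `deg D - ℓ(D)` is monotone in `D`. -/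
theorem degree_sub_ell_mono {D D' : Divisor K F} (h : D ≤ D') :
    Divisor.degree D - ell D ≤ Divisor.degree D' - ell D' := by
  refine induction_ge (P := fun D' => Divisor.degree D - ell D ≤ Divisor.degree D' - ell D')
    D le_rfl ?_ D' h
  intro D'' v _ hP
  have h1 := ell_add_prim_le D'' v
  rw [map_add, degree_prim']
  omega

/-- Functions without poles are constant. -/
theorem L_zero : riemannRochSpace (0 : Divisor K F) = LinearMap.range (Algebra.linearMap K F) := by
  apply le_antisymm
  · intro f hf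
    obtain ⟨v₀⟩ := hFF.nonempty_place
    have hf0 : 0 ≤ v₀.ord f := by
      rcases mem_L_iff.mp hf v₀ with h | h
      · simp [h]
      · simpa using h
    obtain ⟨c, hc⟩ := exists_const_sub v₀ (deg_eq_one v₀) hf0
    have hcL : algebraMap K F c ∈ riemannRochSpace (0 : Divisor K F) := by
      rw [mem_L_iff]; intro v; right; simp [ord_algebraMap]
    have hg : f - algebraMap K F c ∈ riemannRochSpace (0 : Divisor K F) :=
      Submodule.sub_mem _ hf hcL
    have hzero : f - algebraMap K F c = 0 := by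
      by_contra hne
      have hpos := hc.resolve_left hne
      have hmem : f - algebraMap K F c ∈ riemannRochSpace (-prim v₀) := by
        rw [mem_L_iff]
        intro w
        right
        by_cases hw : w = v₀
        · subst hw; simp only [Finsupp.coe_neg, Pi.neg_apply, prim_apply_self, neg_neg]; omega
        · have := (mem_L_iff.mp hg w).resolve_left hne
          simpa [prim_apply_of_ne hw] using this
      have hbot : riemannRochSpace (-prim v₀) = ⊥ :=
        L_eq_bot_of_degree_neg (by rw [map_neg, degree_prim']; omega)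
      rw [hbot, Submodule.mem_bot] at hmem
      exact hne hmem
    exact ⟨c, by rw [Algebra.linearMap_apply]; exact (sub_eq_zero.mp hzero).symm⟩
  · rintro _ ⟨c, rfl⟩
    rw [mem_L_iff]; intro v; right
    simp [ord_algebraMap]

theorem ell_zero : ell (0 : Divisor K F) = 1 := by
  unfold ell
  rw [L_zero]
  have hinj : Function.Injective (Algebra.linearMap K F) := (algebraMap K F).injective
  rw [LinearMap.finrank_range_of_inj hinj]
  exact Module.finrank_self K

/-- The divisor of a nonzero function. -/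
def divOf (z : F) (hz : z ≠ 0) : Divisor K F :=
  (HasPrincipalDivisors.exists_divisor (K := K) z hz).choose

theorem divOf_apply (z : F) (hz : z ≠ 0) (v : Place K F) : divOf z hz v = v.ord z :=
  (HasPrincipalDivisors.exists_divisor (K := K) z hz).choose_spec.1 v

@[simp] theorem degree_divOf (z : F) (hz : z ≠ 0) : Divisor.degree (divOf (K := K) z hz) = 0 :=
  (HasPrincipalDivisors.exists_divisor (K := K) z hz).choose_spec.2

/-- Multiplication by `z` maps `L(D + div z)` isomorphically onto `L(D)`. -/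
theorem ell_add_divOf (D : Divisor K F) (z : F) (hz : z ≠ 0) :
    ell (D + divOf z hz) = ell D := by
  let e : F ≃ₗ[K] F :=
    LinearEquiv.ofLinearMap (LinearMap.mulLeft K z) (LinearMap.mulLeft K z⁻¹)
      (by ext x; simp [hz]) (by ext x; simp [hz])
  have hmap : Submodule.map (e : F →ₗ[K] F) (riemannRochSpace (D + divOf z hz))
      = riemannRochSpace D := by
    ext f
    simp only [Submodule.mem_map, mem_L_iff]
    constructor
    · rintro ⟨g, hg, rfl⟩ v
      rcases hg v with h | h
      · left; simp [e, h]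
      · rcases eq_or_ne g 0 with rfl | hg0
        · left; simp [e]
        right
        show -D v ≤ v.ord (z * g)
        rw [v.ord_mul hz hg0]
        simp only [Finsupp.coe_add, Pi.add_apply, divOf_apply] at h
        omega
    · intro hf
      refine ⟨z⁻¹ * f, fun v => ?_, by simp [e, hz]⟩
      rcases hf v with h | h
      · left; simp [h]
      · rcases eq_or_ne f 0 with rfl | hf0
        · left; simp
        right
        rw [v.ord_mul (inv_ne_zero hz) hf0, v.ord_inv]
        simp only [Finsupp.coe_add, Pi.add_apply, divOf_apply]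
        omega
  unfold ell
  rw [← hmap]
  exact (LinearEquiv.finrank_map_eq e _).symm

end FF1

end Fermat.Agent.Lib.RR

end
end
-- ===== PACK-END Lib/RR/Basic.lean

-- ===== PACK-BEGIN Lib/RR/Approx.lean
section


/-!
# RR library: separation / approximation for finitely many places

(The first three lemmas follow helper144's `S24/Alg/LocApprox.lean`.)
-/

set_option autoImplicit false

noncomputable section

open AlgebraicCurve

namespace Fermat.Agent.Lib.RR

variable {K F : Type*} [Field K] [Field F] [Algebra K F]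

/-- The valuation rings of two places are comparable only if the places are equal. -/
theorem place_eq_of_le {v w : Place K F} (h : v.toValuationSubring ≤ w.toValuationSubring) :
    v = w := by
  apply Place.ext
  refine le_antisymm h ?_
  intro f hf
  by_contra hfv
  have hfw : 0 ≤ w.ord f := ord_nonneg_of_mem w hf
  have hfv' : v.ord f < 0 := by
    by_contra h0
    exact hfv (mem_of_ord_nonneg v (not_lt.mp h0))
  have hf0 : f ≠ 0 := ne_zero_of_ord_ne_zero v hfv'.ne
  obtain ⟨h1, hh1⟩ := exists_ord_eq_one w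
  have hh0 : h1 ≠ 0 := ne_zero_of_ord_ne_zero w (by omega)
  set r : ℕ := (v.ord h1).toNat + 1 with hr
  have hfr : f ^ r ≠ 0 := pow_ne_zero r hf0
  have hv : v.ord (f ^ r * h1) < 0 := by
    rw [v.ord_mul hfr hh0, ord_pow]
    have : (r : ℤ) * v.ord f ≤ -(r : ℤ) := by nlinarith
    have : v.ord h1 ≤ (v.ord h1).toNat := Int.self_le_toNat _
    have : (r : ℤ) = (v.ord h1).toNat + 1 := by rw [hr]; push_cast; ring
    omega
  have hmem : (f ^ r * h1)⁻¹ ∈ w.toValuationSubring := by
    apply h
    apply mem_of_ord_nonneg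
    rw [v.ord_inv]; omega
  have hw := ord_nonneg_of_mem w hmem
  rw [w.ord_inv, w.ord_mul hfr hh0, ord_pow, hh1] at hw
  have : 0 ≤ (r : ℤ) * w.ord f := mul_nonneg (Int.natCast_nonneg r) hfw
  omega

/-- Two distinct places are separated by a function. -/
theorem exists_sep {v w : Place K F} (hvw : v ≠ w) :
    ∃ c : F, 0 < v.ord c ∧ w.ord c < 0 := by
  have h1 : ¬ v.toValuationSubring ≤ w.toValuationSubring := fun h => hvw (place_eq_of_le h)
  have h2 : ¬ w.toValuationSubring ≤ v.toValuationSubring :=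
    fun h => hvw (place_eq_of_le h).symm
  obtain ⟨a, hav, haw⟩ := SetLike.not_le_iff_exists.mp h1
  obtain ⟨b, hbw, hbv⟩ := SetLike.not_le_iff_exists.mp h2
  have hav' : 0 ≤ v.ord a := ord_nonneg_of_mem v hav
  have hbw' : 0 ≤ w.ord b := ord_nonneg_of_mem w hbw
  have haw' : w.ord a < 0 := by
    by_contra h0; exact haw (mem_of_ord_nonneg w (not_lt.mp h0))
  have hbv' : v.ord b < 0 := by
    by_contra h0; exact hbv (mem_of_ord_nonneg v (not_lt.mp h0))
  have ha0 : a ≠ 0 := ne_zero_of_ord_ne_zero w haw'.ne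
  have hb0 : b ≠ 0 := ne_zero_of_ord_ne_zero v hbv'.ne
  refine ⟨a * b⁻¹, ?_, ?_⟩
  · rw [v.ord_mul ha0 (inv_ne_zero hb0), v.ord_inv]; omega
  · rw [w.ord_mul ha0 (inv_ne_zero hb0), w.ord_inv]; omega

/-- For a place `v` outside a finite set `S` of places there is a function with a zero at `v` and
poles at all places of `S`. -/
theorem exists_zero_poles (v : Place K F) (S : Finset (Place K F)) (hv : v ∉ S) :
    ∃ g : F, 0 < v.ord g ∧ ∀ w ∈ S, w.ord g < 0 := by
  classical
  induction S using Finset.induction_on with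
  | empty =>
    obtain ⟨h, hh⟩ := exists_ord_eq_one v
    exact ⟨h, by omega, by simp⟩
  | insert w₀ S' hw₀ ih =>
    have hv' : v ∉ S' := fun h => hv (Finset.mem_insert_of_mem h)
    have hvw₀ : v ≠ w₀ := fun h => hv (h ▸ Finset.mem_insert_self _ _)
    obtain ⟨g, hgv, hgS⟩ := ih hv'
    obtain ⟨c, hcv, hcw⟩ := exists_sep hvw₀
    have hg0 : g ≠ 0 := ne_zero_of_ord_ne_zero v hgv.ne'
    have hc0 : c ≠ 0 := ne_zero_of_ord_ne_zero v hcv.ne'
    by_cases hgw : w₀.ord g < 0
    · refine ⟨g, hgv, ?_⟩
      intro w hw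
      rcases Finset.mem_insert.mp hw with rfl | hw
      · exact hgw
      · exact hgS w hw
    · have hgw := not_lt.mp hgw
      set r : ℕ := (∑ w ∈ S', (w.ord c).natAbs) + 1 with hr
      have hrS : ∀ w ∈ S', -(r : ℤ) < w.ord c := by
        intro w hw
        have h1 : (w.ord c).natAbs ≤ ∑ w ∈ S', (w.ord c).natAbs :=
          Finset.single_le_sum (f := fun w : Place K F => (w.ord c).natAbs)
            (fun _ _ => Nat.zero_le _) hw
        have h2 : (r : ℤ) = ((∑ w ∈ S', (w.ord c).natAbs : ℕ) : ℤ) + 1 := by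
          rw [hr]; push_cast; ring
        have h3 : ((w.ord c).natAbs : ℤ) ≤ ((∑ w ∈ S', (w.ord c).natAbs : ℕ) : ℤ) := by
          exact_mod_cast h1
        omega
      have hr1 : 1 ≤ r := by omega
      have hgr0 : g ^ r ≠ 0 := pow_ne_zero r hg0
      have hw₀' : w₀.ord (c + g ^ r) = w₀.ord c := by
        apply ord_add_eq_of_lt w₀ hc0 hgr0
        rw [ord_pow]
        have : 0 ≤ (r : ℤ) * w₀.ord g := mul_nonneg (Int.natCast_nonneg r) hgw
        omega
      have hsum0 : c + g ^ r ≠ 0 := ne_zero_of_ord_ne_zero w₀ (by rw [hw₀']; omega)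
      refine ⟨c + g ^ r, ?_, ?_⟩
      · have h1 := ord_add v hc0 hgr0 hsum0
        rw [ord_pow] at h1
        have h2 : 0 < (r : ℤ) * v.ord g := mul_pos (by exact_mod_cast hr1) hgv
        have h3 : 0 < min (v.ord c) ((r : ℤ) * v.ord g) := lt_min hcv h2
        omega
      · intro w hw
        rcases Finset.mem_insert.mp hw with rfl | hw
        · rw [hw₀']; exact hcw
        · have h1 : w.ord (g ^ r) < w.ord c := by
            rw [ord_pow]
            have h2 := hgS w hw
            have h3 := hrS w hw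
            have h4 : (r : ℤ) * w.ord g ≤ -(r : ℤ) := by nlinarith
            omega
          rw [add_comm, ord_add_eq_of_lt w hgr0 hc0 h1, ord_pow]
          have h2 := hgS w hw
          have hrpos : (0 : ℤ) < r := by exact_mod_cast hr1
          exact mul_neg_of_pos_of_neg hrpos h2

/-- For a place `v` outside a finite set `S` of places and every `M` there is a function which is
a unit at `v` and vanishes to order at least `M` at all places of `S`. -/
theorem exists_unit_zeros (v : Place K F) (S : Finset (Place K F)) (hv : v ∉ S) (M : ℕ) :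
    ∃ s : F, s ≠ 0 ∧ v.ord s = 0 ∧ ∀ w ∈ S, (M : ℤ) ≤ w.ord s := by
  obtain ⟨g, hgv, hgS⟩ := exists_zero_poles v S hv
  have hg0 : g ≠ 0 := ne_zero_of_ord_ne_zero v hgv.ne'
  -- `u = g⁻¹` has a pole at `v` and zeros on `S`; `s = 1 / (1 + g ^ (M+1))`
  set r : ℕ := M + 1 with hr
  have hgr0 : g ^ r ≠ 0 := pow_ne_zero r hg0
  have hrpos : (0 : ℤ) < r := by rw [hr]; push_cast; omega
  have hv1 : v.ord (1 + g ^ r) = 0 := by
    have h1 : v.ord (1 : F) < v.ord (g ^ r) := by
      rw [v.ord_one, ord_pow]; exact mul_pos hrpos hgv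
    rw [ord_add_eq_of_lt v one_ne_zero hgr0 h1, v.ord_one]
  have hne : (1 + g ^ r : F) ≠ 0 := by
    intro h0
    have h1 : v.ord (1 : F) < v.ord (g ^ r) := by
      rw [v.ord_one, ord_pow]; exact mul_pos hrpos hgv
    have h2 : g ^ r = -1 := by rw [← sub_eq_zero, sub_neg_eq_add, add_comm]; exact h0
    rw [h2, ord_neg, v.ord_one] at h1
    exact lt_irrefl _ h1
  refine ⟨(1 + g ^ r)⁻¹, inv_ne_zero hne, by rw [v.ord_inv, hv1, neg_zero], ?_⟩
  intro w hw
  have hgw := hgS w hw
  have h1 : w.ord (g ^ r) < w.ord (1 : F) := by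
    rw [w.ord_one, ord_pow]; exact mul_neg_of_pos_of_neg hrpos hgw
  have h2 : w.ord (1 + g ^ r) = w.ord (g ^ r) := by
    rw [add_comm]; exact ord_add_eq_of_lt w hgr0 one_ne_zero h1
  rw [w.ord_inv, h2, ord_pow]
  have h3 : (r : ℤ) * w.ord g ≤ -(r : ℤ) := by nlinarith
  rw [hr] at h3 ⊢
  push_cast at h3 ⊢
  omega

/-- The order of a finite sum all of whose terms are `0` or of order `> n`. -/
theorem ord_sum_gt (v : Place K F) {ι : Type*} (s : Finset ι) (y : ι → F) (n : ℤ)
    (h : ∀ i ∈ s, y i = 0 ∨ n < v.ord (y i)) :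
    ∑ i ∈ s, y i = 0 ∨ n < v.ord (∑ i ∈ s, y i) := by
  classical
  induction s using Finset.induction_on with
  | empty => left; simp
  | insert a s ha ih =>
    rw [Finset.sum_insert ha]
    have h1 := h a (Finset.mem_insert_self _ _)
    have h2 := ih (fun i hi => h i (Finset.mem_insert_of_mem hi))
    have h1' : y a = 0 ∨ n + 1 ≤ v.ord (y a) := h1.imp id (fun h => by omega)
    have h2' : ∑ i ∈ s, y i = 0 ∨ n + 1 ≤ v.ord (∑ i ∈ s, y i) := h2.imp id (fun h => by omega)
    exact (ord_add_of_le v h1' h2').imp id (fun h => by omega)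

end Fermat.Agent.Lib.RR

end
end
-- ===== PACK-END Lib/RR/Approx.lean

-- ===== PACK-BEGIN S18/H107/QepTransfer.lean
section




/-!
# helper107 — S18 / M3-T : transfer of the `q`-expansion principle between coordinates

`Qep107 Fc R V w y` is the field `qep_fin` of the frozen `GoodModel` for the coordinate `y`
(`qep_inf` is `Qep107 Fc R V w y⁻¹`).

`qep_transfer107`: if QEP holds for the charts of `y₁` and `y₂` (application: `j`, `j⁻¹`) and
`Spec R[x]` is covered by two comaximal opens `D(g₁)`, `D(g₂)` on which `x` is "controlled" by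
`y₁` resp. `y₂` (`OpenData107`), then QEP holds for the chart of `x`.
No noetherian / S2 / finiteness hypothesis is used.
-/

set_option autoImplicit false

namespace Fermat.Agent.S18.H107

open Polynomial Fermat.Agent.S18.Alg

variable {Ω : Type*} [Field Ω]

/-- The `q`-expansion principle on the chart of the coordinate `y`
(= `GoodModel.qep_fin` with `x := y`). -/
def Qep107 (Fc : Subfield Ω) (R V : Subring Ω) (w y : Ω) : Prop :=
  ∀ b ∈ chart Fc R y, b * w⁻¹ ∈ V → b * w⁻¹ ∈ chart Fc R y

/-- The open `D(g) ⊆ Spec R[x]` is controlled by the chart of `y`: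
* `e` is a unit-like multiplier: `e ∈ V`, `e` and `x·e` integral over `R[y]`;
* `y ∈ R[x][1/g]` : `y * g ^ k` integral over `R[x]`;
* `e⁻¹ ∈ R[x][1/g]` : `e * f = g ^ k'` with `f` integral over `R[x]`. -/
structure OpenData107 (Fc : Subfield Ω) (R V : Subring Ω) (x y g e : Ω) : Prop where
  g_mem : g ∈ polyRing R x
  e_mem_Fc : e ∈ Fc
  e_mem_V : e ∈ V
  e_int : e ∈ intCl107 (polyRing R y)
  xe_int : x * e ∈ intCl107 (polyRing R y)
  y_loc : ∃ k : ℕ, y * g ^ k ∈ intCl107 (polyRing R x)
  e_inv : ∃ f ∈ intCl107 (polyRing R x), ∃ k : ℕ, e * f = g ^ k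

theorem OpenData107.exists_pow_mul_mem {Fc : Subfield Ω} {R V : Subring Ω} {w x y g e : Ω}
    (o : OpenData107 Fc R V x y g e) (q : Qep107 Fc R V w y) {b : Ω} (hb : b ∈ chart Fc R x)
    (hz : b * w⁻¹ ∈ V) : ∃ K : ℕ, b * w⁻¹ * g ^ K ∈ intCl107 (polyRing R x) := by
  obtain ⟨hbF, hbI⟩ := hb
  -- step 1: `b * e ^ D` is integral over `R[y]`
  obtain ⟨D, hD⟩ := exists_pow_mul_isIntegral107 (R' := R) (T := polyRing R y) (y := x) (e := e)
    ((le_polyRing107 R y).trans (le_intCl107 _)) o.e_int o.xe_int hbI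
  have hchart : b * e ^ D ∈ chart Fc R y := ⟨Fc.mul_mem hbF (Fc.pow_mem o.e_mem_Fc D), hD⟩
  -- step 2/3: QEP for `y`
  have hV : b * e ^ D * w⁻¹ ∈ V := by
    have : b * e ^ D * w⁻¹ = b * w⁻¹ * e ^ D := by ring
    rw [this]
    exact V.mul_mem hz (V.pow_mem o.e_mem_V D)
  have h3 := (q _ hchart hV).2
  -- step 4: back to `R[x]`
  obtain ⟨k, hk⟩ := o.y_loc
  have hgI : g ∈ intCl107 (polyRing R x) := le_intCl107 _ o.g_mem
  obtain ⟨D', hD'⟩ := exists_pow_mul_isIntegral107 (R' := R) (T := polyRing R x) (y := y)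
    (e := g ^ k) ((le_polyRing107 R x).trans (le_intCl107 _)) ((intCl107 _).pow_mem hgI k) hk h3
  -- step 5: remove `e ^ D`
  obtain ⟨f, hf, k', hef⟩ := o.e_inv
  refine ⟨k' * D + k * D', ?_⟩
  have : b * w⁻¹ * g ^ (k' * D + k * D') = (b * e ^ D * w⁻¹ * (g ^ k) ^ D') * f ^ D := by
    rw [pow_add, pow_mul, pow_mul, ← hef]
    ring
  rw [this]
  exact (intCl107 _).mul_mem hD' ((intCl107 _).pow_mem hf D)

/-- **QEP transfer.** -/
theorem qep_transfer107 {Fc : Subfield Ω} {R V : Subring Ω} {w x y₁ y₂ g₁ g₂ e₁ e₂ a b : Ω}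
    (hw : w ∈ Fc) (q₁ : Qep107 Fc R V w y₁) (q₂ : Qep107 Fc R V w y₂)
    (o₁ : OpenData107 Fc R V x y₁ g₁ e₁) (o₂ : OpenData107 Fc R V x y₂ g₂ e₂)
    (ha : a ∈ polyRing R x) (hb : b ∈ polyRing R x) (hab : a * g₁ + b * g₂ = 1) :
    Qep107 Fc R V w x := by
  intro c hc hz
  obtain ⟨K₁, h₁⟩ := o₁.exists_pow_mul_mem q₁ hc hz
  obtain ⟨K₂, h₂⟩ := o₂.exists_pow_mul_mem q₂ hc hz
  refine ⟨Fc.mul_mem hc.1 (Fc.inv_mem hw), ?_⟩
  exact mem_intCl107.1 (mem_of_comaximal107 (intCl107 (polyRing R x)) (c * w⁻¹) g₁ g₂ a b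
    (le_intCl107 _ o₁.g_mem) (le_intCl107 _ o₂.g_mem) (le_intCl107 _ ha) (le_intCl107 _ hb)
    hab K₁ K₂ h₁ h₂)

end Fermat.Agent.S18.H107

end
-- ===== PACK-END S18/H107/QepTransfer.lean

-- ===== PACK-BEGIN S18/H138/CechSub.lean
section


/-!
# S18, Route K, ASM (helper138): two-chart connectedness inside an ambient ring

`H558.cech_connected` is stated with `B_mid` as the ambient ring.  In the assembly the three
charts `Bf, Bi ≤ Bm` are subalgebras of a big field `F'`; this file transports the lemma.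
-/

set_option autoImplicit false
set_option linter.style.haveILetI false

namespace Fermat.Agent.S18.H138

variable {R F : Type*} [CommRing R] [CommRing F] [Algebra R F]

/-- **Two-chart connectedness, subalgebra form.**  `Bf, Bi ≤ Bm` subalgebras of an ambient
`R`-algebra `F`, `x ∈ Bf`, `y ∈ Bi`, `x y = 1`, `Bm = Bf[1/x]`, `Bf` generated over `R[x]` by
finitely many `bs i` with `y ^ D * bs i ∈ Bi`, `Bf ∩ Bi = R`, `R/w → Bf/w` injective, `w` prime.
Then a pair `e₁ ∈ Bf`, `e₂ ∈ Bi` of idempotents modulo `w` (in their charts) which are congruent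
modulo `w Bm` is `(0,0)` or `(1,1)` modulo `w`. -/
theorem cech_connected_sub [IsNoetherianRing R] {ι : Type*} [Finite ι] (w : R) (x y : F)
    (hxy : x * y = 1) (Bf Bi Bm : Subalgebra R F) (hfm : Bf ≤ Bm) (him : Bi ≤ Bm)
    (hx : x ∈ Bf) (hy : y ∈ Bi)
    (bs : ι → F) (hbs : ∀ i, bs i ∈ Bf)
    (hgen : ∀ b ∈ Bf, b ∈ Submodule.span R {z : F | ∃ (j : ℕ) (i : ι), z = x ^ j * bs i})
    (hloc : ∀ b ∈ Bm, ∃ K : ℕ, x ^ K * b ∈ Bf)
    (hinf : ∀ i, ∃ D : ℕ, y ^ D * bs i ∈ Bi)
    (hH0 : ∀ b : F, b ∈ Bf → b ∈ Bi → ∃ a : R, algebraMap R F a = b)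
    (hinj : ∀ a : R, (∃ t ∈ Bf, algebraMap R F a = algebraMap R F w * t) → w ∣ a)
    (hprime : ∀ a b : R, w ∣ a * b → w ∣ a ∨ w ∣ b)
    (e₁ e₂ : F) (he₁ : e₁ ∈ Bf) (he₂ : e₂ ∈ Bi)
    (hi₁ : ∃ t ∈ Bf, e₁ ^ 2 - e₁ = algebraMap R F w * t)
    (hi₂ : ∃ t ∈ Bi, e₂ ^ 2 - e₂ = algebraMap R F w * t)
    (h₁₂ : ∃ t ∈ Bm, e₁ - e₂ = algebraMap R F w * t) :
    ((∃ t ∈ Bf, e₁ = algebraMap R F w * t) ∧ (∃ t ∈ Bi, e₂ = algebraMap R F w * t)) ∨
    ((∃ t ∈ Bf, 1 - e₁ = algebraMap R F w * t) ∧
      (∃ t ∈ Bi, 1 - e₂ = algebraMap R F w * t)) := by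
  classical
  -- the ambient ring is `Bm`
  let ι' : Bm →ₐ[R] F := Bm.val
  have hι' : Function.Injective ι' := Subtype.val_injective
  let Bf' : Subalgebra R Bm := Bf.comap ι'
  let Bi' : Subalgebra R Bm := Bi.comap ι'
  have hxm : x ∈ Bm := hfm hx
  have hym : y ∈ Bm := him hy
  have hwm : ∀ a : R, ((algebraMap R Bm a : Bm) : F) = algebraMap R F a := fun a => rfl
  have key := H558.cech_connected (A := R) (B := Bm) (ι := ι) w ⟨x, hxm⟩ ⟨y, hym⟩
    (Subtype.ext (by simpa using hxy)) Bf' Bi' (by simpa [Bf', ι'] using hx)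
    (by simpa [Bi', ι'] using hy)
    (fun i => ⟨bs i, hfm (hbs i)⟩) (fun i => by simpa [Bf', ι'] using hbs i)
    (by
      intro b hb
      have hb' : (b : F) ∈ Bf := by simpa [Bf', ι'] using hb
      have h1 := hgen _ hb'
      -- transport the span along the injective map `Bm → F`
      have h2 : Submodule.span R {z : F | ∃ (j : ℕ) (i : ι), z = x ^ j * bs i} =
          Submodule.map ι'.toLinearMap (Submodule.span R
            {z : Bm | ∃ (j : ℕ) (i : ι), z = (⟨x, hxm⟩ : Bm) ^ j * ⟨bs i, hfm (hbs i)⟩}) := by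
        rw [Submodule.map_span]
        congr 1
        ext z
        constructor
        · rintro ⟨j, i, rfl⟩
          exact ⟨(⟨x, hxm⟩ : Bm) ^ j * ⟨bs i, hfm (hbs i)⟩, ⟨j, i, rfl⟩, by simp [ι']⟩
        · rintro ⟨z', ⟨j, i, rfl⟩, rfl⟩
          exact ⟨j, i, by simp [ι']⟩
      rw [h2] at h1
      obtain ⟨c, hc, hcb⟩ := h1
      have : c = b := hι' hcb
      rwa [this] at hc)
    (by
      intro b
      obtain ⟨K, hK⟩ := hloc b b.2
      exact ⟨K, by simpa [Bf', ι'] using hK⟩)
    (by
      intro i
      obtain ⟨D, hD⟩ := hinf i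
      exact ⟨D, by simpa [Bi', ι'] using hD⟩)
    (by
      intro b hbf hbi
      obtain ⟨a, ha⟩ := hH0 b (by simpa [Bf', ι'] using hbf) (by simpa [Bi', ι'] using hbi)
      exact ⟨a, Subtype.ext ha⟩)
    (by
      rintro a ⟨t, ht, hat⟩
      refine hinj a ⟨t, by simpa [Bf', ι'] using ht, ?_⟩
      have := congrArg (Subtype.val) hat
      simpa using this)
    hprime ⟨e₁, hfm he₁⟩ ⟨e₂, him he₂⟩ (by simpa [Bf', ι'] using he₁)
    (by simpa [Bi', ι'] using he₂)
    (by
      obtain ⟨t, ht, h⟩ := hi₁
      exact ⟨⟨t, hfm ht⟩, by simpa [Bf', ι'] using ht, Subtype.ext (by simpa using h)⟩)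
    (by
      obtain ⟨t, ht, h⟩ := hi₂
      exact ⟨⟨t, him ht⟩, by simpa [Bi', ι'] using ht, Subtype.ext (by simpa using h)⟩)
    (by
      obtain ⟨t, ht, h⟩ := h₁₂
      exact ⟨⟨t, ht⟩, Subtype.ext (by simpa using h)⟩)
  have conv : ∀ (C : Subalgebra R F) (u : F) (hu : u ∈ Bm),
      (∃ t ∈ C.comap ι', (⟨u, hu⟩ : Bm) = algebraMap R Bm w * t) →
        ∃ t ∈ C, u = algebraMap R F w * t := by
    rintro C u hu ⟨t, ht, h⟩
    refine ⟨t, by simpa [ι'] using ht, ?_⟩
    have := congrArg Subtype.val h
    simpa using this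
  rcases key with ⟨h1, h2⟩ | ⟨h1, h2⟩
  · exact Or.inl ⟨conv Bf e₁ (hfm he₁) h1, conv Bi e₂ (him he₂) h2⟩
  · refine Or.inr ⟨conv Bf (1 - e₁) (Bm.sub_mem Bm.one_mem (hfm he₁)) ?_,
      conv Bi (1 - e₂) (Bm.sub_mem Bm.one_mem (him he₂)) ?_⟩
    · obtain ⟨t, ht, h⟩ := h1
      exact ⟨t, ht, by rw [← h]; rfl⟩
    · obtain ⟨t, ht, h⟩ := h2
      exact ⟨t, ht, by rw [← h]; rfl⟩

end Fermat.Agent.S18.H138

end
-- ===== PACK-END S18/H138/CechSub.lean

-- ===== PACK-BEGIN S18/B12/H393/DiscrRed.lean
section



/-!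
# S18 / Route K / b2.5, piece A3 (helper393): `DiscrRedStatement`

`discrRed : DiscrRedStatement` (exact frozen shape of `B12/Spec2.lean`).

* `smul_trace_eq_trace_of_quasiBasis` : generic trace lemma.  `M` finite free over `A`,
  `x` a linearly independent family with `g • M ⊆ span x`, `f` an endomorphism with
  `g • f (x j) = ∑ i, m i j • x i`.  Then `g * tr f = tr m`.
  (Proof: `tr (φ ∘ f ∘ ι) = tr (ι ∘ φ ∘ f)` for `ι : span x → M`, `φ = g • _ : M → span x`.)
* `smul_intTrace_eq` : `g * intTrace P B β = tr m` if `g • (β * x j) = ∑ i, m i j • x i`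
  (`x` a local basis of `B` over `P`).
* `mk_intTrace_eq_trace` : `intTrace P B β mod w = Tr_{(B/wB)/(P/w)} (β mod w)`.
-/

set_option autoImplicit false

noncomputable section

namespace Fermat.Agent.S18.B12.H393

open Fermat.Agent.S18.B12

universe u v

section Generic

variable {A : Type*} [CommRing A] {M : Type*} [AddCommGroup M] [Module A M]

/-- **Generic trace lemma.** -/
theorem smul_trace_eq_trace_of_quasiBasis [Module.Free A M] [Module.Finite A M]
    {n : ℕ} (f : M →ₗ[A] M) (x : Fin n → M) (hli : LinearIndependent A x) (g : A)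
    (hspan : ∀ y : M, g • y ∈ Submodule.span A (Set.range x))
    (m : Matrix (Fin n) (Fin n) A) (hm : ∀ j, g • f (x j) = ∑ i, m i j • x i) :
    g * LinearMap.trace A M f = m.trace := by
  classical
  set E : Submodule A M := Submodule.span A (Set.range x) with hE
  let bE : Module.Basis (Fin n) A E := Module.Basis.span hli
  have hbE : ∀ j, ((bE j : E) : M) = x j := fun j => Module.Basis.coe_span_apply hli j
  have : Module.Free A E := Module.Free.of_basis bE
  have : Module.Finite A E := Module.Finite.of_basis bE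
  let φ : M →ₗ[A] E :=
    { toFun := fun y => ⟨g • y, hspan y⟩
      map_add' := fun y z => Subtype.ext (by simp [smul_add])
      map_smul' := fun r y => Subtype.ext (by simp [smul_comm g r]) }
  have h1 : LinearMap.trace A M (E.subtype ∘ₗ (φ ∘ₗ f)) =
      LinearMap.trace A E ((φ ∘ₗ f) ∘ₗ E.subtype) :=
    LinearMap.trace_comp_comm' (φ ∘ₗ f) E.subtype
  have h2 : E.subtype ∘ₗ (φ ∘ₗ f) = g • f := by
    ext y; simp [φ]
  have h3 : LinearMap.toMatrix bE bE ((φ ∘ₗ f) ∘ₗ E.subtype) = m := by
    ext i j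
    rw [LinearMap.toMatrix_apply]
    have : ((φ ∘ₗ f) ∘ₗ E.subtype) (bE j) = ∑ i, m i j • bE i := by
      apply Subtype.ext
      simp only [LinearMap.coe_comp, Function.comp_apply, Submodule.subtype_apply,
        LinearMap.coe_mk, AddHom.coe_mk, φ, hbE]
      rw [hm j, Submodule.coe_sum]
      refine Finset.sum_congr rfl fun i _ => ?_
      rw [Submodule.coe_smul, hbE]
    rw [this, map_sum]
    simp [Finsupp.single_apply, Finset.sum_apply']
  rw [h2, map_smul, smul_eq_mul] at h1
  rw [h1, LinearMap.trace_eq_matrix_trace A bE, h3]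

end Generic

section IntTrace

attribute [local instance] FractionRing.liftAlgebra FractionRing.isScalarTower_liftAlgebra

variable {P : Type u} [CommRing P] [IsDomain P] [IsIntegrallyClosed P]
  {B : Type v} [CommRing B] [IsDomain B] [IsIntegrallyClosed B] [Algebra P B]
  [Module.Finite P B] [Module.IsTorsionFree P B]

/-- `g * intTrace β = tr m` when `g • (β * x j) = ∑ i, m i j • x i` for a quasi-basis `x`. -/
theorem smul_intTrace_eq {n : ℕ} (x : Fin n → B) (hli : LinearIndependent P x) (g : P)
    (hspan : ∀ b : B, g • b ∈ Submodule.span P (Set.range x)) (β : B)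
    (m : Matrix (Fin n) (Fin n) P) (hm : ∀ j, g • (β * x j) = ∑ i, m i j • x i) :
    g * Algebra.intTrace P B β = m.trace := by
  classical
  have : IsIntegralClosure B P (FractionRing B) :=
    IsIntegralClosure.of_isIntegrallyClosed _ _ _
  have : Algebra.IsAlgebraic (FractionRing P) (FractionRing B) :=
    isAlgebraic_of_isFractionRing P B ..
  have hloc : IsLocalization (Algebra.algebraMapSubmonoid B (nonZeroDivisors P))
      (FractionRing B) :=
    IsIntegralClosure.isLocalization _ (FractionRing P) _ _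
  have : FiniteDimensional (FractionRing P) (FractionRing B) :=
    .of_isLocalization P B (nonZeroDivisors P)
  set K := FractionRing P
  set L := FractionRing B
  have hinjBL : Function.Injective (algebraMap B L) := IsFractionRing.injective B L
  -- linear independence over `K`
  have hliP : LinearIndependent P (fun j => algebraMap B L (x j)) := by
    have := hli.map' (IsScalarTower.toAlgHom P B L).toLinearMap
      (LinearMap.ker_eq_bot.mpr hinjBL)
    exact this
  have hliK : LinearIndependent K (fun j => algebraMap B L (x j)) :=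
    (LinearIndependent.iff_fractionRing P K).mp hliP
  -- images of elements of the `P`-span lie in the `K`-span
  have hmemK : ∀ y : B, y ∈ Submodule.span P (Set.range x) →
      algebraMap B L y ∈ Submodule.span K (Set.range fun j => algebraMap B L (x j)) := by
    intro y hy
    rw [Submodule.mem_span_range_iff_exists_fun] at hy
    obtain ⟨c, rfl⟩ := hy
    rw [map_sum]
    refine Submodule.sum_mem _ fun i _ => ?_
    have : algebraMap B L (c i • x i) = algebraMap P K (c i) • algebraMap B L (x i) := by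
      rw [Algebra.smul_def, map_mul, ← IsScalarTower.algebraMap_apply,
        IsScalarTower.algebraMap_apply P K L, ← Algebra.smul_def]
    rw [this]
    exact Submodule.smul_mem _ _ (Submodule.subset_span ⟨i, rfl⟩)
  have hspanK : ∀ ℓ : L, algebraMap P K g • ℓ ∈
      Submodule.span K (Set.range fun j => algebraMap B L (x j)) := by
    intro ℓ
    obtain ⟨⟨b, s⟩, hs⟩ := IsLocalization.surj (Algebra.algebraMapSubmonoid B (nonZeroDivisors P)) ℓ
    obtain ⟨s₀, hs₀, hs₀'⟩ := s.2
    have hs₀K : algebraMap P K s₀ ≠ 0 := by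
      have := (IsFractionRing.injective P K).ne (nonZeroDivisors.ne_zero hs₀)
      simpa using this
    have hℓ : ℓ = (algebraMap P K s₀)⁻¹ • algebraMap B L b := by
      rw [eq_inv_smul_iff₀ hs₀K]
      simp only at hs
      rw [← hs, ← hs₀', Algebra.smul_def, ← IsScalarTower.algebraMap_apply,
        IsScalarTower.algebraMap_apply P B L, mul_comm]
    have hgb : algebraMap P K g • algebraMap B L b = algebraMap B L (g • b) := by
      rw [Algebra.smul_def (A := B), map_mul, ← IsScalarTower.algebraMap_apply,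
        IsScalarTower.algebraMap_apply P K L, ← Algebra.smul_def]
    rw [hℓ, smul_comm, hgb]
    exact Submodule.smul_mem _ _ (hmemK _ (hspan b))
  have hmK : ∀ j, algebraMap P K g • (Algebra.lmul K L (algebraMap B L β)) (algebraMap B L (x j)) =
      ∑ i, (m.map (algebraMap P K)) i j • algebraMap B L (x i) := by
    intro j
    have h := congrArg (algebraMap B L) (hm j)
    rw [map_sum] at h
    have e1 : algebraMap B L (g • (β * x j)) =
        algebraMap P K g • (Algebra.lmul K L (algebraMap B L β)) (algebraMap B L (x j)) := by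
      rw [Algebra.smul_def (A := B), map_mul, ← IsScalarTower.algebraMap_apply,
        IsScalarTower.algebraMap_apply P K L, ← Algebra.smul_def, map_mul]
      rfl
    rw [← e1, h]
    refine Finset.sum_congr rfl fun i _ => ?_
    rw [Matrix.map_apply, Algebra.smul_def (A := B), map_mul, ← IsScalarTower.algebraMap_apply,
      IsScalarTower.algebraMap_apply P K L, ← Algebra.smul_def]
  have key := smul_trace_eq_trace_of_quasiBasis (A := K) (M := L)
    (Algebra.lmul K L (algebraMap B L β)) (fun j => algebraMap B L (x j)) hliK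
    (algebraMap P K g) hspanK (m.map (algebraMap P K)) hmK
  apply IsFractionRing.injective P K
  rw [map_mul, Algebra.algebraMap_intTrace_fractionRing, Algebra.trace_apply, key]
  simp [Matrix.trace, map_sum]

end IntTrace

section Reduction

variable {P : Type u} [CommRing P]
  {B : Type v} [CommRing B] [Algebra P B]

/-- Membership in `w B` (as the ideal `(span {w}).map (algebraMap P B)`). -/
theorem mem_map_span_singleton_iff (w : P) (b : B) :
    b ∈ (Ideal.span {w}).map (algebraMap P B) ↔ ∃ β : B, b = w • β := by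
  rw [Ideal.map_span, Set.image_singleton, Ideal.mem_span_singleton']
  constructor
  · rintro ⟨β, rfl⟩; exact ⟨β, by rw [Algebra.smul_def, mul_comm]⟩
  · rintro ⟨β, rfl⟩; exact ⟨β, by rw [Algebra.smul_def, mul_comm]⟩

theorem mk_sum_smul (w : P) {n : ℕ} (c : Fin n → P) (x : Fin n → B) :
    Ideal.Quotient.mk ((Ideal.span {w}).map (algebraMap P B)) (∑ i, c i • x i) =
      ∑ i, Ideal.Quotient.mk (Ideal.span {w}) (c i) •
        Ideal.Quotient.mk ((Ideal.span {w}).map (algebraMap P B)) (x i) := by
  rw [map_sum]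
  refine Finset.sum_congr rfl fun i _ => ?_
  rw [Ideal.Quotient.mk_smul_mk_quotient_map_quotient, Algebra.smul_def]

/-- The reduction mod `w` of a quasi-basis is linearly independent over `P/(w)`. -/
theorem linearIndependent_mk_of_quasiBasis {w : P} (hw : Prime w) {n : ℕ} (x : Fin n → B)
    (hli : LinearIndependent P x) (g : P) (hg : ¬ w ∣ g)
    (hspan : ∀ b : B, g • b ∈ Submodule.span P (Set.range x)) :
    LinearIndependent (P ⧸ Ideal.span {w})
      (fun j => Ideal.Quotient.mk ((Ideal.span {w}).map (algebraMap P B)) (x j)) := by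
  classical
  rw [Fintype.linearIndependent_iff]
  intro cb hcb i
  choose c hc using fun i => Ideal.Quotient.mk_surjective (cb i)
  have h0 : Ideal.Quotient.mk ((Ideal.span {w}).map (algebraMap P B)) (∑ i, c i • x i) = 0 := by
    rw [mk_sum_smul, ← hcb]
    refine Finset.sum_congr rfl fun i _ => ?_
    rw [hc i]
  rw [Ideal.Quotient.eq_zero_iff_mem, mem_map_span_singleton_iff] at h0
  obtain ⟨β, hβ⟩ := h0
  have hgβ := hspan β
  rw [Submodule.mem_span_range_iff_exists_fun] at hgβ
  obtain ⟨d, hd⟩ := hgβ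
  have hrel : ∑ i, (g * c i - w * d i) • x i = 0 := by
    simp only [sub_smul, Finset.sum_sub_distrib, mul_smul]
    rw [← Finset.smul_sum, ← Finset.smul_sum, hβ, hd, smul_comm, sub_self]
  have := (Fintype.linearIndependent_iff.mp hli) _ hrel i
  have hdvd : w ∣ g * c i := ⟨d i, sub_eq_zero.mp this⟩
  have hwc : w ∣ c i := (hw.dvd_or_dvd hdvd).resolve_left hg
  rw [← hc i, Ideal.Quotient.eq_zero_iff_mem, Ideal.mem_span_singleton]
  exact hwc

theorem smul_mem_span_mk_of_quasiBasis (w : P) {n : ℕ} (x : Fin n → B) (g : P)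
    (hspan : ∀ b : B, g • b ∈ Submodule.span P (Set.range x))
    (q : B ⧸ (Ideal.span {w}).map (algebraMap P B)) :
    Ideal.Quotient.mk (Ideal.span {w}) g • q ∈ Submodule.span (P ⧸ Ideal.span {w})
      (Set.range fun j => Ideal.Quotient.mk ((Ideal.span {w}).map (algebraMap P B)) (x j)) := by
  obtain ⟨b, rfl⟩ := Ideal.Quotient.mk_surjective q
  have h := hspan b
  rw [Submodule.mem_span_range_iff_exists_fun] at h ⊢
  obtain ⟨c, hc⟩ := h
  refine ⟨fun i => Ideal.Quotient.mk (Ideal.span {w}) (c i), ?_⟩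
  rw [← mk_sum_smul, hc, Ideal.Quotient.mk_smul_mk_quotient_map_quotient, Algebra.smul_def]

end Reduction

section Main

variable {P : Type u} [CommRing P] [IsDomain P] [IsIntegrallyClosed P]
  {B : Type v} [CommRing B] [IsDomain B] [IsIntegrallyClosed B] [Algebra P B]
  [Module.Finite P B] [Module.IsTorsionFree P B]

/-- **Trace reduction.** `intTrace P B β mod w` is the trace of `β mod w` on `B/wB` over `P/(w)`. -/
theorem mk_intTrace_eq_trace {w : P} (hw : Prime w) {n : ℕ} (x : Fin n → B)
    (hli : LinearIndependent P x) (g : P) (hg : ¬ w ∣ g)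
    (hspan : ∀ b : B, g • b ∈ Submodule.span P (Set.range x))
    [Module.Free (P ⧸ Ideal.span {w}) (B ⧸ (Ideal.span {w}).map (algebraMap P B))]
    [Module.Finite (P ⧸ Ideal.span {w}) (B ⧸ (Ideal.span {w}).map (algebraMap P B))]
    (β : B) :
    Ideal.Quotient.mk (Ideal.span {w}) (Algebra.intTrace P B β) =
      Algebra.trace (P ⧸ Ideal.span {w}) (B ⧸ (Ideal.span {w}).map (algebraMap P B))
        (Ideal.Quotient.mk _ β) := by
  classical
  have hIp : (Ideal.span {w}).IsPrime := (Ideal.span_singleton_prime hw.ne_zero).mpr hw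
  have hex : ∀ j, ∃ c : Fin n → P, ∑ i, c i • x i = g • (β * x j) := fun j =>
    (Submodule.mem_span_range_iff_exists_fun P).mp (hspan (β * x j))
  choose c hc using hex
  let m : Matrix (Fin n) (Fin n) P := Matrix.of fun i j => c j i
  have hm : ∀ j, g • (β * x j) = ∑ i, m i j • x i := fun j => (hc j).symm
  have hP := smul_intTrace_eq x hli g hspan β m hm
  have hmΛ : ∀ j, Ideal.Quotient.mk (Ideal.span {w}) g •
      (Algebra.lmul (P ⧸ Ideal.span {w}) (B ⧸ (Ideal.span {w}).map (algebraMap P B))
        (Ideal.Quotient.mk _ β)) (Ideal.Quotient.mk _ (x j)) =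
      ∑ i, (m.map (Ideal.Quotient.mk (Ideal.span {w}))) i j •
        Ideal.Quotient.mk ((Ideal.span {w}).map (algebraMap P B)) (x i) := by
    intro j
    have h := congrArg (Ideal.Quotient.mk ((Ideal.span {w}).map (algebraMap P B))) (hm j)
    rw [mk_sum_smul] at h
    rw [show (∑ i, (m.map (Ideal.Quotient.mk (Ideal.span {w}))) i j •
        Ideal.Quotient.mk ((Ideal.span {w}).map (algebraMap P B)) (x i)) =
        ∑ i, Ideal.Quotient.mk (Ideal.span {w}) (m i j) •
          Ideal.Quotient.mk ((Ideal.span {w}).map (algebraMap P B)) (x i) from rfl, ← h]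
    change Ideal.Quotient.mk (Ideal.span {w}) g •
      (Ideal.Quotient.mk ((Ideal.span {w}).map (algebraMap P B)) β *
        Ideal.Quotient.mk ((Ideal.span {w}).map (algebraMap P B)) (x j)) = _
    rw [← map_mul, Ideal.Quotient.mk_smul_mk_quotient_map_quotient, Algebra.smul_def]
  have hΛ := smul_trace_eq_trace_of_quasiBasis (A := P ⧸ Ideal.span {w})
    (M := B ⧸ (Ideal.span {w}).map (algebraMap P B))
    (Algebra.lmul _ _ (Ideal.Quotient.mk _ β))
    (fun j => Ideal.Quotient.mk _ (x j))
    (linearIndependent_mk_of_quasiBasis hw x hli g hg hspan)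
    (Ideal.Quotient.mk _ g)
    (smul_mem_span_mk_of_quasiBasis w x g hspan)
    (m.map (Ideal.Quotient.mk _)) hmΛ
  have hg0 : Ideal.Quotient.mk (Ideal.span {w}) g ≠ 0 := by
    rw [Ne, Ideal.Quotient.eq_zero_iff_mem, Ideal.mem_span_singleton]; exact hg
  apply mul_left_cancel₀ hg0
  rw [Algebra.trace_apply, hΛ, ← map_mul, hP]
  simp [Matrix.trace, map_sum]

/-- **A3.** `DiscrRedStatement` (exact frozen shape of `B12/Spec2.lean`). -/
theorem discrRed : DiscrRedStatement.{u, v} := by
  intro P _ _ _ B _ _ _ _ _ _ w hw 𝔪 _ hw𝔪 n x hx n' bb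
  classical
  obtain ⟨hli, g, hg𝔪, hspan⟩ := hx
  have hgw : ¬ w ∣ g := fun h => hg𝔪 (Ideal.mem_of_dvd 𝔪 h hw𝔪)
  have hIp : (Ideal.span {w}).IsPrime := (Ideal.span_singleton_prime hw.ne_zero).mpr hw
  have hfree : Module.Free (P ⧸ Ideal.span {w}) (B ⧸ (Ideal.span {w}).map (algebraMap P B)) :=
    Module.Free.of_basis bb
  have hfin : Module.Finite (P ⧸ Ideal.span {w}) (B ⧸ (Ideal.span {w}).map (algebraMap P B)) :=
    Module.Finite.of_basis bb
  have hliΛ := linearIndependent_mk_of_quasiBasis hw x hli g hgw hspan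
  have hspanΛ := smul_mem_span_mk_of_quasiBasis w x g hspan
  have hg0 : Ideal.Quotient.mk (Ideal.span {w}) g ≠ 0 := by
    rw [Ne, Ideal.Quotient.eq_zero_iff_mem, Ideal.mem_span_singleton]; exact hgw
  -- ranks
  have hrank : Module.finrank (P ⧸ Ideal.span {w})
      (B ⧸ (Ideal.span {w}).map (algebraMap P B)) = n' := by
    rw [Module.finrank_eq_card_basis bb, Fintype.card_fin]
  have hn : n' = n := by
    apply le_antisymm
    · -- `B/wB` embeds into `span x̄` by multiplication by `ḡ`
      set E := Submodule.span (P ⧸ Ideal.span {w})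
        (Set.range fun j => Ideal.Quotient.mk ((Ideal.span {w}).map (algebraMap P B)) (x j))
      let bE : Module.Basis (Fin n) (P ⧸ Ideal.span {w}) E := Module.Basis.span hliΛ
      have : Module.Free (P ⧸ Ideal.span {w}) E := Module.Free.of_basis bE
      have : Module.Finite (P ⧸ Ideal.span {w}) E := Module.Finite.of_basis bE
      let φ : (B ⧸ (Ideal.span {w}).map (algebraMap P B)) →ₗ[P ⧸ Ideal.span {w}] E :=
        { toFun := fun y => ⟨Ideal.Quotient.mk (Ideal.span {w}) g • y, hspanΛ y⟩
          map_add' := fun y z => Subtype.ext (by simp [smul_add])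
          map_smul' := fun r y => Subtype.ext (by simp [smul_comm (Ideal.Quotient.mk _ g) r]) }
      have hφ : Function.Injective φ := by
        intro y z hyz
        have h1 : Ideal.Quotient.mk (Ideal.span {w}) g • y =
            Ideal.Quotient.mk (Ideal.span {w}) g • z := congrArg Subtype.val hyz
        have h2 : Ideal.Quotient.mk (Ideal.span {w}) g • (y - z) = 0 := by
          rw [smul_sub, h1, sub_self]
        exact sub_eq_zero.mp ((smul_eq_zero.mp h2).resolve_left hg0)
      have h1 := LinearMap.finrank_le_finrank_of_injective hφ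
      rw [hrank, Module.finrank_eq_card_basis bE, Fintype.card_fin] at h1
      exact h1
    · have h1 := hliΛ.fintype_card_le_finrank
      rw [Fintype.card_fin, hrank] at h1
      exact h1
  subst hn
  refine ⟨rfl, ?_⟩
  -- the matrices
  let Pm : Matrix (Fin n') (Fin n') (P ⧸ Ideal.span {w}) :=
    Matrix.of fun i j => bb.repr (Ideal.Quotient.mk _ (x i)) j
  have hex : ∀ i, ∃ c : Fin n' → (P ⧸ Ideal.span {w}),
      ∑ j, c j • Ideal.Quotient.mk ((Ideal.span {w}).map (algebraMap P B)) (x j) =
        Ideal.Quotient.mk (Ideal.span {w}) g • bb i := fun i =>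
    (Submodule.mem_span_range_iff_exists_fun _).mp (hspanΛ (bb i))
  choose V hV using hex
  let Vm : Matrix (Fin n') (Fin n') (P ⧸ Ideal.span {w}) := Matrix.of V
  have hVP : Vm * Pm = Ideal.Quotient.mk (Ideal.span {w}) g • (1 : Matrix _ _ _) := by
    ext i k
    have h := congrArg (fun y => bb.repr y k) (hV i)
    simp only [map_sum, map_smul, Finsupp.coe_finsetSum, Finsupp.coe_smul, Finset.sum_apply,
      Pi.smul_apply, smul_eq_mul, Module.Basis.repr_self, Finsupp.single_apply] at h
    rw [Matrix.mul_apply, Matrix.smul_apply, Matrix.one_apply]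
    simp only [Vm, Pm, Matrix.of_apply, smul_eq_mul]
    rw [h]
  have hdet : Vm.det * Pm.det = Ideal.Quotient.mk (Ideal.span {w}) g ^ n' := by
    rw [← Matrix.det_mul, hVP, Matrix.det_smul, Matrix.det_one, mul_one, Fintype.card_fin]
  obtain ⟨u, hu⟩ := Ideal.Quotient.mk_surjective Pm.det
  obtain ⟨v, hv⟩ := Ideal.Quotient.mk_surjective Vm.det
  refine ⟨u, ?_, ?_⟩
  · intro hu𝔪
    have h1 : Ideal.Quotient.mk (Ideal.span {w}) (v * u - g ^ n') = 0 := by
      rw [map_sub, map_mul, map_pow, hu, hv, hdet, sub_self]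
    rw [Ideal.Quotient.eq_zero_iff_mem, Ideal.mem_span_singleton] at h1
    have h2 : v * u - g ^ n' ∈ 𝔪 := Ideal.mem_of_dvd 𝔪 h1 hw𝔪
    have h3 : g ^ n' ∈ 𝔪 := by
      have := 𝔪.sub_mem (𝔪.mul_mem_left v hu𝔪) h2
      simpa using this
    exact hg𝔪 (Ideal.IsPrime.mem_of_pow_mem inferInstance n' h3)
  · -- discriminants
    have hxb : (fun i => Ideal.Quotient.mk ((Ideal.span {w}).map (algebraMap P B)) (x i)) =
        (Pm.map (algebraMap (P ⧸ Ideal.span {w})
          (B ⧸ (Ideal.span {w}).map (algebraMap P B)))).mulVec bb := by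
      funext i
      simp only [Matrix.mulVec, dotProduct, Matrix.map_apply, Pm, Matrix.of_apply]
      conv_lhs => rw [← bb.sum_repr (Ideal.Quotient.mk _ (x i))]
      refine Finset.sum_congr rfl fun j _ => ?_
      rw [Algebra.smul_def]
    have hdisc : Algebra.discr (P ⧸ Ideal.span {w})
        (fun i => Ideal.Quotient.mk ((Ideal.span {w}).map (algebraMap P B)) (x i)) =
        Pm.det ^ 2 * Algebra.discr (P ⧸ Ideal.span {w}) bb := by
      rw [hxb, Algebra.discr_of_matrix_mulVec]
    rw [hu, ← hdisc, Algebra.discr_def, intDiscr, RingHom.map_det]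
    congr 1
    ext i j
    simp only [RingHom.mapMatrix_apply, Matrix.map_apply, Matrix.of_apply,
      Algebra.traceMatrix_apply, Algebra.traceForm_apply]
    rw [mk_intTrace_eq_trace hw x hli g hgw hspan, map_mul]

end Main

end Fermat.Agent.S18.B12.H393

end
end
-- ===== PACK-END S18/B12/H393/DiscrRed.lean

-- ===== PACK-BEGIN S18/B12/H203/PolyInst.lean
section



/-!
# S18 / b2.5, piece A1: instantiation `P = R[X]` (`PolyInstStatement`)

`R` a discrete valuation ring of characteristic zero, `w` a uniformizer.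
-/

set_option autoImplicit false
set_option linter.unusedSectionVars false

noncomputable section

namespace Fermat.Agent.S18.B12.H203

open Polynomial

universe u

section

variable {R : Type u} [CommRing R] [IsDomain R] [IsDiscreteValuationRing R]

/-- The ideal generated by a uniformizer of a DVR is maximal. -/
theorem span_irreducible_isMaximal {w : R} (hw : Irreducible w) :
    (Ideal.span {w}).IsMaximal := by
  rw [← (IsDiscreteValuationRing.irreducible_iff_uniformizer w).mp hw]
  infer_instance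

/-- Every nonzero element of a DVR becomes a unit after inverting a uniformizer. -/
theorem isUnit_algebraMap_away_of_ne_zero {w : R} (hw : Irreducible w) {r : R} (hr : r ≠ 0)
    (S : Type*) [CommRing S] [Algebra R S] [IsLocalization.Away w S] :
    IsUnit (algebraMap R S r) := by
  obtain ⟨n, hn⟩ := IsDiscreteValuationRing.associated_pow_irreducible hr hw
  rw [IsLocalization.Away.algebraMap_isUnit_iff w]
  exact ⟨n, hn.dvd⟩

/-- The localization of a DVR away from a uniformizer is a field. -/
theorem isField_localization_away {w : R} (hw : Irreducible w) :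
    IsField (Localization.Away w) := by
  have hle : Submonoid.powers w ≤ nonZeroDivisors R :=
    Submonoid.powers_le.mpr (mem_nonZeroDivisors_of_ne_zero hw.ne_zero)
  have hdom : IsDomain (Localization.Away w) :=
    IsLocalization.isDomain_localization hle
  refine ⟨exists_pair_ne _, mul_comm, ?_⟩
  intro a ha
  obtain ⟨⟨r, s⟩, hrs⟩ := IsLocalization.surj (Submonoid.powers w) a
  simp only at hrs
  have hr : r ≠ 0 := by
    rintro rfl
    rw [map_zero] at hrs
    have hs : IsUnit (algebraMap R (Localization.Away w) s) :=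
      IsLocalization.map_units _ s
    exact ha ((hs.mul_left_eq_zero).mp hrs)
  have hru : IsUnit (algebraMap R (Localization.Away w) r) :=
    isUnit_algebraMap_away_of_ne_zero hw hr _
  have hau : IsUnit a := by
    have : IsUnit (a * algebraMap R (Localization.Away w) s) := hrs ▸ hru
    exact isUnit_of_mul_isUnit_left this
  obtain ⟨b, hb⟩ := hau.exists_right_inv
  exact ⟨b, hb⟩

/-- `R[X][1/C w]` is a principal ideal ring. -/
theorem isPrincipalIdealRing_away_C {w : R} (hw : Irreducible w) :
    IsPrincipalIdealRing (Localization.Away (C w : R[X])) := by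
  let _ : Field (Localization.Away w) := (isField_localization_away hw).toField
  let _ : Algebra R[X] (Localization.Away w)[X] :=
    (mapRingHom (algebraMap R (Localization.Away w))).toAlgebra
  have hloc : IsLocalization (Submonoid.powers (C w : R[X])) (Localization.Away w)[X] := by
    have := Polynomial.isLocalization (Submonoid.powers w) (Localization.Away w)
    rwa [Submonoid.map_powers] at this
  let e : (Localization.Away w)[X] ≃ₐ[R[X]] Localization.Away (C w : R[X]) :=
    IsLocalization.algEquiv (Submonoid.powers (C w : R[X])) _ _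
  exact IsPrincipalIdealRing.of_surjective e.toRingEquiv.toRingHom e.surjective

/-- Positive integers are invertible in `R[X][1/C w]` when `R` has characteristic zero. -/
theorem isUnit_natCast_away_C [CharZero R] {w : R} (hw : Irreducible w) (m : ℕ) (hm : m ≠ 0) :
    IsUnit (algebraMap R[X] (Localization.Away (C w : R[X])) (m : R[X])) := by
  have hm' : (m : R) ≠ 0 := Nat.cast_ne_zero.mpr hm
  obtain ⟨n, hn⟩ := IsDiscreteValuationRing.associated_pow_irreducible hm' hw
  rw [IsLocalization.Away.algebraMap_isUnit_iff (C w : R[X])]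
  refine ⟨n, ?_⟩
  obtain ⟨d, hd⟩ := hn.dvd
  refine ⟨C d, ?_⟩
  rw [← C_pow, hd, C_mul, C_eq_natCast]

/-- The evaluation-at-`c`-mod-`w` map `R[X] → R/(w)`. -/
def evalModHom (w c : R) : R[X] →+* R ⧸ Ideal.span {w} :=
  (Ideal.Quotient.mk (Ideal.span {w})).comp (evalRingHom c)

theorem evalModHom_apply (w c : R) (f : R[X]) :
    evalModHom w c f = Ideal.Quotient.mk (Ideal.span {w}) (f.eval c) := rfl

theorem evalModHom_surjective (w c : R) : Function.Surjective (evalModHom w c) := by
  intro y
  obtain ⟨r, rfl⟩ := Ideal.Quotient.mk_surjective y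
  exact ⟨C r, by simp [evalModHom_apply]⟩

theorem ker_evalModHom (w c : R) :
    RingHom.ker (evalModHom w c) = Ideal.span {(C w : R[X]), X - C c} := by
  apply le_antisymm
  · intro f hf
    rw [RingHom.mem_ker, evalModHom_apply, Ideal.Quotient.eq_zero_iff_mem,
      Ideal.mem_span_singleton] at hf
    obtain ⟨r, hr⟩ := hf
    obtain ⟨q, hq⟩ := (X_sub_C_dvd_sub_C_eval (a := c) (p := f))
    have hfe : f = C w * C r + (X - C c) * q := by
      rw [← hq, ← C_mul, ← hr]
      ring
    rw [hfe]
    refine Ideal.add_mem _ (Ideal.mul_mem_right _ _ (Ideal.subset_span (by simp)))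
      (Ideal.mul_mem_right _ _ (Ideal.subset_span (by simp)))
  · rw [Ideal.span_le]
    intro f hf
    rcases hf with rfl | hf
    · simp [evalModHom_apply]
    · rw [Set.mem_singleton_iff] at hf
      subst hf
      simp [evalModHom_apply]

end

/-- **A1 (instantiation `P = R[X]`).** -/
theorem polyInst.{w} : PolyInstStatement.{w} := by
  intro R _ _ _ _ w hw
  have hmax : (Ideal.span {w}).IsMaximal := span_irreducible_isMaximal hw
  have hwp : Prime w := hw.prime
  refine ⟨Polynomial.prime_C_iff.mpr hwp, ?_, isPrincipalIdealRing_away_C hw,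
    isUnit_natCast_away_C hw, ?_⟩
  · -- `R[X]/(C w) ≃ (R/w)[X]`
    let _ : Field (R ⧸ Ideal.span {w}) := Ideal.Quotient.field _
    let e : (R ⧸ Ideal.span {w})[X] ≃+* R[X] ⧸ (Ideal.span {w}).map (C : R →+* R[X]) :=
      Ideal.polynomialQuotientEquivQuotientPolynomial (Ideal.span {w})
    have hmap : (Ideal.span {w}).map (C : R →+* R[X]) = Ideal.span {(C w : R[X])} := by
      rw [Ideal.map_span, Set.image_singleton]
    let e' : R[X] ⧸ (Ideal.span {w}).map (C : R →+* R[X]) ≃+* R[X] ⧸ Ideal.span {(C w : R[X])} :=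
      Ideal.quotEquivOfEq hmap
    exact IsPrincipalIdealRing.of_surjective (e.trans e').toRingHom (e.trans e').surjective
  · intro c
    refine ⟨Polynomial.prime_X_sub_C c, ?_, ?_, ?_, ?_⟩
    · intro hass
      have hdvd : (X - C c : R[X]) ∣ C w := hass.dvd
      rw [Polynomial.dvd_iff_isRoot, IsRoot.def, eval_C] at hdvd
      exact hw.ne_zero hdvd
    · letI : Field (R ⧸ Ideal.span {w}) := Ideal.Quotient.field _
      rw [← ker_evalModHom]
      exact RingHom.ker_isMaximal_of_surjective _ (evalModHom_surjective w c)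
    · let e : (R[X] ⧸ Ideal.span {(X - C c : R[X])}) ≃ₐ[R] R :=
        Polynomial.quotientSpanXSubCAlgEquiv c
      exact IsPrincipalIdealRing.of_surjective e.symm.toRingEquiv.toRingHom e.symm.surjective
    · intro c' hmem hunit
      rw [← ker_evalModHom, RingHom.mem_ker, evalModHom_apply, eval_sub, eval_X, eval_C,
        Ideal.Quotient.eq_zero_iff_mem] at hmem
      exact hmax.ne_top (Ideal.eq_top_of_isUnit_mem _ hmem hunit)

end Fermat.Agent.S18.B12.H203

end
end
-- ===== PACK-END S18/B12/H203/PolyInst.lean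

-- ===== PACK-BEGIN S18/H203/QuotFree.lean
section


/-!
# S18 / b1 (helper203): the special fibre `B / w B` is free over `S / w S`

`S` an integrally closed domain, `w ∈ S` prime, `F / Frac S` a field extension, `B` the integral
closure of `S` in `F`.  Put `S̄ := S ⧸ (w)` and `B̄ := B ⧸ (w) B` (Mathlib instance
`Ideal.Quotient.algebraQuotientMapQuotient : Algebra S̄ B̄`).

* `isTorsionFree_quotient` : `B̄` is a torsion-free `S̄`-module.
* `finite_quotient`        : `B̄` is a finite `S̄`-module if `B` is a finite `S`-module.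
* `free_quotient`          : `B̄` is a free `S̄`-module if moreover `S̄` is a PID
  (application: `S = R[x]`, `R` a DVR with uniformiser `w`, `S̄ = κ[x]`).
-/

set_option autoImplicit false

namespace Fermat.Agent.S18.H203

open Ideal

section

variable {S B : Type*} [CommRing S] [IsDomain S] [IsIntegrallyClosed S]
  [CommRing B] [Algebra S B]

omit [IsDomain S] [IsIntegrallyClosed S] in
/-- `(w) B` is the principal ideal generated by the image of `w`. -/
theorem map_span_singleton_eq (w : S) :
    (Ideal.span {w}).map (algebraMap S B) = Ideal.span {algebraMap S B w} := by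
  rw [Ideal.map_span, Set.image_singleton]

omit [IsDomain S] [IsIntegrallyClosed S] in
/-- membership in `(w) B` is divisibility by `w`. -/
theorem mem_map_span_singleton_iff (w : S) (b : B) :
    b ∈ (Ideal.span {w}).map (algebraMap S B) ↔ algebraMap S B w ∣ b := by
  rw [map_span_singleton_eq, Ideal.mem_span_singleton]

/-- **b1, torsion-freeness of the special fibre.** -/
theorem isTorsionFree_quotient (K F : Type*) [Field K] [Algebra S K] [IsFractionRing S K]
    [Field F] [Algebra K F] [Algebra S F] [IsScalarTower S K F]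
    [Algebra B F] [IsScalarTower S B F] [IsIntegralClosure B S F]
    {w : S} (hw : Prime w) :
    Module.IsTorsionFree (S ⧸ Ideal.span {w}) (B ⧸ (Ideal.span {w}).map (algebraMap S B)) := by
  have : (Ideal.span {w}).IsPrime := (Ideal.span_singleton_prime hw.ne_zero).mpr hw
  refine ⟨fun r hr => ?_⟩
  obtain ⟨t, rfl⟩ := Ideal.Quotient.mk_surjective r
  have ht : ¬ w ∣ t := by
    intro hdvd
    have h0 : (Ideal.Quotient.mk (Ideal.span {w}) t) = 0 := by
      rw [Ideal.Quotient.eq_zero_iff_mem, Ideal.mem_span_singleton]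
      exact hdvd
    exact hr.ne_zero h0
  intro x y hxy
  obtain ⟨x, rfl⟩ := Ideal.Quotient.mk_surjective x
  obtain ⟨y, rfl⟩ := Ideal.Quotient.mk_surjective y
  simp only [Ideal.Quotient.mk_smul_mk_quotient_map_quotient] at hxy
  rw [Ideal.Quotient.eq, ← mul_sub, mem_map_span_singleton_iff] at hxy
  rw [Ideal.Quotient.eq, mem_map_span_singleton_iff]
  exact dvd_of_dvd_mul K F hw ht hxy

omit [IsDomain S] [IsIntegrallyClosed S] in
/-- The special fibre is a finite module. -/
theorem finite_quotient [Module.Finite S B] (I : Ideal S) :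
    Module.Finite (S ⧸ I) (B ⧸ I.map (algebraMap S B)) := by
  have : Module.Finite S (B ⧸ I.map (algebraMap S B)) :=
    Module.Finite.of_surjective (Ideal.Quotient.mkₐ S (I.map (algebraMap S B))).toLinearMap
      (Ideal.Quotient.mkₐ_surjective S _)
  exact Module.Finite.of_restrictScalars_finite S (S ⧸ I) (B ⧸ I.map (algebraMap S B))

/-- **b1, freeness of the special fibre.** -/
theorem free_quotient (K F : Type*) [Field K] [Algebra S K] [IsFractionRing S K]
    [Field F] [Algebra K F] [Algebra S F] [IsScalarTower S K F]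
    [Algebra B F] [IsScalarTower S B F] [IsIntegralClosure B S F] [Module.Finite S B]
    {w : S} (hw : Prime w) [IsPrincipalIdealRing (S ⧸ Ideal.span {w})] :
    Module.Free (S ⧸ Ideal.span {w}) (B ⧸ (Ideal.span {w}).map (algebraMap S B)) := by
  have : (Ideal.span {w}).IsPrime := (Ideal.span_singleton_prime hw.ne_zero).mpr hw
  have := isTorsionFree_quotient (B := B) K F hw
  have := finite_quotient (B := B) (Ideal.span {w})
  exact Module.free_of_finite_type_torsion_free'

end

end Fermat.Agent.S18.H203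

end
-- ===== PACK-END S18/H203/QuotFree.lean

-- ===== PACK-BEGIN S18/H754/HncMain.lean
section


/-!
# S18 / ALG-FRONT / hNC adapter, main theorem

`B` Noetherian normal domain inside a field `Ω`, `Lc ≤ Ω` a subfield of constants,
`π = lc * ∏_{c ∈ roots} (x - c)` in `Ω` with pairwise distinct `c ∈ Lc ∖ S`, `lc ∈ Lc ∖ {0}`.
Hypotheses:
* `hw`/`hLc`  : some `w ∈ B` lies in no height-one prime containing `π`, and every constant
  becomes integral over `B` after multiplication by a power of `w` (so `Lc ⊆ O` for every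
  valuation ring `O` of `Ω` dominating `B_𝔓`);
* `hunr`     : the `unramified` field of `Alg.GoodModel`, verbatim.
Conclusion: `(π)` is a radical ideal of `B`  (= hypothesis `hNC` of `B12.B2RegularStatement`).
-/

set_option autoImplicit false

noncomputable section

namespace Fermat.Agent.S18.H754

section Main

variable {B : Type*} [CommRing B] [IsDomain B] [IsNoetherianRing B] [IsIntegrallyClosed B]
  {Ω : Type*} [Field Ω] [Algebra B Ω] [FaithfulSMul B Ω]

omit [IsDomain B] [IsNoetherianRing B] [IsIntegrallyClosed B] [FaithfulSMul B Ω] in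
/-- elements integral over `B` lie in every valuation subring containing `B`. -/
theorem mem_valuationSubring_of_isIntegral (O : ValuationSubring Ω)
    (hB : ∀ b : B, algebraMap B Ω b ∈ O) {a : Ω} (ha : IsIntegral B a) : a ∈ O := by
  obtain ⟨P, hP, hPa⟩ := ha
  let g : B →+* O := (algebraMap B Ω).codRestrict O.toSubring hB
  have hint : IsIntegral O a := by
    refine ⟨P.map g, hP.map g, ?_⟩
    rw [Polynomial.eval₂_map]
    exact hPa
  obtain ⟨y, hy⟩ := IsIntegrallyClosed.isIntegral_iff.1 hint
  rw [← hy]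
  exact y.2

/-- **hNC adapter** (abstract form). -/
theorem isRadical_span_of_unramified (Lc : Subfield Ω) (π : B) (hπ : π ≠ 0)
    (w : B) (hw : ∀ 𝔓 : Ideal B, 𝔓.IsPrime → 𝔓.height = 1 → π ∈ 𝔓 → w ∉ 𝔓)
    (hLc : ∀ a ∈ Lc, ∃ n : ℕ, IsIntegral B (algebraMap B Ω w ^ n * a))
    (x : Ω) (S : Finset Ω) (roots : Finset Ω) (hroots : ∀ c ∈ roots, c ∈ Lc ∧ c ∉ S)
    (lc : Ω) (hlc : lc ∈ Lc) (hlc0 : lc ≠ 0)
    (hfac : algebraMap B Ω π = lc * ∏ c ∈ roots, (x - c))
    (hunr : ∀ O : ValuationSubring Ω, (∀ a ∈ Lc, a ∈ O) → ∀ c ∈ Lc, c ∉ S →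
        x - c ∈ O → (x - c)⁻¹ ∉ O → ∀ t ∈ O, t⁻¹ ∉ O → t * (x - c)⁻¹ ∈ O) :
    (Ideal.span {π}).IsRadical := by
  classical
  have hinj : Function.Injective (algebraMap B Ω) := FaithfulSMul.algebraMap_injective B Ω
  refine isRadical_span_singleton_of_local_gen π hπ ?_
  intro 𝔓 h𝔓 hht hπ𝔓 b hb𝔓
  haveI := h𝔓
  by_cases hb0 : b = 0
  · refine ⟨1, ?_, ?_⟩
    · exact fun h1 => h𝔓.ne_top ((Ideal.eq_top_iff_one _).2 h1)
    · rw [hb0, mul_zero]; exact dvd_zero _
  obtain ⟨O, hBO, hunitO, hnonunitO⟩ := exists_valuationSubring_dominating (Ω := Ω) 𝔓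
  set v := O.valuation with hv
  have hvle : ∀ y : Ω, v y ≤ 1 ↔ y ∈ O := fun y => O.valuation_le_one_iff y
  -- valuations of elements of `B`
  have hvB : ∀ b : B, v (algebraMap B Ω b) ≤ 1 := fun b => (hvle _).2 (hBO b)
  have hvunit : ∀ b : B, b ∉ 𝔓 → v (algebraMap B Ω b) = 1 := by
    intro b hb
    have hb0 : algebraMap B Ω b ≠ 0 := by
      intro h0
      have : b = 0 := hinj (by rw [h0, map_zero])
      exact hb (this ▸ 𝔓.zero_mem)
    have h1 := (hvle _).2 (hunitO b hb)
    rw [map_inv₀] at h1
    have h2 := hvB b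
    have hne : v (algebraMap B Ω b) ≠ 0 := (Valuation.ne_zero_iff v).2 hb0
    have h3 : 1 ≤ v (algebraMap B Ω b) := by
      rwa [inv_le_one₀ (zero_lt_iff.2 hne)] at h1
    exact le_antisymm h2 h3
  have hvlt : ∀ b : B, b ∈ 𝔓 → v (algebraMap B Ω b) < 1 := by
    intro b hb
    by_cases hb0 : b = 0
    · rw [hb0, map_zero, map_zero]; exact zero_lt_one
    have hb0' : algebraMap B Ω b ≠ 0 := fun h0 => hb0 (hinj (by rw [h0, map_zero]))
    have h1 := hnonunitO b hb hb0
    rw [← hvle, map_inv₀, not_le] at h1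
    have hne : v (algebraMap B Ω b) ≠ 0 := (Valuation.ne_zero_iff v).2 hb0'
    exact (one_lt_inv₀ (zero_lt_iff.2 hne)).1 h1
  -- constants lie in `O`
  have hLcO : ∀ a ∈ Lc, a ∈ O := by
    intro a ha
    obtain ⟨n, hn⟩ := hLc a ha
    have h1 : algebraMap B Ω w ^ n * a ∈ O := mem_valuationSubring_of_isIntegral O hBO hn
    have hw𝔓 := hw 𝔓 h𝔓 hht hπ𝔓
    have h2 : v (algebraMap B Ω w ^ n * a) ≤ 1 := (hvle _).2 h1
    rw [map_mul, map_pow, hvunit w hw𝔓, one_pow, one_mul] at h2
    exact (hvle _).1 h2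
  have hvLc : ∀ a ∈ Lc, a ≠ 0 → v a = 1 := by
    intro a ha ha0
    have h1 : v a ≤ 1 := (hvle _).2 (hLcO a ha)
    have h2 : v a⁻¹ ≤ 1 := (hvle _).2 (hLcO _ (Lc.inv_mem ha))
    rw [map_inv₀] at h2
    have hne : v a ≠ 0 := (Valuation.ne_zero_iff v).2 ha0
    have h3 : 1 ≤ v a := by rwa [inv_le_one₀ (zero_lt_iff.2 hne)] at h2
    exact le_antisymm h1 h3
  -- the valuation of `π`
  have hπ0 : algebraMap B Ω π ≠ 0 := fun h0 => hπ (hinj (by rw [h0, map_zero]))
  have hvπ : v (algebraMap B Ω π) < 1 := hvlt π hπ𝔓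
  have hprod : v (algebraMap B Ω π) = ∏ c ∈ roots, v (x - c) := by
    rw [hfac, map_mul, hvLc lc hlc hlc0, one_mul, map_prod]
  have hfactor0 : ∀ c ∈ roots, x - c ≠ 0 := by
    intro c hc h0
    apply hπ0
    rw [hfac, Finset.prod_eq_zero hc h0, mul_zero]
  -- `x ∈ O`
  have hxO : v x ≤ 1 := by
    by_contra hx
    rw [not_le] at hx
    have h1 : ∀ c ∈ roots, 1 ≤ v (x - c) := by
      intro c hc
      have hcv : v c ≤ 1 := (hvle _).2 (hLcO c (hroots c hc).1)
      have : v (x - c) = v x := Valuation.map_sub_eq_of_lt_left v (lt_of_le_of_lt hcv hx)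
      rw [this]
      exact hx.le
    have h2 : 1 ≤ ∏ c ∈ roots, v (x - c) := Finset.one_le_prod' h1
    rw [← hprod] at h2
    exact absurd hvπ (not_lt.2 h2)
  have hfle : ∀ c ∈ roots, v (x - c) ≤ 1 := by
    intro c hc
    have hcv : v c ≤ 1 := (hvle _).2 (hLcO c (hroots c hc).1)
    exact (Valuation.map_sub v x c).trans (max_le hxO hcv)
  -- some factor is a non-unit
  have hex : ∃ c₀ ∈ roots, v (x - c₀) < 1 := by
    by_contra hcon
    have h1 : ∀ c ∈ roots, v (x - c) = 1 := by
      intro c hc
      by_contra hne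
      exact hcon ⟨c, hc, lt_of_le_of_ne (hfle c hc) hne⟩
    rw [hprod, Finset.prod_eq_one h1] at hvπ
    exact lt_irrefl _ hvπ
  obtain ⟨c₀, hc₀, hvc₀⟩ := hex
  have hother : ∀ c ∈ roots.erase c₀, v (x - c) = 1 := by
    intro c hc
    rw [Finset.mem_erase] at hc
    have h1 : x - c = (x - c₀) + (c₀ - c) := by ring
    have h2 : v (c₀ - c) = 1 :=
      hvLc _ (Lc.sub_mem (hroots c₀ hc₀).1 (hroots c hc.2).1) (sub_ne_zero.2 (Ne.symm hc.1))
    rw [h1, Valuation.map_add_eq_of_lt_right v (by rw [h2]; exact hvc₀), h2]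
  have hvπ' : v (algebraMap B Ω π) = v (x - c₀) := by
    rw [hprod, ← Finset.mul_prod_erase roots _ hc₀, Finset.prod_eq_one hother, mul_one]
  -- apply `unramified`
  have hkey : ∀ t : Ω, t ≠ 0 → v t < 1 → v t ≤ v (algebraMap B Ω π) := by
    intro t ht0 hvt
    have hc₀0 := hfactor0 c₀ hc₀
    have hne : v (x - c₀) ≠ 0 := (Valuation.ne_zero_iff v).2 hc₀0
    have hnet : v t ≠ 0 := (Valuation.ne_zero_iff v).2 ht0
    have h1 : (x - c₀)⁻¹ ∉ O := by
      rw [← hvle, map_inv₀, not_le]
      exact (one_lt_inv₀ (zero_lt_iff.2 hne)).2 hvc₀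
    have h2 : t⁻¹ ∉ O := by
      rw [← hvle, map_inv₀, not_le]
      exact (one_lt_inv₀ (zero_lt_iff.2 hnet)).2 hvt
    have h3 := hunr O hLcO c₀ (hroots c₀ hc₀).1 (hroots c₀ hc₀).2
      ((hvle _).1 hvc₀.le) h1 t ((hvle _).1 hvt.le) h2
    rw [← hvle, map_mul, map_inv₀] at h3
    rw [hvπ']
    rwa [← div_eq_mul_inv, div_le_one₀ (zero_lt_iff.2 hne)] at h3
  -- `B_𝔓` is a valuation ring
  have hb0' : algebraMap B Ω b ≠ 0 := fun h0 => hb0 (hinj (by rw [h0, map_zero]))
  obtain ⟨s, hs, hd | hd⟩ := exists_dvd_or_dvd_of_height_one 𝔓 hht b π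
  · exact ⟨s, hs, hd⟩
  · obtain ⟨d, hd⟩ := hd
    -- `s π = b d`, so `v d = v π / v b ≥ 1`, so `d ∉ 𝔓`
    have h1 : v (algebraMap B Ω π) = v (algebraMap B Ω b) * v (algebraMap B Ω d) := by
      have := congrArg (fun y => v (algebraMap B Ω y)) hd
      simp only [map_mul] at this
      rwa [hvunit s hs, one_mul] at this
    have h2 := hkey _ hb0' (hvlt b hb𝔓)
    have hd𝔓 : d ∉ 𝔓 := by
      intro hd𝔓
      have h3 := hvlt d hd𝔓
      have hnb : v (algebraMap B Ω b) ≠ 0 := (Valuation.ne_zero_iff v).2 hb0'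
      have h4 : v (algebraMap B Ω b) * v (algebraMap B Ω d) < v (algebraMap B Ω b) * 1 :=
        mul_lt_mul_of_pos_left h3 (zero_lt_iff.2 hnb)
      rw [mul_one, ← h1] at h4
      exact absurd h2 (not_le.2 h4)
    refine ⟨d, hd𝔓, s, ?_⟩
    rw [mul_comm d b, ← hd, mul_comm]

end Main

end Fermat.Agent.S18.H754

end

end
-- ===== PACK-END S18/H754/HncMain.lean

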