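import Mathlib
import Fermat.Prelude.Def_ModularCurve_X0
import Fermat.Prelude.Def_ModularCurve_X0ModL
import Mathlib.Data.Nat.Factorization.Induction
import Mathlib.Algebra.Squarefree.Basic
import Mathlib.Data.Nat.Squarefree
import Fermat.Agent.Pack.S34.G0E3L1
import Fermat.Agent.Pack.S34.G0E3L3
import Fermat.Agent.Pack.S34.G0E0L2
import Fermat.Agent.Pack.S34.G0E3L0
import Fermat.Agent.Pack.S34.G0E3L2
import Fermat.Agent.Pack.S34.G0E1L3
import Fermat.Agent.Pack.S34.G0E1L1
import Fermat.Agent.Pack.S34.G0E4L1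
import Fermat.Agent.Pack.S34.G0E4L3
import Fermat.Agent.Pack.S34.G0E1L2
import Fermat.Agent.Pack.S34.G0E4L2
import Fermat.Agent.Pack.S34.G0E1L0
import Fermat.Agent.Pack.S34.G0E4L0

-- ===== PACK-BEGIN S24/H117/EmbPlace.lean
section


/-!
# S24 / H117 — the place induced by an embedding into Laurent series (LT1)

For a ring homomorphism `σ : F →+* LaurentSeries C` which is "constant on `K`" and nontrivial
(some element has nonzero order), `{f | 0 ≤ (σ f).order}` is a discrete valuation ring of `F`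
containing `K`, i.e. a `Place K F`, and `(σ f).order = k * v.ord f` for a fixed `k > 0`.
-/

set_option autoImplicit false

noncomputable section

open AlgebraicCurve

namespace Fermat.Agent.S24.H117

variable {K F : Type*} [Field K] [Field F] [Algebra K F]
variable {C : Type*} [Field C]

section Laurent

theorem order_inv' (g : LaurentSeries C) : (g⁻¹).order = -g.order := by
  rcases eq_or_ne g 0 with rfl | hg
  · simp
  have h := HahnSeries.order_mul hg (inv_ne_zero hg)
  rw [mul_inv_cancel₀ hg, HahnSeries.order_one] at h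
  omega

theorem order_add_ge' {g h : LaurentSeries C} (hg : 0 ≤ g.order) (hh : 0 ≤ h.order) :
    0 ≤ (g + h).order := by
  rcases eq_or_ne (g + h) 0 with h0 | h0
  · rw [h0, HahnSeries.order_zero]
  · exact le_trans (le_min hg hh) (HahnSeries.min_order_le_order_add h0)

/-- The valuation subring of `C((z))` of series of non-negative order. -/
def OL (C : Type*) [Field C] : ValuationSubring (LaurentSeries C) where
  carrier := {g | 0 ≤ g.order}
  mul_mem' := by
    intro a b ha hb
    simp only [Set.mem_ofPred_eq] at ha hb ⊢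
    rcases eq_or_ne a 0 with rfl | ha0
    · simp
    rcases eq_or_ne b 0 with rfl | hb0
    · simp
    rw [HahnSeries.order_mul ha0 hb0]
    omega
  one_mem' := by simp
  add_mem' := by
    intro a b ha hb
    exact order_add_ge' ha hb
  zero_mem' := by simp
  neg_mem' := by
    intro a ha
    simp only [Set.mem_ofPred_eq] at ha ⊢
    rwa [HahnSeries.order_neg]
  mem_or_inv_mem' := by
    intro a
    simp only [Set.mem_ofPred_eq]
    rw [order_inv']
    omega

@[simp]
theorem mem_OL {g : LaurentSeries C} : g ∈ OL C ↔ 0 ≤ g.order := Iff.rfl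

end Laurent

section Emb

variable (σ : F →+* LaurentSeries C)

/-- The order function of an embedding. -/
def eord (f : F) : ℤ := (σ f).order

@[simp] theorem eord_zero : eord σ 0 = 0 := by simp [eord]

@[simp] theorem eord_one : eord σ 1 = 0 := by simp [eord]

theorem eord_mul {f g : F} (hf : f ≠ 0) (hg : g ≠ 0) :
    eord σ (f * g) = eord σ f + eord σ g := by
  simp only [eord, map_mul]
  exact HahnSeries.order_mul ((map_ne_zero σ).mpr hf) ((map_ne_zero σ).mpr hg)

theorem eord_inv (f : F) : eord σ f⁻¹ = -eord σ f := by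
  simp only [eord, map_inv₀]
  exact order_inv' _

theorem eord_pow (f : F) (n : ℕ) : eord σ (f ^ n) = n * eord σ f := by
  simp only [eord, map_pow, HahnSeries.order_pow, nsmul_eq_mul]

theorem eord_zpow (f : F) (n : ℤ) : eord σ (f ^ n) = n * eord σ f := by
  cases n with
  | ofNat n => simpa using eord_pow σ f n
  | negSucc n =>
    rw [zpow_negSucc, eord_inv, eord_pow]
    simp only [Int.negSucc_eq]
    push_cast
    ring

theorem eord_neg (f : F) : eord σ (-f) = eord σ f := by
  simp only [eord, map_neg, HahnSeries.order_neg]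

theorem eord_add_ge {f g : F} (hfg : f + g ≠ 0) :
    min (eord σ f) (eord σ g) ≤ eord σ (f + g) := by
  simp only [eord, map_add]
  apply HahnSeries.min_order_le_order_add
  rw [← map_add]
  exact (map_ne_zero σ).mpr hfg

/-- The valuation subring of `F` induced by `σ`. -/
def embRing : ValuationSubring F := (OL C).comap σ

@[simp]
theorem mem_embRing {f : F} : f ∈ embRing σ ↔ 0 ≤ eord σ f := Iff.rfl

theorem coe_ne_zero_embRing {a : embRing σ} (ha : a ≠ 0) : (a : F) ≠ 0 :=
  fun h => ha (Subtype.ext h)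

theorem isUnit_embRing_iff {a : embRing σ} (ha : a ≠ 0) : IsUnit a ↔ eord σ (a : F) = 0 := by
  have ha0 : (a : F) ≠ 0 := coe_ne_zero_embRing σ ha
  constructor
  · intro h
    obtain ⟨b, hb⟩ := isUnit_iff_exists_inv.mp h
    have hb' : (a : F) * (b : F) = 1 := congrArg Subtype.val hb
    have hbne : (b : F) ≠ 0 := by
      intro h0
      rw [h0, mul_zero] at hb'
      exact zero_ne_one hb'
    have hsum := eord_mul σ ha0 hbne
    rw [hb', eord_one] at hsum
    have h1 : 0 ≤ eord σ (a : F) := a.2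
    have h2 : 0 ≤ eord σ (b : F) := b.2
    omega
  · intro h0
    have hinv : (a : F)⁻¹ ∈ embRing σ := by
      rw [mem_embRing, eord_inv]; omega
    exact ⟨⟨a, ⟨(a : F)⁻¹, hinv⟩, Subtype.ext (mul_inv_cancel₀ ha0),
      Subtype.ext (inv_mul_cancel₀ ha0)⟩, rfl⟩

/-- If some element has nonzero order, then `embRing σ` is a discrete valuation ring: there is
an element `π` of minimal positive order `k`, and every order is a multiple of `k`. -/
theorem exists_min_pos (hnt : ∃ t : F, eord σ t ≠ 0) :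
    ∃ (k : ℕ) (π : F), 0 < k ∧ π ≠ 0 ∧ eord σ π = k ∧ ∀ f : F, (k : ℤ) ∣ eord σ f := by
  classical
  obtain ⟨t, ht⟩ := hnt
  have hex : ∃ n : ℕ, 0 < n ∧ ∃ f : F, eord σ f = n := by
    rcases lt_or_gt_of_ne ht with h | h
    · refine ⟨(eord σ t⁻¹).toNat, ?_, t⁻¹, ?_⟩
      · rw [eord_inv]; omega
      · rw [eord_inv]; omega
    · exact ⟨(eord σ t).toNat, by omega, t, by omega⟩
  let k := Nat.find hex
  obtain ⟨hk0, π, hπ⟩ := Nat.find_spec hex
  have hmin : ∀ n : ℕ, 0 < n → (∃ f : F, eord σ f = n) → k ≤ n := fun n hn hf =>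
    Nat.find_min' hex ⟨hn, hf⟩
  have hπ0 : π ≠ 0 := by
    rintro rfl
    rw [eord_zero] at hπ
    have : (k : ℤ) = 0 := hπ.symm
    have hk0' : 0 < k := hk0
    omega
  refine ⟨k, π, hk0, hπ0, hπ, fun f => ?_⟩
  rcases eq_or_ne f 0 with rfl | hf
  · simp
  -- division with remainder
  set q := eord σ f / (k : ℤ) with hq
  set r := eord σ f % (k : ℤ) with hr
  have hk0' : (0 : ℤ) < k := by exact_mod_cast hk0
  have hr0 : 0 ≤ r := Int.emod_nonneg _ hk0'.ne'
  have hrk : r < k := Int.emod_lt_of_pos _ hk0'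
  have hdecomp : eord σ f = k * q + r := (Int.mul_ediv_add_emod _ _).symm
  have hg : eord σ (f * π ^ (-q)) = r := by
    rw [eord_mul σ hf (zpow_ne_zero _ hπ0), eord_zpow, hπ, hdecomp]
    ring
  by_cases hr' : r = 0
  · exact Int.dvd_of_emod_eq_zero hr'
  · exfalso
    have := hmin r.toNat (by omega) ⟨_, by rw [hg]; omega⟩
    have hk0'' : 0 < k := hk0
    omega

theorem isDiscreteValuationRing_embRing (hnt : ∃ t : F, eord σ t ≠ 0) :
    IsDiscreteValuationRing (embRing σ) := by
  obtain ⟨k, π, hk0, hπ0, hπ, hdvd⟩ := exists_min_pos σ hnt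
  have hπmem : π ∈ embRing σ := by rw [mem_embRing, hπ]; positivity
  have hk0' : (0 : ℤ) < k := by exact_mod_cast hk0
  apply IsDiscreteValuationRing.ofHasUnitMulPowIrreducibleFactorization
  refine ⟨⟨π, hπmem⟩, ?_, ?_⟩
  · -- irreducible
    have hπne : (⟨π, hπmem⟩ : embRing σ) ≠ 0 := fun h => hπ0 (congrArg Subtype.val h)
    refine ⟨fun hu => ?_, fun a b hab => ?_⟩
    · have := (isUnit_embRing_iff σ hπne).mp hu
      simp only at this
      omega
    · have hab' : π = (a : F) * (b : F) := congrArg Subtype.val hab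
      have ha0 : a ≠ 0 := by
        rintro rfl
        apply hπ0
        simpa using hab'
      have hb0 : b ≠ 0 := by
        rintro rfl
        apply hπ0
        simpa using hab'
      have ha0' : (a : F) ≠ 0 := coe_ne_zero_embRing σ ha0
      have hb0' : (b : F) ≠ 0 := coe_ne_zero_embRing σ hb0
      have hsum := eord_mul σ ha0' hb0'
      rw [← hab', hπ] at hsum
      obtain ⟨ca, hca⟩ := hdvd (a : F)
      obtain ⟨cb, hcb⟩ := hdvd (b : F)
      have h1 : 0 ≤ eord σ (a : F) := a.2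
      have h2 : 0 ≤ eord σ (b : F) := b.2
      rw [isUnit_embRing_iff σ ha0, isUnit_embRing_iff σ hb0]
      have hca0 : 0 ≤ ca := by
        by_contra hneg
        push Not at hneg
        rw [hca] at h1
        nlinarith
      have hcb0 : 0 ≤ cb := by
        by_contra hneg
        push Not at hneg
        rw [hcb] at h2
        nlinarith
      have hsum' : (k : ℤ) * (ca + cb) = k * 1 := by rw [hca, hcb] at hsum; linarith
      have h3 : ca + cb = 1 := mul_left_cancel₀ hk0'.ne' hsum'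
      rcases (show ca = 0 ∨ cb = 0 by omega) with h | h
      · left; rw [hca, h, mul_zero]
      · right; rw [hcb, h, mul_zero]
  · intro x hx
    have hx0 : (x : F) ≠ 0 := coe_ne_zero_embRing σ hx
    obtain ⟨c, hc⟩ := hdvd (x : F)
    have hxnn : 0 ≤ eord σ (x : F) := x.2
    have hc0 : 0 ≤ c := by
      by_contra hneg
      push Not at hneg
      rw [hc] at hxnn
      nlinarith
    refine ⟨c.toNat, ?_⟩
    have hu : eord σ ((x : F) * (π ^ c.toNat)⁻¹) = 0 := by
      rw [eord_mul σ hx0 (inv_ne_zero (pow_ne_zero _ hπ0)), eord_inv, eord_pow, hπ, hc]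
      have : ((c.toNat : ℕ) : ℤ) = c := Int.toNat_of_nonneg hc0
      rw [this]; ring
    have hmem : (x : F) * (π ^ c.toNat)⁻¹ ∈ embRing σ := by
      rw [mem_embRing, hu]
    have hne : (⟨_, hmem⟩ : embRing σ) ≠ 0 := fun h =>
      (mul_ne_zero hx0 (inv_ne_zero (pow_ne_zero _ hπ0))) (congrArg Subtype.val h)
    have hunit : IsUnit (⟨_, hmem⟩ : embRing σ) := (isUnit_embRing_iff σ hne).mpr hu
    refine ⟨hunit.unit, ?_⟩
    apply Subtype.ext
    have hπpow : π ^ c.toNat ≠ 0 := pow_ne_zero _ hπ0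
    show π ^ c.toNat * ((x : F) * (π ^ c.toNat)⁻¹) = (x : F)
    field_simp

/-- The place of `F/K` induced by an embedding `σ : F → C((z))` which has non-negative order on
the constants and is nontrivial. -/
def placeOfEmb (hK : ∀ c : K, 0 ≤ eord σ (algebraMap K F c)) (hnt : ∃ t : F, eord σ t ≠ 0) :
    Place K F where
  toValuationSubring := embRing σ
  algebraMap_mem' := hK
  ne_top' := by
    obtain ⟨t, ht⟩ := hnt
    intro htop
    have h1 : t ∈ embRing σ := htop ▸ ValuationSubring.mem_top t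
    have h2 : t⁻¹ ∈ embRing σ := htop ▸ ValuationSubring.mem_top t⁻¹
    rw [mem_embRing] at h1 h2
    rw [eord_inv] at h2
    omega
  isPrincipalIdealRing' :=
    haveI := isDiscreteValuationRing_embRing σ hnt
    inferInstance

@[simp]
theorem placeOfEmb_toValuationSubring (hK : ∀ c : K, 0 ≤ eord σ (algebraMap K F c))
    (hnt : ∃ t : F, eord σ t ≠ 0) :
    (placeOfEmb σ hK hnt).toValuationSubring = embRing σ := rfl

/-- If the valuation ring of a place `v` is `{f | 0 ≤ ord (σ f)}`, then `ord ∘ σ = k * v.ord`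
for some `k > 0`. -/
theorem exists_mult_of_eq (v : Place K F) (hv : v.toValuationSubring = embRing σ) :
    ∃ k : ℕ, 0 < k ∧ ∀ f : F, eord σ f = k * v.ord f := by
  have hmem : ∀ f : F, f ∈ v.toValuationSubring ↔ 0 ≤ eord σ f := fun f => by
    rw [hv]; rfl
  obtain ⟨π, hπ⟩ := IsDiscreteValuationRing.exists_irreducible v.toValuationSubring
  have hπ0 : (π : F) ≠ 0 := fun h => hπ.ne_zero (Subtype.ext h)
  have hπnn : 0 ≤ eord σ (π : F) := (hmem _).mp π.2
  have hπpos : 0 < eord σ (π : F) := by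
    rcases hπnn.lt_or_eq with h | h
    · exact h
    · exfalso
      have hinv : (π : F)⁻¹ ∈ v.toValuationSubring := by
        rw [hmem, eord_inv]; omega
      apply hπ.not_isUnit
      exact ⟨⟨π, ⟨(π : F)⁻¹, hinv⟩, Subtype.ext (mul_inv_cancel₀ hπ0),
        Subtype.ext (inv_mul_cancel₀ hπ0)⟩, rfl⟩
  refine ⟨(eord σ (π : F)).toNat, by omega, fun f => ?_⟩
  rcases eq_or_ne f 0 with rfl | hf
  · simp
  obtain ⟨u, hu⟩ := v.exists_unit_mul_zpow hf hπ
  have hu0 : ((u : v.toValuationSubring) : F) ≠ 0 := by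
    intro h
    exact u.ne_zero (Subtype.ext h)
  have hu1 : 0 ≤ eord σ ((u : v.toValuationSubring) : F) := (hmem _).mp (u : v.toValuationSubring).2
  have hu2 : 0 ≤ eord σ (((u⁻¹ : v.toValuationSubringˣ) : v.toValuationSubring) : F) :=
    (hmem _).mp ((u⁻¹ : v.toValuationSubringˣ) : v.toValuationSubring).2
  have hmul : ((u : v.toValuationSubring) : F)
      * (((u⁻¹ : v.toValuationSubringˣ) : v.toValuationSubring) : F) = 1 := by
    exact congrArg Subtype.val (Units.mul_inv u)
  have hu2' : eord σ (((u⁻¹ : v.toValuationSubringˣ) : v.toValuationSubring) : F)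
      = - eord σ ((u : v.toValuationSubring) : F) := by
    rw [← eord_inv]
    congr 1
    exact eq_inv_of_mul_eq_one_right hmul
  have hu3 : eord σ ((u : v.toValuationSubring) : F) = 0 := by omega
  conv_lhs => rw [hu]
  rw [eord_mul σ hu0 (zpow_ne_zero _ hπ0), eord_zpow, hu3, zero_add,
    Int.toNat_of_nonneg hπnn]
  ring

theorem exists_mult (hK : ∀ c : K, 0 ≤ eord σ (algebraMap K F c))
    (hnt : ∃ t : F, eord σ t ≠ 0) :
    ∃ k : ℕ, 0 < k ∧ ∀ f : F, eord σ f = k * (placeOfEmb σ hK hnt).ord f :=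
  exists_mult_of_eq σ _ rfl

end Emb

section LocalDataPlaces

variable {X : Type*} {t : F} (L : LocalData K F C X t)

theorem eord_const (x : X) (c : K) : eord (L.σ x) (algebraMap K F c) = 0 := by
  simp only [eord, L.σ_const, HahnSeries.order_C]

theorem eord_t (x : X) : eord (L.σ x) t = L.m := L.σ_t_order x

theorem nontrivial_σ (x : X) : ∃ s : F, eord (L.σ x) s ≠ 0 :=
  ⟨t, by rw [eord_t]; exact_mod_cast L.m_pos.ne'⟩

/-- **LT1.** The place of `F/K` induced by the embedding `L.σ x`. -/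
def placeOf (x : X) : Place K F :=
  placeOfEmb (L.σ x) (fun c => (eord_const L x c).ge) (nontrivial_σ L x)

theorem exists_mult_placeOf (x : X) :
    ∃ k : ℕ, 0 < k ∧ ∀ f : F, ((L.σ x) f).order = k * (placeOf L x).ord f :=
  exists_mult (L.σ x) _ _

/-- The multiplicity `k_x` with `ord_z ∘ σ_x = k_x * ord_{v_x}`. -/
def mult (x : X) : ℕ := (exists_mult_placeOf L x).choose

theorem mult_pos (x : X) : 0 < mult L x := (exists_mult_placeOf L x).choose_spec.1

theorem order_eq (x : X) (f : F) :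
    ((L.σ x) f).order = mult L x * (placeOf L x).ord f :=
  (exists_mult_placeOf L x).choose_spec.2 f

theorem mem_placeOf_iff (x : X) (f : F) :
    f ∈ (placeOf L x).toValuationSubring ↔ 0 ≤ ((L.σ x) f).order := Iff.rfl

theorem ord_placeOf_nonneg_iff (x : X) (f : F) :
    0 ≤ (placeOf L x).ord f ↔ 0 ≤ ((L.σ x) f).order := by
  rw [← mem_iff_ord_nonneg]; rfl

theorem mult_mul_ord_t (x : X) : (mult L x : ℤ) * (placeOf L x).ord t = L.m := by
  rw [← order_eq, L.σ_t_order]

theorem ord_t_pos (x : X) : 0 < (placeOf L x).ord t := by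
  have h := mult_mul_ord_t L x
  have hk : (0 : ℤ) < mult L x := by exact_mod_cast mult_pos L x
  have hm : (0 : ℤ) < L.m := by exact_mod_cast L.m_pos
  by_contra hcon
  push Not at hcon
  nlinarith

theorem placeOf_perm (x : X) : placeOf L (L.perm x) = placeOf L x := by
  apply Place.ext
  ext f
  show 0 ≤ ((L.σ (L.perm x)) f).order ↔ 0 ≤ ((L.σ x) f).order
  rw [L.σ_perm_order]

theorem mult_perm (x : X) : mult L (L.perm x) = mult L x := by
  obtain ⟨π, hπ0, hπ⟩ := exists_ord_eq_one (placeOf L x)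
  have h1 := order_eq L x π
  have h2 := order_eq L (L.perm x) π
  rw [L.σ_perm_order, placeOf_perm, h1, hπ] at h2
  have : (mult L x : ℤ) = mult L (L.perm x) := by linarith
  exact_mod_cast this.symm

end LocalDataPlaces

end Fermat.Agent.S24.H117

end
end
-- ===== PACK-END S24/H117/EmbPlace.lean

-- ===== PACK-BEGIN S29/M4a/Fac.lean
section
/-
S29 / M4a-TOP (helper391) — part 1: the factorisation `heckeFac` of `DefsM.lean` coincides with the
transfer element `H201.trf` of helper201's `Transfer.lean` (Prelude coset representatives).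

* `M4aTop_heckeRep_unique` : uniqueness of `t * heckeRep ℓ j` (integer matrices, `det t = 1`).
* `M4aTop_heckeFac_eq`     : `IsHeckeFactor ℓ γ i q → heckeFac N ℓ γ i = q`.
* `M4aTop_idx`             : the bijection `Option (Fin ℓ) ≃ OnePoint (ZMod ℓ)`.
* `M4aTop_isHeckeFactor_trf`, `M4aTop_heckeFac_eq_trf`, `M4aTop_heckeCoh_eq_sum_trf`.
-/



set_option autoImplicit false

noncomputable section

namespace Fermat.Agent.S29

open CongruenceSubgroup Matrix.SpecialLinearGroup
open scoped MatrixGroups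

/-! ### Uniqueness of the factorisation -/

theorem M4aTop_heckeRep_none (ℓ : ℕ) : heckeRep ℓ none = !![(ℓ : ℤ), 0; 0, 1] := rfl

theorem M4aTop_heckeRep_some (ℓ : ℕ) (b : Fin ℓ) :
    heckeRep ℓ (some b) = !![1, ((b : ℕ) : ℤ); 0, (ℓ : ℤ)] := rfl

theorem M4aTop_det_heckeRep (ℓ : ℕ) (j : Option (Fin ℓ)) : (heckeRep ℓ j).det = (ℓ : ℤ) := by
  cases j with
  | none => rw [M4aTop_heckeRep_none, Matrix.det_fin_two_of]; ring
  | some b => rw [M4aTop_heckeRep_some, Matrix.det_fin_two_of]; ring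

/-- Right cancellation of a coset representative. -/
theorem M4aTop_mul_heckeRep_cancel {ℓ : ℕ} (hℓ : ℓ ≠ 0) (j : Option (Fin ℓ))
    {t t' : Matrix (Fin 2) (Fin 2) ℤ} (h : t * heckeRep ℓ j = t' * heckeRep ℓ j) : t = t' := by
  have h2 := congrArg (fun M => M * (heckeRep ℓ j).adjugate) h
  simp only [Matrix.mul_assoc, Matrix.mul_adjugate, M4aTop_det_heckeRep] at h2
  have hℓ' : (ℓ : ℤ) ≠ 0 := by exact_mod_cast hℓ
  ext a b
  have h3 := congrFun (congrFun h2 a) b
  simp only [Matrix.mul_smul, Matrix.mul_one, Matrix.smul_apply, smul_eq_mul] at h3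
  exact mul_left_cancel₀ hℓ' h3

theorem M4aTop_heckeRep_unique {ℓ : ℕ} (hℓ : 2 ≤ ℓ) {t t' : Matrix (Fin 2) (Fin 2) ℤ}
    (ht : t.det = 1) (ht' : t'.det = 1) {j j' : Option (Fin ℓ)}
    (h : t * heckeRep ℓ j = t' * heckeRep ℓ j') : j = j' ∧ t = t' := by
  have hℓ0 : ℓ ≠ 0 := by omega
  have hj : j = j' := by
    rw [Matrix.det_fin_two] at ht ht'
    have h00 := congrFun (congrFun h 0) 0
    have h01 := congrFun (congrFun h 0) 1
    have h10 := congrFun (congrFun h 1) 0
    have h11 := congrFun (congrFun h 1) 1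
    have hnot : ¬ ((ℓ : ℤ) ∣ 1) := by
      intro hd
      have := Int.le_of_dvd one_pos hd
      have : (2 : ℤ) ≤ ℓ := by exact_mod_cast hℓ
      omega
    cases j with
    | none =>
      cases j' with
      | none => rfl
      | some b' =>
        exfalso
        simp only [M4aTop_heckeRep_none, M4aTop_heckeRep_some, Matrix.mul_apply, Fin.sum_univ_two,
          Matrix.of_apply, Matrix.cons_val_zero, Matrix.cons_val_one, Matrix.cons_val',
          Matrix.cons_val_fin_one] at h00 h10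
        -- `t' 0 0 = ℓ * t 0 0`, `t' 1 0 = ℓ * t 1 0`
        apply hnot
        refine ⟨t 0 0 * t' 1 1 - t' 0 1 * t 1 0, ?_⟩
        rw [← ht']
        have e0 : t' 0 0 = t 0 0 * ℓ := by linarith
        have e1 : t' 1 0 = t 1 0 * ℓ := by linarith
        rw [e0, e1]; ring
    | some b =>
      cases j' with
      | none =>
        exfalso
        simp only [M4aTop_heckeRep_none, M4aTop_heckeRep_some, Matrix.mul_apply, Fin.sum_univ_two,
          Matrix.of_apply, Matrix.cons_val_zero, Matrix.cons_val_one, Matrix.cons_val',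
          Matrix.cons_val_fin_one] at h00 h10
        apply hnot
        refine ⟨t' 0 0 * t 1 1 - t 0 1 * t' 1 0, ?_⟩
        rw [← ht]
        have e0 : t 0 0 = t' 0 0 * ℓ := by linarith
        have e1 : t 1 0 = t' 1 0 * ℓ := by linarith
        rw [e0, e1]; ring
      | some b' =>
        simp only [M4aTop_heckeRep_some, Matrix.mul_apply, Fin.sum_univ_two,
          Matrix.of_apply, Matrix.cons_val_zero, Matrix.cons_val_one, Matrix.cons_val',
          Matrix.cons_val_fin_one] at h00 h01 h10 h11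
        have e0 : t 0 0 = t' 0 0 := by linarith
        have e1 : t 1 0 = t' 1 0 := by linarith
        -- `(b - b') = ℓ * (...)`
        have hd : (ℓ : ℤ) ∣ ((b : ℕ) : ℤ) - ((b' : ℕ) : ℤ) := by
          refine ⟨(t' 0 1 - t 0 1) * t 1 1 - (t' 1 1 - t 1 1) * t 0 1, ?_⟩
          have k0 : t 0 0 * ((b : ℕ) : ℤ) + t 0 1 * ℓ = t 0 0 * ((b' : ℕ) : ℤ) + t' 0 1 * ℓ := by
            rw [← e0] at h01; exact h01
          have k1 : t 1 0 * ((b : ℕ) : ℤ) + t 1 1 * ℓ = t 1 0 * ((b' : ℕ) : ℤ) + t' 1 1 * ℓ := by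
            rw [← e1] at h11; exact h11
          have : ((b : ℕ) : ℤ) - ((b' : ℕ) : ℤ)
              = (t 0 0 * t 1 1 - t 0 1 * t 1 0) * (((b : ℕ) : ℤ) - ((b' : ℕ) : ℤ)) := by
            rw [ht, one_mul]
          rw [this]
          linear_combination t 1 1 * k0 - t 0 1 * k1
        have hb : (b : ℕ) < ℓ := b.2
        have hb' : (b' : ℕ) < ℓ := b'.2
        have : ((b : ℕ) : ℤ) - ((b' : ℕ) : ℤ) = 0 := by
          apply Int.eq_zero_of_abs_lt_dvd hd
          rw [abs_lt]
          constructor <;> omega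
        have hbb : (b : ℕ) = (b' : ℕ) := by omega
        rw [Fin.ext hbb]
  subst hj
  exact ⟨rfl, M4aTop_mul_heckeRep_cancel hℓ0 j h⟩

theorem M4aTop_G0_ext {N : ℕ} {γ γ' : G0 N} (h : γ.mat = γ'.mat) : γ = γ' :=
  Subtype.ext (Subtype.ext h)

theorem M4aTop_det_mat {N : ℕ} (γ : G0 N) : γ.mat.det = 1 := (γ : SL(2, ℤ)).2

theorem M4aTop_isHeckeFactor_unique {N ℓ : ℕ} (hℓ : 2 ≤ ℓ) {γ : G0 N} {i : Option (Fin ℓ)}
    {q q' : Option (Fin ℓ) × G0 N} (hq : IsHeckeFactor ℓ γ i q) (hq' : IsHeckeFactor ℓ γ i q') :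
    q = q' := by
  have h : q.2.mat * heckeRep ℓ q.1 = q'.2.mat * heckeRep ℓ q'.1 := by
    rw [← hq, ← hq']
  obtain ⟨h1, h2⟩ := M4aTop_heckeRep_unique hℓ (M4aTop_det_mat q.2) (M4aTop_det_mat q'.2) h
  exact Prod.ext h1 (M4aTop_G0_ext h2)

theorem M4aTop_heckeFac_spec {N ℓ : ℕ} {γ : G0 N} {i : Option (Fin ℓ)}
    (h : ∃ q : Option (Fin ℓ) × G0 N, IsHeckeFactor ℓ γ i q) :
    IsHeckeFactor ℓ γ i (heckeFac N ℓ γ i) := by
  unfold heckeFac
  rw [dif_pos h]
  exact Classical.choose_spec h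

theorem M4aTop_heckeFac_eq {N ℓ : ℕ} (hℓ : 2 ≤ ℓ) {γ : G0 N} {i : Option (Fin ℓ)}
    {q : Option (Fin ℓ) × G0 N} (hq : IsHeckeFactor ℓ γ i q) : heckeFac N ℓ γ i = q :=
  M4aTop_isHeckeFactor_unique hℓ (M4aTop_heckeFac_spec ⟨q, hq⟩) hq


/-! ### Comparison with the Prelude coset representatives and `H201.trf` -/

/-- The Prelude's coset representative (in `GL₂(ℝ)`, indexed by `ℙ¹(𝔽_ℓ)`). -/
abbrev M4aTop_pRep (ℓ : ℕ) (x : OnePoint (ZMod ℓ)) : GL (Fin 2) ℝ :=
  P2MW.S_ModularForm_heckeT_slash_eq_self_of_mem_Gamma0.ModularForm.HeckeSlashInvariance.heckeRep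
    ℓ x

/-- The index bijection `Option (Fin ℓ) ≃ OnePoint (ZMod ℓ)`. -/
def M4aTop_idx (ℓ : ℕ) [NeZero ℓ] : Option (Fin ℓ) ≃ OnePoint (ZMod ℓ) :=
  Equiv.optionCongr (ZMod.finEquiv ℓ).toEquiv

theorem M4aTop_idx_none (ℓ : ℕ) [NeZero ℓ] : M4aTop_idx ℓ none = OnePoint.infty := rfl

theorem M4aTop_idx_some (ℓ : ℕ) [NeZero ℓ] (b : Fin ℓ) :
    M4aTop_idx ℓ (some b) = OnePoint.some (ZMod.finEquiv ℓ b) := rfl

theorem M4aTop_val_finEquiv (ℓ : ℕ) [NeZero ℓ] (b : Fin ℓ) : (ZMod.finEquiv ℓ b).val = (b : ℕ) := by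
  cases ℓ with
  | zero => exact (NeZero.ne 0 rfl).elim
  | succ n => rfl

/-- The Prelude representative is the real image of the integral one. -/
theorem M4aTop_pRep_idx (ℓ : ℕ) [NeZero ℓ] (i : Option (Fin ℓ)) :
    ((M4aTop_pRep ℓ (M4aTop_idx ℓ i) : GL (Fin 2) ℝ) : Matrix (Fin 2) (Fin 2) ℝ)
      = (heckeRep ℓ i).map (Int.castRingHom ℝ) := by
  have hℓ : ℓ ≠ 0 := NeZero.ne ℓ
  cases i with
  | none =>
    rw [M4aTop_idx_none, M4aTop_heckeRep_none]
    show ((ModularForm.heckeDiagMatrix ℓ : GL (Fin 2) ℝ) : Matrix (Fin 2) (Fin 2) ℝ) = _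
    rw [ModularForm.val_heckeDiagMatrix hℓ]
    ext a b
    fin_cases a <;> fin_cases b <;> simp
  | some b =>
    rw [M4aTop_idx_some, M4aTop_heckeRep_some]
    show ((ModularForm.heckeMatrix ℓ (ZMod.finEquiv ℓ b).val : GL (Fin 2) ℝ) :
      Matrix (Fin 2) (Fin 2) ℝ) = _
    rw [ModularForm.val_heckeMatrix hℓ, M4aTop_val_finEquiv]
    ext a b
    fin_cases a <;> fin_cases b <;> simp

theorem M4aTop_mapGL_coe {N : ℕ} (γ : G0 N) :
    ((mapGL ℝ (γ : SL(2, ℤ)) : GL (Fin 2) ℝ) : Matrix (Fin 2) (Fin 2) ℝ)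
      = γ.mat.map (Int.castRingHom ℝ) := rfl

section Trf

variable {N ℓ : ℕ} [Fact ℓ.Prime]

/-- The index permutation induced by `γ`, transported to `Option (Fin ℓ)`. -/
def M4aTop_perm (γ : G0 N) : Equiv.Perm (Option (Fin ℓ)) :=
  ((M4aTop_idx ℓ).trans (H201.permOf (p := ℓ) γ)).trans (M4aTop_idx ℓ).symm

theorem M4aTop_idx_perm (γ : G0 N) (i : Option (Fin ℓ)) :
    M4aTop_idx ℓ (M4aTop_perm γ i)
      = P2MW.S_ModularForm_heckeT_slash_eq_self_of_mem_Gamma0.ModularForm.HeckeSlashInvariance.redMatrix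
          ℓ (γ : SL(2, ℤ)) • M4aTop_idx ℓ i := by
  simp [M4aTop_perm, H201.permOf_apply]

/-- `H201.trf` realises the factorisation of `DefsM.lean`. -/
theorem M4aTop_isHeckeFactor_trf (hℓN : ¬ ℓ ∣ N) (γ : G0 N) (i : Option (Fin ℓ)) :
    IsHeckeFactor ℓ γ i (M4aTop_perm γ i, H201.trf hℓN γ (M4aTop_idx ℓ i)) := by
  have h := H201.trf_spec hℓN γ (M4aTop_idx ℓ i)
  rw [← M4aTop_idx_perm] at h
  have h2 := congrArg (fun M : GL (Fin 2) ℝ => (M : Matrix (Fin 2) (Fin 2) ℝ)) h
  simp only [Matrix.GeneralLinearGroup.coe_mul] at h2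
  have h3 : (heckeRep ℓ i * γ.mat).map (Int.castRingHom ℝ)
      = (G0.mat (H201.trf hℓN γ (M4aTop_idx ℓ i)) * heckeRep ℓ (M4aTop_perm γ i)).map
          (Int.castRingHom ℝ) := by
    rw [Matrix.map_mul, Matrix.map_mul, ← M4aTop_pRep_idx, ← M4aTop_pRep_idx, ← M4aTop_mapGL_coe,
      ← M4aTop_mapGL_coe]
    exact h2
  exact Matrix.map_injective (RingHom.injective_int (Int.castRingHom ℝ)) h3

theorem M4aTop_heckeFac_eq_trf (hℓN : ¬ ℓ ∣ N) (γ : G0 N) (i : Option (Fin ℓ)) :
    heckeFac N ℓ γ i = (M4aTop_perm γ i, H201.trf hℓN γ (M4aTop_idx ℓ i)) :=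
  M4aTop_heckeFac_eq (Fact.out : ℓ.Prime).two_le (M4aTop_isHeckeFactor_trf hℓN γ i)

/-- The cohomological Hecke operator of `DefsM.lean` is helper201's transfer sum. -/
theorem M4aTop_heckeCoh_eq_sum_trf (hℓN : ¬ ℓ ∣ N) {A : Type*} [AddCommMonoid A] (c : G0 N → A)
    (γ : G0 N) :
    heckeCoh N ℓ c γ = ∑ x : OnePoint (ZMod ℓ), c (H201.trf hℓN γ x) := by
  unfold heckeCoh
  simp only [M4aTop_heckeFac_eq_trf hℓN]
  exact Equiv.sum_comp (M4aTop_idx ℓ) (fun x => c (H201.trf hℓN γ x))

end Trf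

end Fermat.Agent.S29

end
end
-- ===== PACK-END S29/M4a/Fac.lean

-- ===== PACK-BEGIN S29/H201/PeriodHecke.lean
section



/-!
# S29 / P5-E2 (helper201) — Hecke equivariance of the period map

`periodMap N (T_p f) = heckeHom p (periodMap N f)` for `p ∤ N`.
-/

set_option autoImplicit false

open CongruenceSubgroup Matrix.SpecialLinearGroup UpperHalfPlane ModularCurve ModularCurve.Period
open Filter Topology
open scoped MatrixGroups ModularForm
open P2MW.S_ModularForm_heckeT_slash_eq_self_of_mem_Gamma0.ModularForm.HeckeSlashInvariance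

namespace Fermat.Agent.S29.H201

variable {N : ℕ} {p : ℕ} [Fact p.Prime]

/-- The Hecke transform of a primitive. -/
noncomputable def heckePrim (p : ℕ) [Fact p.Prime] (F : ℍ → ℂ) : ℍ → ℂ :=
  fun τ => ∑ x : OnePoint (ZMod p), F (_root_.P2MW.S_ModularForm_heckeT_slash_eq_self_of_mem_Gamma0.ModularForm.HeckeSlashInvariance.heckeRep p x • τ)

omit [Fact p.Prime] in
theorem det_heckeRep_pos (x : OnePoint (ZMod p)) :
    0 < ((_root_.P2MW.S_ModularForm_heckeT_slash_eq_self_of_mem_Gamma0.ModularForm.HeckeSlashInvariance.heckeRep p x : GL (Fin 2) ℝ) : Matrix (Fin 2) (Fin 2) ℝ).det := by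
  induction x using OnePoint.rec with
  | infty =>
    have := ModularForm.det_heckeDiagMatrix_pos p
    rwa [Matrix.GeneralLinearGroup.val_det_apply] at this
  | coe j =>
    have := ModularForm.det_heckeMatrix_pos p j.val
    rwa [Matrix.GeneralLinearGroup.val_det_apply] at this

/-- Chain rule for the action of `g ∈ GL₂(ℝ)⁺`. -/
theorem hasDerivAt_comp_smul_GL {F f : ℍ → ℂ}
    (hF : ∀ τ : ℍ, HasDerivAt (F ∘ ofComplex) (f τ) ↑τ) (g : GL (Fin 2) ℝ)
    (hpos : 0 < (g : Matrix (Fin 2) (Fin 2) ℝ).det) (τ : ℍ) :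
    HasDerivAt ((fun w : ℍ => F (g • w)) ∘ ofComplex) ((f ∣[(2 : ℤ)] g) τ) ↑τ := by
  have h_smul : HasDerivAt (fun w ↦ ↑(g • ofComplex w) : ℂ → ℂ)
      (((g : Matrix (Fin 2) (Fin 2) ℝ).det : ℂ) / denom g τ ^ 2) ↑τ :=
    (hasStrictDerivAt_smul hpos τ).hasDerivAt
  have h_F : HasDerivAt (F ∘ ofComplex) (f (g • τ)) ↑(g • ofComplex (τ : ℂ)) := by
    rw [ofComplex_apply]
    exact hF (g • τ)
  have hcomp := h_F.comp (τ : ℂ) h_smul
  have heq : ((fun w : ℍ => F (g • w)) ∘ ofComplex)
      = (F ∘ ofComplex) ∘ (fun w ↦ ↑(g • ofComplex w) : ℂ → ℂ) := by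
    funext z
    simp only [Function.comp_apply, ofComplex_apply]
  rw [heq]
  refine hcomp.congr_deriv ?_
  have hdet' : 0 < (g.det : ℝ) := by
    rwa [Matrix.GeneralLinearGroup.val_det_apply]
  rw [ModularForm.slash_apply, UpperHalfPlane.σ, if_pos hdet']
  have hz := denom_ne_zero g τ
  simp only [ContinuousAlgEquiv.refl_apply]
  rw [show (2 : ℤ) - 1 = 1 by norm_num, zpow_one, zpow_neg, abs_of_pos hdet',
    Matrix.GeneralLinearGroup.val_det_apply]
  rw [div_eq_mul_inv, mul_assoc]
  norm_cast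

theorem im_heckeRep_smul (x : OnePoint (ZMod p)) (τ : ℍ) :
    τ.im / p ≤ (_root_.P2MW.S_ModularForm_heckeT_slash_eq_self_of_mem_Gamma0.ModularForm.HeckeSlashInvariance.heckeRep p x • τ).im := by
  have hp : p ≠ 0 := (Fact.out : p.Prime).ne_zero
  have hp1 : (1 : ℝ) ≤ p := by exact_mod_cast (Fact.out : p.Prime).one_le
  have hpos : (0 : ℝ) < p := by linarith
  have him : 0 < τ.im := τ.im_pos
  induction x using OnePoint.rec with
  | infty =>
    have h := ModularForm.coe_heckeDiagMatrix_smul hp τ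
    have h2 : (_root_.P2MW.S_ModularForm_heckeT_slash_eq_self_of_mem_Gamma0.ModularForm.HeckeSlashInvariance.heckeRep p (OnePoint.infty : OnePoint (ZMod p)) • τ).im = p * τ.im := by
      have := congrArg Complex.im h
      simpa using this
    rw [h2]
    calc τ.im / p ≤ τ.im := div_le_self him.le hp1
      _ ≤ p * τ.im := le_mul_of_one_le_left him.le hp1
  | coe j =>
    have h := ModularForm.coe_heckeMatrix_smul hp j.val τ
    have h2 : (_root_.P2MW.S_ModularForm_heckeT_slash_eq_self_of_mem_Gamma0.ModularForm.HeckeSlashInvariance.heckeRep p (j : OnePoint (ZMod p)) • τ).im = τ.im / p := by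
      have := congrArg Complex.im h
      rw [UpperHalfPlane.coe_im] at this
      show (ModularForm.heckeMatrix p j.val • τ).im = _
      rw [this, Complex.div_natCast_im, Complex.add_im, Complex.natCast_im, add_zero,
        UpperHalfPlane.coe_im]
    rw [h2]

theorem tendsto_heckeRep_smul (x : OnePoint (ZMod p)) :
    Tendsto (fun τ : ℍ => _root_.P2MW.S_ModularForm_heckeT_slash_eq_self_of_mem_Gamma0.ModularForm.HeckeSlashInvariance.heckeRep p x • τ) atImInfty atImInfty := by
  have hpos : (0 : ℝ) < p := by exact_mod_cast (Fact.out : p.Prime).pos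
  rw [atImInfty, tendsto_comap_iff]
  refine tendsto_atTop_mono (fun τ => im_heckeRep_smul x τ) ?_
  exact (tendsto_comap.atTop_div_const hpos)

theorem SL_smul_eq_mapGL_smul (γ : SL(2, ℤ)) (τ : ℍ) : γ • τ = (mapGL ℝ γ) • τ := rfl

theorem heckePrim_smul_sub (hpN : ¬ p ∣ N)
    {f : CuspForm (Gamma0 N) 2} {F : ℍ → ℂ} (hF : HasEquivariantPrimitive N f F)
    (γ : Gamma0 N) (τ : ℍ) :
    heckePrim p F ((γ : SL(2, ℤ)) • τ) - heckePrim p F τ
      = ∑ x : OnePoint (ZMod p), hF.2.2.1.period (trf hpN γ x) := by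
  have key : ∀ x : OnePoint (ZMod p), F (_root_.P2MW.S_ModularForm_heckeT_slash_eq_self_of_mem_Gamma0.ModularForm.HeckeSlashInvariance.heckeRep p x • ((γ : SL(2, ℤ)) • τ))
      = F (_root_.P2MW.S_ModularForm_heckeT_slash_eq_self_of_mem_Gamma0.ModularForm.HeckeSlashInvariance.heckeRep p (permOf γ x) • τ) + hF.2.2.1.period (trf hpN γ x) := by
    intro x
    have h1 : _root_.P2MW.S_ModularForm_heckeT_slash_eq_self_of_mem_Gamma0.ModularForm.HeckeSlashInvariance.heckeRep p x • ((γ : SL(2, ℤ)) • τ)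
        = ((trf hpN γ x : Gamma0 N) : SL(2, ℤ)) • (_root_.P2MW.S_ModularForm_heckeT_slash_eq_self_of_mem_Gamma0.ModularForm.HeckeSlashInvariance.heckeRep p (permOf γ x) • τ) := by
      rw [SL_smul_eq_mapGL_smul, SL_smul_eq_mapGL_smul, ← mul_smul, ← mul_smul, trf_spec hpN γ x]
      rfl
    rw [h1, ← hF.2.2.1.sub_eq_period (trf hpN γ x) (_root_.P2MW.S_ModularForm_heckeT_slash_eq_self_of_mem_Gamma0.ModularForm.HeckeSlashInvariance.heckeRep p (permOf γ x) • τ)]
    ring
  unfold heckePrim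
  simp only [key, Finset.sum_add_distrib]
  rw [Equiv.sum_comp (permOf γ) (fun y => F (_root_.P2MW.S_ModularForm_heckeT_slash_eq_self_of_mem_Gamma0.ModularForm.HeckeSlashInvariance.heckeRep p y • τ))]
  ring

theorem hasEquivariantPrimitive_heckePrim (hp : p.Prime) (hpN : ¬ p ∣ N)
    {f : CuspForm (Gamma0 N) 2} {F : ℍ → ℂ} (hF : HasEquivariantPrimitive N f F) :
    HasEquivariantPrimitive N (CuspForm.heckeTLin 2 hp hpN f) (heckePrim p F) := by
  refine ⟨fun τ => ?_, ?_, fun γ => ?_, fun δ => ?_⟩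
  · -- derivative
    have hsum : (heckePrim p F ∘ ofComplex)
        = fun z => ∑ x : OnePoint (ZMod p), ((fun w : ℍ => F (_root_.P2MW.S_ModularForm_heckeT_slash_eq_self_of_mem_Gamma0.ModularForm.HeckeSlashInvariance.heckeRep p x • w)) ∘ ofComplex) z := by
      funext z
      rfl
    rw [hsum, CuspForm.heckeTLin_apply_apply, heckeT_eq_sum_onePoint, Finset.sum_apply]
    exact HasDerivAt.fun_sum fun x _ =>
      hasDerivAt_comp_smul_GL hF.1 (_root_.P2MW.S_ModularForm_heckeT_slash_eq_self_of_mem_Gamma0.ModularForm.HeckeSlashInvariance.heckeRep p x) (det_heckeRep_pos x) τ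
  · -- limit `0` at `i∞`
    have h : Tendsto (fun τ : ℍ => ∑ x : OnePoint (ZMod p), F (_root_.P2MW.S_ModularForm_heckeT_slash_eq_self_of_mem_Gamma0.ModularForm.HeckeSlashInvariance.heckeRep p x • τ)) atImInfty
        (𝓝 (∑ _x : OnePoint (ZMod p), (0 : ℂ))) :=
      tendsto_finsetSum _ fun x _ => hF.2.1.comp (tendsto_heckeRep_smul x)
    rw [Finset.sum_const_zero] at h
    exact h
  · exact ⟨_, fun z => heckePrim_smul_sub hpN hF γ z⟩
  · -- limits at the cusps
    have h1 : ¬ p ∣ 1 := fun h => hp.one_lt.ne' (Nat.dvd_one.mp h)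
    have hx : ∀ x : OnePoint (ZMod p), ∃ L : ℂ,
        Tendsto (fun w : ℍ => F (_root_.P2MW.S_ModularForm_heckeT_slash_eq_self_of_mem_Gamma0.ModularForm.HeckeSlashInvariance.heckeRep p x • (δ • w))) atImInfty (𝓝 L) := by
      intro x
      obtain ⟨g', -, hg'⟩ := heckeRep_mul (N := 1) h1 δ (one_dvd _) x
      obtain ⟨L, hL⟩ := hF.2.2.2 g'
      refine ⟨L, ?_⟩
      have heq : (fun w : ℍ => F (_root_.P2MW.S_ModularForm_heckeT_slash_eq_self_of_mem_Gamma0.ModularForm.HeckeSlashInvariance.heckeRep p x • (δ • w)))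
          = (fun w : ℍ => F (g' • w)) ∘ (fun w : ℍ => _root_.P2MW.S_ModularForm_heckeT_slash_eq_self_of_mem_Gamma0.ModularForm.HeckeSlashInvariance.heckeRep p (redMatrix p δ • x) • w) := by
        funext w
        simp only [Function.comp_apply]
        rw [SL_smul_eq_mapGL_smul, SL_smul_eq_mapGL_smul, ← mul_smul, ← mul_smul, hg']
      rw [heq]
      exact hL.comp (tendsto_heckeRep_smul _)
    choose L hL using hx
    exact ⟨∑ x : OnePoint (ZMod p), L x, tendsto_finsetSum _ fun x _ => hL x⟩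

/-- **E2a**: Hecke equivariance of the period map. -/
theorem periodMap_heckeTLin (hp : p.Prime) (hpN : ¬ p ∣ N) (f : CuspForm (Gamma0 N) 2) :
    periodMap N (CuspForm.heckeTLin 2 hp hpN f) = heckeHom p hpN ℂ (periodMap N f) := by
  haveI : NeZero N := ⟨fun h => hpN (h ▸ dvd_zero p)⟩
  obtain ⟨F, hF⟩ := Fermat.Agent.S21.H381.exists_hasEquivariantPrimitive f
  refine AddMonoidHom.ext fun γ => ?_
  obtain ⟨γ, rfl⟩ : ∃ γ' : Gamma0 N, Additive.ofMul γ' = γ := ⟨Additive.toMul γ, rfl⟩
  rw [Fermat.Agent.S21.H381.periodMap_apply (hasEquivariantPrimitive_heckePrim hp hpN hF) γ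
    UpperHalfPlane.I, heckePrim_smul_sub hpN hF γ UpperHalfPlane.I, heckeHom_apply]
  refine Finset.sum_congr rfl fun x _ => ?_
  rw [Fermat.Agent.S21.H381.periodMap_apply hF (trf hpN γ x) UpperHalfPlane.I,
    hF.2.2.1.sub_eq_period]

end Fermat.Agent.S29.H201

end
-- ===== PACK-END S29/H201/PeriodHecke.lean

-- ===== PACK-BEGIN S24/H504/Fibre.lean
section




/-!
# Embeddings inducing the same place: rigidity

Two embeddings `σ, τ : F → C((z))` over `K(t)` inducing the same place `v` over `t = 0` and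
having the same leading coefficient on a uniformizer are equal.  Hence at most `e = v(t)`
embeddings induce `v`.
-/

set_option autoImplicit false

namespace Fermat.Agent.S24.H504

open AlgebraicCurve

variable {K F : Type*} [Field K] [Field F] [Algebra K F]
variable {C : Type*} [Field C]

theorem le_ot_add {A B : LaurentSeries C} {k : ℤ} (hA : (k : WithTop ℤ) ≤ A.orderTop)
    (hB : (k : WithTop ℤ) ≤ B.orderTop) : (k : WithTop ℤ) ≤ (A + B).orderTop :=
  le_trans (le_min hA hB) HahnSeries.min_orderTop_le_orderTop_add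

theorem le_ot_mul {A B : LaurentSeries C} {k l : ℤ} (hA : (k : WithTop ℤ) ≤ A.orderTop)
    (hB : (l : WithTop ℤ) ≤ B.orderTop) : ((k + l : ℤ) : WithTop ℤ) ≤ (A * B).orderTop := by
  rw [HahnSeries.orderTop_mul]
  push_cast
  exact add_le_add hA hB

theorem le_ot_of_order {A : LaurentSeries C} {k : ℤ} (h : k ≤ A.order) :
    (k : WithTop ℤ) ≤ A.orderTop := by
  rcases eq_or_ne A 0 with rfl | hA
  · simp
  · rw [ls_orderTop_eq_order hA]
    exact_mod_cast h

theorem ot_le_of_forall {d e : WithTop ℤ} (h : ∀ k : ℤ, (k : WithTop ℤ) ≤ d → (k : WithTop ℤ) ≤ e) :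
    d ≤ e := by
  induction d using WithTop.recTopCoe with
  | top =>
    induction e using WithTop.recTopCoe with
    | top => exact le_rfl
    | coe e =>
      have := h (e + 1) le_top
      have h2 : e + 1 ≤ e := by exact_mod_cast this
      omega
  | coe d => exact h d le_rfl

section delta

variable {v : Place K F} {ι : K →+* C} {σ τ : F →+* LaurentSeries C}

/-- Key estimate: the difference `σ - τ` is as small on the whole valuation ring as on a
uniformizer. -/
theorem orderTop_sub_uniformizer_le [IsAlgClosed K] {t : F} (ht : 0 < v.ord t)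
    [Algebra.IsAlgebraic (IntermediateField.adjoin K {t}) F]
    (hσK : ∀ c, σ (algebraMap K F c) = HahnSeries.C (ι c))
    (hτK : ∀ c, τ (algebraMap K F c) = HahnSeries.C (ι c))
    (hσ : Induces σ v) (hτ : Induces τ v)
    {ϖ : F} (hϖ : v.ord ϖ = 1) {f : F} (hf : 0 ≤ v.ord f) :
    (σ ϖ - τ ϖ).orderTop ≤ (σ f - τ f).orderTop := by
  have hσϖ : 0 < (σ ϖ).order := by
    have h1 := (hσ.order_nonneg_iff ϖ).mpr (by omega)
    have h2 := (hσ.order_eq_zero_iff ϖ).not.mpr (by omega)
    omega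
  set μ := (σ ϖ).order with hμ
  -- the inductive statement
  have key : ∀ (N : ℕ) (f : F), 0 ≤ v.ord f → ∀ k : ℤ, k ≤ N * μ →
      (k : WithTop ℤ) ≤ (σ ϖ - τ ϖ).orderTop → (k : WithTop ℤ) ≤ (σ f - τ f).orderTop := by
    intro N
    induction N with
    | zero =>
      intro f hf k hk _
      have h1 : (0 : WithTop ℤ) ≤ (σ f).orderTop :=
        (ls_orderTop_nonneg_iff _).mpr ((hσ.order_nonneg_iff f).mpr hf)
      have h2 : (0 : WithTop ℤ) ≤ (τ f).orderTop :=
        (ls_orderTop_nonneg_iff _).mpr ((hτ.order_nonneg_iff f).mpr hf)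
      have h3 : (0 : WithTop ℤ) ≤ (σ f - τ f).orderTop :=
        le_trans (le_min h1 h2) HahnSeries.min_orderTop_le_orderTop_sub
      have hk0 : k ≤ 0 := by simpa using hk
      exact le_trans (by exact_mod_cast hk0) h3
    | succ N ih =>
      intro f hf k hk hkd
      obtain ⟨c, f₁, hf₁, rfl⟩ := exists_eq_const_add_mul ht hϖ hf
      have hdecomp : σ (algebraMap K F c + ϖ * f₁) - τ (algebraMap K F c + ϖ * f₁)
          = σ ϖ * (σ f₁ - τ f₁) + (σ ϖ - τ ϖ) * τ f₁ := by
        simp only [map_add, map_mul, hσK, hτK]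
        ring
      rw [hdecomp]
      have hτf₁ : ((0 : ℤ) : WithTop ℤ) ≤ (τ f₁).orderTop := by
        have := (ls_orderTop_nonneg_iff _).mpr ((hτ.order_nonneg_iff f₁).mpr hf₁)
        exact_mod_cast this
      have hk1 : ((k - μ : ℤ) : WithTop ℤ) ≤ (σ f₁ - τ f₁).orderTop := by
        apply ih f₁ hf₁ (k - μ)
        · push_cast at hk
          linarith
        · refine le_trans ?_ hkd
          exact_mod_cast (by omega : k - μ ≤ k)
      have hμ' : ((μ : ℤ) : WithTop ℤ) ≤ (σ ϖ).orderTop := le_ot_of_order le_rfl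
      have h1 := le_ot_mul hμ' hk1
      have h2 := le_ot_mul hkd hτf₁
      rw [show μ + (k - μ) = k by ring] at h1
      rw [add_zero] at h2
      exact le_ot_add h1 h2
  apply ot_le_of_forall
  intro k hk
  refine key k.toNat f hf k ?_ hk
  have : k ≤ (k.toNat : ℤ) := Int.self_le_toNat k
  have h0 : (0 : ℤ) ≤ (k.toNat : ℤ) := Nat.cast_nonneg _
  nlinarith [hσϖ]

end delta

/-! ### The geometric-sum factor -/

theorem ls_leadingCoeff_pow (A : LaurentSeries C) (n : ℕ) :
    (A ^ n).leadingCoeff = A.leadingCoeff ^ n := by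
  induction n with
  | zero => simp
  | succ n ih => rw [pow_succ, HahnSeries.leadingCoeff_mul, ih, pow_succ]

theorem ls_ne_zero_of_order_ne_zero {A : LaurentSeries C} (h : A.order ≠ 0) : A ≠ 0 := by
  rintro rfl
  simp at h

theorem ls_coeff_eq_zero_of_lt {A : LaurentSeries C} {k g : ℤ} (hg : g ≤ A.order) (hk : k < g) :
    A.coeff k = 0 :=
  HahnSeries.coeff_eq_zero_of_lt_order (lt_of_lt_of_le hk hg)

/-- A series whose coefficients vanish below `g` and whose `g`-th coefficient is nonzero has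
order `g`. -/
theorem ls_order_eq_of_coeff {A : LaurentSeries C} {g : ℤ} (h0 : ∀ k < g, A.coeff k = 0)
    (hg : A.coeff g ≠ 0) : A ≠ 0 ∧ A.order = g := by
  have hA : A ≠ 0 := by
    rintro rfl
    simp at hg
  refine ⟨hA, le_antisymm (HahnSeries.order_le_of_coeff_ne_zero hg) ?_⟩
  by_contra hlt
  push Not at hlt
  exact (HahnSeries.coeff_order_eq_zero.not.mpr hA) (h0 _ hlt)

theorem order_geom_sum₂ [CharZero C] {A B : LaurentSeries C} (hA : A ≠ 0) (hB : B ≠ 0)
    (hord : A.order = B.order) (hlc : A.leadingCoeff = B.leadingCoeff) {e : ℕ} (he : 0 < e) :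
    (∑ i ∈ Finset.range e, A ^ i * B ^ (e - 1 - i)) ≠ 0 ∧
      (∑ i ∈ Finset.range e, A ^ i * B ^ (e - 1 - i)).order = ((e : ℤ) - 1) * A.order := by
  have hterm : ∀ i ∈ Finset.range e, (A ^ i * B ^ (e - 1 - i)) ≠ 0 ∧
      (A ^ i * B ^ (e - 1 - i)).order = ((e : ℤ) - 1) * A.order ∧
      (A ^ i * B ^ (e - 1 - i)).leadingCoeff = A.leadingCoeff ^ (e - 1) := by
    intro i hi
    have hi' : i < e := Finset.mem_range.mp hi
    refine ⟨mul_ne_zero (pow_ne_zero _ hA) (pow_ne_zero _ hB), ?_, ?_⟩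
    · rw [HahnSeries.order_mul (pow_ne_zero _ hA) (pow_ne_zero _ hB), HahnSeries.order_pow,
        HahnSeries.order_pow, ← hord]
      simp only [nsmul_eq_mul]
      have : ((e - 1 - i : ℕ) : ℤ) = (e : ℤ) - 1 - i := by omega
      rw [this]
      ring
    · rw [HahnSeries.leadingCoeff_mul, ls_leadingCoeff_pow, ls_leadingCoeff_pow, ← hlc,
        ← pow_add]
      congr 1
      omega
  apply ls_order_eq_of_coeff
  · intro k hk
    rw [HahnSeries.coeff_sum]
    apply Finset.sum_eq_zero
    intro i hi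
    exact ls_coeff_eq_zero_of_lt (hterm i hi).2.1.ge hk
  · rw [HahnSeries.coeff_sum]
    have : ∀ i ∈ Finset.range e, (A ^ i * B ^ (e - 1 - i)).coeff (((e : ℤ) - 1) * A.order)
        = A.leadingCoeff ^ (e - 1) := by
      intro i hi
      rw [← (hterm i hi).2.1, ← HahnSeries.leadingCoeff_eq, (hterm i hi).2.2]
    rw [Finset.sum_congr rfl this, Finset.sum_const, Finset.card_range, nsmul_eq_mul]
    refine mul_ne_zero ?_ (pow_ne_zero _ (HahnSeries.leadingCoeff_ne_zero.mpr hA))
    exact_mod_cast he.ne'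

section rigidity

variable {v : Place K F} {ι : K →+* C} {σ τ : F →+* LaurentSeries C}

theorem Induces.order_pos_of_ord_pos (hσ : Induces σ v) {f : F} (hf : 0 < v.ord f) :
    0 < (σ f).order := by
  have h1 := (hσ.order_nonneg_iff f).mpr hf.le
  have h2 := (hσ.order_eq_zero_iff f).not.mpr hf.ne'
  omega

/-- Two embeddings inducing the same place and agreeing at `t` have the same multiplicity. -/
theorem Induces.order_eq_of_eq_at {t : F} (ht : 0 < v.ord t) (hσ : Induces σ v)
    (hτ : Induces τ v) (hst : σ t = τ t) (f : F) : (σ f).order = (τ f).order := by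
  obtain ⟨μσ, _, hμσ⟩ := hσ.exists_mult
  obtain ⟨μτ, _, hμτ⟩ := hτ.exists_mult
  have h1 := hμσ t
  have h2 := hμτ t
  rw [hst, h2] at h1
  have h3 : (μσ : ℤ) = μτ := by
    have := mul_right_cancel₀ ht.ne' h1
    exact this.symm
  rw [hμσ f, hμτ f, h3]

/-- **Rigidity.** Two embeddings over `K(t)` inducing the same place over `t = 0`, with the same
leading coefficient on a uniformizer, are equal. -/
theorem emb_eq_of_leadingCoeff_eq [IsAlgClosed K] [CharZero C] {t : F} (ht : 0 < v.ord t)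
    [Algebra.IsAlgebraic (IntermediateField.adjoin K {t}) F]
    (hσK : ∀ c, σ (algebraMap K F c) = HahnSeries.C (ι c))
    (hτK : ∀ c, τ (algebraMap K F c) = HahnSeries.C (ι c))
    (hσ : Induces σ v) (hτ : Induces τ v) (hst : σ t = τ t)
    {ϖ : F} (hϖ : v.ord ϖ = 1)
    (hlc : (σ ϖ).leadingCoeff = (τ ϖ).leadingCoeff) : σ = τ := by
  have hϖ0 : ϖ ≠ 0 := ne_zero_of_ord_ne_zero v (by omega)
  have ht0 : t ≠ 0 := ne_zero_of_ord_ne_zero v ht.ne'
  have hσϖ0 : σ ϖ ≠ 0 := (map_ne_zero σ).mpr hϖ0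
  have hτϖ0 : τ ϖ ≠ 0 := (map_ne_zero τ).mpr hϖ0
  have hμ : 0 < (σ ϖ).order := hσ.order_pos_of_ord_pos (by omega)
  have hord : (σ ϖ).order = (τ ϖ).order := Induces.order_eq_of_eq_at ht hσ hτ hst ϖ
  -- first show σ ϖ = τ ϖ
  have hD : σ ϖ - τ ϖ = 0 := by
    by_contra hD
    obtain ⟨e, he⟩ : ∃ e : ℕ, v.ord t = e := ⟨(v.ord t).toNat, (Int.toNat_of_nonneg ht.le).symm⟩
    have he0 : 0 < e := by omega
    set u := t / ϖ ^ e with hu
    have hu_ord : v.ord u = 0 := by
      rw [hu, ord_div v ht0 (pow_ne_zero _ hϖ0), ord_pow, hϖ, he]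
      ring
    have hu0 : u ≠ 0 := div_ne_zero ht0 (pow_ne_zero _ hϖ0)
    have htu : t = u * ϖ ^ e := by
      rw [hu]; field_simp
    have hσu : (σ u).order = 0 := (hσ.order_eq_zero_iff u).mpr hu_ord
    obtain ⟨hS0, hSord⟩ := order_geom_sum₂ hσϖ0 hτϖ0 hord hlc he0
    set S := ∑ i ∈ Finset.range e, σ ϖ ^ i * τ ϖ ^ (e - 1 - i) with hS
    have hgeom : S * (σ ϖ - τ ϖ) = σ ϖ ^ e - τ ϖ ^ e := geom_sum₂_mul _ _ _
    have hzero : σ u * S * (σ ϖ - τ ϖ) + (σ u - τ u) * τ ϖ ^ e = 0 := by
      have h1 : σ t - τ t = 0 := by rw [hst, sub_self]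
      rw [htu, map_mul, map_mul, map_pow, map_pow] at h1
      rw [mul_assoc, hgeom]
      linear_combination h1
    have hσu0 : σ u ≠ 0 := (map_ne_zero σ).mpr hu0
    have hX1 : σ u * S * (σ ϖ - τ ϖ) ≠ 0 := mul_ne_zero (mul_ne_zero hσu0 hS0) hD
    have hX1ord : (σ u * S * (σ ϖ - τ ϖ)).orderTop
        = (((e : ℤ) - 1) * (σ ϖ).order + (σ ϖ - τ ϖ).order : ℤ) := by
      rw [ls_orderTop_eq_order hX1, HahnSeries.order_mul (mul_ne_zero hσu0 hS0) hD,
        HahnSeries.order_mul hσu0 hS0, hσu, hSord, zero_add]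
    have hX2 : (((σ ϖ - τ ϖ).order + e * (σ ϖ).order : ℤ) : WithTop ℤ)
        ≤ ((σ u - τ u) * τ ϖ ^ e).orderTop := by
      apply le_ot_mul
      · rw [← ls_orderTop_eq_order hD]
        exact orderTop_sub_uniformizer_le ht hσK hτK hσ hτ hϖ hu_ord.ge
      · apply le_ot_of_order
        rw [HahnSeries.order_pow, ← hord]
        simp
    have hlt : (σ u * S * (σ ϖ - τ ϖ)).orderTop < ((σ u - τ u) * τ ϖ ^ e).orderTop := by
      refine lt_of_lt_of_le ?_ hX2
      rw [hX1ord]
      have : ((e : ℤ) - 1) * (σ ϖ).order + (σ ϖ - τ ϖ).order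
          < (σ ϖ - τ ϖ).order + e * (σ ϖ).order := by linarith
      exact_mod_cast this
    have h3 := HahnSeries.orderTop_add_eq_left hlt
    rw [hzero, HahnSeries.orderTop_zero] at h3
    exact hX1 (HahnSeries.orderTop_eq_top.mp h3.symm)
  -- now σ = τ on the valuation ring, hence everywhere
  have hint : ∀ f : F, 0 ≤ v.ord f → σ f = τ f := by
    intro f hf
    have := orderTop_sub_uniformizer_le ht hσK hτK hσ hτ hϖ hf
    rw [hD, HahnSeries.orderTop_zero, top_le_iff, HahnSeries.orderTop_eq_top, sub_eq_zero] at this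
    exact this
  ext1 f
  rcases le_total 0 (v.ord f) with h | h
  · exact hint f h
  · have h' : 0 ≤ v.ord f⁻¹ := by rw [Place.ord_inv]; omega
    have := hint f⁻¹ h'
    rw [map_inv₀, map_inv₀] at this
    exact inv_injective this

theorem ls_leadingCoeff_C (r : C) : (HahnSeries.C r : LaurentSeries C).leadingCoeff = r := by
  rw [HahnSeries.C_apply, HahnSeries.leadingCoeff_of_single]

theorem ls_orderTop_C {r : C} (hr : r ≠ 0) : (HahnSeries.C r : LaurentSeries C).orderTop = 0 := by
  rw [HahnSeries.C_apply, HahnSeries.orderTop_single hr]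
  rfl

/-- The leading coefficient of `σ t` is a fixed constant times the `e`-th power of the leading
coefficient of `σ ϖ`. -/
theorem exists_const_leadingCoeff [IsAlgClosed K] {t : F} (ht : 0 < v.ord t)
    [Algebra.IsAlgebraic (IntermediateField.adjoin K {t}) F] {ϖ : F} (hϖ : v.ord ϖ = 1)
    (ι : K →+* C) :
    ∃ c : K, c ≠ 0 ∧ ∀ σ : F →+* LaurentSeries C,
      (∀ c, σ (algebraMap K F c) = HahnSeries.C (ι c)) → Induces σ v →
      (σ t).leadingCoeff = ι c * (σ ϖ).leadingCoeff ^ (v.ord t).toNat := by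
  have hϖ0 : ϖ ≠ 0 := ne_zero_of_ord_ne_zero v (by omega)
  have ht0 : t ≠ 0 := ne_zero_of_ord_ne_zero v ht.ne'
  set e := (v.ord t).toNat with he
  have he' : v.ord t = e := (Int.toNat_of_nonneg ht.le).symm
  set u := t / ϖ ^ e with hu
  have hu_ord : v.ord u = 0 := by
    rw [hu, ord_div v ht0 (pow_ne_zero _ hϖ0), ord_pow, hϖ, he']
    ring
  have hu0 : u ≠ 0 := div_ne_zero ht0 (pow_ne_zero _ hϖ0)
  have htu : t = u * ϖ ^ e := by
    rw [hu]; field_simp
  obtain ⟨c, g, hg, hcg⟩ := exists_eq_const_add ht hu_ord.ge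
  have hc : c ≠ 0 := by
    rintro rfl
    rw [map_zero, zero_add] at hcg
    rw [← hcg] at hg
    rcases hg with h | h
    · exact hu0 h
    · omega
  refine ⟨c, hc, fun σ hσK hσ => ?_⟩
  have hιc : ι c ≠ 0 := (map_ne_zero ι).mpr hc
  have hlcu : (σ u).leadingCoeff = ι c := by
    rw [hcg, map_add, hσK]
    rcases hg with rfl | hg
    · rw [map_zero, add_zero, ls_leadingCoeff_C]
    · have hgo : 0 < (σ g).order := hσ.order_pos_of_ord_pos hg
      have hσg0 : σ g ≠ 0 := ls_ne_zero_of_order_ne_zero hgo.ne'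
      have hlt : (HahnSeries.C (ι c) : LaurentSeries C).orderTop < (σ g).orderTop := by
        rw [ls_orderTop_C hιc, ls_orderTop_eq_order hσg0]
        exact_mod_cast hgo
      rw [HahnSeries.leadingCoeff_add_eq_left hlt, ls_leadingCoeff_C]
  conv_lhs => rw [htu]
  rw [map_mul, map_pow, HahnSeries.leadingCoeff_mul, ls_leadingCoeff_pow, hlcu]

/-- **Fibre bound.** At most `e = v(t)` embeddings (over `K(t)`) induce the place `v`. -/
theorem card_induces_le [IsAlgClosed K] [CharZero C] {X : Type*} [Finite X] {t : F}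
    (ht : 0 < v.ord t) [Algebra.IsAlgebraic (IntermediateField.adjoin K {t}) F]
    (ι : K →+* C) (σ : X → (F →+* LaurentSeries C)) (hinj : Function.Injective σ)
    (hK : ∀ x c, σ x (algebraMap K F c) = HahnSeries.C (ι c))
    (hteq : ∀ x y, σ x t = σ y t) :
    Nat.card {x : X // Induces (σ x) v} ≤ (v.ord t).toNat := by
  classical
  obtain ⟨ϖ, hϖ⟩ := exists_ord_eq_one v
  obtain ⟨c, hc, hcσ⟩ := exists_const_leadingCoeff ht hϖ ι
  have hιc : ι c ≠ 0 := (map_ne_zero ι).mpr hc
  have he0 : 0 < (v.ord t).toNat := by omega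
  rcases isEmpty_or_nonempty {x : X // Induces (σ x) v} with hemp | ⟨⟨x₀, hx₀⟩⟩
  · simp
  set a : C := (σ x₀ t).leadingCoeff / ι c with ha
  have hmem : ∀ x : {x : X // Induces (σ x) v},
      (σ x.1 ϖ).leadingCoeff ∈ Polynomial.nthRootsFinset (v.ord t).toNat a := by
    intro x
    rw [Polynomial.mem_nthRootsFinset he0, ha, hteq x₀ x.1, hcσ (σ x.1) (hK x.1) x.2]
    field_simp
  let φ : {x : X // Induces (σ x) v} → Polynomial.nthRootsFinset (v.ord t).toNat a :=
    fun x => ⟨_, hmem x⟩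
  have hφ : Function.Injective φ := by
    intro x y hxy
    have hlc : (σ x.1 ϖ).leadingCoeff = (σ y.1 ϖ).leadingCoeff := congrArg Subtype.val hxy
    have := emb_eq_of_leadingCoeff_eq ht (hK x.1) (hK y.1) x.2 y.2 (hteq x.1 y.1) hϖ hlc
    exact Subtype.ext (hinj this)
  calc Nat.card {x : X // Induces (σ x) v}
      ≤ Nat.card (Polynomial.nthRootsFinset (v.ord t).toNat a) :=
        Nat.card_le_card_of_injective φ hφ
    _ = (Polynomial.nthRootsFinset (v.ord t).toNat a).card := Nat.card_eq_finsetCard _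
    _ ≤ Multiset.card (Polynomial.nthRoots (v.ord t).toNat a) := by
        rw [Polynomial.nthRootsFinset_def]
        exact Multiset.toFinset_card_le _
    _ ≤ (v.ord t).toNat := Polynomial.card_nthRoots _ _

end rigidity

end Fermat.Agent.S24.H504

end
-- ===== PACK-END S24/H504/Fibre.lean

-- ===== PACK-BEGIN S28/H867/GFun.lean
section



set_option autoImplicit false
noncomputable section

namespace Fermat.Agent.S28.H867

section GFun

theorem gFun_one : gFun 1 = 1 := by
  simp [gFun]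

theorem gFun_pos (N : ℕ) : 0 < gFun N := by
  unfold gFun
  apply Finset.prod_pos
  intro p hp
  have hp' := Nat.prime_of_mem_primeFactors hp
  exact Nat.mul_pos (Nat.succ_pos _) (pow_pos hp'.pos _)

theorem gFun_mul_of_dvd {M p : ℕ} (hM : M ≠ 0) (hp : p.Prime) (hpM : p ∣ M) :
    gFun (M * p) = p * gFun M := by
  unfold gFun
  have hpf : (M * p).primeFactors = M.primeFactors := by
    rw [Nat.primeFactors_mul hM hp.ne_zero, hp.primeFactors, Finset.union_eq_left,
      Finset.singleton_subset_iff]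
    exact Nat.mem_primeFactors.mpr ⟨hp, hpM, hM⟩
  have hpmem : p ∈ M.primeFactors := Nat.mem_primeFactors.mpr ⟨hp, hpM, hM⟩
  rw [hpf, ← Finset.mul_prod_erase _ _ hpmem, ← Finset.mul_prod_erase _ _ hpmem]
  have hv : 1 ≤ M.factorization p := (hp.dvd_iff_one_le_factorization hM).mp hpM
  have h1 : (M * p).factorization p = M.factorization p + 1 := by
    rw [Nat.factorization_mul hM hp.ne_zero]
    simp [hp.factorization]
  have h2 : ∀ q ∈ M.primeFactors.erase p, (M * p).factorization q = M.factorization q := by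
    intro q hq
    rw [Nat.factorization_mul hM hp.ne_zero]
    have hqp : q ≠ p := Finset.ne_of_mem_erase hq
    simp [hp.factorization, Finsupp.single_apply, hqp.symm]
  rw [Finset.prod_congr rfl fun q hq => by rw [h2 q hq], h1]
  have h3 : M.factorization p + 1 - 1 = (M.factorization p - 1) + 1 := by omega
  rw [h3, pow_succ]
  ring

theorem gFun_mul_of_not_dvd {M p : ℕ} (hM : M ≠ 0) (hp : p.Prime) (hpM : ¬ p ∣ M) :
    gFun (M * p) = (p + 1) * gFun M := by
  unfold gFun
  have hpnmem : p ∉ M.primeFactors := fun h => hpM (Nat.dvd_of_mem_primeFactors h)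
  have hpf : (M * p).primeFactors = insert p M.primeFactors := by
    rw [Nat.primeFactors_mul hM hp.ne_zero, hp.primeFactors, Finset.union_comm]
    rfl
  rw [hpf, Finset.prod_insert hpnmem]
  have h1 : (M * p).factorization p = 1 := by
    rw [Nat.factorization_mul hM hp.ne_zero]
    simp [hp.factorization, Nat.factorization_eq_zero_of_not_dvd hpM]
  have h2 : ∀ q ∈ M.primeFactors, (M * p).factorization q = M.factorization q := by
    intro q hq
    rw [Nat.factorization_mul hM hp.ne_zero]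
    have hqp : q ≠ p := fun h => hpnmem (h ▸ hq)
    simp [hp.factorization, Finsupp.single_apply, hqp.symm]
  rw [Finset.prod_congr rfl fun q hq => by rw [h2 q hq], h1]
  simp

theorem gFun_prime {p : ℕ} (hp : p.Prime) : gFun p = p + 1 := by
  have := gFun_mul_of_not_dvd (M := 1) one_ne_zero hp (by simpa using hp.one_lt.ne')
  rwa [one_mul, gFun_one, mul_one] at this

end GFun

end Fermat.Agent.S28.H867

end
end
-- ===== PACK-END S28/H867/GFun.lean

-- ===== PACK-BEGIN S28/H685/EtaBridge.lean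
section




/-!
# S28 helper (helper685): the formal eta product is the Taylor series of the analytic one

The Prelude defines `ModularCurve.etaProd = ∏' n, (1 - X ^ (n + 1))` as a formal product in
`PowerSeries ℤ` (Pi topology).  We show that its coefficients are the Taylor coefficients of the
analytic function `q ↦ ∏' n, (1 - q ^ (n + 1))` on the open unit disc.
-/

set_option autoImplicit false

namespace Fermat.Agent.S28.H685

open UpperHalfPlane Function Complex Filter
open scoped Topology Manifold PowerSeries.WithPiTopology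

noncomputable section

local notation "𝕢" => Periodic.qParam

/-- Iterated derivatives of a locally uniform limit of holomorphic functions. -/
theorem tendstoLocallyUniformlyOn_iteratedDeriv {ι : Type*} {l : Filter ι} {U : Set ℂ}
    (hU : IsOpen U) {F : ι → ℂ → ℂ} {f : ℂ → ℂ} (hF : TendstoLocallyUniformlyOn F f l U)
    (hd : ∀ᶠ i in l, DifferentiableOn ℂ (F i) U) (k : ℕ) :
    TendstoLocallyUniformlyOn (fun i => iteratedDeriv k (F i)) (iteratedDeriv k f) l U ∧
      ∀ᶠ i in l, DifferentiableOn ℂ (iteratedDeriv k (F i)) U := by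
  induction k with
  | zero =>
    simp only [iteratedDeriv_zero]
    exact ⟨hF, hd⟩
  | succ k ih =>
    obtain ⟨h1, h2⟩ := ih
    refine ⟨?_, ?_⟩
    · have := h1.deriv h2 hU
      simpa only [iteratedDeriv_succ, Function.comp_def] using this
    · filter_upwards [h2] with i hi
      simpa only [iteratedDeriv_succ] using hi.deriv hU

theorem iteratedDeriv_polynomial_eval (P : Polynomial ℂ) (k : ℕ) :
    iteratedDeriv k (fun x => P.eval x) = fun x => (Polynomial.derivative^[k] P).eval x := by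
  induction k with
  | zero => simp
  | succ k ih =>
    rw [iteratedDeriv_succ, ih]
    funext x
    rw [Polynomial.deriv, Function.iterate_succ_apply']

theorem iteratedDeriv_polynomial_eval_zero (P : Polynomial ℂ) (k : ℕ) :
    iteratedDeriv k (fun x => P.eval x) 0 = k.factorial * P.coeff k := by
  rw [iteratedDeriv_polynomial_eval]
  beta_reduce
  rw [← Polynomial.coeff_zero_eq_eval_zero,
    Polynomial.coeff_iterate_derivative, zero_add, Nat.descFactorial_self, nsmul_eq_mul]

/-- The analytic eta product `∏ (1 - q ^ (n + 1))`. -/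
def etaC (q : ℂ) : ℂ := ∏' n : ℕ, (1 - q ^ (n + 1))

/-- Partial products of the eta product, as integer polynomials. -/
def etaPartial (s : Finset ℕ) : Polynomial ℤ := ∏ n ∈ s, (1 - Polynomial.X ^ (n + 1))

theorem coe_etaPartial (s : Finset ℕ) :
    ((etaPartial s : Polynomial ℤ) : PowerSeries ℤ) = ∏ n ∈ s, (1 - PowerSeries.X ^ (n + 1)) := by
  have := map_prod (Polynomial.coeToPowerSeries.ringHom (R := ℤ))
    (fun n : ℕ => (1 - Polynomial.X ^ (n + 1) : Polynomial ℤ)) s
  rw [etaPartial]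
  rw [Polynomial.coeToPowerSeries.ringHom_apply] at this
  rw [this]
  refine Finset.prod_congr rfl fun n _ => ?_
  rw [Polynomial.coeToPowerSeries.ringHom_apply]
  simp

theorem eval_etaPartial (s : Finset ℕ) (q : ℂ) :
    ((etaPartial s).map (Int.castRingHom ℂ)).eval q = ∏ n ∈ s, (1 - q ^ (n + 1)) := by
  simp [etaPartial, Polynomial.map_prod, Polynomial.eval_prod]

theorem tendsto_coeff_etaPartial (k : ℕ) :
    Tendsto (fun s : Finset ℕ => (((etaPartial s).coeff k : ℤ) : ℂ)) atTop
      (𝓝 ((PowerSeries.coeff k ModularCurve.etaProd : ℤ) : ℂ)) := by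
  have h1 : HasProd (fun n : ℕ => (1 - PowerSeries.X ^ (n + 1) : PowerSeries ℤ))
      ModularCurve.etaProd :=
    (PowerSeries.WithPiTopology.multipliable_one_sub_X_pow ℤ).hasProd
  have h2 : Tendsto (fun s : Finset ℕ => ∏ n ∈ s, (1 - PowerSeries.X ^ (n + 1) : PowerSeries ℤ))
      atTop (𝓝 ModularCurve.etaProd) := h1
  have h3 := ((PowerSeries.WithPiTopology.continuous_coeff ℤ k).tendsto _).comp h2
  have h4 : Continuous (fun n : ℤ => (n : ℂ)) := continuous_of_discreteTopology
  have h5 := (h4.tendsto _).comp h3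
  refine h5.congr fun s => ?_
  simp only [Function.comp_apply]
  rw [← coe_etaPartial, Polynomial.coeff_coe]

theorem differentiableOn_etaC : DifferentiableOn ℂ etaC (Metric.ball 0 1) :=
  ModularForm.differentiableOn_tprod_one_sub_pow

theorem taylor_etaC (k : ℕ) :
    (k.factorial : ℂ)⁻¹ * iteratedDeriv k etaC 0 =
      ((PowerSeries.coeff k ModularCurve.etaProd : ℤ) : ℂ) := by
  have hloc : TendstoLocallyUniformlyOn
      (fun (s : Finset ℕ) (q : ℂ) => ∏ n ∈ s, (1 - q ^ (n + 1))) etaC atTop (Metric.ball 0 1) :=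
    hasProdLocallyUniformlyOn_iff_tendstoLocallyUniformlyOn.mp
      ModularForm.multipliableLocallyUniformlyOn_one_sub_pow.hasProdLocallyUniformlyOn
  have hd : ∀ᶠ s : Finset ℕ in atTop,
      DifferentiableOn ℂ (fun q : ℂ => ∏ n ∈ s, (1 - q ^ (n + 1))) (Metric.ball 0 1) :=
    .of_forall fun s => by
      have : DifferentiableOn ℂ (∏ n ∈ s, fun q : ℂ => (1 - q ^ (n + 1))) (Metric.ball 0 1) :=
        DifferentiableOn.finsetProd (fun _ _ => by fun_prop)
      simpa [Finset.prod_fn] using this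
  have h1 := (tendstoLocallyUniformlyOn_iteratedDeriv Metric.isOpen_ball hloc hd k).1.tendsto_at
    (Metric.mem_ball_self (one_pos : (0 : ℝ) < 1))
  have h2 : ∀ s : Finset ℕ, iteratedDeriv k (fun q : ℂ => ∏ n ∈ s, (1 - q ^ (n + 1))) 0 =
      k.factorial * (((etaPartial s).coeff k : ℤ) : ℂ) := by
    intro s
    have := iteratedDeriv_polynomial_eval_zero ((etaPartial s).map (Int.castRingHom ℂ)) k
    simp only [eval_etaPartial, Polynomial.coeff_map, eq_intCast] at this
    exact this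
  simp only [h2] at h1
  have h3 := (tendsto_coeff_etaPartial k).const_mul (k.factorial : ℂ)
  have h4 := tendsto_nhds_unique h1 h3
  rw [h4, ← mul_assoc, inv_mul_cancel₀ (by exact_mod_cast k.factorial_ne_zero), one_mul]

/-- The formal eta product with complex coefficients. -/
def etaProdC : PowerSeries ℂ := ModularCurve.etaProd.map (Int.castRingHom ℂ)

theorem hasSum_etaC {q : ℂ} (hq : ‖q‖ < 1) :
    HasSum (fun n : ℕ => PowerSeries.coeff n etaProdC * q ^ n) (etaC q) := by
  have := Complex.hasSum_taylorSeries_on_ball differentiableOn_etaC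
    (z := q) (by simpa using hq)
  simp only [sub_zero, smul_eq_mul] at this
  have hfun : (fun n : ℕ => PowerSeries.coeff n etaProdC * q ^ n) =
      fun n : ℕ => ((n.factorial : ℂ))⁻¹ * (q ^ n * iteratedDeriv n etaC 0) := by
    funext n
    rw [etaProdC, PowerSeries.coeff_map, eq_intCast, ← taylor_etaC]
    ring
  rw [hfun]
  exact this

/-- The function `τ ↦ ∏ (1 - q ^ (n + 1))` has `q`-expansion the formal eta product. -/
theorem hasQExp_etaC : HasQExp 1 (fun τ => etaC (𝕢 1 τ)) etaProdC :=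
  fun τ => hasSum_etaC (Periodic.norm_qParam_lt_one one_pos τ.im_pos)

end

end Fermat.Agent.S28.H685

end
-- ===== PACK-END S28/H685/EtaBridge.lean

-- ===== PACK-BEGIN S28/H326/Pairs.lean
section
/-
S28 / helper326: the conjugate families `w i` (of the modular unit `p¹² Δ(q^p)/Δ(q)`),
`Y i`, and `y i` (of `j(q^p)`), `i ∈ P¹(𝔽_p) = Option (Fin p)`, as Laurent series over `ℂ`
in `t = q^(1/p)`; their mixed power sums in terms of the integer Hecke series.
-/





set_option autoImplicit false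
set_option linter.unusedSectionVars false

noncomputable section

namespace Fermat.Agent.S28.H326

open ModularCurve HahnSeries

/-! ### Integer data -/

/-- formal `Δ = q ∏ (1 - qⁿ)²⁴` as a power series over `ℤ` -/
def DZ : PowerSeries ℤ := PowerSeries.X * dedekindEtaUnit

/-- formal `E₄³` -/
def EZ : PowerSeries ℤ := eisenstein4 ^ 3

theorem jNum_mul_unit : jNum * dedekindEtaUnit = EZ := by
  rw [jNum, EZ, mul_assoc, mul_comm dedekindEtaUnitInv, dedekindEtaUnit_mul_inv, mul_one]

/-- formal `Δ` as a Laurent series over `ℤ` -/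
def deltaZ : LaurentSeries ℤ := HahnSeries.ofPowerSeries ℤ ℤ DZ

/-- formal `Δ⁻¹` as a Laurent series over `ℤ` -/
def deltaInvZ : LaurentSeries ℤ :=
  HahnSeries.single (-1 : ℤ) 1 * HahnSeries.ofPowerSeries ℤ ℤ dedekindEtaUnitInv

theorem deltaZ_mul_deltaInvZ : deltaZ * deltaInvZ = 1 := by
  rw [deltaZ, deltaInvZ, DZ, map_mul, HahnSeries.ofPowerSeries_X]
  calc single (1 : ℤ) (1 : ℤ) * (HahnSeries.ofPowerSeries ℤ ℤ) dedekindEtaUnit *
        (single (-1 : ℤ) (1 : ℤ) * (HahnSeries.ofPowerSeries ℤ ℤ) dedekindEtaUnitInv)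
      = (single (1 : ℤ) (1 : ℤ) * single (-1 : ℤ) (1 : ℤ)) *
          ((HahnSeries.ofPowerSeries ℤ ℤ) dedekindEtaUnit *
            (HahnSeries.ofPowerSeries ℤ ℤ) dedekindEtaUnitInv) := by ring
    _ = 1 := by
      rw [← map_mul, dedekindEtaUnit_mul_inv, HahnSeries.single_mul_single]
      simp

/-- `jq · Δ = E₄³` in `ℤ((q))`. -/
theorem jq_mul_deltaZ : jqModC ℤ * deltaZ = HahnSeries.ofPowerSeries ℤ ℤ EZ := by
  rw [jqModC, deltaZ, DZ, map_mul, HahnSeries.ofPowerSeries_X, ← jNum_mul_unit, map_mul]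
  have h : (jNum.map (Int.castRingHom ℤ)) = jNum := by
    ext n; simp
  rw [h]
  calc single (-1 : ℤ) (1 : ℤ) * (HahnSeries.ofPowerSeries ℤ ℤ) jNum *
        (single (1 : ℤ) (1 : ℤ) * (HahnSeries.ofPowerSeries ℤ ℤ) dedekindEtaUnit)
      = (single (-1 : ℤ) (1 : ℤ) * single (1 : ℤ) (1 : ℤ)) *
          ((HahnSeries.ofPowerSeries ℤ ℤ) jNum *
            (HahnSeries.ofPowerSeries ℤ ℤ) dedekindEtaUnit) := by ring
    _ = _ := by
      rw [HahnSeries.single_mul_single]
      simp

/-! ### Complex versions -/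

/-- cast of power series `ℤ⟦X⟧ → ℂ⟦X⟧` -/
abbrev toC : PowerSeries ℤ →+* PowerSeries ℂ := PowerSeries.map (Int.castRingHom ℂ)

theorem kap_ofPS (g : PowerSeries ℤ) : kap (HahnSeries.ofPowerSeries ℤ ℤ g) = ofPS (toC g) :=
  coeffMap_ofPowerSeries _ g

variable (p : ℕ) [NeZero p]

/-- `U_p` on integer power series -/
def UpZ (g : PowerSeries ℤ) : PowerSeries ℤ := PowerSeries.mk fun n => g.coeff (n * p)

theorem toC_UpZ (g : PowerSeries ℤ) : toC (UpZ p g) = Up p (toC g) := by
  ext n
  simp [UpZ, Up]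

/-- the integer Hecke series `p · T_p^{(k)} φ = p^k φ(q^p) + p (U_p φ)(q)` -/
def heckeL (k : ℕ) (φ : PowerSeries ℤ) : LaurentSeries ℤ :=
  (p : LaurentSeries ℤ) ^ k * qExpand ℤ p (HahnSeries.ofPowerSeries ℤ ℤ φ) +
    (p : LaurentSeries ℤ) * HahnSeries.ofPowerSeries ℤ ℤ (UpZ p φ)

/-- **The analytic input** (to be supplied from the Hecke operator `T_p` on level one forms):
`p · T_p(E₄^{3a} Δ^r) = P(j) · Δ^{a+r}` with `P ∈ ℤ[X]`. -/
def HeckeInput : Prop :=
  ∀ a r : ℕ, ∃ P : Polynomial ℤ,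
    heckeL p (12 * (a + r)) (EZ ^ a * DZ ^ r) =
      Polynomial.aeval (jqModC ℤ) P * deltaZ ^ (a + r)

/-- `θ : ℤ[Y] → ℂ((t))`, `Y ↦ j(t^p)` -/
def theta : Polynomial ℤ →+* LaurentSeries ℂ :=
  (qExpand ℂ p).comp (kap.comp (Polynomial.aeval (jqModC ℤ)).toRingHom)

theorem theta_apply (P : Polynomial ℤ) :
    theta p P = qExpand ℂ p (kap (Polynomial.aeval (jqModC ℤ) P)) := rfl

theorem theta_X : theta p Polynomial.X = jP p := by
  rw [theta_apply, Polynomial.aeval_X, jP, coeffMap_jqModC]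

theorem theta_eq_aeval (P : Polynomial ℤ) :
    theta p P = Polynomial.aeval (jP p) (P.map (Int.castRingHom ℚ)) := by
  induction P using Polynomial.induction_on' with
  | add a b ha hb => rw [map_add, ha, hb, Polynomial.map_add, map_add]
  | monomial n c =>
    rw [← Polynomial.C_mul_X_pow_eq_monomial, map_mul, map_pow, theta_X, Polynomial.map_mul,
      Polynomial.map_pow, Polynomial.map_X, Polynomial.map_C, map_mul, map_pow,
      Polynomial.aeval_X, Polynomial.aeval_C]
    congr 1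
    rw [theta_apply, Polynomial.aeval_C]
    simp

/-- The `ℚ`-subalgebra `ℚ[j(t^p)]` of `ℂ((t))`. -/
def Bsub : Subalgebra ℚ (LaurentSeries ℂ) := (Polynomial.aeval (jP p)).range

theorem theta_mem_Bsub (P : Polynomial ℤ) : theta p P ∈ Bsub p :=
  ⟨P.map (Int.castRingHom ℚ), (theta_eq_aeval p P).symm⟩

/-! ### The conjugates -/

/-- `E₄³` over `ℂ` -/
def EC : PowerSeries ℂ := toC EZ
/-- `Δ` over `ℂ` -/
def DC : PowerSeries ℂ := toC DZ

/-- the `p + 1` conjugation maps, indexed by `P¹(𝔽_p)` -/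
def conj : Option (Fin p) → (PowerSeries ℂ →+* LaurentSeries ℂ)
  | none => cInf p
  | some b => cB p b

/-- the weight-12 scalars -/
def scal : Option (Fin p) → LaurentSeries ℂ
  | none => (p : LaurentSeries ℂ) ^ 12
  | some _ => 1

/-- `Δ(t^p)` -/
def del : LaurentSeries ℂ := cBase p DC

/-- `Δ(t^p)⁻¹` -/
def delInv : LaurentSeries ℂ := qExpand ℂ p (kap deltaInvZ)

theorem del_eq : del p = qExpand ℂ p (kap deltaZ) := by
  rw [del, cBase, RingHom.comp_apply, deltaZ, kap_ofPS, DC]

theorem del_mul_delInv : del p * delInv p = 1 := by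
  rw [del_eq, delInv, ← map_mul, ← map_mul, deltaZ_mul_deltaInvZ, map_one, map_one]

theorem delInv_mem_IntCoeff : delInv p ∈ IntCoeff :=
  qExpand_mem_IntCoeff p (kap_mem_IntCoeff _)

/-- conjugates of the unit: `w_∞ = p¹² Δ(t^(p²))/Δ(t^p)`, `w_b = Δ(ζ^b t)/Δ(t^p)` -/
def w (i : Option (Fin p)) : LaurentSeries ℂ := scal p i * conj p i DC * delInv p

/-- `Y_∞ = p¹² E₄³(t^(p²))/Δ(t^p)`, `Y_b = E₄³(ζ^b t)/Δ(t^p)` -/
def Y (i : Option (Fin p)) : LaurentSeries ℂ := scal p i * conj p i EC * delInv p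

theorem sum_scal_pow_conj (m : ℕ) (φ : PowerSeries ℤ) :
    ∑ i, scal p i ^ m * conj p i (toC φ) = qExpand ℂ p (kap (heckeL p (12 * m) φ)) := by
  rw [Fintype.sum_option]
  simp only [scal, conj, one_pow, one_mul]
  rw [Fin.sum_univ_eq_sum_range (fun b => cB p b (toC φ)) p, sum_cB, heckeL]
  simp only [map_add, map_mul, map_pow, map_natCast, coeffMap_qExpand, kap_ofPS, toC_UpZ,
    ← pow_mul]
  rfl

/-- **Mixed power sums** are in `ℤ[j(t^p)]`. -/
theorem sum_Y_pow_mul_w_pow (h : HeckeInput p) (a r : ℕ) :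
    ∃ P : Polynomial ℤ, ∑ i, Y p i ^ a * w p i ^ r = theta p P := by
  obtain ⟨P, hP⟩ := h a r
  refine ⟨P, ?_⟩
  have h1 : ∀ i, Y p i ^ a * w p i ^ r =
      (scal p i ^ (a + r) * conj p i (toC (EZ ^ a * DZ ^ r))) * delInv p ^ (a + r) := by
    intro i
    rw [Y, w, EC, DC, map_mul, map_mul, map_pow, map_pow, map_pow, map_pow]
    ring
  simp only [h1]
  rw [← Finset.sum_mul, sum_scal_pow_conj, hP, map_mul, map_mul, map_pow, map_pow, ← del_eq,
    ← theta_apply, mul_assoc, ← mul_pow, del_mul_delInv, one_pow, mul_one]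

theorem sum_w_pow_mem (h : HeckeInput p) (r : ℕ) : ∑ i, w p i ^ r ∈ Bsub p := by
  obtain ⟨P, hP⟩ := sum_Y_pow_mul_w_pow p h 0 r
  simp only [pow_zero, one_mul] at hP
  rw [hP]
  exact theta_mem_Bsub p P

end Fermat.Agent.S28.H326

end
end
-- ===== PACK-END S28/H326/Pairs.lean

-- ===== PACK-BEGIN S20/Comb/Index.lean
section





/-!
# The index of `Gamma0 N` in `SL(2,ℤ)` is the Dedekind psi function

* `index_Gamma0 : (Gamma0 N).index = ModularCurve.dedekindPsi N` (all `N`, including `N = 0`)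
* `card_quotient_Gamma0 : Nat.card (SL(2,ℤ) ⧸ Gamma0 N) = ModularCurve.dedekindPsi N`
-/

set_option autoImplicit false

namespace Fermat.Agent.S20.Comb

open Matrix MatrixGroups CongruenceSubgroup

lemma dedekindPsi_prime_mul_of_dvd (p M : ℕ) (hp : p.Prime) (hM : M ≠ 0) (h : p ∣ M) :
    ModularCurve.dedekindPsi (p * M) = p * ModularCurve.dedekindPsi M := by
  unfold ModularCurve.dedekindPsi
  have hset : (p * M).divisors.filter Squarefree = M.divisors.filter Squarefree := by
    ext d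
    simp only [Finset.mem_filter, Nat.mem_divisors]
    constructor
    · rintro ⟨⟨hd, -⟩, hsq⟩
      refine ⟨⟨?_, hM⟩, hsq⟩
      by_cases hpd : p ∣ d
      · obtain ⟨d', rfl⟩ := hpd
        have hd' : d' ∣ M := (Nat.mul_dvd_mul_iff_left hp.pos).mp hd
        have hcop : Nat.Coprime p d' := by
          rw [Nat.Prime.coprime_iff_not_dvd hp]
          intro hpd'
          have h2 : p * p ∣ p * d' := Nat.mul_dvd_mul_left p hpd'
          have h3 := hsq p h2
          exact hp.one_lt.ne' (Nat.isUnit_iff.mp h3)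
        exact Nat.Coprime.mul_dvd_of_dvd_of_dvd hcop h hd'
      · exact Nat.Coprime.dvd_of_dvd_mul_left
          ((Nat.Prime.coprime_iff_not_dvd hp).mpr hpd).symm hd
    · rintro ⟨⟨hd, -⟩, hsq⟩
      exact ⟨⟨dvd_mul_of_dvd_right hd p, mul_ne_zero hp.ne_zero hM⟩, hsq⟩
  rw [hset, Finset.mul_sum]
  refine Finset.sum_congr rfl fun d hd => ?_
  have hd' : d ∣ M := (Nat.mem_divisors.mp (Finset.mem_filter.mp hd).1).1
  exact Nat.mul_div_assoc p hd'

lemma dedekindPsi_prime_mul_of_not_dvd (p M : ℕ) (hp : p.Prime) (hM : M ≠ 0) (h : ¬ p ∣ M) :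
    ModularCurve.dedekindPsi (p * M) = (p + 1) * ModularCurve.dedekindPsi M := by
  unfold ModularCurve.dedekindPsi
  rw [← Finset.sum_filter_add_sum_filter_not ((p * M).divisors.filter Squarefree) (fun d => p ∣ d)]
  have hset1 : ((p * M).divisors.filter Squarefree).filter (fun d => ¬ p ∣ d)
      = M.divisors.filter Squarefree := by
    ext d
    simp only [Finset.mem_filter, Nat.mem_divisors]
    constructor
    · rintro ⟨⟨⟨hd, -⟩, hsq⟩, hpd⟩
      exact ⟨⟨Nat.Coprime.dvd_of_dvd_mul_left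
        ((Nat.Prime.coprime_iff_not_dvd hp).mpr hpd).symm hd, hM⟩, hsq⟩
    · rintro ⟨⟨hd, -⟩, hsq⟩
      exact ⟨⟨⟨dvd_mul_of_dvd_right hd p, mul_ne_zero hp.ne_zero hM⟩, hsq⟩,
        fun hpd => h (dvd_trans hpd hd)⟩
  have hset2 : ((p * M).divisors.filter Squarefree).filter (fun d => p ∣ d)
      = (M.divisors.filter Squarefree).image (fun d => p * d) := by
    ext d
    simp only [Finset.mem_filter, Nat.mem_divisors, Finset.mem_image]
    constructor
    · rintro ⟨⟨⟨hd, -⟩, hsq⟩, ⟨d', rfl⟩⟩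
      exact ⟨d', ⟨⟨(Nat.mul_dvd_mul_iff_left hp.pos).mp hd, hM⟩, hsq.of_mul_right⟩, rfl⟩
    · rintro ⟨d', ⟨⟨hd', -⟩, hsq'⟩, rfl⟩
      have hcop : Nat.Coprime p d' :=
        (Nat.Prime.coprime_iff_not_dvd hp).mpr fun hpd => h (dvd_trans hpd hd')
      exact ⟨⟨⟨Nat.mul_dvd_mul_left p hd', mul_ne_zero hp.ne_zero hM⟩,
        (Nat.squarefree_mul hcop).mpr ⟨hp.prime.squarefree, hsq'⟩⟩, dvd_mul_right _ _⟩
  rw [hset1, hset2, Finset.sum_image (fun x _ y _ hxy => Nat.eq_of_mul_eq_mul_left hp.pos hxy),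
    add_mul, one_mul, Finset.mul_sum, add_comm]
  congr 1
  · refine Finset.sum_congr rfl fun d hd => ?_
    have hd' : d ∣ M := (Nat.mem_divisors.mp (Finset.mem_filter.mp hd).1).1
    exact Nat.mul_div_assoc p hd'
  · refine Finset.sum_congr rfl fun d hd => ?_
    exact Nat.mul_div_mul_left M d hp.pos

lemma Gamma0_one_eq_top : Gamma0 1 = ⊤ := by
  ext g
  simp only [Gamma0_mem, Subgroup.mem_top, iff_true]
  exact Subsingleton.elim _ _

lemma index_Gamma0_zero : (Gamma0 0).index = 0 := by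
  rw [Subgroup.index]
  haveI : Infinite (SL(2, ℤ) ⧸ Gamma0 0) := by
    refine Infinite.of_injective
      (fun t : ℤ => (QuotientGroup.mk (lowRep t) : SL(2, ℤ) ⧸ Gamma0 0)) ?_
    intro t t' h
    simp only at h
    rw [mk_eq_mk_iff] at h
    simp only [lowRep_apply_zero_zero, lowRep_apply_one_zero, Int.cast_one, one_mul,
      mul_one] at h
    have h' : ((t' - t : ℤ) : ZMod 0) = 0 := h
    have h'' := (ZMod.intCast_zmod_eq_zero_iff_dvd (t' - t) 0).mp h'
    simp only [Nat.cast_zero, zero_dvd_iff] at h''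
    exact (sub_eq_zero.mp h'').symm
  exact Nat.card_eq_zero_of_infinite

lemma dedekindPsi_zero : ModularCurve.dedekindPsi 0 = 0 := by
  simp [ModularCurve.dedekindPsi]

/-- **(I1)** The index of `Γ₀(N)` in `SL(2,ℤ)` is `ψ(N)` (for `N ≠ 0`). -/
theorem index_Gamma0_of_ne_zero (N : ℕ) (hN : N ≠ 0) :
    (Gamma0 N).index = ModularCurve.dedekindPsi N := by
  induction N using induction_on_primes with
  | zero => exact absurd rfl hN
  | one => rw [ModularCurve.dedekindPsi_one, Gamma0_one_eq_top, Subgroup.index_top]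
  | prime_mul p M hp ih =>
    have hM : M ≠ 0 := fun h => hN (by rw [h, mul_zero])
    rw [← Subgroup.relIndex_mul_index (Gamma0_mul_le p M), ih hM]
    by_cases h : p ∣ M
    · rw [relIndex_Gamma0_of_dvd p M hM hp h, dedekindPsi_prime_mul_of_dvd p M hp hM h]
    · rw [relIndex_Gamma0_of_not_dvd p M hM hp h, dedekindPsi_prime_mul_of_not_dvd p M hp hM h]

/-- **(I1)** The index of `Γ₀(N)` in `SL(2,ℤ)` is `ψ(N)` (all `N`; both sides are `0` for
`N = 0`). -/
theorem index_Gamma0 (N : ℕ) : (Gamma0 N).index = ModularCurve.dedekindPsi N := by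
  rcases eq_or_ne N 0 with rfl | hN
  · rw [index_Gamma0_zero, dedekindPsi_zero]
  · exact index_Gamma0_of_ne_zero N hN

/-- **(I1)** `#(SL(2,ℤ) ⧸ Γ₀(N)) = ψ(N)`. -/
theorem card_quotient_Gamma0 (N : ℕ) :
    Nat.card (SL(2, ℤ) ⧸ Gamma0 N) = ModularCurve.dedekindPsi N :=
  index_Gamma0 N

end Fermat.Agent.S20.Comb

end
-- ===== PACK-END S20/Comb/Index.lean

-- ===== PACK-BEGIN S18/Mod/H216/Vc.lean
section


/-!
# S18 / MOD-ASM (helper216): the Gauss valuation ring `Vc M A E` as a `Subring`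

`Mod.VcSet M A E` (frozen in `Mod/Defs.lean`) is only a set.  Here:

* `intE M A E : Subring (LaurentSeries A)` — the series satisfying `IsIntE M A E`;
* `Vc M A E : Subring (Om M)` with `(Vc M A E : Set (Om M)) = VcSet M A E` (`coe_Vc`);
* `mem_Vc_iff`, `mem_Vc_of_isIntE`.
-/

set_option autoImplicit false

noncomputable section

namespace Fermat.Agent.S18.Mod.H216

open ModularCurve AlgebraicCurve HahnSeries Fermat.Agent.S18 Fermat.Agent.S18.Mod

variable (M : ℕ) (A : ValuationSubring Qb) (E : IntermediateField ℚ Qb)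

/-- The coercion `Ω = F_M → Q̄((q))` as a ring homomorphism. -/
def omVal : Om M →+* LaurentSeries Qb := (modularFunctionFieldBar M).val.toRingHom

@[simp] theorem omVal_apply (f : Om M) : omVal M f = (f : LaurentSeries Qb) := rfl

theorem omVal_injective : Function.Injective (omVal M) := Subtype.val_injective

/-- Series over `Q̄` all of whose coefficients lie in `E`. -/
def coeffsIn : Subring (LaurentSeries Qb) where
  carrier := {U | ∀ n : ℤ, U.coeff n ∈ E}
  zero_mem' := fun n => by simp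
  one_mem' := fun n => by
    rw [HahnSeries.coeff_one]
    split_ifs
    · exact one_mem _
    · exact zero_mem _
  add_mem' := fun {a b} ha hb n => by
    rw [HahnSeries.coeff_add]
    exact add_mem (ha n) (hb n)
  neg_mem' := fun {a} ha n => by
    rw [HahnSeries.coeff_neg]
    exact neg_mem (ha n)
  mul_mem' := fun {a b} ha hb n => by
    rw [HahnSeries.coeff_mul]
    exact sum_mem fun ij _ => mul_mem (ha _) (hb _)

theorem mem_coeffsIn {U : LaurentSeries Qb} : U ∈ coeffsIn E ↔ ∀ n : ℤ, U.coeff n ∈ E := Iff.rfl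

/-- The subring of `A((q))` cut out by `IsIntE`. -/
def intE : Subring (LaurentSeries A) :=
  (coeffsIn E).comap (coeffMap A.subtype) ⊓
    ((Fc M E).toSubring.map (omVal M)).comap (coeffMap A.subtype)

theorem mem_intE {U : LaurentSeries A} : U ∈ intE M A E ↔ IsIntE M A E U := by
  constructor
  · rintro ⟨h1, f, hf, hfU⟩
    exact ⟨fun n => h1 n, f, hf, hfU⟩
  · rintro ⟨h1, f, hf, hfU⟩
    exact ⟨fun n => h1 n, f, hf, hfU⟩

theorem red_mul_ne_zero {U V : LaurentSeries A}
    (hU : coeffMap (IsLocalRing.residue A) U ≠ 0) (hV : coeffMap (IsLocalRing.residue A) V ≠ 0) :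
    coeffMap (IsLocalRing.residue A) (U * V) ≠ 0 := by
  rw [map_mul]
  exact mul_ne_zero hU hV

theorem red_one_ne_zero : coeffMap (IsLocalRing.residue A) (1 : LaurentSeries A) ≠ 0 := by
  rw [map_one]
  exact one_ne_zero

/-- The Gauss valuation ring of `Fc M E`, as a subring of `Ω`. -/
def Vc : Subring (Om M) where
  carrier := VcSet M A E
  zero_mem' := by
    refine ⟨zero_mem _, 0, 1, (mem_intE M A E).mp (zero_mem _), (mem_intE M A E).mp (one_mem _),
      red_one_ne_zero A, ?_⟩
    simp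
  one_mem' := by
    refine ⟨one_mem _, 1, 1, (mem_intE M A E).mp (one_mem _), (mem_intE M A E).mp (one_mem _),
      red_one_ne_zero A, ?_⟩
    simp
  add_mem' := by
    rintro f g ⟨hf, U₁, U₂, h₁, h₂, hne, heq⟩ ⟨hg, W₁, W₂, k₁, k₂, kne, keq⟩
    rw [← mem_intE] at h₁ h₂ k₁ k₂
    refine ⟨add_mem hf hg, U₁ * W₂ + W₁ * U₂, U₂ * W₂,
      (mem_intE M A E).mp (add_mem (mul_mem h₁ k₂) (mul_mem k₁ h₂)),
      (mem_intE M A E).mp (mul_mem h₂ k₂), red_mul_ne_zero A hne kne, ?_⟩
    push_cast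
    rw [map_add, map_mul, map_mul, map_mul, ← heq, ← keq]
    ring
  neg_mem' := by
    rintro f ⟨hf, U₁, U₂, h₁, h₂, hne, heq⟩
    rw [← mem_intE] at h₁ h₂
    refine ⟨neg_mem hf, -U₁, U₂, (mem_intE M A E).mp (neg_mem h₁), (mem_intE M A E).mp h₂,
      hne, ?_⟩
    push_cast
    rw [map_neg, ← heq]
    ring
  mul_mem' := by
    rintro f g ⟨hf, U₁, U₂, h₁, h₂, hne, heq⟩ ⟨hg, W₁, W₂, k₁, k₂, kne, keq⟩
    rw [← mem_intE] at h₁ h₂ k₁ k₂
    refine ⟨mul_mem hf hg, U₁ * W₁, U₂ * W₂, (mem_intE M A E).mp (mul_mem h₁ k₁),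
      (mem_intE M A E).mp (mul_mem h₂ k₂), red_mul_ne_zero A hne kne, ?_⟩
    push_cast
    rw [map_mul, map_mul, ← heq, ← keq]
    ring

@[simp] theorem coe_Vc : (Vc M A E : Set (Om M)) = VcSet M A E := rfl

theorem mem_Vc_iff {f : Om M} : f ∈ Vc M A E ↔ f ∈ VcSet M A E := Iff.rfl

theorem Vc_le_Fc : (Vc M A E : Set (Om M)) ⊆ Fc M E := fun _ hf => hf.1

/-- An `E`-rational integral series lying in `Fc` gives an element of `Vc`. -/
theorem mem_Vc_of_isIntE {f : Om M} {U : LaurentSeries A} (hU : IsIntE M A E U)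
    (hfU : (f : LaurentSeries Qb) = coeffMap A.subtype U) : f ∈ Vc M A E := by
  obtain ⟨h1, g, hg, hgU⟩ := hU
  have hfg : f = g := Subtype.ext (hfU.trans hgU.symm)
  refine ⟨hfg ▸ hg, U, 1, ⟨h1, g, hg, hgU⟩, (mem_intE M A E).mp (one_mem _), red_one_ne_zero A, ?_⟩
  rw [map_one, mul_one, hfU]

end Fermat.Agent.S18.Mod.H216

end
end
-- ===== PACK-END S18/Mod/H216/Vc.lean

-- ===== PACK-BEGIN S18/H107/T2Branch.lean
section




/-!
# helper107 — S18 / M3-T : `unramified` for the Hauptmodul `t₂` (`j t² = (t + 256)³`)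

From the branch data of the `j`-line (`BranchJ107`): for every constant `c ∉ {-64, 0}`, at a place
`O` with `t ≡ c`, `t - c` is a uniformiser.  (`t = -256` lies over `j = 0` with `e(t/j) = 3`,
`t = 512` over `j = 1728` with `e(t/j) = 2`; only `t = -64`, `0`, `∞` can ramify in `Ω / Lc(t)`.)
-/

set_option autoImplicit false

namespace Fermat.Agent.S18.H107

variable {Ω : Type*} [Field Ω] [CharZero Ω]

theorem unramified_t2_107 (Lc : Subfield Ω) (j t : Ω) (hrel : j * t ^ 2 = (t + 256) ^ 3)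
    (hB : BranchJ107 Lc j) (O : ValuationSubring Ω) (hL : ∀ a ∈ Lc, a ∈ O) (c : Ω) (hc : c ∈ Lc)
    (hc64 : c ≠ -64) (hc0 : c ≠ 0) (hz : t - c ∈ O) (hz' : (t - c)⁻¹ ∉ O) :
    ∀ s ∈ O, s⁻¹ ∉ O → s * (t - c)⁻¹ ∈ O := by
  rw [← OrdLe107.one_iff]
  have hzv : O.valuation (t - c) < 1 := val_lt_one107 O hz hz'
  have hz0 : t - c ≠ 0 := by
    intro h0
    rw [h0, inv_zero] at hz'
    exact hz' O.zero_mem
  have hcv : O.valuation c = 1 := val_const107 O Lc hL hc hc0
  have htv : O.valuation t = 1 := by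
    have : t = c + (t - c) := by ring
    rw [this]
    exact val_add_eq_one107 O hcv hzv
  have ht0 : t ≠ 0 := by
    intro h0
    rw [h0, map_zero] at htv
    exact zero_ne_one htv
  have htO : t ∈ O := (O.valuation_le_one_iff _).1 htv.le
  have hcO : c ∈ O := hL c hc
  have ht2v : O.valuation ((t ^ 2)⁻¹) = 1 := by
    rw [map_inv₀, map_pow, htv, one_pow, inv_one]
  by_cases h256 : c = -256
  · -- over `j = 0`
    subst h256
    have hy : j = (t - -256) ^ 3 * (t ^ 2)⁻¹ := by
      field_simp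
      linear_combination hrel
    have hj0 : j ≠ 0 := by
      rw [hy]
      exact mul_ne_zero (pow_ne_zero _ hz0) (inv_ne_zero (pow_ne_zero _ ht0))
    have hjv : O.valuation j < 1 := by
      rw [hy, map_mul, ht2v, mul_one, map_pow]
      exact pow_lt_one₀ zero_le hzv (by norm_num)
    exact unram_of_factor107 O (k := 3) (by norm_num) hy ht2v hz0
      (hB.zero O hL (mem_of_val_lt_one107 O hjv) (inv_not_mem_of_val_lt_one107 O hj0 hjv))
  by_cases h512 : c = 512
  · -- over `j = 1728`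
    subst h512
    have h576 : O.valuation (576 : Ω) = 1 :=
      val_const107 O Lc hL (ofNat_mem Lc 576) (by norm_num)
    have ht64 : O.valuation (t + 64) = 1 := by
      have : t + 64 = 576 + (t - 512) := by ring
      rw [this]
      exact val_add_eq_one107 O h576 hzv
    have hUv : O.valuation ((t + 64) * (t ^ 2)⁻¹) = 1 := by
      rw [map_mul, ht64, ht2v, mul_one]
    have hy : j - 1728 = (t - 512) ^ 2 * ((t + 64) * (t ^ 2)⁻¹) := by
      field_simp
      linear_combination hrel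
    have hU0 : (t + 64) * (t ^ 2)⁻¹ ≠ 0 := by
      intro h0
      rw [h0, map_zero] at hUv
      exact zero_ne_one hUv
    have hy0 : j - 1728 ≠ 0 := by
      rw [hy]
      exact mul_ne_zero (pow_ne_zero _ hz0) hU0
    have hyv : O.valuation (j - 1728) < 1 := by
      rw [hy, map_mul, hUv, mul_one, map_pow]
      exact pow_lt_one₀ zero_le hzv (by norm_num)
    exact unram_of_factor107 O (k := 2) (by norm_num) hy hUv hz0
      (hB.c1728 O hL (mem_of_val_lt_one107 O hyv) (inv_not_mem_of_val_lt_one107 O hy0 hyv))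
  · -- generic point
    have hc256 : c + 256 ≠ 0 := fun h => h256 (by linear_combination h)
    have hc512 : c - 512 ≠ 0 := fun h => h512 (by linear_combination h)
    have hc64' : c + 64 ≠ 0 := fun h => hc64 (by linear_combination h)
    set a : Ω := (c + 256) ^ 3 * (c ^ 2)⁻¹ with ha
    have haL : a ∈ Lc :=
      Lc.mul_mem (Lc.pow_mem (Lc.add_mem hc (ofNat_mem Lc 256)) 3) (Lc.inv_mem (Lc.pow_mem hc 2))
    have ha0 : a ≠ 0 := mul_ne_zero (pow_ne_zero _ hc256) (inv_ne_zero (pow_ne_zero _ hc0))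
    have ha1728 : a ≠ 1728 := by
      intro h
      have h1 : (c - 512) ^ 2 * (c + 64) = 0 := by
        have h2 : (c + 256) ^ 3 = 1728 * c ^ 2 := by
          rw [ha] at h
          field_simp at h
          linear_combination h
        linear_combination h2
      rcases mul_eq_zero.1 h1 with h3 | h3
      · exact hc512 (pow_eq_zero_iff (by norm_num) |>.1 h3)
      · exact hc64' h3
    -- the cofactor
    set W : Ω := c ^ 2 * t ^ 2 - (196608 * c + 16777216) * t - 16777216 * c with hW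
    set W₀ : Ω := c * (c + 256) ^ 2 * (c - 512) with hW₀
    set W₁ : Ω := c ^ 2 * (t + c) - 196608 * c - 16777216 with hW₁
    have hW₀L : W₀ ∈ Lc :=
      Lc.mul_mem (Lc.mul_mem hc (Lc.pow_mem (Lc.add_mem hc (ofNat_mem Lc 256)) 2))
        (Lc.sub_mem hc (ofNat_mem Lc 512))
    have hW₀0 : W₀ ≠ 0 := mul_ne_zero (mul_ne_zero hc0 (pow_ne_zero _ hc256)) hc512
    have hW₁O : W₁ ∈ O :=
      sub_mem (sub_mem (mul_mem (pow_mem hcO 2) (add_mem htO hcO))
        (mul_mem (ofNat_mem O 196608) hcO)) (ofNat_mem O 16777216)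
    have hWv : O.valuation W = 1 := by
      have e : W = W₀ + (t - c) * W₁ := by
        rw [hW, hW₀, hW₁]
        ring
      rw [e]
      refine val_add_eq_one107 O (val_const107 O Lc hL hW₀L hW₀0) ?_
      rw [map_mul]
      calc O.valuation (t - c) * O.valuation W₁ ≤ O.valuation (t - c) * 1 := by
            gcongr
            exact (O.valuation_le_one_iff _).2 hW₁O
        _ = O.valuation (t - c) := mul_one _
        _ < 1 := hzv
    have hUv : O.valuation (W * (t ^ 2 * c ^ 2)⁻¹) = 1 := by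
      rw [map_mul, hWv, one_mul, map_inv₀, map_mul, map_pow, map_pow, htv, hcv, one_pow,
        mul_one, inv_one]
    have hy : j - a = (t - c) ^ 1 * (W * (t ^ 2 * c ^ 2)⁻¹) := by
      rw [ha, hW]
      field_simp
      linear_combination (c ^ 2) * hrel
    have hU0 : W * (t ^ 2 * c ^ 2)⁻¹ ≠ 0 := by
      intro h0
      rw [h0, map_zero] at hUv
      exact zero_ne_one hUv
    have hy0 : j - a ≠ 0 := by
      rw [hy]
      exact mul_ne_zero (pow_ne_zero _ hz0) hU0
    have hyv : O.valuation (j - a) < 1 := by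
      rw [hy, map_mul, hUv, mul_one, pow_one]
      exact hzv
    exact unram_of_factor107 O (k := 1) (by norm_num) hy hUv hz0
      (hB.generic O hL a haL ha0 ha1728 (mem_of_val_lt_one107 O hyv)
        (inv_not_mem_of_val_lt_one107 O hy0 hyv))

end Fermat.Agent.S18.H107

end
-- ===== PACK-END S18/H107/T2Branch.lean

-- ===== PACK-BEGIN S18/H438/Front/Transport.lean
section




/-!
# S18 / ALG-FRONT (helper438), part 4: from `Alg.GoodModel` (sub-objects of `Ω`) to the field `Fc`

For `G : Alg.GoodModel Lc Ec Fc R V w x S` we define, inside the field `↥Fc`: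

* `Rf Fc R : Subring Fc`             (the DVR `R`),
* `Vf G : ValuationSubring Fc`       (the Gauss valuation ring),
* `xf G, wf G : Fc`                  (coordinate, uniformiser),

and prove the hypotheses of `Front/Chart.lean` and `Front/Gauss.lean` for both charts
(`z = xf G` and `z = (xf G)⁻¹`).
-/

set_option autoImplicit false
set_option linter.style.haveILetI false
set_option linter.unusedSectionVars false

noncomputable section

namespace Fermat.Agent.S18.H438

open Alg Polynomial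

variable {Ω : Type*} [Field Ω] {Lc Ec Fc : Subfield Ω} {R V : Subring Ω} {w x : Ω}
  {S : Finset Ω}

/-- `R` as a subring of the field `Fc`. -/
def Rf (Fc : Subfield Ω) (R : Subring Ω) : Subring Fc := R.comap Fc.subtype

theorem mem_Rf {f : Fc} : f ∈ Rf Fc R ↔ (f : Ω) ∈ R := Iff.rfl

namespace GoodModelFront

variable (G : GoodModel Lc Ec Fc R V w x S)

include G in
theorem R_le_Fc {r : Ω} (hr : r ∈ R) : r ∈ Fc := G.E_le_F (G.R_le hr)

include G in
theorem w_mem_Fc : w ∈ Fc := R_le_Fc G G.w_mem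

/-- the coordinate as an element of `Fc` -/
def xf : Fc := ⟨x, G.x_mem⟩

/-- the uniformiser as an element of `Fc` -/
def wf : Fc := ⟨w, w_mem_Fc G⟩

@[simp] theorem coe_xf : ((xf G : Fc) : Ω) = x := rfl
@[simp] theorem coe_wf : ((wf G : Fc) : Ω) = w := rfl

/-- the Gauss valuation ring as a valuation subring of `Fc` -/
def Vf : ValuationSubring Fc :=
  { V.comap Fc.subtype with
    mem_or_inv_mem' := fun f => by
      rcases G.V_total f f.2 with h | h
      · exact Or.inl h
      · exact Or.inr h }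

theorem mem_Vf {f : Fc} : f ∈ Vf G ↔ (f : Ω) ∈ V := Iff.rfl

include G

theorem wf_mem_Rf : wf G ∈ Rf Fc R := G.w_mem

theorem wf_ne_zero : wf G ≠ 0 := fun h => G.w_ne_zero (congrArg Subtype.val h)

theorem wf_inv_not_mem_Rf : (wf G)⁻¹ ∉ Rf Fc R := fun h => G.w_inv_not_mem h

theorem wf_inv_not_mem_Vf : (wf G)⁻¹ ∉ Vf G := fun h => G.w_inv_not_mem_V h

theorem Rf_le_Vf : ∀ r ∈ Rf Fc R, r ∈ Vf G := fun _ hr => G.R_le_V hr

theorem Vf_gen : ∀ f ∈ Vf G, f⁻¹ ∉ Vf G → f * (wf G)⁻¹ ∈ Vf G :=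
  fun f hf hinv => G.V_gen f hf hinv

theorem Rf_disc : ∀ r ∈ Rf Fc R, r ≠ 0 →
    ∃ n : ℕ, r * ((wf G)⁻¹) ^ n ∈ Rf Fc R ∧ (r * ((wf G)⁻¹) ^ n)⁻¹ ∈ Rf Fc R := by
  intro r hr hr0
  have hr0' : (r : Ω) ≠ 0 := fun h => hr0 (Subtype.ext h)
  obtain ⟨n, h1, h2⟩ := G.w_discrete r hr hr0'
  exact ⟨n, h1, h2⟩

/-- **`R` is a discrete valuation ring.** -/
theorem isDiscreteValuationRing_Rf : IsDiscreteValuationRing (Rf Fc R) :=
  isDiscreteValuationRing_of_disc (Rf Fc R) (wf_mem_Rf G) (wf_ne_zero G)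
    (wf_inv_not_mem_Rf G) (Rf_disc G)

theorem irreducible_wf : Irreducible (⟨wf G, wf_mem_Rf G⟩ : Rf Fc R) :=
  irreducible_unif_of_disc (Rf Fc R) (wf_mem_Rf G) (wf_ne_zero G)
    (wf_inv_not_mem_Rf G) (Rf_disc G)

theorem charZero_Fc : CharZero Fc :=
  haveI := G.charZero
  RingHom.charZero Fc.subtype

/-- `x ∈ V` (field `x_mem_V` of the v4 interface). -/
theorem xf_mem_Vf : xf G ∈ Vf G := G.x_mem_V

/-- `x⁻¹ ∈ V` (Gauss). -/
theorem xf_inv_mem_Vf : (xf G)⁻¹ ∈ Vf G := by
  have h := G.gauss (Polynomial.X : Polynomial Ω)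
    (fun i => by
      rw [Polynomial.coeff_X]
      split_ifs
      · exact R.one_mem
      · exact R.zero_mem)
    ⟨1, by simp, by simp [R.one_mem]⟩
  rw [Polynomial.eval_X] at h
  exact h

end GoodModelFront

end Fermat.Agent.S18.H438

end
end
-- ===== PACK-END S18/H438/Front/Transport.lean

-- ===== PACK-BEGIN S18/B12/Spec3.lean
section



/-!
# S18, Route K, b2: the HEART (`B2CoreAbsStatement`) and the two OUTPUT SHAPES
(squad S18/S33, squad-lead helper33) — FROZEN statements, Mathlib-only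

* `B2CoreAbsStatement` : at every closed point `t` of the special fibre `B/wB` over `Λ = P/(w)`:
  `ord_t disc(B/wB) ≤ n - s` with `(B/wB mod t)_red` spanned by `s` elements
  (exactly the hypothesis of "Theorem L", `SFLatticeStatement` / H933 / H636 / H998).
* Output O1 `B2RegularStatement` : `B/wB` a domain ⟹ `RegularAlong w` (shape of
  `Fermat.Agent.S18.H754.RegularAlong`, consumed by the Kummer endgame K').
* Output O2 `B2Statement` (Spec.lean) : idempotents of `Frac(B/wB)` lie in `B/wB` (no domain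
  hypothesis; consumed by "b4 = b2 for the cover").
-/

set_option autoImplicit false

noncomputable section

namespace Fermat.Agent.S18.B12

open Polynomial

universe u v

/-- **A6' (heart of b2).**  Abstract setting of Spec2 (`P` noetherian UFD, `w` prime, `P/(w)` and
`P[1/w]` PIDs, char 0 generic fibre, `B` normal finite torsion-free over `P`, `hsep`, branch primes
`S` pairwise comaximal mod `w`, unramified outside `S`).  Then for every prime `t` of
`Λ = P/(w)` and every `Λ`-basis `bb` of `B/wB`: `disc bb ≠ 0`, and there is a family of `s`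
elements spanning `B/wB` modulo `rad(t)` with `t ^ (n - s + 1) ∤ disc bb`. -/
def B2CoreAbsStatement : Prop :=
  ∀ (P : Type u) [CommRing P] [IsDomain P] [UniqueFactorizationMonoid P] [IsNoetherianRing P]
    (w : P) (_ : Prime w) (_ : IsPrincipalIdealRing (P ⧸ Ideal.span {w}))
    (_ : IsPrincipalIdealRing (Localization.Away w))
    (_ : ∀ m : ℕ, m ≠ 0 → IsUnit (algebraMap P (Localization.Away w) (m : P)))
    (B : Type v) [CommRing B] [IsDomain B] [IsIntegrallyClosed B] [Algebra P B]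
    [Module.Finite P B] [Module.IsTorsionFree P B]
    (_ : ∃ x : Fin (Module.finrank P B) → B, ¬ w ∣ intDiscr P B x)
    (S : Finset P)
    (_ : ∀ s ∈ S, Prime s ∧ ¬ Associated s w ∧ (Ideal.span {w, s}).IsMaximal ∧
      IsPrincipalIdealRing (P ⧸ Ideal.span {s}))
    (_ : ∀ s ∈ S, ∀ s' ∈ S, s ≠ s' → s' ∉ Ideal.span {w, s})
    (_ : ∀ π : P, Prime π → ¬ Associated π w → (∀ s ∈ S, ¬ Associated π s) →
        (Ideal.span {algebraMap P B π}).IsRadical)
    (t : P ⧸ Ideal.span {w}) (_ : Prime t) (n : ℕ)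
    (bb : Module.Basis (Fin n) (P ⧸ Ideal.span {w})
      (B ⧸ (Ideal.span {w}).map (algebraMap P B))),
    Algebra.discr (P ⧸ Ideal.span {w}) bb ≠ 0 ∧
    ∃ (s : ℕ) (y : Fin s → B ⧸ (Ideal.span {w}).map (algebraMap P B)),
      (∀ c : B ⧸ (Ideal.span {w}).map (algebraMap P B), ∃ a : Fin s → P ⧸ Ideal.span {w},
        c - ∑ i, a i • y i ∈ (Ideal.span {algebraMap (P ⧸ Ideal.span {w})
          (B ⧸ (Ideal.span {w}).map (algebraMap P B)) t}).radical) ∧
      ¬ t ^ (n - s + 1) ∣ Algebra.discr (P ⧸ Ideal.span {w}) bb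

/-- **A8 (normality from the discriminant bounds).**  `Λ` a PID, `C` a domain, free of rank `n`
over `Λ`, satisfying the bound of `B2CoreAbsStatement` at every prime `t`.  Then `C` is
integrally closed.  (Apply Theorem L to `C ⊆ C[f]`, `f` integral over `C`.) -/
def IntClosedOfDiscrStatement : Prop :=
  ∀ (Λ : Type u) [CommRing Λ] [IsDomain Λ] [IsPrincipalIdealRing Λ]
    (C : Type v) [CommRing C] [IsDomain C] [Algebra Λ C] (n : ℕ) (b : Module.Basis (Fin n) Λ C),
    Algebra.discr Λ b ≠ 0 →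
    (∀ t : Λ, Prime t → ∃ (s : ℕ) (y : Fin s → C),
      (∀ c : C, ∃ a : Fin s → Λ,
        c - ∑ i, a i • y i ∈ (Ideal.span {algebraMap Λ C t}).radical) ∧
      ¬ t ^ (n - s + 1) ∣ Algebra.discr Λ b) →
    IsIntegrallyClosed C

/-- **A9 (regularity along a Dedekind special fibre).**  If `B/ϖB` is a Dedekind domain then
every maximal ideal `𝔪 ∋ ϖ` of `B` is locally generated by `ϖ` and one more element. -/
def RegularAlongOfDedekindStatement : Prop :=
  ∀ (B : Type u) [CommRing B] (ϖ : B), IsDedekindDomain (B ⧸ Ideal.span {ϖ}) →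
    ∀ 𝔪 : Ideal B, 𝔪.IsMaximal → ϖ ∈ 𝔪 →
      ∃ t ∈ 𝔪, ∀ a ∈ 𝔪, ∃ s : B, s ∉ 𝔪 ∧ s * a ∈ Ideal.span {ϖ, t}

/-- **OUTPUT O1 (b2, regular form; concrete).**  As `B2Statement`, plus `hdom`: `w` is prime in
`B` (the special fibre is a domain; QEP).  Conclusion = `H754.RegularAlong (C w)`, unfolded. -/
def B2RegularStatement : Prop :=
  ∀ (R : Type u) [CommRing R] [IsDomain R] [IsDiscreteValuationRing R] [CharZero R]
    (w : R) (_ : Irreducible w)
    (B : Type v) [CommRing B] [IsDomain B] [IsIntegrallyClosed B] [Algebra R[X] B]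
    [Module.Finite R[X] B] [Module.IsTorsionFree R[X] B]
    (_ : Prime (algebraMap R[X] B (C w)))
    (_ : ∃ x : Fin (Module.finrank R[X] B) → B,
        ¬ C w ∣ (Matrix.of fun i j => Algebra.intTrace R[X] B (x i * x j)).det)
    (S : Finset R) (_ : ∀ c ∈ S, ∀ c' ∈ S, c ≠ c' → IsUnit (c - c'))
    (_ : ∀ π : R[X], Prime π → ¬ Associated π (C w) → (∀ c ∈ S, ¬ Associated π (X - C c)) →
        (Ideal.span {algebraMap R[X] B π}).IsRadical)
    (𝔪 : Ideal B), 𝔪.IsMaximal → algebraMap R[X] B (C w) ∈ 𝔪 →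
      ∃ t ∈ 𝔪, ∀ a ∈ 𝔪, ∃ s : B, s ∉ 𝔪 ∧
        s * a ∈ Ideal.span {algebraMap R[X] B (C w), t}

end Fermat.Agent.S18.B12

end
end
-- ===== PACK-END S18/B12/Spec3.lean

-- ===== PACK-BEGIN S18/B12/H93/RegSeqAbs.lean
section




/-!
# S18 / B12 / A0: `RegSeqAbsStatement` (helper93), adapter over `H393.isIntegral_of_isIntegral_mul'`.
-/

set_option autoImplicit false

namespace Fermat.Agent.S18.B12.H93

attribute [local instance] FractionRing.liftAlgebra FractionRing.isScalarTower_liftAlgebra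

universe u v

theorem regSeqAbs : RegSeqAbsStatement.{u, v} := by
  intro P _ _ _ B _ _ _ _ _ _ u w hw hwu b b' hbb'
  classical
  have hw0 : w ≠ 0 := hw.ne_zero
  have hinjPB : Function.Injective (algebraMap P B) := FaithfulSMul.algebraMap_injective P B
  have hinjBF : Function.Injective (algebraMap B (FractionRing B)) :=
    IsFractionRing.injective B (FractionRing B)
  have hwB : algebraMap P B w ≠ 0 := fun h => hw0 (hinjPB (by rw [map_zero]; exact h))
  have hwF : algebraMap B (FractionRing B) (algebraMap P B w) ≠ 0 :=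
    fun h => hwB (hinjBF (by rw [map_zero]; exact h))
  -- the element `f = b / w`
  set f : FractionRing B :=
    algebraMap B (FractionRing B) b * (algebraMap B (FractionRing B) (algebraMap P B w))⁻¹ with hf
  have hPF : ∀ x : P, algebraMap P (FractionRing B) x =
      algebraMap B (FractionRing B) (algebraMap P B x) :=
    fun x => IsScalarTower.algebraMap_apply P B (FractionRing B) x
  have hwf : algebraMap P (FractionRing B) w * f = algebraMap B (FractionRing B) b := by
    rw [hPF, hf]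
    field_simp
  have huf : algebraMap P (FractionRing B) u * f = algebraMap B (FractionRing B) b' := by
    rw [hPF, hf, ← mul_assoc, ← map_mul, hbb', map_mul]
    field_simp
  have hintB : ∀ x : B, IsIntegral P (algebraMap B (FractionRing B) x) :=
    fun x => (Algebra.IsIntegral.isIntegral x).algebraMap
  have hfint : IsIntegral P f :=
    Fermat.Agent.S18.H393.isIntegral_of_isIntegral_mul' (FractionRing P) hw hwu
      (hwf ▸ hintB b) (huf ▸ hintB b')
  have hfintB : IsIntegral B f := hfint.tower_top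
  obtain ⟨b'', hb''⟩ := IsIntegrallyClosed.isIntegral_iff.mp hfintB
  refine ⟨b'', ?_, ?_⟩
  · apply hinjBF
    rw [map_mul, hb'', ← hPF, hwf]
  · apply hinjBF
    rw [map_mul, hb'', ← hPF, huf]

end Fermat.Agent.S18.B12.H93

end
-- ===== PACK-END S18/B12/H93/RegSeqAbs.lean

-- ===== PACK-BEGIN S18/H274/Tame.lean
section




/-!
# S18 / b2.3 (helper274) — TAME discriminant bound

Mathlib-only, sorry-free.  `Λ` a domain, `t` a prime element, `π : Λ →+* K` a surjection onto a
field of characteristic `0` with kernel `(t)`.  `C` a Dedekind domain which is free of finite rank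
over `Λ` with basis `β`.

* `pow_dvd_mul_of_trace_dvd` : if `t ^ a ∣ Tr (y c)` for all `c : C`, then `t ^ a ∣ t * y` in `C`
  ("`t` times the trace dual is integral").
* `tame_discr_of_residue` : if `y : Fin r → C` is linearly independent modulo `rad (t C)` then
  `¬ t ^ (card ι - r + 1) ∣ discr β`.
* `tameDiscr` : the same in the frozen shape `TameDiscrStatement` of
  `origin/helper33:Fermat/Agent/S18/B12/Spec.lean` (`Λ` a PID containing `ℚ`).
-/

namespace Fermat.Agent.S18.H274

open Module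

section

variable {Λ : Type*} [CommRing Λ] [IsDomain Λ]
variable {C : Type*} [CommRing C] [IsDedekindDomain C] [Algebra Λ C]
variable {ι : Type*} [Fintype ι] [DecidableEq ι] (β : Basis ι Λ C)
variable {K : Type*} [Field K] [CharZero K] (π : Λ →+* K)

include β π in
/-- **`t` times the trace dual is integral.**  If `t ^ a` divides `Tr (y c)` for all `c`, then
`t ^ a` divides `t * y` in `C`. -/
theorem pow_dvd_mul_of_trace_dvd (t : Λ) (ht0 : t ≠ 0) (hπt : π t = 0)
    (hker : ∀ x, π x = 0 → t ∣ x) (y : C) (a : ℕ)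
    (hy : ∀ c, t ^ a ∣ Algebra.trace Λ C (y * c)) :
    algebraMap Λ C t ^ a ∣ algebraMap Λ C t * y := by
  classical
  have hinj : Function.Injective (algebraMap Λ C) := β.algebraMap_injective
  have hτ : algebraMap Λ C t ≠ 0 := fun h => ht0 (hinj (by rw [h, map_zero]))
  obtain ⟨β₀, β₀', z, z₁, h1, hz, hz₁⟩ :=
    exists_split_of_isDedekindDomain (algebraMap Λ C t * y) (algebraMap Λ C t ^ a)
      (pow_ne_zero a hτ)
  have hzc : ∀ c, π (Algebra.trace Λ C (z * c)) = 0 := by
    intro c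
    obtain ⟨e, he⟩ := hy (β₀' * c)
    have h2 : t ^ a * Algebra.trace Λ C (z * c) = t ^ a * (t * e) := by
      calc t ^ a * Algebra.trace Λ C (z * c)
          = Algebra.trace Λ C ((z * algebraMap Λ C t ^ a) * c) := by
            rw [← smul_eq_mul, ← map_smul, Algebra.smul_def, map_pow]
            congr 1; ring
        _ = Algebra.trace Λ C (t • (y * (β₀' * c))) := by
            rw [hz, Algebra.smul_def]
            congr 1; ring
        _ = t ^ a * (t * e) := by
            rw [map_smul, he, smul_eq_mul]; ring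
    have h3 := mul_left_cancel₀ (pow_ne_zero a ht0) h2
    rw [h3, map_mul, hπt, zero_mul]
  obtain ⟨m, c₀, hc₀⟩ := exists_pow_dvd_of_trace_map_eq_zero β π t hker z hzc
  have hβ₀ : β₀ = 1 - z := by rw [← h1]; ring
  have hgeom := mul_neg_geom_sum z (m * a)
  refine ⟨(∑ i ∈ Finset.range (m * a), z ^ i) * z₁ + c₀ ^ a * (algebraMap Λ C t * y), ?_⟩
  have hzma : z ^ (m * a) = algebraMap Λ C t ^ a * c₀ ^ a := by
    rw [pow_mul, hc₀, mul_pow]
  calc algebraMap Λ C t * y
      = (1 - z ^ (m * a)) * (algebraMap Λ C t * y) + z ^ (m * a) * (algebraMap Λ C t * y) := by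
        ring
    _ = (∑ i ∈ Finset.range (m * a), z ^ i) * (β₀ * (algebraMap Λ C t * y))
          + z ^ (m * a) * (algebraMap Λ C t * y) := by
        rw [← hgeom, hβ₀]; ring
    _ = algebraMap Λ C t ^ a *
          ((∑ i ∈ Finset.range (m * a), z ^ i) * z₁ + c₀ ^ a * (algebraMap Λ C t * y)) := by
        rw [← hz₁, hzma]; ring

include π in
/-- **TAME discriminant bound**, residue-field form.  `π : Λ →+* K` a surjection onto a field
of characteristic `0` with kernel `(t)`, `t` prime; `C` Dedekind, free over `Λ` with basis `β`.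
If `y : Fin r → C` is linearly independent modulo `rad (t C)`, then
`t ^ (card ι - r + 1)` does not divide the discriminant of `β`. -/
theorem tame_discr_of_residue [WfDvdMonoid Λ] (hπ : Function.Surjective π)
    (t : Λ) (ht : Prime t) (hπt : π t = 0) (hker : ∀ x, π x = 0 → t ∣ x)
    (r : ℕ) (y : Fin r → C)
    (hy : ∀ a : Fin r → Λ,
        (∑ i, a i • y i) ∈ (Ideal.span {algebraMap Λ C t}).radical → ∀ i, t ∣ a i) :
    ¬ t ^ (Fintype.card ι - r + 1) ∣ Algebra.discr Λ β := by
  classical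
  have ht0 : t ≠ 0 := ht.ne_zero
  have hchar : CharZero Λ := ⟨fun n m h => by
    have := congrArg π h
    simpa using this⟩
  -- Step 1: the discriminant is nonzero
  have hD0 : Algebra.discr Λ β ≠ 0 := discr_ne_zero_of_charZero β
  -- Step 2: `D = t ^ a * D'`
  obtain ⟨a, D', hD', hD⟩ := WfDvdMonoid.max_power_factor hD0 ht.irreducible
  set G := Algebra.traceMatrix Λ β with hG
  have hGdet : G.det = t ^ a * D' := by rw [← hD, Algebra.discr_def]
  have hGsymm : ∀ i k, G i k = G k i := by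
    intro i k
    simp only [hG, Algebra.traceMatrix_apply, Algebra.traceForm_apply, mul_comm]
  have hGapp : ∀ i k, G i k = Algebra.trace Λ C (β i * β k) := by
    intro i k
    simp only [hG, Algebra.traceMatrix_apply, Algebra.traceForm_apply]
  -- trace of `(∑ i, M i j • β i) * β k` is `(G * M) k j`
  have htrcol : ∀ (M : Matrix ι ι Λ) (j k : ι),
      Algebra.trace Λ C ((∑ i, M i j • β i) * β k) = (G * M) k j := by
    intro M j k
    rw [Finset.sum_mul, map_sum, Matrix.mul_apply]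
    refine Finset.sum_congr rfl fun i _ => ?_
    rw [smul_mul_assoc, map_smul, smul_eq_mul, hGsymm k i, hGapp, mul_comm]
  -- Step 3: the matrix `N` with `t • adj G = t ^ a • N`
  have hdual : ∀ j, algebraMap Λ C t ^ a ∣ algebraMap Λ C t * (∑ i, G.adjugate i j • β i) := by
    intro j
    apply pow_dvd_mul_of_trace_dvd β π t ht0 hπt hker
    apply trace_mul_dvd_of_basis β
    intro k
    rw [htrcol, Matrix.mul_adjugate, hGdet, Matrix.smul_apply, Matrix.one_apply, smul_eq_mul]
    split_ifs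
    · rw [mul_one]; exact Dvd.intro _ rfl
    · rw [mul_zero]; exact dvd_zero _
  choose x hx using hdual
  let N : Matrix ι ι Λ := fun i j => β.repr (x j) i
  have hxN : ∀ j, x j = ∑ i, N i j • β i := fun j => (β.sum_repr (x j)).symm
  have hN : ∀ i j, t * G.adjugate i j = t ^ a * N i j := by
    intro i j
    have h1 : β.repr (algebraMap Λ C t * ∑ i, G.adjugate i j • β i) i
        = β.repr (algebraMap Λ C t ^ a * x j) i := by rw [hx j]
    rw [← Algebra.smul_def, map_smul, Finsupp.smul_apply, β.repr_sum_self, ← map_pow,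
      ← Algebra.smul_def, map_smul, Finsupp.smul_apply, smul_eq_mul, smul_eq_mul] at h1
    exact h1
  -- Step 4: `G * N = (t * D') • 1`
  have hGN : G * N = (t * D') • (1 : Matrix ι ι Λ) := by
    ext i j
    apply mul_left_cancel₀ (pow_ne_zero a ht0)
    have h2 : t ^ a * (G * N) i j = t * (G * G.adjugate) i j := by
      rw [Matrix.mul_apply, Matrix.mul_apply, Finset.mul_sum, Finset.mul_sum]
      refine Finset.sum_congr rfl fun k _ => ?_
      rw [mul_left_comm, ← hN, mul_left_comm]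
    rw [h2, Matrix.mul_adjugate, hGdet]
    simp only [Matrix.smul_apply, smul_eq_mul]
    ring
  -- Step 5: the columns of `N` are nilpotent modulo `t`
  have hxrad : ∀ j, x j ∈ (Ideal.span {algebraMap Λ C t}).radical := by
    intro j
    have h3 : ∀ c, π (Algebra.trace Λ C (x j * c)) = 0 := by
      intro c
      have h4 : t ∣ Algebra.trace Λ C (x j * c) := by
        apply trace_mul_dvd_of_basis β
        intro k
        rw [hxN j, htrcol, hGN, Matrix.smul_apply, smul_eq_mul, mul_assoc]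
        exact Dvd.intro _ rfl
      obtain ⟨e, he⟩ := h4
      rw [he, map_mul, hπt, zero_mul]
    obtain ⟨m, hm⟩ := exists_pow_dvd_of_trace_map_eq_zero β π t hker (x j) h3
    rw [Ideal.mem_radical_iff]
    exact ⟨m, Ideal.mem_span_singleton.mpr hm⟩
  -- Step 6: rank bound
  let Nbar : Matrix ι ι K := N.map π
  let Ybar : Matrix ι (Fin r) K := fun i' i => π (β.repr (y i) i')
  let W : Submodule K (ι → K) := LinearMap.range Nbar.mulVecLin
  let f : (Fin r → K) →ₗ[K] ((ι → K) ⧸ W) := W.mkQ ∘ₗ Ybar.mulVecLin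
  have hfinj : Function.Injective f := by
    rw [← LinearMap.ker_eq_bot, LinearMap.ker_eq_bot']
    intro abar habar
    have h5 : Ybar.mulVec abar ∈ W := by
      have : W.mkQ (Ybar.mulVecLin abar) = 0 := habar
      rwa [Submodule.mkQ_apply, Submodule.Quotient.mk_eq_zero] at this
    obtain ⟨vbar, hvbar⟩ := h5
    choose a₀ ha₀ using fun i => hπ (abar i)
    choose v hv using fun j => hπ (vbar j)
    -- the element `e = ∑ a i • y i - ∑ v j • x j` is divisible by `t`
    have he : algebraMap Λ C t ∣ (∑ i, a₀ i • y i) - ∑ j, v j • x j := by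
      apply dvd_of_forall_dvd_repr β
      intro i'
      apply hker
      have h6 := congrFun hvbar i'
      simp only [Matrix.mulVecLin_apply, Matrix.mulVec, dotProduct, Nbar, Ybar,
        Matrix.map_apply] at h6
      rw [map_sub, Finsupp.sub_apply, map_sum, map_sum, Finsupp.finsetSum_apply,
        Finsupp.finsetSum_apply, map_sub, map_sum, map_sum, sub_eq_zero]
      have e1 : ∀ i, π ((β.repr (a₀ i • y i)) i') = π (β.repr (y i) i') * abar i := by
        intro i
        rw [map_smul, Finsupp.smul_apply, smul_eq_mul, map_mul, ha₀, mul_comm]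
      have e2 : ∀ j, π ((β.repr (v j • x j)) i') = π (N i' j) * vbar j := by
        intro j
        rw [map_smul, Finsupp.smul_apply, smul_eq_mul, map_mul, hv, mul_comm]
      simp only [e1, e2]
      exact h6.symm
    -- hence `∑ a i • y i` is in the radical
    have hrad : (∑ i, a₀ i • y i) ∈ (Ideal.span {algebraMap Λ C t}).radical := by
      have h7 : (∑ i, a₀ i • y i) = ((∑ i, a₀ i • y i) - ∑ j, v j • x j) + ∑ j, v j • x j := by
        ring
      rw [h7]
      refine Ideal.add_mem _ (Ideal.le_radical (Ideal.mem_span_singleton.mpr he)) ?_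
      refine Ideal.sum_mem _ fun j _ => ?_
      rw [Algebra.smul_def]
      exact Ideal.mul_mem_left _ _ (hxrad j)
    funext i
    rw [← ha₀ i]
    obtain ⟨e, he'⟩ := hy a₀ hrad i
    rw [he', map_mul, hπt, zero_mul, Pi.zero_apply]
  have hrank : r + Nbar.rank ≤ Fintype.card ι := by
    have h8 := LinearMap.finrank_le_finrank_of_injective hfinj
    have h9 := Submodule.finrank_quotient_add_finrank W
    rw [Module.finrank_fin_fun, ] at h8
    rw [Module.finrank_fintype_fun_eq_card] at h9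
    have h10 : Nbar.rank = finrank K W := rfl
    omega
  -- Step 7: DET-RANK
  have hdetN : t ^ r ∣ N.det := by
    refine dvd_trans (pow_dvd_pow t ?_) (pow_sub_rank_dvd_det π hπ t hker N)
    have : (N.map π).rank = Nbar.rank := rfl
    omega
  -- Step 8: `a + r ≤ card ι`
  have hdet : t ^ a * D' * N.det = t ^ Fintype.card ι * D' ^ Fintype.card ι := by
    rw [← hGdet, ← Matrix.det_mul, hGN, Matrix.det_smul, Matrix.det_one, mul_one, mul_pow]
  have har : a + r ≤ Fintype.card ι := by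
    by_contra hlt
    rw [not_le] at hlt
    obtain ⟨e, he⟩ := hdetN
    obtain ⟨d, hd⟩ : ∃ d, a + r = Fintype.card ι + (d + 1) :=
      ⟨a + r - Fintype.card ι - 1, by omega⟩
    have h11 : t ^ Fintype.card ι * (t * (t ^ d * (D' * e)))
        = t ^ Fintype.card ι * D' ^ Fintype.card ι := by
      rw [← hdet, he]
      have : t ^ a * D' * (t ^ r * e) = t ^ (a + r) * (D' * e) := by ring
      rw [this, hd]
      ring
    have h12 := mul_left_cancel₀ (pow_ne_zero _ ht0) h11
    exact hD' (ht.dvd_of_dvd_pow (Dvd.intro _ h12))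
  -- Step 9: conclusion
  intro hdvd
  rw [hD] at hdvd
  obtain ⟨d, hd⟩ : ∃ d, Fintype.card ι - r + 1 = a + (d + 1) :=
    ⟨Fintype.card ι - r - a, by omega⟩
  rw [hd, pow_add, pow_succ] at hdvd
  have h13 := (mul_dvd_mul_iff_left (pow_ne_zero a ht0)).mp hdvd
  exact hD' (dvd_trans (Dvd.intro_left _ rfl) h13)

end

universe u v

/-- **b2-α (tame discriminant)** in the frozen shape `TameDiscrStatement` of
`origin/helper33:Fermat/Agent/S18/B12/Spec.lean` (unfolded):
`theorem foo : TameDiscrStatement := fun Λ _ _ _ _ t ht C₀ _ _ _ _ _ n β r y hy =>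
   tameDiscr Λ t ht C₀ n β r y hy`. -/
theorem tameDiscr
    (Λ : Type u) [CommRing Λ] [IsDomain Λ] [IsPrincipalIdealRing Λ] [Algebra ℚ Λ]
    (t : Λ) (ht : Prime t)
    (C₀ : Type v) [CommRing C₀] [IsDomain C₀] [IsDedekindDomain C₀] [Algebra Λ C₀]
    [Module.IsTorsionFree Λ C₀]
    (n : ℕ) (β : Module.Basis (Fin n) Λ C₀) (r : ℕ) (y : Fin r → C₀)
    (hy : ∀ a : Fin r → Λ,
        (∑ i, a i • y i) ∈ (Ideal.span {algebraMap Λ C₀ t}).radical → ∀ i, t ∣ a i) :
    ¬ t ^ (n - r + 1) ∣ Algebra.discr Λ β := by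
  have hmax : (Ideal.span {t}).IsMaximal :=
    PrincipalIdealRing.isMaximal_of_irreducible ht.irreducible
  let _ : Field (Λ ⧸ Ideal.span {t}) := Ideal.Quotient.field _
  have hchar : CharZero (Λ ⧸ Ideal.span {t}) := algebraRat.charZero _
  have h := tame_discr_of_residue β (Ideal.Quotient.mk (Ideal.span {t}))
    Ideal.Quotient.mk_surjective t ht
    ((Ideal.Quotient.eq_zero_iff_dvd t t).mpr dvd_rfl)
    (fun x hx => (Ideal.Quotient.eq_zero_iff_dvd t x).mp hx) r y hy
  rwa [Fintype.card_fin] at h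

end Fermat.Agent.S18.H274

end
-- ===== PACK-END S18/H274/Tame.lean

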