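import Mathlib
import Fermat.Prelude.Def_ModularCurve_X0ModL
import Fermat.Prelude.Def_ModularCurve_JqCoeff
import Fermat.Prelude.Def_FLTPrelim_Ramification
import Fermat.Agent.Pack.S34.G0E4L3
import Fermat.Agent.Pack.S34.G0E0L2
import Fermat.Agent.Pack.S34.G0E2L3
import Fermat.Agent.Pack.S34.G0E0L1
import Fermat.Agent.Pack.S34.G0E4L1
import Fermat.Agent.Pack.S34.G0E4L0
import Fermat.Agent.Pack.S34.G0E0L0
import Fermat.Agent.Pack.S34.G0E5L0
import Fermat.Agent.Pack.S34.G0E5L2
import Fermat.Agent.Pack.S34.G0E5L1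
import Fermat.Agent.Pack.S34.G0E5L3
import Fermat.Agent.Pack.S34.G0E1L0
import Fermat.Agent.Pack.S34.G0E2L0
import Fermat.Agent.Pack.S34.G0E2L2
import Fermat.Agent.Pack.S34.G0E3L1

-- ===== PACK-BEGIN S55/H414/CycloPow.lean
section




/-!
# S55, leaf CYC-INF (helper414), part 3: the cyclotomic character mod `N` on `G_ℚ`, Frobenius

* `cycloPow N : G_ℚ →* (ZMod N)ˣ`, `σ ζ_N = ζ_N ^ (cycloPow N σ)`, with kernel the fixing subgroup
  of `ℚ(ζ_N)`;
* every valuation subring `A` of `ℚ̄` over a prime `q` has a Frobenius element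
  (`exists_isFrobeniusAt`, the proof of `Fermat.Agent.S54.exists_frobenius` for a given `A`);
* a Frobenius element at `A | q`, `q ∤ N`, acts on `ζ_N` by `ζ ↦ ζ ^ q`;
* hence for `q ≠ p` the local degree of `ℚ(ζ_{p^n})` at `A` is divisible by `p ^ k` for `n ≫ 0`.
-/

set_option autoImplicit false

namespace Fermat.Agent.S55.H414

open ExtCitation Fermat.Agent.S55.Bridge

/-- The cyclotomic character modulo `N` of `G_ℚ`. -/
noncomputable def cycloPow (N : ℕ) [NeZero N] :
    (AlgebraicClosure ℚ ≃ₐ[ℚ] AlgebraicClosure ℚ) →* (ZMod N)ˣ :=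
  (zetaBar_spec N).autToPow ℚ

theorem cycloPow_spec (N : ℕ) [NeZero N] (σ : AlgebraicClosure ℚ ≃ₐ[ℚ] AlgebraicClosure ℚ) :
    σ (zetaBar N) = zetaBar N ^ ((cycloPow N σ : (ZMod N)ˣ) : ZMod N).val :=
  ((zetaBar_spec N).autToPow_spec ℚ σ).symm

/-- Two powers of a primitive `N`-th root of unity agree iff the exponents agree in `ZMod N`. -/
theorem pow_eq_pow_iff_natCast_eq {R : Type*} [CommRing R] [IsDomain R] {ζ : R} {N : ℕ}
    [NeZero N] (hζ : IsPrimitiveRoot ζ N) (a b : ℕ) :
    ζ ^ a = ζ ^ b ↔ (a : ZMod N) = (b : ZMod N) := by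
  obtain ⟨u, rfl⟩ := hζ.isUnit (NeZero.ne N)
  have hu : IsPrimitiveRoot u N := IsPrimitiveRoot.coe_units_iff.1 hζ
  rw [ZMod.natCast_eq_natCast_iff, ← Units.val_pow_eq_pow_val, ← Units.val_pow_eq_pow_val,
    Units.val_inj, pow_eq_pow_iff_modEq, ← hu.eq_orderOf]

/-- Characterisation of the value of the cyclotomic character. -/
theorem cycloPow_eq_iff (N : ℕ) [NeZero N] (σ : AlgebraicClosure ℚ ≃ₐ[ℚ] AlgebraicClosure ℚ)
    (u : (ZMod N)ˣ) :
    cycloPow N σ = u ↔ σ (zetaBar N) = zetaBar N ^ (u : ZMod N).val := by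
  rw [cycloPow_spec, pow_eq_pow_iff_natCast_eq (zetaBar_spec N), ZMod.natCast_zmod_val,
    ZMod.natCast_zmod_val]
  exact Units.ext_iff

/-- If `σ ζ = ζ ^ a` then `cycloPow N σ` is the class of `a`. -/
theorem coe_cycloPow_of_apply_eq_pow (N : ℕ) [NeZero N]
    (σ : AlgebraicClosure ℚ ≃ₐ[ℚ] AlgebraicClosure ℚ) (a : ℕ)
    (h : σ (zetaBar N) = zetaBar N ^ a) :
    ((cycloPow N σ : (ZMod N)ˣ) : ZMod N) = (a : ZMod N) := by
  rw [cycloPow_spec, pow_eq_pow_iff_natCast_eq (zetaBar_spec N), ZMod.natCast_zmod_val] at h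
  exact h

theorem ker_cycloPow (N : ℕ) [NeZero N] :
    (cycloPow N).ker = (cycloLevel N).fixingSubgroup := by
  ext σ
  rw [MonoidHom.mem_ker, mem_fixingSubgroup_cycloLevel_iff, cycloPow_eq_iff]
  have h1 : zetaBar N ^ ((1 : (ZMod N)ˣ) : ZMod N).val = zetaBar N := by
    conv_rhs => rw [← pow_one (zetaBar N)]
    rw [pow_eq_pow_iff_natCast_eq (zetaBar_spec N), ZMod.natCast_zmod_val, Units.val_one,
      Nat.cast_one]
  rw [h1]

/-- The local degree `[D : D ∩ G_F]` for `F = ℚ(ζ_N)` is the order of the image of `D` under the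
cyclotomic character. -/
theorem relIndex_fixingSubgroup_cycloLevel (N : ℕ) [NeZero N]
    (D : Subgroup (AlgebraicClosure ℚ ≃ₐ[ℚ] AlgebraicClosure ℚ)) :
    (cycloLevel N).fixingSubgroup.relIndex D = Nat.card (D.map (cycloPow N)) := by
  rw [← ker_cycloPow, Subgroup.relIndex_ker]

/-- The local degree `[D : D ∩ G_F]` is the order of the image of `D` in `Gal(F/ℚ)`. -/
theorem relIndex_fixingSubgroup_eq_card_map_restrictNormalHom
    (F : IntermediateField ℚ (AlgebraicClosure ℚ)) [Normal ℚ F]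
    (D : Subgroup (AlgebraicClosure ℚ ≃ₐ[ℚ] AlgebraicClosure ℚ)) :
    F.fixingSubgroup.relIndex D = Nat.card (D.map (AlgEquiv.restrictNormalHom F)) := by
  have hker : (AlgEquiv.restrictNormalHom (F := ℚ) (K₁ := AlgebraicClosure ℚ) F).ker
      = F.fixingSubgroup := by
    ext x
    rw [MonoidHom.mem_ker, IntermediateField.mem_fixingSubgroup_iff]
    constructor
    · intro h a ha
      have h1 := AlgEquiv.restrictNormal_commutes x F ⟨a, ha⟩
      have h2 : x.restrictNormal F = 1 := h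
      rw [h2] at h1
      exact h1.symm
    · intro h
      apply AlgEquiv.ext
      intro a
      apply Subtype.ext
      have h1 := AlgEquiv.restrictNormal_commutes x F a
      have h2 := h a a.2
      exact h1.trans h2
  rw [← hker, Subgroup.relIndex_ker]

/-- Every valuation subring of `ℚ̄` over a prime number `ℓ` has a Frobenius element. -/
theorem exists_isFrobeniusAt (A : ValuationSubring (AlgebraicClosure ℚ)) (ℓ : ℕ) (hℓ : ℓ.Prime)
    (hA : A.LiesOverPrime ℓ) :
    ∃ σ : AlgebraicClosure ℚ ≃ₐ[ℚ] AlgebraicClosure ℚ, A.IsFrobeniusAt σ ℓ := by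
  open Fermat.Agent.S54 in
  open scoped Pointwise in
  have : Algebra.IsAlgebraic ℚ (AlgebraicClosure ℚ) := AlgebraicClosure.isAlgebraic ℚ
  have := primeBelow_isPrime A
  have hℓQ : (ℓ : integralClosure ℤ (AlgebraicClosure ℚ)) ∈ primeBelow A := by
    rw [mem_primeBelow]
    exact hA
  obtain ⟨σ, hσQ', hσF⟩ := exists_frob_integralClosure ℓ hℓ (primeBelow A) hℓQ
  have hσQ : ∀ x, σ • x ∈ primeBelow A ↔ x ∈ primeBelow A := by
    intro x
    conv_lhs => rw [← hσQ']
    exact Ideal.smul_mem_pointwise_smul_iff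
  have key : ∀ τ : AlgebraicClosure ℚ ≃ₐ[ℚ] AlgebraicClosure ℚ,
      (∀ x, τ • x ∈ primeBelow A ↔ x ∈ primeBelow A) → ∀ x ∈ A, τ x ∈ A := by
    intro τ hτ x hx
    obtain ⟨b, s, hb, hs, hsA, hxs⟩ := (mem_valuationSubring_iff A ℓ hℓ hA x).mp hx
    refine (mem_valuationSubring_iff A ℓ hℓ hA (τ x)).mpr
      ⟨τ b, τ s, hb.map τ, hs.map τ, ?_, ?_⟩
    · exact (hτ ⟨s, hs⟩).not.mpr hsA
    · rw [← map_mul, hxs]
  have hσA : σ ∈ A.decompositionSubgroup ℚ := by
    rw [MulAction.mem_stabilizer_iff]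
    ext x
    rw [ValuationSubring.mem_smul_pointwise_iff_exists]
    constructor
    · rintro ⟨s, hs, rfl⟩
      exact key σ hσQ s hs
    · intro hx
      refine ⟨σ⁻¹ • x, key σ⁻¹ ?_ x hx, by simp⟩
      intro y
      rw [← hσQ (σ⁻¹ • y)]
      simp
  refine ⟨σ, hσA, ?_⟩
  intro x
  obtain ⟨a, rfl⟩ := IsLocalRing.residue_surjective x
  obtain ⟨b, s, hb, hs, hsA, hxs⟩ := (mem_valuationSubring_iff A ℓ hℓ hA a).mp a.2
  have hbA : b ∈ A := isIntegral_mem_valuationSubring A hb
  have hsA' : s ∈ A := isIntegral_mem_valuationSubring A hs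
  have hint : ∀ (y : AlgebraicClosure ℚ) (hy : IsIntegral ℤ y),
      (⟨σ, hσA⟩ : A.decompositionSubgroup ℚ) •
        IsLocalRing.residue A ⟨y, isIntegral_mem_valuationSubring A hy⟩ =
      (IsLocalRing.residue A ⟨y, isIntegral_mem_valuationSubring A hy⟩) ^ ℓ := by
    intro y hy
    rw [← IsLocalRing.ResidueField.residue_smul, ← map_pow, ← sub_eq_zero, ← map_sub,
      IsLocalRing.residue_eq_zero_iff, ← ValuationSubring.coe_mem_nonunits_iff]
    exact hσF ⟨y, hy⟩
  have h1 : IsLocalRing.residue A a * IsLocalRing.residue A ⟨s, hsA'⟩ =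
      IsLocalRing.residue A ⟨b, hbA⟩ := by
    rw [← map_mul]
    congr 1
    exact Subtype.ext hxs
  have h2 : IsLocalRing.residue A ⟨s, hsA'⟩ ≠ 0 := by
    rw [Ne, IsLocalRing.residue_eq_zero_iff, ← ValuationSubring.coe_mem_nonunits_iff]
    exact hsA
  have h3 := congrArg (fun z => (⟨σ, hσA⟩ : A.decompositionSubgroup ℚ) • z) h1
  simp only [smul_mul'] at h3
  rw [hint s hs, hint b hb, ← h1, mul_pow] at h3
  exact mul_right_cancel₀ (pow_ne_zero _ h2) h3

/-- A Frobenius element at `A` is congruent to the `q`-th power map on `A`. -/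
theorem IsFrobeniusAt_val_sub_pow_lt_one {A : ValuationSubring (AlgebraicClosure ℚ)}
    {σ : AlgebraicClosure ℚ ≃ₐ[ℚ] AlgebraicClosure ℚ} {q : ℕ} (hσ : A.IsFrobeniusAt σ q)
    (z : AlgebraicClosure ℚ) (hz : z ∈ A) : A.valuation (σ z - z ^ q) < 1 := by
  obtain ⟨hσD, hF⟩ := hσ
  have h2 := hF (IsLocalRing.residue A ⟨z, hz⟩)
  rw [← IsLocalRing.ResidueField.residue_smul, ← map_pow] at h2
  have h3 : ((⟨σ, hσD⟩ : A.decompositionSubgroup ℚ) • (⟨z, hz⟩ : A)) - (⟨z, hz⟩ : A) ^ q
      ∈ IsLocalRing.maximalIdeal A := by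
    rw [← Ideal.Quotient.eq]
    exact h2
  rw [ValuationSubring.valuation_lt_one_iff] at h3
  exact h3

/-- A Frobenius element at `A | q` acts on `N`-th roots of unity (`N` a unit at `A`) by
`ζ ↦ ζ ^ q`. -/
theorem IsFrobeniusAt_apply_root {A : ValuationSubring (AlgebraicClosure ℚ)}
    {σ : AlgebraicClosure ℚ ≃ₐ[ℚ] AlgebraicClosure ℚ} {q : ℕ} (hσ : A.IsFrobeniusAt σ q)
    {N : ℕ} (hN : N ≠ 0) (hNv : A.valuation (N : AlgebraicClosure ℚ) = 1)
    {z : AlgebraicClosure ℚ} (hz : z ^ N = 1) : σ z = z ^ q := by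
  by_contra hne
  have hσz : (σ z) ^ N = 1 := by rw [← map_pow, hz, map_one]
  have hzq : (z ^ q) ^ N = 1 := by rw [← pow_mul, mul_comm, pow_mul, hz, one_pow]
  have h1 := val_sub_roots_eq_one (A := A) hN hNv hσz hzq hne
  have hzA : z ∈ A := (A.valuation_le_one_iff z).1 (valuation_eq_one_of_pow_eq_one A hN hz).le
  have h2 := IsFrobeniusAt_val_sub_pow_lt_one hσ z hzA
  rw [h1] at h2
  exact lt_irrefl _ h2

/-- **CYC-INF, case `q ≠ p`.** For a valuation subring `A` of `ℚ̄` over a prime `q ≠ p` and every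
`k`, for all large `n` the local degree at `A` of `ℚ(ζ_{p^n})/ℚ` is divisible by `p ^ k`. -/
theorem exists_forall_pow_dvd_relIndex_of_ne (p : ℕ) [Fact p.Prime] (q : ℕ) (hq : q.Prime)
    (hqp : q ≠ p) (A : ValuationSubring (AlgebraicClosure ℚ)) (hA : A.LiesOverPrime q) (k : ℕ) :
    ∃ n₀ : ℕ, ∀ n, n₀ ≤ n →
      p ^ k ∣ (cycloLevel (p ^ n)).fixingSubgroup.relIndex (A.decompositionSubgroup ℚ) := by
  have hp : p.Prime := Fact.out
  obtain ⟨n₀, hn₀⟩ := exists_forall_pow_dvd_orderOf p q hp hq.two_le k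
  obtain ⟨σ, hσ⟩ := exists_isFrobeniusAt A q hq hA
  refine ⟨n₀, fun n hn => ?_⟩
  rw [relIndex_fixingSubgroup_cycloLevel]
  have hNv : A.valuation ((p ^ n : ℕ) : AlgebraicClosure ℚ) = 1 := by
    rw [Nat.cast_pow, map_pow, val_prime_eq_one (A := A) hA hq hp hqp, one_pow]
  have hζ : σ (zetaBar (p ^ n)) = zetaBar (p ^ n) ^ q :=
    IsFrobeniusAt_apply_root hσ (NeZero.ne _) hNv (zetaBar_spec (p ^ n)).pow_eq_one
  have hu := coe_cycloPow_of_apply_eq_pow (p ^ n) σ q hζ
  have hdvd := hn₀ n hn (cycloPow (p ^ n) σ) hu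
  have hmem : cycloPow (p ^ n) σ ∈ (A.decompositionSubgroup ℚ).map (cycloPow (p ^ n)) :=
    Subgroup.mem_map_of_mem _ hσ.mem_decompositionSubgroup
  have h2 : orderOf (cycloPow (p ^ n) σ) ∣
      Nat.card ((A.decompositionSubgroup ℚ).map (cycloPow (p ^ n))) := by
    have := Subgroup.orderOf_dvd_natCard
      ((A.decompositionSubgroup ℚ).map (cycloPow (p ^ n))) hmem
    exact this
  exact hdvd.trans h2

end Fermat.Agent.S55.H414

end
-- ===== PACK-END S55/H414/CycloPow.lean

-- ===== PACK-BEGIN Lib/Cheb/H943/Bridge.lean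
section



/-!
# CHEB piece F6: `Spec.BridgeDivisionStatement` (helper943)

From the finite-level Frobenius density statement (`Spec.FrobFiniteStatement`, about abstract
Galois number fields) to the Prelude-level statement about `Gal(ℚ̄/ℚ)`, valuation subrings of
`ℚ̄` and `ValuationSubring.IsFrobeniusAt`.

Proof: `L₀` := normal closure of `E` in `ℚ̄`; apply the finite-level statement to `L₀` and
`σ|L₀`; take a valuation subring `A` of `ℚ̄` whose maximal ideal contains `P`
(`Ideal.image_subset_nonunits_valuationSubring`); any Frobenius `τ` at `A`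
(`Fermat.Agent.S37.H99.exists_isFrobeniusAt`, landed) restricts to an arithmetic Frobenius at
`P`, which is unique because the inertia group at `P` is trivial; elements of the inertia group
at `A` restrict to the inertia group at `P`, hence act trivially on `L₀ ⊇ E`.
-/

set_option autoImplicit false
set_option linter.unusedSectionVars false
set_option linter.style.haveILetI false

open NumberField
open scoped Pointwise

namespace Fermat.Agent.Lib.Cheb.H943

open Fermat.Agent.Lib.Cheb.Spec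

section Bridge

variable (L₀ : IntermediateField ℚ Qb)

/-- The embedding of the ring of integers of `L₀ ⊆ ℚ̄` into `ℚ̄`. -/
noncomputable def emb : 𝓞 L₀ →+* Qb :=
  (algebraMap L₀ Qb).comp (algebraMap (𝓞 L₀) L₀)

lemma emb_apply (x : 𝓞 L₀) : emb L₀ x = ((x : L₀) : Qb) := rfl

lemma emb_injective : Function.Injective (emb L₀) := by
  intro x y h
  have h1 : ((x : L₀) : Qb) = ((y : L₀) : Qb) := h
  exact RingOfIntegers.ext (Subtype.ext h1)

lemma emb_isIntegral (x : 𝓞 L₀) : IsIntegral ℤ (emb L₀ x) := by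
  have h1 : IsIntegral ℤ (x : L₀) := RingOfIntegers.isIntegral_coe x
  exact h1.map (IsScalarTower.toAlgHom ℤ L₀ Qb)

lemma emb_mem (A : ValuationSubring Qb) (x : 𝓞 L₀) : emb L₀ x ∈ A :=
  Fermat.Agent.S54.isIntegral_mem_valuationSubring A (emb_isIntegral L₀ x)

/-- The embedding into the ring of all algebraic integers. -/
noncomputable def embInt : 𝓞 L₀ →+* integralClosure ℤ Qb :=
  RingHom.codRestrict (emb L₀) (integralClosure ℤ Qb) (emb_isIntegral L₀)

lemma coe_embInt (x : 𝓞 L₀) : ((embInt L₀ x : integralClosure ℤ Qb) : Qb) = emb L₀ x := rfl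

/-- Lemma 1: a valuation subring of `ℚ̄` whose maximal ideal contains a given proper ideal
of `𝓞 L₀`. -/
lemma exists_valuationSubring_over (P : Ideal (𝓞 L₀)) (hP : P ≠ ⊤) :
    ∃ A : ValuationSubring Qb, ∀ x ∈ P, emb L₀ x ∈ A.nonunits := by
  let A₀ : Subring Qb := (emb L₀).range
  let I : Ideal A₀ := P.map (emb L₀).rangeRestrict
  have hI : I ≠ ⊤ := by
    intro h
    have h1 : (1 : A₀) ∈ I := by rw [h]; trivial
    rw [Ideal.mem_map_iff_of_surjective _ (emb L₀).rangeRestrict_surjective] at h1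
    obtain ⟨x, hx, hx1⟩ := h1
    have h2 : emb L₀ x = emb L₀ 1 := by
      have := congrArg Subtype.val hx1
      simpa using this
    have h3 : x = 1 := emb_injective L₀ h2
    exact hP ((Ideal.eq_top_iff_one P).mpr (h3 ▸ hx))
  obtain ⟨A, -, hA⟩ := Ideal.image_subset_nonunits_valuationSubring I hI
  refine ⟨A, fun x hx => hA ⟨(emb L₀).rangeRestrict x, Ideal.mem_map_of_mem _ hx, rfl⟩⟩

/-- Lemma 2: contraction of the maximal ideal of `A` to `𝓞 L₀` is `P`. -/
lemma mem_of_emb_mem_nonunits {P : Ideal (𝓞 L₀)} (hP : P.IsMaximal)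
    {A : ValuationSubring Qb} (hA : ∀ x ∈ P, emb L₀ x ∈ A.nonunits)
    {x : 𝓞 L₀} (hx : emb L₀ x ∈ A.nonunits) : x ∈ P := by
  let J : Ideal (𝓞 L₀) := Ideal.comap (embInt L₀) (Fermat.Agent.S54.primeBelow A)
  have hJ : ∀ y, y ∈ J ↔ emb L₀ y ∈ A.nonunits := fun y => Iff.rfl
  have hPJ : P ≤ J := fun y hy => (hJ y).mpr (hA y hy)
  have hJtop : J ≠ ⊤ := by
    intro h
    have h1 : (1 : 𝓞 L₀) ∈ J := by rw [h]; trivial
    rw [hJ, map_one, ValuationSubring.mem_nonunits_iff] at h1
    simp at h1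
  have := hP.eq_of_le hJtop hPJ
  rw [this]
  exact (hJ x).mpr hx

lemma under_eq_span {p : ℕ} (hp : p.Prime) {P : Ideal (𝓞 L₀)} (hP : P.IsPrime)
    (hpP : (p : 𝓞 L₀) ∈ P) : P.under ℤ = Ideal.span {(p : ℤ)} := by
  have hmax : (Ideal.span {(p : ℤ)}).IsMaximal :=
    PrincipalIdealRing.isMaximal_of_irreducible (Nat.prime_iff_prime_int.mp hp).irreducible
  have hle : Ideal.span {(p : ℤ)} ≤ P.under ℤ := by
    rw [Ideal.span_le, Set.singleton_subset_iff]
    show algebraMap ℤ (𝓞 L₀) (p : ℤ) ∈ P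
    simpa using hpP
  exact (hmax.eq_of_le (Ideal.IsPrime.under ℤ P).ne_top hle).symm

lemma card_quot_under {p : ℕ} (hp : p.Prime) {P : Ideal (𝓞 L₀)} (hP : P.IsPrime)
    (hpP : (p : 𝓞 L₀) ∈ P) : Nat.card (ℤ ⧸ P.under ℤ) = p := by
  rw [under_eq_span L₀ hp hP hpP]
  exact Int.card_ideal_quot p

variable [Normal ℚ L₀]

lemma emb_restrict_smul (τ : GQ) (x : 𝓞 L₀) :
    emb L₀ ((AlgEquiv.restrictNormalHom L₀ τ) • x) = τ (emb L₀ x) := by
  rw [emb_apply, emb_apply]
  exact AlgEquiv.restrictNormal_commutes τ L₀ (x : L₀)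

/-- Lemma 3: a Frobenius at `A` restricts to an arithmetic Frobenius at `P`. -/
lemma isArithFrobAt_restrict {p : ℕ} (hp : p.Prime) {P : Ideal (𝓞 L₀)} (hP : P.IsMaximal)
    (hpP : (p : 𝓞 L₀) ∈ P) {A : ValuationSubring Qb} (hA : ∀ x ∈ P, emb L₀ x ∈ A.nonunits)
    {τ : GQ} (hτ : A.IsFrobeniusAt τ p) :
    IsArithFrobAt ℤ (AlgEquiv.restrictNormalHom L₀ τ) P := by
  intro x
  rw [card_quot_under L₀ hp hP.isPrime hpP]
  apply mem_of_emb_mem_nonunits L₀ hP hA
  have h0 : emb L₀ ((MulSemiringAction.toAlgHom ℤ (𝓞 L₀) (AlgEquiv.restrictNormalHom L₀ τ)) x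
      - x ^ p) = τ (emb L₀ x) - (emb L₀ x) ^ p := by
    rw [map_sub, map_pow]
    congr 1
    exact emb_restrict_smul L₀ τ x
  rw [h0]
  obtain ⟨hτd, hτF⟩ := hτ
  have h1 := hτF (IsLocalRing.residue A ⟨emb L₀ x, emb_mem L₀ A x⟩)
  rw [← IsLocalRing.ResidueField.residue_smul, ← map_pow, ← sub_eq_zero, ← map_sub,
      IsLocalRing.residue_eq_zero_iff, ← ValuationSubring.coe_mem_nonunits_iff] at h1
  exact h1

/-- Lemma 4: an element of the inertia group at `A` restricts to an element acting trivially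
modulo `P`. -/
lemma inertia_restrict {P : Ideal (𝓞 L₀)} (hP : P.IsMaximal)
    {A : ValuationSubring Qb} (hA : ∀ x ∈ P, emb L₀ x ∈ A.nonunits)
    {ι : GQ} (hι : ι ∈ A.inertiaSubgroupIn ℚ) (x : 𝓞 L₀) :
    (AlgEquiv.restrictNormalHom L₀ ι) • x - x ∈ P := by
  apply mem_of_emb_mem_nonunits L₀ hP hA
  rw [map_sub, emb_restrict_smul]
  obtain ⟨ι', hι', rfl⟩ := hι
  have h1 : ι' • (IsLocalRing.residue A ⟨emb L₀ x, emb_mem L₀ A x⟩)
      = IsLocalRing.residue A ⟨emb L₀ x, emb_mem L₀ A x⟩ := by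
    have := congrArg (fun f => f (IsLocalRing.residue A ⟨emb L₀ x, emb_mem L₀ A x⟩))
      (MonoidHom.mem_ker.mp hι')
    simpa using this
  rw [← IsLocalRing.ResidueField.residue_smul, ← sub_eq_zero, ← map_sub,
      IsLocalRing.residue_eq_zero_iff, ← ValuationSubring.coe_mem_nonunits_iff] at h1
  exact h1

end Bridge

/-- Every finite extension of `ℚ` inside `ℚ̄` is contained in a finite Galois one. -/
lemma exists_galois_ge (E : IntermediateField ℚ Qb) [FiniteDimensional ℚ E] :
    ∃ L₀ : IntermediateField ℚ Qb, E ≤ L₀ ∧ FiniteDimensional ℚ L₀ ∧ Normal ℚ L₀ := by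
  haveI : Algebra.IsAlgebraic ℚ Qb := AlgebraicClosure.isAlgebraic ℚ
  haveI : IsAlgClosure ℚ Qb := ⟨inferInstance, inferInstance⟩
  haveI : Normal ℚ Qb := IsAlgClosure.normal ℚ Qb
  refine ⟨IntermediateField.normalClosure ℚ E Qb, ?_, ?_, ?_⟩
  · exact IntermediateField.le_normalClosure E
  · exact normalClosure.is_finiteDimensional ℚ E Qb
  · exact normalClosure.normal ℚ E Qb

lemma exists_pow_of_zpowers_eq {G : Type*} [Group G] [Finite G] {a b : G}
    (h : Subgroup.zpowers a = Subgroup.zpowers b) : ∃ k : ℕ, a = b ^ k := by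
  have h1 : a ∈ Subgroup.zpowers b := h ▸ Subgroup.mem_zpowers a
  rw [← mem_powers_iff_mem_zpowers, Submonoid.mem_powers_iff] at h1
  obtain ⟨k, hk⟩ := h1
  exact ⟨k, hk.symm⟩

/-- **Piece F6** of row CHEB: `Spec.BridgeDivisionStatement`. -/
theorem bridgeDivisionStatement : Spec.BridgeDivisionStatement := by
  intro hFF E hE σ S
  haveI := hE
  obtain ⟨L₀, hEL, hfin, hnorm⟩ := exists_galois_ge E
  haveI := hfin
  haveI := hnorm
  haveI : IsGalois ℚ L₀ := ⟨⟩
  haveI : NumberField L₀ := { to_charZero := inferInstance, to_finiteDimensional := hfin }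
  obtain ⟨p, P, τ₀, hp, hpS, hP, hpP, hI, hτ₀, hz⟩ :=
    hFF L₀ (AlgEquiv.restrictNormalHom L₀ σ) S
  have hPne : P ≠ ⊥ := by
    rintro rfl
    rw [Ideal.mem_bot] at hpP
    exact hp.ne_zero (by exact_mod_cast hpP)
  have hPmax : P.IsMaximal := Ideal.IsPrime.isMaximal hP hPne
  obtain ⟨A, hA⟩ := exists_valuationSubring_over L₀ P hP.ne_top
  have hAp : A.LiesOverPrime p := by
    have := hA _ hpP
    rw [emb_apply] at this
    show (p : Qb) ∈ A.nonunits
    simpa using this
  obtain ⟨τ, hτ⟩ := Fermat.Agent.S37.H99.exists_isFrobeniusAt p hp A hAp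
  -- the restriction of `τ` is the Frobenius `τ₀`
  have hτ₁ : IsArithFrobAt ℤ (AlgEquiv.restrictNormalHom L₀ τ) P :=
    isArithFrobAt_restrict L₀ hp hPmax hpP hA hτ
  have hττ₀ : AlgEquiv.restrictNormalHom L₀ τ = τ₀ := by
    have h1 : (AlgEquiv.restrictNormalHom L₀ τ) * τ₀⁻¹ = 1 := by
      apply hI
      intro x
      exact IsArithFrobAt.mul_inv_mem_inertia hτ₁ hτ₀ x
    exact mul_inv_eq_one.mp h1
  obtain ⟨k, hk⟩ := exists_pow_of_zpowers_eq hz
  obtain ⟨j, hj⟩ := exists_pow_of_zpowers_eq hz.symm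
  have hcoe : ∀ (g : GQ) (x : Qb) (hx : x ∈ L₀),
      (((AlgEquiv.restrictNormalHom L₀ g) ⟨x, hx⟩ : L₀) : Qb) = g x := fun g x hx =>
    AlgEquiv.restrictNormal_commutes g L₀ ⟨x, hx⟩
  refine ⟨p, A, τ, k, j, hp, hpS, hAp, hτ, ?_, ?_, ?_⟩
  · intro ι hι x hx
    have h1 : AlgEquiv.restrictNormalHom L₀ ι = 1 := by
      apply hI
      intro y
      exact inertia_restrict L₀ hPmax hA hι y
    have h2 := hcoe ι x (hEL hx)
    rw [h1] at h2
    exact h2.symm
  · intro x hx
    rw [← hcoe τ x (hEL hx), ← hcoe (σ ^ k) x (hEL hx), hττ₀, hk, map_pow]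
  · intro x hx
    rw [← hcoe (τ ^ j) x (hEL hx), ← hcoe σ x (hEL hx), map_pow, hττ₀, ← hj]

end Fermat.Agent.Lib.Cheb.H943

end
-- ===== PACK-END Lib/Cheb/H943/Bridge.lean

-- ===== PACK-BEGIN A2/T1/H669/T1Core.lean
section


/-!
# WALL A2, piece T1, core (helper669): from finite levels to `F̄`

`kummerTarget_of_levels` : the Kummer form of the wall (`Spec.KummerTarget`, unfolded) follows from
the corresponding statement at ONE suitable level `E ⊆ ℚ̄` for each finite set of constants: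

  for every finite `S ⊆ ℚ̄` there are an intermediate field `E ⊇ S`, an automorphism `τE` of `E`
  which is the restriction of `τ`, such that for every `y ∈ F_E^×` with `DivisibleDiv E m y`
  (unfolded: `y = u · h^m` at every discrete valuation subring of `F_E` containing `E`) the
  element `(τE - 1)² y` is an `m`-th power in `F_E`.

This file imports only files which are on main (Prelude, `S18.H602`, `S18.H845`); the
instantiation from ALG / MOD / IF of `origin/helper13:Fermat/Agent/A2/Skel.lean` is `T1.lean`.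
-/

set_option autoImplicit false
set_option synthInstance.maxHeartbeats 400000
set_option maxHeartbeats 1600000

noncomputable section

namespace Fermat.Agent.A2.T1.H669

open ModularCurve AlgebraicCurve

/-- A finite-dimensional intermediate field is contained in every intermediate field containing
a suitable finite set. -/
theorem exists_finset_le (E₀ : IntermediateField ℚ _root_.Fermat.Agent.A2.T1.H669.Qb) [FiniteDimensional ℚ E₀] :
    ∃ S : Finset _root_.Fermat.Agent.A2.T1.H669.Qb, ∀ E : IntermediateField ℚ _root_.Fermat.Agent.A2.T1.H669.Qb, (∀ s ∈ S, s ∈ E) → E₀ ≤ E := by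
  classical
  let b := Module.finBasis ℚ E₀
  refine ⟨Finset.univ.image fun i => ((b i : E₀) : _root_.Fermat.Agent.A2.T1.H669.Qb), fun E hE x hx => ?_⟩
  have hx' : (⟨x, hx⟩ : E₀) = ∑ i, (b.repr ⟨x, hx⟩ i) • b i := (b.sum_repr ⟨x, hx⟩).symm
  have hcoe : x = ((∑ i, (b.repr ⟨x, hx⟩ i) • b i : E₀) : _root_.Fermat.Agent.A2.T1.H669.Qb) :=
    congrArg (fun z : E₀ => (z : _root_.Fermat.Agent.A2.T1.H669.Qb)) hx'
  rw [hcoe, IntermediateField.coe_sum]
  refine sum_mem fun i _ => ?_
  have hi : ((b i : E₀) : _root_.Fermat.Agent.A2.T1.H669.Qb) ∈ E := hE _ (Finset.mem_image.2 ⟨i, Finset.mem_univ i, rfl⟩)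
  rw [IntermediateField.coe_smul, Algebra.smul_def]
  exact mul_mem (E.algebraMap_mem _) hi

/-- Every element of `F̄` comes from `F_E` for every intermediate field `E` containing a suitable
finite set of constants. -/
theorem exists_finset_descent (F₀ : IntermediateField ℚ (LaurentSeries ℚ))
    (f : ↥(laurentBaseChange _root_.Fermat.Agent.A2.T1.H669.Qb F₀)) :
    ∃ S : Finset _root_.Fermat.Agent.A2.T1.H669.Qb, ∀ E : IntermediateField ℚ _root_.Fermat.Agent.A2.T1.H669.Qb, (∀ s ∈ S, s ∈ E) →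
      ∃ y : ↥(laurentBaseChange E F₀), iota E F₀ y = f := by
  obtain ⟨E₀, hE₀fin, y₀, hy₀mem, hy₀⟩ :=
    Fermat.Agent.S18.H602.exists_finite_descent (F₀ := F₀) f.2
  haveI := hE₀fin
  obtain ⟨S, hS⟩ := exists_finset_le E₀
  refine ⟨S, fun E hSE => ?_⟩
  obtain ⟨y₁, hy₁mem, hy₁⟩ :=
    Fermat.Agent.S18.H602.DescendsTo.mono (hS E hSE)
      (⟨y₀, hy₀mem, hy₀⟩ : Fermat.Agent.S18.H602.DescendsTo F₀ E₀ (f : LaurentSeries _root_.Fermat.Agent.A2.T1.H669.Qb))
  exact ⟨⟨y₁, hy₁mem⟩, Subtype.ext hy₁⟩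

/-- **T1, core.**  One `τ`: the Kummer statement on `F̄` from the Kummer statement at suitable
finite levels. -/
theorem kummer_of_levels (F₀ : IntermediateField ℚ (LaurentSeries ℚ)) (m : ℕ)
    (τ : _root_.Fermat.Agent.A2.T1.H669.Qb ≃ₐ[ℚ] _root_.Fermat.Agent.A2.T1.H669.Qb)
    (hlevel : ∀ S : Finset _root_.Fermat.Agent.A2.T1.H669.Qb, ∃ E : IntermediateField ℚ _root_.Fermat.Agent.A2.T1.H669.Qb, (∀ s ∈ S, s ∈ E) ∧
      ∃ τE : E ≃ₐ[ℚ] E, (∀ e : E, ((τE e : E) : _root_.Fermat.Agent.A2.T1.H669.Qb) = τ (e : _root_.Fermat.Agent.A2.T1.H669.Qb)) ∧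
        ∀ y : ↥(laurentBaseChange E F₀), y ≠ 0 →
          (∀ V : ValuationSubring ↥(laurentBaseChange E F₀), IsDiscreteValuationRing V →
            (∀ e : E, algebraMap E ↥(laurentBaseChange E F₀) e ∈ V) →
            ∃ h u : ↥(laurentBaseChange E F₀), h ≠ 0 ∧ u ∈ V ∧ u⁻¹ ∈ V ∧ y = u * h ^ m) →
          ∃ h : ↥(laurentBaseChange E F₀), h ≠ 0 ∧
            arithmeticRingAut F₀ τE (arithmeticRingAut F₀ τE y) * y =
              h ^ m * (arithmeticRingAut F₀ τE y) ^ 2)
    (f : ↥(laurentBaseChange _root_.Fermat.Agent.A2.T1.H669.Qb F₀)) (hf : f ≠ 0)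
    (hdiv : ∀ v : Place _root_.Fermat.Agent.A2.T1.H669.Qb ↥(laurentBaseChange _root_.Fermat.Agent.A2.T1.H669.Qb F₀), (m : ℤ) ∣ v.ord f) :
    ∃ h : ↥(laurentBaseChange _root_.Fermat.Agent.A2.T1.H669.Qb F₀), h ≠ 0 ∧
      arithmeticRingAut F₀ τ (arithmeticRingAut F₀ τ f) * f =
        h ^ m * (arithmeticRingAut F₀ τ f) ^ 2 := by
  obtain ⟨S, hS⟩ := exists_finset_descent F₀ f
  obtain ⟨E, hSE, τE, hτE, hE⟩ := hlevel S
  obtain ⟨y, hιy⟩ := hS E hSE
  have hy0 : y ≠ 0 := by
    rintro h0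
    apply hf
    rw [← hιy, h0, map_zero]
  obtain ⟨h, hh0, hh⟩ := hE y hy0
    (divisibleDiv_of_ord E F₀ m y hy0 (fun v => by rw [hιy]; exact hdiv v))
  refine ⟨iota E F₀ h, iota_ne_zero E _ hh0, ?_⟩
  have := congrArg (iota E F₀) hh
  rw [map_mul, map_mul, map_pow, map_pow,
    iota_arithmeticRingAut E F₀ τ τE hτE,
    iota_arithmeticRingAut E F₀ τ τE hτE, hιy] at this
  exact this

end Fermat.Agent.A2.T1.H669

end
end
-- ===== PACK-END A2/T1/H669/T1Core.lean

-- ===== PACK-BEGIN S30/H330/AdicAssembly.lean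
section
/-
S30 -- ADIC MODULE LAYER, pieces 2-4 (helper330): eigenvector, finiteness of `J[p]`, assembly.
`hasAdicFrobModule_of_inputs` : (K) + (P) + (T) + (Sm) + (GH)  ⟹  `HasAdicFrobModule`.
-/



set_option autoImplicit false

noncomputable section

namespace Fermat.Agent.S30.H330

open Fermat.Agent.S29 ModularCurve
open scoped MatrixGroups

/-! ### Generalities on parabolic characters -/

section ParHom

variable {N : ℕ}

theorem isParHom_zero {A : Type*} [AddCommGroup A] : IsParHom (0 : G0 N → A) :=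
  ⟨fun _ _ => by simp, fun _ _ => rfl, fun _ _ _ _ => rfl⟩

theorem isParHom_add {A : Type*} [AddCommGroup A] {c c' : G0 N → A} (hc : IsParHom c)
    (hc' : IsParHom c') : IsParHom (c + c') :=
  ⟨fun γ γ' => by simp only [Pi.add_apply, hc.map_mul, hc'.map_mul]; abel,
    fun γ h => by simp only [Pi.add_apply, hc.parabolic γ h, hc'.parabolic γ h, add_zero],
    fun γ n hn h => by
      simp only [Pi.add_apply, hc.elliptic γ n hn h, hc'.elliptic γ n hn h, add_zero]⟩

theorem isParHom_nsmul {A : Type*} [AddCommGroup A] {c : G0 N → A} (hc : IsParHom c) (n : ℕ) :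
    IsParHom (n • c) := by
  induction n with
  | zero => rw [zero_nsmul]; exact isParHom_zero
  | succ n ih => rw [succ_nsmul]; exact isParHom_add ih hc

/-- Push-forward of a parabolic character along an additive map. -/
theorem isParHom_comp {A B : Type*} [AddCommGroup A] [AddCommGroup B] {c : G0 N → A}
    (hc : IsParHom c) (φ : A →+ B) : IsParHom (fun γ => φ (c γ)) :=
  ⟨fun γ γ' => by simp only [hc.map_mul, map_add],
    fun γ h => by simp only [hc.parabolic γ h, map_zero],
    fun γ n hn h => by simp only [hc.elliptic γ n hn h, map_zero]⟩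

theorem isParHom_map_one {A : Type*} [AddCommGroup A] {c : G0 N → A} (hc : IsParHom c) :
    c 1 = 0 := by
  have := hc.map_mul 1 1
  rw [mul_one] at this
  exact left_eq_add.mp this

theorem heckeCoh_comp {A B : Type*} [AddCommGroup A] [AddCommGroup B] (ℓ : ℕ) (c : G0 N → A)
    (φ : A →+ B) : heckeCoh N ℓ (fun γ => φ (c γ)) = fun γ => φ (heckeCoh N ℓ c γ) := by
  funext γ
  simp only [heckeCoh, map_sum]

end ParHom

/-! ### Consequences of the Kummer statement -/

section Kummer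

variable {N : ℕ}

theorem kummer_zero {κ : (G0 N → QZ) → JZero N}
    (hadd : ∀ c c', IsParHom c → IsParHom c' → κ (c + c') = κ c + κ c') : κ 0 = 0 := by
  have := hadd 0 0 isParHom_zero isParHom_zero
  rw [add_zero] at this
  exact left_eq_add.mp this

theorem kummer_nsmul {κ : (G0 N → QZ) → JZero N}
    (hadd : ∀ c c', IsParHom c → IsParHom c' → κ (c + c') = κ c + κ c') {c : G0 N → QZ}
    (hc : IsParHom c) (n : ℕ) : κ (n • c) = n • κ c := by
  induction n with
  | zero => rw [zero_nsmul, zero_nsmul]; exact kummer_zero hadd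
  | succ n ih => rw [succ_nsmul, succ_nsmul, hadd _ _ (isParHom_nsmul hc n) hc, ih]

end Kummer

/-! ### Piece 3: finiteness of the `p`-torsion -/

section Fin

variable {N : ℕ} [NeZero N]

theorem fg_SL2Z : Group.FG SL(2, ℤ) := by
  rw [Group.fg_iff]
  exact ⟨{ModularGroup.S, ModularGroup.T}, SpecialLinearGroup.SL2Z_generators,
    Set.toFinite _⟩

theorem fg_G0 : Group.FG (G0 N) := by
  have := fg_SL2Z
  exact Subgroup.fg_of_index_ne_zero (CongruenceSubgroup.Gamma0 N)

/-- The `p`-torsion of `ℚ/ℤ` is finite. -/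
theorem finite_QZ_torsion {p : ℕ} (hp : p.Prime) : {y : QZ | p • y = 0}.Finite := by
  have h1 := AddCircle.finite_setOfPred_addOrderOf_eq (1 : ℚ) (n := 1) one_pos
  have hp' := AddCircle.finite_setOfPred_addOrderOf_eq (1 : ℚ) (n := p) hp.pos
  refine (h1.union hp').subset ?_
  intro y hy
  have hdvd : addOrderOf y ∣ p := addOrderOf_dvd_of_nsmul_eq_zero hy
  rcases (Nat.dvd_prime hp).mp hdvd with h | h
  · exact Or.inl h
  · exact Or.inr h

/-- A parabolic character as a monoid homomorphism. -/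
def parHomToMonoidHom {c : G0 N → QZ} (hc : IsParHom c) : G0 N →* Multiplicative QZ where
  toFun γ := Multiplicative.ofAdd (c γ)
  map_one' := by rw [isParHom_map_one hc]; rfl
  map_mul' γ γ' := by rw [hc.map_mul]; rfl

omit [NeZero N] in
theorem parHom_ext {S₀ : Set (G0 N)} (hS₀ : Subgroup.closure S₀ = ⊤) {c c' : G0 N → QZ}
    (hc : IsParHom c) (hc' : IsParHom c') (h : ∀ s ∈ S₀, c s = c' s) : c = c' := by
  have heq : parHomToMonoidHom hc = parHomToMonoidHom hc' := by
    refine MonoidHom.eq_of_eqOn_dense hS₀ ?_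
    intro s hs
    show Multiplicative.ofAdd (c s) = Multiplicative.ofAdd (c' s)
    rw [h s hs]
  funext γ
  have := congrArg (fun φ : G0 N →* Multiplicative QZ => Multiplicative.toAdd (φ γ)) heq
  exact this

/-- The set of parabolic characters of exponent `p` is finite. -/
theorem finite_parHom_torsion {p : ℕ} (hp : p.Prime) :
    {c : G0 N → QZ | IsParHom c ∧ p • c = 0}.Finite := by
  classical
  obtain ⟨S₀, hS₀, hS₀fin⟩ := Group.fg_iff.mp (fg_G0 (N := N))
  have : Finite S₀ := hS₀fin.to_subtype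
  let f : (G0 N → QZ) → (S₀ → QZ) := fun c s => c s
  refine Set.Finite.of_finite_image (f := f) ?_ ?_
  · refine (Set.Finite.pi (t := fun _ : S₀ => {y : QZ | p • y = 0})
      (fun _ => finite_QZ_torsion hp)).subset ?_
    rintro _ ⟨c, ⟨-, hc⟩, rfl⟩
    intro s _
    show p • c s = 0
    have := congrFun hc s
    simpa using this
  · rintro c ⟨hc, -⟩ c' ⟨hc', -⟩ h
    refine parHom_ext hS₀ hc hc' fun s hs => ?_
    exact congrFun h ⟨s, hs⟩

/-- PIECE 3: finiteness of the `p`-torsion of `J₀(N)(ℚ̄)`. -/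
theorem finite_torsion {p : ℕ} [Fact p.Prime] (hK : KummerStatement N p) :
    {x : JZero N | p • x = 0}.Finite := by
  obtain ⟨κ, hadd, hinj, hsurj, -⟩ := hK
  refine ((finite_parHom_torsion (N := N) (Fact.out : p.Prime)).image κ).subset ?_
  intro x hx
  obtain ⟨c, hc, rfl⟩ := hsurj x ⟨1, by simpa using hx⟩
  refine ⟨c, ⟨hc, ?_⟩, rfl⟩
  apply hinj _ (isParHom_nsmul hc p)
  rw [kummer_nsmul hadd hc]
  exact hx

end Fin

/-! ### Piece 2: the eigenvector -/

section Eigen

/-- A nonzero additive character `ϑ : L → ℚ/ℤ` killing `O`, with `ϑ(1/ϖ) ≠ 0`. -/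
theorem exists_character {O : Type} [CommRing O] [IsDomain O] {ϖ : O} (hϖ : Irreducible ϖ) :
    ∃ ϑ : FractionRing O →+ QZ, (∀ r : O, ϑ (algebraMap O (FractionRing O) r) = 0) ∧
      ϑ ((algebraMap O (FractionRing O) ϖ)⁻¹) ≠ 0 := by
  let Osub : AddSubgroup (FractionRing O) := (algebraMap O (FractionRing O)).toAddMonoidHom.range
  have hne : (QuotientAddGroup.mk ((algebraMap O (FractionRing O) ϖ)⁻¹) : FractionRing O ⧸ Osub)
      ≠ 0 := by
    intro h
    rw [QuotientAddGroup.eq_zero_iff] at h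
    obtain ⟨r, hr⟩ := h
    have hϖ0 : algebraMap O (FractionRing O) ϖ ≠ 0 := algebraMap_irreducible_ne_zero hϖ
    have h1 : algebraMap O (FractionRing O) (r * ϖ) = algebraMap O (FractionRing O) 1 := by
      rw [map_mul, map_one]
      have : algebraMap O (FractionRing O) r = (algebraMap O (FractionRing O) ϖ)⁻¹ := hr
      rw [this, inv_mul_cancel₀ hϖ0]
    have h2 : r * ϖ = 1 := IsFractionRing.injective O (FractionRing O) h1
    exact hϖ.not_isUnit (IsUnit.of_mul_eq_one r (by rw [mul_comm]; exact h2))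
  obtain ⟨ϑ₀, hϑ₀⟩ := CharacterModule.exists_character_apply_ne_zero_of_ne_zero hne
  refine ⟨(show (FractionRing O ⧸ Osub) →+ QZ from ϑ₀).comp (QuotientAddGroup.mk' Osub),
    fun r => ?_, hϑ₀⟩
  show ϑ₀ (QuotientAddGroup.mk (algebraMap O (FractionRing O) r)) = 0
  have : (QuotientAddGroup.mk (algebraMap O (FractionRing O) r) : FractionRing O ⧸ Osub) = 0 := by
    rw [QuotientAddGroup.eq_zero_iff]
    exact ⟨r, rfl⟩
  rw [this, map_zero]

theorem eigenvalue_eq {N : ℕ} [NeZero N] {S : Finset ℕ} {O : Type} [CommRing O]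
    (χ : CuspForm.heckeAlgebra N 2 (↑S : Set ℕ) →+* O) {ℓ : ℕ} (hℓ : ℓ.Prime) (hℓN : ¬ ℓ ∣ N)
    (hℓS : ℓ ∉ (↑S : Set ℕ)) : eigenvalue χ ℓ = χ (CuspForm.heckeAlgebra.T hℓ hℓN hℓS) := by
  unfold eigenvalue
  rw [dif_pos ⟨hℓ, hℓN, hℓS⟩]

/-- PIECE 2: the eigenvector `f(x) = κ(γ ↦ ϑ(c(γ) x))`. -/
theorem exists_eigenHom {p : ℕ} [Fact p.Prime] {N : ℕ} [NeZero N] {S : Finset ℕ}
    (hpS : p ∈ S) (hNS : ∀ q : ℕ, q.Prime → q ∣ N → q ∈ S)
    {O : Type} [CommRing O] [IsDomain O] [IsDiscreteValuationRing O]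
    (χ : CuspForm.heckeAlgebra N 2 (↑S : Set ℕ) →+* O)
    (hK : KummerStatement N p) (hP : ParEigenStatement N S O χ) :
    ∃ f : FractionRing O →+ JZero N,
      (∀ r : O, f (algebraMap O (FractionRing O) r) = 0) ∧ f ≠ 0 ∧
      ∀ (ℓ : Nat.Primes), (ℓ : ℕ) ∉ S → ∀ x,
        heckeOperatorBar N ℓ (f x) =
          f (algebraMap O (FractionRing O) (eigenvalue χ ℓ) * x) := by
  classical
  obtain ⟨κ, hadd, hinj, -, hhecke⟩ := hK
  obtain ⟨c, hc, hc0, hceig⟩ := hP
  obtain ⟨ϖ, hϖ⟩ := IsDiscreteValuationRing.exists_irreducible O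
  obtain ⟨ϑ, hϑ0, hϑ1⟩ := exists_character hϖ
  -- the additive map `r ↦ ϑ (r x)`
  let φ : FractionRing O → (O →+ QZ) := fun x =>
    ϑ.comp ((AddMonoidHom.mulRight x).comp (algebraMap O (FractionRing O)).toAddMonoidHom)
  have hφ : ∀ x r, φ x r = ϑ (algebraMap O (FractionRing O) r * x) := fun x r => rfl
  let cx : FractionRing O → (G0 N → QZ) := fun x γ => φ x (c γ)
  have hcx : ∀ x, IsParHom (cx x) := fun x => isParHom_comp hc (φ x)
  have hcx_add : ∀ x y, cx (x + y) = cx x + cx y := by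
    intro x y
    funext γ
    show φ (x + y) (c γ) = φ x (c γ) + φ y (c γ)
    rw [hφ, hφ, hφ, mul_add, map_add]
  let f : FractionRing O →+ JZero N := AddMonoidHom.mk' (fun x => κ (cx x)) (fun x y => by
    show κ (cx (x + y)) = κ (cx x) + κ (cx y)
    rw [hcx_add, hadd _ _ (hcx x) (hcx y)])
  have hf : ∀ x, f x = κ (cx x) := fun x => rfl
  refine ⟨f, fun r => ?_, ?_, fun ℓ hℓS x => ?_⟩
  · rw [hf]
    have : cx (algebraMap O (FractionRing O) r) = 0 := by
      funext γ
      show φ _ (c γ) = 0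
      rw [hφ, ← map_mul]
      exact hϑ0 _
    rw [this]
    exact kummer_zero hadd
  · intro hf0
    obtain ⟨γ₀, hγ₀⟩ : ∃ γ₀, c γ₀ ≠ 0 := by
      by_contra h
      push Not at h
      exact hc0 (funext h)
    have hcγ : algebraMap O (FractionRing O) (c γ₀) ≠ 0 := by
      simpa using hγ₀
    set x₀ : FractionRing O :=
      (algebraMap O (FractionRing O) (c γ₀))⁻¹ * (algebraMap O (FractionRing O) ϖ)⁻¹ with hx₀
    have h1 : κ (cx x₀) = 0 := by
      rw [← hf, hf0]
      rfl
    have h2 := hinj _ (hcx x₀) h1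
    have h3 : cx x₀ γ₀ = 0 := by rw [h2]; rfl
    apply hϑ1
    have h4 : cx x₀ γ₀ = ϑ ((algebraMap O (FractionRing O) ϖ)⁻¹) := by
      show φ x₀ (c γ₀) = _
      rw [hφ, hx₀, mul_inv_cancel_left₀ hcγ]
    rw [← h4, h3]
  · have hℓ : (ℓ : ℕ).Prime := ℓ.2
    have hℓN : ¬ (ℓ : ℕ) ∣ N := fun h => hℓS (hNS _ hℓ h)
    have hℓS' : (ℓ : ℕ) ∉ (↑S : Set ℕ) := by simpa using hℓS
    have hℓNp : ¬ (ℓ : ℕ) ∣ N * p := by
      intro h
      rcases (Nat.Prime.dvd_mul hℓ).mp h with h | h
      · exact hℓN h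
      · have : (ℓ : ℕ) = p := (Nat.prime_dvd_prime_iff_eq hℓ (Fact.out : p.Prime)).mp h
        exact hℓS (this ▸ hpS)
    rw [hf, hf, ← hhecke ℓ hℓNp _ (hcx x)]
    congr 1
    rw [show cx x = fun γ => φ x (c γ) from rfl, heckeCoh_comp]
    funext γ
    show φ x (heckeCoh N ℓ c γ) = φ _ (c γ)
    rw [hφ, hφ, hceig ℓ hℓ hℓN hℓS' γ, eigenvalue_eq χ hℓ hℓN hℓS']
    congr 1
    rw [map_mul (algebraMap O (FractionRing O))]
    ring

end Eigen

/-! ### Piece 4: assembly -/

/-- ASSEMBLY of the adic module layer: (K) + (P) + (T) + (Sm) + (GH) ⟹ `HasAdicFrobModule`. -/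
theorem hasAdicFrobModule_of_inputs {p : ℕ} [Fact p.Prime] {N : ℕ} [NeZero N] {S : Finset ℕ}
    (hpS : p ∈ S) (hNS : ∀ q : ℕ, q.Prime → q ∣ N → q ∈ S)
    {O : Type} [CommRing O] [IsDomain O] [IsDiscreteValuationRing O]
    [IsAdicComplete (IsLocalRing.maximalIdeal O) O] [Finite (IsLocalRing.ResidueField O)]
    [CharZero O] (hpO : (p : O) ∈ IsLocalRing.maximalIdeal O)
    (χ : CuspForm.heckeAlgebra N 2 (↑S : Set ℕ) →+* O)
    (hK : KummerStatement N p) (hP : ParEigenStatement N S O χ) (hT : TorsionRelations N p)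
    (hSm : SmoothStatement N) (hGH : GaloisHeckeStatement N) :
    HasAdicFrobModule O (N * p) (fun ℓ => ℓ ∉ S) (eigenvalue χ) := by
  classical
  obtain ⟨f, hf0, hf, hfe⟩ := exists_eigenHom hpS hNS χ hK hP
  have hfin := finite_torsion hK
  -- index set of Hecke operators
  let t : {ℓ : Nat.Primes // (ℓ : ℕ) ∉ S} → JZero N →+ JZero N := fun i =>
    (heckeOperatorBar N i.1).toAddMonoidHom
  let a : {ℓ : Nat.Primes // (ℓ : ℕ) ∉ S} → O := fun i => eigenvalue χ (i.1 : ℕ)
  have ht : ∀ i (σ : GQ) (x : JZero N), σ • t i x = t i (σ • x) := fun i σ x => hGH σ i.1 x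
  obtain ⟨M, i1, i2, i3, i4, ρ, hnt, hcont, hunr, hquad⟩ :=
    adicModule_of_torsion (J := JZero N) (Fact.out : p.Prime) hpO (fun x => hSm x) hfin t ht a f
      hf0 hf (fun i x => hfe i.1 i.2 x)
  refine ⟨M, i1, i2, i3, i4, ρ, hnt, hcont, ?_, ?_⟩
  · intro ℓ hℓ hℓNp A hA σ hσ
    exact hunr σ fun x hx => (hT ℓ hℓ hℓNp A hA).1 σ hσ x hx
  · intro ℓ hℓ hℓS A hA σ hσ
    have hℓN : ¬ ℓ ∣ N := fun h => hℓS (hNS _ hℓ h)
    have hℓNp : ¬ ℓ ∣ N * p := by
      intro h
      rcases (Nat.Prime.dvd_mul hℓ).mp h with h | h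
      · exact hℓN h
      · have : ℓ = p := (Nat.prime_dvd_prime_iff_eq hℓ (Fact.out : p.Prime)).mp h
        exact hℓS (this ▸ hpS)
    exact hquad ⟨⟨ℓ, hℓ⟩, hℓS⟩ ℓ σ fun x hx => (hT ℓ hℓ hℓNp A hA).2 σ hσ x hx

end Fermat.Agent.S30.H330

end
end
-- ===== PACK-END S30/H330/AdicAssembly.lean

-- ===== PACK-BEGIN S28/H626/Tower.lean
section
/-
S28 helper (helper626): generation of `k(j(q^d) : d ∣ Mp)` over `k(j(q^d) : d ∣ M)` by a single
element, and the degree bounds `≤ p + 1` (`p ∤ M`), `≤ p` (`p ∣ M`).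
-/




set_option autoImplicit false

noncomputable section

open ModularCurve HahnSeries Polynomial IntermediateField

namespace Fermat.Agent.S28.H626

section Hyp

variable (k : Type*) [Field k]

/-- Hypothesis package for level `N`: every prime `p ∣ N` is invertible in `k` and has a
modular polynomial. -/
def HasModPolys (N : ℕ) : Prop :=
  ∀ p (hp : p.Prime), p ∣ N →
    (p : k) ≠ 0 ∧ ∃ Φ : Polynomial (Polynomial ℤ), @IsModPoly p ⟨hp.ne_zero⟩ Φ

variable {k}

theorem HasModPolys.mono {N M : ℕ} (H : HasModPolys k N) (h : M ∣ N) : HasModPolys k M :=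
  fun p hp hpM => H p hp (hpM.trans h)

end Hyp

section Generation

variable {k : Type*} [Field k]

/-- **Generation.** If an intermediate field `E` contains `j(q^d)` for all `d ∣ M` and
`j(q^{p^{b+1}})` for the exact power `p^b ∥ M`, then it contains `j(q^d)` for all `d ∣ M p`. -/
theorem jd_mem_of_gen {M p : ℕ} (hp : p.Prime) (H : HasModPolys k (M * p))
    (E : IntermediateField k (LaurentSeries k))
    (h1 : ∀ (d : ℕ) [NeZero d], d ∣ M → jd k d ∈ E)
    (h2 : ∀ (b : ℕ) [NeZero (p ^ (b + 1))], p ^ b ∣ M → ¬ p ^ (b + 1) ∣ M →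
      jd k (p ^ (b + 1)) ∈ E) :
    ∀ (d : ℕ) [NeZero d], d ∣ M * p → jd k d ∈ E := by
  intro d
  induction d using Nat.strong_induction_on with
  | _ d ih =>
    intro inst hd
    by_cases hdM : d ∣ M
    · exact h1 d hdM
    have hpd : p ∣ d := by
      by_contra hpd
      have hcop : Nat.Coprime d p := ((Nat.Prime.coprime_iff_not_dvd hp).2 hpd).symm
      exact hdM (hcop.dvd_of_dvd_mul_right hd)
    obtain ⟨g, rfl⟩ := hpd
    have hg0 : g ≠ 0 := by
      rintro rfl
      exact (NeZero.ne (p * 0)) (mul_zero p)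
    have hgM : g ∣ M := by
      rw [mul_comm M p] at hd
      exact Nat.dvd_of_mul_dvd_mul_left hp.pos hd
    have : NeZero p := ⟨hp.ne_zero⟩
    by_cases hg : ∃ r, r.Prime ∧ r ∣ g ∧ r ≠ p
    · obtain ⟨r, hr, ⟨e, rfl⟩, hrp⟩ := hg
      have he0 : e ≠ 0 := by
        rintro rfl
        exact hg0 (mul_zero r)
      have : NeZero r := ⟨hr.ne_zero⟩
      have : NeZero e := ⟨he0⟩
      have hrM : r ∣ M * p := (Dvd.intro e rfl : r ∣ r * e).trans (hgM.trans (Dvd.intro p rfl))
      obtain ⟨hpk, Φp, hΦp⟩ := H p hp (Dvd.intro_left M rfl)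
      obtain ⟨hrk, Φr, hΦr⟩ := H r hr hrM
      have : NeZero (p : k) := ⟨hpk⟩
      have : NeZero (r : k) := ⟨hrk⟩
      have m1 : jd k (r * e) ∈ E := h1 (r * e) hgM
      have m2 : jd k (p * e) ∈ E := by
        refine ih (p * e) ?_ ?_
        · have : e < r * e := by
            have := hr.one_lt
            have he : 0 < e := Nat.pos_of_ne_zero he0
            nlinarith
          exact Nat.mul_lt_mul_of_pos_left this hp.pos
        · refine Dvd.dvd.trans ?_ hd
          exact mul_dvd_mul_left p (Dvd.intro_left r rfl)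
      have := jd_mem_of_pair hp hr hrp.symm hΦp hΦr e E m1 m2
      rwa [jd_congr k (show p * r * e = p * (r * e) by ring)] at this
    · have hg' : ∀ {r : ℕ}, r.Prime → r ∣ g → r = p := by
        intro r hr hrg
        by_contra hne
        exact hg ⟨r, hr, hrg, hne⟩
      have hgp := Nat.eq_prime_pow_of_unique_prime_dvd hg0 hg'
      set b := g.primeFactorsList.length with hb
      have hd' : p * g = p ^ (b + 1) := by rw [pow_succ, mul_comm, ← hgp]
      have : NeZero (p ^ (b + 1)) := ⟨pow_ne_zero _ hp.ne_zero⟩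
      rw [jd_congr k hd']
      refine h2 b ?_ ?_
      · rw [← hgp]; exact hgM
      · rw [← hd']; exact hdM

end Generation

/-! ### Degree of a simple extension, in `relrank` form -/

section Degree

variable {K L : Type*} [Field K] [Field L] [Algebra K L]

/-- If `A ≤ B ≤ A(x)`, `x ∈ B` and `x` is a root of a monic `P ∈ A[X]`, then `[B : A] ≤ deg P`. -/
theorem relrank_le_natDegree (A B : IntermediateField K L) (hAB : A ≤ B)
    (x : L) (P : Polynomial A) (hP : P.Monic) (hx : Polynomial.aeval x P = 0)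
    (hB : B ≤ (IntermediateField.adjoin A {x}).restrictScalars K) (hxB : x ∈ B) :
    IntermediateField.relrank A B ≤ (P.natDegree : Cardinal) := by
  have hint : IsIntegral A x := ⟨P, hP, hx⟩
  have hBeq : B = (IntermediateField.adjoin A {x}).restrictScalars K := by
    refine le_antisymm hB ?_
    rw [IntermediateField.restrictScalars_adjoin_eq_sup]
    refine sup_le hAB ?_
    rw [IntermediateField.adjoin_le_iff]
    intro y hy
    rw [Set.mem_singleton_iff] at hy
    rw [hy]
    exact hxB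
  rw [IntermediateField.relrank_eq_rank_of_le hAB]
  have hext : IntermediateField.extendScalars hAB = IntermediateField.adjoin A {x} := by
    ext y
    rw [IntermediateField.mem_extendScalars, hBeq]
    rfl
  rw [hext]
  have := IntermediateField.adjoin.finiteDimensional hint
  rw [← Module.finrank_eq_rank, IntermediateField.adjoin.finrank hint, Nat.cast_le]
  exact Polynomial.natDegree_le_natDegree (minpoly.degree_le_of_ne_zero A x hP.ne_zero hx)

end Degree

/-! ### The tower steps -/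

section Steps

variable {k : Type*} [Field k]

theorem jd_mem_full (N : ℕ) [NeZero N] (d : ℕ) [NeZero d] (hd : d ∣ N) :
    jd k d ∈ modularFunctionFieldFullC k N :=
  jqModCd_mem_full k N hd

theorem full_le_of_forall_mem (N : ℕ) [NeZero N] (E : IntermediateField k (LaurentSeries k))
    (h : ∀ (d : ℕ) [NeZero d], d ∣ N → jd k d ∈ E) : modularFunctionFieldFullC k N ≤ E := by
  rw [modularFunctionFieldFullC, IntermediateField.adjoin_le_iff]
  rintro x ⟨d, hne, hdvd, rfl⟩
  exact h d hdvd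

theorem jd_one : jd k 1 = jqModC k := qExpand_one_apply _

/-- uniqueness of the exact exponent -/
theorem exact_pow_unique {p M a b : ℕ} (ha : p ^ a ∣ M) (ha' : ¬ p ^ (a + 1) ∣ M)
    (hb : p ^ b ∣ M) (hb' : ¬ p ^ (b + 1) ∣ M) : b = a := by
  rcases lt_trichotomy b a with h | h | h
  · exact absurd ((pow_dvd_pow p (Nat.succ_le_of_lt h)).trans ha) hb'
  · exact h
  · exact absurd ((pow_dvd_pow p (Nat.succ_le_of_lt h)).trans hb) ha'

/-- **Generation, packaged.** `k(j_d : d ∣ Mp) ≤ k(j_d : d ∣ M)(j_{p^{a+1}})` for `p^a ∥ M`. -/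
theorem full_mul_le_adjoin {M p a : ℕ} [NeZero M] [NeZero (M * p)] [NeZero (p ^ (a + 1))]
    (hp : p.Prime) (H : HasModPolys k (M * p))
    (ha : p ^ a ∣ M) (ha' : ¬ p ^ (a + 1) ∣ M) :
    modularFunctionFieldFullC k (M * p) ≤
      (IntermediateField.adjoin (modularFunctionFieldFullC k M)
        {jd k (p ^ (a + 1))}).restrictScalars k := by
  refine full_le_of_forall_mem (M * p) _ ?_
  refine jd_mem_of_gen hp H _ ?_ ?_
  · intro d _ hd
    rw [IntermediateField.mem_restrictScalars]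
    exact IntermediateField.algebraMap_mem _ (⟨jd k d, jd_mem_full M d hd⟩ :
      modularFunctionFieldFullC k M)
  · intro b _ hb hb'
    have hba : b = a := exact_pow_unique ha ha' hb hb'
    subst hba
    rw [IntermediateField.mem_restrictScalars]
    exact IntermediateField.subset_adjoin _ _ (Set.mem_singleton _)

/-- **Step, `p ∤ M`**: `[k(j_d : d ∣ Mp) : k(j_d : d ∣ M)] ≤ p + 1`. -/
theorem relrank_full_step_of_not_dvd {M p : ℕ} [NeZero M] [NeZero (M * p)]
    (hp : p.Prime) (H : HasModPolys k (M * p)) (hpM : ¬ p ∣ M) :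
    IntermediateField.relrank (modularFunctionFieldFullC k M)
      (modularFunctionFieldFullC k (M * p)) ≤ ((p + 1 : ℕ) : Cardinal) := by
  have instp : NeZero p := ⟨hp.ne_zero⟩
  have instp1 : NeZero (p ^ (0 + 1)) := ⟨pow_ne_zero _ hp.ne_zero⟩
  obtain ⟨-, Φ, hΦ⟩ := H p hp (Dvd.intro_left M rfl)
  have hAB : modularFunctionFieldFullC k M ≤ modularFunctionFieldFullC k (M * p) :=
    full_degeneracyC_le k (Dvd.intro p rfl)
  have hj : jqModC k ∈ modularFunctionFieldFullC k M := jqModC_mem_full k M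
  have hx : jd k (p ^ (0 + 1)) = jd k p := jd_congr k (by simp)
  have key := relrank_le_natDegree (modularFunctionFieldFullC k M)
    (modularFunctionFieldFullC k (M * p)) hAB (jd k (p ^ (0 + 1)))
    (spec Φ (⟨jqModC k, hj⟩ : modularFunctionFieldFullC k M)) (spec_monic hΦ.monic _) ?_
    (full_mul_le_adjoin hp H (by simp) (by simpa using hpM)) ?_
  · rwa [spec_natDegree hΦ.monic, hΦ.natDegree_eq] at key
  · rw [Polynomial.aeval_def, Polynomial.eval₂_eq_eval_map, map_spec, eval_spec, hx]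
    show ev2 Φ (jqModC k) (jd k p) = 0
    have := ev2_jd_up (k := k) hΦ 1
    rwa [jd_one, jd_congr k (one_mul p)] at this
  · rw [hx]
    exact jd_mem_full (M * p) p (Dvd.intro_left M rfl)

/-- **Step, `p ∣ M`**: `[k(j_d : d ∣ Mp) : k(j_d : d ∣ M)] ≤ p`. -/
theorem relrank_full_step_of_dvd {M p : ℕ} [NeZero M] [NeZero (M * p)]
    (hp : p.Prime) (H : HasModPolys k (M * p)) (hpM : p ∣ M) :
    IntermediateField.relrank (modularFunctionFieldFullC k M)
      (modularFunctionFieldFullC k (M * p)) ≤ ((p : ℕ) : Cardinal) := by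
  classical
  have instp : NeZero p := ⟨hp.ne_zero⟩
  obtain ⟨-, Φ, hΦ⟩ := H p hp (Dvd.intro_left M rfl)
  -- the exact exponent
  obtain ⟨a, M', hM', hMeq⟩ := Nat.exists_eq_pow_mul_and_not_dvd (NeZero.ne M) p hp.ne_one
  have ha : p ^ a ∣ M := ⟨M', hMeq⟩
  have ha' : ¬ p ^ (a + 1) ∣ M := by
    rintro ⟨c, hc⟩
    apply hM'
    have h3 : p ^ a * M' = p ^ a * (p * c) := by rw [← hMeq, hc, pow_succ]; ring
    exact ⟨c, Nat.eq_of_mul_eq_mul_left (pow_pos hp.pos a) h3⟩
  have ha1 : a ≠ 0 := by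
    rintro rfl
    apply hM'
    rw [pow_zero, one_mul] at hMeq
    rwa [← hMeq]
  obtain ⟨a', rfl⟩ := Nat.exists_eq_succ_of_ne_zero ha1
  have inst1 : NeZero (p ^ (a' + 1 + 1)) := ⟨pow_ne_zero _ hp.ne_zero⟩
  have inst2 : NeZero (p ^ (a' + 1)) := ⟨pow_ne_zero _ hp.ne_zero⟩
  have inst3 : NeZero (p ^ a') := ⟨pow_ne_zero _ hp.ne_zero⟩
  have hAB : modularFunctionFieldFullC k M ≤ modularFunctionFieldFullC k (M * p) :=
    full_degeneracyC_le k (Dvd.intro p rfl)
  have hy : jd k (p ^ (a' + 1)) ∈ modularFunctionFieldFullC k M := jd_mem_full M _ ha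
  have hz : jd k (p ^ a') ∈ modularFunctionFieldFullC k M :=
    jd_mem_full M _ ((pow_dvd_pow p (Nat.le_succ a')).trans ha)
  set y' : modularFunctionFieldFullC k M := ⟨jd k (p ^ (a' + 1)), hy⟩ with hy'
  set z' : modularFunctionFieldFullC k M := ⟨jd k (p ^ a'), hz⟩ with hz'
  set x : LaurentSeries k := jd k (p ^ (a' + 1 + 1)) with hxdef
  -- `z'` is a root of `P₀ = Φ(y', X)`
  have hroot : (spec Φ y').IsRoot z' := by
    rw [Polynomial.IsRoot, eval_spec]
    apply (algebraMap (modularFunctionFieldFullC k M) (LaurentSeries k)).injective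
    rw [map_ev2, map_zero]
    show ev2 Φ (jd k (p ^ (a' + 1))) (jd k (p ^ a')) = 0
    have := ev2_jd_down (k := k) hΦ (p ^ a')
    rwa [jd_congr k (show p ^ a' * p = p ^ (a' + 1) from (pow_succ p a').symm)] at this
  have hfac : (Polynomial.X - Polynomial.C z') * (spec Φ y' /ₘ (Polynomial.X - Polynomial.C z')) = spec Φ y' :=
    Polynomial.mul_divByMonic_eq_iff_isRoot.mpr hroot
  have hmonic0 : (spec Φ y').Monic := spec_monic hΦ.monic _
  have hmonic : (spec Φ y' /ₘ (Polynomial.X - Polynomial.C z')).Monic := by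
    refine Polynomial.Monic.of_mul_monic_left (Polynomial.monic_X_sub_C z') ?_
    rw [hfac]
    exact hmonic0
  have hdeg : (spec Φ y' /ₘ (Polynomial.X - Polynomial.C z')).natDegree = p := by
    rw [Polynomial.natDegree_divByMonic _ (Polynomial.monic_X_sub_C z'),
      spec_natDegree hΦ.monic, hΦ.natDegree_eq, Polynomial.natDegree_X_sub_C]
    rfl
  have hx0 : Polynomial.aeval x (spec Φ y') = 0 := by
    rw [Polynomial.aeval_def, Polynomial.eval₂_eq_eval_map, map_spec, eval_spec]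
    show ev2 Φ (jd k (p ^ (a' + 1))) (jd k (p ^ (a' + 1 + 1))) = 0
    have := ev2_jd_up (k := k) hΦ (p ^ (a' + 1))
    rwa [jd_congr k (show p ^ (a' + 1) * p = p ^ (a' + 1 + 1) from (pow_succ p (a' + 1)).symm)]
      at this
  have hxz : x - jd k (p ^ a') ≠ 0 := by
    rw [sub_ne_zero]
    refine jd_ne_of_ne ?_
    intro h
    have := Nat.pow_right_injective hp.two_le h
    omega
  have hx1 : Polynomial.aeval x (spec Φ y' /ₘ (Polynomial.X - Polynomial.C z')) = 0 := by
    have h := hx0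
    rw [← hfac, map_mul, map_sub, Polynomial.aeval_X, Polynomial.aeval_C] at h
    rcases mul_eq_zero.mp h with h | h
    · exact absurd h hxz
    · exact h
  have key := relrank_le_natDegree (modularFunctionFieldFullC k M)
    (modularFunctionFieldFullC k (M * p)) hAB x
    (spec Φ y' /ₘ (Polynomial.X - Polynomial.C z')) hmonic hx1
    (full_mul_le_adjoin hp H ha ha') ?_
  · rwa [hdeg] at key
  · refine jd_mem_full (M * p) _ ?_
    rw [pow_succ]
    exact mul_dvd_mul_right ha p

end Steps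

end Fermat.Agent.S28.H626

end

end
-- ===== PACK-END S28/H626/Tower.lean

-- ===== PACK-BEGIN S28/H807/Points.lean
section
/-
S28 / helper807 — the points `(τ+b)/p` and `pτ` of the upper half plane, the nome `q(τ)`,
and `q`-expansions of functions on `ℍ`.
-/



set_option autoImplicit false
set_option maxHeartbeats 400000

noncomputable section

open ModularCurve Polynomial Matrix UpperHalfPlane Complex

namespace Fermat.Agent.S28.H807

/-- The nome `q(τ) = exp(2πiτ)`. -/
def nome (τ : ℍ) : ℂ := Complex.exp (2 * Real.pi * Complex.I * (τ : ℂ))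

theorem nome_ne_zero (τ : ℍ) : nome τ ≠ 0 := Complex.exp_ne_zero _

theorem nome_eq_qParam (τ : ℍ) : nome τ = Function.Periodic.qParam 1 (τ : ℂ) := by
  simp [nome, Function.Periodic.qParam]

/-- `f` has the (everywhere convergent) `q`-expansion `c`. -/
def HasQExp (c : LaurentSeries ℂ) (F : ℍ → ℂ) : Prop :=
  ∀ τ : ℍ, HasLSum c (nome τ) (F τ)

theorem hasQExp_iff (c : LaurentSeries ℂ) (F : ℍ → ℂ) :
    HasQExp c F ↔ ∀ τ : ℍ, HasSum (fun n : ℤ => c.coeff n *
      (Function.Periodic.qParam 1 (τ : ℂ)) ^ n) (F τ) := by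
  unfold HasQExp HasLSum
  simp only [nome_eq_qParam]

/-- The point `(τ + b)/p`. -/
def divShift (p : ℕ) [NeZero p] (b : ℤ) (τ : ℍ) : ℍ :=
  ⟨((τ : ℂ) + (b : ℂ)) / (p : ℂ), by
    have hp : (0 : ℝ) < (p : ℝ) := by exact_mod_cast Nat.pos_of_ne_zero (NeZero.ne p)
    have h1 : (((τ : ℂ) + (b : ℂ)) / (p : ℂ)).im = (τ : ℂ).im / (p : ℝ) := by
      rw [show ((p : ℂ)) = ((p : ℝ) : ℂ) by push_cast; rfl, Complex.div_ofReal_im]
      simp
    rw [h1]
    exact div_pos τ.im_pos hp⟩

/-- The point `pτ`. -/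
def mulNat (p : ℕ) [NeZero p] (τ : ℍ) : ℍ :=
  ⟨(p : ℂ) * (τ : ℂ), by
    have hp : (0 : ℝ) < (p : ℝ) := by exact_mod_cast Nat.pos_of_ne_zero (NeZero.ne p)
    have h1 : ((p : ℂ) * (τ : ℂ)).im = (p : ℝ) * (τ : ℂ).im := by
      rw [show ((p : ℂ)) = ((p : ℝ) : ℂ) by push_cast; rfl, Complex.im_ofReal_mul]
    rw [h1]
    exact mul_pos hp τ.im_pos⟩

@[simp] theorem coe_divShift (p : ℕ) [NeZero p] (b : ℤ) (τ : ℍ) :
    ((divShift p b τ : ℍ) : ℂ) = ((τ : ℂ) + (b : ℂ)) / (p : ℂ) := rfl

@[simp] theorem coe_mulNat (p : ℕ) [NeZero p] (τ : ℍ) :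
    ((mulNat p τ : ℍ) : ℂ) = (p : ℂ) * (τ : ℂ) := rfl

theorem nome_mulNat (p : ℕ) [NeZero p] (τ : ℍ) : nome (mulNat p τ) = nome τ ^ p := by
  unfold nome
  rw [← Complex.exp_nat_mul, coe_mulNat]
  congr 1; ring

theorem nome_divShift_pow (p : ℕ) [NeZero p] (b : ℤ) (τ : ℍ) :
    nome (divShift p b τ) ^ p = nome τ := by
  have hp : (p : ℂ) ≠ 0 := by exact_mod_cast NeZero.ne p
  unfold nome
  rw [← Complex.exp_nat_mul, coe_divShift]
  have : (p : ℂ) * (2 * Real.pi * Complex.I * (((τ : ℂ) + (b : ℂ)) / (p : ℂ)))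
      = 2 * Real.pi * Complex.I * (τ : ℂ) + (b : ℂ) * (2 * Real.pi * Complex.I) := by
    field_simp
  rw [this, Complex.exp_add, Complex.exp_int_mul_two_pi_mul_I, mul_one]

theorem nome_divShift_injective (p : ℕ) [NeZero p] (τ : ℍ) :
    Function.Injective (fun b : Fin p => nome (divShift p ((b : ℕ) : ℤ) τ)) := by
  have hp : (p : ℂ) ≠ 0 := by exact_mod_cast NeZero.ne p
  intro b b' h
  simp only [nome] at h
  rw [Complex.exp_eq_exp_iff_exists_int] at h
  obtain ⟨n, hn⟩ := h
  simp only [coe_divShift] at hn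
  have hpi : (2 * Real.pi * Complex.I : ℂ) ≠ 0 := by
    simp [Real.pi_ne_zero]
  have h1 : ((τ : ℂ) + ((b : ℕ) : ℤ)) / (p : ℂ) = ((τ : ℂ) + ((b' : ℕ) : ℤ)) / (p : ℂ) + n := by
    have := hn
    have h2 : 2 * Real.pi * Complex.I * (((τ : ℂ) + ((b : ℕ) : ℤ)) / (p : ℂ))
        = 2 * Real.pi * Complex.I * (((τ : ℂ) + ((b' : ℕ) : ℤ)) / (p : ℂ) + n) := by
      rw [this]; ring
    exact mul_left_cancel₀ hpi h2
  have h3 : (((b : ℕ) : ℤ) : ℂ) = (((b' : ℕ) : ℤ) : ℂ) + (n : ℂ) * (p : ℂ) := by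
    field_simp at h1
    linear_combination h1
  have h4 : ((b : ℕ) : ℤ) = ((b' : ℕ) : ℤ) + n * (p : ℤ) := by exact_mod_cast h3
  have hb := b.2
  have hb' := b'.2
  have hn0 : n = 0 := by
    by_contra hne
    rcases lt_or_gt_of_ne hne with hlt | hgt
    · have : n ≤ -1 := by omega
      have : n * (p : ℤ) ≤ -1 * (p : ℤ) := by
        apply mul_le_mul_of_nonneg_right this; positivity
      omega
    · have : 1 ≤ n := by omega
      have : 1 * (p : ℤ) ≤ n * (p : ℤ) := by
        apply mul_le_mul_of_nonneg_right this; positivity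
      omega
  rw [hn0] at h4
  apply Fin.ext
  omega

/-- **Generic analytic theorem**: the coefficients of `(X - e)·charpoly(secMat p g)` have
convergent `q`-expansions, with values the coefficients of
`(X - E(τ)) ∏_b (X - G((τ+b)/p))`. -/
theorem hasQExp_coeff_mul_charpoly (p : ℕ) [NeZero p] (g e : LaurentSeries ℂ) (G E : ℍ → ℂ)
    (hG : HasQExp g G) (hE : HasQExp e E) (k : ℕ) :
    HasQExp (((X - C e) * (secMat p g).charpoly).coeff k)
      (fun τ => ((X - C (E τ)) *
        ∏ b : Fin p, (X - C (G (divShift p ((b : ℕ) : ℤ) τ)))).coeff k) := by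
  intro τ
  exact hasLSum_coeff_mul_charpoly g e (nome τ)
    (fun b : Fin p => nome (divShift p ((b : ℕ) : ℤ) τ))
    (fun b => nome_ne_zero _) (fun b => nome_divShift_pow p _ τ)
    (nome_divShift_injective p τ)
    (fun b => G (divShift p ((b : ℕ) : ℤ) τ)) (fun b => hG _) (E τ) (hE τ) k

/-- `q`-expansion of `τ ↦ F(pτ)`. -/
theorem HasQExp.mulNat {c : LaurentSeries ℂ} {F : ℍ → ℂ} (h : HasQExp c F) (p : ℕ) [NeZero p] :
    HasQExp (ModularCurve.qExpand ℂ p c) (fun τ => F (mulNat p τ)) := by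
  intro τ
  apply HasLSum.expand
  rw [← nome_mulNat]
  exact h _

theorem HasQExp.mul {c d : LaurentSeries ℂ} {F G : ℍ → ℂ} (h1 : HasQExp c F)
    (h2 : HasQExp d G) : HasQExp (c * d) (fun τ => F τ * G τ) :=
  fun τ => (h1 τ).mul (nome_ne_zero τ) (h2 τ)

theorem HasQExp.add {c d : LaurentSeries ℂ} {F G : ℍ → ℂ} (h1 : HasQExp c F)
    (h2 : HasQExp d G) : HasQExp (c + d) (fun τ => F τ + G τ) :=
  fun τ => (h1 τ).add (h2 τ)

theorem hasQExp_C (a : ℂ) : HasQExp (HahnSeries.C a) (fun _ => a) :=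
  fun _ => hasLSum_C _ a

theorem HasQExp.unique {c : LaurentSeries ℂ} {F G : ℍ → ℂ} (h1 : HasQExp c F)
    (h2 : HasQExp c G) : F = G :=
  funext fun τ => (h1 τ).unique (h2 τ)

end Fermat.Agent.S28.H807

end

end
-- ===== PACK-END S28/H807/Points.lean

-- ===== PACK-BEGIN S28/H685/JFun.lean
section





/-!
# S28 helper (helper685): the analytic `j`-function and its formal `q`-expansion

* `jFun τ = E₄ τ ^ 3 / Δ τ`, holomorphic on `ℍ`, invariant under `SL(2, ℤ)`.
* `hasQLaurent_jFun` : `jFun` is the sum of the Prelude's formal series `ModularCurve.jqModC ℂ`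
  (the image of `ModularCurve.jq` in `ℂ((q))`).
* `exists_polynomial_of_S_invariant` : **the `j`-polynomial principle**.
* `exists_polynomial_of_S_invariant_of_mem` : integrality of the polynomial.
-/

set_option autoImplicit false

namespace Fermat.Agent.S28.H685

open UpperHalfPlane Function Complex Filter HahnSeries ModularForm SlashInvariantForm
  ModularFormClass EisensteinSeries
open scoped Topology Manifold MatrixGroups

noncomputable section

local notation "𝕢" => Periodic.qParam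

/-- The analytic `j`-function (normalised as `q⁻¹ + 744 + ⋯`). -/
def jFun (τ : ℍ) : ℂ := E₄ τ ^ 3 / ModularForm.discriminant τ

/-- The formal `q`-expansion of `E₄`, with complex coefficients. -/
def eisenstein4C : PowerSeries ℂ := ModularCurve.eisenstein4.map (Int.castRingHom ℂ)

theorem qExpansion_E4_eq : qExpansion 1 E₄ = eisenstein4C := by
  ext m
  rw [E_qExpansion_coeff _ ⟨2, rfl⟩]
  simp only [eisenstein4C, ModularCurve.eisenstein4, PowerSeries.coeff_map, PowerSeries.coeff_mk]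
  split_ifs with h
  · simp
  · rw [show bernoulli 4 = -1 / 30 by decide +kernel, ArithmeticFunction.sigma_apply]
    simp only [eq_intCast]
    push_cast
    norm_num

theorem hasQExp_E4 : HasQExp 1 E₄ eisenstein4C := by
  intro τ
  have := ModularForm.hasSum_qExpansion E₄ one_pos one_mem_strictPeriods_SL τ
  rwa [qExpansion_E4_eq] at this

theorem discriminant_eq_etaC (τ : ℍ) :
    ModularForm.discriminant τ = 𝕢 1 τ * etaC (𝕢 1 τ) ^ 24 := by
  rw [discriminant_eq_q_prod]
  congr 1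
  have hq : ‖𝕢 1 (τ : ℂ)‖ < 1 := Periodic.norm_qParam_lt_one one_pos τ.im_pos
  rw [etaC, ← (multipliable_one_sub_pow hq).tprod_pow]

theorem etaC_qParam_ne_zero (τ : ℍ) : etaC (𝕢 1 τ) ≠ 0 := by
  intro h0
  have := discriminant_ne_zero τ
  rw [discriminant_eq_etaC, h0] at this
  simp at this

/-- The formal series `η^24 / q`, with complex coefficients. -/
def dedekindEtaUnitC : PowerSeries ℂ := ModularCurve.dedekindEtaUnit.map (Int.castRingHom ℂ)

theorem dedekindEtaUnitC_eq : dedekindEtaUnitC = etaProdC ^ 24 := by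
  rw [dedekindEtaUnitC, ModularCurve.dedekindEtaUnit, map_pow, etaProdC]

theorem hasQExp_dedekindEtaUnitC : HasQExp 1 (fun τ => etaC (𝕢 1 τ) ^ 24) dedekindEtaUnitC := by
  rw [dedekindEtaUnitC_eq]
  exact hasQExp_etaC.pow 24

theorem dedekindEtaUnitC_inv :
    dedekindEtaUnitC⁻¹ = ModularCurve.dedekindEtaUnitInv.map (Int.castRingHom ℂ) := by
  have h0 : PowerSeries.constantCoeff dedekindEtaUnitC ≠ 0 := by
    rw [dedekindEtaUnitC, ← PowerSeries.coeff_zero_eq_constantCoeff, PowerSeries.coeff_map,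
      PowerSeries.coeff_zero_eq_constantCoeff, ModularCurve.constantCoeff_dedekindEtaUnit]
    simp
  symm
  rw [PowerSeries.eq_inv_iff_mul_eq_one h0, dedekindEtaUnitC, ← map_mul, mul_comm,
    ModularCurve.dedekindEtaUnit_mul_inv, map_one]

/-- The formal numerator of `j`, with complex coefficients. -/
def jNumC : PowerSeries ℂ := ModularCurve.jNum.map (Int.castRingHom ℂ)

theorem jNumC_eq : jNumC = eisenstein4C ^ 3 * dedekindEtaUnitC⁻¹ := by
  rw [jNumC, ModularCurve.jNum, map_mul, map_pow, dedekindEtaUnitC_inv, eisenstein4C]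

theorem constantCoeff_jNumC : PowerSeries.constantCoeff jNumC = 1 := by
  rw [jNumC, ← PowerSeries.coeff_zero_eq_constantCoeff, PowerSeries.coeff_map,
    PowerSeries.coeff_zero_eq_constantCoeff, ModularCurve.constantCoeff_jNum]
  simp

theorem hasQExp_jNumC : HasQExp 1 (fun τ => E₄ τ ^ 3 * (etaC (𝕢 1 τ) ^ 24)⁻¹) jNumC := by
  rw [jNumC_eq]
  refine (hasQExp_E4.pow 3).mul (hasQExp_dedekindEtaUnitC.inv one_pos
    (fun τ => pow_ne_zero _ (etaC_qParam_ne_zero τ)) ?_)
  rw [dedekindEtaUnitC, PowerSeries.coeff_map, PowerSeries.coeff_zero_eq_constantCoeff,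
    ModularCurve.constantCoeff_dedekindEtaUnit]
  simp

theorem jqModC_eq : ModularCurve.jqModC ℂ =
    HahnSeries.single (-1 : ℤ) (1 : ℂ) * HahnSeries.ofPowerSeries ℤ ℂ jNumC := rfl

/-- **Bridge**: the analytic `j`-function is the sum of the Prelude's formal series `jq`. -/
theorem hasQLaurent_jFun : HasQLaurent 1 jFun (ModularCurve.jqModC ℂ) := by
  rw [jqModC_eq, hasQLaurent_single_mul_iff]
  refine hasQExp_jNumC.congr_fun fun τ => ?_
  have hq : 𝕢 1 (τ : ℂ) ≠ 0 := Periodic.qParam_ne_zero _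
  have hη := etaC_qParam_ne_zero τ
  rw [jFun, discriminant_eq_etaC]
  simp only [neg_neg, zpow_one]
  field_simp

/-- `jFun` in the explicit `HasSum` form, in terms of `ModularCurve.jq`. -/
theorem hasSum_jq (τ : ℍ) :
    HasSum (fun n : ℤ => ((ModularCurve.jq.coeff n : ℚ) : ℂ) * 𝕢 1 τ ^ n) (jFun τ) := by
  have := hasQLaurent_jFun τ
  have hc : ∀ n : ℤ, (ModularCurve.jqModC ℂ).coeff n = ((ModularCurve.jq.coeff n : ℚ) : ℂ) := by
    intro n
    rw [← ModularCurve.jqModC_rat, ← ModularCurve.map_jqModC (algebraMap ℚ ℂ),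
      HahnSeries.map_coeff]
    rfl
  simpa only [hc] using this

theorem jFun_S (τ : ℍ) : jFun (ModularGroup.S • τ) = jFun τ := by
  have hS : ((ModularGroup.S : SL(2, ℤ)) : GL (Fin 2) ℝ) ∈ 𝒮ℒ := ⟨ModularGroup.S, rfl⟩
  have h1 : E₄ (ModularGroup.S • τ) = _ := slash_action_eqn'' E₄ hS τ
  have h2 : CuspForm.discriminant (ModularGroup.S • τ) = _ :=
    slash_action_eqn'' CuspForm.discriminant hS τ
  have hd : denom ((ModularGroup.S : SL(2, ℤ)) : GL (Fin 2) ℝ) τ ≠ 0 := denom_ne_zero _ _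
  have hΔ := discriminant_ne_zero τ
  rw [CuspForm.coe_discriminant] at h2
  rw [jFun, jFun]
  rw [h1, h2]
  rw [div_eq_div_iff (mul_ne_zero (zpow_ne_zero _ hd) hΔ) hΔ]
  rw [mul_pow, ← zpow_natCast, ← zpow_mul]
  norm_num
  ring

theorem jFun_T (τ : ℍ) : jFun (ModularGroup.T • τ) = jFun τ :=
  hasQLaurent_jFun.T_invariant τ

theorem mdifferentiable_jFun : MDiff jFun :=
  hasQLaurent_jFun.mdifferentiable one_pos

/-- **The `j`-polynomial principle.**  A function on `ℍ` which is the sum of a convergent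
Laurent series `φ` in `q = exp (2 π i τ)` with exponents `≥ -m` and which is invariant under
`τ ↦ -1/τ` is a polynomial of degree `≤ m` in `j`; the same identity holds formally. -/
theorem exists_polynomial_of_S_invariant (m : ℕ) (F : ℍ → ℂ) (φ : LaurentSeries ℂ)
    (hφ : ∀ n : ℤ, n < -(m : ℤ) → φ.coeff n = 0) (hF : HasQLaurent 1 F φ)
    (hS : ∀ τ, F (ModularGroup.S • τ) = F τ) :
    ∃ P : Polynomial ℂ, P.natDegree ≤ m ∧ φ = Polynomial.aeval (ModularCurve.jqModC ℂ) P ∧
      ∀ τ, F τ = P.eval (jFun τ) :=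
  exists_polynomial_of_S_invariant_aux jFun jNumC constantCoeff_jNumC hasQLaurent_jFun jFun_S
    m F φ hφ hF hS

/-- Version without an a priori bound on the pole order. -/
theorem exists_polynomial_of_S_invariant' (F : ℍ → ℂ) (φ : LaurentSeries ℂ)
    (hF : HasQLaurent 1 F φ) (hS : ∀ τ, F (ModularGroup.S • τ) = F τ) :
    ∃ P : Polynomial ℂ, φ = Polynomial.aeval (ModularCurve.jqModC ℂ) P ∧
      ∀ τ, F τ = P.eval (jFun τ) := by
  obtain ⟨P, -, h1, h2⟩ := exists_polynomial_of_S_invariant (-φ.order).toNat F φ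
    (fun n hn => HahnSeries.coeff_eq_zero_of_lt_order (by omega)) hF hS
  exact ⟨P, h1, h2⟩

end

end Fermat.Agent.S28.H685

end
-- ===== PACK-END S28/H685/JFun.lean

-- ===== PACK-BEGIN S28/H25/ThetaLaurent.lean
section




/-!
# The `θ`-identity for `j` in `ℤ((q))` (helper25, S28 piece [A-θ])

`(θ j)⁶ = Δ · j⁴ · (j - 1728)³` for `j = jqModC ℤ`, `Δ = q ∏ (1 - qⁿ)²⁴`, `θ = q d/dq`,
under the bridge hypothesis `DeltaBridge`.
-/

set_option autoImplicit false

open ModularCurve HahnSeries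

noncomputable section

namespace Fermat.Agent.S28.H25

/-- `θ = q d/dq` on Laurent series: multiplies the coefficient of `qⁿ` by `n`.
(Same definition as `thetaL` in helper28's skeleton.) -/
def thetaLaurent (R : Type*) [CommRing R] (f : LaurentSeries R) : LaurentSeries R where
  coeff n := (n : R) * f.coeff n
  isPWO_support' := f.isPWO_support.mono fun n hn => by
    simp only [Function.mem_support, ne_eq] at hn ⊢
    intro h
    exact hn (by rw [h, mul_zero])

@[simp] theorem thetaLaurent_coeff (R : Type*) [CommRing R] (f : LaurentSeries R) (n : ℤ) :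
    (thetaLaurent R f).coeff n = (n : R) * f.coeff n := rfl

theorem thetaLaurent_single_neg_one_mul {R : Type*} [CommRing R] (u : PowerSeries R) :
    thetaLaurent R (single (-1 : ℤ) 1 * ofPowerSeries ℤ R u) =
      single (-1 : ℤ) 1 * ofPowerSeries ℤ R (thetaP u - u) := by
  ext n
  rw [thetaLaurent_coeff, coeff_single_mul, coeff_single_mul, one_mul, one_mul, sub_neg_eq_add]
  rcases le_or_gt 0 (n + 1) with hn | hn
  · obtain ⟨m, hm⟩ := Int.eq_ofNat_of_zero_le hn
    rw [hm, ofPowerSeries_apply_coeff, ofPowerSeries_apply_coeff, map_sub, coeff_thetaP]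
    have hn' : (n : R) = (m : R) - 1 := by
      have : n = (m : ℤ) - 1 := by omega
      rw [this]
      push_cast
      ring
    rw [hn']
    ring
  · rw [ofPowerSeries_coeff_of_neg _ hn, ofPowerSeries_coeff_of_neg _ hn, mul_zero]

theorem jNum_map_int : jNum.map (Int.castRingHom ℤ) = jNum := by
  ext n
  simp

theorem jqModC_int_eq : jqModC ℤ = single (-1 : ℤ) 1 * ofPowerSeries ℤ ℤ jNum := by
  rw [jqModC, jNum_map_int]

/-- The formal discriminant `Δ = q ∏ (1 - qⁿ)²⁴` in `ℤ((q))`. -/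
def deltaLaurentInt : LaurentSeries ℤ :=
  single (1 : ℤ) 1 * ofPowerSeries ℤ ℤ dedekindEtaUnit

/-- **θ-identity**: `(θ j)⁶ = Δ · j⁴ · (j - 1728)³` in `ℤ((q))`. -/
theorem theta_identity_laurent (hΔ : DeltaBridge) :
    (thetaLaurent ℤ (jqModC ℤ)) ^ 6 =
      deltaLaurentInt * (jqModC ℤ) ^ 4 * (jqModC ℤ - 1728) ^ 3 := by
  have hP := theta_identity_powerSeries hΔ
  have hst : (single (-1 : ℤ) (1 : ℤ) : LaurentSeries ℤ) * single (1 : ℤ) (1 : ℤ) = 1 := by
    rw [single_mul_single]
    simp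
  have hj' : jqModC ℤ - 1728 =
      single (-1 : ℤ) 1 * ofPowerSeries ℤ ℤ (jNum - 1728 * PowerSeries.X) := by
    rw [jqModC_int_eq, map_sub, map_mul, ofPowerSeries_X, map_ofNat (ofPowerSeries ℤ ℤ) 1728]
    linear_combination (1728 : LaurentSeries ℤ) * hst
  have hP' : (ofPowerSeries ℤ ℤ (thetaP jNum - jNum)) ^ 6 =
      ofPowerSeries ℤ ℤ dedekindEtaUnit * (ofPowerSeries ℤ ℤ jNum) ^ 4 *
        (ofPowerSeries ℤ ℤ (jNum - 1728 * PowerSeries.X)) ^ 3 := by
    rw [← map_pow, hP]
    simp only [map_mul, map_pow]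
  rw [hj', jqModC_int_eq, thetaLaurent_single_neg_one_mul, deltaLaurentInt]
  linear_combination (single (-1 : ℤ) (1 : ℤ) : LaurentSeries ℤ) ^ 6 * hP' -
    (single (-1 : ℤ) (1 : ℤ) : LaurentSeries ℤ) ^ 6 * ofPowerSeries ℤ ℤ dedekindEtaUnit *
      (ofPowerSeries ℤ ℤ jNum) ^ 4 * (ofPowerSeries ℤ ℤ (jNum - 1728 * PowerSeries.X)) ^ 3 * hst

end Fermat.Agent.S28.H25

end
end
-- ===== PACK-END S28/H25/ThetaLaurent.lean

-- ===== PACK-BEGIN S28/H326/Polys.lean
section
/-
S28 / helper326: from the Hecke input to the polynomials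
`W = ∏ (X - w i)` and `Φ = ∏ (X - y i)` with coefficients in `ℤ[j(t^p)]`.
-/




set_option autoImplicit false
set_option linter.unusedSectionVars false

noncomputable section

namespace Fermat.Agent.S28.H326

open ModularCurve HahnSeries

/-! ### Series without negative part -/

/-- Laurent series over `ℂ` without terms of negative degree. -/
def NonNeg : Subring (LaurentSeries ℂ) where
  carrier := {x | ∀ n : ℤ, n < 0 → x.coeff n = 0}
  mul_mem' {x y} hx hy n hn := by
    rw [HahnSeries.coeff_mul]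
    refine Finset.sum_eq_zero fun ij hij => ?_
    rw [Finset.mem_antidiagonal] at hij
    rcases lt_or_ge ij.1 0 with h1 | h1
    · rw [hx _ h1, zero_mul]
    · have h2 : ij.2 < 0 := by
        have := hij.2.2
        omega
      rw [hy _ h2, mul_zero]
  one_mem' n hn := by
    rw [HahnSeries.coeff_one, if_neg hn.ne]
  add_mem' {x y} hx hy n hn := by
    rw [HahnSeries.coeff_add, hx n hn, hy n hn, add_zero]
  zero_mem' n _ := HahnSeries.coeff_zero
  neg_mem' {x} hx n hn := by
    rw [HahnSeries.coeff_neg, hx n hn, neg_zero]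

theorem C_mem_NonNeg (c : ℂ) : HahnSeries.C c ∈ NonNeg := fun n hn => by
  show (HahnSeries.single 0 c).coeff n = 0
  exact HahnSeries.coeff_single_of_ne hn.ne

variable (p : ℕ) [NeZero p]

theorem qExpand_mem_NonNeg {x : LaurentSeries ℂ} (hx : x ∈ NonNeg) :
    qExpand ℂ p x ∈ NonNeg := fun n hn => by
  by_cases h : (p : ℤ) ∣ n
  · obtain ⟨m, rfl⟩ := h
    rw [qExpand_coeff_mul]
    refine hx m ?_
    have hp : (0 : ℤ) < p := by exact_mod_cast Nat.pos_of_ne_zero (NeZero.ne p)
    by_contra hm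
    rw [not_lt] at hm
    have := mul_nonneg hp.le hm
    omega
  · exact qExpand_coeff_of_not_dvd p _ h

theorem ofPS_mem_NonNeg (g : PowerSeries ℂ) : ofPS g ∈ NonNeg := fun _ hn => ofPS_coeff_neg g hn

theorem conj_mem_NonNeg (i : Option (Fin p)) (g : PowerSeries ℂ) : conj p i g ∈ NonNeg := by
  cases i with
  | none => exact qExpand_mem_NonNeg p (qExpand_mem_NonNeg p (ofPS_mem_NonNeg g))
  | some b => exact ofPS_mem_NonNeg _

theorem cBase_mem_NonNeg (g : PowerSeries ℂ) : cBase p g ∈ NonNeg :=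
  qExpand_mem_NonNeg p (ofPS_mem_NonNeg g)

/-- An element of `ℚ[j(t^p)]` without negative part is a constant. -/
theorem exists_const_of_mem_Bsub_of_mem_NonNeg {x : LaurentSeries ℂ} (hB : x ∈ Bsub p)
    (hN : x ∈ NonNeg) : ∃ c : ℚ, x = algebraMap ℚ (LaurentSeries ℂ) c := by
  obtain ⟨Q, rfl⟩ := hB
  rcases Nat.eq_zero_or_pos Q.natDegree with h0 | hpos
  · refine ⟨Q.coeff 0, ?_⟩
    rw [Polynomial.eq_C_of_natDegree_eq_zero h0]
    simp
  · exfalso
    have h1 := aeval_jP_coeff p Q le_rfl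
    have hneg : -((p : ℤ) * (Q.natDegree : ℤ)) < 0 := by
      have hp : (0 : ℤ) < p := by exact_mod_cast Nat.pos_of_ne_zero (NeZero.ne p)
      have hd : (0 : ℤ) < Q.natDegree := by exact_mod_cast hpos
      have := mul_pos hp hd
      omega
    have h2 : (Polynomial.aeval (jP p) Q).coeff (-((p : ℤ) * (Q.natDegree : ℤ))) = 0 :=
      hN _ hneg
    rw [h1] at h2
    have h3 : Q.coeff Q.natDegree = 0 := by exact_mod_cast h2
    have h4 : Q = 0 := Polynomial.leadingCoeff_eq_zero.mp h3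
    rw [h4] at hpos
    simp at hpos

/-! ### The unit part of the `w i` -/

/-- the unit `∏ (1 - qⁿ)²⁴` over `ℂ` -/
def UC : PowerSeries ℂ := toC dedekindEtaUnit
/-- its inverse -/
def UinvC : PowerSeries ℂ := toC dedekindEtaUnitInv

theorem DC_eq : DC = PowerSeries.X * UC := by
  rw [DC, DZ, map_mul, PowerSeries.map_X, UC]

theorem UC_mul_UinvC : UC * UinvC = 1 := by
  rw [UC, UinvC, ← map_mul, dedekindEtaUnit_mul_inv, map_one]

theorem delInv_eq : delInv p = HahnSeries.single (-(p : ℤ)) 1 * cBase p UinvC := by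
  rw [delInv, deltaInvZ, map_mul, map_mul, coeffMap_single, qExpand_single, kap_ofPS, cBase,
    RingHom.comp_apply, UinvC, map_one, mul_neg, mul_one]

/-- exponent of the monomial part of `w i` -/
def wExp : Option (Fin p) → ℤ
  | none => (p : ℤ) * p - p
  | some _ => 1 - p

/-- leading constant of `conj i X` -/
def wConst : Option (Fin p) → ℂ
  | none => 1
  | some b => zeta p ^ (b : ℕ)

/-- degree of `conj i X` -/
def xExp : Option (Fin p) → ℤ
  | none => (p : ℤ) * p
  | some _ => 1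

theorem conj_X (i : Option (Fin p)) :
    conj p i PowerSeries.X = HahnSeries.C (wConst p i) * HahnSeries.single (xExp p i) 1 := by
  cases i with
  | none =>
    simp only [conj, cInf, cBase, RingHom.comp_apply, wConst, xExp, map_one, one_mul]
    rw [HahnSeries.ofPowerSeries_X, qExpand_single, qExpand_single, mul_one]
  | some b =>
    simp only [conj, cB, RingHom.comp_apply, wConst, xExp]
    rw [PowerSeries.rescale_X, map_mul, HahnSeries.ofPowerSeries_C, HahnSeries.ofPowerSeries_X]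

theorem wExp_eq (i : Option (Fin p)) : wExp p i = xExp p i - p := by
  cases i <;> simp [wExp, xExp]

/-- the power series part of `w i` -/
def wUnit (i : Option (Fin p)) : LaurentSeries ℂ :=
  scal p i * HahnSeries.C (wConst p i) * conj p i UC * cBase p UinvC

theorem w_eq (i : Option (Fin p)) : w p i = HahnSeries.single (wExp p i) 1 * wUnit p i := by
  have h : HahnSeries.single (wExp p i) (1 : ℂ) =
      HahnSeries.single (xExp p i) 1 * HahnSeries.single (-(p : ℤ)) 1 := by
    rw [HahnSeries.single_mul_single, wExp_eq, mul_one, sub_eq_add_neg]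
  rw [w, wUnit, DC_eq, map_mul, conj_X, delInv_eq, h]
  ring

theorem scal_mem_NonNeg (i : Option (Fin p)) : scal p i ∈ NonNeg := by
  cases i with
  | none => exact Subring.pow_mem _ (natCast_mem _ p) 12
  | some b => exact Subring.one_mem _

theorem wUnit_mem_NonNeg (i : Option (Fin p)) : wUnit p i ∈ NonNeg :=
  Subring.mul_mem _ (Subring.mul_mem _ (Subring.mul_mem _ (scal_mem_NonNeg p i)
    (C_mem_NonNeg _)) (conj_mem_NonNeg p i UC)) (cBase_mem_NonNeg p UinvC)

theorem prod_single {ι : Type*} (s : Finset ι) (e : ι → ℤ) :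
    ∏ i ∈ s, HahnSeries.single (e i) (1 : ℂ) = HahnSeries.single (∑ i ∈ s, e i) 1 := by
  classical
  induction s using Finset.induction_on with
  | empty => simp
  | insert a s ha ih =>
    rw [Finset.prod_insert ha, Finset.sum_insert ha, ih, HahnSeries.single_mul_single, mul_one]

theorem sum_wExp : ∑ i, wExp p i = 0 := by
  rw [Fintype.sum_option]
  simp only [wExp, Finset.sum_const, Finset.card_univ, Fintype.card_fin, nsmul_eq_mul]
  ring

theorem prod_w_mem_NonNeg : ∏ i, w p i ∈ NonNeg := by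
  simp only [w_eq]
  rw [Finset.prod_mul_distrib, prod_single, sum_wExp]
  have : HahnSeries.single (0 : ℤ) (1 : ℂ) = 1 := rfl
  rw [this, one_mul]
  exact Subring.prod_mem _ fun i _ => wUnit_mem_NonNeg p i

/-! ### Nonvanishing -/

theorem toC_injective : Function.Injective toC := by
  intro x y h
  ext n
  have := congrArg (fun z => PowerSeries.coeff n z) h
  simpa using this

theorem conj_injective (i : Option (Fin p)) : Function.Injective (conj p i) := by
  cases i with
  | none =>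
    exact (qExpand_injective p).comp ((qExpand_injective p).comp
      HahnSeries.ofPowerSeries_injective)
  | some b =>
    exact HahnSeries.ofPowerSeries_injective.comp
      (PowerSeries.rescale_injective (pow_ne_zero _ (zeta_ne_zero p)))

theorem DZ_ne_zero : DZ ≠ 0 := by
  intro h
  have h1 : DZ.coeff 1 = 1 := by
    rw [DZ, show (1 : ℕ) = 0 + 1 from rfl, PowerSeries.coeff_succ_X_mul,
      PowerSeries.coeff_zero_eq_constantCoeff, constantCoeff_dedekindEtaUnit]
  rw [h] at h1
  simp at h1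

theorem DC_ne_zero : DC ≠ 0 := fun h => DZ_ne_zero (toC_injective (by rw [← DC, h, map_zero]))

theorem delInv_ne_zero : delInv p ≠ 0 := fun h => by
  have := del_mul_delInv p
  rw [h, mul_zero] at this
  exact zero_ne_one this

theorem scal_ne_zero (i : Option (Fin p)) : scal p i ≠ 0 := by
  cases i with
  | none =>
    refine pow_ne_zero _ fun h => ?_
    have h1 := natCast_mul_coeff p 1 0
    rw [mul_one, h, HahnSeries.coeff_zero, HahnSeries.coeff_one, if_pos rfl, mul_one] at h1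
    exact NeZero.ne p (by exact_mod_cast h1.symm)
  | some b => exact one_ne_zero

theorem w_ne_zero (i : Option (Fin p)) : w p i ≠ 0 := by
  rw [w]
  refine mul_ne_zero (mul_ne_zero (scal_ne_zero p i) ?_) (delInv_ne_zero p)
  rw [Ne, map_eq_zero_iff _ (conj_injective p i)]
  exact DC_ne_zero

/-! ### The polynomial `W` -/

/-- `W = ∏ (X - w i)` over `ℂ((t))` -/
def WPoly : Polynomial (LaurentSeries ℂ) := ∏ i, (Polynomial.X - Polynomial.C (w p i))

theorem WPoly_monic : (WPoly p).Monic :=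
  Polynomial.monic_prod_of_monic _ _ fun _ _ => Polynomial.monic_X_sub_C _

theorem WPoly_natDegree : (WPoly p).natDegree = p + 1 := by
  rw [WPoly, Polynomial.natDegree_prod_of_monic _ _ fun i _ => Polynomial.monic_X_sub_C _]
  simp

theorem WPoly_coeff_mem (h : HeckeInput p) (n : ℕ) : (WPoly p).coeff n ∈ Bsub p :=
  prod_X_sub_C_mem_of_psum_mem (Bsub p) (w p) (fun m _ => sum_w_pow_mem p h m) n

theorem WPoly_eval (i : Option (Fin p)) : (WPoly p).eval (w p i) = 0 := by
  rw [WPoly, Polynomial.eval_prod]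
  exact Finset.prod_eq_zero (Finset.mem_univ i) (by simp)

theorem WPoly_coeff_zero : (WPoly p).coeff 0 = ∏ i, (-(w p i)) := by
  rw [Polynomial.coeff_zero_eq_eval_zero, WPoly, Polynomial.eval_prod]
  simp

theorem exists_WPoly_coeff_zero (h : HeckeInput p) :
    ∃ c : ℚ, c ≠ 0 ∧ (WPoly p).coeff 0 = algebraMap ℚ (LaurentSeries ℂ) c := by
  have hN : (WPoly p).coeff 0 ∈ NonNeg := by
    rw [WPoly_coeff_zero]
    have : ∏ i, (-(w p i)) = (∏ _i : Option (Fin p), (-1 : LaurentSeries ℂ)) * ∏ i, w p i := by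
      rw [← Finset.prod_mul_distrib]
      refine Finset.prod_congr rfl fun i _ => ?_
      ring
    rw [this]
    exact Subring.mul_mem _ (Subring.prod_mem _ fun _ _ => Subring.neg_mem _ (Subring.one_mem _))
      (prod_w_mem_NonNeg p)
  obtain ⟨c, hc⟩ := exists_const_of_mem_Bsub_of_mem_NonNeg p (WPoly_coeff_mem p h 0) hN
  refine ⟨c, ?_, hc⟩
  rintro rfl
  rw [map_zero, WPoly_coeff_zero] at hc
  rw [Finset.prod_eq_zero_iff] at hc
  obtain ⟨i, -, hi⟩ := hc
  exact w_ne_zero p i (neg_eq_zero.mp hi)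

end Fermat.Agent.S28.H326

end
end
-- ===== PACK-END S28/H326/Polys.lean

-- ===== PACK-BEGIN S14/H937/Setup.lean
section






/-!
# S14, blocks LOCAL-I / LOCAL-D (helper937): finite-level package

`A` a valuation subring of `ℚ̄`, `K` a number field inside `ℚ̄`, `M/K` a finite Galois extension
inside `ℚ̄`.  We relate `A` to the primes of `𝓞 K` and `𝓞 M` below it, and lift elements of the
inertia / decomposition groups of `Gal(M/K)` to `Gal(ℚ̄/K)`.
-/

set_option autoImplicit false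
set_option linter.style.haveILetI false

open NumberField
open scoped Pointwise

namespace Fermat.Agent.S14.H937

/-- `ℚ̄`. -/
abbrev Qb := AlgebraicClosure ℚ

theorem h937_isAlgebraic : Algebra.IsAlgebraic ℚ Qb := AlgebraicClosure.isAlgebraic ℚ

section toZbar

variable (F : Type*) [Field F] [Algebra F Qb]

/-- The ring hom from the integers of a field mapping to `ℚ̄` to the ring of all algebraic
integers. -/
noncomputable def toZbar : 𝓞 F →+* integralClosure ℤ Qb where
  toFun x := ⟨algebraMap F Qb (x : F), map_isIntegral_int (algebraMap F Qb) x.2⟩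
  map_one' := by ext; simp
  map_mul' x y := by ext; simp
  map_zero' := by ext; simp
  map_add' x y := by ext; simp

theorem toZbar_coe (x : 𝓞 F) : ((toZbar F x : integralClosure ℤ Qb) : Qb) =
    algebraMap F Qb (x : F) := rfl

/-- The prime of `𝓞 F` below a valuation subring of `ℚ̄`. -/
noncomputable def primeOf (A : ValuationSubring Qb) : Ideal (𝓞 F) :=
  (Fermat.Agent.S54.primeBelow A).comap (toZbar F)

theorem mem_primeOf (A : ValuationSubring Qb) (x : 𝓞 F) :
    x ∈ primeOf F A ↔ algebraMap F Qb (x : F) ∈ A.nonunits := Iff.rfl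

instance primeOf_isPrime (A : ValuationSubring Qb) : (primeOf F A).IsPrime :=
  haveI := Fermat.Agent.S54.primeBelow_isPrime A
  Ideal.comap_isPrime _ _

theorem natCast_mem_primeOf (A : ValuationSubring Qb) (ℓ : ℕ) (hA : A.LiesOverPrime ℓ) :
    (ℓ : 𝓞 F) ∈ primeOf F A := by
  rw [mem_primeOf]
  have hA' : (ℓ : Qb) ∈ A.nonunits := hA
  simpa using hA'

theorem primeOf_ne_bot [CharZero F] (A : ValuationSubring Qb) (ℓ : ℕ) (hℓ : ℓ.Prime)
    (hA : A.LiesOverPrime ℓ) : primeOf F A ≠ ⊥ := by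
  intro h
  have h1 := natCast_mem_primeOf F A ℓ hA
  rw [h, Ideal.mem_bot] at h1
  have : (ℓ : 𝓞 F) ≠ 0 := by
    exact_mod_cast hℓ.ne_zero
  exact this h1

end toZbar

section dict

open IsDedekindDomain

variable (F : Type*) [Field F] [NumberField F] [Algebra F Qb]
variable (A : ValuationSubring Qb) (w : HeightOneSpectrum (𝓞 F)) (hw : w.asIdeal = primeOf F A)

omit [NumberField F] in
theorem integer_mem (x : 𝓞 F) : algebraMap F Qb (x : F) ∈ A :=
  Fermat.Agent.S54.isIntegral_mem_valuationSubring A (map_isIntegral_int (algebraMap F Qb) x.2)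

theorem mul_mem_nonunits_left {a b : Qb} (ha : a ∈ A.nonunits) (hb : b ∈ A) :
    a * b ∈ A.nonunits := by
  obtain ⟨h1, h2⟩ := ValuationSubring.mem_nonunits_iff_exists_mem_maximalIdeal.mp ha
  have := Ideal.mul_mem_right (⟨b, hb⟩ : A) _ h2
  exact ValuationSubring.mem_nonunits_iff_exists_mem_maximalIdeal.mpr ⟨_, this⟩

theorem inv_mem_of_not_mem_nonunits {a : Qb} (ha : a ∉ A.nonunits) : a⁻¹ ∈ A := by
  by_contra h
  exact ha (A.mem_nonunits_iff_or.mpr (Or.inr h))

include hw in
theorem mem_of_valuation_le_one (x : F) (hx : w.valuation F x ≤ 1) :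
    algebraMap F Qb x ∈ A := by
  obtain ⟨n, d, hnd⟩ := w.exists_primeCompl_mul_eq_of_integer x hx
  have hd : algebraMap F Qb ((d : 𝓞 F) : F) ∉ A.nonunits := by
    have h1 : (d : 𝓞 F) ∉ primeOf F A := by
      rw [← hw]; exact d.2
    rw [mem_primeOf] at h1
    exact h1
  have hd0 : algebraMap F Qb ((d : 𝓞 F) : F) ≠ 0 := fun h0 => hd (h0 ▸ A.nonunits.zero_mem)
  have h2 : algebraMap F Qb x = algebraMap F Qb ((n : 𝓞 F) : F) *
      (algebraMap F Qb ((d : 𝓞 F) : F))⁻¹ := by
    rw [eq_mul_inv_iff_mul_eq₀ hd0, ← map_mul]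
    congr 1
  rw [h2]
  exact A.mul_mem _ _ (integer_mem F A n) (inv_mem_of_not_mem_nonunits A hd)

include hw in
theorem mem_nonunits_of_valuation_lt_one (x : F) (hx : w.valuation F x < 1) :
    algebraMap F Qb x ∈ A.nonunits := by
  obtain ⟨n, d, hnd⟩ := w.exists_primeCompl_mul_eq_of_integer x hx.le
  have hd : algebraMap F Qb ((d : 𝓞 F) : F) ∉ A.nonunits := by
    have h1 : (d : 𝓞 F) ∉ primeOf F A := by
      rw [← hw]; exact d.2
    rw [mem_primeOf] at h1
    exact h1
  have hd0 : algebraMap F Qb ((d : 𝓞 F) : F) ≠ 0 := fun h0 => hd (h0 ▸ A.nonunits.zero_mem)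
  have hdv : w.valuation F ((d : 𝓞 F) : F) = 1 := by
    rw [HeightOneSpectrum.valuation_of_algebraMap, HeightOneSpectrum.intValuation_eq_one_iff_mem_primeCompl]
    exact d.2
  have hn : (n : 𝓞 F) ∈ w.asIdeal := by
    rw [← HeightOneSpectrum.valuation_lt_one_iff_mem (K := F)]
    have : w.valuation F ((n : 𝓞 F) : F) = w.valuation F x * w.valuation F ((d : 𝓞 F) : F) := by
      rw [← map_mul]; congr 1; exact hnd.symm
    rw [this, hdv, mul_one]
    exact hx
  rw [hw, mem_primeOf] at hn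
  have h2 : algebraMap F Qb x = algebraMap F Qb ((n : 𝓞 F) : F) *
      (algebraMap F Qb ((d : 𝓞 F) : F))⁻¹ := by
    rw [eq_mul_inv_iff_mul_eq₀ hd0, ← map_mul]
    congr 1
  rw [h2]
  exact mul_mem_nonunits_left A hn (inv_mem_of_not_mem_nonunits A hd)

include hw in
theorem valuation_eq_one_of (x : F) (hx : w.valuation F x = 1) :
    A.valuation (algebraMap F Qb x) = 1 := by
  have hx0 : x ≠ 0 := by
    rintro rfl
    simp at hx
  have h1 := mem_of_valuation_le_one F A w hw x hx.le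
  have h2 : w.valuation F x⁻¹ ≤ 1 := by
    rw [map_inv₀, hx, inv_one]
  have h3 := mem_of_valuation_le_one F A w hw x⁻¹ h2
  rw [map_inv₀] at h3
  apply le_antisymm
  · exact (A.valuation_le_one_iff _).mpr h1
  · have h4 := (A.valuation_le_one_iff _).mpr h3
    rw [map_inv₀] at h4
    have hne : A.valuation (algebraMap F Qb x) ≠ 0 := by
      rw [Valuation.ne_zero_iff]
      simpa using hx0
    exact (inv_le_one₀ (zero_lt_iff.mpr hne)).mp h4

include hw in
theorem valuation_le_one_of_mem (x : F) (hx : algebraMap F Qb x ∈ A) :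
    w.valuation F x ≤ 1 := by
  by_contra hcon
  rw [not_le] at hcon
  have hx0 : x ≠ 0 := by
    rintro rfl
    simp at hcon
  have h1 : w.valuation F x⁻¹ < 1 := by
    rw [map_inv₀]
    exact inv_lt_one_of_one_lt₀ hcon
  have h2 := mem_nonunits_of_valuation_lt_one F A w hw x⁻¹ h1
  rw [map_inv₀, ValuationSubring.mem_nonunits_iff, map_inv₀] at h2
  have h3 := (A.valuation_le_one_iff _).mpr hx
  have hne : A.valuation (algebraMap F Qb x) ≠ 0 := by
    rw [Valuation.ne_zero_iff]
    simpa using hx0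
  have h4 : 1 < A.valuation (algebraMap F Qb x) := by
    have := (inv_lt_one₀ (zero_lt_iff.mpr hne)).mp h2
    exact this
  exact absurd h3 (not_le.mpr h4)

end dict

end Fermat.Agent.S14.H937

end
-- ===== PACK-END S14/H937/Setup.lean

-- ===== PACK-BEGIN A2/H489/TwoExtC.lean
section


/-!
# A2 / M1-abs, part C (helper489): residues and the counting argument
-/

set_option autoImplicit false

namespace Fermat.Agent.A2.H489

open IsDedekindDomain IsLocalRing

section Residue

variable (K : Type*) {A L : Type*} [CommRing A] [IsDomain A] [IsDiscreteValuationRing A]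
  [Field K] [Algebra A K] [IsFractionRing A K]
  [Field L] [Algebra K L] [Algebra A L] [IsScalarTower A K L]
  [FiniteDimensional K L] [Algebra.IsSeparable K L]

theorem mul_mem_nonunits {V : ValuationSubring L} {x y : L} (hx : x ∈ V) (hy : y ∈ V.nonunits) :
    x * y ∈ V.nonunits := by
  rw [ValuationSubring.mem_nonunits_iff] at hy ⊢
  rw [map_mul]
  exact Right.mul_lt_one_of_le_of_lt ((ValuationSubring.valuation_le_one_iff V x).mpr hx) hy

include K in
/-- every element of `V` is congruent modulo the maximal ideal to an element of the integral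
closure of `A`. -/
theorem IsOver.exists_sub_mem_nonunits {V : ValuationSubring L} (hV : IsOver A V)
    {x : L} (hx : x ∈ V) :
    ∃ s : integralClosure A L, x - algebraMap (integralClosure A L) L s ∈ V.nonunits := by
  have : IsDedekindDomain (integralClosure A L) := integralClosure.isDedekindDomain A K L
  have : IsFractionRing (integralClosure A L) L :=
    integralClosure.isFractionRing_of_finite_extension K L
  have hne : V ≠ ⊤ := hV.ne_top K
  set v := centerSpec V hV.mem_integralClosure hne with hvdef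
  have hVv : V = (v.valuation L).valuationSubring :=
    eq_valuationSubring_centerSpec V hV.mem_integralClosure hne
  have hx' : v.valuation L x ≤ 1 := by
    rw [hVv] at hx
    exact hx
  obtain ⟨n, d, hnd⟩ := v.exists_primeCompl_mul_eq_of_integer x hx'
  have hd : (d : integralClosure A L) ∉ v.asIdeal := d.2
  obtain ⟨d', i, hi, hdi⟩ := v.isMaximal.exists_inv hd
  refine ⟨n * d', ?_⟩
  have hi' : algebraMap (integralClosure A L) L i ∈ V.nonunits :=
    (mem_center_iff V hV.mem_integralClosure i).mp hi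
  have key : x - algebraMap (integralClosure A L) L (n * d')
      = x * algebraMap (integralClosure A L) L i := by
    have h1 : algebraMap (integralClosure A L) L (d' * (d : integralClosure A L) + i) = 1 := by
      rw [hdi, map_one]
    rw [map_add, map_mul] at h1
    rw [map_mul]
    linear_combination (algebraMap (integralClosure A L) L d') * hnd - x * h1
  rw [key]
  exact mul_mem_nonunits hx hi'

/-- Lifts `s i` of elements `u i ∈ V` with independent residues have independent residues in the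
quotient of the integral closure by the centre. -/
theorem IsOver.linearIndependent_mk {V : ValuationSubring L} (hV : IsOver A V)
    [hlo : (center V hV.mem_integralClosure).LiesOver (maximalIdeal A)] {f : ℕ}
    (u : Fin f → L) (s : Fin f → integralClosure A L)
    (hs : ∀ i, u i - algebraMap (integralClosure A L) L (s i) ∈ V.nonunits)
    (hind : ∀ a : Fin f → A, (∑ i, algebraMap A L (a i) * u i) ∈ V.nonunits →
      ∀ i, a i ∈ maximalIdeal A) :
    LinearIndependent (A ⧸ maximalIdeal A)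
      (fun i => Ideal.Quotient.mk (center V hV.mem_integralClosure) (s i)) := by
  rw [Fintype.linearIndependent_iff]
  intro c hc i
  choose a ha using fun i => Ideal.Quotient.mk_surjective (c i)
  have h1 : ∀ i, c i • Ideal.Quotient.mk (center V hV.mem_integralClosure) (s i)
      = Ideal.Quotient.mk (center V hV.mem_integralClosure)
          (algebraMap A (integralClosure A L) (a i) * s i) := by
    intro i
    rw [Algebra.smul_def, ← ha i, Ideal.Quotient.algebraMap_mk_of_liesOver, map_mul]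
  simp only [h1] at hc
  rw [← map_sum, Ideal.Quotient.eq_zero_iff_mem, mem_center_iff] at hc
  have h2 : (∑ i, algebraMap A L (a i) * u i)
      = algebraMap (integralClosure A L) L
          (∑ i, algebraMap A (integralClosure A L) (a i) * s i)
        + ∑ i, algebraMap A L (a i) * (u i - algebraMap (integralClosure A L) L (s i)) := by
    rw [map_sum, ← Finset.sum_add_distrib]
    refine Finset.sum_congr rfl fun i _ => ?_
    rw [map_mul, ← IsScalarTower.algebraMap_apply]
    ring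
  have h3 : (∑ i, algebraMap A L (a i) * u i) ∈ V.nonunits := by
    rw [h2]
    refine add_mem hc (sum_mem fun i _ => ?_)
    exact mul_mem_nonunits (hV.mem _) (hs i)
  have h4 := hind a h3 i
  rw [← ha i]
  exact Ideal.Quotient.eq_zero_iff_mem.mpr h4

include K in
/-- A family of `f` elements of `V` whose residues are independent over the residue field of
`A` bounds the inertia degree of the centre from below. -/
theorem IsOver.le_inertiaDeg {V : ValuationSubring L} (hV : IsOver A V) {f : ℕ}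
    (u : Fin f → L) (hu : ∀ i, u i ∈ V)
    (hind : ∀ a : Fin f → A, (∑ i, algebraMap A L (a i) * u i) ∈ V.nonunits →
      ∀ i, a i ∈ maximalIdeal A) :
    f ≤ Ideal.inertiaDeg' (maximalIdeal A) (center V hV.mem_integralClosure) := by
  have hlo := hV.center_liesOver
  have hfin : Module.Finite A (integralClosure A L) := IsIntegralClosure.finite A K L _
  rw [Ideal.inertiaDeg'_algebraMap]
  choose s hs using fun i => hV.exists_sub_mem_nonunits K (hu i)
  have hli := hV.linearIndependent_mk u s hs hind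
  have h5 := hli.fintype_card_le_finrank
  simpa using h5

end Residue

section Count

variable (K : Type*) {A L : Type*} [CommRing A] [IsDomain A] [IsDiscreteValuationRing A]
  [Field K] [Algebra A K] [IsFractionRing A K]
  [Field L] [Algebra K L] [Algebra A L] [IsScalarTower A K L]
  [FiniteDimensional K L] [Algebra.IsSeparable K L]

include K in
/-- **Counting core.**  Two distinct valuation subrings over `A` whose inertia degrees add up to
at least `[L : K]` are the only ones, are unramified, and the bounds are equalities. -/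
theorem twoExt_core {V₁ V₂ : ValuationSubring L} (h₁ : IsOver A V₁) (h₂ : IsOver A V₂)
    (hne : V₁ ≠ V₂) {f₁ f₂ : ℕ} (hf : Module.finrank K L ≤ f₁ + f₂)
    (hf₁ : f₁ ≤ Ideal.inertiaDeg' (maximalIdeal A) (center V₁ h₁.mem_integralClosure))
    (hf₂ : f₂ ≤ Ideal.inertiaDeg' (maximalIdeal A) (center V₂ h₂.mem_integralClosure)) :
    (∀ P : Ideal (integralClosure A L), P.IsPrime → P.LiesOver (maximalIdeal A) →
        P = center V₁ h₁.mem_integralClosure ∨ P = center V₂ h₂.mem_integralClosure) ∧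
      Ideal.ramificationIdx' (maximalIdeal A) (center V₁ h₁.mem_integralClosure) = 1 ∧
      Ideal.ramificationIdx' (maximalIdeal A) (center V₂ h₂.mem_integralClosure) = 1 ∧
      Ideal.inertiaDeg' (maximalIdeal A) (center V₁ h₁.mem_integralClosure) = f₁ ∧
      Ideal.inertiaDeg' (maximalIdeal A) (center V₂ h₂.mem_integralClosure) = f₂ := by
  have hD : IsDedekindDomain (integralClosure A L) := integralClosure.isDedekindDomain A K L
  have hFr : IsFractionRing (integralClosure A L) L :=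
    integralClosure.isFractionRing_of_finite_extension K L
  have hfin : Module.Finite A (integralClosure A L) := IsIntegralClosure.finite A K L _
  have hTF : Module.IsTorsionFree A (integralClosure A L) := by
    rw [Module.isTorsionFree_iff_algebraMap_injective]
    intro a b hab
    apply algebraMap_injective_AL A K L
    have := congrArg (algebraMap (integralClosure A L) L) hab
    rwa [← IsScalarTower.algebraMap_apply, ← IsScalarTower.algebraMap_apply] at this
  have hlo₁ := h₁.center_liesOver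
  have hlo₂ := h₂.center_liesOver
  have hp0 : maximalIdeal A ≠ ⊥ := IsDiscreteValuationRing.not_a_field A
  set P₁ := center V₁ h₁.mem_integralClosure with hP₁
  set P₂ := center V₂ h₂.mem_integralClosure with hP₂
  have hP₁₂ : P₁ ≠ P₂ := fun h =>
    hne (eq_of_center_eq V₁ V₂ h₁.mem_integralClosure h₂.mem_integralClosure
      (h₁.ne_top K) (h₂.ne_top K) h)
  have hmem₁ : P₁ ∈ IsDedekindDomain.primesOverFinset (maximalIdeal A) (integralClosure A L) :=
    (IsDedekindDomain.mem_primesOverFinset_iff hp0 _).mpr ⟨inferInstance, hlo₁⟩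
  have hmem₂ : P₂ ∈ IsDedekindDomain.primesOverFinset (maximalIdeal A) (integralClosure A L) :=
    (IsDedekindDomain.mem_primesOverFinset_iff hp0 _).mpr ⟨inferInstance, hlo₂⟩
  have hsum := by
    set_option linter.deprecated false in
    exact Ideal.sum_ramification_inertia (integralClosure A L) K L hp0
  have hpos : ∀ P ∈ IsDedekindDomain.primesOverFinset (maximalIdeal A) (integralClosure A L),
      1 ≤ Ideal.ramificationIdx' (maximalIdeal A) P ∧
      1 ≤ Ideal.inertiaDeg' (maximalIdeal A) P := by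
    intro P hP
    obtain ⟨hPp, hPl⟩ := (IsDedekindDomain.mem_primesOverFinset_iff hp0 _).mp hP
    exact ⟨Nat.one_le_iff_ne_zero.mpr
        (Ideal.IsDedekindDomain.ramificationIdx'_ne_zero_of_liesOver P hp0),
      Nat.one_le_iff_ne_zero.mpr (Ideal.inertiaDeg'_ne_zero (maximalIdeal A) P)⟩
  rw [← Finset.add_sum_erase _ _ hmem₁] at hsum
  have hmem₂' : P₂ ∈ (IsDedekindDomain.primesOverFinset (maximalIdeal A) (integralClosure A L)).erase P₁ :=
    Finset.mem_erase.mpr ⟨hP₁₂.symm, hmem₂⟩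
  rw [← Finset.add_sum_erase _ _ hmem₂'] at hsum
  set T := ((IsDedekindDomain.primesOverFinset (maximalIdeal A) (integralClosure A L)).erase P₁).erase P₂ with hT
  have hrest : T.card ≤ ∑ P ∈ T, Ideal.ramificationIdx' (maximalIdeal A) P *
      Ideal.inertiaDeg' (maximalIdeal A) P := by
    rw [Finset.card_eq_sum_ones]
    refine Finset.sum_le_sum fun P hP => ?_
    have hP' : P ∈ IsDedekindDomain.primesOverFinset (maximalIdeal A) (integralClosure A L) :=
      Finset.mem_of_mem_erase (Finset.mem_of_mem_erase hP)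
    exact Right.one_le_mul (hpos P hP').1 (hpos P hP').2
  obtain ⟨he₁, hi₁⟩ := hpos P₁ hmem₁
  obtain ⟨he₂, hi₂⟩ := hpos P₂ hmem₂
  have hm₁ : Ideal.inertiaDeg' (maximalIdeal A) P₁ ≤
      Ideal.ramificationIdx' (maximalIdeal A) P₁ * Ideal.inertiaDeg' (maximalIdeal A) P₁ :=
    Nat.le_mul_of_pos_left _ he₁
  have hm₂ : Ideal.inertiaDeg' (maximalIdeal A) P₂ ≤
      Ideal.ramificationIdx' (maximalIdeal A) P₂ * Ideal.inertiaDeg' (maximalIdeal A) P₂ :=
    Nat.le_mul_of_pos_left _ he₂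
  have hT0 : T.card = 0 := by omega
  have hi₁' : Ideal.inertiaDeg' (maximalIdeal A) P₁ = f₁ := by omega
  have hi₂' : Ideal.inertiaDeg' (maximalIdeal A) P₂ = f₂ := by omega
  have hem₁ : Ideal.ramificationIdx' (maximalIdeal A) P₁ *
      Ideal.inertiaDeg' (maximalIdeal A) P₁ = Ideal.inertiaDeg' (maximalIdeal A) P₁ := by omega
  have hem₂ : Ideal.ramificationIdx' (maximalIdeal A) P₂ *
      Ideal.inertiaDeg' (maximalIdeal A) P₂ = Ideal.inertiaDeg' (maximalIdeal A) P₂ := by omega
  refine ⟨?_, ?_, ?_, hi₁', hi₂'⟩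
  · intro P hPp hPl
    have hP : P ∈ IsDedekindDomain.primesOverFinset (maximalIdeal A) (integralClosure A L) :=
      (IsDedekindDomain.mem_primesOverFinset_iff hp0 _).mpr ⟨hPp, hPl⟩
    by_contra hcon
    rw [not_or] at hcon
    have : P ∈ T := Finset.mem_erase.mpr ⟨hcon.2, Finset.mem_erase.mpr ⟨hcon.1, hP⟩⟩
    rw [Finset.card_eq_zero] at hT0
    rw [hT0] at this
    exact absurd this (Finset.notMem_empty _)
  · exact Nat.eq_of_mul_eq_mul_right (by omega : 0 < Ideal.inertiaDeg' (maximalIdeal A) P₁)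
      (by rw [hem₁, one_mul])
  · exact Nat.eq_of_mul_eq_mul_right (by omega : 0 < Ideal.inertiaDeg' (maximalIdeal A) P₂)
      (by rw [hem₂, one_mul])

end Count

end Fermat.Agent.A2.H489

end
-- ===== PACK-END A2/H489/TwoExtC.lean

-- ===== PACK-BEGIN A2/Mod/H372/Branch.lean
section




/-!
# A2 / MODASM S3, generic part (helper372): the branches are Dedekind

Mathlib + `A2.H372` only.

* `dimensionLEOne_quotient_of_integral` : `B` integral over `R[y]` (`R` local), `p` a prime of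
  `B` containing the maximal ideal of `R` ⟹ every nonzero prime of `B ⧸ p` is maximal;
* `isDedekindDomain_quotient_of_integral` : if moreover `B` is noetherian and `B ⧸ p` is
  integrally closed, then `B ⧸ p` is a Dedekind domain;
* `exists_isBranchUnif_of_quotient` : local generators of the branch `B ⧸ P` in terms of a
  parametrisation `α : A → B` onto `B ⧸ P`;
* `KronCong.sup_isRadical_of_quotient` : transversality (`SSChart.transversal`) from the
  semilinear Kronecker congruences when the branch `B ⧸ P₁` is Dedekind.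
-/

set_option autoImplicit false
set_option linter.style.haveILetI false

namespace Fermat.Agent.A2.Mod.H372

open Polynomial

section Dim

variable {R B : Type*} [CommRing R] [IsLocalRing R] [CommRing B]

/-- Every nonzero prime of `B ⧸ p` is maximal. -/
theorem dimensionLEOne_quotient_of_integral (c : R →+* B) (y : B)
    (hint : ∀ b : B, (Polynomial.eval₂RingHom c y).IsIntegralElem b)
    (p : Ideal B) [p.IsPrime] (hp : ∀ r ∈ IsLocalRing.maximalIdeal R, c r ∈ p) :
    Ring.DimensionLEOne (B ⧸ p) := by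
  let k := IsLocalRing.ResidueField R
  let ι : k →+* B ⧸ p :=
    Ideal.Quotient.lift (IsLocalRing.maximalIdeal R) ((Ideal.Quotient.mk p).comp c)
      (fun r hr => Ideal.Quotient.eq_zero_iff_mem.mpr (hp r hr))
  let θ : Polynomial k →+* B ⧸ p := Polynomial.eval₂RingHom ι (Ideal.Quotient.mk p y)
  have hθ : θ.IsIntegral := by
    intro z
    obtain ⟨b, rfl⟩ := Ideal.Quotient.mk_surjective z
    have h1 := isIntegralElem_map (Polynomial.eval₂RingHom c y) (Ideal.Quotient.mk p) (hint b)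
    refine isIntegralElem_of_forall_exists _ _ (fun f => ?_) h1
    refine ⟨f.map (IsLocalRing.residue R), ?_⟩
    show Polynomial.eval₂ ι (Ideal.Quotient.mk p y) (f.map (IsLocalRing.residue R)) = _
    rw [Polynomial.eval₂_map, RingHom.comp_apply, Polynomial.coe_eval₂RingHom,
      Polynomial.hom_eval₂]
    rfl
  letI := θ.toAlgebra
  haveI : Algebra.IsIntegral (Polynomial k) (B ⧸ p) := ⟨hθ⟩
  refine ⟨fun {𝔮} h𝔮 hprime => ?_⟩
  have hne : 𝔮.comap (algebraMap (Polynomial k) (B ⧸ p)) ≠ ⊥ := fun h =>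
    h𝔮 (Ideal.eq_bot_of_comap_eq_bot h)
  have hmax : (𝔮.comap (algebraMap (Polynomial k) (B ⧸ p))).IsMaximal :=
    Ring.DimensionLEOne.maximalOfPrime hne (Ideal.comap_isPrime _ _)
  exact Ideal.isMaximal_of_isIntegral_of_isMaximal_comap 𝔮 hmax

/-- The branch `B ⧸ p` is a Dedekind domain. -/
theorem isDedekindDomain_quotient_of_integral [IsNoetherianRing B] (c : R →+* B) (y : B)
    (hint : ∀ b : B, (Polynomial.eval₂RingHom c y).IsIntegralElem b)
    (p : Ideal B) [p.IsPrime] (hp : ∀ r ∈ IsLocalRing.maximalIdeal R, c r ∈ p)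
    [IsIntegrallyClosed (B ⧸ p)] : IsDedekindDomain (B ⧸ p) :=
  { dimensionLEOne_quotient_of_integral c y hint p hp with
    toIsDomain := inferInstance }

end Dim

section Branch

variable {A B : Type*} [CommRing A] [CommRing B]

open Fermat.Agent.A2.H372 in
/-- If the branch `B ⧸ P` is a Dedekind domain and `α` is onto `B ⧸ P`, every prime `n ⊇ P` has
a local generator in the sense of `IsBranchUnif`. -/
theorem exists_isBranchUnif_of_quotient (α : A →+* B) (P n : Ideal B) [n.IsPrime]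
    (hP : P ≤ n) [IsDedekindDomain (B ⧸ P)] (hα : ∀ b : B, ∃ a : A, b - α a ∈ P) :
    ∃ a₀ : A, IsBranchUnif α P n a₀ := by
  let ψ : B ⧸ P →+* B ⧸ n := Ideal.Quotient.factor hP
  let m : Ideal (B ⧸ P) := RingHom.ker ψ
  have : m.IsPrime := RingHom.ker_isPrime ψ
  have hmem : ∀ b : B, Ideal.Quotient.mk P b ∈ m ↔ b ∈ n := by
    intro b
    simp only [m, ψ, RingHom.mem_ker, Ideal.Quotient.factor_mk, Ideal.Quotient.eq_zero_iff_mem]
  have hmk : ∀ z : B ⧸ P, ∃ a : A, z = Ideal.Quotient.mk P (α a) := by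
    intro z
    obtain ⟨b, rfl⟩ := Ideal.Quotient.mk_surjective z
    obtain ⟨a, ha⟩ := hα b
    exact ⟨a, Ideal.Quotient.eq.mpr ha⟩
  obtain ⟨a₀', ha₀', hgen⟩ := H372.exists_local_generator_of_isDedekindDomain _ m
  obtain ⟨a₀, rfl⟩ := hmk a₀'
  refine ⟨a₀, (hmem _).mp ha₀', fun a ha => ?_⟩
  obtain ⟨s', y', hs', hsy'⟩ := hgen _ ((hmem (α a)).mpr ha)
  obtain ⟨s, rfl⟩ := hmk s'
  obtain ⟨y, rfl⟩ := hmk y'
  refine ⟨s, y, fun h => hs' ((hmem _).mpr h), ?_⟩
  have h0 : Ideal.Quotient.mk P (α s * α a - α a₀ * α y) = 0 := by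
    rw [map_sub, map_mul, map_mul, hsy', sub_self]
  exact Ideal.Quotient.eq_zero_iff_mem.mp h0

open Fermat.Agent.A2.H372 in
/-- **Transversality** when the first branch `B ⧸ P₁` is a Dedekind domain. -/
theorem sup_isRadical_of_quotient {q : ℕ} (hq : 2 ≤ q) {α β : A →+* B}
    {P₁ P₂ : Ideal B} (h : KronCong q α β P₁ P₂) (hα : ∀ b : B, ∃ a : A, b - α a ∈ P₁)
    [IsDedekindDomain (B ⧸ P₁)] : (P₁ ⊔ P₂).IsRadical :=
  h.sup_isRadical hq hα fun n hn hP₁ _ =>
    haveI := hn.isPrime
    exists_isBranchUnif_of_quotient α P₁ n hP₁ hα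

end Branch

end Fermat.Agent.A2.Mod.H372

end
-- ===== PACK-END A2/Mod/H372/Branch.lean

-- ===== PACK-BEGIN S18/H576/Skel.lean
section


/-!
# S18 / MOD-ASM (helper576): `node_mod` from field lemmas about the concrete objects

Skeleton: each `field_*` lemma below is one field (or group of fields) of
`Alg.GoodModel (Lc M) (Ec M E) (Fc M E) (Rc M A E) V w x S` for the concrete objects of
`Mod/Defs.lean`.  `goodModelStatement_of_fields` assembles them into `Mod.GoodModelStatement`.
-/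

set_option autoImplicit false

noncomputable section

namespace Fermat.Agent.S18.H576

open ModularCurve AlgebraicCurve HahnSeries Fermat.Agent.S18 Fermat.Agent.S18.Mod

/-- The part of `GoodModel` that does not mention `V`, `w`, `x`, `S`. -/
structure FieldFacts (M : ℕ) (A : ValuationSubring Qb) (E : IntermediateField ℚ Qb) : Prop where
  R_le : (Rc M A E : Set (Om M)) ⊆ Ec M E
  R_total : ∀ e ∈ Ec M E, e ∈ Rc M A E ∨ e⁻¹ ∈ Rc M A E
  E_le_L : Ec M E ≤ Lc M
  E_le_F : Ec M E ≤ Fc M E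
  L_algebraic : ∀ a ∈ Lc M, IsAlgebraic (Ec M E) a
  L_algClosed : IsAlgClosed (Lc M)
  E_closed_in_F : ∀ f ∈ Fc M E, IsAlgebraic (Ec M E) f → f ∈ Ec M E
  compositum : Subfield.closure ((Fc M E : Set (Om M)) ∪ Lc M) = ⊤

/-- The uniformiser facts. -/
structure UnifFacts (M : ℕ) (A : ValuationSubring Qb) (E : IntermediateField ℚ Qb)
    (w : Om M) : Prop where
  w_mem : w ∈ Rc M A E
  w_ne_zero : w ≠ 0
  w_inv_not_mem : w⁻¹ ∉ Rc M A E
  w_gen : ∀ r ∈ Rc M A E, r⁻¹ ∉ Rc M A E → r * w⁻¹ ∈ Rc M A E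
  w_discrete : ∀ r ∈ Rc M A E, r ≠ 0 →
    ∃ n : ℕ, r * (w⁻¹) ^ n ∈ Rc M A E ∧ (r * (w⁻¹) ^ n)⁻¹ ∈ Rc M A E
  residue_perfect : ∃ p : ℕ, p.Prime ∧ (p : Om M) * w⁻¹ ∈ Rc M A E ∧
    ∀ r ∈ Rc M A E, ∃ s ∈ Rc M A E, (r - s ^ p) * w⁻¹ ∈ Rc M A E

/-- The coordinate facts. -/
structure CoordFacts (M : ℕ) (E : IntermediateField ℚ Qb) (x : Om M) : Prop where
  x_mem : x ∈ Fc M E
  x_transcendental : Transcendental (Lc M) x
  finite : ∃ s : Finset (Om M), (s : Set (Om M)) ⊆ Fc M E ∧
    ∀ f ∈ Fc M E, f ∈ Submodule.span (Alg.ratField (Ec M E) x) (s : Set (Om M))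

/-- The Gauss valuation ring facts. -/
structure ValFacts (M : ℕ) (A : ValuationSubring Qb) (E : IntermediateField ℚ Qb)
    (V : Subring (Om M)) (w x : Om M) : Prop where
  V_le : (V : Set (Om M)) ⊆ Fc M E
  x_mem_V : x ∈ V
  V_total : ∀ f ∈ Fc M E, f ∈ V ∨ f⁻¹ ∈ V
  R_le_V : Rc M A E ≤ V
  w_inv_not_mem_V : w⁻¹ ∉ V
  V_gen : ∀ f ∈ V, f⁻¹ ∉ V → f * w⁻¹ ∈ V
  gauss : ∀ P : Polynomial (Om M), (∀ i, P.coeff i ∈ Rc M A E) →
    (∃ i, P.coeff i ≠ 0 ∧ (P.coeff i)⁻¹ ∈ Rc M A E) → (P.eval x)⁻¹ ∈ V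
  separable : ∀ f ∈ V, ∃ P : Polynomial (Om M),
    (∀ i, P.coeff i ∈ Alg.polyRing (Rc M A E) x) ∧
    P.eval f * w⁻¹ ∈ V ∧ (Polynomial.derivative P).eval f ≠ 0 ∧
    ((Polynomial.derivative P).eval f)⁻¹ ∈ V

/-- The `q`-expansion principle on both charts. -/
structure QepFacts (M : ℕ) (A : ValuationSubring Qb) (E : IntermediateField ℚ Qb)
    (V : Subring (Om M)) (w x : Om M) : Prop where
  qep_fin : ∀ b ∈ Alg.chart (Fc M E) (Rc M A E) x, b * w⁻¹ ∈ V →
    b * w⁻¹ ∈ Alg.chart (Fc M E) (Rc M A E) x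
  qep_inf : ∀ b ∈ Alg.chart (Fc M E) (Rc M A E) x⁻¹, b * w⁻¹ ∈ V →
    b * w⁻¹ ∈ Alg.chart (Fc M E) (Rc M A E) x⁻¹

/-- The branch facts. -/
structure BranchFacts (M : ℕ) (A : ValuationSubring Qb) (E : IntermediateField ℚ Qb)
    (x : Om M) (S : Finset (Om M)) : Prop where
  S_mem : ∀ s ∈ S, s ∈ Rc M A E
  S_distinct : ∀ s ∈ S, ∀ t ∈ S, s ≠ t → (s - t)⁻¹ ∈ Rc M A E
  S_unit : ∀ s ∈ S, s ≠ 0 → s⁻¹ ∈ Rc M A E
  unramified : ∀ O : ValuationSubring (Om M), (∀ a ∈ Lc M, a ∈ O) → ∀ c ∈ Lc M, c ∉ S →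
    x - c ∈ O → (x - c)⁻¹ ∉ O → ∀ t ∈ O, t⁻¹ ∉ O → t * (x - c)⁻¹ ∈ O

/-- Assembly of one `GoodModel` from the six groups of facts. -/
theorem goodModel_of_facts {M : ℕ} {A : ValuationSubring Qb} {E : IntermediateField ℚ Qb}
    {V : Subring (Om M)} {w x : Om M} {S : Finset (Om M)}
    (hcz : CharZero (Om M))
    (hF : FieldFacts M A E) (hU : UnifFacts M A E w) (hC : CoordFacts M E x)
    (hV : ValFacts M A E V w x) (hQ : QepFacts M A E V w x) (hB : BranchFacts M A E x S) :
    Alg.GoodModel (Lc M) (Ec M E) (Fc M E) (Rc M A E) V w x S where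
  charZero := hcz
  R_le := hF.R_le
  R_total := hF.R_total
  w_mem := hU.w_mem
  w_ne_zero := hU.w_ne_zero
  w_inv_not_mem := hU.w_inv_not_mem
  w_gen := hU.w_gen
  w_discrete := hU.w_discrete
  residue_perfect := hU.residue_perfect
  E_le_L := hF.E_le_L
  E_le_F := hF.E_le_F
  L_algebraic := hF.L_algebraic
  L_algClosed := hF.L_algClosed
  E_closed_in_F := hF.E_closed_in_F
  compositum := hF.compositum
  x_mem := hC.x_mem
  x_transcendental := hC.x_transcendental
  finite := hC.finite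
  V_le := hV.V_le
  x_mem_V := hV.x_mem_V
  V_total := hV.V_total
  R_le_V := hV.R_le_V
  w_inv_not_mem_V := hV.w_inv_not_mem_V
  V_gen := hV.V_gen
  gauss := hV.gauss
  qep_fin := hQ.qep_fin
  qep_inf := hQ.qep_inf
  separable := hV.separable
  S_mem := hB.S_mem
  S_distinct := hB.S_distinct
  S_unit := hB.S_unit
  unramified := hB.unramified

end Fermat.Agent.S18.H576

end
end
-- ===== PACK-END S18/H576/Skel.lean

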