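import Mathlib
import Fermat.Prelude.Def_EllipticCurve_FrobeniusTrace
import Fermat.Prelude.Def_ModularCurve_ArithmeticGalois
import Fermat.Prelude.Def_FLTPrelim_Ramification
import Fermat.Prelude.Def_ModularCurve_HeckeModule
import Fermat.Prelude.Def_AlgebraicCurve_DivisorPushPull
import Fermat.Agent.Pack.S34.G0E4L0
import Fermat.Agent.Pack.S34.G0E0L1
import Fermat.Agent.Pack.S34.G0E2L3
import Fermat.Agent.Pack.S34.G0E2L2
import Fermat.Agent.Pack.S34.G0E4L1
import Fermat.Agent.Pack.S34.G0E4L2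
import Fermat.Agent.Pack.S34.G0E5L2
import Fermat.Agent.Pack.S34.G0E5L0
import Fermat.Agent.Pack.S34.G0E5L3
import Fermat.Agent.Pack.S34.G0E1L2
import Fermat.Agent.Pack.S34.G0E1L1
import Fermat.Agent.Pack.S34.G0E5L1
import Fermat.Agent.Pack.S34.G0E4L3
import Fermat.Agent.Pack.S34.G0E2L0

-- ===== PACK-BEGIN Lib/Cheb/H761/PrimeCountBound.lean
section


/-!
# Piece B0 of the shared library CHEB: `Spec.PrimeCountBoundStatement`

There are at most `[F : ℚ]` prime ideals of `𝓞 F` of any given norm.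
-/

set_option autoImplicit false

namespace Fermat.Agent.Lib.Cheb.H761

open IsDedekindDomain NumberField Ideal

/-- A nonzero prime ideal of norm `n` contains the least prime factor of `n`. -/
lemma minFac_mem_of_absNorm_eq {F : Type} [Field F] [NumberField F]
    (𝔭 : HeightOneSpectrum (𝓞 F)) : ((absNorm 𝔭.asIdeal).minFac : 𝓞 F) ∈ 𝔭.asIdeal := by
  have := 𝔭.isMaximal
  obtain ⟨p, n, hn, hmem, hp, hN⟩ := Ideal.exists_prime_and_absNorm_eq_pow 𝔭.asIdeal
  rw [hN, hp.pow_minFac hn.ne']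
  exact hmem

/-- **Piece B0**: `Spec.PrimeCountBoundStatement`. -/
theorem primeCountBound_statement : Spec.PrimeCountBoundStatement := by
  classical
  intro F _ _ p
  rw [Spec.primeCount]
  have hfinset : {𝔮 : Ideal (𝓞 F) | 𝔮.IsPrime ∧ Ideal.absNorm 𝔮 = p}.Finite :=
    (Ideal.finite_setOfPred_absNorm_eq (S := 𝓞 F) p).subset (fun 𝔮 h𝔮 => h𝔮.2)
  have hd : 1 ≤ Module.finrank ℚ F := Module.finrank_pos
  rcases Nat.eq_zero_or_pos p with rfl | hp0
  · -- only the zero ideal has norm `0`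
    have hsub : Subsingleton {𝔮 : Ideal (𝓞 F) // 𝔮.IsPrime ∧ Ideal.absNorm 𝔮 = 0} := by
      refine ⟨fun a b => Subtype.ext ?_⟩
      rw [Ideal.absNorm_eq_zero_iff.mp a.2.2, Ideal.absNorm_eq_zero_iff.mp b.2.2]
    exact (Finite.card_le_one_iff_subsingleton.mpr hsub).trans hd
  · have hfin : Finite {𝔮 : Ideal (𝓞 F) // 𝔮.IsPrime ∧ Ideal.absNorm 𝔮 = p} :=
      hfinset.to_subtype
    have : Fintype {𝔮 : Ideal (𝓞 F) // 𝔮.IsPrime ∧ Ideal.absNorm 𝔮 = p} := Fintype.ofFinite _
    rw [Nat.card_eq_fintype_card]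
    by_cases hne : Nonempty {𝔮 : Ideal (𝓞 F) // 𝔮.IsPrime ∧ Ideal.absNorm 𝔮 = p}
    · -- every such prime contains `p.minFac`, which is prime
      let ι : {𝔮 : Ideal (𝓞 F) // 𝔮.IsPrime ∧ Ideal.absNorm 𝔮 = p} → HeightOneSpectrum (𝓞 F) :=
        fun 𝔮 => ⟨𝔮.1, 𝔮.2.1, by
          rintro h
          have := 𝔮.2.2
          rw [h, Ideal.absNorm_bot] at this
          omega⟩
      have hι : Function.Injective ι := by
        intro a b h
        apply Subtype.ext
        exact congrArg HeightOneSpectrum.asIdeal h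
      have hp1 : p ≠ 1 := by
        rintro rfl
        obtain ⟨𝔮⟩ := hne
        exact 𝔮.2.1.ne_top (Ideal.absNorm_eq_one_iff.mp 𝔮.2.2)
      have hprime : p.minFac.Prime := Nat.minFac_prime hp1
      have hcard := card_le_of_natCast_mem F hprime (Finset.univ.image ι) (by
        intro 𝔭 h𝔭
        obtain ⟨𝔮, -, rfl⟩ := Finset.mem_image.mp h𝔭
        have := minFac_mem_of_absNorm_eq (ι 𝔮)
        have hN : absNorm (ι 𝔮).asIdeal = p := 𝔮.2.2
        rwa [hN] at this)
      rw [Finset.card_image_of_injective _ hι, Finset.card_univ,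
        NumberField.RingOfIntegers.rank] at hcard
      exact hcard
    · rw [not_nonempty_iff] at hne
      rw [Fintype.card_eq_zero]
      exact Nat.zero_le _

end Fermat.Agent.Lib.Cheb.H761

end
-- ===== PACK-END Lib/Cheb/H761/PrimeCountBound.lean

-- ===== PACK-BEGIN Lib/Cheb/H476/Core.lean
section






/-!
# CHEB piece F6 (bridge), part 2: from a prime of a Galois number field inside `ℚ̄`
to a valuation subring of `ℚ̄` with a Frobenius element
-/

set_option autoImplicit false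

open NumberField
open scoped Pointwise

namespace Fermat.Agent.Lib.Cheb.H476

open Fermat.Agent.Lib.Cheb.Spec

/-- The inclusion of the ring of integers of a subfield of `ℚ̄` into `ℚ̄`. -/
noncomputable def incl (L : IntermediateField ℚ Qb) : 𝓞 L →+* Qb :=
  (algebraMap L Qb).comp (algebraMap (𝓞 L) L)

theorem incl_apply (L : IntermediateField ℚ Qb) (x : 𝓞 L) :
    incl L x = ((x : L) : Qb) := rfl

theorem incl_injective (L : IntermediateField ℚ Qb) : Function.Injective (incl L) := by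
  intro x y h
  have h1 : ((x : L) : Qb) = ((y : L) : Qb) := h
  exact RingOfIntegers.ext (Subtype.ext h1)

theorem incl_isIntegral (L : IntermediateField ℚ Qb) (x : 𝓞 L) : IsIntegral ℤ (incl L x) := by
  have h1 : IsIntegral ℤ (x : L) := RingOfIntegers.isIntegral_coe x
  exact h1.map (IsScalarTower.toAlgHom ℤ L Qb)

/-- A valuation subring of `ℚ̄` whose maximal ideal contains a given proper ideal of the ring of
integers of a subfield. -/
theorem exists_valuationSubring_over (L : IntermediateField ℚ Qb) (P : Ideal (𝓞 L))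
    (hP : P ≠ ⊤) : ∃ A : ValuationSubring Qb, ∀ x ∈ P, incl L x ∈ A.nonunits := by
  let I : Ideal (incl L).range := P.map (incl L).rangeRestrict
  have hI : I ≠ ⊤ := by
    intro h
    have h1 : (1 : (incl L).range) ∈ I := by rw [h]; trivial
    rw [Ideal.mem_map_iff_of_surjective _ (incl L).rangeRestrict_surjective] at h1
    obtain ⟨x, hx, hx1⟩ := h1
    have h2 : incl L x = incl L 1 := by
      have := congrArg Subtype.val hx1
      simpa using this
    have h3 : x = 1 := incl_injective L h2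
    exact hP ((Ideal.eq_top_iff_one P).mpr (h3 ▸ hx))
  obtain ⟨A, -, hA⟩ := Ideal.image_subset_nonunits_valuationSubring I hI
  refine ⟨A, fun x hx => hA ⟨(incl L).rangeRestrict x, Ideal.mem_map_of_mem _ hx, rfl⟩⟩

/-- The maximal ideal of `A` cuts out exactly `P`. -/
theorem incl_mem_nonunits_iff (L : IntermediateField ℚ Qb) [NumberField L]
    (A : ValuationSubring Qb) (P : Ideal (𝓞 L)) (hP : P.IsMaximal)
    (hA : ∀ x ∈ P, incl L x ∈ A.nonunits) (x : 𝓞 L) :
    incl L x ∈ A.nonunits ↔ x ∈ P := by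
  refine ⟨fun hx => ?_, hA x⟩
  by_contra hxP
  obtain ⟨y, m, hm, hxy⟩ := hP.exists_inv hxP
  have h1 : incl L y * incl L x + incl L m = 1 := by
    rw [← map_mul, ← map_add, hxy, map_one]
  have hy : A.valuation (incl L y) ≤ 1 :=
    (A.valuation_le_one_iff _).mpr
      (Fermat.Agent.S54.isIntegral_mem_valuationSubring A (incl_isIntegral L y))
  have hx' : A.valuation (incl L x) < 1 := A.mem_nonunits_iff.mp hx
  have hm' : A.valuation (incl L m) < 1 := A.mem_nonunits_iff.mp (hA m hm)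
  have h2 : A.valuation (incl L y * incl L x) < 1 := by
    rw [map_mul]
    exact mul_lt_of_le_one_of_lt hy hx'
  have h3 : A.valuation (incl L y * incl L x + incl L m) < 1 :=
    lt_of_le_of_lt (A.valuation.map_add _ _) (max_lt h2 hm')
  rw [h1, map_one] at h3
  exact lt_irrefl _ h3


/-- The prime of `ℤ` below a prime of `𝓞 L` containing the prime number `p` has residue field of
cardinality `p`. -/
theorem card_quot_under (L : IntermediateField ℚ Qb) [NumberField L] (p : ℕ) (hp : p.Prime)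
    (P : Ideal (𝓞 L)) (hP : P.IsPrime) (hpP : (p : 𝓞 L) ∈ P) :
    Nat.card (ℤ ⧸ P.under ℤ) = p := by
  have : Fact p.Prime := ⟨hp⟩
  have hle : Ideal.span {(p : ℤ)} ≤ P.under ℤ := by
    rw [Ideal.span_le, Set.singleton_subset_iff]
    show algebraMap ℤ (𝓞 L) (p : ℤ) ∈ P
    simpa using hpP
  have hne : P.under ℤ ≠ ⊤ := (Ideal.IsPrime.under ℤ P).ne_top
  have heq : Ideal.span {(p : ℤ)} = P.under ℤ :=
    (Int.ideal_span_isMaximal_of_prime p).eq_of_le hne hle
  rw [← heq, Int.card_ideal_quot]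

/-- **Core of the bridge.**  A prime `P` of a Galois number field `L ⊆ ℚ̄` above `p`, with trivial
inertia group and arithmetic Frobenius `τ`, is induced by a valuation subring `A` of `ℚ̄`
over `p` carrying a Frobenius element `φ` which restricts to `τ`; the inertia group of `A` acts
trivially on `L`. -/
theorem exists_frobenius_restrict (L : IntermediateField ℚ Qb) [NumberField L] [IsGalois ℚ L]
    (p : ℕ) (hp : p.Prime) (P : Ideal (𝓞 L)) (hP : P.IsPrime) (hpP : (p : 𝓞 L) ∈ P)
    (hI : InertiaTrivial L P) (τ : L ≃ₐ[ℚ] L) (hτ : IsArithFrobAt ℤ τ P) :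
    ∃ (A : ValuationSubring Qb) (φ : GQ), A.LiesOverPrime p ∧ A.IsFrobeniusAt φ p ∧
      (∀ ι ∈ A.inertiaSubgroupIn ℚ, ∀ x : L, ι (x : Qb) = x) ∧
      (∀ x : L, φ (x : Qb) = (τ x : L)) := by
  have hP0 : P ≠ ⊥ := by
    intro h
    rw [h, Ideal.mem_bot] at hpP
    exact hp.ne_zero (by exact_mod_cast hpP)
  have hPmax : P.IsMaximal := hP.isMaximal hP0
  obtain ⟨A, hA⟩ := exists_valuationSubring_over L P hP.ne_top
  have hAp : A.LiesOverPrime p := by
    have h := hA _ hpP
    have h' : incl L (p : 𝓞 L) = (p : Qb) := by simp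
    rw [h'] at h
    exact h
  obtain ⟨φ, hφ, hφF⟩ := exists_frobenius_at p hp A hAp
  have hmem := incl_mem_nonunits_iff L A P hPmax hA
  have hres : ∀ (g : GQ) (x : L), ((AlgEquiv.restrictNormal g L x : L) : Qb) = g (x : Qb) :=
    fun g x => AlgEquiv.restrictNormal_commutes g L x
  have hcard := card_quot_under L p hp P hP hpP
  refine ⟨A, φ, hAp, hφ, ?_, ?_⟩
  · intro ι hι x
    have h1 : AlgEquiv.restrictNormal ι L = 1 := by
      apply hI
      intro y
      rw [← hmem]
      have h2 : incl L (AlgEquiv.restrictNormal ι L • y - y) = ι (incl L y) - incl L y := by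
        rw [map_sub]
        congr 1
        exact hres ι y
      rw [h2]
      exact sub_mem_nonunits_of_mem_inertia A ι hι _
        (Fermat.Agent.S54.isIntegral_mem_valuationSubring A (incl_isIntegral L y))
    rw [← hres, h1]
    rfl
  · have h1 : IsArithFrobAt ℤ (AlgEquiv.restrictNormal φ L) P := by
      intro y
      rw [hcard]
      rw [← hmem]
      have h2 : incl L ((MulSemiringAction.toAlgHom ℤ (𝓞 L) (AlgEquiv.restrictNormal φ L)) y
          - y ^ p) = φ (incl L y) - incl L y ^ p := by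
        rw [map_sub, map_pow]
        congr 1
        exact hres φ y
      rw [h2]
      exact hφF ⟨incl L y, incl_isIntegral L y⟩
    have h2 := IsArithFrobAt.mul_inv_mem_inertia h1 hτ
    have h3 : AlgEquiv.restrictNormal φ L * τ⁻¹ = 1 := hI _ h2
    have h4 : AlgEquiv.restrictNormal φ L = τ := mul_inv_eq_one.mp h3
    intro x
    rw [← hres, h4]

end Fermat.Agent.Lib.Cheb.H476

end
-- ===== PACK-END Lib/Cheb/H476/Core.lean

-- ===== PACK-BEGIN S31/H22/Assembly.lean
section




/-!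
# S31 piece E (helper22): assembly

`unramified_of_parts`: from `S30Statement`, `ChebStatement`, `PTS` and the trace criterion (piece A,
taken here as a hypothesis `hA` on the given representation) deduce that `H.ρ` is unramified
outside `S`.
-/

set_option autoImplicit false

open Polynomial

namespace Fermat.Agent.S31.H22

open Fermat.Agent.S31

/-! ### E0: pulling back powers of the maximal ideal along an injective map from a DVR -/

lemma exists_pow_comap_le {O O' : Type} [CommRing O] [IsDomain O] [IsDiscreteValuationRing O]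
    [CommRing O'] [IsLocalRing O'] [IsNoetherianRing O'] (φ : O →+* O')
    (hφ : Function.Injective φ) (n : ℕ) :
    ∃ k : ℕ, ∀ x : O, φ x ∈ IsLocalRing.maximalIdeal O' ^ k → x ∈ IsLocalRing.maximalIdeal O ^ n := by
  by_contra hcon
  push Not at hcon
  obtain ⟨ϖ, hϖ⟩ := IsDiscreteValuationRing.exists_irreducible O
  have hm : IsLocalRing.maximalIdeal O = Ideal.span {ϖ} := hϖ.maximalIdeal_eq
  -- `φ (ϖ ^ n)` lies in every power of the maximal ideal
  have hall : ∀ k : ℕ, φ (ϖ ^ n) ∈ IsLocalRing.maximalIdeal O' ^ k := by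
    intro k
    obtain ⟨x, hx, hxn⟩ := hcon k
    have hx0 : x ≠ 0 := by
      rintro rfl
      exact hxn (Ideal.zero_mem _)
    obtain ⟨a, u, rfl⟩ := IsDiscreteValuationRing.eq_unit_mul_pow_irreducible hx0 hϖ
    have han : a < n := by
      by_contra h
      push Not at h
      apply hxn
      rw [hm, Ideal.span_singleton_pow, Ideal.mem_span_singleton]
      exact Dvd.dvd.mul_left (pow_dvd_pow ϖ h) _
    have : ϖ ^ n = (ϖ ^ (n - a) * ↑u⁻¹) * (↑u * ϖ ^ a) := by
      have h1 : ϖ ^ n = ϖ ^ (n - a) * ϖ ^ a := by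
        rw [← pow_add]; congr 1; omega
      rw [h1]
      have h2 : (↑u⁻¹ : O) * ↑u = 1 := by simp
      calc ϖ ^ (n - a) * ϖ ^ a = ϖ ^ (n - a) * ((↑u⁻¹ : O) * ↑u) * ϖ ^ a := by rw [h2, mul_one]
        _ = _ := by ring
    rw [this, map_mul]
    exact Ideal.mul_mem_left _ _ hx
  have hzero : φ (ϖ ^ n) = 0 := by
    have h1 : φ (ϖ ^ n) ∈ ⨅ k, IsLocalRing.maximalIdeal O' ^ k := by
      rw [Ideal.mem_iInf]; exact hall
    rw [Ideal.iInf_pow_eq_bot_of_isLocalRing _ (Ideal.IsMaximal.ne_top inferInstance)] at h1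
    simpa using h1
  have : ϖ ^ n = 0 := hφ (by rw [hzero, map_zero])
  exact pow_ne_zero n hϖ.ne_zero this

/-! ### E1: approximating traces by Hecke elements -/

section E1

variable {N : ℕ} [NeZero N] {S : Finset ℕ}

/-- the Hecke element computing the trace of the `j`-th power of a Frobenius at `ℓ` -/
noncomputable def heckePow {ℓ : ℕ} (hℓ : ℓ.Prime) (hℓN : ¬ ℓ ∣ N) (hℓS : ℓ ∉ (↑S : Set ℕ))
    (j : ℕ) : CuspForm.heckeAlgebra N 2 (↑S : Set ℕ) :=
  powTr (CuspForm.heckeAlgebra.T hℓ hℓN hℓS) (ℓ : CuspForm.heckeAlgebra N 2 (↑S : Set ℕ)) j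

/-- the Frobenius condition relating a representation over `A` and a character of the Hecke
algebra -/
def FrobCond {A : Type} [CommRing A] [IsLocalRing A] (ρ : GaloisRepAdic A)
    (φ : CuspForm.heckeAlgebra N 2 (↑S : Set ℕ) →+* A) : Prop :=
  ∀ (ℓ : ℕ) (hℓ : ℓ.Prime) (hℓN : ¬ ℓ ∣ N) (hℓS : ℓ ∉ (↑S : Set ℕ)),
    ∀ B : ValuationSubring Qb, B.LiesOverPrime ℓ →
      ∀ σ : GQ, B.IsFrobeniusAt σ ℓ →
        LinearMap.charpoly (ρ.ρ σ) =
          X ^ 2 - C (φ (CuspForm.heckeAlgebra.T hℓ hℓN hℓS)) * X + C ((ℓ : A))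

lemma trace_sub_hecke_mem {A : Type} [CommRing A] [IsLocalRing A] (ρ : GaloisRepAdic A)
    (φ : CuspForm.heckeAlgebra N 2 (↑S : Set ℕ) →+* A) (hfrob : FrobCond ρ φ)
    (n : ℕ) (L : IntermediateField ℚ Qb)
    (hL : ∀ g g' : GQ, (∀ x ∈ L, g x = g' x) →
      ρ.trace g - ρ.trace g' ∈ IsLocalRing.maximalIdeal A ^ n)
    (g : GQ) {ℓ : ℕ} (hℓ : ℓ.Prime) (hℓN : ¬ ℓ ∣ N) (hℓS : ℓ ∉ (↑S : Set ℕ))
    (B : ValuationSubring Qb) (hB : B.LiesOverPrime ℓ) (σ : GQ) (hσ : B.IsFrobeniusAt σ ℓ)
    (j : ℕ) (hj : ∀ x ∈ L, (σ ^ j) x = g x) :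
    ρ.trace g - φ (heckePow hℓ hℓN hℓS j) ∈ IsLocalRing.maximalIdeal A ^ n := by
  have h1 := hL g (σ ^ j) (fun x hx => (hj x hx).symm)
  have h2 : ρ.trace (σ ^ j) = φ (heckePow hℓ hℓN hℓS j) := by
    rw [heckePow, map_powTr, map_natCast]
    show LinearMap.trace A ρ.V (ρ.ρ (σ ^ j)) = _
    rw [map_pow]
    exact trace_pow_of_charpoly ρ.finrank_eq _ _ _ (hfrob ℓ hℓ hℓN hℓS B hB σ hσ) j
  rwa [h2] at h1

end E1

/-! ### E3: the per-point lemma -/

section E3

variable {p : ℕ} {N : ℕ} [NeZero N] {S : Finset ℕ}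

/-- `τ` lies in an inertia group at a prime outside `S`. -/
def IsInertialOutside (S : Finset ℕ) (τ : GQ) : Prop :=
  ∃ q : ℕ, q.Prime ∧ q ∉ S ∧ ∃ B : ValuationSubring Qb, B.LiesOverPrime q ∧
    τ ∈ B.inertiaSubgroupIn ℚ

lemma exists_field_of_point (h30 : S30Statement) (hp : p.Prime) (hpS : p ∈ S)
    (hNS : ∀ q : ℕ, q.Prime → q ∣ N → q ∈ S)
    (P : PadicPoint p (CuspForm.heckeAlgebra N 2 (↑S : Set ℕ))) (n' : ℕ) :
    ∃ L : IntermediateField ℚ Qb, FiniteDimensional ℚ L ∧
      ∀ (g τ : GQ), IsInertialOutside S τ →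
      ∀ {ℓ : ℕ} (hℓ : ℓ.Prime) (hℓN : ¬ ℓ ∣ N) (hℓS : ℓ ∉ (↑S : Set ℕ))
        (B : ValuationSubring Qb) (_ : B.LiesOverPrime ℓ) (σ : GQ) (_ : B.IsFrobeniusAt σ ℓ)
        (j : ℕ) (_ : ∀ x ∈ L, (σ ^ j) x = g x)
        {ℓ' : ℕ} (hℓ' : ℓ'.Prime) (hℓN' : ¬ ℓ' ∣ N) (hℓS' : ℓ' ∉ (↑S : Set ℕ))
        (B' : ValuationSubring Qb) (_ : B'.LiesOverPrime ℓ') (σ' : GQ)
        (_ : B'.IsFrobeniusAt σ' ℓ')
        (j' : ℕ) (_ : ∀ x ∈ L, (σ' ^ j') x = (g * τ) x),
        P.χ (heckePow hℓ hℓN hℓS j - heckePow hℓ' hℓN' hℓS' j') ∈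
          IsLocalRing.maximalIdeal P.O ^ n' := by
  have : Fact p.Prime := ⟨hp⟩
  obtain ⟨O'', i1, i2, i3, i4, i5, i6, i7, i8, i9, hinj, ρ'', hfrob, hunr⟩ :=
    h30 p N S hpS hNS P.O P.hp P.χ
  obtain ⟨k, hk⟩ := exists_pow_comap_le (algebraMap P.O O'') hinj n'
  obtain ⟨L, hLfin, hL⟩ := trace_congr_of_agree ρ'' k
  refine ⟨L, hLfin, ?_⟩
  intro g τ hτ ℓ hℓ hℓN hℓS B hB σ hσ j hj ℓ' hℓ' hℓN' hℓS' B' hB' σ' hσ' j' hj'
  have hfc : FrobCond ρ'' ((algebraMap P.O O'').comp P.χ) := by
    intro ℓ hℓ hℓN hℓS B hB σ hσ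
    exact hfrob ℓ hℓ hℓN hℓS B hB σ hσ
  have e1 := trace_sub_hecke_mem ρ'' _ hfc k L hL g hℓ hℓN hℓS B hB σ hσ j hj
  have e2 := trace_sub_hecke_mem ρ'' _ hfc k L hL (g * τ) hℓ' hℓN' hℓS' B' hB' σ' hσ' j' hj'
  -- `ρ''` is unramified at `τ`
  obtain ⟨q, hq, hqS, Bq, hBq, hτq⟩ := hτ
  have hqN : ¬ q ∣ N := fun h => hqS (hNS q hq h)
  have hqp : q ≠ p := fun h => hqS (h ▸ hpS)
  have hτ1 : ρ''.ρ τ = 1 := hunr q hq hqN hqp Bq hBq τ hτq
  have htr : ρ''.trace (g * τ) = ρ''.trace g := by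
    show LinearMap.trace O'' ρ''.V (ρ''.ρ (g * τ)) = LinearMap.trace O'' ρ''.V (ρ''.ρ g)
    rw [map_mul, hτ1, mul_one]
  rw [htr] at e2
  apply hk
  have : algebraMap P.O O'' (P.χ (heckePow hℓ hℓN hℓS j - heckePow hℓ' hℓN' hℓS' j')) =
      (ρ''.trace g - ((algebraMap P.O O'').comp P.χ) (heckePow hℓ' hℓN' hℓS' j')) -
      (ρ''.trace g - ((algebraMap P.O O'').comp P.χ) (heckePow hℓ hℓN hℓS j)) := by
    simp only [RingHom.comp_apply, map_sub]
    ring
  rw [this]
  exact Ideal.sub_mem _ e2 e1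

end E3

/-! ### finite suprema of finite-dimensional intermediate fields -/

lemma exists_sup_of_list {α : Type*} (F : List α) (L : α → IntermediateField ℚ Qb)
    (hL : ∀ a, FiniteDimensional ℚ (L a)) :
    ∃ E : IntermediateField ℚ Qb, FiniteDimensional ℚ E ∧ ∀ a ∈ F, L a ≤ E := by
  induction F with
  | nil => exact ⟨⊥, inferInstance, by simp⟩
  | cons a F ih =>
    obtain ⟨E, hE, hle⟩ := ih
    have := hL a
    refine ⟨L a ⊔ E, IntermediateField.finiteDimensional_sup _ _, ?_⟩
    intro b hb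
    rcases List.mem_cons.mp hb with rfl | hb
    · exact le_sup_left
    · exact (hle b hb).trans le_sup_right

/-! ### E: the main argument -/

section Main

variable {p : ℕ} {N : ℕ} [NeZero N] {S : Finset ℕ}
  {𝒪 : Type} [CommRing 𝒪] [IsDomain 𝒪] [IsDiscreteValuationRing 𝒪]
  [IsAdicComplete (IsLocalRing.maximalIdeal 𝒪) 𝒪]
  {θ : CuspForm.heckeAlgebra N 2 (↑S : Set ℕ) →+* IsLocalRing.ResidueField 𝒪}
  {T : Type} [CommRing T] [IsLocalRing T] [IsNoetherianRing T]
  [IsAdicComplete (IsLocalRing.maximalIdeal T) T] [Algebra 𝒪 T] [IsLocalHom (algebraMap 𝒪 T)]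
  [Module.Finite 𝒪 T] [Module.Free 𝒪 T]

/-- traces are invariant under right multiplication by inertia outside `S` -/
theorem trace_mul_inertia (h30 : S30Statement) (hcheb : ChebStatement) (hp : p.Prime)
    (hp𝒪 : (p : 𝒪) ∈ IsLocalRing.maximalIdeal 𝒪) (hpS : p ∈ S)
    (hNS : ∀ q : ℕ, q.Prime → q ∣ N → q ∈ S)
    (hPTS : PTS p (CuspForm.heckeAlgebra N 2 (↑S : Set ℕ)))
    (H : CuspForm.HeckeGaloisRepDatum N (↑S : Set ℕ) 𝒪 θ T)
    (τ : GQ) (hτ : IsInertialOutside S τ) (g : GQ) :
    H.ρ.trace (g * τ) = H.ρ.trace g := by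
  -- Krull intersection
  rw [← sub_eq_zero]
  have hK : (⨅ n, IsLocalRing.maximalIdeal T ^ n) = ⊥ :=
    Ideal.iInf_pow_eq_bot_of_isLocalRing _ (Ideal.IsMaximal.ne_top inferInstance)
  suffices h : H.ρ.trace (g * τ) - H.ρ.trace g ∈ ⨅ n, IsLocalRing.maximalIdeal T ^ n by
    rw [hK] at h; simpa using h
  rw [Ideal.mem_iInf]
  intro n
  -- the prime `m` of the Hecke algebra
  set m : Ideal (CuspForm.heckeAlgebra N 2 (↑S : Set ℕ)) :=
    Ideal.comap H.π (IsLocalRing.maximalIdeal T) with hm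
  have hmprime : m.IsPrime := Ideal.comap_isPrime _ _
  have hpT : (p : T) ∈ IsLocalRing.maximalIdeal T := by
    have h1 : (p : T) = algebraMap 𝒪 T (p : 𝒪) := by simp
    rw [h1, IsLocalRing.mem_maximalIdeal, mem_nonunits_iff]
    intro hu
    exact (IsLocalRing.mem_maximalIdeal _).mp hp𝒪 (isUnit_of_map_unit (algebraMap 𝒪 T) _ hu)
  have hpm : (p : CuspForm.heckeAlgebra N 2 (↑S : Set ℕ)) ∈ m := by
    rw [hm, Ideal.mem_comap, map_natCast]; exact hpT
  obtain ⟨F, n', hF⟩ := hPTS m hmprime hpm n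
  -- fields
  have hpt := fun P : PadicPoint p (CuspForm.heckeAlgebra N 2 (↑S : Set ℕ)) =>
    exists_field_of_point h30 hp hpS hNS P n'
  choose LP hLPfin hLP using hpt
  obtain ⟨E₁, hE₁fin, hE₁⟩ := exists_sup_of_list F LP hLPfin
  obtain ⟨L₀, hL₀fin, hL₀⟩ := trace_congr_of_agree H.ρ n
  have := hE₁fin
  have := hL₀fin
  set E : IntermediateField ℚ Qb := L₀ ⊔ E₁ with hE
  have hEfin : FiniteDimensional ℚ E := IntermediateField.finiteDimensional_sup _ _
  -- Frobenius data for `g` and `g * τ`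
  obtain ⟨ℓ, B, σ, k, j, hℓ, hℓS, hB, hσ, -, -, hj⟩ := hcheb E hEfin g S
  obtain ⟨ℓ', B', σ', k', j', hℓ', hℓS', hB', hσ', -, -, hj'⟩ := hcheb E hEfin (g * τ) S
  have hℓN : ¬ ℓ ∣ N := fun h => hℓS (hNS ℓ hℓ h)
  have hℓN' : ¬ ℓ' ∣ N := fun h => hℓS' (hNS ℓ' hℓ' h)
  have hℓS1 : ℓ ∉ (↑S : Set ℕ) := by simpa using hℓS
  have hℓS1' : ℓ' ∉ (↑S : Set ℕ) := by simpa using hℓS'
  have hL₀E : L₀ ≤ E := le_sup_left
  have hE₁E : E₁ ≤ E := le_sup_right
  -- approximation for `H.ρ`
  have hfc : FrobCond H.ρ H.π := fun ℓ hℓ hℓN hℓS B hB σ hσ =>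
    H.charpoly_frob ℓ hℓ hℓN hℓS B hB σ hσ
  have e1 := trace_sub_hecke_mem H.ρ H.π hfc n L₀ hL₀ g hℓ hℓN hℓS1 B hB σ hσ j
    (fun x hx => hj x (hL₀E hx))
  have e2 := trace_sub_hecke_mem H.ρ H.π hfc n L₀ hL₀ (g * τ) hℓ' hℓN' hℓS1' B' hB' σ' hσ' j'
    (fun x hx => hj' x (hL₀E hx))
  -- the difference of the Hecke elements lies in `m ^ n`
  have hdiff : heckePow hℓ hℓN hℓS1 j - heckePow hℓ' hℓN' hℓS1' j' ∈ m ^ n := by
    apply hF
    intro P hP
    exact hLP P g τ hτ hℓ hℓN hℓS1 B hB σ hσ j (fun x hx => hj x (hE₁E (hE₁ P hP hx)))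
      hℓ' hℓN' hℓS1' B' hB' σ' hσ' j' (fun x hx => hj' x (hE₁E (hE₁ P hP hx)))
  have hπ : H.π (heckePow hℓ hℓN hℓS1 j - heckePow hℓ' hℓN' hℓS1' j') ∈
      IsLocalRing.maximalIdeal T ^ n := by
    have h1 : (m ^ n).map H.π ≤ IsLocalRing.maximalIdeal T ^ n := by
      rw [Ideal.map_pow]
      exact Ideal.pow_right_mono (Ideal.map_comap_le) n
    exact h1 (Ideal.mem_map_of_mem _ hdiff)
  have : H.ρ.trace (g * τ) - H.ρ.trace g =
      (H.ρ.trace (g * τ) - H.π (heckePow hℓ' hℓN' hℓS1' j')) -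
      (H.ρ.trace g - H.π (heckePow hℓ hℓN hℓS1 j)) -
      H.π (heckePow hℓ hℓN hℓS1 j - heckePow hℓ' hℓN' hℓS1' j') := by
    rw [map_sub]; ring
  rw [this]
  exact Ideal.sub_mem _ (Ideal.sub_mem _ e2 e1) hπ

/-- **E** with the trace criterion (piece A) as a hypothesis on `H.ρ`. -/
theorem unramified_of_parts_of_criterion (h30 : S30Statement) (hcheb : ChebStatement)
    (hp : p.Prime)
    (hp𝒪 : (p : 𝒪) ∈ IsLocalRing.maximalIdeal 𝒪) (hpS : p ∈ S)
    (hNS : ∀ q : ℕ, q.Prime → q ∣ N → q ∈ S)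
    (hPTS : PTS p (CuspForm.heckeAlgebra N 2 (↑S : Set ℕ)))
    (H : CuspForm.HeckeGaloisRepDatum N (↑S : Set ℕ) 𝒪 θ T)
    (hA : ∀ τ : GQ, (∀ g : GQ, H.ρ.trace (g * τ) = H.ρ.trace g) → H.ρ.ρ τ = 1)
    (q : ℕ) (hq : q.Prime) (hqS : q ∉ S) :
    H.ρ.IsUnramifiedAt q := by
  intro P hP τ hτ
  exact hA τ fun g =>
    trace_mul_inertia h30 hcheb hp hp𝒪 hpS hNS hPTS H τ ⟨q, hq, hqS, P, hP, hτ⟩ g

end Main

end Fermat.Agent.S31.H22

end
-- ===== PACK-END S31/H22/Assembly.lean

-- ===== PACK-BEGIN A2/T0/H669/T0.lean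
section




/-!
# WALL A2, piece T0 (helper669): Kummer form of the wall ⇒ the wall

Interface of `origin/helper13:Fermat/Agent/A2/{Spec,Skel}.lean` (`target_of_kummerTarget`), stated
here with the two definitions `KummerTarget`, `Target` of `Spec.lean` UNFOLDED (so that this file
only imports files which are on main).  `Spec.act N τ` is by definition
`arithmeticRingAut (modularFunctionFieldFull N) τ`.

* `a2Kummer_of_kummer`          : one `τ`; pointwise Kummer statement ⇒ `H129.A2Kummer N m τ`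
                                  (the hypothesis consumed by `H909` / TRANSFER).
* `unipotent_of_kummer`         : one `τ`; pointwise Kummer statement ⇒ `τ•τ•x + x = 2•τ•x`.
* `target_of_kummerTarget`      : `KummerTarget N q m → Target N q m` (both unfolded), VERBATIM the
                                  statement T0 of `Skel.lean` after `unfold KummerTarget Target act`.
* `a2Kummer_of_kummerTarget`    : `KummerTarget N q m → ∀ P | q, ∀ τ ∈ I_P, H129.A2Kummer N m τ`.
-/

set_option autoImplicit false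

noncomputable section

namespace Fermat.Agent.A2.T0.H669

open ModularCurve AlgebraicCurve

/-- The pointwise Kummer statement for one `τ` (body of `Spec.KummerTarget`). -/
def KummerAt (N m : ℕ) (τ : AlgebraicClosure ℚ ≃ₐ[ℚ] AlgebraicClosure ℚ) : Prop :=
  ∀ f : modularFunctionFieldBar N, f ≠ 0 →
    (∀ v : Place (AlgebraicClosure ℚ) (modularFunctionFieldBar N), (m : ℤ) ∣ v.ord f) →
    ∃ h : modularFunctionFieldBar N, h ≠ 0 ∧
      arithmeticRingAut (modularFunctionFieldFull N) τ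
          (arithmeticRingAut (modularFunctionFieldFull N) τ f) * f =
        h ^ m * (arithmeticRingAut (modularFunctionFieldFull N) τ f) ^ 2

/-- `(τ-1)² f = τ²f · f / (τ f)²` in the notation of `H129`. -/
theorem tauSubOne_tauSubOne_eq {F : Type*} [Field F] (τ : F ≃+* F) {f : F} (hf : f ≠ 0) :
    H129.tauSubOne τ (H129.tauSubOne τ f) = τ (τ f) * f * ((τ f) ^ 2)⁻¹ := by
  have hτf : τ f ≠ 0 := (map_ne_zero_iff τ τ.injective).2 hf
  unfold H129.tauSubOne
  rw [map_mul, map_inv₀, mul_inv, inv_inv]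
  field_simp

/-- One `τ`: the pointwise Kummer statement gives `H129.A2Kummer`. -/
theorem a2Kummer_of_kummer (N m : ℕ) (τ : AlgebraicClosure ℚ ≃ₐ[ℚ] AlgebraicClosure ℚ)
    (h : KummerAt N m τ) : H129.A2Kummer N m τ := by
  intro f hf hdiv
  obtain ⟨y, _, hy⟩ := h f hf hdiv
  refine ⟨y, 1, one_ne_zero, ?_⟩
  rw [toRingAut_arithmeticGalois, tauSubOne_tauSubOne_eq _ hf, hy, map_one, one_mul]
  have hτf : arithmeticRingAut (modularFunctionFieldFull N) τ f ≠ 0 :=
    (map_ne_zero_iff _ (arithmeticRingAut (modularFunctionFieldFull N) τ).injective).2 hf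
  field_simp

/-- One `τ`: the pointwise Kummer statement gives `(τ - 1)² = 0` on `J₀(N)[m]`. -/
theorem unipotent_of_kummer (N m : ℕ) (hm : 0 < m)
    (τ : AlgebraicClosure ℚ ≃ₐ[ℚ] AlgebraicClosure ℚ) (h : KummerAt N m τ)
    (x : JZero N) (hx : m • x = 0) :
    τ • (τ • x) + x = 2 • (τ • x) := by
  have h1 := H129.unipotent_JZero_of_kummer N m hm.ne' τ (a2Kummer_of_kummer N m τ h) x hx
  rw [smul_sub] at h1
  rw [two_nsmul]
  have h2 : τ • (τ • x) = τ • x - x + τ • x := by
    rw [← h1]; abel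
  rw [h2]; abel

/-- **T0** (`target_of_kummerTarget` of `Skel.lean`, definitions unfolded). -/
theorem target_of_kummerTarget (N q m : ℕ) (hm : 0 < m)
    (h : ∀ P : ValuationSubring (AlgebraicClosure ℚ), P.LiesOverPrime q →
      ∀ τ ∈ P.inertiaSubgroupIn ℚ, ∀ f : modularFunctionFieldBar N, f ≠ 0 →
        (∀ v : Place (AlgebraicClosure ℚ) (modularFunctionFieldBar N), (m : ℤ) ∣ v.ord f) →
        ∃ h : modularFunctionFieldBar N, h ≠ 0 ∧
          arithmeticRingAut (modularFunctionFieldFull N) τ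
              (arithmeticRingAut (modularFunctionFieldFull N) τ f) * f =
            h ^ m * (arithmeticRingAut (modularFunctionFieldFull N) τ f) ^ 2) :
    ∀ P : ValuationSubring (AlgebraicClosure ℚ), P.LiesOverPrime q →
      ∀ τ ∈ P.inertiaSubgroupIn ℚ, ∀ x : JZero N, m • x = 0 →
        τ • (τ • x) + x = 2 • (τ • x) :=
  fun P hP τ hτ x hx => unipotent_of_kummer N m hm τ (h P hP τ hτ) x hx

/-- **T0'** : the form consumed by `H909` (TRANSFER): `H129.A2Kummer` for every inertia
element at `q`. -/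
theorem a2Kummer_of_kummerTarget (N q m : ℕ)
    (h : ∀ P : ValuationSubring (AlgebraicClosure ℚ), P.LiesOverPrime q →
      ∀ τ ∈ P.inertiaSubgroupIn ℚ, ∀ f : modularFunctionFieldBar N, f ≠ 0 →
        (∀ v : Place (AlgebraicClosure ℚ) (modularFunctionFieldBar N), (m : ℤ) ∣ v.ord f) →
        ∃ h : modularFunctionFieldBar N, h ≠ 0 ∧
          arithmeticRingAut (modularFunctionFieldFull N) τ
              (arithmeticRingAut (modularFunctionFieldFull N) τ f) * f =
            h ^ m * (arithmeticRingAut (modularFunctionFieldFull N) τ f) ^ 2) :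
    ∀ P : ValuationSubring (AlgebraicClosure ℚ), P.LiesOverPrime q →
      ∀ τ ∈ P.inertiaSubgroupIn ℚ, H129.A2Kummer N m τ :=
  fun P hP τ hτ => a2Kummer_of_kummer N m τ (h P hP τ hτ)

end Fermat.Agent.A2.T0.H669

end
end
-- ===== PACK-END A2/T0/H669/T0.lean

-- ===== PACK-BEGIN S24/Mod/H997Local.lean
section


/-!
# S24 / MOD — construction of `LocalData` from an abstract expansion with rotation data
-/

set_option autoImplicit false

noncomputable section

open ModularCurve HahnSeries UpperHalfPlane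
open scoped MatrixGroups

namespace Fermat.Agent.S24.H997

/-! ### The "rotation relation" on Laurent series -/

/-- `b` has the same order as `a`, and leading coefficient `ζ ^ order * (leading coeff of a)`. -/
def RotRel (ζ : ℂ) (a b : LaurentSeries ℂ) : Prop :=
  b.order = a.order ∧ b.leadingCoeff = ζ ^ a.order * a.leadingCoeff

namespace RotRel

variable {ζ : ℂ} {a b a' b' : LaurentSeries ℂ}

theorem zero : RotRel ζ 0 0 := ⟨rfl, by simp⟩

theorem eq_zero_iff (h : RotRel ζ a b) (hζ : ζ ≠ 0) : b = 0 ↔ a = 0 := by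
  rw [← leadingCoeff_eq_zero (x := b), ← leadingCoeff_eq_zero (x := a), h.2]
  simp [zpow_ne_zero _ hζ]

theorem mul (hζ : ζ ≠ 0) (h : RotRel ζ a b) (h' : RotRel ζ a' b') :
    RotRel ζ (a * a') (b * b') := by
  by_cases ha : a = 0
  · have hb : b = 0 := (h.eq_zero_iff hζ).mpr ha
    simp only [ha, hb, zero_mul]; exact zero
  by_cases ha' : a' = 0
  · have hb' : b' = 0 := (h'.eq_zero_iff hζ).mpr ha'
    simp only [ha', hb', mul_zero]; exact zero
  have hb : b ≠ 0 := fun hb => ha ((h.eq_zero_iff hζ).mp hb)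
  have hb' : b' ≠ 0 := fun hb' => ha' ((h'.eq_zero_iff hζ).mp hb')
  have hab : a.leadingCoeff * a'.leadingCoeff ≠ 0 :=
    mul_ne_zero (leadingCoeff_ne_zero.mpr ha) (leadingCoeff_ne_zero.mpr ha')
  have hbb : b.leadingCoeff * b'.leadingCoeff ≠ 0 :=
    mul_ne_zero (leadingCoeff_ne_zero.mpr hb) (leadingCoeff_ne_zero.mpr hb')
  refine ⟨?_, ?_⟩
  · rw [order_mul_of_ne_zero hab, order_mul_of_ne_zero hbb, h.1, h'.1]
  · rw [leadingCoeff_mul, leadingCoeff_mul, order_mul_of_ne_zero hab, h.2, h'.2, zpow_add₀ hζ]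
    ring

theorem one : RotRel ζ 1 1 := ⟨rfl, by simp⟩

theorem order_inv' {x : LaurentSeries ℂ} (hx : x ≠ 0) : x⁻¹.order = -x.order := by
  have hxi : x⁻¹ ≠ 0 := inv_ne_zero hx
  have h : x.leadingCoeff * x⁻¹.leadingCoeff ≠ 0 :=
    mul_ne_zero (leadingCoeff_ne_zero.mpr hx) (leadingCoeff_ne_zero.mpr hxi)
  have := order_mul_of_ne_zero h
  rw [mul_inv_cancel₀ hx, order_one] at this
  omega

theorem leadingCoeff_inv' {x : LaurentSeries ℂ} (hx : x ≠ 0) :
    x⁻¹.leadingCoeff = (x.leadingCoeff)⁻¹ := by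
  have := leadingCoeff_mul x x⁻¹
  rw [mul_inv_cancel₀ hx, leadingCoeff_one] at this
  exact eq_inv_of_mul_eq_one_right this.symm

theorem inv (hζ : ζ ≠ 0) (h : RotRel ζ a b) : RotRel ζ a⁻¹ b⁻¹ := by
  by_cases ha : a = 0
  · have hb : b = 0 := (h.eq_zero_iff hζ).mpr ha
    simp only [ha, hb, inv_zero]; exact zero
  have hb : b ≠ 0 := fun hb => ha ((h.eq_zero_iff hζ).mp hb)
  refine ⟨?_, ?_⟩
  · rw [order_inv' hb, order_inv' ha, h.1]
  · rw [leadingCoeff_inv' hb, leadingCoeff_inv' ha, order_inv' ha, h.2, mul_inv, zpow_neg]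

theorem div (hζ : ζ ≠ 0) (h : RotRel ζ a b) (h' : RotRel ζ a' b') :
    RotRel ζ (a / a') (b / b') := by
  rw [div_eq_mul_inv, div_eq_mul_inv]
  exact h.mul hζ (h'.inv hζ)

end RotRel

variable {N : ℕ} [NeZero N]

/-- An abstract injective expansion ring hom on `Hol`. -/
structure Expansion (B : HolBase N) where
  E : B.Hol →+* LaurentSeries ℂ
  inj : Function.Injective E
  const : ∀ c : ℂ, E (B.constH c) = HahnSeries.C c

/-- Rotation data for an expansion: precomposition with `ε` rotates the local coordinate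
by the primitive `m`-th root of unity `ζ` (to first order). -/
structure RotData (B : HolBase N) (X : Expansion B) (ε : SL(2, ℤ)) where
  m : ℕ
  m_pos : 0 < m
  ζ : ℂ
  hζ : IsPrimitiveRoot ζ m
  rot : ∀ h : B.Hol, RotRel ζ (X.E h) (X.E (B.compH ε h))

namespace HolBase

variable (B : HolBase N) (X : Expansion B)

/-- the ring hom `R_N → ℂ((z))`, `r ↦ E (e r ∘ g⁻¹)` -/
def sG (g : SL(2, ℤ)) : RN N →+* LaurentSeries ℂ :=
  X.E.comp ((B.compH g⁻¹).comp B.bridge)

theorem sG_apply (g : SL(2, ℤ)) (r : RN N) :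
    B.sG X g r = X.E (B.compH g⁻¹ (B.bridge r)) := rfl

theorem sG_injective (g : SL(2, ℤ)) : Function.Injective (B.sG X g) :=
  X.inj.comp ((B.compH_injective g⁻¹).comp B.bridge_injective)

/-- the embedding `FF N → ℂ((z))` attached to `g` -/
def sigmaG (g : SL(2, ℤ)) : FF N →+* LaurentSeries ℂ :=
  liftF (B.sG X g) (B.sG_injective X g)

theorem sigmaG_inclRN (g : SL(2, ℤ)) (r : RN N) :
    B.sigmaG X g (inclRN N r) = X.E (B.compH g⁻¹ (B.bridge r)) :=
  liftF_inclRN _ _ r

theorem sigmaG_algebraMap (g : SL(2, ℤ)) (c : Kbar) :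
    B.sigmaG X g (algebraMap Kbar (FF N) c) = HahnSeries.C (ιK c) := by
  rw [sigmaG, liftF_algebraMap, sG_apply, bridge_algebraMap, compH_constH, X.const]

theorem sigmaG_jF (g : SL(2, ℤ)) :
    B.sigmaG X g (jF N) = X.E (B.JH 1 (one_dvd N)) := by
  rw [← inclRN_jR_one, sigmaG_inclRN, bridge_jR, compH_JH_one]

theorem sG_mul_of_mem (g : SL(2, ℤ)) {δ : SL(2, ℤ)} (hδ : δ ∈ CongruenceSubgroup.Gamma0 N) :
    B.sG X (g * δ) = B.sG X g := by
  ext1 r
  rw [sG_apply, sG_apply, mul_inv_rev, compH_mul,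
    B.compH_bridge_of_mem (inv_mem hδ)]

theorem sigmaG_mul_of_mem (g : SL(2, ℤ)) {δ : SL(2, ℤ)}
    (hδ : δ ∈ CongruenceSubgroup.Gamma0 N) : B.sigmaG X (g * δ) = B.sigmaG X g := by
  unfold sigmaG
  congr 1
  exact B.sG_mul_of_mem X g hδ

theorem sigmaG_eq_of_mk_eq {g g' : SL(2, ℤ)}
    (h : (g : XX N) = (g' : XX N)) : B.sigmaG X g = B.sigmaG X g' := by
  have hmem : g⁻¹ * g' ∈ CongruenceSubgroup.Gamma0 N := QuotientGroup.eq.mp h
  have := B.sigmaG_mul_of_mem X g hmem
  rw [mul_inv_cancel_left] at this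
  exact this.symm

/-- the embedding attached to a coset -/
def sigmaX (x : XX N) : FF N →+* LaurentSeries ℂ := B.sigmaG X (Quotient.out x)

theorem sigmaX_mk (g : SL(2, ℤ)) : B.sigmaX X (g : XX N) = B.sigmaG X g :=
  B.sigmaG_eq_of_mk_eq X (QuotientGroup.out_eq' _)

theorem sigmaX_injective : Function.Injective (B.sigmaX X) := by
  intro x y hxy
  obtain ⟨g, rfl⟩ := QuotientGroup.mk_surjective x
  obtain ⟨g', rfl⟩ := QuotientGroup.mk_surjective y
  rw [sigmaX_mk, sigmaX_mk] at hxy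
  have h1 := congrArg (fun s => s (inclRN N (jR N N dvd_rfl))) hxy
  simp only [sigmaG_inclRN, bridge_jR] at h1
  have h2 := X.inj h1
  apply QuotientGroup.eq.mpr
  apply B.J_distinct
  intro τ
  have h3 := congrArg (fun h : B.Hol => (h : ℍ → ℂ) (g' • τ)) h2
  simp only [compH_apply] at h3
  rw [← mul_smul, ← mul_smul, inv_mul_cancel, one_smul] at h3
  exact h3

theorem rotRel_sigmaG (ε : SL(2, ℤ)) (R : RotData B X ε) (g : SL(2, ℤ)) (f : FF N) :
    RotRel R.ζ (B.sigmaG X g f) (B.sigmaG X (ε⁻¹ * g) f) := by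
  have hζ : R.ζ ≠ 0 := R.hζ.ne_zero R.m_pos.ne'
  obtain ⟨r, t, -, rfl⟩ := exists_div_inclRN N f
  rw [map_div₀, map_div₀]
  have key : ∀ r : RN N, RotRel R.ζ (B.sigmaG X g (inclRN N r))
      (B.sigmaG X (ε⁻¹ * g) (inclRN N r)) := by
    intro r
    rw [sigmaG_inclRN, sigmaG_inclRN, mul_inv_rev, inv_inv, compH_mul]
    exact R.rot _
  exact (key r).div hζ (key t)

/-- `LocalData` from an expansion with rotation data. -/
def mkLocalData (ε : SL(2, ℤ)) (R : RotData B X ε) (t : FF N) (u : LaurentSeries ℂ)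
    (ht : ∀ g : SL(2, ℤ), B.sigmaG X g t = u) (hu : u.order = (R.m : ℤ)) :
    LocalData Kbar (FF N) ℂ (XX N) t where
  m := R.m
  m_pos := R.m_pos
  ζ := R.ζ
  hζ := R.hζ
  ι := ιK
  perm := permOf N ε⁻¹
  σ := B.sigmaX X
  σ_inj := B.sigmaX_injective X
  σ_const x c := B.sigmaG_algebraMap X _ c
  σ_t_eq x y := by
    show B.sigmaG X _ t = B.sigmaG X _ t
    rw [ht, ht]
  σ_t_order x := by
    show (B.sigmaG X _ t).order = _
    rw [ht, hu]
  σ_perm_order x f := by
    obtain ⟨g, rfl⟩ := QuotientGroup.mk_surjective x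
    have h : permOf N ε⁻¹ (g : XX N) = ((ε⁻¹ * g : SL(2, ℤ)) : XX N) := rfl
    rw [h, sigmaX_mk, sigmaX_mk]
    exact (B.rotRel_sigmaG X ε R g f).1
  σ_perm_leadingCoeff x f := by
    obtain ⟨g, rfl⟩ := QuotientGroup.mk_surjective x
    have h : permOf N ε⁻¹ (g : XX N) = ((ε⁻¹ * g : SL(2, ℤ)) : XX N) := rfl
    rw [h, sigmaX_mk, sigmaX_mk]
    exact (B.rotRel_sigmaG X ε R g f).2

@[simp] theorem mkLocalData_perm (ε : SL(2, ℤ)) (R : RotData B X ε) (t : FF N)
    (u : LaurentSeries ℂ) (ht : ∀ g : SL(2, ℤ), B.sigmaG X g t = u)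
    (hu : u.order = (R.m : ℤ)) :
    (B.mkLocalData X ε R t u ht hu).perm = permOf N ε⁻¹ := rfl

end HolBase

end Fermat.Agent.S24.H997

end
end
-- ===== PACK-END S24/Mod/H997Local.lean

-- ===== PACK-BEGIN S24/H117/Integral.lean
section




/-!
# S24 / H117 — integrality at all places over `t = 0` from the embeddings

Key lemma for LT2: if `F / E` (`E ⊆ K(t)`) has degree `#X` and `L : LocalData K F C X t`, then an
element `f : F` whose images under all the embeddings `L.σ x` have non-negative order has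
non-negative order at **every** place `v` of `F` with `0 < v.ord t`.
-/

set_option autoImplicit false
set_option linter.style.haveILetI false

noncomputable section

open AlgebraicCurve Polynomial IntermediateField

namespace Fermat.Agent.S24.H117

variable {K F : Type*} [Field K] [Field F] [Algebra K F]
variable {C : Type*} [Field C] {X : Type*}
variable {t : F} (L : LocalData K F C X t)

theorem σ_aeval_eq (x y : X) (p : K[X]) : L.σ x (aeval t p) = L.σ y (aeval t p) := by
  rw [aeval_eq_sum_range]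
  simp only [map_sum, Algebra.smul_def, map_mul, map_pow, L.σ_const, L.σ_t_eq x y]

/-- All the embeddings of a `LocalData` agree on `K(t)`. -/
theorem σ_eq_of_mem_adjoin (x y : X) {e : F} (he : e ∈ K⟮t⟯) : L.σ x e = L.σ y e := by
  obtain ⟨r, s, rfl⟩ := (mem_adjoin_simple_iff K e).mp he
  rw [map_div₀, map_div₀, σ_aeval_eq L x y r, σ_aeval_eq L x y s]

variable [CharZero K]

/-- **Integrality lemma.** -/
theorem ord_nonneg_of_forall_order_nonneg
    (E : IntermediateField K F) (hE : E ≤ K⟮t⟯) [FiniteDimensional E F]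
    (hrank : Module.finrank E F = Nat.card X)
    (f : F) (hf : ∀ x, 0 ≤ ((L.σ x) f).order)
    (v : Place K F) (hv : 0 < v.ord t) : 0 ≤ v.ord f := by
  classical
  have hXne : Nonempty X := by
    have h0 : 0 < Nat.card X := hrank ▸ Module.finrank_pos
    exact (Nat.card_pos_iff.mp h0).1
  obtain ⟨x₀⟩ := hXne
  have : CharZero E := charZero_of_injective_algebraMap (algebraMap K E).injective
  let σ₀ : E →+* LaurentSeries C := (L.σ x₀).comp (algebraMap E F)
  letI algELS : Algebra E (LaurentSeries C) := σ₀.toAlgebra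
  -- the embeddings as `E`-algebra homomorphisms into the algebraic closure
  let τ : X → (F →ₐ[E] AlgebraicClosure (LaurentSeries C)) := fun x =>
    { toRingHom := (algebraMap (LaurentSeries C) (AlgebraicClosure (LaurentSeries C))).comp (L.σ x)
      commutes' := fun e => by
        show algebraMap (LaurentSeries C) (AlgebraicClosure (LaurentSeries C)) (L.σ x (e : F))
          = algebraMap (LaurentSeries C) (AlgebraicClosure (LaurentSeries C)) (L.σ x₀ (e : F))
        rw [σ_eq_of_mem_adjoin L x x₀ (hE e.2)] }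
  have hτapply : ∀ x g, τ x g
      = algebraMap (LaurentSeries C) (AlgebraicClosure (LaurentSeries C)) (L.σ x g) :=
    fun _ _ => rfl
  have hτinj : Function.Injective τ := by
    intro x y hxy
    apply L.σ_inj
    ext g : 1
    have := DFunLike.congr_fun hxy g
    rw [hτapply, hτapply] at this
    exact (algebraMap (LaurentSeries C) (AlgebraicClosure (LaurentSeries C))).injective this
  have hcard : Nat.card (F →ₐ[E] AlgebraicClosure (LaurentSeries C)) = Nat.card X := by
    rw [← hrank, ← Fintype.card_eq_nat_card]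
    exact AlgHom.card E F (AlgebraicClosure (LaurentSeries C))
  have hτsurj : Function.Surjective τ :=
    ((Nat.bijective_iff_injective_and_card τ).mpr ⟨hτinj, hcard.symm⟩).2
  -- the minimal polynomial of `f`
  have hfint : IsIntegral E f := Algebra.IsIntegral.isIntegral f
  have hPmonic : (minpoly E f).Monic := minpoly.monic hfint
  -- coefficients of the minimal polynomial are integral at `x₀`
  have hcoeff : ∀ i, 0 ≤ ((L.σ x₀) (((minpoly E f).coeff i : E) : F)).order := by
    intro i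
    have hint : IsIntegral (OL C)
        (((minpoly E f).map (algebraMap E (AlgebraicClosure (LaurentSeries C)))).coeff i) := by
      refine Polynomial.isIntegral_coeff_of_factors _ ?_ (IsAlgClosed.splits _) ?_ i
      · rw [(hPmonic.map _).leadingCoeff]
        exact isIntegral_one
      · intro r hr
        have hr' : r ∈ (minpoly E f).rootSet (AlgebraicClosure (LaurentSeries C)) := by
          rw [mem_rootSet']
          refine ⟨(hPmonic.map _).ne_zero, ?_⟩
          rw [IsRoot, eval_map_algebraMap] at hr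
          exact hr
        rw [← Algebra.IsAlgebraic.range_eval_eq_rootSet_minpoly] at hr'
        obtain ⟨ψ, rfl⟩ := hr'
        obtain ⟨x, rfl⟩ := hτsurj ψ
        show IsIntegral (OL C) (τ x f)
        rw [hτapply]
        have : algebraMap (LaurentSeries C) (AlgebraicClosure (LaurentSeries C)) (L.σ x f)
            = algebraMap (OL C) (AlgebraicClosure (LaurentSeries C)) ⟨L.σ x f, hf x⟩ := rfl
        rw [this]
        exact isIntegral_algebraMap
    rw [coeff_map] at hint
    have h2 : IsIntegral (OL C) (σ₀ ((minpoly E f).coeff i)) := by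
      have : algebraMap E (AlgebraicClosure (LaurentSeries C)) ((minpoly E f).coeff i)
          = algebraMap (LaurentSeries C) (AlgebraicClosure (LaurentSeries C))
            (σ₀ ((minpoly E f).coeff i)) := rfl
      rw [this] at hint
      exact (isIntegral_algebraMap_iff
        (algebraMap (LaurentSeries C) (AlgebraicClosure (LaurentSeries C))).injective).mp hint
    obtain ⟨y, hy⟩ := IsIntegrallyClosed.isIntegral_iff.mp h2
    have : σ₀ ((minpoly E f).coeff i) ∈ OL C := hy ▸ y.2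
    exact this
  -- transfer to `v`
  have hcoeffv : ∀ i, (((minpoly E f).coeff i : E) : F) ∈ v.toValuationSubring := fun i =>
    mem_of_ord_nonneg v (ord_nonneg_of_mem_adjoin (hE ((minpoly E f).coeff i).2) hv
      (ord_t_pos L x₀) ((ord_placeOf_nonneg_iff L x₀ _).mpr (hcoeff i)))
  -- `f` is integral over `O_v`
  have hint : IsIntegral v.toValuationSubring f := by
    have hlifts : (minpoly E f).map (algebraMap E F)
        ∈ Polynomial.lifts (algebraMap v.toValuationSubring F) := by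
      rw [lifts_iff_coeff_lifts]
      intro n
      rw [coeff_map]
      exact ⟨⟨_, hcoeffv n⟩, rfl⟩
    obtain ⟨q, hq, -, hqm⟩ := lifts_and_natDegree_eq_and_monic hlifts (hPmonic.map _)
    refine ⟨q, hqm, ?_⟩
    rw [← eval_map, hq, eval_map_algebraMap]
    exact minpoly.aeval E f
  obtain ⟨y, hy⟩ := IsIntegrallyClosed.isIntegral_iff.mp hint
  exact ord_nonneg_of_mem v (hy ▸ y.2)

end Fermat.Agent.S24.H117

end
end
-- ===== PACK-END S24/H117/Integral.lean

-- ===== PACK-BEGIN S24/H864/FF3c.lean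
section


/-!
# S24 / ALG / FF1+FF3 (part c): the fundamental identity, abstract form

`R ⊆ S` Dedekind domains, `S` finite over `R`, `F = Frac S`, `p = (τ)` a maximal ideal of `R`
with residue field `K` (algebraically closed).  Then the places `v` of `F/K` with `0 < v(τ)`
(assumed to contain `R` in their valuation ring) correspond to the primes of `S` over `p`, and
`∑_v v(τ) = rank_R S`.
-/

set_option autoImplicit false

noncomputable section

open AlgebraicCurve IsDedekindDomain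

namespace Fermat.Agent.S24.H864

/-- universe-polymorphic version of `IsAlgClosed.of_ringEquiv` -/
theorem isAlgClosed_of_ringEquiv {k : Type*} {k' : Type*} [Field k] [Field k'] [IsAlgClosed k]
    (e : k ≃+* k') : IsAlgClosed k' := by
  apply IsAlgClosed.of_exists_root
  intro p hmp hp
  have hpe : (p.map e.symm.toRingHom).degree ≠ 0 := by
    rw [Polynomial.degree_map]
    exact ne_of_gt (Polynomial.degree_pos_of_irreducible hp)
  rcases IsAlgClosed.exists_root (k := k) (p.map e.symm.toRingHom) hpe with ⟨x, hx⟩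
  use e x
  rw [Polynomial.IsRoot] at hx
  apply e.symm.injective
  rw [map_zero, ← hx]
  clear hx hpe hp hmp
  induction p using Polynomial.induction_on <;> simp_all

section Rel

variable {K F : Type*} [Field K] [Field F] [Algebra K F]
variable {S : Type*} [CommRing S] [IsDedekindDomain S] [Algebra S F] [IsFractionRing S F]
  [Algebra K S] [IsScalarTower K S F]
variable {R : Type*} [CommRing R] [IsDomain R] [Algebra R S] [Algebra R F] [IsScalarTower R S F]
  [Module.Finite R S]

omit [IsDedekindDomain S] [IsFractionRing S F] [Algebra K S] [IsScalarTower K S F] [IsDomain R] in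
/-- valuation rings are integrally closed: `S ⊆ O_v` as soon as `R ⊆ O_v`. -/
theorem algebraMap_mem_of_base (v : Place K F)
    (hR : ∀ r : R, algebraMap R F r ∈ v.toValuationSubring) (s : S) :
    algebraMap S F s ∈ v.toValuationSubring := by
  have hint : IsIntegral R s := Algebra.IsIntegral.isIntegral s
  obtain ⟨P, hP, hPs⟩ := hint
  set φ : R →+* v.toValuationSubring :=
    (algebraMap R F).codRestrict v.toValuationSubring.toSubring hR with hφ
  have hcomp : (algebraMap v.toValuationSubring F).comp φ = algebraMap R F := by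
    ext r; rfl
  have h1 : IsIntegral v.toValuationSubring (algebraMap S F s) := by
    refine ⟨P.map φ, hP.map φ, ?_⟩
    rw [Polynomial.eval₂_map, hcomp]
    have h2 := congrArg (algebraMap S F) hPs
    rw [map_zero, Polynomial.hom_eval₂, ← IsScalarTower.algebraMap_eq] at h2
    exact h2
  obtain ⟨y, hy⟩ := IsIntegrallyClosed.isIntegral_iff.mp h1
  rw [← hy]
  exact y.2

variable (p : Ideal R) [hpmax : p.IsMaximal] (τ : R)

omit [IsFractionRing S F] [Algebra K S] [IsScalarTower K S F] [Algebra R F] [IsScalarTower R S F]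
  [Module.Finite R S] [IsDedekindDomain S] [IsDomain R] hpmax in
theorem algebraMap_mem_of_primesOver (hp : p = Ideal.span {τ}) (q : p.primesOver S) :
    algebraMap R S τ ∈ q.1 := by
  have h1 : τ ∈ p := by rw [hp]; exact Ideal.mem_span_singleton_self τ
  have h2 := q.1.over_def p
  rw [h2] at h1
  exact h1

omit [IsFractionRing S F] [Algebra K S] [IsScalarTower K S F] [Algebra R F] [IsScalarTower R S F]
  [Module.Finite R S] [IsDedekindDomain S] [IsDomain R] hpmax in
theorem primesOver_ne_bot (hp : p = Ideal.span {τ}) (hτ : τ ≠ 0)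
    (hinj : Function.Injective (algebraMap R S)) (q : p.primesOver S) : q.1 ≠ ⊥ := by
  intro h
  have h1 := algebraMap_mem_of_primesOver p τ hp q
  rw [h, Ideal.mem_bot] at h1
  exact hτ (hinj (by rw [h1, map_zero]))

/-- the height one prime attached to a prime over `p` -/
def wOf (hp : p = Ideal.span {τ}) (hτ : τ ≠ 0)
    (hinj : Function.Injective (algebraMap R S)) (q : p.primesOver S) : HeightOneSpectrum S :=
  ⟨q.1, q.2.1, primesOver_ne_bot p τ hp hτ hinj q⟩

omit hpmax [Module.Finite R S] in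
theorem ord_wOf (hp : p = Ideal.span {τ}) (hτ : τ ≠ 0)
    (hinj : Function.Injective (algebraMap R S)) (q : p.primesOver S) :
    (Place.ofHeightOneSpectrum (K := K) (F := F) (wOf p τ hp hτ hinj q)).ord (algebraMap R F τ)
      = (q.1.ramificationIdx R : ℤ) := by
  have hτ' : algebraMap R S τ ≠ 0 := fun h => hτ (hinj (by rw [h, map_zero]))
  rw [IsScalarTower.algebraMap_apply R S F, ord_ofHeightOneSpectrum_algebraMap _ hτ']
  have hmap : p.map (algebraMap R S) = Ideal.span {algebraMap R S τ} := by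
    rw [hp, Ideal.map_span, Set.image_singleton]
  have hne : p.map (algebraMap R S) ≠ ⊥ := by
    rw [hmap, Ne, Ideal.span_singleton_eq_bot]
    exact hτ'
  rw [Ideal.IsDedekindDomain.ramificationIdx_eq_multiplicity p q.1 hne, hmap]
  rfl

section Inertia

variable [IsAlgClosed K] [Algebra K R] [IsScalarTower K R S]

omit [IsFractionRing S F] [Algebra K S] [IsScalarTower K S F] [Algebra R F] [IsScalarTower R S F]
  [IsDedekindDomain S] [IsDomain R] [Algebra K F] [IsScalarTower K R S] in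
/-- residue field `K` algebraically closed ⟹ all inertia degrees are `1`. -/
theorem inertiaDeg_eq_one (hres : ∀ r : R, ∃ c : K, r - algebraMap K R c ∈ p)
    (q : p.primesOver S) : q.1.inertiaDeg R = 1 := by
  haveI : q.1.IsMaximal := Ideal.primesOver.isMaximal q
  rw [Ideal.inertiaDeg_eq_of_isMaximal p q.1]
  letI : Field (R ⧸ p) := Ideal.Quotient.field p
  letI : Field (S ⧸ q.1) := Ideal.Quotient.field q.1
  -- `K ≃ R ⧸ p`
  let f : K →+* R ⧸ p := (Ideal.Quotient.mk p).comp (algebraMap K R)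
  have hf : Function.Bijective f := by
    refine ⟨f.injective, fun y => ?_⟩
    obtain ⟨r, rfl⟩ := Ideal.Quotient.mk_surjective y
    obtain ⟨c, hc⟩ := hres r
    refine ⟨c, ?_⟩
    show Ideal.Quotient.mk p (algebraMap K R c) = Ideal.Quotient.mk p r
    rw [eq_comm, Ideal.Quotient.eq]
    exact hc
  haveI : IsAlgClosed (R ⧸ p) := isAlgClosed_of_ringEquiv (RingEquiv.ofBijective f hf)
  haveI : Algebra.IsIntegral (R ⧸ p) (S ⧸ q.1) := inferInstance
  have hbij : Function.Bijective (algebraMap (R ⧸ p) (S ⧸ q.1)) :=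
    IsAlgClosed.algebraMap_bijective_of_isIntegral
  have htop : (⊥ : Subalgebra (R ⧸ p) (S ⧸ q.1)) = ⊤ :=
    (Algebra.surjective_algebraMap_iff.mp hbij.2).symm
  exact Subalgebra.bot_eq_top_iff_finrank_eq_one.mp htop

end Inertia

section Main

variable [IsAlgClosed K] [Algebra K R] [IsScalarTower K R S] [Module.Flat R S]

/-- **Fundamental identity, abstract form.** -/
theorem fundamental_identity_abstract
    (hp : p = Ideal.span {τ}) (hτ : τ ≠ 0) (hinj : Function.Injective (algebraMap R S))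
    (hres : ∀ r : R, ∃ c : K, r - algebraMap K R c ∈ p)
    (hR : ∀ v : Place K F, 0 < v.ord (algebraMap R F τ) →
      ∀ r : R, algebraMap R F r ∈ v.toValuationSubring)
    (s : Finset (Place K F)) (hs : ∀ v, v ∈ s ↔ 0 < v.ord (algebraMap R F τ)) :
    ∑ v ∈ s, v.ord (algebraMap R F τ) = (Module.finrank R S : ℤ) := by
  classical
  haveI : Fintype (p.primesOver S) := (Algebra.QuasiFinite.finite_primesOver p).fintype
  have hsum := Ideal.sum_ramification_inertia_eq_finrank p S
  have hτ' : algebraMap R S τ ≠ 0 := fun h => hτ (hinj (by rw [h, map_zero]))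
  set g : p.primesOver S → Place K F :=
    fun q => Place.ofHeightOneSpectrum (K := K) (wOf p τ hp hτ hinj q) with hg
  have hg_inj : Function.Injective g := by
    intro q q' h
    have h1 : wOf p τ hp hτ hinj q = wOf p τ hp hτ hinj q' :=
      ofHeightOneSpectrum_injective (K := K) (F := F) h
    exact Subtype.ext (congrArg HeightOneSpectrum.asIdeal h1)
  have hg_ord : ∀ q, (g q).ord (algebraMap R F τ) = (q.1.ramificationIdx R : ℤ) :=
    fun q => ord_wOf p τ hp hτ hinj q
  have himg : Finset.univ.image g = s := by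
    ext v
    rw [Finset.mem_image, hs]
    constructor
    · rintro ⟨q, -, rfl⟩
      rw [hg_ord]
      exact_mod_cast Ideal.ramificationIdx_pos q.1 R
    · intro hv
      have hS := algebraMap_mem_of_base (S := S) v (hR v hv)
      have hv' : 0 < v.ord (algebraMap S F (algebraMap R S τ)) := by
        rwa [← IsScalarTower.algebraMap_apply R S F]
      obtain ⟨w, hw, hwq⟩ := exists_heightOneSpectrum_of_place v hS hτ' hv'
      have hle : p ≤ w.asIdeal.under R := by
        rw [hp, Ideal.span_singleton_le_iff_mem, Ideal.under_def, Ideal.mem_comap, hwq]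
        exact (mem_primeOfPlace v hS hτ').mpr hv'
      have hne : w.asIdeal.under R ≠ ⊤ := (Ideal.IsPrime.under R w.asIdeal).ne_top
      have hq : w.asIdeal ∈ p.primesOver S := ⟨w.isPrime, ⟨hpmax.eq_of_le hne hle⟩⟩
      refine ⟨⟨w.asIdeal, hq⟩, Finset.mem_univ _, ?_⟩
      rw [← hw]
      show Place.ofHeightOneSpectrum (K := K) (wOf p τ hp hτ hinj ⟨w.asIdeal, hq⟩) = _
      congr 1
  rw [← himg, Finset.sum_image (fun a _ b _ h => hg_inj h)]
  simp_rw [hg_ord]
  rw [← hsum]
  push_cast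
  refine Finset.sum_congr rfl fun q _ => ?_
  rw [inertiaDeg_eq_one p hres q, Nat.cast_one, mul_one]

end Main

end Rel

end Fermat.Agent.S24.H864

end
end
-- ===== PACK-END S24/H864/FF3c.lean

-- ===== PACK-BEGIN S29/H222/ESKSpec.lean
section
/-
S29 / helper222 — piece ESK: the Eichler–Shimura input of layer M ("ES raw": inertia acts trivially
on `J₀(N)(ℚ̄)[m]`, Frobenius satisfies `σ² - T_ℓ σ + ℓ = 0` on `J₀(N)(ℚ̄)[m]`) DIRECTLY from the
S18 hub `CoreStatement N A m`, WITHOUT S37 (no special fibre, no place reduction map, no `J'`, no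
commutativity of Hecke operators).

This file: the interface (definitions + the two target statements as `Prop`s).
-/





set_option autoImplicit false

noncomputable section

namespace Fermat.Agent.S29.H222

open ModularCurve AlgebraicCurve HahnSeries
open Fermat.Agent.S18 (Qb IsInt toF CoreStatement)

/-- The absolute Galois group of `ℚ`. -/
abbrev GQ' : Type := Qb ≃ₐ[ℚ] Qb

/-- The norm along `α : F_N → F_{Nℓ}` (inclusion) of `β y` (`β = q ↦ q^ℓ`): the function whose
divisor is `T_ℓ (div y)` for the Prelude Hecke correspondence. -/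
def heckeNorm (N ℓ : ℕ) [NeZero N] [NeZero ℓ] (y : modularFunctionFieldBar N) :
    modularFunctionFieldBar N :=
  letI := algebraAlong (heckeAlphaBar Qb N ℓ)
  Algebra.norm (modularFunctionFieldBar N) (heckeBetaBar Qb N ℓ y)

/-- **NORM-ID** (piece NKI of the S37 row): the norm along `α` of `β y` has `q`-expansion the
formal Kronecker norm `V_ℓ y · det (secMat ℓ y)` (`Fermat.Agent.S37.H400.kronNorm`, on main). -/
def NormId (N ℓ : ℕ) [NeZero N] [NeZero ℓ] : Prop :=
  ∀ y : modularFunctionFieldBar N,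
    ((heckeNorm N ℓ y : modularFunctionFieldBar N) : LaurentSeries Qb)
      = Fermat.Agent.S37.H400.kronNorm ℓ (y : LaurentSeries Qb)

/-- Target (U): inertia at `A` acts trivially on the `m`-torsion of `J₀(N)(ℚ̄)`. -/
def InertiaTrivialOn (N : ℕ) (A : ValuationSubring Qb) (m : ℕ) : Prop :=
  ∀ τ ∈ A.inertiaSubgroupIn ℚ, ∀ x : JZero N, (m : ℤ) • x = 0 → τ • x = x

/-- Target (F): every Frobenius element at `A` satisfies the Eichler–Shimura relation
`σ² - T_ℓ σ + ℓ = 0` on the `m`-torsion of `J₀(N)(ℚ̄)` (`T_ℓ` = the RAW Prelude operator). -/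
def FrobQuadraticOn (N : ℕ) [NeZero N] (ℓ : ℕ) (hℓ : ℓ.Prime) (A : ValuationSubring Qb)
    (m : ℕ) : Prop :=
  ∀ σ : GQ', A.IsFrobeniusAt σ ℓ → ∀ x : JZero N, (m : ℤ) • x = 0 →
    σ • σ • x - heckeOperatorBar N ⟨ℓ, hℓ⟩ (σ • x) + (ℓ : ℤ) • x = 0

/-- The statement of piece ESK-U. -/
def ESKInertiaStatement : Prop :=
  ∀ (N : ℕ) [NeZero N] (m : ℕ), m ≠ 0 → ∀ A : ValuationSubring Qb,
    CoreStatement N A m → PrincipalGeneratedByIntegral A (IsLocalRing.residue A) N →
      InertiaTrivialOn N A m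

/-- The statement of piece ESK-F. -/
def ESKFrobStatement : Prop :=
  ∀ (N : ℕ) [NeZero N] (ℓ : ℕ) (hℓ : ℓ.Prime) (m : ℕ), m ≠ 0 → ∀ A : ValuationSubring Qb,
    A.LiesOverPrime ℓ →
    CoreStatement N A m → PrincipalGeneratedByIntegral A (IsLocalRing.residue A) N →
    (haveI : NeZero ℓ := ⟨hℓ.ne_zero⟩; HeckeInputsAlong Qb N ℓ) →
    (haveI : NeZero ℓ := ⟨hℓ.ne_zero⟩; NormId N ℓ) →
      FrobQuadraticOn N ℓ hℓ A m

end Fermat.Agent.S29.H222

end
end
-- ===== PACK-END S29/H222/ESKSpec.lean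

-- ===== PACK-BEGIN S29/H812/OrdSum.lean
section





/-!
# S29 / H812 — order of a finite sum with a unique strictly minimal term, and local
"indicator" functions at the places of a finite set (from weak approximation).
-/

set_option autoImplicit false

noncomputable section

open AlgebraicCurve WithZero

namespace Fermat.Agent.S29.H812

open Fermat.Agent.S24

variable {K F : Type*} [Field K] [Field F] [Algebra K F] (v : Place K F)

/-- If one term of a finite sum has strictly smaller order than all other nonzero terms, then the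
sum is nonzero and has the order of that term. -/
theorem ord_sum_eq_of_lt {ι : Type*} (s : Finset ι) (f : ι → F) (j : ι) (hj : j ∈ s)
    (hfj : f j ≠ 0) (h : ∀ i ∈ s, i ≠ j → f i = 0 ∨ v.ord (f j) < v.ord (f i)) :
    (∑ i ∈ s, f i) ≠ 0 ∧ v.ord (∑ i ∈ s, f i) = v.ord (f j) := by
  classical
  have key : v.adicValuation (∑ i ∈ s, f i) = v.adicValuation (f j) := by
    apply Valuation.map_sum_eq_of_lt _ hj
    intro i hi
    rw [Finset.mem_sdiff, Finset.mem_singleton] at hi
    by_cases hi0 : f i = 0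
    · rw [hi0, map_zero]
      exact zero_lt_iff.mpr (v.adicValuation_ne_zero hfj)
    · rcases h i hi.1 hi.2 with h0 | hlt
      · exact absurd h0 hi0
      · rw [H504.adicValuation_eq_exp_neg_ord v hi0, H504.adicValuation_eq_exp_neg_ord v hfj,
          exp_lt_exp]
        omega
  have hne : (∑ i ∈ s, f i) ≠ 0 := by
    intro h0
    rw [h0, map_zero] at key
    exact v.adicValuation_ne_zero hfj key.symm
  refine ⟨hne, ?_⟩
  rw [H504.adicValuation_eq_exp_neg_ord v hne, H504.adicValuation_eq_exp_neg_ord v hfj] at key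
  have := WithZero.exp_injective key
  omega

/-- `ord` of a finite sum is at least a common lower bound of the orders of the nonzero terms,
provided the sum is nonzero. -/
theorem le_ord_sum {ι : Type*} (s : Finset ι) (f : ι → F) (m : ℤ)
    (h : ∀ i ∈ s, f i = 0 ∨ m ≤ v.ord (f i)) (hne : (∑ i ∈ s, f i) ≠ 0) :
    m ≤ v.ord (∑ i ∈ s, f i) := by
  classical
  have key : v.adicValuation (∑ i ∈ s, f i) ≤ exp (-m) := by
    apply Valuation.map_sum_le
    intro i hi
    by_cases hi0 : f i = 0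
    · rw [hi0, map_zero]; exact zero_le
    · rcases h i hi with h0 | hle
      · exact absurd h0 hi0
      · rw [H504.adicValuation_eq_exp_neg_ord v hi0, exp_le_exp]
        omega
  rw [H504.adicValuation_eq_exp_neg_ord v hne, exp_le_exp] at key
  omega

/-- Membership version: a finite sum of elements of the valuation ring is in the valuation
ring. -/
theorem ord_one_add_of_neg {f : F} (hf : v.ord f < 0) :
    1 + f ≠ 0 ∧ v.ord (1 + f) = v.ord f := by
  have hf0 : f ≠ 0 := H117.ne_zero_of_ord_ne_zero v hf.ne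
  have h := H117.ord_add_eq_of_lt v (f := f) (g := 1) (by rw [v.ord_one]; exact hf) hf0
  rw [add_comm] at h
  refine ⟨?_, h⟩
  intro h0
  rw [h0, v.ord_zero] at h
  omega

theorem ord_one_add_of_pos {f : F} (hf : 0 < v.ord f) :
    1 + f ≠ 0 ∧ v.ord (1 + f) = 0 := by
  have h := H117.ord_add_eq_of_lt v (f := 1) (g := f) (by rw [v.ord_one]; exact hf) one_ne_zero
  rw [v.ord_one] at h
  refine ⟨?_, h⟩
  intro h0
  have hf1 : f = -1 := by linear_combination h0
  rw [hf1, H117.ord_neg, v.ord_one] at hf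
  exact lt_irrefl _ hf

/-- **Indicator functions.**  For a place `w` and a finite set `s` of other places there is
`ε` with `ε ≡ 1` at `w` (i.e. `ord_w (1 - ε) > 0`, `ord_w ε = 0`) and `ord_{w'} ε > 0`,
`ord_{w'} (1 - ε) = 0` for `w' ∈ s`. -/
theorem exists_indicator (w : Place K F) (s : Finset (Place K F)) (hw : w ∉ s) :
    ∃ ε : F, ε ≠ 0 ∧ 1 - ε ≠ 0 ∧ w.ord ε = 0 ∧ 0 < w.ord (1 - ε) ∧
      ∀ w' ∈ s, 0 < w'.ord ε ∧ w'.ord (1 - ε) = 0 := by
  obtain ⟨f, hf1, hf2⟩ := H117.exists_ord_neg_forall_pos w s hw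
  have hf0 : f ≠ 0 := H117.ne_zero_of_ord_ne_zero w hf1.ne
  obtain ⟨h1, h2⟩ := ord_one_add_of_neg w hf1
  have hinv : (1 + f)⁻¹ ≠ 0 := inv_ne_zero h1
  have hε : 1 - f / (1 + f) = (1 + f)⁻¹ := by field_simp; ring
  refine ⟨f / (1 + f), div_ne_zero hf0 h1, by rw [hε]; exact hinv, ?_, ?_, ?_⟩
  · rw [H117.ord_div w hf0 h1, h2]; ring
  · rw [hε, w.ord_inv, h2]; omega
  · intro w' hw'
    obtain ⟨h3, h4⟩ := ord_one_add_of_pos w' (hf2 w' hw')
    constructor
    · rw [H117.ord_div w' hf0 h3, h4]; have := hf2 w' hw'; omega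
    · rw [hε, w'.ord_inv, h4]; rfl

end Fermat.Agent.S29.H812

end
end
-- ===== PACK-END S29/H812/OrdSum.lean

-- ===== PACK-BEGIN S37/H700/GaussNorm.lean
section


/-!
# S37 / piece GAUSS (helper700): normal forms

* `exists_normaliser` : among finitely many elements of `L`, not all zero, one divides all
  the others in the valuation ring `A`.
* `normalize_family`  : a finite family of polynomials over `L`, not all zero, can be scaled
  into `A[X]` such that one member has nonzero reduction.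
* `exists_denominator`: every element of the span satisfies `Q(j)·x = ∑ Pᵢ(j)·yᵢ`.
-/

set_option autoImplicit false

noncomputable section

namespace Fermat.Agent.S37.H700

open ModularCurve HahnSeries Polynomial
open Fermat.Agent.S28 (jField intDivisorExpansions)

section Normalise

variable {L : Type*} [Field L] (A : ValuationSubring L)

theorem exists_normaliser (C : Finset L) (hC : ∃ x ∈ C, x ≠ 0) :
    ∃ x₀ ∈ C, x₀ ≠ 0 ∧ ∀ x ∈ C, x₀⁻¹ * x ∈ A := by
  obtain ⟨x₁, hx₁, hx₁0⟩ := hC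
  obtain ⟨x₀, hx₀, hmax⟩ := Finset.exists_max_image C (fun x => A.valuation x) ⟨x₁, hx₁⟩
  have hx₀0 : x₀ ≠ 0 := by
    intro h
    have h1 := hmax x₁ hx₁
    simp only [h, map_zero] at h1
    exact hx₁0 ((map_eq_zero _).mp (le_antisymm h1 zero_le))
  refine ⟨x₀, hx₀, hx₀0, fun x hx => ?_⟩
  rw [← A.valuation_le_one_iff, map_mul, map_inv₀]
  have hv0 : A.valuation x₀ ≠ 0 := (_root_.map_ne_zero _).mpr hx₀0
  rw [inv_mul_le_iff₀ (lt_of_le_of_ne zero_le hv0.symm), mul_one]
  exact hmax x hx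

theorem exists_lift_of_coeff_mem (P : L[X]) (h : ∀ m, P.coeff m ∈ A) :
    ∃ P' : Polynomial A, P'.map A.subtype = P := by
  have : P ∈ Polynomial.lifts A.subtype := by
    rw [Polynomial.lifts_iff_coeff_lifts]
    intro m
    exact ⟨⟨P.coeff m, h m⟩, rfl⟩
  exact (Polynomial.mem_lifts P).mp this

theorem normalize_family {ι : Type*} [Fintype ι] (P : ι → L[X]) (h : ∃ i, P i ≠ 0) :
    ∃ c : L, c ≠ 0 ∧ ∃ P' : ι → Polynomial A,
      (∀ i, (P' i).map A.subtype = Polynomial.C c * P i) ∧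
      ∃ i, (P' i).map (IsLocalRing.residue A) ≠ 0 := by
  classical
  set C : Finset L := Finset.univ.biUnion (fun i => (P i).coeffs) with hCdef
  have hCne : ∃ x ∈ C, x ≠ 0 := by
    obtain ⟨i, hi⟩ := h
    refine ⟨(P i).leadingCoeff, ?_, Polynomial.leadingCoeff_ne_zero.mpr hi⟩
    rw [hCdef, Finset.mem_biUnion]
    exact ⟨i, Finset.mem_univ _, Polynomial.coeff_mem_coeffs (Polynomial.leadingCoeff_ne_zero.mpr hi)⟩
  obtain ⟨x₀, hx₀C, hx₀0, hx₀⟩ := exists_normaliser A C hCne
  have hcoeff : ∀ i m, x₀⁻¹ * (P i).coeff m ∈ A := by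
    intro i m
    by_cases hz : (P i).coeff m = 0
    · rw [hz, mul_zero]; exact A.zero_mem
    · apply hx₀
      rw [hCdef, Finset.mem_biUnion]
      exact ⟨i, Finset.mem_univ _, Polynomial.coeff_mem_coeffs hz⟩
  have hlift : ∀ i, ∃ P' : Polynomial A, P'.map A.subtype = Polynomial.C x₀⁻¹ * P i := by
    intro i
    apply exists_lift_of_coeff_mem
    intro m
    rw [Polynomial.coeff_C_mul]
    exact hcoeff i m
  choose P' hP' using hlift
  refine ⟨x₀⁻¹, inv_ne_zero hx₀0, P', hP', ?_⟩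
  rw [hCdef, Finset.mem_biUnion] at hx₀C
  obtain ⟨i₀, -, hi₀⟩ := hx₀C
  rw [Polynomial.mem_coeffs_iff] at hi₀
  obtain ⟨m₀, -, hm₀⟩ := hi₀
  refine ⟨i₀, fun hzero => ?_⟩
  have h1 : ((P' i₀).coeff m₀ : L) = 1 := by
    have := congrArg (fun p => Polynomial.coeff p m₀) (hP' i₀)
    simp only [Polynomial.coeff_map, Polynomial.coeff_C_mul] at this
    rw [← hm₀, inv_mul_cancel₀ hx₀0] at this
    exact this
  have h2 : (P' i₀).coeff m₀ = 1 := Subtype.ext h1
  have h3 := congrArg (fun p => Polynomial.coeff p m₀) hzero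
  simp only [Polynomial.coeff_map, Polynomial.coeff_zero, h2, map_one] at h3
  exact one_ne_zero h3

end Normalise

section Denominator

variable (L : Type*) [Field L] {n : ℕ} (y : Fin n → LaurentSeries ℤ)

/-- Every element of the `L(j)`-span has a polynomial denominator. -/
theorem exists_denominator {x : LaurentSeries L} (hx : x ∈ spanL L y) :
    ∃ (Q : L[X]) (P : Fin n → L[X]), Q ≠ 0 ∧
      evalJ L Q * x = ∑ i, evalJ L (P i) * coeffMap (Int.castRingHom L) (y i) := by
  classical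
  induction hx using Submodule.span_induction with
  | mem x hx =>
    obtain ⟨i, rfl⟩ := hx
    refine ⟨1, fun j => if j = i then 1 else 0, one_ne_zero, ?_⟩
    rw [evalJ_one, one_mul, Finset.sum_eq_single i]
    · simp [evalJ_one]
    · intro j _ hj
      simp [hj, evalJ_zero]
    · intro h
      exact absurd (Finset.mem_univ i) h
  | zero =>
    exact ⟨1, fun _ => 0, one_ne_zero, by simp [evalJ_zero]⟩
  | add x z _ _ hx hz =>
    obtain ⟨Q₁, P₁, hQ₁, h₁⟩ := hx
    obtain ⟨Q₂, P₂, hQ₂, h₂⟩ := hz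
    refine ⟨Q₁ * Q₂, fun i => Q₂ * P₁ i + Q₁ * P₂ i, mul_ne_zero hQ₁ hQ₂, ?_⟩
    simp only [evalJ_mul, evalJ_add, add_mul, Finset.sum_add_distrib, mul_assoc]
    rw [← Finset.mul_sum, ← Finset.mul_sum, ← h₁, ← h₂]
    ring
  | smul c x _ hx =>
    obtain ⟨Q, P, hQ, h⟩ := hx
    obtain ⟨r, s, hs, hrs⟩ := exists_evalJ_of_mem_jField L c.2
    refine ⟨s * Q, fun i => r * P i, mul_ne_zero hs hQ, ?_⟩
    simp only [evalJ_mul, mul_assoc]
    rw [← Finset.mul_sum, ← h, smul_jField_def, ← hrs]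
    ring

end Denominator

end Fermat.Agent.S37.H700

end
end
-- ===== PACK-END S37/H700/GaussNorm.lean

-- ===== PACK-BEGIN A2/Alg/H34/Basic.lean
section


/-!
# WALL A2 / ALG — leaves A1' and ASM (helper34)

* `divisibleDiv_mul_inv`, `divisibleDiv_tau` : `DivisibleDiv` is stable under quotients and under
  a semilinear automorphism.
* `chartCtx_inv` : the standing hypotheses for the chart at infinity.
* `locOne_tau_div` : `v ∈ (B_n)ˣ`, `τ ≡ id mod w`, `w ∈ I`  ⟹  `τ v / v ∈ 1 + I B_n`.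
* `localFactor_of_pureAt` (**ASM**) : `PureAt u n ⟹ LocalFactor (τ u / u) n`.

Statements are VERBATIM those of `Fermat/Agent/A2/Alg/Skel.lean` (origin/helper34).
-/

set_option autoImplicit false

namespace Fermat.Agent.A2.Alg.H34

open Fermat.Agent.A2 Fermat.Agent.A2.Alg

section Div

variable {E F : Type*} [Field E] [Field F] [Algebra E F]

/-- **A1'.** -/
theorem divisibleDiv_mul_inv (m : ℕ) (f g : F) (hf : DivisibleDiv E m f)
    (hg : DivisibleDiv E m g) : DivisibleDiv E m (f * g⁻¹) := by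
  intro V hV hE
  obtain ⟨h₁, u₁, hh₁, hu₁, hu₁', rfl⟩ := hf V hV hE
  obtain ⟨h₂, u₂, hh₂, hu₂, hu₂', rfl⟩ := hg V hV hE
  refine ⟨h₁ * h₂⁻¹, u₁ * u₂⁻¹, mul_ne_zero hh₁ (inv_ne_zero hh₂), V.mul_mem _ _ hu₁ hu₂', ?_, ?_⟩
  · rw [mul_inv, inv_inv]
    exact V.mul_mem _ _ hu₁' hu₂
  · rw [mul_pow, inv_pow, mul_inv]
    ring

/-- The ring isomorphism `V.comap τ ≃ V` induced by `τ`. -/
noncomputable def comapEquiv (τ : F ≃+* F) (V : ValuationSubring F) :
    V.comap (τ : F →+* F) ≃+* V where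
  toFun a := ⟨τ a.1, a.2⟩
  invFun b := ⟨τ.symm b.1, by
    show (τ : F →+* F) (τ.symm b.1) ∈ V
    simpa using b.2⟩
  left_inv a := Subtype.ext (by simp)
  right_inv b := Subtype.ext (by simp)
  map_mul' a b := Subtype.ext (by simp)
  map_add' a b := Subtype.ext (by simp)

/-- **A1'.**  `τ` permutes the discrete valuation rings of `F` containing `E`. -/
theorem divisibleDiv_tau (τ : F ≃+* F) (τE : E ≃+* E)
    (hτE : ∀ e : E, τ (algebraMap E F e) = algebraMap E F (τE e)) (m : ℕ) (f : F)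
    (h : DivisibleDiv E m f) : DivisibleDiv E m (τ f) := by
  intro V hV hE
  have hV' : IsDiscreteValuationRing (V.comap (τ : F →+* F)) :=
    IsDiscreteValuationRing.RingEquivClass.isDiscreteValuationRing (comapEquiv τ V).symm
  have hE' : ∀ e : E, algebraMap E F e ∈ V.comap (τ : F →+* F) := fun e => by
    show τ (algebraMap E F e) ∈ V
    rw [hτE]
    exact hE _
  obtain ⟨h₀, u, hh₀, hu, hu', rfl⟩ := h _ hV' hE'
  refine ⟨τ h₀, τ u, (map_ne_zero τ).2 hh₀, hu, ?_, ?_⟩
  · rw [← map_inv₀]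
    exact hu'
  · rw [map_mul, map_pow]

end Div

section Chart

variable {R E F : Type*} [CommRing R] [Field E] [Algebra R E] [Field F] [Algebra E F]
  [Algebra R F]

theorem adjoin_inv_eq (x : F) :
    IntermediateField.adjoin E ({x⁻¹} : Set F) = IntermediateField.adjoin E ({x} : Set F) := by
  apply le_antisymm
  · rw [IntermediateField.adjoin_le_iff]
    rintro y hy
    rw [Set.mem_singleton_iff] at hy
    subst hy
    exact inv_mem (IntermediateField.subset_adjoin E _ (Set.mem_singleton x))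
  · rw [IntermediateField.adjoin_le_iff]
    rintro y hy
    rw [Set.mem_singleton_iff] at hy
    subst hy
    have := inv_mem (IntermediateField.subset_adjoin E ({y⁻¹} : Set F) (Set.mem_singleton _))
    rwa [inv_inv] at this

/-- **A1'.**  The chart at infinity satisfies the same standing hypotheses with `x⁻¹`. -/
theorem chartCtx_inv (w : R) (hw : Irreducible w) (x : F) (hx : Transcendental E x)
    (hfin : FiniteDimensional (IntermediateField.adjoin E ({x} : Set F)) F)
    (hconst : ∀ f : F, IsAlgebraic E f → f ∈ (algebraMap E F).range)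
    (Bi : Subalgebra R F)
    (hBi : ∀ f : F, f ∈ Bi ↔ IsIntegral (Algebra.adjoin R ({x⁻¹} : Set F)) f) :
    ChartCtx E w x⁻¹ Bi := by
  refine ⟨hw, ?_, ?_, hconst, hBi⟩
  · intro h
    apply hx
    have := h.inv
    rwa [inv_inv] at this
  · rw [adjoin_inv_eq]
    exact hfin

end Chart

section Asm

variable {R F : Type*} [CommRing R] [Field F] [Algebra R F]

/-- `τ` maps `B` into `B`, and is the identity modulo `w`. -/
theorem exists_tau_eq (w : R) (B : Subalgebra R F) (τ : F ≃+* F)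
    (hτB : ∀ b ∈ B, ∃ c ∈ B, τ b - b = algebraMap R F w * c) (b : B) :
    ∃ b' c : B, (b' : F) = τ b ∧ b' - b = algebraMap R B w * c := by
  obtain ⟨c, hc, h⟩ := hτB b b.2
  refine ⟨⟨τ b, ?_⟩, ⟨c, hc⟩, rfl, ?_⟩
  · have : τ (b : F) = b + algebraMap R F w * c := by linear_combination h
    rw [this]
    exact B.add_mem b.2 (B.mul_mem (B.algebraMap_mem w) hc)
  · apply Subtype.ext
    simpa using h

/-- `v ∈ (B_n)ˣ`, `τ ≡ id mod w`, `w ∈ n`, `w ∈ I`  ⟹  `τ v / v ∈ 1 + I B_n`. -/
theorem locOne_tau_div (w : R) (B : Subalgebra R F) (τ : F ≃+* F)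
    (hτB : ∀ b ∈ B, ∃ c ∈ B, τ b - b = algebraMap R F w * c)
    (n : Ideal B) (hn : n.IsPrime) (hwn : algebraMap R B w ∈ n)
    (I : Ideal B) (hwI : algebraMap R B w ∈ I) (v : F) (hv : LocUnit B n v) :
    LocOne B n I (τ v * v⁻¹) := by
  obtain ⟨a, b, ha, hb, hab⟩ := hv
  obtain ⟨a', ca, ha', hca⟩ := exists_tau_eq w B τ hτB a
  obtain ⟨b', cb, hb', hcb⟩ := exists_tau_eq w B τ hτB b
  have hb'n : b' ∉ n := by
    intro h
    apply hb
    have h1 : b = b' - algebraMap R B w * cb := by rw [← hcb]; ring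
    rw [h1]
    exact n.sub_mem h (n.mul_mem_right _ hwn)
  have ha0 : (a : F) ≠ 0 := by
    intro h
    apply ha
    have : a = 0 := Subtype.ext h
    rw [this]
    exact n.zero_mem
  have hb0 : (b : F) ≠ 0 := by
    intro h
    apply hb
    have : b = 0 := Subtype.ext h
    rw [this]
    exact n.zero_mem
  have hv0 : v ≠ 0 := by
    rintro rfl
    rw [zero_mul] at hab
    exact ha0 hab.symm
  have hb'0 : (b' : F) ≠ 0 := by
    rw [hb']
    exact (map_ne_zero τ).2 hb0
  refine ⟨a' * b, a * b', ?_, ?_, ?_⟩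
  · intro h
    rcases hn.mem_or_mem h with h | h
    · exact ha h
    · exact hb'n h
  · have h1 : a' * b - a * b' = algebraMap R B w * (ca * b - a * cb) := by
      have e1 : a' = a + algebraMap R B w * ca := by rw [← hca]; ring
      have e2 : b' = b + algebraMap R B w * cb := by rw [← hcb]; ring
      rw [e1, e2]
      ring
    rw [h1]
    exact I.mul_mem_right _ hwI
  · -- `τ v * v⁻¹ * (a * b') = a' * b`
    have hτ : τ v * (b' : F) = (a' : F) := by
      rw [hb', ha', ← map_mul, hab]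
    have hv' : v = (a : F) * (b : F)⁻¹ := by
      field_simp
      exact hab
    push_cast
    have : τ v = (a' : F) * (b' : F)⁻¹ := by
      field_simp
      exact hτ
    rw [this, hv']
    field_simp

/-- **ASM.**  `u d ^ m = ε ∈ (B_n)ˣ`; `h := τ d / d`; then `(τ u / u) h ^ m = τ ε / ε ∈ 1 + w B_n`
and `h ≡ 1` on both components (`d` is a unit there, `τ ≡ id mod w`). -/
theorem localFactor_of_pureAt {E : Type*} [Field E] [Algebra R E] [Algebra E F]
    (w : R) (B : Subalgebra R F) (c : SSChart w B)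
    (τ : F ≃+* F) (τE : E ≃+* E) (τR : R ≃+* R) (hτ : TauCtx w B τ τE τR)
    (m : ℕ) (u : F) (hu : u ≠ 0) (n : Ideal B) (hn : n.IsPrime) (hwn : algebraMap R B w ∈ n)
    (h : PureAt B c m u n) : LocalFactor B c m (τ u * u⁻¹) n := by
  obtain ⟨d, hd, hε, hd₁, hd₂⟩ := h
  have hw₁ : algebraMap R B w ∈ c.p₁ := by
    have : algebraMap R B w ∈ c.p₁ ⊓ c.p₂ := by
      rw [c.inf_eq]
      exact Ideal.mem_span_singleton_self _
    exact this.1
  have hw₂ : algebraMap R B w ∈ c.p₂ := by
    have : algebraMap R B w ∈ c.p₁ ⊓ c.p₂ := by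
      rw [c.inf_eq]
      exact Ideal.mem_span_singleton_self _
    exact this.2
  have hτd : τ d ≠ 0 := (map_ne_zero τ).2 hd
  refine ⟨τ d * d⁻¹, mul_ne_zero hτd (inv_ne_zero hd), ?_,
    locOne_tau_div w B τ hτ.hτB c.p₁ c.prime₁ hw₁ c.p₁ hw₁ d hd₁,
    locOne_tau_div w B τ hτ.hτB c.p₂ c.prime₂ hw₂ c.p₂ hw₂ d hd₂⟩
  have key : τ u * u⁻¹ * (τ d * d⁻¹) ^ m = τ (u * d ^ m) * (u * d ^ m)⁻¹ := by
    rw [map_mul, map_pow, mul_pow, inv_pow, mul_inv]
    ring
  rw [key]
  exact locOne_tau_div w B τ hτ.hτB n hn hwn _ (Ideal.mem_span_singleton_self _) _ hε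

end Asm

end Fermat.Agent.A2.Alg.H34

end
-- ===== PACK-END A2/Alg/H34/Basic.lean

-- ===== PACK-BEGIN A2/H372/NodeLoc.lean
section


/-!
# A2 / NODE-LOC : from the global semistable chart to the local data at a closed point (helper372)

Adapter between MODEL (global statements on a chart `B`: the fields of `SSChart` in
`Fermat/Agent/A2/Spec.lean`) and the local purity / LP lemmas
(`A2.H609.exists_unit_mul_pow_of_node`, `exists_unit_mul_pow_of_smooth`, `A2.H673`, `A2.H672`),
which live in the local ring `O = B_n` at a closed point `n` of the special fibre.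

INPUT (global, on the chart `B`): primes `p₁ p₂` with `p₁ ⊓ p₂ = (w)`, `B ⧸ pᵢ` Dedekind,
`p₁ ⊔ p₂` radical (or the elementwise local generation of `Transversal.lean`), `n` a prime
(maximal) ideal containing `w`.

OUTPUT (local, in `O` with `[IsLocalization.AtPrime O n]`), `Pᵢ := pᵢ O`:

* node (`p₁ ≤ n`, `p₂ ≤ n`) : `P₁`, `P₂` prime, `P₁ ⊓ P₂ = (w)`, `P₁ ⊔ P₂ = n O`
  (`= maximalIdeal O`), `O ⧸ Pᵢ` discrete valuation rings       — `node_local_data`;
* smooth (`p₁ ≤ n`, `¬ p₂ ≤ n`) : `P₁` prime, `P₁ = (w)`, `O ⧸ P₁` a discrete valuation ring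
                                                               — `smooth_local_data`;
* `exists_mul_mem_of_isRadical` : elementwise local generation `t x ∈ J`, `t ∉ n`, for a
  radical ideal `J ≤ n` containing a prime `p` with `B ⧸ p` Dedekind, `J ≠ p`.
-/

set_option autoImplicit false

namespace Fermat.Agent.A2.H372

open Ideal

variable {B : Type*} [CommRing B]

/-- In a discrete valuation ring, a nonzero proper radical ideal is the maximal ideal. -/
theorem eq_maximalIdeal_of_isRadical_of_dvr {L : Type*} [CommRing L] [IsDomain L]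
    [IsDiscreteValuationRing L] {I : Ideal L} (hI : I.IsRadical) (h0 : I ≠ ⊥) (h1 : I ≠ ⊤) :
    I = IsLocalRing.maximalIdeal L := by
  obtain ⟨ϖ, hϖ⟩ := IsDiscreteValuationRing.exists_irreducible L
  obtain ⟨k, hk⟩ := IsDiscreteValuationRing.ideal_eq_span_pow_irreducible h0 hϖ
  have hk0 : k ≠ 0 := by
    rintro rfl
    apply h1
    rw [hk, pow_zero, Ideal.span_singleton_one]
  have hmem : ϖ ∈ I := hI ⟨k, by rw [hk]; exact Ideal.mem_span_singleton_self _⟩
  refine le_antisymm (IsLocalRing.le_maximalIdeal h1) ?_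
  rw [hϖ.maximalIdeal_eq, Ideal.span_le, Set.singleton_subset_iff]
  exact hmem

/-- The image of a prime `n ⊇ p` in `B ⧸ p`. -/
theorem map_mk_isPrime {p n : Ideal B} [n.IsPrime] (hpn : p ≤ n) :
    (n.map (Ideal.Quotient.mk p)).IsPrime :=
  Ideal.map_isPrime_of_surjective Ideal.Quotient.mk_surjective
    (by rw [Ideal.mk_ker]; exact hpn)

theorem mk_mem_map_mk_iff {p n : Ideal B} (hpn : p ≤ n) (x : B) :
    Ideal.Quotient.mk p x ∈ n.map (Ideal.Quotient.mk p) ↔ x ∈ n := by
  constructor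
  · intro h
    obtain ⟨y, hy, hxy⟩ :=
      (Ideal.mem_map_iff_of_surjective _ Ideal.Quotient.mk_surjective).mp h
    have : x - y ∈ p := by
      rw [← Ideal.Quotient.eq]
      exact hxy.symm
    have := n.add_mem (hpn this) hy
    simpa using this
  · exact fun h => Ideal.mem_map_of_mem _ h

theorem map_mk_ne_bot {p n : Ideal B} (hpn : p ≤ n) (hne : p ≠ n) :
    n.map (Ideal.Quotient.mk p) ≠ ⊥ := by
  intro h
  apply hne
  refine le_antisymm hpn fun x hx => ?_
  have : Ideal.Quotient.mk p x ∈ n.map (Ideal.Quotient.mk p) := Ideal.mem_map_of_mem _ hx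
  rw [h, Ideal.mem_bot] at this
  exact Ideal.Quotient.eq_zero_iff_mem.mp this

/-- **Local generation from radicality.**  `p` prime with `B ⧸ p` Dedekind, `J` a radical ideal
with `p ≤ J ≤ n`, `J ≠ p`, `n` prime.  Then `J` generates `n` locally at `n`. -/
theorem exists_mul_mem_of_isRadical {p J n : Ideal B} [p.IsPrime] [n.IsPrime]
    [IsDedekindDomain (B ⧸ p)] (hpJ : p ≤ J) (hJn : J ≤ n) (hne : ¬ J ≤ p)
    (hJ : J.IsRadical) {x : B} (hx : x ∈ n) : ∃ t : B, t ∉ n ∧ t * x ∈ J := by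
  have hpn : p ≤ n := hpJ.trans hJn
  set D := B ⧸ p
  set nb : Ideal D := n.map (Ideal.Quotient.mk p) with hnb
  set Jb : Ideal D := J.map (Ideal.Quotient.mk p) with hJb
  have : nb.IsPrime := map_mk_isPrime hpn
  have hJbn : Jb ≤ nb := Ideal.map_mono hJn
  have hJb0 : Jb ≠ ⊥ := by
    intro h
    apply hne
    intro y hy
    have : Ideal.Quotient.mk p y ∈ Jb := Ideal.mem_map_of_mem _ hy
    rw [h, Ideal.mem_bot] at this
    exact Ideal.Quotient.eq_zero_iff_mem.mp this
  have hnb0 : nb ≠ ⊥ := fun h => hJb0 (le_bot_iff.mp (h ▸ hJbn))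
  have hJbrad : Jb.IsRadical := by
    intro y hy
    obtain ⟨y, rfl⟩ := Ideal.Quotient.mk_surjective y
    obtain ⟨k, hk⟩ := hy
    rw [← map_pow] at hk
    have hk' : y ^ k ∈ J := (mk_mem_map_mk_iff hpJ _).mp hk
    exact Ideal.mem_map_of_mem _ (hJ ⟨k, hk'⟩)
  let L := Localization.AtPrime nb
  have : IsDiscreteValuationRing L :=
    IsLocalization.AtPrime.isDiscreteValuationRing_of_dedekind_domain D hnb0 L
  have hinj : Function.Injective (algebraMap D L) :=
    IsLocalization.injective L (Ideal.primeCompl_le_nonZeroDivisors nb)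
  set I : Ideal L := Jb.map (algebraMap D L) with hI
  have hIrad : I.IsRadical := by
    have := IsLocalization.map_radical nb.primeCompl L Jb
    rw [hJbrad.radical] at this
    rw [Ideal.IsRadical, hI, ← this]
  have hI0 : I ≠ ⊥ := by
    intro h
    apply hJb0
    rw [eq_bot_iff]
    intro y hy
    have : algebraMap D L y ∈ I := Ideal.mem_map_of_mem _ hy
    rw [h, Ideal.mem_bot] at this
    rw [Ideal.mem_bot]
    exact hinj (by rw [this, map_zero])
  have hI1 : I ≠ ⊤ := by
    rw [hI]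
    exact (IsLocalization.map_algebraMap_ne_top_iff_disjoint nb.primeCompl L Jb).mpr
      (Set.disjoint_left.mpr fun y hy hyJ => hy (hJbn hyJ))
  have hImax : I = IsLocalRing.maximalIdeal L :=
    eq_maximalIdeal_of_isRadical_of_dvr hIrad hI0 hI1
  have hxL : algebraMap D L (Ideal.Quotient.mk p x) ∈ I := by
    rw [hImax]
    exact (IsLocalization.AtPrime.to_map_mem_maximal_iff L nb _).mpr
      (Ideal.mem_map_of_mem _ hx)
  obtain ⟨tb, htb, htx⟩ :=
    (IsLocalization.algebraMap_mem_map_algebraMap_iff nb.primeCompl L Jb _).mp hxL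
  obtain ⟨t, rfl⟩ := Ideal.Quotient.mk_surjective tb
  refine ⟨t, fun ht => htb (Ideal.mem_map_of_mem _ ht), ?_⟩
  rw [← map_mul] at htx
  exact (mk_mem_map_mk_iff hpJ _).mp htx

section Local

variable (O : Type*) [CommRing O] [Algebra B O]

/-- The quotient of the local ring `O = B_n` by `p O` is a discrete valuation ring when
`B ⧸ p` is Dedekind and `p < n`. -/
theorem isDiscreteValuationRing_quotient_map {p n : Ideal B} [p.IsPrime] [n.IsPrime]
    [IsLocalization.AtPrime O n] [IsDedekindDomain (B ⧸ p)] (hpn : p ≤ n) (hne : p ≠ n)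
    [(p.map (algebraMap B O)).IsPrime] :
    IsDiscreteValuationRing (O ⧸ p.map (algebraMap B O)) := by
  set nb : Ideal (B ⧸ p) := n.map (Ideal.Quotient.mk p) with hnb
  have : nb.IsPrime := map_mk_isPrime hpn
  have hnb0 : nb ≠ ⊥ := map_mk_ne_bot hpn hne
  have hM : Algebra.algebraMapSubmonoid (B ⧸ p) n.primeCompl = nb.primeCompl := by
    ext y
    obtain ⟨y, rfl⟩ := Ideal.Quotient.mk_surjective y
    constructor
    · rintro ⟨z, hz, hzy⟩
      intro hy
      have hzy' : Ideal.Quotient.mk p z = Ideal.Quotient.mk p y := hzy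
      have hy' : Ideal.Quotient.mk p z ∈ nb := by rw [hzy']; exact hy
      exact hz ((mk_mem_map_mk_iff hpn z).mp hy')
    · intro hy
      exact ⟨y, fun h => hy (Ideal.mem_map_of_mem _ h), rfl⟩
  have h1 : IsLocalization (Algebra.algebraMapSubmonoid (B ⧸ p) n.primeCompl)
      (O ⧸ p.map (algebraMap B O)) := inferInstance
  have : IsLocalization.AtPrime (O ⧸ p.map (algebraMap B O)) nb := by
    change IsLocalization nb.primeCompl _
    rw [← hM]
    exact h1
  exact IsLocalization.AtPrime.isDiscreteValuationRing_of_dedekind_domain (B ⧸ p) hnb0 _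

/-- **NODE-LOC, node case.**  Local data at a crossing point `n ⊇ p₁ + p₂` of a semistable
chart, in the exact shape of the hypotheses of `A2.H609.exists_unit_mul_pow_of_node`. -/
theorem node_local_data {p₁ p₂ n : Ideal B} [p₁.IsPrime] [p₂.IsPrime] [n.IsPrime]
    [IsLocalization.AtPrime O n] [IsDedekindDomain (B ⧸ p₁)] [IsDedekindDomain (B ⧸ p₂)]
    {w : B} (hinf : p₁ ⊓ p₂ = Ideal.span {w}) (h₁₂ : ¬ p₁ ≤ p₂) (h₂₁ : ¬ p₂ ≤ p₁)
    (htr : (p₁ ⊔ p₂).IsRadical) (h₁ : p₁ ≤ n) (h₂ : p₂ ≤ n) :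
    ∃ (_ : (p₁.map (algebraMap B O)).IsPrime) (_ : (p₂.map (algebraMap B O)).IsPrime),
      p₁.map (algebraMap B O) ⊓ p₂.map (algebraMap B O) = Ideal.span {algebraMap B O w} ∧
      p₁.map (algebraMap B O) ⊔ p₂.map (algebraMap B O) = n.map (algebraMap B O) ∧
      IsDiscreteValuationRing (O ⧸ p₁.map (algebraMap B O)) ∧
      IsDiscreteValuationRing (O ⧸ p₂.map (algebraMap B O)) := by
  have hd₁ : Disjoint (n.primeCompl : Set B) (p₁ : Set B) :=
    Set.disjoint_left.mpr fun y hy hyp => hy (h₁ hyp)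
  have hd₂ : Disjoint (n.primeCompl : Set B) (p₂ : Set B) :=
    Set.disjoint_left.mpr fun y hy hyp => hy (h₂ hyp)
  have hP₁ : (p₁.map (algebraMap B O)).IsPrime :=
    IsLocalization.isPrime_of_isPrime_disjoint n.primeCompl O p₁ inferInstance hd₁
  have hP₂ : (p₂.map (algebraMap B O)).IsPrime :=
    IsLocalization.isPrime_of_isPrime_disjoint n.primeCompl O p₂ inferInstance hd₂
  have hne₁ : p₁ ≠ n := fun h => h₂₁ (h ▸ h₂)
  have hne₂ : p₂ ≠ n := fun h => h₁₂ (h ▸ h₁)
  refine ⟨hP₁, hP₂, ?_, ?_, ?_, ?_⟩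
  · rw [← IsLocalization.map_inf n.primeCompl O, hinf, Ideal.map_span, Set.image_singleton]
  · rw [← Ideal.map_sup]
    symm
    refine map_eq_map_of_local O (sup_le h₁ h₂) fun x hx => ?_
    exact exists_mul_mem_of_isRadical (p := p₁) le_sup_left (sup_le h₁ h₂)
      (fun h => h₂₁ (le_sup_right.trans h)) htr hx
  · exact isDiscreteValuationRing_quotient_map O h₁ hne₁
  · exact isDiscreteValuationRing_quotient_map O h₂ hne₂

/-- **NODE-LOC, smooth case.**  Local data at a point `n` of the first component which is not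
on the second one, in the exact shape of `A2.H609.exists_unit_mul_pow_of_smooth`. -/
theorem smooth_local_data {p₁ p₂ n : Ideal B} [p₁.IsPrime] [n.IsPrime]
    [IsLocalization.AtPrime O n] [IsDedekindDomain (B ⧸ p₁)]
    {w : B} (hinf : p₁ ⊓ p₂ = Ideal.span {w}) (h₁ : p₁ ≤ n) (hne : p₁ ≠ n) (h₂ : ¬ p₂ ≤ n) :
    ∃ (_ : (p₁.map (algebraMap B O)).IsPrime),
      p₁.map (algebraMap B O) = Ideal.span {algebraMap B O w} ∧
      IsDiscreteValuationRing (O ⧸ p₁.map (algebraMap B O)) := by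
  have hd₁ : Disjoint (n.primeCompl : Set B) (p₁ : Set B) :=
    Set.disjoint_left.mpr fun y hy hyp => hy (h₁ hyp)
  have hP₁ : (p₁.map (algebraMap B O)).IsPrime :=
    IsLocalization.isPrime_of_isPrime_disjoint n.primeCompl O p₁ inferInstance hd₁
  have htop : p₂.map (algebraMap B O) = ⊤ := by
    obtain ⟨e, he, hen⟩ := SetLike.not_le_iff_exists.mp h₂
    rw [Ideal.eq_top_iff_one]
    have hu : IsUnit (algebraMap B O e) := IsLocalization.map_units O (⟨e, hen⟩ : n.primeCompl)
    have : algebraMap B O e ∈ p₂.map (algebraMap B O) := Ideal.mem_map_of_mem _ he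
    exact (Ideal.eq_top_of_isUnit_mem _ this hu) ▸ Submodule.mem_top
  refine ⟨hP₁, ?_, isDiscreteValuationRing_quotient_map O h₁ hne⟩
  have := IsLocalization.map_inf n.primeCompl O p₁ p₂
  rw [htop, inf_top_eq, hinf, Ideal.map_span, Set.image_singleton] at this
  exact this.symm

end Local

/-- **NODE-LOC, node case**, for `O = Localization.AtPrime n`, with `IsLocalRing.maximalIdeal`:
verbatim the hypotheses `hinf`, `hsup` and the instances of
`A2.H609.exists_unit_mul_pow_of_node`. -/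
theorem node_local_data_atPrime {p₁ p₂ n : Ideal B} [p₁.IsPrime] [p₂.IsPrime] [n.IsPrime]
    [IsDedekindDomain (B ⧸ p₁)] [IsDedekindDomain (B ⧸ p₂)]
    {w : B} (hinf : p₁ ⊓ p₂ = Ideal.span {w}) (h₁₂ : ¬ p₁ ≤ p₂) (h₂₁ : ¬ p₂ ≤ p₁)
    (htr : (p₁ ⊔ p₂).IsRadical) (h₁ : p₁ ≤ n) (h₂ : p₂ ≤ n) :
    ∃ (_ : (p₁.map (algebraMap B (Localization.AtPrime n))).IsPrime)
      (_ : (p₂.map (algebraMap B (Localization.AtPrime n))).IsPrime),
      p₁.map (algebraMap B (Localization.AtPrime n)) ⊓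
          p₂.map (algebraMap B (Localization.AtPrime n)) =
        Ideal.span {algebraMap B (Localization.AtPrime n) w} ∧
      p₁.map (algebraMap B (Localization.AtPrime n)) ⊔
          p₂.map (algebraMap B (Localization.AtPrime n)) =
        IsLocalRing.maximalIdeal (Localization.AtPrime n) ∧
      IsDiscreteValuationRing
        (Localization.AtPrime n ⧸ p₁.map (algebraMap B (Localization.AtPrime n))) ∧
      IsDiscreteValuationRing
        (Localization.AtPrime n ⧸ p₂.map (algebraMap B (Localization.AtPrime n))) := by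
  obtain ⟨hP₁, hP₂, hi, hs, hd₁, hd₂⟩ :=
    node_local_data (Localization.AtPrime n) hinf h₁₂ h₂₁ htr h₁ h₂
  exact ⟨hP₁, hP₂, hi, by rw [hs, Localization.AtPrime.map_eq_maximalIdeal], hd₁, hd₂⟩

end Fermat.Agent.A2.H372

end
-- ===== PACK-END A2/H372/NodeLoc.lean

-- ===== PACK-BEGIN A2/H48/Qep2.lean
section


/-!
# A2 / piece QEP2, part 3 (helper48): the `q`-expansion principle for a two-component model

Mathlib-only.  `R` a factorial domain with prime element `ϖ` (in the application a discrete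
valuation ring `A ∩ E`), `K = Frac R[X]` (`X ↦ j` or `X ↦ 1/j`), `F / K` finite of degree `n`,
`V₁ ≠ V₂` valuation rings of `F` which both

* contain `R[X]`, have maximal ideal generated by `ϖ`,
* induce the Gauss valuation on `K` (a polynomial not divisible by `ϖ` is a unit),

together with families `b` in `V₁`, `c` in `V₂` with `f₁ + f₂ = n` members whose residues are
linearly independent over `(R/ϖ)[X]` (`GaussPair`).  Then

* `GaussPair.exists_monic_of_mem` : every element of `V₁ ∩ V₂` is integral over the Gauss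
  ring `O = V₁ ∩ K` (no third extension of the Gauss valuation to `F`);
* `GaussPair.qep2` : **if `u` is integral over `R[X]` and `u/ϖ ∈ V₁ ∩ V₂` then `u/ϖ` is integral
  over `R[X]`**, i.e. for the chart `B` = integral closure of `R[X]` in `F`:
  `B ∩ ϖ (V₁ ∩ V₂) = ϖ B`;
* `GaussPair.reduced` : `u` integral over `R[X]`, `u ^ k / ϖ` integral over `R[X]`, `k ≥ 1`
  `⟹ u/ϖ` integral over `R[X]` (the special fibre `B/ϖB` is reduced).
-/

set_option autoImplicit false
set_option linter.unusedSectionVars false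

namespace Fermat.Agent.A2.H48

open Polynomial

variable {R : Type*} [CommRing R] [IsDomain R] [UniqueFactorizationMonoid R]
variable {K F : Type*} [Field K] [Field F] [Algebra R[X] K] [IsFractionRing R[X] K]
  [Algebra K F] [Algebra R[X] F] [IsScalarTower R[X] K F]

/-- The hypotheses of the two-component `q`-expansion principle. -/
structure GaussPair (ϖ : R) (V₁ V₂ : ValuationSubring F)
    {f₁ f₂ : ℕ} (b : Fin f₁ → F) (c : Fin f₂ → F) : Prop where
  prime : Prime ϖ
  unif₁ : IsUnif V₁ (algebraMap R[X] F (C ϖ))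
  unif₂ : IsUnif V₂ (algebraMap R[X] F (C ϖ))
  poly₁ : ∀ P : R[X], algebraMap R[X] F P ∈ V₁
  poly₂ : ∀ P : R[X], algebraMap R[X] F P ∈ V₂
  gauss₁ : ∀ P : R[X], ¬ C ϖ ∣ P → (algebraMap R[X] F P)⁻¹ ∈ V₁
  gauss₂ : ∀ P : R[X], ¬ C ϖ ∣ P → (algebraMap R[X] F P)⁻¹ ∈ V₂
  ne : V₁ ≠ V₂
  b_mem : ∀ i, b i ∈ V₁
  c_mem : ∀ j, c j ∈ V₂
  b_indep : ∀ a : Fin f₁ → R[X],
    (∑ i, algebraMap R[X] F (a i) * b i) * (algebraMap R[X] F (C ϖ))⁻¹ ∈ V₁ → ∀ i, C ϖ ∣ a i
  c_indep : ∀ a : Fin f₂ → R[X],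
    (∑ j, algebraMap R[X] F (a j) * c j) * (algebraMap R[X] F (C ϖ))⁻¹ ∈ V₂ → ∀ j, C ϖ ∣ a j
  card : f₁ + f₂ = Module.finrank K F

section GaussRing

variable (K)

/-- The Gauss ring `V ∩ K`. -/
def gaussRing (V : ValuationSubring F) : ValuationSubring K := V.comap (algebraMap K F)

variable {K}

theorem mem_gaussRing {V : ValuationSubring F} {a : K} :
    a ∈ gaussRing K V ↔ algebraMap K F a ∈ V := ValuationSubring.mem_comap

variable {ϖ : R} {V : ValuationSubring F}

theorem prime_C (hϖ : Prime ϖ) : Prime (C ϖ : R[X]) := prime_C_iff.2 hϖ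

theorem algebraMap_C_ne_zero (hϖ : Prime ϖ) : algebraMap R[X] K (C ϖ) ≠ 0 := by
  intro h
  have := (IsFractionRing.injective R[X] K) (h.trans (map_zero _).symm)
  exact (prime_C hϖ).ne_zero this

theorem map_eq (P : R[X]) : algebraMap K F (algebraMap R[X] K P) = algebraMap R[X] F P :=
  (IsScalarTower.algebraMap_apply R[X] K F P).symm

/-- Elements of the form `P / Q`, `ϖ ∤ Q`, lie in the Gauss ring. -/
theorem div_mem_gaussRing (hpoly : ∀ P : R[X], algebraMap R[X] F P ∈ V)
    (hgauss : ∀ P : R[X], ¬ C ϖ ∣ P → (algebraMap R[X] F P)⁻¹ ∈ V)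
    (P : R[X]) {Q : R[X]} (hQ : ¬ C ϖ ∣ Q) :
    algebraMap R[X] K P / algebraMap R[X] K Q ∈ gaussRing K V := by
  rw [mem_gaussRing, map_div₀, map_eq, map_eq, div_eq_mul_inv]
  exact mul_mem (hpoly P) (hgauss Q hQ)

/-- Every element of the Gauss ring is of the form `P / Q` with `ϖ ∤ Q`. -/
theorem exists_div_of_mem_gaussRing (hϖ : Prime ϖ) (hunif : IsUnif V (algebraMap R[X] F (C ϖ)))
    (hpoly : ∀ P : R[X], algebraMap R[X] F P ∈ V)
    (hgauss : ∀ P : R[X], ¬ C ϖ ∣ P → (algebraMap R[X] F P)⁻¹ ∈ V)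
    {a : K} (ha : a ∈ gaussRing K V) :
    ∃ P Q : R[X], ¬ C ϖ ∣ Q ∧ a = algebraMap R[X] K P / algebraMap R[X] K Q := by
  obtain ⟨P, Q, hQ, rfl⟩ := IsFractionRing.div_surjective R[X] (K := K) a
  have hQ0 : Q ≠ 0 := nonZeroDivisors.ne_zero hQ
  by_cases hP0 : P = 0
  · refine ⟨0, 1, ?_, ?_⟩
    · intro h
      exact (prime_C hϖ).not_isUnit (isUnit_of_dvd_one h)
    · rw [hP0]; simp
  obtain ⟨k, Q', hQ', hQk⟩ := WfDvdMonoid.max_power_factor' hQ0 (prime_C hϖ).not_isUnit
  obtain ⟨j, P', hP', hPj⟩ := WfDvdMonoid.max_power_factor' hP0 (prime_C hϖ).not_isUnit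
  have hϖK : algebraMap R[X] K (C ϖ) ≠ 0 := algebraMap_C_ne_zero hϖ
  have hQ'0 : algebraMap R[X] K Q' ≠ 0 := by
    intro h
    have := (IsFractionRing.injective R[X] K) (h.trans (map_zero _).symm)
    rw [this] at hQ'
    exact hQ' (dvd_zero _)
  rcases le_or_gt k j with hkj | hkj
  · obtain ⟨r, rfl⟩ := Nat.exists_eq_add_of_le hkj
    refine ⟨C ϖ ^ r * P', Q', hQ', ?_⟩
    rw [hPj, hQk, map_mul, map_mul, map_mul, map_pow, map_pow, map_pow, pow_add]
    field_simp
  · exfalso
    obtain ⟨r, hr⟩ := Nat.exists_eq_add_of_lt hkj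
    have hP'0 : algebraMap R[X] F P' ≠ 0 := by
      intro h
      rw [← map_eq (K := K)] at h
      have h1 := (algebraMap K F).injective (h.trans (map_zero _).symm)
      have := (IsFractionRing.injective R[X] K) (h1.trans (map_zero _).symm)
      rw [this] at hP'
      exact hP' (dvd_zero _)
    have hπ0 : algebraMap R[X] F (C ϖ) ≠ 0 := hunif.ne_zero
    rw [mem_gaussRing, map_div₀, map_eq, map_eq] at ha
    apply hunif.inv_not_mem
    have hQ'F : algebraMap R[X] F Q' ≠ 0 := by
      rw [← map_eq (K := K)]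
      exact (_root_.map_ne_zero _).2 hQ'0
    have e : (algebraMap R[X] F (C ϖ))⁻¹ =
        (algebraMap R[X] F P / algebraMap R[X] F Q) *
          (algebraMap R[X] F (C ϖ ^ r * Q') * (algebraMap R[X] F P')⁻¹) := by
      rw [hPj, hQk, hr, map_mul, map_mul, map_mul, map_pow, map_pow, map_pow]
      field_simp
      ring
    rw [e]
    exact mul_mem ha (mul_mem (hpoly _) (hgauss P' hP'))

theorem isUnif_gaussRing (hunif : IsUnif V (algebraMap R[X] F (C ϖ))) :
    IsUnif (gaussRing K V) (algebraMap R[X] K (C ϖ)) where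
  mem := by rw [mem_gaussRing, map_eq]; exact hunif.mem
  inv_not_mem := by rw [mem_gaussRing, map_inv₀, map_eq]; exact hunif.inv_not_mem
  gen := by
    intro a ha hainv
    rw [mem_gaussRing] at ha hainv ⊢
    rw [map_inv₀] at hainv
    rw [map_mul, map_inv₀, map_eq]
    exact hunif.gen _ ha hainv

theorem arch_gaussRing (hϖ : Prime ϖ) (hpoly : ∀ P : R[X], algebraMap R[X] F P ∈ V)
    (hgauss : ∀ P : R[X], ¬ C ϖ ∣ P → (algebraMap R[X] F P)⁻¹ ∈ V) (a : K) :
    ∃ k : ℕ, algebraMap R[X] K (C ϖ) ^ k * a ∈ gaussRing K V := by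
  obtain ⟨P, Q, hQ, rfl⟩ := IsFractionRing.div_surjective R[X] (K := K) a
  have hQ0 : Q ≠ 0 := nonZeroDivisors.ne_zero hQ
  obtain ⟨k, Q', hQ', hQk⟩ := WfDvdMonoid.max_power_factor' hQ0 (prime_C hϖ).not_isUnit
  refine ⟨k, ?_⟩
  have hϖK : algebraMap R[X] K (C ϖ) ≠ 0 := algebraMap_C_ne_zero hϖ
  have hQ'0 : algebraMap R[X] K Q' ≠ 0 := by
    intro h
    have := (IsFractionRing.injective R[X] K) (h.trans (map_zero _).symm)
    rw [this] at hQ'
    exact hQ' (dvd_zero _)
  have e : algebraMap R[X] K (C ϖ) ^ k * (algebraMap R[X] K P / algebraMap R[X] K Q) =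
      algebraMap R[X] K P / algebraMap R[X] K Q' := by
    rw [hQk, map_mul, map_pow]
    field_simp
  rw [e]
  exact div_mem_gaussRing hpoly hgauss P hQ'

/-- **Gauss intersection**: `P / ϖ ^ k` in the Gauss ring forces `ϖ ^ k ∣ P` in `R[X]`. -/
theorem pow_dvd_of_mem_gaussRing (hunif : IsUnif V (algebraMap R[X] F (C ϖ)))
    (hgauss : ∀ P : R[X], ¬ C ϖ ∣ P → (algebraMap R[X] F P)⁻¹ ∈ V) :
    ∀ (k : ℕ) (P : R[X]),
      algebraMap R[X] K P * ((algebraMap R[X] K (C ϖ))⁻¹) ^ k ∈ gaussRing K V → C ϖ ^ k ∣ P := by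
  have hπ0 : algebraMap R[X] F (C ϖ) ≠ 0 := hunif.ne_zero
  have hϖK : algebraMap R[X] K (C ϖ) ≠ 0 := by
    intro h
    apply hπ0
    rw [← map_eq (K := K), h, map_zero]
  intro k
  induction k with
  | zero => intro P _; simp
  | succ k ih =>
      intro P hP
      have h1 : algebraMap R[X] K P * ((algebraMap R[X] K (C ϖ))⁻¹) ^ k ∈ gaussRing K V := by
        have e : algebraMap R[X] K P * ((algebraMap R[X] K (C ϖ))⁻¹) ^ k =
            algebraMap R[X] K P * ((algebraMap R[X] K (C ϖ))⁻¹) ^ (k + 1) *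
              algebraMap R[X] K (C ϖ) := by
          rw [pow_succ]; field_simp
        rw [e]
        exact mul_mem hP (isUnif_gaussRing hunif).mem
      obtain ⟨P₁, rfl⟩ := ih P h1
      by_cases hdvd : C ϖ ∣ P₁
      · obtain ⟨P₂, rfl⟩ := hdvd
        exact ⟨P₂, by rw [pow_succ]; ring⟩
      · exfalso
        apply hunif.inv_not_mem
        have h2 := hgauss P₁ hdvd
        rw [mem_gaussRing] at hP
        have hP₁0 : algebraMap R[X] F P₁ ≠ 0 := by
          intro h
          rw [h, inv_zero] at h2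
          have h3 : P₁ = 0 := by
            rw [← map_eq (K := K)] at h
            have h4 := (algebraMap K F).injective (h.trans (map_zero _).symm)
            exact (IsFractionRing.injective R[X] K) (h4.trans (map_zero _).symm)
          exact hdvd (h3 ▸ dvd_zero _)
        have e : (algebraMap R[X] F (C ϖ))⁻¹ =
            algebraMap K F (algebraMap R[X] K (C ϖ ^ k * P₁) *
              ((algebraMap R[X] K (C ϖ))⁻¹) ^ (k + 1)) * (algebraMap R[X] F P₁)⁻¹ := by
          rw [map_mul, map_pow, map_inv₀, map_eq, map_eq, map_mul, map_pow, pow_succ, inv_pow]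
          field_simp
        rw [e]
        exact mul_mem hP h2

end GaussRing

section Indep

variable {ϖ : R} {V : ValuationSubring F}

/-- Linear independence of residues over `(R/ϖ)[X]` implies linear independence over the residue
field of the Gauss ring. -/
theorem indep_gaussRing (hϖ : Prime ϖ) (hunif : IsUnif V (algebraMap R[X] F (C ϖ)))
    (hpoly : ∀ P : R[X], algebraMap R[X] F P ∈ V)
    (hgauss : ∀ P : R[X], ¬ C ϖ ∣ P → (algebraMap R[X] F P)⁻¹ ∈ V)
    {f : ℕ} {b : Fin f → F}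
    (hind : ∀ a : Fin f → R[X],
      (∑ i, algebraMap R[X] F (a i) * b i) * (algebraMap R[X] F (C ϖ))⁻¹ ∈ V → ∀ i, C ϖ ∣ a i)
    (a : Fin f → K) (ha : ∀ i, a i ∈ gaussRing K V)
    (hsum : (∑ i, algebraMap K F (a i) * b i) * (algebraMap K F (algebraMap R[X] K (C ϖ)))⁻¹ ∈ V)
    (i : Fin f) : a i * (algebraMap R[X] K (C ϖ))⁻¹ ∈ gaussRing K V := by
  classical
  choose P Q hQ hPQ using fun i => exists_div_of_mem_gaussRing hϖ hunif hpoly hgauss (ha i)
  have hQ0 : ∀ i, algebraMap R[X] K (Q i) ≠ 0 := by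
    intro i h
    have := (IsFractionRing.injective R[X] K) (h.trans (map_zero _).symm)
    exact hQ i (this ▸ dvd_zero _)
  set Qtot : R[X] := ∏ i, Q i with hQtot
  set a' : Fin f → R[X] := fun i => P i * ∏ i' ∈ Finset.univ.erase i, Q i' with ha'
  have hmul : ∀ i, algebraMap R[X] K (a' i) = a i * algebraMap R[X] K Qtot := by
    intro i
    have h1 : Q i * ∏ i' ∈ Finset.univ.erase i, Q i' = Qtot :=
      Finset.mul_prod_erase _ _ (Finset.mem_univ i)
    rw [ha', ← h1, hPQ i, map_mul, map_mul]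
    field_simp [hQ0 i]
  have hsum' : (∑ i, algebraMap R[X] F (a' i) * b i) * (algebraMap R[X] F (C ϖ))⁻¹ ∈ V := by
    have e : (∑ i, algebraMap R[X] F (a' i) * b i) * (algebraMap R[X] F (C ϖ))⁻¹ =
        algebraMap R[X] F Qtot *
          ((∑ i, algebraMap K F (a i) * b i) *
            (algebraMap K F (algebraMap R[X] K (C ϖ)))⁻¹) := by
      rw [map_eq, ← mul_assoc, Finset.mul_sum]
      congr 1
      refine Finset.sum_congr rfl fun i _ => ?_
      rw [← map_eq (K := K) (a' i), hmul, map_mul, map_eq]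
      ring
    rw [e]
    exact mul_mem (hpoly _) hsum
  have hdvd := hind a' hsum' i
  have hdvdP : C ϖ ∣ P i := by
    rcases (prime_C hϖ).dvd_or_dvd hdvd with h | h
    · exact h
    · exfalso
      obtain ⟨i', -, hi'⟩ := ((prime_C hϖ).dvd_finsetProd_iff _).1 h
      exact hQ i' hi'
  obtain ⟨P', hP'⟩ := hdvdP
  have hϖK : algebraMap R[X] K (C ϖ) ≠ 0 := algebraMap_C_ne_zero hϖ
  have e : a i * (algebraMap R[X] K (C ϖ))⁻¹ =
      algebraMap R[X] K P' / algebraMap R[X] K (Q i) := by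
    rw [hPQ i, hP', map_mul]
    field_simp [hQ0 i]
  rw [e]
  exact div_mem_gaussRing hpoly hgauss P' (hQ i)

end Indep

namespace GaussPair

variable {ϖ : R} {V₁ V₂ : ValuationSubring F} {f₁ f₂ : ℕ} {b : Fin f₁ → F} {c : Fin f₂ → F}

theorem gaussRing_eq (h : GaussPair (K := K) ϖ V₁ V₂ b c) : gaussRing K V₁ = gaussRing K V₂ := by
  apply le_antisymm
  · intro a ha
    obtain ⟨P, Q, hQ, rfl⟩ := exists_div_of_mem_gaussRing h.prime h.unif₁ h.poly₁ h.gauss₁ ha
    exact div_mem_gaussRing h.poly₂ h.gauss₂ P hQ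
  · intro a ha
    obtain ⟨P, Q, hQ, rfl⟩ := exists_div_of_mem_gaussRing h.prime h.unif₂ h.poly₂ h.gauss₂ ha
    exact div_mem_gaussRing h.poly₁ h.gauss₁ P hQ

/-- A `GaussPair` gives the data of the "no third extension" theorem over the Gauss ring. -/
theorem twoExt (h : GaussPair (K := K) ϖ V₁ V₂ b c) :
    TwoExt (gaussRing K V₁) V₁ V₂ (algebraMap R[X] K (C ϖ)) b c where
  unifO := isUnif_gaussRing h.unif₁
  unif₁ := by rw [map_eq]; exact h.unif₁
  unif₂ := by rw [map_eq]; exact h.unif₂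
  le₁ := fun a ha => mem_gaussRing.1 ha
  le₂ := fun a ha => mem_gaussRing.1 (h.gaussRing_eq ▸ ha)
  ne := h.ne
  arch := arch_gaussRing h.prime h.poly₁ h.gauss₁
  b_mem := h.b_mem
  c_mem := h.c_mem
  b_indep := fun a ha hsum i =>
    indep_gaussRing h.prime h.unif₁ h.poly₁ h.gauss₁ h.b_indep a ha hsum i
  c_indep := fun a ha hsum j => by
    rw [h.gaussRing_eq]
    exact indep_gaussRing h.prime h.unif₂ h.poly₂ h.gauss₂ h.c_indep a
      (fun j => h.gaussRing_eq ▸ ha j) hsum j
  card := h.card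

/-- **No third extension**: every element of `V₁ ∩ V₂` is integral over the Gauss ring. -/
theorem exists_monic_of_mem [FiniteDimensional K F] (h : GaussPair (K := K) ϖ V₁ V₂ b c)
    {u : F} (hu₁ : u ∈ V₁) (hu₂ : u ∈ V₂) :
    ∃ p : K[X], p.Monic ∧ (∀ i, p.coeff i ∈ gaussRing K V₁) ∧ aeval u p = 0 :=
  h.twoExt.exists_monic_of_mem hu₁ hu₂

/-- Elements of `V₁ ∩ V₂` have their minimal polynomial over `K` with coefficients in the Gauss
ring. -/
theorem minpoly_coeff_mem [FiniteDimensional K F] (h : GaussPair (K := K) ϖ V₁ V₂ b c)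
    {z : F} (hz₁ : z ∈ V₁) (hz₂ : z ∈ V₂) (i : ℕ) :
    (minpoly K z).coeff i ∈ gaussRing K V₁ := by
  classical
  obtain ⟨p, hp, hpc, hpz⟩ := h.exists_monic_of_mem hz₁ hz₂
  let _ : Algebra (gaussRing K V₁) F :=
    ((algebraMap K F).comp (gaussRing K V₁).subtype).toAlgebra
  have : IsScalarTower (gaussRing K V₁) K F := IsScalarTower.of_algebraMap_eq (fun x => rfl)
  have hlift : p ∈ lifts (gaussRing K V₁).subtype := by
    rw [lifts_iff_coeff_lifts]
    intro n
    exact ⟨⟨p.coeff n, hpc n⟩, rfl⟩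
  obtain ⟨q, hq, -, hqm⟩ := lifts_and_natDegree_eq_and_monic hlift hp
  have hzO : IsIntegral (gaussRing K V₁) z := by
    refine ⟨q, hqm, ?_⟩
    have : eval₂ (algebraMap (gaussRing K V₁) F) z q =
        eval₂ (algebraMap K F) z (q.map (gaussRing K V₁).subtype) := by
      rw [eval₂_map]; rfl
    rw [this, hq, ← aeval_def]
    exact hpz
  have hμ := minpoly.isIntegrallyClosed_eq_field_fractions' K hzO
  rw [hμ, coeff_map]
  exact ((minpoly (gaussRing K V₁) z).coeff i).2

/-- **`q`-expansion principle for the two-component model.**  If `u` is integral over `R[X]`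
and `u / ϖ` lies in both `V₁` and `V₂`, then `u / ϖ` is integral over `R[X]`. -/
theorem qep2 [FiniteDimensional K F] (h : GaussPair (K := K) ϖ V₁ V₂ b c) {u : F}
    (hu : IsIntegral R[X] u)
    (h₁ : u * (algebraMap R[X] F (C ϖ))⁻¹ ∈ V₁) (h₂ : u * (algebraMap R[X] F (C ϖ))⁻¹ ∈ V₂) :
    IsIntegral R[X] (u * (algebraMap R[X] F (C ϖ))⁻¹) := by
  classical
  set ϖK := algebraMap R[X] K (C ϖ) with hϖKdef
  have hϖK : ϖK ≠ 0 := algebraMap_C_ne_zero h.prime
  set z := u * (algebraMap R[X] F (C ϖ))⁻¹ with hz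
  have hz_eq : z = algebraMap K F ϖK⁻¹ * u := by
    rw [hz, map_inv₀, map_eq, mul_comm]
  have hu_eq : u = algebraMap K F ϖK * z := by
    rw [hz_eq, ← mul_assoc, ← map_mul, mul_inv_cancel₀ hϖK, map_one, one_mul]
  have huK : IsIntegral K u := Algebra.IsIntegral.isIntegral u
  have hzK : IsIntegral K z := Algebra.IsIntegral.isIntegral z
  have hμu := minpoly.isIntegrallyClosed_eq_field_fractions' K hu
  have hscale : (minpoly K u).scaleRoots ϖK⁻¹ = minpoly K z := by
    apply minpoly.unique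
    · exact (monic_scaleRoots_iff _).2 (minpoly.monic huK)
    · rw [hz_eq]; exact scaleRoots_aeval_eq_zero (minpoly.aeval K u)
    · intro r hr hrz
      rw [degree_scaleRoots]
      have h3 : aeval u (r.scaleRoots ϖK) = 0 := by
        rw [hu_eq]; exact scaleRoots_aeval_eq_zero hrz
      calc (minpoly K u).degree ≤ (r.scaleRoots ϖK).degree :=
            minpoly.min K u ((monic_scaleRoots_iff _).2 hr) h3
        _ = r.degree := degree_scaleRoots _
  have hcoef : ∀ i, (minpoly K z).coeff i ∈ Set.range (algebraMap R[X] K) := by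
    intro i
    have h1 : (minpoly K z).coeff i ∈ gaussRing K V₁ := h.minpoly_coeff_mem h₁ h₂ i
    rw [← hscale, coeff_scaleRoots, hμu, coeff_map] at h1 ⊢
    obtain ⟨P', hP'⟩ := pow_dvd_of_mem_gaussRing h.unif₁ h.gauss₁ _ _ h1
    refine ⟨P', ?_⟩
    rw [hP', map_mul, map_pow, inv_pow, ← hϖKdef]
    field_simp
  obtain ⟨q, hq, -, hqm⟩ :=
    lifts_and_natDegree_eq_and_monic ((lifts_iff_coeff_lifts _).2 hcoef) (minpoly.monic hzK)
  refine ⟨q, hqm, ?_⟩
  have e : eval₂ (algebraMap R[X] F) z q = aeval z (q.map (algebraMap R[X] K)) := by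
    rw [aeval_def, eval₂_map, ← IsScalarTower.algebraMap_eq]
  rw [e, hq]
  exact minpoly.aeval K z

/-- **The special fibre is reduced.**  If `u` is integral over `R[X]` and `u ^ k / ϖ` is integral
over `R[X]` for some `k ≥ 1` then `u / ϖ` is integral over `R[X]`. -/
theorem reduced [FiniteDimensional K F] (h : GaussPair (K := K) ϖ V₁ V₂ b c) {u : F}
    (hu : IsIntegral R[X] u) {k : ℕ}
    (h₁ : u ^ k * (algebraMap R[X] F (C ϖ))⁻¹ ∈ V₁)
    (h₂ : u ^ k * (algebraMap R[X] F (C ϖ))⁻¹ ∈ V₂) :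
    IsIntegral R[X] (u * (algebraMap R[X] F (C ϖ))⁻¹) := by
  have key : ∀ (V : ValuationSubring F), IsUnif V (algebraMap R[X] F (C ϖ)) →
      u ^ k * (algebraMap R[X] F (C ϖ))⁻¹ ∈ V → u * (algebraMap R[X] F (C ϖ))⁻¹ ∈ V := by
    intro V hV hk
    rw [hV.mul_inv_mem_iff] at hk ⊢
    by_contra hcon
    have h1 : 1 ≤ V.valuation u := not_lt.1 hcon
    have h2 : 1 ≤ V.valuation (u ^ k) := by
      rw [map_pow]; exact one_le_pow₀ h1
    exact absurd hk (not_lt.2 h2)
  exact h.qep2 hu (key V₁ h.unif₁ h₁) (key V₂ h.unif₂ h₂)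

end GaussPair

end Fermat.Agent.A2.H48

end
-- ===== PACK-END A2/H48/Qep2.lean

-- ===== PACK-BEGIN S55/Bridge/InertiaConj.lean
section


/-!
# S55 bridge: inertia groups of valuation subrings of `ℚ̄` — membership criterion, conjugation,
and normal (Galois) levels unramified outside `S`.
-/

set_option autoImplicit false

namespace Fermat.Agent.S55.Bridge

open IntermediateField
open scoped Pointwise

attribute [local instance] isAlgebraic_Qbar isGalois_Qbar

section inertia

variable (A : ValuationSubring (AlgebraicClosure ℚ))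

/-- Membership in the decomposition group, elementwise. -/
theorem mem_decompositionSubgroup_iff (σ : AlgebraicClosure ℚ ≃ₐ[ℚ] AlgebraicClosure ℚ) :
    σ ∈ A.decompositionSubgroup ℚ ↔ ∀ x, σ x ∈ A ↔ x ∈ A := by
  rw [MulAction.mem_stabilizer_iff]
  constructor
  · intro h x
    have hinv : σ⁻¹ • A = A := by
      conv_lhs => rw [← h]
      rw [inv_smul_smul]
    have h1 := ValuationSubring.mem_pointwise_smul_iff_inv_smul_mem (S := A)
      (g := σ⁻¹) (x := x)
    rw [hinv, inv_inv] at h1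
    rw [h1]
    rfl
  · intro h
    apply SetLike.ext
    intro x
    rw [ValuationSubring.mem_pointwise_smul_iff_inv_smul_mem]
    have h2 := h (σ⁻¹ • x)
    rw [AlgEquiv.smul_def] at h2 ⊢
    rw [← h2]
    have : σ (σ⁻¹ x) = x := by
      show (σ * σ⁻¹) x = x
      rw [mul_inv_cancel]
      rfl
    rw [this]

/-- Membership in the inertia group, elementwise. -/
theorem mem_inertiaSubgroupIn_iff (σ : AlgebraicClosure ℚ ≃ₐ[ℚ] AlgebraicClosure ℚ) :
    σ ∈ A.inertiaSubgroupIn ℚ ↔
      σ ∈ A.decompositionSubgroup ℚ ∧ ∀ z ∈ A, σ z - z ∈ A.nonunits := by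
  constructor
  · intro hσ
    have hD : σ ∈ A.decompositionSubgroup ℚ := by
      obtain ⟨g, -, rfl⟩ := hσ
      exact g.2
    refine ⟨hD, fun z hz => ?_⟩
    rw [ValuationSubring.mem_nonunits_iff]
    exact inertia_val_sub_lt_one A hσ z ((A.valuation_le_one_iff z).2 hz)
  · rintro ⟨hD, h⟩
    refine ⟨⟨σ, hD⟩, ?_, rfl⟩
    show (⟨σ, hD⟩ : A.decompositionSubgroup ℚ) ∈ MonoidHom.ker
      (MulSemiringAction.toRingAut (A.decompositionSubgroup ℚ) (IsLocalRing.ResidueField A))
    rw [MonoidHom.mem_ker]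
    apply RingEquiv.ext
    intro y
    obtain ⟨x, rfl⟩ := IsLocalRing.residue_surjective y
    show (⟨σ, hD⟩ : A.decompositionSubgroup ℚ) • (IsLocalRing.residue A x)
      = IsLocalRing.residue A x
    rw [← IsLocalRing.ResidueField.residue_smul]
    rw [← sub_eq_zero, ← map_sub, IsLocalRing.residue_eq_zero_iff]
    have h3 := h x.1 x.2
    rw [ValuationSubring.mem_nonunits_iff] at h3
    rw [ValuationSubring.valuation_lt_one_iff]
    exact h3

theorem mem_smul_valuationSubring_iff (b : AlgebraicClosure ℚ ≃ₐ[ℚ] AlgebraicClosure ℚ)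
    (x : AlgebraicClosure ℚ) : x ∈ b • A ↔ b⁻¹ x ∈ A := by
  rw [ValuationSubring.mem_pointwise_smul_iff_inv_smul_mem]
  rfl

theorem mem_nonunits_iff_inv_not_mem (x : AlgebraicClosure ℚ) :
    x ∈ A.nonunits ↔ x = 0 ∨ x⁻¹ ∉ A := by
  rw [ValuationSubring.mem_nonunits_iff]
  rcases eq_or_ne x 0 with rfl | hx
  · simp
  · simp only [hx, false_or]
    rw [← A.valuation_le_one_iff, map_inv₀, not_le]
    have hpos : 0 < A.valuation x := by
      rw [zero_lt_iff]
      exact (A.valuation.ne_zero_iff).2 hx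
    rw [one_lt_inv₀ hpos]

theorem mem_nonunits_smul_iff (b : AlgebraicClosure ℚ ≃ₐ[ℚ] AlgebraicClosure ℚ)
    (x : AlgebraicClosure ℚ) : x ∈ (b • A).nonunits ↔ b⁻¹ x ∈ A.nonunits := by
  rw [mem_nonunits_iff_inv_not_mem, mem_nonunits_iff_inv_not_mem, mem_smul_valuationSubring_iff,
    map_inv₀]
  have : b⁻¹ x = 0 ↔ x = 0 := by
    rw [map_eq_zero_iff _ (b⁻¹).injective]
  rw [this]

theorem liesOverPrime_smul (b : AlgebraicClosure ℚ ≃ₐ[ℚ] AlgebraicClosure ℚ) (q : ℕ)
    (hA : A.LiesOverPrime q) : (b • A).LiesOverPrime q := by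
  show (q : AlgebraicClosure ℚ) ∈ (b • A).nonunits
  rw [mem_nonunits_smul_iff, map_natCast]
  exact hA

theorem apply_inv_conj (b σ : AlgebraicClosure ℚ ≃ₐ[ℚ] AlgebraicClosure ℚ)
    (x : AlgebraicClosure ℚ) : b⁻¹ ((b * σ * b⁻¹) x) = σ (b⁻¹ x) := by
  show (b⁻¹ * (b * σ * b⁻¹)) x = (σ * b⁻¹) x
  congr 1
  group

/-- Conjugation carries the inertia group of `A` to that of `b • A`. -/
theorem conj_mem_inertiaSubgroupIn (b σ : AlgebraicClosure ℚ ≃ₐ[ℚ] AlgebraicClosure ℚ)
    (hσ : σ ∈ A.inertiaSubgroupIn ℚ) : b * σ * b⁻¹ ∈ (b • A).inertiaSubgroupIn ℚ := by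
  rw [mem_inertiaSubgroupIn_iff] at hσ ⊢
  obtain ⟨hD, hI⟩ := hσ
  rw [mem_decompositionSubgroup_iff] at hD
  refine ⟨?_, ?_⟩
  · rw [mem_decompositionSubgroup_iff]
    intro x
    rw [mem_smul_valuationSubring_iff, mem_smul_valuationSubring_iff, apply_inv_conj, hD]
  · intro z hz
    rw [mem_smul_valuationSubring_iff] at hz
    rw [mem_nonunits_smul_iff, map_sub, apply_inv_conj]
    exact hI _ hz

end inertia

section Levels

variable (S : Finset Nat.Primes)

/-- Every finite extension unramified outside `S` is contained in a finite GALOIS extension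
unramified outside `S`. -/
theorem exists_galois_level_ge (F : IntermediateField ℚ (AlgebraicClosure ℚ))
    (hF : F.IsUnramifiedOutside S) :
    ∃ L : IntermediateField ℚ (AlgebraicClosure ℚ),
      L.IsUnramifiedOutside S ∧ IsGalois ℚ L ∧ F ≤ L := by
  haveI := hF.1
  haveI : (F.fixingSubgroup.normalCore).Normal := Subgroup.normalCore_normal _
  -- the normal closure is a finite Galois extension containing `F`
  have hfinN : FiniteDimensional ℚ (IntermediateField.normalClosure ℚ F (AlgebraicClosure ℚ)) :=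
    normalClosure.is_finiteDimensional ℚ F (AlgebraicClosure ℚ)
  have hgalN : IsGalois ℚ (IntermediateField.normalClosure ℚ F (AlgebraicClosure ℚ)) :=
    IsGalois.normalClosure ℚ F (AlgebraicClosure ℚ)
  have hnormal : (IntermediateField.normalClosure ℚ F
      (AlgebraicClosure ℚ)).fixingSubgroup.Normal :=
    (InfiniteGalois.normal_iff_isGalois _).2 hgalN
  have hle : (IntermediateField.normalClosure ℚ F (AlgebraicClosure ℚ)).fixingSubgroup
      ≤ F.fixingSubgroup.normalCore := by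
    rw [Subgroup.normal_le_normalCore]
    exact IntermediateField.fixingSubgroup_antitone (IntermediateField.le_normalClosure F)
  obtain ⟨L, hL, hgal, hfix, -⟩ := exists_galois_level_of_subgroup S F.fixingSubgroup.normalCore
    (IntermediateField.normalClosure ℚ F (AlgebraicClosure ℚ)) hfinN hle
    (by
      intro q hq A hA σ hσ
      rw [Subgroup.normalCore]
      intro b
      have h1 := conj_mem_inertiaSubgroupIn A b σ hσ
      exact hF.2 q hq (b • A) (liesOverPrime_smul A b q hA) h1)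
  refine ⟨L, hL, hgal, ?_⟩
  have h2 : L.fixingSubgroup ≤ F.fixingSubgroup := by
    rw [hfix]
    exact Subgroup.normalCore_le _
  rw [← InfiniteGalois.fixedField_fixingSubgroup F, ← InfiniteGalois.fixedField_fixingSubgroup L]
  exact IntermediateField.fixedField_antitone h2

end Levels

end Fermat.Agent.S55.Bridge

end
-- ===== PACK-END S55/Bridge/InertiaConj.lean

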