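import Mathlib
import Fermat.Prelude.Thm_Subgroup_IsArithmetic_exists_nat_mem_strictPeriods_conj
import Fermat.Prelude.Def_CuspForm_HeckeAlgebra
import Fermat.Prelude.Def_AlgebraicCurve_DivisorClassGroup
import Fermat.Statements.S37
import Fermat.Prelude.Def_ModularCurve_X0ModL
import Fermat.Agent.Pack.S34.G0E4L2
import Fermat.Agent.Pack.S34.G0E4L3
import Fermat.Agent.Pack.S34.G0E5L1
import Fermat.Agent.Pack.S34.G0E3L3
import Fermat.Agent.Pack.S34.G0E4L1
import Fermat.Agent.Pack.S34.G0E4L0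
import Fermat.Agent.Pack.S34.G0E2L1
import Fermat.Agent.Pack.S34.G0E2L0

-- ===== PACK-BEGIN S30/H990/TwoDim.lean
section
/-
S30 top glue (helper990): pure algebra, part 5: the two-dimensional representation.
-/


set_option autoImplicit false

namespace Fermat.Agent.S30.H990

open Module Polynomial

/-- Output of the extraction: a rank two representation with prescribed characteristic
polynomials, as congruent to `1` as the input data. -/
structure TwoDimOut {𝒪 M G : Type} [CommRing 𝒪] [AddCommGroup M] [Module 𝒪 M] [Group G]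
    (ρ : G →* Module.End 𝒪 M) (d : G →* 𝒪ˣ) : Type 1 where
  V : Type
  [instAddCommGroup : AddCommGroup V]
  [instModule : Module 𝒪 V]
  [instFree : Module.Free 𝒪 V]
  [instFinite : Module.Finite 𝒪 V]
  finrank_eq : Module.finrank 𝒪 V = 2
  ρ₂ : G →* Module.End 𝒪 V
  charpoly_eq : ∀ (g : G) (a : 𝒪), Rel ρ d g a →
    LinearMap.charpoly (ρ₂ g) = X ^ 2 - C a * X + C ((d g : 𝒪ˣ) : 𝒪)
  cong : ∀ (I : Ideal 𝒪) (g : G), (∀ v : M, ρ g v - v ∈ I • (⊤ : Submodule 𝒪 M)) →
    ((d g : 𝒪ˣ) : 𝒪) - 1 ∈ I → ∀ v : V, ρ₂ g v - v ∈ I • (⊤ : Submodule 𝒪 V)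

attribute [instance] TwoDimOut.instAddCommGroup TwoDimOut.instModule TwoDimOut.instFree
  TwoDimOut.instFinite

section Constructions

variable {𝒪 M G : Type} [CommRing 𝒪] [IsDomain 𝒪] [IsPrincipalIdealRing 𝒪]
  [AddCommGroup M] [Module 𝒪 M] [Module.Free 𝒪 M] [Module.Finite 𝒪 M] [Group G]
  (ρ : G →* Module.End 𝒪 M) (d : G →* 𝒪ˣ)

/-- Stability of the saturation of a span, checked on generators. -/
theorem sat_span_stable (s : Set M)
    (h : ∀ g, ∀ x ∈ s, ∃ r : 𝒪, r ≠ 0 ∧ r • ρ g x ∈ Submodule.span 𝒪 s) :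
    ∀ g, ∀ x ∈ sat (Submodule.span 𝒪 s), ρ g x ∈ sat (Submodule.span 𝒪 s) := by
  intro g x hx
  refine map_mem_sat (ρ g) (fun y hy => ?_) hx
  refine map_span_le_sat (ρ g) (fun z hz => ?_) hy
  obtain ⟨r, hr, hrz⟩ := h g z hz
  exact ⟨r, hr, hrz⟩

/-- The rank two case. -/
theorem twoDim_of_rank_two (hrel : ∀ g, ∃ a, Rel ρ d g a) (h2 : (2 : 𝒪) ≠ 0)
    (c : G) (hdc : d c = -1)
    (u w : M) (ε : 𝒪) (hε : ε * ε = 1) (hu0 : u ≠ 0) (hw0 : w ≠ 0)
    (hu : ρ c u = ε • u) (hw : ρ c w = -ε • w)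
    (hsu : ∀ g, ∃ r : 𝒪, r ≠ 0 ∧ r • ρ g u ∈ Submodule.span 𝒪 {u, w})
    (hsw : ∀ g, ∃ r : 𝒪, r ≠ 0 ∧ r • ρ g w ∈ Submodule.span 𝒪 {u, w}) :
    Nonempty (TwoDimOut ρ d) := by
  classical
  have hε0 : ε ≠ 0 := by rintro rfl; simp at hε
  -- linear independence
  have hli : LinearIndependent 𝒪 ![u, w] := by
    rw [LinearIndependent.pair_iff]
    intro s t hst
    have h1 := congrArg (ρ c) hst
    rw [map_add, map_smul, map_smul, hu, hw, map_zero] at h1
    have h3 : (2 * ε * s) • u = 0 := by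
      have : (2 * ε * s) • u = ε • (s • u + t • w) + (s • ε • u + t • (-ε • w)) := by
        module
      rw [this, hst, h1, smul_zero, add_zero]
    have hs : s = 0 := by
      rcases smul_eq_zero.mp h3 with h | h
      · rcases mul_eq_zero.mp h with h | h
        · exact absurd h (mul_ne_zero h2 hε0)
        · exact h
      · exact absurd h hu0
    refine ⟨hs, ?_⟩
    rw [hs, zero_smul, zero_add] at hst
    exact (smul_eq_zero.mp hst).resolve_right hw0
  have hrange : Set.range ![u, w] = ({u, w} : Set M) := by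
    ext x
    simp only [Set.mem_range, Set.mem_insert_iff, Set.mem_singleton_iff]
    constructor
    · rintro ⟨i, rfl⟩
      fin_cases i <;> simp
    · rintro (rfl | rfl)
      · exact ⟨0, rfl⟩
      · exact ⟨1, rfl⟩
  set Λ : Submodule 𝒪 M := sat (Submodule.span 𝒪 ({u, w} : Set M)) with hΛ
  have hfr : Module.finrank 𝒪 Λ = 2 := by
    have := finrank_sat_span ![u, w] hli
    rwa [hrange] at this
  have hstab : ∀ g, ∀ x ∈ Λ, ρ g x ∈ Λ := by
    apply sat_span_stable
    intro g x hx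
    rcases hx with rfl | hx
    · exact hsu g
    · rw [Set.mem_singleton_iff] at hx
      subst hx
      exact hsw g
  have huΛ : u ∈ Λ := le_sat _ (Submodule.subset_span (by simp))
  have hwΛ : w ∈ Λ := le_sat _ (Submodule.subset_span (by simp))
  set ρΛ := restrictRep ρ Λ hstab with hρΛ
  let b : Basis (Fin 2) 𝒪 Λ := Module.finBasisOfFinrankEq 𝒪 Λ hfr
  let A : G →* Matrix (Fin 2) (Fin 2) 𝒪 :=
    ((LinearMap.toMatrixAlgEquiv b : Module.End 𝒪 Λ ≃ₐ[𝒪] Matrix (Fin 2) (Fin 2) 𝒪) :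
      Module.End 𝒪 Λ →* Matrix (Fin 2) (Fin 2) 𝒪).comp ρΛ
  have hA : ∀ g, A g = LinearMap.toMatrixAlgEquiv b (ρΛ g) := fun g => rfl
  have hArel : ∀ g a, Rel ρ d g a →
      A g * A g - a • A g + ((d g : 𝒪ˣ) : 𝒪) • (1 : Matrix (Fin 2) (Fin 2) 𝒪) = 0 := by
    intro g a hr
    have := rel_restrictRep ρ d Λ hstab hr
    unfold Rel at this
    have h' := congrArg (LinearMap.toMatrixAlgEquiv b) this
    simpa only [map_add, map_sub, map_mul, map_smul, map_one, map_zero, hA] using h'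
  have hcns : ¬ ∃ l : 𝒪, A c = l • (1 : Matrix (Fin 2) (Fin 2) 𝒪) := by
    rintro ⟨l, hl⟩
    have h1 : ρΛ c = l • (1 : Module.End 𝒪 Λ) := by
      apply (LinearMap.toMatrixAlgEquiv b).injective
      rw [← hA, hl, map_smul, map_one]
    have e1 : ρ c u = l • u := by
      have := congrArg (fun f : Module.End 𝒪 Λ => ((f ⟨u, huΛ⟩ : Λ) : M)) h1
      exact this
    have e2 : ρ c w = l • w := by
      have := congrArg (fun f : Module.End 𝒪 Λ => ((f ⟨w, hwΛ⟩ : Λ) : M)) h1
      exact this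
    have f1 : l = ε := by
      have : (l - ε) • u = 0 := by rw [sub_smul, ← e1, ← hu, sub_self]
      exact sub_eq_zero.mp ((smul_eq_zero.mp this).resolve_right hu0)
    have f2 : l = -ε := by
      have : (l - -ε) • w = 0 := by rw [sub_smul, ← e2, ← hw, sub_self]
      exact sub_eq_zero.mp ((smul_eq_zero.mp this).resolve_right hw0)
    have : 2 * ε = 0 := by
      have := f1.symm.trans f2
      linear_combination this
    exact mul_ne_zero h2 hε0 this
  refine ⟨{ V := Λ
            finrank_eq := hfr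
            ρ₂ := ρΛ
            charpoly_eq := ?_
            cong := ?_ }⟩
  · intro g a hr
    obtain ⟨ht, hd⟩ := mat2_trace_det_of_rel A d (fun g => by
      obtain ⟨a, ha⟩ := hrel g
      exact ⟨a, hArel g a ha⟩) c hdc hcns g a (hArel g a hr)
    rw [← LinearMap.charpoly_toMatrix (ρΛ g) b]
    have : LinearMap.toMatrix b b (ρΛ g) = A g := rfl
    rw [this, Matrix.charpoly_fin_two, ht, hd]
  · intro I g hg _ v
    have hmem : ((ρΛ g v - v : Λ) : M) ∈ I • (⊤ : Submodule 𝒪 M) := hg (v : M)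
    exact mem_smul_top_sat _ I _ hmem

end Constructions

end Fermat.Agent.S30.H990

end
-- ===== PACK-END S30/H990/TwoDim.lean

-- ===== PACK-BEGIN S30/H649/TateAdapter.lean
section
/-
S30 (p-adic Eichler–Shimura), helper649: PIECE `Tate` of the S30 skeleton (squad-lead helper49).

`exists_adicFrobModule_of_lattice` has EXACTLY the type of the skeleton statement
`Fermat.Agent.S30.exists_adicFrobModule_of_tate` (with `GQ` unfolded).  It is the landed abstract
Tate eigenmodule `Fermat.Agent.S30.H529.exists_adic_galois_eigenmodule` fed with the compatible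
eigen-sequence `n ↦ (κ (n+1)).baseChange 𝒪 v`; the only new mathematics is that this sequence is
nonzero: `𝒪` is flat over `ℤ`, so `(κ n).baseChange 𝒪 v = 0` forces `v ∈ pⁿ (𝒪 ⊗ Λ)`, and
`⋂ₙ 𝔪ⁿ (𝒪 ⊗ Λ) = 0` (Krull).
-/


set_option autoImplicit false

namespace Fermat.Agent.S30.H649

open TensorProduct IsLocalRing

section Nonvanishing

variable {𝒪 : Type*} [CommRing 𝒪] [IsDomain 𝒪] [IsDiscreteValuationRing 𝒪] [CharZero 𝒪]
variable {J : Type*} [AddCommGroup J] {Λ : Type*} [AddCommGroup Λ]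

omit [IsDomain 𝒪] [IsDiscreteValuationRing 𝒪] [CharZero 𝒪] in
/-- An integer acts on `𝒪 ⊗[ℤ] X` as its image in `𝒪`. -/
theorem intCast_smul_tensor {X : Type*} [AddCommGroup X] (m : ℤ) (w : 𝒪 ⊗[ℤ] X) :
    (m : 𝒪) • w = m • w :=
  Int.cast_smul_eq_zsmul 𝒪 m w

omit [IsDiscreteValuationRing 𝒪] in
/-- If the kernel of `κ` is `m Λ`, the kernel of `1 ⊗ κ` on `𝒪 ⊗ Λ` is `m (𝒪 ⊗ Λ)`
(flatness of `𝒪` over `ℤ`). -/
theorem exists_eq_smul_of_baseChange_eq_zero (m : ℤ) (κ : Λ →ₗ[ℤ] J)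
    (hκ : ∀ x : Λ, κ x = 0 ↔ ∃ y : Λ, x = m • y) (v : 𝒪 ⊗[ℤ] Λ)
    (hv : κ.baseChange 𝒪 v = 0) : ∃ z : 𝒪 ⊗[ℤ] Λ, v = (m : 𝒪) • z := by
  have hex : Function.Exact (m • (LinearMap.id : Λ →ₗ[ℤ] Λ)) κ := by
    intro x
    rw [hκ x]
    constructor
    · rintro ⟨y, rfl⟩
      exact ⟨y, rfl⟩
    · rintro ⟨y, rfl⟩
      exact ⟨y, rfl⟩
  have hex2 := Module.Flat.lTensor_exact 𝒪 hex
  have h1 : κ.lTensor 𝒪 v = 0 := hv
  obtain ⟨z, hz⟩ := (hex2 v).mp h1
  refine ⟨z, ?_⟩
  rw [← hz, LinearMap.lTensor_smul, LinearMap.lTensor_id, LinearMap.smul_apply,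
    LinearMap.id_apply, intCast_smul_tensor]

/-- **Nonvanishing of the Kummer sequence.**  If `ker (κ n) = pⁿ Λ` for all `n` and `p ∈ 𝔪`, a
nonzero `v ∈ 𝒪 ⊗ Λ` has a nonzero image under some `1 ⊗ κ n`. -/
theorem exists_baseChange_ne_zero [Module.Finite ℤ Λ] {p : ℕ}
    (hp𝒪 : (p : 𝒪) ∈ maximalIdeal 𝒪) (κ : ℕ → Λ →ₗ[ℤ] J)
    (hκ0 : ∀ (n : ℕ) (x : Λ), κ n x = 0 ↔ ∃ y : Λ, x = ((p : ℤ) ^ n) • y)
    (v : 𝒪 ⊗[ℤ] Λ) (hv : v ≠ 0) : ∃ n : ℕ, (κ n).baseChange 𝒪 v ≠ 0 := by
  by_contra hcon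
  push Not at hcon
  apply hv
  have hmem : ∀ n : ℕ, v ∈ (maximalIdeal 𝒪 ^ n • ⊤ : Submodule 𝒪 (𝒪 ⊗[ℤ] Λ)) := by
    intro n
    obtain ⟨z, hz⟩ := exists_eq_smul_of_baseChange_eq_zero (𝒪 := 𝒪) ((p : ℤ) ^ n) (κ n)
      (hκ0 n) v (hcon n)
    rw [hz]
    refine Submodule.smul_mem_smul ?_ Submodule.mem_top
    have : (((p : ℤ) ^ n : ℤ) : 𝒪) = (p : 𝒪) ^ n := by push_cast; rfl
    rw [this]
    exact Ideal.pow_mem_pow hp𝒪 n
  have hbot : (⨅ i : ℕ, (maximalIdeal 𝒪 ^ i • ⊤ : Submodule 𝒪 (𝒪 ⊗[ℤ] Λ))) = ⊥ :=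
    Ideal.iInf_pow_smul_eq_bot_of_isLocalRing (maximalIdeal 𝒪)
      (Ideal.IsMaximal.ne_top inferInstance)
  have h2 : v ∈ (⨅ i : ℕ, (maximalIdeal 𝒪 ^ i • ⊤ : Submodule 𝒪 (𝒪 ⊗[ℤ] Λ))) :=
    (Submodule.mem_iInf _).mpr hmem
  rw [hbot] at h2
  exact (Submodule.mem_bot 𝒪).mp h2

end Nonvanishing

section Main

/-- **PIECE `Tate`** (type of `Fermat.Agent.S30.exists_adicFrobModule_of_tate`, `GQ` unfolded). -/
theorem exists_adicFrobModule_of_lattice
    {𝒪 : Type} [CommRing 𝒪] [IsDomain 𝒪] [IsDiscreteValuationRing 𝒪]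
    [IsAdicComplete (IsLocalRing.maximalIdeal 𝒪) 𝒪] [Finite (IsLocalRing.ResidueField 𝒪)]
    [CharZero 𝒪] {p : ℕ} (hp : p.Prime) (hp𝒪 : (p : 𝒪) ∈ IsLocalRing.maximalIdeal 𝒪)
    {J : Type} [AddCommGroup J]
    [DistribMulAction (AlgebraicClosure ℚ ≃ₐ[ℚ] AlgebraicClosure ℚ) J]
    {ι : Type} (T : ι → J →ₗ[ℤ] J)
    (hTG : ∀ (i : ι) (σ : AlgebraicClosure ℚ ≃ₐ[ℚ] AlgebraicClosure ℚ) (x : J),
      T i (σ • x) = σ • T i x)
    (hfin : Finite {x : J // (p : ℤ) • x = 0})
    (hsmooth : ∀ x : J, (∃ n : ℕ, ((p : ℤ) ^ n) • x = 0) →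
      ∃ L : IntermediateField ℚ (AlgebraicClosure ℚ), FiniteDimensional ℚ L ∧
        ∀ σ : AlgebraicClosure ℚ ≃ₐ[ℚ] AlgebraicClosure ℚ, (∀ y ∈ L, σ y = y) → σ • x = x)
    {Λ : Type} [AddCommGroup Λ] [Module.Free ℤ Λ] [Module.Finite ℤ Λ]
    (TΛ : ι → Λ →ₗ[ℤ] Λ) (κ : ℕ → Λ →ₗ[ℤ] J)
    (hκ0 : ∀ (n : ℕ) (x : Λ), κ n x = 0 ↔ ∃ y : Λ, x = ((p : ℤ) ^ n) • y)
    (hκs : ∀ (n : ℕ) (x : Λ), (p : ℤ) • κ (n + 1) x = κ n x)
    (hκT : ∀ (i : ι) (n : ℕ) (x : Λ), κ n (TΛ i x) = T i (κ n x))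
    (a : ι → 𝒪) (v : 𝒪 ⊗[ℤ] Λ) (hv : v ≠ 0)
    (hva : ∀ i : ι, (TΛ i).baseChange 𝒪 v = a i • v) :
    ∃ (M : Type) (_ : AddCommGroup M) (_ : Module 𝒪 M) (_ : Module.Free 𝒪 M)
      (_ : Module.Finite 𝒪 M)
      (ρ : (AlgebraicClosure ℚ ≃ₐ[ℚ] AlgebraicClosure ℚ) →* Module.End 𝒪 M),
      Nontrivial M ∧ GaloisActionIsAdicContinuous 𝒪 ρ ∧
      (∀ σ : AlgebraicClosure ℚ ≃ₐ[ℚ] AlgebraicClosure ℚ,
        (∀ x : J, (∃ n : ℕ, ((p : ℤ) ^ n) • x = 0) → σ • x = x) → ρ σ = 1) ∧
      (∀ (σ : AlgebraicClosure ℚ ≃ₐ[ℚ] AlgebraicClosure ℚ) (i : ι) (c : ℤ),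
        (∀ x : J, (∃ n : ℕ, ((p : ℤ) ^ n) • x = 0) →
          σ • σ • x - T i (σ • x) + c • x = 0) →
        ρ σ * ρ σ - a i • ρ σ + (c : 𝒪) • (1 : Module.End 𝒪 M) = 0) := by
  classical
  -- conversions between `ℤ`- and `ℕ`-torsion
  have hpow : ∀ (n : ℕ) (x : J), ((p : ℤ) ^ n) • x = p ^ n • x := by
    intro n x
    rw [← Nat.cast_pow, natCast_zsmul]
  have htors : ∀ x : J, (∃ n : ℕ, p ^ n • x = 0) ↔ (∃ n : ℕ, ((p : ℤ) ^ n) • x = 0) := by
    intro x
    constructor
    · rintro ⟨n, hn⟩; exact ⟨n, by rw [hpow]; exact hn⟩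
    · rintro ⟨n, hn⟩; exact ⟨n, by rw [← hpow]; exact hn⟩
  -- the operators as additive maps
  let T' : ι → J →+ J := fun i => (T i).toAddMonoidHom
  have hT' : ∀ i, (T' i).toIntLinearMap = T i := fun i => LinearMap.ext fun _ => rfl
  have hfin' : {x : J | p • x = 0}.Finite := by
    have h1 : {x : J | (p : ℤ) • x = 0}.Finite := Set.finite_coe_iff.mp hfin
    refine h1.subset fun x hx => ?_
    show (p : ℤ) • x = 0
    rw [natCast_zsmul]
    exact hx
  -- the Kummer sequence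
  have hκzero : ∀ w : 𝒪 ⊗[ℤ] Λ, (κ 0).baseChange 𝒪 w = 0 := by
    have h0 : κ 0 = 0 := by
      apply LinearMap.ext
      intro x
      rw [LinearMap.zero_apply, hκ0 0 x]
      exact ⟨x, by rw [pow_zero, one_smul]⟩
    intro w
    rw [h0, LinearMap.baseChange_zero, LinearMap.zero_apply]
  have hκsucc : ∀ (n : ℕ) (w : 𝒪 ⊗[ℤ] Λ),
      (p : 𝒪) • (κ (n + 1)).baseChange 𝒪 w = (κ n).baseChange 𝒪 w := by
    intro n w
    have h1 : (p : ℤ) • κ (n + 1) = κ n := LinearMap.ext fun x => hκs n x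
    have h2 : ((p : ℤ) : 𝒪) • (κ (n + 1)).baseChange 𝒪 w
        = (p : ℤ) • (κ (n + 1)).baseChange 𝒪 w := intCast_smul_tensor _ _
    rw [Int.cast_natCast] at h2
    rw [h2, ← LinearMap.smul_apply, ← LinearMap.baseChange_smul, h1]
  obtain ⟨n₀, hn₀⟩ := exists_baseChange_ne_zero (𝒪 := 𝒪) hp𝒪 κ hκ0 v hv
  obtain ⟨m₀, rfl⟩ : ∃ m₀, n₀ = m₀ + 1 := by
    cases n₀ with
    | zero => exact absurd (hκzero v) hn₀
    | succ m => exact ⟨m, rfl⟩
  let seq : ℕ → 𝒪 ⊗[ℤ] J := fun n => (κ (n + 1)).baseChange 𝒪 v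
  have hseq0 : (p : 𝒪) • seq 0 = 0 := by
    show (p : 𝒪) • (κ (0 + 1)).baseChange 𝒪 v = 0
    rw [hκsucc 0 v, hκzero v]
  have hseqs : ∀ n, (p : 𝒪) • seq (n + 1) = seq n := fun n => hκsucc (n + 1) v
  have hseqne : seq ≠ 0 := fun h => hn₀ (congrFun h m₀)
  have hseqeig : ∀ i n, H529.tensorOp 𝒪 T' i (seq n) = a i • seq n := by
    intro i n
    show ((T' i).toIntLinearMap.baseChange 𝒪) ((κ (n + 1)).baseChange 𝒪 v)
      = a i • (κ (n + 1)).baseChange 𝒪 v
    have h1 : T i ∘ₗ κ (n + 1) = κ (n + 1) ∘ₗ TΛ i :=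
      LinearMap.ext fun x => (hκT i (n + 1) x).symm
    rw [hT' i, ← LinearMap.comp_apply, ← LinearMap.baseChange_comp, h1,
      LinearMap.baseChange_comp, LinearMap.comp_apply, hva i, map_smul]
  obtain ⟨M, i1, i2, i3, i4, ρ, hnt, hcont, hunr, hquad⟩ :=
    H529.exists_adic_galois_eigenmodule p 𝒪 J T' a hp𝒪 hp.ne_zero
      (fun i γ x => hTG i γ x) hfin'
      (fun x hx => hsmooth x ((htors x).mp hx)) seq hseq0 hseqs hseqne hseqeig
  refine ⟨M, i1, i2, i3, i4, ρ, hnt, hcont, ?_, ?_⟩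
  · intro σ hσ
    exact hunr σ fun x hx => hσ x ((htors x).mp hx)
  · intro σ i c hσ
    exact hquad σ i c fun x hx => hσ x ((htors x).mp hx)

end Main

end Fermat.Agent.S30.H649

end
-- ===== PACK-END S30/H649/TateAdapter.lean

-- ===== PACK-BEGIN Lib/EulerProd/PrimeCount.lean
section



/-!
# Counting prime ideals above a rational prime; primes of degree `≥ 2` are sparse

* `PrimeIdeal.exists_prime_mem`: every nonzero prime contains a rational prime `q`,
  and then `absNorm 𝔭 = q ^ k`, `1 ≤ k`.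
* `card_le_finrank_of_mem`: at most `[K : ℚ]` primes contain a given rational prime.
* `sum_inv_absNorm_le_of_not_prime`: finite sums of `N(𝔭)⁻¹` over primes whose norm is not a
  prime number are bounded by `[K : ℚ] * ∑ m, 1 / m ^ 2`.
-/

set_option autoImplicit false
set_option linter.style.haveILetI false
set_option linter.unusedSectionVars false

namespace Fermat.Agent.Lib.EulerProd

open NumberField Ideal Filter Topology Finset

variable {K : Type*} [Field K] [NumberField K]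

theorem absNorm_span_natCast (q : ℕ) :
    absNorm (span {(q : 𝓞 K)}) = q ^ Module.finrank ℚ K := by
  rw [Ideal.absNorm_span_singleton]
  have h : ((q : ℕ) : 𝓞 K) = algebraMap ℤ (𝓞 K) (q : ℤ) := by simp
  rw [h, Algebra.norm_algebraMap, RingOfIntegers.rank, Int.natAbs_pow, Int.natAbs_natCast]

/-- Every nonzero prime ideal contains a rational prime. -/
theorem PrimeIdeal.exists_prime_mem (𝔭 : PrimeIdeal K) :
    ∃ q : ℕ, q.Prime ∧ (q : 𝓞 K) ∈ 𝔭.1 := by
  classical
  have hex : ∃ m : ℕ, 2 ≤ m ∧ (m : 𝓞 K) ∈ 𝔭.1 := ⟨absNorm 𝔭.1, 𝔭.two_le_absNorm, absNorm_mem 𝔭.1⟩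
  refine ⟨Nat.find hex, ?_, (Nat.find_spec hex).2⟩
  have h2 := (Nat.find_spec hex).1
  rw [Nat.prime_def]
  refine ⟨h2, fun a ha => ?_⟩
  obtain ⟨b, hb⟩ := ha
  by_contra hcon
  simp only [not_or] at hcon
  have hmem : ((a * b : ℕ) : 𝓞 K) ∈ 𝔭.1 := hb ▸ (Nat.find_spec hex).2
  rw [Nat.cast_mul] at hmem
  have hpos : 0 < Nat.find hex := by omega
  have ha0 : a ≠ 0 := by
    rintro rfl
    rw [zero_mul] at hb
    omega
  have hb0 : b ≠ 0 := by
    rintro rfl
    rw [mul_zero] at hb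
    omega
  have halt : a < Nat.find hex := by
    have hle : a ≤ Nat.find hex := Nat.le_of_dvd hpos ⟨b, hb⟩
    exact lt_of_le_of_ne hle hcon.2
  have hblt : b < Nat.find hex := by
    have hle : b ≤ Nat.find hex := Nat.le_of_dvd hpos ⟨a, by rw [hb, mul_comm]⟩
    refine lt_of_le_of_ne hle ?_
    intro hbe
    rw [hbe] at hb
    have : a = 1 := by
      have h1 : 1 * Nat.find hex = a * Nat.find hex := by rw [one_mul]; exact hb
      exact (Nat.eq_of_mul_eq_mul_right hpos h1).symm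
    exact hcon.1 this
  rcases 𝔭.isPrime.mem_or_mem hmem with h | h
  · have ha2 : 2 ≤ a := by
      rcases Nat.lt_or_ge a 2 with h1 | h1
      · exfalso
        have : a = 1 := by omega
        exact hcon.1 this
      · exact h1
    exact Nat.find_min hex halt ⟨ha2, h⟩
  · have hb2 : 2 ≤ b := by
      rcases Nat.lt_or_ge b 2 with h1 | h1
      · exfalso
        have hb1 : b = 1 := by omega
        rw [hb1, mul_one] at hb
        exact hcon.2 hb.symm
      · exact h1
    exact Nat.find_min hex hblt ⟨hb2, h⟩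

theorem PrimeIdeal.absNorm_eq_pow_of_mem (𝔭 : PrimeIdeal K) {q : ℕ} (hq : q.Prime)
    (hmem : (q : 𝓞 K) ∈ 𝔭.1) :
    ∃ k : ℕ, 1 ≤ k ∧ k ≤ Module.finrank ℚ K ∧ absNorm 𝔭.1 = q ^ k := by
  have hle : span {(q : 𝓞 K)} ≤ 𝔭.1 := (Ideal.span_singleton_le_iff_mem _).mpr hmem
  have hdvd := Ideal.absNorm_dvd_absNorm_of_le hle
  rw [absNorm_span_natCast] at hdvd
  obtain ⟨k, hk, hk'⟩ := (Nat.dvd_prime_pow hq).1 hdvd
  refine ⟨k, ?_, hk, hk'⟩
  rcases Nat.eq_zero_or_pos k with rfl | hpos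
  · exfalso
    have := 𝔭.two_le_absNorm
    rw [hk', pow_zero] at this
    omega
  · exact hpos

/-- The rational prime below a prime ideal. -/
noncomputable def PrimeIdeal.below (𝔭 : PrimeIdeal K) : ℕ := (absNorm 𝔭.1).minFac

theorem PrimeIdeal.below_spec (𝔭 : PrimeIdeal K) :
    𝔭.below.Prime ∧ (𝔭.below : 𝓞 K) ∈ 𝔭.1 ∧
      ∃ k : ℕ, 1 ≤ k ∧ k ≤ Module.finrank ℚ K ∧ absNorm 𝔭.1 = 𝔭.below ^ k := by
  obtain ⟨q, hq, hmem⟩ := 𝔭.exists_prime_mem
  obtain ⟨k, hk1, hkn, hk⟩ := 𝔭.absNorm_eq_pow_of_mem hq hmem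
  have hb : 𝔭.below = q := by
    rw [PrimeIdeal.below, hk, hq.pow_minFac (by omega)]
  rw [hb]
  exact ⟨hq, hmem, k, hk1, hkn, hk⟩

theorem PrimeIdeal.below_prime (𝔭 : PrimeIdeal K) : 𝔭.below.Prime := 𝔭.below_spec.1

theorem PrimeIdeal.below_mem (𝔭 : PrimeIdeal K) : (𝔭.below : 𝓞 K) ∈ 𝔭.1 := 𝔭.below_spec.2.1

theorem PrimeIdeal.below_sq_le_of_not_prime (𝔭 : PrimeIdeal K) (h : ¬ (absNorm 𝔭.1).Prime) :
    𝔭.below ^ 2 ≤ absNorm 𝔭.1 := by
  obtain ⟨hq, -, k, hk1, -, hk⟩ := 𝔭.below_spec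
  have hk2 : 2 ≤ k := by
    rcases Nat.lt_or_ge k 2 with h1 | h1
    · exfalso
      have : k = 1 := by omega
      rw [this, pow_one] at hk
      exact h (hk ▸ hq)
    · exact h1
  rw [hk]
  exact Nat.pow_le_pow_right hq.pos hk2

theorem PrimeIdeal.below_eq_absNorm_of_prime (𝔭 : PrimeIdeal K) (h : (absNorm 𝔭.1).Prime) :
    𝔭.below = absNorm 𝔭.1 := h.minFac_eq

/-- At most `[K : ℚ]` prime ideals contain a given rational prime. -/
theorem card_le_finrank_of_mem {q : ℕ} (hq : q.Prime) (G : Finset (PrimeIdeal K))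
    (hG : ∀ 𝔭 ∈ G, (q : 𝓞 K) ∈ 𝔭.1) : G.card ≤ Module.finrank ℚ K := by
  classical
  have hdvd : ∏ 𝔭 ∈ G.image Subtype.val, 𝔭 ∣ span {(q : 𝓞 K)} := by
    refine Finset.prod_primes_dvd _ (fun a ha => ?_) (fun a ha => ?_)
    · obtain ⟨𝔭, -, rfl⟩ := Finset.mem_image.mp ha
      exact 𝔭.2
    · obtain ⟨𝔭, h𝔭, rfl⟩ := Finset.mem_image.mp ha
      exact Ideal.dvd_iff_le.mpr ((Ideal.span_singleton_le_iff_mem _).mpr (hG 𝔭 h𝔭))
  rw [Finset.prod_image (fun x _ y _ h => Subtype.ext h)] at hdvd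
  have hnorm : absNorm (∏ 𝔭 ∈ G, 𝔭.1) ∣ q ^ Module.finrank ℚ K := by
    have := Ideal.absNorm_dvd_absNorm_of_le (Ideal.dvd_iff_le.mp hdvd)
    rwa [absNorm_span_natCast] at this
  rw [map_prod] at hnorm
  have hpow : q ^ G.card ∣ ∏ 𝔭 ∈ G, absNorm 𝔭.1 := by
    rw [← Finset.prod_const]
    refine Finset.prod_dvd_prod_of_dvd _ _ fun 𝔭 h𝔭 => ?_
    obtain ⟨k, hk1, -, hk⟩ := 𝔭.absNorm_eq_pow_of_mem hq (hG 𝔭 h𝔭)
    rw [hk]
    exact dvd_pow_self q (by omega)
  exact (Nat.pow_dvd_pow_iff_le_right hq.one_lt).mp (hpow.trans hnorm)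


/-- The constant bounding the contribution of primes of degree `≥ 2`. -/
noncomputable def degTwoBound (K : Type*) [Field K] [NumberField K] : ℝ :=
  Module.finrank ℚ K * ∑' m : ℕ, (((m : ℝ)) ^ 2)⁻¹

theorem degTwoBound_nonneg : 0 ≤ degTwoBound K := by
  unfold degTwoBound
  have : 0 ≤ ∑' m : ℕ, (((m : ℝ)) ^ 2)⁻¹ := tsum_nonneg fun m => by positivity
  positivity

/-- Finite sums of `f (below 𝔭)` are bounded by `[K:ℚ] * ∑' f` for summable nonnegative `f`. -/
theorem sum_comp_below_le (f : ℕ → ℝ) (hf : ∀ m, 0 ≤ f m) (hsum : Summable f)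
    (T : Finset (PrimeIdeal K)) :
    ∑ 𝔭 ∈ T, f 𝔭.below ≤ Module.finrank ℚ K * ∑' m : ℕ, f m := by
  classical
  rw [Finset.sum_comp f (fun 𝔭 : PrimeIdeal K => 𝔭.below)]
  calc ∑ q ∈ T.image (fun 𝔭 : PrimeIdeal K => 𝔭.below),
        (T.filter fun 𝔭 => 𝔭.below = q).card • f q
      ≤ ∑ q ∈ T.image (fun 𝔭 : PrimeIdeal K => 𝔭.below), (Module.finrank ℚ K : ℝ) * f q := by
        refine Finset.sum_le_sum fun q hq => ?_
        rw [nsmul_eq_mul]
        refine mul_le_mul_of_nonneg_right ?_ (hf q)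
        obtain ⟨𝔭₀, -, h𝔭₀⟩ := Finset.mem_image.mp hq
        have hqp : q.Prime := h𝔭₀ ▸ 𝔭₀.below_prime
        exact_mod_cast card_le_finrank_of_mem hqp _ fun 𝔭 h𝔭 => by
          have := (Finset.mem_filter.mp h𝔭).2
          exact this ▸ 𝔭.below_mem
    _ = (Module.finrank ℚ K : ℝ) * ∑ q ∈ T.image (fun 𝔭 : PrimeIdeal K => 𝔭.below), f q := by
        rw [Finset.mul_sum]
    _ ≤ Module.finrank ℚ K * ∑' m : ℕ, f m := by
        refine mul_le_mul_of_nonneg_left ?_ (Nat.cast_nonneg _)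
        exact hsum.sum_le_tsum _ fun m _ => hf m

/-- Finite sums of `N(𝔭)⁻¹` over primes whose norm is not a prime number are bounded. -/
theorem sum_inv_absNorm_le_of_not_prime (T : Finset (PrimeIdeal K))
    (hT : ∀ 𝔭 ∈ T, ¬ (absNorm 𝔭.1).Prime) :
    ∑ 𝔭 ∈ T, (((absNorm 𝔭.1 : ℕ) : ℝ))⁻¹ ≤ degTwoBound K := by
  have hsum : Summable fun m : ℕ => (((m : ℝ)) ^ 2)⁻¹ :=
    Real.summable_nat_pow_inv.mpr (by norm_num)
  refine le_trans (Finset.sum_le_sum fun 𝔭 h𝔭 => ?_)
    (sum_comp_below_le (fun m : ℕ => (((m : ℝ)) ^ 2)⁻¹) (fun m => by positivity) hsum T)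
  have h1 := 𝔭.below_sq_le_of_not_prime (hT 𝔭 h𝔭)
  have hpos : (0 : ℝ) < ((𝔭.below : ℕ) : ℝ) ^ 2 := by
    have := 𝔭.below_prime.pos
    positivity
  have h2 : (((𝔭.below : ℕ) : ℝ)) ^ 2 ≤ ((absNorm 𝔭.1 : ℕ) : ℝ) := by exact_mod_cast h1
  exact inv_anti₀ hpos h2

/-- Finite sums of `N(𝔭)⁻²` over all primes are bounded. -/
theorem sum_inv_absNorm_sq_le (T : Finset (PrimeIdeal K)) :
    ∑ 𝔭 ∈ T, ((((absNorm 𝔭.1 : ℕ) : ℝ)) ^ 2)⁻¹ ≤ degTwoBound K := by
  have hsum : Summable fun m : ℕ => (((m : ℝ)) ^ 2)⁻¹ :=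
    Real.summable_nat_pow_inv.mpr (by norm_num)
  refine le_trans (Finset.sum_le_sum fun 𝔭 h𝔭 => ?_)
    (sum_comp_below_le (fun m : ℕ => (((m : ℝ)) ^ 2)⁻¹) (fun m => by positivity) hsum T)
  obtain ⟨hq, -, k, hk1, -, hk⟩ := 𝔭.below_spec
  have hpos : (0 : ℝ) < ((𝔭.below : ℕ) : ℝ) ^ 2 := by
    have := hq.pos
    positivity
  have h1 : 𝔭.below ≤ absNorm 𝔭.1 := by
    rw [hk]
    exact Nat.le_self_pow (by omega) _
  have h2 : (((𝔭.below : ℕ) : ℝ)) ^ 2 ≤ (((absNorm 𝔭.1 : ℕ) : ℝ)) ^ 2 := by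
    have : ((𝔭.below : ℕ) : ℝ) ≤ ((absNorm 𝔭.1 : ℕ) : ℝ) := by exact_mod_cast h1
    exact pow_le_pow_left₀ (Nat.cast_nonneg _) this 2
  exact inv_anti₀ hpos h2

end Fermat.Agent.Lib.EulerProd

end
-- ===== PACK-END Lib/EulerProd/PrimeCount.lean

-- ===== PACK-BEGIN S22/H262/Nice.lean
section




set_option autoImplicit false

/-!
# Towers exist for `f ∣[k] A`, `f` a cusp form on `Γ₀(N)`, `A` an integer matrix of positive
determinant.
-/

open Complex Filter Function Metric Set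
open UpperHalfPlane hiding I
open scoped Real Topology Manifold ModularForm MatrixGroups Pointwise

namespace Fermat.Agent.S22.H262

open Matrix.SpecialLinearGroup in
theorem hasTower_slash_SL {N : ℕ} [NeZero N] {k : ℤ}
    (f : CuspForm (CongruenceSubgroup.Gamma0 N) k) (g : SL(2, ℤ)) :
    HasTower (⇑f ∣[k] (mapGL ℝ g)) := by
  obtain ⟨M, hM, hper⟩ := Subgroup.IsArithmetic.exists_nat_mem_strictPeriods_conj
    ((CongruenceSubgroup.Gamma0 N).map (mapGL ℝ))
  have hM' : (0 : ℝ) < M := by exact_mod_cast hM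
  have h1 := hper g⁻¹
  rw [map_inv] at h1
  let F := CuspForm.translate f (mapGL ℝ g)
  have hF : ⇑F = ⇑f ∣[k] (mapGL ℝ g) := rfl
  rw [← hF]
  refine exists_isTower hM' (SlashInvariantFormClass.periodic_comp_ofComplex F h1)
    (CuspFormClass.holo F) ?_
  rw [hF]
  exact CuspFormClass.zero_at_infty_slash f g

end Fermat.Agent.S22.H262

end
-- ===== PACK-END S22/H262/Nice.lean

-- ===== PACK-BEGIN S24/Deg/H457_Main.lean
section


/-!
# S24 / DEG-ALG (helper457), part 4: the degree bound for `FF N / Kbar(jF N)`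

`finiteDimensional_and_finrank_le`: from the interface hypothesis `Hyp ℂ N n` (relations over `ℂ`)
we get `FiniteDimensional Kbar⟮jF N⟯ (FF N)` and `finrank ≤ n`.
-/

set_option autoImplicit false

noncomputable section

open Polynomial ModularCurve IntermediateField

namespace Fermat.Agent.S24.Deg457

/-- Lemma X: a bivariate relation gives integrality + degree bound over an intermediate field. -/
theorem isIntegral_and_natDegree_le_of_relation {K M E : Type*} [Field K] [Field M] [Field E]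
    [Algebra K M] [Algebra M E] [Algebra K E] [IsScalarTower K M E] (j : M)
    (hj : ∀ t : K[X], t ≠ 0 → aeval j t ≠ 0) (x : E) (Q : K[X][X]) (hQ0 : Q ≠ 0) (n : ℕ)
    (hQn : Q.natDegree ≤ n)
    (hQ : Q.eval₂ ((aeval (algebraMap M E j) : K[X] →ₐ[K] E).toRingHom) x = 0) :
    IsIntegral M x ∧ (minpoly M x).natDegree ≤ n := by
  set φ : K[X] →+* M := (aeval j : K[X] →ₐ[K] M).toRingHom with hφ
  have hφinj : Function.Injective φ := by
    rw [injective_iff_map_eq_zero]
    intro t ht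
    by_contra h0
    exact hj t h0 ht
  have hp0 : Q.map φ ≠ 0 := by
    rw [Ne, Polynomial.map_eq_zero_iff hφinj]
    exact hQ0
  have hcomp : (algebraMap M E).comp φ = (aeval (algebraMap M E j) : K[X] →ₐ[K] E).toRingHom := by
    refine Polynomial.ringHom_ext ?_ ?_
    · intro c
      simp [hφ, ← IsScalarTower.algebraMap_apply]
    · simp [hφ]
  have hroot : aeval x (Q.map φ) = 0 := by
    rw [aeval_def, eval₂_map, hcomp]
    exact hQ
  have hint : IsIntegral M x := (IsAlgebraic.isIntegral ⟨Q.map φ, hp0, hroot⟩)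
  refine ⟨hint, ?_⟩
  have h1 := minpoly.degree_le_of_ne_zero M x hp0 hroot
  have h2 := natDegree_le_natDegree h1
  exact h2.trans ((natDegree_map_le).trans hQn)

/-- an embedding `ℚ̄ → ℂ` -/
def iotaC : Kbar →+* ℂ := by
  haveI : Algebra.IsAlgebraic ℚ (AlgebraicClosure ℚ) := AlgebraicClosure.isAlgebraic ℚ
  exact ((IsAlgClosed.lift : AlgebraicClosure ℚ →ₐ[ℚ] ℂ) : AlgebraicClosure ℚ →+* ℂ)

variable (N : ℕ) [NeZero N]

theorem coe_jF : ((jF N : FF N) : LaurentSeries Kbar) = JK Kbar := rfl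

/-- **Degree bound** (DEG-ALG): from the analytic interface hypothesis over `ℂ`. -/
theorem finiteDimensional_and_finrank_le (n : ℕ) (hyp : Hyp ℂ N n) :
    FiniteDimensional ↥(IntermediateField.adjoin Kbar {jF N}) (FF N) ∧
      Module.finrank ↥(IntermediateField.adjoin Kbar {jF N}) (FF N) ≤ n := by
  refine finiteDimensional_and_finrank_le_of_forall_natDegree_minpoly_le n fun x => ?_
  obtain ⟨Q, hQ0, hQn, hQ⟩ := algDeg_of_mem_field iotaC hyp x.2
  have hinc : Function.Injective (algebraMap (FF N) (LaurentSeries Kbar)) :=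
    (algebraMap (FF N) (LaurentSeries Kbar)).injective
  refine isIntegral_and_natDegree_le_of_relation (K := Kbar)
    (AdjoinSimple.gen Kbar (jF N)) ?_ x Q hQ0 n hQn ?_
  · intro t ht h0
    apply aeval_JK_ne_zero Kbar ht
    have h1 := congrArg (algebraMap ↥(IntermediateField.adjoin Kbar {jF N}) (FF N)) h0
    rw [← aeval_algebraMap_apply, map_zero, AdjoinSimple.algebraMap_gen] at h1
    have h2 := congrArg (algebraMap (FF N) (LaurentSeries Kbar)) h1
    rw [← aeval_algebraMap_apply, map_zero] at h2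
    exact h2
  · apply hinc
    rw [map_zero, Polynomial.hom_eval₂, AdjoinSimple.algebraMap_gen]
    have hcomp : (algebraMap (FF N) (LaurentSeries Kbar)).comp
        ((aeval (jF N) : Kbar[X] →ₐ[Kbar] FF N).toRingHom) = evJ (JK Kbar) := by
      refine Polynomial.ringHom_ext ?_ ?_
      · intro c
        simp [evJ, ← IsScalarTower.algebraMap_apply]
      · simp [evJ]
        rfl
    rw [hcomp]
    exact hQ

end Fermat.Agent.S24.Deg457

end
end
-- ===== PACK-END S24/Deg/H457_Main.lean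

-- ===== PACK-BEGIN S24/Deg/H648D5.lean
section


/-!
# S24 / M6-AN (helper648): the polynomiality principle (D5) in `ExpGrowth` form

A holomorphic `SL₂(ℤ)`-invariant function on `ℍ` of at most exponential growth at `i∞` is a
polynomial in `j = E₄³/Δ`.  (The function-level induction follows helper505's
`levelOne_structure`, re-proved here from Mathlib only.)
-/

set_option autoImplicit false

noncomputable section

open UpperHalfPlane ModularGroup CongruenceSubgroup ModularForm Filter Asymptotics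
  SlashInvariantForm SlashInvariantFormClass ModularFormClass CuspFormClass
open scoped MatrixGroups Manifold Modular Real

namespace Fermat.Agent.S24.H648

/-- `E₄ ^ n` as a modular form of weight `k = 4 n`. -/
def E4pow (n : ℕ) (k : ℤ) (hk : (n : ℤ) * 4 = k) : ModularForm 𝒮ℒ k :=
  ModularForm.mcast hk (E₄.pow n)

theorem E4pow_apply (n : ℕ) (k : ℤ) (hk : (n : ℤ) * 4 = k) (z : ℍ) :
    E4pow n k hk z = E₄ z ^ n := by
  simp [E4pow]

theorem qExpansion_E4pow_coeff_zero (n : ℕ) (k : ℤ) (hk : (n : ℤ) * 4 = k) :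
    (qExpansion 1 (E4pow n k hk)).coeff 0 = 1 := by
  have h4 : (qExpansion 1 E₄).coeff 0 = 1 := EisensteinSeries.E_qExpansion_coeff_zero (by norm_num) (by decide)
  rw [E4pow, ModularForm.qExpansion_mcast,
    ModularForm.qExpansion_pow one_pos one_mem_strictPeriods_SL,
    PowerSeries.coeff_zero_eq_constantCoeff, map_pow, ← PowerSeries.coeff_zero_eq_constantCoeff,
    h4, one_pow]

/-- Level one structure theorem, function level: a modular form of weight `12 m` is
`Δ^m · P(j)` with `deg P ≤ m`. -/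
theorem levelOne_poly (m : ℕ) : ∀ (k : ℤ) (_ : k = 12 * m) (F : ModularForm 𝒮ℒ k),
    ∃ P : Polynomial ℂ, P.natDegree ≤ m ∧
      ∀ z : ℍ, F z = ModularForm.discriminant z ^ m * P.eval (jFun z) := by
  induction m with
  | zero =>
    intro k hk F
    simp only [Nat.cast_zero, mul_zero] at hk
    subst hk
    obtain ⟨c, hc⟩ := levelOne_weight_zero_const F
    exact ⟨Polynomial.C c, by simp, fun z => by simp [hc]⟩
  | succ m ih =>
    intro k hk F
    set c₀ : ℂ := (qExpansion 1 F).coeff 0 with hc₀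
    have hk4 : ((3 * (m + 1) : ℕ) : ℤ) * 4 = k := by rw [hk]; push_cast; ring
    set G : ModularForm 𝒮ℒ k := F - c₀ • E4pow (3 * (m + 1)) k hk4 with hG
    have hGq : qExpansion 1 G
        = qExpansion 1 F - c₀ • qExpansion 1 (E4pow (3 * (m + 1)) k hk4) := by
      have h1 : (G : ℍ → ℂ) = ⇑F - ⇑(c₀ • E4pow (3 * (m + 1)) k hk4) := rfl
      rw [h1, ModularForm.qExpansion_sub one_pos one_mem_strictPeriods_SL]
      have h2 : (⇑(c₀ • E4pow (3 * (m + 1)) k hk4) : ℍ → ℂ)
          = c₀ • ⇑(E4pow (3 * (m + 1)) k hk4) := rfl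
      rw [h2, ModularForm.qExpansion_smul one_pos one_mem_strictPeriods_SL]
    have hG0 : (qExpansion 1 G).coeff 0 = 0 := by
      rw [hGq, map_sub, PowerSeries.coeff_smul, qExpansion_E4pow_coeff_zero]
      simp [hc₀]
    set H : ModularForm 𝒮ℒ (k - 12) := CuspForm.discriminantEquiv (G.toCuspForm hG0) with hH
    obtain ⟨P, hPdeg, hPval⟩ := ih (k - 12) (by rw [hk]; push_cast; ring) H
    have hGH : ∀ z, G z = ModularForm.discriminant z * H z := fun z => by
      rw [hH, discriminant_mul_discriminantEquiv_apply]; rfl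
    have hFG : ∀ z, F z = c₀ * E₄ z ^ (3 * (m + 1)) + G z := fun z => by
      have : G z = F z - c₀ * E4pow (3 * (m + 1)) k hk4 z := rfl
      rw [this, E4pow_apply]; ring
    refine ⟨Polynomial.C c₀ * Polynomial.X ^ (m + 1) + P, ?_, ?_⟩
    · refine (Polynomial.natDegree_add_le _ _).trans (max_le ?_ (hPdeg.trans (Nat.le_succ m)))
      exact Polynomial.natDegree_C_mul_X_pow_le _ _
    · intro z
      rw [hFG, hGH, hPval, Polynomial.eval_add, Polynomial.eval_mul, Polynomial.eval_C,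
        Polynomial.eval_pow, Polynomial.eval_X, jFun_def]
      have hΔ := discriminant_ne_zero z
      have hJ : ModularForm.discriminant z * (E₄ z ^ 3 / ModularForm.discriminant z) = E₄ z ^ 3 :=
        mul_div_cancel₀ _ hΔ
      have : ModularForm.discriminant z ^ (m + 1) *
          (c₀ * (E₄ z ^ 3 / ModularForm.discriminant z) ^ (m + 1) +
            Polynomial.eval (E₄ z ^ 3 / ModularForm.discriminant z) P) =
          c₀ * (ModularForm.discriminant z * (E₄ z ^ 3 / ModularForm.discriminant z)) ^ (m + 1) +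
          ModularForm.discriminant z * (ModularForm.discriminant z ^ m *
            Polynomial.eval (E₄ z ^ 3 / ModularForm.discriminant z) P) := by ring
      rw [this, hJ, pow_mul]


lemma discriminant_smul (γ : SL(2, ℤ)) (τ : ℍ) :
    ModularForm.discriminant (γ • τ) = denom γ τ ^ (12 : ℤ) * ModularForm.discriminant τ := by
  have : SlashInvariantFormClass (CuspForm 𝒮ℒ 12) Γ(1) 12 :=
    Gamma_one_coe_eq_SL ▸ inferInstance
  exact SlashInvariantForm.slash_action_eqn_SL'' CuspForm.discriminant (mem_Gamma_one γ) τ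

lemma discriminant_pow_mul_slash (m : ℕ) (F : ℍ → ℂ)
    (inv : ∀ (γ : SL(2, ℤ)) (τ : ℍ), F (γ • τ) = F τ) (γ : SL(2, ℤ)) :
    (fun z => ModularForm.discriminant z ^ m * F z) ∣[(12 * m : ℤ)] γ
      = fun z => ModularForm.discriminant z ^ m * F z := by
  funext z
  rw [ModularForm.SL_slash_apply]
  rw [inv, discriminant_smul, mul_pow, ← zpow_natCast (denom γ z ^ (12 : ℤ)) m, ← zpow_mul]
  have hd : denom γ z ≠ 0 := denom_ne_zero _ z
  have : denom γ z ^ ((12 : ℤ) * m) * ModularForm.discriminant z ^ m * F z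
      * denom γ z ^ (-(12 * (m : ℤ)))
      = (denom γ z ^ ((12 : ℤ) * m) * denom γ z ^ (-(12 * (m : ℤ))))
        * (ModularForm.discriminant z ^ m * F z) := by ring
  rw [this, ← zpow_add₀ hd]
  simp

/-- `Δ^m · F` as a modular form of weight `12 m`. -/
def mfOfInvariant (m : ℕ) (F : ℍ → ℂ) (hol : MDifferentiable 𝓘(ℂ) 𝓘(ℂ) F)
    (inv : ∀ (γ : SL(2, ℤ)) (τ : ℍ), F (γ • τ) = F τ)
    (bdd : IsBoundedAtImInfty (fun z => ModularForm.discriminant z ^ m * F z)) :
    ModularForm 𝒮ℒ (12 * m) where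
  toFun := fun z => ModularForm.discriminant z ^ m * F z
  slash_action_eq' := fun _ ⟨γ, hγ⟩ => hγ ▸ discriminant_pow_mul_slash m F inv γ
  holo' := by
    have hΔ : MDifferentiable 𝓘(ℂ) 𝓘(ℂ) (ModularForm.discriminant : ℍ → ℂ) :=
      ModularFormClass.holo CuspForm.discriminant
    exact (hΔ.pow m).mul hol
  bdd_at_cusps' {c} hc := by
    rw [Subgroup.IsArithmetic.isCusp_iff_isCusp_SL2Z] at hc
    rw [OnePoint.isBoundedAt_iff_forall_SL2Z hc]
    intro γ _
    rw [discriminant_pow_mul_slash m F inv γ]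
    exact bdd

lemma mfOfInvariant_apply (m : ℕ) (F : ℍ → ℂ) (hol : MDifferentiable 𝓘(ℂ) 𝓘(ℂ) F)
    (inv : ∀ (γ : SL(2, ℤ)) (τ : ℍ), F (γ • τ) = F τ)
    (bdd : IsBoundedAtImInfty (fun z => ModularForm.discriminant z ^ m * F z)) (z : ℍ) :
    mfOfInvariant m F hol inv bdd z = ModularForm.discriminant z ^ m * F z := rfl

/-- Polynomiality principle, `IsBoundedAtImInfty` form. -/
theorem exists_polynomial_of_isBoundedAtImInfty (m : ℕ) (F : ℍ → ℂ)
    (hol : MDifferentiable 𝓘(ℂ) 𝓘(ℂ) F)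
    (inv : ∀ (γ : SL(2, ℤ)) (τ : ℍ), F (γ • τ) = F τ)
    (bdd : IsBoundedAtImInfty (fun z => ModularForm.discriminant z ^ m * F z)) :
    ∃ p : Polynomial ℂ, p.natDegree ≤ m ∧ ∀ τ, F τ = p.eval (jFun τ) := by
  obtain ⟨P, hdeg, hP⟩ := levelOne_poly m (12 * m) rfl (mfOfInvariant m F hol inv bdd)
  refine ⟨P, hdeg, fun τ => ?_⟩
  have h := hP τ
  rw [mfOfInvariant_apply] at h
  exact mul_left_cancel₀ (pow_ne_zero m (discriminant_ne_zero τ)) h

lemma ExpGrowth.isBigO {F : ℍ → ℂ} {C : ℝ} {m : ℕ}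
    (h : ∀ τ : ℍ, 1 ≤ τ.im → ‖F τ‖ ≤ C * Real.exp (2 * π * m * τ.im)) :
    F =O[atImInfty] fun τ : ℍ => Real.exp (2 * π * m * τ.im) := by
  refine IsBigO.of_bound C ?_
  rw [atImInfty, eventually_comap, eventually_atTop]
  refine ⟨1, fun y hy τ hτ => ?_⟩
  rw [Real.norm_of_nonneg (Real.exp_pos _).le]
  exact h τ (hτ ▸ hy)

/-- **Polynomiality principle (D5), `ExpGrowth` form.** -/
theorem exists_polynomial_of_expGrowth (F : ℍ → ℂ)
    (hol : MDifferentiable 𝓘(ℂ) 𝓘(ℂ) F)
    (inv : ∀ (γ : SL(2, ℤ)) (τ : ℍ), F (γ • τ) = F τ) (gr : ExpGrowth F) :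
    ∃ p : Polynomial ℂ, ∀ τ, F τ = p.eval (jFun τ) := by
  obtain ⟨C, m, h⟩ := gr
  have hF := ExpGrowth.isBigO h
  have hΔ : (ModularForm.discriminant : ℍ → ℂ)
      =O[atImInfty] fun τ : ℍ => Real.exp (-2 * π * τ.im / 1) :=
    CuspFormClass.exp_decay_atImInfty CuspForm.discriminant one_pos one_mem_strictPeriods_SL
  have hprod := (hΔ.pow m).mul hF
  have bdd : IsBoundedAtImInfty (fun z => ModularForm.discriminant z ^ m * F z) := by
    refine hprod.congr_right fun τ => ?_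
    rw [← Real.exp_nat_mul, ← Real.exp_add]
    have : (m : ℝ) * (-2 * π * τ.im / 1) + 2 * π * m * τ.im = 0 := by ring
    rw [this, Real.exp_zero]
    rfl
  obtain ⟨p, -, hp⟩ := exists_polynomial_of_isBoundedAtImInfty m F hol inv bdd
  exact ⟨p, hp⟩

section final

variable {N : ℕ} [Fintype (SL(2, ℤ) ⧸ Gamma0 N)]

/-- **M6-AN, unconditional.**  For every good function `f` of level `N` the conjugate product
`∏ₓ (Y - f ∘ gₓ⁻¹)` has coefficients in `ℂ[j]`. -/
theorem exists_charPoly_jFun {f : ℍ → ℂ} (hf : f ∈ goodRing N) :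
    ∃ P : Polynomial (Polynomial ℂ), P.Monic ∧
      P.natDegree = Fintype.card (SL(2, ℤ) ⧸ Gamma0 N) ∧
      ∀ τ : ℍ, P.map (Polynomial.evalRingHom (jFun τ)) = charPolyAt N f τ :=
  exists_charPoly jFun exists_polynomial_of_expGrowth hf

/-- **Function-level `HYP(n)`, unconditional.** -/
theorem exists_charPoly_jFun_eval_eq_zero {f : ℍ → ℂ} (hf : f ∈ goodRing N) :
    ∃ P : Polynomial (Polynomial ℂ), P.Monic ∧
      P.natDegree = Fintype.card (SL(2, ℤ) ⧸ Gamma0 N) ∧
      ∀ τ : ℍ, (P.map (Polynomial.evalRingHom (jFun τ))).eval (f τ) = 0 :=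
  exists_charPoly_eval_eq_zero jFun exists_polynomial_of_expGrowth hf

end final

end Fermat.Agent.S24.H648

end
end
-- ===== PACK-END S24/Deg/H648D5.lean

-- ===== PACK-BEGIN S24/FFSum.lean
section





/-!
# S24 / FF layer: zeros of a coordinate function, `∑ ord_v(t) = [F : K(t)]`

Bridge between the Prelude's `Place K F` and the primes of the integral closure of `K[t]`
in `F`, and the fundamental identity.  (helper804)
-/

set_option autoImplicit false

namespace Fermat.Agent.S24.FF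

open AlgebraicCurve Polynomial IntermediateField IsDedekindDomain

open scoped IntermediateField.algebraAdjoinAdjoin

variable {K F : Type*} [Field K] [Field F] [Algebra K F]

variable (K) in
/-- `K[t] ⊆ F`. -/
abbrev coordRing (t : F) : Subalgebra K F := Algebra.adjoin K {t}

variable (K) in
/-- The integral closure of `K[t]` in `F`. -/
abbrev intRing (t : F) : Subalgebra (coordRing K t) F := integralClosure (coordRing K t) F

variable (K) in
/-- `t` is a coordinate function on the curve with function field `F`: transcendental over `K`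
with `F` finite over `K(t)`. -/
class IsCoord (t : F) : Prop where
  transcendental : Transcendental K t
  finite : FiniteDimensional K⟮t⟯ F

variable {t : F}

instance instFiniteOfIsCoord [h : IsCoord K t] : FiniteDimensional K⟮t⟯ F := h.finite

instance instPIDCoordRing [h : IsCoord K t] : IsPrincipalIdealRing (coordRing K t) :=
  IsPrincipalIdealRing.of_surjective
    (algEquivOfTranscendental K t h.transcendental : K[X] →+* coordRing K t)
    (algEquivOfTranscendental K t h.transcendental).surjective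

instance instDedekindIntRing [CharZero K] [IsCoord K t] : IsDedekindDomain (intRing K t) :=
  integralClosure.isDedekindDomain (coordRing K t) K⟮t⟯ F

instance instFractionIntRing [IsCoord K t] : IsFractionRing (intRing K t) F :=
  integralClosure.isFractionRing_of_finite_extension K⟮t⟯ F

instance instFiniteIntRing [CharZero K] [IsCoord K t] :
    Module.Finite (coordRing K t) (intRing K t) :=
  IsIntegralClosure.finite (coordRing K t) K⟮t⟯ F (intRing K t)

/-- Any transcendental element is a coordinate as soon as one coordinate exists. -/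
theorem IsCoord.of_transcendental {x : F} [hx : IsCoord K x] {y : F} (hy : Transcendental K y) :
    IsCoord K y :=
  ⟨hy, finiteDimensional_adjoin_of_transcendental hx.transcendental hy⟩

section placeOfPrime

variable [CharZero K] [IsCoord K t]

variable (K t) in
/-- The place attached to a nonzero prime of the integral closure of `K[t]`. -/
noncomputable def placeOfPrime (q : HeightOneSpectrum (intRing K t)) : Place K F :=
  Place.ofHeightOneSpectrum (K := K) q

theorem placeOfPrime_toValuationSubring (q : HeightOneSpectrum (intRing K t)) :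
    (placeOfPrime K t q).toValuationSubring = (q.valuation F).valuationSubring := rfl

theorem ord_placeOfPrime (q : HeightOneSpectrum (intRing K t)) (f : F) :
    (placeOfPrime K t q).ord f = -WithZero.log (q.valuation F f) := by
  rcases eq_or_ne f 0 with rfl | hf
  · simp
  obtain ⟨π, hπ⟩ := q.valuation_exists_uniformizer F
  have hπ0 : π ≠ 0 := by
    rintro rfl
    rw [map_zero] at hπ
    exact WithZero.exp_ne_zero hπ.symm
  symm
  refine ordLike_eq_ord (fun f => -WithZero.log (q.valuation F f)) ?_ (placeOfPrime K t q) ?_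
    hπ0 ?_ hf
  · intro f g hf hg
    simp only [map_mul]
    rw [WithZero.log_mul ((Valuation.ne_zero_iff _).mpr hf) ((Valuation.ne_zero_iff _).mpr hg)]
    ring
  · intro f hf
    rw [placeOfPrime_toValuationSubring, Valuation.mem_valuationSubring_iff,
      neg_nonneg, WithZero.log_le_iff_le_exp ((Valuation.ne_zero_iff _).mpr hf)]
    simp
  · simp [hπ]

end placeOfPrime

end Fermat.Agent.S24.FF

end
-- ===== PACK-END S24/FFSum.lean

-- ===== PACK-BEGIN S37/H99/Formal.lean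
section



/-!
# S37 (helper99): formal reduction R1

`SpecializationExists N p J` follows from the existence, for every prime `ℓ ∤ N * p` and every
valuation subring `A` over `ℓ`, of an additive "reduction map" `red : J →+ Y` (into ANY additive
group, no Hecke structure on `Y`) with four pointwise properties.  The quotient `J'`, the map `sp`
and the Frobenius `F` of `IsSpecialization` are then constructed formally.
-/

set_option autoImplicit false

noncomputable section

namespace Fermat.Agent.S37.H99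

open ModularCurve ValuationSubring

section Abstract

variable {K L : Type*} [Field K] [Field L] [Algebra K L]
variable (p : ℕ) (J : Type) [AddCommGroup J] [Module HeckeAlg J]
  [DistribMulAction (L ≃ₐ[K] L) J] [SMulCommClass (L ≃ₐ[K] L) HeckeAlg J]

/-- The four pointwise properties of a reduction map at `(A, ℓ)`. -/
structure IsRed (A : ValuationSubring L) (ℓ : ℕ) (hℓ : ℓ.Prime) {Y : Type*} [AddCommGroup Y]
    (red : J →+ Y) : Prop where
  inertia : ∀ τ ∈ A.inertiaSubgroupIn K, ∀ x : J, red (τ • x) = red x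
  frob_ker : ∀ σ : L ≃ₐ[K] L, A.IsFrobeniusAt σ ℓ → ∀ x : J, red x = 0 → red (σ • x) = 0
  inj_torsion : ∀ x : J, (∃ n : ℕ, p ^ n • x = 0) → red x = 0 → x = 0
  relation : ∀ σ : L ≃ₐ[K] L, A.IsFrobeniusAt σ ℓ → ∀ x : J,
    red (σ • σ • x - heckeGen ⟨ℓ, hℓ⟩ • (σ • x) + ℓ • x) = 0

variable {p J}

/-- The largest Hecke submodule contained in the kernel of `red`. -/
def redKer {Y : Type*} [AddCommGroup Y] (red : J →+ Y) : Submodule HeckeAlg J where
  carrier := {x | ∀ t : HeckeAlg, red (t • x) = 0}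
  zero_mem' := fun t => by simp
  add_mem' := by
    intro x y hx hy t
    rw [smul_add, map_add, hx t, hy t, add_zero]
  smul_mem' := by
    intro c x hx t
    rw [← mul_smul]
    exact hx (t * c)

theorem mem_redKer {Y : Type*} [AddCommGroup Y] (red : J →+ Y) (x : J) :
    x ∈ redKer red ↔ ∀ t : HeckeAlg, red (t • x) = 0 := Iff.rfl

/-- two Frobenius elements at `A` differ by inertia -/
theorem inv_mul_mem_inertiaSubgroupIn {A : ValuationSubring L} {ℓ : ℕ} {σ₀ σ : L ≃ₐ[K] L}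
    (h₀ : A.IsFrobeniusAt σ₀ ℓ) (h : A.IsFrobeniusAt σ ℓ) :
    σ₀⁻¹ * σ ∈ A.inertiaSubgroupIn K := by
  have hσ₀ := h₀.mem_decompositionSubgroup
  have hσ := h.mem_decompositionSubgroup
  let d₀ : A.decompositionSubgroup K := ⟨σ₀, hσ₀⟩
  let d : A.decompositionSubgroup K := ⟨σ, hσ⟩
  refine ⟨d₀⁻¹ * d, ?_, rfl⟩
  refine MonoidHom.mem_ker.mpr ?_
  ext x
  show (d₀⁻¹ * d) • x = x
  rw [mul_smul]
  have h1 : d • x = x ^ ℓ := h.smul_residue_eq x
  have h2 : d₀ • x = x ^ ℓ := h₀.smul_residue_eq x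
  rw [h1, ← h2, inv_smul_smul]

variable (p) in
/-- **R1 at one place.** -/
theorem exists_specialization_of_isRed (A : ValuationSubring L) (ℓ : ℕ) (hℓ : ℓ.Prime)
    (hfrob : ∃ σ₀ : L ≃ₐ[K] L, A.IsFrobeniusAt σ₀ ℓ)
    {Y : Type*} [AddCommGroup Y] (red : J →+ Y) (hred : IsRed (K := K) p J A ℓ hℓ red) :
    ∃ (J' : Type) (_ : AddCommGroup J') (_ : Module HeckeAlg J') (sp : J →+ J')
      (F : J' →+ J'),
      IsSpecialization (K := K) p J J' A ℓ sp F ∧ SpecialFibreRelation J' ℓ hℓ F := by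
  obtain ⟨σ₀, hσ₀⟩ := hfrob
  let M : Submodule HeckeAlg J := redKer red
  -- commutation of Galois with Hecke
  have hcomm : ∀ (g : L ≃ₐ[K] L) (t : HeckeAlg) (x : J), t • (g • x) = g • (t • x) :=
    fun g t x => (smul_comm g t x).symm
  -- Frobenius elements preserve `M`
  have hFM : ∀ σ : L ≃ₐ[K] L, A.IsFrobeniusAt σ ℓ → ∀ x ∈ M, σ • x ∈ M := by
    intro σ hσ x hx t
    rw [hcomm]
    exact hred.frob_ker σ hσ _ (hx t)
  -- inertia acts trivially modulo `M`
  have hIM : ∀ τ ∈ A.inertiaSubgroupIn K, ∀ x : J, τ • x - x ∈ M := by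
    intro τ hτ x t
    rw [smul_sub, map_sub, hcomm, hred.inertia τ hτ, sub_self]
  -- the additive endomorphism `x ↦ σ₀ • x` of `J`
  let φ : J →+ J := DistribSMul.toAddMonoidHom J σ₀
  have hφ : ∀ x, φ x = σ₀ • x := fun _ => rfl
  -- the induced map on the quotient
  let F : (J ⧸ M) →+ (J ⧸ M) :=
    QuotientAddGroup.map M.toAddSubgroup M.toAddSubgroup φ (by
      intro x hx
      exact hFM σ₀ hσ₀ x hx)
  have hF : ∀ x : J, F (Submodule.Quotient.mk x) = Submodule.Quotient.mk (σ₀ • x) := fun _ => rfl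
  let sp : J →+ (J ⧸ M) := (Submodule.mkQ M).toAddMonoidHom
  have hsp : ∀ x : J, sp x = Submodule.Quotient.mk x := fun _ => rfl
  refine ⟨J ⧸ M, inferInstance, inferInstance, sp, F, ⟨?_, ?_, ?_, ?_⟩, ?_⟩
  · -- hecke_comm
    intro T x
    rfl
  · -- inertia_comm
    intro τ hτ x
    rw [hsp, hsp, Submodule.Quotient.eq]
    exact hIM τ hτ x
  · -- frobenius_comm
    intro σ hσ x
    rw [hsp, hsp, hF, Submodule.Quotient.eq]
    have hτ := inv_mul_mem_inertiaSubgroupIn hσ₀ hσ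
    have h1 : σ • x - σ₀ • x = σ₀ • ((σ₀⁻¹ * σ) • x - x) := by
      rw [smul_sub, ← mul_smul, mul_inv_cancel_left]
    rw [h1]
    exact hFM σ₀ hσ₀ _ (hIM _ hτ x)
  · -- injective_torsion
    intro x hx hx0
    rw [hsp, Submodule.Quotient.mk_eq_zero] at hx0
    have := hx0 1
    rw [one_smul] at this
    exact hred.inj_torsion x hx this
  · -- special fibre relation
    intro y
    obtain ⟨x, rfl⟩ := Submodule.Quotient.mk_surjective M y
    rw [hF, hF]
    have h2 : (Submodule.Quotient.mk (σ₀ • σ₀ • x) : J ⧸ M)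
        - heckeGen ⟨ℓ, hℓ⟩ • (Submodule.Quotient.mk (σ₀ • x) : J ⧸ M)
        + ℓ • (Submodule.Quotient.mk x : J ⧸ M)
        = Submodule.Quotient.mk (σ₀ • σ₀ • x - heckeGen ⟨ℓ, hℓ⟩ • (σ₀ • x) + ℓ • x) := by
      rfl
    rw [h2, Submodule.Quotient.mk_eq_zero]
    intro t
    have h3 : t • (σ₀ • σ₀ • x - heckeGen ⟨ℓ, hℓ⟩ • (σ₀ • x) + ℓ • x)
        = σ₀ • σ₀ • (t • x) - heckeGen ⟨ℓ, hℓ⟩ • (σ₀ • (t • x)) + ℓ • (t • x) := by
      rw [smul_add, smul_sub, hcomm, hcomm, smul_comm t (heckeGen ⟨ℓ, hℓ⟩), hcomm,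
        smul_comm t ℓ]
    rw [h3]
    exact hred.relation σ₀ hσ₀ (t • x)

end Abstract

section Rat

variable (N p : ℕ) (J : Type) [AddCommGroup J] [Module HeckeAlg J]
  [DistribMulAction (AlgebraicClosure ℚ ≃ₐ[ℚ] AlgebraicClosure ℚ) J]
  [SMulCommClass (AlgebraicClosure ℚ ≃ₐ[ℚ] AlgebraicClosure ℚ) HeckeAlg J]

/-- **R1.**  Over `ℚ`, `SpecializationExists` follows from the existence of reduction maps. -/
theorem specializationExists_of_isRed
    (H : ∀ ℓ : ℕ, (hℓ : ℓ.Prime) → ¬ ℓ ∣ N * p →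
      ∀ A : ValuationSubring (AlgebraicClosure ℚ), A.LiesOverPrime ℓ →
        ∃ (Y : Type) (_ : AddCommGroup Y) (red : J →+ Y),
          IsRed (K := ℚ) p J A ℓ hℓ red) :
    SpecializationExists (K := ℚ) (L := AlgebraicClosure ℚ) N p J := by
  intro ℓ hℓ hdvd A hA
  obtain ⟨Y, _, red, hred⟩ := H ℓ hℓ hdvd A hA
  exact exists_specialization_of_isRed p A ℓ hℓ (exists_isFrobeniusAt ℓ hℓ A hA) red hred

end Rat

end Fermat.Agent.S37.H99

end
end
-- ===== PACK-END S37/H99/Formal.lean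

-- ===== PACK-BEGIN A2/H609/Chain.lean
section


/-!
# Node purity, part 4: `ℓ(R/((u)+(π))) = m • ℓ(R/(I_1+(π)))`

Mathlib only.  See `Multiplicity.lean` for the setting.
-/

set_option autoImplicit false

namespace Fermat.Agent.A2.H609

open Ideal

variable {R : Type*} [CommRing R] [IsDomain R] [IsIntegrallyClosed R]

section Generator

variable {u π t r : R} {m : ℕ} {hm : m ≠ 0}

/-- (d) `t ^ j * g ∈ I_{j+1} → g ∈ I_1` when `t ^ m = u * r` and `r` is regular modulo `u`. -/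
theorem mem_rootIdeal_one_of_pow_mul_mem (hu0 : u ≠ 0) (hπ0 : π ≠ 0)
    (hreg : ∀ x : R, π ∣ u * x → π ∣ x) (ht : t ^ m = u * r)
    {k : ℕ} (hk : π ^ k ∈ Ideal.span {u, r}) {j : ℕ} {g : R}
    (h : t ^ j * g ∈ rootIdeal u m hm (j + 1)) : g ∈ rootIdeal u m hm 1 := by
  rw [mem_rootIdeal] at h ⊢
  rw [pow_one]
  have h1 : (t ^ j * g) ^ m = u ^ j * (r ^ j * g ^ m) := by
    rw [mul_pow, ← pow_mul, mul_comm j m, pow_mul, ht, mul_pow]; ring
  rw [h1, pow_succ] at h
  have h2 : u ∣ r ^ j * g ^ m := (mul_dvd_mul_iff_left (pow_ne_zero j hu0)).mp h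
  exact dvd_of_dvd_pow_mul_of_pow_mem hπ0 hreg hk j h2

/-- (e') `r ^ j * I_j ⊆ (t ^ j)`. -/
theorem pow_dvd_pow_mul_of_mem_rootIdeal (ht : t ^ m = u * r) {j : ℕ} {g : R}
    (hg : g ∈ rootIdeal u m hm j) : t ^ j ∣ r ^ j * g := by
  rw [mem_rootIdeal] at hg
  obtain ⟨x, hx⟩ := hg
  apply dvd_of_pow_dvd_pow hm
  have h1 : (t ^ j) ^ m = u ^ j * r ^ j := by
    rw [← pow_mul, mul_comm j m, pow_mul, ht, mul_pow]
  have h2 : (r ^ j * g) ^ m = (u ^ j * r ^ j) * ((r ^ j) ^ (m - 1) * x) := by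
    rw [mul_pow, hx]
    have : (r ^ j) ^ m = r ^ j * (r ^ j) ^ (m - 1) := by
      rw [← pow_succ', Nat.sub_add_cancel (Nat.one_le_iff_ne_zero.mpr hm)]
    rw [this]; ring
  rw [h1, h2]
  exact Dvd.intro _ rfl

theorem pow_mem_rootIdeal_of_pow_eq (ht : t ^ m = u * r) (j : ℕ) :
    t ^ j ∈ rootIdeal u m hm j := by
  apply pow_mem_rootIdeal
  rw [mem_rootIdeal, pow_one, ht]
  exact Dvd.intro _ rfl

end Generator

section Chain

variable [IsNoetherianRing R]
variable {u π t r : R} {m : ℕ} {hm : m ≠ 0}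

/-- (e) finiteness of `ℓ(I_j / ((t^j) + I_{j+1}))`. -/
theorem relLen_span_sup_rootIdeal_ne_top
    (ht : t ^ m = u * r) {k : ℕ} (hk : π ^ k ∈ Ideal.span {u, r})
    (hfin : relLen (Ideal.span {u, π}) (⊤ : Ideal R) ≠ ⊤) (j : ℕ) :
    relLen (Ideal.span {t ^ j} ⊔ rootIdeal u m hm (j + 1)) (rootIdeal u m hm j) ≠ ⊤ := by
  set A := rootIdeal u m hm j with hA
  set A' := Ideal.span {t ^ j} ⊔ rootIdeal u m hm (j + 1) with hA'
  set 𝔞 : Ideal R := Ideal.span {u, r ^ j} with h𝔞
  have hA'A : A' ≤ A := by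
    refine sup_le ?_ (rootIdeal_antitone u m hm (Nat.le_succ j))
    rw [Ideal.span_le, Set.singleton_subset_iff]
    exact pow_mem_rootIdeal_of_pow_eq ht j
  have h𝔞A : 𝔞 * A ≤ A' := by
    rw [Ideal.mul_le]
    intro a ha g hg
    obtain ⟨c, d, rfl⟩ := Ideal.mem_span_pair.mp ha
    rw [add_mul]
    refine Ideal.add_mem _ ?_ ?_
    · refine Submodule.mem_sup_right ?_
      have : c * u * g = c * (u * g) := by ring
      rw [this]
      exact Ideal.mul_mem_left _ _ (self_mul_mem_rootIdeal_succ hg)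
    · refine Submodule.mem_sup_left ?_
      have : d * r ^ j * g = d * (r ^ j * g) := by ring
      rw [this]
      exact Ideal.mul_mem_left _ _
        (Ideal.mem_span_singleton.mpr (pow_dvd_pow_mul_of_mem_rootIdeal ht hg))
  have h𝔟 : Ideal.span {u, π ^ (k * j)} ≤ 𝔞 := by
    rw [Ideal.span_le]
    intro x hx
    rcases hx with rfl | rfl
    · exact Ideal.subset_span (by simp)
    · exact pow_mul_mem_span_pair hk j
  have h𝔞fin : relLen 𝔞 (⊤ : Ideal R) ≠ ⊤ :=
    ne_top_of_le_ne_top (relLen_span_pair_pow_ne_top u π hfin (k * j))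
      (relLen_mono_left h𝔟 le_top)
  exact ne_top_of_le_ne_top
    (relLen_mul_ne_top 𝔞 h𝔞fin A (IsNoetherian.noetherian A))
    (relLen_mono_left h𝔞A hA'A)

omit [IsNoetherianRing R] in
/-- Step Z: `ℓ((I_j + (π)) / (I_{j+1} + (π))) = ℓ(I_j / (I_{j+1} + π I_j))`. -/
theorem relLen_stepZ (hπ0 : π ≠ 0) (hreg : ∀ x : R, π ∣ u * x → π ∣ x) (j : ℕ) :
    relLen (rootIdeal u m hm (j + 1) ⊔ Ideal.span {π} * rootIdeal u m hm j)
        (rootIdeal u m hm j) =
      relLen (rootIdeal u m hm (j + 1) ⊔ Ideal.span {π})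
        (rootIdeal u m hm j ⊔ Ideal.span {π}) := by
  refine relLen_eq_of_map (LinearMap.id : R →ₗ[R] R) ?_ ?_ ?_ ?_
  · intro x hx
    exact Submodule.mem_sup_left hx
  · intro x hx
    obtain ⟨a, ha, b, hb, rfl⟩ := Submodule.mem_sup.mp hx
    refine Ideal.add_mem _ (Submodule.mem_sup_left ha) (Submodule.mem_sup_right ?_)
    exact Ideal.mul_le_left hb
  · intro x hx hx'
    rw [LinearMap.id_apply] at hx'
    obtain ⟨a, ha, b, hb, hab⟩ := Submodule.mem_sup.mp hx'
    obtain ⟨c, rfl⟩ := Ideal.mem_span_singleton'.mp hb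
    have hc : c ∈ rootIdeal u m hm j := by
      apply mem_rootIdeal_of_mul_mem hπ0 hreg
      have : π * c = x - a := by rw [← hab]; ring
      rw [this]
      exact Ideal.sub_mem _ hx (rootIdeal_antitone u m hm (Nat.le_succ j) ha)
    rw [← hab]
    refine Ideal.add_mem _ (Submodule.mem_sup_left ha) (Submodule.mem_sup_right ?_)
    rw [mul_comm c π]
    exact Ideal.mul_mem_mul (Ideal.mem_span_singleton_self π) hc
  · intro y hy
    obtain ⟨a, ha, b, hb, rfl⟩ := Submodule.mem_sup.mp hy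
    refine ⟨a, ha, ?_⟩
    rw [LinearMap.id_apply, add_sub_cancel_left]
    exact Submodule.mem_sup_right hb

/-- Step Y: replace `I_j` by its finite-colength submodule `(t^j) + I_{j+1}`. -/
theorem relLen_stepY (hπ0 : π ≠ 0) (hreg : ∀ x : R, π ∣ u * x → π ∣ x)
    (ht : t ^ m = u * r) {k : ℕ} (hk : π ^ k ∈ Ideal.span {u, r})
    (hfin : relLen (Ideal.span {u, π}) (⊤ : Ideal R) ≠ ⊤) (j : ℕ) :
    relLen (rootIdeal u m hm (j + 1) ⊔ Ideal.span {π} * rootIdeal u m hm j)
        (rootIdeal u m hm j) =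
      relLen (rootIdeal u m hm (j + 1) ⊔
          Ideal.span {π} * (Ideal.span {t ^ j} ⊔ rootIdeal u m hm (j + 1)))
        (Ideal.span {t ^ j} ⊔ rootIdeal u m hm (j + 1)) := by
  set A := rootIdeal u m hm j with hA
  set J := rootIdeal u m hm (j + 1) with hJ
  set A' := Ideal.span {t ^ j} ⊔ J with hA'
  set B := J ⊔ Ideal.span {π} * A with hB
  set B' := J ⊔ Ideal.span {π} * A' with hB'
  have hJA : J ≤ A := rootIdeal_antitone u m hm (Nat.le_succ j)
  have hA'A : A' ≤ A := by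
    refine sup_le ?_ hJA
    rw [Ideal.span_le, Set.singleton_subset_iff]
    exact pow_mem_rootIdeal_of_pow_eq ht j
  have hB'A' : B' ≤ A' := sup_le le_sup_right Ideal.mul_le_right
  have hB'B : B' ≤ B := sup_le_sup_left (Ideal.mul_mono_right hA'A) _
  have hBA : B ≤ A := sup_le hJA Ideal.mul_le_right
  have hfinA : relLen A' A ≠ ⊤ := relLen_span_sup_rootIdeal_ne_top ht hk hfin j
  -- `A / A' ≃ B / B'` via multiplication by `π`
  have hiso : relLen A' A = relLen B' B := by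
    refine relLen_eq_of_map (LinearMap.mulLeft R π) ?_ ?_ ?_ ?_
    · intro x hx
      rw [LinearMap.mulLeft_apply]
      exact Submodule.mem_sup_right (Ideal.mul_mem_mul (Ideal.mem_span_singleton_self π) hx)
    · intro x hx
      rw [LinearMap.mulLeft_apply]
      exact Submodule.mem_sup_right (Ideal.mul_mem_mul (Ideal.mem_span_singleton_self π) hx)
    · intro x hx hx'
      rw [LinearMap.mulLeft_apply] at hx'
      obtain ⟨a, ha, b, hb, hab⟩ := Submodule.mem_sup.mp hx'
      obtain ⟨c, hc, rfl⟩ := Ideal.mem_span_singleton_mul.mp hb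
      -- `π * (x - c) = a ∈ J`, so `x - c ∈ J`
      have h1 : x - c ∈ J := by
        apply mem_rootIdeal_of_mul_mem hπ0 hreg
        have : π * (x - c) = a := by rw [mul_sub, ← hab]; ring
        rw [this]
        exact ha
      have : x = (x - c) + c := by ring
      rw [this]
      exact Ideal.add_mem _ (Submodule.mem_sup_right h1) hc
    · intro y hy
      obtain ⟨a, ha, b, hb, rfl⟩ := Submodule.mem_sup.mp hy
      obtain ⟨c, hc, rfl⟩ := Ideal.mem_span_singleton_mul.mp hb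
      refine ⟨c, hc, ?_⟩
      rw [LinearMap.mulLeft_apply, add_sub_cancel_right]
      exact Submodule.mem_sup_left ha
  have e1 : relLen B' A = relLen B' A' + relLen A' A := relLen_add hB'A' hA'A
  have e2 : relLen B' A = relLen B' B + relLen B A := relLen_add hB'B hBA
  rw [e1, ← hiso, add_comm (relLen A' A)] at e2
  exact (ENat.add_left_injective_of_ne_top hfinA e2).symm

omit [IsNoetherianRing R] in
/-- Step X: `ℓ(((t^j) + I_{j+1}) / (I_{j+1} + π ((t^j) + I_{j+1}))) = ℓ(R / (I_1 + (π)))`. -/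
theorem relLen_stepX (hu0 : u ≠ 0) (hπ0 : π ≠ 0) (hreg : ∀ x : R, π ∣ u * x → π ∣ x)
    (ht : t ^ m = u * r) {k : ℕ} (hk : π ^ k ∈ Ideal.span {u, r}) (j : ℕ) :
    relLen (rootIdeal u m hm 1 ⊔ Ideal.span {π}) (⊤ : Ideal R) =
      relLen (rootIdeal u m hm (j + 1) ⊔
          Ideal.span {π} * (Ideal.span {t ^ j} ⊔ rootIdeal u m hm (j + 1)))
        (Ideal.span {t ^ j} ⊔ rootIdeal u m hm (j + 1)) := by
  set J := rootIdeal u m hm (j + 1) with hJ
  refine relLen_eq_of_map (LinearMap.mulLeft R (t ^ j)) ?_ ?_ ?_ ?_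
  · intro x _
    rw [LinearMap.mulLeft_apply]
    exact Submodule.mem_sup_left (Ideal.mul_mem_right _ _ (Ideal.mem_span_singleton_self _))
  · intro x hx
    rw [LinearMap.mulLeft_apply]
    obtain ⟨a, ha, b, hb, rfl⟩ := Submodule.mem_sup.mp hx
    obtain ⟨c, rfl⟩ := Ideal.mem_span_singleton'.mp hb
    rw [mul_add]
    refine Ideal.add_mem _ (Submodule.mem_sup_left ?_) (Submodule.mem_sup_right ?_)
    · have := mul_mem_rootIdeal (pow_mem_rootIdeal_of_pow_eq (hm := hm) ht j) ha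
      exact this
    · have : t ^ j * (c * π) = π * (c * t ^ j) := by ring
      rw [this]
      refine Ideal.mul_mem_mul (Ideal.mem_span_singleton_self π) (Submodule.mem_sup_left ?_)
      exact Ideal.mul_mem_left _ _ (Ideal.mem_span_singleton_self _)
  · intro x _ hx'
    rw [LinearMap.mulLeft_apply] at hx'
    obtain ⟨a, ha, b, hb, hab⟩ := Submodule.mem_sup.mp hx'
    obtain ⟨c, hc, rfl⟩ := Ideal.mem_span_singleton_mul.mp hb
    obtain ⟨d, hd, e, he, rfl⟩ := Submodule.mem_sup.mp hc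
    obtain ⟨y, rfl⟩ := Ideal.mem_span_singleton'.mp hd
    -- `t^j (x - π y) = a + π e ∈ J`
    have h1 : t ^ j * (x - π * y) ∈ J := by
      have : t ^ j * (x - π * y) = a + π * e := by
        have h2 : t ^ j * x = a + π * (y * t ^ j + e) := hab.symm
        rw [mul_sub, h2]; ring
      rw [this]
      exact Ideal.add_mem _ ha (Ideal.mul_mem_left _ _ he)
    have h2 : x - π * y ∈ rootIdeal u m hm 1 :=
      mem_rootIdeal_one_of_pow_mul_mem hu0 hπ0 hreg ht hk h1
    have : x = (x - π * y) + y * π := by ring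
    rw [this]
    exact Ideal.add_mem _ (Submodule.mem_sup_left h2)
      (Submodule.mem_sup_right (Ideal.mul_mem_left _ _ (Ideal.mem_span_singleton_self π)))
  · intro y hy
    obtain ⟨a, ha, b, hb, rfl⟩ := Submodule.mem_sup.mp hy
    obtain ⟨c, rfl⟩ := Ideal.mem_span_singleton'.mp ha
    refine ⟨c, trivial, ?_⟩
    rw [LinearMap.mulLeft_apply]
    have : c * t ^ j + b - t ^ j * c = b := by ring
    rw [this]
    exact Submodule.mem_sup_left hb

/-- The colength function `c(j) = ℓ(R / (I_j + (π)))` is additive: `c(j+1) = c(j) + c(1)`. -/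
theorem relLen_succ (hu0 : u ≠ 0) (hπ0 : π ≠ 0) (hreg : ∀ x : R, π ∣ u * x → π ∣ x)
    (ht : t ^ m = u * r) {k : ℕ} (hk : π ^ k ∈ Ideal.span {u, r})
    (hfin : relLen (Ideal.span {u, π}) (⊤ : Ideal R) ≠ ⊤) (j : ℕ) :
    relLen (rootIdeal u m hm (j + 1) ⊔ Ideal.span {π}) (⊤ : Ideal R) =
      relLen (rootIdeal u m hm j ⊔ Ideal.span {π}) (⊤ : Ideal R) +
        relLen (rootIdeal u m hm 1 ⊔ Ideal.span {π}) (⊤ : Ideal R) := by
  have hAB : rootIdeal u m hm (j + 1) ⊔ Ideal.span {π} ≤ rootIdeal u m hm j ⊔ Ideal.span {π} :=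
    sup_le_sup_right (rootIdeal_antitone u m hm (Nat.le_succ j)) _
  rw [relLen_add hAB le_top, ← relLen_stepZ hπ0 hreg j, relLen_stepY hπ0 hreg ht hk hfin j,
    ← relLen_stepX hu0 hπ0 hreg ht hk j, add_comm]

/-- **Multiplicity identity**: `ℓ(R/((u)+(π))) = m • ℓ(R/(I_1+(π)))`. -/
theorem relLen_span_pair_eq_nsmul (hu0 : u ≠ 0) (hπ0 : π ≠ 0)
    (hreg : ∀ x : R, π ∣ u * x → π ∣ x)
    (ht : t ^ m = u * r) {k : ℕ} (hk : π ^ k ∈ Ideal.span {u, r})
    (hfin : relLen (Ideal.span {u, π}) (⊤ : Ideal R) ≠ ⊤) :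
    relLen (Ideal.span {u, π}) (⊤ : Ideal R) =
      m • relLen (rootIdeal u m hm 1 ⊔ Ideal.span {π}) (⊤ : Ideal R) := by
  have key : ∀ j : ℕ, relLen (rootIdeal u m hm j ⊔ Ideal.span {π}) (⊤ : Ideal R) =
      j • relLen (rootIdeal u m hm 1 ⊔ Ideal.span {π}) (⊤ : Ideal R) := by
    intro j
    induction j with
    | zero =>
      rw [rootIdeal_zero, top_sup_eq, relLen_self, zero_smul]
    | succ j ih =>
      rw [relLen_succ hu0 hπ0 hreg ht hk hfin j, ih, succ_nsmul]
  have h := key m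
  rw [rootIdeal_self] at h
  have hspan : Ideal.span {u} ⊔ Ideal.span {π} = Ideal.span {u, π} := by
    rw [← Ideal.span_union]
    rfl
  rw [hspan] at h
  exact h

end Chain

end Fermat.Agent.A2.H609

end
-- ===== PACK-END A2/H609/Chain.lean

-- ===== PACK-BEGIN S18/H754/KummerLocal.lean
section




/-!
# S18 / Route K / étale Kummer cover: the LOCAL lifting theorem

`R` a Noetherian local domain with `𝔪 = (ϖ, t)`, `ϖ` prime (so `R` is a UFD), `u ∈ Frac R` with
`u ≡ 1 mod ϖ` which is locally a unit times a `p`-th power at every prime element.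
Then `u = w (d/c)^p` with `w ∈ Rˣ`, `ϖ ∤ c, d` and `c ≡ σ d mod ϖ` for a unit `σ`, and the Kummer
idempotents lift to elements integral over `R`.
-/

set_option autoImplicit false

noncomputable section

namespace Fermat.Agent.S18.H754

open Polynomial IsLocalRing

section Local

variable {R : Type*} [CommRing R] [IsDomain R] [IsNoetherianRing R] [IsLocalRing R]
  {F : Type*} [Field F] [Algebra R F] [IsFractionRing R F]

/-- Normal form of a locally-`p`-th-power `u ≡ 1 mod ϖ` over a regular local ring of the shape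
`𝔪 = (ϖ, t)`. -/
theorem exists_kummer_normal_form (ϖ t : R) (hϖ : Prime ϖ)
    (hm : maximalIdeal R = Ideal.span {ϖ, t})
    (p : ℕ) (hp : 0 < p) (u : F) (h1 : OneModPi ϖ u)
    (hdiv : ∀ π : R, Prime π → LocallyPow R p u π) :
    ∃ (c d : R) (w σ : Rˣ), ¬ ϖ ∣ c ∧ ¬ ϖ ∣ d ∧
      u * algebraMap R F c ^ p = algebraMap R F w * algebraMap R F d ^ p ∧
      ϖ ∣ c - σ * d := by
  classical
  haveI : UniqueFactorizationMonoid R := ufd_of_regular_pair ϖ t hϖ hm
  have hinj : Function.Injective (algebraMap R F) := IsFractionRing.injective R F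
  obtain ⟨a, s, hs, has, hu⟩ := h1
  rw [Ideal.mem_span_singleton] at hs has
  have ha : ¬ ϖ ∣ a := by
    intro h
    apply hs
    have := dvd_sub h has
    rwa [sub_sub_cancel] at this
  have ha0 : a ≠ 0 := fun h => ha (h ▸ dvd_zero _)
  have hs0 : s ≠ 0 := fun h => hs (h ▸ dvd_zero _)
  have hsF : algebraMap R F s ≠ 0 := fun h => hs0 (hinj (by rw [h, map_zero]))
  have haF : algebraMap R F a ≠ 0 := fun h => ha0 (hinj (by rw [h, map_zero]))
  have hu0 : u ≠ 0 := by
    rintro rfl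
    rw [zero_mul] at hu
    exact haF hu.symm
  obtain ⟨s₀, hs₀, w, hw⟩ := exists_unit_mul_pow (R := R) p hp u hu0 hdiv
  obtain ⟨c, ⟨d, hd⟩, hrel, hcd⟩ := IsFractionRing.exists_reduced_fraction R (K := F) s₀
  have hd0 : d ≠ 0 := nonZeroDivisors.ne_zero hd
  have hdF : algebraMap R F d ≠ 0 := fun h => hd0 (hinj (by rw [h, map_zero]))
  rw [IsFractionRing.mk'_eq_div] at hcd
  simp only at hcd hrel
  -- the key equation in `R`
  have key : a * c ^ p = w * s * d ^ p := by
    apply hinj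
    simp only [map_mul, map_pow]
    rw [← hu, ← hw, ← hcd, div_pow]
    field_simp
  have hc : ¬ ϖ ∣ c := by
    intro h
    have h2 : ϖ ∣ (w : R) * s * d ^ p := by
      rw [← key]
      exact Dvd.dvd.mul_left (dvd_pow h hp.ne') a
    rcases hϖ.dvd_or_dvd h2 with h3 | h3
    · rcases hϖ.dvd_or_dvd h3 with h4 | h4
      · exact hϖ.not_unit (isUnit_of_dvd_unit h4 w.isUnit)
      · exact hs h4
    · exact hϖ.not_unit (hrel h (hϖ.dvd_of_dvd_pow h3))
  have hd' : ¬ ϖ ∣ d := by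
    intro h
    have h2 : ϖ ∣ a * c ^ p := by
      rw [key]
      exact Dvd.dvd.mul_left (dvd_pow h hp.ne') _
    rcases hϖ.dvd_or_dvd h2 with h3 | h3
    · exact ha h3
    · exact hc (hϖ.dvd_of_dvd_pow h3)
  -- pass to the quotient `R/ϖ`, a local principal ideal domain
  haveI hprime : (Ideal.span {ϖ}).IsPrime := (Ideal.span_singleton_prime hϖ.ne_zero).mpr hϖ
  haveI hpid : IsPrincipalIdealRing (R ⧸ Ideal.span {ϖ}) :=
    isPrincipalIdealRing_quotient_of_regular_pair ϖ t hϖ hm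
  haveI : Nontrivial (R ⧸ Ideal.span {ϖ}) := Ideal.Quotient.nontrivial_iff.mpr hprime.ne_top
  haveI : IsLocalRing (R ⧸ Ideal.span {ϖ}) :=
    IsLocalRing.of_surjective' (Ideal.Quotient.mk _) Ideal.Quotient.mk_surjective
  haveI : IsDomain (R ⧸ Ideal.span {ϖ}) := Ideal.Quotient.isDomain _
  haveI : ValuationRing (R ⧸ Ideal.span {ϖ}) :=
    ValuationRing.iff_local_bezout_domain.mpr ⟨inferInstance, inferInstance⟩
  set mk := Ideal.Quotient.mk (Ideal.span {ϖ}) with hmk
  have hmk0 : ∀ x : R, mk x = 0 ↔ ϖ ∣ x := fun x => by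
    rw [hmk, Ideal.Quotient.eq_zero_iff_mem, Ideal.mem_span_singleton]
  have hmc : mk c ≠ 0 := fun h => hc ((hmk0 c).1 h)
  have hmd : mk d ≠ 0 := fun h => hd' ((hmk0 d).1 h)
  have hms : mk s ≠ 0 := fun h => hs ((hmk0 s).1 h)
  have hmas : mk a = mk s := by
    rw [← sub_eq_zero, ← map_sub]
    exact (hmk0 _).2 has
  have hmw : IsUnit (mk (w : R)) := w.isUnit.map mk
  have key' : mk c ^ p = mk (w : R) * mk d ^ p := by
    have := congrArg mk key
    simp only [map_mul, map_pow] at this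
    rw [hmas] at this
    have h3 : mk s * mk c ^ p = mk s * (mk (w : R) * mk d ^ p) := by
      rw [this]; ring
    exact mul_left_cancel₀ hms h3
  have hx : ∃ x : R ⧸ Ideal.span {ϖ}, IsUnit x ∧ mk c = x * mk d := by
    rcases ValuationRing.dvd_total (mk c) (mk d) with ⟨y, hy⟩ | ⟨y, hy⟩
    · -- `mk d = mk c * y`
      have h4 : mk c ^ p * 1 = mk c ^ p * (mk (w : R) * y ^ p) := by
        rw [mul_one]
        conv_lhs => rw [key', hy, mul_pow]
        ring
      have h5 : 1 = mk (w : R) * y ^ p := mul_left_cancel₀ (pow_ne_zero p hmc) h4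
      have h6 : IsUnit (y ^ p) := IsUnit.of_mul_eq_one_right _ h5.symm
      have h7 : IsUnit y := (isUnit_pow_iff hp.ne').1 h6
      obtain ⟨y', rfl⟩ := h7
      refine ⟨((y'⁻¹ : (R ⧸ Ideal.span {ϖ})ˣ) : R ⧸ Ideal.span {ϖ}), Units.isUnit _, ?_⟩
      rw [hy]
      rw [mul_comm (mk c), ← mul_assoc, Units.inv_mul, one_mul]
    · -- `mk c = mk d * y`
      have h4 : mk d ^ p * y ^ p = mk d ^ p * mk (w : R) := by
        rw [← mul_pow, ← hy, key']
        ring
      have h5 : y ^ p = mk (w : R) := mul_left_cancel₀ (pow_ne_zero p hmd) h4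
      have h7 : IsUnit y := (isUnit_pow_iff hp.ne').1 (h5 ▸ hmw)
      exact ⟨y, h7, by rw [hy, mul_comm]⟩
  obtain ⟨x, hxu, hxc⟩ := hx
  obtain ⟨σ', rfl⟩ := Ideal.Quotient.mk_surjective x
  have hσ' : IsUnit σ' := by
    rw [← IsLocalRing.notMem_maximalIdeal]
    intro hmem
    obtain ⟨y, hy⟩ := hxu.exists_right_inv
    obtain ⟨y', rfl⟩ := Ideal.Quotient.mk_surjective y
    have h8 : ϖ ∣ σ' * y' - 1 := by
      rw [← hmk0, map_sub, map_mul, map_one, sub_eq_zero]
      exact hy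
    have h9 : ϖ ∈ maximalIdeal R := by
      rw [hm]
      exact Ideal.subset_span (Set.mem_insert _ _)
    have h10 : σ' * y' - 1 ∈ maximalIdeal R := Ideal.mem_of_dvd _ h8 h9
    have h11 : σ' * y' ∈ maximalIdeal R := Ideal.mul_mem_right _ _ hmem
    have h12 : (1 : R) ∈ maximalIdeal R := by
      have := Ideal.sub_mem _ h11 h10
      rwa [sub_sub_cancel] at this
    exact (Ideal.ne_top_iff_one _).1 (IsLocalRing.maximalIdeal.isMaximal R).ne_top h12
  obtain ⟨σ, rfl⟩ := hσ'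
  refine ⟨c, d, w, σ, hc, hd', ?_, ?_⟩
  · rw [← hw, ← hcd, div_pow]
    field_simp
  · rw [← hmk0, map_sub, map_mul, sub_eq_zero]
    exact hxc

section Lift

variable {F' : Type*} [Field F'] [Algebra F F'] [Algebra R F'] [IsScalarTower R F F']

omit [IsNoetherianRing R] [IsLocalRing R] in
lemma faithfulSMul_of_tower (R F F' : Type*) [CommRing R] [IsDomain R] [Field F] [Algebra R F]
    [IsFractionRing R F] [Field F'] [Algebra F F'] [Algebra R F'] [IsScalarTower R F F'] :
    FaithfulSMul R F' := by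
  rw [faithfulSMul_iff_algebraMap_injective]
  rw [IsScalarTower.algebraMap_eq R F F']
  exact (algebraMap F F').injective.comp (IsFractionRing.injective R F)

/-- **Local lifting theorem** for the Kummer idempotents. -/
theorem kummer_lift_local (ϖ t : R) (hϖ : Prime ϖ)
    (hm : maximalIdeal R = Ideal.span {ϖ, t})
    (p : ℕ) (hp : 0 < p) (hpu : IsUnit (p : R))
    (u : F) (z : F') (hz : z ^ p = algebraMap F F' u) (h1 : OneModPi ϖ u)
    (hdiv : ∀ π : R, Prime π → LocallyPow R p u π) (η : R) :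
    ∃ b : F', IsIntegral R b ∧ InPiO ϖ (b - kummerIdem p η z) := by
  classical
  haveI : FaithfulSMul R F' := faithfulSMul_of_tower R F F'
  have hinj' : Function.Injective (algebraMap R F') := FaithfulSMul.algebraMap_injective R F'
  obtain ⟨c, d, w, σ, hc, hd, hcd, hσ⟩ := exists_kummer_normal_form ϖ t hϖ hm p hp u h1 hdiv
  have hc0 : c ≠ 0 := fun h => hc (h ▸ dvd_zero _)
  have hd0 : d ≠ 0 := fun h => hd (h ▸ dvd_zero _)
  have hcF : algebraMap R F' c ≠ 0 := fun h => hc0 (hinj' (by rw [h, map_zero]))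
  have hdF : algebraMap R F' d ≠ 0 := fun h => hd0 (hinj' (by rw [h, map_zero]))
  have hcd' : algebraMap F F' u * algebraMap R F' c ^ p =
      algebraMap R F' w * algebraMap R F' d ^ p := by
    have := congrArg (algebraMap F F') hcd
    simpa only [map_mul, map_pow, ← IsScalarTower.algebraMap_apply] using this
  -- `θ = z c / d`, `θ ^ p = w`
  set θ : F' := z * algebraMap R F' c / algebraMap R F' d with hθ
  have hθp : θ ^ p = algebraMap R F' w := by
    rw [hθ, div_pow, mul_pow, hz, hcd']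
    field_simp
  have hθi : IsIntegral R θ := by
    refine IsIntegral.of_pow hp ?_
    rw [hθp]
    exact isIntegral_algebraMap
  -- `z c = θ d`
  have hzc : algebraMap R F' c * z = θ * algebraMap R F' d := by
    rw [hθ]
    field_simp
  set τ : R := ((σ⁻¹ : Rˣ) : R) with hτ
  set y : F' := θ * algebraMap R F' τ with hy
  have hyi : IsIntegral R y := hθi.mul isIntegral_algebraMap
  have hyO : y ∈ Oloc (F' := F') ϖ hϖ := mem_Oloc_of_isIntegral hϖ hyi
  have hcs : c ∉ Ideal.span {ϖ} := by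
    rw [Ideal.mem_span_singleton]
    exact hc
  have hzO : z ∈ Oloc (F' := F') ϖ hϖ := by
    refine ⟨c, hcs, ?_⟩
    rw [hzc]
    exact hθi.mul isIntegral_algebraMap
  -- `y ≡ z mod ϖ O'`
  obtain ⟨r, hr⟩ := hσ
  have hr' : τ * c - d = ϖ * (τ * r) := by
    have h2 : τ * (c - σ * d) = τ * c - d := by
      rw [mul_sub, ← mul_assoc, hτ, Units.inv_mul, one_mul]
    rw [← h2, hr]
    ring
  have hyz : InPiO ϖ (y - z) := by
    refine ⟨c, hcs, θ * algebraMap R F' (τ * r), hθi.mul isIntegral_algebraMap, ?_⟩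
    have h3 : algebraMap R F' c * (y - z) = θ * algebraMap R F' (τ * c - d) := by
      rw [mul_sub, hzc, hy, map_sub, map_mul]
      ring
    rw [h3, hr', map_mul]
    ring
  -- the lift
  have hpinv : ((p : F'))⁻¹ = algebraMap R F' ((hpu.unit⁻¹ : Rˣ) : R) := by
    have h4 : algebraMap R F' ((hpu.unit⁻¹ : Rˣ) : R) * (p : F') = 1 := by
      rw [← map_natCast (algebraMap R F') p, ← map_mul]
      rw [IsUnit.val_inv_mul hpu, map_one]
    exact (eq_inv_of_mul_eq_one_left h4).symm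
  refine ⟨(p : F')⁻¹ * ∑ a ∈ Finset.range p, algebraMap R F' (η ^ a) * y ^ a, ?_, ?_⟩
  · rw [hpinv]
    refine isIntegral_algebraMap.mul ?_
    refine IsIntegral.sum _ fun a _ => ?_
    exact isIntegral_algebraMap.mul (hyi.pow a)
  · have h5 : (p : F')⁻¹ * ∑ a ∈ Finset.range p, algebraMap R F' (η ^ a) * y ^ a -
        kummerIdem p η z =
        (p : F')⁻¹ * ∑ a ∈ Finset.range p, algebraMap R F' (η ^ a) * (y ^ a - z ^ a) := by
      rw [kummerIdem, ← mul_sub, ← Finset.sum_sub_distrib]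
      congr 1
      refine Finset.sum_congr rfl fun a _ => ?_
      ring
    rw [h5, hpinv]
    refine InPiO.mul_left hϖ (algebraMap_mem_Oloc hϖ _) ?_
    refine InPiO.sum hϖ _ _ fun a _ => ?_
    refine InPiO.mul_left hϖ (algebraMap_mem_Oloc hϖ _) ?_
    exact InPiO.pow_sub_pow hϖ hyO hzO hyz a

end Lift

end Local

end Fermat.Agent.S18.H754

end

end
-- ===== PACK-END S18/H754/KummerLocal.lean

-- ===== PACK-BEGIN A2/H348/Root.lean
section


/-!
# A2 / piece E (ALG_ss), part 4: from the Kummer idempotent to an `m`-th root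

Mathlib-only.

* `isIntegral_map_algHom` : `F`-algebra maps preserve integrality over a subalgebra of `F`.
* `GaussData.mem_range_of_sub_one` (**rigidity**): a root `y₀` of `X ^ m - u` (in any field
  extension `Ω` of `F`) which is `≡ 1` modulo `ϖ` times a `V`-integral element lies in `F`.
* `exists_root_of_connected` (**ALG_ss, abstract final form**): in the situation of
  `exists_kummer_lifts`, if every residue field `F' ⧸ 𝔫` of the Kummer algebra satisfies the
  two-chart connectedness statement, then `u = y ^ m` with `y ∈ F`, `y ∈ 1 + ϖ V`.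
-/

set_option autoImplicit false
set_option linter.unusedSectionVars false
set_option linter.style.haveILetI false

open Module Polynomial

namespace Fermat.Agent.A2.H348

variable {A F : Type*} [CommRing A] [Field F] [Algebra A F]

/-- `F`-algebra maps preserve integrality over a subalgebra of `F`. -/
theorem isIntegral_map_algHom (O : Subalgebra A F) {S T : Type*} [CommRing S] [CommRing T]
    [Algebra F S] [Algebra F T] (f : S →ₐ[F] T) {c : S} (hc : IsIntegral O c) :
    IsIntegral O (f c) := by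
  obtain ⟨P, hP, hPc⟩ := hc
  refine ⟨P, hP, ?_⟩
  have h := congrArg (f : S →+* T) hPc
  rw [map_zero, Polynomial.hom_eval₂] at h
  have h2 : ((f : S →+* T).comp (algebraMap O S)) = algebraMap O T := by
    ext a
    exact f.commutes (a : F)
  rw [h2] at h
  exact h

section Rigid

variable {ϖ : A} {m : ℕ} {u : F} {V : Subalgebra A F}
variable {Ω : Type*} [Field Ω] [Algebra F Ω] [Algebra A Ω] [IsScalarTower A F Ω]

/-- a root of unity `η ≠ 1` of order dividing `m`: `m = (1 - η) * S` with `S` a sum of powers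
of `η`. -/
theorem natCast_eq_one_sub_mul {η : Ω} (hη : η ^ m = 1) (hη1 : η ≠ 1) :
    (m : Ω) = (1 - η) * ∑ i ∈ Finset.range m, ∑ j ∈ Finset.range i, η ^ j := by
  have h0 : ∑ i ∈ Finset.range m, η ^ i = 0 := by
    have h2 : (η - 1) * ∑ k ∈ Finset.range m, η ^ k = 0 := by
      rw [mul_geom_sum, hη, sub_self]
    rcases mul_eq_zero.1 h2 with h3 | h3
    · exact absurd (sub_eq_zero.1 h3) hη1
    · exact h3
  have h1 : ∀ i : ℕ, (1 - η) * ∑ j ∈ Finset.range i, η ^ j = 1 - η ^ i := by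
    intro i
    have := mul_geom_sum η i
    linear_combination -this
  rw [Finset.mul_sum, Finset.sum_congr rfl fun i _ => h1 i, Finset.sum_sub_distrib, h0]
  simp

/-- **Rigidity.**  A root `y₀` of `X ^ m - u` with `y₀ - 1 ∈ ϖ · (V-integral elements)` lies in
`F`. -/
theorem GaussData.mem_range_of_sub_one (hV : GaussData ϖ m u V) [IsAlgClosed Ω]
    {y₀ : Ω} (hy : y₀ ^ m = algebraMap F Ω u) {τ : Ω} (hτ : IsIntegral V τ)
    (h : y₀ - 1 = algebraMap F Ω (algebraMap A F ϖ) * τ) :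
    y₀ ∈ Set.range (algebraMap F Ω) := by
  classical
  have hm0 : m ≠ 0 := by
    rintro rfl
    exact hV.m_ne (by simp)
  have hmpos : 0 < m := Nat.pos_of_ne_zero hm0
  have hu0 : u ≠ 0 := hV.u_ne
  have hϖ0 : algebraMap A F ϖ ≠ 0 := hV.ϖ_ne
  have hϖΩ : algebraMap F Ω (algebraMap A F ϖ) ≠ 0 := (_root_.map_ne_zero _).2 hϖ0
  have hy0 : y₀ ≠ 0 := by
    intro h0
    rw [h0, zero_pow hm0] at hy
    exact hu0 ((map_eq_zero (algebraMap F Ω)).1 hy.symm)
  have hyint : IsIntegral F y₀ := by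
    refine IsIntegral.of_pow hmpos ?_
    rw [hy]; exact isIntegral_algebraMap
  by_contra hnot
  have hdeg : 2 ≤ (minpoly F y₀).natDegree := (minpoly.two_le_natDegree_iff hyint).2 hnot
  set P := minpoly F y₀ with hP
  have hdvd : P ∣ X ^ m - C u := minpoly.dvd F y₀ (by simp [hy])
  have hsep : (P.map (algebraMap F Ω)).Separable :=
    ((separable_X_pow_sub_C u hV.m_ne hu0).of_dvd hdvd).map
  have hnodup := nodup_roots hsep
  have hcard : (P.map (algebraMap F Ω)).roots.card = P.natDegree := by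
    rw [IsAlgClosed.card_roots_eq_natDegree, natDegree_map]
  -- another root
  obtain ⟨y₁, hy₁mem, hy₁ne⟩ : ∃ y₁ ∈ (P.map (algebraMap F Ω)).roots, y₁ ≠ y₀ := by
    by_contra hcon
    simp only [not_exists, not_and, not_not] at hcon
    have hsub : (P.map (algebraMap F Ω)).roots ≤ {y₀} := by
      rw [Multiset.le_iff_subset hnodup]
      intro y hy'
      rw [Multiset.mem_singleton]
      exact hcon y hy'
    have := Multiset.card_le_card hsub
    rw [hcard, Multiset.card_singleton] at this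
    omega
  have hPne : P.map (algebraMap F Ω) ≠ 0 :=
    map_monic_ne_zero (minpoly.monic hyint)
  have hy₁P : aeval y₁ P = 0 := by
    have := (mem_roots hPne).1 hy₁mem
    rwa [IsRoot.def, eval_map, ← aeval_def] at this
  have haeval_of_dvd : ∀ G : F[X], aeval y₀ G = 0 → aeval y₁ G = 0 := by
    intro G hG
    obtain ⟨Q, hQ⟩ := minpoly.dvd F y₀ hG
    rw [hQ, map_mul, hy₁P, zero_mul]
  have hy₁ : y₁ ^ m = algebraMap F Ω u := by
    have := haeval_of_dvd (X ^ m - C u) (by simp [hy])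
    simpa [sub_eq_zero] using this
  -- transport of integrality
  obtain ⟨Q₀, hQ₀m, hQ₀⟩ := hτ
  set ϖ' : F := algebraMap A F ϖ with hϖ'
  set G : F[X] := (Q₀.map (algebraMap V F)).comp (C ϖ'⁻¹ * (X - 1)) with hG
  have hGeval : ∀ y : Ω, aeval y G =
      eval₂ (algebraMap V Ω) (algebraMap F Ω ϖ'⁻¹ * (y - 1)) Q₀ := by
    intro y
    rw [hG, aeval_comp, aeval_def, eval₂_map]
    have : (algebraMap F Ω).comp (algebraMap V F) = algebraMap V Ω := by
      ext a; rfl
    rw [this]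
    simp
  have hτeq : algebraMap F Ω ϖ'⁻¹ * (y₀ - 1) = τ := by
    rw [h, ← mul_assoc, ← map_mul, inv_mul_cancel₀ hϖ0, map_one, one_mul]
  have hG0 : aeval y₀ G = 0 := by rw [hGeval, hτeq]; exact hQ₀
  have hG1 := haeval_of_dvd G hG0
  rw [hGeval] at hG1
  set τ₁ : Ω := algebraMap F Ω ϖ'⁻¹ * (y₁ - 1) with hτ₁
  have hτ₁int : IsIntegral V τ₁ := ⟨Q₀, hQ₀m, hG1⟩
  have hτint : IsIntegral V τ := ⟨Q₀, hQ₀m, hQ₀⟩
  have h1 : y₁ - 1 = algebraMap F Ω ϖ' * τ₁ := by
    rw [hτ₁, ← mul_assoc, ← map_mul, mul_inv_cancel₀ hϖ0, map_one, one_mul]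
  -- the root of unity
  set η : Ω := y₁ * y₀⁻¹ with hη
  have hηm : η ^ m = 1 := by
    rw [hη, mul_pow, inv_pow, hy₁, hy, mul_inv_cancel₀]
    exact (_root_.map_ne_zero _).2 hu0
  have hη1 : η ≠ 1 := by
    intro h1'
    apply hy₁ne
    have : y₁ = η * y₀ := by rw [hη, mul_assoc, inv_mul_cancel₀ hy0, mul_one]
    rw [this, h1', one_mul]
  have hηint : IsIntegral V η := by
    refine IsIntegral.of_pow hmpos ?_
    rw [hηm]; exact isIntegral_one
  have hy0inv : IsIntegral V y₀⁻¹ := by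
    refine IsIntegral.of_pow hmpos ?_
    rw [inv_pow, hy, ← map_inv₀]
    exact isIntegral_algebraMap_of_mem' V hV.u_inv_mem
  have hone : 1 - η = algebraMap F Ω ϖ' * ((τ - τ₁) * y₀⁻¹) := by
    have : 1 - η = (y₀ - y₁) * y₀⁻¹ := by
      rw [hη, sub_mul, mul_inv_cancel₀ hy0]
    rw [this]
    have : y₀ - y₁ = algebraMap F Ω ϖ' * (τ - τ₁) := by
      have e0 : y₀ = 1 + algebraMap F Ω ϖ' * τ := by rw [← h]; ring
      have e1 : y₁ = 1 + algebraMap F Ω ϖ' * τ₁ := by rw [← h1]; ring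
      rw [e0, e1]; ring
    rw [this]; ring
  have hmeq := natCast_eq_one_sub_mul hηm hη1
  set S : Ω := ∑ i ∈ Finset.range m, ∑ j ∈ Finset.range i, η ^ j with hS
  have hSint : IsIntegral V S :=
    IsIntegral.sum _ fun i _ => IsIntegral.sum _ fun j _ => hηint.pow j
  have hT : IsIntegral V ((τ - τ₁) * y₀⁻¹ * S) := ((hτint.sub hτ₁int).mul hy0inv).mul hSint
  have hmT : algebraMap F Ω ((m : F) * ϖ'⁻¹) = (τ - τ₁) * y₀⁻¹ * S := by
    have hm' : algebraMap F Ω (m : F) = (m : Ω) := by simp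
    rw [map_mul, hm', hmeq, hone, map_inv₀]
    field_simp
  rw [← hmT] at hT
  have hmem : (m : F) * ϖ'⁻¹ ∈ V :=
    hV.closed _ ((isIntegral_algebraMap_iff (algebraMap F Ω).injective).1 hT)
  apply hV.ϖ_inv_notMem
  have : ϖ'⁻¹ = (m : F)⁻¹ * ((m : F) * ϖ'⁻¹) := by
    rw [← mul_assoc, inv_mul_cancel₀ hV.m_ne, one_mul]
  rw [this]
  exact V.mul_mem (hV.m_inv_mem V) hmem

end Rigid

section Main

variable {F' : Type*} [CommRing F'] [Nontrivial F'] [Algebra F F'] [Algebra A F']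
  [IsScalarTower A F F']
variable {ϖ : A} {m : ℕ} {u : F} {Bfin Binf Bmid V : Subalgebra A F}

/-- The two-chart connectedness statement for an `F`-algebra `L` (in the application: a finite
field extension of `F` with the same constants), in the language of integrality over the charts
of `F`. -/
def ConnAt (ϖ : A) (Bfin Binf Bmid : Subalgebra A F) (L : Type*) [CommRing L] [Algebra F L] :
    Prop :=
  ∀ e₁ e₂ : L, IsIntegral Bfin e₁ → IsIntegral Binf e₂ →
    (∃ t : L, IsIntegral Bfin t ∧ e₁ ^ 2 - e₁ = algebraMap F L (algebraMap A F ϖ) * t) →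
    (∃ t : L, IsIntegral Binf t ∧ e₂ ^ 2 - e₂ = algebraMap F L (algebraMap A F ϖ) * t) →
    (∃ t : L, IsIntegral Bmid t ∧ e₁ - e₂ = algebraMap F L (algebraMap A F ϖ) * t) →
    (∃ t : L, IsIntegral Bfin t ∧ e₁ = algebraMap F L (algebraMap A F ϖ) * t) ∨
    (∃ t : L, IsIntegral Bfin t ∧ 1 - e₁ = algebraMap F L (algebraMap A F ϖ) * t)

omit [Nontrivial F'] [Algebra A F] [Algebra A F'] [IsScalarTower A F F'] in
theorem kummerE_mul_sub_one (hm : (m : F) ≠ 0) {z : F'} (hz : z ^ m = algebraMap F F' u) :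
    algebraMap F F' (m : F) * kummerE F m z * (z - 1) = algebraMap F F' (u - 1) := by
  unfold kummerE
  rw [← mul_assoc, ← map_mul, mul_inv_cancel₀ hm, map_one, one_mul, geom_sum_mul, hz, map_sub,
    map_one]

/-- **ALG_ss, abstract final form.**  On a two-chart model `(Bfin, Binf, Bmid = Bfin[1/x])` with
semilocal Gauss ring `V` and reduced special fibre, let `u ∈ 1 + ϖ V` admit local factorisations
`u = ε h ^ m` (`ε ∈ 1 + ϖ B_𝔪`, `h ∈ 1 + ϖ V`) at every closed point of the special fibre of both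
charts.  If the special fibres of the normalisations of the model in the residue fields of the
Kummer algebra `F' = F[z]/(z ^ m - u)` are connected (`ConnAt`), then `u` is the `m`-th power of an
element of `F` which is `≡ 1` modulo `ϖ V`. -/
theorem exists_root_of_connected (hV : GaussData ϖ m u V)
    (hfin : ChartData ϖ m u Bfin V) (hinf : ChartData ϖ m u Binf V)
    (hfm : Bfin ≤ Bmid) (him : Binf ≤ Bmid)
    (x : Bfin) (hx0 : (x : F) ≠ 0) (hxinv : ((x : F))⁻¹ ∈ Bmid)
    (hloc : ∀ f ∈ Bmid, ∃ K : ℕ, (x : F) ^ K * f ∈ Bfin)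
    {z : F'} (kb : KummerBasis m u z)
    (hconn : ∀ 𝔫 : Ideal F', 𝔫.IsMaximal → ConnAt ϖ Bfin Binf Bmid (F' ⧸ 𝔫)) :
    ∃ y : F, y ^ m = u ∧ ∃ t ∈ V, y = 1 + algebraMap A F ϖ * t := by
  classical
  obtain ⟨e₁, e₂, c₁, he₁, he₂, hc₁, hE, hi1, hi2, h12⟩ :=
    exists_kummer_lifts hV hfin hinf hfm him x hx0 hxinv hloc kb
  have hm0 : (m : F) ≠ 0 := hV.m_ne
  haveI : NeZero (m : F) := ⟨hm0⟩
  have hmpos : 0 < m := kb.m_pos
  have hϖ0 : algebraMap A F ϖ ≠ 0 := hV.ϖ_ne
  set Ω := AlgebraicClosure F with hΩ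
  obtain ⟨ω, hω⟩ := HasEnoughRootsOfUnity.exists_primitiveRoot Ω m
  obtain ⟨r, hr⟩ := IsAlgClosed.exists_pow_nat_eq (algebraMap F Ω u) hmpos
  haveI := kb.finiteDimensional
  haveI : IsArtinianRing F' := IsArtinianRing.of_finite F F'
  -- the evaluations
  set ev : ℕ → (F' →ₐ[F] Ω) :=
    fun k => kb.evalAt (ω ^ k * r) (KummerBasis.mul_pow_eq hω hr k) with hev
  set ϖ' : F := algebraMap A F ϖ with hϖ'
  have hϖF' : algebraMap A F' ϖ = algebraMap F F' ϖ' := algebraMap_eq_comp F ϖ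
  -- the alternative at each evaluation
  have key : ∀ k : ℕ, (∃ τ : Ω, IsIntegral Bfin τ ∧ ev k e₁ = algebraMap F Ω ϖ' * τ) ∨
      (∃ τ : Ω, IsIntegral Bfin τ ∧ 1 - ev k e₁ = algebraMap F Ω ϖ' * τ) := by
    intro k
    set 𝔫 : Ideal F' := RingHom.ker (ev k : F' →+* Ω) with h𝔫
    haveI : 𝔫.IsPrime := RingHom.ker_isPrime _
    haveI : 𝔫.IsMaximal := inferInstance
    set π : F' →ₐ[F] F' ⧸ 𝔫 := Ideal.Quotient.mkₐ F 𝔫 with hπ
    set ι : F' ⧸ 𝔫 →ₐ[F] Ω := Ideal.Quotient.liftₐ 𝔫 (ev k) (fun a ha => ha) with hι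
    have hιπ : ∀ a, ι (π a) = ev k a := fun a => rfl
    have hrel : ∀ a t : F', a = algebraMap A F' ϖ * t →
        π a = algebraMap F (F' ⧸ 𝔫) ϖ' * π t := by
      intro a t h
      rw [h, hϖF', map_mul, AlgHom.commutes]
    have hc := hconn 𝔫 inferInstance (π e₁) (π e₂) (isIntegral_map_algHom Bfin π he₁)
      (isIntegral_map_algHom Binf π he₂)
      (by
        obtain ⟨t, ht, h⟩ := hi1
        refine ⟨π t, isIntegral_map_algHom Bfin π ht, ?_⟩
        rw [← hrel _ t h, map_sub, map_pow])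
      (by
        obtain ⟨t, ht, h⟩ := hi2
        refine ⟨π t, isIntegral_map_algHom Binf π ht, ?_⟩
        rw [← hrel _ t h, map_sub, map_pow])
      (by
        obtain ⟨t, ht, h⟩ := h12
        refine ⟨π t, isIntegral_map_algHom Bmid π ht, ?_⟩
        rw [← hrel _ t h, map_sub])
    rcases hc with ⟨t, ht, h⟩ | ⟨t, ht, h⟩
    · left
      refine ⟨ι t, isIntegral_map_algHom Bfin ι ht, ?_⟩
      have := congrArg ι h
      rw [hιπ, map_mul, AlgHom.commutes] at this
      exact this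
    · right
      refine ⟨ι t, isIntegral_map_algHom Bfin ι ht, ?_⟩
      have := congrArg ι h
      rw [map_sub, map_one, hιπ, map_mul, AlgHom.commutes] at this
      exact this
  by_cases hB : ∃ k : ℕ, ∃ τ : Ω, IsIntegral Bfin τ ∧ 1 - ev k e₁ = algebraMap F Ω ϖ' * τ
  · -- rigidity
    obtain ⟨k, τ, hτ, hk⟩ := hB
    set y₀ : Ω := ω ^ k * r with hy₀def
    have hy₀ : y₀ ^ m = algebraMap F Ω u := KummerBasis.mul_pow_eq hω hr k
    have hevz : ev k z = y₀ := kb.evalAt_zeta _ _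
    have hevE : ev k (kummerE F m z) = ev k e₁ + algebraMap F Ω ϖ' * ev k c₁ := by
      rw [hE, map_add, map_mul, hϖF', AlgHom.commutes]
    have h1E : 1 - ev k (kummerE F m z) = algebraMap F Ω ϖ' * (τ - ev k c₁) := by
      rw [hevE]; linear_combination hk
    obtain ⟨t₀, ht₀, hu⟩ := hV.u_one
    have hmE : algebraMap F Ω (m : F) * ev k (kummerE F m z) * (y₀ - 1) =
        algebraMap F Ω (u - 1) := by
      have := congrArg (ev k) (kummerE_mul_sub_one (F := F) hm0 kb.pow_eq)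
      rw [map_mul, map_mul, map_sub, map_one, hevz, AlgHom.commutes, AlgHom.commutes] at this
      exact this
    have hu' : algebraMap F Ω (u - 1) = algebraMap F Ω ϖ' * algebraMap F Ω t₀ := by
      rw [hu, ← map_mul]; congr 1; ring
    have hmΩ : algebraMap F Ω (m : F) * algebraMap F Ω ((m : F)⁻¹) = 1 := by
      rw [← map_mul, mul_inv_cancel₀ hm0, map_one]
    have hy1 : y₀ - 1 = algebraMap F Ω ϖ' *
        ((y₀ - 1) * (τ - ev k c₁) + algebraMap F Ω ((m : F)⁻¹) * algebraMap F Ω t₀) := by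
      linear_combination (y₀ - 1) * h1E + algebraMap F Ω ((m : F)⁻¹) * hmE +
        algebraMap F Ω ((m : F)⁻¹) * hu' - ((y₀ - 1) * ev k (kummerE F m z)) * hmΩ
    have hy₀int : IsIntegral V y₀ := by
      refine IsIntegral.of_pow hmpos ?_
      rw [hy₀]; exact isIntegral_algebraMap_of_mem' V hV.u_mem
    have hτ' : IsIntegral V
        ((y₀ - 1) * (τ - ev k c₁) + algebraMap F Ω ((m : F)⁻¹) * algebraMap F Ω t₀) := by
      refine IsIntegral.add (IsIntegral.mul (hy₀int.sub isIntegral_one)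
        ((isIntegral_of_le hfin.le_V hτ).sub (isIntegral_map_algHom V (ev k) hc₁))) ?_
      exact (isIntegral_algebraMap_of_mem' V (hV.m_inv_mem V)).mul
        (isIntegral_algebraMap_of_mem' V ht₀)
    obtain ⟨y, hy⟩ := hV.mem_range_of_sub_one hy₀ hτ' hy1
    have hinj := (algebraMap F Ω).injective
    refine ⟨y, ?_, (y - 1) * ϖ'⁻¹, ?_, ?_⟩
    · apply hinj
      rw [map_pow, hy, hy₀]
    · apply hV.closed
      rw [← isIntegral_algebraMap_iff (B := Ω) hinj]
      have : algebraMap F Ω ((y - 1) * ϖ'⁻¹) =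
          (y₀ - 1) * (τ - ev k c₁) + algebraMap F Ω ((m : F)⁻¹) * algebraMap F Ω t₀ := by
        have hϖΩ : algebraMap F Ω ϖ' ≠ 0 := (_root_.map_ne_zero _).2 hϖ0
        apply mul_left_cancel₀ hϖΩ
        rw [← hy1, ← map_mul, mul_comm (y - 1), ← mul_assoc, mul_inv_cancel₀ hϖ0, one_mul,
          map_sub, map_one, hy]
      rw [this]
      exact hτ'
    · rw [mul_comm (y - 1), ← mul_assoc, mul_inv_cancel₀ hϖ0]
      ring
  · -- impossible: all evaluations of `e₁` vanish modulo `ϖ`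
    exfalso
    have hA : ∀ k : ℕ, ∃ τ : Ω, IsIntegral Bfin τ ∧ ev k e₁ = algebraMap F Ω ϖ' * τ :=
      fun k => (key k).resolve_right fun h => hB ⟨k, h⟩
    choose τ hτint hτ using hA
    have hsum := kb.sum_evalAt hω hr e₁ ⟨0, hmpos⟩
    simp only [Nat.sub_zero, hω.pow_eq_one, one_pow, one_mul, pow_zero, mul_one] at hsum
    have hsum' : ∑ k ∈ Finset.range m, ev k e₁ =
        (m : Ω) * algebraMap F Ω (kb.basis.repr e₁ ⟨0, hmpos⟩) := hsum
    rw [Finset.sum_congr rfl fun k _ => hτ k, ← Finset.mul_sum] at hsum'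
    have hmΩ : (m : Ω) = algebraMap F Ω (m : F) := by simp
    have hint : IsIntegral V (algebraMap F Ω ((m : F)⁻¹) * ∑ k ∈ Finset.range m, τ k) :=
      (isIntegral_algebraMap_of_mem' V (hV.m_inv_mem V)).mul
        (IsIntegral.sum _ fun k _ => isIntegral_of_le hfin.le_V (hτint k))
    have heq : algebraMap F Ω (kb.basis.repr e₁ ⟨0, hmpos⟩ * ϖ'⁻¹) =
        algebraMap F Ω ((m : F)⁻¹) * ∑ k ∈ Finset.range m, τ k := by
      have hSumτ : ∑ k ∈ Finset.range m, τ k =
          algebraMap F Ω ϖ'⁻¹ * ((m : Ω) * algebraMap F Ω (kb.basis.repr e₁ ⟨0, hmpos⟩)) := by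
        rw [← hsum', ← mul_assoc, ← map_mul, inv_mul_cancel₀ hϖ0, map_one, one_mul]
      rw [hSumτ, hmΩ]
      simp only [← map_mul]
      congr 1
      field_simp
    rw [← heq] at hint
    have hv : kb.basis.repr e₁ ⟨0, hmpos⟩ * ϖ'⁻¹ ∈ V :=
      hV.closed _ ((isIntegral_algebraMap_iff (algebraMap F Ω).injective).1 hint)
    have h0 := kummerE_repr kb ⟨0, hmpos⟩
    rw [hE, map_add, Finsupp.add_apply, smul_repr] at h0
    refine hV.m_inv_ne (kb.basis.repr e₁ ⟨0, hmpos⟩ * ϖ'⁻¹ + kb.basis.repr c₁ ⟨0, hmpos⟩)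
      (V.add_mem hv (hV.repr_mem kb hc₁ _)) ?_
    rw [← h0, mul_add, mul_comm (kb.basis.repr e₁ ⟨0, hmpos⟩), ← mul_assoc,
      mul_inv_cancel₀ hϖ0, one_mul]

end Main

end Fermat.Agent.A2.H348

end
-- ===== PACK-END A2/H348/Root.lean

-- ===== PACK-BEGIN A2/H708/GaussInfModular.lean
section




/-!
# A2 (helper708): `modularFunctionFieldFull N` is generated by integer series

`intGen_full N : IntGen (modularFunctionFieldFull N)` : every element of
`ℚ(j(t^d) : d ∣ N) ⊆ ℚ((t))` is a fraction `P / Q` of series with INTEGER coefficients lying in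
the field.  This is the hypothesis `hgen` of the Gauss valuation ring `gaussInf` (all levels `N`,
all residue characteristics).
-/

set_option autoImplicit false

noncomputable section

namespace Fermat.Agent.A2.H708

open ModularCurve HahnSeries IntermediateField Fermat.Agent.S18.H602

theorem castQ_injective : Function.Injective castQ :=
  coeffMap_injective _ (RingHom.injective_int (Int.castRingHom ℚ))

/-- `j(t^d)` with integer coefficients. -/
def jInt (d : ℕ) [NeZero d] : LaurentSeries ℤ := jqNModC ℤ d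

theorem castQ_jInt (d : ℕ) [NeZero d] : castQ (jInt d) = qExpand ℚ d jq := by
  rw [castQ, jInt, coeffMap_jqNModC, jqNModC, jqModC_rat]

theorem castQ_single_zero (a : ℤ) :
    castQ (HahnSeries.single 0 a) = algebraMap ℚ (LaurentSeries ℚ) (a : ℚ) := by
  rw [castQ, coeffMap_single, algebraMap_laurentSeries_eq_single]
  rfl

/-- fractions of integer series in a subfield of `ℚ((t))`. -/
def IsIntFrac (F₀ : IntermediateField ℚ (LaurentSeries ℚ)) (z : LaurentSeries ℚ) : Prop :=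
  ∃ P Q : LaurentSeries ℤ, Q ≠ 0 ∧ castQ Q ∈ F₀ ∧ z * castQ Q = castQ P

theorem castQ_ne_zero {Q : LaurentSeries ℤ} (h : Q ≠ 0) : castQ Q ≠ 0 :=
  fun h0 => h (castQ_injective (h0.trans (map_zero _).symm))

/-- A field generated over `ℚ` by integer series consists of fractions of integer series. -/
theorem intGen_adjoin (S : Set (LaurentSeries ℤ)) :
    IntGen (IntermediateField.adjoin ℚ (castQ '' S)) := by
  intro z hz
  show IsIntFrac _ z
  induction hz using IntermediateField.adjoin_induction with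
  | mem y hy =>
    obtain ⟨s, hs, rfl⟩ := hy
    refine ⟨s, 1, one_ne_zero, ?_, ?_⟩
    · rw [map_one]; exact one_mem _
    · rw [map_one, mul_one]
  | algebraMap c =>
    refine ⟨HahnSeries.single 0 c.num, HahnSeries.single 0 (c.den : ℤ), ?_, ?_, ?_⟩
    · intro h
      have := congrArg (fun z => z.coeff 0) h
      simp at this
    · rw [castQ_single_zero]
      exact IntermediateField.algebraMap_mem _ _
    · rw [castQ_single_zero, castQ_single_zero, ← map_mul]
      congr 1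
      have := Rat.mul_den_eq_num c
      exact_mod_cast this
  | add x y hx hy ihx ihy =>
    obtain ⟨P, Q, h0, hm, he⟩ := ihx
    obtain ⟨P', Q', h0', hm', he'⟩ := ihy
    refine ⟨P * Q' + P' * Q, Q * Q', mul_ne_zero h0 h0', ?_, ?_⟩
    · rw [map_mul]; exact mul_mem hm hm'
    · rw [map_add, map_mul, map_mul, map_mul, ← he, ← he']
      ring
  | inv x hx ihx =>
    obtain ⟨P, Q, h0, hm, he⟩ := ihx
    by_cases hx0 : x = 0
    · refine ⟨0, 1, one_ne_zero, ?_, ?_⟩
      · rw [map_one]; exact one_mem _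
      · rw [hx0, inv_zero, zero_mul, map_zero]
    · have hP : P ≠ 0 := by
        rintro rfl
        rw [map_zero] at he
        rcases mul_eq_zero.mp he with h | h
        · exact hx0 h
        · exact castQ_ne_zero h0 h
      refine ⟨Q, P, hP, ?_, ?_⟩
      · rw [← he]
        exact mul_mem hx hm
      · rw [← he, ← mul_assoc, inv_mul_cancel₀ hx0, one_mul]
  | mul x y hx hy ihx ihy =>
    obtain ⟨P, Q, h0, hm, he⟩ := ihx
    obtain ⟨P', Q', h0', hm', he'⟩ := ihy
    refine ⟨P * P', Q * Q', mul_ne_zero h0 h0', ?_, ?_⟩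
    · rw [map_mul]; exact mul_mem hm hm'
    · rw [map_mul, map_mul, ← he, ← he']
      ring

/-- the integer generators of `modularFunctionFieldFull N`. -/
def intGens (N : ℕ) : Set (LaurentSeries ℤ) :=
  {x | ∃ (d : ℕ) (_ : NeZero d), d ∣ N ∧ x = jInt d}

theorem castQ_image_intGens (N : ℕ) : castQ '' intGens N = divisorExpansions N := by
  ext x
  constructor
  · rintro ⟨_, ⟨d, hd, hdN, rfl⟩, rfl⟩
    exact ⟨d, hd, hdN, castQ_jInt d⟩
  · rintro ⟨d, hd, hdN, rfl⟩
    exact ⟨jInt d, ⟨d, hd, hdN, rfl⟩, castQ_jInt d⟩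

/-- **`ℚ(j(t^d) : d ∣ N)` is generated by integer series** (every level `N`). -/
theorem intGen_full (N : ℕ) : IntGen (modularFunctionFieldFull N) := by
  have h := intGen_adjoin (intGens N)
  rw [castQ_image_intGens] at h
  exact h

end Fermat.Agent.A2.H708

end
end
-- ===== PACK-END A2/H708/GaussInfModular.lean

-- ===== PACK-BEGIN S18/H438/Front/PolyAlg.lean
section


/-!
# S18 / ALG-FRONT (helper438), part 7: the chart as an `R[X]`-algebra

`B = chartRing R z` (integral closure of `R[z]` in `F`) is an `R[X]`-algebra via `X ↦ z`: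

* `chartPolyHom R z : R[X] →+* chartRing R z`, `chartPolyAlgebra R z` (a `def`, use with `letI`);
* `chartPolyHom_C_eq_chartUnif` : `C w ↦ ϖ`;
* `chartPolyHom_injective`, `chartPoly_finite`, `chartPoly_isTorsionFree`
  (the instance hypotheses of `B12.B2RegularStatement` and of `H425.hsep_poly`).
-/

set_option autoImplicit false
set_option linter.style.haveILetI false
set_option linter.unusedSectionVars false

noncomputable section

namespace Fermat.Agent.S18.H438

open Polynomial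

variable {F : Type*} [Field F] (R : Subring F) (z : F)

/-- `R[X] → R[z]`, `X ↦ z`. -/
def basePolyHom : R[X] →+* baseRing R z :=
  (Polynomial.aeval (⟨z, self_mem_baseRing R z⟩ : baseRing R z)).toRingHom

theorem coe_basePolyHom (P : R[X]) :
    ((basePolyHom R z P : baseRing R z) : F) = Polynomial.aeval z P := by
  have : ((basePolyHom R z P : baseRing R z) : F) =
      (baseRing R z).val (Polynomial.aeval (⟨z, self_mem_baseRing R z⟩ : baseRing R z) P) := rfl
  rw [this, ← Polynomial.aeval_algHom_apply]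
  rfl

theorem basePolyHom_surjective : Function.Surjective (basePolyHom R z) := by
  rintro ⟨a, ha⟩
  obtain ⟨P, hP⟩ := exists_aeval_eq_of_mem_baseRing R z ha
  exact ⟨P, Subtype.ext (by rw [coe_basePolyHom, hP])⟩

/-- `R[X] → B`, `X ↦ z`. -/
def chartPolyHom : R[X] →+* chartRing R z :=
  (algebraMap (baseRing R z) (chartRing R z)).comp (basePolyHom R z)

theorem coe_chartPolyHom (P : R[X]) :
    ((chartPolyHom R z P : chartRing R z) : F) = Polynomial.aeval z P :=
  coe_basePolyHom R z P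

theorem chartPolyHom_C_eq_chartUnif {w : F} (hwR : w ∈ R) :
    chartPolyHom R z (C (⟨w, hwR⟩ : R)) = chartUnif (z := z) hwR := by
  apply Subtype.ext
  rw [coe_chartPolyHom, Polynomial.aeval_C]
  rfl

theorem chartPolyHom_injective (hz : Transcendental R z) :
    Function.Injective (chartPolyHom R z) := by
  intro P Q hPQ
  have h := congrArg (fun b : chartRing R z => (b : F)) hPQ
  simp only [coe_chartPolyHom] at h
  exact (transcendental_iff_injective.1 hz) h

/-- The `R[X]`-algebra structure on the chart (`X ↦ z`). -/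
@[reducible] def chartPolyAlgebra : Algebra R[X] (chartRing R z) := (chartPolyHom R z).toAlgebra

theorem chartPoly_isTorsionFree (hz : Transcendental R z) :
    letI := chartPolyAlgebra R z
    Module.IsTorsionFree R[X] (chartRing R z) := by
  letI := chartPolyAlgebra R z
  refine Module.IsTorsionFree.of_smul_eq_zero (R := R[X]) (M := chartRing R z) fun r m h => ?_
  rw [Algebra.smul_def] at h
  rcases mul_eq_zero.1 h with h | h
  · left
    exact chartPolyHom_injective R z hz (by rw [map_zero]; exact h)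
  · exact Or.inr h

section Instances

attribute [local instance] FractionRing.liftAlgebra

variable [CharZero F] [hfin : FiniteDimensional (FractionRing (baseRing R z)) F]
  [IsDiscreteValuationRing R]

theorem chartPoly_finite (hz : Transcendental R z) :
    letI := chartPolyAlgebra R z
    Module.Finite R[X] (chartRing R z) := by
  letI a1 : Algebra R[X] (baseRing R z) := (basePolyHom R z).toAlgebra
  letI := chartPolyAlgebra R z
  haveI : IsScalarTower R[X] (baseRing R z) (chartRing R z) :=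
    IsScalarTower.of_algebraMap_eq (fun _ => rfl)
  haveI : Module.Finite R[X] (baseRing R z) :=
    Module.Finite.of_surjective (Algebra.linearMap R[X] (baseRing R z))
      (basePolyHom_surjective R z)
  haveI := chartRing_finite R z hz
  exact Module.Finite.trans (baseRing R z) (chartRing R z)

end Instances

end Fermat.Agent.S18.H438

end
end
-- ===== PACK-END S18/H438/Front/PolyAlg.lean

-- ===== PACK-BEGIN A2/Mod/H189/ChartChangeT2.lean
section


/-!
# Cell A2 / MOD, GOODRED part G3 (helper189): from the `t₂`-charts to the `j`-charts (`q = 3`)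

Abstract setting (Mathlib only): `F` a field over `R`, `2` a unit of `R`, `t, j ∈ F` with
`j t² = (t + 256)³` (`t` = Hauptmodul of `X₀(2)`), `j ≠ 0`; `V` a subring of `F` containing `R`
in which `t` and `t + 256` are units (the Gauss valuation ring), `w : F`.

* `goodOn_j_of_t2`    : `GoodOn` for the chart of `R[t]` ⟹ `GoodOn` for the chart of `R[j]`
  (`IC(R[j]) = IC(R[t])[1/t]`);
* `goodOn_jinv_of_t2` : `GoodOn` for the charts of `R[t]` and `R[1/t]` ⟹ `GoodOn` for the chart of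
  `R[1/j]`  (`IC(R[1/j]) = IC(R[u])`, `u = 1/(t+256)`, glued from `IC(R[t])[1/(t+256)]` and
  `IC(R[1/t])[1/(1+256/t)]`).
-/

set_option autoImplicit false

namespace Fermat.Agent.A2.Mod.H189

variable {R : Type*} [CommRing R] {F : Type*} [Field F] [Algebra R F]

/-- `R[y] ⊆ F`. -/
abbrev Aof (R : Type*) [CommRing R] {F : Type*} [Field F] [Algebra R F] (y : F) :
    Subalgebra R F := Algebra.adjoin R ({y} : Set F)

theorem self_mem_Aof (y : F) : y ∈ Aof R y := Algebra.subset_adjoin rfl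

theorem Aof_le {y : F} {B : Subalgebra R F} (hy : y ∈ B) : Aof R y ≤ B :=
  Algebra.adjoin_le (by
    intro x hx
    rw [Set.mem_singleton_iff] at hx
    rw [hx]
    exact hy)

theorem ofNat_mem_sub (A : Subalgebra R F) (n : ℕ) [n.AtLeastTwo] : (OfNat.ofNat n : F) ∈ A := by
  have : (OfNat.ofNat n : F) = algebraMap R F (OfNat.ofNat n) := (map_ofNat _ n).symm
  rw [this]
  exact A.algebraMap_mem _

section T2

variable {V : Subring F} {w : F} {t j : F} (i : R)

include i in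
theorem t2_facts (hi : (256 : R) * i = 1) (hj : j ≠ 0) (hrel : j * t ^ 2 = (t + 256) ^ 3) :
    (256 : F) * algebraMap R F i = 1 ∧ (256 : F) ≠ 0 ∧ t ≠ 0 ∧ t + 256 ≠ 0 := by
  have h1 : (256 : F) * algebraMap R F i = 1 := by
    have := congrArg (algebraMap R F) hi
    rwa [map_mul, map_one, map_ofNat] at this
  have h2 : (256 : F) ≠ 0 := fun h => by rw [h, zero_mul] at h1; exact zero_ne_one h1
  have h3 : t ≠ 0 := by
    intro h
    rw [h] at hrel
    simp only [ne_eq, OfNat.ofNat_ne_zero, not_false_eq_true, zero_pow, mul_zero, zero_add] at hrel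
    exact pow_ne_zero 3 h2 hrel.symm
  refine ⟨h1, h2, h3, fun h => ?_⟩
  rw [h] at hrel
  simp only [ne_eq, OfNat.ofNat_ne_zero, not_false_eq_true, zero_pow, mul_eq_zero,
    pow_eq_zero_iff] at hrel
  rcases hrel with h | h
  · exact hj h
  · exact h3 h

include i in
/-- **`t₂ → j`, finite chart.** -/
theorem goodOn_j_of_t2 (hi : (256 : R) * i = 1) (hj : j ≠ 0) (hrel : j * t ^ 2 = (t + 256) ^ 3)
    (htV : t ∈ V) (htV' : t⁻¹ ∈ V) (hg : GoodOn V w (Aof R t)) : GoodOn V w (Aof R j) := by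
  obtain ⟨hi', h256, ht0, -⟩ := t2_facts i hi hj hrel
  have hjeq : j = (t + 256) ^ 3 * t⁻¹ ^ 2 := by
    field_simp
    exact hrel
  refine (hg.loc (self_mem_Aof t) ht0 htV htV').congr ?_ ?_
  · -- `R[t, 1/t]` is integral over `R[j]`
    intro a ha
    refine isIntegral_of_mem_locSub (A' := Aof R j) (fun a ha => ?_) ?_ ha
    · refine isIntegral_of_mem_adjoin (A := Aof R j) (S := {t}) (fun x hx => ?_) ha
      rw [Set.mem_singleton_iff] at hx
      subst hx
      -- `t ^ 3 + (768 - j) t ^ 2 + 196608 t + 16777216 = 0`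
      refine isIntegral_of_cubic (a := 1) (v := 1) (c₂ := 768 - j) (c₁ := 196608)
        (c₀ := 16777216) (Subalgebra.one_mem _) (one_mul 1)
        (Subalgebra.sub_mem _ (ofNat_mem_sub _ 768) (self_mem_Aof j))
        (ofNat_mem_sub _ 196608) (ofNat_mem_sub _ 16777216) ?_
      linear_combination -hrel
    · -- `1 / t`
      refine isIntegral_of_cubic (a := 16777216) (v := algebraMap R F (i ^ 3))
        (c₂ := 196608) (c₁ := 768 - j) (c₀ := 1) (Subalgebra.algebraMap_mem _ _) ?_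
        (ofNat_mem_sub _ 196608)
        (Subalgebra.sub_mem _ (ofNat_mem_sub _ 768) (self_mem_Aof j)) (Subalgebra.one_mem _) ?_
      · rw [map_pow]
        have : (16777216 : F) = 256 ^ 3 := by norm_num
        rw [this, ← mul_pow, mul_comm, hi', one_pow]
      · field_simp
        linear_combination -hrel
  · -- `R[j] ⊆ R[t, 1/t]`
    intro a ha
    refine isIntegral_of_mem (Aof_le (B := locSub (Aof R t) t) ?_ ha)
    rw [hjeq]
    refine Subalgebra.mul_mem _ (Subalgebra.pow_mem _ (Subalgebra.add_mem _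
      (le_locSub _ _ (self_mem_Aof t)) (ofNat_mem_sub _ 256)) 3)
      (Subalgebra.pow_mem _ (inv_mem_locSub _ _) 2)

include i in
/-- **`t₂ → j`, chart at infinity.** -/
theorem goodOn_jinv_of_t2 (hi : (256 : R) * i = 1) (hj : j ≠ 0)
    (hrel : j * t ^ 2 = (t + 256) ^ 3) (hRV : ∀ r : R, algebraMap R F r ∈ V)
    (htV : t ∈ V) (htV' : t⁻¹ ∈ V) (huV : (t + 256)⁻¹ ∈ V)
    (hg : GoodOn V w (Aof R t)) (hg' : GoodOn V w (Aof R t⁻¹)) : GoodOn V w (Aof R j⁻¹) := by
  obtain ⟨hi', h256, ht0, htu0⟩ := t2_facts i hi hj hrel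
  have h256V : (256 : F) ∈ V := by
    have := hRV 256
    rwa [map_ofNat] at this
  set u : F := (t + 256)⁻¹ with hu
  have hu0 : u ≠ 0 := inv_ne_zero htu0
  have htu : t * u = 1 - 256 * u := by
    rw [hu]
    field_simp
    ring
  have hjinv : j⁻¹ = (1 - 256 * u) ^ 2 * u := by
    rw [← htu, hu]
    field_simp
    linear_combination -hrel
  have h1u0 : 1 - 256 * u ≠ 0 := by
    rw [← htu]
    exact mul_ne_zero ht0 hu0
  have h1t0 : 1 + 256 * t⁻¹ ≠ 0 := by
    have : 1 + 256 * t⁻¹ = (t + 256) * t⁻¹ := by field_simp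
    rw [this]
    exact mul_ne_zero htu0 (inv_ne_zero ht0)
  have hinv1 : (1 - 256 * u)⁻¹ = 1 + 256 * t⁻¹ := by
    rw [← htu, hu]
    field_simp
  have hinv2 : (1 + 256 * t⁻¹)⁻¹ = 1 - 256 * u := by
    rw [← hinv1, inv_inv]
  -- the chart of `R[u]`
  have hgu : GoodOn V w (Aof R u) := by
    refine GoodOn.glue (s₁ := u) (s₂ := 1 - 256 * u) (α := 256) (β := 1)
      (adjoin_subset_subring hRV (by
        intro x hx
        rw [Set.mem_singleton_iff] at hx
        rw [hx]
        exact huV))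
      (self_mem_Aof u)
      (Subalgebra.sub_mem _ (Subalgebra.one_mem _)
        (Subalgebra.mul_mem _ (ofNat_mem_sub _ 256) (self_mem_Aof u)))
      (ofNat_mem_sub _ 256) (Subalgebra.one_mem _) (by ring) ?_ ?_
    · -- `R[u, 1/u] = R[t, 1/(t+256)]`
      refine (hg.loc (s := t + 256) (Subalgebra.add_mem _ (self_mem_Aof t) (ofNat_mem_sub _ 256))
        htu0 (V.add_mem htV h256V) huV).of_le_of_le ?_ ?_
      · refine locSub_le (Aof_le ?_) ?_
        · -- `t = 1/u - 256`
          have : t = u⁻¹ - 256 := by rw [hu, inv_inv]; ring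
          rw [this]
          exact Subalgebra.sub_mem _ (inv_mem_locSub _ _) (ofNat_mem_sub _ 256)
        · exact le_locSub _ _ (self_mem_Aof u)
      · refine locSub_le (Aof_le ?_) ?_
        · exact inv_mem_locSub _ _
        · rw [hu, inv_inv]
          exact le_locSub _ _ (Subalgebra.add_mem _ (self_mem_Aof t) (ofNat_mem_sub _ 256))
    · -- `R[u, 1/(1-256u)] = R[1/t, 1/(1+256/t)]`
      refine (hg'.loc (s := 1 + 256 * t⁻¹)
        (Subalgebra.add_mem _ (Subalgebra.one_mem _)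
          (Subalgebra.mul_mem _ (ofNat_mem_sub _ 256) (self_mem_Aof t⁻¹)))
        h1t0 (V.add_mem V.one_mem (V.mul_mem h256V htV')) ?_).of_le_of_le ?_ ?_
      · rw [hinv2, ← htu]
        exact V.mul_mem htV huV
      · refine locSub_le (Aof_le ?_) ?_
        · -- `1/t = i ((1 - 256 u)⁻¹ - 1)`
          have : t⁻¹ = algebraMap R F i * ((1 - 256 * u)⁻¹ - 1) := by
            rw [hinv1]
            linear_combination (-t⁻¹) * hi'
          rw [this]
          exact Subalgebra.mul_mem _ (Subalgebra.algebraMap_mem _ _)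
            (Subalgebra.sub_mem _ (inv_mem_locSub _ _) (Subalgebra.one_mem _))
        · rw [hinv2]
          exact le_locSub _ _ (Subalgebra.sub_mem _ (Subalgebra.one_mem _)
            (Subalgebra.mul_mem _ (ofNat_mem_sub _ 256) (self_mem_Aof u)))
      · refine locSub_le (Aof_le ?_) ?_
        · -- `u = (1/t) (1 + 256/t)⁻¹`
          have : u = t⁻¹ * (1 + 256 * t⁻¹)⁻¹ := by
            rw [hinv2, ← htu]
            field_simp
          rw [this]
          exact Subalgebra.mul_mem _ (le_locSub _ _ (self_mem_Aof t⁻¹)) (inv_mem_locSub _ _)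
        · rw [hinv1]
          exact le_locSub _ _ (Subalgebra.add_mem _ (Subalgebra.one_mem _)
            (Subalgebra.mul_mem _ (ofNat_mem_sub _ 256) (self_mem_Aof t⁻¹)))
  -- `IC(R[1/j]) = IC(R[u])`
  refine hgu.congr ?_ ?_
  · intro a ha
    refine isIntegral_of_mem_adjoin (A := Aof R j⁻¹) (S := {u}) (fun x hx => ?_) ha
    rw [Set.mem_singleton_iff] at hx
    subst hx
    -- `65536 u ^ 3 - 512 u ^ 2 + u - 1/j = 0`
    refine isIntegral_of_cubic (a := 65536) (v := algebraMap R F (i ^ 2))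
      (c₂ := -512) (c₁ := 1) (c₀ := -j⁻¹) (Subalgebra.algebraMap_mem _ _) ?_
      (Subalgebra.neg_mem _ (ofNat_mem_sub _ 512)) (Subalgebra.one_mem _)
      (Subalgebra.neg_mem _ (self_mem_Aof j⁻¹)) ?_
    · rw [map_pow]
      have : (65536 : F) = 256 ^ 2 := by norm_num
      rw [this, ← mul_pow, mul_comm, hi', one_pow]
    · rw [hjinv]
      ring
  · intro a ha
    refine isIntegral_of_mem (Aof_le (B := Aof R u) ?_ ha)
    rw [hjinv]
    exact Subalgebra.mul_mem _ (Subalgebra.pow_mem _ (Subalgebra.sub_mem _ (Subalgebra.one_mem _)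
      (Subalgebra.mul_mem _ (ofNat_mem_sub _ 256) (self_mem_Aof u))) 2) (self_mem_Aof u)

end T2

end Fermat.Agent.A2.Mod.H189

end
-- ===== PACK-END A2/Mod/H189/ChartChangeT2.lean

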