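import Mathlib
import Fermat.Prelude.Def_CuspForm_HeckeAlgebra
import Fermat.Prelude.Def_ModularCurve_PeriodHomPair
import Fermat.Prelude.Def_ModularCurve_X0ModL
import Fermat.Prelude.Def_ModularForm_HeckeOperatorForms
import Fermat.Prelude.Thm_ModularFormClass_qCoeff_heckeT
import Fermat.Prelude.Thm_ModularForm_sturm_bound_Gamma0
import Fermat.Prelude.Def_AlgebraicCurve_DivisorClassGroup
import Fermat.Agent.Pack.S34.G0E4L2
import Fermat.Agent.Pack.S34.G0E4L3
import Fermat.Agent.Pack.S34.G0E3L1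
import Fermat.Agent.Pack.S34.G0E5L0
import Fermat.Agent.Pack.S34.G0E3L2
import Fermat.Agent.Pack.S34.G0E0L2
import Fermat.Agent.Pack.S34.G0E5L2
import Fermat.Agent.Pack.S34.G0E5L1
import Fermat.Agent.Pack.S34.G0E5L3
import Fermat.Agent.Pack.S34.G0E1L2
import Fermat.Agent.Pack.S34.G0E3L3
import Fermat.Agent.Pack.S34.G0E3L0

-- ===== PACK-BEGIN S22/H262/IntMat.lean
section


set_option autoImplicit false

/-!
# Integer matrices of positive determinant inside `GL₂(ℝ)`; Hermite decomposition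
-/

open Complex Filter Function Metric Set
open UpperHalfPlane hiding I
open scoped Real Topology Manifold ModularForm MatrixGroups

namespace Fermat.Agent.S22.H262

open Matrix.SpecialLinearGroup

/-- Integer matrices of positive determinant, as a submonoid of `GL₂(ℝ)`. -/
def posInt : Submonoid (GL (Fin 2) ℝ) where
  carrier := {A | (∀ i j, ∃ m : ℤ, A i j = m) ∧ 0 < A.det.val}
  one_mem' := by
    refine ⟨fun i j => ?_, by simp⟩
    by_cases h : i = j
    · exact ⟨1, by simp [h]⟩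
    · exact ⟨0, by simp [h]⟩
  mul_mem' := by
    rintro A B ⟨hA, hA'⟩ ⟨hB, hB'⟩
    refine ⟨fun i j => ?_, ?_⟩
    · obtain ⟨a0, ha0⟩ := hA i 0
      obtain ⟨a1, ha1⟩ := hA i 1
      obtain ⟨b0, hb0⟩ := hB 0 j
      obtain ⟨b1, hb1⟩ := hB 1 j
      refine ⟨a0 * b0 + a1 * b1, ?_⟩
      simp only [Matrix.GeneralLinearGroup.coe_mul, Matrix.mul_apply, Fin.sum_univ_two, ha0, ha1,
        hb0, hb1]
      push_cast
      ring
    · rw [map_mul, Units.val_mul]
      exact mul_pos hA' hB'

theorem mem_posInt {A : GL (Fin 2) ℝ} :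
    A ∈ posInt ↔ (∀ i j, ∃ m : ℤ, A i j = m) ∧ 0 < A.det.val := Iff.rfl

theorem det_pos_of_mem_posInt {A : GL (Fin 2) ℝ} (hA : A ∈ posInt) : 0 < A.det.val := hA.2

theorem mapGL_mem_posInt (g : SL(2, ℤ)) : (mapGL ℝ g : GL (Fin 2) ℝ) ∈ posInt := by
  refine ⟨fun i j => ⟨g i j, by simp⟩, by simp⟩

/-- Integer vectors in `ℂ²`. -/
def Vint : Set (ℂ × ℂ) := {v | ∃ x y : ℤ, v = ((x : ℂ), (y : ℂ))}

theorem actV_mem_Vint {A : GL (Fin 2) ℝ} (hA : A ∈ posInt) {v : ℂ × ℂ} (hv : v ∈ Vint) :
    actV A v ∈ Vint := by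
  obtain ⟨x, y, rfl⟩ := hv
  obtain ⟨a, ha⟩ := hA.1 0 0
  obtain ⟨b, hb⟩ := hA.1 0 1
  obtain ⟨c, hc⟩ := hA.1 1 0
  obtain ⟨d, hd⟩ := hA.1 1 1
  refine ⟨a * x + b * y, c * x + d * y, ?_⟩
  simp only [actV, ha, hb, hc, hd]
  push_cast
  rfl

/-- The element of `GL₂(ℝ)` attached to an integer matrix with positive determinant. -/
noncomputable def glOfInt (M : Matrix (Fin 2) (Fin 2) ℤ) (hM : 0 < M.det) : GL (Fin 2) ℝ :=
  Matrix.GeneralLinearGroup.mkOfDetNeZero (M.map (Int.castRingHom ℝ)) (by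
    have : (M.map (Int.castRingHom ℝ)).det = ((M.det : ℤ) : ℝ) := by
      rw [← RingHom.mapMatrix_apply, ← RingHom.map_det]
      rfl
    rw [this]
    exact_mod_cast hM.ne')

theorem glOfInt_apply (M : Matrix (Fin 2) (Fin 2) ℤ) (hM : 0 < M.det) (i j : Fin 2) :
    (glOfInt M hM) i j = (M i j : ℝ) := rfl

theorem det_glOfInt (M : Matrix (Fin 2) (Fin 2) ℤ) (hM : 0 < M.det) :
    (glOfInt M hM).det.val = (M.det : ℝ) := by
  rw [Matrix.GeneralLinearGroup.val_det_apply]
  show (M.map (Int.castRingHom ℝ)).det = _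
  rw [← RingHom.mapMatrix_apply, ← RingHom.map_det]
  rfl

theorem glOfInt_mem_posInt (M : Matrix (Fin 2) (Fin 2) ℤ) (hM : 0 < M.det) :
    glOfInt M hM ∈ posInt :=
  ⟨fun i j => ⟨M i j, rfl⟩, by rw [det_glOfInt]; exact_mod_cast hM⟩

theorem exists_eq_glOfInt {A : GL (Fin 2) ℝ} (hA : A ∈ posInt) :
    ∃ (M : Matrix (Fin 2) (Fin 2) ℤ) (hM : 0 < M.det), A = glOfInt M hM := by
  choose m hm using hA.1
  let M : Matrix (Fin 2) (Fin 2) ℤ := Matrix.of m
  have hAM : (A : Matrix (Fin 2) (Fin 2) ℝ) = M.map (Int.castRingHom ℝ) := by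
    ext i j
    simp [M, hm i j]
  have hdet : ((M.det : ℤ) : ℝ) = A.det.val := by
    rw [Matrix.GeneralLinearGroup.val_det_apply, hAM, ← RingHom.mapMatrix_apply,
      ← RingHom.map_det]
    rfl
  have hM : 0 < M.det := by
    have := hA.2
    rw [← hdet] at this
    exact_mod_cast this
  refine ⟨M, hM, ?_⟩
  ext i j
  rw [glOfInt_apply]
  exact hm i j

/-- Hermite decomposition of integer matrices with nonzero determinant. -/
theorem exists_SL_mul_upper (m : ℤ) (hm : m ≠ 0) (A : FixedDetMatrix (Fin 2) ℤ m) :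
    ∃ (g : SL(2, ℤ)) (D : FixedDetMatrix (Fin 2) ℤ m), D.1 1 0 = 0 ∧ A.1 = g.1 * D.1 := by
  induction A using FixedDetMatrices.induction_on hm with
  | h0 A h _ _ _ => exact ⟨1, A, h, by simp⟩
  | hS B ih =>
    obtain ⟨g, D, hD, hB⟩ := ih
    exact ⟨ModularGroup.S * g, D, hD, by
      rw [FixedDetMatrices.smul_coe, hB, Matrix.SpecialLinearGroup.coe_mul, Matrix.mul_assoc]⟩
  | hT B ih =>
    obtain ⟨g, D, hD, hB⟩ := ih
    exact ⟨ModularGroup.T * g, D, hD, by
      rw [FixedDetMatrices.smul_coe, hB, Matrix.SpecialLinearGroup.coe_mul, Matrix.mul_assoc]⟩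

/-- Hermite decomposition inside `GL₂(ℝ)`. -/
theorem exists_mapGL_mul_upper {A : GL (Fin 2) ℝ} (hA : A ∈ posInt) :
    ∃ (g : SL(2, ℤ)) (δ : GL (Fin 2) ℝ), δ ∈ posInt ∧ δ 1 0 = 0 ∧ A = mapGL ℝ g * δ := by
  obtain ⟨M, hM, rfl⟩ := exists_eq_glOfInt hA
  obtain ⟨g, D, hD, hMD⟩ := exists_SL_mul_upper M.det hM.ne' ⟨M, rfl⟩
  have hDdet : 0 < D.1.det := by rw [D.2]; exact hM
  refine ⟨g, glOfInt D.1 hDdet, glOfInt_mem_posInt _ _, ?_, ?_⟩
  · rw [glOfInt_apply, hD]
    simp
  · ext i j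
    simp only [Matrix.GeneralLinearGroup.coe_mul, Matrix.mul_apply, Fin.sum_univ_two,
      glOfInt_apply]
    have := congrFun (congrFun hMD i) j
    simp only [Matrix.mul_apply, Fin.sum_univ_two] at this
    have h2 : (M i j : ℝ) = ((g.1 i 0 * D.1 0 j + g.1 i 1 * D.1 1 j : ℤ) : ℝ) := by
      exact_mod_cast congrArg (Int.cast : ℤ → ℝ) this
    rw [h2]
    simp

end Fermat.Agent.S22.H262

end
-- ===== PACK-END S22/H262/IntMat.lean

-- ===== PACK-BEGIN S31/H622/Chi.lean
section





/-!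
# Row S31, piece SS (helper622) — the `Γ₀(N)`-partition of unity on `ℍ`

`chiH N : ℍ → ℝ` is continuous, takes values in `[0,1]`, satisfies `∑_{γ ∈ Γ₀(N)} chiH (γ • τ) = 1`
and is integrable for the hyperbolic measure of `ℍ`.
-/

set_option autoImplicit false
set_option linter.style.haveILetI false

open UpperHalfPlane CongruenceSubgroup MeasureTheory
open scoped MatrixGroups ModularForm

namespace Fermat.Agent.S31.H622

open Fermat.Agent.S21

/-- A fixed smooth `SL(2,ℤ)`-partition of unity on the upper half plane. -/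
noncomputable def chi1 : ℂ → ℝ := Classical.choose exists_partition_SL2Z

theorem chi1_spec : IsSL2ZPartition chi1 := by
  obtain ⟨h1, h2, h3, h4, h5⟩ := Classical.choose_spec exists_partition_SL2Z
  exact ⟨h1, h2, h3, h4, h5⟩

/-- The `Γ₀(N)`-partition of unity as a function on `ℍ`. -/
noncomputable def chiH (N : ℕ) (τ : ℍ) : ℝ := chi N chi1 (τ : ℂ)

theorem mob_coe' (g : SL(2, ℤ)) (w : ℍ) : mob g (w : ℂ) = ((g • w : ℍ) : ℂ) := by
  simp [mob]

instance countable_SL2Z : Countable SL(2, ℤ) :=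
  haveI : Countable (Matrix (Fin 2) (Fin 2) ℤ) := inferInstanceAs (Countable (Fin 2 → Fin 2 → ℤ))
  Subtype.val_injective.countable

section

variable (N : ℕ) [NeZero N]

theorem chiH_nonneg (τ : ℍ) : 0 ≤ chiH N τ := chi_nonneg N chi1_spec _

theorem chiH_le_one (τ : ℍ) : chiH N τ ≤ 1 := chi_le_one N chi1_spec _

theorem continuous_chiH : Continuous (chiH N) := by
  have h := continuousOn_chi N chi1_spec
  exact h.comp_continuous UpperHalfPlane.continuous_coe fun τ => coe_mem_Uhp τ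

theorem measurable_chiH : Measurable (chiH N) := (continuous_chiH N).measurable

theorem abs_chiH_le (τ : ℍ) : ‖chiH N τ‖ ≤ 1 := by
  rw [Real.norm_of_nonneg (chiH_nonneg N τ)]
  exact chiH_le_one N τ

/-- The defining property: the `Γ₀(N)`-translates of `chiH` sum to `1`. -/
theorem hasSum_chiH (τ : ℍ) :
    HasSum (fun γ : Gamma0 N => chiH N ((γ : SL(2, ℤ)) • τ)) 1 := by
  have h1 := chi_sum_eq_one N chi1_spec (τ : ℂ) (coe_mem_Uhp τ)
  have hfin : (Function.support fun γ : Gamma0 N => chiH N ((γ : SL(2, ℤ)) • τ)).Finite := by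
    refine (chi_locfin N chi1_spec {(τ : ℂ)} isCompact_singleton
      (by simpa using coe_mem_Uhp τ)).subset ?_
    intro γ hγ
    refine ⟨(τ : ℂ), rfl, ?_⟩
    rw [mob_coe']
    exact hγ
  have h2 : ∑ᶠ γ : Gamma0 N, chiH N ((γ : SL(2, ℤ)) • τ) = 1 := by
    rw [← h1]
    refine finsum_congr fun γ => ?_
    rw [mob_coe']
    rfl
  rw [← h2, finsum_eq_sum _ hfin]
  exact hasSum_sum_of_ne_finset_zero fun γ hγ => by simpa using hγ

theorem sum_chiH_le_one (s : Finset (Gamma0 N)) (τ : ℍ) :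
    ∑ γ ∈ s, chiH N ((γ : SL(2, ℤ)) • τ) ≤ 1 :=
  sum_le_hasSum s (fun _ _ => chiH_nonneg N _) (hasSum_chiH N τ)

theorem exists_chiH_pos (τ : ℍ) : ∃ γ : Gamma0 N, 0 < chiH N ((γ : SL(2, ℤ)) • τ) := by
  by_contra hcon
  push Not at hcon
  have h0 : ∀ γ : Gamma0 N, chiH N ((γ : SL(2, ℤ)) • τ) = 0 := fun γ =>
    le_antisymm (hcon γ) (chiH_nonneg N _)
  have h1 := hasSum_chiH N τ
  simp only [h0] at h1
  exact zero_ne_one (h1.unique hasSum_zero).symm

end

/-! ### Finite volume and integrability -/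

/-- The cusp region `{|Re τ| ≤ 1, 1/2 < Im τ}`. -/
def cuspBox : Set ℍ := {τ | |τ.re| ≤ 1 ∧ 1 / 2 < τ.im}

theorem volume_cuspBox_lt_top : volume cuspBox < ⊤ := by
  rw [volume_eq_lintegral]
  set e := Complex.measurableEquivRealProd with he
  set G : ℝ × ℝ → ENNReal := fun p => 1 * ENNReal.ofReal (p.2 ^ (-2 : ℝ)) with hG
  have hsub : (UpperHalfPlane.coe '' cuspBox) ⊆ e ⁻¹' (Set.Icc (-1) 1 ×ˢ Set.Ioi (1 / 2)) := by
    rintro _ ⟨τ, ⟨h1, h2⟩, rfl⟩
    have h3 := abs_le.mp h1
    refine ⟨⟨?_, ?_⟩, ?_⟩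
    · exact h3.1
    · exact h3.2
    · exact h2
  have hpt : ∀ z ∈ e ⁻¹' (Set.Icc (-1 : ℝ) 1 ×ˢ Set.Ioi (1 / 2 : ℝ)),
      (((1 / ‖z.im‖₊) ^ 2 : NNReal) : ENNReal) = G (e z) := by
    intro z hz
    have hz2 : (1 / 2 : ℝ) < z.im := hz.2
    have hpos : 0 < z.im := by linarith
    simp only [hG, one_mul]
    rw [← ENNReal.ofReal_coe_nnreal]
    congr 1
    have : (e z).2 = z.im := rfl
    rw [this, Real.rpow_neg hpos.le, Real.rpow_two]
    push_cast
    rw [Real.norm_of_nonneg hpos.le]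
    simp
  calc ∫⁻ z in UpperHalfPlane.coe '' cuspBox, (((1 / ‖z.im‖₊) ^ 2 : NNReal) : ENNReal)
      ≤ ∫⁻ z in e ⁻¹' (Set.Icc (-1) 1 ×ˢ Set.Ioi (1 / 2)),
          (((1 / ‖z.im‖₊) ^ 2 : NNReal) : ENNReal) := lintegral_mono_set hsub
    _ = ∫⁻ z in e ⁻¹' (Set.Icc (-1) 1 ×ˢ Set.Ioi (1 / 2)), G (e z) :=
        setLIntegral_congr_fun (e.measurable (measurableSet_Icc.prod measurableSet_Ioi)) hpt
    _ = ∫⁻ p in Set.Icc (-1) 1 ×ˢ Set.Ioi (1 / 2), G p :=
        Complex.volume_preserving_equiv_real_prod.setLIntegral_comp_preimage_emb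
          e.measurableEmbedding G _
    _ = (∫⁻ _ in Set.Icc (-1 : ℝ) 1, 1) *
          ∫⁻ y in Set.Ioi (1 / 2 : ℝ), ENNReal.ofReal (y ^ (-2 : ℝ)) := by
        rw [Measure.volume_eq_prod, ← Measure.prod_restrict]
        have hm : Measurable fun y : ℝ => ENNReal.ofReal (y ^ (-2 : ℝ)) := by fun_prop
        exact lintegral_prod_mul (f := fun _ : ℝ => (1 : ENNReal))
          (g := fun y : ℝ => ENNReal.ofReal (y ^ (-2 : ℝ))) aemeasurable_const hm.aemeasurable
    _ < ⊤ := by
        refine ENNReal.mul_lt_top ?_ ?_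
        · simp
        · exact (integrableOn_Ioi_rpow_of_lt (by norm_num) (by norm_num)).lintegral_lt_top




theorem measurableSet_cuspBox : MeasurableSet cuspBox := by
  have h1 : MeasurableSet {τ : ℍ | |τ.re| ≤ 1} :=
    (isClosed_le (continuous_abs.comp UpperHalfPlane.continuous_re) continuous_const).measurableSet
  have h2 : MeasurableSet {τ : ℍ | 1 / 2 < τ.im} :=
    (isOpen_lt continuous_const UpperHalfPlane.continuous_im).measurableSet
  exact h1.inter h2

/-- `chi1` on `ℍ`. -/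
noncomputable def chi1H (τ : ℍ) : ℝ := chi1 (τ : ℂ)

theorem continuous_chi1H : Continuous chi1H :=
  chi1_spec.smooth.continuousOn.comp_continuous UpperHalfPlane.continuous_coe
    fun τ => coe_mem_Uhp τ

theorem chi1H_nonneg (τ : ℍ) : 0 ≤ chi1H τ := chi1_spec.nonneg _

theorem chi1H_le_one (τ : ℍ) : chi1H τ ≤ 1 := by
  have h1 := chi1_spec.sum_eq_one (τ : ℂ) (coe_mem_Uhp τ)
  have hfin := IntAAux.finite_support chi1 chi1_spec (τ : ℂ) (coe_mem_Uhp τ)
  have h2 := single_le_finsum (1 : SL(2, ℤ)) hfin fun g => chi1_spec.nonneg _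
  rw [h1] at h2
  simpa [chi1H, mob] using h2

theorem chi1H_eq_zero_of_notMem {τ : ℍ} (h : τ ∉ cuspBox) : chi1H τ = 0 := by
  by_contra h0
  exact h (chi1_spec.supp _ h0)

theorem integrable_chi1H : Integrable chi1H (volume : Measure ℍ) := by
  have h1 : IntegrableOn chi1H cuspBox volume := by
    refine Measure.integrableOn_of_bounded (M := 1) volume_cuspBox_lt_top.ne
      continuous_chi1H.aestronglyMeasurable (Filter.Eventually.of_forall fun τ => ?_)
    rw [Real.norm_of_nonneg (chi1H_nonneg τ)]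
    exact chi1H_le_one τ
  have h2 : cuspBox.indicator chi1H = chi1H := by
    funext τ
    by_cases h : τ ∈ cuspBox
    · rw [Set.indicator_of_mem h]
    · rw [Set.indicator_of_notMem h, chi1H_eq_zero_of_notMem h]
  rw [← h2]
  exact (integrable_indicator_iff measurableSet_cuspBox).mpr h1

theorem integrable_comp_smul {E : Type*} [NormedAddCommGroup E] {F : ℍ → E}
    (hF : Integrable F (volume : Measure ℍ)) (g : GL (Fin 2) ℝ) :
    Integrable (fun τ => F (g • τ)) (volume : Measure ℍ) :=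
  ((measurePreserving_smul g (volume : Measure ℍ)).integrable_comp_emb
    (MeasurableEquiv.smul g).measurableEmbedding).mpr hF

theorem integrable_chiH (N : ℕ) [NeZero N] : Integrable (chiH N) (volume : Measure ℍ) := by
  haveI : Finite (SL(2, ℤ) ⧸ Gamma0 N) := Subgroup.finite_quotient_of_finiteIndex
  letI : Fintype (SL(2, ℤ) ⧸ Gamma0 N) := Fintype.ofFinite _
  have h : chiH N = fun τ => ∑ q : SL(2, ℤ) ⧸ Gamma0 N,
      chi1H (((Quotient.out q : SL(2, ℤ)) : GL (Fin 2) ℝ) • τ) := by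
    funext τ
    rw [chiH, IntAAux.chi_of_mem N chi1 (coe_mem_Uhp τ), finsum_eq_sum_of_fintype]
    refine Finset.sum_congr rfl fun q _ => ?_
    rw [mob_coe']
    rfl
  rw [h]
  exact integrable_finsetSum _ fun q _ => integrable_comp_smul integrable_chi1H _

/-! ### Positivity of the measure on open sets -/

instance isOpenPosMeasure_uhp : (volume : Measure ℍ).IsOpenPosMeasure := by
  refine ⟨fun U hU hne => ?_⟩
  rw [volume_eq_lintegral]
  have hopen : IsOpen (UpperHalfPlane.coe '' U) := isOpenEmbedding_coe.isOpenMap U hU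
  have hpos : 0 < volume (UpperHalfPlane.coe '' U) := hopen.measure_pos volume (hne.image _)
  have hm : Measurable fun z : ℂ => (((1 / ‖z.im‖₊) ^ 2 : NNReal) : ENNReal) := by fun_prop
  refine ((setLIntegral_pos_iff hm).mpr ?_).ne'
  refine lt_of_lt_of_le hpos (measure_mono ?_)
  rintro _ ⟨τ, hτ, rfl⟩
  refine ⟨?_, ⟨τ, hτ, rfl⟩⟩
  simp only [Function.mem_support, ne_eq, ENNReal.coe_eq_zero]
  simpa using τ.im_ne_zero

theorem eq_zero_of_integral_eq_zero {F : ℍ → ℝ} (hc : Continuous F) (h0 : ∀ τ, 0 ≤ F τ)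
    (hi : Integrable F (volume : Measure ℍ)) (h : ∫ τ, F τ = 0) : ∀ τ, F τ = 0 := by
  have h1 : F =ᵐ[volume] 0 := (integral_eq_zero_iff_of_nonneg h0 hi).mp h
  have h2 : F = 0 := (hc.ae_eq_iff_eq volume continuous_const).mp h1
  exact fun τ => congrFun h2 τ

end Fermat.Agent.S31.H622

end
-- ===== PACK-END S31/H622/Chi.lean

-- ===== PACK-BEGIN S24/H624/SL2Z.lean
section


/-!
# `SL(2, ℤ)` acting on holomorphic functions; divisibility of orders at elliptic points
-/

set_option autoImplicit false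

namespace Fermat.Agent.S24.H624

open UpperHalfPlane Complex
open scoped Manifold Topology MatrixGroups

theorem det_coe_SL_pos (γ : SL(2, ℤ)) : 0 < ((γ : GL (Fin 2) ℝ).det.val : ℝ) := by
  simp

theorem det_coe_SL (γ : SL(2, ℤ)) : ((γ : GL (Fin 2) ℝ).det.val : ℝ) = 1 := by
  simp

/-- Precomposition with `γ ∈ SL(2, ℤ)` as an algebra endomorphism of `holoRing`. -/
noncomputable def precompSL (γ : SL(2, ℤ)) : holoRing →ₐ[ℂ] holoRing where
  toFun f := ⟨fun τ => (f : ℍ → ℂ) (γ • τ), mdiff_comp_smul (det_coe_SL_pos γ) f.2⟩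
  map_one' := rfl
  map_mul' _ _ := rfl
  map_zero' := rfl
  map_add' _ _ := rfl
  commutes' _ := rfl

@[simp]
theorem precompSL_apply (γ : SL(2, ℤ)) (f : holoRing) (τ : ℍ) :
    (precompSL γ f : ℍ → ℂ) τ = (f : ℍ → ℂ) (γ • τ) := rfl

theorem precompSL_one (f : holoRing) : precompSL 1 f = f := by
  ext τ
  simp

theorem precompSL_mul (γ δ : SL(2, ℤ)) (f : holoRing) :
    precompSL (γ * δ) f = precompSL δ (precompSL γ f) := by
  ext τ
  simp [mul_smul]

/-- Left action of `SL(2, ℤ)` on holomorphic functions: `(γ • f) τ = f (γ⁻¹ • τ)`. -/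
noncomputable instance instMulSemiringActionHoloRing : MulSemiringAction SL(2, ℤ) holoRing where
  smul γ f := precompSL γ⁻¹ f
  one_smul f := by
    show precompSL (1 : SL(2, ℤ))⁻¹ f = f
    rw [inv_one, precompSL_one]
  mul_smul γ δ f := by
    show precompSL (γ * δ)⁻¹ f = precompSL γ⁻¹ (precompSL δ⁻¹ f)
    rw [mul_inv_rev, precompSL_mul]
  smul_zero γ := map_zero _
  smul_add γ f g := map_add _ f g
  smul_one γ := map_one _
  smul_mul γ f g := map_mul _ f g

theorem smul_holoRing_apply (γ : SL(2, ℤ)) (f : holoRing) (τ : ℍ) :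
    ((γ • f : holoRing) : ℍ → ℂ) τ = (f : ℍ → ℂ) (γ⁻¹ • τ) := rfl

theorem smul_holoRing_def (γ : SL(2, ℤ)) (f : holoRing) : γ • f = precompSL γ⁻¹ f := rfl

instance instSMulCommClassHoloRing : SMulCommClass SL(2, ℤ) ℂ holoRing where
  smul_comm γ c f := by
    ext τ
    rfl

theorem ordAt_precompSL (γ : SL(2, ℤ)) (f : holoRing) (τ : ℍ) :
    ordAt τ (precompSL γ f : ℍ → ℂ) = ordAt (γ • τ) (f : ℍ → ℂ) :=
  ordAt_comp_smul (det_coe_SL_pos γ) (f : ℍ → ℂ) τ

theorem ordAt_smul_holoRing (γ : SL(2, ℤ)) (f : holoRing) (τ : ℍ) :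
    ordAt (γ • τ) ((γ • f : holoRing) : ℍ → ℂ) = ordAt τ (f : ℍ → ℂ) := by
  rw [smul_holoRing_def, ordAt_precompSL, inv_smul_smul]

/-- Rotation lemma for `SL(2, ℤ)`: if `γ` fixes `τ` and `f ≠ 0` is `γ`-invariant of order `n`
at `τ`, then `(c τ + d) ^ (2 n) = 1`. -/
theorem denom_pow_eq_one {γ : SL(2, ℤ)} {f : ℍ → ℂ} (hf : MDiff f) (hf0 : f ≠ 0) {τ : ℍ}
    (hτ : γ • τ = τ) (hinv : ∀ z : ℍ, f (γ • z) = f z) :
    denom (γ : GL (Fin 2) ℝ) (τ : ℂ) ^ (2 * (ordAt τ f).toNat) = 1 := by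
  have h := rotation_lemma (g := (γ : GL (Fin 2) ℝ)) (det_coe_SL_pos γ) hf hf0 hτ hinv
  rw [det_coe_SL γ] at h
  have hd : denom (γ : GL (Fin 2) ℝ) (τ : ℂ) ≠ 0 := denom_ne_zero _ τ
  rw [Complex.ofReal_one, div_pow, one_pow, ← pow_mul] at h
  have h2 := (div_eq_one_iff_eq (pow_ne_zero _ hd)).mp h
  exact h2.symm

/-- The quadratic relation satisfied by `λ = c τ + d` at a fixed point:
`λ ^ 2 - (a + d) λ + 1 = 0`. -/
theorem denom_sq_eq_of_fixed {γ : SL(2, ℤ)} {τ : ℍ} (hτ : γ • τ = τ) :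
    denom (γ : GL (Fin 2) ℝ) (τ : ℂ) ^ 2
      = (((γ 0 0 + γ 1 1 : ℤ) : ℂ)) * denom (γ : GL (Fin 2) ℝ) (τ : ℂ) - 1 := by
  have hd : denom (γ : GL (Fin 2) ℝ) (τ : ℂ) ≠ 0 := denom_ne_zero _ τ
  have h1 : ((γ • τ : ℍ) : ℂ) = num (γ : GL (Fin 2) ℝ) τ / denom (γ : GL (Fin 2) ℝ) τ :=
    coe_smul_of_det_pos (det_coe_SL_pos γ) τ
  rw [hτ] at h1
  have h2 : (τ : ℂ) * denom (γ : GL (Fin 2) ℝ) τ = num (γ : GL (Fin 2) ℝ) τ :=
    (eq_div_iff hd).mp h1
  have hdet : ((γ 0 0 : ℤ) : ℂ) * ((γ 1 1 : ℤ) : ℂ) - ((γ 0 1 : ℤ) : ℂ) * ((γ 1 0 : ℤ) : ℂ) = 1 := by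
    have := γ.det_coe
    rw [Matrix.det_fin_two] at this
    exact_mod_cast this
  have hnum : num (γ : GL (Fin 2) ℝ) (τ : ℂ) = ((γ 0 0 : ℤ) : ℂ) * τ + ((γ 0 1 : ℤ) : ℂ) := by
    simp [num]
  have hden : denom (γ : GL (Fin 2) ℝ) (τ : ℂ) = ((γ 1 0 : ℤ) : ℂ) * τ + ((γ 1 1 : ℤ) : ℂ) := by
    simp [denom]
  rw [hnum, hden] at h2
  rw [hden]
  push_cast
  linear_combination (((γ 1 0 : ℤ) : ℂ)) * h2 - hdet

/-- At a fixed point of an element of trace `0`, invariant functions vanish to even order. -/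
theorem even_ordAt_of_trace_zero {γ : SL(2, ℤ)} {f : ℍ → ℂ} (hf : MDiff f) (hf0 : f ≠ 0)
    {τ : ℍ} (hτ : γ • τ = τ) (htr : γ 0 0 + γ 1 1 = 0) (hinv : ∀ z : ℍ, f (γ • z) = f z) :
    Even (ordAt τ f).toNat := by
  have h1 := denom_pow_eq_one hf hf0 hτ hinv
  have h2 := denom_sq_eq_of_fixed hτ
  rw [htr] at h2
  simp only [Int.cast_zero, zero_mul, zero_sub] at h2
  rw [pow_mul, h2] at h1
  by_contra hodd
  rw [Nat.not_even_iff_odd] at hodd
  rw [hodd.neg_one_pow] at h1
  norm_num at h1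

theorem three_dvd_of_root {μ : ℂ} (hμ : μ ^ 2 + μ + 1 = 0) {n : ℕ} (hn : μ ^ n = 1) : 3 ∣ n := by
  have h3 : μ ^ 3 = 1 := by linear_combination (μ - 1) * hμ
  have hμ1 : μ ≠ 1 := by
    rintro rfl
    norm_num at hμ
  have hμ2 : μ ^ 2 ≠ 1 := by
    intro h
    have : μ = -2 := by linear_combination hμ - h
    rw [this] at h
    norm_num at h
  have hdiv : μ ^ n = μ ^ (n % 3) := by
    conv_lhs => rw [← Nat.div_add_mod n 3, pow_add, pow_mul, h3, one_pow, one_mul]
  rw [hdiv] at hn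
  have hlt : n % 3 < 3 := Nat.mod_lt _ (by norm_num)
  interval_cases h : n % 3
  · exact Nat.dvd_of_mod_eq_zero h
  · rw [pow_one] at hn; exact absurd hn hμ1
  · exact absurd hn hμ2

/-- At a fixed point of an element of trace `±1`, invariant functions vanish to order divisible
by `3`. -/
theorem three_dvd_ordAt_of_trace {γ : SL(2, ℤ)} {f : ℍ → ℂ} (hf : MDiff f) (hf0 : f ≠ 0)
    {τ : ℍ} (hτ : γ • τ = τ) (htr : γ 0 0 + γ 1 1 = 1 ∨ γ 0 0 + γ 1 1 = -1)
    (hinv : ∀ z : ℍ, f (γ • z) = f z) :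
    3 ∣ (ordAt τ f).toNat := by
  have h1 := denom_pow_eq_one hf hf0 hτ hinv
  have h2 := denom_sq_eq_of_fixed hτ
  rw [pow_mul] at h1
  set lam := denom (γ : GL (Fin 2) ℝ) (τ : ℂ) with hlam
  refine three_dvd_of_root (μ := lam ^ 2) ?_ h1
  rcases htr with htr | htr
  · rw [htr] at h2
    simp only [Int.cast_one, one_mul] at h2
    linear_combination (lam ^ 2 + lam + 1) * h2
  · rw [htr] at h2
    simp only [Int.cast_neg, Int.cast_one, neg_mul, one_mul] at h2
    linear_combination (lam ^ 2 - lam + 1) * h2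

end Fermat.Agent.S24.H624

end
-- ===== PACK-END S24/H624/SL2Z.lean

-- ===== PACK-BEGIN S24/Inf/Subst.lean
section


/-!
# S24 / MOD-INF — substitution `τ ↦ (aτ + b)/d` in convergent Laurent expansions
-/

set_option autoImplicit false

noncomputable section

open HahnSeries ModularCurve UpperHalfPlane Complex
open scoped Real

namespace Fermat.Agent.S24

/-- The map `τ ↦ (aτ + b)/d` of `ℍ` (the identity if `a = 0` or `d = 0`). -/
def infAff (a : ℕ) (b : ℤ) (d : ℕ) (τ : ℍ) : ℍ :=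
  if h : 0 < a ∧ 0 < d then
    ⟨((a : ℂ) * τ + b) / d, by
      have ha : (0 : ℝ) < a := by exact_mod_cast h.1
      have hd : (0 : ℝ) < d := by exact_mod_cast h.2
      have e : (((a : ℂ) * τ + b) / d).im = a * τ.im / d := by
        have : ((a : ℂ) * τ + b) / d = (((a : ℝ) : ℂ) * τ + ((b : ℝ) : ℂ)) / ((d : ℝ) : ℂ) := by
          push_cast; rfl
        rw [this, Complex.div_ofReal_im]
        simp
      rw [e]
      have := τ.im_pos
      positivity⟩
  else τ

theorem infAff_coe {a d : ℕ} (ha : 0 < a) (hd : 0 < d) (b : ℤ) (τ : ℍ) :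
    (infAff a b d τ : ℂ) = ((a : ℂ) * τ + b) / d := by
  rw [infAff, dif_pos ⟨ha, hd⟩]

@[simp]
theorem infAff_one_zero_one (τ : ℍ) : infAff 1 0 1 τ = τ := by
  apply UpperHalfPlane.ext
  rw [infAff_coe one_pos one_pos]
  simp

/-- The unit `exp (2πi b/n)` of `ℂ`. -/
def infRoot (b : ℤ) (n : ℕ) : ℂˣ :=
  Units.mk0 (Complex.exp (2 * π * Complex.I * b / n)) (Complex.exp_ne_zero _)

@[simp]
theorem infRoot_coe (b : ℤ) (n : ℕ) :
    ((infRoot b n : ℂˣ) : ℂ) = Complex.exp (2 * π * Complex.I * b / n) := rfl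

theorem infRoot_zpow_coe (b : ℤ) (n : ℕ) (k : ℤ) :
    (((infRoot b n) ^ k : ℂˣ) : ℂ) = Complex.exp (2 * π * Complex.I * b / n) ^ k := by
  rw [Units.val_zpow_eq_zpow_val, infRoot_coe]

theorem infRoot_zero (n : ℕ) : infRoot 0 n = 1 := by
  apply Units.ext
  simp

/-- Key computation: `z_M((aτ+b)/d) = exp(2πi b/(dM)) · z_N(τ)^e` when `e·d·M = a·N`. -/
theorem infZ_infAff {M N a d e : ℕ} (b : ℤ) (ha : 0 < a) (hd : 0 < d) (hM : 0 < M)
    (hN : 0 < N) (he : e * (d * M) = a * N) (τ : ℍ) :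
    infZ M (infAff a b d τ) = (infRoot b (d * M) : ℂ) * infZ N τ ^ e := by
  rw [infZ_def, infZ_def, infAff_coe ha hd, infRoot_coe, ← Complex.exp_nat_mul, ← Complex.exp_add]
  congr 1
  have hd' : (d : ℂ) ≠ 0 := by exact_mod_cast hd.ne'
  have hM' : (M : ℂ) ≠ 0 := by exact_mod_cast hM.ne'
  have hN' : (N : ℂ) ≠ 0 := by exact_mod_cast hN.ne'
  have he' : (e : ℂ) * ((d : ℂ) * M) = a * N := by exact_mod_cast congrArg (Nat.cast : ℕ → ℂ) he
  push_cast
  field_simp
  linear_combination (-(τ : ℂ)) * he'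

/-- **Substitution (general form).** If `z_M(u τ) = c · z_N(τ)^k` then `f ∘ u` has the
expansion `φ(c · z^k)` in `z_N`. -/
theorem InfExp.subst {M N : ℕ} {f : ℍ → ℂ} {φ : LaurentSeries ℂ} (hf : InfExp M f φ)
    (u : ℍ → ℍ) (c : ℂˣ) (k : ℕ) [NeZero k]
    (hu : ∀ τ : ℍ, infZ M (u τ) = (c : ℂ) * infZ N τ ^ k) :
    InfExp N (fun τ => f (u τ)) (qExpand ℂ k (infTwist c φ)) := by
  intro τ
  have h := hf (u τ)
  rw [hu τ] at h
  have he0 : (k : ℤ) ≠ 0 := by exact_mod_cast NeZero.ne k
  have hinj : Function.Injective (fun n : ℤ => (k : ℤ) * n) :=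
    mul_right_injective₀ he0
  have hrange : ∀ m : ℤ, m ∉ Set.range (fun n : ℤ => (k : ℤ) * n) →
      (qExpand ℂ k (infTwist c φ)).coeff m * infZ N τ ^ m = 0 := by
    intro m hm
    rw [qExpand_coeff_of_not_dvd k _ (fun ⟨j, hj⟩ => hm ⟨j, hj.symm⟩), zero_mul]
  rw [← hinj.hasSum_iff hrange]
  convert h using 1
  funext n
  simp only [Function.comp_apply, qExpand_coeff_mul, infTwist_coeff]
  rw [mul_zpow, ← zpow_natCast (infZ N τ) k, ← zpow_mul, Units.val_zpow_eq_zpow_val]
  ring

/-- **Substitution.** If `φ` converges to `f` in `z_M`, then `f ∘ (τ ↦ (aτ+b)/d)` has the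
expansion `φ(u · z_N^e)` in `z_N`, `u = exp(2πi b/(dM))`, `e = aN/(dM)`. -/
theorem InfExp.comp_infAff {M N a d e : ℕ} [NeZero e] (b : ℤ) (ha : 0 < a) (hd : 0 < d)
    (hM : 0 < M) (hN : 0 < N) (he : e * (d * M) = a * N) {f : ℍ → ℂ} {φ : LaurentSeries ℂ}
    (hf : InfExp M f φ) :
    InfExp N (fun τ => f (infAff a b d τ)) (qExpand ℂ e (infTwist (infRoot b (d * M)) φ)) :=
  hf.subst (infAff a b d) (infRoot b (d * M)) e (infZ_infAff b ha hd hM hN he)

/-- Translation `τ ↦ τ + 1`: the expansion in `z_N` is twisted by `ζ_N = exp(2πi/N)`. -/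
theorem InfExp.comp_translate {N : ℕ} [NeZero N] {f : ℍ → ℂ} {φ : LaurentSeries ℂ}
    (hf : InfExp N f φ) (b : ℤ) :
    InfExp N (fun τ => f (infAff 1 b 1 τ)) (infTwist (infRoot b N) φ) := by
  have hN : 0 < N := Nat.pos_of_ne_zero (NeZero.ne N)
  have h := hf.comp_infAff (e := 1) b one_pos one_pos hN hN (by ring)
  rw [qExpand_one_apply, one_mul] at h
  exact h

end Fermat.Agent.S24

end
end
-- ===== PACK-END S24/Inf/Subst.lean

-- ===== PACK-BEGIN S30/H709/PeriodLattice.lean
section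






/-!
# S30-OCC, the period lattice

`perFun N γ` is the period functional `f ↦ ∫_z^{γ z} f` on `S₂(Γ₀(N))` (Prelude `periodMap`),
`perLattice N` is the subgroup of the dual of `S₂(Γ₀(N))` generated by the period functionals.
It is a finitely generated free abelian group; under the hypothesis `PeriodHecke N fac`
(Hecke-equivariance of the period map: `λ_γ ∘ T_ℓ = ∑_{δ ∈ fac ℓ γ} λ_δ`) it is stable under the
transposes of all elements of the Hecke algebra, and the Hecke algebra acts faithfully on it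
(`perRho`, `perRho_injective`).
-/

set_option autoImplicit false

noncomputable section

namespace Fermat.Agent.S30.H709

open CongruenceSubgroup ModularCurve ModularCurve.Period
open scoped MatrixGroups

/-- `SL(2, ℤ)` is finitely generated. -/
theorem fg_SL2Z : Group.FG SL(2, ℤ) :=
  Group.fg_iff.mpr ⟨{ModularGroup.S, ModularGroup.T}, SpecialLinearGroup.SL2Z_generators,
    Set.toFinite _⟩

/-- `Γ₀(N)` is finitely generated (Schreier). -/
theorem fg_Gamma0 (N : ℕ) [NeZero N] : Group.FG (Gamma0 N) := by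
  have := fg_SL2Z
  exact Subgroup.fg_of_index_ne_zero (Gamma0 N)

section PerFun

variable (N : ℕ) [NeZero N]

/-- The period functional `λ_γ : f ↦ periodMap N f γ` on weight-2 cusp forms. -/
def perFun (γ : Gamma0 N) : Module.Dual ℂ (CuspForm (Gamma0 N) 2) where
  toFun f := periodMap N f (Additive.ofMul γ)
  map_add' f g := by rw [Fermat.Agent.S21.H381.periodMap_add]; rfl
  map_smul' a f := by rw [Fermat.Agent.S21.H381.periodMap_smul]; rfl

theorem perFun_apply (γ : Gamma0 N) (f : CuspForm (Gamma0 N) 2) :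
    perFun N γ f = periodMap N f (Additive.ofMul γ) := rfl

theorem perFun_mul (γ δ : Gamma0 N) : perFun N (γ * δ) = perFun N γ + perFun N δ := by
  refine LinearMap.ext fun f => ?_
  rw [LinearMap.add_apply, perFun_apply, perFun_apply, perFun_apply, ofMul_mul, map_add]

theorem perFun_one : perFun N 1 = 0 := by
  refine LinearMap.ext fun f => ?_
  rw [perFun_apply, ofMul_one, map_zero, LinearMap.zero_apply]

theorem perFun_inv (γ : Gamma0 N) : perFun N γ⁻¹ = - perFun N γ := by
  refine LinearMap.ext fun f => ?_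
  rw [LinearMap.neg_apply, perFun_apply, perFun_apply, ofMul_inv, map_neg]

/-- Period functionals vanish on elements of trace `±2`. -/
theorem perFun_eq_zero_of_trace (γ : Gamma0 N)
    (hγ : ((γ : SL(2, ℤ)) : Matrix (Fin 2) (Fin 2) ℤ).trace ^ 2 = 4) : perFun N γ = 0 := by
  refine LinearMap.ext fun f => ?_
  rw [perFun_apply, LinearMap.zero_apply]
  exact (mem_parabolicHoms_iff.mp (Fermat.Agent.S21.H381.periodMap_mem_parabolicHoms f)) γ hγ

/-- The period map is injective on cusp forms. -/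
theorem periodMap_eq_zero {f : CuspForm (Gamma0 N) 2} (hf : periodMap N f = 0) : f = 0 := by
  have hinj := Fermat.Agent.S21.H81.injective_periodHomPair_of N
    (Fermat.Agent.S21.H381.existsPeriodMapLinear N)
    (fun f => Fermat.Agent.S21.H381.exists_hasEquivariantPrimitive f)
  have h0 : periodHomPair N (f, f) = periodHomPair N 0 := by
    rw [Fermat.Agent.S21.H381.periodHomPair_apply, hf, map_zero, map_zero]
    simp
  have := hinj h0
  exact congrArg Prod.fst this

/-- The period lattice: the subgroup of the dual of `S₂(Γ₀(N))` generated by the period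
functionals. -/
def perLattice : Submodule ℤ (Module.Dual ℂ (CuspForm (Gamma0 N) 2)) :=
  Submodule.span ℤ (Set.range (perFun N))

theorem perFun_mem_perLattice (γ : Gamma0 N) : perFun N γ ∈ perLattice N :=
  Submodule.subset_span ⟨γ, rfl⟩

theorem perLattice_fg : (perLattice N).FG := by
  obtain ⟨G, hG, hfin⟩ := Group.fg_iff.mp (fg_Gamma0 N)
  have hle : perLattice N ≤ Submodule.span ℤ (perFun N '' G) := by
    refine Submodule.span_le.mpr ?_
    rintro _ ⟨γ, rfl⟩
    have hγ : γ ∈ Subgroup.closure G := by rw [hG]; exact Subgroup.mem_top γ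
    induction hγ using Subgroup.closure_induction with
    | mem x hx => exact Submodule.subset_span ⟨x, hx, rfl⟩
    | one => rw [perFun_one]; exact Submodule.zero_mem _
    | mul x y _ _ hx hy => rw [perFun_mul]; exact Submodule.add_mem _ hx hy
    | inv x _ hx => rw [perFun_inv]; exact Submodule.neg_mem _ hx
  have heq : perLattice N = Submodule.span ℤ (perFun N '' G) :=
    le_antisymm hle (Submodule.span_mono (Set.image_subset_range _ _))
  rw [heq]
  exact Submodule.fg_span (hfin.image _)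

instance perLattice_finite : Module.Finite ℤ (perLattice N) :=
  Module.Finite.iff_fg.mpr (perLattice_fg N)

instance perLattice_free : Module.Free ℤ (perLattice N) :=
  Module.free_of_finite_type_torsion_free'

end PerFun

section Hecke

variable (N : ℕ) [NeZero N]

/-- **Hypothesis `PeriodHecke`** (Hecke-equivariance of the period map, to be supplied by the
`M4a`/`E2a` owners): for every prime `ℓ ∤ N`, the period of `T_ℓ f` along `γ` is the sum of the
periods of `f` along the elements of the multiset `fac ℓ γ`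
(`= {γ'ᵢ}` with `αᵢ γ = γ'ᵢ α_{π i}`, `αᵢ` the standard coset representatives of `T_ℓ`). -/
def PeriodHecke (fac : ℕ → Gamma0 N → Multiset (Gamma0 N)) : Prop :=
  ∀ (ℓ : ℕ) (hℓ : ℓ.Prime) (hℓN : ¬ ℓ ∣ N) (f : CuspForm (Gamma0 N) 2) (γ : Gamma0 N),
    periodMap N (CuspForm.heckeTLin 2 hℓ hℓN f) (Additive.ofMul γ)
      = ((fac ℓ γ).map fun δ => periodMap N f (Additive.ofMul δ)).sum

variable {N}

theorem PeriodHecke.transpose_perFun {fac : ℕ → Gamma0 N → Multiset (Gamma0 N)}
    (hPH : PeriodHecke N fac) {ℓ : ℕ} (hℓ : ℓ.Prime) (hℓN : ¬ ℓ ∣ N) (γ : Gamma0 N) :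
    Module.Dual.transpose (CuspForm.heckeTLin 2 hℓ hℓN) (perFun N γ)
      = ((fac ℓ γ).map (perFun N)).sum := by
  refine LinearMap.ext fun f => ?_
  rw [Module.Dual.transpose_apply, LinearMap.comp_apply, perFun_apply, hPH ℓ hℓ hℓN f γ]
  have : ∀ m : Multiset (Gamma0 N),
      ((m.map (perFun N)).sum : Module.Dual ℂ (CuspForm (Gamma0 N) 2)) f
        = (m.map fun δ => periodMap N f (Additive.ofMul δ)).sum := by
    intro m
    induction m using Multiset.induction_on with
    | empty => simp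
    | cons a m ih =>
      rw [Multiset.map_cons, Multiset.sum_cons, LinearMap.add_apply, ih, Multiset.map_cons,
        Multiset.sum_cons, perFun_apply]
  rw [this]

/-- Under `PeriodHecke`, and when `S` contains the primes dividing `N`, the period lattice is
stable under the transpose of every element of the Hecke algebra. -/
theorem transpose_mem_perLattice {fac : ℕ → Gamma0 N → Multiset (Gamma0 N)}
    (hPH : PeriodHecke N fac) {S : Set ℕ} (hNS : ∀ q : ℕ, q.Prime → q ∣ N → q ∈ S)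
    {t : Module.End ℂ (CuspForm (Gamma0 N) 2)} (ht : t ∈ CuspForm.heckeAlgebra N 2 S)
    {x : Module.Dual ℂ (CuspForm (Gamma0 N) 2)} (hx : x ∈ perLattice N) :
    Module.Dual.transpose t x ∈ perLattice N := by
  induction ht using Algebra.adjoin_induction generalizing x with
  | mem t ht =>
    rcases ht with ⟨ℓ, hℓ, hℓN, -, rfl⟩ | ⟨q, hqN, hq, hqS, rfl⟩
    · induction hx using Submodule.span_induction with
      | mem y hy =>
        obtain ⟨γ, rfl⟩ := hy
        rw [hPH.transpose_perFun hℓ hℓN γ]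
        refine multiset_sum_mem _ ?_
        intro z hz
        obtain ⟨δ, -, rfl⟩ := Multiset.mem_map.mp hz
        exact perFun_mem_perLattice N δ
      | zero => rw [map_zero]; exact Submodule.zero_mem _
      | add y z _ _ hy hz => rw [map_add]; exact Submodule.add_mem _ hy hz
      | smul n y _ hy =>
        have : Module.Dual.transpose (CuspForm.heckeTLin 2 hℓ hℓN) (n • y)
            = n • Module.Dual.transpose (CuspForm.heckeTLin 2 hℓ hℓN) y := map_zsmul _ _ _
        rw [this]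
        exact Submodule.smul_mem _ _ hy
    · exact absurd (hNS q hq hqN) hqS
  | algebraMap n =>
    have : Module.Dual.transpose (algebraMap ℤ (Module.End ℂ (CuspForm (Gamma0 N) 2)) n) x
        = n • x := by
      refine LinearMap.ext fun f => ?_
      rw [Module.Dual.transpose_apply, LinearMap.comp_apply, Module.algebraMap_end_apply,
        map_zsmul, LinearMap.smul_apply]
    rw [this]
    exact Submodule.smul_mem _ _ hx
  | add t s _ _ iht ihs =>
    rw [map_add, LinearMap.add_apply]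
    exact Submodule.add_mem _ (iht hx) (ihs hx)
  | mul t s _ _ iht ihs =>
    have : Module.Dual.transpose (t * s) x
        = Module.Dual.transpose s (Module.Dual.transpose t x) := by
      refine LinearMap.ext fun f => ?_
      simp only [Module.Dual.transpose_apply, LinearMap.comp_apply, Module.End.mul_apply]
    rw [this]
    exact ihs (iht hx)

/-- The transpose of a Hecke operator, restricted to the period lattice. -/
def perRhoAux {fac : ℕ → Gamma0 N → Multiset (Gamma0 N)}
    (hPH : PeriodHecke N fac) {S : Set ℕ} (hNS : ∀ q : ℕ, q.Prime → q ∣ N → q ∈ S)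
    (t : CuspForm.heckeAlgebra N 2 S) : Module.End ℤ (perLattice N) :=
  ((Module.Dual.transpose (R := ℂ)
      (t : Module.End ℂ (CuspForm (Gamma0 N) 2))).restrictScalars ℤ).restrict
        (p := perLattice N) (q := perLattice N) (fun _ hx => transpose_mem_perLattice hPH hNS t.2 hx)

theorem perRhoAux_apply {fac : ℕ → Gamma0 N → Multiset (Gamma0 N)}
    (hPH : PeriodHecke N fac) {S : Set ℕ} (hNS : ∀ q : ℕ, q.Prime → q ∣ N → q ∈ S)
    (t : CuspForm.heckeAlgebra N 2 S) (x : perLattice N) (f : CuspForm (Gamma0 N) 2) :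
    ((perRhoAux hPH hNS t x : perLattice N) : Module.Dual ℂ (CuspForm (Gamma0 N) 2)) f
      = (x : Module.Dual ℂ (CuspForm (Gamma0 N) 2))
          ((t : Module.End ℂ (CuspForm (Gamma0 N) 2)) f) :=
  rfl

/-- The action of the Hecke algebra on the period lattice (by transposes). -/
def perRho {fac : ℕ → Gamma0 N → Multiset (Gamma0 N)}
    (hPH : PeriodHecke N fac) {S : Set ℕ} (hNS : ∀ q : ℕ, q.Prime → q ∣ N → q ∈ S) :
    CuspForm.heckeAlgebra N 2 S →+* Module.End ℤ (perLattice N) where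
  toFun t := perRhoAux hPH hNS t
  map_one' := by
    refine LinearMap.ext fun x => Subtype.ext ?_
    refine LinearMap.ext fun f => ?_
    rw [perRhoAux_apply]
    rfl
  map_mul' t s := by
    refine LinearMap.ext fun x => Subtype.ext ?_
    refine LinearMap.ext fun f => ?_
    rw [Module.End.mul_apply, perRhoAux_apply, perRhoAux_apply, perRhoAux_apply, mul_comm t s]
    rfl
  map_zero' := by
    refine LinearMap.ext fun x => Subtype.ext ?_
    refine LinearMap.ext fun f => ?_
    rw [perRhoAux_apply]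
    simp
  map_add' t s := by
    refine LinearMap.ext fun x => Subtype.ext ?_
    refine LinearMap.ext fun f => ?_
    rw [LinearMap.add_apply, Submodule.coe_add, LinearMap.add_apply, perRhoAux_apply,
      perRhoAux_apply, perRhoAux_apply, Subalgebra.coe_add, LinearMap.add_apply, map_add]

theorem perRho_apply_apply {fac : ℕ → Gamma0 N → Multiset (Gamma0 N)}
    (hPH : PeriodHecke N fac) {S : Set ℕ} (hNS : ∀ q : ℕ, q.Prime → q ∣ N → q ∈ S)
    (t : CuspForm.heckeAlgebra N 2 S) (x : perLattice N) (f : CuspForm (Gamma0 N) 2) :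
    ((perRho hPH hNS t x : perLattice N) : Module.Dual ℂ (CuspForm (Gamma0 N) 2)) f
      = (x : Module.Dual ℂ (CuspForm (Gamma0 N) 2))
          ((t : Module.End ℂ (CuspForm (Gamma0 N) 2)) f) :=
  rfl

/-- The Hecke algebra acts faithfully on the period lattice. -/
theorem perRho_injective {fac : ℕ → Gamma0 N → Multiset (Gamma0 N)}
    (hPH : PeriodHecke N fac) {S : Set ℕ} (hNS : ∀ q : ℕ, q.Prime → q ∣ N → q ∈ S) :
    Function.Injective (perRho hPH hNS : CuspForm.heckeAlgebra N 2 S →+* _) := by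
  rw [injective_iff_map_eq_zero]
  intro t ht
  apply Subtype.ext
  refine LinearMap.ext fun f => ?_
  rw [ZeroMemClass.coe_zero, LinearMap.zero_apply]
  apply periodMap_eq_zero N
  refine AddMonoidHom.ext fun γ => ?_
  obtain ⟨γ, rfl⟩ : ∃ γ' : Gamma0 N, Additive.ofMul γ' = γ := ⟨Additive.toMul γ, rfl⟩
  have h1 := congrArg (fun u : Module.End ℤ (perLattice N) =>
    ((u ⟨perFun N γ, perFun_mem_perLattice N γ⟩ : perLattice N) :
      Module.Dual ℂ (CuspForm (Gamma0 N) 2)) f) ht
  simp only [perRho_apply_apply, perFun_apply,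
    LinearMap.zero_apply, ZeroMemClass.coe_zero] at h1
  rw [h1, AddMonoidHom.zero_apply]

end Hecke

end Fermat.Agent.S30.H709

end
end
-- ===== PACK-END S30/H709/PeriodLattice.lean

-- ===== PACK-BEGIN S24/H504/FF1.lean
section



/-!
# The fundamental inequality `n ≤ ∑_{v | t} e_v` from local embedding data

Dedekind-free: every embedding `σ x` induces a place over `t = 0`, and at most `e_v = v(t)`
embeddings induce a given place `v` (rigidity, `card_induces_le`).
-/

set_option autoImplicit false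

namespace Fermat.Agent.S24.H504

open AlgebraicCurve

variable {K F : Type*} [Field K] [Field F] [Algebra K F]
variable {C : Type*} [Field C] {X : Type*} {t : F}

theorem LocalData.order_const_nonneg (L : LocalData K F C X t) (x : X) (c : K) :
    0 ≤ (L.σ x (algebraMap K F c)).order := by
  rw [L.σ_const, HahnSeries.order_C]

theorem LocalData.exists_order_ne_zero (L : LocalData K F C X t) (x : X) :
    ∃ f : F, (L.σ x f).order ≠ 0 :=
  ⟨t, by rw [L.σ_t_order]; exact_mod_cast L.m_pos.ne'⟩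

/-- The place of `F/K` induced by the embedding `σ x`. -/
noncomputable def LocalData.placeAt (L : LocalData K F C X t) (x : X) : Place K F :=
  placeOfEmb (L.σ x) (LocalData.order_const_nonneg L x) (LocalData.exists_order_ne_zero L x)

theorem LocalData.induces_placeAt (L : LocalData K F C X t) (x : X) :
    Induces (L.σ x) (LocalData.placeAt L x) :=
  induces_placeOfEmb _ _ _

theorem LocalData.ord_t_pos_of_induces (L : LocalData K F C X t) {x : X} {v : Place K F}
    (h : Induces (L.σ x) v) : 0 < v.ord t := by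
  have hm : 0 < (L.σ x t).order := by rw [L.σ_t_order]; exact_mod_cast L.m_pos
  have h1 := (h.order_nonneg_iff t).mp hm.le
  have h2 := (h.order_eq_zero_iff t).not.mp hm.ne'
  omega

theorem LocalData.placeAt_ord_t_pos (L : LocalData K F C X t) (x : X) :
    0 < (LocalData.placeAt L x).ord t :=
  LocalData.ord_t_pos_of_induces L (LocalData.induces_placeAt L x)

theorem LocalData.placeAt_eq_iff (L : LocalData K F C X t) (x : X) (v : Place K F) :
    LocalData.placeAt L x = v ↔ Induces (L.σ x) v :=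
  ⟨fun h => h ▸ LocalData.induces_placeAt L x,
    fun h => (LocalData.induces_placeAt L x).unique h⟩

/-- **Fibre bound** in `LocalData` language: at most `v(t)` of the embeddings induce `v`. -/
theorem LocalData.card_fibre_le [IsAlgClosed K] [CharZero C] [Finite X]
    [Algebra.IsAlgebraic (IntermediateField.adjoin K {t}) F]
    (L : LocalData K F C X t) (v : Place K F) (hv : 0 < v.ord t) :
    (Nat.card {x : X // Induces (L.σ x) v} : ℤ) ≤ v.ord t := by
  have := card_induces_le hv L.ι L.σ L.σ_inj L.σ_const L.σ_t_eq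
  have h2 : ((v.ord t).toNat : ℤ) = v.ord t := Int.toNat_of_nonneg hv.le
  rw [← h2]
  exact_mod_cast this

/-- **Fundamental inequality (FF1).** `n = #X ≤ ∑_{v over t = 0} v(t)`. -/
theorem LocalData.card_le_sum_ord [IsAlgClosed K] [CharZero C] [Finite X]
    [Algebra.IsAlgebraic (IntermediateField.adjoin K {t}) F]
    (L : LocalData K F C X t) (s : Finset (Place K F)) (hs : ∀ v, v ∈ s ↔ 0 < v.ord t) :
    (Nat.card X : ℤ) ≤ ∑ v ∈ s, v.ord t := by
  classical
  have := Fintype.ofFinite X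
  have hmaps : ∀ x ∈ (Finset.univ : Finset X), LocalData.placeAt L x ∈ s :=
    fun x _ => (hs _).mpr (LocalData.placeAt_ord_t_pos L x)
  have hcard := Finset.card_eq_sum_card_fiberwise hmaps
  rw [Nat.card_eq_fintype_card, ← Finset.card_univ, hcard]
  push_cast
  apply Finset.sum_le_sum
  intro v hv
  have hfib := LocalData.card_fibre_le L v ((hs v).mp hv)
  refine le_trans (le_of_eq ?_) hfib
  congr 1
  rw [Nat.card_eq_fintype_card, Fintype.card_subtype]
  congr 1
  ext x
  simp only [Finset.mem_filter, Finset.mem_univ, true_and]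
  exact LocalData.placeAt_eq_iff L x v

end Fermat.Agent.S24.H504

end
-- ===== PACK-END S24/H504/FF1.lean

-- ===== PACK-BEGIN S29/H942/MeroRootGlue.lean
section


/-!
# Gluing meromorphic `p`-th roots along an exhaustion by simply connected open sets
-/

set_option autoImplicit false

noncomputable section

open Filter Topology Set Complex MeromorphicOn Function

namespace Fermat.Agent.S29.H942

/-- Existence of a root in normal form on a simply connected open set on which `f` has finitely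
many zeros and poles. -/
theorem exists_isNFRootOn_of_finite {f : ℂ → ℂ} {U : Set ℂ}
    (hUc : IsSimplyConnected U) (hU : IsOpen U) (hf : MeromorphicOn f U)
    (h₂f : ∀ x ∈ U, meromorphicOrderAt f x ≠ ⊤) (h₃f : (divisor f U).support.Finite)
    {p : ℕ} (hp : p ≠ 0) (hdiv : ∀ x ∈ U, (p : ℤ) ∣ (meromorphicOrderAt f x).untop₀) :
    ∃ h : ℂ → ℂ, IsNFRootOn h f U p := by
  have hdiv' : ∀ z, (p : ℤ) ∣ divisor f U z := by
    intro z
    by_cases hz : z ∈ U
    · rw [divisor_apply hf hz]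
      exact hdiv z hz
    · have : divisor f U z = 0 := by
        rw [divisor_def]
        simp [hz]
      rw [this]
      exact dvd_zero _
  obtain ⟨h, hh, hpow⟩ := exists_meromorphicOn_pow_eq_of_finite hUc hU hf
    (fun u => h₂f u u.2) h₃f hp hdiv'
  exact ⟨_, isNFRootOn_toMeromorphicNFOn hU hh hpow⟩

/-- Multiplying a root by a root of unity gives a root. -/
lemma IsNFRootOn.const_mul {h f : ℂ → ℂ} {V : Set ℂ} {p : ℕ} (hh : IsNFRootOn h f V p)
    {ζ : ℂ} (hζ : ζ ^ p = 1) (hζ0 : ζ ≠ 0) : IsNFRootOn (fun z => ζ * h z) f V p := by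
  refine ⟨fun x hx => ?_, fun x hx => ?_⟩
  · have := (hh.1 hx).smul_analytic (g := fun _ : ℂ => ζ) analyticAt_const hζ0
    exact this
  · filter_upwards [hh.2 x hx] with y hy
    simp only [Pi.pow_apply] at hy ⊢
    rw [mul_pow, hζ, one_mul, hy]

/-- A root (of a function of finite order) on a nonempty open set is non-zero somewhere. -/
lemma IsNFRootOn.exists_ne_zero {h f : ℂ → ℂ} {V : Set ℂ} {p : ℕ} (hp : p ≠ 0)
    (hh : IsNFRootOn h f V p) (hV : IsOpen V) (hne : V.Nonempty)
    (hf : ∀ x ∈ V, meromorphicOrderAt f x ≠ ⊤) : ∃ y ∈ V, h y ≠ 0 := by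
  obtain ⟨x, hx⟩ := hne
  have h1 := hh.eventually_ne_zero hp hx (hf x hx)
  have h2 : V ∈ 𝓝[≠] x := mem_nhdsWithin_of_mem_nhds (hV.mem_nhds hx)
  obtain ⟨y, hy1, hy2⟩ := (h1.and h2).exists
  exact ⟨y, hy2, hy1⟩

/-- **Gluing.** -/
theorem exists_isNFRootOn_iUnion {f : ℂ → ℂ} {p : ℕ} (hp : p ≠ 0) (V : ℕ → Set ℂ)
    (hVo : ∀ n, IsOpen (V n)) (hVsc : ∀ n, IsSimplyConnected (V n)) (hmono : Monotone V)
    (hf : ∀ n, MeromorphicOn f (V n)) (hford : ∀ n, ∀ x ∈ V n, meromorphicOrderAt f x ≠ ⊤)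
    (hfin : ∀ n, (divisor f (V n)).support.Finite)
    (hdiv : ∀ n, ∀ x ∈ V n, (p : ℤ) ∣ (meromorphicOrderAt f x).untop₀) :
    ∃ h : ℂ → ℂ, IsNFRootOn h f (⋃ n, V n) p := by
  classical
  -- roots on each `V n`
  have h1 : ∀ n, ∃ h : ℂ → ℂ, IsNFRootOn h f (V n) p := fun n =>
    exists_isNFRootOn_of_finite (hVsc n) (hVo n) (hf n) (hford n) (hfin n) hp (hdiv n)
  choose H hH using h1
  have hpc : ∀ n, IsPreconnected (V n) := fun n =>
    (hVsc n).isPathConnected.isConnected.isPreconnected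
  have hV0 : ∀ n, V 0 ⊆ V n := fun n => hmono (Nat.zero_le n)
  -- normalisation against `H 0` on `V 0`
  have h2 : ∀ n, ∃ ζ : ℂ, ζ ^ p = 1 ∧ ∀ x ∈ V 0, H n x = ζ * H 0 x := fun n =>
    IsNFRootOn.exists_eq_mul hp (hVo 0) (hpc 0) (hford 0) (hH 0) ((hH n).mono (hV0 n))
  choose ζ hζ hζH using h2
  have hζ0 : ∀ n, ζ n ≠ 0 := by
    intro n h0
    have := hζ n
    rw [h0, zero_pow hp] at this
    exact zero_ne_one this
  set H' : ℕ → ℂ → ℂ := fun n z => (ζ n)⁻¹ * H n z with hH'def
  have hH' : ∀ n, IsNFRootOn (H' n) f (V n) p := fun n =>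
    (hH n).const_mul (by rw [inv_pow, hζ n, inv_one]) (inv_ne_zero (hζ0 n))
  have hH'0 : ∀ n, ∀ x ∈ V 0, H' n x = H 0 x := by
    intro n x hx
    simp only [hH'def]
    rw [hζH n x hx, ← mul_assoc, inv_mul_cancel₀ (hζ0 n), one_mul]
  obtain ⟨y₀, hy₀V, hy₀⟩ := (hH 0).exists_ne_zero hp (hVo 0) (hVsc 0).nonempty (hford 0)
  -- compatibility
  have h3 : ∀ n m, n ≤ m → ∀ x ∈ V n, H' m x = H' n x := by
    intro n m hnm x hx
    obtain ⟨ξ, -, hξH⟩ := IsNFRootOn.exists_eq_mul hp (hVo n) (hpc n) (hford n) (hH' n)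
      ((hH' m).mono (hmono hnm))
    have h4 := hξH y₀ (hV0 n hy₀V)
    rw [hH'0 m y₀ hy₀V, hH'0 n y₀ hy₀V] at h4
    have h5 : ξ = 1 := by
      have : (ξ - 1) * H 0 y₀ = 0 := by rw [sub_mul, one_mul, ← h4, sub_self]
      rcases mul_eq_zero.1 this with h | h
      · exact sub_eq_zero.1 h
      · exact absurd h hy₀
    rw [hξH x hx, h5, one_mul]
  -- the glued function
  set idx : ℂ → ℕ := fun z => if hz : ∃ n, z ∈ V n then Nat.find hz else 0 with hidx
  set h : ℂ → ℂ := fun z => H' (idx z) z with hh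
  have h6 : ∀ m, ∀ x ∈ V m, h x = H' m x := by
    intro m x hx
    have hex : ∃ n, x ∈ V n := ⟨m, hx⟩
    have hi : idx x = Nat.find hex := by simp only [hidx, dif_pos hex]
    have hle : idx x ≤ m := by rw [hi]; exact Nat.find_min' hex hx
    have hmem : x ∈ V (idx x) := by rw [hi]; exact Nat.find_spec hex
    exact (h3 (idx x) m hle x hmem).symm
  refine ⟨h, fun x hx => ?_, fun x hx => ?_⟩
  · obtain ⟨m, hm⟩ := mem_iUnion.1 hx
    have heq : h =ᶠ[𝓝 x] H' m := by
      filter_upwards [(hVo m).mem_nhds hm] with y hy using h6 m y hy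
    exact (meromorphicNFAt_congr heq).2 ((hH' m).1 hm)
  · obtain ⟨m, hm⟩ := mem_iUnion.1 hx
    have hVn : V m ∈ 𝓝[≠] x := mem_nhdsWithin_of_mem_nhds ((hVo m).mem_nhds hm)
    filter_upwards [(hH' m).2 x hm, hVn] with y hy hyV
    simp only [Pi.pow_apply] at hy ⊢
    rw [h6 m y hyV, hy]

end Fermat.Agent.S29.H942

end
end
-- ===== PACK-END S29/H942/MeroRootGlue.lean

-- ===== PACK-BEGIN S28/H867/Transfer.lean
section



set_option autoImplicit false
noncomputable section
open ModularCurve HahnSeries IntermediateField Polynomial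

namespace Fermat.Agent.S28.H867

section Transfer

variable (k : Type*) [Field k]

/-- `coeffMap` commutes with `evalAt`. -/
theorem coeffMap_comp_evalAt (y : LaurentSeries ℤ) :
    (coeffMap (Int.castRingHom k)).comp (evalAt y) = evalAt (coeffMap (Int.castRingHom k) y) := by
  apply Polynomial.ringHom_ext
  · intro a
    simp [evalAt]
  · simp [evalAt]

/-- `qExpand` commutes with `evalAt`. -/
theorem qExpand_comp_evalAt (p : ℕ) [NeZero p] (y : LaurentSeries k) :
    (qExpand k p).comp (evalAt y) = evalAt (qExpand k p y) := by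
  apply Polynomial.ringHom_ext
  · intro a
    simp [evalAt]
  · simp [evalAt]

variable {k} in
theorem eval₂_evalAt_transfer (Φ : Polynomial (Polynomial ℤ)) (y x : LaurentSeries ℤ)
    (h : Φ.eval₂ (evalAt y) x = 0) :
    Φ.eval₂ (evalAt (coeffMap (Int.castRingHom k) y)) (coeffMap (Int.castRingHom k) x) = 0 := by
  rw [← coeffMap_comp_evalAt, ← Polynomial.hom_eval₂, h, map_zero]

variable {k} in
theorem eval₂_evalAt_qExpand (p : ℕ) [NeZero p] (Φ : Polynomial (Polynomial ℤ))
    (y x : LaurentSeries k) (h : Φ.eval₂ (evalAt y) x = 0) :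
    Φ.eval₂ (evalAt (qExpand k p y)) (qExpand k p x) = 0 := by
  rw [← qExpand_comp_evalAt, ← Polynomial.hom_eval₂, h, map_zero]

theorem coeffMap_jp (p : ℕ) [NeZero p] :
    coeffMap (Int.castRingHom k) (qExpand ℤ p (jqModC ℤ)) = jp k p := by
  rw [coeffMap_qExpand, coeffMap_jqModC]

/-- `Φ_p(j_p, j) = 0` over `k`. -/
theorem modPoly_eval_jp_field {p : ℕ} [NeZero p] (D : ModPolyData p) :
    D.Φ.eval₂ (evalAt (jqModC k)) (jp k p) = 0 := by
  have := eval₂_evalAt_transfer (k := k) D.Φ _ _ D.eval_jp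
  rwa [coeffMap_jp, coeffMap_jqModC] at this

/-- `Φ_p(j, j_p) = 0` over `k`. -/
theorem modPoly_eval_j_field {p : ℕ} [NeZero p] (D : ModPolyData p) :
    D.Φ.eval₂ (evalAt (jp k p)) (jqModC k) = 0 := by
  have := eval₂_evalAt_transfer (k := k) D.Φ _ _ D.eval_j
  rwa [coeffMap_jp, coeffMap_jqModC] at this

end Transfer

section PolyOver

variable {k : Type*} [Field k]

/-- The polynomial `Φ(X, y)` with coefficients in a subfield `A ∋ y`. -/
def polyOver (A : IntermediateField k (LaurentSeries k)) (y : A) (Φ : Polynomial (Polynomial ℤ)) :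
    Polynomial A :=
  Φ.map (Polynomial.aeval (R := ℤ) y).toRingHom

theorem polyOver_monic (A : IntermediateField k (LaurentSeries k)) (y : A)
    {Φ : Polynomial (Polynomial ℤ)} (h : Φ.Monic) : (polyOver A y Φ).Monic :=
  h.map _

theorem polyOver_natDegree (A : IntermediateField k (LaurentSeries k)) (y : A)
    {Φ : Polynomial (Polynomial ℤ)} (h : Φ.Monic) : (polyOver A y Φ).natDegree = Φ.natDegree :=
  h.natDegree_map _

theorem aeval_polyOver (A : IntermediateField k (LaurentSeries k)) (y : A)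
    (Φ : Polynomial (Polynomial ℤ)) (x : LaurentSeries k) :
    Polynomial.aeval x (polyOver A y Φ) = Φ.eval₂ (evalAt (y : LaurentSeries k)) x := by
  rw [polyOver, Polynomial.aeval_def, Polynomial.eval₂_map]
  congr 1
  apply Polynomial.ringHom_ext
  · intro a
    simp [evalAt]
  · simp [evalAt]

end PolyOver

end Fermat.Agent.S28.H867

end
end
-- ===== PACK-END S28/H867/Transfer.lean

-- ===== PACK-BEGIN S28/H565/PolyPrinciple.lean
section






/-!
# S28 analytic bridge, part 4: the polynomial principle (helper565)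

A holomorphic function on `ℍ` which is invariant under `SL(2, ℤ)` and has a convergent Laurent
expansion at `∞` (finitely many negative exponents) is a polynomial in `j`; consequently its
expansion is the same polynomial in the formal series `jqModC ℂ`.
-/

set_option autoImplicit false

noncomputable section

open UpperHalfPlane Complex Function Filter Topology ModularForm
open scoped Real MatrixGroups Manifold

namespace Fermat.Agent.S28.H565

local notation "𝕢" => Periodic.qParam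
local notation "Δ" => ModularForm.discriminant

theorem discriminant_slash (γ : SL(2, ℤ)) : (Δ ∣[(12 : ℤ)] γ) = Δ :=
  SlashInvariantForm.slash_action_generators_SL2Z discriminant_S_invariant
    discriminant_T_invariant γ

theorem discriminant_smul (γ : SL(2, ℤ)) (τ : ℍ) :
    Δ (γ • τ) = ((γ 1 0 : ℂ) * τ + (γ 1 1 : ℂ)) ^ (12 : ℤ) * Δ τ :=
  (slash_action_eq'_iff 12 Δ γ τ).mp (congrFun (discriminant_slash γ) τ)

theorem E₄_smul (γ : SL(2, ℤ)) (τ : ℍ) :
    E₄ (γ • τ) = ((γ 1 0 : ℂ) * τ + (γ 1 1 : ℂ)) ^ (4 : ℤ) * E₄ τ := by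
  have h : (⇑E₄ ∣[(4 : ℤ)] γ) = ⇑E₄ :=
    SlashInvariantForm.slash_action_eqn E₄ _ ⟨γ, rfl⟩
  exact (slash_action_eq'_iff 4 E₄ γ τ).mp (congrFun h τ)

theorem denom_ne_zero' (γ : SL(2, ℤ)) (τ : ℍ) : ((γ 1 0 : ℂ) * τ + (γ 1 1 : ℂ)) ≠ 0 := by
  have := UpperHalfPlane.denom_ne_zero (γ : GL (Fin 2) ℝ) τ
  simpa [UpperHalfPlane.denom] using this

/-- `j` is invariant under `SL(2, ℤ)`. -/
theorem jFun_smul (γ : SL(2, ℤ)) (τ : ℍ) : jFun (γ • τ) = jFun τ := by
  have hd := denom_ne_zero' γ τ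
  have hΔ := discriminant_ne_zero τ
  simp only [jFun]
  rw [discriminant_smul, E₄_smul]
  rw [mul_pow, ← zpow_natCast (((γ 1 0 : ℂ) * τ + (γ 1 1 : ℂ)) ^ (4 : ℤ)) 3, ← zpow_mul]
  norm_num
  field_simp

theorem mdifferentiable_discriminant : MDiff Δ := CuspForm.discriminant.holo'

theorem mdifferentiable_jFun : MDiff jFun := by
  have h1 : MDiff (fun τ => E₄ τ ^ 3) := (ModularFormClass.holo E₄).pow 3
  exact h1.div mdifferentiable_discriminant discriminant_ne_zero

theorem E₄_pow_three (τ : ℍ) : E₄ τ ^ 3 = jFun τ * Δ τ := by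
  rw [jFun, div_mul_cancel₀ _ (discriminant_ne_zero τ)]

theorem hasPExp_modularForm {k : ℤ} (G : ModularForm 𝒮ℒ k) :
    HasPExp 1 G (qExpansion 1 G) :=
  fun τ => ModularForm.hasSum_qExpansion G one_pos one_mem_strictPeriods_SL τ

theorem constantCoeff_e4C : PowerSeries.constantCoeff e4C = 1 := by
  rw [e4C, ← PowerSeries.coeff_zero_eq_constantCoeff, PowerSeries.coeff_map,
    PowerSeries.coeff_zero_eq_constantCoeff, ModularCurve.constantCoeff_eisenstein4]
  simp

/-- Level one modular forms of weight `12 m` are of the form `Q(j) Δ^m` with `deg Q ≤ m`. -/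
theorem exists_polynomial_of_modularForm (m : ℕ) : ∀ (k : ℤ), k = 12 * m →
    ∀ G : ModularForm 𝒮ℒ k,
      ∃ Q : Polynomial ℂ, Q.natDegree ≤ m ∧ ∀ τ, G τ = Q.eval (jFun τ) * Δ τ ^ m := by
  induction m with
  | zero =>
    intro k hk G
    have hk0 : k = 0 := by simpa using hk
    obtain ⟨c, hc⟩ := ModularFormClass.levelOne_weight_zero_const (ModularForm.mcast hk0 G)
    refine ⟨Polynomial.C c, by simp, fun τ => ?_⟩
    have := congrFun hc τ
    simpa using this
  | succ m ih =>
    intro k hk G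
    set c : ℂ := PowerSeries.coeff 0 (qExpansion 1 G) with hc
    have hw : ((3 * (m + 1) : ℕ) : ℤ) * 4 = k := by rw [hk]; push_cast; ring
    set E4pow : ModularForm 𝒮ℒ k := ModularForm.mcast hw (E₄.pow (3 * (m + 1))) with hE4pow
    have hE4pow_apply : ∀ τ, E4pow τ = E₄ τ ^ (3 * (m + 1)) := by
      intro τ
      rw [hE4pow, ModularForm.coe_mcast, ModularForm.coe_pow]
      rfl
    set G₁ : ModularForm 𝒮ℒ k := G - c • E4pow with hG₁
    have hG₁_apply : ∀ τ, G₁ τ = G τ - c * E₄ τ ^ (3 * (m + 1)) := by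
      intro τ
      simp [hG₁, hE4pow_apply]
    have hexp1 : HasPExp 1 G₁ (qExpansion 1 G - c • e4C ^ (3 * (m + 1))) := by
      refine ((hasPExp_modularForm G).sub ((hasPExp_E₄.pow (3 * (m + 1))).smul c)).congr ?_
      intro τ
      simp [hG₁_apply]
    have hq : qExpansion 1 G₁ = qExpansion 1 G - c • e4C ^ (3 * (m + 1)) :=
      (hasPExp_modularForm G₁).unique one_pos hexp1
    have hcusp : PowerSeries.coeff 0 (qExpansion 1 G₁) = 0 := by
      rw [hq, map_sub, PowerSeries.coeff_smul, ← hc]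
      simp [constantCoeff_e4C]
    have hw' : k - 12 = 12 * (m : ℤ) := by rw [hk]; push_cast; ring
    obtain ⟨Q', hQ'deg, hQ'⟩ := ih (k - 12) hw' (CuspForm.discriminantEquiv (G₁.toCuspForm hcusp))
    refine ⟨Polynomial.C c * Polynomial.X ^ (m + 1) + Q', ?_, fun τ => ?_⟩
    · refine (Polynomial.natDegree_add_le _ _).trans (max_le ?_ (hQ'deg.trans (Nat.le_succ m)))
      exact Polynomial.natDegree_C_mul_X_pow_le c (m + 1)
    · have h1 := hQ' τ
      rw [CuspForm.discriminantEquiv_apply, ModularForm.toCuspForm_apply, hG₁_apply] at h1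
      have hΔ := discriminant_ne_zero τ
      have h2 : G τ - c * E₄ τ ^ (3 * (m + 1)) = Q'.eval (jFun τ) * Δ τ ^ m * Δ τ := by
        rw [← h1, div_mul_cancel₀ _ hΔ]
      have h3 : E₄ τ ^ (3 * (m + 1)) = (jFun τ * Δ τ) ^ (m + 1) := by
        rw [pow_mul, E₄_pow_three]
      rw [h3] at h2
      simp only [Polynomial.eval_add, Polynomial.eval_mul, Polynomial.eval_C, Polynomial.eval_pow,
        Polynomial.eval_X]
      linear_combination h2

/-- `q = t^N` for the parameters `q = exp (2πiτ)` and `t = exp (2πiτ/N)`. -/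
theorem qParam_one_eq_pow (N : ℕ) (hN : N ≠ 0) (z : ℂ) : 𝕢 1 z = 𝕢 N z ^ N := by
  have h := qParam_mul_pow 1 N hN z 1
  rw [one_mul, mul_one, zpow_one, zpow_natCast] at h
  exact h.symm

theorem isBoundedAtImInfty_mul_discriminant_pow {N : ℕ} [NeZero N] {f : ℍ → ℂ}
    {φ : LaurentSeries ℂ} (hexp : HasTExp N f φ) (m : ℕ) (hm : 0 ≤ φ.order + N * m) :
    IsBoundedAtImInfty (fun τ => f τ * Δ τ ^ m) := by
  have hN : (0 : ℝ) < N := by exact_mod_cast Nat.pos_of_ne_zero (NeZero.ne N)
  obtain ⟨k, hk⟩ := Int.eq_ofNat_of_zero_le hm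
  have b1 := hexp.hasPExp.isBoundedAtImInfty hN
  have b2 := ((HasPExp.X (h := N)).pow k).isBoundedAtImInfty hN
  have b3 := ((hasPExp_eulerFun one_pos).pow (24 * m)).isBoundedAtImInfty one_pos
  have b := (b1.mul b2).mul b3
  have hfun : (fun τ : ℍ => f τ * Δ τ ^ m) =
      ((fun τ : ℍ => f τ * 𝕢 N τ ^ (-φ.order)) * ((fun τ : ℍ => 𝕢 N τ) ^ k)) *
        ((fun τ : ℍ => eulerFun (𝕢 1 τ)) ^ (24 * m)) := by
    funext τ
    have ht : 𝕢 N (τ : ℂ) ≠ 0 := Periodic.qParam_ne_zero _
    simp only [Pi.mul_apply, Pi.pow_apply]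
    rw [discriminant_eq_eulerFun, qParam_one_eq_pow N (NeZero.ne N)]
    have e1 : 𝕢 N (τ : ℂ) ^ (-φ.order) * 𝕢 N (τ : ℂ) ^ k = 𝕢 N (τ : ℂ) ^ (N * m) := by
      rw [← zpow_natCast (𝕢 N (τ : ℂ)) k, ← zpow_add₀ ht, ← hk, ← zpow_natCast]
      congr 1
      push_cast
      ring
    rw [mul_pow, ← pow_mul]
    linear_combination (-(f τ * eulerFun (𝕢 N (τ : ℂ) ^ N) ^ (24 * m))) * e1
  rw [hfun]
  exact b

/-- **Polynomial principle.** A holomorphic `SL(2, ℤ)`-invariant function on `ℍ` with a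
convergent Laurent expansion `φ` in `t = exp (2πiτ/N)` is a polynomial `Q` in `j`, and
`φ = Q (j(t^N))` as formal Laurent series. -/
theorem exists_polynomial_of_invariant {N : ℕ} [NeZero N] {f : ℍ → ℂ} {φ : LaurentSeries ℂ}
    (hf : MDiff f) (hinv : ∀ (γ : SL(2, ℤ)) (τ : ℍ), f (γ • τ) = f τ)
    (hexp : HasTExp N f φ) :
    ∃ Q : Polynomial ℂ, (∀ τ, f τ = Q.eval (jFun τ)) ∧
      φ = Polynomial.aeval (ModularCurve.qExpand ℂ N (ModularCurve.jqModC ℂ)) Q := by
  have hN : (0 : ℝ) < N := by exact_mod_cast Nat.pos_of_ne_zero (NeZero.ne N)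
  set m : ℕ := (-φ.order).toNat with hm
  have hm0 : 0 ≤ φ.order + N * m := by
    have h1 : -φ.order ≤ (m : ℤ) := Int.self_le_toNat _
    have h2 : (1 : ℤ) ≤ N := by exact_mod_cast Nat.pos_of_ne_zero (NeZero.ne N)
    nlinarith [Int.natCast_nonneg m]
  have hbdd := isBoundedAtImInfty_mul_discriminant_pow hexp m hm0
  have hslash : ∀ γ : SL(2, ℤ),
      ((fun τ => f τ * Δ τ ^ m) ∣[(12 * m : ℤ)] γ) = fun τ => f τ * Δ τ ^ m := by
    intro γ
    funext τ
    rw [slash_action_eq'_iff, hinv, discriminant_smul, mul_pow, ← zpow_natCast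
      (((γ 1 0 : ℂ) * τ + (γ 1 1 : ℂ)) ^ (12 : ℤ)) m, ← zpow_mul]
    ring
  let G : ModularForm 𝒮ℒ (12 * m) :=
    { toFun := fun τ => f τ * Δ τ ^ m
      slash_action_eq' := fun _ ⟨γ, hγ⟩ => hγ ▸ hslash γ
      holo' := hf.mul (mdifferentiable_discriminant.pow m)
      bdd_at_cusps' := fun {c} hc => by
        rw [Subgroup.IsArithmetic.isCusp_iff_isCusp_SL2Z] at hc
        rw [OnePoint.isBoundedAt_iff_forall_SL2Z hc]
        intro γ _
        rw [hslash γ]
        exact hbdd }
  obtain ⟨Q, -, hQ⟩ := exists_polynomial_of_modularForm m _ rfl G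
  have hfQ : ∀ τ, f τ = Q.eval (jFun τ) := by
    intro τ
    have h1 : f τ * Δ τ ^ m = Q.eval (jFun τ) * Δ τ ^ m := hQ τ
    exact mul_right_cancel₀ (pow_ne_zero m (discriminant_ne_zero τ)) h1
  refine ⟨Q, hfQ, ?_⟩
  have h1 : HasTExp N jFun (ModularCurve.qExpand ℂ N (ModularCurve.jqModC ℂ)) :=
    hasTExp_jFun.qExpand_one N
  have h2 := h1.polynomial_aeval Q
  have h3 : HasTExp N f (Polynomial.aeval (ModularCurve.qExpand ℂ N (ModularCurve.jqModC ℂ)) Q) :=
    h2.congr fun τ => (hfQ τ).symm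
  exact hexp.unique hN h3

end Fermat.Agent.S28.H565

end
end
-- ===== PACK-END S28/H565/PolyPrinciple.lean

-- ===== PACK-BEGIN S28/H326/Hecke.lean
section
/-
S28 / helper326: the analytic input `HeckeInput p` from the Prelude Hecke operator `T_p`
on level-one modular forms and the level-one structure theorem (helper505).
-/






set_option autoImplicit false
set_option linter.unusedSectionVars false

noncomputable section

namespace Fermat.Agent.S28.H326

open ModularCurve HahnSeries UpperHalfPlane ModularForm MatrixGroups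

/-! ### `T_p` on level one forms -/

theorem gamma0_one_coe :
    ((CongruenceSubgroup.Gamma0 1 : Subgroup SL(2, ℤ)) : Subgroup (GL (Fin 2) ℝ)) = 𝒮ℒ := by
  have h : CongruenceSubgroup.Gamma0 1 = ⊤ := by
    ext g
    simp [CongruenceSubgroup.Gamma0_mem, Subsingleton.elim (_ : ZMod 1) 0]
  rw [h, MonoidHom.range_eq_map]

/-- `T_p f` as a level one modular form. -/
def heckeForm (k : ℤ) {p : ℕ} (hp : p.Prime) (f : ModularForm 𝒮ℒ k) : ModularForm 𝒮ℒ k where
  toFun := ModularForm.heckeT k p ⇑f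
  slash_action_eq' := fun γ hγ =>
    ModularForm.heckeT_slash_eq_self_of_mem_Gamma0 (N := 1) k hp
      (by rw [Nat.dvd_one]; exact hp.one_lt.ne')
      (fun γ' hγ' => SlashInvariantFormClass.slash_action_eq f γ' (gamma0_one_coe ▸ hγ'))
      γ (gamma0_one_coe.symm ▸ hγ)
  holo' := ModularForm.mdifferentiable_heckeT (ModularFormClass.holo f) k p
  bdd_at_cusps' := fun hc => ModularFormClass.isBoundedAt_heckeT f p hc

theorem coe_heckeForm (k : ℤ) {p : ℕ} (hp : p.Prime) (f : ModularForm 𝒮ℒ k) :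
    ⇑(heckeForm k hp f) = ModularForm.heckeT k p ⇑f := rfl

theorem qExpansion_heckeForm_coeff (k : ℤ) {p : ℕ} (hp : p.Prime) (f : ModularForm 𝒮ℒ k)
    (n : ℕ) :
    (qExpansion 1 (heckeForm k hp f)).coeff n =
      (qExpansion 1 f).coeff (n * p) +
        if p ∣ n then (p : ℂ) ^ (k - 1) * (qExpansion 1 f).coeff (n / p) else 0 := by
  have := ModularFormClass.qCoeff_heckeT f one_mem_strictPeriods_SL hp.ne_zero n
  simpa [ModularFormClass.qCoeff, coe_heckeForm, ModularForm.coeffHeckeT] using this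

/-! ### The forms `E₄^{3a} Δ^r` -/

/-- `Δ` as a modular form -/
def deltaForm : ModularForm 𝒮ℒ 12 := CuspForm.toModularFormₗ CuspForm.discriminant

theorem qExpansion_deltaForm : qExpansion 1 deltaForm = H505.deltaC :=
  H505.qExpansion_discriminant_eq_deltaC

/-- `E₄^{3a} Δ^r` -/
def monoE4Delta (a r : ℕ) (k : ℤ) (hk : ((3 * a : ℕ) : ℤ) * 4 + ((r : ℕ) : ℤ) * 12 = k) :
    ModularForm 𝒮ℒ k :=
  ModularForm.mcast hk ((E₄.pow (3 * a)).mul (deltaForm.pow r))

theorem toC_EZ : toC EZ = H505.e4C ^ 3 := by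
  rw [EZ, map_pow, H505.e4C]

theorem toC_DZ : toC DZ = H505.deltaC := by
  rw [DZ, map_mul, PowerSeries.map_X, H505.deltaC, dedekindEtaUnit, map_pow]

theorem qExpansion_monoE4Delta (a r : ℕ) (k : ℤ)
    (hk : ((3 * a : ℕ) : ℤ) * 4 + ((r : ℕ) : ℤ) * 12 = k) :
    qExpansion 1 (monoE4Delta a r k hk) = toC (EZ ^ a * DZ ^ r) := by
  rw [monoE4Delta, ModularForm.qExpansion_mcast,
    ModularForm.qExpansion_mul one_pos one_mem_strictPeriods_SL,
    ModularForm.qExpansion_pow one_pos one_mem_strictPeriods_SL,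
    ModularForm.qExpansion_pow one_pos one_mem_strictPeriods_SL,
    H505.qExpansion_E₄_eq_e4C, qExpansion_deltaForm, map_mul, map_pow, map_pow, toC_EZ, toC_DZ,
    ← pow_mul]

/-! ### Integrality by leading terms, over `ℂ` -/

theorem C_mul_coeff (c : ℂ) (x : LaurentSeries ℂ) (n : ℤ) :
    (HahnSeries.C c * x).coeff n = c * x.coeff n := by
  rw [HahnSeries.C_mul_eq_smul, HahnSeries.coeff_smul, smul_eq_mul]

theorem aeval_jC_coeff (Q : Polynomial ℂ) {n : ℕ} (hn : Q.natDegree ≤ n) :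
    (Polynomial.aeval (jqModC ℂ) Q).coeff (-(n : ℤ)) = Q.coeff n := by
  rw [H505.aeval_laurent_eq_eval₂, Polynomial.eval₂_eq_sum_range' _ (Nat.lt_succ_of_le hn),
    HahnSeries.coeff_sum, Finset.sum_range_succ]
  rw [Finset.sum_eq_zero, zero_add, C_mul_coeff, coeff_jqModC_pow_self, mul_one]
  intro i hi
  rw [C_mul_coeff, coeff_jqModC_pow_of_lt ℂ (by have := Finset.mem_range.mp hi; omega),
    mul_zero]

theorem exists_int_poly_of_kap (Q : Polynomial ℂ) (x : LaurentSeries ℤ)
    (h : Polynomial.aeval (jqModC ℂ) Q = kap x) :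
    ∃ Q' : Polynomial ℤ, Polynomial.aeval (jqModC ℤ) Q' = x := by
  suffices H : ∀ d : ℕ, ∀ (Q : Polynomial ℂ) (x : LaurentSeries ℤ), Q.natDegree < d →
      Polynomial.aeval (jqModC ℂ) Q = kap x →
        ∃ Q' : Polynomial ℤ, Polynomial.aeval (jqModC ℤ) Q' = x from
    H (Q.natDegree + 1) Q x (Nat.lt_succ_self _) h
  intro d
  induction d with
  | zero => intro Q x hQ; omega
  | succ d ih =>
    intro Q x hQ hx
    have hle : Q.natDegree ≤ d := Nat.lt_succ_iff.mp hQ
    have hlead := aeval_jC_coeff Q hle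
    rw [hx, coeffMap_coeff] at hlead
    set m : ℤ := x.coeff (-(d : ℤ)) with hm
    set Q1 : Polynomial ℂ := Q - Polynomial.C (Q.coeff d) * Polynomial.X ^ d with hQ1
    have hx1 : Polynomial.aeval (jqModC ℂ) Q1 = kap (x - (m : LaurentSeries ℤ) * jqModC ℤ ^ d) := by
      rw [hQ1, map_sub, map_mul, Polynomial.aeval_C, map_pow, Polynomial.aeval_X, hx, map_sub,
        map_mul, map_pow, coeffMap_jqModC, ← hlead]
      congr 2
      rw [H505.algebraMap_laurent_eq_C, map_intCast]
      simp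
    by_cases h0 : Q1 = 0
    · refine ⟨Polynomial.C m * Polynomial.X ^ d, ?_⟩
      rw [h0, map_zero] at hx1
      have h1 : x - (m : LaurentSeries ℤ) * jqModC ℤ ^ d = 0 :=
        kap_injective (by rw [← hx1, map_zero])
      rw [map_mul, Polynomial.aeval_C, map_pow, Polynomial.aeval_X]
      rw [sub_eq_zero] at h1
      rw [h1]
      simp
    · have hdeg : Q1.natDegree < d := by
        have h1 : Q1.natDegree ≤ d := by
          refine (Polynomial.natDegree_sub_le _ _).trans (max_le hle ?_)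
          exact Polynomial.natDegree_C_mul_X_pow_le _ _
        rcases Nat.lt_or_ge Q1.natDegree d with h2 | h2
        · exact h2
        · have h3 : Q1.natDegree = d := le_antisymm h1 h2
          have h4 : Q1.coeff d = 0 := by simp [hQ1]
          have h5 : Q1.leadingCoeff = 0 := by rw [Polynomial.leadingCoeff, h3, h4]
          exact absurd (Polynomial.leadingCoeff_eq_zero.mp h5) h0
      obtain ⟨Q', hQ'⟩ := ih Q1 _ hdeg hx1
      refine ⟨Q' + Polynomial.C m * Polynomial.X ^ d, ?_⟩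
      rw [map_add, hQ', map_mul, Polynomial.aeval_C, map_pow, Polynomial.aeval_X]
      simp

/-! ### The Hecke input -/

theorem kap_heckeL_eq_gen (p : ℕ) [NeZero p] (hp : p.Prime) (φ : PowerSeries ℤ) (k' : ℕ) (k : ℤ)
    (hk' : k = (k' : ℤ)) (F : ModularForm 𝒮ℒ k) (hF : qExpansion 1 F = toC φ) :
    kap (heckeL p k' φ) =
      (p : LaurentSeries ℂ) * ofPS (qExpansion 1 (heckeForm k hp F)) := by
  have hp0 : (p : ℂ) ≠ 0 := Nat.cast_ne_zero.mpr hp.ne_zero
  ext n
  rw [heckeL]
  simp only [map_add, map_mul, map_pow, map_natCast, coeffMap_qExpand, kap_ofPS, toC_UpZ]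
  rw [HahnSeries.coeff_add, ← Nat.cast_pow, natCast_mul_coeff, natCast_mul_coeff,
    natCast_mul_coeff]
  rcases lt_or_ge n 0 with hn | hn
  · rw [ofPS_coeff_neg _ hn, ofPS_coeff_neg _ hn, mul_zero, add_zero]
    have := cBase_coeff_neg p (toC φ) hn
    rw [cBase, RingHom.comp_apply] at this
    rw [this, mul_zero]
  · lift n to ℕ using hn
    rw [ofPS_coeff_nat, ofPS_coeff_nat, qExpansion_heckeForm_coeff, hF, coeff_Up]
    by_cases hdvd : p ∣ n
    · obtain ⟨m, rfl⟩ := hdvd
      rw [if_pos (dvd_mul_right p m)]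
      have h1 : ((p * m : ℕ) : ℤ) = (p : ℤ) * m := by push_cast; ring
      rw [h1, qExpand_coeff_mul, ofPS_coeff_nat, Nat.mul_div_cancel_left m hp.pos]
      have h2 : (p : ℂ) * (p : ℂ) ^ (k - 1) = ((p ^ k' : ℕ) : ℂ) := by
        rw [hk', ← zpow_one_add₀ hp0]
        push_cast
        rw [show (1 : ℤ) + ((k' : ℤ) - 1) = (k' : ℤ) by ring, zpow_natCast]
      rw [mul_add, ← mul_assoc, h2]
      ring
    · rw [if_neg hdvd, add_zero]
      have h1 : ¬ (p : ℤ) ∣ (n : ℤ) := by exact_mod_cast hdvd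
      rw [qExpand_coeff_of_not_dvd p _ h1, mul_zero, zero_add]

theorem kap_heckeL_eq (p : ℕ) [NeZero p] (hp : p.Prime) (a r : ℕ) (k : ℤ)
    (hk : ((3 * a : ℕ) : ℤ) * 4 + ((r : ℕ) : ℤ) * 12 = k) :
    kap (heckeL p (12 * (a + r)) (EZ ^ a * DZ ^ r)) =
      (p : LaurentSeries ℂ) *
        ofPS (qExpansion 1 (heckeForm k hp (monoE4Delta a r k hk))) :=
  kap_heckeL_eq_gen p hp _ _ k (by rw [← hk]; push_cast; ring) _ (qExpansion_monoE4Delta a r k hk)

/-- **The Hecke input holds.** -/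
theorem heckeInput (p : ℕ) [NeZero p] (hp : p.Prime) : HeckeInput p := by
  intro a r
  have hk : ((3 * a : ℕ) : ℤ) * 4 + ((r : ℕ) : ℤ) * 12 = (12 * ((a + r : ℕ) : ℤ)) := by
    push_cast; ring
  obtain ⟨P, -, -, hP⟩ := H505.levelOne_structure (a + r) _ rfl
    (heckeForm _ hp (monoE4Delta a r _ hk))
  have h1 := kap_heckeL_eq p hp a r _ hk
  rw [hP] at h1
  have hD : HahnSeries.ofPowerSeries ℤ ℂ H505.deltaC = kap deltaZ := by
    rw [deltaZ, kap_ofPS, toC_DZ]
  have h2 : Polynomial.aeval (jqModC ℂ) (Polynomial.C (p : ℂ) * P) =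
      kap (heckeL p (12 * (a + r)) (EZ ^ a * DZ ^ r) * deltaInvZ ^ (a + r)) := by
    have h3 : kap deltaZ * kap deltaInvZ = 1 := by
      rw [← map_mul, deltaZ_mul_deltaInvZ, map_one]
    have h4 : (p : LaurentSeries ℂ) = HahnSeries.C (p : ℂ) := by simp
    have h5 : kap (heckeL p (12 * (a + r)) (EZ ^ a * DZ ^ r) * deltaInvZ ^ (a + r)) =
        kap (heckeL p (12 * (a + r)) (EZ ^ a * DZ ^ r)) * kap deltaInvZ ^ (a + r) := by
      rw [map_mul, map_pow]
    have h6 : Polynomial.aeval (jqModC ℂ) (Polynomial.C (p : ℂ) * P) =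
        HahnSeries.C (p : ℂ) * Polynomial.aeval (jqModC ℂ) P := by
      rw [map_mul, Polynomial.aeval_C, H505.algebraMap_laurent_eq_C]
    rw [h5, h6, h1, hD, h4]
    calc HahnSeries.C (p : ℂ) * Polynomial.aeval (jqModC ℂ) P
        = HahnSeries.C (p : ℂ) * Polynomial.aeval (jqModC ℂ) P *
            (kap deltaZ * kap deltaInvZ) ^ (a + r) := by rw [h3, one_pow, mul_one]
      _ = _ := by rw [mul_pow]; ring
  obtain ⟨Q', hQ'⟩ := exists_int_poly_of_kap _ _ h2
  refine ⟨Q', ?_⟩
  rw [hQ', mul_assoc, ← mul_pow, mul_comm deltaInvZ, deltaZ_mul_deltaInvZ, one_pow, mul_one]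

end Fermat.Agent.S28.H326

end
end
-- ===== PACK-END S28/H326/Hecke.lean

-- ===== PACK-BEGIN S18/H333/Sturm.lean
section






/-!
# S18 / c3 (helper333): the formal level-2 / level-3 identities via the Sturm bound
-/

set_option autoImplicit false
set_option linter.unusedSectionVars false

noncomputable section

namespace Fermat.Agent.S18.H333

open UpperHalfPlane ModularForm CongruenceSubgroup MatrixGroups EisensteinSeries

/-- coefficient map `ℤ⟦X⟧ → ℂ⟦X⟧` -/
abbrev toCs : PowerSeries ℤ →+* PowerSeries ℂ := PowerSeries.map (Int.castRingHom ℂ)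

theorem toCs_injective : Function.Injective toCs := by
  intro f g h
  ext n
  have := congrArg (PowerSeries.coeff n) h
  simpa using this

theorem toCs_zsmul (c : ℤ) (f : PowerSeries ℤ) : toCs (c • f) = (c : ℂ) • toCs f := by
  ext n
  rw [PowerSeries.coeff_map, map_zsmul, PowerSeries.coeff_smul, PowerSeries.coeff_map]
  simp

theorem toCs_Vser (p : ℕ) (f : PowerSeries ℤ) : toCs (Vser p f) = Vser p (toCs f) :=
  Vser_map _ _ _

/-- `Δ` as a level-one modular form -/
def DeltaMF : ModularForm 𝒮ℒ 12 := CuspForm.toModularFormₗ CuspForm.discriminant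

theorem qExpansion_E4 : qExpansion 1 E₄ = toCs Ez :=
  Fermat.Agent.S28.H505.qExpansion_E₄_eq_e4C

theorem qExpansion_DeltaMF : qExpansion 1 DeltaMF = toCs Dz := by
  have h : qExpansion 1 DeltaMF = Fermat.Agent.S28.H505.deltaC :=
    Fermat.Agent.S28.H505.qExpansion_discriminant_eq_deltaC
  rw [h, Fermat.Agent.S28.H505.deltaC, Dz, map_mul, map_pow, PowerSeries.map_X]

variable (p : ℕ) [NeZero p]

local notation "Γp" => (Gamma0 p : Subgroup (GL (Fin 2) ℝ))

theorem qExp_restr {k : ℤ} (H : ModularForm 𝒮ℒ k) :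
    qExpansion 1 (restr p H) = qExpansion 1 H := rfl

theorem qExp_mul {a b : ℤ} (f : ModularForm Γp a) (g : ModularForm Γp b) :
    qExpansion 1 (f.mul g) = qExpansion 1 f * qExpansion 1 g :=
  ModularForm.qExpansion_mul one_pos (_root_.Fermat.Agent.S18.H333.one_mem_strictPeriods_Gamma0 p) f g

theorem qExp_add {a : ℤ} (f g : ModularForm Γp a) :
    qExpansion 1 (⇑(f + g)) = qExpansion 1 f + qExpansion 1 g := by
  rw [FunLike.coe_add]
  exact ModularForm.qExpansion_add one_pos (_root_.Fermat.Agent.S18.H333.one_mem_strictPeriods_Gamma0 p) f g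

theorem qExp_sub {a : ℤ} (f g : ModularForm Γp a) :
    qExpansion 1 (⇑(f - g)) = qExpansion 1 f - qExpansion 1 g := by
  rw [FunLike.coe_sub]
  exact ModularForm.qExpansion_sub one_pos (_root_.Fermat.Agent.S18.H333.one_mem_strictPeriods_Gamma0 p) f g

theorem qExp_smul {a : ℤ} (c : ℂ) (f : ModularForm Γp a) :
    qExpansion 1 (⇑(c • f)) = c • qExpansion 1 f := by
  rw [FunLike.coe_smul]
  exact ModularForm.qExpansion_smul one_pos (_root_.Fermat.Agent.S18.H333.one_mem_strictPeriods_Gamma0 p) c f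

theorem qExp_pow {a : ℤ} (f : ModularForm Γp a) (n : ℕ) :
    qExpansion 1 (f.pow n) = qExpansion 1 f ^ n :=
  ModularForm.qExpansion_pow one_pos (_root_.Fermat.Agent.S18.H333.one_mem_strictPeriods_Gamma0 p) f n

/-- the Sturm bound in the form we use: vanishing of `q`-expansion coefficients below `n`
with `k * ψ(p) / 12 < n` forces a form whose `q`-expansion comes from `ℤ⟦X⟧` to vanish. -/
theorem series_eq_zero_of_sturm {k : ℤ} (F : ModularForm Γp k) (Φ : PowerSeries ℤ)
    (hF : qExpansion 1 F = toCs Φ) (n : ℕ)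
    (hn : (k * ((Gamma0 p).index : ℤ)).toNat / 12 < n) (hΦ : tl n Φ = tzero n) : Φ = 0 := by
  have hzero : F = 0 := by
    refine ModularForm.sturm_bound_Gamma0 p F fun m hm => ?_
    rw [hF, PowerSeries.coeff_map, (tl_eq_tzero_iff n Φ).mp hΦ m (lt_of_le_of_lt hm hn), map_zero]
  apply toCs_injective
  rw [map_zero, ← hF, hzero]
  exact qExpansion_zero 1

/-! ### level 2 -/

theorem index_Gamma0_two : (Gamma0 2).index = 3 := by
  rw [Fermat.Agent.S20.Comb.index_Gamma0]
  decide +kernel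

theorem index_Gamma0_three : (Gamma0 3).index = 4 := by
  rw [Fermat.Agent.S20.Comb.index_Gamma0]
  decide +kernel

/-- `E₄³` on `Γ₀(p)`, weight 12 -/
def EcubeF : ModularForm Γp 12 := ((restr p E₄).pow 3).mcast (by norm_num)

/-- `E₄(p·)³` on `Γ₀(p)`, weight 12 -/
def EpcubeF : ModularForm Γp 12 := ((raise p E₄).pow 3).mcast (by norm_num)

/-- `Δ` on `Γ₀(p)` -/
def XF : ModularForm Γp 12 := restr p DeltaMF

/-- `Δ(p·)` on `Γ₀(p)` -/
def YF : ModularForm Γp 12 := raise p DeltaMF

theorem qExp_EcubeF : qExpansion 1 (EcubeF p) = toCs (Ez ^ 3) := by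
  rw [EcubeF, ModularForm.qExpansion_mcast, qExp_pow, qExp_restr, qExpansion_E4, map_pow]

theorem qExp_EpcubeF : qExpansion 1 (EpcubeF p) = toCs (Vser p Ez ^ 3) := by
  rw [EpcubeF, ModularForm.qExpansion_mcast, qExp_pow, qExpansion_raise, qExpansion_E4, map_pow,
    toCs_Vser]

theorem qExp_XF : qExpansion 1 (XF p) = toCs Dz := by
  rw [XF, qExp_restr, qExpansion_DeltaMF]

theorem qExp_YF : qExpansion 1 (YF p) = toCs (Vser p Dz) := by
  rw [YF, qExpansion_raise, qExpansion_DeltaMF, toCs_Vser]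

/-- the weight-36 form `E³ X Y - (X + c Y)³` -/
def cubicF (E : ModularForm Γp 12) (c : ℤ) : ModularForm Γp ((12 + 12) + 12) :=
  ((E.mul (XF p)).mul (YF p)) -
    (((XF p + (c : ℂ) • YF p).mul (XF p + (c : ℂ) • YF p)).mul (XF p + (c : ℂ) • YF p))

theorem qExp_cubicF (E : ModularForm Γp 12) (c : ℤ) (e : PowerSeries ℤ)
    (hE : qExpansion 1 E = toCs e) :
    qExpansion 1 (cubicF p E c) =
      toCs (e * Dz * Vser p Dz - (Dz + c • Vser p Dz) ^ 3) := by
  rw [cubicF, qExp_sub, qExp_mul, qExp_mul, qExp_mul, qExp_mul, qExp_add, qExp_smul, hE, qExp_XF,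
    qExp_YF, map_sub, map_mul, map_mul, map_pow, map_add, toCs_zsmul]
  ring

theorem Phi2a_eq_zero : Phi2a = 0 := by
  refine series_eq_zero_of_sturm 2 (cubicF 2 (EcubeF 2) 256) Phi2a ?_ 10 ?_ tl_Phi2a
  · rw [qExp_cubicF 2 _ 256 _ (qExp_EcubeF 2)]; rfl
  · rw [index_Gamma0_two]; decide

theorem Phi2b_eq_zero : Phi2b = 0 := by
  refine series_eq_zero_of_sturm 2 (cubicF 2 (EpcubeF 2) 16) Phi2b ?_ 10 ?_ tl_Phi2b
  · rw [qExp_cubicF 2 _ 16 _ (qExp_EpcubeF 2)]; rfl
  · rw [index_Gamma0_two]; decide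

/-! ### level 3 -/

/-- the weight-48 form `A² - X Y (E - B)²`, `A = X² + c₂ X Y + c₄ Y²`, `B = c₁ X + c₃ Y` -/
def quarticF (E : ModularForm Γp 12) (c₁ c₂ c₃ c₄ : ℤ) :
    ModularForm Γp ((12 + 12) + (12 + 12)) :=
  (((XF p).mul (XF p) + (c₂ : ℂ) • (XF p).mul (YF p) + (c₄ : ℂ) • (YF p).mul (YF p)).mul
    ((XF p).mul (XF p) + (c₂ : ℂ) • (XF p).mul (YF p) + (c₄ : ℂ) • (YF p).mul (YF p))) -
  ((XF p).mul (YF p)).mul
    ((E - ((c₁ : ℂ) • XF p + (c₃ : ℂ) • YF p)).mul (E - ((c₁ : ℂ) • XF p + (c₃ : ℂ) • YF p)))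

theorem qExp_quarticF (E : ModularForm Γp 12) (c₁ c₂ c₃ c₄ : ℤ) (e : PowerSeries ℤ)
    (hE : qExpansion 1 E = toCs e) :
    qExpansion 1 (quarticF p E c₁ c₂ c₃ c₄) =
      toCs ((Dz * Dz + c₂ • (Dz * Vser p Dz) + c₄ • (Vser p Dz * Vser p Dz)) *
          (Dz * Dz + c₂ • (Dz * Vser p Dz) + c₄ • (Vser p Dz * Vser p Dz)) -
        (Dz * Vser p Dz) * ((e - (c₁ • Dz + c₃ • Vser p Dz)) * (e - (c₁ • Dz + c₃ • Vser p Dz)))) := by
  simp only [quarticF, qExp_sub, qExp_mul, qExp_add, qExp_smul, hE, qExp_XF, qExp_YF, map_sub,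
    map_mul, map_add, toCs_zsmul]

theorem Phi3a_eq_zero : Phi3a = 0 := by
  refine series_eq_zero_of_sturm 3 (quarticF 3 (EcubeF 3) 756 196830 19131876 387420489) Phi3a
    ?_ 17 ?_ tl_Phi3a
  · rw [qExp_quarticF 3 _ _ _ _ _ _ (qExp_EcubeF 3)]; rfl
  · rw [index_Gamma0_three]; decide

theorem Phi3b_eq_zero : Phi3b = 0 := by
  refine series_eq_zero_of_sturm 3 (quarticF 3 (EpcubeF 3) 36 270 756 729) Phi3b
    ?_ 17 ?_ tl_Phi3b
  · rw [qExp_quarticF 3 _ _ _ _ _ _ (qExp_EpcubeF 3)]; rfl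
  · rw [index_Gamma0_three]; decide

end Fermat.Agent.S18.H333

end
end
-- ===== PACK-END S18/H333/Sturm.lean

-- ===== PACK-BEGIN Lib/RR/Zeros.lean
section



/-!
# RR library, layer L2: the zeros of `x` number at most `[F : K(x)]`  (Stichtenoth 1.3.3)

Proof.  Let `P_1, …, P_r` be distinct zeros of `x`, `e_i = ord_{P_i} x`.  Choose
uniformizers `t_i` at `P_i` and (approximation) `s_i` with `ord_{P_i} s_i = 0` and
`ord_{P_k} s_i ≥ M` for `k ≠ i`, `M` large.  The `∑ e_i` elements `t_i ^ a * s_i`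
(`0 ≤ a < e_i`) are linearly independent over `K(x)`: the order of a nonzero element of `K(x)`
at `P_i` is `n * e_i` with `n` independent of `i`; in a nontrivial relation pick the term with
lexicographically least `(n, a)`; at its place it has strictly smaller order than all others.
-/

set_option autoImplicit false

noncomputable section

open AlgebraicCurve Polynomial

namespace Fermat.Agent.Lib.RR

variable {K F : Type*} [Field K] [Field F] [Algebra K F]

theorem add_ne_zero_of_ord_lt (v : Place K F) {f g : F}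
    (h : v.ord f < v.ord g) : f + g ≠ 0 := by
  intro h0
  have : g = -f := by rw [← sub_eq_zero, sub_neg_eq_add, add_comm]; exact h0
  rw [this, ord_neg] at h
  exact lt_irrefl _ h

theorem aeval_mem (v : Place K F) {x : F} (hx : 0 ≤ v.ord x) (p : K[X]) :
    aeval x p ∈ v.toValuationSubring := by
  induction p using Polynomial.induction_on' with
  | add p q hp hq => rw [map_add]; exact add_mem hp hq
  | monomial n c =>
    rw [aeval_monomial]
    exact mul_mem (v.algebraMap_mem' c) (pow_mem (mem_of_ord_nonneg v hx) n)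

/-- A polynomial in `x` with nonzero constant term is a unit at every zero of `x`. -/
theorem aeval_of_coeff_zero_ne (v : Place K F) {x : F} (hx : 0 < v.ord x) {p : K[X]}
    (hp : p.coeff 0 ≠ 0) : aeval x p ≠ 0 ∧ v.ord (aeval x p) = 0 := by
  have hdecomp : aeval x p = algebraMap K F (p.coeff 0) + aeval x p.divX * x := by
    conv_lhs => rw [← Polynomial.divX_mul_X_add p]
    simp [add_comm]
  have hc0 : algebraMap K F (p.coeff 0) ≠ 0 := by
    simpa using hp
  have hc : v.ord (algebraMap K F (p.coeff 0)) = 0 := ord_algebraMap v _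
  rcases eq_or_ne (aeval x p.divX * x) 0 with h0 | h0
  · rw [hdecomp, h0, add_zero]; exact ⟨hc0, hc⟩
  · have hx0 : x ≠ 0 := right_ne_zero_of_mul h0
    have hr0 : aeval x p.divX ≠ 0 := left_ne_zero_of_mul h0
    have hr : 0 ≤ v.ord (aeval x p.divX) := ord_nonneg_of_mem v (aeval_mem v hx.le _)
    have hlt : v.ord (algebraMap K F (p.coeff 0)) < v.ord (aeval x p.divX * x) := by
      rw [hc, v.ord_mul hr0 hx0]; omega
    rw [hdecomp]
    exact ⟨add_ne_zero_of_ord_lt v hlt, by rw [ord_add_eq_of_lt v hc0 h0 hlt, hc]⟩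

/-- The order of a nonzero polynomial in `x` at a zero of `x`. -/
theorem aeval_ord (v : Place K F) {x : F} (hx : 0 < v.ord x) {p : K[X]} (hp : p ≠ 0) :
    aeval x p ≠ 0 ∧ v.ord (aeval x p) = (p.rootMultiplicity 0 : ℤ) * v.ord x := by
  obtain ⟨q, hq, hq'⟩ := Polynomial.exists_eq_pow_rootMultiplicity_mul_and_not_dvd p hp 0
  have hq0 : q.coeff 0 ≠ 0 := by
    intro h; apply hq'
    rw [C_0, sub_zero]; exact Polynomial.X_dvd_iff.mpr h
  obtain ⟨h1, h2⟩ := aeval_of_coeff_zero_ne v hx hq0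
  have hx0 : x ≠ 0 := ne_zero_of_ord_ne_zero v hx.ne'
  have hval : aeval x p = x ^ (p.rootMultiplicity 0) * aeval x q := by
    conv_lhs => rw [hq]
    simp
  rw [hval]
  refine ⟨mul_ne_zero (pow_ne_zero _ hx0) h1, ?_⟩
  rw [v.ord_mul (pow_ne_zero _ hx0) h1, ord_pow, h2, add_zero]

/-- **Lemma A**: the order of a nonzero element of `K(x)` at a zero `v` of `x` is a multiple
`n * ord_v x`, with `n` independent of `v`. -/
theorem exists_ord_eq_mul {x : F} (c : IntermediateField.adjoin K {x}) (hc : c ≠ 0) :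
    ∃ n : ℤ, ∀ v : Place K F, 0 < v.ord x → v.ord (c : F) = n * v.ord x := by
  obtain ⟨r, s, hrs⟩ := (IntermediateField.mem_adjoin_simple_iff K (c : F)).mp c.2
  have hcF : (c : F) ≠ 0 := by simpa using hc
  have hr : r ≠ 0 := by
    rintro rfl; apply hcF; rw [hrs]; simp
  have hs : s ≠ 0 := by
    rintro rfl; apply hcF; rw [hrs]; simp
  refine ⟨(r.rootMultiplicity 0 : ℤ) - (s.rootMultiplicity 0 : ℤ), fun v hv => ?_⟩
  obtain ⟨hr1, hr2⟩ := aeval_ord v hv hr
  obtain ⟨hs1, hs2⟩ := aeval_ord v hv hs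
  rw [hrs, div_eq_mul_inv, v.ord_mul hr1 (inv_ne_zero hs1), v.ord_inv, hr2, hs2]
  ring


/-- **L2** (zeros): the zeros of `x`, counted with multiplicity, number at most `[F : K(x)]`. -/
theorem sum_ord_le_finrank (hdeg : ∀ v : Place K F, v.deg = 1) (x : F)
    [FiniteDimensional (IntermediateField.adjoin K {x}) F]
    (S : Finset (Place K F)) (hS : ∀ v ∈ S, 0 < v.ord x) :
    ∑ v ∈ S, v.ord x ≤ (Module.finrank (IntermediateField.adjoin K {x}) F : ℤ) := by
  classical
  have _ := hdeg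
  -- multiplicities
  set e : Place K F → ℕ := fun v => (v.ord x).toNat with he
  have he_cast : ∀ v ∈ S, (e v : ℤ) = v.ord x := fun v hv =>
    Int.toNat_of_nonneg (hS v hv).le
  -- uniformizers
  choose t ht using fun v : Place K F => exists_ord_eq_one v
  have ht0 : ∀ v, t v ≠ 0 := fun v => ne_zero_of_ord_ne_zero v (by rw [ht v]; omega)
  -- the bound `M`
  set M : ℕ := ∑ v ∈ S, e v + ∑ v ∈ S, ∑ w ∈ S, e w * (v.ord (t w)).natAbs with hM
  have hMbound : ∀ v ∈ S, ∀ w ∈ S, e v + e w * (v.ord (t w)).natAbs ≤ M := by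
    intro v hv w hw
    have h1 : e v ≤ ∑ v ∈ S, e v := Finset.single_le_sum (fun _ _ => Nat.zero_le _) hv
    have h2 : e w * (v.ord (t w)).natAbs ≤ ∑ w ∈ S, e w * (v.ord (t w)).natAbs :=
      Finset.single_le_sum (f := fun w => e w * (v.ord (t w)).natAbs)
        (fun _ _ => Nat.zero_le _) hw
    have h3 : ∑ w ∈ S, e w * (v.ord (t w)).natAbs
        ≤ ∑ v ∈ S, ∑ w ∈ S, e w * (v.ord (t w)).natAbs :=
      Finset.single_le_sum (f := fun v => ∑ w ∈ S, e w * (v.ord (t w)).natAbs)
        (fun _ _ => Nat.zero_le _) hv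
    omega
  -- approximating units
  choose s hs0 hsv hsw using fun w : Place K F =>
    exists_unit_zeros w (S.erase w) (Finset.notMem_erase w S) M
  -- the family
  let I := Σ v : S, Fin (e v)
  let b : I → F := fun i => t i.1 ^ (i.2 : ℕ) * s i.1
  have hb0 : ∀ i, b i ≠ 0 := fun i => mul_ne_zero (pow_ne_zero _ (ht0 _)) (hs0 _)
  -- orders of the family
  have hb_self : ∀ (i : I) (v : Place K F), v = i.1 → v.ord (b i) = ((i.2 : ℕ) : ℤ) := by
    rintro i v rfl
    show (i.1 : Place K F).ord (t i.1 ^ (i.2 : ℕ) * s i.1) = _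
    rw [Place.ord_mul _ (pow_ne_zero _ (ht0 _)) (hs0 _), ord_pow, ht, hsv]
    simp
  have hb_other : ∀ (i : I) (v : Place K F), v ∈ S → v ≠ i.1 → (e v : ℤ) ≤ v.ord (b i) := by
    intro i v hv hne
    show (e v : ℤ) ≤ v.ord (t i.1 ^ (i.2 : ℕ) * s i.1)
    rw [Place.ord_mul _ (pow_ne_zero _ (ht0 _)) (hs0 _), ord_pow]
    have h1 : (M : ℤ) ≤ v.ord (s i.1) :=
      hsw i.1 v (Finset.mem_erase.mpr ⟨hne, hv⟩)
    have h2 := hMbound v hv i.1 i.1.2
    have h3 : ((i.2 : ℕ) : ℤ) < e i.1 := by exact_mod_cast i.2.2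
    have h4 : -(((v.ord (t i.1)).natAbs : ℕ) : ℤ) ≤ v.ord (t i.1) := by
      rw [Int.natCast_natAbs]; exact neg_abs_le _
    have h5 : -((e i.1 : ℤ) * ((v.ord (t i.1)).natAbs : ℤ)) ≤ ((i.2 : ℕ) : ℤ) * v.ord (t i.1) := by
      have h6 : (0 : ℤ) ≤ ((i.2 : ℕ) : ℤ) := Int.natCast_nonneg _
      have h7 : (0 : ℤ) ≤ ((v.ord (t i.1)).natAbs : ℤ) := Int.natCast_nonneg _
      nlinarith
    have h2' : (e v : ℤ) + (e i.1 : ℤ) * ((v.ord (t i.1)).natAbs : ℤ) ≤ M := by
      exact_mod_cast h2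
    omega
  -- linear independence over `K(x)`
  have hli : LinearIndependent (IntermediateField.adjoin K {x}) b := by
    rw [Fintype.linearIndependent_iff]
    intro g hg
    by_contra hcon
    simp only [not_forall] at hcon
    obtain ⟨j, hj⟩ := hcon
    -- orders of the coefficients
    have hn : ∀ i : I, ∃ n : ℤ, g i ≠ 0 →
        ∀ v : Place K F, 0 < v.ord x → v.ord ((g i : F)) = n * v.ord x := by
      intro i
      by_cases hgi : g i = 0
      · exact ⟨0, fun h => absurd hgi h⟩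
      · obtain ⟨n, hn⟩ := exists_ord_eq_mul (g i) hgi
        exact ⟨n, fun _ => hn⟩
    choose n hn using hn
    set E : ℤ := ∑ v ∈ S, (e v : ℤ) with hE
    have hE_ge : ∀ v ∈ S, (e v : ℤ) ≤ E := fun v hv =>
      Finset.single_le_sum (f := fun v => (e v : ℤ)) (fun _ _ => Int.natCast_nonneg _) hv
    let T : Finset I := Finset.univ.filter fun i => g i ≠ 0
    have hT : T.Nonempty := ⟨j, by simp [T, hj]⟩
    obtain ⟨i₀, hi₀T, hmin⟩ := T.exists_min_image (fun i => n i * E + ((i.2 : ℕ) : ℤ)) hT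
    have hgi₀ : g i₀ ≠ 0 := by simpa [T] using hi₀T
    set v₀ : Place K F := i₀.1.1 with hv₀
    have hv₀S : v₀ ∈ S := i₀.1.2
    have hv₀x : 0 < v₀.ord x := hS v₀ hv₀S
    have ha₀ : ((i₀.2 : ℕ) : ℤ) < e v₀ := by exact_mod_cast i₀.2.2
    have he₀ : (e v₀ : ℤ) = v₀.ord x := he_cast v₀ hv₀S
    let y : I → F := fun i => (g i : F) * b i
    have hy : ∀ i, g i • b i = y i := fun i => by
      show g i • b i = (g i : F) * b i
      rw [Algebra.smul_def]; rfl
    have hgF : ∀ i, g i ≠ 0 → (g i : F) ≠ 0 := fun i h => by simpa using h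
    have hy₀ : y i₀ ≠ 0 := mul_ne_zero (hgF i₀ hgi₀) (hb0 i₀)
    have hord₀ : v₀.ord (y i₀) = n i₀ * v₀.ord x + ((i₀.2 : ℕ) : ℤ) := by
      show v₀.ord ((g i₀ : F) * b i₀) = _
      rw [v₀.ord_mul (hgF i₀ hgi₀) (hb0 i₀), hn i₀ hgi₀ v₀ hv₀x, hb_self i₀ v₀ rfl]
    have hothers : ∀ i ∈ Finset.univ.erase i₀, y i = 0 ∨ v₀.ord (y i₀) < v₀.ord (y i) := by
      intro i hi
      have hne : i ≠ i₀ := Finset.ne_of_mem_erase hi
      by_cases hgi : g i = 0
      · left; show (g i : F) * b i = 0; rw [hgi]; simp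
      right
      have hiT : i ∈ T := by simp [T, hgi]
      have hmin_i := hmin i hiT
      have hai : ((i.2 : ℕ) : ℤ) < e i.1 := by exact_mod_cast i.2.2
      have hai0 : (0 : ℤ) ≤ ((i.2 : ℕ) : ℤ) := Int.natCast_nonneg _
      have ha₀0 : (0 : ℤ) ≤ ((i₀.2 : ℕ) : ℤ) := Int.natCast_nonneg _
      have hEi : (e i.1 : ℤ) ≤ E := hE_ge i.1 i.1.2
      have hE₀ : (e v₀ : ℤ) ≤ E := hE_ge v₀ hv₀S
      -- `n i ≥ n i₀`
      have hnge : n i₀ ≤ n i := by
        by_contra hlt
        have hlt' : n i + 1 ≤ n i₀ := by omega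
        have : (n i + 1) * E ≤ n i₀ * E :=
          mul_le_mul_of_nonneg_right hlt' (by linarith)
        nlinarith
      have hordi : v₀.ord (y i) = n i * v₀.ord x + v₀.ord (b i) := by
        show v₀.ord ((g i : F) * b i) = _
        rw [v₀.ord_mul (hgF i hgi) (hb0 i), hn i hgi v₀ hv₀x]
      rw [hord₀, hordi]
      by_cases hvi : (i.1 : Place K F) = v₀
      · -- same place
        have hbi : v₀.ord (b i) = ((i.2 : ℕ) : ℤ) := hb_self i v₀ hvi.symm
        rw [hbi]
        rcases hnge.lt_or_eq with hlt | heq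
        · have hlt' : n i₀ + 1 ≤ n i := by omega
          have : (n i₀ + 1) * v₀.ord x ≤ n i * v₀.ord x :=
            mul_le_mul_of_nonneg_right hlt' hv₀x.le
          nlinarith
        · have h1 : ((i₀.2 : ℕ) : ℤ) ≤ ((i.2 : ℕ) : ℤ) := by
            rw [heq] at hmin_i; linarith
          have h2 : ((i₀.2 : ℕ) : ℤ) ≠ ((i.2 : ℕ) : ℤ) := by
            intro h
            apply hne
            have h3 : (i.2 : ℕ) = (i₀.2 : ℕ) := by exact_mod_cast h.symm
            have h4 : i.1 = i₀.1 := Subtype.ext hvi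
            obtain ⟨iv, ia⟩ := i
            obtain ⟨jv, ja⟩ := i₀
            simp only at h4 h3
            subst h4
            congr 1
            exact Fin.ext h3
          rw [heq]
          omega
      · -- different place
        have hbi : (e v₀ : ℤ) ≤ v₀.ord (b i) := hb_other i v₀ hv₀S (fun h => hvi h.symm)
        have : n i₀ * v₀.ord x ≤ n i * v₀.ord x :=
          mul_le_mul_of_nonneg_right hnge hv₀x.le
        omega
    have hsum : y i₀ + ∑ i ∈ Finset.univ.erase i₀, y i = 0 := by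
      rw [Finset.add_sum_erase _ _ (Finset.mem_univ i₀)]
      simpa [hy] using hg
    rcases ord_sum_gt v₀ (Finset.univ.erase i₀) y (v₀.ord (y i₀)) hothers with h0 | hgt
    · rw [h0, add_zero] at hsum; exact hy₀ hsum
    · have : ∑ i ∈ Finset.univ.erase i₀, y i = -y i₀ := by
        rw [← sub_eq_zero, sub_neg_eq_add, add_comm]; exact hsum
      rw [this, ord_neg] at hgt
      exact lt_irrefl _ hgt
  have hcard := hli.fintype_card_le_finrank
  have hcardI : Fintype.card I = ∑ v ∈ S, e v := by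
    simp only [I, Fintype.card_sigma, Fintype.card_fin]
    exact Finset.sum_coe_sort S e
  rw [hcardI] at hcard
  have hsum : ∑ v ∈ S, v.ord x = ((∑ v ∈ S, e v : ℕ) : ℤ) := by
    push_cast
    exact Finset.sum_congr rfl fun v hv => (he_cast v hv).symm
  rw [hsum]
  exact_mod_cast hcard


theorem sum_ord_le_finrank_of_eq (hdeg : ∀ v : Place K F, v.deg = 1) (x : F)
    (L : IntermediateField K F) (hL : L = IntermediateField.adjoin K {x})
    [FiniteDimensional L F]
    (S : Finset (Place K F)) (hS : ∀ v ∈ S, 0 < v.ord x) :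
    ∑ v ∈ S, v.ord x ≤ (Module.finrank L F : ℤ) := by
  subst hL
  exact sum_ord_le_finrank hdeg x S hS

theorem adjoin_inv_eq (x : F) :
    IntermediateField.adjoin K {x} = IntermediateField.adjoin K {x⁻¹} := by
  apply le_antisymm
  · rw [IntermediateField.adjoin_simple_le_iff]
    have := inv_mem (IntermediateField.mem_adjoin_simple_self K x⁻¹)
    rwa [inv_inv] at this
  · rw [IntermediateField.adjoin_simple_le_iff]
    exact inv_mem (IntermediateField.mem_adjoin_simple_self K x)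

/-- **L2** (poles): the poles of `x`, counted with multiplicity, number at most `[F : K(x)]`. -/
theorem sum_neg_ord_le_finrank (hdeg : ∀ v : Place K F, v.deg = 1) (x : F)
    [FiniteDimensional (IntermediateField.adjoin K {x}) F]
    (S : Finset (Place K F)) (hS : ∀ v ∈ S, v.ord x < 0) :
    ∑ v ∈ S, -v.ord x ≤ (Module.finrank (IntermediateField.adjoin K {x}) F : ℤ) := by
  have h := sum_ord_le_finrank_of_eq hdeg x⁻¹ (IntermediateField.adjoin K {x})
    (adjoin_inv_eq x) S (fun v hv => by rw [v.ord_inv]; have := hS v hv; omega)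
  simpa [Place.ord_inv] using h

end Fermat.Agent.Lib.RR

end
end
-- ===== PACK-END Lib/RR/Zeros.lean

-- ===== PACK-BEGIN Lib/RR/H443/Discrete.lean
section




/-!
# RR bridge (helper443), part 1: valuation rings of a function field are discrete

Characteristic-free.  Let `F / K` be a field extension such that `F` is finite over `K(x)` for
every transcendental `x`.  Then every valuation subring `O ≠ ⊤` of `F` containing `K` is a
principal ideal ring (Stichtenoth, Thm. 1.1.6), hence defines a `Place K F`.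
-/

set_option autoImplicit false

noncomputable section

open AlgebraicCurve Polynomial IntermediateField

namespace Fermat.Agent.Lib.RR.H443

variable {K F : Type*} [Field K] [Field F] [Algebra K F]

section Valuation

variable {Γ : Type*} [LinearOrderedCommGroupWithZero Γ] (v : Valuation F Γ)

/-- A finite sum whose nonzero terms have pairwise distinct valuations vanishes only if all
terms vanish. -/
theorem eq_zero_of_sum_eq_zero {ι : Type*} (s : Finset ι) (f : ι → F)
    (hinj : ∀ i ∈ s, ∀ j ∈ s, f i ≠ 0 → f j ≠ 0 → v (f i) = v (f j) → i = j)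
    (hsum : ∑ i ∈ s, f i = 0) : ∀ i ∈ s, f i = 0 := by
  classical
  by_contra hcon
  push Not at hcon
  obtain ⟨i₁, hi₁, hfi₁⟩ := hcon
  have hne : (s.filter fun i => f i ≠ 0).Nonempty := ⟨i₁, Finset.mem_filter.mpr ⟨hi₁, hfi₁⟩⟩
  obtain ⟨i₀, hi₀, hmax⟩ := Finset.exists_max_image _ (fun i => v (f i)) hne
  rw [Finset.mem_filter] at hi₀
  have hv0 : v (f i₀) ≠ 0 := (Valuation.ne_zero_iff v).mpr hi₀.2
  have hrest : v (∑ j ∈ s.erase i₀, f j) < v (f i₀) := by
    refine Valuation.map_sum_lt v hv0 fun j hj => ?_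
    rw [Finset.mem_erase] at hj
    by_cases hfj : f j = 0
    · rw [hfj, map_zero]
      exact zero_lt_iff.mpr hv0
    · have hle := hmax j (Finset.mem_filter.mpr ⟨hj.2, hfj⟩)
      refine lt_of_le_of_ne hle fun heq => hj.1 ?_
      exact hinj j hj.2 i₀ hi₀.1 hfj hi₀.2 heq
  have htot : v (∑ j ∈ s, f j) = v (f i₀) := by
    rw [← Finset.add_sum_erase s f hi₀.1]
    exact Valuation.map_add_eq_of_lt_left v hrest
  rw [hsum, map_zero] at htot
  exact hv0 htot.symm

variable (hK : ∀ a : K, a ≠ 0 → v (algebraMap K F a) = 1)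

include hK in
theorem v_algebraMap_le_one (a : K) : v (algebraMap K F a) ≤ 1 := by
  rcases eq_or_ne a 0 with rfl | ha
  · simp
  · exact (hK a ha).le

include hK in
theorem v_aeval_le_one {x : F} (hx : v x ≤ 1) (p : K[X]) : v (aeval x p) ≤ 1 := by
  rw [aeval_eq_sum_range]
  refine Valuation.map_sum_le v fun i _ => ?_
  rw [Algebra.smul_def, map_mul, map_pow]
  exact mul_le_one' (v_algebraMap_le_one v hK _) (pow_le_one' hx i)

include hK in
/-- `v (p(x)) = 1` when `p(0) ≠ 0` and `v x < 1`. -/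
theorem v_aeval_eq_one {x : F} (hx : v x < 1) (p : K[X]) (hp : p.coeff 0 ≠ 0) :
    v (aeval x p) = 1 := by
  have hdecomp : aeval x p = algebraMap K F (p.coeff 0) + x * aeval x p.divX := by
    have := congrArg (aeval x) (Polynomial.divX_mul_X_add p)
    simp only [map_add, map_mul, aeval_X, aeval_C] at this
    rw [← this]
    ring
  rw [hdecomp]
  have h1 : v (x * aeval x p.divX) < v (algebraMap K F (p.coeff 0)) := by
    rw [hK _ hp, map_mul]
    calc v x * v (aeval x p.divX) ≤ v x * 1 :=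
          mul_le_mul' le_rfl (v_aeval_le_one v hK hx.le _)
      _ = v x := mul_one _
      _ < 1 := hx
  rw [Valuation.map_add_eq_of_lt_left v h1, hK _ hp]

include hK in
/-- `v (p(x)) = v(x) ^ ord₀ p` for `p ≠ 0`, when `v x < 1`. -/
theorem v_aeval {x : F} (hx : v x < 1) (p : K[X]) (hp : p ≠ 0) :
    v (aeval x p) = v x ^ p.rootMultiplicity 0 := by
  obtain ⟨q, hq, hndvd⟩ := Polynomial.exists_eq_pow_rootMultiplicity_mul_and_not_dvd p hp 0
  have hq0 : q.coeff 0 ≠ 0 := by
    intro h0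
    apply hndvd
    rw [map_zero, sub_zero]
    exact Polynomial.X_dvd_iff.mpr h0
  conv_lhs => rw [hq]
  rw [map_zero, sub_zero, map_mul, map_pow, aeval_X, map_mul, map_pow,
    v_aeval_eq_one v hK hx q hq0, mul_one]

include hK in
/-- **Chain lemma** (Stichtenoth 1.1.6 (a)). -/
theorem chain_le_finrank {x : F} (hx0 : x ≠ 0) (hx : v x < 1) [FiniteDimensional K⟮x⟯ F]
    {m : ℕ} (y : Fin m → F) (hy1 : ∀ i, v (y i) < 1) (hyx : ∀ i, v x ≤ v (y i))
    (hmono : StrictMono fun i => v (y i)) :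
    m ≤ Module.finrank K⟮x⟯ F := by
  classical
  have hvx0 : v x ≠ 0 := (Valuation.ne_zero_iff v).mpr hx0
  have hy0 : ∀ i, y i ≠ 0 := fun i h => by
    have := hyx i
    rw [h, map_zero] at this
    exact hvx0 (le_antisymm this zero_le)
  open scoped IntermediateField.algebraAdjoinAdjoin in
  have hli : LinearIndependent K⟮x⟯ y := by
    rw [← LinearIndependent.iff_fractionRing (R := Algebra.adjoin K {x}) (K := K⟮x⟯)]
    rw [Fintype.linearIndependent_iff]
    intro c hc i
    -- choose polynomials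
    have hex : ∀ j, ∃ p : K[X], aeval x p = (c j : F) := fun j => by
      have : (c j : F) ∈ (aeval x : K[X] →ₐ[K] F).range := by
        rw [← Algebra.adjoin_singleton_eq_range_aeval]
        exact (c j).2
      exact this
    choose p hp using hex
    have hsum : ∑ j ∈ Finset.univ, aeval x (p j) * y j = 0 := by
      rw [← hc]
      refine Finset.sum_congr rfl fun j _ => ?_
      rw [hp j]
      rfl
    have hval : ∀ j, aeval x (p j) * y j ≠ 0 →
        v (aeval x (p j) * y j) = v x ^ (p j).rootMultiplicity 0 * v (y j) := by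
      intro j hj
      have hpj : p j ≠ 0 := by
        rintro h
        rw [h, map_zero, zero_mul] at hj
        exact hj rfl
      rw [map_mul, v_aeval v hK hx (p j) hpj]
    have key := eq_zero_of_sum_eq_zero v Finset.univ (fun j => aeval x (p j) * y j) (by
      intro i _ j _ hi hj heq
      rw [hval i hi, hval j hj] at heq
      -- wlog on the multiplicities
      have aux : ∀ (a b : ℕ) (i j : Fin m), a ≤ b →
          v x ^ a * v (y i) = v x ^ b * v (y j) → i = j := by
        intro a b i j hab h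
        obtain ⟨d, rfl⟩ := Nat.exists_eq_add_of_le hab
        rw [pow_add, mul_assoc] at h
        have hpa : v x ^ a ≠ 0 := pow_ne_zero _ hvx0
        have h' : v (y i) = v x ^ d * v (y j) := mul_left_cancel₀ hpa h
        rcases Nat.eq_zero_or_pos d with rfl | hd
        · rw [pow_zero, one_mul] at h'
          exact hmono.injective h'
        · exfalso
          have h1 : v x ^ d ≤ v x := by
            calc v x ^ d = v x ^ (d - 1 + 1) := by rw [Nat.sub_add_cancel hd]
              _ = v x ^ (d - 1) * v x := pow_succ _ _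
              _ ≤ 1 * v x := mul_le_mul' (pow_le_one' hx.le _) le_rfl
              _ = v x := one_mul _
          have h2 : v x ^ d * v (y j) < v x := by
            calc v x ^ d * v (y j) ≤ v x * v (y j) := mul_le_mul' h1 le_rfl
              _ < v x * 1 := by
                  exact mul_lt_mul_of_pos_left (hy1 j) (zero_lt_iff.mpr hvx0)
              _ = v x := mul_one _
          have h3 := hyx i
          rw [h'] at h3
          exact absurd h2 (not_lt.mpr h3)
      rcases le_total ((p i).rootMultiplicity 0) ((p j).rootMultiplicity 0) with h | h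
      · exact aux _ _ i j h heq
      · exact (aux _ _ j i h heq.symm).symm) hsum
    have hi := key i (Finset.mem_univ i)
    have : aeval x (p i) = 0 := (mul_eq_zero.mp hi).resolve_right (hy0 i)
    apply Subtype.ext
    rw [← hp i, this]
    rfl
  simpa using hli.fintype_card_le_finrank

end Valuation

section ValuationSubring

variable (O : ValuationSubring F)

/-- The valuation of a valuation subring containing `K` is trivial on `Kˣ`. -/
theorem valuation_algebraMap_eq_one (hK : ∀ a : K, algebraMap K F a ∈ O) (a : K) (ha : a ≠ 0) :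
    O.valuation (algebraMap K F a) = 1 := by
  have h1 : O.valuation (algebraMap K F a) ≤ 1 := (O.valuation_le_one_iff _).mpr (hK a)
  have h2 : O.valuation (algebraMap K F a⁻¹) ≤ 1 := (O.valuation_le_one_iff _).mpr (hK a⁻¹)
  have hne : algebraMap K F a ≠ 0 := (map_ne_zero (algebraMap K F)).mpr ha
  have hv0 : O.valuation (algebraMap K F a) ≠ 0 := (Valuation.ne_zero_iff _).mpr hne
  have hprod : O.valuation (algebraMap K F a) * O.valuation (algebraMap K F a⁻¹) = 1 := by
    rw [← map_mul, ← map_mul, mul_inv_cancel₀ ha, map_one, map_one]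
  have h3 : 1 ≤ O.valuation (algebraMap K F a) := by
    by_contra hlt
    rw [not_le] at hlt
    have h4 : O.valuation (algebraMap K F a) * O.valuation (algebraMap K F a⁻¹) < 1 := by
      calc O.valuation (algebraMap K F a) * O.valuation (algebraMap K F a⁻¹)
          ≤ O.valuation (algebraMap K F a) * 1 := mul_le_mul' le_rfl h2
        _ = O.valuation (algebraMap K F a) := mul_one _
        _ < 1 := hlt
    rw [hprod] at h4
    exact lt_irrefl _ h4
  exact le_antisymm h1 h3

/-- A nonzero nonunit of a valuation subring containing `K` is transcendental over `K`. -/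
theorem transcendental_of_valuation_lt_one (hK : ∀ a : K, algebraMap K F a ∈ O) {x : F}
    (hx : O.valuation x < 1) (hx0 : x ≠ 0) : Transcendental K x := by
  intro halg
  have hint : IsIntegral K x := halg.isIntegral
  have hinv : x⁻¹ ∈ Algebra.adjoin K {x} := by
    have h := IntermediateField.adjoin_simple_toSubalgebra_of_isAlgebraic halg
    have hmem' : x⁻¹ ∈ K⟮x⟯ := inv_mem (mem_adjoin_simple_self K x)
    have hmem : x⁻¹ ∈ (K⟮x⟯).toSubalgebra := hmem'
    rwa [h] at hmem
  have hxO : x ∈ O := (O.valuation_le_one_iff _).mp hx.le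
  let S : Subalgebra K F := { O.toSubring with algebraMap_mem' := hK }
  have hle : Algebra.adjoin K {x} ≤ S :=
    Algebra.adjoin_le (Set.singleton_subset_iff.mpr (show x ∈ S from hxO))
  have hinvO : x⁻¹ ∈ O := hle hinv
  have h1 : O.valuation x⁻¹ ≤ 1 := (O.valuation_le_one_iff _).mpr hinvO
  have hv0 : O.valuation x ≠ 0 := (Valuation.ne_zero_iff _).mpr hx0
  have h2 : O.valuation x * O.valuation x⁻¹ = 1 := by
    rw [← map_mul, mul_inv_cancel₀ hx0, map_one]
  have h3 : O.valuation x * O.valuation x⁻¹ < 1 := by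
    calc O.valuation x * O.valuation x⁻¹ ≤ O.valuation x * 1 := mul_le_mul' le_rfl h1
      _ = O.valuation x := mul_one _
      _ < 1 := hx
  rw [h2] at h3
  exact lt_irrefl _ h3

/-- **Stichtenoth 1.1.6**: divisibility is well-founded in a valuation ring of a function
field. -/
theorem wfDvdMonoid_of_finite (hK : ∀ a : K, algebraMap K F a ∈ O)
    (hfin : ∀ x : F, Transcendental K x → FiniteDimensional K⟮x⟯ F) : WfDvdMonoid O := by
  constructor
  rw [wellFounded_iff_isEmpty_descending_chain]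
  refine ⟨fun ⟨f, hf⟩ => ?_⟩
  set v := O.valuation with hv
  have hne : ∀ n, ((f (n + 1) : O) : F) ≠ 0 := fun n h => by
    have := (hf n).1
    exact this (Subtype.ext h)
  have hle1 : ∀ n, v (f n : F) ≤ 1 := fun n => (O.valuation_le_one_iff _).mpr (f n).2
  have hstep : ∀ n, v (f (n + 1) : F) < v (f (n + 2) : F) := by
    intro n
    obtain ⟨-, c, hc, hfc⟩ := hf (n + 1)
    have hcv : v (c : F) < 1 := by
      have : c ∈ IsLocalRing.maximalIdeal O := by
        rw [IsLocalRing.mem_maximalIdeal, mem_nonunits_iff]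
        exact hc
      exact (O.valuation_lt_one_iff c).mp this
    have h0 : v (f (n + 2) : F) ≠ 0 := (Valuation.ne_zero_iff _).mpr (hne (n + 1))
    have : (f (n + 1) : F) = (f (n + 1 + 1) : F) * (c : F) := by
      rw [hfc]; rfl
    rw [this, map_mul]
    calc v (f (n + 1 + 1) : F) * v (c : F) < v (f (n + 1 + 1) : F) * 1 :=
          mul_lt_mul_of_pos_left hcv (zero_lt_iff.mpr h0)
      _ = v (f (n + 2) : F) := mul_one _
  have hmono : StrictMono fun n : ℕ => v (f (n + 1) : F) := strictMono_nat_of_lt_succ hstep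
  have hlt1 : ∀ n, v (f (n + 1) : F) < 1 := fun n => lt_of_lt_of_le (hstep n) (hle1 _)
  set x : F := (f 1 : F) with hx
  have hx0 : x ≠ 0 := hne 0
  have hxt : Transcendental K x := transcendental_of_valuation_lt_one O hK (hlt1 0) hx0
  have := hfin x hxt
  have key := chain_le_finrank v (valuation_algebraMap_eq_one O hK) hx0 (hlt1 0)
    (m := Module.finrank K⟮x⟯ F + 1) (fun i => (f (i.1 + 1) : F)) (fun i => hlt1 _)
    (fun i => hmono.monotone (Nat.zero_le _)) (fun i j hij => hmono hij)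
  omega

/-- A valuation subring `≠ ⊤` of a function field, containing the constants, is a place. -/
def placeOfValuationSubring (hK : ∀ a : K, algebraMap K F a ∈ O) (hO : O ≠ ⊤)
    (hfin : ∀ x : F, Transcendental K x → FiniteDimensional K⟮x⟯ F) : Place K F where
  toValuationSubring := O
  algebraMap_mem' := hK
  ne_top' := hO
  isPrincipalIdealRing' := by
    have h := wfDvdMonoid_of_finite O hK hfin
    exact ((IsBezout.TFAE (R := O)).out 3 1).mp h

@[simp]
theorem placeOfValuationSubring_toValuationSubring (hK : ∀ a : K, algebraMap K F a ∈ O)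
    (hO : O ≠ ⊤) (hfin : ∀ x : F, Transcendental K x → FiniteDimensional K⟮x⟯ F) :
    (placeOfValuationSubring O hK hO hfin).toValuationSubring = O := rfl

end ValuationSubring

section Existence

variable (hfin : ∀ x : F, Transcendental K x → FiniteDimensional K⟮x⟯ F)

include hfin in
/-- Every transcendental element has a zero. -/
theorem exists_place_ord_pos {t : F} (ht : Transcendental K t) :
    ∃ v : Place K F, 0 < v.ord t := by
  have ht0 : t ≠ 0 := fun h => ht (h ▸ isAlgebraic_zero)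
  let A : Subring F := (Algebra.adjoin K {t}).toSubring
  have htA : t ∈ A := Algebra.self_mem_adjoin_singleton K t
  let I : Ideal A := Ideal.span {⟨t, htA⟩}
  have hI : I ≠ ⊤ := by
    intro h
    rw [Ideal.eq_top_iff_one, Ideal.mem_span_singleton'] at h
    obtain ⟨g, hg⟩ := h
    have hgF : (g : F) * t = 1 := congrArg Subtype.val hg
    have hgmem : (g : F) ∈ (aeval t : K[X] →ₐ[K] F).range := by
      rw [← Algebra.adjoin_singleton_eq_range_aeval]
      exact g.2
    obtain ⟨p, hp⟩ := hgmem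
    have hp' : aeval t p = (g : F) := hp
    apply ht
    refine ⟨p * X - 1, ?_, ?_⟩
    · intro h0
      have := congrArg (fun q => Polynomial.coeff q 0) h0
      simp at this
    · simp [hp', hgF]
  obtain ⟨B, hAB, hIB⟩ := Ideal.image_subset_nonunits_valuationSubring I hI
  have hK : ∀ a : K, algebraMap K F a ∈ B := fun a =>
    hAB ((Algebra.adjoin K {t}).algebraMap_mem a)
  have htB : t ∈ B.nonunits := hIB ⟨⟨t, htA⟩, Ideal.subset_span rfl, rfl⟩
  have htv : B.valuation t < 1 := (B.mem_nonunits_iff).mp htB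
  have hB : B ≠ ⊤ := by
    intro h
    have h1 : t⁻¹ ∈ B := h ▸ ValuationSubring.mem_top _
    have h2 : B.valuation t⁻¹ ≤ 1 := (B.valuation_le_one_iff _).mpr h1
    have h3 : B.valuation t * B.valuation t⁻¹ = 1 := by
      rw [← map_mul, mul_inv_cancel₀ ht0, map_one]
    have h4 : B.valuation t * B.valuation t⁻¹ < 1 := by
      calc B.valuation t * B.valuation t⁻¹ ≤ B.valuation t * 1 := mul_le_mul' le_rfl h2
        _ = B.valuation t := mul_one _
        _ < 1 := htv
    rw [h3] at h4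
    exact lt_irrefl _ h4
  refine ⟨placeOfValuationSubring B hK hB hfin, ?_⟩
  set v := placeOfValuationSubring B hK hB hfin with hv
  have hmem : (⟨t, (B.valuation_le_one_iff _).mp htv.le⟩ : v.toValuationSubring) ∈
      IsLocalRing.maximalIdeal v.toValuationSubring :=
    (B.valuation_lt_one_iff _).mpr htv
  rcases (mem_maximalIdeal_iff v _).mp hmem with h | h
  · exact absurd h ht0
  · exact h

include hfin in
/-- Every transcendental element has a pole. -/
theorem exists_place_ord_neg {t : F} (ht : Transcendental K t) :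
    ∃ v : Place K F, v.ord t < 0 := by
  have ht' : Transcendental K t⁻¹ := fun h => ht (by simpa using h.inv)
  obtain ⟨v, hv⟩ := exists_place_ord_pos hfin ht'
  refine ⟨v, ?_⟩
  rw [v.ord_inv] at hv
  omega

end Existence

end Fermat.Agent.Lib.RR.H443

end
end
-- ===== PACK-END Lib/RR/H443/Discrete.lean

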