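import Mathlib.RingTheory.Henselian
import Mathlib.Algebra.Polynomial.Reverse
import Mathlib.Algebra.Polynomial.Identities
import Mathlib.Algebra.Polynomial.Inductions
import Mathlib.RingTheory.Valuation.ValuationSubring
import Mathlib.RingTheory.DiscreteValuationRing.Basic
import Mathlib.Algebra.Polynomial.AlgebraMap
import Mathlib.RingTheory.Localization.FractionRing
import Mathlib.FieldTheory.IsAlgClosed.Basic
import Mathlib.RingTheory.Localization.Integral
import Mathlib.Algebra.Polynomial.Splits
import Mathlib.Algebra.Polynomial.RingDivision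
import Mathlib.RingTheory.Algebraic.Basic

-- ===== PACK-BEGIN A2/H313/StrongHensel.lean
section





/-!
# A2 / ALG (c1), part 1: strong Hensel lemma for Henselian local rings (helper313)

Mathlib only.  `HenselianLocalRing R` is defined in Mathlib through lifting of simple roots of
*monic* polynomials.  We derive

* `exists_root_of_simple_zero` : a (not necessarily monic) polynomial `g` with
  `g(0) ∈ 𝔪` and `g'(0)` a unit has a root in `𝔪`
  (reversed polynomial trick: the reversal of `1 + Z·q(b₀ Z)` is monic);
* `exists_root_newton` : **Newton form**: if `f(s) = f'(s)² · t` with `t ∈ 𝔪`, then `f` has a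
  root `b = s + f'(s) · y` with `y ∈ 𝔪`.
-/

set_option autoImplicit false
set_option linter.style.haveILetI false

namespace Fermat.Agent.A2.H313

open Polynomial IsLocalRing

variable {R : Type*} [CommRing R]

/-- Auxiliary: for `n ≥ 1` and a unit `b` of a field `k`, the polynomial
`X ^ n + C b * X ^ (n - 1)` has the simple root `-b`. -/
theorem aux_eval_reflect {k : Type*} [Field k] (b : k) (n : ℕ) :
    (X ^ (n + 1) + C b * X ^ n : k[X]).eval (-b) = 0 := by
  simp only [eval_add, eval_pow, eval_X, eval_mul, eval_C]
  ring

theorem aux_eval_derivative_reflect {k : Type*} [Field k] (b : k) (n : ℕ) :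
    (derivative (X ^ (n + 1) + C b * X ^ n : k[X])).eval (-b) = (-b) ^ n := by
  have h : (X ^ (n + 1) + C b * X ^ n : k[X]) = X ^ n * (X + C b) := by ring
  rw [h, derivative_mul]
  simp only [eval_add, eval_mul, eval_pow, eval_X, eval_C, derivative_add, derivative_X,
    derivative_C, add_zero, mul_one]
  ring

/-- **Simple roots of arbitrary polynomials lift** (root at `0`). -/
theorem exists_root_of_simple_zero [HenselianLocalRing R] (g : R[X])
    (h0 : g.eval 0 ∈ maximalIdeal R) (h1 : IsUnit (g.derivative.eval 0)) :
    ∃ y ∈ maximalIdeal R, g.IsRoot y := by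
  classical
  -- notation
  set b₀ : R := g.coeff 0 with hb₀
  set q : R[X] := g.divX with hq
  have hg : g = q * X + C b₀ := (divX_mul_X_add g).symm
  have hb₀m : b₀ ∈ maximalIdeal R := by
    have : g.eval 0 = b₀ := by rw [hb₀, coeff_zero_eq_eval_zero]
    rwa [this] at h0
  set b₁ : R := q.eval 0 with hb₁
  have hb₁u : IsUnit b₁ := by
    have : g.derivative.eval 0 = b₁ := by
      conv_lhs => rw [hg]
      simp [derivative_mul, hb₁]
    rwa [this] at h1
  -- the polynomial `P(Z) = 1 + Z * q(b₀ Z)`
  set P : R[X] := 1 + X * q.comp (C b₀ * X) with hP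
  have hPg : ∀ z : R, g.eval (b₀ * z) = b₀ * P.eval z := by
    intro z
    conv_lhs => rw [hg]
    simp only [hP, eval_add, eval_mul, eval_X, eval_C, eval_one, eval_comp]
    ring
  -- reduction of `P` modulo the maximal ideal
  set res := residue R with hres
  have hresb₀ : res b₀ = 0 := (residue_eq_zero_iff b₀).2 hb₀m
  have hPmap : P.map res = 1 + C (res b₁) * X := by
    rw [hP, Polynomial.map_add, Polynomial.map_one, Polynomial.map_mul, map_X, map_comp,
      Polynomial.map_mul, map_C, hresb₀, map_zero, zero_mul]
    have : (q.map res).comp 0 = C (res b₁) := by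
      rw [comp_zero, ← coeff_zero_eq_eval_zero, coeff_map, coeff_zero_eq_eval_zero]
    rw [this, mul_comm]
  have hresb₁ : res b₁ ≠ 0 := by
    intro h
    exact ((residue_eq_zero_iff b₁).1 h) hb₁u
  -- degree of `P` is at least one
  set n := P.natDegree with hn
  have hn1 : 1 ≤ n := by
    have h1' : (P.map res).natDegree = 1 := by
      rw [hPmap, add_comm]
      exact natDegree_linear hresb₁
    have := natDegree_map_le (f := res) (p := P)
    omega
  obtain ⟨k, hk⟩ : ∃ k, n = k + 1 := ⟨n - 1, by omega⟩
  -- the monic reversed polynomial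
  set H : R[X] := reflect n P with hH
  have hHmap : H.map res = X ^ (k + 1) + C (res b₁) * X ^ k := by
    rw [hH, ← reflect_map, hPmap, reflect_add, reflect_one, hk]
    congr 1
    have : (C (res b₁) * X : (ResidueField R)[X]) = C (res b₁) * X ^ 1 := by rw [pow_one]
    rw [this, reflect_C_mul_X_pow, revAt_le (by omega)]
    simp
  have hHmonic : H.Monic := by
    have hc : H.coeff n = 1 := by
      rw [hH, coeff_reflect, revAt_le le_rfl, Nat.sub_self]
      simp [hP, coeff_one_zero]
    have hdeg : H.natDegree ≤ n := natDegree_reflect_le.trans (by simp [hn])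
    rcases Nat.lt_or_ge H.natDegree n with hlt | hge
    · have := coeff_eq_zero_of_natDegree_lt hlt
      rw [hc] at this
      exact absurd this one_ne_zero
    · have hdn : H.natDegree = n := le_antisymm hdeg hge
      rw [Monic, leadingCoeff, hdn, hc]
  -- Hensel at `T₀ = -b₁`
  have hev : H.eval (-b₁) ∈ maximalIdeal R := by
    rw [← residue_eq_zero_iff]
    have : res (H.eval (-b₁)) = (H.map res).eval (res (-b₁)) := by
      rw [eval_map, eval₂_at_apply]
    rw [this, hHmap, map_neg]
    exact aux_eval_reflect _ _
  have hder : IsUnit (H.derivative.eval (-b₁)) := by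
    by_contra hcon
    have hmem : H.derivative.eval (-b₁) ∈ maximalIdeal R := hcon
    rw [← residue_eq_zero_iff] at hmem
    have : res (H.derivative.eval (-b₁)) = ((H.map res).derivative).eval (res (-b₁)) := by
      rw [derivative_map, eval_map, eval₂_at_apply]
    rw [← hres, this, hHmap, map_neg, aux_eval_derivative_reflect] at hmem
    exact pow_ne_zero k (neg_ne_zero.2 hresb₁) hmem
  obtain ⟨T, hTroot, hTclose⟩ := HenselianLocalRing.is_henselian H hHmonic (-b₁) hev hder
  -- `T` is a unit
  have hTu : IsUnit T := by
    by_contra hcon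
    have hTm : T ∈ maximalIdeal R := hcon
    have : -b₁ ∈ maximalIdeal R := by
      have := (maximalIdeal R).sub_mem hTm hTclose
      simpa using this
    exact (neg_mem_iff.1 this) hb₁u
  obtain ⟨u, rfl⟩ := hTu
  -- `z = T⁻¹` is a root of `P`
  have hz : P.eval (↑u⁻¹ : R) = 0 := by
    letI : Invertible (↑u⁻¹ : R) := ⟨(u : R), by simp, by simp⟩
    have hinv : ⅟(↑u⁻¹ : R) = (u : R) := rfl
    have := (eval₂_reflect_eq_zero_iff (RingHom.id R) (↑u⁻¹ : R) n P le_rfl).1 (by
      rw [hinv]
      have : eval₂ (RingHom.id R) (u : R) (reflect n P) = H.eval (u : R) := by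
        rw [hH, eval₂_id]
      rw [this]
      exact hTroot)
    rwa [eval₂_id] at this
  refine ⟨b₀ * ↑u⁻¹, Ideal.mul_mem_right _ _ hb₀m, ?_⟩
  rw [IsRoot, hPg, hz, mul_zero]

/-- **Simple roots of arbitrary polynomials lift** (root near `a₀`). -/
theorem exists_root_of_simple [HenselianLocalRing R] (g : R[X]) (a₀ : R)
    (h0 : g.eval a₀ ∈ maximalIdeal R) (h1 : IsUnit (g.derivative.eval a₀)) :
    ∃ a : R, g.IsRoot a ∧ a - a₀ ∈ maximalIdeal R := by
  set g' : R[X] := g.comp (X + C a₀) with hg'
  have e0 : g'.eval 0 = g.eval a₀ := by simp [hg', eval_comp]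
  have e1 : g'.derivative.eval 0 = g.derivative.eval a₀ := by
    simp [hg', derivative_comp, eval_comp]
  obtain ⟨y, hy, hroot⟩ := exists_root_of_simple_zero g' (by rwa [e0]) (by rwa [e1])
  refine ⟨y + a₀, ?_, by simpa using hy⟩
  have : g'.eval y = g.eval (y + a₀) := by simp [hg', eval_comp]
  rw [IsRoot, ← this]
  exact hroot

/-- **Strong Hensel lemma (Newton form)** for Henselian local rings: if
`f(s) = f'(s)² · t` with `t ∈ 𝔪`, then `f` has a root `s + f'(s) · y` with `y ∈ 𝔪`. -/
theorem exists_root_newton [HenselianLocalRing R] (f : R[X]) (s t : R)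
    (ht : t ∈ maximalIdeal R) (hfs : f.eval s = (f.derivative.eval s) ^ 2 * t) :
    ∃ y ∈ maximalIdeal R, f.IsRoot (s + f.derivative.eval s * y) := by
  set c : R := f.derivative.eval s with hc
  -- Taylor expansion in `R[Y]`
  obtain ⟨K, hK⟩ := binomExpansion (f.map (C : R →+* R[X])) (C s) (C c * X)
  have e0 : (f.map (C : R →+* R[X])).eval (C s) = C (f.eval s) := by
    rw [eval_map, eval₂_at_apply]
  have e1 : (derivative (f.map (C : R →+* R[X]))).eval (C s) = C c := by
    rw [derivative_map, eval_map, eval₂_at_apply]
  have e2 : (f.map (C : R →+* R[X])).eval (C s + C c * X) = f.comp (C s + C c * X) := by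
    rw [eval_map, comp]
  rw [e0, e1, e2, hfs] at hK
  set g : R[X] := C t + X + K * X ^ 2 with hg
  have hcomp : f.comp (C s + C c * X) = C (c ^ 2) * g := by
    rw [hK, hg]
    simp only [map_mul, map_pow]
    ring
  have hg0 : g.eval 0 ∈ maximalIdeal R := by
    have : g.eval 0 = t := by simp [hg]
    rwa [this]
  have hg1 : IsUnit (g.derivative.eval 0) := by
    have : g.derivative.eval 0 = 1 := by simp [hg, derivative_mul]
    rw [this]
    exact isUnit_one
  obtain ⟨y, hy, hroot⟩ := exists_root_of_simple_zero g hg0 hg1
  refine ⟨y, hy, ?_⟩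
  have : f.eval (s + c * y) = (f.comp (C s + C c * X)).eval y := by
    simp [eval_comp]
  rw [IsRoot, this, hcomp, eval_mul, hroot, mul_zero]

end Fermat.Agent.A2.H313

end
-- ===== PACK-END A2/H313/StrongHensel.lean

-- ===== PACK-BEGIN A2/H313/HensVal.lean
section





/-!
# A2 / ALG (c1), part 2: valuation bookkeeping (helper313)

Setting: `R` a discrete valuation ring with uniformiser `w`, `E = Frac R`, `L / E` a field,
`V` a valuation subring of `L` containing `R` in which `w` is a non-unit generating the
non-units (`e = 1`).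
-/

set_option autoImplicit false
set_option linter.unusedSectionVars false

namespace Fermat.Agent.A2.H313

open Polynomial IsLocalRing

section Setup

variable {R : Type*} (E : Type*) {L : Type*} [CommRing R] [IsDomain R]
  [IsDiscreteValuationRing R]
  [Field E] [Algebra R E] [IsFractionRing R E]
  [Field L] [Algebra E L] [Algebra R L] [IsScalarTower R E L]

include E in
theorem algebraMap_RL_injective : Function.Injective (algebraMap R L) := by
  rw [IsScalarTower.algebraMap_eq R E L]
  exact (algebraMap E L).injective.comp (IsFractionRing.injective R E)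

/-- The hypotheses on `V`: `w` is a uniformiser of `R`, `V` contains `R`, `w` is a non-unit of
`V`, and every non-unit of `V` is divisible by `w` in `V`. -/
structure UnifIn (w : R) (V : ValuationSubring L) : Prop where
  irr : Irreducible w
  mem : ∀ r : R, algebraMap R L r ∈ V
  nonunit : algebraMap R L w ∈ V.nonunits
  gen : ∀ x ∈ V.nonunits, ∃ y ∈ V, x = algebraMap R L w * y

variable {E} {w : R} {V : ValuationSubring L}

namespace UnifIn

variable (h : UnifIn w V)
include h

theorem val_w_lt_one : V.valuation (algebraMap R L w) < 1 :=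
  (ValuationSubring.mem_nonunits_iff V).1 h.nonunit

theorem val_le_one (r : R) : V.valuation (algebraMap R L r) ≤ 1 :=
  (V.valuation_le_one_iff _).2 (h.mem r)

theorem val_unit {r : R} (hr : IsUnit r) : V.valuation (algebraMap R L r) = 1 := by
  obtain ⟨u, rfl⟩ := hr
  refine le_antisymm (h.val_le_one _) ?_
  have h1 : V.valuation (algebraMap R L (u : R)) * V.valuation (algebraMap R L ((u⁻¹ : Rˣ) : R))
      = 1 := by
    rw [← map_mul, ← map_mul, Units.mul_inv, map_one, map_one]
  calc (1 : V.ValueGroup) = V.valuation (algebraMap R L (u : R)) *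
        V.valuation (algebraMap R L ((u⁻¹ : Rˣ) : R)) := h1.symm
    _ ≤ V.valuation (algebraMap R L (u : R)) * 1 := by
        gcongr
        exact h.val_le_one _
    _ = _ := mul_one _

theorem val_le_w_of_lt_one {x : L} (hx : V.valuation x < 1) :
    V.valuation x ≤ V.valuation (algebraMap R L w) := by
  obtain ⟨y, hy, rfl⟩ := h.gen x ((ValuationSubring.mem_nonunits_iff V).2 hx)
  rw [map_mul]
  calc V.valuation (algebraMap R L w) * V.valuation y
      ≤ V.valuation (algebraMap R L w) * 1 := by
        gcongr
        exact (V.valuation_le_one_iff _).2 hy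
    _ = _ := mul_one _

theorem val_le_w_of_mem_maximalIdeal {r : R} (hr : r ∈ maximalIdeal R) :
    V.valuation (algebraMap R L r) ≤ V.valuation (algebraMap R L w) := by
  rw [h.irr.maximalIdeal_eq, Ideal.mem_span_singleton] at hr
  obtain ⟨c, rfl⟩ := hr
  rw [map_mul, map_mul]
  calc V.valuation (algebraMap R L w) * V.valuation (algebraMap R L c)
      ≤ V.valuation (algebraMap R L w) * 1 := by
        gcongr
        exact h.val_le_one _
    _ = _ := mul_one _

include E in
theorem w_ne_zero : algebraMap R L w ≠ 0 := fun h0 =>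
  h.irr.ne_zero ((map_eq_zero_iff _ (algebraMap_RL_injective E)).1 h0)

include E in
theorem val_w_pos : 0 < V.valuation (algebraMap R L w) :=
  (Valuation.pos_iff _).2 (h.w_ne_zero (E := E))

/-- Valuation of a nonzero element of `R`. -/
theorem val_eq_pow {r : R} (hr : r ≠ 0) :
    ∃ (n : ℕ) (u : Rˣ), r = u * w ^ n ∧
      V.valuation (algebraMap R L r) = V.valuation (algebraMap R L w) ^ n := by
  obtain ⟨n, u, rfl⟩ := IsDiscreteValuationRing.eq_unit_mul_pow_irreducible hr h.irr
  refine ⟨n, u, rfl, ?_⟩
  rw [map_mul, map_mul, h.val_unit u.isUnit, one_mul, map_pow, map_pow]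

include E in
/-- `R ∩ wⁿ V = wⁿ R`. -/
theorem pow_dvd_of_val_le {r : R} {n : ℕ}
    (hr : V.valuation (algebraMap R L r) ≤ V.valuation (algebraMap R L w) ^ n) : w ^ n ∣ r := by
  rcases eq_or_ne r 0 with rfl | hr0
  · exact dvd_zero _
  obtain ⟨k, u, rfl, hk⟩ := h.val_eq_pow hr0
  rw [hk, pow_le_pow_iff_right_of_lt_one₀ (h.val_w_pos (E := E)) h.val_w_lt_one] at hr
  exact Dvd.dvd.mul_left (pow_dvd_pow w hr) _

include E in
theorem val_pow_injective {m n : ℕ}
    (hmn : V.valuation (algebraMap R L w) ^ m = V.valuation (algebraMap R L w) ^ n) : m = n :=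
  (pow_right_strictAnti₀ (h.val_w_pos (E := E)) h.val_w_lt_one).injective hmn

/-- Elements of `R[X]` evaluated at elements of `V` lie in `V`. -/
theorem aeval_mem (p : R[X]) {a : L} (ha : a ∈ V) : aeval a p ∈ V := by
  induction p using Polynomial.induction_on' with
  | add p q hp hq =>
    rw [map_add]
    exact V.add_mem _ _ hp hq
  | monomial n r =>
    rw [aeval_monomial]
    exact V.mul_mem _ _ (h.mem r) (pow_mem ha n)

end UnifIn

end Setup

end Fermat.Agent.A2.H313

end
-- ===== PACK-END A2/H313/HensVal.lean

-- ===== PACK-BEGIN A2/H313/HensApprox.lean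
section








/-!
# A2 / ALG (c1), part 3: `w`-adic approximation of algebraic elements (helper313)

Setting as in `HensVal.lean`, residue field of `R` algebraically closed.
Every `a ∈ V` algebraic over `E = Frac R` is, for every `N`, of the form `s + wᴺ a'` with
`s ∈ R` and `a' ∈ V` (`exists_approx`).  Every nonzero algebraic `x ∈ V` is `w^δ · (unit of V)`
(`exists_pow_mul_unit`).
-/

set_option autoImplicit false
set_option linter.unusedSectionVars false

namespace Fermat.Agent.A2.H313

open Polynomial IsLocalRing

section Setup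

variable {R : Type*} (E : Type*) {L : Type*} [CommRing R] [IsDomain R]
  [IsDiscreteValuationRing R]
  [Field E] [Algebra R E] [IsFractionRing R E]
  [Field L] [Algebra E L] [Algebra R L] [IsScalarTower R E L]
  {w : R} {V : ValuationSubring L}

namespace UnifIn

variable (h : UnifIn w V)
include h

include E in
/-- Removing the common powers of `w` from an annihilating polynomial. -/
theorem strip_aux {a : L} : ∀ (n : ℕ) (p : R[X]) (i : ℕ) (u : Rˣ), p.coeff i = u * w ^ n →
    aeval a p = 0 → ∃ p' : R[X], aeval a p' = 0 ∧ p'.map (residue R) ≠ 0 := by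
  intro n
  induction n with
  | zero =>
    intro p i u hc hp
    refine ⟨p, hp, fun h0 => ?_⟩
    have h1 := congrArg (fun q => q.coeff i) h0
    simp only [coeff_map, coeff_zero, hc, pow_zero, mul_one] at h1
    exact ((residue_eq_zero_iff (u : R)).1 h1) u.isUnit
  | succ n ih =>
    intro p i u hc hp
    by_cases h0 : p.map (residue R) = 0
    · have hdvd : C w ∣ p := by
        rw [C_dvd_iff_dvd_coeff]
        intro j
        have h1 := congrArg (fun q => q.coeff j) h0
        simp only [coeff_map, coeff_zero] at h1
        have h2 := (residue_eq_zero_iff (p.coeff j)).1 h1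
        rwa [h.irr.maximalIdeal_eq, Ideal.mem_span_singleton] at h2
      obtain ⟨p₁, rfl⟩ := hdvd
      have hp1 : aeval a p₁ = 0 := by
        rw [map_mul, aeval_C] at hp
        exact (mul_eq_zero.1 hp).resolve_left (h.w_ne_zero (E := E))
      have hc1 : p₁.coeff i = u * w ^ n := by
        rw [coeff_C_mul, pow_succ] at hc
        have : w * p₁.coeff i = w * (u * w ^ n) := by rw [hc]; ring
        exact mul_left_cancel₀ h.irr.ne_zero this
      exact ih p₁ i u hc1 hp1
    · exact ⟨p, hp, h0⟩

include E in
/-- An element of `L` algebraic over `E` is annihilated by a polynomial over `R` which is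
nonzero modulo the maximal ideal. -/
theorem exists_primitive_annihilator {a : L} (ha : IsAlgebraic E a) :
    ∃ p : R[X], aeval a p = 0 ∧ p.map (residue R) ≠ 0 := by
  obtain ⟨p, hp0, hp⟩ := (IsFractionRing.isAlgebraic_iff R E L).2 ha
  obtain ⟨i, hi⟩ : ∃ i, p.coeff i ≠ 0 := by
    by_contra hcon
    simp only [not_exists, not_not] at hcon
    exact hp0 (Polynomial.ext fun i => by simpa using hcon i)
  obtain ⟨n, u, hu⟩ := IsDiscreteValuationRing.eq_unit_mul_pow_irreducible hi h.irr
  exact h.strip_aux E n p i u hu hp

omit h in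
theorem val_multiset_prod_eq_one (s : Multiset L) (hs : ∀ x ∈ s, V.valuation x = 1) :
    V.valuation s.prod = 1 := by
  induction s using Multiset.induction_on with
  | empty => simp
  | cons a s ih =>
    rw [Multiset.prod_cons, map_mul, hs a (Multiset.mem_cons_self a s),
      ih (fun x hx => hs x (Multiset.mem_cons_of_mem hx)), one_mul]

include E in
/-- **First approximation**: an algebraic element of `V` is congruent to an element of `R`
modulo the non-units of `V` (the residue field of `R` is algebraically closed). -/
theorem exists_approx_one [IsAlgClosed (ResidueField R)] {a : L} (haV : a ∈ V)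
    (ha : IsAlgebraic E a) : ∃ r : R, V.valuation (a - algebraMap R L r) < 1 := by
  classical
  obtain ⟨p, hp, hp0⟩ := h.exists_primitive_annihilator E ha
  set pb : (ResidueField R)[X] := p.map (residue R) with hpb
  have hsplit : pb.Splits := IsAlgClosed.splits pb
  have hprod := hsplit.eq_prod_roots
  -- lift the roots and the leading coefficient
  set σ : ResidueField R → R := Function.surjInv (residue_surjective (R := R)) with hσ
  have hσr : ∀ x, residue R (σ x) = x := Function.surjInv_eq _
  set c : R := σ pb.leadingCoeff with hc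
  set G : R[X] := C c * ((pb.roots.map σ).map (fun α => X - C α)).prod with hG
  have hGmap : G.map (residue R) = pb := by
    rw [hG, Polynomial.map_mul, map_C, hc, hσr, Polynomial.map_multiset_prod, Multiset.map_map,
      Multiset.map_map]
    conv_rhs => rw [hprod]
    congr 2
    refine Multiset.map_congr rfl fun x _ => ?_
    simp [hσr]
  have hdvd : C w ∣ p - G := by
    rw [C_dvd_iff_dvd_coeff]
    intro j
    have h1 : ((p - G).map (residue R)).coeff j = 0 := by
      rw [Polynomial.map_sub, hGmap, ← hpb, sub_self, coeff_zero]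
    rw [coeff_map] at h1
    have h2 := (residue_eq_zero_iff _).1 h1
    rwa [h.irr.maximalIdeal_eq, Ideal.mem_span_singleton] at h2
  obtain ⟨q, hq⟩ := hdvd
  have hpG : p = G + C w * q := by rw [← hq]; ring
  -- evaluate at `a`
  have hGa : aeval a G = -(algebraMap R L w * aeval a q) := by
    have h1 : aeval a (C w * q) = algebraMap R L w * aeval a q := by
      rw [map_mul, aeval_C]
    have := hp
    rw [hpG, map_add, h1] at this
    exact eq_neg_of_add_eq_zero_left this
  have hvG : V.valuation (aeval a G) < 1 := by
    rw [hGa, Valuation.map_neg, map_mul]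
    calc V.valuation (algebraMap R L w) * V.valuation (aeval a q)
        ≤ V.valuation (algebraMap R L w) * 1 := by
          gcongr
          exact (V.valuation_le_one_iff _).2 (h.aeval_mem q haV)
      _ = V.valuation (algebraMap R L w) := mul_one _
      _ < 1 := h.val_w_lt_one
  -- the leading coefficient is a unit
  have hcu : IsUnit c := by
    by_contra hcon
    have hcm : c ∈ maximalIdeal R := hcon
    have : residue R c = 0 := (residue_eq_zero_iff c).2 hcm
    rw [hc, hσr, leadingCoeff_eq_zero] at this
    exact hp0 this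
  have hGa' : aeval a G = algebraMap R L c *
      ((pb.roots.map σ).map (fun α => a - algebraMap R L α)).prod := by
    rw [hG, map_mul, aeval_C, map_multiset_prod, Multiset.map_map]
    congr 2
    refine Multiset.map_congr rfl fun x _ => ?_
    simp
  rw [hGa', map_mul, h.val_unit hcu, one_mul] at hvG
  by_contra hcon
  simp only [not_exists, not_lt] at hcon
  have : V.valuation ((pb.roots.map σ).map (fun α => a - algebraMap R L α)).prod = 1 := by
    refine val_multiset_prod_eq_one _ fun x hx => ?_
    obtain ⟨α, -, rfl⟩ := Multiset.mem_map.1 hx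
    refine le_antisymm ?_ (hcon α)
    exact (V.valuation_le_one_iff _).2 (sub_mem haV (h.mem α))
  rw [this] at hvG
  exact lt_irrefl _ hvG

include E in
/-- **`w`-adic approximation**: an algebraic element of `V` is `s + wᴺ a'` with `s ∈ R`,
`a' ∈ V`, for every `N`. -/
theorem exists_approx [IsAlgClosed (ResidueField R)] {a : L} (haV : a ∈ V)
    (ha : IsAlgebraic E a) (N : ℕ) :
    ∃ (s : R) (a' : L), a' ∈ V ∧ a = algebraMap R L s + algebraMap R L w ^ N * a' := by
  induction N with
  | zero => exact ⟨0, a, haV, by simp⟩
  | succ N ih =>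
    obtain ⟨s, a', ha'V, hsa⟩ := ih
    have ha'alg : IsAlgebraic E a' := by
      have hw0 : algebraMap R L w ^ N ≠ 0 := pow_ne_zero _ (h.w_ne_zero (E := E))
      have : a' = (a - algebraMap R L s) * (algebraMap R L w ^ N)⁻¹ := by
        rw [hsa]; field_simp; ring
      rw [this]
      have hR : ∀ r : R, IsAlgebraic E (algebraMap R L r) := fun r => by
        rw [IsScalarTower.algebraMap_apply R E L]
        exact isAlgebraic_algebraMap _
      exact (ha.sub (hR s)).mul (((hR w).pow N).inv)
    obtain ⟨r, hr⟩ := h.exists_approx_one E ha'V ha'alg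
    obtain ⟨y, hyV, hy⟩ := h.gen _ ((ValuationSubring.mem_nonunits_iff V).2 hr)
    refine ⟨s + w ^ N * r, y, hyV, ?_⟩
    have : a' = algebraMap R L r + algebraMap R L w * y := by rw [← hy]; ring
    rw [hsa, this, map_add, map_mul, map_pow]
    ring

include E in
/-- **Separatedness**: a nonzero algebraic element of `V` is `w^δ` times a unit of `V`. -/
theorem exists_pow_mul_unit {x : L} (hxV : x ∈ V) (hx0 : x ≠ 0) (hx : IsAlgebraic E x) :
    ∃ δ : ℕ, V.valuation x = V.valuation (algebraMap R L w) ^ δ := by
  classical
  -- an annihilating polynomial with nonzero constant term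
  obtain ⟨p, hp0, hp⟩ := (IsFractionRing.isAlgebraic_iff R E L).2 hx
  obtain ⟨q, hq, hXq⟩ := exists_eq_pow_rootMultiplicity_mul_and_not_dvd p hp0 0
  rw [map_zero, sub_zero] at hq hXq
  have hqx : aeval x q = 0 := by
    rw [hq, map_mul, map_pow, aeval_X] at hp
    exact (mul_eq_zero.1 hp).resolve_left (pow_ne_zero _ hx0)
  have hq0 : q.coeff 0 ≠ 0 := fun h0 => hXq (X_dvd_iff.2 h0)
  -- `c₀ = - x * (q / X)(x)`
  have hdecomp : algebraMap R L (q.coeff 0) = -(x * aeval x q.divX) := by
    have := divX_mul_X_add q
    have h2 : aeval x q = aeval x q.divX * x + algebraMap R L (q.coeff 0) := by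
      conv_lhs => rw [← this]
      simp
    rw [hqx] at h2
    linear_combination -h2
  obtain ⟨n₀, u, -, hn₀⟩ := h.val_eq_pow hq0
  have hle : V.valuation (algebraMap R L w) ^ n₀ ≤ V.valuation x := by
    rw [← hn₀, hdecomp, Valuation.map_neg, map_mul]
    calc V.valuation x * V.valuation (aeval x q.divX) ≤ V.valuation x * 1 := by
          gcongr
          exact (V.valuation_le_one_iff _).2 (h.aeval_mem _ hxV)
      _ = _ := mul_one _
  -- descending induction
  have key : ∀ k : ℕ, ∀ y : L, y ∈ V → V.valuation (algebraMap R L w) ^ k ≤ V.valuation y →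
      ∃ δ : ℕ, V.valuation y = V.valuation (algebraMap R L w) ^ δ := by
    intro k
    induction k with
    | zero =>
      intro y hy hk
      refine ⟨0, le_antisymm ?_ hk⟩
      rw [pow_zero]
      exact (V.valuation_le_one_iff _).2 hy
    | succ k ih =>
      intro y hy hk
      rcases lt_or_ge (V.valuation y) 1 with hlt | hge
      · obtain ⟨z, hzV, rfl⟩ := h.gen y ((ValuationSubring.mem_nonunits_iff V).2 hlt)
        have hz : V.valuation (algebraMap R L w) ^ k ≤ V.valuation z := by
          rw [map_mul, pow_succ'] at hk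
          exact le_of_mul_le_mul_left hk (h.val_w_pos (E := E))
        obtain ⟨δ, hδ⟩ := ih z hzV hz
        exact ⟨δ + 1, by rw [map_mul, hδ, pow_succ']⟩
      · refine ⟨0, le_antisymm ?_ (by simpa using hge)⟩
        rw [pow_zero]
        exact (V.valuation_le_one_iff _).2 hy
  exact key n₀ x hxV hle

end UnifIn

end Setup

end Fermat.Agent.A2.H313

end
-- ===== PACK-END A2/H313/HensApprox.lean

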