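import Mathlib
import Fermat.Prelude.Def_AlgebraicCurve_DivisorClassGroup
import Mathlib.RingTheory.Valuation.LocalSubring
import Mathlib.RingTheory.Valuation.Integral
import Mathlib.RingTheory.Valuation.ValuationRing
import Fermat.Agent.Pack.S34.G0E6L2
import Fermat.Agent.Pack.S34.G0E6L1
import Fermat.Agent.Pack.S34.G0E0L3
import Fermat.Agent.Pack.S34.G0E5L1
import Fermat.Agent.Pack.S34.G0E3L2
import Fermat.Agent.Pack.S34.G0E5L2
import Fermat.Agent.Pack.S34.G0E5L0
import Fermat.Agent.Pack.S34.G0E1L1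
import Fermat.Agent.Pack.S34.G0E4L1
import Fermat.Agent.Pack.S34.G0E5L3
import Fermat.Agent.Pack.S34.G0E2L0
import Fermat.Agent.Pack.S34.G2E0L0
import Fermat.Agent.Pack.S34.G0E6L0
import Fermat.Agent.Pack.S34.G0E2L3

-- ===== PACK-BEGIN S31/H622/Pet.lean
section


/-!
# Row S31, piece SS (helper622) — the Petersson inner product on `S₂(Γ₀(N))`

`petC N f g = ∫_ℍ conj (f τ) g τ (Im τ)² χ(τ) dμ(τ)`, where `χ = chiH N` is the `Γ₀(N)`-partition
of unity and `μ` the hyperbolic measure.  Sesquilinear, positive definite.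
-/

set_option autoImplicit false
set_option linter.unusedSectionVars false

open UpperHalfPlane CongruenceSubgroup MeasureTheory
open scoped MatrixGroups ModularForm ComplexConjugate

namespace Fermat.Agent.S31.H622

/-! ### Pointwise facts on the Petersson integrand -/

theorem norm_petersson_two (f h : ℍ → ℂ) (τ : ℍ) :
    ‖petersson 2 f h τ‖ = ‖f τ‖ * ‖h τ‖ * τ.im ^ 2 := by
  rw [petersson, norm_mul, norm_mul, Complex.norm_conj]
  congr 1
  rw [show ((τ.im : ℂ) ^ (2 : ℤ)) = ((τ.im ^ 2 : ℝ) : ℂ) by push_cast; norm_cast]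
  rw [Complex.norm_real, Real.norm_of_nonneg (by positivity)]

theorem norm_petersson_sq (f h : ℍ → ℂ) (τ : ℍ) :
    ‖petersson 2 f h τ‖ ^ 2 = ‖petersson 2 f f τ‖ * ‖petersson 2 h h τ‖ := by
  rw [norm_petersson_two, norm_petersson_two, norm_petersson_two]
  ring

theorem norm_petersson_slash (f : ℍ → ℂ) (β : GL (Fin 2) ℝ) (τ : ℍ) :
    ‖petersson 2 (f ∣[(2 : ℤ)] β) (f ∣[(2 : ℤ)] β) τ‖ = ‖petersson 2 f f (β • τ)‖ := by
  rw [petersson_slash]
  simp

theorem petersson_add_left (f₁ f₂ h : ℍ → ℂ) (τ : ℍ) :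
    petersson 2 (f₁ + f₂) h τ = petersson 2 f₁ h τ + petersson 2 f₂ h τ := by
  simp only [petersson, Pi.add_apply, map_add]
  ring

theorem petersson_add_right (f h₁ h₂ : ℍ → ℂ) (τ : ℍ) :
    petersson 2 f (h₁ + h₂) τ = petersson 2 f h₁ τ + petersson 2 f h₂ τ := by
  simp only [petersson, Pi.add_apply]
  ring

theorem petersson_smul_left (c : ℂ) (f h : ℍ → ℂ) (τ : ℍ) :
    petersson 2 (c • f) h τ = conj c * petersson 2 f h τ := by
  simp only [petersson, Pi.smul_apply, smul_eq_mul, map_mul]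
  ring

theorem petersson_smul_right (c : ℂ) (f h : ℍ → ℂ) (τ : ℍ) :
    petersson 2 f (c • h) τ = c * petersson 2 f h τ := by
  simp only [petersson, Pi.smul_apply, smul_eq_mul]
  ring

theorem petersson_sum_right {ι : Type*} (s : Finset ι) (f : ℍ → ℂ) (h : ι → ℍ → ℂ) (τ : ℍ) :
    petersson 2 f (∑ i ∈ s, h i) τ = ∑ i ∈ s, petersson 2 f (h i) τ := by
  simp only [petersson, Finset.sum_apply, Finset.mul_sum, Finset.sum_mul]

theorem petersson_sum_left {ι : Type*} (s : Finset ι) (f : ι → ℍ → ℂ) (h : ℍ → ℂ) (τ : ℍ) :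
    petersson 2 (∑ i ∈ s, f i) h τ = ∑ i ∈ s, petersson 2 (f i) h τ := by
  simp only [petersson, Finset.sum_apply, map_sum, Finset.sum_mul]

section

variable (N : ℕ) [NeZero N]

/-! ### Bounds and integrability -/

theorem exists_petersson_self_bound (f : CuspForm (Gamma0 N) 2) :
    ∃ C : ℝ, 0 ≤ C ∧ ∀ τ, ‖petersson 2 f f τ‖ ≤ C := by
  obtain ⟨C, hC⟩ := CuspFormClass.petersson_bounded_left 2 (Gamma0 N) f f
  exact ⟨C, (norm_nonneg _).trans (hC UpperHalfPlane.I), hC⟩

/-- Uniform bound for `petersson 2 (f ∣ α) (g ∣ β)`. -/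
theorem exists_petersson_slash_bound (f g : CuspForm (Gamma0 N) 2) :
    ∃ C : ℝ, ∀ (α β : GL (Fin 2) ℝ) (τ : ℍ),
      ‖petersson 2 ((f : ℍ → ℂ) ∣[(2 : ℤ)] α) ((g : ℍ → ℂ) ∣[(2 : ℤ)] β) τ‖ ≤ C := by
  obtain ⟨C₁, h0₁, hC₁⟩ := exists_petersson_self_bound N f
  obtain ⟨C₂, h0₂, hC₂⟩ := exists_petersson_self_bound N g
  refine ⟨Real.sqrt (C₁ * C₂), fun α β τ => ?_⟩
  refine Real.le_sqrt_of_sq_le ?_
  rw [norm_petersson_sq, norm_petersson_slash, norm_petersson_slash]
  exact mul_le_mul (hC₁ _) (hC₂ _) (norm_nonneg _) h0₁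

theorem continuous_slash (f : CuspForm (Gamma0 N) 2) (β : GL (Fin 2) ℝ) :
    Continuous ((f : ℍ → ℂ) ∣[(2 : ℤ)] β) :=
  ((CuspFormClass.holo f).slash 2 β).continuous

theorem continuous_petersson_slash (f g : CuspForm (Gamma0 N) 2) (α β : GL (Fin 2) ℝ) :
    Continuous (petersson 2 ((f : ℍ → ℂ) ∣[(2 : ℤ)] α) ((g : ℍ → ℂ) ∣[(2 : ℤ)] β)) :=
  petersson_continuous 2 (continuous_slash N f α) (continuous_slash N g β)

theorem integrable_mul_chiH {Φ : ℍ → ℂ} (hc : Continuous Φ) {C : ℝ} (hb : ∀ τ, ‖Φ τ‖ ≤ C) :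
    Integrable (fun τ => Φ τ * (chiH N τ : ℂ)) (volume : Measure ℍ) := by
  have h1 : Integrable (fun τ => (chiH N τ : ℂ)) (volume : Measure ℍ) := (integrable_chiH N).ofReal
  exact h1.bdd_mul hc.aestronglyMeasurable (Filter.Eventually.of_forall hb)

theorem slash_one_coe (f : CuspForm (Gamma0 N) 2) :
    (f : ℍ → ℂ) ∣[(2 : ℤ)] (1 : GL (Fin 2) ℝ) = f := SlashAction.slash_one _ _

theorem exists_petersson_bound (f g : CuspForm (Gamma0 N) 2) :
    ∃ C : ℝ, ∀ τ : ℍ, ‖petersson 2 f g τ‖ ≤ C := by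
  obtain ⟨C, hC⟩ := exists_petersson_slash_bound N f g
  refine ⟨C, fun τ => ?_⟩
  have := hC 1 1 τ
  rwa [slash_one_coe, slash_one_coe] at this

theorem integrable_petersson_mul_chiH (f g : CuspForm (Gamma0 N) 2) :
    Integrable (fun τ => petersson 2 f g τ * (chiH N τ : ℂ)) (volume : Measure ℍ) := by
  obtain ⟨C, hC⟩ := exists_petersson_bound N f g
  exact integrable_mul_chiH N
    (petersson_continuous 2 (ModularFormClass.continuous f) (ModularFormClass.continuous g)) hC

/-! ### The Petersson product -/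

/-- The Petersson inner product on `S₂(Γ₀(N))` (conjugate-linear in the first variable). -/
noncomputable def petC (f g : CuspForm (Gamma0 N) 2) : ℂ :=
  ∫ τ : ℍ, petersson 2 f g τ * (chiH N τ : ℂ)

theorem petC_add_left (f₁ f₂ g : CuspForm (Gamma0 N) 2) :
    petC N (f₁ + f₂) g = petC N f₁ g + petC N f₂ g := by
  unfold petC
  rw [← integral_add (integrable_petersson_mul_chiH N f₁ g) (integrable_petersson_mul_chiH N f₂ g)]
  refine integral_congr_ae (Filter.Eventually.of_forall fun τ => ?_)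
  simp only [FunLike.coe_add, petersson_add_left]
  ring

theorem petC_add_right (f g₁ g₂ : CuspForm (Gamma0 N) 2) :
    petC N f (g₁ + g₂) = petC N f g₁ + petC N f g₂ := by
  unfold petC
  rw [← integral_add (integrable_petersson_mul_chiH N f g₁) (integrable_petersson_mul_chiH N f g₂)]
  refine integral_congr_ae (Filter.Eventually.of_forall fun τ => ?_)
  simp only [FunLike.coe_add, petersson_add_right]
  ring

theorem petC_smul_left (c : ℂ) (f g : CuspForm (Gamma0 N) 2) :
    petC N (c • f) g = conj c * petC N f g := by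
  unfold petC
  rw [← integral_const_mul]
  refine integral_congr_ae (Filter.Eventually.of_forall fun τ => ?_)
  simp only [FunLike.coe_smul, petersson_smul_left]
  ring

theorem petC_smul_right (c : ℂ) (f g : CuspForm (Gamma0 N) 2) :
    petC N f (c • g) = c * petC N f g := by
  unfold petC
  rw [← integral_const_mul]
  refine integral_congr_ae (Filter.Eventually.of_forall fun τ => ?_)
  simp only [FunLike.coe_smul, petersson_smul_right]
  ring

/-- Positive definiteness. -/
theorem eq_zero_of_petC_self_eq_zero (f : CuspForm (Gamma0 N) 2) (h : petC N f f = 0) : f = 0 := by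
  set F : ℍ → ℝ := fun τ => ‖f τ‖ ^ 2 * τ.im ^ 2 * chiH N τ with hF
  have hpt : ∀ τ, petersson 2 f f τ * (chiH N τ : ℂ) = ((F τ : ℝ) : ℂ) := by
    intro τ
    simp only [hF, petersson]
    push_cast
    rw [← Complex.conj_mul', zpow_ofNat]
  have hFi : Integrable F (volume : Measure ℍ) := by
    have h1 := (integrable_petersson_mul_chiH N f f).re
    refine h1.congr (Filter.Eventually.of_forall fun τ => ?_)
    show (petersson 2 (⇑f) (⇑f) τ * ↑(chiH N τ)).re = F τ
    rw [hpt]
    exact Complex.ofReal_re _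
  have hFc : Continuous F := by
    have hc : Continuous (f : ℍ → ℂ) := ModularFormClass.continuous f
    exact ((hc.norm.pow 2).mul (UpperHalfPlane.continuous_im.pow 2)).mul (continuous_chiH N)
  have hF0 : ∀ τ, 0 ≤ F τ := fun τ =>
    mul_nonneg (mul_nonneg (sq_nonneg _) (sq_nonneg _)) (chiH_nonneg N τ)
  have hint : ∫ τ, F τ = 0 := by
    have h2 : petC N f f = ((∫ τ, F τ : ℝ) : ℂ) := by
      unfold petC
      rw [integral_congr_ae (Filter.Eventually.of_forall hpt)]
      exact integral_ofReal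
    rw [h2] at h
    exact_mod_cast h
  have hzero := eq_zero_of_integral_eq_zero hFc hF0 hFi hint
  ext τ
  obtain ⟨γ, hγ⟩ := exists_chiH_pos N τ
  have h3 := hzero ((γ : SL(2, ℤ)) • τ)
  simp only [hF] at h3
  have h4 : ‖f ((γ : SL(2, ℤ)) • τ)‖ ^ 2 * ((γ : SL(2, ℤ)) • τ).im ^ 2 = 0 := by
    rcases mul_eq_zero.mp h3 with h | h
    · exact h
    · exact absurd h hγ.ne'
  have h5 : f ((γ : SL(2, ℤ)) • τ) = 0 := by
    rcases mul_eq_zero.mp h4 with h | h
    · simpa using h
    · exact absurd (pow_eq_zero_iff (two_ne_zero)|>.mp h) (UpperHalfPlane.im_ne_zero _)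
  have h6 := SlashInvariantForm.slash_action_eqn_SL'' f γ.2 τ
  rw [h5] at h6
  have h7 : denom ((γ : SL(2, ℤ)) : GL (Fin 2) ℝ) τ ^ (2 : ℤ) ≠ 0 :=
    zpow_ne_zero _ (denom_ne_zero _ _)
  rcases mul_eq_zero.mp h6.symm with h | h
  · exact absurd h h7
  · simpa using h

end

end Fermat.Agent.S31.H622

end
-- ===== PACK-END S31/H622/Pet.lean

-- ===== PACK-BEGIN S24/FFDict.lean
section




/-!
# S24 / FF layer: dictionary between places and primes of the integral closure of `K[t]`
(helper804)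
-/

set_option autoImplicit false
set_option linter.unusedSectionVars false

namespace Fermat.Agent.S24.FF

open AlgebraicCurve Polynomial IntermediateField IsDedekindDomain

open scoped IntermediateField.algebraAdjoinAdjoin

variable {K F : Type*} [Field K] [Field F] [Algebra K F] {t : F}

/-- `K[t] ⊆ O_v` when `t` is integral at `v`. -/
theorem mem_of_mem_coordRing (v : Place K F) (ht : 0 ≤ v.ord t) {r : F}
    (hr : r ∈ coordRing K t) : r ∈ v.toValuationSubring := by
  induction hr using Algebra.adjoin_induction with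
  | mem x hx =>
    rw [Set.mem_singleton_iff] at hx
    subst hx
    exact mem_of_ord_nonneg v ht
  | algebraMap a => exact v.algebraMap_mem' a
  | add x y _ _ hx hy => exact add_mem hx hy
  | mul x y _ _ hx hy => exact mul_mem hx hy

/-- The integral closure of `K[t]` is contained in `O_v` when `t` is integral at `v`. -/
theorem mem_of_mem_intRing (v : Place K F) (ht : 0 ≤ v.ord t) {s : F}
    (hs : s ∈ intRing K t) : s ∈ v.toValuationSubring := by
  let φ : coordRing K t →+* v.toValuationSubring :=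
    { toFun := fun y => ⟨y, mem_of_mem_coordRing v ht y.2⟩
      map_one' := rfl
      map_mul' := fun _ _ => rfl
      map_zero' := rfl
      map_add' := fun _ _ => rfl }
  obtain ⟨p, hpm, hp⟩ := hs
  have hint' : IsIntegral v.toValuationSubring s := by
    refine ⟨p.map φ, hpm.map φ, ?_⟩
    rw [← hp, Polynomial.eval₂_map]
    rfl
  obtain ⟨y, hy⟩ := IsIntegrallyClosed.isIntegral_iff.mp hint'
  rw [← hy]
  exact y.2

/-- The inclusion of the integral closure of `K[t]` into `O_v`. -/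
def toPlaceRing (v : Place K F) (ht : 0 ≤ v.ord t) : intRing K t →+* v.toValuationSubring where
  toFun s := ⟨s, mem_of_mem_intRing v ht s.2⟩
  map_one' := rfl
  map_mul' _ _ := rfl
  map_zero' := rfl
  map_add' _ _ := rfl

@[simp] theorem coe_toPlaceRing (v : Place K F) (ht : 0 ≤ v.ord t) (s : intRing K t) :
    ((toPlaceRing v ht s : v.toValuationSubring) : F) = (s : F) := rfl

/-- The center of the place `v` on the integral closure of `K[t]`. -/
def center (v : Place K F) (ht : 0 ≤ v.ord t) : Ideal (intRing K t) :=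
  Ideal.comap (toPlaceRing v ht) (IsLocalRing.maximalIdeal v.toValuationSubring)

instance center_isPrime (v : Place K F) (ht : 0 ≤ v.ord t) : (center v ht).IsPrime := by
  unfold center
  infer_instance

theorem mem_center_iff (v : Place K F) (ht : 0 ≤ v.ord t) (s : intRing K t) :
    s ∈ center v ht ↔ (s : F) ∈ v.toValuationSubring.nonunits := by
  rw [center, Ideal.mem_comap]
  exact ValuationSubring.coe_mem_nonunits_iff.symm

theorem mem_nonunits_valuationSubring_iff {Γ₀ : Type*} [LinearOrderedCommGroupWithZero Γ₀]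
    (w : Valuation F Γ₀) (x : F) : x ∈ w.valuationSubring.nonunits ↔ w x < 1 := by
  rw [ValuationSubring.mem_nonunits_iff]
  exact (Valuation.isEquiv_valuation_valuationSubring w).lt_one_iff_lt_one.symm

variable (K t) in
/-- `t` as an element of `K[t]`. -/
def tR : coordRing K t := ⟨t, Algebra.self_mem_adjoin_singleton K t⟩

variable (K t) in
/-- `t` as an element of the integral closure of `K[t]`. -/
def tS : intRing K t := algebraMap (coordRing K t) (intRing K t) (tR K t)

@[simp] theorem coe_tR : ((tR K t : coordRing K t) : F) = t := rfl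

@[simp] theorem coe_tS : ((tS K t : intRing K t) : F) = t := rfl

section withCoord

variable [CharZero K] [IsCoord K t]

theorem center_ne_bot (v : Place K F) (ht : 0 < v.ord t) : center v ht.le ≠ ⊥ := by
  intro h
  have ht0 : t ≠ 0 := by
    rintro rfl
    simp at ht
  have htS : tS K t ∈ center v ht.le :=
    (mem_center_iff v ht.le _).mpr ((ord_pos_iff_mem_nonunits v ht0).mp ht)
  rw [h, Ideal.mem_bot] at htS
  apply ht0
  have := congrArg (fun s : intRing K t => (s : F)) htS
  simpa using this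

/-- The center of `v` as a height-one prime. -/
def centerPrime (v : Place K F) (ht : 0 < v.ord t) : HeightOneSpectrum (intRing K t) :=
  ⟨center v ht.le, inferInstance, center_ne_bot v ht⟩

@[simp] theorem centerPrime_asIdeal (v : Place K F) (ht : 0 < v.ord t) :
    (centerPrime v ht).asIdeal = center v ht.le := rfl

/-- **Dictionary, surjectivity**: a place at which `t` vanishes is the place of its center. -/
theorem placeOfPrime_centerPrime (v : Place K F) (ht : 0 < v.ord t) :
    placeOfPrime K t (centerPrime v ht) = v := by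
  apply Place.ext
  rw [placeOfPrime_toValuationSubring,
    ← HeightOneSpectrum.valuationSubringAtPrime_eq_valuationSubring]
  refine ValuationSubring.eq_of_le_of_ne_top _ ?_ v.ne_top'
  rintro x ⟨a, s, hs, rfl⟩
  have ha : (a : F) ∈ v.toValuationSubring := mem_of_mem_intRing v ht.le a.2
  have hs' : (s : F) ∉ v.toValuationSubring.nonunits := fun h =>
    hs ((mem_center_iff v ht.le s).mpr h)
  have hsinv : (s : F)⁻¹ ∈ v.toValuationSubring := by
    by_contra hcon
    exact hs' ((ValuationSubring.mem_nonunits_iff_or _).mpr (Or.inr hcon))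
  exact mul_mem ha hsinv

theorem ord_t_placeOfPrime_nonneg (q : HeightOneSpectrum (intRing K t)) :
    0 ≤ (placeOfPrime K t q).ord t := by
  apply ord_nonneg_of_mem
  rw [placeOfPrime_toValuationSubring, Valuation.mem_valuationSubring_iff]
  exact q.valuation_le_one (tS K t)

/-- **Dictionary, injectivity**: the center of the place of `q` is `q`. -/
theorem center_placeOfPrime (q : HeightOneSpectrum (intRing K t)) :
    center (placeOfPrime K t q) (ord_t_placeOfPrime_nonneg q) = q.asIdeal := by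
  ext s
  rw [mem_center_iff, placeOfPrime_toValuationSubring, mem_nonunits_valuationSubring_iff]
  exact q.valuation_lt_one_iff_mem s

theorem placeOfPrime_injective :
    Function.Injective (placeOfPrime K t : HeightOneSpectrum (intRing K t) → Place K F) := by
  intro q q' h
  have h1 := center_placeOfPrime q
  have h2 := center_placeOfPrime q'
  apply HeightOneSpectrum.ext
  rw [← h1, ← h2]
  congr 1

/-- `t` vanishes at the place of `q` iff `t ∈ q`. -/
theorem ord_t_placeOfPrime_pos_iff (ht0 : t ≠ 0) (q : HeightOneSpectrum (intRing K t)) :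
    0 < (placeOfPrime K t q).ord t ↔ tS K t ∈ q.asIdeal := by
  rw [ord_pos_iff_mem_nonunits _ ht0, placeOfPrime_toValuationSubring,
    mem_nonunits_valuationSubring_iff]
  exact q.valuation_lt_one_iff_mem (tS K t)

end withCoord

end Fermat.Agent.S24.FF

end
-- ===== PACK-END S24/FFDict.lean

-- ===== PACK-BEGIN S37/Core/Weak.lean
section


/-!
# S37 row (helper37): weak reduction data suffice

`IsWeakRed` drops the field `frob_ker` of `Fermat.Agent.S37.H99.IsRed` and asks for the
Eichler-Shimura relation at ONE Frobenius element `σ₀` only.  From a weak reduction map `red`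
we build `red' x = (n ↦ red (σ₀ ^ n • x))`, which satisfies all four fields of `IsRed`.
Consequently the geometric part of S37 never has to talk about a Frobenius action on the
special fibre.
-/

set_option autoImplicit false

noncomputable section

namespace Fermat.Agent.S37.Core

open ModularCurve ValuationSubring Fermat.Agent.S37.H99

section Abstract

variable {K L : Type*} [Field K] [Field L] [Algebra K L]
variable (p : ℕ) (J : Type) [AddCommGroup J] [Module HeckeAlg J]
  [DistribMulAction (L ≃ₐ[K] L) J] [SMulCommClass (L ≃ₐ[K] L) HeckeAlg J]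

/-- Weak reduction data at `(A, ℓ)` relative to ONE Frobenius element `σ₀`. -/
structure IsWeakRed (A : ValuationSubring L) (ℓ : ℕ) (hℓ : ℓ.Prime) (σ₀ : L ≃ₐ[K] L)
    {Y : Type*} [AddCommGroup Y] (red : J →+ Y) : Prop where
  frob : A.IsFrobeniusAt σ₀ ℓ
  inertia : ∀ τ ∈ A.inertiaSubgroupIn K, ∀ x : J, red (τ • x) = red x
  inj_torsion : ∀ x : J, (∃ n : ℕ, p ^ n • x = 0) → red x = 0 → x = 0
  relation : ∀ x : J, red (σ₀ • σ₀ • x - heckeGen ⟨ℓ, hℓ⟩ • (σ₀ • x) + ℓ • x) = 0

variable {p J}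

/-- the inertia subgroup is stable under conjugation by the decomposition group -/
theorem conj_mem_inertiaSubgroupIn {A : ValuationSubring L} {g τ : L ≃ₐ[K] L}
    (hg : g ∈ A.decompositionSubgroup K) (hτ : τ ∈ A.inertiaSubgroupIn K) :
    g * τ * g⁻¹ ∈ A.inertiaSubgroupIn K := by
  obtain ⟨t, ht, rfl⟩ := hτ
  let d : A.decompositionSubgroup K := ⟨g, hg⟩
  haveI : (A.inertiaSubgroup K).Normal := MonoidHom.normal_ker _
  refine ⟨d * t * d⁻¹, Subgroup.Normal.conj_mem ‹_› t ht d, rfl⟩

/-- `red' x = (n ↦ red (σ₀ ^ n • x))` -/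
def iterRed (σ₀ : L ≃ₐ[K] L) {Y : Type*} [AddCommGroup Y] (red : J →+ Y) : J →+ (ℕ → Y) where
  toFun x n := red (σ₀ ^ n • x)
  map_zero' := by
    funext n
    simp
  map_add' x y := by
    funext n
    simp [smul_add]

@[simp] theorem iterRed_apply (σ₀ : L ≃ₐ[K] L) {Y : Type*} [AddCommGroup Y] (red : J →+ Y)
    (x : J) (n : ℕ) : iterRed σ₀ red x n = red (σ₀ ^ n • x) := rfl

theorem IsWeakRed.red_pow_smul_inertia {A : ValuationSubring L} {ℓ : ℕ} {hℓ : ℓ.Prime}
    {σ₀ : L ≃ₐ[K] L} {Y : Type*} [AddCommGroup Y] {red : J →+ Y}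
    (h : IsWeakRed (K := K) p J A ℓ hℓ σ₀ red) (n : ℕ) {τ : L ≃ₐ[K] L}
    (hτ : τ ∈ A.inertiaSubgroupIn K) (x : J) :
    red (σ₀ ^ n • τ • x) = red (σ₀ ^ n • x) := by
  have hg : σ₀ ^ n ∈ A.decompositionSubgroup K :=
    pow_mem h.frob.mem_decompositionSubgroup n
  have hconj := conj_mem_inertiaSubgroupIn hg hτ
  have e : σ₀ ^ n • τ • x = (σ₀ ^ n * τ * (σ₀ ^ n)⁻¹) • (σ₀ ^ n • x) := by
    rw [← mul_smul, ← mul_smul, inv_mul_cancel_right]
  rw [e, h.inertia _ hconj]

theorem IsWeakRed.red_pow_smul_frob {A : ValuationSubring L} {ℓ : ℕ} {hℓ : ℓ.Prime}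
    {σ₀ : L ≃ₐ[K] L} {Y : Type*} [AddCommGroup Y] {red : J →+ Y}
    (h : IsWeakRed (K := K) p J A ℓ hℓ σ₀ red) (n : ℕ) {σ : L ≃ₐ[K] L}
    (hσ : A.IsFrobeniusAt σ ℓ) (x : J) :
    red (σ₀ ^ n • σ • x) = red (σ₀ ^ (n + 1) • x) := by
  have hτ := inv_mul_mem_inertiaSubgroupIn h.frob hσ
  have e : σ₀ ^ n • σ • x = σ₀ ^ (n + 1) • (σ₀⁻¹ * σ) • x := by
    rw [← mul_smul, ← mul_smul, pow_succ, mul_assoc, mul_inv_cancel_left]
  rw [e, h.red_pow_smul_inertia (n + 1) hτ]

/-- **Weak reduction data suffice.** -/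
theorem IsWeakRed.isRed_iterRed {A : ValuationSubring L} {ℓ : ℕ} {hℓ : ℓ.Prime}
    {σ₀ : L ≃ₐ[K] L} {Y : Type*} [AddCommGroup Y] {red : J →+ Y}
    (h : IsWeakRed (K := K) p J A ℓ hℓ σ₀ red) :
    IsRed (K := K) p J A ℓ hℓ (iterRed σ₀ red) where
  inertia τ hτ x := by
    funext n
    exact h.red_pow_smul_inertia n hτ x
  frob_ker σ hσ x hx := by
    funext n
    rw [iterRed_apply, h.red_pow_smul_frob n hσ]
    exact congrFun hx (n + 1)
  inj_torsion x hx hx0 := by
    refine h.inj_torsion x hx ?_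
    have := congrFun hx0 0
    simpa using this
  relation σ hσ x := by
    funext n
    have hgal : ∀ (g : L ≃ₐ[K] L) (t : HeckeAlg) (y : J), t • (g • y) = g • (t • y) :=
      fun g t y => (smul_comm g t y).symm
    have e2 : σ₀ • σ₀ • (σ₀ ^ n • x) = σ₀ ^ (n + 1 + 1) • x := by
      rw [smul_smul, smul_smul, pow_succ' σ₀ (n + 1), pow_succ' σ₀ n, mul_assoc]
    have e1 : σ₀ • (σ₀ ^ n • x) = σ₀ ^ (n + 1) • x := by
      rw [smul_smul, pow_succ' σ₀ n]
    have h1 : red (σ₀ ^ n • σ • σ • x) = red (σ₀ • σ₀ • (σ₀ ^ n • x)) := by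
      rw [e2, h.red_pow_smul_frob n hσ (σ • x), h.red_pow_smul_frob (n + 1) hσ x]
    have h2 : red (σ₀ ^ n • (heckeGen ⟨ℓ, hℓ⟩ • (σ • x))) =
        red (heckeGen ⟨ℓ, hℓ⟩ • (σ₀ • (σ₀ ^ n • x))) := by
      rw [e1, hgal σ (heckeGen ⟨ℓ, hℓ⟩) x, h.red_pow_smul_frob n hσ (heckeGen ⟨ℓ, hℓ⟩ • x),
        hgal (σ₀ ^ (n + 1)) (heckeGen ⟨ℓ, hℓ⟩) x]
    have h3 : red (σ₀ ^ n • ((ℓ : ℕ) • x)) = red ((ℓ : ℕ) • (σ₀ ^ n • x)) := by
      rw [smul_comm]
    have := h.relation (σ₀ ^ n • x)
    rw [map_add, map_sub] at this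
    show red (σ₀ ^ n • (σ • σ • x - heckeGen ⟨ℓ, hℓ⟩ • (σ • x) + ℓ • x)) = 0
    rw [smul_add, smul_sub, map_add, map_sub, h1, h2, h3]
    exact this

variable (p) in
/-- **R1 at one place, weak form.** -/
theorem exists_specialization_of_isWeakRed (A : ValuationSubring L) (ℓ : ℕ) (hℓ : ℓ.Prime)
    (σ₀ : L ≃ₐ[K] L) {Y : Type*} [AddCommGroup Y] (red : J →+ Y)
    (hred : IsWeakRed (K := K) p J A ℓ hℓ σ₀ red) :
    ∃ (J' : Type) (_ : AddCommGroup J') (_ : Module HeckeAlg J') (sp : J →+ J')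
      (F : J' →+ J'),
      IsSpecialization (K := K) p J J' A ℓ sp F ∧ SpecialFibreRelation J' ℓ hℓ F :=
  exists_specialization_of_isRed p A ℓ hℓ ⟨σ₀, hred.frob⟩ (iterRed σ₀ red) hred.isRed_iterRed

end Abstract

end Fermat.Agent.S37.Core

end
end
-- ===== PACK-END S37/Core/Weak.lean

-- ===== PACK-BEGIN S29/H395/Strip.lean
section
/-
S29 / layer M / bridge BR, piece NORM — helper395.

Growth lemma: a continuous, `M`-periodic function on `ℍ` of at most exponential growth on
`im τ ≥ 1` has at most exponential growth on every half plane `im τ ≥ c`, `c > 0`.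
Consequence: composition with `τ ↦ (a τ + b) / d` preserves exponential growth.
-/



set_option autoImplicit false
set_option linter.style.haveILetI false

noncomputable section

open UpperHalfPlane
open scoped Real

namespace Fermat.Agent.S29.H395

open Fermat.Agent.S24 Fermat.Agent.S24.H648

theorem periodic_int_of_periodic {F : ℍ → ℂ} {M : ℝ} (hper : ∀ τ : ℍ, F (M +ᵥ τ) = F τ)
    (k : ℤ) (τ : ℍ) : F ((k * M : ℝ) +ᵥ τ) = F τ := by
  induction k using Int.induction_on generalizing τ with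
  | zero => simp
  | succ n ih =>
    have : (((n : ℤ) + 1 : ℤ) * M : ℝ) +ᵥ τ = M +ᵥ (((n : ℤ) * M : ℝ) +ᵥ τ) := by
      rw [vadd_vadd]; congr 1; push_cast; ring
    rw [this, hper, ih]
  | pred n ih =>
    have h1 := hper ((((-(n : ℤ) - 1 : ℤ)) * M : ℝ) +ᵥ τ)
    have : M +ᵥ ((((-(n : ℤ) - 1 : ℤ)) * M : ℝ) +ᵥ τ) = (((-(n : ℤ) : ℤ)) * M : ℝ) +ᵥ τ := by
      rw [vadd_vadd]; congr 1; push_cast; ring
    rw [this] at h1
    rw [← h1, ih]

/-- Boundedness on a horizontal strip `c ≤ im τ ≤ 1` of a continuous periodic function. -/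
theorem exists_bound_strip {F : ℍ → ℂ} (hF : Continuous F) {M : ℝ} (hM : 0 < M)
    (hper : ∀ τ : ℍ, F (M +ᵥ τ) = F τ) {c : ℝ} (hc : 0 < c) :
    ∃ B : ℝ, 0 ≤ B ∧ ∀ τ : ℍ, c ≤ τ.im → τ.im ≤ 1 → ‖F τ‖ ≤ B := by
  -- the compact rectangle
  let K : Set ℂ := Set.Icc (0 : ℝ) M ×ℂ Set.Icc c 1
  have hK : IsCompact K := isCompact_Icc.reProdIm isCompact_Icc
  have hpos : ∀ z ∈ K, 0 < z.im := fun z hz => lt_of_lt_of_le hc hz.2.1
  haveI : CompactSpace K := isCompact_iff_compactSpace.mp hK
  let g : K → ℍ := fun z => ⟨z.1, hpos z.1 z.2⟩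
  have hg : Continuous g := by
    rw [UpperHalfPlane.isEmbedding_coe.continuous_iff]
    exact continuous_subtype_val
  obtain ⟨B, hB⟩ := (isCompact_range (hF.comp hg)).exists_bound_of_continuousOn
    (f := fun w : ℂ => w) continuousOn_id
  refine ⟨max B 0, le_max_right _ _, fun τ h1 h2 => ?_⟩
  -- translate the real part into `[0, M)`
  set k : ℤ := -⌊τ.re / M⌋ with hk
  have hτ' := periodic_int_of_periodic hper k τ
  set τ' : ℍ := ((k * M : ℝ) +ᵥ τ) with hτ'def
  have hre : τ'.re = k * M + τ.re := by rw [hτ'def, UpperHalfPlane.vadd_re]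
  have him : τ'.im = τ.im := by rw [hτ'def, UpperHalfPlane.vadd_im]
  have hfl := Int.floor_le (τ.re / M)
  have hfl' := Int.lt_floor_add_one (τ.re / M)
  have hkc : (k : ℝ) = -(⌊τ.re / M⌋ : ℝ) := by rw [hk]; push_cast; ring
  have h0 : 0 ≤ τ'.re := by
    rw [hre, hkc]
    have : (⌊τ.re / M⌋ : ℝ) * M ≤ τ.re := by
      have := mul_le_mul_of_nonneg_right hfl hM.le
      rwa [div_mul_cancel₀ _ hM.ne'] at this
    linarith
  have h1' : τ'.re ≤ M := by
    rw [hre, hkc]
    have : τ.re < ((⌊τ.re / M⌋ : ℝ) + 1) * M := by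
      have := mul_lt_mul_of_pos_right hfl' hM
      rwa [div_mul_cancel₀ _ hM.ne'] at this
    linarith
  have hmem : (τ' : ℂ) ∈ K := by
    refine ⟨⟨?_, ?_⟩, ⟨?_, ?_⟩⟩
    · simpa using h0
    · simpa using h1'
    · simpa [him] using h1
    · simpa [him] using h2
  have hb := hB (F τ') ⟨⟨(τ' : ℂ), hmem⟩, by
    show F (g ⟨(τ' : ℂ), hmem⟩) = F τ'
    congr 1⟩
  rw [← hτ']
  exact le_trans hb (le_max_left _ _)

/-- Exponential growth on `im τ ≥ c` for every `c > 0`. -/
theorem expGrowth_halfPlane {F : ℍ → ℂ} (hF : Continuous F) {M : ℝ} (hM : 0 < M)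
    (hper : ∀ τ : ℍ, F (M +ᵥ τ) = F τ) (hgr : ExpGrowth F) {c : ℝ} (hc : 0 < c) :
    ∃ (C : ℝ) (m : ℕ), 0 ≤ C ∧
      ∀ τ : ℍ, c ≤ τ.im → ‖F τ‖ ≤ C * Real.exp (2 * π * m * τ.im) := by
  obtain ⟨C0, m, h0⟩ := hgr
  obtain ⟨B, hB0, hB⟩ := exists_bound_strip hF hM hper hc
  refine ⟨max |C0| B, m, le_trans (abs_nonneg _) (le_max_left _ _), fun τ hτ => ?_⟩
  have hexp : 1 ≤ Real.exp (2 * π * m * τ.im) := by
    apply Real.one_le_exp
    have := τ.im_pos
    positivity
  by_cases h1 : 1 ≤ τ.im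
  · calc ‖F τ‖ ≤ C0 * Real.exp (2 * π * m * τ.im) := h0 τ h1
      _ ≤ |C0| * Real.exp (2 * π * m * τ.im) := by
          gcongr; exact le_abs_self _
      _ ≤ max |C0| B * Real.exp (2 * π * m * τ.im) := by
          gcongr; exact le_max_left _ _
  · have := hB τ hτ (le_of_not_ge h1)
    calc ‖F τ‖ ≤ B := this
      _ ≤ max |C0| B := le_max_right _ _
      _ = max |C0| B * 1 := (mul_one _).symm
      _ ≤ max |C0| B * Real.exp (2 * π * m * τ.im) :=
          mul_le_mul_of_nonneg_left hexp (le_trans (abs_nonneg _) (le_max_left _ _))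

theorem infAff_im {a d : ℕ} (ha : 0 < a) (hd : 0 < d) (b : ℤ) (τ : ℍ) :
    (infAff a b d τ).im = a * τ.im / d := by
  have h := congrArg Complex.im (infAff_coe ha hd b τ)
  rw [UpperHalfPlane.coe_im] at h
  rw [h]
  have : ((a : ℂ) * τ + b) / d = (((a : ℝ) : ℂ) * τ + ((b : ℝ) : ℂ)) / ((d : ℝ) : ℂ) := by
    push_cast; rfl
  rw [this, Complex.div_ofReal_im]
  simp

/-- Composition with `τ ↦ (a τ + b) / d` preserves exponential growth (for continuous periodic
functions). -/
theorem expGrowth_comp_infAff {F : ℍ → ℂ} (hF : Continuous F) {M : ℝ} (hM : 0 < M)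
    (hper : ∀ τ : ℍ, F (M +ᵥ τ) = F τ) (hgr : ExpGrowth F) {a d : ℕ} (ha : 0 < a) (hd : 0 < d)
    (b : ℤ) : ExpGrowth (fun τ => F (infAff a b d τ)) := by
  have hc : (0 : ℝ) < (a : ℝ) / d := by positivity
  obtain ⟨C, m, hC, h⟩ := expGrowth_halfPlane hF hM hper hgr hc
  refine ⟨C, m * a, fun τ hτ => ?_⟩
  have him := infAff_im ha hd b τ
  have h1 : (a : ℝ) / d ≤ (infAff a b d τ).im := by
    rw [him]
    have : (a : ℝ) * 1 / d ≤ a * τ.im / d := by gcongr
    simpa using this
  have h2 : (infAff a b d τ).im ≤ a * τ.im := by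
    rw [him]
    have hd1 : (1 : ℝ) ≤ d := by exact_mod_cast hd
    have := τ.im_pos
    exact div_le_self (by positivity) hd1
  calc ‖F (infAff a b d τ)‖ ≤ C * Real.exp (2 * π * m * (infAff a b d τ).im) := h _ h1
    _ ≤ C * Real.exp (2 * π * (m * a : ℕ) * τ.im) := by
        refine mul_le_mul_of_nonneg_left (Real.exp_le_exp.mpr ?_) hC
        push_cast
        have hpi := Real.pi_pos
        have : (2 * π * m) * (infAff a b d τ).im ≤ (2 * π * m) * (a * τ.im) :=
          mul_le_mul_of_nonneg_left h2 (by positivity)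
        linarith

end Fermat.Agent.S29.H395

end

end
-- ===== PACK-END S29/H395/Strip.lean

-- ===== PACK-BEGIN S18/Mod/H216/Asm.lean
section




/-!
# S18 / MOD-ASM (helper216): node_mod from the six PARTS at the concrete objects

Targets for the MOD owners (exact statements; `E` ranges over ALL number fields `E ⊆ Q̄`):

| part | statement to prove | content |
|---|---|---|
| G-R   | `PartRStatement M A`         | `A ∩ E` is a DVR of `E`, finite residue field (needs `A.LiesOverPrime ℓ`) |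
| G-FLD | `PartFldStatement M x`       | constants, `x` transcendental, `[Fc : Ec(x)] < ∞` |
| G-V   | `PartVStatement M A x`       | `Vc M A E` is the Gauss valuation ring (needs S28 `CoreData`, i.e. `ℓ ∤ M`) |
| G-QEP | `PartQepStatement M A x`     | q-expansion principle on the charts `R[x]`, `R[x⁻¹]` |
| G-SEP | `PartSepStatement M A x`     | separability of the residue field of `Vc` over `κ(x̄)` |
| G-BR  | `PartBrStatement M A x S`    | branch values |

`goodAt_of_parts` : the six statements give `GoodAt M A x S`.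
`goodModelStatement_of_parts` : the frozen node `Mod.GoodModelStatement M ℓ A` from the six
statements for `x = j` (`ℓ ≥ 5`) and `GoodAt` for the Hauptmodul coordinates (`ℓ = 2, 3`; M3-T).
-/

set_option autoImplicit false

noncomputable section

namespace Fermat.Agent.S18.Mod.H216

open ModularCurve AlgebraicCurve HahnSeries Fermat.Agent.S18 Fermat.Agent.S18.Mod
open Fermat.Agent.S18.Alg

/-- **G-R** at the concrete objects. -/
def PartRStatement (M : ℕ) (A : ValuationSubring Qb) : Prop :=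
  ∀ E : IntermediateField ℚ Qb, FiniteDimensional ℚ E →
    ∃ w : Om M, PartR (Ec M E) (Rc M A E) w

/-- **G-FLD** at the concrete objects. -/
def PartFldStatement (M : ℕ) (x : Om M) : Prop :=
  ∀ E : IntermediateField ℚ Qb, FiniteDimensional ℚ E →
    PartFld (Lc M) (Ec M E) (Fc M E) x

/-- **G-V** at the concrete objects, for every uniformiser `w`. -/
def PartVStatement (M : ℕ) (A : ValuationSubring Qb) (x : Om M) : Prop :=
  ∀ E : IntermediateField ℚ Qb, FiniteDimensional ℚ E →
    ∀ w : Om M, PartR (Ec M E) (Rc M A E) w →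
      PartV (Fc M E) (Rc M A E) (Vc M A E) w x

/-- **G-QEP** at the concrete objects, for every uniformiser `w`. -/
def PartQepStatement (M : ℕ) (A : ValuationSubring Qb) (x : Om M) : Prop :=
  ∀ E : IntermediateField ℚ Qb, FiniteDimensional ℚ E →
    ∀ w : Om M, PartR (Ec M E) (Rc M A E) w →
      PartQep (Fc M E) (Rc M A E) (Vc M A E) w x

/-- **G-SEP** at the concrete objects, for every uniformiser `w`. -/
def PartSepStatement (M : ℕ) (A : ValuationSubring Qb) (x : Om M) : Prop :=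
  ∀ E : IntermediateField ℚ Qb, FiniteDimensional ℚ E →
    ∀ w : Om M, PartR (Ec M E) (Rc M A E) w →
      PartSep (Rc M A E) (Vc M A E) w x

/-- **G-BR** at the concrete objects. -/
def PartBrStatement (M : ℕ) (A : ValuationSubring Qb) (x : Om M) (S : Finset (Om M)) : Prop :=
  ∀ E : IntermediateField ℚ Qb, FiniteDimensional ℚ E →
    PartBr (Lc M) (Rc M A E) x S

theorem charZero_Om (M : ℕ) : CharZero (Om M) :=
  charZero_of_injective_algebraMap (algebraMap Qb (Om M)).injective

/-- The six parts give `GoodAt`. -/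
theorem goodAt_of_parts {M : ℕ} {A : ValuationSubring Qb} {x : Om M} {S : Finset (Om M)}
    (hR : PartRStatement M A) (hF : PartFldStatement M x) (hV : PartVStatement M A x)
    (hQ : PartQepStatement M A x) (hS : PartSepStatement M A x)
    (hB : PartBrStatement M A x S) : GoodAt M A x S := by
  intro E hE
  obtain ⟨w, hw⟩ := hR E hE
  exact ⟨Vc M A E, w, coe_Vc M A E,
    goodModel_of_parts (charZero_Om M) hw (hF E hE) (hV E hE w hw) (hQ E hE w hw)
      (hS E hE w hw) (hB E hE)⟩

/-- **MOD assembly**: the frozen node `Mod.GoodModelStatement M ℓ A` from the parts for the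
coordinate `j` (used when `ℓ ≥ 5`) and `GoodAt` for the Hauptmodul coordinates (`ℓ = 2, 3`). -/
theorem goodModelStatement_of_parts (M ℓ : ℕ) (A : ValuationSubring Qb)
    (hR : 5 ≤ ℓ → PartRStatement M A)
    (hF : 5 ≤ ℓ → PartFldStatement M (jOm M))
    (hV : 5 ≤ ℓ → PartVStatement M A (jOm M))
    (hQ : 5 ≤ ℓ → PartQepStatement M A (jOm M))
    (hS : 5 ≤ ℓ → PartSepStatement M A (jOm M))
    (hB : 5 ≤ ℓ → ∀ S : Finset (Om M), (∀ s, s ∈ S ↔ s = 0 ∨ s = 1728) →
      PartBrStatement M A (jOm M) S)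
    (ht : ¬ 5 ≤ ℓ → ∀ (x : Om M) (S : Finset (Om M)), IsCoordinate M ℓ x S → GoodAt M A x S) :
    GoodModelStatement M ℓ A := by
  refine goodModelStatement_of_goodAt M ℓ A fun x S hxS => ?_
  by_cases h5 : 5 ≤ ℓ
  · rcases hxS with ⟨-, rfl, hS'⟩ | ⟨h | h, -⟩
    · exact goodAt_of_parts (hR h5) (hF h5) (hV h5) (hQ h5) (hS h5) (hB h5 S hS')
    · omega
    · omega
  · exact ht h5 x S hxS

end Fermat.Agent.S18.Mod.H216

end
end
-- ===== PACK-END S18/Mod/H216/Asm.lean

-- ===== PACK-BEGIN S18/H456/ModFields.lean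
section


/-!
# S18 / MOD assembly (helper456): the fields `compositum`, `E_closed_in_F`, `x_mem`,
`x_transcendental` of `Alg.GoodModel` for the concrete objects
-/

set_option autoImplicit false

noncomputable section

namespace Fermat.Agent.S18.H456

open ModularCurve AlgebraicCurve HahnSeries Fermat.Agent.S18 Fermat.Agent.S18.Mod

/-! ### Algebraic Laurent series are constant -/

section LaurentConst

variable {K : Type*} [Field K]

/-- A Laurent series over a field `K` which is algebraic over `K` is constant. -/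
theorem laurent_const_of_isAlgebraic (f : LaurentSeries K) (hf : IsAlgebraic K f) :
    ∃ c : K, f = algebraMap K (LaurentSeries K) c := by
  have key : ∀ g : LaurentSeries K, IsAlgebraic K g →
      ∃ y : PowerSeries K, algebraMap (PowerSeries K) (LaurentSeries K) y = g := by
    intro g hg
    obtain ⟨p, hpm, hp⟩ := hg.isIntegral
    have h2 : IsIntegral (PowerSeries K) g := by
      refine ⟨p.map (PowerSeries.C (R := K)), hpm.map _, ?_⟩
      rw [Polynomial.eval₂_map]
      exact hp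
    exact IsIntegrallyClosed.isIntegral_iff.mp h2
  obtain ⟨y, hy⟩ := key f hf
  set c₀ := PowerSeries.constantCoeff y with hc₀
  by_cases hg : y - PowerSeries.C c₀ = 0
  · refine ⟨c₀, ?_⟩
    rw [← hy, sub_eq_zero.mp hg]
    rfl
  · exfalso
    have hg' : algebraMap (PowerSeries K) (LaurentSeries K) (y - PowerSeries.C c₀) ≠ 0 := by
      intro h
      exact hg ((injective_iff_map_eq_zero _).1
        (IsFractionRing.injective (PowerSeries K) (LaurentSeries K)) _ h)
    have halg : IsAlgebraic K (algebraMap (PowerSeries K) (LaurentSeries K)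
        (y - PowerSeries.C c₀)) := by
      rw [map_sub, hy]
      refine hf.sub ?_
      have : algebraMap (PowerSeries K) (LaurentSeries K) (PowerSeries.C c₀) =
          algebraMap K (LaurentSeries K) c₀ := rfl
      rw [this]
      exact isAlgebraic_algebraMap c₀
    obtain ⟨z, hz⟩ := key _ halg.inv
    have h1 : algebraMap (PowerSeries K) (LaurentSeries K) ((y - PowerSeries.C c₀) * z) =
        algebraMap (PowerSeries K) (LaurentSeries K) 1 := by
      rw [map_mul, hz, map_one, mul_inv_cancel₀ hg']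
    have h2 := IsFractionRing.injective (PowerSeries K) (LaurentSeries K) h1
    have h3 := congrArg (PowerSeries.constantCoeff (R := K)) h2
    rw [map_mul, map_sub, PowerSeries.constantCoeff_C, ← hc₀, sub_self, zero_mul, map_one] at h3
    exact zero_ne_one h3

end LaurentConst

variable (M : ℕ) (A : ValuationSubring Qb) (E : IntermediateField ℚ Qb)

/-! ### Coefficients of elements of `Fc` lie in `E` -/

/-- The subfield of `Q̄((q))` of series with coefficients in `E`. -/
def coeffField : Subfield (LaurentSeries Qb) :=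
  (coeffMap (algebraMap E Qb)).fieldRange

theorem mem_coeffField_iff {g : LaurentSeries Qb} :
    g ∈ coeffField E ↔ ∃ h : LaurentSeries E, coeffMap (algebraMap E Qb) h = g := Iff.rfl

theorem coeff_mem_of_mem_coeffField {g : LaurentSeries Qb} (hg : g ∈ coeffField E) (n : ℤ) :
    g.coeff n ∈ E := by
  obtain ⟨h, rfl⟩ := hg
  rw [coeffMap_coeff]
  exact (h.coeff n).2

theorem val_cst (c : Qb) : ((cst M c : Om M) : LaurentSeries Qb) =
    HahnSeries.single 0 c := by
  show algebraMap Qb (LaurentSeries Qb) c = _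
  exact algebraMap_laurentSeries_eq_single Qb c

theorem coeffEmb_mem_coeffField (z : LaurentSeries ℚ) : coeffEmb Qb z ∈ coeffField E := by
  refine ⟨coeffMap (algebraMap ℚ E) z, ?_⟩
  rw [coeffMap_coeffMap, coeffEmb]
  exact coeffMap_congr (RingHom.ext_rat _ _) z

theorem val_mem_coeffField {f : Om M} (hf : f ∈ Fc M E) :
    (f : LaurentSeries Qb) ∈ coeffField E := by
  unfold Fc at hf
  induction hf using Subfield.closure_induction with
  | mem y hy =>
      rcases hy with hy | hy
      · obtain ⟨c, hc, rfl⟩ := (mem_Ec_iff M E).1 hy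
        rw [val_cst]
        exact ⟨HahnSeries.single 0 ⟨c, hc⟩, by rw [coeffMap_single]; rfl⟩
      · obtain ⟨d, hd, hdM, rfl⟩ := hy
        exact coeffEmb_mem_coeffField E _
  | one => exact one_mem _
  | add x y _ _ hx hy => exact add_mem hx hy
  | neg x _ hx => exact neg_mem hx
  | inv x _ hx =>
      show ((x⁻¹ : Om M) : LaurentSeries Qb) ∈ _
      rw [show ((x⁻¹ : Om M) : LaurentSeries Qb) = (x : LaurentSeries Qb)⁻¹ from rfl]
      exact inv_mem hx
  | mul x y _ _ hx hy => exact mul_mem hx hy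

theorem coeff_mem_of_mem_Fc {f : Om M} (hf : f ∈ Fc M E) (n : ℤ) :
    (f : LaurentSeries Qb).coeff n ∈ E :=
  coeff_mem_of_mem_coeffField E (val_mem_coeffField M E hf) n

/-! ### Elements of `ℚ(j_d)` lie in `Fc` -/

theorem ratCast_mem_Fc (c : ℚ) : cst M (algebraMap ℚ Qb c) ∈ Fc M E :=
  field_E_le_F M E (cst_mem_Ec M E (E.algebraMap_mem c))

/-- The image of `z ∈ ℚ(j_d : d ∣ M)` in `Ω`. -/
def ofFull [NeZero M] (z : LaurentSeries ℚ) (hz : z ∈ modularFunctionFieldFull M) : Om M :=
  ⟨coeffEmb Qb z, coeffEmb_mem_laurentBaseChange Qb hz⟩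

theorem ofFull_mem_Fc [NeZero M] (z : LaurentSeries ℚ) (hz : z ∈ modularFunctionFieldFull M) :
    ofFull M z hz ∈ Fc M E := by
  have hz' := hz
  unfold modularFunctionFieldFull at hz'
  -- induction over the adjoin, keeping track of membership
  have key : ∀ y (hy : y ∈ IntermediateField.adjoin ℚ (divisorExpansions M)),
      ∃ h : y ∈ modularFunctionFieldFull M, ofFull M y h ∈ Fc M E := by
    intro y hy
    induction hy using IntermediateField.adjoin_induction with
    | mem y hy =>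
        obtain ⟨d, hd, hdM, rfl⟩ := hy
        refine ⟨jqd_mem_full M hdM, ?_⟩
        exact Subfield.subset_closure (Or.inr ⟨d, hd, hdM, rfl⟩)
    | algebraMap c =>
        refine ⟨(modularFunctionFieldFull M).algebraMap_mem c, ?_⟩
        have : ofFull M (algebraMap ℚ (LaurentSeries ℚ) c)
            ((modularFunctionFieldFull M).algebraMap_mem c) = cst M (algebraMap ℚ Qb c) := by
          apply Subtype.ext
          show coeffEmb Qb (algebraMap ℚ (LaurentSeries ℚ) c) = _
          rw [val_cst, coeffEmb, algebraMap_laurentSeries_eq_single, coeffMap_single]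
        rw [this]
        exact ratCast_mem_Fc M E c
    | add x y _ _ hx hy =>
        obtain ⟨hx1, hx2⟩ := hx
        obtain ⟨hy1, hy2⟩ := hy
        refine ⟨add_mem hx1 hy1, ?_⟩
        have : ofFull M (x + y) (add_mem hx1 hy1) = ofFull M x hx1 + ofFull M y hy1 :=
          Subtype.ext (map_add (coeffEmb Qb) x y)
        rw [this]
        exact add_mem hx2 hy2
    | inv x _ hx =>
        obtain ⟨hx1, hx2⟩ := hx
        refine ⟨inv_mem hx1, ?_⟩
        have : ofFull M x⁻¹ (inv_mem hx1) = (ofFull M x hx1)⁻¹ :=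
          Subtype.ext (map_inv₀ (coeffEmb Qb) x)
        rw [this]
        exact inv_mem hx2
    | mul x y _ _ hx hy =>
        obtain ⟨hx1, hx2⟩ := hx
        obtain ⟨hy1, hy2⟩ := hy
        refine ⟨mul_mem hx1 hy1, ?_⟩
        have : ofFull M (x * y) (mul_mem hx1 hy1) = ofFull M x hx1 * ofFull M y hy1 :=
          Subtype.ext (map_mul (coeffEmb Qb) x y)
        rw [this]
        exact mul_mem hx2 hy2
  obtain ⟨_, h⟩ := key z hz'
  exact h

/-! ### `compositum` -/

theorem field_compositum [NeZero M] :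
    Subfield.closure ((Fc M E : Set (Om M)) ∪ Lc M) = ⊤ := by
  rw [eq_top_iff]
  rintro ⟨f, hf⟩ -
  set T : Subfield (Om M) := Subfield.closure ((Fc M E : Set (Om M)) ∪ Lc M) with hT
  let val : Om M →+* LaurentSeries Qb := (modularFunctionFieldBar M).val.toRingHom
  have hle : Subfield.closure
        (Set.range (algebraMap Qb (LaurentSeries Qb)) ∪
          (⇑(coeffEmb Qb) '' (modularFunctionFieldFull M : Set (LaurentSeries ℚ)))) ≤
      T.map val := by
    rw [Subfield.closure_le]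
    rintro y (⟨c, rfl⟩ | ⟨z, hz, rfl⟩)
    · exact ⟨cst M c, Subfield.subset_closure (Or.inr (cst_mem_Lc M c)), rfl⟩
    · exact ⟨ofFull M z hz, Subfield.subset_closure (Or.inl (ofFull_mem_Fc M E z hz)), rfl⟩
  obtain ⟨t, ht, htf⟩ := hle (mem_laurentBaseChange_iff.1 hf)
  have : t = ⟨f, hf⟩ := Subtype.ext htf
  rw [← this]
  exact ht

end Fermat.Agent.S18.H456

end
end
-- ===== PACK-END S18/H456/ModFields.lean

-- ===== PACK-BEGIN S20/Comb/OrbitCounts.lean
section




/-!
# Orbit counts of `S` and `S * T` on `SL(2,ℤ) ⧸ Gamma0 N`, and the genus identity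

* `two_mul_card_orbits_S : 2 * #(Q / ⟨S⟩) = ψ(N) + ν₂(N)`
* `three_mul_card_orbits_ST : 3 * #(Q / ⟨S * T⟩) = ψ(N) + 2 * ν₃(N)`
* `genusFormula_eq_of_card_orbits_T` : the Euler-characteristic identity
  `genusFormula N = 1 + (μ - o₂ - o₃ - o∞) / 2`.
-/

set_option autoImplicit false

namespace Fermat.Agent.S20.Comb

open Matrix MatrixGroups CongruenceSubgroup MulAction Subgroup

/-- `-1` acts trivially on `SL(2,ℤ) ⧸ Γ₀(N)`. -/
lemma neg_one_smul_quotient (N : ℕ) (q : SL(2, ℤ) ⧸ Gamma0 N) : (-1 : SL(2, ℤ)) • q = q := by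
  obtain ⟨g, rfl⟩ := QuotientGroup.mk_surjective q
  rw [smul_mk_eq_mk_iff]
  have h : ∀ i j, ((-1 : SL(2, ℤ)) * g) i j = - g i j := by
    intro i j
    rw [neg_mul, one_mul, Matrix.SpecialLinearGroup.coe_neg, Matrix.neg_apply]
  rw [h, h]
  push_cast
  ring

lemma S_pow_two : ModularGroup.S ^ 2 = (-1 : SL(2, ℤ)) := by
  apply Subtype.ext
  rw [pow_two, Matrix.SpecialLinearGroup.coe_mul, ModularGroup.coe_S,
    Matrix.SpecialLinearGroup.coe_neg, Matrix.SpecialLinearGroup.coe_one]
  ext i j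
  fin_cases i <;> fin_cases j <;> simp [Matrix.mul_apply, Fin.sum_univ_two]

lemma ST_pow_three : (ModularGroup.S * ModularGroup.T) ^ 3 = (-1 : SL(2, ℤ)) := by
  apply Subtype.ext
  rw [pow_succ, pow_two, Matrix.SpecialLinearGroup.coe_mul, Matrix.SpecialLinearGroup.coe_mul,
    coe_S_mul_T, Matrix.SpecialLinearGroup.coe_neg, Matrix.SpecialLinearGroup.coe_one]
  ext i j
  fin_cases i <;> fin_cases j <;> simp [Matrix.mul_apply, Fin.sum_univ_two]

/-- `2 * #(S-orbits) = ψ(N) + ν₂(N)`. -/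
theorem two_mul_card_orbits_S (N : ℕ) [NeZero N] :
    2 * Nat.card (orbitRel.Quotient (zpowers ModularGroup.S) (SL(2, ℤ) ⧸ Gamma0 N))
      = ModularCurve.dedekindPsi N + ModularCurve.nuTwo N := by
  have h := prime_mul_card_orbits (X := SL(2, ℤ) ⧸ Gamma0 N) ModularGroup.S 2 Nat.prime_two
    (fun x => by rw [S_pow_two]; exact neg_one_smul_quotient N x)
  rw [card_quotient_Gamma0, card_fixedBy_S] at h
  exact h.trans (by norm_num)

/-- `3 * #(ST-orbits) = ψ(N) + 2 * ν₃(N)`. -/
theorem three_mul_card_orbits_ST (N : ℕ) [NeZero N] :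
    3 * Nat.card (orbitRel.Quotient (zpowers (ModularGroup.S * ModularGroup.T))
        (SL(2, ℤ) ⧸ Gamma0 N))
      = ModularCurve.dedekindPsi N + 2 * ModularCurve.nuThree N := by
  have h := prime_mul_card_orbits (X := SL(2, ℤ) ⧸ Gamma0 N)
    (ModularGroup.S * ModularGroup.T) 3 Nat.prime_three
    (fun x => by rw [ST_pow_three]; exact neg_one_smul_quotient N x)
  rw [card_quotient_Gamma0, card_fixedBy_ST] at h
  exact h.trans (by norm_num)

/-- The Euler-characteristic identity: with `μ = #Q`, `o₂`, `o₃`, `o∞` the numbers of orbits of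
`S`, `S * T`, `T` on `Q = SL(2,ℤ) ⧸ Γ₀(N)`, one has `genusFormula N = 1 + (μ - o₂ - o₃ - o∞) / 2`,
provided `o∞ = cuspCount N`. -/
theorem genusFormula_eq_of_card_orbits_T (N : ℕ) [NeZero N]
    (hT : Nat.card (orbitRel.Quotient (zpowers ModularGroup.T) (SL(2, ℤ) ⧸ Gamma0 N))
      = ModularCurve.cuspCount N) :
    ModularCurve.genusFormula N
      = 1 + ((Nat.card (SL(2, ℤ) ⧸ Gamma0 N) : ℚ)
          - (Nat.card (orbitRel.Quotient (zpowers ModularGroup.S) (SL(2, ℤ) ⧸ Gamma0 N)) : ℚ)
          - (Nat.card (orbitRel.Quotient (zpowers (ModularGroup.S * ModularGroup.T))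
              (SL(2, ℤ) ⧸ Gamma0 N)) : ℚ)
          - (Nat.card (orbitRel.Quotient (zpowers ModularGroup.T)
              (SL(2, ℤ) ⧸ Gamma0 N)) : ℚ)) / 2 := by
  have h2 := two_mul_card_orbits_S N
  have h3 := three_mul_card_orbits_ST N
  have h2' := congrArg (Nat.cast : ℕ → ℚ) h2
  have h3' := congrArg (Nat.cast : ℕ → ℚ) h3
  push_cast at h2' h3'
  rw [hT, card_quotient_Gamma0, ModularCurve.genusFormula]
  linear_combination (1 / 4 : ℚ) * h2' + (1 / 6 : ℚ) * h3'

/-- Orbit-count form used by dimension bounds: `μ + 2 - o₂ - o₃ - o∞ = 2 * genusFormula N`. -/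
theorem two_mul_genusFormula_of_card_orbits_T (N : ℕ) [NeZero N]
    (hT : Nat.card (orbitRel.Quotient (zpowers ModularGroup.T) (SL(2, ℤ) ⧸ Gamma0 N))
      = ModularCurve.cuspCount N) :
    2 * ModularCurve.genusFormula N
      + (Nat.card (orbitRel.Quotient (zpowers ModularGroup.S) (SL(2, ℤ) ⧸ Gamma0 N)) : ℚ)
      + (Nat.card (orbitRel.Quotient (zpowers (ModularGroup.S * ModularGroup.T))
          (SL(2, ℤ) ⧸ Gamma0 N)) : ℚ)
      + (Nat.card (orbitRel.Quotient (zpowers ModularGroup.T) (SL(2, ℤ) ⧸ Gamma0 N)) : ℚ)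
      = (Nat.card (SL(2, ℤ) ⧸ Gamma0 N) : ℚ) + 2 := by
  rw [genusFormula_eq_of_card_orbits_T N hT]
  ring

end Fermat.Agent.S20.Comb

end
-- ===== PACK-END S20/Comb/OrbitCounts.lean

-- ===== PACK-BEGIN S18/H107/Base.lean
section






/-!
# helper107 — S18 / M3-T : `BaseModel107` = `GoodModel` without the branch-set fields

`BaseModel107 Lc Ec Fc R V w x` consists of all fields of the frozen `Alg.GoodModel` (v4) except
`S_mem`, `S_distinct`, `S_unit`, `unramified`.  For `x = j` it holds for every `ℓ ∤ M`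
(including `ℓ = 2, 3`, where `GoodModel … j {0, 1728}` is FALSE because `0 ≡ 1728`).

Generic transfer lemmas `j ↦ t` for the easy fields: `transcendental`, `finite`, `separable`,
`t ∈ V` (integral closedness of `V` in `Fc`).
-/

set_option autoImplicit false

namespace Fermat.Agent.S18.H107

open Polynomial Fermat.Agent.S18.Alg

variable {Ω : Type*} [Field Ω]

/-- All fields of `Alg.GoodModel` that do not mention the branch set `S`. -/
structure BaseModel107 (Lc Ec Fc : Subfield Ω) (R V : Subring Ω) (w x : Ω) : Prop where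
  charZero : CharZero Ω
  R_le : (R : Set Ω) ⊆ Ec
  R_total : ∀ e ∈ Ec, e ∈ R ∨ e⁻¹ ∈ R
  w_mem : w ∈ R
  w_ne_zero : w ≠ 0
  w_inv_not_mem : w⁻¹ ∉ R
  w_gen : ∀ r ∈ R, r⁻¹ ∉ R → r * w⁻¹ ∈ R
  w_discrete : ∀ r ∈ R, r ≠ 0 → ∃ n : ℕ, r * (w⁻¹) ^ n ∈ R ∧ (r * (w⁻¹) ^ n)⁻¹ ∈ R
  residue_perfect : ∃ p : ℕ, p.Prime ∧ (p : Ω) * w⁻¹ ∈ R ∧
    ∀ r ∈ R, ∃ s ∈ R, (r - s ^ p) * w⁻¹ ∈ R
  E_le_L : Ec ≤ Lc
  E_le_F : Ec ≤ Fc
  L_algebraic : ∀ a ∈ Lc, IsAlgebraic Ec a
  L_algClosed : IsAlgClosed Lc
  E_closed_in_F : ∀ f ∈ Fc, IsAlgebraic Ec f → f ∈ Ec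
  compositum : Subfield.closure ((Fc : Set Ω) ∪ Lc) = ⊤
  x_mem : x ∈ Fc
  x_transcendental : Transcendental Lc x
  finite : ∃ s : Finset Ω, (s : Set Ω) ⊆ Fc ∧
    ∀ f ∈ Fc, f ∈ Submodule.span (ratField Ec x) (s : Set Ω)
  V_le : (V : Set Ω) ⊆ Fc
  V_total : ∀ f ∈ Fc, f ∈ V ∨ f⁻¹ ∈ V
  R_le_V : R ≤ V
  w_inv_not_mem_V : w⁻¹ ∉ V
  V_gen : ∀ f ∈ V, f⁻¹ ∉ V → f * w⁻¹ ∈ V
  x_mem_V : x ∈ V
  gauss : ∀ P : Polynomial Ω, (∀ i, P.coeff i ∈ R) → (∃ i, P.coeff i ≠ 0 ∧ (P.coeff i)⁻¹ ∈ R) →
    (P.eval x)⁻¹ ∈ V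
  qep_fin : ∀ b ∈ chart Fc R x, b * w⁻¹ ∈ V → b * w⁻¹ ∈ chart Fc R x
  qep_inf : ∀ b ∈ chart Fc R x⁻¹, b * w⁻¹ ∈ V → b * w⁻¹ ∈ chart Fc R x⁻¹
  separable : ∀ f ∈ V, ∃ P : Polynomial Ω, (∀ i, P.coeff i ∈ polyRing R x) ∧
    P.eval f * w⁻¹ ∈ V ∧ (Polynomial.derivative P).eval f ≠ 0 ∧
    ((Polynomial.derivative P).eval f)⁻¹ ∈ V

theorem baseModel_of_goodModel107 {Lc Ec Fc : Subfield Ω} {R V : Subring Ω} {w x : Ω}
    {S : Finset Ω} (h : GoodModel Lc Ec Fc R V w x S) : BaseModel107 Lc Ec Fc R V w x where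
  charZero := h.charZero
  R_le := h.R_le
  R_total := h.R_total
  w_mem := h.w_mem
  w_ne_zero := h.w_ne_zero
  w_inv_not_mem := h.w_inv_not_mem
  w_gen := h.w_gen
  w_discrete := h.w_discrete
  residue_perfect := h.residue_perfect
  E_le_L := h.E_le_L
  E_le_F := h.E_le_F
  L_algebraic := h.L_algebraic
  L_algClosed := h.L_algClosed
  E_closed_in_F := h.E_closed_in_F
  compositum := h.compositum
  x_mem := h.x_mem
  x_transcendental := h.x_transcendental
  finite := h.finite
  V_le := h.V_le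
  V_total := h.V_total
  R_le_V := h.R_le_V
  w_inv_not_mem_V := h.w_inv_not_mem_V
  V_gen := h.V_gen
  x_mem_V := h.x_mem_V
  gauss := h.gauss
  qep_fin := h.qep_fin
  qep_inf := h.qep_inf
  separable := h.separable

theorem BaseModel107.toGoodModel {Lc Ec Fc : Subfield Ω} {R V : Subring Ω} {w x : Ω}
    (h : BaseModel107 Lc Ec Fc R V w x) (S : Finset Ω) (S_mem : ∀ s ∈ S, s ∈ R)
    (S_distinct : ∀ s ∈ S, ∀ t ∈ S, s ≠ t → (s - t)⁻¹ ∈ R)
    (S_unit : ∀ s ∈ S, s ≠ 0 → s⁻¹ ∈ R)
    (unramified : ∀ O : ValuationSubring Ω, (∀ a ∈ Lc, a ∈ O) → ∀ c ∈ Lc, c ∉ S →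
      x - c ∈ O → (x - c)⁻¹ ∉ O → ∀ t ∈ O, t⁻¹ ∉ O → t * (x - c)⁻¹ ∈ O) :
    GoodModel Lc Ec Fc R V w x S where
  charZero := h.charZero
  R_le := h.R_le
  R_total := h.R_total
  w_mem := h.w_mem
  w_ne_zero := h.w_ne_zero
  w_inv_not_mem := h.w_inv_not_mem
  w_gen := h.w_gen
  w_discrete := h.w_discrete
  residue_perfect := h.residue_perfect
  E_le_L := h.E_le_L
  E_le_F := h.E_le_F
  L_algebraic := h.L_algebraic
  L_algClosed := h.L_algClosed
  E_closed_in_F := h.E_closed_in_F
  compositum := h.compositum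
  x_mem := h.x_mem
  x_transcendental := h.x_transcendental
  finite := h.finite
  V_le := h.V_le
  V_total := h.V_total
  R_le_V := h.R_le_V
  w_inv_not_mem_V := h.w_inv_not_mem_V
  V_gen := h.V_gen
  x_mem_V := h.x_mem_V
  gauss := h.gauss
  qep_fin := h.qep_fin
  qep_inf := h.qep_inf
  separable := h.separable
  S_mem := S_mem
  S_distinct := S_distinct
  S_unit := S_unit
  unramified := unramified

/-- A subring `V` that is "total at `b`" contains `b` as soon as `b` is integral over a subring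
of `V` (valuation rings are integrally closed). -/
theorem mem_of_isIntegral_of_total107 (V T : Subring Ω) (hT : T ≤ V) {b : Ω}
    (hb : b ∈ V ∨ b⁻¹ ∈ V) (hint : IsIntegral T b) : b ∈ V := by
  rcases hb with h | h
  · exact h
  obtain ⟨P, hP, hc, hPb⟩ := (isIntegral_iff_exists_poly107 T b).1 hint
  rcases eq_or_ne b 0 with rfl | hb0
  · exact V.zero_mem
  have hn : P.natDegree ≠ 0 := by
    intro h0
    have h1 : P = 1 := by
      have := Polynomial.eq_C_of_natDegree_eq_zero h0
      rw [this, ← h0]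
      have hl : P.coeff P.natDegree = 1 := hP
      rw [hl, map_one]
    rw [h1, eval_one] at hPb
    exact one_ne_zero hPb
  obtain ⟨n, hn'⟩ := Nat.exists_eq_succ_of_ne_zero hn
  rw [eval_eq_sum_range, hn', Finset.sum_range_succ] at hPb
  have hlead : P.coeff (n + 1) = 1 := by
    have : P.coeff P.natDegree = 1 := hP
    rwa [hn'] at this
  rw [hlead, one_mul] at hPb
  -- `b = - ∑ i < n+1, a_i * (b⁻¹) ^ (n - i)`
  have key : b = -∑ i ∈ Finset.range (n + 1), P.coeff i * (b⁻¹) ^ (n - i) := by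
    have h1 : b ^ (n + 1) = -∑ i ∈ Finset.range (n + 1), P.coeff i * b ^ i := by
      linear_combination hPb
    calc b = b ^ (n + 1) * (b⁻¹) ^ n := by
          rw [pow_succ, inv_pow]
          field_simp
      _ = (-∑ i ∈ Finset.range (n + 1), P.coeff i * b ^ i) * (b⁻¹) ^ n := by rw [h1]
      _ = -∑ i ∈ Finset.range (n + 1), P.coeff i * (b⁻¹) ^ (n - i) := by
          rw [neg_mul, Finset.sum_mul]
          congr 1
          refine Finset.sum_congr rfl fun i hi => ?_
          have hi' : i ≤ n := Nat.lt_succ_iff.1 (Finset.mem_range.1 hi)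
          have e : (b⁻¹) ^ n = (b⁻¹) ^ i * (b⁻¹) ^ (n - i) := by
            rw [← pow_add, Nat.add_sub_cancel' hi']
          rw [e, mul_assoc, ← mul_assoc (b ^ i), inv_pow b i,
            mul_inv_cancel₀ (pow_ne_zero _ hb0), one_mul]
  rw [key]
  refine V.neg_mem (V.sum_mem fun i _ => V.mul_mem (hT (hc i)) (V.pow_mem h _))

theorem ratField_le107 {Ec : Subfield Ω} {x y : Ω} (h : x ∈ ratField Ec y) :
    ratField Ec x ≤ ratField Ec y := by
  refine Subfield.closure_le.2 ?_
  rintro c (hc | hc)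
  · exact Subfield.subset_closure (Or.inl hc)
  · rw [Set.mem_singleton_iff] at hc
    rw [hc]
    exact h

theorem self_mem_ratField107 (Ec : Subfield Ω) (x : Ω) : x ∈ ratField Ec x :=
  Subfield.subset_closure (Or.inr rfl)

theorem natCast_mem_ratField107 (Ec : Subfield Ω) (x : Ω) (n : ℕ) [n.AtLeastTwo] :
    (OfNat.ofNat n : Ω) ∈ ratField Ec x := ofNat_mem _ n

/-- Spans over a bigger subfield are bigger. -/
theorem span_mono_subfield107 {K₁ K₂ : Subfield Ω} (h : K₁ ≤ K₂) (s : Set Ω) {f : Ω}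
    (hf : f ∈ Submodule.span K₁ s) : f ∈ Submodule.span K₂ s := by
  induction hf using Submodule.span_induction with
  | mem x hx => exact Submodule.subset_span hx
  | zero => exact Submodule.zero_mem _
  | add x y _ _ hx hy => exact Submodule.add_mem _ hx hy
  | smul a x _ hx =>
    have : a • x = (⟨(a : Ω), h a.2⟩ : K₂) • x := rfl
    rw [this]
    exact Submodule.smul_mem _ _ hx

theorem finite_transfer107 {Ec Fc : Subfield Ω} {j t : Ω} (hj : j ∈ ratField Ec t)
    (h : ∃ s : Finset Ω, (s : Set Ω) ⊆ Fc ∧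
      ∀ f ∈ Fc, f ∈ Submodule.span (ratField Ec j) (s : Set Ω)) :
    ∃ s : Finset Ω, (s : Set Ω) ⊆ Fc ∧
      ∀ f ∈ Fc, f ∈ Submodule.span (ratField Ec t) (s : Set Ω) := by
  obtain ⟨s, hs, hspan⟩ := h
  exact ⟨s, hs, fun f hf => span_mono_subfield107 (ratField_le107 hj) _ (hspan f hf)⟩

/-- `separable` passes from `j` to `t` when `j * e ∈ R[t]` for some `e ∈ R[t]` that is a unit
of `V`. -/
theorem separable_transfer107 {R V : Subring Ω} {w j t e : Ω} (he : e ∈ polyRing R t)
    (hje : j * e ∈ polyRing R t) (heV : e ∈ V) (heV' : e⁻¹ ∈ V) (he0 : e ≠ 0)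
    (h : ∀ f ∈ V, ∃ P : Polynomial Ω, (∀ i, P.coeff i ∈ polyRing R j) ∧
      P.eval f * w⁻¹ ∈ V ∧ (Polynomial.derivative P).eval f ≠ 0 ∧
      ((Polynomial.derivative P).eval f)⁻¹ ∈ V) :
    ∀ f ∈ V, ∃ P : Polynomial Ω, (∀ i, P.coeff i ∈ polyRing R t) ∧
      P.eval f * w⁻¹ ∈ V ∧ (Polynomial.derivative P).eval f ≠ 0 ∧
      ((Polynomial.derivative P).eval f)⁻¹ ∈ V := by
  intro f hf
  obtain ⟨P, hc, hPf, hd0, hdV⟩ := h f hf
  have hex : ∀ i, ∃ d : ℕ, ∀ d', d ≤ d' → P.coeff i * e ^ d' ∈ polyRing R t := fun i =>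
    exists_pow_mul_mem107 (le_polyRing107 R t) he hje (hc i)
  choose d hd using hex
  set D := (Finset.range (P.natDegree + 1)).sup d with hD
  have hDi : ∀ i, P.coeff i * e ^ D ∈ polyRing R t := by
    intro i
    by_cases hi : i ∈ Finset.range (P.natDegree + 1)
    · exact hd i D (Finset.le_sup hi)
    · rw [Finset.mem_range, not_lt] at hi
      rw [coeff_eq_zero_of_natDegree_lt (by omega), zero_mul]
      exact Subring.zero_mem _
  refine ⟨C (e ^ D) * P, fun i => ?_, ?_, ?_, ?_⟩
  · rw [coeff_C_mul, mul_comm]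
    exact hDi i
  · rw [eval_mul, eval_C, mul_assoc]
    exact V.mul_mem (V.pow_mem heV D) hPf
  · rw [derivative_C_mul, eval_mul, eval_C]
    exact mul_ne_zero (pow_ne_zero _ he0) hd0
  · rw [derivative_C_mul, eval_mul, eval_C, mul_inv, ← inv_pow]
    exact V.mul_mem (V.pow_mem heV' D) hdV

end Fermat.Agent.S18.H107

end
-- ===== PACK-END S18/H107/Base.lean

-- ===== PACK-BEGIN S18/H107/T3Qep.lean
section






/-!
# helper107 — S18 / M3-T : QEP for the Hauptmodul `t = t₃` of `X₀(3)` (case `ℓ = 2`)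

Input: the relation `j * t ^ 3 = (t + 27) * (t + 243) ^ 3`, `3⁻¹ ∈ R`, QEP for the charts of `j`
and `j⁻¹`.  Output: QEP for the charts of `t` and `t⁻¹`.
-/

set_option autoImplicit false

namespace Fermat.Agent.S18.H107

open Polynomial Fermat.Agent.S18.Alg

variable {Ω : Type*} [Field Ω]

/-- The Hauptmodul relation for `X₀(3)` together with the needed side conditions. -/
structure HauptT3107 (Fc : Subfield Ω) (R V : Subring Ω) (j t : Ω) : Prop where
  rel : j * t ^ 3 = (t + 27) * (t + 243) ^ 3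
  three_inv : (3 : Ω)⁻¹ ∈ R
  three_ne : (3 : Ω) ≠ 0
  j_ne : j ≠ 0
  t_mem_Fc : t ∈ Fc
  t_mem_V : t ∈ V
  t27_inv_mem_V : (t + 27)⁻¹ ∈ V

namespace HauptT3107

variable {Fc : Subfield Ω} {R V : Subring Ω} {j t : Ω}

theorem c27_ne (h : HauptT3107 Fc R V j t) : (27 : Ω) ≠ 0 := by
  have : (27 : Ω) = 3 ^ 3 := by norm_num
  rw [this]
  exact pow_ne_zero _ h.three_ne

theorem c243_ne (h : HauptT3107 Fc R V j t) : (243 : Ω) ≠ 0 := by
  have : (243 : Ω) = 3 ^ 5 := by norm_num
  rw [this]
  exact pow_ne_zero _ h.three_ne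

theorem c6561_ne (h : HauptT3107 Fc R V j t) : (6561 : Ω) ≠ 0 := by
  have : (6561 : Ω) = 3 ^ 8 := by norm_num
  rw [this]
  exact pow_ne_zero _ h.three_ne

theorem cBig_ne (h : HauptT3107 Fc R V j t) : (387420489 : Ω) ≠ 0 := by
  have : (387420489 : Ω) = 3 ^ 18 := by norm_num
  rw [this]
  exact pow_ne_zero _ h.three_ne

theorem inv27_mem (h : HauptT3107 Fc R V j t) : (27 : Ω)⁻¹ ∈ R := by
  have := R.pow_mem h.three_inv 3
  have e : ((3 : Ω)⁻¹) ^ 3 = (27 : Ω)⁻¹ := by norm_num
  rwa [e] at this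

theorem inv6561_mem (h : HauptT3107 Fc R V j t) : (6561 : Ω)⁻¹ ∈ R := by
  have := R.pow_mem h.three_inv 8
  have e : ((3 : Ω)⁻¹) ^ 8 = (6561 : Ω)⁻¹ := by norm_num
  rwa [e] at this

theorem invBig_mem (h : HauptT3107 Fc R V j t) : (387420489 : Ω)⁻¹ ∈ R := by
  have := R.pow_mem h.three_inv 18
  have e : ((3 : Ω)⁻¹) ^ 18 = (387420489 : Ω)⁻¹ := by norm_num
  rwa [e] at this

theorem t_ne (h : HauptT3107 Fc R V j t) : t ≠ 0 := by
  intro ht
  have := h.rel
  rw [ht] at this
  have h0 : (27 : Ω) * 243 ^ 3 = 0 := by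
    have e : ((0 : Ω) + 27) * (0 + 243) ^ 3 = 27 * 243 ^ 3 := by ring
    rw [← e, ← this]
    ring
  rcases mul_eq_zero.1 h0 with h1 | h1
  · exact h.c27_ne h1
  · exact h.c243_ne (pow_eq_zero_iff (by norm_num) |>.1 h1)

theorem t27_ne (h : HauptT3107 Fc R V j t) : t + 27 ≠ 0 := by
  intro ht
  have := h.rel
  rw [ht] at this
  have h0 : j * t ^ 3 = 0 := by rw [this]; ring
  rcases mul_eq_zero.1 h0 with hj | ht0
  · exact h.j_ne hj
  · exact h.t_ne (pow_eq_zero_iff (by norm_num) |>.1 ht0)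

theorem t243_ne (h : HauptT3107 Fc R V j t) : t + 243 ≠ 0 := by
  intro ht
  have := h.rel
  rw [ht] at this
  have h0 : j * t ^ 3 = 0 := by rw [this]; ring
  rcases mul_eq_zero.1 h0 with hj | ht0
  · exact h.j_ne hj
  · exact h.t_ne (pow_eq_zero_iff (by norm_num) |>.1 ht0)

/-- `t` is integral over `R[j]`. -/
theorem t_int (h : HauptT3107 Fc R V j t) : t ∈ intCl107 (polyRing R j) := by
  refine mem_intCl_of_quartic107 _ t (756 - j) 196830 19131876 387420489 ?_ (ofNat_mem _ _)
    (ofNat_mem _ _) (ofNat_mem _ _) ?_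
  · exact Subring.sub_mem _ (ofNat_mem _ _) (self_mem_polyRing107 R j)
  · linear_combination -h.rel

/-- `h₁ = t / (t + 27)` is integral over `R[j⁻¹]`. -/
theorem h_int (h : HauptT3107 Fc R V j t) : t * (t + 27)⁻¹ ∈ intCl107 (polyRing R j⁻¹) := by
  have hj' := self_mem_polyRing107 R j⁻¹
  refine mem_intCl_of_quartic107 _ _ (-1 - 13824 * j⁻¹) (46656 * j⁻¹) (-(52488 * j⁻¹))
    (19683 * j⁻¹) ?_ ?_ ?_ ?_ ?_
  · exact Subring.sub_mem _ (Subring.neg_mem _ (Subring.one_mem _))
      (Subring.mul_mem _ (ofNat_mem _ _) hj')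
  · exact Subring.mul_mem _ (ofNat_mem _ _) hj'
  · exact Subring.neg_mem _ (Subring.mul_mem _ (ofNat_mem _ _) hj')
  · exact Subring.mul_mem _ (ofNat_mem _ _) hj'
  · have hj := h.j_ne
    have ht := h.t27_ne
    field_simp
    linear_combination (-27 : Ω) * h.rel

/-- `t⁻¹` is integral over `R[j]` (uses `3⁻¹ ∈ R`). -/
theorem tinv_int (h : HauptT3107 Fc R V j t) : t⁻¹ ∈ intCl107 (polyRing R j) := by
  have hB := le_polyRing107 R j h.invBig_mem
  refine mem_intCl_of_quartic107 _ _ (19131876 * (387420489 : Ω)⁻¹) (196830 * (387420489 : Ω)⁻¹)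
    ((756 - j) * (387420489 : Ω)⁻¹) ((387420489 : Ω)⁻¹) ?_ ?_ ?_ hB ?_
  · exact Subring.mul_mem _ (ofNat_mem _ _) hB
  · exact Subring.mul_mem _ (ofNat_mem _ _) hB
  · exact Subring.mul_mem _ (Subring.sub_mem _ (ofNat_mem _ _) (self_mem_polyRing107 R j)) hB
  · have ht := h.t_ne
    have hc := h.cBig_ne
    field_simp
    linear_combination -h.rel

theorem open1_fin (h : HauptT3107 Fc R V j t) : OpenData107 Fc R V t j t 1 where
  g_mem := self_mem_polyRing107 R t
  e_mem_Fc := Fc.one_mem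
  e_mem_V := V.one_mem
  e_int := Subring.one_mem _
  xe_int := by rw [mul_one]; exact h.t_int
  y_loc := ⟨3, by
    rw [h.rel]
    have ht := self_mem_polyRing107 R t
    exact le_intCl107 _ (Subring.mul_mem _ (Subring.add_mem _ ht (ofNat_mem _ _))
      (Subring.pow_mem _ (Subring.add_mem _ ht (ofNat_mem _ _)) 3))⟩
  e_inv := ⟨1, Subring.one_mem _, 0, by simp⟩

theorem open2_fin (h : HauptT3107 Fc R V j t) :
    OpenData107 Fc R V t j⁻¹ ((t + 27) * (t + 243)) (27 * (t + 27)⁻¹) where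
  g_mem := by
    have ht := self_mem_polyRing107 R t
    exact Subring.mul_mem _ (Subring.add_mem _ ht (ofNat_mem _ _))
      (Subring.add_mem _ ht (ofNat_mem _ _))
  e_mem_Fc := Fc.mul_mem (ofNat_mem _ _)
    (Fc.inv_mem (Fc.add_mem h.t_mem_Fc (ofNat_mem _ _)))
  e_mem_V := V.mul_mem (ofNat_mem _ _) h.t27_inv_mem_V
  e_int := by
    have e : 27 * (t + 27)⁻¹ = 1 - t * (t + 27)⁻¹ := by
      have ht := h.t27_ne
      field_simp
      ring
    rw [e]
    exact Subring.sub_mem _ (Subring.one_mem _) h.h_int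
  xe_int := by
    have e : t * (27 * (t + 27)⁻¹) = 27 * (t * (t + 27)⁻¹) := by ring
    rw [e]
    exact Subring.mul_mem _ (ofNat_mem _ _) h.h_int
  y_loc := ⟨3, by
    have e : j⁻¹ * ((t + 27) * (t + 243)) ^ 3 = t ^ 3 * (t + 27) ^ 2 := by
      have hj := h.j_ne
      field_simp
      linear_combination (-(t + 27) ^ 2) * h.rel
    rw [e]
    have ht := self_mem_polyRing107 R t
    exact le_intCl107 _ (Subring.mul_mem _ (Subring.pow_mem _ ht 3)
      (Subring.pow_mem _ (Subring.add_mem _ ht (ofNat_mem _ _)) 2))⟩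
  e_inv := ⟨(t + 27) * (27 : Ω)⁻¹,
    le_intCl107 _ (Subring.mul_mem _ (Subring.add_mem _ (self_mem_polyRing107 R t) (ofNat_mem _ _))
      (le_polyRing107 R t h.inv27_mem)), 0, by
    have ht := h.t27_ne
    have hc := h.c27_ne
    field_simp⟩

theorem open1_inf (h : HauptT3107 Fc R V j t) : OpenData107 Fc R V t⁻¹ j t⁻¹ 1 where
  g_mem := self_mem_polyRing107 R t⁻¹
  e_mem_Fc := Fc.one_mem
  e_mem_V := V.one_mem
  e_int := Subring.one_mem _
  xe_int := by rw [mul_one]; exact h.tinv_int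
  y_loc := ⟨1, by
    have e : j * t⁻¹ ^ 1 = (1 + 27 * t⁻¹) * (1 + 243 * t⁻¹) ^ 3 := by
      have ht := h.t_ne
      field_simp
      linear_combination h.rel
    rw [e]
    have hs := self_mem_polyRing107 R t⁻¹
    exact le_intCl107 _ (Subring.mul_mem _
      (Subring.add_mem _ (Subring.one_mem _) (Subring.mul_mem _ (ofNat_mem _ _) hs))
      (Subring.pow_mem _ (Subring.add_mem _ (Subring.one_mem _)
        (Subring.mul_mem _ (ofNat_mem _ _) hs)) 3))⟩
  e_inv := ⟨1, Subring.one_mem _, 0, by simp⟩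

theorem open2_inf (h : HauptT3107 Fc R V j t) :
    OpenData107 Fc R V t⁻¹ j⁻¹ ((1 + 27 * t⁻¹) * (1 + 243 * t⁻¹)) (t * (t + 27)⁻¹) where
  g_mem := by
    have hs := self_mem_polyRing107 R t⁻¹
    exact Subring.mul_mem _
      (Subring.add_mem _ (Subring.one_mem _) (Subring.mul_mem _ (ofNat_mem _ _) hs))
      (Subring.add_mem _ (Subring.one_mem _) (Subring.mul_mem _ (ofNat_mem _ _) hs))
  e_mem_Fc := Fc.mul_mem h.t_mem_Fc (Fc.inv_mem (Fc.add_mem h.t_mem_Fc (ofNat_mem _ _)))
  e_mem_V := V.mul_mem h.t_mem_V h.t27_inv_mem_V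
  e_int := h.h_int
  xe_int := by
    have e : t⁻¹ * (t * (t + 27)⁻¹) = (1 - t * (t + 27)⁻¹) * (27 : Ω)⁻¹ := by
      have ht := h.t_ne
      have ht' := h.t27_ne
      have hc := h.c27_ne
      field_simp
      ring
    rw [e]
    exact Subring.mul_mem _ (Subring.sub_mem _ (Subring.one_mem _) h.h_int)
      (le_intCl107 _ (le_polyRing107 R j⁻¹ h.inv27_mem))
  y_loc := ⟨3, by
    have e : j⁻¹ * ((1 + 27 * t⁻¹) * (1 + 243 * t⁻¹)) ^ 3 = t⁻¹ * (1 + 27 * t⁻¹) ^ 2 := by
      have hj := h.j_ne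
      have ht := h.t_ne
      field_simp
      linear_combination (-(t + 27) ^ 2) * h.rel
    rw [e]
    have hs := self_mem_polyRing107 R t⁻¹
    exact le_intCl107 _ (Subring.mul_mem _ hs (Subring.pow_mem _
      (Subring.add_mem _ (Subring.one_mem _) (Subring.mul_mem _ (ofNat_mem _ _) hs)) 2))⟩
  e_inv := ⟨1 + 27 * t⁻¹, le_intCl107 _ (Subring.add_mem _ (Subring.one_mem _)
      (Subring.mul_mem _ (ofNat_mem _ _) (self_mem_polyRing107 R t⁻¹))), 0, by
    have ht := h.t_ne
    have ht' := h.t27_ne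
    field_simp⟩

/-- **QEP for the chart of `t₃`.** -/
theorem qep_fin (h : HauptT3107 Fc R V j t) {w : Ω} (hw : w ∈ Fc)
    (q₁ : Qep107 Fc R V w j) (q₂ : Qep107 Fc R V w j⁻¹) : Qep107 Fc R V w t := by
  have h6 := le_polyRing107 R t h.inv6561_mem
  refine qep_transfer107 (a := -((t + 270) * (6561 : Ω)⁻¹)) (b := (6561 : Ω)⁻¹) hw q₁ q₂
    h.open1_fin h.open2_fin
    (Subring.neg_mem _ (Subring.mul_mem _
      (Subring.add_mem _ (self_mem_polyRing107 R t) (ofNat_mem _ _)) h6)) h6 ?_
  have hc := h.c6561_ne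
  field_simp
  ring

/-- **QEP for the chart of `t₃⁻¹`.** -/
theorem qep_inf (h : HauptT3107 Fc R V j t) {w : Ω} (hw : w ∈ Fc)
    (q₁ : Qep107 Fc R V w j) (q₂ : Qep107 Fc R V w j⁻¹) : Qep107 Fc R V w t⁻¹ := by
  refine qep_transfer107 (a := -(270 + 6561 * t⁻¹)) (b := 1) hw q₁ q₂ h.open1_inf h.open2_inf
    (Subring.neg_mem _ (Subring.add_mem _ (ofNat_mem _ _)
      (Subring.mul_mem _ (ofNat_mem _ _) (self_mem_polyRing107 R t⁻¹)))) (Subring.one_mem _) ?_
  ring

end HauptT3107

end Fermat.Agent.S18.H107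

end
-- ===== PACK-END S18/H107/T3Qep.lean

-- ===== PACK-BEGIN S18/H754/HncTyped.lean
section


/-!
# S18 / ALG-FRONT / hNC adapter, typed form

The hypothesis `hNC` of `B12.B2RegularStatement`, from the `unramified` field of `Alg.GoodModel`:

    hNC_typed : ∀ π : R[X], Prime π → ¬ Associated π (C w) → (∀ c ∈ S, ¬ Associated π (X - C c)) →
        (Ideal.span {algebraMap R[X] B π}).IsRadical

for `R` a DVR of characteristic `0`, `B` a finite torsion-free integrally closed `R[X]`-algebra,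
domain, with `C w` prime in `B`, embedded in a field `Ω` with an algebraically closed subfield of
constants `Lc ⊇ R`, algebraic over `R`.
-/

set_option autoImplicit false

noncomputable section

namespace Fermat.Agent.S18.H754

open Polynomial

section Dvd

variable {A B : Type*} [CommRing A] [IsDomain A] [IsIntegrallyClosed A]
  [CommRing B] [IsDomain B] [Algebra A B] [Module.IsTorsionFree A B] [Algebra.IsIntegral A B]

/-- Divisibility in an integral torsion-free extension domain of an integrally closed domain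
descends. -/
theorem dvd_of_algebraMap_dvd {a q : A} (ha : a ≠ 0)
    (h : algebraMap A B a ∣ algebraMap A B q) : a ∣ q := by
  have hinj : Function.Injective (algebraMap A B) := FaithfulSMul.algebraMap_injective A B
  obtain ⟨b, hb⟩ := h
  have hbint : IsIntegral A b := Algebra.IsIntegral.isIntegral b
  set p : A[X] := C a * X - C q with hp
  have hpb : aeval b p = 0 := by
    rw [hp, map_sub, map_mul, aeval_C, aeval_C, aeval_X, hb, sub_self]
  have hdvd : minpoly A b ∣ p := minpoly.isIntegrallyClosed_dvd hbint hpb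
  have hp1 : p.coeff 1 = a := by
    rw [hp]
    simp
  have hp0 : p ≠ 0 := by
    intro h0
    rw [h0, coeff_zero] at hp1
    exact ha hp1.symm
  have hpdeg : p.natDegree ≤ 1 := by
    rw [hp]
    refine (natDegree_sub_le _ _).trans (max_le ?_ ?_)
    · exact (natDegree_C_mul_X a ha).le
    · rw [natDegree_C]; exact Nat.zero_le _
  have hmdeg : (minpoly A b).natDegree ≤ 1 := (natDegree_le_of_dvd hdvd hp0).trans hpdeg
  have hmpos : 0 < (minpoly A b).natDegree := minpoly.natDegree_pos hbint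
  have hm1 : (minpoly A b).natDegree = 1 := le_antisymm hmdeg hmpos
  have hmonic : (minpoly A b).Monic := minpoly.monic hbint
  have hmeq := eq_X_add_C_of_natDegree_le_one hmdeg
  have hlead : (minpoly A b).coeff 1 = 1 := by
    have := hmonic.coeff_natDegree
    rwa [hm1] at this
  rw [hlead, C_1, one_mul] at hmeq
  have hmb : aeval b (minpoly A b) = 0 := minpoly.aeval A b
  rw [hmeq, map_add, aeval_X, aeval_C] at hmb
  have hb' : b = algebraMap A B (-(minpoly A b).coeff 0) := by
    rw [map_neg]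
    exact eq_neg_of_add_eq_zero_left hmb
  refine ⟨-(minpoly A b).coeff 0, ?_⟩
  apply hinj
  rw [map_mul, ← hb', hb]

end Dvd

section Constants

variable {R : Type*} [CommRing R] [IsDomain R] [IsDiscreteValuationRing R]
  {Ω : Type*} [Field Ω]

/-- An element algebraic over a DVR `R` becomes integral after multiplication by a power of the
uniformiser. -/
theorem exists_pow_mul_isIntegralElem (ι : R →+* Ω) (w : R) (hw : Irreducible w)
    (a : Ω) (ha : ∃ p : R[X], p ≠ 0 ∧ eval₂ ι a p = 0) :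
    ∃ n : ℕ, ι.IsIntegralElem (ι w ^ n * a) := by
  letI : Algebra R Ω := ι.toAlgebra
  have halg : IsAlgebraic R a := by
    obtain ⟨p, hp0, hp⟩ := ha
    exact ⟨p, hp0, by rw [aeval_def]; exact hp⟩
  obtain ⟨y, hy0, hy⟩ := halg.exists_integral_multiple
  obtain ⟨n, u, rfl⟩ := IsDiscreteValuationRing.eq_unit_mul_pow_irreducible hy0 hw
  refine ⟨n, ?_⟩
  have h1 : IsIntegral R ((((u⁻¹ : Rˣ) : R)) • ((u : R) * w ^ n) • a) :=
    IsIntegral.smul _ hy
  have h2 : (((u⁻¹ : Rˣ) : R)) • ((u : R) * w ^ n) • a = ι w ^ n * a := by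
    rw [smul_smul, ← mul_assoc, Units.inv_mul, one_mul, Algebra.smul_def, map_pow]
    rfl
  rw [h2] at h1
  exact h1

variable [CharZero R]

/-- Factorisation over the constants of a nonconstant irreducible polynomial over `R`: pairwise
distinct roots. -/
theorem exists_factorization_of_irreducible (ι : R →+* Ω) (hι : Function.Injective ι)
    (Lc : Subfield Ω) (hLcl : IsAlgClosed Lc) (hRL : ∀ r, ι r ∈ Lc)
    (π : R[X]) (hπ : Irreducible π) (hdeg : π.natDegree ≠ 0) :
    ∃ (roots : Finset Ω) (lc : Ω), lc ∈ Lc ∧ lc ≠ 0 ∧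
      (∀ c ∈ roots, c ∈ Lc ∧ eval₂ ι c π = 0) ∧
      ∀ x : Ω, eval₂ ι x π = lc * ∏ c ∈ roots, (x - c) := by
  classical
  haveI := hLcl
  let K := FractionRing R
  have hprim : π.IsPrimitive := hπ.isPrimitive hdeg
  have hK : Irreducible (π.map (algebraMap R K)) :=
    (hprim.irreducible_iff_irreducible_map_fraction_map).1 hπ
  haveI : CharZero K := charZero_of_injective_algebraMap (IsFractionRing.injective R K)
  have hsepK : (π.map (algebraMap R K)).Separable := hK.separable
  let ιL : R →+* Lc := ι.codRestrict Lc hRL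
  have hιL : Function.Injective ιL := by
    intro a b hab
    apply hι
    exact congrArg Subtype.val hab
  let φ : K →+* Lc := IsFractionRing.lift hιL
  have hφ : φ.comp (algebraMap R K) = ιL := by
    ext r
    exact congrArg Subtype.val (IsFractionRing.lift_algebraMap hιL r)
  set Q : Lc[X] := π.map ιL with hQ
  have hQ' : Q = (π.map (algebraMap R K)).map φ := by
    rw [Polynomial.map_map, hφ]
  have hsepQ : Q.Separable := by
    rw [hQ']
    exact hsepK.map
  have hsplit : Q.Splits := IsAlgClosed.splits Q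
  have hQfac := hsplit.eq_prod_roots
  have hnodup : Q.roots.Nodup := nodup_roots hsepQ
  have hQ0 : Q ≠ 0 := by
    rw [hQ]
    exact (Polynomial.map_ne_zero_iff hιL).2 hπ.ne_zero
  have hsub : (Lc.subtype).comp ιL = ι := by
    ext r
    rfl
  have heval : ∀ x : Ω, eval₂ ι x π = eval₂ Lc.subtype x Q := by
    intro x
    rw [hQ, eval₂_map, hsub]
  refine ⟨Q.roots.toFinset.map ⟨Subtype.val, Subtype.val_injective⟩, (Q.leadingCoeff : Ω),
    Q.leadingCoeff.2, ?_, ?_, ?_⟩
  · intro h0
    have : Q.leadingCoeff = 0 := Subtype.ext h0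
    exact hQ0 (leadingCoeff_eq_zero.1 this)
  · intro c hc
    rw [Finset.mem_map] at hc
    obtain ⟨a, ha, rfl⟩ := hc
    rw [Multiset.mem_toFinset] at ha
    refine ⟨a.2, ?_⟩
    have hroot : Q.eval a = 0 := (mem_roots hQ0).1 ha
    rw [heval]
    change eval₂ Lc.subtype (Lc.subtype a) Q = 0
    rw [eval₂_at_apply, hroot, map_zero]
  · intro x
    rw [heval]
    conv_lhs => rw [hQfac]
    rw [eval₂_mul, eval₂_C, eval₂_multiset_prod, Multiset.map_map, Finset.prod_map,
      Finset.prod_eq_multiset_prod, Multiset.toFinset_val, Multiset.dedup_eq_self.2 hnodup]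
    congr 2
    refine Multiset.map_congr rfl fun a _ => ?_
    simp [eval₂_sub, eval₂_X, eval₂_C]

end Constants

section Typed

variable (R : Type*) [CommRing R] [IsDomain R] [IsDiscreteValuationRing R] [CharZero R]
  (B : Type*) [CommRing B] [IsDomain B] [IsIntegrallyClosed B] [Algebra R[X] B]
  [Module.Finite R[X] B] [Module.IsTorsionFree R[X] B]
  {Ω : Type*} [Field Ω] [Algebra B Ω] [FaithfulSMul B Ω]

/-- **hNC, typed form** = the hypothesis `hNC` of `B12.B2RegularStatement`, from the `unramified`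
field of `Alg.GoodModel` (with `x = algebraMap B Ω (algebraMap R[X] B X)`). -/
theorem hNC_typed (w : R) (hw : Irreducible w)
    (hwB : Prime (algebraMap R[X] B (C w)))
    (Lc : Subfield Ω) (hLcl : IsAlgClosed Lc)
    (hRL : ∀ r : R, algebraMap B Ω (algebraMap R[X] B (C r)) ∈ Lc)
    (hLalg : ∀ a ∈ Lc, ∃ p : R[X], p ≠ 0 ∧
      eval₂ ((algebraMap B Ω).comp ((algebraMap R[X] B).comp C)) a p = 0)
    (S : Finset R) (SΩ : Finset Ω)
    (hS : ∀ c ∈ SΩ, ∃ s ∈ S, algebraMap B Ω (algebraMap R[X] B (C s)) = c)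
    (hunr : ∀ O : ValuationSubring Ω, (∀ a ∈ Lc, a ∈ O) → ∀ c ∈ Lc, c ∉ SΩ →
        algebraMap B Ω (algebraMap R[X] B X) - c ∈ O →
        (algebraMap B Ω (algebraMap R[X] B X) - c)⁻¹ ∉ O →
        ∀ t ∈ O, t⁻¹ ∉ O → t * (algebraMap B Ω (algebraMap R[X] B X) - c)⁻¹ ∈ O) :
    ∀ π : R[X], Prime π → ¬ Associated π (C w) → (∀ c ∈ S, ¬ Associated π (X - C c)) →
        (Ideal.span {algebraMap R[X] B π}).IsRadical := by
  classical
  intro π hπ hπw hπS
  haveI : IsNoetherianRing B := IsNoetherianRing.of_finite R[X] B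
  haveI : Algebra.IsIntegral R[X] B := Algebra.IsIntegral.of_finite R[X] B
  have hinjRB : Function.Injective (algebraMap R[X] B) :=
    FaithfulSMul.algebraMap_injective R[X] B
  have hinjBΩ : Function.Injective (algebraMap B Ω) := FaithfulSMul.algebraMap_injective B Ω
  set ι : R →+* Ω := (algebraMap B Ω).comp ((algebraMap R[X] B).comp C) with hιdef
  have hι : Function.Injective ι := by
    intro a b hab
    exact C_injective (hinjRB (hinjBΩ hab))
  have hwprime : Prime w := hw.prime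
  have hCw : Irreducible (C w : R[X]) := (prime_C_iff.2 hwprime).irreducible
  -- `π` is not constant
  have hdeg : π.natDegree ≠ 0 := by
    intro h0
    obtain ⟨r, hr⟩ : ∃ r : R, π = C r := ⟨π.coeff 0, eq_C_of_natDegree_eq_zero h0⟩
    have hrp : Prime r := by
      rw [hr] at hπ
      exact prime_C_iff.1 hπ
    have hass : Associated r w :=
      IsDiscreteValuationRing.associated_of_irreducible R hrp.irreducible hw
    apply hπw
    rw [hr]
    obtain ⟨u, hu⟩ := hass
    refine ⟨Units.map (C : R →+* R[X]).toMonoidHom u, ?_⟩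
    simp only [Units.coe_map, RingHom.toMonoidHom_eq_coe, MonoidHom.coe_coe]
    rw [← map_mul, hu]
  have hπ'0 : algebraMap R[X] B π ≠ 0 := by
    intro h0
    exact hπ.ne_zero (hinjRB (by rw [h0, map_zero]))
  -- `w` lies in no height-one prime containing `π`
  have hwP : ∀ 𝔓 : Ideal B, 𝔓.IsPrime → 𝔓.height = 1 → algebraMap R[X] B π ∈ 𝔓 →
      algebraMap R[X] B (C w) ∉ 𝔓 := by
    intro 𝔓 h𝔓 hht hπ𝔓 hw𝔓
    haveI := h𝔓
    haveI hwI : (Ideal.span {algebraMap R[X] B (C w)}).IsPrime :=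
      (Ideal.span_singleton_prime hwB.ne_zero).2 hwB
    have hle : Ideal.span {algebraMap R[X] B (C w)} ≤ 𝔓 :=
      (Ideal.span_singleton_le_iff_mem _).2 hw𝔓
    by_cases heq : Ideal.span {algebraMap R[X] B (C w)} = 𝔓
    · rw [← heq, Ideal.mem_span_singleton] at hπ𝔓
      have hCw0 : (C w : R[X]) ≠ 0 := hCw.ne_zero
      have hdvd : (C w : R[X]) ∣ π := dvd_of_algebraMap_dvd (B := B) hCw0 hπ𝔓
      exact hπw (hCw.associated_of_dvd hπ.irreducible hdvd).symm
    · have hlt : Ideal.span {algebraMap R[X] B (C w)} < 𝔓 := lt_of_le_of_ne hle heq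
      have hfin : (Ideal.span {algebraMap R[X] B (C w)}).FiniteHeight := by
        refine ⟨Or.inr ?_⟩
        intro htop
        have h2 := Ideal.height_mono hle
        rw [htop, hht, top_le_iff] at h2
        exact ENat.one_ne_top h2
      have h3 := Ideal.height_strict_mono_of_isPrime hlt
      rw [hht, ENat.lt_one_iff_eq_zero] at h3
      rw [Ideal.height_eq_zero_iff, IsDomain.minimalPrimes_eq_singleton_bot,
        Set.mem_singleton_iff, Ideal.span_singleton_eq_bot] at h3
      exact hwB.ne_zero h3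
  -- constants become integral after multiplication by a power of `w`
  have hLc' : ∀ a ∈ Lc, ∃ n : ℕ,
      IsIntegral B (algebraMap B Ω (algebraMap R[X] B (C w)) ^ n * a) := by
    intro a ha
    obtain ⟨n, P, hP, hPa⟩ := exists_pow_mul_isIntegralElem ι w hw a (hLalg a ha)
    refine ⟨n, P.map ((algebraMap R[X] B).comp C), hP.map _, ?_⟩
    rw [eval₂_map]
    exact hPa
  -- factorisation of `π` over the constants
  obtain ⟨roots, lc, hlc, hlc0, hroots, hfac⟩ :=
    exists_factorization_of_irreducible ι hι Lc hLcl hRL π hπ.irreducible hdeg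
  have hcomp : (algebraMap B Ω).comp (algebraMap R[X] B) =
      eval₂RingHom ι (algebraMap B Ω (algebraMap R[X] B X)) := by
    apply Polynomial.ringHom_ext
    · intro r
      simp [hιdef]
    · simp
  have hfac' : algebraMap B Ω (algebraMap R[X] B π) =
      lc * ∏ c ∈ roots, (algebraMap B Ω (algebraMap R[X] B X) - c) := by
    rw [← hfac]
    have := congrArg (fun f : R[X] →+* Ω => f π) hcomp
    simpa using this
  have hroots' : ∀ c ∈ roots, c ∈ Lc ∧ c ∉ SΩ := by
    intro c hc
    refine ⟨(hroots c hc).1, fun hcS => ?_⟩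
    obtain ⟨s, hs, rfl⟩ := hS c hcS
    have h1 := (hroots _ hc).2
    change eval₂ ι (ι s) π = 0 at h1
    rw [eval₂_at_apply] at h1
    have h2 : π.eval s = 0 := hι (by rw [h1, map_zero])
    have h3 : (X - C s : R[X]) ∣ π := dvd_iff_isRoot.2 h2
    exact hπS s hs ((prime_X_sub_C s).irreducible.associated_of_dvd hπ.irreducible h3).symm
  exact isRadical_span_of_unramified Lc (algebraMap R[X] B π) hπ'0 (algebraMap R[X] B (C w))
    hwP hLc' (algebraMap B Ω (algebraMap R[X] B X)) SΩ roots hroots' lc hlc hlc0 hfac' hunr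

end Typed

end Fermat.Agent.S18.H754

end

end
-- ===== PACK-END S18/H754/HncTyped.lean

-- ===== PACK-BEGIN A2/Alg/H348/ConstDvr.lean
section






/-!
# A2 / ALG / GLUE, `hconst` part, step 4: constants of a split Kummer extension

`R` henselian DVR with algebraically closed residue field, `E = Frac R` of characteristic `0`,
`F ⊇ E` a field with a discrete valuation subring `V ⊇ R` with uniformiser `w` (the uniformiser of
`R`), `m` invertible in `R`, `u ∈ 1 + w V`, `L = F(z)` with `z ^ m = u`.  Then every element of `L`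
which is integral over `R` lies in `R` (`const_of_dvr`).

Proof: extend `V` to a valuation subring `W` of `L` (Chevalley,
`Ideal.image_subset_nonunits_valuationSubring`); then `W ∩ F = V` and, by `H93.CoverSplit`
(route G, C2), the maximal ideal of `W` is `w W`; conclude by `H313.hens_integral`.
-/

set_option autoImplicit false
set_option linter.unusedSectionVars false
set_option linter.style.haveILetI false

open IsLocalRing

namespace Fermat.Agent.A2.Alg.H348

open Fermat.Agent.A2.H93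

section Ext

variable {F L : Type*} [Field F] [Field L] [Algebra F L]

/-- **Chevalley extension** of a valuation subring with principal maximal ideal, with
`W ∩ F = V`. -/
theorem exists_valuationSubring_ext (V : ValuationSubring F) (w : F) (hw_inv : w⁻¹ ∉ V)
    (hw_gen : ∀ f ∈ V, f⁻¹ ∉ V → f * w⁻¹ ∈ V) :
    ∃ W : ValuationSubring L, (∀ f : F, algebraMap F L f ∈ W ↔ f ∈ V) ∧
      algebraMap F L w ∈ W.nonunits := by
  have hw0 : w ≠ 0 := by
    rintro rfl
    apply hw_inv
    rw [inv_zero]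
    exact V.zero_mem
  have hwV : w ∈ V := (V.mem_or_inv_mem w).resolve_right hw_inv
  set A : Subring L := V.toSubring.map (algebraMap F L) with hA
  have hmemA : ∀ {f : F}, f ∈ V → algebraMap F L f ∈ A := fun {f} hf => ⟨f, hf, rfl⟩
  set wA : A := ⟨algebraMap F L w, hmemA hwV⟩ with hwA
  have hI : Ideal.span ({wA} : Set A) ≠ ⊤ := by
    rw [Ne, Ideal.span_singleton_eq_top]
    intro hu
    obtain ⟨a, ha⟩ := hu.exists_right_inv
    obtain ⟨v, hv, hva⟩ := a.2
    have h1 : algebraMap F L w * algebraMap F L v = 1 := by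
      have h0 : algebraMap F L w * (a : L) = 1 := congrArg Subtype.val ha
      rw [hva]
      exact h0
    have h2 : w * v = 1 := by
      apply (algebraMap F L).injective
      rw [map_mul, h1, map_one]
    apply hw_inv
    rw [inv_eq_of_mul_eq_one_right h2]
    exact hv
  obtain ⟨W, hAW, hIW⟩ := Ideal.image_subset_nonunits_valuationSubring _ hI
  have hwW : algebraMap F L w ∈ W.nonunits :=
    hIW ⟨wA, Ideal.mem_span_singleton_self _, rfl⟩
  refine ⟨W, fun f => ⟨fun hf => ?_, fun hf => hAW (hmemA hf)⟩, hwW⟩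
  by_contra hfV
  have hf0 : f ≠ 0 := by
    rintro rfl
    exact hfV V.zero_mem
  have hfi : f⁻¹ ∈ V := (V.mem_or_inv_mem f).resolve_left hfV
  have hv : f⁻¹ * w⁻¹ ∈ V := hw_gen _ hfi (by rwa [inv_inv])
  have h1 : algebraMap F L f * (algebraMap F L w * algebraMap F L (f⁻¹ * w⁻¹)) = 1 := by
    rw [← map_mul, ← map_mul, ← map_one (algebraMap F L)]
    congr 1
    field_simp
  have h2 : W.valuation (algebraMap F L f) ≤ 1 := (W.valuation_le_one_iff _).2 hf
  have h3 : W.valuation (algebraMap F L w) < 1 := (W.mem_nonunits_iff).1 hwW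
  have h4 : W.valuation (algebraMap F L (f⁻¹ * w⁻¹)) ≤ 1 :=
    (W.valuation_le_one_iff _).2 (hAW (hmemA hv))
  have h5 : W.valuation (algebraMap F L f * (algebraMap F L w * algebraMap F L (f⁻¹ * w⁻¹)))
      < 1 := by
    rw [map_mul, map_mul]
    calc W.valuation (algebraMap F L f) *
          (W.valuation (algebraMap F L w) * W.valuation (algebraMap F L (f⁻¹ * w⁻¹)))
        ≤ 1 * (W.valuation (algebraMap F L w) * 1) := by gcongr
      _ = W.valuation (algebraMap F L w) := by rw [one_mul, mul_one]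
      _ < 1 := h3
  rw [h1, map_one] at h5
  exact lt_irrefl _ h5

end Ext

section Const

/-- **Constants of a split Kummer extension.** -/
theorem const_of_dvr {R : Type*} (E : Type*) {F L : Type*}
    [CommRing R] [IsDomain R] [IsDiscreteValuationRing R]
    [HenselianLocalRing R] [IsAlgClosed (ResidueField R)]
    [Field E] [CharZero E] [Algebra R E] [IsFractionRing R E]
    [Field F] [Algebra E F] [Algebra R F] [IsScalarTower R E F]
    [Field L] [Algebra F L] [Algebra E L] [Algebra R L] [IsScalarTower R E L]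
    [IsScalarTower R F L]
    (w : R) (hw : Irreducible w) (V : ValuationSubring F)
    (hRV : ∀ r : R, algebraMap R F r ∈ V)
    (hw_inv : (algebraMap R F w)⁻¹ ∉ V)
    (hw_gen : ∀ f ∈ V, f⁻¹ ∉ V → f * (algebraMap R F w)⁻¹ ∈ V)
    (hw_disc : ∀ f : F, ∃ k : ℕ, f * algebraMap R F w ^ k ∈ V)
    (m : ℕ) (hm : 0 < m) (ζ : R) (hζ : IsPrimitiveRoot ζ m) (hmu : IsUnit (m : R))
    (u : F) (hu : u ∈ V) (hu' : u⁻¹ ∈ V) (hu1 : (u - 1) * (algebraMap R F w)⁻¹ ∈ V)
    (z : L) (hz : z ^ m = algebraMap F L u) (hgen : Algebra.adjoin F ({z} : Set L) = ⊤)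
    (y : L) (hy : IsIntegral R y) : y ∈ Set.range (algebraMap R L) := by
  have hinjRE : Function.Injective (algebraMap R E) := IsFractionRing.injective R E
  have hinjRF : Function.Injective (algebraMap R F) := by
    rw [IsScalarTower.algebraMap_eq R E F]
    exact (algebraMap E F).injective.comp hinjRE
  obtain ⟨W, hext, hwW⟩ := exists_valuationSubring_ext (L := L) V (algebraMap R F w) hw_inv hw_gen
  have hRL : ∀ r : R, algebraMap R L r = algebraMap F L (algebraMap R F r) := fun r =>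
    IsScalarTower.algebraMap_apply R F L r
  have hu0 : u ≠ 0 := by
    rintro rfl
    apply hw_inv
    have : (algebraMap R F w)⁻¹ = -(((0 : F) - 1) * (algebraMap R F w)⁻¹) := by ring
    rw [this]
    exact V.neg_mem _ hu1
  have D : CoverSplit V W (algebraMap R F w) m (algebraMap R F ζ) (fun _ : Unit => z)
      (fun _ => u) (fun _ => 1) :=
    { ext := hext
      w_inv_notMem := hw_inv
      w_gen := hw_gen
      w_disc := hw_disc
      zeta := hζ.map_of_injective hinjRF
      m_pos := hm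
      m_inv := by
        obtain ⟨r, hr⟩ := hmu.exists_right_inv
        have h1 : (m : F) * algebraMap R F r = 1 := by
          rw [← map_natCast (algebraMap R F), ← map_mul, hr, map_one]
        rw [inv_eq_of_mul_eq_one_right h1]
        exact hRV r
      pow_eq := fun _ => hz
      g_mem := fun _ => hu
      g_ne_zero := fun _ => hu0
      g_inv := fun _ => hu'
      c_mem := fun _ => V.one_mem
      cong := fun _ => by rw [one_pow]; exact hu1
      gen := by rw [Set.range_const]; exact hgen }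
  have hRW : ∀ r : R, algebraMap R L r ∈ W := fun r => by
    rw [hRL]; exact (hext _).2 (hRV r)
  have hw1 : algebraMap R L w ∈ W.nonunits := by rw [hRL]; exact hwW
  have hw2 : ∀ x ∈ W.nonunits, ∃ t ∈ W, x = algebraMap R L w * t := by
    intro x hx
    have hxv : W.valuation x < 1 := (W.mem_nonunits_iff).1 hx
    have hxW : x ∈ W := (W.valuation_le_one_iff _).1 hxv.le
    rcases eq_or_ne x 0 with rfl | hx0
    · exact ⟨0, W.zero_mem, by rw [mul_zero]⟩
    · have hxi : x⁻¹ ∉ W := inv_notMem_of_val_lt_one W hx0 hxv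
      refine ⟨x * (algebraMap F L (algebraMap R F w))⁻¹, D.mul_inv_mem hxW hxi, ?_⟩
      rw [hRL]
      have := D.φw_ne_zero
      field_simp
  -- `y ∈ W`
  have hyW : y ∈ W := by
    let ι : R →+* W := (algebraMap R L).codRestrict W.toSubring hRW
    have h1 : IsIntegral W y := by
      have := IsIntegral.map_of_comp_eq (R := R) (S := L) (T := W) (U := L) ι (RingHom.id L)
        (by ext r; rfl) hy
      simpa using this
    obtain ⟨y', hy'⟩ := (IsIntegrallyClosed.isIntegral_iff (R := W) (K := L)).1 h1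
    rw [← hy']
    exact y'.2
  obtain ⟨b, hb⟩ := Fermat.Agent.A2.H313.hens_integral (E := E) w hw W hRW hw1 hw2 y hyW
    (hy.isAlgebraic.extendScalars hinjRE)
  exact ⟨b, hb⟩

end Const

end Fermat.Agent.A2.Alg.H348

end
-- ===== PACK-END A2/Alg/H348/ConstDvr.lean

-- ===== PACK-BEGIN S55/Bridge/H594/PrimeBelow.lean
section



/-!
# S55 bridge (helper594): valuation subrings of `ℚ̄` versus primes of `ℤ̄`

For a valuation subring `A` of `ℚ̄` lying over a prime number `q`, the decomposition group of `A`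
is the stabiliser of the prime `primeBelow A` of the ring `ℤ̄` of all algebraic integers, and the
inertia group of `A` is the inertia group of `primeBelow A`.
-/

set_option autoImplicit false

namespace Fermat.Agent.S55.Bridge.H594

open Fermat.Agent.S54 Fermat.Agent.S55.Bridge
open scoped Pointwise

attribute [local instance] isAlgebraic_Qbar isGalois_Qbar

section basic

variable (A : ValuationSubring (AlgebraicClosure ℚ))

/-- Algebraic integers lie in every valuation subring. -/
theorem coe_mem (b : integralClosure ℤ (AlgebraicClosure ℚ)) : (b : AlgebraicClosure ℚ) ∈ A :=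
  isIntegral_mem_valuationSubring A b.2

theorem coe_smul (σ : AlgebraicClosure ℚ ≃ₐ[ℚ] AlgebraicClosure ℚ)
    (b : integralClosure ℤ (AlgebraicClosure ℚ)) :
    ((σ • b : integralClosure ℤ (AlgebraicClosure ℚ)) : AlgebraicClosure ℚ) = σ b := rfl

/-- `σ` stabilises `primeBelow A` iff it preserves membership. -/
theorem smul_primeBelow_eq_iff (σ : AlgebraicClosure ℚ ≃ₐ[ℚ] AlgebraicClosure ℚ) :
    σ • primeBelow A = primeBelow A ↔
      ∀ b : integralClosure ℤ (AlgebraicClosure ℚ), σ • b ∈ primeBelow A ↔ b ∈ primeBelow A := by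
  constructor
  · intro h b
    conv_lhs => rw [← h]
    exact Ideal.smul_mem_pointwise_smul_iff
  · intro h
    ext b
    rw [Ideal.mem_pointwise_smul_iff_inv_smul_mem]
    rw [← h (σ⁻¹ • b), smul_inv_smul]

/-- If `σ` preserves the prime below `A`, it maps `A` into `A`. -/
theorem map_mem_of_smul_primeBelow {q : ℕ} (hq : q.Prime) (hA : A.LiesOverPrime q)
    (τ : AlgebraicClosure ℚ ≃ₐ[ℚ] AlgebraicClosure ℚ)
    (hτ : ∀ b : integralClosure ℤ (AlgebraicClosure ℚ), τ • b ∈ primeBelow A ↔ b ∈ primeBelow A)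
    (x : AlgebraicClosure ℚ) (hx : x ∈ A) : τ x ∈ A := by
  obtain ⟨b, s, hb, hs, hsA, hxs⟩ := (mem_valuationSubring_iff A q hq hA x).mp hx
  refine (mem_valuationSubring_iff A q hq hA (τ x)).mpr
    ⟨τ b, τ s, hb.map τ, hs.map τ, ?_, ?_⟩
  · exact (hτ ⟨s, hs⟩).not.mpr hsA
  · rw [← map_mul, hxs]

/-- The decomposition group of `A` is the stabiliser of the prime of `ℤ̄` below `A`. -/
theorem mem_decompositionSubgroup_iff_smul_primeBelow {q : ℕ} (hq : q.Prime)
    (hA : A.LiesOverPrime q) (σ : AlgebraicClosure ℚ ≃ₐ[ℚ] AlgebraicClosure ℚ) :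
    σ ∈ A.decompositionSubgroup ℚ ↔ σ • primeBelow A = primeBelow A := by
  rw [smul_primeBelow_eq_iff]
  constructor
  · intro hσ b
    have h1 := (mem_decompositionSubgroup_iff A σ).mp hσ
    rw [mem_primeBelow, mem_primeBelow, coe_smul, ValuationSubring.mem_nonunits_iff_or,
      ValuationSubring.mem_nonunits_iff_or, ← map_inv₀, h1, map_eq_zero_iff σ σ.injective]
  · intro hσ
    rw [mem_decompositionSubgroup_iff]
    intro x
    constructor
    · intro hx
      have h2 : ∀ b : integralClosure ℤ (AlgebraicClosure ℚ),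
          σ⁻¹ • b ∈ primeBelow A ↔ b ∈ primeBelow A := by
        intro b
        rw [← hσ (σ⁻¹ • b), smul_inv_smul]
      have := map_mem_of_smul_primeBelow A hq hA σ⁻¹ h2 (σ x) hx
      simpa using this
    · exact map_mem_of_smul_primeBelow A hq hA σ hσ x

/-- An integral element outside the prime below `A` has valuation `1`. -/
theorem valuation_eq_one_of_not_mem_nonunits {s : AlgebraicClosure ℚ} (hs : IsIntegral ℤ s)
    (hsA : s ∉ A.nonunits) : A.valuation s = 1 := by
  have h1 : A.valuation s ≤ 1 :=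
    (A.valuation_le_one_iff _).mpr (isIntegral_mem_valuationSubring A hs)
  rw [ValuationSubring.mem_nonunits_iff, not_lt] at hsA
  exact le_antisymm h1 hsA

/-- The inertia group of `A` is the inertia group of the prime of `ℤ̄` below `A`. -/
theorem mem_inertiaSubgroupIn_iff_primeBelow {q : ℕ} (hq : q.Prime)
    (hA : A.LiesOverPrime q) (σ : AlgebraicClosure ℚ ≃ₐ[ℚ] AlgebraicClosure ℚ) :
    σ ∈ A.inertiaSubgroupIn ℚ ↔
      ∀ b : integralClosure ℤ (AlgebraicClosure ℚ), σ • b - b ∈ primeBelow A := by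
  constructor
  · intro hσ b
    exact ((mem_inertiaSubgroupIn_iff A σ).mp hσ).2 b (coe_mem A b)
  · intro hσ
    have hstab : ∀ b : integralClosure ℤ (AlgebraicClosure ℚ),
        σ • b ∈ primeBelow A ↔ b ∈ primeBelow A := by
      intro b
      constructor
      · intro h
        have := (primeBelow A).sub_mem h (hσ b)
        simpa using this
      · intro h
        have := (primeBelow A).add_mem (hσ b) h
        simpa using this
    have hD : σ ∈ A.decompositionSubgroup ℚ :=
      (mem_decompositionSubgroup_iff_smul_primeBelow A hq hA σ).mpr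
        ((smul_primeBelow_eq_iff A σ).mpr hstab)
    rw [mem_inertiaSubgroupIn_iff]
    refine ⟨hD, fun z hz => ?_⟩
    obtain ⟨b, s, hb, hs, hsA, hzs⟩ := (mem_valuationSubring_iff A q hq hA z).mp hz
    have hs0 : s ≠ 0 := fun h => hsA (h ▸ A.nonunits.zero_mem)
    have hσs0 : σ s ≠ 0 := (map_ne_zero_iff σ σ.injective).mpr hs0
    have hσsA : σ s ∉ A.nonunits := (hstab ⟨s, hs⟩).not.mpr hsA
    have hvs : A.valuation s = 1 := valuation_eq_one_of_not_mem_nonunits A hs hsA
    have hvσs : A.valuation (σ s) = 1 :=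
      valuation_eq_one_of_not_mem_nonunits A (hs.map σ) hσsA
    have hz' : z = b / s := by rw [← hzs]; field_simp
    have hnum : (σ b - b) * s - b * (σ s - s) ∈ A.nonunits := by
      rw [ValuationSubring.mem_nonunits_iff]
      have h1 : A.valuation ((σ b - b) * s) < 1 := by
        rw [map_mul, hvs, mul_one]
        exact (ValuationSubring.mem_nonunits_iff A).mp (hσ ⟨b, hb⟩)
      have h2 : A.valuation (b * (σ s - s)) < 1 := by
        rw [map_mul]
        have hb1 : A.valuation b ≤ 1 :=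
          (A.valuation_le_one_iff _).mpr (isIntegral_mem_valuationSubring A hb)
        have hs1 : A.valuation (σ s - s) < 1 :=
          (ValuationSubring.mem_nonunits_iff A).mp (hσ ⟨s, hs⟩)
        exact mul_lt_one_of_nonneg_of_lt_one_right hb1 zero_le hs1
      exact lt_of_le_of_lt (Valuation.map_sub _ _ _) (max_lt h1 h2)
    have hval : σ z - z = ((σ b - b) * s - b * (σ s - s)) / (s * σ s) := by
      rw [hz', map_div₀]
      field_simp
      ring
    rw [hval, ValuationSubring.mem_nonunits_iff, map_div₀, map_mul, hvs, hvσs, mul_one,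
      div_one]
    exact (ValuationSubring.mem_nonunits_iff A).mp hnum

end basic

end Fermat.Agent.S55.Bridge.H594

end
-- ===== PACK-END S55/Bridge/H594/PrimeBelow.lean

-- ===== PACK-BEGIN A2/Mod/H189/ChartChangeT3.lean
section


/-!
# Cell A2 / MOD, GOODRED part G3 (helper189): from the `t₃`-charts to the `j`-charts (`q = 2`)

Abstract setting (Mathlib only): `F` a field over `R`, `3` a unit of `R`, `t, j ∈ F` with
`j t³ = (t + 27)(t + 243)³` (`t` = Hauptmodul of `X₀(3)`), `j ≠ 0`; `V` a subring of `F`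
containing `R` in which `t`, `t + 27`, `t + 243` are units (the Gauss valuation ring), `w : F`.

* `goodOn_j_of_t3`    : `GoodOn` for the chart of `R[t]` ⟹ `GoodOn` for the chart of `R[j]`;
* `goodOn_jinv_of_t3` : `GoodOn` for the charts of `R[t]` and `R[1/t]` ⟹ `GoodOn` for the chart of
  `R[1/j]`  (`IC(R[1/j]) = IC(R[u₁, u₂])`, `u₁ = 1/(t+27)`, `u₂ = 1/(t+243)`, glued from
  `IC(R[t])[1/((t+27)(t+243))]` and `IC(R[1/t])[1/((1+27/t)(1+243/t))]`).
-/

set_option autoImplicit false

namespace Fermat.Agent.A2.Mod.H189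

variable {R : Type*} [CommRing R] {F : Type*} [Field F] [Algebra R F]

section T3

variable {V : Subring F} {w : F} {t j : F} (i : R)

include i in
theorem t3_facts (hi : (3 : R) * i = 1) (hj : j ≠ 0)
    (hrel : j * t ^ 3 = (t + 27) * (t + 243) ^ 3) :
    (3 : F) * algebraMap R F i = 1 ∧ (3 : F) ≠ 0 ∧ t ≠ 0 ∧ t + 27 ≠ 0 ∧ t + 243 ≠ 0 := by
  have h1 : (3 : F) * algebraMap R F i = 1 := by
    have := congrArg (algebraMap R F) hi
    rwa [map_mul, map_one, map_ofNat] at this
  have h2 : (3 : F) ≠ 0 := fun h => by rw [h, zero_mul] at h1; exact zero_ne_one h1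
  have h27 : (27 : F) ≠ 0 := by
    have : (27 : F) = 3 ^ 3 := by norm_num
    rw [this]
    exact pow_ne_zero 3 h2
  have h243 : (243 : F) ≠ 0 := by
    have : (243 : F) = 3 ^ 5 := by norm_num
    rw [this]
    exact pow_ne_zero 5 h2
  have h3 : t ≠ 0 := by
    intro h
    rw [h] at hrel
    simp only [ne_eq, OfNat.ofNat_ne_zero, not_false_eq_true, zero_pow, mul_zero, zero_add] at hrel
    exact mul_ne_zero h27 (pow_ne_zero 3 h243) hrel.symm
  have hjt : j * t ^ 3 ≠ 0 := mul_ne_zero hj (pow_ne_zero 3 h3)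
  refine ⟨h1, h2, h3, fun h => hjt ?_, fun h => hjt ?_⟩
  · rw [hrel, h, zero_mul]
  · rw [hrel, h]
    simp

include i in
/-- **`t₃ → j`, finite chart.** -/
theorem goodOn_j_of_t3 (hi : (3 : R) * i = 1) (hj : j ≠ 0)
    (hrel : j * t ^ 3 = (t + 27) * (t + 243) ^ 3)
    (htV : t ∈ V) (htV' : t⁻¹ ∈ V) (hg : GoodOn V w (Aof R t)) : GoodOn V w (Aof R j) := by
  obtain ⟨hi', h3, ht0, -, -⟩ := t3_facts i hi hj hrel
  have hjeq : j = (t + 27) * (t + 243) ^ 3 * t⁻¹ ^ 3 := by
    field_simp
    exact hrel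
  refine (hg.loc (self_mem_Aof t) ht0 htV htV').congr ?_ ?_
  · intro a ha
    refine isIntegral_of_mem_locSub (A' := Aof R j) (fun a ha => ?_) ?_ ha
    · refine isIntegral_of_mem_adjoin (A := Aof R j) (S := {t}) (fun x hx => ?_) ha
      rw [Set.mem_singleton_iff] at hx
      subst hx
      refine isIntegral_of_quartic (a := 1) (v := 1) (c₃ := 756 - j) (c₂ := 196830)
        (c₁ := 19131876) (c₀ := 387420489) (Subalgebra.one_mem _) (one_mul 1)
        (Subalgebra.sub_mem _ (ofNat_mem_sub _ 756) (self_mem_Aof j))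
        (ofNat_mem_sub _ 196830) (ofNat_mem_sub _ 19131876) (ofNat_mem_sub _ 387420489) ?_
      linear_combination -hrel
    · refine isIntegral_of_quartic (a := 387420489) (v := algebraMap R F (i ^ 18))
        (c₃ := 19131876) (c₂ := 196830) (c₁ := 756 - j) (c₀ := 1)
        (Subalgebra.algebraMap_mem _ _) ?_
        (ofNat_mem_sub _ 19131876) (ofNat_mem_sub _ 196830)
        (Subalgebra.sub_mem _ (ofNat_mem_sub _ 756) (self_mem_Aof j)) (Subalgebra.one_mem _) ?_
      · rw [map_pow]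
        have : (387420489 : F) = 3 ^ 18 := by norm_num
        rw [this, ← mul_pow, mul_comm, hi', one_pow]
      · field_simp
        linear_combination -hrel
  · intro a ha
    refine isIntegral_of_mem (Aof_le (B := locSub (Aof R t) t) ?_ ha)
    rw [hjeq]
    refine Subalgebra.mul_mem _ (Subalgebra.mul_mem _ (Subalgebra.add_mem _
        (le_locSub _ _ (self_mem_Aof t)) (ofNat_mem_sub _ 27))
      (Subalgebra.pow_mem _ (Subalgebra.add_mem _
        (le_locSub _ _ (self_mem_Aof t)) (ofNat_mem_sub _ 243)) 3))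
      (Subalgebra.pow_mem _ (inv_mem_locSub _ _) 3)

include i in
/-- **`t₃ → j`, chart at infinity.** -/
theorem goodOn_jinv_of_t3 (hi : (3 : R) * i = 1) (hj : j ≠ 0)
    (hrel : j * t ^ 3 = (t + 27) * (t + 243) ^ 3) (hRV : ∀ r : R, algebraMap R F r ∈ V)
    (htV : t ∈ V) (htV' : t⁻¹ ∈ V) (hu₁V : (t + 27)⁻¹ ∈ V) (hu₂V : (t + 243)⁻¹ ∈ V)
    (hg : GoodOn V w (Aof R t)) (hg' : GoodOn V w (Aof R t⁻¹)) : GoodOn V w (Aof R j⁻¹) := by
  obtain ⟨hi', h3, ht0, ht27, ht243⟩ := t3_facts i hi hj hrel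
  have hi27 : (27 : F) * algebraMap R F (i ^ 3) = 1 := by
    rw [map_pow]
    have : (27 : F) = 3 ^ 3 := by norm_num
    rw [this, ← mul_pow, hi', one_pow]
  have h27V : (27 : F) ∈ V := by
    have := hRV 27
    rwa [map_ofNat] at this
  have h243V : (243 : F) ∈ V := by
    have := hRV 243
    rwa [map_ofNat] at this
  set u₁ : F := (t + 27)⁻¹ with hu₁
  set u₂ : F := (t + 243)⁻¹ with hu₂
  have hu₁0 : u₁ ≠ 0 := inv_ne_zero ht27
  have hu₂0 : u₂ ≠ 0 := inv_ne_zero ht243
  have htu₁ : t * u₁ = 1 - 27 * u₁ := by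
    rw [hu₁]
    field_simp
    ring
  have htu₂ : t * u₂ = 1 - 243 * u₂ := by
    rw [hu₂]
    field_simp
    ring
  have hjinv : j⁻¹ = (1 - 243 * u₂) ^ 2 * (1 - 27 * u₁) * u₂ := by
    rw [← htu₁, ← htu₂, hu₁, hu₂]
    field_simp
    linear_combination -hrel
  have h1u₁0 : 1 - 27 * u₁ ≠ 0 := by
    rw [← htu₁]
    exact mul_ne_zero ht0 hu₁0
  have h1u₂0 : 1 - 243 * u₂ ≠ 0 := by
    rw [← htu₂]
    exact mul_ne_zero ht0 hu₂0
  have hinv1 : (1 - 27 * u₁)⁻¹ = 1 + 27 * t⁻¹ := by
    rw [← htu₁, hu₁]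
    field_simp
  have hinv2 : (1 - 243 * u₂)⁻¹ = 1 + 243 * t⁻¹ := by
    rw [← htu₂, hu₂]
    field_simp
  -- the two denominators
  set D : F := (t + 27) * (t + 243) with hD
  set D' : F := (1 + 27 * t⁻¹) * (1 + 243 * t⁻¹) with hD'
  have hD0 : D ≠ 0 := mul_ne_zero ht27 ht243
  have hDinv : D⁻¹ = u₁ * u₂ := by rw [hD, mul_inv]
  have hD'inv : D'⁻¹ = (1 - 27 * u₁) * (1 - 243 * u₂) := by
    rw [hD', mul_inv, ← hinv1, ← hinv2, inv_inv, inv_inv]
  have hD'0 : D' ≠ 0 := by
    intro h
    rw [h, inv_zero] at hD'inv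
    exact mul_ne_zero h1u₁0 h1u₂0 hD'inv.symm
  -- the chart of `R[u₁, u₂]`
  set A' : Subalgebra R F := Algebra.adjoin R ({u₁, u₂} : Set F) with hA'
  have hu₁A : u₁ ∈ A' := Algebra.subset_adjoin (Set.mem_insert _ _)
  have hu₂A : u₂ ∈ A' := Algebra.subset_adjoin (Set.mem_insert_of_mem _ rfl)
  have hA'le : ∀ {B : Subalgebra R F}, u₁ ∈ B → u₂ ∈ B → A' ≤ B := by
    intro B h1 h2
    refine Algebra.adjoin_le ?_
    rintro x (hx | hx)
    · rw [hx]; exact h1
    · rw [Set.mem_singleton_iff] at hx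
      rw [hx]; exact h2
  have hgA : GoodOn V w A' := by
    refine GoodOn.glue (s₁ := u₁) (s₂ := 1 - 27 * u₁) (α := 27) (β := 1)
      (adjoin_subset_subring hRV (by
        rintro x (hx | hx)
        · rw [hx]; exact hu₁V
        · rw [Set.mem_singleton_iff] at hx
          rw [hx]; exact hu₂V))
      hu₁A
      (Subalgebra.sub_mem _ (Subalgebra.one_mem _)
        (Subalgebra.mul_mem _ (ofNat_mem_sub _ 27) hu₁A))
      (ofNat_mem_sub _ 27) (Subalgebra.one_mem _) (by ring) ?_ ?_
    · -- `R[u₁, u₂, 1/u₁] = R[t, 1/D]`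
      refine (hg.loc (s := D) (Subalgebra.mul_mem _
          (Subalgebra.add_mem _ (self_mem_Aof t) (ofNat_mem_sub _ 27))
          (Subalgebra.add_mem _ (self_mem_Aof t) (ofNat_mem_sub _ 243)))
        hD0 (V.mul_mem (V.add_mem htV h27V) (V.add_mem htV h243V)) ?_).of_le_of_le ?_ ?_
      · rw [hDinv]
        exact V.mul_mem hu₁V hu₂V
      · refine locSub_le (Aof_le ?_) ?_
        · have : t = u₁⁻¹ - 27 := by rw [hu₁, inv_inv]; ring
          rw [this]
          exact Subalgebra.sub_mem _ (inv_mem_locSub _ _) (ofNat_mem_sub _ 27)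
        · rw [hDinv]
          exact le_locSub _ _ (Subalgebra.mul_mem _ hu₁A hu₂A)
      · refine locSub_le (hA'le ?_ ?_) ?_
        · have : u₁ = (t + 243) * D⁻¹ := by
            rw [hD, hu₁]
            field_simp
          rw [this]
          exact Subalgebra.mul_mem _ (le_locSub _ _
            (Subalgebra.add_mem _ (self_mem_Aof t) (ofNat_mem_sub _ 243))) (inv_mem_locSub _ _)
        · have : u₂ = (t + 27) * D⁻¹ := by
            rw [hD, hu₂]
            field_simp
          rw [this]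
          exact Subalgebra.mul_mem _ (le_locSub _ _
            (Subalgebra.add_mem _ (self_mem_Aof t) (ofNat_mem_sub _ 27))) (inv_mem_locSub _ _)
        · rw [hu₁, inv_inv]
          exact le_locSub _ _ (Subalgebra.add_mem _ (self_mem_Aof t) (ofNat_mem_sub _ 27))
    · -- `R[u₁, u₂, 1/(1 - 27 u₁)] = R[1/t, 1/D']`
      refine (hg'.loc (s := D') (Subalgebra.mul_mem _
          (Subalgebra.add_mem _ (Subalgebra.one_mem _)
            (Subalgebra.mul_mem _ (ofNat_mem_sub _ 27) (self_mem_Aof t⁻¹)))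
          (Subalgebra.add_mem _ (Subalgebra.one_mem _)
            (Subalgebra.mul_mem _ (ofNat_mem_sub _ 243) (self_mem_Aof t⁻¹))))
        hD'0 (V.mul_mem (V.add_mem V.one_mem (V.mul_mem h27V htV'))
          (V.add_mem V.one_mem (V.mul_mem h243V htV'))) ?_).of_le_of_le ?_ ?_
      · rw [hD'inv, ← htu₁, ← htu₂]
        exact V.mul_mem (V.mul_mem htV hu₁V) (V.mul_mem htV hu₂V)
      · refine locSub_le (Aof_le ?_) ?_
        · have : t⁻¹ = algebraMap R F (i ^ 3) * ((1 - 27 * u₁)⁻¹ - 1) := by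
            rw [hinv1]
            linear_combination (-t⁻¹) * hi27
          rw [this]
          exact Subalgebra.mul_mem _ (Subalgebra.algebraMap_mem _ _)
            (Subalgebra.sub_mem _ (inv_mem_locSub _ _) (Subalgebra.one_mem _))
        · rw [hD'inv]
          exact le_locSub _ _ (Subalgebra.mul_mem _
            (Subalgebra.sub_mem _ (Subalgebra.one_mem _)
              (Subalgebra.mul_mem _ (ofNat_mem_sub _ 27) hu₁A))
            (Subalgebra.sub_mem _ (Subalgebra.one_mem _)
              (Subalgebra.mul_mem _ (ofNat_mem_sub _ 243) hu₂A)))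
      · refine locSub_le (hA'le ?_ ?_) ?_
        · have : u₁ = t⁻¹ * (1 + 243 * t⁻¹) * D'⁻¹ := by
            rw [hD', hu₁]
            field_simp
          rw [this]
          exact Subalgebra.mul_mem _ (le_locSub _ _ (Subalgebra.mul_mem _ (self_mem_Aof t⁻¹)
            (Subalgebra.add_mem _ (Subalgebra.one_mem _)
              (Subalgebra.mul_mem _ (ofNat_mem_sub _ 243) (self_mem_Aof t⁻¹)))))
            (inv_mem_locSub _ _)
        · have : u₂ = t⁻¹ * (1 + 27 * t⁻¹) * D'⁻¹ := by
            rw [hD', hu₂]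
            field_simp
          rw [this]
          exact Subalgebra.mul_mem _ (le_locSub _ _ (Subalgebra.mul_mem _ (self_mem_Aof t⁻¹)
            (Subalgebra.add_mem _ (Subalgebra.one_mem _)
              (Subalgebra.mul_mem _ (ofNat_mem_sub _ 27) (self_mem_Aof t⁻¹)))))
            (inv_mem_locSub _ _)
        · rw [hinv1]
          exact le_locSub _ _ (Subalgebra.add_mem _ (Subalgebra.one_mem _)
            (Subalgebra.mul_mem _ (ofNat_mem_sub _ 27) (self_mem_Aof t⁻¹)))
  -- `IC(R[1/j]) = IC(R[u₁, u₂])`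
  refine hgA.congr ?_ ?_
  · intro a ha
    refine isIntegral_of_mem_adjoin (A := Aof R j⁻¹) (S := {u₁, u₂}) (fun x hx => ?_) ha
    rcases hx with hx | hx
    · rw [hx]
      -- `(1 - 27 u₁)³ u₁ = (1/j) (1 + 216 u₁)³`
      have hrel₁ : (1 - 27 * u₁) ^ 3 * u₁ = j⁻¹ * (1 + 216 * u₁) ^ 3 := by
        rw [hjinv, hu₁, hu₂]
        field_simp
        ring
      refine isIntegral_of_quartic (a := -19683) (v := algebraMap R F (-(i ^ 9)))
        (c₃ := 2187 - 10077696 * j⁻¹) (c₂ := -81 - 139968 * j⁻¹) (c₁ := 1 - 648 * j⁻¹)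
        (c₀ := -j⁻¹) (Subalgebra.algebraMap_mem _ _) ?_ ?_ ?_ ?_ ?_ ?_
      · rw [map_neg, map_pow]
        have : (-19683 : F) = -(3 ^ 9) := by norm_num
        rw [this, neg_mul_neg, ← mul_pow, mul_comm, hi', one_pow]
      · exact Subalgebra.sub_mem _ (ofNat_mem_sub _ 2187)
          (Subalgebra.mul_mem _ (ofNat_mem_sub _ 10077696) (self_mem_Aof j⁻¹))
      · exact Subalgebra.sub_mem _ (Subalgebra.neg_mem _ (ofNat_mem_sub _ 81))
          (Subalgebra.mul_mem _ (ofNat_mem_sub _ 139968) (self_mem_Aof j⁻¹))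
      · exact Subalgebra.sub_mem _ (Subalgebra.one_mem _)
          (Subalgebra.mul_mem _ (ofNat_mem_sub _ 648) (self_mem_Aof j⁻¹))
      · exact Subalgebra.neg_mem _ (self_mem_Aof j⁻¹)
      · linear_combination hrel₁
    · rw [Set.mem_singleton_iff] at hx
      rw [hx]
      -- `(1 - 243 u₂)³ u₂ = (1/j) (1 - 216 u₂)`
      have hrel₂ : (1 - 243 * u₂) ^ 3 * u₂ = j⁻¹ * (1 - 216 * u₂) := by
        rw [hjinv, hu₁, hu₂]
        field_simp
        ring
      refine isIntegral_of_quartic (a := -14348907) (v := algebraMap R F (-(i ^ 15)))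
        (c₃ := 177147) (c₂ := -729) (c₁ := 1 + 216 * j⁻¹)
        (c₀ := -j⁻¹) (Subalgebra.algebraMap_mem _ _) ?_ ?_ ?_ ?_ ?_ ?_
      · rw [map_neg, map_pow]
        have : (-14348907 : F) = -(3 ^ 15) := by norm_num
        rw [this, neg_mul_neg, ← mul_pow, mul_comm, hi', one_pow]
      · exact ofNat_mem_sub _ 177147
      · exact Subalgebra.neg_mem _ (ofNat_mem_sub _ 729)
      · exact Subalgebra.add_mem _ (Subalgebra.one_mem _)
          (Subalgebra.mul_mem _ (ofNat_mem_sub _ 216) (self_mem_Aof j⁻¹))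
      · exact Subalgebra.neg_mem _ (self_mem_Aof j⁻¹)
      · linear_combination hrel₂
  · intro a ha
    refine isIntegral_of_mem (Aof_le (B := A') ?_ ha)
    rw [hjinv]
    exact Subalgebra.mul_mem _ (Subalgebra.mul_mem _ (Subalgebra.pow_mem _
      (Subalgebra.sub_mem _ (Subalgebra.one_mem _)
        (Subalgebra.mul_mem _ (ofNat_mem_sub _ 243) hu₂A)) 2)
      (Subalgebra.sub_mem _ (Subalgebra.one_mem _)
        (Subalgebra.mul_mem _ (ofNat_mem_sub _ 27) hu₁A))) hu₂A

end T3

end Fermat.Agent.A2.Mod.H189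

end
-- ===== PACK-END A2/Mod/H189/ChartChangeT3.lean

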