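import Mathlib.Analysis.Complex.UpperHalfPlane.MoebiusAction
import Mathlib.NumberTheory.ModularForms.CongruenceSubgroups
import Mathlib
import Fermat.Agent.Pack.S34.G0E6L2
import Fermat.Agent.Pack.S34.G0E6L1
import Fermat.Agent.Pack.S34.G0E0L1
import Fermat.Agent.Pack.S34.G0E3L1
import Fermat.Agent.Pack.S34.G0E6L3
import Fermat.Agent.Pack.S34.G0E6L0
import Fermat.Agent.Pack.S34.G0E5L1
import Fermat.Agent.Pack.S34.G0E5L2
import Fermat.Agent.Pack.S34.G0E5L3
import Fermat.Agent.Pack.S34.G0E1L3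
import Fermat.Agent.Pack.S34.G0E3L2
import Fermat.Agent.Pack.S34.G0E1L1
import Fermat.Agent.Pack.S34.G0E4L1
import Fermat.Agent.Pack.S34.G0E1L2
import Fermat.Agent.Pack.S34.G0E5L0
import Fermat.Agent.Pack.S34.G0E1L0
import Fermat.Agent.Pack.S34.G0E4L3

-- ===== PACK-BEGIN S22/H262/Lattice.lean
section



set_option autoImplicit false

/-!
# The period lattice: functionals, Hecke stability
-/

open Complex Filter Function Metric Set
open UpperHalfPlane hiding I
open scoped Real Topology Manifold ModularForm MatrixGroups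

namespace Fermat.Agent.S22.H262

open Matrix.SpecialLinearGroup CuspForm

variable {N : ℕ} [NeZero N] {n : ℕ}

theorem hasTower_slash_posInt (f : CuspForm (CongruenceSubgroup.Gamma0 N) ((n : ℤ) + 2))
    {A : GL (Fin 2) ℝ} (hA : A ∈ posInt) : HasTower (⇑f ∣[(n : ℤ) + 2] A) := by
  obtain ⟨g, δ, hδ, h10, rfl⟩ := exists_mapGL_mul_upper hA
  rw [SlashAction.slash_mul]
  exact (hasTower_slash_SL f g).slash_upper n δ hδ.2 h10

theorem hasTower_cuspForm (f : CuspForm (CongruenceSubgroup.Gamma0 N) ((n : ℤ) + 2)) :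
    HasTower (⇑f) := by
  have := hasTower_slash_posInt f (one_mem posInt)
  rwa [SlashAction.slash_one] at this

theorem hasTower_slash_slash (f : CuspForm (CongruenceSubgroup.Gamma0 N) ((n : ℤ) + 2))
    {A B : GL (Fin 2) ℝ} (hA : A ∈ posInt) (hB : B ∈ posInt) :
    HasTower ((⇑f ∣[(n : ℤ) + 2] A) ∣[(n : ℤ) + 2] B) := by
  rw [← SlashAction.slash_mul]
  exact hasTower_slash_posInt f (mul_mem hA hB)

theorem smul_slash_pos (k : ℤ) {A : GL (Fin 2) ℝ} (hA : 0 < A.det.val) (c : ℂ) (h : ℍ → ℂ) :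
    (c • h) ∣[k] A = c • (h ∣[k] A) := by
  rw [ModularForm.smul_slash, UpperHalfPlane.σ, if_pos hA]
  rfl

/-- The functional `f ↦ c_{f|B}(A)(v)`. -/
noncomputable def lamG (N : ℕ) [NeZero N] (n : ℕ) (B A : posInt) (v : ℂ × ℂ) :
    Module.Dual ℂ (CuspForm (CongruenceSubgroup.Gamma0 N) ((n : ℤ) + 2)) where
  toFun f := cocyc n (⇑f ∣[(n : ℤ) + 2] (B : GL (Fin 2) ℝ)) A v
  map_add' f g := by
    rw [FunLike.coe_add, SlashAction.add_slash]
    exact cocyc_add n _ (hasTower_slash_posInt f B.2) (hasTower_slash_posInt g B.2)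
      (hasTower_slash_slash f B.2 A.2) (hasTower_slash_slash g B.2 A.2) v
  map_smul' c f := by
    rw [FunLike.coe_smul, smul_slash_pos _ B.2.2, RingHom.id_apply, smul_eq_mul]
    exact cocyc_smul n _ A.2.2 (hasTower_slash_posInt f B.2) (hasTower_slash_slash f B.2 A.2) c v

theorem lamG_apply (B A : posInt) (v : ℂ × ℂ)
    (f : CuspForm (CongruenceSubgroup.Gamma0 N) ((n : ℤ) + 2)) :
    lamG N n B A v f = cocyc n (⇑f ∣[(n : ℤ) + 2] (B : GL (Fin 2) ℝ)) A v := rfl

/-- The functional `f ↦ c_f(A)(v)`. -/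
noncomputable def lam (N : ℕ) [NeZero N] (n : ℕ) (A : posInt) (v : ℂ × ℂ) :
    Module.Dual ℂ (CuspForm (CongruenceSubgroup.Gamma0 N) ((n : ℤ) + 2)) :=
  lamG N n 1 A v

theorem lam_apply (A : posInt) (v : ℂ × ℂ)
    (f : CuspForm (CongruenceSubgroup.Gamma0 N) ((n : ℤ) + 2)) :
    lam N n A v f = cocyc n (⇑f) A v := by
  rw [lam, lamG_apply]
  simp

/-- The period lattice. -/
noncomputable def periodLattice (N : ℕ) [NeZero N] (n : ℕ) :
    Submodule ℤ (Module.Dual ℂ (CuspForm (CongruenceSubgroup.Gamma0 N) ((n : ℤ) + 2))) :=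
  Submodule.span ℤ {l | ∃ (A : posInt) (v : ℂ × ℂ), v ∈ Vint ∧ l = lam N n A v}

theorem lam_mem_periodLattice (A : posInt) {v : ℂ × ℂ} (hv : v ∈ Vint) :
    lam N n A v ∈ periodLattice N n :=
  Submodule.subset_span ⟨A, v, hv, rfl⟩

/-- Key identity: `c_{f|δ}(A) = c_f(δ A)` for upper triangular `δ`. -/
theorem cocyc_slash_upper (f : CuspForm (CongruenceSubgroup.Gamma0 N) ((n : ℤ) + 2))
    {δ A : GL (Fin 2) ℝ} (hδ : δ ∈ posInt) (h10 : δ 1 0 = 0) (hA : A ∈ posInt) (v : ℂ × ℂ) :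
    cocyc n (⇑f ∣[(n : ℤ) + 2] δ) A v = cocyc n (⇑f) (δ * A) v := by
  rw [cocyc_mul n δ A hδ.2 hA.2 (hasTower_cuspForm f) (hasTower_slash_posInt f hδ)
    (hasTower_slash_posInt f (mul_mem hδ hA)), cocyc_upper n (hasTower_cuspForm f) δ hδ.2 h10,
    zero_add]

theorem heckeMatrix_mem_posInt {p : ℕ} (hp : p ≠ 0) (j : ℕ) :
    ModularForm.heckeMatrix p j ∈ posInt := by
  refine ⟨fun i k => ?_, ModularForm.det_heckeMatrix_pos p j⟩
  have h := ModularForm.val_heckeMatrix hp j
  fin_cases i <;> fin_cases k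
  · exact ⟨1, by simp [h]⟩
  · exact ⟨j, by simp [h]⟩
  · exact ⟨0, by simp [h]⟩
  · exact ⟨p, by simp [h]⟩

theorem heckeDiagMatrix_mem_posInt {p : ℕ} (hp : p ≠ 0) :
    ModularForm.heckeDiagMatrix p ∈ posInt := by
  refine ⟨fun i k => ?_, ModularForm.det_heckeDiagMatrix_pos p⟩
  have h := ModularForm.val_heckeDiagMatrix hp
  fin_cases i <;> fin_cases k
  · exact ⟨p, by simp [h]⟩
  · exact ⟨0, by simp [h]⟩
  · exact ⟨0, by simp [h]⟩
  · exact ⟨1, by simp [h]⟩

theorem heckeMatrix_one_zero {p : ℕ} (hp : p ≠ 0) (j : ℕ) :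
    (ModularForm.heckeMatrix p j) 1 0 = 0 := by
  simp [ModularForm.val_heckeMatrix hp j]

theorem heckeDiagMatrix_one_zero {p : ℕ} (hp : p ≠ 0) :
    (ModularForm.heckeDiagMatrix p) 1 0 = 0 := by
  simp [ModularForm.val_heckeDiagMatrix hp]

theorem cocyc_heckeU (f : CuspForm (CongruenceSubgroup.Gamma0 N) ((n : ℤ) + 2))
    {p : ℕ} (hp : p ≠ 0) (A : posInt) (v : ℂ × ℂ) :
    cocyc n (ModularForm.heckeU ((n : ℤ) + 2) p ⇑f) A v =
      ∑ j ∈ Finset.range p,
        lam N n (⟨ModularForm.heckeMatrix p j, heckeMatrix_mem_posInt hp j⟩ * A) v f := by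
  rw [ModularForm.heckeU_def, cocyc_sum n _ _ _
    (fun j _ => hasTower_slash_posInt f (heckeMatrix_mem_posInt hp j))
    (fun j _ => hasTower_slash_slash f (heckeMatrix_mem_posInt hp j) A.2)]
  refine Finset.sum_congr rfl fun j _ => ?_
  rw [lam_apply, cocyc_slash_upper f (heckeMatrix_mem_posInt hp j) (heckeMatrix_one_zero hp j)
    A.2]
  rfl

theorem cocyc_heckeT (f : CuspForm (CongruenceSubgroup.Gamma0 N) ((n : ℤ) + 2))
    {p : ℕ} (hp : p ≠ 0) (A : posInt) (v : ℂ × ℂ) :
    cocyc n (ModularForm.heckeT ((n : ℤ) + 2) p ⇑f) A v =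
      (∑ j ∈ Finset.range p,
        lam N n (⟨ModularForm.heckeMatrix p j, heckeMatrix_mem_posInt hp j⟩ * A) v f) +
      lam N n (⟨ModularForm.heckeDiagMatrix p, heckeDiagMatrix_mem_posInt hp⟩ * A) v f := by
  have hU : HasTower (ModularForm.heckeU ((n : ℤ) + 2) p ⇑f) := by
    rw [ModularForm.heckeU_def]
    exact (tower_sum _ _
      (fun j _ => hasTower_slash_posInt f (heckeMatrix_mem_posInt hp j))).1
  have hUA : HasTower (ModularForm.heckeU ((n : ℤ) + 2) p ⇑f ∣[(n : ℤ) + 2]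
      (A : GL (Fin 2) ℝ)) := by
    rw [ModularForm.heckeU_def, SlashAction.sum_slash]
    exact (tower_sum _ _
      (fun j _ => hasTower_slash_slash f (heckeMatrix_mem_posInt hp j) A.2)).1
  rw [ModularForm.heckeT_eq_heckeU_add, cocyc_add n _ hU
    (hasTower_slash_posInt f (heckeDiagMatrix_mem_posInt hp)) hUA
    (hasTower_slash_slash f (heckeDiagMatrix_mem_posInt hp) A.2), cocyc_heckeU f hp,
    lam_apply, cocyc_slash_upper f (heckeDiagMatrix_mem_posInt hp)
      (heckeDiagMatrix_one_zero hp) A.2]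
  rfl

/-- The period lattice is stable under the Hecke generators. -/
theorem periodLattice_stable (S : Set ℕ) (T : Module.End ℂ
    (CuspForm (CongruenceSubgroup.Gamma0 N) ((n : ℤ) + 2)))
    (hT : T ∈ heckeGenerators N ((n : ℤ) + 2) S) (l : Module.Dual ℂ
    (CuspForm (CongruenceSubgroup.Gamma0 N) ((n : ℤ) + 2))) (hl : l ∈ periodLattice N n) :
    l ∘ₗ T ∈ periodLattice N n := by
  induction hl using Submodule.span_induction with
  | zero => rw [LinearMap.zero_comp]; exact Submodule.zero_mem _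
  | add x y _ _ hx hy => rw [LinearMap.add_comp]; exact Submodule.add_mem _ hx hy
  | smul a x _ hx =>
    have : (a • x) ∘ₗ T = a • (x ∘ₗ T) := by
      ext f
      simp
    rw [this]
    exact Submodule.smul_mem _ a hx
  | mem x hx =>
    obtain ⟨A, v, hv, rfl⟩ := hx
    rcases hT with ⟨ℓ, hℓ, hℓN, -, rfl⟩ | ⟨q, hqN, hq, -, rfl⟩
    · have hℓ0 : ℓ ≠ 0 := hℓ.ne_zero
      have : lam N n A v ∘ₗ heckeTLin ((n : ℤ) + 2) hℓ hℓN =
          (∑ j ∈ Finset.range ℓ,
            lam N n (⟨ModularForm.heckeMatrix ℓ j, heckeMatrix_mem_posInt hℓ0 j⟩ * A) v) +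
          lam N n (⟨ModularForm.heckeDiagMatrix ℓ, heckeDiagMatrix_mem_posInt hℓ0⟩ * A) v := by
        ext f
        rw [LinearMap.comp_apply, lam_apply, CuspForm.coe_heckeTLin_apply, cocyc_heckeT f hℓ0]
        simp
      rw [this]
      exact Submodule.add_mem _ (Submodule.sum_mem _ fun j _ => lam_mem_periodLattice _ hv)
        (lam_mem_periodLattice _ hv)
    · have hq0 : q ≠ 0 := hq.ne_zero
      have : lam N n A v ∘ₗ heckeULin ((n : ℤ) + 2) hqN =
          (∑ j ∈ Finset.range q,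
            lam N n (⟨ModularForm.heckeMatrix q j, heckeMatrix_mem_posInt hq0 j⟩ * A) v) := by
        ext f
        rw [LinearMap.comp_apply, lam_apply, CuspForm.coe_heckeULin_apply, cocyc_heckeU f hq0]
        simp
      rw [this]
      exact Submodule.sum_mem _ fun j _ => lam_mem_periodLattice _ hv

end Fermat.Agent.S22.H262

end
-- ===== PACK-END S22/H262/Lattice.lean

-- ===== PACK-BEGIN A2/T1/H669/T1.lean
section





/-!
# WALL A2, piece T1 (helper669): assembly `ALG + MOD + IF ⇒ KummerTarget`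

`t1 : T1Statement` (interface v2 of `Fermat/Agent/A2/{Spec,ModDefs}.lean`, helper13):
`AlgSSStatement → IFStatement → ModSSStatement → KummerTarget N q m`.

Proof: descend `f` to a finite level `E₀` (`S18.H602.exists_finite_descent`), enlarge to a good
level `E` (IF), translate `m ∣ div f` on `F̄` into `DivisibleDiv E m y` (T2), apply ALG to the
semistable model (MOD) with `τ := arithmeticRingAut (res τ)`, push the result to `F̄` by `iota`.
-/

set_option autoImplicit false
set_option synthInstance.maxHeartbeats 400000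
set_option maxHeartbeats 1600000

noncomputable section

namespace Fermat.Agent.A2.T1.H669

open ModularCurve AlgebraicCurve Fermat.Agent.A2

/-- The restriction of an element of the decomposition group to `R_E`. -/
def resR {P : ValuationSubring _root_.Fermat.Agent.A2.T1.H669.Qb} {E : IntermediateField ℚ _root_.Fermat.Agent.A2.T1.H669.Qb} (hE : GoodField P E)
    (τ : _root_.Fermat.Agent.A2.T1.H669.Qb ≃ₐ[ℚ] _root_.Fermat.Agent.A2.T1.H669.Qb) (hτ : τ ∈ P.inertiaSubgroupIn ℚ) : ↥(RE P E) ≃+* ↥(RE P E) where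
  toFun r := ⟨hE.res τ hτ (r : E), by
    have hd := Fermat.Agent.A2.H708.mem_decomposition_of_mem_inertiaIn P hτ
    show ((hE.res τ hτ (r : E) : E) : _root_.Fermat.Agent.A2.T1.H669.Qb) ∈ P
    exact Fermat.Agent.A2.H708.apply_mem_of_mem_decomposition P hd r.2⟩
  invFun r := ⟨(hE.res τ hτ).symm (r : E), by
    have hd := Fermat.Agent.A2.H708.mem_decomposition_of_mem_inertiaIn P hτ
    show (((hE.res τ hτ).symm (r : E) : E) : _root_.Fermat.Agent.A2.T1.H669.Qb) ∈ P
    have h1 : τ (((hE.res τ hτ).symm (r : E) : E) : _root_.Fermat.Agent.A2.T1.H669.Qb) = ((r : E) : _root_.Fermat.Agent.A2.T1.H669.Qb) := by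
      have := (hE.res τ hτ).apply_symm_apply (r : E)
      exact congrArg (fun z : E => (z : _root_.Fermat.Agent.A2.T1.H669.Qb)) this
    refine Fermat.Agent.A2.H708.mem_of_apply_mem_of_mem_decomposition P hd ?_
    rw [h1]; exact r.2⟩
  left_inv r := Subtype.ext ((hE.res τ hτ).symm_apply_apply (r : E))
  right_inv r := Subtype.ext ((hE.res τ hτ).apply_symm_apply (r : E))
  map_mul' a b := Subtype.ext (map_mul (hE.res τ hτ) (a : E) (b : E))
  map_add' a b := Subtype.ext (map_add (hE.res τ hτ) (a : E) (b : E))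

theorem natCast_mem_maximalIdeal_RE {P : ValuationSubring _root_.Fermat.Agent.A2.T1.H669.Qb} (E : IntermediateField ℚ _root_.Fermat.Agent.A2.T1.H669.Qb)
    {q : ℕ} (hP : P.LiesOverPrime q) :
    ((q : ℕ) : ↥(RE P E)) ∈ IsLocalRing.maximalIdeal ↥(RE P E) := by
  rw [IsLocalRing.mem_maximalIdeal, mem_nonunits_iff]
  intro hu
  obtain ⟨u, hu⟩ := hu
  have h1 : ((q : ℕ) : ↥(RE P E)) * ((u⁻¹ : (↥(RE P E))ˣ) : ↥(RE P E)) = 1 := by
    rw [← hu]; exact u.mul_inv
  have h2 : ((q : ℕ) : _root_.Fermat.Agent.A2.T1.H669.Qb) * (((((u⁻¹ : (↥(RE P E))ˣ) : ↥(RE P E)) : E) : _root_.Fermat.Agent.A2.T1.H669.Qb)) = 1 := by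
    have := congrArg (fun z : ↥(RE P E) => (((z : E)) : _root_.Fermat.Agent.A2.T1.H669.Qb)) h1
    simpa using this
  have hmem : (((((u⁻¹ : (↥(RE P E))ˣ) : ↥(RE P E)) : E) : _root_.Fermat.Agent.A2.T1.H669.Qb)) ∈ P :=
    ((u⁻¹ : (↥(RE P E))ˣ) : ↥(RE P E)).2
  have hq0 : ((q : ℕ) : _root_.Fermat.Agent.A2.T1.H669.Qb) ≠ 0 := left_ne_zero_of_mul_eq_one h2
  have hval : P.valuation ((q : ℕ) : _root_.Fermat.Agent.A2.T1.H669.Qb) < 1 :=
    (ValuationSubring.mem_nonunits_iff P).1 hP
  have hval2 : P.valuation (((((u⁻¹ : (↥(RE P E))ˣ) : ↥(RE P E)) : E) : _root_.Fermat.Agent.A2.T1.H669.Qb)) ≤ 1 :=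
    (ValuationSubring.valuation_le_one_iff P _).2 hmem
  have : P.valuation (1 : _root_.Fermat.Agent.A2.T1.H669.Qb) < 1 := by
    rw [← h2, map_mul]
    calc P.valuation ((q : ℕ) : _root_.Fermat.Agent.A2.T1.H669.Qb) * P.valuation _
        ≤ P.valuation ((q : ℕ) : _root_.Fermat.Agent.A2.T1.H669.Qb) * 1 := by gcongr
      _ < 1 := by rwa [mul_one]
  rw [map_one] at this
  exact lt_irrefl _ this

/-- Iterates of the restriction of `τ` to a stable level. -/
theorem coe_res_iterate {P : ValuationSubring _root_.Fermat.Agent.A2.T1.H669.Qb} {E : IntermediateField ℚ _root_.Fermat.Agent.A2.T1.H669.Qb}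
    (hE : GoodField P E) (τ : _root_.Fermat.Agent.A2.T1.H669.Qb ≃ₐ[ℚ] _root_.Fermat.Agent.A2.T1.H669.Qb) (hτ : τ ∈ P.inertiaSubgroupIn ℚ) (k : ℕ) (e : E) :
    (((⇑(hE.res τ hτ))^[k] e : E) : _root_.Fermat.Agent.A2.T1.H669.Qb) = (⇑τ)^[k] (e : _root_.Fermat.Agent.A2.T1.H669.Qb) := by
  induction k with
  | zero => rfl
  | succ k ih =>
      rw [Function.iterate_succ_apply', Function.iterate_succ_apply', ← ih]
      rfl

/-- Coefficients of the iterates of the arithmetic action. -/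
theorem coeff_arithmeticRingAut_iterate (F₀ : IntermediateField ℚ (LaurentSeries ℚ))
    {E : IntermediateField ℚ _root_.Fermat.Agent.A2.T1.H669.Qb} (σ : E ≃ₐ[ℚ] E) (k : ℕ) (f : ↥(laurentBaseChange E F₀))
    (n : ℤ) :
    (((⇑(arithmeticRingAut F₀ σ))^[k] f : ↥(laurentBaseChange E F₀)) :
        LaurentSeries E).coeff n = (⇑σ)^[k] ((f : LaurentSeries E).coeff n) := by
  induction k with
  | zero => rfl
  | succ k ih =>
      rw [Function.iterate_succ_apply', Function.iterate_succ_apply', ← ih]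
      rfl

/-- The arithmetic action of an inertia element on a good level has finite order. -/
theorem finite_order_arithmeticRingAut (F₀ : IntermediateField ℚ (LaurentSeries ℚ))
    {P : ValuationSubring _root_.Fermat.Agent.A2.T1.H669.Qb} {E : IntermediateField ℚ _root_.Fermat.Agent.A2.T1.H669.Qb}
    (hE : GoodField P E) (τ : _root_.Fermat.Agent.A2.T1.H669.Qb ≃ₐ[ℚ] _root_.Fermat.Agent.A2.T1.H669.Qb) (hτ : τ ∈ P.inertiaSubgroupIn ℚ) :
    ∃ r : ℕ, 0 < r ∧ ∀ f : ↥(laurentBaseChange E F₀),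
      (⇑(arithmeticRingAut F₀ (hE.res τ hτ)))^[r] f = f := by
  obtain ⟨r, hr0, hr⟩ := hE.finite_order τ hτ
  refine ⟨r, hr0, fun f => Subtype.ext (HahnSeries.ext (funext fun n => ?_))⟩
  rw [coeff_arithmeticRingAut_iterate]
  apply Subtype.ext
  rw [coe_res_iterate]
  exact hr _ (SetLike.coe_mem _)

/-- **T1** (interface v2): `ALG + IF + MOD ⟹ KummerTarget`. -/
theorem t1 : T1Statement := by
  intro hALG hIF hMOD N q m hq hqN hq2 hN hm hqm P hP τ hτ f hf hdiv
  refine kummer_of_levels (modularFunctionFieldFull N) m τ (fun S => ?_) f hf hdiv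
  -- a good level containing `S`
  obtain ⟨E, hSE, hE⟩ := hIF q hq P hP S
  refine ⟨E, hSE, hE.res τ hτ, fun e => rfl, fun y hy0 hdd => ?_⟩
  -- the model
  obtain ⟨D⟩ := hMOD P E N q hq hqN hq2 hN hP hE
  haveI : IsDiscreteValuationRing ↥(RE P E) := hE.dvr
  haveI : HenselianLocalRing ↥(RE P E) := hE.henselian
  haveI : IsAlgClosed (IsLocalRing.ResidueField ↥(RE P E)) := hE.algClosed
  obtain ⟨w, hw⟩ := IsDiscreteValuationRing.exists_irreducible ↥(RE P E)
  obtain ⟨cf⟩ := D.cf w hw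
  obtain ⟨ci⟩ := D.ci w hw
  -- ALG
  have hconcl : AlgSSConclusion E m
      (arithmeticRingAut (modularFunctionFieldFull N) (hE.res τ hτ)) :=
    hALG (R := ↥(RE P E)) (E := E) (F := ↥(FE E N)) w hw q m hq
      (natCast_mem_maximalIdeal_RE E hP) hm hqm D.x D.hx D.hfin D.hconst D.Bf D.Bi D.hBf D.hBi
      cf ci D.sf D.si
      (arithmeticRingAut (modularFunctionFieldFull N) (hE.res τ hτ))
      (hE.res τ hτ).toRingEquiv (resR hE τ hτ)
      (fun e => arithmeticRingAut_algebraMap (modularFunctionFieldFull N) (hE.res τ hτ) e)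
      (fun r => rfl)
      (D.hτx hE τ hτ)
      (finite_order_arithmeticRingAut (modularFunctionFieldFull N) hE τ hτ)
      (D.hτf hE τ hτ w hw) (D.hτi hE τ hτ w hw)
  exact hconcl y hy0 hdd

end Fermat.Agent.A2.T1.H669

end
end
-- ===== PACK-END A2/T1/H669/T1.lean

-- ===== PACK-BEGIN S24/Mod/H997Core.lean
section


/-!
# S24 / MOD — the analytic interface `AnalyticCore N` and the assembly of the modular package

`AnalyticCore N` is the complete list of analytic facts needed (besides the degree bound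
`[FF N : ℚ̄(j)] ≤ |SL₂(ℤ)/Γ₀(N)|`) to produce all the `LocalData` of helper984's interface
`ModularPackage N`.
-/

set_option autoImplicit false

noncomputable section

open ModularCurve HahnSeries UpperHalfPlane
open scoped MatrixGroups

namespace Fermat.Agent.S24.H997

variable {N : ℕ} [NeZero N]

/-- Local data at a point of `ℍ` lying over `a = J(τ₀)`: an expansion (Taylor expansion at `τ₀`),
rotation data for the stabilising element `ε`, and the order of vanishing of `J - a`. -/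
structure PointData (B : HolBase N) (a : ℂ) (ε : SL(2, ℤ)) where
  X : Expansion B
  R : RotData B X ε
  order_J : (X.E (B.JH 1 (one_dvd N) - B.constH a)).order = (R.m : ℤ)

/-- **The analytic interface.** -/
structure AnalyticCore (N : ℕ) [NeZero N] extends HolBase N where
  /-- generic points: `J - a` has a simple zero at some `τ₀` -/
  generic : ∀ a : ℂ, a ≠ 0 → a ≠ 1728 → PointData toHolBase a 1

  /-- the point `i` over `1728`, rotation by `S` -/
  at1728 : PointData toHolBase 1728 ModularGroup.S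
  /-- the point `ρ` over `0`, rotation by `S * T` -/
  at0 : PointData toHolBase 0 (ModularGroup.S * ModularGroup.T)
  /-- the cusp `∞`: `qexp (h ∘ T)` is `qexp h` with `z` replaced by `ζ z` -/
  infζ : ℂ
  inf_hζ : IsPrimitiveRoot infζ N
  inf_shift : ∀ (h : Hol) (n : ℤ),
    (qexp (toHolBase.compH ModularGroup.T h)).coeff n = infζ ^ n * (qexp h).coeff n

namespace HolBase

variable (B : HolBase N)

/-- the expansion at `∞` -/
def qexpExpansion : Expansion B := ⟨B.qexp, B.qexp_injective, B.qexp_const⟩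

theorem qexp_J_one_coeff (k : ℤ) :
    (B.qexp (B.JH 1 (one_dvd N))).coeff k
      = if (N : ℤ) ∣ k then ((jq.coeff (k / (N : ℤ)) : ℚ) : ℂ) else 0 := by
  have := B.qexp_J 1 (one_dvd N) k
  simpa [JH] using this

theorem qexp_J_one_ne_zero : B.qexp (B.JH 1 (one_dvd N)) ≠ 0 := by
  apply ne_zero_of_coeff_ne_zero (g := -(N : ℤ))
  rw [qexp_J_one_coeff, if_pos (dvd_neg.mpr dvd_rfl)]
  have hN : (N : ℤ) ≠ 0 := by exact_mod_cast NeZero.ne N
  rw [Int.neg_ediv_of_dvd dvd_rfl, Int.ediv_self hN, coeff_jq_neg_one]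
  simp

theorem order_qexp_J_one : (B.qexp (B.JH 1 (one_dvd N))).order = -(N : ℤ) := by
  have hN : (N : ℤ) ≠ 0 := by exact_mod_cast NeZero.ne N
  have hNpos : (0 : ℤ) < N := by exact_mod_cast Nat.pos_of_ne_zero (NeZero.ne N)
  apply le_antisymm
  · apply order_le_of_coeff_ne_zero
    rw [qexp_J_one_coeff, if_pos (dvd_neg.mpr dvd_rfl)]
    rw [Int.neg_ediv_of_dvd dvd_rfl, Int.ediv_self hN, coeff_jq_neg_one]
    simp
  · by_contra hlt
    replace hlt := lt_of_not_ge hlt
    have h0 := coeff_order_eq_zero.not.mpr B.qexp_J_one_ne_zero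
    apply h0
    rw [qexp_J_one_coeff]
    split_ifs with hdvd
    · obtain ⟨m, hm⟩ := hdvd
      rw [hm, Int.mul_ediv_cancel_left _ hN]
      have : m < -1 := by
        rw [hm] at hlt
        by_contra hge
        replace hge := le_of_not_gt hge
        have : (N : ℤ) * m ≥ N * (-1) := mul_le_mul_of_nonneg_left hge hNpos.le
        linarith
      rw [coeff_jq_of_lt this]
      simp
    · rfl

end HolBase

/-- Rotation data from a coefficientwise statement `coeff_n (E (h ∘ ε)) = ζ^n coeff_n (E h)`. -/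
def RotData.ofCoeff (B : HolBase N) (X : Expansion B) (ε : SL(2, ℤ)) (m : ℕ) (m_pos : 0 < m)
    (ζ : ℂ) (hζ : IsPrimitiveRoot ζ m)
    (h : ∀ (f : B.Hol) (n : ℤ), (X.E (B.compH ε f)).coeff n = ζ ^ n * (X.E f).coeff n) :
    RotData B X ε where
  m := m
  m_pos := m_pos
  ζ := ζ
  hζ := hζ
  rot f := by
    have hζ0 : ζ ≠ 0 := hζ.ne_zero m_pos.ne'
    by_cases hf : X.E f = 0
    · have : X.E (B.compH ε f) = 0 := by
        ext n; rw [h, hf]; simp
      rw [hf, this]; exact RotRel.zero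
    · have hf' : X.E (B.compH ε f) ≠ 0 := by
        intro h0
        apply hf
        ext n
        have := congrArg (fun s => s.coeff n) h0
        simp only [h, coeff_zero, mul_eq_zero, zpow_ne_zero n hζ0, false_or] at this
        simpa using this
      have hord : (X.E (B.compH ε f)).order = (X.E f).order := by
        apply le_antisymm
        · apply order_le_of_coeff_ne_zero
          rw [h]
          exact mul_ne_zero (zpow_ne_zero _ hζ0) (coeff_order_eq_zero.not.mpr hf)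
        · apply order_le_of_coeff_ne_zero
          have := coeff_order_eq_zero.not.mpr hf'
          rw [h] at this
          exact right_ne_zero_of_mul this
      refine ⟨hord, ?_⟩
      rw [leadingCoeff_eq, leadingCoeff_eq, hord, h]

theorem numOrbits_inv {X : Type*} (π : Equiv.Perm X) : numOrbits π⁻¹ = numOrbits π := by
  unfold numOrbits
  rw [Subgroup.zpowers_inv]

theorem permOf_inv (N : ℕ) [NeZero N] (g : SL(2, ℤ)) : permOf N g⁻¹ = (permOf N g)⁻¹ := by
  ext x
  simp [permOf]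

theorem permOf_one (N : ℕ) [NeZero N] : permOf N 1 = 1 := by
  ext x
  simp [permOf]

namespace AnalyticCore

variable (A : AnalyticCore N)

/-- rotation data at the cusp -/
def infRot : RotData A.toHolBase A.toHolBase.qexpExpansion ModularGroup.T :=
  RotData.ofCoeff A.toHolBase A.toHolBase.qexpExpansion ModularGroup.T N
    (Nat.pos_of_ne_zero (NeZero.ne N)) A.infζ A.inf_hζ A.inf_shift

/-- the local data at `∞` -/
def dataInf : LocalData Kbar (FF N) ℂ (XX N) (jF N)⁻¹ :=
  A.toHolBase.mkLocalData A.toHolBase.qexpExpansion ModularGroup.T A.infRot (jF N)⁻¹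
    (A.qexp (A.toHolBase.JH 1 (one_dvd N)))⁻¹
    (fun g => by rw [map_inv₀, HolBase.sigmaG_jF]; rfl)
    (by
      rw [RotRel.order_inv' A.toHolBase.qexp_J_one_ne_zero, A.toHolBase.order_qexp_J_one, neg_neg]
      rfl)

theorem sigmaG_sub {a : Kbar} {ε : SL(2, ℤ)} (P : PointData A.toHolBase (ιK a) ε)
    (g : SL(2, ℤ)) :
    A.toHolBase.sigmaG P.X g (jF N - algebraMap Kbar (FF N) a)
      = P.X.E (A.toHolBase.JH 1 (one_dvd N) - A.toHolBase.constH (ιK a)) := by
  rw [map_sub, HolBase.sigmaG_jF, HolBase.sigmaG_algebraMap, map_sub, P.X.const]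

/-- the local data attached to point data over `a` -/
def dataOfPoint {a : Kbar} {ε : SL(2, ℤ)} (P : PointData A.toHolBase (ιK a) ε) :
    LocalData Kbar (FF N) ℂ (XX N) (jF N - algebraMap Kbar (FF N) a) :=
  A.toHolBase.mkLocalData P.X ε P.R _ _ (fun g => A.sigmaG_sub P g) P.order_J

/-- all the embeddings `σ_x` agree on `ℚ̄(j)` -/
theorem sigmaX_eq_on_adjoin (X : Expansion A.toHolBase) (x y : XX N) {f : FF N}
    (hf : f ∈ IntermediateField.adjoin Kbar {jF N}) :
    A.toHolBase.sigmaX X x f = A.toHolBase.sigmaX X y f := by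
  induction hf using IntermediateField.adjoin_induction with
  | mem z hz =>
      rw [Set.mem_singleton_iff] at hz
      subst hz
      show A.toHolBase.sigmaG X _ (jF N) = A.toHolBase.sigmaG X _ (jF N)
      rw [HolBase.sigmaG_jF, HolBase.sigmaG_jF]
  | algebraMap c =>
      show A.toHolBase.sigmaG X _ _ = A.toHolBase.sigmaG X _ _
      rw [HolBase.sigmaG_algebraMap, HolBase.sigmaG_algebraMap]
  | add z w _ _ hz hw => rw [map_add, map_add, hz, hw]
  | inv z _ hz => rw [map_inv₀, map_inv₀, hz]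
  | mul z w _ _ hz hw => rw [map_mul, map_mul, hz, hw]

/-- lower bound for the degree: `|SL₂(ℤ)/Γ₀(N)| ≤ [FF N : ℚ̄(j)]`. -/
theorem card_le_finrank (A : AnalyticCore N)
    [FiniteDimensional ↥(IntermediateField.adjoin Kbar {jF N}) (FF N)] :
    Nat.card (XX N) ≤ Module.finrank ↥(IntermediateField.adjoin Kbar {jF N}) (FF N) := by
  classical
  set E := IntermediateField.adjoin Kbar {jF N} with hE
  let X := A.toHolBase.qexpExpansion
  let x0 : XX N := ((1 : SL(2, ℤ)) : XX N)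
  let ψ : ↥E →+* LaurentSeries ℂ := (A.toHolBase.sigmaX X x0).comp (algebraMap ↥E (FF N))
  letI : Algebra ↥E (LaurentSeries ℂ) := ψ.toAlgebra
  let a : XX N → (FF N →ₐ[↥E] LaurentSeries ℂ) := fun x =>
    { A.toHolBase.sigmaX X x with
      commutes' := fun y => A.sigmaX_eq_on_adjoin X x x0 y.2 }
  have ha : Function.Injective a := by
    intro x y hxy
    apply A.toHolBase.sigmaX_injective X
    refine RingHom.ext fun f => ?_
    exact congrArg (fun φ : FF N →ₐ[↥E] LaurentSeries ℂ => φ f) hxy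
  haveI : Module.Free ↥E (FF N) := Module.Free.of_divisionRing ↥E (FF N)
  haveI : Module.Finite ↥E (FF N) := ‹FiniteDimensional ↥E (FF N)›
  haveI : Finite (FF N →ₐ[↥E] LaurentSeries ℂ) := Finite.algHom ↥E (FF N) (LaurentSeries ℂ)
  calc Nat.card (XX N) ≤ Nat.card (FF N →ₐ[↥E] LaurentSeries ℂ) :=
        Nat.card_le_card_of_injective a ha
    _ ≤ Module.finrank ↥E (FF N) := card_algHom_le_finrank ↥E (FF N) (LaurentSeries ℂ)

/-- the local data over a finite point `a : ℚ̄` -/
def dataFin (a : Kbar) : LocalData Kbar (FF N) ℂ (XX N) (jF N - algebraMap Kbar (FF N) a) :=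
  letI := Classical.propDecidable
  if h0 : a = 0 then
    A.dataOfPoint (a := a) (ε := ModularGroup.S * ModularGroup.T)
      (by rw [h0, map_zero]; exact A.at0)
  else if h1 : a = 1728 then
    A.dataOfPoint (a := a) (ε := ModularGroup.S)
      (by
        have : ιK a = 1728 := by rw [h1]; exact map_ofNat ιK 1728
        rw [this]; exact A.at1728)
  else
    A.dataOfPoint (a := a) (ε := 1)
      (A.generic (ιK a)
        (fun h => h0 (ιK_injective (by rw [h, map_zero])))
        (fun h => h1 (ιK_injective (by rw [h]; exact (map_ofNat ιK 1728).symm))))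

theorem dataFin_perm_generic (a : Kbar) (h0 : a ≠ 0) (h1 : a ≠ 1728) :
    (A.dataFin a).perm = 1 := by
  unfold dataFin
  rw [dif_neg h0, dif_neg h1]
  show permOf N 1⁻¹ = 1
  rw [inv_one, permOf_one]

theorem dataFin_zero_perm :
    numOrbits (A.dataFin 0).perm = numOrbits (permOf N (ModularGroup.S * ModularGroup.T)) := by
  unfold dataFin
  rw [dif_pos rfl]
  show numOrbits (permOf N (ModularGroup.S * ModularGroup.T)⁻¹) = _
  rw [permOf_inv, numOrbits_inv]

theorem dataFin_1728_perm :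
    numOrbits (A.dataFin 1728).perm = numOrbits (permOf N ModularGroup.S) := by
  have h0 : (1728 : Kbar) ≠ 0 := by norm_num
  unfold dataFin
  rw [dif_neg h0, dif_pos rfl]
  show numOrbits (permOf N ModularGroup.S⁻¹) = _
  rw [permOf_inv, numOrbits_inv]

theorem dataInf_perm :
    numOrbits A.dataInf.perm = numOrbits (permOf N ModularGroup.T) := by
  show numOrbits (permOf N ModularGroup.T⁻¹) = _
  rw [permOf_inv, numOrbits_inv]

/-- **Assembly.**  All fields of helper984's `ModularPackage N` from the analytic core and the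
degree bound. -/
theorem modularPackage_fields (A : AnalyticCore N)
    (hfd : FiniteDimensional ↥(IntermediateField.adjoin Kbar {jF N}) (FF N))
    (hle : Module.finrank ↥(IntermediateField.adjoin Kbar {jF N}) (FF N) ≤ Nat.card (XX N)) :
    ∃ (dataFin : ∀ a : Kbar, LocalData Kbar (FF N) ℂ (XX N) (jF N - algebraMap Kbar (FF N) a))
      (dataInf : LocalData Kbar (FF N) ℂ (XX N) (jF N)⁻¹),
      Module.finrank ↥(IntermediateField.adjoin Kbar {jF N}) (FF N) = Nat.card (XX N) ∧
      (∀ a : Kbar, a ≠ 0 → a ≠ 1728 → (dataFin a).perm = 1) ∧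
      numOrbits (dataFin 0).perm = numOrbits (permOf N (ModularGroup.S * ModularGroup.T)) ∧
      numOrbits (dataFin 1728).perm = numOrbits (permOf N ModularGroup.S) ∧
      numOrbits dataInf.perm = numOrbits (permOf N ModularGroup.T) :=
  ⟨A.dataFin, A.dataInf, le_antisymm hle A.card_le_finrank, A.dataFin_perm_generic,
    A.dataFin_zero_perm, A.dataFin_1728_perm, A.dataInf_perm⟩

end AnalyticCore

end Fermat.Agent.S24.H997

end
end
-- ===== PACK-END S24/Mod/H997Core.lean

-- ===== PACK-BEGIN S24/Inf/HNF.lean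
section




/-!
# S24 / MOD-INF — Hermite normal form of `diag(d,1)·γ` and its action on `ℍ`
-/

set_option autoImplicit false

noncomputable section

open UpperHalfPlane Complex Matrix
open scoped MatrixGroups

namespace Fermat.Agent.S24

theorem inf_sl_det (γ : SL(2, ℤ)) : γ 0 0 * γ 1 1 - γ 0 1 * γ 1 0 = 1 := by
  have := γ.det_coe
  rw [Matrix.det_fin_two] at this
  exact this

/-- **Hermite normal form.** For `γ ∈ SL₂(ℤ)` and `d > 0` there are `γ' ∈ SL₂(ℤ)` and an upper
triangular matrix `[[a,b],[0,d']]`, `a d' = d`, with `diag(d,1)·γ = γ'·[[a,b],[0,d']]`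
(written entrywise). -/
theorem inf_exists_hnf (d : ℕ) (hd : 0 < d) (γ : SL(2, ℤ)) :
    ∃ (γ' : SL(2, ℤ)) (a d' : ℕ) (b : ℤ), 0 < a ∧ 0 < d' ∧ a * d' = d ∧
      (d : ℤ) * γ 0 0 = γ' 0 0 * a ∧ (d : ℤ) * γ 0 1 = γ' 0 0 * b + γ' 0 1 * d' ∧
      γ 1 0 = γ' 1 0 * a ∧ γ 1 1 = γ' 1 0 * b + γ' 1 1 * d' := by
  have hdet := inf_sl_det γ
  generalize γ 0 0 = p at hdet ⊢
  generalize γ 0 1 = q at hdet ⊢
  generalize γ 1 0 = r at hdet ⊢
  generalize γ 1 1 = s at hdet ⊢
  have hgpos : 0 < Int.gcd (d : ℤ) r := Int.gcd_pos_of_ne_zero_left _ (by exact_mod_cast hd.ne')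
  obtain ⟨d₁, r₁, hcop, hd₁, hr₁⟩ := Int.exists_gcd_one hgpos
  generalize Int.gcd (d : ℤ) r = a at hgpos hd₁ hr₁
  have ha0 : (0 : ℤ) < a := by exact_mod_cast hgpos
  have hd0 : (0 : ℤ) < d := by exact_mod_cast hd
  have hd₁pos : 0 < d₁ := by
    by_contra h
    rw [not_lt] at h
    have : d₁ * (a : ℤ) ≤ 0 := mul_nonpos_of_nonpos_of_nonneg h ha0.le
    omega
  -- coprimality of the first column
  have hc1 : IsCoprime d₁ r₁ := Int.isCoprime_iff_gcd_eq_one.mpr hcop
  have hc2 : IsCoprime p r₁ := by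
    refine ⟨s, -(q * a), ?_⟩
    rw [hr₁] at hdet
    linear_combination hdet
  have hc3 : IsCoprime (d₁ * p) r₁ := hc1.mul_left hc2
  obtain ⟨v, u', hbez⟩ := hc3
  -- `v * (d₁ p) + u' * r₁ = 1`; the new matrix is `[[d₁ p, -u'], [r₁, v]]`
  refine ⟨⟨!![d₁ * p, -u'; r₁, v], by rw [Matrix.det_fin_two_of]; linear_combination hbez⟩,
    a, d₁.toNat, v * (d : ℤ) * q + u' * s, hgpos, by omega, ?_, ?_, ?_, ?_, ?_⟩
  · have : ((a * d₁.toNat : ℕ) : ℤ) = (d : ℤ) := by
      push_cast
      rw [Int.toNat_of_nonneg hd₁pos.le, hd₁]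
      ring
    exact_mod_cast this
  · simp only [Matrix.of_apply, Matrix.cons_val', Matrix.cons_val_zero, Matrix.cons_val_fin_one]
    rw [hd₁]; ring
  · simp only [Matrix.of_apply, Matrix.cons_val', Matrix.cons_val_zero, Matrix.cons_val_one,
      Matrix.cons_val_fin_one, Int.toNat_of_nonneg hd₁pos.le]
    rw [hr₁] at hdet
    rw [hd₁]
    linear_combination (-(a * d₁ * q) : ℤ) * hbez + (-(d₁ * u') : ℤ) * hdet
  · simp only [Matrix.of_apply, Matrix.cons_val', Matrix.cons_val_zero, Matrix.cons_val_one,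
      Matrix.cons_val_fin_one]
    exact hr₁
  · simp only [Matrix.of_apply, Matrix.cons_val', Matrix.cons_val_zero, Matrix.cons_val_one,
      Matrix.cons_val_fin_one, Int.toNat_of_nonneg hd₁pos.le]
    rw [hr₁] at hdet
    rw [hd₁]
    linear_combination (-s : ℤ) * hbez + (v * d₁ : ℤ) * hdet

theorem inf_sl_denom_ne_zero (γ : SL(2, ℤ)) (τ : ℍ) :
    ((γ 1 0 : ℤ) : ℂ) * τ + ((γ 1 1 : ℤ) : ℂ) ≠ 0 := by
  have h := UpperHalfPlane.denom_ne_zero (γ : GL (Fin 2) ℝ) τ
  simpa [UpperHalfPlane.denom] using h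

theorem inf_sl_smul_coe (γ : SL(2, ℤ)) (τ : ℍ) :
    ((γ • τ : ℍ) : ℂ) = (((γ 0 0 : ℤ) : ℂ) * τ + ((γ 0 1 : ℤ) : ℂ)) /
      (((γ 1 0 : ℤ) : ℂ) * τ + ((γ 1 1 : ℤ) : ℂ)) := by
  rw [UpperHalfPlane.coe_specialLinearGroup_apply]
  simp

/-- The matrix identity `diag(d,1)·γ = γ'·[[a,b],[0,d']]` on the level of `ℍ`. -/
theorem inf_aff_smul_eq {d a d' : ℕ} {b : ℤ} (hd : 0 < d) (ha : 0 < a) (hd' : 0 < d')
    (γ γ' : SL(2, ℤ))
    (h00 : (d : ℤ) * γ 0 0 = γ' 0 0 * a) (h01 : (d : ℤ) * γ 0 1 = γ' 0 0 * b + γ' 0 1 * d')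
    (h10 : γ 1 0 = γ' 1 0 * a) (h11 : γ 1 1 = γ' 1 0 * b + γ' 1 1 * d') (τ : ℍ) :
    infAff d 0 1 (γ • τ) = γ' • infAff a b d' τ := by
  apply UpperHalfPlane.ext
  rw [infAff_coe hd one_pos, inf_sl_smul_coe γ' (infAff a b d' τ), infAff_coe ha hd',
    inf_sl_smul_coe γ τ]
  have hden := inf_sl_denom_ne_zero γ τ
  have hden' := inf_sl_denom_ne_zero γ' (infAff a b d' τ)
  rw [infAff_coe ha hd'] at hden'
  have hd'0 : (d' : ℂ) ≠ 0 := by exact_mod_cast hd'.ne'
  have e00 : (d : ℂ) * ((γ 0 0 : ℤ) : ℂ) = ((γ' 0 0 : ℤ) : ℂ) * a := by exact_mod_cast h00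
  have e01 : (d : ℂ) * ((γ 0 1 : ℤ) : ℂ) = ((γ' 0 0 : ℤ) : ℂ) * b + ((γ' 0 1 : ℤ) : ℂ) * d' := by
    exact_mod_cast h01
  have e10 : ((γ 1 0 : ℤ) : ℂ) = ((γ' 1 0 : ℤ) : ℂ) * a := by exact_mod_cast h10
  have e11 : ((γ 1 1 : ℤ) : ℂ) = ((γ' 1 0 : ℤ) : ℂ) * b + ((γ' 1 1 : ℤ) : ℂ) * d' := by
    exact_mod_cast h11
  have hden'' : ((γ' 1 0 : ℤ) : ℂ) * (((a : ℂ) * τ + b) / d') + ((γ' 1 1 : ℤ) : ℂ) =
      (((γ 1 0 : ℤ) : ℂ) * τ + ((γ 1 1 : ℤ) : ℂ)) / d' := by
    rw [e10, e11]
    field_simp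
    ring
  have hnum : ((γ' 0 0 : ℤ) : ℂ) * (((a : ℂ) * τ + b) / d') + ((γ' 0 1 : ℤ) : ℂ) =
      ((d : ℂ) * (((γ 0 0 : ℤ) : ℂ) * τ + ((γ 0 1 : ℤ) : ℂ))) / d' := by
    rw [mul_add, ← mul_assoc, e00, e01]
    field_simp
    ring
  rw [hnum, hden'']
  field_simp
  simp

end Fermat.Agent.S24

end
end
-- ===== PACK-END S24/Inf/HNF.lean

-- ===== PACK-BEGIN S24/H117/LocalThm.lean
section




/-!
# S24 / H117 — the local theorem (LT2, LT3)

For `L : LocalData K F C X t` with `[F : E] = #X` (`E ⊆ K(t)`):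

* `exists_placeOf_eq` (LT2): every place `v` of `F/K` with `0 < v.ord t` is induced by one of
  the embeddings `L.σ x`;
* `localThm` (LT3): if moreover `#X ≤ ∑_{v | t} v.ord t`, then the places over `t = 0`
  correspond bijectively to the cycles of `L.perm`, and `v.ord t` is the length of the cycle.
-/

set_option autoImplicit false
set_option linter.style.haveILetI false

noncomputable section

open AlgebraicCurve IntermediateField

namespace Fermat.Agent.S24.H117

variable {K F : Type*} [Field K] [Field F] [Algebra K F] [CharZero K]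
variable {C : Type*} [Field C] {X : Type*} [Finite X]
variable {t : F} (L : LocalData K F C X t)

omit [CharZero K] [Finite X] in
theorem order_leadingCoeff_iterate (x : X) (f : F) (i : ℕ) :
    (L.σ ((L.perm ^ i) x) f).order = (L.σ x f).order ∧
      (L.σ ((L.perm ^ i) x) f).leadingCoeff
        = (L.ζ ^ (L.σ x f).order) ^ i * (L.σ x f).leadingCoeff := by
  induction i with
  | zero => simp
  | succ n ih =>
    rw [pow_succ', Equiv.Perm.mul_apply]
    refine ⟨by rw [L.σ_perm_order, ih.1], ?_⟩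
    rw [L.σ_perm_leadingCoeff, ih.1, ih.2, pow_succ]
    ring

omit [CharZero K] [Finite X] in
/-- The ramification index `e = ord_v t` divides every period of `x` under `perm`. -/
theorem ord_t_dvd_of_pow_apply_eq (x : X) (i : ℕ) (hi : (L.perm ^ i) x = x) :
    (placeOf L x).ord t ∣ (i : ℤ) := by
  obtain ⟨π, hπ0, hπ⟩ := exists_ord_eq_one (placeOf L x)
  have hord : (L.σ x π).order = mult L x := by rw [order_eq, hπ, mul_one]
  have hlc : (L.σ x π).leadingCoeff ≠ 0 :=
    HahnSeries.leadingCoeff_ne_zero.mpr ((map_ne_zero (L.σ x)).mpr hπ0)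
  have h := (order_leadingCoeff_iterate L x π i).2
  rw [hi, hord, zpow_natCast] at h
  have h1 : (L.ζ ^ mult L x) ^ i = 1 := by
    have : (L.ζ ^ mult L x) ^ i * (L.σ x π).leadingCoeff = 1 * (L.σ x π).leadingCoeff := by
      rw [one_mul]; exact h.symm
    exact mul_right_cancel₀ hlc this
  rw [← pow_mul] at h1
  have h2 : L.m ∣ mult L x * i := (L.hζ.pow_eq_one_iff_dvd _).mp h1
  have h3 : ((mult L x : ℤ) * (placeOf L x).ord t) ∣ (mult L x : ℤ) * i := by
    rw [mult_mul_ord_t]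
    exact_mod_cast h2
  have hk : (mult L x : ℤ) ≠ 0 := by exact_mod_cast (mult_pos L x).ne'
  exact (mul_dvd_mul_iff_left hk).mp h3

variable (E : IntermediateField K F) (hE : E ≤ K⟮t⟯) [FiniteDimensional E F]
  (hrank : Module.finrank E F = Nat.card X)

include hE hrank in
/-- **LT2.** Every place over `t = 0` is induced by one of the embeddings. -/
theorem exists_placeOf_eq (v : Place K F) (hv : 0 < v.ord t) : ∃ x, placeOf L x = v := by
  classical
  by_contra hcon
  push Not at hcon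
  haveI : Fintype X := Fintype.ofFinite X
  have hvs : v ∉ Finset.univ.image (placeOf L) := by
    intro h
    obtain ⟨x, -, hx⟩ := Finset.mem_image.mp h
    exact hcon x hx
  obtain ⟨f, hf1, hf2⟩ := exists_ord_neg_forall_pos v _ hvs
  have hf3 : ∀ x, 0 ≤ ((L.σ x) f).order := fun x =>
    (ord_placeOf_nonneg_iff L x f).mp
      (hf2 _ (Finset.mem_image_of_mem _ (Finset.mem_univ x))).le
  have := ord_nonneg_of_forall_order_nonneg L E hE hrank f hf3 v hv
  omega

include hE hrank in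
theorem mem_image_placeOf_iff [Fintype X] [DecidableEq (Place K F)] (v : Place K F) :
    v ∈ Finset.univ.image (placeOf L) ↔ 0 < v.ord t := by
  constructor
  · intro h
    obtain ⟨x, -, rfl⟩ := Finset.mem_image.mp h
    exact ord_t_pos L x
  · intro h
    obtain ⟨x, rfl⟩ := exists_placeOf_eq L E hE hrank v h
    exact Finset.mem_image_of_mem _ (Finset.mem_univ x)

include L hE hrank in
/-- The set of places over `t = 0` is finite. -/
theorem finite_places_over : {v : Place K F | 0 < v.ord t}.Finite := by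
  classical
  haveI : Fintype X := Fintype.ofFinite X
  refine (Finset.univ.image (placeOf L)).finite_toSet.subset ?_
  intro v hv
  exact (mem_image_placeOf_iff L E hE hrank v).mpr hv

include hE hrank in
/-- **LT3 (local theorem).**  Assume the fundamental inequality `#X ≤ ∑_{v | t} ord_v t`.
Then the places over `t = 0` are in bijection with the cycles of `perm`, the ramification index
of the place induced by `x` is the length of the cycle through `x`, and
`∑_{v | t} ord_v t = #X`. -/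
theorem localThm (s : Finset (Place K F)) (hs : ∀ v, v ∈ s ↔ 0 < v.ord t)
    (hsum : (Nat.card X : ℤ) ≤ ∑ v ∈ s, v.ord t) :
    s.card = numOrbits L.perm ∧
      (∀ x, (Nat.card (MulAction.orbit (Subgroup.zpowers L.perm) x) : ℤ) = (placeOf L x).ord t) ∧
      (∑ v ∈ s, v.ord t = Nat.card X) := by
  classical
  haveI : Fintype X := Fintype.ofFinite X
  have hs' : s = Finset.univ.image (placeOf L) := by
    ext v
    rw [hs, mem_image_placeOf_iff L E hE hrank]
  subst hs'
  have hcast : ∀ v ∈ Finset.univ.image (placeOf L), (((v.ord t).toNat : ℕ) : ℤ) = v.ord t := by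
    intro v hv
    exact Int.toNat_of_nonneg ((hs v).mp hv).le
  have hsumNat : Fintype.card X ≤ ∑ v ∈ Finset.univ.image (placeOf L), (v.ord t).toNat := by
    have : (Nat.card X : ℤ) ≤ ((∑ v ∈ Finset.univ.image (placeOf L), (v.ord t).toNat : ℕ) : ℤ) := by
      rw [Nat.cast_sum, Finset.sum_congr rfl hcast]
      exact hsum
    rw [Nat.card_eq_fintype_card] at this
    exact_mod_cast this
  obtain ⟨h1, h2, h3⟩ := orbit_count_squeeze L.perm (placeOf L) (fun v => (v.ord t).toNat)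
    (placeOf_perm L)
    (fun x i hi => by
      have := ord_t_dvd_of_pow_apply_eq L x i hi
      have hpos := ord_t_pos L x
      exact Int.natCast_dvd_natCast.mp (by rwa [Int.toNat_of_nonneg hpos.le]))
    hsumNat
  refine ⟨by rw [numOrbits, h1], fun x => ?_, ?_⟩
  · rw [h2 x]
    exact Int.toNat_of_nonneg (ord_t_pos L x).le
  · have : ((∑ v ∈ Finset.univ.image (placeOf L), (v.ord t).toNat : ℕ) : ℤ) = Fintype.card X := by
      exact_mod_cast h3
    rw [Nat.cast_sum, Finset.sum_congr rfl hcast] at this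
    rw [this, Nat.card_eq_fintype_card]

end Fermat.Agent.S24.H117

end
end
-- ===== PACK-END S24/H117/LocalThm.lean

-- ===== PACK-BEGIN S29/H942/MeroRoot.lean
section


/-!
# `p`-th roots of meromorphic functions on the upper half plane

Main result: `exists_meromorphic_root_upperHalfPlane`. If `f` is meromorphic on the upper half
plane `{z | 0 < z.im}`, nowhere locally zero, and all its orders are divisible by `p ≠ 0`, then
there is a function `h`, meromorphic (in normal form) on the upper half plane, with `h ^ p = f`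
away from a discrete set.  The root is unique up to a `p`-th root of unity
(`IsNFRootOn.exists_eq_mul`).
-/

set_option autoImplicit false

noncomputable section

open Filter Topology Set Complex MeromorphicOn Function Metric

namespace Fermat.Agent.S29.H942

/-- The upper half plane as a subset of `ℂ`. -/
def uhpSet : Set ℂ := {z : ℂ | 0 < z.im}

lemma mem_uhpSet {z : ℂ} : z ∈ uhpSet ↔ 0 < z.im := Iff.rfl

lemma isOpen_uhpSet : IsOpen uhpSet := isOpen_lt continuous_const Complex.continuous_im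

/-- The centres of the exhausting balls. -/
def exhCenter (n : ℕ) : ℂ := ((n : ℝ) + 1 : ℝ) * I

/-- The radii of the exhausting balls. -/
def exhRadius (n : ℕ) : ℝ := (n : ℝ) + 1 - 1 / ((n : ℝ) + 2)

lemma exhRadius_pos (n : ℕ) : 0 < exhRadius n := by
  unfold exhRadius
  have h1 : (0 : ℝ) ≤ n := Nat.cast_nonneg n
  have h2 : 1 / ((n : ℝ) + 2) < 1 := by
    rw [div_lt_one (by linarith)]
    linarith
  linarith

lemma exhRadius_lt (n : ℕ) : exhRadius n < (n : ℝ) + 1 := by
  unfold exhRadius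
  have h1 : (0 : ℝ) ≤ n := Nat.cast_nonneg n
  have h2 : 0 < 1 / ((n : ℝ) + 2) := by positivity
  linarith

lemma exhCenter_im (n : ℕ) : (exhCenter n).im = (n : ℝ) + 1 := by
  simp [exhCenter]

lemma exhCenter_re (n : ℕ) : (exhCenter n).re = 0 := by
  simp [exhCenter]

lemma closedBall_exh_subset (n : ℕ) : closedBall (exhCenter n) (exhRadius n) ⊆ uhpSet := by
  intro z hz
  rw [mem_closedBall, dist_eq_norm] at hz
  have h1 : |(z - exhCenter n).im| ≤ ‖z - exhCenter n‖ := Complex.abs_im_le_norm _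
  have h2 : (z - exhCenter n).im = z.im - ((n : ℝ) + 1) := by
    rw [Complex.sub_im, exhCenter_im]
  have h3 := (abs_le.1 (h1.trans hz)).1
  rw [h2] at h3
  have h4 := exhRadius_lt n
  rw [mem_uhpSet]
  linarith

lemma ball_exh_subset (n : ℕ) : ball (exhCenter n) (exhRadius n) ⊆ uhpSet :=
  ball_subset_closedBall.trans (closedBall_exh_subset n)

lemma ball_exh_mono : Monotone fun n => ball (exhCenter n) (exhRadius n) := by
  refine monotone_nat_of_le_succ fun n => ?_
  apply ball_subset_ball'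
  have hd : dist (exhCenter n) (exhCenter (n + 1)) = 1 := by
    rw [dist_eq_norm]
    have : exhCenter n - exhCenter (n + 1) = -I := by
      simp only [exhCenter]
      push_cast
      ring
    rw [this, norm_neg, Complex.norm_I]
  rw [hd]
  unfold exhRadius
  have h1 : (0 : ℝ) ≤ n := Nat.cast_nonneg n
  have h2 : 1 / (((n + 1 : ℕ) : ℝ) + 2) ≤ 1 / ((n : ℝ) + 2) := by
    apply one_div_le_one_div_of_le (by linarith)
    push_cast
    linarith
  push_cast at h2 ⊢
  linarith

lemma iUnion_ball_exh : (⋃ n, ball (exhCenter n) (exhRadius n)) = uhpSet := by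
  apply Subset.antisymm
  · exact iUnion_subset fun n => ball_exh_subset n
  · intro z hz
    rw [mem_uhpSet] at hz
    obtain ⟨n, hn⟩ := exists_nat_gt ((z.re ^ 2 + z.im ^ 2 + 2) / (2 * z.im))
    refine mem_iUnion.2 ⟨n, ?_⟩
    rw [mem_ball, dist_eq_norm]
    have hR : (0 : ℝ) < (n : ℝ) + 1 := by positivity
    have hr := exhRadius_pos n
    have hlt : (z.re ^ 2 + z.im ^ 2 + 2) < 2 * z.im * ((n : ℝ) + 1) := by
      have := (div_lt_iff₀ (by linarith : (0 : ℝ) < 2 * z.im)).1 hn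
      nlinarith
    have hsq : ‖z - exhCenter n‖ ^ 2 < exhRadius n ^ 2 := by
      have h1 : ‖z - exhCenter n‖ ^ 2 = z.re ^ 2 + (z.im - ((n : ℝ) + 1)) ^ 2 := by
        rw [Complex.sq_norm, Complex.normSq_apply, Complex.sub_re, Complex.sub_im,
          exhCenter_re, exhCenter_im]
        ring
      rw [h1]
      have h2 : exhRadius n ^ 2 ≥ ((n : ℝ) + 1) ^ 2 - 2 := by
        unfold exhRadius
        have h0 : (0 : ℝ) ≤ n := Nat.cast_nonneg n
        have h3 : 0 < 1 / ((n : ℝ) + 2) := by positivity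
        have h4 : ((n : ℝ) + 1) * (1 / ((n : ℝ) + 2)) ≤ 1 := by
          rw [mul_one_div, div_le_one (by linarith)]
          linarith
        nlinarith [sq_nonneg (1 / ((n : ℝ) + 2))]
      nlinarith
    exact lt_of_pow_lt_pow_left₀ 2 hr.le hsq

/-- **Meromorphic `p`-th roots on the upper half plane** (normal form version). -/
theorem exists_isNFRootOn_upperHalfPlane {f : ℂ → ℂ} (hf : MeromorphicOn f uhpSet)
    (hford : ∀ z ∈ uhpSet, meromorphicOrderAt f z ≠ ⊤) {p : ℕ} (hp : p ≠ 0)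
    (hdiv : ∀ z ∈ uhpSet, (p : ℤ) ∣ (meromorphicOrderAt f z).untop₀) :
    ∃ h : ℂ → ℂ, IsNFRootOn h f uhpSet p := by
  have := exists_isNFRootOn_iUnion (f := f) hp (fun n => ball (exhCenter n) (exhRadius n))
    (fun n => isOpen_ball)
    (fun n => isSimplyConnected_of_convex (convex_ball _ _)
      ⟨exhCenter n, mem_ball_self (exhRadius_pos n)⟩)
    ball_exh_mono
    (fun n => hf.mono_set (ball_exh_subset n))
    (fun n x hx => hford x (ball_exh_subset n hx))
    (fun n => divisor_support_finite_of_subset (hf.mono_set (closedBall_exh_subset n))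
      (isCompact_closedBall _ _) ball_subset_closedBall)
    (fun n x hx => hdiv x (ball_exh_subset n hx))
  rwa [iUnion_ball_exh] at this

/-- Roots in normal form are roots modulo equality on codiscrete sets. -/
lemma IsNFRootOn.eventuallyEq_codiscreteWithin {h f : ℂ → ℂ} {V : Set ℂ} {p : ℕ}
    (hh : IsNFRootOn h f V p) : (h ^ p) =ᶠ[codiscreteWithin V] f := by
  rw [EventuallyEq, eventually_iff, mem_codiscreteWithin_iff_forall_mem_nhdsNE]
  intro x hx
  filter_upwards [hh.2 x hx] with y hy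
  exact Or.inl hy

/-- **Meromorphic `p`-th roots on the upper half plane.** -/
theorem exists_meromorphic_root_upperHalfPlane {f : ℂ → ℂ}
    (hf : MeromorphicOn f {z : ℂ | 0 < z.im})
    (hford : ∀ z : ℂ, 0 < z.im → meromorphicOrderAt f z ≠ ⊤) {p : ℕ} (hp : p ≠ 0)
    (hdiv : ∀ z : ℂ, 0 < z.im → (p : ℤ) ∣ (meromorphicOrderAt f z).untop₀) :
    ∃ h : ℂ → ℂ, MeromorphicNFOn h {z : ℂ | 0 < z.im} ∧
      (∀ z : ℂ, 0 < z.im → (h ^ p) =ᶠ[𝓝[≠] z] f) ∧
      (h ^ p) =ᶠ[codiscreteWithin {z : ℂ | 0 < z.im}] f := by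
  obtain ⟨h, hh⟩ := exists_isNFRootOn_upperHalfPlane (f := f) hf hford hp hdiv
  exact ⟨h, hh.1, hh.2, hh.eventuallyEq_codiscreteWithin⟩

/-- **Uniqueness of meromorphic `p`-th roots on the upper half plane** up to a root of unity. -/
theorem meromorphic_root_upperHalfPlane_unique {f h₁ h₂ : ℂ → ℂ}
    (hford : ∀ z : ℂ, 0 < z.im → meromorphicOrderAt f z ≠ ⊤) {p : ℕ} (hp : p ≠ 0)
    (h₁NF : MeromorphicNFOn h₁ {z : ℂ | 0 < z.im})
    (h₁pow : ∀ z : ℂ, 0 < z.im → (h₁ ^ p) =ᶠ[𝓝[≠] z] f)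
    (h₂NF : MeromorphicNFOn h₂ {z : ℂ | 0 < z.im})
    (h₂pow : ∀ z : ℂ, 0 < z.im → (h₂ ^ p) =ᶠ[𝓝[≠] z] f) :
    ∃ ζ : ℂ, ζ ^ p = 1 ∧ ∀ z : ℂ, 0 < z.im → h₂ z = ζ * h₁ z := by
  have hconv : Convex ℝ uhpSet := by
    have : uhpSet = Complex.im ⁻¹' (Ioi 0) := rfl
    rw [this]
    exact (convex_Ioi (0 : ℝ)).is_linear_preimage Complex.imLm.isLinear
  exact IsNFRootOn.exists_eq_mul hp isOpen_uhpSet hconv.isPreconnected hford
    ⟨h₁NF, h₁pow⟩ ⟨h₂NF, h₂pow⟩

end Fermat.Agent.S29.H942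

end
end
-- ===== PACK-END S29/H942/MeroRoot.lean

-- ===== PACK-BEGIN S18/Mod/H216/IntE.lean
section



/-!
# S18 / MOD (helper216): the ring `intE` of `E`-rational integral series and its two homs

* `toOm : intE M A E →+* Om M`   (injective, image in `Fc M E`),
* `redE : intE M A E →+* κ((q))` (`κ` = residue field of `A`),
* `mem_Vc_iff'` : `f ∈ Vc ↔ ∃ U₁ U₂ : intE, redE U₂ ≠ 0 ∧ f * toOm U₂ = toOm U₁`,
* constants `cInt`, the coordinate `jInt`, and division of a series by a constant (`divC`).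
-/

set_option autoImplicit false
set_option linter.unusedSectionVars false

noncomputable section

namespace Fermat.Agent.S18.Mod.H216

open ModularCurve AlgebraicCurve HahnSeries Fermat.Agent.S18 Fermat.Agent.S18.Mod

variable (M : ℕ) (A : ValuationSubring Qb) (E : IntermediateField ℚ Qb)

/-- `A((q)) → Q̄((q))`. -/
abbrev inclA : LaurentSeries ↥A →+* LaurentSeries Qb := coeffMap A.subtype

/-- `A((q)) → κ((q))`. -/
abbrev redA : LaurentSeries ↥A →+* LaurentSeries (IsLocalRing.ResidueField ↥A) :=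
  coeffMap (IsLocalRing.residue ↥A)

theorem inclA_injective : Function.Injective (inclA A) := H516.incl_injective A

theorem inclA_mem_bar (U : ↥(intE M A E)) :
    inclA A (U : LaurentSeries ↥A) ∈ modularFunctionFieldBar M := by
  obtain ⟨f, -, hfU⟩ := U.2.2
  rw [← hfU]
  exact f.2

/-- The element of `Ω` defined by an integral series. -/
def toOm : ↥(intE M A E) →+* Om M where
  toFun U := ⟨inclA A (U : LaurentSeries ↥A), inclA_mem_bar M A E U⟩
  map_one' := Subtype.ext (by simp)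
  map_mul' U W := Subtype.ext (by simp)
  map_zero' := Subtype.ext (by simp)
  map_add' U W := Subtype.ext (by simp)

@[simp] theorem coe_toOm (U : ↥(intE M A E)) :
    ((toOm M A E U : Om M) : LaurentSeries Qb) = inclA A (U : LaurentSeries ↥A) := rfl

theorem toOm_injective : Function.Injective (toOm M A E) := by
  intro U W h
  apply Subtype.ext
  apply inclA_injective A
  exact congrArg Subtype.val h

theorem toOm_mem_Fc (U : ↥(intE M A E)) : toOm M A E U ∈ Fc M E := by
  obtain ⟨f, hf, hfU⟩ := U.2.2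
  have : toOm M A E U = f := Subtype.ext hfU.symm
  rw [this]
  exact hf

/-- The reduction of an integral series. -/
def redE : ↥(intE M A E) →+* LaurentSeries (IsLocalRing.ResidueField ↥A) :=
  (redA A).comp (intE M A E).subtype

@[simp] theorem redE_apply (U : ↥(intE M A E)) :
    redE M A E U = redA A (U : LaurentSeries ↥A) := rfl

theorem toOm_ne_zero_of_redE {U : ↥(intE M A E)} (h : redE M A E U ≠ 0) :
    toOm M A E U ≠ 0 := by
  intro h0
  apply h
  have : U = 0 := toOm_injective M A E (by rw [h0, map_zero])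
  rw [this, map_zero]

theorem mem_Vc_iff' {f : Om M} :
    f ∈ Vc M A E ↔ ∃ U₁ U₂ : ↥(intE M A E), redE M A E U₂ ≠ 0 ∧
      f * toOm M A E U₂ = toOm M A E U₁ := by
  constructor
  · rintro ⟨-, U₁, U₂, h₁, h₂, hne, heq⟩
    exact ⟨⟨U₁, (mem_intE M A E).mpr h₁⟩, ⟨U₂, (mem_intE M A E).mpr h₂⟩, hne, Subtype.ext heq⟩
  · rintro ⟨U₁, U₂, hne, heq⟩
    have h2 := toOm_ne_zero_of_redE M A E hne
    have hf : f = toOm M A E U₁ * (toOm M A E U₂)⁻¹ := by
      rw [← heq, mul_assoc, mul_inv_cancel₀ h2, mul_one]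
    refine ⟨?_, U₁, U₂, (mem_intE M A E).mp U₁.2, (mem_intE M A E).mp U₂.2, hne, ?_⟩
    · rw [hf]
      exact mul_mem (toOm_mem_Fc M A E U₁) (inv_mem (toOm_mem_Fc M A E U₂))
    · exact congrArg Subtype.val heq

theorem toOm_mem_Vc (U : ↥(intE M A E)) : toOm M A E U ∈ Vc M A E :=
  (mem_Vc_iff' M A E).mpr ⟨U, 1, by rw [map_one]; exact one_ne_zero, by rw [map_one, mul_one]⟩

theorem inv_toOm_mem_Vc {U : ↥(intE M A E)} (h : redE M A E U ≠ 0) :
    (toOm M A E U)⁻¹ ∈ Vc M A E :=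
  (mem_Vc_iff' M A E).mpr ⟨1, U, h, by
    rw [map_one, inv_mul_cancel₀ (toOm_ne_zero_of_redE M A E h)]⟩

/-! ### Constants -/

theorem mem_Ec_iff {r : Om M} : r ∈ Ec M E ↔ ∃ c : Qb, c ∈ E ∧ algebraMap Qb (Om M) c = r := by
  constructor
  · rintro ⟨c, hc, rfl⟩
    exact ⟨c, hc, rfl⟩
  · rintro ⟨c, hc, rfl⟩
    exact ⟨c, hc, rfl⟩

theorem mem_Rc_iff {r : Om M} :
    r ∈ Rc M A E ↔ ∃ c : Qb, c ∈ A ∧ c ∈ E ∧ algebraMap Qb (Om M) c = r := by
  constructor
  · rintro ⟨c, ⟨hcA, hcE⟩, rfl⟩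
    exact ⟨c, hcA, hcE, rfl⟩
  · rintro ⟨c, hcA, hcE, rfl⟩
    exact ⟨c, ⟨hcA, hcE⟩, rfl⟩

theorem coe_algebraMap_Om (c : Qb) :
    ((algebraMap Qb (Om M) c : Om M) : LaurentSeries Qb) = HahnSeries.C c := by
  show algebraMap Qb (LaurentSeries Qb) c = _
  rw [algebraMap_laurentSeries_eq_single, ← HahnSeries.C_apply]

theorem Ec_le_Fc : Ec M E ≤ Fc M E := fun _ h => Subfield.subset_closure (Or.inl h)

theorem Rc_le_Ec : (Rc M A E : Set (Om M)) ⊆ Ec M E := by
  intro r hr
  obtain ⟨c, -, hcE, rfl⟩ := (mem_Rc_iff M A E).mp hr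
  exact (mem_Ec_iff M E).mpr ⟨c, hcE, rfl⟩

theorem C_mem_intE {c : Qb} (hcA : c ∈ A) (hcE : c ∈ E) :
    (HahnSeries.C (⟨c, hcA⟩ : ↥A) : LaurentSeries ↥A) ∈ intE M A E := by
  rw [mem_intE]
  refine ⟨fun n => ?_, algebraMap Qb (Om M) c, Ec_le_Fc M E ((mem_Ec_iff M E).mpr ⟨c, hcE, rfl⟩), ?_⟩
  · rw [HahnSeries.C_apply, HahnSeries.coeff_single]
    split_ifs
    · exact hcE
    · exact zero_mem _
  · rw [coe_algebraMap_Om, H516.coeffMap_C]
    rfl

/-- The constant series of `c ∈ A ∩ E`. -/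
def cInt {c : Qb} (hcA : c ∈ A) (hcE : c ∈ E) : ↥(intE M A E) :=
  ⟨HahnSeries.C (⟨c, hcA⟩ : ↥A), C_mem_intE M A E hcA hcE⟩

theorem toOm_cInt {c : Qb} (hcA : c ∈ A) (hcE : c ∈ E) :
    toOm M A E (cInt M A E hcA hcE) = algebraMap Qb (Om M) c := by
  apply Subtype.ext
  rw [coe_toOm, coe_algebraMap_Om]
  show coeffMap A.subtype (HahnSeries.C (⟨c, hcA⟩ : ↥A)) = _
  rw [H516.coeffMap_C]
  rfl

theorem redE_cInt {c : Qb} (hcA : c ∈ A) (hcE : c ∈ E) :
    redE M A E (cInt M A E hcA hcE) = HahnSeries.C (IsLocalRing.residue ↥A ⟨c, hcA⟩) := by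
  show coeffMap (IsLocalRing.residue ↥A) (HahnSeries.C (⟨c, hcA⟩ : ↥A)) = _
  rw [H516.coeffMap_C]

/-! ### The coordinate `j` -/

theorem coe_jOm : ((jOm M : Om M) : LaurentSeries Qb) = jqModC Qb := by
  show coeffEmb Qb (qExpand ℚ 1 jq) = _
  rw [qExpand_one_apply, H516.coeffEmb_jq]

theorem jOm_mem_Fc : jOm M ∈ Fc M E :=
  Subfield.subset_closure (Or.inr ⟨1, inferInstance, one_dvd M, rfl⟩)

theorem jqModC_mem_intE : (jqModC ↥A : LaurentSeries ↥A) ∈ intE M A E := by
  rw [mem_intE]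
  refine ⟨fun n => ?_, jOm M, jOm_mem_Fc M E, ?_⟩
  · have h : ((jqModC ↥A).coeff n : Qb) = (((jqModC ℤ).coeff n : ℤ) : Qb) := by
      have h1 : jqModC ↥A = coeffMap (Int.castRingHom ↥A) (jqModC ℤ) := (coeffMap_jqModC (Int.castRingHom ↥A)).symm
      rw [h1, coeffMap_coeff]
      simp
    rw [h]
    exact intCast_mem E _
  · rw [coe_jOm, coeffMap_jqModC]

/-- `j` as an integral series. -/
def jInt : ↥(intE M A E) := ⟨jqModC ↥A, jqModC_mem_intE M A E⟩

theorem toOm_jInt : toOm M A E (jInt M A E) = jOm M := by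
  apply Subtype.ext
  rw [coe_toOm, coe_jOm]
  show coeffMap A.subtype (jqModC ↥A) = _
  rw [coeffMap_jqModC]

theorem redE_jInt : redE M A E (jInt M A E) = jqModC (IsLocalRing.ResidueField ↥A) := by
  show coeffMap (IsLocalRing.residue ↥A) (jqModC ↥A) = _
  rw [coeffMap_jqModC]

theorem jOm_mem_Vc : jOm M ∈ Vc M A E := by
  rw [← toOm_jInt M A E]
  exact toOm_mem_Vc M A E _

end Fermat.Agent.S18.Mod.H216

end
end
-- ===== PACK-END S18/Mod/H216/IntE.lean

-- ===== PACK-BEGIN S20/Comb694/OrbitCounts.lean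
section




/-!
# Orbit counts of `S` and `S * T` on `SL(2,ℤ) ⧸ Gamma0 N`, and the genus identity

* `two_mul_card_orbits_S : 2 * #(Q / ⟨S⟩) = ψ(N) + ν₂(N)`
* `three_mul_card_orbits_ST : 3 * #(Q / ⟨S * T⟩) = ψ(N) + 2 * ν₃(N)`
* `genusFormula_eq_of_card_orbits_T` : the Euler-characteristic identity
  `genusFormula N = 1 + (μ - o₂ - o₃ - o∞) / 2`.
-/

set_option autoImplicit false

namespace Fermat.Agent.S20.Comb694

open Matrix MatrixGroups CongruenceSubgroup MulAction Subgroup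

/-- `-1` acts trivially on `SL(2,ℤ) ⧸ Γ₀(N)`. -/
lemma neg_one_smul_quotient (N : ℕ) (q : SL(2, ℤ) ⧸ Gamma0 N) : (-1 : SL(2, ℤ)) • q = q := by
  obtain ⟨g, rfl⟩ := QuotientGroup.mk_surjective q
  rw [smul_mk_eq_mk_iff]
  have h : ∀ i j, ((-1 : SL(2, ℤ)) * g) i j = - g i j := by
    intro i j
    rw [neg_mul, one_mul, Matrix.SpecialLinearGroup.coe_neg, Matrix.neg_apply]
  rw [h, h]
  push_cast
  ring

lemma S_pow_two : ModularGroup.S ^ 2 = (-1 : SL(2, ℤ)) := by
  apply Subtype.ext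
  rw [pow_two, Matrix.SpecialLinearGroup.coe_mul, ModularGroup.coe_S,
    Matrix.SpecialLinearGroup.coe_neg, Matrix.SpecialLinearGroup.coe_one]
  ext i j
  fin_cases i <;> fin_cases j <;> simp [Matrix.mul_apply, Fin.sum_univ_two]

lemma ST_pow_three : (ModularGroup.S * ModularGroup.T) ^ 3 = (-1 : SL(2, ℤ)) := by
  apply Subtype.ext
  rw [pow_succ, pow_two, Matrix.SpecialLinearGroup.coe_mul, Matrix.SpecialLinearGroup.coe_mul,
    coe_S_mul_T, Matrix.SpecialLinearGroup.coe_neg, Matrix.SpecialLinearGroup.coe_one]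
  ext i j
  fin_cases i <;> fin_cases j <;> simp [Matrix.mul_apply, Fin.sum_univ_two]

/-- `2 * #(S-orbits) = ψ(N) + ν₂(N)`. -/
theorem two_mul_card_orbits_S (N : ℕ) [NeZero N] :
    2 * Nat.card (orbitRel.Quotient (zpowers ModularGroup.S) (SL(2, ℤ) ⧸ Gamma0 N))
      = ModularCurve.dedekindPsi N + ModularCurve.nuTwo N := by
  have h := prime_mul_card_orbits (X := SL(2, ℤ) ⧸ Gamma0 N) ModularGroup.S 2 Nat.prime_two
    (fun x => by rw [S_pow_two]; exact neg_one_smul_quotient N x)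
  rw [card_quotient_Gamma0, card_fixedBy_S] at h
  exact h.trans (by norm_num)

/-- `3 * #(ST-orbits) = ψ(N) + 2 * ν₃(N)`. -/
theorem three_mul_card_orbits_ST (N : ℕ) [NeZero N] :
    3 * Nat.card (orbitRel.Quotient (zpowers (ModularGroup.S * ModularGroup.T))
        (SL(2, ℤ) ⧸ Gamma0 N))
      = ModularCurve.dedekindPsi N + 2 * ModularCurve.nuThree N := by
  have h := prime_mul_card_orbits (X := SL(2, ℤ) ⧸ Gamma0 N)
    (ModularGroup.S * ModularGroup.T) 3 Nat.prime_three
    (fun x => by rw [ST_pow_three]; exact neg_one_smul_quotient N x)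
  rw [card_quotient_Gamma0, card_fixedBy_ST] at h
  exact h.trans (by norm_num)

/-- The Euler-characteristic identity: with `μ = #Q`, `o₂`, `o₃`, `o∞` the numbers of orbits of
`S`, `S * T`, `T` on `Q = SL(2,ℤ) ⧸ Γ₀(N)`, one has `genusFormula N = 1 + (μ - o₂ - o₃ - o∞) / 2`,
provided `o∞ = cuspCount N`. -/
theorem genusFormula_eq_of_card_orbits_T (N : ℕ) [NeZero N]
    (hT : Nat.card (orbitRel.Quotient (zpowers ModularGroup.T) (SL(2, ℤ) ⧸ Gamma0 N))
      = ModularCurve.cuspCount N) :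
    ModularCurve.genusFormula N
      = 1 + ((Nat.card (SL(2, ℤ) ⧸ Gamma0 N) : ℚ)
          - (Nat.card (orbitRel.Quotient (zpowers ModularGroup.S) (SL(2, ℤ) ⧸ Gamma0 N)) : ℚ)
          - (Nat.card (orbitRel.Quotient (zpowers (ModularGroup.S * ModularGroup.T))
              (SL(2, ℤ) ⧸ Gamma0 N)) : ℚ)
          - (Nat.card (orbitRel.Quotient (zpowers ModularGroup.T)
              (SL(2, ℤ) ⧸ Gamma0 N)) : ℚ)) / 2 := by
  have h2 := two_mul_card_orbits_S N
  have h3 := three_mul_card_orbits_ST N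
  have h2' := congrArg (Nat.cast : ℕ → ℚ) h2
  have h3' := congrArg (Nat.cast : ℕ → ℚ) h3
  push_cast at h2' h3'
  rw [hT, card_quotient_Gamma0, ModularCurve.genusFormula]
  linear_combination (1 / 4 : ℚ) * h2' + (1 / 6 : ℚ) * h3'

/-- Orbit-count form used by dimension bounds: `μ + 2 - o₂ - o₃ - o∞ = 2 * genusFormula N`. -/
theorem two_mul_genusFormula_of_card_orbits_T (N : ℕ) [NeZero N]
    (hT : Nat.card (orbitRel.Quotient (zpowers ModularGroup.T) (SL(2, ℤ) ⧸ Gamma0 N))
      = ModularCurve.cuspCount N) :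
    2 * ModularCurve.genusFormula N
      + (Nat.card (orbitRel.Quotient (zpowers ModularGroup.S) (SL(2, ℤ) ⧸ Gamma0 N)) : ℚ)
      + (Nat.card (orbitRel.Quotient (zpowers (ModularGroup.S * ModularGroup.T))
          (SL(2, ℤ) ⧸ Gamma0 N)) : ℚ)
      + (Nat.card (orbitRel.Quotient (zpowers ModularGroup.T) (SL(2, ℤ) ⧸ Gamma0 N)) : ℚ)
      = (Nat.card (SL(2, ℤ) ⧸ Gamma0 N) : ℚ) + 2 := by
  rw [genusFormula_eq_of_card_orbits_T N hT]
  ring

end Fermat.Agent.S20.Comb694

end
-- ===== PACK-END S20/Comb694/OrbitCounts.lean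

-- ===== PACK-BEGIN S18/H107/T2Qep.lean
section






/-!
# helper107 — S18 / M3-T : QEP for the Hauptmodul `t = t₂` of `X₀(2)` (case `ℓ = 3`)

Input: the relation `j * t ^ 2 = (t + 256) ^ 3`, `2⁻¹ ∈ R`, QEP for the charts of `j` and `j⁻¹`.
Output: QEP for the charts of `t` and `t⁻¹` (`qep_t2_fin107`, `qep_t2_inf107`).
-/

set_option autoImplicit false

namespace Fermat.Agent.S18.H107

open Polynomial Fermat.Agent.S18.Alg

variable {Ω : Type*} [Field Ω]

/-- The Hauptmodul relation for `X₀(2)` together with the needed side conditions. -/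
structure HauptT2107 (Fc : Subfield Ω) (R V : Subring Ω) (j t : Ω) : Prop where
  rel : j * t ^ 2 = (t + 256) ^ 3
  two_inv : (2 : Ω)⁻¹ ∈ R
  two_ne : (2 : Ω) ≠ 0
  j_ne : j ≠ 0
  t_mem_Fc : t ∈ Fc
  t_mem_V : t ∈ V
  t256_inv_mem_V : (t + 256)⁻¹ ∈ V

namespace HauptT2107

variable {Fc : Subfield Ω} {R V : Subring Ω} {j t : Ω}

theorem c256_ne (h : HauptT2107 Fc R V j t) : (256 : Ω) ≠ 0 := by
  have : (256 : Ω) = 2 ^ 8 := by norm_num
  rw [this]
  exact pow_ne_zero _ h.two_ne

theorem inv256_mem (h : HauptT2107 Fc R V j t) : (256 : Ω)⁻¹ ∈ R := by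
  have := R.pow_mem h.two_inv 8
  have e : ((2 : Ω)⁻¹) ^ 8 = (256 : Ω)⁻¹ := by norm_num
  rwa [e] at this

theorem t_ne (h : HauptT2107 Fc R V j t) : t ≠ 0 := by
  intro ht
  have := h.rel
  rw [ht] at this
  have h256 := h.c256_ne
  have h3 : (256 : Ω) ^ 3 = 0 := by
    have e : ((0 : Ω) + 256) ^ 3 = 256 ^ 3 := by ring
    rw [← e, ← this]
    ring
  exact h256 (pow_eq_zero_iff (by norm_num) |>.1 h3)

theorem t256_ne (h : HauptT2107 Fc R V j t) : t + 256 ≠ 0 := by
  intro ht
  have := h.rel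
  rw [ht] at this
  have h0 : j * t ^ 2 = 0 := by rw [this]; ring
  rcases mul_eq_zero.1 h0 with hj | ht0
  · exact h.j_ne hj
  · exact h.t_ne (pow_eq_zero_iff (by norm_num) |>.1 ht0)

/-- `t` is integral over `R[j]`. -/
theorem t_int (h : HauptT2107 Fc R V j t) : t ∈ intCl107 (polyRing R j) := by
  refine mem_intCl_of_cubic107 _ t (768 - j) 196608 16777216 ?_ (ofNat_mem _ _) (ofNat_mem _ _) ?_
  · exact Subring.sub_mem _ (ofNat_mem _ _) (self_mem_polyRing107 R j)
  · linear_combination -h.rel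

/-- `h = t / (t + 256)` is integral over `R[j⁻¹]`. -/
theorem h_int (h : HauptT2107 Fc R V j t) : t * (t + 256)⁻¹ ∈ intCl107 (polyRing R j⁻¹) := by
  refine mem_intCl_of_cubic107 _ _ (-1) 0 (256 * j⁻¹) ?_ (Subring.zero_mem _) ?_ ?_
  · exact Subring.neg_mem _ (Subring.one_mem _)
  · exact Subring.mul_mem _ (ofNat_mem _ _) (self_mem_polyRing107 R j⁻¹)
  · have hj := h.j_ne
    have ht := h.t256_ne
    field_simp
    linear_combination (-256 : Ω) * h.rel

/-- `t⁻¹` is integral over `R[j]` (uses `2⁻¹ ∈ R`). -/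
theorem tinv_int (h : HauptT2107 Fc R V j t) : t⁻¹ ∈ intCl107 (polyRing R j) := by
  have h256 := h.inv256_mem
  have hR := le_polyRing107 R j
  refine mem_intCl_of_cubic107 _ _ (3 * (256 : Ω)⁻¹) ((768 - j) * ((256 : Ω)⁻¹) ^ 3)
    (((256 : Ω)⁻¹) ^ 3) ?_ ?_ ?_ ?_
  · exact Subring.mul_mem _ (ofNat_mem _ _) (hR h256)
  · exact Subring.mul_mem _ (Subring.sub_mem _ (ofNat_mem _ _) (self_mem_polyRing107 R j))
      (Subring.pow_mem _ (hR h256) 3)
  · exact Subring.pow_mem _ (hR h256) 3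
  · have ht := h.t_ne
    have hc := h.c256_ne
    field_simp
    linear_combination -h.rel

theorem open1_fin (h : HauptT2107 Fc R V j t) : OpenData107 Fc R V t j t 1 where
  g_mem := self_mem_polyRing107 R t
  e_mem_Fc := Fc.one_mem
  e_mem_V := V.one_mem
  e_int := Subring.one_mem _
  xe_int := by rw [mul_one]; exact h.t_int
  y_loc := ⟨2, by
    rw [h.rel]
    exact le_intCl107 _ (Subring.pow_mem _
      (Subring.add_mem _ (self_mem_polyRing107 R t) (ofNat_mem _ _)) 3)⟩
  e_inv := ⟨1, Subring.one_mem _, 0, by simp⟩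

theorem open2_fin (h : HauptT2107 Fc R V j t) :
    OpenData107 Fc R V t j⁻¹ (t + 256) (256 * (t + 256)⁻¹) where
  g_mem := Subring.add_mem _ (self_mem_polyRing107 R t) (ofNat_mem _ _)
  e_mem_Fc := Fc.mul_mem (ofNat_mem _ _)
    (Fc.inv_mem (Fc.add_mem h.t_mem_Fc (ofNat_mem _ _)))
  e_mem_V := V.mul_mem (ofNat_mem _ _) h.t256_inv_mem_V
  e_int := by
    have e : 256 * (t + 256)⁻¹ = 1 - t * (t + 256)⁻¹ := by
      have ht := h.t256_ne
      field_simp
      ring
    rw [e]
    exact Subring.sub_mem _ (Subring.one_mem _) h.h_int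
  xe_int := by
    have e : t * (256 * (t + 256)⁻¹) = 256 * (t * (t + 256)⁻¹) := by ring
    rw [e]
    exact Subring.mul_mem _ (ofNat_mem _ _) h.h_int
  y_loc := ⟨3, by
    have e : j⁻¹ * (t + 256) ^ 3 = t ^ 2 := by
      have hj := h.j_ne
      field_simp
      linear_combination -h.rel
    rw [e]
    exact le_intCl107 _ (Subring.pow_mem _ (self_mem_polyRing107 R t) 2)⟩
  e_inv := ⟨(t + 256) * (256 : Ω)⁻¹,
    le_intCl107 _ (Subring.mul_mem _ (Subring.add_mem _ (self_mem_polyRing107 R t) (ofNat_mem _ _))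
      (le_polyRing107 R t h.inv256_mem)), 0, by
    have ht := h.t256_ne
    have hc := h.c256_ne
    field_simp⟩

theorem open1_inf (h : HauptT2107 Fc R V j t) : OpenData107 Fc R V t⁻¹ j t⁻¹ 1 where
  g_mem := self_mem_polyRing107 R t⁻¹
  e_mem_Fc := Fc.one_mem
  e_mem_V := V.one_mem
  e_int := Subring.one_mem _
  xe_int := by rw [mul_one]; exact h.tinv_int
  y_loc := ⟨1, by
    have e : j * t⁻¹ ^ 1 = (1 + 256 * t⁻¹) ^ 3 := by
      have ht := h.t_ne
      field_simp
      linear_combination h.rel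
    rw [e]
    exact le_intCl107 _ (Subring.pow_mem _ (Subring.add_mem _ (Subring.one_mem _)
      (Subring.mul_mem _ (ofNat_mem _ _) (self_mem_polyRing107 R t⁻¹))) 3)⟩
  e_inv := ⟨1, Subring.one_mem _, 0, by simp⟩

theorem open2_inf (h : HauptT2107 Fc R V j t) :
    OpenData107 Fc R V t⁻¹ j⁻¹ (1 + 256 * t⁻¹) (t * (t + 256)⁻¹) where
  g_mem := Subring.add_mem _ (Subring.one_mem _)
    (Subring.mul_mem _ (ofNat_mem _ _) (self_mem_polyRing107 R t⁻¹))
  e_mem_Fc := Fc.mul_mem h.t_mem_Fc (Fc.inv_mem (Fc.add_mem h.t_mem_Fc (ofNat_mem _ _)))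
  e_mem_V := V.mul_mem h.t_mem_V h.t256_inv_mem_V
  e_int := h.h_int
  xe_int := by
    have e : t⁻¹ * (t * (t + 256)⁻¹) = (1 - t * (t + 256)⁻¹) * (256 : Ω)⁻¹ := by
      have ht := h.t_ne
      have ht' := h.t256_ne
      have hc := h.c256_ne
      field_simp
      ring
    rw [e]
    exact Subring.mul_mem _ (Subring.sub_mem _ (Subring.one_mem _) h.h_int)
      (le_intCl107 _ (le_polyRing107 R j⁻¹ h.inv256_mem))
  y_loc := ⟨3, by
    have e : j⁻¹ * (1 + 256 * t⁻¹) ^ 3 = t⁻¹ := by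
      have hj := h.j_ne
      have ht := h.t_ne
      field_simp
      linear_combination -h.rel
    rw [e]
    exact le_intCl107 _ (self_mem_polyRing107 R t⁻¹)⟩
  e_inv := ⟨1 + 256 * t⁻¹, le_intCl107 _ (Subring.add_mem _ (Subring.one_mem _)
      (Subring.mul_mem _ (ofNat_mem _ _) (self_mem_polyRing107 R t⁻¹))), 0, by
    have ht := h.t_ne
    have ht' := h.t256_ne
    field_simp⟩

/-- **QEP for the chart of `t₂`.** -/
theorem qep_fin (h : HauptT2107 Fc R V j t) {w : Ω} (hw : w ∈ Fc)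
    (q₁ : Qep107 Fc R V w j) (q₂ : Qep107 Fc R V w j⁻¹) : Qep107 Fc R V w t := by
  refine qep_transfer107 (a := -(256 : Ω)⁻¹) (b := (256 : Ω)⁻¹) hw q₁ q₂ h.open1_fin h.open2_fin
    (Subring.neg_mem _ (le_polyRing107 R t h.inv256_mem)) (le_polyRing107 R t h.inv256_mem) ?_
  have hc := h.c256_ne
  field_simp
  ring

/-- **QEP for the chart of `t₂⁻¹`.** -/
theorem qep_inf (h : HauptT2107 Fc R V j t) {w : Ω} (hw : w ∈ Fc)
    (q₁ : Qep107 Fc R V w j) (q₂ : Qep107 Fc R V w j⁻¹) : Qep107 Fc R V w t⁻¹ := by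
  refine qep_transfer107 (a := -256) (b := 1) hw q₁ q₂ h.open1_inf h.open2_inf
    (Subring.neg_mem _ (ofNat_mem _ _)) (Subring.one_mem _) ?_
  ring

end HauptT2107

end Fermat.Agent.S18.H107

end
-- ===== PACK-END S18/H107/T2Qep.lean

-- ===== PACK-BEGIN S18/H438/Front/Divisor.lean
section





/-!
# S18 / ALG-FRONT (helper438), part 8: `H754.DivisibleDivisor` for a chart

* `divisibleDivisor_of_places` (generic, Mathlib + `H754/KummerSpec`): `B` a Noetherian
  integrally closed domain with fraction field `F`, `ϖ ∈ B` prime, `u ≡ 1 mod ϖ`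
  (`H754.OneModPi ϖ u`), and at every discrete valuation subring `W ⊇ B[1/ϖ]` of `F` the element
  `u` is a unit times an `m`-th power.  Then `H754.DivisibleDivisor B m u`.
* `GoodModelFront.exists_pow_unit_of_dvr` : the place hypothesis from the divisor hypothesis of
  `Alg.AlgMainStatement` (over valuation subrings of `Ω` containing `Lc`), via
  `H845.exists_pow_unit_of_forall_over`.
* `GoodModelFront.divisibleDivisor` : `H754.DivisibleDivisor B m u` for ANY realisation `B` of a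
  chart of a good model (`B ⊇ R`, `ϖ ↦ w`).
-/

set_option autoImplicit false
set_option linter.style.haveILetI false
set_option linter.unusedSectionVars false

noncomputable section

namespace Fermat.Agent.S18.H438

/-- **`DivisibleDivisor` from the places over `B[1/ϖ]`.** -/
theorem divisibleDivisor_of_places {B : Type*} [CommRing B] [IsDomain B] [IsNoetherianRing B]
    [IsIntegrallyClosed B] {F : Type*} [Field F] [Algebra B F] [IsFractionRing B F]
    (ϖ : B) (hϖ : Prime ϖ) (u : F) (hu1 : H754.OneModPi ϖ u) (m : ℕ)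
    (hplace : ∀ W : ValuationSubring F, IsDiscreteValuationRing W →
      (∀ b : B, algebraMap B F b ∈ W) → (algebraMap B F ϖ)⁻¹ ∈ W →
      ∃ s : F, s ≠ 0 ∧ u * s ^ m ∈ W ∧ (u * s ^ m)⁻¹ ∈ W) :
    H754.DivisibleDivisor B m u := by
  have hinj : Function.Injective (algebraMap B F) := IsFractionRing.injective B F
  obtain ⟨a₀, s₀, hs₀, has₀, hu₀⟩ := hu1
  have ha₀ : a₀ ∉ Ideal.span {ϖ} := by
    intro ha
    apply hs₀
    have := Ideal.sub_mem _ ha has₀
    simpa using this
  have hu0 : u ≠ 0 := by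
    rintro rfl
    rw [zero_mul] at hu₀
    have : a₀ = 0 := hinj (by rw [← hu₀, map_zero])
    exact ha₀ (this ▸ Ideal.zero_mem _)
  intro 𝔭 h𝔭 hht
  haveI := h𝔭
  by_cases hϖ𝔭 : ϖ ∈ 𝔭
  · -- `𝔭 = (ϖ)`
    have hP : (Ideal.span {ϖ} : Ideal B).IsPrime :=
      (Ideal.span_singleton_prime hϖ.ne_zero).2 hϖ
    have hle : Ideal.span {ϖ} ≤ 𝔭 := (Ideal.span_singleton_le_iff_mem _).2 hϖ𝔭
    have hne : (Ideal.span {ϖ} : Ideal B) ≠ ⊥ := by
      rw [Ne, Ideal.span_singleton_eq_bot]; exact hϖ.ne_zero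
    have h1 : 𝔭.height ≤ (Ideal.span {ϖ} : Ideal B).height := by
      rw [hht, Order.one_le_iff_pos, pos_iff_ne_zero, Ne, Ideal.height_eq_zero_iff_eq_bot]
      exact hne
    have heq : Ideal.span {ϖ} = 𝔭 := Ideal.eq_of_le_of_height_le (h := hle) (h_height := h1)
    refine ⟨1, a₀, s₀, ?_, ?_, ?_⟩
    · rw [← heq]; exact ha₀
    · rw [← heq]; exact hs₀
    · rw [one_pow, mul_one]; exact hu₀
  · -- a horizontal prime: `B_𝔭` is a DVR containing `B[1/ϖ]`
    obtain ⟨W, hW, hmem⟩ := exists_dvr_of_height_one (F := F) 𝔭 hht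
    have h1𝔭 : (1 : B) ∉ 𝔭 := fun h => h𝔭.ne_top ((Ideal.eq_top_iff_one _).2 h)
    have hBW : ∀ b : B, algebraMap B F b ∈ W := fun b =>
      (hmem _).2 ⟨b, 1, h1𝔭, by rw [map_one, mul_one]⟩
    have hϖ0 : algebraMap B F ϖ ≠ 0 := fun h => hϖ.ne_zero (hinj (by rw [h, map_zero]))
    have hϖW : (algebraMap B F ϖ)⁻¹ ∈ W :=
      (hmem _).2 ⟨1, ϖ, hϖ𝔭, by rw [inv_mul_cancel₀ hϖ0, map_one]⟩
    obtain ⟨t, ht0, h1, h2⟩ := hplace W hW hBW hϖW
    obtain ⟨a, s, hs, has⟩ := (hmem _).1 h1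
    obtain ⟨a', s', hs', has'⟩ := (hmem _).1 h2
    refine ⟨t, a, s, ?_, hs, has⟩
    intro ha
    have hut : u * t ^ m ≠ 0 := mul_ne_zero hu0 (pow_ne_zero _ ht0)
    have h3 : algebraMap B F (a * a') = algebraMap B F (s * s') := by
      rw [map_mul, map_mul, ← has, ← has']
      field_simp
    have h4 : a * a' = s * s' := hinj h3
    have h5 : s * s' ∈ 𝔭 := h4 ▸ 𝔭.mul_mem_right _ ha
    rcases h𝔭.mem_or_mem h5 with h | h
    · exact hs h
    · exact hs' h

open Alg

variable {Ω : Type*} [Field Ω] {Lc Ec Fc : Subfield Ω} {R V : Subring Ω} {w x : Ω}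
  {S : Finset Ω}

namespace GoodModelFront

variable (G : GoodModel Lc Ec Fc R V w x S)

include G

/-- A valuation subring of `Fc` containing `R` and `w⁻¹` contains `Ec`. -/
theorem ec_mem_of_inv_mem (W : ValuationSubring Fc) (hRW : ∀ r ∈ Rf Fc R, r ∈ W)
    (hwW : (wf G)⁻¹ ∈ W) : ∀ e : Fc, (e : Ω) ∈ Ec → e ∈ W := by
  intro e he
  rcases G.R_total e he with h1 | h1
  · exact hRW e h1
  · by_cases he0 : e = 0
    · rw [he0]; exact W.zero_mem
    have he0' : (e : Ω) ≠ 0 := fun h => he0 (Subtype.ext h)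
    obtain ⟨n, -, hn⟩ := G.w_discrete (e : Ω)⁻¹ h1 (inv_ne_zero he0')
    have hmem : (e⁻¹ * (wf G)⁻¹ ^ n)⁻¹ ∈ W := hRW _ hn
    have hw0 : wf G ≠ 0 := wf_ne_zero G
    have : e = (e⁻¹ * (wf G)⁻¹ ^ n)⁻¹ * (wf G)⁻¹ ^ n := by
      field_simp
    rw [this]
    exact mul_mem hmem (pow_mem hwW n)

/-- **The place hypothesis** of `divisibleDivisor_of_places` from the divisor hypothesis of
`Alg.AlgMainStatement`. -/
theorem exists_pow_unit_of_dvr {u : Fc} (hu : u ≠ 0) {m : ℕ}
    (hdiv : ∀ O : ValuationSubring Ω, (∀ a ∈ Lc, a ∈ O) →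
      ∃ t : Ω, t ≠ 0 ∧ (u : Ω) * t ^ m ∈ O ∧ ((u : Ω) * t ^ m)⁻¹ ∈ O)
    (W : ValuationSubring Fc) (hW : IsDiscreteValuationRing W)
    (hRW : ∀ r ∈ Rf Fc R, r ∈ W) (hwW : (wf G)⁻¹ ∈ W) :
    ∃ s : Fc, s ≠ 0 ∧ u * s ^ m ∈ W ∧ (u * s ^ m)⁻¹ ∈ W := by
  haveI := G.charZero
  exact H845.exists_pow_unit_of_forall_over Lc Ec Fc G.E_le_F G.L_algebraic G.compositum hu hdiv W
    (ec_mem_of_inv_mem G W hRW hwW)

/-- **`DivisibleDivisor` for any realisation `B` of a chart of a good model.** -/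
theorem divisibleDivisor {B : Type*} [CommRing B] [IsDomain B] [IsNoetherianRing B]
    [IsIntegrallyClosed B] [Algebra B Fc] [IsFractionRing B Fc]
    (hRB : ∀ r ∈ Rf Fc R, ∃ b : B, algebraMap B Fc b = r)
    (ϖ : B) (hϖ : Prime ϖ) (hϖw : algebraMap B Fc ϖ = wf G)
    {u : Fc} (hu1 : H754.OneModPi ϖ u) {m : ℕ}
    (hdiv : ∀ O : ValuationSubring Ω, (∀ a ∈ Lc, a ∈ O) →
      ∃ t : Ω, t ≠ 0 ∧ (u : Ω) * t ^ m ∈ O ∧ ((u : Ω) * t ^ m)⁻¹ ∈ O) :
    H754.DivisibleDivisor B m u := by
  have hinj : Function.Injective (algebraMap B Fc) := IsFractionRing.injective B Fc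
  have hu0 : u ≠ 0 := by
    obtain ⟨a₀, s₀, hs₀, has₀, hu₀⟩ := hu1
    rintro rfl
    rw [zero_mul] at hu₀
    have : a₀ = 0 := hinj (by rw [← hu₀, map_zero])
    apply hs₀
    have := Ideal.sub_mem _ (this ▸ Ideal.zero_mem (Ideal.span {ϖ}) : a₀ ∈ Ideal.span {ϖ}) has₀
    simpa using this
  refine divisibleDivisor_of_places ϖ hϖ u hu1 m fun W hW hBW hϖW => ?_
  refine exists_pow_unit_of_dvr G hu0 hdiv W hW (fun r hr => ?_) (by rwa [hϖw] at hϖW)
  obtain ⟨b, hb⟩ := hRB r hr
  rw [← hb]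
  exact hBW b

end GoodModelFront

end Fermat.Agent.S18.H438

end
end
-- ===== PACK-END S18/H438/Front/Divisor.lean

-- ===== PACK-BEGIN S18/B12/H444/GenericDiscr.lean
section




/-!
# S18 / b2.5 / A5 (helper444): the generic-fibre discriminant bound

Frozen statement: `GenericDiscrStatement` of `Fermat/Agent/S18/B12/Spec2.lean` (helper33);
exact-shape theorem `genericDiscr : GenericDiscrStatement` in `GenericDiscrSpec.lean`.

Main theorem here (abstract over the localisations `Λ = P[1/w]`, `C₀ = B[1/w]`):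

    theorem genericDiscr_abs  -- P int. closed noetherian domain, B normal finite torsion-free / P,
        (w : P) (hw0 : w ≠ 0) Λ C₀ [IsLocalization (powers w) Λ]
        [IsLocalization (algebraMapSubmonoid B (powers w)) C₀] [IsPrincipalIdealRing Λ] [Algebra ℚ Λ]
        (π : P) (hπ : Prime π) (hπw : ¬ π ∣ w) (n) (x : Fin n → B) (hli : LinearIndependent P x)
        (g : P) (hgπ : ¬ π ∣ g) (hg : ∀ b, g • b ∈ span P (range x)) (r) (y : Fin r → B)
        (hy : ∀ a, ∑ i, a i • y i ∈ (span {algebraMap P B π}).radical → ∀ i, π ∣ a i) :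
        ¬ π ^ (n - r + 1) ∣ (Matrix.of fun i j => Algebra.intTrace P B (x i * x j)).det

Proof: `C₀` is a Dedekind domain, free of rank `n` over the PID `Λ`; the integral trace localises
(`Algebra.intTrace_eq_of_isLocalization`); the base-change matrix `U` from a `Λ`-basis `β` of `C₀`
to `x` has `t ∤ det U` (`t` = image of `π`), so `t^k ∣ disc(x) = det U² · disc β` forces
`t^k ∣ disc β`, contradicting helper274's tame bound `H274.tameDiscr`.  The independence of `y`
modulo `rad(t C₀)` descends from `B` by clearing denominators and the regular-sequence lemma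
`dvd_of_mul_eq_mul` (A0-type, via helper203's `isIntegral_of_isIntegral_mul`).
-/

set_option autoImplicit false

noncomputable section

namespace Fermat.Agent.S18.B12.H444

open Polynomial Module Matrix

universe u v

section RegSeq

variable {P : Type u} [CommRing P] [IsDomain P] [IsIntegrallyClosed P]
  {B : Type v} [CommRing B] [IsDomain B] [IsIntegrallyClosed B] [Algebra P B]
  [Algebra.IsIntegral P B] [Module.IsTorsionFree P B]

/-- Regular sequence (A0-type): `π` prime in `P`, `π ∤ u`, `u z ∈ π B` implies `z ∈ π B`. -/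
theorem dvd_of_mul_eq_mul {π u : P} (hπ : Prime π) (hu : ¬ π ∣ u) {z b : B}
    (h : algebraMap P B u * z = algebraMap P B π * b) :
    ∃ b'' : B, z = algebraMap P B π * b'' := by
  let K := FractionRing P
  let F := FractionRing B
  letI : Algebra K F := FractionRing.liftAlgebra P F
  haveI : IsScalarTower P K F := FractionRing.isScalarTower_liftAlgebra P F
  have hinjPB : Function.Injective (algebraMap P B) := FaithfulSMul.algebraMap_injective P B
  have hπB : algebraMap P B π ≠ 0 := (map_ne_zero_iff _ hinjPB).mpr hπ.ne_zero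
  have hπF : algebraMap P F π ≠ 0 := by
    rw [IsScalarTower.algebraMap_apply P B F]
    exact (map_ne_zero_iff _ (IsFractionRing.injective B F)).mpr hπB
  set ζ : F := (algebraMap P F π)⁻¹ * algebraMap B F z with hζ
  have h1 : algebraMap P F π * ζ = algebraMap B F z := by
    rw [hζ, mul_inv_cancel_left₀ hπF]
  have h2 : algebraMap P F u * ζ = algebraMap B F b := by
    have h' := congrArg (algebraMap B F) h
    rw [map_mul, map_mul, ← IsScalarTower.algebraMap_apply P B F,
      ← IsScalarTower.algebraMap_apply P B F] at h'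
    rw [hζ, mul_left_comm, h', inv_mul_cancel_left₀ hπF]
  have hint : IsIntegral P ζ := by
    refine Fermat.Agent.S18.H203.isIntegral_of_isIntegral_mul K hπ hu ?_ ?_
    · rw [h1]
      exact (Algebra.IsIntegral.isIntegral (R := P) z).map (IsScalarTower.toAlgHom P B F)
    · rw [h2]
      exact (Algebra.IsIntegral.isIntegral (R := P) b).map (IsScalarTower.toAlgHom P B F)
  have hintB : IsIntegral B ζ := hint.tower_top
  obtain ⟨b'', hb''⟩ := (IsIntegrallyClosed.isIntegral_iff (R := B) (K := F)).mp hintB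
  refine ⟨b'', ?_⟩
  apply IsFractionRing.injective B F
  rw [map_mul, hb'', ← h1, IsScalarTower.algebraMap_apply P B F]

end RegSeq

section Loc

theorem powers_le_nonZeroDivisors' {P : Type u} [CommRing P] [IsDomain P] (w : P) (hw0 : w ≠ 0) :
    Submonoid.powers w ≤ nonZeroDivisors P := by
  rintro a ⟨k, rfl⟩
  exact mem_nonZeroDivisors_of_ne_zero (pow_ne_zero k hw0)

theorem map_powers_le_nonZeroDivisors' {P : Type u} [CommRing P] [IsDomain P]
    (B : Type v) [CommRing B] [IsDomain B] [Algebra P B] [Module.IsTorsionFree P B]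
    (w : P) (hw0 : w ≠ 0) :
    Algebra.algebraMapSubmonoid B (Submonoid.powers w) ≤ nonZeroDivisors B := by
  rintro a ⟨b, ⟨k, rfl⟩, rfl⟩
  refine mem_nonZeroDivisors_of_ne_zero ?_
  exact (map_ne_zero_iff _ (FaithfulSMul.algebraMap_injective P B)).mpr (pow_ne_zero k hw0)

theorem isDomain_loc {P : Type u} [CommRing P] [IsDomain P]
    (B : Type v) [CommRing B] [IsDomain B] [Algebra P B] [Module.IsTorsionFree P B]
    (w : P) (C₀ : Type v) [CommRing C₀] [Algebra B C₀]
    [IsLocalization (Algebra.algebraMapSubmonoid B (Submonoid.powers w)) C₀]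
    (hw0 : w ≠ 0) : IsDomain C₀ :=
  IsLocalization.isDomain_of_le_nonZeroDivisors _ (map_powers_le_nonZeroDivisors' B w hw0)

theorem injective_algebraMap_loc {P : Type u} [CommRing P] [IsDomain P]
    (B : Type v) [CommRing B] [IsDomain B] [Algebra P B] [Module.IsTorsionFree P B]
    (w : P)
    (Λ : Type u) [CommRing Λ] [Algebra P Λ] [IsLocalization (Submonoid.powers w) Λ]
    (C₀ : Type v) [CommRing C₀] [Algebra B C₀] [Algebra Λ C₀] [Algebra P C₀]
    [IsScalarTower P Λ C₀] [IsScalarTower P B C₀]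
    [IsLocalization (Algebra.algebraMapSubmonoid B (Submonoid.powers w)) C₀]
    (hw0 : w ≠ 0) : Function.Injective (algebraMap Λ C₀) := by
  have hBC : Function.Injective (algebraMap B C₀) :=
    IsLocalization.injective C₀ (map_powers_le_nonZeroDivisors' B w hw0)
  have hPB : Function.Injective (algebraMap P B) := FaithfulSMul.algebraMap_injective P B
  rw [injective_iff_map_eq_zero]
  intro a ha
  obtain ⟨⟨p, s⟩, hps⟩ := IsLocalization.surj (Submonoid.powers w) a
  simp only at hps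
  have h1 : algebraMap Λ C₀ (algebraMap P Λ p) = 0 := by
    rw [← hps, map_mul, ha, zero_mul]
  rw [← IsScalarTower.algebraMap_apply, IsScalarTower.algebraMap_apply P B C₀] at h1
  have h2 : p = 0 := by
    have := (map_eq_zero_iff _ hBC).mp h1
    exact (map_eq_zero_iff _ hPB).mp this
  rw [h2, map_zero] at hps
  have hu : IsUnit (algebraMap P Λ s) := IsLocalization.map_units Λ s
  exact (hu.mul_left_eq_zero).mp hps

theorem isDedekindDomain_loc {P : Type u} [CommRing P] [IsDomain P] [IsNoetherianRing P]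
    (B : Type v) [CommRing B] [IsDomain B] [IsIntegrallyClosed B] [Algebra P B]
    [Module.Finite P B] [Module.IsTorsionFree P B]
    (w : P)
    (Λ : Type u) [CommRing Λ] [Algebra P Λ] [IsLocalization (Submonoid.powers w) Λ]
    (C₀ : Type v) [CommRing C₀] [Algebra B C₀] [Algebra Λ C₀] [Algebra P C₀]
    [IsScalarTower P Λ C₀] [IsScalarTower P B C₀]
    [IsLocalization (Algebra.algebraMapSubmonoid B (Submonoid.powers w)) C₀]
    [IsDomain Λ] [IsPrincipalIdealRing Λ] (hw0 : w ≠ 0) :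
    IsDedekindDomain C₀ := by
  have : IsDomain C₀ := isDomain_loc B w C₀ hw0
  have : IsNoetherianRing B := IsNoetherianRing.of_finite P B
  have : IsNoetherianRing C₀ :=
    IsLocalization.isNoetherianRing (Algebra.algebraMapSubmonoid B (Submonoid.powers w)) C₀
      inferInstance
  have : IsIntegrallyClosed C₀ :=
    isIntegrallyClosed_of_isLocalization C₀ _ (map_powers_le_nonZeroDivisors' B w hw0)
  have : Module.Finite Λ C₀ := Module.Finite.of_isLocalization P B (Submonoid.powers w)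
  have : Algebra.IsIntegral Λ C₀ := Algebra.IsIntegral.of_finite Λ C₀
  have : Ring.DimensionLEOne C₀ := Ring.DimensionLEOne.of_isIntegral Λ C₀
  exact { }

end Loc

section Abstract

variable {P : Type u} [CommRing P] [IsDomain P]
  (w : P)
  (Λ : Type u) [CommRing Λ] [Algebra P Λ] [IsLocalization (Submonoid.powers w) Λ]

include w in
omit [IsDomain P] in
theorem not_dvd_pow_of_not_dvd {π : P} (hπ : Prime π) (hπw : ¬ π ∣ w) (k : ℕ) : ¬ π ∣ w ^ k :=
  fun h => hπw (hπ.dvd_of_dvd_pow h)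

omit [IsDomain P] in
theorem disjoint_powers {π : P} (hπ : Prime π) (hπw : ¬ π ∣ w) :
    Disjoint (Submonoid.powers w : Set P) (Ideal.span {π} : Ideal P) := by
  rw [Set.disjoint_left]
  rintro a ⟨k, rfl⟩ ha
  exact not_dvd_pow_of_not_dvd w hπ hπw k (Ideal.mem_span_singleton.mp ha)

theorem prime_map {π : P} (hπ : Prime π) (hπw : ¬ π ∣ w) (hw0 : w ≠ 0) :
    Prime (algebraMap P Λ π) := by
  have hinj : Function.Injective (algebraMap P Λ) :=
    IsLocalization.injective Λ (powers_le_nonZeroDivisors' w hw0)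
  have h0 : algebraMap P Λ π ≠ 0 := (map_ne_zero_iff _ hinj).mpr hπ.ne_zero
  rw [← Ideal.span_singleton_prime h0]
  have := IsLocalization.isPrime_of_isPrime_disjoint (Submonoid.powers w) Λ (Ideal.span {π})
    ((Ideal.span_singleton_prime hπ.ne_zero).mpr hπ) (disjoint_powers w hπ hπw)
  rwa [Ideal.map_span, Set.image_singleton] at this

omit [IsDomain P] in
theorem dvd_of_map_dvd {π : P} (hπ : Prime π) (hπw : ¬ π ∣ w) {a : P}
    (h : algebraMap P Λ π ∣ algebraMap P Λ a) : π ∣ a := by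
  have h1 := IsLocalization.under_map_of_isPrime_disjoint (Submonoid.powers w) Λ
    ((Ideal.span_singleton_prime hπ.ne_zero).mpr hπ) (disjoint_powers w hπ hπw)
  have h2 : a ∈ (Ideal.map (algebraMap P Λ) (Ideal.span {π})).under P := by
    rw [Ideal.under_def, Ideal.mem_comap, Ideal.map_span, Set.image_singleton]
    exact Ideal.mem_span_singleton.mpr h
  rw [h1] at h2
  exact Ideal.mem_span_singleton.mp h2

end Abstract
section Loc2

/-- The trace of `B[1/w]` over `P[1/w]` restricts to the integral trace of `B` over `P`. -/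
theorem map_intTrace_eq_trace {P : Type u} [CommRing P] [IsDomain P] [IsIntegrallyClosed P]
    (B : Type v) [CommRing B] [IsDomain B] [IsIntegrallyClosed B] [Algebra P B]
    [Module.Finite P B] [Module.IsTorsionFree P B]
    (w : P)
    (Λ : Type u) [CommRing Λ] [Algebra P Λ] [IsLocalization (Submonoid.powers w) Λ]
    (C₀ : Type v) [CommRing C₀] [Algebra B C₀] [Algebra Λ C₀] [Algebra P C₀]
    [IsScalarTower P Λ C₀] [IsScalarTower P B C₀]
    [IsLocalization (Algebra.algebraMapSubmonoid B (Submonoid.powers w)) C₀]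
    [IsDomain Λ] [IsPrincipalIdealRing Λ] (hw0 : w ≠ 0) (b : B) :
    algebraMap P Λ (Algebra.intTrace P B b) = Algebra.trace Λ C₀ (algebraMap B C₀ b) := by
  have : IsDomain C₀ := isDomain_loc B w C₀ hw0
  have : IsIntegrallyClosed C₀ :=
    isIntegrallyClosed_of_isLocalization C₀ _ (map_powers_le_nonZeroDivisors' B w hw0)
  have : Module.Finite Λ C₀ := Module.Finite.of_isLocalization P B (Submonoid.powers w)
  have : Module.IsTorsionFree Λ C₀ :=
    isTorsionFree_iff_algebraMap_injective.mpr (injective_algebraMap_loc B w Λ C₀ hw0)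
  have : Module.Free Λ C₀ := Module.free_of_finite_type_torsion_free'
  rw [Algebra.intTrace_eq_of_isLocalization P B (Submonoid.powers w) (Aₘ := Λ) (Bₘ := C₀) b,
    Algebra.intTrace_eq_trace]

/-- Radical membership descends from `B[1/w]` to `B` (regular sequence `π, w`). -/
theorem mem_radical_of_map_mem_radical {P : Type u} [CommRing P] [IsDomain P]
    [IsIntegrallyClosed P]
    (B : Type v) [CommRing B] [IsDomain B] [IsIntegrallyClosed B] [Algebra P B]
    [Module.Finite P B] [Module.IsTorsionFree P B]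
    (w : P)
    (Λ : Type u) [CommRing Λ] [Algebra P Λ]
    (C₀ : Type v) [CommRing C₀] [Algebra B C₀] [Algebra Λ C₀] [Algebra P C₀]
    [IsScalarTower P Λ C₀] [IsScalarTower P B C₀]
    [IsLocalization (Algebra.algebraMapSubmonoid B (Submonoid.powers w)) C₀]
    (hw0 : w ≠ 0) {π : P} (hπ : Prime π) (hπw : ¬ π ∣ w) {z : B}
    (h : algebraMap B C₀ z ∈ (Ideal.span {algebraMap Λ C₀ (algebraMap P Λ π)}).radical) :
    z ∈ (Ideal.span {algebraMap P B π}).radical := by
  have hBC : Function.Injective (algebraMap B C₀) :=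
    IsLocalization.injective C₀ (map_powers_le_nonZeroDivisors' B w hw0)
  obtain ⟨N, hN⟩ := h
  obtain ⟨c, hc⟩ := Ideal.mem_span_singleton'.mp hN
  obtain ⟨⟨b, s⟩, hbs⟩ :=
    IsLocalization.surj (Algebra.algebraMapSubmonoid B (Submonoid.powers w)) c
  simp only at hbs
  obtain ⟨s', ⟨k, rfl⟩, hs'⟩ := s.2
  have hs'' : (s : B) = algebraMap P B (w ^ k) := hs'.symm
  have e1 : algebraMap Λ C₀ (algebraMap P Λ π) = algebraMap B C₀ (algebraMap P B π) := by
    rw [← IsScalarTower.algebraMap_apply, ← IsScalarTower.algebraMap_apply]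
  have key : algebraMap P B (w ^ k) * z ^ N = algebraMap P B π * b := by
    apply hBC
    rw [map_mul, map_mul, map_pow (algebraMap B C₀) z N, ← hc, e1, ← hbs, hs'']
    ring
  have hnd : ¬ π ∣ w ^ k := fun h => hπw (hπ.dvd_of_dvd_pow h)
  obtain ⟨b'', hb''⟩ := dvd_of_mul_eq_mul hπ hnd key
  refine ⟨N, Ideal.mem_span_singleton'.mpr ⟨b'', ?_⟩⟩
  rw [hb'', mul_comm]

/-- A local spanning family stays spanning (up to `g`) after inverting `w`. -/
theorem smul_mem_span_loc {P : Type u} [CommRing P]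
    (B : Type v) [CommRing B] [Algebra P B]
    (w : P)
    (Λ : Type u) [CommRing Λ] [Algebra P Λ] [IsLocalization (Submonoid.powers w) Λ]
    (C₀ : Type v) [CommRing C₀] [Algebra B C₀] [Algebra Λ C₀] [Algebra P C₀]
    [IsScalarTower P Λ C₀] [IsScalarTower P B C₀]
    [IsLocalization (Algebra.algebraMapSubmonoid B (Submonoid.powers w)) C₀]
    {n : ℕ} (x : Fin n → B) (g : P)
    (hg : ∀ b : B, g • b ∈ Submodule.span P (Set.range x)) (c : C₀) :
    algebraMap P Λ g • c ∈ Submodule.span Λ (Set.range (algebraMap B C₀ ∘ x)) := by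
  obtain ⟨⟨b, s⟩, hbs⟩ :=
    IsLocalization.surj (Algebra.algebraMapSubmonoid B (Submonoid.powers w)) c
  simp only at hbs
  obtain ⟨s', ⟨k, rfl⟩, hs'⟩ := s.2
  have hs'' : (s : B) = algebraMap P B (w ^ k) := hs'.symm
  have hu : IsUnit (algebraMap P Λ (w ^ k)) :=
    IsLocalization.map_units Λ (⟨w ^ k, k, rfl⟩ : Submonoid.powers w)
  obtain ⟨v, hv⟩ := hu.exists_left_inv
  -- `c = v • ι b`
  have hc : c = v • algebraMap B C₀ b := by
    rw [← hbs, hs'', ← IsScalarTower.algebraMap_apply P B C₀,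
      IsScalarTower.algebraMap_apply P Λ C₀, Algebra.smul_def, ← mul_assoc, mul_comm _ c,
      mul_assoc, ← map_mul, hv, map_one, mul_one]
  -- `ι (g • b)` lies in the span
  have h1 : algebraMap B C₀ (g • b) ∈ Submodule.span Λ (Set.range (algebraMap B C₀ ∘ x)) := by
    have h2 := hg b
    have h3 : (IsScalarTower.toAlgHom P B C₀).toLinearMap (g • b) ∈
        Submodule.map (IsScalarTower.toAlgHom P B C₀).toLinearMap
          (Submodule.span P (Set.range x)) := Submodule.mem_map_of_mem h2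
    rw [Submodule.map_span, ← Set.range_comp] at h3
    have h4 : Submodule.span P (Set.range ((IsScalarTower.toAlgHom P B C₀).toLinearMap ∘ x)) ≤
        (Submodule.span Λ (Set.range (algebraMap B C₀ ∘ x))).restrictScalars P :=
      Submodule.span_le_restrictScalars P Λ _
    exact h4 h3
  have h5 : algebraMap P Λ g • c = v • algebraMap B C₀ (g • b) := by
    rw [hc, Algebra.smul_def g b, map_mul, ← IsScalarTower.algebraMap_apply P B C₀,
      IsScalarTower.algebraMap_apply P Λ C₀, ← Algebra.smul_def, smul_comm]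
  rw [h5]
  exact Submodule.smul_mem _ _ h1

end Loc2

section Main

/-- **A5, abstract form.**  `Λ = P[1/w]` a PID containing `ℚ`, `C₀ = B[1/w]`. -/
theorem genericDiscr_abs {P : Type u} [CommRing P] [IsDomain P] [IsIntegrallyClosed P]
    [IsNoetherianRing P]
    (B : Type v) [CommRing B] [IsDomain B] [IsIntegrallyClosed B] [Algebra P B]
    [Module.Finite P B] [Module.IsTorsionFree P B]
    (w : P) (hw0 : w ≠ 0)
    (Λ : Type u) [CommRing Λ] [Algebra P Λ] [IsLocalization (Submonoid.powers w) Λ]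
    (C₀ : Type v) [CommRing C₀] [Algebra B C₀] [Algebra Λ C₀] [Algebra P C₀]
    [IsScalarTower P Λ C₀] [IsScalarTower P B C₀]
    [IsLocalization (Algebra.algebraMapSubmonoid B (Submonoid.powers w)) C₀]
    [IsDomain Λ] [IsPrincipalIdealRing Λ] [Algebra ℚ Λ]
    (π : P) (hπ : Prime π) (hπw : ¬ π ∣ w)
    (n : ℕ) (x : Fin n → B) (hli : LinearIndependent P x)
    (g : P) (hgπ : ¬ π ∣ g) (hg : ∀ b : B, g • b ∈ Submodule.span P (Set.range x))
    (r : ℕ) (y : Fin r → B)
    (hy : ∀ a : Fin r → P,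
      (∑ i, a i • y i) ∈ (Ideal.span {algebraMap P B π}).radical → ∀ i, π ∣ a i) :
    ¬ π ^ (n - r + 1) ∣ (Matrix.of fun i j => Algebra.intTrace P B (x i * x j)).det := by
  classical
  have hD : IsDedekindDomain C₀ := isDedekindDomain_loc B w Λ C₀ hw0
  have : Module.Finite Λ C₀ := Module.Finite.of_isLocalization P B (Submonoid.powers w)
  have hinjΛ := injective_algebraMap_loc B w Λ C₀ hw0
  have : Module.IsTorsionFree Λ C₀ := isTorsionFree_iff_algebraMap_injective.mpr hinjΛ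
  have : Module.Free Λ C₀ := Module.free_of_finite_type_torsion_free'
  have hinjP : Function.Injective (algebraMap P Λ) :=
    IsLocalization.injective Λ (powers_le_nonZeroDivisors' w hw0)
  set t := algebraMap P Λ π with ht_def
  have ht : Prime t := prime_map w Λ hπ hπw hw0
  set x' : Fin n → C₀ := algebraMap B C₀ ∘ x with hx'
  have hli' : LinearIndependent Λ x' :=
    hli.localization_localization (Rₛ := Λ) (Submonoid.powers w) C₀
  have hg0 : algebraMap P Λ g ≠ 0 := by
    intro h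
    apply hgπ
    have : g = 0 := hinjP (by rw [h, map_zero])
    rw [this]
    exact dvd_zero π
  have hspan : ∀ c : C₀, algebraMap P Λ g • c ∈ Submodule.span Λ (Set.range x') :=
    fun c => smul_mem_span_loc B w Λ C₀ x g hg c
  -- rank
  have hn : Module.finrank Λ C₀ = n := by
    apply le_antisymm
    · let φ : C₀ →ₗ[Λ] Submodule.span Λ (Set.range x') :=
        LinearMap.codRestrict _ (algebraMap P Λ g • LinearMap.id) hspan
      have hφ : Function.Injective φ := by
        intro c c' hcc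
        have h1 : algebraMap P Λ g • c = algebraMap P Λ g • c' := congrArg Subtype.val hcc
        exact smul_right_injective C₀ hg0 h1
      calc Module.finrank Λ C₀
          ≤ Module.finrank Λ (Submodule.span Λ (Set.range x')) :=
            LinearMap.finrank_le_finrank_of_injective hφ
        _ ≤ Fintype.card (Fin n) := finrank_range_le_card x'
        _ = n := Fintype.card_fin n
    · have := hli'.fintype_card_le_finrank
      simpa using this
  let β : Module.Basis (Fin n) Λ C₀ := Module.finBasisOfFinrankEq Λ C₀ hn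
  let U : Matrix (Fin n) (Fin n) Λ := fun i j => β.repr (x' i) j
  have hU : x' = (U.map (algebraMap Λ C₀)) *ᵥ β := by
    ext i
    simp only [Matrix.mulVec, dotProduct]
    calc x' i = ∑ j, β.repr (x' i) j • β j := (β.sum_repr (x' i)).symm
      _ = _ := Finset.sum_congr rfl (fun j _ => by rw [Matrix.map_apply, Algebra.smul_def])
  have hV : ∀ j, ∃ c : Fin n → Λ, ∑ i, c i • x' i = algebraMap P Λ g • β j := fun j =>
    (Submodule.mem_span_range_iff_exists_fun Λ).mp (hspan (β j))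
  choose V hVeq using hV
  have hVU : (Matrix.of V) * U = algebraMap P Λ g • (1 : Matrix (Fin n) (Fin n) Λ) := by
    ext j l
    have h1 := congrArg (fun z => β.repr z l) (hVeq j)
    simp only [map_sum, map_smul, Finsupp.coe_finsetSum, Finsupp.coe_smul, Finset.sum_apply,
      Pi.smul_apply, smul_eq_mul, Module.Basis.repr_self] at h1
    rw [Matrix.mul_apply, Matrix.smul_apply, Matrix.one_apply, smul_eq_mul]
    simp only [Matrix.of_apply, U]
    rw [h1, Finsupp.single_apply]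
  have hdetU : ¬ t ∣ U.det := by
    intro hdvd
    have h1 : (Matrix.of V).det * U.det = (algebraMap P Λ g) ^ n := by
      rw [← Matrix.det_mul, hVU, Matrix.det_smul, Matrix.det_one, mul_one, Fintype.card_fin]
    have h2 : t ∣ algebraMap P Λ g ^ n := h1 ▸ Dvd.dvd.mul_left hdvd _
    have h3 : t ∣ algebraMap P Λ g := ht.dvd_of_dvd_pow h2
    exact hgπ (dvd_of_map_dvd w Λ hπ hπw h3)
  have hdisc : algebraMap P Λ ((Matrix.of fun i j => Algebra.intTrace P B (x i * x j)).det)
      = U.det ^ 2 * Algebra.discr Λ β := by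
    rw [← Algebra.discr_of_matrix_mulVec, ← hU, Algebra.discr_def, RingHom.map_det]
    congr 1
    ext i j
    simp only [RingHom.mapMatrix_apply, Matrix.map_apply, Matrix.of_apply,
      Algebra.traceMatrix_apply, Algebra.traceForm_apply, hx', Function.comp_apply]
    rw [map_intTrace_eq_trace B w Λ C₀ hw0, map_mul]
  have hy' : ∀ a : Fin r → Λ,
      (∑ i, a i • (algebraMap B C₀ ∘ y) i) ∈ (Ideal.span {algebraMap Λ C₀ t}).radical →
        ∀ i, t ∣ a i := by
    intro a ha i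
    obtain ⟨s, hs⟩ := IsLocalization.exist_integer_multiples_of_finite (Submonoid.powers w) a
    choose a' ha' using hs
    have hz : algebraMap B C₀ (∑ i, a' i • y i) =
        algebraMap Λ C₀ (algebraMap P Λ (s : P)) * ∑ i, a i • (algebraMap B C₀ ∘ y) i := by
      rw [map_sum, Finset.mul_sum]
      refine Finset.sum_congr rfl fun i _ => ?_
      rw [Algebra.smul_def (a' i) (y i), map_mul, ← IsScalarTower.algebraMap_apply P B C₀,
        IsScalarTower.algebraMap_apply P Λ C₀, ha' i, Algebra.smul_def, map_mul,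
        Algebra.smul_def, Function.comp_apply]
      ring
    have hmem : algebraMap B C₀ (∑ i, a' i • y i) ∈
        (Ideal.span {algebraMap Λ C₀ (algebraMap P Λ π)}).radical := by
      rw [hz]
      exact Ideal.mul_mem_left _ _ ha
    have h1 : π ∣ a' i :=
      hy a' (mem_radical_of_map_mem_radical B w Λ C₀ hw0 hπ hπw hmem) i
    have h2 : t ∣ algebraMap P Λ (a' i) := map_dvd (algebraMap P Λ) h1
    rw [ha' i, Algebra.smul_def] at h2
    exact ((IsLocalization.map_units Λ s).dvd_mul_left).mp h2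
  have htame := Fermat.Agent.S18.H274.tameDiscr Λ t ht C₀ n β r (algebraMap B C₀ ∘ y) hy'
  intro hdvd
  apply htame
  have h4 : t ^ (n - r + 1) ∣ U.det ^ 2 * Algebra.discr Λ β := by
    rw [← hdisc, ht_def, ← map_pow]
    exact map_dvd (algebraMap P Λ) hdvd
  exact ht.pow_dvd_of_dvd_mul_left _ (fun h => hdetU (ht.dvd_of_dvd_pow h)) h4

end Main

end Fermat.Agent.S18.B12.H444

end
end
-- ===== PACK-END S18/B12/H444/GenericDiscr.lean

-- ===== PACK-BEGIN S18/H394/KummerMain.lean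
section




/-!
# S18, Route K, pieces b3+b4 (helper394): the Kummer endgame, user-facing form

`kummer_endgame`: two charts `B₀ ∋ x`, `B₁ ∋ x⁻¹` of a "curve over `R`" inside a field `F`
(`M = B₀[1/x] = B₁[x]`, `B₀ ∩ B₁ = R`, `B₀` finite over `R[x]`, all three `m`-root closed), `m`
invertible in `R`, `m ≥ 2`.  Then there is NO `u ∈ Fˣ` such that
* `u` has exact order `m` modulo constants and `m`-th powers (`hord`), and
* `u` is "congruent to an `m`-th power modulo `w`" on both charts, compatibly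
  (`σ₀ ^ m * u ≡ 1 mod w B₀`, `σ₁ ^ m * u ≡ 1 mod w B₁`, `σ₀ ≡ σ₁ mod w`, in the graded sense),
where `w ∈ R` is not a unit of `B₀`.

No Kummer field, no integral closure, no discriminant: the proof applies the two-chart
connectedness theorem (b5) to the graded algebra `⨁ᵢ {f | f ^ m * u ^ i ∈ B} Tⁱ ⊆ F[T]/(T^m - u)`.
-/

set_option autoImplicit false

namespace Fermat.Agent.S18.H394

open Polynomial

variable {R F : Type*} [CommRing R] [IsLocalRing R] [IsNoetherianRing R] [Field F] [Algebra R F]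

/-- **Kummer endgame** (pieces b3+b4+b5 of Route K in one statement). -/
theorem kummer_endgame
    (m : ℕ) (hm : 2 ≤ m) (ν : R) (hν : ν * (m : R) = 1)
    (w : R) (u : F) (hu : u ≠ 0)
    (B₀ B₁ M : Subalgebra R F)
    (hrc0 : RootClosed m B₀) (hrc1 : RootClosed m B₁) (hrcM : RootClosed m M)
    (x : F) (hx0 : x ≠ 0) (hx : x ∈ B₀) (hx' : x⁻¹ ∈ B₁)
    (h0M : B₀ ≤ M) (h1M : B₁ ≤ M)
    (hloc0 : ∀ y ∈ M, ∃ n : ℕ, x ^ n * y ∈ B₀)
    (hloc1 : ∀ y ∈ M, ∃ n : ℕ, x⁻¹ ^ n * y ∈ B₁)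
    (hint : ∀ y : F, y ∈ B₀ → y ∈ B₁ → ∃ r : R, algebraMap R F r = y)
    (hfin : ∃ s : Finset F, ∀ b ∈ B₀, ∃ P : F → Polynomial R,
      b = ∑ β ∈ s, Polynomial.aeval x (P β) * β)
    (hden : ∃ d ∈ B₀, d ≠ 0 ∧ d * u⁻¹ ∈ B₀)
    (hw1 : ∀ b ∈ B₀, algebraMap R F w * b ≠ 1)
    (hord : ∀ i : ℕ, 0 < i → i < m → ∀ f : F, f ≠ 0 → ∀ r : R,
        f ^ m * u ^ i ≠ algebraMap R F r)
    (σ₀ σ₁ : F)
    (h₀ : ∃ b ∈ B₀, σ₀ ^ m * u - 1 = algebraMap R F w * b)
    (h₁ : ∃ b ∈ B₁, σ₁ ^ m * u - 1 = algebraMap R F w * b)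
    (h₀₁ : ∃ γ : F, σ₀ - σ₁ = algebraMap R F w * γ ∧ γ ^ m * u ∈ M) : False := by
  classical
  have hm0 : m ≠ 0 := by omega
  have hp : (X ^ m - C u : F[X]).Monic := monic_X_pow_sub_C u hm0
  set pb := AdjoinRoot.powerBasis' hp with hpb
  have hdim : pb.dim = m := by
    rw [hpb, AdjoinRoot.powerBasis'_dim]
    exact natDegree_X_pow_sub_C
  have hT : pb.gen ^ pb.dim = algebraMap F (AdjoinRoot (X ^ m - C u : F[X])) u := by
    rw [hdim, hpb, AdjoinRoot.powerBasis'_gen]
    have := AdjoinRoot.eval₂_root (X ^ m - C u : F[X])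
    simp only [eval₂_sub, eval₂_pow, eval₂_X, eval₂_C] at this
    rw [sub_eq_zero] at this
    rw [this]
    rfl
  have hd0 : 0 < pb.dim := by omega
  have hd1 : 1 < pb.dim := by omega
  have hrc0' : RootClosed pb.dim B₀ := by rw [hdim]; exact hrc0
  have hrc1' : RootClosed pb.dim B₁ := by rw [hdim]; exact hrc1
  have hrcM' : RootClosed pb.dim M := by rw [hdim]; exact hrcM
  obtain ⟨S, hS, hgen⟩ := kummerSub_fg pb u hu hT hd0 B₀ hrc0' x hx hfin hden
  refine kummer_endgame_aux pb u hT hd0 hd1 ν (by rw [hdim]; exact hν) w B₀ B₁ M hrc0' hrc1' hrcM'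
    x hx0 hx hx' h0M h1M hloc0 hloc1 hint (↥S) (fun c => (c : AdjoinRoot (X ^ m - C u : F[X])))
    (fun c => hS c c.2) ?_ hw1 (by rw [hdim]; exact hord) σ₀ σ₁ (by rw [hdim]; exact h₀)
    (by rw [hdim]; exact h₁) (by rw [hdim]; exact h₀₁)
  intro b hb
  obtain ⟨P, hP⟩ := hgen b hb
  refine ⟨fun c => P c, ?_⟩
  rw [finsum_eq_sum_of_fintype, hP]
  exact (Finset.sum_coe_sort S (fun c => Polynomial.aeval (algebraMap F _ x) (P c) * c)).symm

end Fermat.Agent.S18.H394

end
-- ===== PACK-END S18/H394/KummerMain.lean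

-- ===== PACK-BEGIN A2/H48/Qep2Le.lean
section


/-!
# A2 / piece QEP2, part 4 (helper48): the degree hypothesis as an inequality

In `TwoExt` / `GaussPair` the hypothesis `card : f₁ + f₂ = [F : K]` can be weakened to
`[F : K] ≤ f₁ + f₂` (the other inequality is automatic: the lifts of the two families are
linearly independent).  This is the form in which the modular side supplies it (upper bound for
the degree of the function field in characteristic `0`, lower bounds for the residue degrees in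
characteristic `q`).

* `TwoExtLe`, `TwoExtLe.card`, `TwoExtLe.twoExt`;
* `GaussPairLe`, `GaussPairLe.gaussPair`, hence `GaussPairLe.qep2`, `GaussPairLe.reduced`,
  `GaussPairLe.exists_monic_of_mem`.
-/

set_option autoImplicit false
set_option linter.unusedSectionVars false

namespace Fermat.Agent.A2.H48

open Polynomial

section Main

variable {K F : Type*} [Field K] [Field F] [Algebra K F]

/-- `TwoExt` with the degree hypothesis weakened to an inequality. -/
structure TwoExtLe (O : ValuationSubring K) (V₁ V₂ : ValuationSubring F) (ϖ : K)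
    {f₁ f₂ : ℕ} (b : Fin f₁ → F) (c : Fin f₂ → F) : Prop where
  unifO : IsUnif O ϖ
  unif₁ : IsUnif V₁ (algebraMap K F ϖ)
  unif₂ : IsUnif V₂ (algebraMap K F ϖ)
  le₁ : ∀ a ∈ O, algebraMap K F a ∈ V₁
  le₂ : ∀ a ∈ O, algebraMap K F a ∈ V₂
  ne : V₁ ≠ V₂
  arch : ∀ a : K, ∃ k : ℕ, ϖ ^ k * a ∈ O
  b_mem : ∀ i, b i ∈ V₁
  c_mem : ∀ j, c j ∈ V₂
  b_indep : ∀ a : Fin f₁ → K, (∀ i, a i ∈ O) →
    (∑ i, algebraMap K F (a i) * b i) * (algebraMap K F ϖ)⁻¹ ∈ V₁ → ∀ i, a i * ϖ⁻¹ ∈ O
  c_indep : ∀ a : Fin f₂ → K, (∀ j, a j ∈ O) →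
    (∑ j, algebraMap K F (a j) * c j) * (algebraMap K F ϖ)⁻¹ ∈ V₂ → ∀ j, a j * ϖ⁻¹ ∈ O
  le : Module.finrank K F ≤ f₁ + f₂

namespace TwoExtLe

variable {O : ValuationSubring K} {V₁ V₂ : ValuationSubring F} {ϖ : K}
  {f₁ f₂ : ℕ} {b : Fin f₁ → F} {c : Fin f₂ → F}

theorem exists_good [FiniteDimensional K F] (h : TwoExtLe O V₁ V₂ ϖ b c) :
    ∃ m : Fin f₁ ⊕ Fin f₂ → F, TwoExt.IsGood O V₁ V₂ ϖ m := by
  classical
  set π := algebraMap K F ϖ with hπ
  have hπ0 : π ≠ 0 := h.unif₁.ne_zero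
  have hA₁ : ∀ i, ∃ g : F, g ∈ V₁ ∧ (g - b i) * π⁻¹ ∈ V₁ ∧ g * π⁻¹ ∈ V₂ := fun i => by
    obtain ⟨k, hk⟩ := exists_pow_mul_mem h.unifO.mem h.arch V₂ h.le₂
      (Algebra.IsIntegral.isIntegral (R := K) (b i))
    exact exists_approx h.unif₁ h.unif₂ h.ne (h.b_mem i) hk
  have hA₂ : ∀ j, ∃ g : F, g ∈ V₂ ∧ (g - c j) * π⁻¹ ∈ V₂ ∧ g * π⁻¹ ∈ V₁ := fun j => by
    obtain ⟨k, hk⟩ := exists_pow_mul_mem h.unifO.mem h.arch V₁ h.le₁
      (Algebra.IsIntegral.isIntegral (R := K) (c j))
    exact exists_approx h.unif₂ h.unif₁ (Ne.symm h.ne) (h.c_mem j) hk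
  choose g hg1 hg2 hg3 using hA₁
  choose g' hg'1 hg'2 hg'3 using hA₂
  have hgV₂ : ∀ i, g i ∈ V₂ := fun i => by
    have : g i = g i * π⁻¹ * π := by field_simp
    rw [this]; exact mul_mem (hg3 i) h.unif₂.mem
  have hg'V₁ : ∀ j, g' j ∈ V₁ := fun j => by
    have : g' j = g' j * π⁻¹ * π := by field_simp
    rw [this]; exact mul_mem (hg'3 j) h.unif₁.mem
  refine ⟨Sum.elim g g', ?_, ?_, ?_⟩
  · rintro (i | j)
    · exact hg1 i
    · exact hg'V₁ j
  · rintro (i | j)
    · exact hgV₂ i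
    · exact hg'1 j
  · intro a ha hS₁ hS₂
    have hsplit : (∑ l, algebraMap K F (a l) * Sum.elim g g' l) =
        (∑ i, algebraMap K F (a (Sum.inl i)) * g i) +
          ∑ j, algebraMap K F (a (Sum.inr j)) * g' j := by
      rw [Fintype.sum_sum_type]; simp only [Sum.elim_inl, Sum.elim_inr]
    rw [hsplit] at hS₁ hS₂
    rintro (i | j)
    · refine h.b_indep (fun i => a (Sum.inl i)) (fun i => ha _) ?_ i
      have e1 : (∑ i, algebraMap K F (a (Sum.inl i)) * b i) * π⁻¹ =
          ((∑ i, algebraMap K F (a (Sum.inl i)) * g i) +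
            ∑ j, algebraMap K F (a (Sum.inr j)) * g' j) * π⁻¹
          - ∑ i, algebraMap K F (a (Sum.inl i)) * ((g i - b i) * π⁻¹)
          - ∑ j, algebraMap K F (a (Sum.inr j)) * (g' j * π⁻¹) := by
        have hW : ∑ i, algebraMap K F (a (Sum.inl i)) * ((g i - b i) * π⁻¹) =
            (∑ i, algebraMap K F (a (Sum.inl i)) * g i) * π⁻¹ -
              (∑ i, algebraMap K F (a (Sum.inl i)) * b i) * π⁻¹ := by
          rw [Finset.sum_mul, Finset.sum_mul, ← Finset.sum_sub_distrib]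
          exact Finset.sum_congr rfl fun i _ => by ring
        have hZ : ∑ j, algebraMap K F (a (Sum.inr j)) * (g' j * π⁻¹) =
            (∑ j, algebraMap K F (a (Sum.inr j)) * g' j) * π⁻¹ := by
          rw [Finset.sum_mul]
          exact Finset.sum_congr rfl fun j _ => by ring
        rw [hW, hZ]; ring
      rw [e1]
      refine sub_mem (sub_mem hS₁ (sum_mem fun i _ => mul_mem (h.le₁ _ (ha _)) (hg2 i)))
        (sum_mem fun j _ => mul_mem (h.le₁ _ (ha _)) (hg'3 j))
    · refine h.c_indep (fun j => a (Sum.inr j)) (fun j => ha _) ?_ j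
      have e1 : (∑ j, algebraMap K F (a (Sum.inr j)) * c j) * π⁻¹ =
          ((∑ i, algebraMap K F (a (Sum.inl i)) * g i) +
            ∑ j, algebraMap K F (a (Sum.inr j)) * g' j) * π⁻¹
          - ∑ j, algebraMap K F (a (Sum.inr j)) * ((g' j - c j) * π⁻¹)
          - ∑ i, algebraMap K F (a (Sum.inl i)) * (g i * π⁻¹) := by
        have hW : ∑ j, algebraMap K F (a (Sum.inr j)) * ((g' j - c j) * π⁻¹) =
            (∑ j, algebraMap K F (a (Sum.inr j)) * g' j) * π⁻¹ -
              (∑ j, algebraMap K F (a (Sum.inr j)) * c j) * π⁻¹ := by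
          rw [Finset.sum_mul, Finset.sum_mul, ← Finset.sum_sub_distrib]
          exact Finset.sum_congr rfl fun j _ => by ring
        have hZ : ∑ i, algebraMap K F (a (Sum.inl i)) * (g i * π⁻¹) =
            (∑ i, algebraMap K F (a (Sum.inl i)) * g i) * π⁻¹ := by
          rw [Finset.sum_mul]
          exact Finset.sum_congr rfl fun i _ => by ring
        rw [hW, hZ]; ring
      rw [e1]
      refine sub_mem (sub_mem hS₂ (sum_mem fun j _ => mul_mem (h.le₂ _ (ha _)) (hg'2 j)))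
        (sum_mem fun i _ => mul_mem (h.le₂ _ (ha _)) (hg3 i))

/-- The fundamental inequality is an equality. -/
theorem card [FiniteDimensional K F] (h : TwoExtLe O V₁ V₂ ϖ b c) :
    f₁ + f₂ = Module.finrank K F := by
  obtain ⟨m, hm⟩ := h.exists_good
  have hli := TwoExt.IsGood.linearIndependent h.unifO hm
  have h1 := hli.fintype_card_le_finrank
  rw [Fintype.card_sum, Fintype.card_fin, Fintype.card_fin] at h1
  exact le_antisymm h1 h.le

theorem twoExt [FiniteDimensional K F] (h : TwoExtLe O V₁ V₂ ϖ b c) :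
    TwoExt O V₁ V₂ ϖ b c where
  unifO := h.unifO
  unif₁ := h.unif₁
  unif₂ := h.unif₂
  le₁ := h.le₁
  le₂ := h.le₂
  ne := h.ne
  arch := h.arch
  b_mem := h.b_mem
  c_mem := h.c_mem
  b_indep := h.b_indep
  c_indep := h.c_indep
  card := h.card

end TwoExtLe

end Main

section Gauss

variable {R : Type*} [CommRing R] [IsDomain R] [UniqueFactorizationMonoid R]
variable {K F : Type*} [Field K] [Field F] [Algebra R[X] K] [IsFractionRing R[X] K]
  [Algebra K F] [Algebra R[X] F] [IsScalarTower R[X] K F]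

/-- `GaussPair` with the degree hypothesis weakened to an inequality. -/
structure GaussPairLe (ϖ : R) (V₁ V₂ : ValuationSubring F)
    {f₁ f₂ : ℕ} (b : Fin f₁ → F) (c : Fin f₂ → F) : Prop where
  prime : Prime ϖ
  unif₁ : IsUnif V₁ (algebraMap R[X] F (C ϖ))
  unif₂ : IsUnif V₂ (algebraMap R[X] F (C ϖ))
  poly₁ : ∀ P : R[X], algebraMap R[X] F P ∈ V₁
  poly₂ : ∀ P : R[X], algebraMap R[X] F P ∈ V₂
  gauss₁ : ∀ P : R[X], ¬ C ϖ ∣ P → (algebraMap R[X] F P)⁻¹ ∈ V₁
  gauss₂ : ∀ P : R[X], ¬ C ϖ ∣ P → (algebraMap R[X] F P)⁻¹ ∈ V₂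
  ne : V₁ ≠ V₂
  b_mem : ∀ i, b i ∈ V₁
  c_mem : ∀ j, c j ∈ V₂
  b_indep : ∀ a : Fin f₁ → R[X],
    (∑ i, algebraMap R[X] F (a i) * b i) * (algebraMap R[X] F (C ϖ))⁻¹ ∈ V₁ → ∀ i, C ϖ ∣ a i
  c_indep : ∀ a : Fin f₂ → R[X],
    (∑ j, algebraMap R[X] F (a j) * c j) * (algebraMap R[X] F (C ϖ))⁻¹ ∈ V₂ → ∀ j, C ϖ ∣ a j
  le : Module.finrank K F ≤ f₁ + f₂

namespace GaussPairLe

variable {ϖ : R} {V₁ V₂ : ValuationSubring F} {f₁ f₂ : ℕ} {b : Fin f₁ → F} {c : Fin f₂ → F}

theorem gaussRing_eq (h : GaussPairLe (K := K) ϖ V₁ V₂ b c) :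
    gaussRing K V₁ = gaussRing K V₂ := by
  apply le_antisymm
  · intro a ha
    obtain ⟨P, Q, hQ, rfl⟩ := exists_div_of_mem_gaussRing h.prime h.unif₁ h.poly₁ h.gauss₁ ha
    exact div_mem_gaussRing h.poly₂ h.gauss₂ P hQ
  · intro a ha
    obtain ⟨P, Q, hQ, rfl⟩ := exists_div_of_mem_gaussRing h.prime h.unif₂ h.poly₂ h.gauss₂ ha
    exact div_mem_gaussRing h.poly₁ h.gauss₁ P hQ

theorem twoExtLe (h : GaussPairLe (K := K) ϖ V₁ V₂ b c) :
    TwoExtLe (gaussRing K V₁) V₁ V₂ (algebraMap R[X] K (C ϖ)) b c where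
  unifO := isUnif_gaussRing h.unif₁
  unif₁ := by rw [map_eq]; exact h.unif₁
  unif₂ := by rw [map_eq]; exact h.unif₂
  le₁ := fun a ha => mem_gaussRing.1 ha
  le₂ := fun a ha => mem_gaussRing.1 (h.gaussRing_eq ▸ ha)
  ne := h.ne
  arch := arch_gaussRing h.prime h.poly₁ h.gauss₁
  b_mem := h.b_mem
  c_mem := h.c_mem
  b_indep := fun a ha hsum i =>
    indep_gaussRing h.prime h.unif₁ h.poly₁ h.gauss₁ h.b_indep a ha hsum i
  c_indep := fun a ha hsum j => by
    rw [h.gaussRing_eq]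
    exact indep_gaussRing h.prime h.unif₂ h.poly₂ h.gauss₂ h.c_indep a
      (fun j => h.gaussRing_eq ▸ ha j) hsum j
  le := h.le

/-- The fundamental inequality is an equality: `[F : K] = f₁ + f₂`. -/
theorem card [FiniteDimensional K F] (h : GaussPairLe (K := K) ϖ V₁ V₂ b c) :
    f₁ + f₂ = Module.finrank K F := h.twoExtLe.card

theorem gaussPair [FiniteDimensional K F] (h : GaussPairLe (K := K) ϖ V₁ V₂ b c) :
    GaussPair (K := K) ϖ V₁ V₂ b c where
  prime := h.prime
  unif₁ := h.unif₁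
  unif₂ := h.unif₂
  poly₁ := h.poly₁
  poly₂ := h.poly₂
  gauss₁ := h.gauss₁
  gauss₂ := h.gauss₂
  ne := h.ne
  b_mem := h.b_mem
  c_mem := h.c_mem
  b_indep := h.b_indep
  c_indep := h.c_indep
  card := h.card

/-- **`q`-expansion principle for the two-component model** (inequality form). -/
theorem qep2 [FiniteDimensional K F] (h : GaussPairLe (K := K) ϖ V₁ V₂ b c) {u : F}
    (hu : IsIntegral R[X] u)
    (h₁ : u * (algebraMap R[X] F (C ϖ))⁻¹ ∈ V₁) (h₂ : u * (algebraMap R[X] F (C ϖ))⁻¹ ∈ V₂) :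
    IsIntegral R[X] (u * (algebraMap R[X] F (C ϖ))⁻¹) :=
  h.gaussPair.qep2 hu h₁ h₂

/-- The special fibre is reduced (inequality form). -/
theorem reduced [FiniteDimensional K F] (h : GaussPairLe (K := K) ϖ V₁ V₂ b c) {u : F}
    (hu : IsIntegral R[X] u) {k : ℕ}
    (h₁ : u ^ k * (algebraMap R[X] F (C ϖ))⁻¹ ∈ V₁)
    (h₂ : u ^ k * (algebraMap R[X] F (C ϖ))⁻¹ ∈ V₂) :
    IsIntegral R[X] (u * (algebraMap R[X] F (C ϖ))⁻¹) :=
  h.gaussPair.reduced hu h₁ h₂

/-- No third extension (inequality form). -/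
theorem exists_monic_of_mem [FiniteDimensional K F] (h : GaussPairLe (K := K) ϖ V₁ V₂ b c)
    {u : F} (hu₁ : u ∈ V₁) (hu₂ : u ∈ V₂) :
    ∃ p : K[X], p.Monic ∧ (∀ i, p.coeff i ∈ gaussRing K V₁) ∧ aeval u p = 0 :=
  h.gaussPair.exists_monic_of_mem hu₁ hu₂

end GaussPairLe

end Gauss

end Fermat.Agent.A2.H48

end
-- ===== PACK-END A2/H48/Qep2Le.lean

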