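import Fermat.Prelude.Def_GaloisRep_ComplexConjugation
import Mathlib
import Mathlib.RingTheory.Ideal.KrullsHeightTheorem
import Mathlib.RingTheory.Ideal.MinimalPrime.Noetherian
import Mathlib.RingTheory.Ideal.BigOperators
import Fermat.Prelude.Def_ModularCurve_HeckeOperator
import Fermat.Prelude.Def_FLTPrelim_Ramification
import Fermat.Agent.Pack.S34.G0E6L1
import Fermat.Agent.Pack.S34.G0E6L3
import Fermat.Agent.Pack.S34.G0E0L1
import Fermat.Agent.Pack.S34.G0E6L2
import Fermat.Agent.Pack.S34.G0E1L3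
import Fermat.Agent.Pack.S34.G0E6L0
import Fermat.Agent.Pack.S34.G0E4L2
import Fermat.Agent.Pack.S34.G0E3L0
import Fermat.Agent.Pack.S34.G0E5L3
import Fermat.Agent.Pack.S34.G0E5L2
import Fermat.Agent.Pack.S34.G0E4L0
import Fermat.Agent.Pack.S34.G0E1L0
import Fermat.Agent.Pack.S34.G0E5L1

-- ===== PACK-BEGIN S30/H990/TwoDim1.lean
section
/-
S30 top glue (helper990): pure algebra, part 6: the rank one case and the conclusion of the
extraction.
-/


set_option autoImplicit false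

namespace Fermat.Agent.S30.H990

open Module Polynomial

section PiCong

variable {𝒪 : Type} [CommRing 𝒪]

/-- A vector with all coordinates in `I` lies in `I • ⊤`. -/
theorem pi_mem_smul_top (I : Ideal 𝒪) (y : Fin 2 → 𝒪) (hy : ∀ i, y i ∈ I) :
    y ∈ I • (⊤ : Submodule 𝒪 (Fin 2 → 𝒪)) := by
  classical
  rw [pi_eq_sum_univ' y]
  refine Submodule.sum_mem _ (fun i _ => ?_)
  exact Submodule.smul_mem_smul (hy i) Submodule.mem_top

end PiCong

section Constructions

variable {𝒪 M G : Type} [CommRing 𝒪] [IsDomain 𝒪] [IsPrincipalIdealRing 𝒪]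
  [AddCommGroup M] [Module 𝒪 M] [Module.Free 𝒪 M] [Module.Finite 𝒪 M] [Group G]
  (ρ : G →* Module.End 𝒪 M) (d : G →* 𝒪ˣ)

/-- The rank one case. -/
theorem twoDim_of_rank_one (v : M) (hv0 : v ≠ 0)
    (hsv : ∀ g, ∃ r : 𝒪, r ≠ 0 ∧ r • ρ g v ∈ Submodule.span 𝒪 {v}) :
    Nonempty (TwoDimOut ρ d) := by
  classical
  have hli : LinearIndependent 𝒪 (fun _ : Fin 1 => v) := by
    rw [linearIndependent_unique_iff]
    exact hv0
  have hrange : Set.range (fun _ : Fin 1 => v) = ({v} : Set M) := Set.range_const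
  set Λ : Submodule 𝒪 M := sat (Submodule.span 𝒪 ({v} : Set M)) with hΛ
  have hfr : Module.finrank 𝒪 Λ = 1 := by
    have := finrank_sat_span (fun _ : Fin 1 => v) hli
    rwa [hrange] at this
  have hstab : ∀ g, ∀ x ∈ Λ, ρ g x ∈ Λ := by
    apply sat_span_stable
    intro g x hx
    rw [Set.mem_singleton_iff] at hx
    subst hx
    exact hsv g
  have hvΛ : v ∈ Λ := le_sat _ (Submodule.subset_span (by simp))
  set ρΛ := restrictRep ρ Λ hstab with hρΛ
  -- the character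
  let ψ : G →* 𝒪ˣ := (LinearMap.det.comp ρΛ).toHomUnits
  have hψ : ∀ g (x : Λ), ρΛ g x = ((ψ g : 𝒪ˣ) : 𝒪) • x := fun g x =>
    apply_eq_det_smul hfr (ρΛ g) x
  have hψrel : ∀ g a, Rel ρ d g a →
      ((ψ g : 𝒪ˣ) : 𝒪) * ((ψ g : 𝒪ˣ) : 𝒪) - a * ((ψ g : 𝒪ˣ) : 𝒪) + ((d g : 𝒪ˣ) : 𝒪) = 0 := by
    intro g a hr
    have h1 := rel_apply ρΛ d (rel_restrictRep ρ d Λ hstab hr) ⟨v, hvΛ⟩
    rw [hψ g ⟨v, hvΛ⟩, map_smul, hψ g ⟨v, hvΛ⟩] at h1
    have h2 : (((ψ g : 𝒪ˣ) : 𝒪) * ((ψ g : 𝒪ˣ) : 𝒪) - a * ((ψ g : 𝒪ˣ) : 𝒪) + ((d g : 𝒪ˣ) : 𝒪))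
        • (⟨v, hvΛ⟩ : Λ) = 0 := by
      rw [← h1]
      module
    have hne : (⟨v, hvΛ⟩ : Λ) ≠ 0 := fun h => hv0 (congrArg Subtype.val h)
    exact (smul_eq_zero.mp h2).resolve_right hne
  -- the diagonal representation
  let δ : G →* (Fin 2 → 𝒪) :=
    { toFun := fun g => ![((ψ g : 𝒪ˣ) : 𝒪), ((d g * (ψ g)⁻¹ : 𝒪ˣ) : 𝒪)]
      map_one' := by
        ext i
        fin_cases i <;> simp
      map_mul' := fun g h => by
        ext i
        fin_cases i
        · simp
        · simp only [map_mul, mul_inv_rev, Units.val_mul, Fin.mk_one, Fin.isValue, Pi.mul_apply,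
            Matrix.cons_val_one, Matrix.cons_val_zero]
          ring }
  let A : G →* Matrix (Fin 2) (Fin 2) 𝒪 :=
    ((Matrix.diagonalRingHom (Fin 2) 𝒪 : (Fin 2 → 𝒪) →+* Matrix (Fin 2) (Fin 2) 𝒪) :
      (Fin 2 → 𝒪) →* Matrix (Fin 2) (Fin 2) 𝒪).comp δ
  let ρ₂ : G →* Module.End 𝒪 (Fin 2 → 𝒪) :=
    ((Matrix.toLinAlgEquiv' : Matrix (Fin 2) (Fin 2) 𝒪 ≃ₐ[𝒪] Module.End 𝒪 (Fin 2 → 𝒪)) :
      Matrix (Fin 2) (Fin 2) 𝒪 →* Module.End 𝒪 (Fin 2 → 𝒪)).comp A
  have hρ₂ : ∀ g, ρ₂ g = Matrix.toLin' (Matrix.diagonal (δ g)) := fun g => rfl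
  have hδ0 : ∀ g, δ g 0 = ((ψ g : 𝒪ˣ) : 𝒪) := fun g => rfl
  have hδ1 : ∀ g, δ g 1 = ((d g * (ψ g)⁻¹ : 𝒪ˣ) : 𝒪) := fun g => rfl
  refine ⟨{ V := Fin 2 → 𝒪
            finrank_eq := by simp
            ρ₂ := ρ₂
            charpoly_eq := ?_
            cong := ?_ }⟩
  · intro g a hr
    rw [hρ₂, Matrix.charpoly_toLin', Matrix.charpoly_fin_two, Matrix.trace_diagonal,
      Matrix.det_diagonal, Fin.sum_univ_two, Fin.prod_univ_two, hδ0, hδ1]
    have h := hψrel g a hr
    have hinv : ((ψ g : 𝒪ˣ) : 𝒪) * (((ψ g)⁻¹ : 𝒪ˣ) : 𝒪) = 1 := by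
      rw [← Units.val_mul, mul_inv_cancel, Units.val_one]
    have ha : ((ψ g : 𝒪ˣ) : 𝒪) + ((d g * (ψ g)⁻¹ : 𝒪ˣ) : 𝒪) = a := by
      rw [Units.val_mul]
      linear_combination (((ψ g)⁻¹ : 𝒪ˣ) : 𝒪) * h + (a - ((ψ g : 𝒪ˣ) : 𝒪)) * hinv
    have hd : ((ψ g : 𝒪ˣ) : 𝒪) * ((d g * (ψ g)⁻¹ : 𝒪ˣ) : 𝒪) = ((d g : 𝒪ˣ) : 𝒪) := by
      rw [Units.val_mul]
      linear_combination ((d g : 𝒪ˣ) : 𝒪) * hinv
    rw [ha, hd]
  · intro I g hg hdg x
    -- `ψ g - 1 ∈ I`
    have hψI : ((ψ g : 𝒪ˣ) : 𝒪) - 1 ∈ I := by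
      apply mem_of_smul_basis_mem hfr I
      intro y
      have hmem : ((ρΛ g y - y : Λ) : M) ∈ I • (⊤ : Submodule 𝒪 M) := hg (y : M)
      have := mem_smul_top_sat _ I _ hmem
      rwa [hψ g y, ← one_smul 𝒪 y, smul_smul, mul_one, ← sub_smul] at this
    have hinv : ((ψ g : 𝒪ˣ) : 𝒪) * (((ψ g)⁻¹ : 𝒪ˣ) : 𝒪) = 1 := by
      rw [← Units.val_mul, mul_inv_cancel, Units.val_one]
    have hδI : ((d g * (ψ g)⁻¹ : 𝒪ˣ) : 𝒪) - 1 ∈ I := by
      have : ((d g * (ψ g)⁻¹ : 𝒪ˣ) : 𝒪) - 1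
          = (((ψ g)⁻¹ : 𝒪ˣ) : 𝒪) * ((((d g : 𝒪ˣ) : 𝒪) - 1) - (((ψ g : 𝒪ˣ) : 𝒪) - 1)) := by
        rw [Units.val_mul]
        linear_combination hinv
      rw [this]
      exact I.mul_mem_left _ (I.sub_mem hdg hψI)
    apply pi_mem_smul_top
    intro i
    rw [hρ₂, Matrix.toLin'_apply, Pi.sub_apply, Matrix.mulVec_diagonal]
    have : δ g i * x i - x i = (δ g i - 1) * x i := by ring
    rw [this]
    apply I.mul_mem_right
    fin_cases i
    · exact hψI
    · exact hδI

/-- Conclusion of the extraction: from a nonzero finite free module on which every group element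
satisfies a quadratic relation with constant term `d g`, and an involution `c` with `d c = -1`,
one gets a rank two representation with the expected characteristic polynomials. -/
theorem exists_twoDim [Nontrivial M] (h2 : (2 : 𝒪) ≠ 0) (hrel : ∀ g, ∃ a, Rel ρ d g a)
    (c : G) (hc : c * c = 1) (hdc : d c = -1) : Nonempty (TwoDimOut ρ d) := by
  rcases exists_stable ρ d h2 hrel c hc hdc with ⟨v, hv0, hsv⟩ |
    ⟨u, w, ε, hε, hu0, hw0, hu, hw, hsu, hsw⟩
  · exact twoDim_of_rank_one ρ d v hv0 hsv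
  · exact twoDim_of_rank_two ρ d hrel h2 c hdc u w ε hε hu0 hw0 hu hw hsu hsw

end Constructions

end Fermat.Agent.S30.H990

end
-- ===== PACK-END S30/H990/TwoDim1.lean

-- ===== PACK-BEGIN S30/H990/Cyclo.lean
section
/-
S30 top glue (helper990): the `p`-adic cyclotomic character with values in a complete local ring
`𝒪` with `p ∈ 𝔪`: Frobenius elements, inertia, complex conjugation, continuity.
-/




set_option autoImplicit false

namespace Fermat.Agent.S30.H990

open Fermat.Agent.S55.H414 Fermat.Agent.S55.Bridge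

section PadicHom

variable (p : ℕ) [Fact p.Prime]

/-- Ring homomorphisms from `ℤ_[p]` to a ring killed by a power of `p` are unique. -/
theorem padicInt_ringHom_ext {R : Type*} [Ring R] (m : ℕ) (hm : (p : R) ^ m = 0)
    (f g : ℤ_[p] →+* R) : f = g := by
  have key : ∀ (h : ℤ_[p] →+* R) (x : ℤ_[p]), h x = ((x.appr m : ℕ) : R) := by
    intro h x
    have := PadicInt.appr_spec m x
    rw [Ideal.mem_span_singleton'] at this
    obtain ⟨y, hy⟩ := this
    have hx : x = y * (p : ℤ_[p]) ^ m + ((x.appr m : ℕ) : ℤ_[p]) := by rw [hy]; ring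
    conv_lhs => rw [hx]
    rw [map_add, map_mul, map_pow, map_natCast, map_natCast, hm, mul_zero, zero_add]
  ext x
  rw [key f, key g]

variable (𝒪 : Type) [CommRing 𝒪] [IsLocalRing 𝒪]
  [IsAdicComplete (IsLocalRing.maximalIdeal 𝒪) 𝒪]

/-- A complete local ring with `p` in its maximal ideal is a `ℤ_[p]`-algebra. -/
theorem exists_padicInt_ringHom (hp : (p : 𝒪) ∈ IsLocalRing.maximalIdeal 𝒪) :
    Nonempty (ℤ_[p] →+* 𝒪) := by
  classical
  have hpow : ∀ n, (p : 𝒪 ⧸ IsLocalRing.maximalIdeal 𝒪 ^ n) ^ n = 0 := by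
    intro n
    have : (p : 𝒪 ⧸ IsLocalRing.maximalIdeal 𝒪 ^ n) ^ n
        = Ideal.Quotient.mk (IsLocalRing.maximalIdeal 𝒪 ^ n) ((p : 𝒪) ^ n) := by
      simp
    rw [this, Ideal.Quotient.eq_zero_iff_mem]
    exact Ideal.pow_mem_pow hp n
  have hzero : ∀ n, ((p ^ n : ℕ) : 𝒪 ⧸ IsLocalRing.maximalIdeal 𝒪 ^ n) = 0 := by
    intro n
    rw [Nat.cast_pow]
    exact hpow n
  let f : (n : ℕ) → ℤ_[p] →+* 𝒪 ⧸ IsLocalRing.maximalIdeal 𝒪 ^ n := fun n =>
    haveI := ringChar.charP (𝒪 ⧸ IsLocalRing.maximalIdeal 𝒪 ^ n)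
    (ZMod.castHom ((ringChar.spec _ _).mp (hzero n))
      (𝒪 ⧸ IsLocalRing.maximalIdeal 𝒪 ^ n)).comp (PadicInt.toZModPow n)
  refine ⟨IsAdicComplete.liftRingHom (IsLocalRing.maximalIdeal 𝒪) f ?_⟩
  intro m n hle
  exact padicInt_ringHom_ext p m (hpow m) _ _

end PadicHom

section CycloZp

variable (p : ℕ) [Fact p.Prime]

/-- The `p`-adic cyclotomic character of `G_ℚ`. -/
noncomputable def cycloZp : GQ →* ℤ_[p]ˣ :=
  (cyclotomicCharacter (AlgebraicClosure ℚ) p).comp
    (MulSemiringAction.toRingAut GQ (AlgebraicClosure ℚ))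

theorem cycloZp_spec (σ : GQ) (n : ℕ) :
    σ (zetaBar (p ^ n)) =
      zetaBar (p ^ n) ^ ((PadicInt.toZModPow n) ((cycloZp p σ : ℤ_[p]ˣ) : ℤ_[p])).val :=
  cyclotomicCharacter.spec p (MulSemiringAction.toRingAut GQ (AlgebraicClosure ℚ) σ)
    (zetaBar (p ^ n)) (zetaBar_spec (p ^ n)).pow_eq_one

/-- The value of the cyclotomic character is determined by the action on the roots of unity
`ζ_{p^n}`. -/
theorem toZModPow_cycloZp (σ : GQ) (n : ℕ) (a : ℕ)
    (h : σ (zetaBar (p ^ n)) = zetaBar (p ^ n) ^ a) :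
    (PadicInt.toZModPow n) ((cycloZp p σ : ℤ_[p]ˣ) : ℤ_[p]) = (a : ZMod (p ^ n)) := by
  have h1 := cycloZp_spec p σ n
  rw [h, pow_eq_pow_iff_natCast_eq (zetaBar_spec (p ^ n)), ZMod.natCast_zmod_val] at h1
  exact h1.symm

theorem cycloZp_eq_of_forall (σ : GQ) (x : ℤ_[p])
    (h : ∀ n, ∃ a : ℕ, σ (zetaBar (p ^ n)) = zetaBar (p ^ n) ^ a ∧
      (a : ZMod (p ^ n)) = PadicInt.toZModPow n x) :
    ((cycloZp p σ : ℤ_[p]ˣ) : ℤ_[p]) = x := by
  rw [← PadicInt.ext_of_toZModPow]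
  intro n
  obtain ⟨a, ha, hax⟩ := h n
  rw [toZModPow_cycloZp p σ n a ha, hax]

/-- Frobenius elements at `ℓ ≠ p`. -/
theorem cycloZp_frobenius {ℓ : ℕ} (hℓ : ℓ.Prime) (hℓp : ℓ ≠ p)
    (A : ValuationSubring (AlgebraicClosure ℚ)) (hA : A.LiesOverPrime ℓ) (σ : GQ)
    (hσ : A.IsFrobeniusAt σ ℓ) : ((cycloZp p σ : ℤ_[p]ˣ) : ℤ_[p]) = (ℓ : ℤ_[p]) := by
  have hp : p.Prime := Fact.out
  apply cycloZp_eq_of_forall
  intro n
  have hNv : A.valuation ((p ^ n : ℕ) : AlgebraicClosure ℚ) = 1 := by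
    rw [Nat.cast_pow, map_pow, val_prime_eq_one (A := A) hA hℓ hp hℓp, one_pow]
  refine ⟨ℓ, IsFrobeniusAt_apply_root hσ (NeZero.ne _) hNv (zetaBar_spec (p ^ n)).pow_eq_one, ?_⟩
  rw [map_natCast]

/-- Inertia at `q ≠ p`. -/
theorem cycloZp_inertia {q : ℕ} (hq : q.Prime) (hqp : q ≠ p)
    (P : ValuationSubring (AlgebraicClosure ℚ)) (hP : P.LiesOverPrime q) (σ : GQ)
    (hσ : σ ∈ P.inertiaSubgroupIn ℚ) : cycloZp p σ = 1 := by
  have hp : p.Prime := Fact.out
  apply Units.ext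
  rw [Units.val_one]
  apply cycloZp_eq_of_forall
  intro n
  have hNv : P.valuation ((p ^ n : ℕ) : AlgebraicClosure ℚ) = 1 := by
    rw [Nat.cast_pow, map_pow, val_prime_eq_one (A := P) hP hq hp hqp, one_pow]
  have h1 := inertia_le_fixingSubgroup_cycloLevel (p ^ n) P hNv hσ
  rw [mem_fixingSubgroup_cycloLevel_iff] at h1
  refine ⟨1, by rw [h1, pow_one], ?_⟩
  rw [Nat.cast_one, map_one]

/-- Complex conjugation inverts roots of unity. -/
theorem complexConjugation_root {N : ℕ} (hN : N ≠ 0) {z : AlgebraicClosure ℚ} (hz : z ^ N = 1) :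
    complexConjugation z = z⁻¹ := by
  apply complexEmbedding.toRingHom.injective
  show complexEmbedding (complexConjugation z) = complexEmbedding z⁻¹
  rw [complexEmbedding_complexConjugation, map_inv₀]
  have h1 : (complexEmbedding z) ^ N = 1 := by rw [← map_pow, hz, map_one]
  exact (Complex.inv_eq_conj (Complex.norm_eq_one_of_pow_eq_one h1 hN)).symm

/-- Complex conjugation. -/
theorem cycloZp_complexConjugation : cycloZp p complexConjugation = -1 := by
  have hp : p.Prime := Fact.out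
  apply Units.ext
  rw [Units.val_neg, Units.val_one]
  apply cycloZp_eq_of_forall
  intro n
  have hz := (zetaBar_spec (p ^ n)).pow_eq_one
  have hpos : 0 < p ^ n := pos_of_ne_zero (NeZero.ne _)
  refine ⟨p ^ n - 1, ?_, ?_⟩
  · rw [complexConjugation_root (NeZero.ne (p ^ n)) hz]
    apply inv_eq_of_mul_eq_one_right
    rw [← pow_succ', Nat.sub_add_cancel hpos, hz]
  · rw [Nat.cast_sub hpos, Nat.cast_one, ZMod.natCast_self, zero_sub, map_neg, map_one]

/-- Continuity. -/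
theorem cycloZp_sub_one_mem (n : ℕ) (σ : GQ) (h : ∀ x ∈ cycloLevel (p ^ n), σ x = x) :
    ((cycloZp p σ : ℤ_[p]ˣ) : ℤ_[p]) - 1 ∈ Ideal.span {(p : ℤ_[p]) ^ n} := by
  rw [← PadicInt.ker_toZModPow, RingHom.mem_ker, map_sub, map_one, sub_eq_zero]
  have h1 : σ (zetaBar (p ^ n)) = zetaBar (p ^ n) ^ 1 := by
    rw [pow_one]
    exact h _ (zetaBar_mem_cycloLevel (p ^ n))
  rw [toZModPow_cycloZp p σ n 1 h1, Nat.cast_one]

end CycloZp

section Cyclo

variable (p : ℕ) [Fact p.Prime] (𝒪 : Type) [CommRing 𝒪] [IsLocalRing 𝒪]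
  [IsAdicComplete (IsLocalRing.maximalIdeal 𝒪) 𝒪]

/-- The `p`-adic cyclotomic character with values in `𝒪`. -/
theorem exists_cyclo (hp : (p : 𝒪) ∈ IsLocalRing.maximalIdeal 𝒪) :
    ∃ d : GQ →* 𝒪ˣ,
      (∀ ℓ : ℕ, ℓ.Prime → ℓ ≠ p → ∀ A : ValuationSubring (AlgebraicClosure ℚ),
        A.LiesOverPrime ℓ → ∀ σ : GQ, A.IsFrobeniusAt σ ℓ → ((d σ : 𝒪ˣ) : 𝒪) = (ℓ : 𝒪)) ∧
      (∀ q : ℕ, q.Prime → q ≠ p → ∀ P : ValuationSubring (AlgebraicClosure ℚ),
        P.LiesOverPrime q → ∀ σ ∈ P.inertiaSubgroupIn ℚ, d σ = 1) ∧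
      d complexConjugation = -1 ∧
      (∀ (n : ℕ) (σ : GQ), (∀ x ∈ cycloLevel (p ^ n), σ x = x) →
        ((d σ : 𝒪ˣ) : 𝒪) - 1 ∈ IsLocalRing.maximalIdeal 𝒪 ^ n) := by
  obtain ⟨φ⟩ := exists_padicInt_ringHom p 𝒪 hp
  refine ⟨(Units.map (φ : ℤ_[p] →* 𝒪)).comp (cycloZp p), ?_, ?_, ?_, ?_⟩
  · intro ℓ hℓ hℓp A hA σ hσ
    show φ ((cycloZp p σ : ℤ_[p]ˣ) : ℤ_[p]) = (ℓ : 𝒪)
    rw [cycloZp_frobenius p hℓ hℓp A hA σ hσ, map_natCast]
  · intro q hq hqp P hP σ hσ
    rw [MonoidHom.comp_apply, cycloZp_inertia p hq hqp P hP σ hσ, map_one]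
  · rw [MonoidHom.comp_apply, cycloZp_complexConjugation]
    apply Units.ext
    show φ ((-1 : ℤ_[p]ˣ) : ℤ_[p]) = ((-1 : 𝒪ˣ) : 𝒪)
    rw [Units.val_neg, Units.val_one, Units.val_neg, Units.val_one, map_neg, map_one]
  · intro n σ h
    have h1 := cycloZp_sub_one_mem p n σ h
    rw [Ideal.mem_span_singleton'] at h1
    obtain ⟨y, hy⟩ := h1
    show φ ((cycloZp p σ : ℤ_[p]ˣ) : ℤ_[p]) - 1 ∈ IsLocalRing.maximalIdeal 𝒪 ^ n
    have : φ ((cycloZp p σ : ℤ_[p]ˣ) : ℤ_[p]) - 1 = φ y * (p : 𝒪) ^ n := by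
      rw [← map_one φ, ← map_sub, ← hy, map_mul, map_pow, map_natCast]
    rw [this]
    exact Ideal.mul_mem_left _ _ (Ideal.pow_mem_pow hp n)

end Cyclo

end Fermat.Agent.S30.H990

end
-- ===== PACK-END S30/H990/Cyclo.lean

-- ===== PACK-BEGIN S24/H624/Germ.lean
section


/-!
# Taylor coefficients of germs; leading coefficient under Möbius transformations
-/

set_option autoImplicit false

namespace Fermat.Agent.S24.H624

open UpperHalfPlane Complex
open scoped Manifold Topology MatrixGroups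

/-- `n`-th Taylor coefficient at `z₀` of a function `ℂ → ℂ`. -/
noncomputable def germCoeff (z₀ : ℂ) (F : ℂ → ℂ) (n : ℕ) : ℂ :=
  iteratedDeriv n F z₀ / (n.factorial : ℂ)

theorem taylorCoeff_eq_germCoeff (τ : ℍ) (f : ℍ → ℂ) (n : ℕ) :
    taylorCoeff τ f n = germCoeff (τ : ℂ) (f ∘ ofComplex) n := rfl

theorem germCoeff_congr {F G : ℂ → ℂ} {z₀ : ℂ} (h : F =ᶠ[𝓝 z₀] G) (n : ℕ) :
    germCoeff z₀ F n = germCoeff z₀ G n := by
  unfold germCoeff
  rw [h.iteratedDeriv_eq]

theorem germCoeff_zero_idx (z₀ : ℂ) (F : ℂ → ℂ) : germCoeff z₀ F 0 = F z₀ := by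
  simp [germCoeff]

theorem germCoeff_mul {F G : ℂ → ℂ} {z₀ : ℂ} (hF : AnalyticAt ℂ F z₀) (hG : AnalyticAt ℂ G z₀)
    (n : ℕ) :
    germCoeff z₀ (F * G) n
      = ∑ p ∈ Finset.HasAntidiagonal.antidiagonal n, germCoeff z₀ F p.1 * germCoeff z₀ G p.2 := by
  unfold germCoeff
  have hF' : ContDiffAt ℂ n F z₀ := hF.contDiffAt.of_le (by exact_mod_cast le_top)
  have hG' : ContDiffAt ℂ n G z₀ := hG.contDiffAt.of_le (by exact_mod_cast le_top)
  rw [iteratedDeriv_mul hF' hG',
    Finset.Nat.sum_antidiagonal_eq_sum_range_succ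
      (fun i j => iteratedDeriv i F z₀ / (i.factorial : ℂ)
        * (iteratedDeriv j G z₀ / (j.factorial : ℂ))) n,
    Finset.sum_div]
  refine Finset.sum_congr rfl fun i hi => ?_
  have hi' : i ≤ n := Nat.lt_succ_iff.mp (Finset.mem_range.mp hi)
  have h1 : (n.choose i : ℂ)
      = (n.factorial : ℂ) / ((i.factorial : ℂ) * ((n - i).factorial : ℂ)) := by
    rw [Nat.choose_eq_factorial_div_factorial hi']
    rw [Nat.cast_div (Nat.factorial_mul_factorial_dvd_factorial hi')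
      (by exact_mod_cast (Nat.mul_pos (Nat.factorial_pos _) (Nat.factorial_pos _)).ne')]
    push_cast
    rfl
  rw [h1]
  have hn : (n.factorial : ℂ) ≠ 0 := by exact_mod_cast (Nat.factorial_pos n).ne'
  have hi0 : (i.factorial : ℂ) ≠ 0 := by exact_mod_cast (Nat.factorial_pos i).ne'
  have hni : ((n - i).factorial : ℂ) ≠ 0 := by exact_mod_cast (Nat.factorial_pos (n - i)).ne'
  field_simp

theorem germCoeff_sub_id (z₀ : ℂ) (n : ℕ) :
    germCoeff z₀ (fun z => z - z₀) n = if n = 1 then 1 else 0 := by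
  unfold germCoeff
  rcases n with _ | _ | n
  · simp
  · have h : deriv (fun z : ℂ => z - z₀) = fun _ => (1 : ℂ) := by
      funext z
      simp
    rw [iteratedDeriv_succ', h]
    simp
  · have h : deriv (fun z : ℂ => z - z₀) = fun _ => (1 : ℂ) := by
      funext z
      simp
    rw [iteratedDeriv_succ', h, iteratedDeriv_succ']
    simp

theorem germCoeff_sub_mul {G : ℂ → ℂ} {z₀ : ℂ} (hG : AnalyticAt ℂ G z₀) (n : ℕ) :
    germCoeff z₀ (fun z => (z - z₀) * G z) (n + 1) = germCoeff z₀ G n := by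
  have hF : AnalyticAt ℂ (fun z : ℂ => z - z₀) z₀ := by fun_prop
  have := germCoeff_mul hF hG (n + 1)
  rw [show (fun z => (z - z₀) * G z) = (fun z : ℂ => z - z₀) * G from rfl, this]
  rw [Finset.sum_eq_single (1, n)]
  · rw [germCoeff_sub_id]
    simp
  · rintro ⟨i, j⟩ hij hne
    rw [germCoeff_sub_id]
    have hsum : i + j = n + 1 := by simpa using hij
    have hi : i ≠ 1 := by
      rintro rfl
      apply hne
      have : j = n := by omega
      rw [this]
    simp [hi]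
  · intro h
    exfalso
    apply h
    simp
    omega

theorem germCoeff_pow_mul {G : ℂ → ℂ} {z₀ : ℂ} (hG : AnalyticAt ℂ G z₀) (n : ℕ) :
    germCoeff z₀ (fun z => (z - z₀) ^ n * G z) n = G z₀ := by
  induction n generalizing G with
  | zero => simp [germCoeff_zero_idx]
  | succ n ih =>
    have hG' : AnalyticAt ℂ (fun z => (z - z₀) ^ n * G z) z₀ := by fun_prop
    have h1 : (fun z => (z - z₀) ^ (n + 1) * G z)
        = fun z => (z - z₀) * ((z - z₀) ^ n * G z) := by
      funext z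
      ring
    rw [h1, germCoeff_sub_mul hG', ih hG]

/-- Leading Taylor coefficient via a local factorisation. -/
theorem germCoeff_of_eventuallyEq {F u : ℂ → ℂ} {z₀ : ℂ} (hu : AnalyticAt ℂ u z₀) {n : ℕ}
    (h : ∀ᶠ z in 𝓝 z₀, F z = (z - z₀) ^ n * u z) : germCoeff z₀ F n = u z₀ := by
  rw [germCoeff_congr (G := fun z => (z - z₀) ^ n * u z) h, germCoeff_pow_mul hu]

/-- **Leading coefficient form of the rotation lemma.**  If `f` has order `n` at `g • τ`, the
`n`-th Taylor coefficient of `f ∘ g` at `τ` is `(g'(τ)) ^ n` times that of `f` at `g • τ`. -/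
theorem taylorCoeff_comp_smul {g : GL (Fin 2) ℝ} (hg : 0 < g.det.val) {f : ℍ → ℂ} (hf : MDiff f)
    (τ : ℍ) {n : ℕ} (hn : ordAt (g • τ) f = n) :
    taylorCoeff τ (fun z : ℍ => f (g • z)) n
      = (((g.det.val : ℝ) : ℂ) / denom g (τ : ℂ) ^ 2) ^ n * taylorCoeff (g • τ) f n := by
  have hord : analyticOrderAt (f ∘ ofComplex) ((g • τ : ℍ) : ℂ) = (n : ℕ∞) := by
    rw [← ordAt_def, hn]
  obtain ⟨u, hu, -, hfu⟩ :=
    ((analyticAt_of_mdiff hf (g • τ)).analyticOrderAt_eq_natCast).mp hord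
  have hd : denom g (τ : ℂ) ≠ 0 := denom_ne_zero g τ
  have hmτ : moeb g (τ : ℂ) = ((g • τ : ℍ) : ℂ) := moeb_coe hg τ
  have hman : AnalyticAt ℂ (moeb g) (τ : ℂ) := analyticAt_moeb g hd
  have hmcont : ContinuousAt (moeb g) (τ : ℂ) := hman.continuousAt
  set c : ℂ := ((g.det.val : ℝ) : ℂ) with hc
  -- right-hand side: value of u at g τ
  have hR : taylorCoeff (g • τ) f n = u ((g • τ : ℍ) : ℂ) := by
    rw [taylorCoeff_eq_germCoeff]
    refine germCoeff_of_eventuallyEq hu ?_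
    filter_upwards [hfu] with z hz
    rw [hz, smul_eq_mul]
  -- left-hand side
  have h2 : ∀ᶠ z in 𝓝 (τ : ℂ), (f ∘ ofComplex) (moeb g z)
      = (moeb g z - ((g • τ : ℍ) : ℂ)) ^ n • u (moeb g z) := by
    have : Filter.Tendsto (moeb g) (𝓝 (τ : ℂ)) (𝓝 ((g • τ : ℍ) : ℂ)) := by
      have := hmcont.tendsto
      rwa [hmτ] at this
    exact this.eventually hfu
  have h3 : ∀ᶠ z in 𝓝 (τ : ℂ), denom g z ≠ 0 :=
    (hasDerivAt_denom g _).continuousAt.eventually_ne hd
  have hden_an : AnalyticAt ℂ (fun z => denom g z * denom g (τ : ℂ)) (τ : ℂ) := by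
    have : (fun z => denom g z * denom g (τ : ℂ))
        = fun w : ℂ => (((g 1 0 : ℝ) : ℂ) * w + ((g 1 1 : ℝ) : ℂ)) * denom g (τ : ℂ) := by
      funext w; simp [denom]
    rw [this]
    fun_prop
  have hU : AnalyticAt ℂ (fun z => (c / (denom g z * denom g (τ : ℂ))) ^ n * u (moeb g z))
      (τ : ℂ) := by
    have h1 : AnalyticAt ℂ (fun z => c / (denom g z * denom g (τ : ℂ))) (τ : ℂ) :=
      analyticAt_const.div hden_an (mul_ne_zero hd hd)
    have h2' : AnalyticAt ℂ (fun z => u (moeb g z)) (τ : ℂ) := by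
      have : AnalyticAt ℂ u (moeb g (τ : ℂ)) := by rw [hmτ]; exact hu
      exact AnalyticAt.fun_comp this hman
    exact (h1.pow n).mul h2'
  have hL : taylorCoeff τ (fun z : ℍ => f (g • z)) n
      = (c / (denom g (τ : ℂ) * denom g (τ : ℂ))) ^ n * u (moeb g (τ : ℂ)) := by
    rw [taylorCoeff_eq_germCoeff]
    refine germCoeff_of_eventuallyEq (u := fun z => (c / (denom g z * denom g (τ : ℂ))) ^ n
      * u (moeb g z)) hU ?_
    filter_upwards [eventuallyEq_comp_smul hg f τ, h2, h3] with z e1 e2 e3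
    rw [e1]
    simp only [Function.comp_apply] at e2 ⊢
    rw [e2, ← hmτ, moeb_sub_moeb g e3 hd, smul_eq_mul, ← mul_assoc, ← mul_pow]
    congr 2
    ring
  rw [hL, hR, hmτ, sq]

/-- `SL(2, ℤ)` version for the left action `(γ • f) τ = f (γ⁻¹ • τ)`. -/
theorem taylorCoeff_smul_holoRing (γ : SL(2, ℤ)) (f : holoRing) (τ : ℍ) {n : ℕ}
    (hn : ordAt (γ⁻¹ • τ) (f : ℍ → ℂ) = n) :
    taylorCoeff τ ((γ • f : holoRing) : ℍ → ℂ) n
      = (1 / denom ((γ⁻¹ : SL(2, ℤ)) : GL (Fin 2) ℝ) (τ : ℂ) ^ 2) ^ n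
        * taylorCoeff (γ⁻¹ • τ) (f : ℍ → ℂ) n := by
  have h := taylorCoeff_comp_smul (g := ((γ⁻¹ : SL(2, ℤ)) : GL (Fin 2) ℝ))
    (det_coe_SL_pos γ⁻¹) f.2 τ (n := n) hn
  rw [det_coe_SL, Complex.ofReal_one] at h
  exact h

end Fermat.Agent.S24.H624

end
-- ===== PACK-END S24/H624/Germ.lean

-- ===== PACK-BEGIN S37/H99/Glue.lean
section


/-!
# S37 (helper99): the frozen statement S37 from reduction data (R1, final glue)

`RedData N A ℓ hℓ` is the ONLY thing left to construct: an additive map `red` from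
`JZero N = Pic⁰(ℚ̄(X₀(N)))` to an arbitrary additive group such that
* inertia at `A` acts trivially after `red`,
* Frobenius elements at `A` preserve `ker red`,
* `red` is injective on torsion of order prime to `ℓ`,
* (Eichler–Shimura) `red (σ²x - T_ℓ σ x + ℓ x) = 0` for Frobenius elements `σ` at `A`.
No Hecke-module structure on the target is needed.
-/

set_option autoImplicit false

noncomputable section

namespace Fermat.Agent.S37.H99

open ModularCurve ValuationSubring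

/-- Reduction data for `J₀(N)` at a valuation subring `A` of `ℚ̄` over the prime `ℓ`. -/
structure RedData (N : ℕ) [NeZero N] (A : ValuationSubring (AlgebraicClosure ℚ)) (ℓ : ℕ)
    (hℓ : ℓ.Prime) where
  /-- the target group (e.g. divisor classes on the special fibre) -/
  Y : Type
  /-- additive group structure on the target -/
  instY : AddCommGroup Y
  /-- the reduction map -/
  red : JZero N →+ Y
  inertia : ∀ τ ∈ A.inertiaSubgroupIn ℚ, ∀ x : JZero N, red (τ • x) = red x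
  frob_ker : ∀ σ : AlgebraicClosure ℚ ≃ₐ[ℚ] AlgebraicClosure ℚ, A.IsFrobeniusAt σ ℓ →
    ∀ x : JZero N, red x = 0 → red (σ • x) = 0
  inj_torsion : ∀ (m : ℕ) (x : JZero N), m.Coprime ℓ → m • x = 0 → red x = 0 → x = 0
  relation : ∀ σ : AlgebraicClosure ℚ ≃ₐ[ℚ] AlgebraicClosure ℚ, A.IsFrobeniusAt σ ℓ →
    ∀ x : JZero N, red (σ • σ • x - heckeOperatorBar N ⟨ℓ, hℓ⟩ (σ • x) + ℓ • x) = 0

attribute [instance] RedData.instY

/-- **S37 from reduction data.**  Same binders and conclusion as the frozen statement, plus the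
hypothesis `H`. -/
theorem result_of_redData (N p : ℕ) [NeZero N]
    (H : ∀ ℓ : ℕ, (hℓ : ℓ.Prime) → ¬ ℓ ∣ N →
      ∀ A : ValuationSubring (AlgebraicClosure ℚ), A.LiesOverPrime ℓ →
        Nonempty (RedData N A ℓ hℓ))
    (hcomm : ModularCurve.HeckeOperatorsCommuteBar N) :
    letI := ModularCurve.heckeModuleBar N
    ∀ (_ : SMulCommClass (AlgebraicClosure ℚ ≃ₐ[ℚ] AlgebraicClosure ℚ) ModularCurve.HeckeAlg
      (ModularCurve.JZero N)),
      ModularCurve.SpecializationExists (K := ℚ) (L := AlgebraicClosure ℚ) N p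
        (ModularCurve.JZero N) := by
  letI := ModularCurve.heckeModuleBar N
  intro _
  refine specializationExists_of_isRed N p (JZero N) ?_
  intro ℓ hℓ hdvd A hA
  have hℓN : ¬ ℓ ∣ N := fun h => hdvd (Dvd.dvd.mul_right h p)
  have hℓp : ¬ ℓ ∣ p := fun h => hdvd (Dvd.dvd.mul_left h N)
  obtain ⟨D⟩ := H ℓ hℓ hℓN A hA
  refine ⟨D.Y, D.instY, D.red, ⟨D.inertia, D.frob_ker, ?_, ?_⟩⟩
  · rintro x ⟨n, hn⟩ hx
    refine D.inj_torsion (p ^ n) x ?_ hn hx
    exact Nat.Coprime.pow_left n ((Nat.coprime_comm.mp ((Nat.Prime.coprime_iff_not_dvd hℓ).mpr hℓp)))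
  · intro σ hσ x
    have h := D.relation σ hσ x
    rwa [← heckeModuleBar_heckeGen_smul hcomm ⟨ℓ, hℓ⟩ (σ • x)] at h

end Fermat.Agent.S37.H99

end
end
-- ===== PACK-END S37/H99/Glue.lean

-- ===== PACK-BEGIN S24/H864/FF3d.lean
section



/-!
# S24 / ALG / FF1+FF3 (part d): the fundamental identity `∑_{v(t)>0} v(t) = [F : K(t)]`
-/

set_option autoImplicit false

noncomputable section

open AlgebraicCurve IntermediateField IsDedekindDomain
open scoped IntermediateField.algebraAdjoinAdjoin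

namespace Fermat.Agent.S24.H864

variable {K F : Type*} [Field K] [Field F] [Algebra K F]

section Inst

variable (K) (t : F)

theorem polyRing_isPrincipalIdealRing (ht : Transcendental K t) :
    IsPrincipalIdealRing (polyRing K t) :=
  IsPrincipalIdealRing.of_surjective (polyEquiv K t ht).toAlgHom.toRingHom
    (polyEquiv K t ht).surjective

theorem tR_ne_zero (ht : Transcendental K t) : tR K t ≠ 0 := by
  intro h
  have h1 : t = 0 := congrArg Subtype.val h
  rw [h1] at ht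
  exact ht (isAlgebraic_zero)

theorem tR_prime (ht : Transcendental K t) : Prime (tR K t) := by
  rw [← polyEquiv_X K t ht]
  exact (MulEquiv.prime_iff (polyEquiv K t ht).toMulEquiv).mpr Polynomial.prime_X

theorem exists_sub_mem_span_tR (ht : Transcendental K t) (r : polyRing K t) :
    ∃ c : K, r - algebraMap K (polyRing K t) c ∈ Ideal.span {tR K t} := by
  obtain ⟨P, rfl⟩ := (polyEquiv K t ht).surjective r
  refine ⟨P.coeff 0, ?_⟩
  rw [Ideal.mem_span_singleton']
  refine ⟨polyEquiv K t ht P.divX, ?_⟩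
  rw [← polyEquiv_X K t ht, ← map_mul, ← AlgEquiv.commutes (polyEquiv K t ht), ← map_sub]
  congr 1
  conv_rhs => rw [← Polynomial.divX_mul_X_add P]
  simp [Polynomial.algebraMap_eq]

theorem coe_mem_valuationSubring_of_ord_nonneg (v : Place K F) (hv : 0 ≤ v.ord t)
    (r : polyRing K t) : (r : F) ∈ v.toValuationSubring := by
  obtain ⟨r, hr⟩ := r
  show r ∈ v.toValuationSubring
  induction hr using Algebra.adjoin_induction with
  | mem x hx =>
      rw [Set.mem_singleton_iff] at hx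
      rw [hx]
      exact (FF.mem_iff_ord_nonneg v).mpr hv
  | algebraMap c => exact v.algebraMap_mem' c
  | add x y _ _ hx hy => exact add_mem hx hy
  | mul x y _ _ hx hy => exact mul_mem hx hy

end Inst

section Main

variable [IsAlgClosed K] [CharZero K]

/-- **Fundamental identity (FF1).**  For `t` transcendental over `K` with `F / K(t)` finite,
the zeros of `t`, counted with multiplicity, are `[F : K(t)]` in number. -/
theorem fundamental_identity (t : F) (ht : Transcendental K t)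
    [FiniteDimensional ↥(IntermediateField.adjoin K {t}) F]
    (s : Finset (Place K F)) (hs : ∀ v : Place K F, v ∈ s ↔ 0 < v.ord t) :
    ∑ v ∈ s, v.ord t = (Module.finrank ↥(IntermediateField.adjoin K {t}) F : ℤ) := by
  haveI : IsPrincipalIdealRing (polyRing K t) := polyRing_isPrincipalIdealRing K t ht
  haveI : IsScalarTower (polyRing K t) (integralClosure (polyRing K t) F) F :=
    Subalgebra.isScalarTower_mid _
  haveI : IsFractionRing (integralClosure (polyRing K t) F) F :=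
    integralClosure.isFractionRing_of_finite_extension K⟮t⟯ F
  haveI : IsDedekindDomain (integralClosure (polyRing K t) F) :=
    IsIntegralClosure.isDedekindDomain (polyRing K t) K⟮t⟯ F (integralClosure (polyRing K t) F)
  haveI : Module.Finite (polyRing K t) (integralClosure (polyRing K t) F) :=
    IsIntegralClosure.finite (polyRing K t) K⟮t⟯ F (integralClosure (polyRing K t) F)
  have hfin : Module.finrank K⟮t⟯ F
      = Module.finrank (polyRing K t) (integralClosure (polyRing K t) F) :=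
    IsFractionRing.finrank_eq (polyRing K t) K⟮t⟯ (integralClosure (polyRing K t) F) F
  have hprime : (Ideal.span {tR K t}).IsPrime :=
    (Ideal.span_singleton_prime (tR_ne_zero K t ht)).mpr (tR_prime K t ht)
  have hne : Ideal.span {tR K t} ≠ ⊥ := by
    rw [Ne, Ideal.span_singleton_eq_bot]
    exact tR_ne_zero K t ht
  haveI hmax : (Ideal.span {tR K t}).IsMaximal := hprime.isMaximal hne
  have hinj : Function.Injective
      (algebraMap (polyRing K t) (integralClosure (polyRing K t) F)) := by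
    intro a b hab
    have := congrArg (algebraMap (integralClosure (polyRing K t) F) F) hab
    rw [← IsScalarTower.algebraMap_apply, ← IsScalarTower.algebraMap_apply] at this
    exact Subtype.ext this
  rw [hfin]
  exact fundamental_identity_abstract (K := K) (F := F)
    (S := integralClosure (polyRing K t) F) (R := polyRing K t)
    (Ideal.span {tR K t}) (tR K t) rfl (tR_ne_zero K t ht) hinj
    (exists_sub_mem_span_tR K t ht)
    (fun v hv r => coe_mem_valuationSubring_of_ord_nonneg K t v hv.le r) s hs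

end Main

end Fermat.Agent.S24.H864

end
end
-- ===== PACK-END S24/H864/FF3d.lean

-- ===== PACK-BEGIN S29/H812/Fiber.lean
section


/-!
# S29 / H812 — the fibre of a place in a finite extension of function fields:
adapted families, the coordinate lemma, linear independence and the fundamental inequality.
-/

set_option autoImplicit false

noncomputable section

open AlgebraicCurve

namespace Fermat.Agent.S29.H812

open Fermat.Agent.S24

section Single

variable {K F : Type*} [Field K] [Field F] [Algebra K F]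

/-- An element with prescribed order `i` at `w` and order at least `B` at the places of `s`. -/
theorem exists_ord_eq_and_ge (w : Place K F) (s : Finset (Place K F)) (hw : w ∉ s) (i B : ℕ) :
    ∃ u : F, u ≠ 0 ∧ w.ord u = i ∧ (∀ w' ∈ s, (B : ℤ) ≤ w'.ord u) := by
  obtain ⟨ε, hε0, -, hε1, -, hε2⟩ := exists_indicator w s hw
  obtain ⟨π, hπ0, hπ1⟩ := H117.exists_ord_eq_one w
  set T : ℕ := ∑ w' ∈ s, (w'.ord π).natAbs with hT
  set M : ℕ := B + i * T with hM
  have hπi : π ^ i ≠ 0 := pow_ne_zero _ hπ0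
  have hεM : ε ^ M ≠ 0 := pow_ne_zero _ hε0
  refine ⟨π ^ i * ε ^ M, mul_ne_zero hπi hεM, ?_, ?_⟩
  · rw [w.ord_mul hπi hεM, H117.ord_pow, H117.ord_pow, hπ1, hε1]; ring
  · intro w' hw'
    rw [w'.ord_mul hπi hεM, H117.ord_pow, H117.ord_pow]
    have h1 : (1 : ℤ) ≤ w'.ord ε := (hε2 w' hw').1
    have h2 : ((w'.ord π).natAbs : ℤ) ≤ (T : ℤ) := by
      have : (w'.ord π).natAbs ≤ T := Finset.single_le_sum (f := fun w' : Place K F =>
        (w'.ord π).natAbs) (fun _ _ => Nat.zero_le _) hw'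
      exact_mod_cast this
    have h3 : -((w'.ord π).natAbs : ℤ) ≤ w'.ord π := by
      omega
    have h4 : (M : ℤ) ≤ (M : ℤ) * w'.ord ε := by
      have hM0 : (0 : ℤ) ≤ (M : ℤ) := Int.natCast_nonneg _
      nlinarith
    have h5 : -((i : ℤ) * (T : ℤ)) ≤ (i : ℤ) * w'.ord π := by
      have hi0 : (0 : ℤ) ≤ (i : ℤ) := Int.natCast_nonneg _
      nlinarith
    have h6 : (M : ℤ) = B + i * T := by rw [hM]; push_cast; ring
    linarith

/-- A uniformiser at `w` which is a unit at all places of `s`. -/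
theorem exists_ord_eq_one_and_zero (w : Place K F) (s : Finset (Place K F)) (hw : w ∉ s) :
    ∃ ϖ : F, ϖ ≠ 0 ∧ w.ord ϖ = 1 ∧ (∀ w' ∈ s, w'.ord ϖ = 0) := by
  obtain ⟨ε, hε0, hε0', hε1, hε1', hε2⟩ := exists_indicator w s hw
  obtain ⟨u, hu0, hu1, hu2⟩ := exists_ord_eq_and_ge w s hw 1 1
  have hsq : (1 - ε) ^ 2 ≠ 0 := pow_ne_zero _ hε0'
  have hlt : w.ord u < w.ord ((1 - ε) ^ 2) := by
    rw [H117.ord_pow, hu1]; push_cast; omega
  have h1 : w.ord (u + (1 - ε) ^ 2) = w.ord u := H117.ord_add_eq_of_lt w hlt hu0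
  have hne : u + (1 - ε) ^ 2 ≠ 0 := by
    intro h0
    rw [h0, w.ord_zero, hu1] at h1
    simp at h1
  refine ⟨u + (1 - ε) ^ 2, hne, by rw [h1, hu1]; rfl, ?_⟩
  intro w' hw'
  have hlt' : w'.ord ((1 - ε) ^ 2) < w'.ord u := by
    rw [H117.ord_pow, (hε2 w' hw').2]
    have := hu2 w' hw'
    push_cast at this ⊢
    omega
  rw [add_comm, H117.ord_add_eq_of_lt w' hlt' hsq, H117.ord_pow, (hε2 w' hw').2]
  ring

end Single

section Relative

variable {K F F' : Type*} [Field K] [Field F] [Field F']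
  [Algebra K F] [Algebra K F'] [Algebra F F'] [IsScalarTower K F F']
  [Algebra.IsIntegral F F']

/-- Order of a scalar multiple at a place above `v`. -/
theorem ord_smul_of_restrict {v : Place K F} {w : Place K F'} (hw : w.restrict F = v)
    {c : F} (hc : c ≠ 0) {u : F'} (hu : u ≠ 0) :
    w.ord (c • u) = (w.ramificationIndex F : ℤ) * v.ord c + w.ord u := by
  rw [Algebra.smul_def, w.ord_mul (by simpa using hc) hu, w.ord_restrict, hw]

/-- **Coordinate lemma.**  Let `u a` (`a : ι`) be a family adapted to the places `wt a` above `v`: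
`ord_{wt a} (u a) = idx a < e(wt a)` and `ord_{w'} (u a) ≥ e(w')` at the other places `w' = wt b`.
For a nonzero coefficient vector `c`, the combination `∑ c a • u a` is nonzero and, at a suitable
place `wt a₀`, has order `e · m + idx a₀` where `m = ord_v (c a₀)` is the minimum of the orders of
the nonzero coefficients. -/
theorem coord_lemma (v : Place K F) {ι : Type*} [Fintype ι] (wt : ι → Place K F') (idx : ι → ℕ)
    (u : ι → F') (hfib : ∀ a, (wt a).restrict F = v)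
    (hidx : ∀ a, idx a < (wt a).ramificationIndex F)
    (hu0 : ∀ a, u a ≠ 0) (hu1 : ∀ a, (wt a).ord (u a) = idx a)
    (hu2 : ∀ a b, wt b ≠ wt a → (((wt b).ramificationIndex F : ℕ) : ℤ) ≤ (wt b).ord (u a))
    (hinj : ∀ a b, wt a = wt b → idx a = idx b → a = b)
    (c : ι → F) (hc : ∃ a, c a ≠ 0) :
    ∃ a₀, c a₀ ≠ 0 ∧ (∀ a, c a ≠ 0 → v.ord (c a₀) ≤ v.ord (c a)) ∧
      (∑ a, c a • u a) ≠ 0 ∧
      (wt a₀).ord (∑ a, c a • u a)
        = ((wt a₀).ramificationIndex F : ℤ) * v.ord (c a₀) + idx a₀ := by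
  classical
  -- first minimisation: the order of the coefficient
  set S : Finset ι := Finset.univ.filter fun a => c a ≠ 0 with hS
  have hSne : S.Nonempty := by
    obtain ⟨a, ha⟩ := hc
    exact ⟨a, by simp [hS, ha]⟩
  obtain ⟨a₁, ha₁S, ha₁min⟩ := Finset.exists_min_image S (fun a => v.ord (c a)) hSne
  -- second minimisation: the index, among the minimal coefficients
  set S' : Finset ι := S.filter fun a => v.ord (c a) = v.ord (c a₁) with hS'
  have hS'ne : S'.Nonempty := ⟨a₁, by simp [hS', ha₁S]⟩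
  obtain ⟨a₀, ha₀S', ha₀min⟩ := Finset.exists_min_image S' idx hS'ne
  have ha₀S : a₀ ∈ S := (Finset.mem_filter.mp ha₀S').1
  have hc₀ : c a₀ ≠ 0 := (Finset.mem_filter.mp ha₀S).2
  have hm₀ : v.ord (c a₀) = v.ord (c a₁) := (Finset.mem_filter.mp ha₀S').2
  have hmin : ∀ a, c a ≠ 0 → v.ord (c a₀) ≤ v.ord (c a) := by
    intro a ha
    rw [hm₀]
    exact ha₁min a (by simp [hS, ha])
  have hepos : 0 < (wt a₀).ramificationIndex F := (wt a₀).ramificationIndex_pos (F := F)
  have hterm₀ : c a₀ • u a₀ ≠ 0 := smul_ne_zero hc₀ (hu0 a₀)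
  have hord₀ : (wt a₀).ord (c a₀ • u a₀)
      = ((wt a₀).ramificationIndex F : ℤ) * v.ord (c a₀) + idx a₀ := by
    rw [ord_smul_of_restrict (hfib a₀) hc₀ (hu0 a₀), hu1]
  have key := ord_sum_eq_of_lt (wt a₀) Finset.univ (fun a => c a • u a) a₀ (Finset.mem_univ _)
    hterm₀ (by
      intro a _ hne
      by_cases hca : c a = 0
      · left; simp [hca]
      right
      rw [hord₀, ord_smul_of_restrict (hfib a₀) hca (hu0 a)]
      have hle := hmin a hca
      have hi₀ := hidx a₀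
      have he : (0 : ℤ) < ((wt a₀).ramificationIndex F : ℤ) := by exact_mod_cast hepos
      by_cases hw : wt a = wt a₀
      · -- same place
        have hua : (wt a₀).ord (u a) = idx a := by rw [← hw, hu1]
        rw [hua]
        rcases eq_or_lt_of_le hle with heq | hlt
        · have haS' : a ∈ S' := by
            simp only [hS', hS, Finset.mem_filter, Finset.mem_univ, true_and]
            exact ⟨hca, by rw [← heq, hm₀]⟩
          have h1 := ha₀min a haS'
          have h2 : idx a ≠ idx a₀ := fun h => hne (hinj a a₀ hw h)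
          have h3 : idx a₀ < idx a := lt_of_le_of_ne h1 (Ne.symm h2)
          rw [← heq]
          have : ((idx a₀ : ℕ) : ℤ) < (idx a : ℤ) := by exact_mod_cast h3
          linarith
        · have h1 : ((wt a₀).ramificationIndex F : ℤ) * (v.ord (c a₀) + 1)
              ≤ ((wt a₀).ramificationIndex F : ℤ) * v.ord (c a) :=
            mul_le_mul_of_nonneg_left (by omega) he.le
          have h2 : ((idx a₀ : ℕ) : ℤ) < ((wt a₀).ramificationIndex F : ℤ) := by
            exact_mod_cast hi₀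
          have h3 : (0 : ℤ) ≤ (idx a : ℤ) := Int.natCast_nonneg _
          nlinarith
      · -- different place
        have hua := hu2 a a₀ (fun h => hw h.symm)
        have h1 : ((wt a₀).ramificationIndex F : ℤ) * v.ord (c a₀)
              ≤ ((wt a₀).ramificationIndex F : ℤ) * v.ord (c a) :=
            mul_le_mul_of_nonneg_left hle he.le
        have h2 : ((idx a₀ : ℕ) : ℤ) < ((wt a₀).ramificationIndex F : ℤ) := by
            exact_mod_cast hi₀
        linarith)
  exact ⟨a₀, hc₀, hmin, key.1, by rw [key.2, hord₀]⟩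

end Relative

end Fermat.Agent.S29.H812

end
end
-- ===== PACK-END S29/H812/Fiber.lean

-- ===== PACK-BEGIN S29/H395/AnalyticKron.lean
section
/-
S29 / layer M / bridge BR, piece NORM (analytic half, `q`-expansions) — helper395.

**Analytic Kronecker norm.**  If `a : ℍ → ℂ` has the (everywhere convergent) `q`-expansion `A` at
`i∞` (`InfExp 1 a A`, S24), then

  `heckeProd ℓ a τ = a (ℓ τ) * ∏_{j < ℓ} a ((τ + j) / ℓ)`

has the `q`-expansion `kronNorm ℓ A = V_ℓ A * det (secMat ℓ A)` (helper400's formal Kronecker norm,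
which row S37 identifies with the `q`-expansion of `Nm_α (β y)`).
-/






set_option autoImplicit false

noncomputable section

open CongruenceSubgroup Matrix.SpecialLinearGroup UpperHalfPlane ModularCurve HahnSeries
open scoped MatrixGroups Real Polynomial OnePoint
open P2MW.S_ModularForm_heckeT_slash_eq_self_of_mem_Gamma0.ModularForm.HeckeSlashInvariance

namespace Fermat.Agent.S29.H395

open Fermat.Agent.S24 Fermat.Agent.S37.H340 Fermat.Agent.S37.H400

/-! ### `InfExp` bookkeeping -/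

theorem infExp_finset_prod {N : ℕ} {ι : Type*} (s : Finset ι) (f : ι → ℍ → ℂ)
    (φ : ι → LaurentSeries ℂ) (h : ∀ i ∈ s, InfExp N (f i) (φ i)) :
    InfExp N (fun τ => ∏ i ∈ s, f i τ) (∏ i ∈ s, φ i) := by
  classical
  induction s using Finset.induction_on with
  | empty => simpa using (InfExp.one (N := N))
  | insert i s hi ih =>
    have h1 := h i (Finset.mem_insert_self i s)
    have h2 := ih fun j hj => h j (Finset.mem_insert_of_mem hj)
    have := h1.mul h2
    simpa [Finset.prod_insert hi] using this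

theorem infZ_pow_eq (ℓ : ℕ) [NeZero ℓ] (τ : ℍ) : infZ ℓ τ ^ ℓ = infZ 1 τ := by
  rw [infZ_def, infZ_def, ← Complex.exp_nat_mul]
  congr 1
  have hℓ : (ℓ : ℂ) ≠ 0 := by exact_mod_cast NeZero.ne ℓ
  field_simp
  simp

/-- Descent of the variable: an expansion in `z_ℓ = q^{1/ℓ}` which only involves powers of
`z_ℓ^ℓ = q` is an expansion in `q`. -/
theorem infExp_of_qExpand {ℓ : ℕ} [NeZero ℓ] {f : ℍ → ℂ} {φ : LaurentSeries ℂ}
    (h : InfExp ℓ f (qExpand ℂ ℓ φ)) : InfExp 1 f φ := by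
  intro τ
  have h1 := h τ
  have he0 : (ℓ : ℤ) ≠ 0 := by exact_mod_cast NeZero.ne ℓ
  have hinj : Function.Injective (fun n : ℤ => (ℓ : ℤ) * n) := mul_right_injective₀ he0
  have hrange : ∀ m : ℤ, m ∉ Set.range (fun n : ℤ => (ℓ : ℤ) * n) →
      (qExpand ℂ ℓ φ).coeff m * infZ ℓ τ ^ m = 0 := by
    intro m hm
    rw [qExpand_coeff_of_not_dvd ℓ _ (fun ⟨j, hj⟩ => hm ⟨j, hj.symm⟩), zero_mul]
  rw [← hinj.hasSum_iff hrange] at h1
  convert h1 using 1
  funext n
  simp only [Function.comp_apply, qExpand_coeff_mul]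
  rw [← infZ_pow_eq ℓ τ, ← zpow_natCast (infZ ℓ τ) ℓ, ← zpow_mul]

/-! ### The Hecke representatives as affine maps -/

section Rep

variable {ℓ : ℕ} [Fact ℓ.Prime]

theorem heckeRep_infty_smul (τ : ℍ) : _root_.P2MW.S_ModularForm_heckeT_slash_eq_self_of_mem_Gamma0.ModularForm.HeckeSlashInvariance.heckeRep ℓ ∞ • τ = infAff ℓ 0 1 τ := by
  have hℓ : ℓ ≠ 0 := (Fact.out : ℓ.Prime).ne_zero
  apply UpperHalfPlane.ext
  rw [heckeRep_infty, ModularForm.coe_heckeDiagMatrix_smul hℓ,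
    infAff_coe (Nat.pos_of_ne_zero hℓ) one_pos]
  simp

theorem heckeRep_coe_smul (j : ZMod ℓ) (τ : ℍ) :
    _root_.P2MW.S_ModularForm_heckeT_slash_eq_self_of_mem_Gamma0.ModularForm.HeckeSlashInvariance.heckeRep ℓ (j : OnePoint (ZMod ℓ)) • τ = infAff 1 (j.val : ℤ) ℓ τ := by
  have hℓ : ℓ ≠ 0 := (Fact.out : ℓ.Prime).ne_zero
  apply UpperHalfPlane.ext
  rw [heckeRep_coe, ModularForm.coe_heckeMatrix_smul hℓ,
    infAff_coe one_pos (Nat.pos_of_ne_zero hℓ)]
  simp

theorem heckeProd_eq (a : ℍ → ℂ) (τ : ℍ) :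
    heckeProd ℓ a τ = a (infAff ℓ 0 1 τ) * ∏ j : ZMod ℓ, a (infAff 1 (j.val : ℤ) ℓ τ) := by
  rw [heckeProd_apply]
  have h := Fintype.prod_option (fun x : OnePoint (ZMod ℓ) => a (_root_.P2MW.S_ModularForm_heckeT_slash_eq_self_of_mem_Gamma0.ModularForm.HeckeSlashInvariance.heckeRep ℓ x • τ))
  rw [show (∏ x : OnePoint (ZMod ℓ), a (_root_.P2MW.S_ModularForm_heckeT_slash_eq_self_of_mem_Gamma0.ModularForm.HeckeSlashInvariance.heckeRep ℓ x • τ))
      = ∏ x : Option (ZMod ℓ), a (_root_.P2MW.S_ModularForm_heckeT_slash_eq_self_of_mem_Gamma0.ModularForm.HeckeSlashInvariance.heckeRep ℓ x • τ) from rfl, h]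
  congr 1
  · exact congrArg a (heckeRep_infty_smul τ)
  · exact Finset.prod_congr rfl fun j _ => congrArg a (heckeRep_coe_smul j τ)

end Rep

/-! ### Expansions of the translates -/

section Translates

variable {ℓ : ℕ} [NeZero ℓ] {a : ℍ → ℂ} {A : LaurentSeries ℂ}

theorem infExp_comp_mul (ha : InfExp 1 a A) :
    InfExp 1 (fun τ => a (infAff ℓ 0 1 τ)) (qExpand ℂ ℓ A) := by
  have hℓ : 0 < ℓ := Nat.pos_of_ne_zero (NeZero.ne ℓ)
  have h := ha.comp_infAff (N := 1) (e := ℓ) 0 hℓ one_pos one_pos one_pos (by ring)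
  rwa [infRoot_zero, infTwist_one] at h

theorem infExp_comp_div (ha : InfExp 1 a A) (j : ℤ) :
    InfExp ℓ (fun τ => a (infAff 1 j ℓ τ)) (infTwist (infRoot j ℓ) A) := by
  have hℓ : 0 < ℓ := Nat.pos_of_ne_zero (NeZero.ne ℓ)
  have h := ha.comp_infAff (N := ℓ) (e := 1) j one_pos hℓ one_pos hℓ (by ring)
  rwa [qExpand_one_apply, mul_one] at h

end Translates

/-! ### The formal product formula -/

section Formal

variable (ℓ : ℕ) [NeZero ℓ]

/-- `ζ_ℓ = exp (2πi/ℓ)`. -/
def zetaL : ℂ := Complex.exp (2 * π * Complex.I / ℓ)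

theorem isPrimitiveRoot_zetaL : IsPrimitiveRoot (zetaL ℓ) ℓ :=
  Complex.isPrimitiveRoot_exp ℓ (NeZero.ne ℓ)

omit [NeZero ℓ] in
theorem infRoot_eq_zetaL_pow (b : ℕ) : ((infRoot (b : ℤ) ℓ : ℂˣ) : ℂ) = zetaL ℓ ^ b := by
  rw [infRoot_coe, zetaL, ← Complex.exp_nat_mul]
  congr 1
  push_cast
  ring

theorem zpw_eq_zpow {w : ℂ} (hw : w ^ ℓ = 1) (hw0 : w ≠ 0) (n : ℤ) : zpw ℓ w n = w ^ n := by
  unfold zpw
  have hℓ : (0 : ℤ) < ℓ := by exact_mod_cast Nat.pos_of_ne_zero (NeZero.ne ℓ)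
  have h1 : n = (ℓ : ℤ) * (n / ℓ) + n % ℓ := (Int.mul_ediv_add_emod n ℓ).symm
  have h2 : 0 ≤ n % (ℓ : ℤ) := Int.emod_nonneg n hℓ.ne'
  conv_rhs => rw [h1]
  rw [zpow_add₀ hw0, zpow_mul, zpow_natCast, hw, one_zpow, one_mul]
  conv_rhs => rw [← Int.toNat_of_nonneg h2]
  rw [zpow_natCast]

theorem tw_eq_infTwist (b : ℕ) (A : LaurentSeries ℂ) :
    tw ℓ (zetaL ℓ ^ b) A = infTwist (infRoot (b : ℤ) ℓ) A := by
  ext n
  rw [tw_coeff, infTwist_coeff, Units.val_zpow_eq_zpow_val, infRoot_eq_zetaL_pow, mul_comm]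
  congr 1
  have hζ := (isPrimitiveRoot_zetaL ℓ)
  refine zpw_eq_zpow ℓ ?_ (pow_ne_zero _ (hζ.ne_zero (NeZero.ne ℓ))) n
  rw [← pow_mul, mul_comm, pow_mul, hζ.pow_eq_one, one_pow]

theorem kronMat_eq_secMat (A : LaurentSeries ℂ) : kronMat ℓ A = secMat ℓ A := by
  ext i j n
  rw [kronMat_apply, secMat_apply', sect_coeff, secL_coeff]

/-- **Product formula** `∏_{b < ℓ} A(ζ^b z) = (det secMat A)(z^ℓ)`. -/
theorem prod_infTwist_eq (A : LaurentSeries ℂ) :
    ∏ b : Fin ℓ, infTwist (infRoot ((b : ℕ) : ℤ) ℓ) A = qExpand ℂ ℓ (secMat ℓ A).det := by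
  classical
  have h := kron_map_qExpand_eq_prod (isPrimitiveRoot_zetaL ℓ) A
  have h0 : (Polynomial.map (qExpand ℂ ℓ) (kron ℓ A)).coeff 0
      = (∏ b : Fin ℓ, (Polynomial.X - Polynomial.C (tw ℓ (zetaL ℓ ^ (b : ℕ)) A))).coeff 0 := by
    rw [h]
  rw [Polynomial.coeff_map, kron, Polynomial.coeff_zero_eq_eval_zero (∏ b : Fin ℓ, _),
    Polynomial.eval_prod] at h0
  simp only [Polynomial.eval_sub, Polynomial.eval_X, Polynomial.eval_C, zero_sub] at h0
  rw [Finset.prod_neg, Finset.card_univ, Fintype.card_fin] at h0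
  have hdet := Matrix.det_eq_sign_charpoly_coeff (kronMat ℓ A)
  rw [Fintype.card_fin] at hdet
  rw [← kronMat_eq_secMat, hdet, map_mul, map_pow, map_neg, map_one, h0, ← mul_assoc,
    ← mul_pow]
  simp only [neg_mul_neg, one_mul, one_pow]
  exact Finset.prod_congr rfl fun b _ => (tw_eq_infTwist ℓ b A).symm

end Formal

/-! ### The main statement -/

/-- **Analytic Kronecker norm**: `heckeProd ℓ a` has the `q`-expansion `kronNorm ℓ A`. -/
theorem infExp_heckeProd {ℓ : ℕ} [Fact ℓ.Prime] {a : ℍ → ℂ} {A : LaurentSeries ℂ}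
    (ha : InfExp 1 a A) : InfExp 1 (heckeProd ℓ a) (kronNorm ℓ A) := by
  have h1 : InfExp 1 (fun τ => a (infAff ℓ 0 1 τ)) (qExpand ℂ ℓ A) := infExp_comp_mul ha
  have h2 : InfExp ℓ (fun τ => ∏ b : Fin ℓ, a (infAff 1 ((b : ℕ) : ℤ) ℓ τ))
      (∏ b : Fin ℓ, infTwist (infRoot ((b : ℕ) : ℤ) ℓ) A) :=
    infExp_finset_prod Finset.univ _ _ fun b _ => infExp_comp_div ha _
  rw [prod_infTwist_eq] at h2
  have h3 := infExp_of_qExpand h2
  have h4 := h1.mul h3
  rw [kronNorm]
  refine h4.congr fun τ => ?_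
  rw [heckeProd_eq]
  congr 1
  -- reindex `Fin ℓ ≃ ZMod ℓ`
  refine Finset.prod_nbij' (fun b : Fin ℓ => ((b : ℕ) : ZMod ℓ))
    (fun j : ZMod ℓ => ⟨j.val, ZMod.val_lt j⟩) (fun _ _ => Finset.mem_univ _)
    (fun _ _ => Finset.mem_univ _) (fun b _ => ?_) (fun j _ => ?_) (fun b _ => ?_)
  · exact Fin.ext (ZMod.val_natCast_of_lt b.2)
  · exact ZMod.natCast_zmod_val j
  · rw [ZMod.val_natCast_of_lt b.2]

end Fermat.Agent.S29.H395

end

end
-- ===== PACK-END S29/H395/AnalyticKron.lean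

-- ===== PACK-BEGIN S28/H867/Prime.lean
section



set_option autoImplicit false
noncomputable section
open ModularCurve HahnSeries IntermediateField Polynomial

namespace Fermat.Agent.S28.H867

section Prime

variable (k : Type*) [Field k]

theorem jq_mem_jField : jqModC k ∈ jField k := mem_adjoin_simple_self k _

theorem jp_mem_jpField (p : ℕ) [NeZero p] : jp k p ∈ jpField k p := mem_adjoin_simple_self k _

theorem jpField_le_fieldRange (p : ℕ) [NeZero p] :
    jpField k p ≤ (qExpandAlgHomC k p).fieldRange := by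
  rw [jpField, adjoin_simple_le_iff]
  exact ⟨jqModC k, rfl⟩

theorem qExpand_injective' (p : ℕ) [NeZero p] : Function.Injective (qExpand k p) :=
  (qExpand k p).injective

/-- natDegree of the minimal polynomial of `j` over a subfield of `range V_p` is `≥ p`. -/
theorem le_natDegree_minpoly {p : ℕ} [NeZero p] (hI : LeafI k p)
    (B : IntermediateField k (LaurentSeries k)) (hB : B ≤ (qExpandAlgHomC k p).fieldRange)
    (hint : IsIntegral B (jqModC k)) : p ≤ (minpoly B (jqModC k)).natDegree := by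
  rw [← relfinrank_sup_adjoin_simple B hint]
  refine le_relfinrank_of_linearIndependent le_sup_left ?_ _ ?_ (hI B hB)
  · rw [relfinrank_sup_adjoin_simple B hint]
    exact (minpoly.natDegree_pos hint).ne'
  · intro i
    exact pow_mem ((le_sup_right : adjoin k {jqModC k} ≤ _) (mem_adjoin_simple_self k _)) _

theorem primeLevel_of_leaves {p : ℕ} [NeZero p] (hp : p.Prime) (D : ModPolyData p)
    (hI : LeafI k p) (hB1 : LeafB1 k p) : PrimeLevel k p := by
  set j := jqModC k with hj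
  set A := jpField k p with hA
  set R := (qExpandAlgHomC k p).fieldRange with hR
  have hAR : A ≤ R := jpField_le_fieldRange k p
  let y : A := ⟨jp k p, jp_mem_jpField k p⟩
  set ΦA := polyOver A y D.Φ with hΦA
  have hΦmonic : ΦA.Monic := polyOver_monic A y D.monic
  have hΦdeg : ΦA.natDegree = p + 1 := by
    rw [hΦA, polyOver_natDegree A y D.monic, D.natDegree_eq]
  have hΦj : Polynomial.aeval j ΦA = 0 := by
    rw [hΦA, aeval_polyOver]; exact modPoly_eval_j_field k D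
  have hΦjpp : Polynomial.aeval (qExpand k p (jp k p)) ΦA = 0 := by
    rw [hΦA, aeval_polyOver]
    exact eval₂_evalAt_qExpand p D.Φ _ _ (modPoly_eval_jp_field k D)
  have hint : IsIntegral A j := ⟨ΦA, hΦmonic, by rwa [Polynomial.aeval_def] at hΦj⟩
  set m := minpoly A j with hm
  have hmdvd : m ∣ ΦA := minpoly.dvd A j hΦj
  have hmmonic : m.Monic := minpoly.monic hint
  have hmle : m.natDegree ≤ p + 1 := by
    rw [← hΦdeg]
    exact Polynomial.natDegree_le_of_dvd hmdvd hΦmonic.ne_zero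
  have hmge : p ≤ m.natDegree := le_natDegree_minpoly k hI A hAR hint
  -- the key step: the degree is not `p`
  have hmne : m.natDegree ≠ p := by
    intro hmp
    obtain ⟨c, hc⟩ := hmdvd
    have hcmonic : c.Monic := hmmonic.of_mul_monic_left (hc ▸ hΦmonic)
    have hcdeg : c.natDegree = 1 := by
      have := congrArg Polynomial.natDegree hc
      rw [hmmonic.natDegree_mul hcmonic, hΦdeg, hmp] at this
      omega
    have hroot : Polynomial.aeval (qExpand k p (jp k p)) m *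
        Polynomial.aeval (qExpand k p (jp k p)) c = 0 := by
      rw [← map_mul, ← hc, hΦjpp]
    rcases mul_eq_zero.mp hroot with h0 | h0
    · -- `j_{p²}` is a root of `m`, but `m` is irreducible of degree `p ≥ 2` over `R`
      set incl : A →+* R := (IntermediateField.inclusion hAR).toRingHom with hincl
      have hcomp : (algebraMap R (LaurentSeries k)).comp incl = algebraMap A (LaurentSeries k) :=
        rfl
      set m' := m.map incl with hm'
      have hm'monic : m'.Monic := hmmonic.map _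
      have hm'deg : m'.natDegree = p := by rw [hm', hmmonic.natDegree_map, hmp]
      have hm'eval : ∀ x : LaurentSeries k, Polynomial.aeval x m' = Polynomial.aeval x m := by
        intro x
        rw [hm', Polynomial.aeval_def, Polynomial.eval₂_map, hcomp, ← Polynomial.aeval_def]
      have hintR : IsIntegral R j := by
        refine ⟨m', hm'monic, ?_⟩
        rw [← Polynomial.aeval_def, hm'eval]
        exact minpoly.aeval A j
      have hdvd : minpoly R j ∣ m' := minpoly.dvd R j (by rw [hm'eval]; exact minpoly.aeval A j)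
      have hge : p ≤ (minpoly R j).natDegree := le_natDegree_minpoly k hI R le_rfl hintR
      have heq : m' = minpoly R j :=
        Polynomial.eq_of_monic_of_dvd_of_natDegree_le (minpoly.monic hintR) hm'monic hdvd
          (by rw [hm'deg]; exact hge)
      have hirr : Irreducible m' := heq ▸ minpoly.irreducible hintR
      let r : R := ⟨qExpand k p (jp k p), ⟨jp k p, rfl⟩⟩
      have hr : m'.IsRoot r := by
        have h1 : Polynomial.aeval (algebraMap R (LaurentSeries k) r) m' = 0 := by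
          rw [hm'eval]; exact h0
        rw [Polynomial.aeval_algebraMap_apply] at h1
        have h3 : Polynomial.aeval r m' = 0 :=
          (algebraMap R (LaurentSeries k)).injective (by rw [h1, map_zero])
        simpa [Polynomial.IsRoot] using h3
      have hdeg1 := Polynomial.degree_eq_one_of_irreducible_of_root hirr hr
      have : m'.natDegree = 1 := Polynomial.natDegree_eq_of_degree_eq_some hdeg1
      have h2 := hp.two_le
      omega
    · -- `j_{p²} ∈ A`, hence `j_p ∈ k(j)`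
      have hc' : c = Polynomial.X + Polynomial.C (c.coeff 0) :=
        hcmonic.eq_X_add_C hcdeg
      rw [hc'] at h0
      simp only [map_add, Polynomial.aeval_X, Polynomial.aeval_C] at h0
      have hmem : qExpand k p (jp k p) ∈ A := by
        have : qExpand k p (jp k p) = -(algebraMap A (LaurentSeries k) (c.coeff 0)) :=
          eq_neg_of_add_eq_zero_left h0
        rw [this]
        exact neg_mem (c.coeff 0).2
      rw [hA, jpField_eq_map] at hmem
      obtain ⟨x, hx, hxe⟩ := hmem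
      have : x = jp k p := qExpand_injective' k p hxe
      exact hB1 (this ▸ hx)
  have hmdeg : m.natDegree = p + 1 := by omega
  have hmΦ : ΦA = m :=
    Polynomial.eq_of_monic_of_dvd_of_natDegree_le hmmonic hΦmonic hmdvd (by rw [hΦdeg, hmdeg])
  have hdeg_jp : A.relfinrank (jField k ⊔ A) = p + 1 := by
    rw [sup_comm, jField, relfinrank_sup_adjoin_simple A hint, ← hm, hmdeg]
  refine ⟨?_, hdeg_jp⟩
  -- transport along `V_p`
  set x := qExpand k p (jp k p) with hx
  have hintx : IsIntegral A x := ⟨ΦA, hΦmonic, by rwa [Polynomial.aeval_def] at hΦjpp⟩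
  have hirr : Irreducible ΦA := hmΦ ▸ minpoly.irreducible hint
  have hminx : ΦA = minpoly A x := minpoly.eq_of_irreducible_of_monic hirr hΦjpp hΦmonic
  have h1 : A.relfinrank (A ⊔ adjoin k {x}) = p + 1 := by
    rw [relfinrank_sup_adjoin_simple A hintx, ← hminx, hΦdeg]
  have h2 : A ⊔ adjoin k {x} = (jField k ⊔ jpField k p).map (qExpandAlgHomC k p) := by
    rw [IntermediateField.map_sup, ← jpField_eq_map, jpField, adjoin_map, Set.image_singleton]
    rfl
  rw [h2, hA, jpField_eq_map, relfinrank_map_map] at h1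
  rw [jpField_eq_map]
  exact h1

end Prime

end Fermat.Agent.S28.H867

end
end
-- ===== PACK-END S28/H867/Prime.lean

-- ===== PACK-BEGIN S18/H438/Front/Transport2.lean
section


/-!
# S18 / ALG-FRONT (helper438), part 5: transport of charts and of the `q`-expansion principle

* `mem_baseRing_iff`  : `a ∈ R[z] ⊆ Fc`  ↔  `(a : Ω) ∈ Alg.polyRing R z`;
* `mem_chartRing_iff` : `b ∈ chartRing (Rf Fc R) z`  ↔  `(b : Ω) ∈ Alg.chart Fc R z`;
* `transcendental_xf`, `transcendental_xf_inv`;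
* `qep_fin`, `qep_inf` in the form used by `Front/Gauss.lean`.
-/

set_option autoImplicit false
set_option linter.style.haveILetI false
set_option linter.unusedSectionVars false

noncomputable section

namespace Fermat.Agent.S18.H438

open Alg Polynomial

variable {Ω : Type*} [Field Ω] {Lc Ec Fc : Subfield Ω} {R V : Subring Ω} {w x : Ω}
  {S : Finset Ω}

section Generic

variable (Fc R) (z : Fc)

/-- `R[z] ⊆ Fc` maps into `polyRing R z ⊆ Ω`. -/
theorem coe_mem_polyRing_of_mem_baseRing {a : Fc} (ha : a ∈ baseRing (Rf Fc R) z) :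
    (a : Ω) ∈ polyRing R (z : Ω) := by
  unfold baseRing at ha
  induction ha using Algebra.adjoin_induction with
  | mem y hy =>
    rw [Set.mem_singleton_iff] at hy
    subst hy
    exact Subring.subset_closure (Or.inr rfl)
  | algebraMap r => exact Subring.subset_closure (Or.inl r.2)
  | add y y' _ _ hy hy' => exact (polyRing R (z : Ω)).add_mem hy hy'
  | mul y y' _ _ hy hy' => exact (polyRing R (z : Ω)).mul_mem hy hy'

/-- `polyRing R z ⊆ Ω` comes from `R[z] ⊆ Fc`, provided `R ⊆ Fc`. -/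
theorem exists_mem_baseRing_of_mem_polyRing (hR : ∀ r ∈ R, r ∈ Fc) {c : Ω}
    (hc : c ∈ polyRing R (z : Ω)) : ∃ a ∈ baseRing (Rf Fc R) z, (a : Ω) = c := by
  have hle : polyRing R (z : Ω) ≤ (baseRing (Rf Fc R) z).toSubring.map Fc.subtype := by
    unfold polyRing
    rw [Subring.closure_le]
    rintro y (hy | hy)
    · refine ⟨⟨y, hR y hy⟩, ?_, rfl⟩
      exact (baseRing (Rf Fc R) z).algebraMap_mem (⟨⟨y, hR y hy⟩, hy⟩ : Rf Fc R)
    · rw [Set.mem_singleton_iff] at hy
      subst hy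
      exact ⟨z, self_mem_baseRing (Rf Fc R) z, rfl⟩
  obtain ⟨a, ha, rfl⟩ := hle hc
  exact ⟨a, ha, rfl⟩

theorem mem_baseRing_iff (hR : ∀ r ∈ R, r ∈ Fc) {a : Fc} :
    a ∈ baseRing (Rf Fc R) z ↔ (a : Ω) ∈ polyRing R (z : Ω) := by
  refine ⟨coe_mem_polyRing_of_mem_baseRing Fc R z, fun h => ?_⟩
  obtain ⟨a', ha', h'⟩ := exists_mem_baseRing_of_mem_polyRing Fc R z hR h
  rwa [← Subtype.ext h']

/-- the comparison map `R[z] → polyRing R z` -/
def baseToPoly : baseRing (Rf Fc R) z →+* polyRing R (z : Ω) :=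
  (Fc.subtype.comp (baseRing (Rf Fc R) z).toSubring.subtype).codRestrict (polyRing R (z : Ω))
    (fun a => coe_mem_polyRing_of_mem_baseRing Fc R z a.2)

theorem coe_baseToPoly (a : baseRing (Rf Fc R) z) :
    ((baseToPoly Fc R z a : polyRing R (z : Ω)) : Ω) = ((a : Fc) : Ω) := rfl

theorem algebraMap_comp_baseToPoly :
    (algebraMap (polyRing R (z : Ω)) Ω).comp (baseToPoly Fc R z) =
      Fc.subtype.comp (algebraMap (baseRing (Rf Fc R) z) Fc) := rfl

theorem baseToPoly_surjective (hR : ∀ r ∈ R, r ∈ Fc) :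
    Function.Surjective (baseToPoly Fc R z) := by
  rintro ⟨c, hc⟩
  obtain ⟨a, ha, h⟩ := exists_mem_baseRing_of_mem_polyRing Fc R z hR hc
  exact ⟨⟨a, ha⟩, Subtype.ext h⟩

/-- integrality over `R[z]` (inside `Fc`) is integrality over `polyRing R z` (inside `Ω`) -/
theorem isIntegral_baseRing_iff (hR : ∀ r ∈ R, r ∈ Fc) {b : Fc} :
    IsIntegral (baseRing (Rf Fc R) z) b ↔ IsIntegral (polyRing R (z : Ω)) (b : Ω) := by
  constructor
  · intro h
    exact IsIntegral.map_of_comp_eq (baseToPoly Fc R z) Fc.subtype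
      (algebraMap_comp_baseToPoly Fc R z) h
  · rintro ⟨q, hq, hqb⟩
    -- lift the monic polynomial along the surjection
    obtain ⟨p, hpq, hpdeg, hpmonic⟩ :=
      Polynomial.lifts_and_degree_eq_and_monic
        ((Polynomial.mem_lifts q).2 (by
          have hsurj := Polynomial.map_surjective (baseToPoly Fc R z)
            (baseToPoly_surjective Fc R z hR)
          exact hsurj q)) hq
    refine ⟨p, hpmonic, ?_⟩
    have h1 : Fc.subtype (Polynomial.eval₂ (algebraMap (baseRing (Rf Fc R) z) Fc) b p) = 0 := by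
      rw [Polynomial.hom_eval₂, ← algebraMap_comp_baseToPoly, ← Polynomial.eval₂_map, hpq]
      exact hqb
    exact Fc.subtype_injective (by rw [h1, map_zero])

theorem mem_chartRing_iff (hR : ∀ r ∈ R, r ∈ Fc) {b : Fc} :
    b ∈ chartRing (Rf Fc R) z ↔ (b : Ω) ∈ chart Fc R (z : Ω) := by
  show IsIntegral (baseRing (Rf Fc R) z) b ↔ _
  rw [isIntegral_baseRing_iff Fc R z hR]
  exact ⟨fun h => ⟨b.2, h⟩, fun h => h.2⟩

end Generic

namespace GoodModelFront

variable (G : GoodModel Lc Ec Fc R V w x S)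

include G

/-- `x` is transcendental over `R`. -/
theorem transcendental_xf : Transcendental (Rf Fc R) (xf G) := by
  rintro ⟨p, hp0, hp⟩
  let i : Rf Fc R →+* Lc :=
    (Fc.subtype.comp (Rf Fc R).subtype).codRestrict Lc.toSubring
      (fun r => G.E_le_L (G.R_le r.2))
  have hi : Function.Injective i := by
    intro a b hab
    apply Subtype.ext
    apply Subtype.ext
    exact congrArg (fun t : Lc => (t : Ω)) hab
  have hcomp : (algebraMap Lc Ω).comp i = Fc.subtype.comp (algebraMap (Rf Fc R) Fc) := rfl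
  apply G.x_transcendental
  refine ⟨p.map i, (Polynomial.map_ne_zero_iff hi).2 hp0, ?_⟩
  rw [Polynomial.aeval_def, Polynomial.eval₂_map, hcomp]
  have h1 := Polynomial.hom_eval₂ p (algebraMap (Rf Fc R) Fc) Fc.subtype (xf G)
  rw [Polynomial.aeval_def] at hp
  rw [hp, map_zero] at h1
  exact h1.symm

theorem transcendental_xf_inv : Transcendental (Rf Fc R) (xf G)⁻¹ :=
  fun h => transcendental_xf G (IsAlgebraic.inv_iff.1 h)

/-- `qep` on the finite chart, in `Fc`. -/
theorem qep_fin' : ∀ b ∈ chartRing (Rf Fc R) (xf G), b * (wf G)⁻¹ ∈ Vf G →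
    b * (wf G)⁻¹ ∈ chartRing (Rf Fc R) (xf G) := by
  intro b hb hbV
  rw [mem_chartRing_iff Fc R _ (fun r hr => R_le_Fc G hr)] at hb ⊢
  exact G.qep_fin _ hb hbV

/-- `qep` on the chart at infinity, in `Fc`. -/
theorem qep_inf' : ∀ b ∈ chartRing (Rf Fc R) (xf G)⁻¹, b * (wf G)⁻¹ ∈ Vf G →
    b * (wf G)⁻¹ ∈ chartRing (Rf Fc R) (xf G)⁻¹ := by
  intro b hb hbV
  rw [mem_chartRing_iff Fc R _ (fun r hr => R_le_Fc G hr)] at hb ⊢
  exact G.qep_inf _ hb hbV

end GoodModelFront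

end Fermat.Agent.S18.H438

end
end
-- ===== PACK-END S18/H438/Front/Transport2.lean

-- ===== PACK-BEGIN A2/H609/Generator.lean
section





/-!
# Node purity, part 5: a simultaneous local generator of the root ideal

`R` noetherian local integrally closed domain, `u ≠ 0`, `π ∈ 𝔪`, `V(u, π) = {𝔪}`.
If `m ∣ ord_𝔓 (u)` at every prime `𝔓 ∋ u`, `𝔓 ∌ π` (hypothesis `H1`), then there are `t r : R` with
`t ^ m = u * r` and `π ^ k ∈ (u, r)`.  Mathlib only.
-/

set_option autoImplicit false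

namespace Fermat.Agent.A2.H609

open Ideal

variable {R : Type*} [CommRing R] [IsDomain R] [IsIntegrallyClosed R]

/-- `S_𝔓 = {f | f ^ m ∈ (u) * 𝔓}`: the elements of the root ideal that do not generate it
at `𝔓`. -/
def nonGenIdeal (u : R) (m : ℕ) (hm : m ≠ 0) (𝔓 : Ideal R) [𝔓.IsPrime] : Ideal R where
  carrier := {f | f ^ m ∈ Ideal.span {u} * 𝔓}
  add_mem' := by
    intro f g hf hg
    show (f + g) ^ m ∈ Ideal.span {u} * 𝔓
    have hf' : f ^ m ∈ Ideal.span {u} * 𝔓 := hf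
    have hg' : g ^ m ∈ Ideal.span {u} * 𝔓 := hg
    obtain ⟨x, hx, hfx⟩ := Ideal.mem_span_singleton_mul.mp hf'
    obtain ⟨y, hy, hgy⟩ := Ideal.mem_span_singleton_mul.mp hg'
    by_cases hu0 : u = 0
    · subst hu0
      have h0 : f ^ m = 0 := by rw [← hfx, zero_mul]
      have h1 : g ^ m = 0 := by rw [← hgy, zero_mul]
      have hf0 : f = 0 := pow_eq_zero_iff hm |>.mp h0
      have hg0 : g = 0 := pow_eq_zero_iff hm |>.mp h1
      rw [hf0, hg0, add_zero, zero_pow hm]
      exact Ideal.zero_mem _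
    rw [add_pow]
    refine Ideal.sum_mem _ fun i hi => ?_
    have hi' : i ≤ m := Nat.lt_succ_iff.mp (Finset.mem_range.mp hi)
    refine Ideal.mul_mem_right _ _ ?_
    -- `f^i g^(m-i) = u z` with `z ∈ 𝔓`
    obtain ⟨z, hz⟩ : u ∣ f ^ i * g ^ (m - i) :=
      dvd_pow_mul_pow hm (Dvd.intro x hfx) (Dvd.intro y hgy) hi'
    have hzm : z ^ m = x ^ i * y ^ (m - i) := by
      have h1 : (u * z) ^ m = u ^ m * (x ^ i * y ^ (m - i)) := by
        rw [← hz]
        have : (f ^ i * g ^ (m - i)) ^ m = (f ^ m) ^ i * (g ^ m) ^ (m - i) := by ring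
        rw [this, ← hfx, ← hgy, mul_pow, mul_pow]
        have hum : u ^ m = u ^ i * u ^ (m - i) := by
          rw [← pow_add, Nat.add_sub_cancel' hi']
        rw [hum]; ring
      rw [mul_pow] at h1
      exact mul_left_cancel₀ (pow_ne_zero m hu0) h1
    have hzP : z ∈ 𝔓 := by
      apply Ideal.IsPrime.mem_of_pow_mem (inferInstance : 𝔓.IsPrime) m
      rw [hzm]
      by_cases hi0 : i = 0
      · subst hi0
        rw [pow_zero, one_mul, Nat.sub_zero]
        exact Ideal.pow_mem_of_mem _ hy m (Nat.pos_of_ne_zero hm)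
      · exact Ideal.mul_mem_right _ _ (Ideal.pow_mem_of_mem _ hx i (Nat.pos_of_ne_zero hi0))
    rw [hz]
    exact Ideal.mul_mem_mul (Ideal.mem_span_singleton_self u) hzP
  zero_mem' := by
    show (0 : R) ^ m ∈ Ideal.span {u} * 𝔓
    rw [zero_pow hm]
    exact Ideal.zero_mem _
  smul_mem' := by
    intro c f hf
    show (c • f) ^ m ∈ Ideal.span {u} * 𝔓
    rw [smul_eq_mul, mul_pow]
    exact Ideal.mul_mem_left _ _ hf

theorem mem_nonGenIdeal {u : R} {m : ℕ} {hm : m ≠ 0} {𝔓 : Ideal R} [𝔓.IsPrime] {f : R} :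
    f ∈ nonGenIdeal u m hm 𝔓 ↔ f ^ m ∈ Ideal.span {u} * 𝔓 := Iff.rfl

/-- If `f ^ m = u * r` then `f ∈ S_𝔓 ↔ r ∈ 𝔓`. -/
theorem mem_nonGenIdeal_iff_of_eq {u : R} (hu0 : u ≠ 0) {m : ℕ} {hm : m ≠ 0} {𝔓 : Ideal R}
    [𝔓.IsPrime] {f r : R} (hf : f ^ m = u * r) : f ∈ nonGenIdeal u m hm 𝔓 ↔ r ∈ 𝔓 := by
  rw [mem_nonGenIdeal, Ideal.mem_span_singleton_mul]
  constructor
  · rintro ⟨z, hz, hzf⟩
    rw [hf] at hzf
    rwa [← mul_left_cancel₀ hu0 hzf]
  · intro hr
    exact ⟨r, hr, hf.symm⟩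

variable [IsNoetherianRing R] [IsLocalRing R]

omit [IsIntegrallyClosed R] in
/-- Dimension argument: in a local ring in which `𝔪` is the only prime containing `u` and `π`,
there is no chain `u ∈ 𝔓 < 𝔔` of primes with `π ∉ 𝔔`. -/
theorem not_lt_of_mem_of_not_mem {u π : R} (hu0 : u ≠ 0)
    (hπ : π ∈ IsLocalRing.maximalIdeal R)
    (huπ : ∀ 𝔮 : Ideal R, 𝔮.IsPrime → u ∈ 𝔮 → π ∈ 𝔮 → 𝔮 = IsLocalRing.maximalIdeal R)
    {𝔓 𝔔 : Ideal R} [h𝔓 : 𝔓.IsPrime] [h𝔔 : 𝔔.IsPrime] (hu : u ∈ 𝔓) (hπ𝔔 : π ∉ 𝔔) (hlt : 𝔓 < 𝔔) :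
    False := by
  classical
  have hbot : (⊥ : Ideal R) < 𝔓 := by
    rw [bot_lt_iff_ne_bot]
    intro h
    rw [h, Ideal.mem_bot] at hu
    exact hu0 hu
  have h𝔔𝔪 : 𝔔 < IsLocalRing.maximalIdeal R := by
    refine lt_of_le_of_ne (IsLocalRing.le_maximalIdeal h𝔔.ne_top) ?_
    intro h
    rw [h] at hπ𝔔
    exact hπ𝔔 hπ
  have hmin : IsLocalRing.maximalIdeal R ∈ (Ideal.span (({u, π} : Finset R) : Set R)).minimalPrimes := by
    refine ⟨⟨inferInstance, ?_⟩, ?_⟩
    · rw [Ideal.span_le]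
      intro x hx
      simp only [Finset.coe_insert, Finset.coe_singleton, Set.mem_insert_iff,
        Set.mem_singleton_iff] at hx
      rcases hx with rfl | rfl
      · exact (IsLocalRing.le_maximalIdeal h𝔓.ne_top) hu
      · exact hπ
    · rintro 𝔮 ⟨h𝔮, h𝔮le⟩ _
      have h1 : u ∈ 𝔮 := h𝔮le (Ideal.subset_span (by simp))
      have h2 : π ∈ 𝔮 := h𝔮le (Ideal.subset_span (by simp))
      exact (huπ 𝔮 h𝔮 h1 h2).ge
  have hle : (IsLocalRing.maximalIdeal R).height ≤ (({u, π} : Finset R)).card :=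
    Ideal.height_le_card_of_mem_minimalPrimes_span_finset hmin
  have hcard : ((({u, π} : Finset R)).card : ℕ∞) ≤ 2 := by
    exact_mod_cast Finset.card_le_two
  have h1 : (⊥ : Ideal R).height + 1 ≤ 𝔓.height :=
    Ideal.height_add_one_le_of_lt_of_isPrime hbot
  have h2 : 𝔓.height + 1 ≤ 𝔔.height := Ideal.height_add_one_le_of_lt_of_isPrime hlt
  have h3 : 𝔔.height + 1 ≤ (IsLocalRing.maximalIdeal R).height :=
    Ideal.height_add_one_le_of_lt_of_isPrime h𝔔𝔪
  have h4 : (3 : ℕ∞) ≤ (IsLocalRing.maximalIdeal R).height := by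
    calc (3 : ℕ∞) = 0 + 1 + 1 + 1 := by norm_num
      _ ≤ (⊥ : Ideal R).height + 1 + 1 + 1 := by gcongr; exact zero_le
      _ ≤ 𝔓.height + 1 + 1 := by gcongr
      _ ≤ 𝔔.height + 1 := by gcongr
      _ ≤ _ := h3
  have h5 : (3 : ℕ∞) ≤ 2 := h4.trans (hle.trans hcard)
  exact absurd h5 (by norm_num)

/-- Existence of a simultaneous local generator. -/
theorem exists_generator {u π : R} {m : ℕ} (hm : m ≠ 0) (hu0 : u ≠ 0)
    (hπ : π ∈ IsLocalRing.maximalIdeal R)
    (huπ : ∀ 𝔮 : Ideal R, 𝔮.IsPrime → u ∈ 𝔮 → π ∈ 𝔮 → 𝔮 = IsLocalRing.maximalIdeal R)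
    (H1 : ∀ 𝔓 : Ideal R, 𝔓.IsPrime → u ∈ 𝔓 → π ∉ 𝔓 → ∃ f r : R, r ∉ 𝔓 ∧ f ^ m = u * r) :
    ∃ t r : R, ∃ k : ℕ, t ^ m = u * r ∧ π ^ k ∈ Ideal.span {u, r} := by
  classical
  have hfinite : (Ideal.span {u}).minimalPrimes.Finite :=
    Ideal.finite_minimalPrimes_of_isNoetherianRing R _
  set s : Finset (Ideal R) := hfinite.toFinset.filter (fun 𝔓 => π ∉ 𝔓) with hs
  have hs_mem : ∀ 𝔓, 𝔓 ∈ s ↔ 𝔓 ∈ (Ideal.span {u}).minimalPrimes ∧ π ∉ 𝔓 := by
    intro 𝔓
    rw [hs, Finset.mem_filter, Set.Finite.mem_toFinset]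
  have hs_prime : ∀ 𝔓 ∈ s, 𝔓.IsPrime := fun 𝔓 h𝔓 => ((hs_mem 𝔓).mp h𝔓).1.1.1
  have hs_u : ∀ 𝔓 ∈ s, u ∈ 𝔓 := fun 𝔓 h𝔓 =>
    ((hs_mem 𝔓).mp h𝔓).1.1.2 (Ideal.mem_span_singleton_self u)
  -- local generators
  have hex : ∀ 𝔓 : Ideal R, ∃ f r : R, 𝔓 ∈ s → (r ∉ 𝔓 ∧ f ^ m = u * r) := by
    intro 𝔓
    by_cases h𝔓 : 𝔓 ∈ s
    · obtain ⟨f, r, hr, hf⟩ := H1 𝔓 (hs_prime 𝔓 h𝔓) (hs_u 𝔓 h𝔓) ((hs_mem 𝔓).mp h𝔓).2
      exact ⟨f, r, fun _ => ⟨hr, hf⟩⟩
    · exact ⟨0, 0, fun h => absurd h h𝔓⟩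
  choose f r hfr using hex
  -- separating elements
  have hexe : ∀ 𝔓 : Ideal R, ∃ e : R, 𝔓 ∈ s → (e ∉ 𝔓 ∧ ∀ 𝔔 ∈ s, 𝔔 ≠ 𝔓 → e ∈ 𝔔) := by
    intro 𝔓
    by_cases h𝔓 : 𝔓 ∈ s
    · have := hs_prime 𝔓 h𝔓
      have hnle : ¬ (∏ 𝔔 ∈ s.erase 𝔓, 𝔔) ≤ 𝔓 := by
        intro hle
        obtain ⟨𝔔, h𝔔, h𝔔le⟩ := (Ideal.IsPrime.prod_le (hs_prime 𝔓 h𝔓)).mp hle
        have h𝔔s : 𝔔 ∈ s := Finset.mem_of_mem_erase h𝔔
        have h𝔔ne : 𝔔 ≠ 𝔓 := Finset.ne_of_mem_erase h𝔔
        have hmin𝔓 := ((hs_mem 𝔓).mp h𝔓).1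
        have hmin𝔔 := ((hs_mem 𝔔).mp h𝔔s).1
        exact h𝔔ne (le_antisymm h𝔔le (hmin𝔓.2 hmin𝔔.1 h𝔔le))
      obtain ⟨e, he, he'⟩ := SetLike.not_le_iff_exists.mp hnle
      refine ⟨e, fun _ => ⟨he', fun 𝔔 h𝔔 hne => ?_⟩⟩
      have : (∏ 𝔔' ∈ s.erase 𝔓, 𝔔') ≤ 𝔔 :=
        Ideal.prod_le_inf.trans (Finset.inf_le (Finset.mem_erase.mpr ⟨hne, h𝔔⟩))
      exact this he
    · exact ⟨0, fun h => absurd h h𝔓⟩
  choose e he using hexe
  set t : R := ∑ 𝔓 ∈ s, e 𝔓 * f 𝔓 with ht
  -- `t ∈ I_1`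
  have hterm : ∀ 𝔓 ∈ s, e 𝔓 * f 𝔓 ∈ rootIdeal u m hm 1 := by
    intro 𝔓 h𝔓
    refine Ideal.mul_mem_left _ _ ?_
    rw [mem_rootIdeal, pow_one, (hfr 𝔓 h𝔓).2]
    exact Dvd.intro _ rfl
  have htI : t ∈ rootIdeal u m hm 1 := Ideal.sum_mem _ hterm
  obtain ⟨r₀, hr₀⟩ : u ∣ t ^ m := by
    have := htI
    rwa [mem_rootIdeal, pow_one] at this
  -- `r₀ ∉ 𝔓` for `𝔓 ∈ s`
  have hr₀s : ∀ 𝔓 ∈ s, r₀ ∉ 𝔓 := by
    intro 𝔓 h𝔓 hr𝔓
    have := hs_prime 𝔓 h𝔓
    have h1 : t ∈ nonGenIdeal u m hm 𝔓 := (mem_nonGenIdeal_iff_of_eq hu0 hr₀).mpr hr𝔓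
    have h2 : ∀ 𝔔 ∈ s.erase 𝔓, e 𝔔 * f 𝔔 ∈ nonGenIdeal u m hm 𝔓 := by
      intro 𝔔 h𝔔
      have h𝔔s : 𝔔 ∈ s := Finset.mem_of_mem_erase h𝔔
      have h𝔔ne : 𝔔 ≠ 𝔓 := Finset.ne_of_mem_erase h𝔔
      have hmem : e 𝔔 ∈ 𝔓 := (he 𝔔 h𝔔s).2 𝔓 h𝔓 (Ne.symm h𝔔ne)
      have hpow : (e 𝔔 * f 𝔔) ^ m = u * (e 𝔔 ^ m * r 𝔔) := by
        rw [mul_pow, (hfr 𝔔 h𝔔s).2]; ring
      exact (mem_nonGenIdeal_iff_of_eq hu0 hpow).mpr
        (Ideal.mul_mem_right _ _ (Ideal.pow_mem_of_mem _ hmem m (Nat.pos_of_ne_zero hm)))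
    have h3 : e 𝔓 * f 𝔓 ∈ nonGenIdeal u m hm 𝔓 := by
      have hsum : t = e 𝔓 * f 𝔓 + ∑ 𝔔 ∈ s.erase 𝔓, e 𝔔 * f 𝔔 := by
        rw [ht, ← Finset.add_sum_erase s _ h𝔓]
      have : e 𝔓 * f 𝔓 = t - ∑ 𝔔 ∈ s.erase 𝔓, e 𝔔 * f 𝔔 := by rw [hsum]; ring
      rw [this]
      exact Ideal.sub_mem _ h1 (Ideal.sum_mem _ h2)
    have hpow : (e 𝔓 * f 𝔓) ^ m = u * (e 𝔓 ^ m * r 𝔓) := by
      rw [mul_pow, (hfr 𝔓 h𝔓).2]; ring
    have h4 : e 𝔓 ^ m * r 𝔓 ∈ 𝔓 := (mem_nonGenIdeal_iff_of_eq hu0 hpow).mp h3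
    rcases Ideal.IsPrime.mem_or_mem (hs_prime 𝔓 h𝔓) h4 with h | h
    · exact (he 𝔓 h𝔓).1 (Ideal.IsPrime.mem_of_pow_mem (hs_prime 𝔓 h𝔓) m h)
    · exact (hfr 𝔓 h𝔓).1 h
  -- `π ∈ √(u, r₀)`
  have hrad : π ∈ (Ideal.span {u, r₀}).radical := by
    rw [Ideal.radical_eq_sInf, Ideal.mem_sInf]
    rintro 𝔔 ⟨h𝔔le, h𝔔⟩
    by_contra hπ𝔔
    have hu𝔔 : u ∈ 𝔔 := h𝔔le (Ideal.subset_span (by simp))
    have hr𝔔 : r₀ ∈ 𝔔 := h𝔔le (Ideal.subset_span (by simp))
    have hle : Ideal.span {u} ≤ 𝔔 := by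
      rw [Ideal.span_le, Set.singleton_subset_iff]
      exact hu𝔔
    obtain ⟨𝔓, h𝔓min, h𝔓le⟩ := Ideal.exists_minimalPrimes_le hle
    have hπ𝔓 : π ∉ 𝔓 := fun h => hπ𝔔 (h𝔓le h)
    have h𝔓s : 𝔓 ∈ s := (hs_mem 𝔓).mpr ⟨h𝔓min, hπ𝔓⟩
    have := hs_prime 𝔓 h𝔓s
    have hne : 𝔓 ≠ 𝔔 := by
      intro h
      rw [← h] at hr𝔔
      exact hr₀s 𝔓 h𝔓s hr𝔔
    exact not_lt_of_mem_of_not_mem hu0 hπ huπ (hs_u 𝔓 h𝔓s) hπ𝔔 (lt_of_le_of_ne h𝔓le hne)
  obtain ⟨k, hk⟩ := hrad
  exact ⟨t, r₀, k, hr₀, hk⟩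

end Fermat.Agent.A2.H609

end
-- ===== PACK-END A2/H609/Generator.lean

-- ===== PACK-BEGIN A2/Mod/Spec.lean
section






/-!
# WALL A2 / MOD — frozen CONCRETE leaves (architect: deputy helper994)

Level `N = M * q`, `q` prime, `q ∤ M`.  `P` a valuation subring of `Q̄` over `q`, `E ⊆ Q̄` an
intermediate field such that `R = R_E = P ∩ E` is a discrete valuation ring with uniformiser `w`
(number field, or a finite extension of the inertia field).  `k = R / w` (automatically perfect).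

* `F_N = FE E N = E(j_d : d ∣ N) ⊆ E((t))`, `j_d = j(t^d)`;
* `α = heckeAlphaBar E M q : F_M → F_N` (inclusion), `β = heckeBetaBar E M q` (`t ↦ t^q`, `j_d ↦ j_{dq}`);
* `V∞` = Gauss valuation ring of the `t`-expansion (`H708.gaussInf`, here via the predicate `IsVinf`);
* `W` = Fricke involution of `F_N` over `E` (`j_d ↦ j_{N/d}`), `V₀ := V∞.comap W`;
* **coordinate `x := j · j_q`** (NOT `j`, NOT `j + j_q`):  `j, j_q` are integral over `ℤ[x]` and
  `1/j, 1/j_q` are integral over `ℤ[1/x]` (leaf `ChartCompat`), hence BOTH `α` and `β` map the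
  level-`M` charts for the coordinate `j` (finite chart AND chart at infinity) into the level-`N`
  charts for the coordinate `x`; `x̄ = j̄^(q+1)` on `C∞`, `x̄ = j̄_q^(q+1)` on `C₀`: separable (tame)
  on both components;  `[F_N : E(x)] = 2 ψ(N) = 2 (q+1) ψ(M)`, residue degrees `ψ(N)` and `ψ(N)`.

Every `def …Statement : Prop` below is ONE leaf: prove `theorem foo : FooStatement` in
`Fermat/Agent/A2/Mod/H<seat>/*.lean` (namespace `Fermat.Agent.A2.Mod.H<seat>`), importing this file.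
The abstract pieces on main (H48 QEP2, H492 M4, H372 T-ALG, H168/H132 nodes, H296/H373/H969 normal)
turn the leaves + `GoodRedAt` (level `M`, = output of S18 b2) into helper13's `SSChart`s (MODASM).
-/

set_option autoImplicit false
set_option synthInstance.maxHeartbeats 400000
set_option maxHeartbeats 1600000

noncomputable section

namespace Fermat.Agent.A2.Mod

open ModularCurve HahnSeries Polynomial

/-- The field `ℚ̄`. -/
abbrev Qb : Type := AlgebraicClosure ℚ

/-! ## Objects -/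

section Defs

variable (P : ValuationSubring _root_.Fermat.Agent.A2.Mod.Qb) (E : IntermediateField ℚ _root_.Fermat.Agent.A2.Mod.Qb) (N : ℕ)

/-- `R_E = P ∩ E`. -/
abbrev RE : ValuationSubring E := P.comap (algebraMap E _root_.Fermat.Agent.A2.Mod.Qb)

/-- `F_{N,E} = E(j(t^d) : d ∣ N) ⊆ E((t))`. -/
abbrev FE : IntermediateField E (LaurentSeries E) :=
  laurentBaseChange E (modularFunctionFieldFull N)

/-- The constant `r ∈ R_E` as an element of `F_{N,E}`. -/
def cE (r : _root_.Fermat.Agent.A2.Mod.RE P E) : _root_.Fermat.Agent.A2.Mod.FE E N := algebraMap E (_root_.Fermat.Agent.A2.Mod.FE E N) (r : E)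

/-- The generator `j_d = j(t^d)` of `F_{N,E}`, `d ∣ N`. -/
def jE (d : ℕ) [NeZero d] (hd : d ∣ N) : _root_.Fermat.Agent.A2.Mod.FE E N :=
  ⟨coeffEmb E (qExpand ℚ d jq), coeffEmb_mem_laurentBaseChange E (jqd_mem_full N hd)⟩

/-- Evaluation of a polynomial over `R_E` at an element of `F_{N,E}`. -/
def ev (x : _root_.Fermat.Agent.A2.Mod.FE E N) (a : Polynomial (_root_.Fermat.Agent.A2.Mod.RE P E)) : _root_.Fermat.Agent.A2.Mod.FE E N :=
  a.eval₂ ((algebraMap E (_root_.Fermat.Agent.A2.Mod.FE E N)).comp (_root_.Fermat.Agent.A2.Mod.RE P E).subtype) x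

/-- `V` is the Gauss valuation ring `V∞` of `F_{N,E}` with respect to `R_E`
(`= H708.gaussInf (RE P E) (modularFunctionFieldFull N) _ _`). -/
def IsVinf (V : ValuationSubring (_root_.Fermat.Agent.A2.Mod.FE E N)) : Prop :=
  ∀ f : _root_.Fermat.Agent.A2.Mod.FE E N, f ∈ V ↔
    H708.IsGaussInt (_root_.Fermat.Agent.A2.Mod.RE P E) (modularFunctionFieldFull N) (f : LaurentSeries E)

/-- `W` is the Fricke involution of `F_{N,E}` over `E`: `j_d ↦ j_{N/d}`. -/
def IsFricke (W : _root_.Fermat.Agent.A2.Mod.FE E N ≃ₐ[E] _root_.Fermat.Agent.A2.Mod.FE E N) : Prop :=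
  (∀ (d d' : ℕ) [NeZero d] [NeZero d'] (hd : d ∣ N) (hd' : d' ∣ N), d * d' = N →
    W (jE E N d hd) = jE E N d' hd') ∧ ∀ f, W (W f) = f

/-- `f ∈ w · V`. -/
def InW (V : ValuationSubring (_root_.Fermat.Agent.A2.Mod.FE E N)) (w : _root_.Fermat.Agent.A2.Mod.RE P E) (f : _root_.Fermat.Agent.A2.Mod.FE E N) : Prop :=
  f * (cE P E N w)⁻¹ ∈ V

/-- Residues of the family `b` are linearly independent over `k[x̄]`, in the elementwise form used
by `H48.GaussPair`: `∑ aᵢ(x) bᵢ ∈ w V ⟹ w ∣ aᵢ` for all `i`. -/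
def IndepMod (V : ValuationSubring (_root_.Fermat.Agent.A2.Mod.FE E N)) (w : _root_.Fermat.Agent.A2.Mod.RE P E) (x : _root_.Fermat.Agent.A2.Mod.FE E N) {n : ℕ}
    (b : Fin n → _root_.Fermat.Agent.A2.Mod.FE E N) : Prop :=
  ∀ a : Fin n → Polynomial (_root_.Fermat.Agent.A2.Mod.RE P E),
    InW P E N V w (∑ i, ev P E N x (a i) * b i) → ∀ i, Polynomial.C w ∣ a i

/-- The chart: elements of `F_{N,E}` integral over `R_E[x]` (as a set; `R_E[x]` = image of `ev`). -/
def chart (x : _root_.Fermat.Agent.A2.Mod.FE E N) : Set (_root_.Fermat.Agent.A2.Mod.FE E N) :=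
  {f | ∃ p : Polynomial (Polynomial (_root_.Fermat.Agent.A2.Mod.RE P E)), p.Monic ∧
    p.eval₂ (Polynomial.eval₂RingHom ((algebraMap E (_root_.Fermat.Agent.A2.Mod.FE E N)).comp (_root_.Fermat.Agent.A2.Mod.RE P E).subtype) x) f = 0}

end Defs

/-! ## Standing hypotheses of all leaves -/

/-- The standing hypotheses: `q` prime, `q ∤ M`, `P` over `q`, `R_E` a DVR with uniformiser `w`. -/
structure Setting (P : ValuationSubring _root_.Fermat.Agent.A2.Mod.Qb) (E : IntermediateField ℚ _root_.Fermat.Agent.A2.Mod.Qb) (M q : ℕ)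
    (w : _root_.Fermat.Agent.A2.Mod.RE P E) : Prop where
  q_prime : q.Prime
  q_not_dvd : ¬ q ∣ M
  M_ne_zero : M ≠ 0
  lies_over : P.LiesOverPrime q
  dvr : IsDiscreteValuationRing (_root_.Fermat.Agent.A2.Mod.RE P E)
  unif : Irreducible w

section Leaves

variable (P : ValuationSubring _root_.Fermat.Agent.A2.Mod.Qb) (E : IntermediateField ℚ _root_.Fermat.Agent.A2.Mod.Qb) (M q : ℕ) [NeZero M] [NeZero q]
  (w : _root_.Fermat.Agent.A2.Mod.RE P E)

/-- The coordinate `x = j · j_q` of level `M * q`. -/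
def xE : _root_.Fermat.Agent.A2.Mod.FE E (M * q) :=
  jE E (M * q) 1 (one_dvd _) * jE E (M * q) q (dvd_mul_left q M)

/-- `α : F_M → F_{Mq}`, the inclusion. -/
abbrev αE : _root_.Fermat.Agent.A2.Mod.FE E M →ₐ[E] _root_.Fermat.Agent.A2.Mod.FE E (M * q) := heckeAlphaBar E M q

/-- `β : F_M → F_{Mq}`, `t ↦ t^q`. -/
abbrev βE : _root_.Fermat.Agent.A2.Mod.FE E M →ₐ[E] _root_.Fermat.Agent.A2.Mod.FE E (M * q) := heckeBetaBar E M q

/-! ### L1  VINF: the Gauss valuation exists at every level (owner: helper708 / helper553) -/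

/-- **L1.** The Gauss valuation ring exists (any level `N`):
`H708.gaussInf` + `H708.IntGen (modularFunctionFieldFull N)` + `attainsMax_of_isNoetherianRing`. -/
def VinfExistsStatement : Prop :=
  ∀ N : ℕ, N ≠ 0 → IsDiscreteValuationRing (_root_.Fermat.Agent.A2.Mod.RE P E) →
    ∃ V : ValuationSubring (_root_.Fermat.Agent.A2.Mod.FE E N), IsVinf P E N V

/-- **L2.** `w` is a uniformiser of `V∞`, `V∞ ∩ E = R_E`, and the generators `j_d` are units. -/
def VinfBasicStatement : Prop :=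
  ∀ N : ℕ, N ≠ 0 → IsDiscreteValuationRing (_root_.Fermat.Agent.A2.Mod.RE P E) → Irreducible w →
    ∀ V : ValuationSubring (_root_.Fermat.Agent.A2.Mod.FE E N), IsVinf P E N V →
      H48.IsUnif V (cE P E N w) ∧
      (∀ e : E, algebraMap E (_root_.Fermat.Agent.A2.Mod.FE E N) e ∈ V ↔ e ∈ _root_.Fermat.Agent.A2.Mod.RE P E) ∧
      ∀ (d : ℕ) [NeZero d] (hd : d ∣ N), jE E N d hd ∈ V ∧ (jE E N d hd)⁻¹ ∈ V

/-- **L3.** Gauss property for every "polar" element: if `u ∈ F_N` is the image of an `R`-integral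
series `t^{-a}(c + …)`, `a > 0`, `c` a unit of `R`, then every `p ∈ R[X]` not divisible by `w`
gives a unit `p(u)` of `V∞`.  (Applied to `u = x`, `W x`, and with `V∞ ∋ u⁻¹`.) -/
def VinfGaussStatement : Prop :=
  ∀ N : ℕ, N ≠ 0 → IsDiscreteValuationRing (_root_.Fermat.Agent.A2.Mod.RE P E) → Irreducible w →
    ∀ V : ValuationSubring (_root_.Fermat.Agent.A2.Mod.FE E N), IsVinf P E N V →
    ∀ (u : _root_.Fermat.Agent.A2.Mod.FE E N) (U : LaurentSeries (_root_.Fermat.Agent.A2.Mod.RE P E)) (a : ℕ), 0 < a →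
      (u : LaurentSeries E) = H708.incl (_root_.Fermat.Agent.A2.Mod.RE P E) U →
      (∀ n : ℤ, n < -(a : ℤ) → U.coeff n = 0) → IsUnit (U.coeff (-(a : ℤ))) →
      ∀ p : Polynomial (_root_.Fermat.Agent.A2.Mod.RE P E), ¬ Polynomial.C w ∣ p →
        ev P E N u p ∈ V ∧ (ev P E N u p)⁻¹ ∈ V

/-! ### L4  W: the Fricke involution at level `E` (from H528 `wF`, `wF_rat` over `Q̄`) -/

/-- **L4.** The Fricke involution exists over `E` (restrict `H528.wF` to `E(j_d : d ∣ N)`). -/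
def FrickeExistsStatement : Prop :=
  ∀ N : ℕ, N ≠ 0 → ∃ W : _root_.Fermat.Agent.A2.Mod.FE E N ≃ₐ[E] _root_.Fermat.Agent.A2.Mod.FE E N, IsFricke E N W

/-- **L5.** Compatibility of Fricke involutions of levels `M` and `Mq` with `α`, `β`:
`W_N ∘ α = β ∘ W_M` and `W_N ∘ β = α ∘ W_M`. -/
def FrickeCompatStatement : Prop :=
  ∀ (WM : _root_.Fermat.Agent.A2.Mod.FE E M ≃ₐ[E] _root_.Fermat.Agent.A2.Mod.FE E M) (WN : _root_.Fermat.Agent.A2.Mod.FE E (M * q) ≃ₐ[E] _root_.Fermat.Agent.A2.Mod.FE E (M * q)),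
    IsFricke E M WM → IsFricke E (M * q) WN →
    ∀ f : _root_.Fermat.Agent.A2.Mod.FE E M, WN (αE E M q f) = βE E M q (WM f) ∧ WN (βE E M q f) = αE E M q (WM f)

/-- **L6.** `V₀ := V∞ ∘ W ≠ V∞` at level `Mq` (level-`E` form of `H528.comapW_ne`). -/
def VzeroNeStatement : Prop :=
  Setting P E M q w →
    ∀ (V : ValuationSubring (_root_.Fermat.Agent.A2.Mod.FE E (M * q))) (W : _root_.Fermat.Agent.A2.Mod.FE E (M * q) ≃ₐ[E] _root_.Fermat.Agent.A2.Mod.FE E (M * q)),
      IsVinf P E (M * q) V → IsFricke E (M * q) W →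
      V.comap (W : _root_.Fermat.Agent.A2.Mod.FE E (M * q) →+* _root_.Fermat.Agent.A2.Mod.FE E (M * q)) ≠ V

/-- **L7.** At level `M` (good reduction) the Fricke involution preserves `V∞`
(uniqueness of the extension of the Gauss valuation of `E(j)`: residue degree `ψ(M)` = degree). -/
def FrickeStableStatement : Prop :=
  Setting P E M q w →
    ∀ (V : ValuationSubring (_root_.Fermat.Agent.A2.Mod.FE E M)) (W : _root_.Fermat.Agent.A2.Mod.FE E M ≃ₐ[E] _root_.Fermat.Agent.A2.Mod.FE E M),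
      IsVinf P E M V → IsFricke E M W → ∀ f ∈ V, W f ∈ V

/-! ### L8–L10  degrees and residue independence (from `S28.CoreData M k`, on main) -/

/-- **L8.** `[F_{Mq} : E(x)] = 2 (q+1) ψ(M)`, `x` transcendental over `E`,
and `E` is algebraically closed in `F_{Mq}`. -/
def DegStatement : Prop :=
  q.Prime → ¬ q ∣ M →
    Transcendental E (xE E M q) ∧
    Module.finrank (IntermediateField.adjoin E ({xE E M q} : Set (_root_.Fermat.Agent.A2.Mod.FE E (M * q))))
      (_root_.Fermat.Agent.A2.Mod.FE E (M * q)) = 2 * ((q + 1) * dedekindPsi M) ∧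
    ∀ f : _root_.Fermat.Agent.A2.Mod.FE E (M * q), IsAlgebraic E f → f ∈ (algebraMap E (_root_.Fermat.Agent.A2.Mod.FE E (M * q))).range

/-- **L9.** Residue independence on `C∞`: there are `(q+1) ψ(M)` elements of `α(V∞_M)·j^a`
(`bᵢ = α(yᵢ) j^a`, `yᵢ` the `ψ(M)` monomials of `S28.CoreData M k`, `0 ≤ a ≤ q`) in `V∞`
whose residues are independent over `k[x̄]`, `x̄ = j̄^(q+1)`. -/
def IndInfStatement : Prop :=
  Setting P E M q w →
    ∀ V : ValuationSubring (_root_.Fermat.Agent.A2.Mod.FE E (M * q)), IsVinf P E (M * q) V →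
      ∃ b : Fin ((q + 1) * dedekindPsi M) → _root_.Fermat.Agent.A2.Mod.FE E (M * q),
        (∀ i, b i ∈ V) ∧ IndepMod P E (M * q) V w (xE E M q) b

/-- **L10.** Residue independence on `C₀`: the same for `V₀ = V∞ ∘ W`
(`cᵢ = β(yᵢ') j_q^a`; apply `W` and use L7 at level `M`). -/
def IndZeroStatement : Prop :=
  Setting P E M q w →
    ∀ (V : ValuationSubring (_root_.Fermat.Agent.A2.Mod.FE E (M * q))) (W : _root_.Fermat.Agent.A2.Mod.FE E (M * q) ≃ₐ[E] _root_.Fermat.Agent.A2.Mod.FE E (M * q)),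
      IsVinf P E (M * q) V → IsFricke E (M * q) W →
      ∃ c : Fin ((q + 1) * dedekindPsi M) → _root_.Fermat.Agent.A2.Mod.FE E (M * q),
        (∀ i, W (c i) ∈ V) ∧
        IndepMod P E (M * q) (V.comap (W : _root_.Fermat.Agent.A2.Mod.FE E (M * q) →+* _root_.Fermat.Agent.A2.Mod.FE E (M * q))) w (xE E M q) c

/-! ### L11–L12  residue fields and Kronecker (semilinear form, `k` perfect) -/

/-- **L11.** Residue degree one over level `M` on `C∞`: every element of `V∞` (level `Mq`) is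
congruent modulo `w V∞` to `α g`, `g ∈ V∞_M`. -/
def ResInfStatement : Prop :=
  Setting P E M q w →
    ∀ (VM : ValuationSubring (_root_.Fermat.Agent.A2.Mod.FE E M)) (V : ValuationSubring (_root_.Fermat.Agent.A2.Mod.FE E (M * q))),
      IsVinf P E M VM → IsVinf P E (M * q) V →
      ∀ f ∈ V, ∃ g ∈ VM, InW P E (M * q) V w (f - αE E M q g)

/-- **L12.** Kronecker congruence, semilinear form: for `a ∈ V∞_M` there is `a' ∈ V∞_M`
(`ā' = ā` with coefficients twisted by the inverse Frobenius of `k`) with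
`β a ≡ (α a')^q mod w V∞`.  (On `C₀` the swapped congruence follows from L5 and L7.) -/
def KronStatement : Prop :=
  Setting P E M q w →
    ∀ (VM : ValuationSubring (_root_.Fermat.Agent.A2.Mod.FE E M)) (V : ValuationSubring (_root_.Fermat.Agent.A2.Mod.FE E (M * q))),
      IsVinf P E M VM → IsVinf P E (M * q) V →
      ∀ a ∈ VM, ∃ a' ∈ VM, InW P E (M * q) V w (βE E M q a - (αE E M q a') ^ q)

/-! ### L13  chart compatibility (from `S28.ModPolyData q`, on main) -/

/-- **L13.** `j, j_q` are integral over `ℤ[x]` and `1/j, 1/j_q` are integral over `ℤ[1/x]`,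
`x = j j_q` (monicity of `Φ_q` in each variable suffices). -/
def ChartCompatStatement : Prop :=
  q.Prime →
    (jE E (M * q) 1 (one_dvd _) ∈ chart P E (M * q) (xE E M q)) ∧
    (jE E (M * q) q (dvd_mul_left q M) ∈ chart P E (M * q) (xE E M q)) ∧
    ((jE E (M * q) 1 (one_dvd _))⁻¹ ∈ chart P E (M * q) (xE E M q)⁻¹) ∧
    ((jE E (M * q) q (dvd_mul_left q M))⁻¹ ∈ chart P E (M * q) (xE E M q)⁻¹)

/-! ### L14  inertia acts trivially on both residue fields -/

/-- The restriction to `E` of an automorphism of `Q̄` stabilising `E`. -/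
def resE (τ : _root_.Fermat.Agent.A2.Mod.Qb ≃ₐ[ℚ] _root_.Fermat.Agent.A2.Mod.Qb) (hτ : ∀ e : _root_.Fermat.Agent.A2.Mod.Qb, e ∈ E → τ e ∈ E ∧ τ.symm e ∈ E) : E ≃ₐ[ℚ] E :=
  AlgEquiv.ofBijective
    { toFun := fun e => ⟨τ (e : _root_.Fermat.Agent.A2.Mod.Qb), (hτ e e.2).1⟩
      map_one' := Subtype.ext (map_one τ)
      map_mul' := fun a b => Subtype.ext (map_mul τ (a : _root_.Fermat.Agent.A2.Mod.Qb) (b : _root_.Fermat.Agent.A2.Mod.Qb))
      map_zero' := Subtype.ext (map_zero τ)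
      map_add' := fun a b => Subtype.ext (map_add τ (a : _root_.Fermat.Agent.A2.Mod.Qb) (b : _root_.Fermat.Agent.A2.Mod.Qb))
      commutes' := fun r => Subtype.ext (τ.commutes r) }
    ⟨fun a b hab => Subtype.ext (τ.injective (congrArg Subtype.val hab)),
      fun b => ⟨⟨τ.symm (b : _root_.Fermat.Agent.A2.Mod.Qb), (hτ b b.2).2⟩, Subtype.ext (τ.apply_symm_apply (b : _root_.Fermat.Agent.A2.Mod.Qb))⟩⟩

/-- **L14.** For `τ` in the inertia group of `P` stabilising `E`: `τ` stabilises `V∞` and `V₀`,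
acts trivially on both residue fields, and commutes with `W`. -/
def InertiaStatement : Prop :=
  ∀ N : ℕ, N ≠ 0 → IsDiscreteValuationRing (_root_.Fermat.Agent.A2.Mod.RE P E) → Irreducible w →
    ∀ (V : ValuationSubring (_root_.Fermat.Agent.A2.Mod.FE E N)) (W : _root_.Fermat.Agent.A2.Mod.FE E N ≃ₐ[E] _root_.Fermat.Agent.A2.Mod.FE E N),
      IsVinf P E N V → IsFricke E N W →
      ∀ (τ : _root_.Fermat.Agent.A2.Mod.Qb ≃ₐ[ℚ] _root_.Fermat.Agent.A2.Mod.Qb) (hτ : ∀ e : _root_.Fermat.Agent.A2.Mod.Qb, e ∈ E → τ e ∈ E ∧ τ.symm e ∈ E),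
        τ ∈ P.inertiaSubgroupIn ℚ →
        (∀ f : _root_.Fermat.Agent.A2.Mod.FE E N, arithmeticRingAut (modularFunctionFieldFull N) (resE E τ hτ) (W f) =
          W (arithmeticRingAut (modularFunctionFieldFull N) (resE E τ hτ) f)) ∧
        ∀ f ∈ V, InW P E N V w
          (arithmeticRingAut (modularFunctionFieldFull N) (resE E τ hτ) f - f)

/-! ### HYPOTHESIS at level `M` (output of S18 b2 — NOT a leaf of MOD) -/

/-- **Good reduction at level `M`** in the chart of the coordinate `y` (`y = j` and `y = j⁻¹`),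
elementwise: (qep) `B_M ∩ w V∞ = w B_M`; (normal) the image of `B_M` in the residue field of `V∞`
is integrally closed in it, i.e. `B_M / w B_M` is a normal domain with fraction field `κ(V∞)`. -/
structure GoodRedAt (VM : ValuationSubring (_root_.Fermat.Agent.A2.Mod.FE E M)) (y : _root_.Fermat.Agent.A2.Mod.FE E M) : Prop where
  qep : ∀ b ∈ chart P E M y, InW P E M VM w b → b * (cE P E M w)⁻¹ ∈ chart P E M y
  normal : ∀ f ∈ VM,
    (∃ (n : ℕ) (c : Fin n → _root_.Fermat.Agent.A2.Mod.FE E M), (∀ i, c i ∈ chart P E M y) ∧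
      InW P E M VM w (f ^ n + ∑ i : Fin n, c i * f ^ (i : ℕ))) →
    ∃ b ∈ chart P E M y, InW P E M VM w (f - b)

end Leaves

end Fermat.Agent.A2.Mod

end

end
-- ===== PACK-END A2/Mod/Spec.lean

-- ===== PACK-BEGIN S28/H88/Degree.lean
section
/-
S28 (Igusa) -- helper88: [L.I] `1, j, …, j^{p-1}` are independent over `k((q^p))`, and
[L.B2] the degree of `j(q^p)` over `k(j)` is `p + 1`.
-/


set_option autoImplicit false

noncomputable section

open ModularCurve HahnSeries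

namespace Fermat.Agent.S28

section Independence

variable (k : Type*) [Field k]

theorem h88_order_qExpand (p : ℕ) [NeZero p] {x : LaurentSeries k} (hx : x ≠ 0) :
    (qExpand k p x).order = (p : ℤ) * x.order := by
  have hVx : qExpand k p x ≠ 0 := fun h => hx (qExpand_injective p (by rw [h, map_zero]))
  apply le_antisymm
  · apply HahnSeries.order_le_of_coeff_ne_zero
    rw [qExpand_coeff_mul]
    exact HahnSeries.coeff_order_eq_zero.not.mpr hx
  · have h := HahnSeries.coeff_order_eq_zero.not.mpr hVx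
    by_cases hdvd : (p : ℤ) ∣ (qExpand k p x).order
    · obtain ⟨m, hm⟩ := hdvd
      have h' : (qExpand k p x).coeff ((p : ℤ) * m) ≠ 0 := by rw [← hm]; exact h
      rw [qExpand_coeff_mul] at h'
      have h2 := HahnSeries.order_le_of_coeff_ne_zero h'
      rw [hm]
      exact mul_le_mul_of_nonneg_left h2 (by positivity)
    · exact absurd (qExpand_coeff_of_not_dvd p x hdvd) h

theorem h88_order_jqModC : (jqModC k).order = -1 := by
  have hne : jqModC k ≠ 0 := jqModC_ne_zero_of_nontrivial k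
  apply le_antisymm
  · exact HahnSeries.order_le_of_coeff_ne_zero (by rw [coeff_jqModC_neg_one]; exact one_ne_zero)
  · by_contra h
    rw [not_le] at h
    have h0 := coeff_jqModC_of_lt k (by omega : (jqModC k).order < -1)
    exact (HahnSeries.coeff_order_eq_zero.not.mpr hne) h0

/-- **[L.I]**, elementary form: `1, j, …, j^{p-1}` are linearly independent over the
image of `q ↦ q^p`. -/
theorem h88_linIndep_core (p : ℕ) [NeZero p] (c : ℕ → LaurentSeries k)
    (h : ∑ i ∈ Finset.range p, qExpand k p (c i) * (jqModC k) ^ i = 0) :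
    ∀ i ∈ Finset.range p, c i = 0 := by
  classical
  by_contra hcon
  rw [not_forall] at hcon
  obtain ⟨i₁, hcon⟩ := hcon
  rw [Classical.not_imp] at hcon
  obtain ⟨hi₁, hci₁⟩ := hcon
  have hj0 : jqModC k ≠ 0 := jqModC_ne_zero_of_nontrivial k
  have hS : ((Finset.range p).filter (fun i => c i ≠ 0)).Nonempty :=
    ⟨i₁, Finset.mem_filter.mpr ⟨hi₁, hci₁⟩⟩
  obtain ⟨i₀, hi₀S, hmin⟩ := Finset.exists_min_image _
    (fun i => (qExpand k p (c i) * (jqModC k) ^ i).order) hS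
  have hi₀ := Finset.mem_filter.mp hi₀S
  have hV : ∀ i, c i ≠ 0 → qExpand k p (c i) ≠ 0 := fun i hci h0 =>
    hci (qExpand_injective p (by rw [h0, map_zero]))
  have hord : ∀ i, c i ≠ 0 →
      (qExpand k p (c i) * (jqModC k) ^ i).order = (p : ℤ) * (c i).order - i := by
    intro i hci
    rw [HahnSeries.order_mul (hV i hci) (pow_ne_zero _ hj0), HahnSeries.order_pow,
      h88_order_qExpand k p hci, h88_order_jqModC]
    simp
    ring
  have hne : ∀ i, c i ≠ 0 → qExpand k p (c i) * (jqModC k) ^ i ≠ 0 := fun i hci =>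
    mul_ne_zero (hV i hci) (pow_ne_zero _ hj0)
  have hcoeff : (∑ i ∈ Finset.range p, qExpand k p (c i) * (jqModC k) ^ i).coeff
      (qExpand k p (c i₀) * (jqModC k) ^ i₀).order = 0 := by
    rw [h, HahnSeries.coeff_zero]
  rw [HahnSeries.coeff_sum, Finset.sum_eq_single_of_mem i₀ hi₀.1] at hcoeff
  · exact (HahnSeries.coeff_order_eq_zero.not.mpr (hne i₀ hi₀.2)) hcoeff
  · intro i hi hii₀
    by_cases hci : c i = 0
    · rw [hci, map_zero, zero_mul, HahnSeries.coeff_zero]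
    · apply HahnSeries.coeff_eq_zero_of_lt_order
      have h1 := hmin i (Finset.mem_filter.mpr ⟨hi, hci⟩)
      rw [hord i hci, hord i₀ hi₀.2] at h1 ⊢
      rcases lt_or_eq_of_le h1 with h2 | h2
      · exact h2
      · exfalso
        have hip := Finset.mem_range.mp hi
        have hi₀p := Finset.mem_range.mp hi₀.1
        have hdvd : (p : ℤ) ∣ (i₀ : ℤ) - i := ⟨(c i₀).order - (c i).order, by linarith⟩
        have h0 := Int.eq_zero_of_abs_lt_dvd hdvd (by rw [abs_lt]; constructor <;> omega)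
        omega

/-- **[L.I]**, polynomial form: no nonzero polynomial of degree `< p` over `k((q^p))`
vanishes at `j`. -/
theorem h88_aeval_ne_zero_of_natDegree_lt (p : ℕ) [NeZero p]
    (Q : Polynomial (qExpandAlgHomC k p).fieldRange) (hQ : Q ≠ 0) (hdeg : Q.natDegree < p) :
    Polynomial.aeval (jqModC k) Q ≠ 0 := by
  intro h
  rw [Polynomial.aeval_eq_sum_range' hdeg] at h
  have hc : ∀ i, ∃ y, qExpand k p y = (Q.coeff i : LaurentSeries k) := fun i =>
    AlgHom.mem_fieldRange.mp (Q.coeff i).2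
  choose c hc using hc
  have h' : ∑ i ∈ Finset.range p, qExpand k p (c i) * (jqModC k) ^ i = 0 := by
    rw [← h]
    refine Finset.sum_congr rfl fun i _ => ?_
    rw [hc, Algebra.smul_def]
    rfl
  have h0 := h88_linIndep_core k p c h'
  apply hQ
  refine Polynomial.ext fun i => ?_
  by_cases hi : i < p
  · have h1 : (Q.coeff i : LaurentSeries k) = 0 := by
      rw [← hc, h0 i (Finset.mem_range.mpr hi), map_zero]
    rw [Polynomial.coeff_zero]
    exact ZeroMemClass.coe_eq_zero.mp h1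
  · rw [Polynomial.coeff_eq_zero_of_natDegree_lt (by omega), Polynomial.coeff_zero]

/-- **[L.I]**, `LinearIndependent` form. -/
theorem h88_linearIndependent_pow (p : ℕ) [NeZero p] :
    LinearIndependent (qExpandAlgHomC k p).fieldRange
      (fun i : Fin p => (jqModC k) ^ (i : ℕ)) := by
  rw [Fintype.linearIndependent_iff]
  intro g hg i
  have hc : ∀ i : Fin p, ∃ y, qExpand k p y = (g i : LaurentSeries k) := fun i =>
    AlgHom.mem_fieldRange.mp (g i).2
  choose c hc using hc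
  have h' : ∑ n ∈ Finset.range p,
      qExpand k p (if h : n < p then c ⟨n, h⟩ else 0) * (jqModC k) ^ n = 0 := by
    rw [Finset.sum_range, ← hg]
    refine Finset.sum_congr rfl fun i _ => ?_
    rw [dif_pos i.2, Fin.eta, hc, Algebra.smul_def]
    rfl
  have h0 := h88_linIndep_core k p _ h' i (Finset.mem_range.mpr i.2)
  rw [dif_pos i.2, Fin.eta] at h0
  have h1 : (g i : LaurentSeries k) = 0 := by rw [← hc, h0, map_zero]
  exact ZeroMemClass.coe_eq_zero.mp h1

end Independence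

section Degree

variable (k : Type*) [Field k] (p : ℕ) [NeZero p]

theorem h88_comp_evalAt {A A' : Type*} [CommRing A] [CommRing A']
    (g : LaurentSeries A →+* LaurentSeries A') (y : LaurentSeries A) :
    g.comp (evalAt y) = evalAt (g y) := by
  apply Polynomial.ringHom_ext
  · intro a
    simp [evalAt]
  · simp [evalAt]

/-- `Φ(j_p, j) = 0` over `k`. -/
theorem h88_modPoly_eval_jp (Φ : ModPolyData p) :
    Φ.Φ.eval₂ (evalAt (jqModC k)) (qExpand k p (jqModC k)) = 0 := by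
  have h := congrArg (coeffMap (Int.castRingHom k)) Φ.eval_jp
  rw [Polynomial.hom_eval₂, map_zero, h88_comp_evalAt, coeffMap_qExpand, coeffMap_jqModC] at h
  exact h

/-- `Φ(j, j_p) = 0` over `k`. -/
theorem h88_modPoly_eval_j (Φ : ModPolyData p) :
    Φ.Φ.eval₂ (evalAt (qExpand k p (jqModC k))) (jqModC k) = 0 := by
  have h := congrArg (coeffMap (Int.castRingHom k)) Φ.eval_j
  rw [Polynomial.hom_eval₂, map_zero, h88_comp_evalAt, coeffMap_qExpand, coeffMap_jqModC] at h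
  exact h

/-- `Φ(j_{p²}, j_p) = 0` over `k`. -/
theorem h88_modPoly_eval_jpp (Φ : ModPolyData p) :
    Φ.Φ.eval₂ (evalAt (qExpand k p (jqModC k)))
      (qExpand k p (qExpand k p (jqModC k))) = 0 := by
  have h := congrArg (qExpand k p) (h88_modPoly_eval_jp k p Φ)
  rw [Polynomial.hom_eval₂, map_zero, h88_comp_evalAt] at h
  exact h

/-- Specialisation `ℤ[Y] → E`, `Y ↦ y`, for an intermediate field `E ∋ y`. -/
def h88_evalSub (E : IntermediateField k (LaurentSeries k)) {y : LaurentSeries k}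
    (hy : y ∈ E) : Polynomial ℤ →+* E :=
  (Polynomial.aeval (R := ℤ) (⟨y, hy⟩ : E)).toRingHom

theorem h88_algebraMap_comp_evalSub (E : IntermediateField k (LaurentSeries k))
    {y : LaurentSeries k} (hy : y ∈ E) :
    (algebraMap E (LaurentSeries k)).comp (h88_evalSub k E hy) = evalAt y := by
  apply Polynomial.ringHom_ext
  · intro a
    simp [evalAt, h88_evalSub]
  · simp [evalAt, h88_evalSub]

theorem h88_aeval_map_evalSub (E : IntermediateField k (LaurentSeries k))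
    {y : LaurentSeries k} (hy : y ∈ E) (Φ : Polynomial (Polynomial ℤ))
    (x : LaurentSeries k) :
    Polynomial.aeval x (Φ.map (h88_evalSub k E hy)) = Φ.eval₂ (evalAt y) x := by
  rw [Polynomial.aeval_def, Polynomial.eval₂_map, h88_algebraMap_comp_evalSub]

theorem h88_jp_mem_map :
    qExpand k p (jqModC k) ∈ (jField k).map (qExpandAlgHomC k p) :=
  (IntermediateField.mem_map (jField k)).mpr ⟨jqModC k, h88_jqModC_mem_jField k, rfl⟩

theorem h88_map_le_fieldRange :
    (jField k).map (qExpandAlgHomC k p) ≤ (qExpandAlgHomC k p).fieldRange := by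
  intro x hx
  obtain ⟨y, -, hy⟩ := (IntermediateField.mem_map (jField k)).mp hx
  exact AlgHom.mem_fieldRange.mpr ⟨y, hy⟩

theorem h88_jqModC_ne_qExpand (hp1 : 1 < p) (y : LaurentSeries k) :
    jqModC k ≠ qExpand k p y := by
  intro h
  have h1 := coeff_jqModC_neg_one k
  rw [h, qExpand_coeff_of_not_dvd p y] at h1
  · exact zero_ne_one h1
  · intro hdvd
    have h2 : (p : ℤ) ∣ 1 := (dvd_neg).mp hdvd
    have h3 := Int.le_of_dvd (by norm_num) h2
    have h4 : (1 : ℤ) < p := by exact_mod_cast hp1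
    omega

/-- The modular polynomial specialised at `Y = j_p`, over `K₁ = k(j_p) = V_p(k(j))`. -/
def h88_Phi1 (Φ : ModPolyData p) :
    Polynomial ((jField k).map (qExpandAlgHomC k p)) :=
  Φ.Φ.map (h88_evalSub k _ (h88_jp_mem_map k p))

/-- The modular polynomial specialised at `Y = j`, over `k(j)`. -/
def h88_Phi0 (Φ : ModPolyData p) : Polynomial (jField k) :=
  Φ.Φ.map (h88_evalSub k _ (h88_jqModC_mem_jField k))

theorem h88_Phi1_monic (Φ : ModPolyData p) : (h88_Phi1 k p Φ).Monic := Φ.monic.map _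

theorem h88_Phi0_monic (Φ : ModPolyData p) : (h88_Phi0 k p Φ).Monic := Φ.monic.map _

theorem h88_Phi1_natDegree (Φ : ModPolyData p) : (h88_Phi1 k p Φ).natDegree = p + 1 := by
  rw [h88_Phi1, Φ.monic.natDegree_map, Φ.natDegree_eq]

theorem h88_Phi0_natDegree (Φ : ModPolyData p) : (h88_Phi0 k p Φ).natDegree = p + 1 := by
  rw [h88_Phi0, Φ.monic.natDegree_map, Φ.natDegree_eq]

theorem h88_Phi1_aeval_j (Φ : ModPolyData p) :
    Polynomial.aeval (jqModC k) (h88_Phi1 k p Φ) = 0 := by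
  rw [h88_Phi1, h88_aeval_map_evalSub]
  exact h88_modPoly_eval_j k p Φ

theorem h88_Phi1_aeval_jpp (Φ : ModPolyData p) :
    Polynomial.aeval (qExpand k p (qExpand k p (jqModC k))) (h88_Phi1 k p Φ) = 0 := by
  rw [h88_Phi1, h88_aeval_map_evalSub]
  exact h88_modPoly_eval_jpp k p Φ

theorem h88_Phi0_aeval_jp (Φ : ModPolyData p) :
    Polynomial.aeval (qExpand k p (jqModC k)) (h88_Phi0 k p Φ) = 0 := by
  rw [h88_Phi0, h88_aeval_map_evalSub]
  exact h88_modPoly_eval_jp k p Φ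

theorem h88_isIntegral_j_K1 (Φ : ModPolyData p) :
    IsIntegral ((jField k).map (qExpandAlgHomC k p)) (jqModC k) :=
  ⟨h88_Phi1 k p Φ, h88_Phi1_monic k p Φ, h88_Phi1_aeval_j k p Φ⟩

theorem h88_isIntegral_jp (Φ : ModPolyData p) :
    IsIntegral (jField k) (qExpand k p (jqModC k)) :=
  ⟨h88_Phi0 k p Φ, h88_Phi0_monic k p Φ, h88_Phi0_aeval_jp k p Φ⟩

/-- Key step: a polynomial over `K₁ ⊆ k((q^p))` vanishing at `j` is zero or has degree `≥ p`. -/
theorem h88_le_natDegree_of_aeval_j_eq_zero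
    (Q : Polynomial ((jField k).map (qExpandAlgHomC k p))) (hQ : Q ≠ 0)
    (h : Polynomial.aeval (jqModC k) Q = 0) : p ≤ Q.natDegree := by
  by_contra hlt
  rw [not_le] at hlt
  let incl : ((jField k).map (qExpandAlgHomC k p)) →+* (qExpandAlgHomC k p).fieldRange :=
    (IntermediateField.inclusion (h88_map_le_fieldRange k p)).toRingHom
  have hinj : Function.Injective incl :=
    (IntermediateField.inclusion (h88_map_le_fieldRange k p)).toRingHom.injective
  have h1 : Q.map incl ≠ 0 := (Polynomial.map_ne_zero_iff hinj).mpr hQ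
  have h2 : (Q.map incl).natDegree < p := by
    rw [Polynomial.natDegree_map_eq_of_injective hinj]; exact hlt
  apply h88_aeval_ne_zero_of_natDegree_lt k p (Q.map incl) h1 h2
  rw [Polynomial.aeval_def, Polynomial.eval₂_map]
  exact h

/-- **[L.B2], first half**: the minimal polynomial of `j` over `K₁ = k(j_p)` is `Φ_p(X, j_p)`,
of degree `p + 1`. -/
theorem h88_minpoly_j_eq_Phi1 (hpk : (p : k) ≠ 0) (hp1 : 1 < p) (Φ : ModPolyData p)
    (W : UnitPolyData p)
    (hθ : (thetaL ℤ (jqModC ℤ)) ^ 6 = deltaL ℤ * (jqModC ℤ) ^ 4 * (jqModC ℤ - 1728) ^ 3) :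
    minpoly ((jField k).map (qExpandAlgHomC k p)) (jqModC k) = h88_Phi1 k p Φ := by
  have hint := h88_isIntegral_j_K1 k p Φ
  have hm_monic := minpoly.monic hint
  have hm_dvd : minpoly ((jField k).map (qExpandAlgHomC k p)) (jqModC k) ∣ h88_Phi1 k p Φ :=
    minpoly.dvd _ _ (h88_Phi1_aeval_j k p Φ)
  have hm_ge := h88_le_natDegree_of_aeval_j_eq_zero k p _ hm_monic.ne_zero (minpoly.aeval _ _)
  have hm_le : (minpoly ((jField k).map (qExpandAlgHomC k p)) (jqModC k)).natDegree ≤ p + 1 := by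
    rw [← h88_Phi1_natDegree k p Φ]
    exact Polynomial.natDegree_le_of_dvd hm_dvd (h88_Phi1_monic k p Φ).ne_zero
  have hm_eq : (minpoly ((jField k).map (qExpandAlgHomC k p)) (jqModC k)).natDegree = p + 1 := by
    by_contra hne
    have hmp : (minpoly ((jField k).map (qExpandAlgHomC k p)) (jqModC k)).natDegree = p := by
      omega
    obtain ⟨R, hR⟩ := hm_dvd
    have hRmonic : R.Monic := hm_monic.of_mul_monic_left (hR ▸ h88_Phi1_monic k p Φ)
    have hRdeg : R.natDegree = 1 := by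
      have h := congrArg Polynomial.natDegree hR
      rw [hm_monic.natDegree_mul hRmonic, h88_Phi1_natDegree, hmp] at h
      omega
    have hR' : R = Polynomial.X + Polynomial.C (R.coeff 0) := hRmonic.eq_X_add_C hRdeg
    have h1 : Polynomial.aeval (qExpand k p (qExpand k p (jqModC k)))
          (minpoly ((jField k).map (qExpandAlgHomC k p)) (jqModC k))
        * Polynomial.aeval (qExpand k p (qExpand k p (jqModC k))) R = 0 := by
      rw [← map_mul, ← hR]
      exact h88_Phi1_aeval_jpp k p Φ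
    rcases mul_eq_zero.mp h1 with h2 | h2
    · -- `m` has the root `j_{p²} ∈ k((q^p))`: split off a linear factor over `k((q^p))`
      let incl : ((jField k).map (qExpandAlgHomC k p)) →+* (qExpandAlgHomC k p).fieldRange :=
        (IntermediateField.inclusion (h88_map_le_fieldRange k p)).toRingHom
      have hinj : Function.Injective incl :=
        (IntermediateField.inclusion (h88_map_le_fieldRange k p)).toRingHom.injective
      let b₂ : (qExpandAlgHomC k p).fieldRange :=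
        ⟨qExpand k p (qExpand k p (jqModC k)),
          AlgHom.mem_fieldRange.mpr ⟨qExpand k p (jqModC k), rfl⟩⟩
      have hroot : ((minpoly ((jField k).map (qExpandAlgHomC k p)) (jqModC k)).map incl).IsRoot
          b₂ := by
        rw [Polynomial.IsRoot.def]
        apply (algebraMap (qExpandAlgHomC k p).fieldRange (LaurentSeries k)).injective
        rw [map_zero, Polynomial.eval_map, Polynomial.hom_eval₂]
        exact h2
      obtain ⟨M', hM'⟩ := Polynomial.dvd_iff_isRoot.mpr hroot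
      have hmapne : (minpoly ((jField k).map (qExpandAlgHomC k p)) (jqModC k)).map incl ≠ 0 :=
        (Polynomial.map_ne_zero_iff hinj).mpr hm_monic.ne_zero
      have hM'ne : M' ≠ 0 := by
        intro h0
        rw [h0, mul_zero] at hM'
        exact hmapne hM'
      have hM'deg : M'.natDegree < p := by
        have h := congrArg Polynomial.natDegree hM'
        rw [Polynomial.natDegree_map_eq_of_injective hinj, hmp,
          Polynomial.natDegree_mul (Polynomial.X_sub_C_ne_zero b₂) hM'ne,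
          Polynomial.natDegree_X_sub_C] at h
        omega
      apply h88_aeval_ne_zero_of_natDegree_lt k p M' hM'ne hM'deg
      have h3 : Polynomial.aeval (jqModC k)
          ((minpoly ((jField k).map (qExpandAlgHomC k p)) (jqModC k)).map incl) = 0 := by
        rw [Polynomial.aeval_def, Polynomial.eval₂_map]
        exact minpoly.aeval _ _
      rw [hM', map_mul, map_sub, Polynomial.aeval_X, Polynomial.aeval_C] at h3
      rcases mul_eq_zero.mp h3 with h4 | h4
      · exact absurd (sub_eq_zero.mp h4) (h88_jqModC_ne_qExpand k p hp1 _)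
      · exact h4
    · -- `j_{p²} ∈ K₁ = V_p(k(j))`, hence `j_p ∈ k(j)`
      rw [hR', map_add, Polynomial.aeval_X, Polynomial.aeval_C] at h2
      have h3 : qExpand k p (qExpand k p (jqModC k))
          ∈ (jField k).map (qExpandAlgHomC k p) := by
        have h4 : qExpand k p (qExpand k p (jqModC k))
            = -(algebraMap ((jField k).map (qExpandAlgHomC k p)) (LaurentSeries k)
                (R.coeff 0)) := eq_neg_of_add_eq_zero_left h2
        rw [h4]
        exact neg_mem (R.coeff 0).2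
      obtain ⟨r, hr, hVr⟩ := (IntermediateField.mem_map (jField k)).mp h3
      have hr' : r = qExpand k p (jqModC k) := qExpand_injective p hVr
      exact h88_jp_not_mem_jField k p hpk hp1 W hθ (hr' ▸ hr)
  exact (Polynomial.eq_of_monic_of_dvd_of_natDegree_le hm_monic (h88_Phi1_monic k p Φ) hm_dvd
    (by rw [h88_Phi1_natDegree, hm_eq])).symm

theorem h88_irreducible_Phi1 (hpk : (p : k) ≠ 0) (hp1 : 1 < p) (Φ : ModPolyData p)
    (W : UnitPolyData p)
    (hθ : (thetaL ℤ (jqModC ℤ)) ^ 6 = deltaL ℤ * (jqModC ℤ) ^ 4 * (jqModC ℤ - 1728) ^ 3) :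
    Irreducible (h88_Phi1 k p Φ) := by
  rw [← h88_minpoly_j_eq_Phi1 k p hpk hp1 Φ W hθ]
  exact minpoly.irreducible (h88_isIntegral_j_K1 k p Φ)

theorem h88_natDegree_minpoly_j (hpk : (p : k) ≠ 0) (hp1 : 1 < p) (Φ : ModPolyData p)
    (W : UnitPolyData p)
    (hθ : (thetaL ℤ (jqModC ℤ)) ^ 6 = deltaL ℤ * (jqModC ℤ) ^ 4 * (jqModC ℤ - 1728) ^ 3) :
    (minpoly ((jField k).map (qExpandAlgHomC k p)) (jqModC k)).natDegree = p + 1 := by
  rw [h88_minpoly_j_eq_Phi1 k p hpk hp1 Φ W hθ, h88_Phi1_natDegree]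

/-- **[L.B2]**: the minimal polynomial of `j(q^p)` over `k(j)` has degree `p + 1`. -/
theorem h88_natDegree_minpoly_jp (hpk : (p : k) ≠ 0) (hp1 : 1 < p) (Φ : ModPolyData p)
    (W : UnitPolyData p)
    (hθ : (thetaL ℤ (jqModC ℤ)) ^ 6 = deltaL ℤ * (jqModC ℤ) ^ 4 * (jqModC ℤ - 1728) ^ 3) :
    (minpoly (jField k) (qExpand k p (jqModC k))).natDegree = p + 1 := by
  have hint := h88_isIntegral_jp k p Φ
  have hm_monic := minpoly.monic hint
  apply le_antisymm
  · rw [← h88_Phi0_natDegree k p Φ]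
    exact Polynomial.natDegree_le_of_dvd (minpoly.dvd _ _ (h88_Phi0_aeval_jp k p Φ))
      (h88_Phi0_monic k p Φ).ne_zero
  · -- transport the minimal polynomial through `V_p`
    let e : (jField k) →+* ((jField k).map (qExpandAlgHomC k p)) :=
      ((jField k).equivMap (qExpandAlgHomC k p)).toAlgHom.toRingHom
    have hcomp : (algebraMap ((jField k).map (qExpandAlgHomC k p)) (LaurentSeries k)).comp e
        = (qExpand k p).comp (algebraMap (jField k) (LaurentSeries k)) := by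
      ext x
      rfl
    have hQ : Polynomial.aeval (qExpand k p (qExpand k p (jqModC k)))
        ((minpoly (jField k) (qExpand k p (jqModC k))).map e) = 0 := by
      rw [Polynomial.aeval_def, Polynomial.eval₂_map, hcomp, ← Polynomial.hom_eval₂,
        ← Polynomial.aeval_def, minpoly.aeval, map_zero]
    have hirr := h88_irreducible_Phi1 k p hpk hp1 Φ W hθ
    have hmin := minpoly.eq_of_irreducible_of_monic hirr (h88_Phi1_aeval_jpp k p Φ)
      (h88_Phi1_monic k p Φ)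
    have hdvd := minpoly.dvd _ _ hQ
    rw [← hmin] at hdvd
    have h1 := Polynomial.natDegree_le_of_dvd hdvd ((hm_monic.map e).ne_zero)
    rw [h88_Phi1_natDegree, hm_monic.natDegree_map] at h1
    exact h1

end Degree

end Fermat.Agent.S28

end

end
-- ===== PACK-END S28/H88/Degree.lean

-- ===== PACK-BEGIN S18/H576/Objects.lean
section


/-!
# S18 / MOD-ASM (helper576): basic facts about the concrete objects of `Mod/Defs.lean`
-/

set_option autoImplicit false

noncomputable section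

namespace Fermat.Agent.S18.H576

open ModularCurve AlgebraicCurve HahnSeries Fermat.Agent.S18 Fermat.Agent.S18.Mod

variable {M : ℕ} {A : ValuationSubring Qb} {E : IntermediateField ℚ Qb}

/-- The inclusion of the constants. -/
abbrev iota (M : ℕ) : Qb →+* Om M := algebraMap Qb (Om M)

theorem iota_injective (M : ℕ) : Function.Injective (iota M) :=
  (algebraMap Qb (Om M)).injective

theorem coe_iota (a : Qb) :
    ((iota M a : Om M) : LaurentSeries Qb) = algebraMap Qb (LaurentSeries Qb) a := rfl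

theorem coe_iota_single (a : Qb) :
    ((iota M a : Om M) : LaurentSeries Qb) = HahnSeries.single 0 a := by
  rw [coe_iota, algebraMap_laurentSeries_eq_single]

theorem mem_Lc_iff {y : Om M} : y ∈ Lc M ↔ ∃ a : Qb, iota M a = y := by
  unfold Lc
  exact RingHom.mem_fieldRange

theorem mem_Ec_iff {y : Om M} : y ∈ Ec M E ↔ ∃ a : Qb, a ∈ E ∧ iota M a = y := by
  unfold Ec
  rw [Subfield.mem_map]
  constructor
  · rintro ⟨a, ha, rfl⟩
    exact ⟨a, ha, rfl⟩
  · rintro ⟨a, ha, rfl⟩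
    exact ⟨a, ha, rfl⟩

theorem mem_Rc_iff {y : Om M} : y ∈ Rc M A E ↔ ∃ a : Qb, a ∈ A ∧ a ∈ E ∧ iota M a = y := by
  unfold Rc
  rw [Subring.mem_map]
  constructor
  · rintro ⟨a, ha, rfl⟩
    rw [Subring.mem_inf] at ha
    exact ⟨a, ha.1, ha.2, rfl⟩
  · rintro ⟨a, haA, haE, rfl⟩
    exact ⟨a, Subring.mem_inf.mpr ⟨haA, haE⟩, rfl⟩

theorem iota_mem_Lc (a : Qb) : iota M a ∈ Lc M := mem_Lc_iff.mpr ⟨a, rfl⟩

theorem iota_mem_Ec {a : Qb} (ha : a ∈ E) : iota M a ∈ Ec M E := mem_Ec_iff.mpr ⟨a, ha, rfl⟩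

theorem iota_mem_Rc {a : Qb} (haA : a ∈ A) (haE : a ∈ E) : iota M a ∈ Rc M A E :=
  mem_Rc_iff.mpr ⟨a, haA, haE, rfl⟩

theorem iota_mem_Ec_iff {a : Qb} : iota M a ∈ Ec M E ↔ a ∈ E := by
  constructor
  · intro h
    obtain ⟨b, hb, hab⟩ := mem_Ec_iff.mp h
    rwa [← iota_injective M hab]
  · exact iota_mem_Ec

theorem iota_mem_Rc_iff {a : Qb} : iota M a ∈ Rc M A E ↔ a ∈ A ∧ a ∈ E := by
  constructor
  · intro h
    obtain ⟨b, hbA, hbE, hab⟩ := mem_Rc_iff.mp h
    rw [← iota_injective M hab]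
    exact ⟨hbA, hbE⟩
  · exact fun h => iota_mem_Rc h.1 h.2

theorem Rc_subset_Ec : (Rc M A E : Set (Om M)) ⊆ Ec M E := by
  intro y hy
  obtain ⟨a, -, haE, rfl⟩ := mem_Rc_iff.mp hy
  exact iota_mem_Ec haE

theorem Ec_le_Lc : Ec M E ≤ Lc M := by
  intro y hy
  obtain ⟨a, -, rfl⟩ := mem_Ec_iff.mp hy
  exact iota_mem_Lc a

theorem Ec_le_Fc : Ec M E ≤ Fc M E := by
  intro y hy
  exact Subfield.subset_closure (Or.inl hy)

theorem Rc_total : ∀ e ∈ Ec M E, e ∈ Rc M A E ∨ e⁻¹ ∈ Rc M A E := by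
  intro e he
  obtain ⟨a, haE, rfl⟩ := mem_Ec_iff.mp he
  rcases A.mem_or_inv_mem a with h | h
  · exact Or.inl (iota_mem_Rc h haE)
  · right
    rw [← map_inv₀]
    exact iota_mem_Rc h (inv_mem haE)

instance charZero_Om (M : ℕ) : CharZero (Om M) :=
  charZero_of_injective_algebraMap (iota_injective M)

theorem isAlgebraic_Ec_of_mem_Lc : ∀ a ∈ Lc M, IsAlgebraic (Ec M E) a := by
  intro a ha
  obtain ⟨b, rfl⟩ := mem_Lc_iff.mp ha
  have hb : IsAlgebraic ℚ b := (AlgebraicClosure.isAlgebraic ℚ).isAlgebraic b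
  have h1 : IsAlgebraic ℚ (iota M b) := hb.algebraMap
  exact h1.tower_top (Ec M E)

theorem isAlgClosed_Lc (M : ℕ) : IsAlgClosed (Lc M) := by
  have e : Qb ≃+* (Lc M) := RingEquiv.ofBijective (iota M).rangeRestrictField
    ⟨fun a b h => iota_injective M (congrArg Subtype.val h),
      fun ⟨y, hy⟩ => by
        obtain ⟨a, rfl⟩ := mem_Lc_iff.mp hy
        exact ⟨a, rfl⟩⟩
  exact IsAlgClosed.of_ringEquiv Qb (Lc M) e

end Fermat.Agent.S18.H576

end
end
-- ===== PACK-END S18/H576/Objects.lean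

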