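import Mathlib
import Fermat.Prelude.Def_EllipticCurve_FrobeniusTrace
import Fermat.Prelude.Def_GaloisRep_LocalConditions
import Fermat.Agent.Pack.S34.G0E6L0
import Fermat.Agent.Pack.S34.G0E2L3
import Fermat.Agent.Pack.S34.G0E4L0
import Fermat.Agent.Pack.S34.G0E0L1
import Fermat.Agent.Pack.S34.G0E2L2
import Fermat.Agent.Pack.S34.G0E6L1
import Fermat.Agent.Pack.S34.G0E3L3
import Fermat.Agent.Pack.S34.G0E4L2
import Fermat.Agent.Pack.S34.G0E0L0
import Fermat.Agent.Pack.S34.G0E6L2
import Fermat.Agent.Pack.S34.G0E4L1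
import Fermat.Agent.Pack.S34.G0E5L3
import Fermat.Agent.Pack.S34.G0E5L2
import Fermat.Agent.Pack.S34.G0E5L1
import Fermat.Agent.Pack.S34.G0E6L3

-- ===== PACK-BEGIN Lib/Cheb/FrobFinite.lean
section





/-!
# CHEB, Tier 1, finite level: the qualitative Frobenius density theorem for Galois number fields

Assembly of the pieces `Z`, `B0` (helper761), `A` (helper764), `D` (helper943), `M` (helper993).
-/

set_option autoImplicit false

namespace Fermat.Agent.Lib.Cheb

/-- **Frobenius density theorem (qualitative), finite level.**  For a Galois number field `L`,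
`σ ∈ Gal(L/ℚ)` and a finite set `S` of primes there are a prime `p ∉ S`, a prime `P` of `𝓞 L`
above `p` with trivial inertia and an arithmetic Frobenius `τ` at `P` with `⟨τ⟩ = ⟨σ⟩`. -/
theorem frobFinite : Spec.FrobFiniteStatement :=
  H993.frobFinite H761.primeSum_statement H761.primeCountBound_statement H764.count
    H943.frobStatement

end Fermat.Agent.Lib.Cheb

end
-- ===== PACK-END Lib/Cheb/FrobFinite.lean

-- ===== PACK-BEGIN Lib/Cheb/H476/Bridge.lean
section





/-!
# CHEB piece F6 (bridge): `Spec.BridgeDivisionStatement` and `Spec.BridgeStatement`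

From the finite-level statements (Galois number fields, primes of rings of integers, Mathlib's
`IsArithFrobAt`) to the Prelude-level statements (valuation subrings of `ℚ̄`, Prelude's
`IsFrobeniusAt`, `inertiaSubgroupIn`).
-/

set_option autoImplicit false
set_option linter.style.haveILetI false

open NumberField
open scoped Pointwise

namespace Fermat.Agent.Lib.Cheb.H476

open Fermat.Agent.Lib.Cheb.Spec

/-- The normal closure of a finite extension of `ℚ` inside `ℚ̄` is a number field. -/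
theorem numberField_normalClosure (E : IntermediateField ℚ Qb) [FiniteDimensional ℚ E] :
    NumberField (IntermediateField.normalClosure ℚ E Qb) :=
  { to_charZero := inferInstance
    to_finiteDimensional := inferInstance }

/-- The normal closure of a finite extension of `ℚ` inside `ℚ̄` is Galois over `ℚ`. -/
theorem isGalois_normalClosure (E : IntermediateField ℚ Qb) [FiniteDimensional ℚ E] :
    IsGalois ℚ (IntermediateField.normalClosure ℚ E Qb) := by
  haveI : Algebra.IsAlgebraic ℚ Qb := AlgebraicClosure.isAlgebraic ℚ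
  haveI : IsAlgClosure ℚ Qb := ⟨inferInstance, inferInstance⟩
  haveI : Normal ℚ Qb := IsAlgClosure.normal ℚ Qb
  have hn : Normal ℚ (IntermediateField.normalClosure ℚ E Qb) := normalClosure.normal ℚ E Qb
  exact isGalois_iff.mpr ⟨inferInstance, hn⟩

theorem restrictNormal_coe (L : IntermediateField ℚ Qb) [Normal ℚ L] (g : GQ) (x : L) :
    ((AlgEquiv.restrictNormal g L x : L) : Qb) = g (x : Qb) :=
  AlgEquiv.restrictNormal_commutes g L x

theorem restrictNormal_pow (L : IntermediateField ℚ Qb) [Normal ℚ L] (g : GQ) (n : ℕ) :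
    AlgEquiv.restrictNormal (g ^ n) L = (AlgEquiv.restrictNormal g L) ^ n :=
  map_pow (AlgEquiv.restrictNormalHom L) g n

/-- **F6 / W5, Tier 1**: the bridge from the finite-level Frobenius density theorem to the
Prelude-level division statement. -/
theorem bridgeDivision : BridgeDivisionStatement := by
  intro hF E hE σ S
  haveI := hE
  haveI := numberField_normalClosure E
  haveI := isGalois_normalClosure E
  obtain ⟨p, P, τ, hp, hpS, hP, hpP, hI, hτ, hz⟩ :=
    hF (IntermediateField.normalClosure ℚ E Qb)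
      (AlgEquiv.restrictNormal σ (IntermediateField.normalClosure ℚ E Qb)) S
  obtain ⟨A, φ, hAp, hφ, hin, hφτ⟩ :=
    exists_frobenius_restrict (IntermediateField.normalClosure ℚ E Qb) p hp P hP hpP hI τ hτ
  have h1 : τ ∈ Subgroup.zpowers
      (AlgEquiv.restrictNormal σ (IntermediateField.normalClosure ℚ E Qb)) :=
    hz ▸ Subgroup.mem_zpowers τ
  have h2 : AlgEquiv.restrictNormal σ (IntermediateField.normalClosure ℚ E Qb) ∈
      Subgroup.zpowers τ := hz.symm ▸ Subgroup.mem_zpowers _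
  obtain ⟨k, hk⟩ := (isOfFinOrder_of_finite
    (AlgEquiv.restrictNormal σ (IntermediateField.normalClosure ℚ E Qb))).mem_powers_iff_mem_zpowers.mpr h1
  obtain ⟨j, hj⟩ := (isOfFinOrder_of_finite τ).mem_powers_iff_mem_zpowers.mpr h2
  replace hk : AlgEquiv.restrictNormal σ (IntermediateField.normalClosure ℚ E Qb) ^ k = τ := hk
  replace hj : τ ^ j = AlgEquiv.restrictNormal σ (IntermediateField.normalClosure ℚ E Qb) := hj
  have hEL : E ≤ IntermediateField.normalClosure ℚ E Qb := IntermediateField.le_normalClosure E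
  refine ⟨p, A, φ, k, j, hp, hpS, hAp, hφ, ?_, ?_, ?_⟩
  · intro ι hι x hx
    exact hin ι hι ⟨x, hEL hx⟩
  · intro x hx
    have h3 := hφτ ⟨x, hEL hx⟩
    rw [← hk, ← restrictNormal_pow, restrictNormal_coe] at h3
    exact h3
  · intro x hx
    have h4 : AlgEquiv.restrictNormal (φ ^ j) (IntermediateField.normalClosure ℚ E Qb) =
        AlgEquiv.restrictNormal σ (IntermediateField.normalClosure ℚ E Qb) := by
      rw [restrictNormal_pow, ← hj]
      congr 1
      apply AlgEquiv.ext
      intro y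
      apply Subtype.ext
      rw [restrictNormal_coe]
      exact hφτ y
    have h5 := restrictNormal_coe (IntermediateField.normalClosure ℚ E Qb) (φ ^ j) ⟨x, hEL hx⟩
    rw [h4, restrictNormal_coe] at h5
    exact h5.symm

/-- **Bridge, Tier 2**: from finite-level qualitative Chebotarev to the Prelude-level
statement. -/
theorem bridge : BridgeStatement := by
  intro hF E hE σ S
  haveI := hE
  haveI := numberField_normalClosure E
  haveI := isGalois_normalClosure E
  obtain ⟨p, P, hp, hpS, hP, hpP, hI, hτ⟩ :=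
    hF (IntermediateField.normalClosure ℚ E Qb)
      (AlgEquiv.restrictNormal σ (IntermediateField.normalClosure ℚ E Qb)) S
  obtain ⟨A, φ, hAp, hφ, hin, hφτ⟩ :=
    exists_frobenius_restrict (IntermediateField.normalClosure ℚ E Qb) p hp P hP hpP hI _ hτ
  have hEL : E ≤ IntermediateField.normalClosure ℚ E Qb := IntermediateField.le_normalClosure E
  refine ⟨p, A, φ, hp, hpS, hAp, hφ, ?_, ?_⟩
  · intro ι hι x hx
    exact hin ι hι ⟨x, hEL hx⟩
  · intro x hx
    have h3 := hφτ ⟨x, hEL hx⟩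
    rw [restrictNormal_coe] at h3
    exact h3

end Fermat.Agent.Lib.Cheb.H476

end
-- ===== PACK-END Lib/Cheb/H476/Bridge.lean

-- ===== PACK-BEGIN S34/H733/Glue.lean
section




/-!
# S34 — glue (helper733):  `S34 ⇐ S30U + CHEB (Tier 1) + PTS`

`S30UStatement` is the statement S30 with the extra conclusion that the representation attached to
a `p`-adic point of the Hecke algebra of level `N` is unipotent on inertia at every prime `q ≠ p`
with `q ‖ N` (this is what the Galois tower + the wall "cell A2" deliver).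

`unipotent_of_parts` deduces the frozen statement S34 for an arbitrary Hecke–Galois datum from
`S30UStatement`, the Frobenius density statement `ChebStatement` and `PTS` (the `p`-adic points of
the Hecke algebra are topologically separating), following the assembly of S31 (helper22).
-/

set_option autoImplicit false

open Polynomial

namespace Fermat.Agent.S34.H733

open Fermat.Agent.S31 Fermat.Agent.S31.H22

/-- The statement S30, strengthened: the representation attached to a `p`-adic point of the Hecke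
algebra is unipotent on inertia at the primes `q ≠ p` exactly dividing the level. -/
def S30UStatement : Prop :=
  ∀ (p : ℕ) [Fact p.Prime] (N : ℕ) [NeZero N] (S : Finset ℕ)
    (_hpS : p ∈ S) (_hNS : ∀ q : ℕ, q.Prime → q ∣ N → q ∈ S)
    (𝒪' : Type) [CommRing 𝒪'] [IsDomain 𝒪'] [IsDiscreteValuationRing 𝒪']
    [IsAdicComplete (IsLocalRing.maximalIdeal 𝒪') 𝒪'] [Finite (IsLocalRing.ResidueField 𝒪')]
    [CharZero 𝒪'] (_hp𝒪' : (p : 𝒪') ∈ IsLocalRing.maximalIdeal 𝒪')
    (χ : CuspForm.heckeAlgebra N 2 (↑S : Set ℕ) →+* 𝒪'),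
    ∃ (𝒪'' : Type) (_ : CommRing 𝒪'') (_ : IsDomain 𝒪'') (_ : IsDiscreteValuationRing 𝒪'')
      (_ : IsAdicComplete (IsLocalRing.maximalIdeal 𝒪'') 𝒪'')
      (_ : Finite (IsLocalRing.ResidueField 𝒪'')) (_ : CharZero 𝒪'')
      (_ : Algebra 𝒪' 𝒪'') (_ : Module.Finite 𝒪' 𝒪'') (_ : IsLocalHom (algebraMap 𝒪' 𝒪'')),
    Function.Injective (algebraMap 𝒪' 𝒪'') ∧
    ∃ ρ : GaloisRepAdic 𝒪'',
      (∀ (ℓ : ℕ) (hℓ : ℓ.Prime) (hℓN : ¬ ℓ ∣ N) (hℓS : ℓ ∉ (↑S : Set ℕ)),
        ∀ A : ValuationSubring (AlgebraicClosure ℚ), A.LiesOverPrime ℓ →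
          ∀ σ : AlgebraicClosure ℚ ≃ₐ[ℚ] AlgebraicClosure ℚ, A.IsFrobeniusAt σ ℓ →
            LinearMap.charpoly (ρ.ρ σ) =
              X ^ 2 - C (algebraMap 𝒪' 𝒪'' (χ (CuspForm.heckeAlgebra.T hℓ hℓN hℓS))) * X
                + C ((ℓ : 𝒪''))) ∧
      (∀ q : ℕ, q.Prime → q ≠ p → q ∣ N → ¬ q ^ 2 ∣ N → ρ.IsUnipotentOnInertiaAt q)

/-! ### Linear algebra in rank 2 -/

section LinAlg

variable {R : Type*} [CommRing R] [Nontrivial R] {M : Type*} [AddCommGroup M] [Module R M]
  [Module.Free R M] [Module.Finite R M]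

/-- The characteristic polynomial of an endomorphism of a free module of rank `2`. -/
theorem charpoly_eq_of_finrank_two (hrk : Module.finrank R M = 2) (f : Module.End R M) :
    f.charpoly = X ^ 2 - C (LinearMap.trace R M f) * X + C (LinearMap.det f) := by
  let b := Module.finBasisOfFinrankEq R M hrk
  rw [← LinearMap.charpoly_toMatrix f b, Matrix.charpoly_fin_two,
    ← LinearMap.trace_eq_matrix_trace R b f, LinearMap.det_toMatrix b f]

theorem trace_det_of_charpoly (hrk : Module.finrank R M = 2) (f : Module.End R M) (a d : R)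
    (h : f.charpoly = X ^ 2 - C a * X + C d) :
    LinearMap.trace R M f = a ∧ LinearMap.det f = d := by
  rw [charpoly_eq_of_finrank_two hrk f] at h
  have h0 := congrArg (fun q : R[X] => q.coeff 0) h
  have h1 := congrArg (fun q : R[X] => q.coeff 1) h
  simp only [coeff_add, coeff_sub, coeff_X_pow, coeff_C_mul, coeff_X_zero,
    coeff_X_one, mul_zero, mul_one, sub_zero, zero_add, coeff_C, OfNat.zero_ne_ofNat,
    OfNat.one_ne_ofNat, one_ne_zero, if_false, zero_sub, add_zero, neg_inj] at h0 h1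
  exact ⟨h1, h0⟩

omit [Nontrivial R] in
theorem sq_X_sub_one_eq : ((X : R[X]) - 1) ^ 2 = X ^ 2 - C (2 : R) * X + C (1 : R) := by
  rw [map_ofNat, map_one]
  ring

theorem trace_det_of_unipotent (hrk : Module.finrank R M = 2) (f : Module.End R M)
    (h : f.charpoly = (X - 1) ^ 2) : LinearMap.trace R M f = 2 ∧ LinearMap.det f = 1 :=
  trace_det_of_charpoly hrk f 2 1 (h.trans sq_X_sub_one_eq)

theorem unipotent_of_trace_det (hrk : Module.finrank R M = 2) (f : Module.End R M)
    (ht : LinearMap.trace R M f = 2) (hd : LinearMap.det f = 1) : f.charpoly = (X - 1) ^ 2 := by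
  rw [charpoly_eq_of_finrank_two hrk f, ht, hd, sq_X_sub_one_eq]

omit [Nontrivial R] in
/-- An endomorphism congruent to `1` modulo `I` has determinant congruent to `1` modulo `I`. -/
theorem det_sub_one_mem (I : Ideal R) (f : Module.End R M)
    (hf : ∀ v, f v - v ∈ I • (⊤ : Submodule R M)) : LinearMap.det f - 1 ∈ I := by
  classical
  let b := Module.Free.chooseBasis R M
  rw [← LinearMap.det_toMatrix b f, ← Ideal.Quotient.eq_zero_iff_mem, map_sub, map_one,
    RingHom.map_det]
  have : (Ideal.Quotient.mk I).mapMatrix (LinearMap.toMatrix b b f) = 1 := by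
    ext i j
    rw [RingHom.mapMatrix_apply, Matrix.map_apply, LinearMap.toMatrix_apply, Matrix.one_apply]
    have h1 := repr_mem_of_mem_smul_top b I (hf (b j)) i
    rw [map_sub, Finsupp.sub_apply, Module.Basis.repr_self, Finsupp.single_apply] at h1
    have h2 := (Ideal.Quotient.eq_zero_iff_mem).mpr h1
    rw [map_sub, sub_eq_zero] at h2
    rw [h2]
    by_cases hij : i = j
    · rw [if_pos hij, if_pos hij.symm, map_one]
    · rw [if_neg hij, if_neg (Ne.symm hij), map_zero]
  rw [this, Matrix.det_one, sub_self]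

end LinAlg

/-! ### Continuity of the determinant -/

theorem det_congr_of_agree {A : Type} [CommRing A] [IsLocalRing A] (ρ : GaloisRepAdic A)
    (n : ℕ) :
    ∃ L : IntermediateField ℚ Qb, FiniteDimensional ℚ L ∧
      ∀ g g' : GQ, (∀ x ∈ L, g x = g' x) →
        LinearMap.det (ρ.ρ g) - LinearMap.det (ρ.ρ g') ∈ IsLocalRing.maximalIdeal A ^ n := by
  obtain ⟨L, hL, h1⟩ := ρ.isAdicContinuous n
  refine ⟨L, hL, fun g g' hgg' => ?_⟩
  have hσ : ∀ x ∈ L, (g'⁻¹ * g) x = x := by
    intro x hx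
    rw [AlgEquiv.mul_apply, hgg' x hx]
    exact (g'.symm_apply_apply x)
  have hg : g = g' * (g'⁻¹ * g) := by group
  have key : LinearMap.det (ρ.ρ g) - LinearMap.det (ρ.ρ g') =
      LinearMap.det (ρ.ρ g') * (LinearMap.det (ρ.ρ (g'⁻¹ * g)) - 1) := by
    conv_lhs => rw [hg, map_mul, map_mul]
    ring
  rw [key]
  exact Ideal.mul_mem_left _ _ (det_sub_one_mem _ _ (h1 _ hσ))

/-! ### The per-point lemma -/

section Point

variable {p : ℕ} {N : ℕ} [NeZero N] {S : Finset ℕ}

lemma exists_field_of_point_unip (h30u : S30UStatement) (hp : p.Prime) (hpS : p ∈ S)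
    (hNS : ∀ q : ℕ, q.Prime → q ∣ N → q ∈ S)
    (P : PadicPoint p (CuspForm.heckeAlgebra N 2 (↑S : Set ℕ))) (n' : ℕ)
    (q : ℕ) (hq : q.Prime) (hqp : q ≠ p) (hqN : q ∣ N) (hq2 : ¬ q ^ 2 ∣ N) :
    ∃ L : IntermediateField ℚ Qb, FiniteDimensional ℚ L ∧
      ∀ (τ : GQ) (B₀ : ValuationSubring Qb), B₀.LiesOverPrime q → τ ∈ B₀.inertiaSubgroupIn ℚ →
      ∀ {ℓ : ℕ} (hℓ : ℓ.Prime) (hℓN : ¬ ℓ ∣ N) (hℓS : ℓ ∉ (↑S : Set ℕ))
        (B : ValuationSubring Qb) (_ : B.LiesOverPrime ℓ) (σ : GQ) (_ : B.IsFrobeniusAt σ ℓ)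
        (j : ℕ) (_ : ∀ x ∈ L, (σ ^ j) x = τ x),
        P.χ (heckePow hℓ hℓN hℓS j - 2) ∈ IsLocalRing.maximalIdeal P.O ^ n' ∧
        P.χ ((ℓ : CuspForm.heckeAlgebra N 2 (↑S : Set ℕ)) ^ j - 1) ∈
          IsLocalRing.maximalIdeal P.O ^ n' := by
  have : Fact p.Prime := ⟨hp⟩
  obtain ⟨O'', i1, i2, i3, i4, i5, i6, i7, i8, i9, hinj, ρ'', hfrob, hunip⟩ :=
    h30u p N S hpS hNS P.O P.hp P.χ
  obtain ⟨k, hk⟩ := exists_pow_comap_le (algebraMap P.O O'') hinj n'
  obtain ⟨L₁, hL₁fin, hL₁⟩ := trace_congr_of_agree ρ'' k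
  obtain ⟨L₂, hL₂fin, hL₂⟩ := det_congr_of_agree ρ'' k
  have := hL₁fin
  have := hL₂fin
  refine ⟨L₁ ⊔ L₂, IntermediateField.finiteDimensional_sup _ _, ?_⟩
  intro τ B₀ hB₀ hτ ℓ hℓ hℓN hℓS B hB σ hσ j hj
  have hfc : FrobCond ρ'' ((algebraMap P.O O'').comp P.χ) := by
    intro ℓ hℓ hℓN hℓS B hB σ hσ
    exact hfrob ℓ hℓ hℓN hℓS B hB σ hσ
  obtain ⟨htr, hdet⟩ := trace_det_of_unipotent ρ''.finrank_eq _
    (hunip q hq hqp hqN hq2 B₀ hB₀ τ hτ)
  constructor
  · have e1 := trace_sub_hecke_mem ρ'' _ hfc k L₁ hL₁ τ hℓ hℓN hℓS B hB σ hσ j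
      (fun x hx => hj x ((le_sup_left : L₁ ≤ L₁ ⊔ L₂) hx))
    apply hk
    have htr' : ρ''.trace τ = 2 := htr
    have : algebraMap P.O O'' (P.χ (heckePow hℓ hℓN hℓS j - 2)) =
        -(ρ''.trace τ - ((algebraMap P.O O'').comp P.χ) (heckePow hℓ hℓN hℓS j)) := by
      rw [htr']
      simp only [RingHom.comp_apply, map_sub, map_ofNat]
      ring
    rw [this]
    exact Ideal.neg_mem_iff _ |>.mpr e1
  · have e2 := hL₂ τ (σ ^ j) (fun x hx => (hj x ((le_sup_right : L₂ ≤ L₁ ⊔ L₂) hx)).symm)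
    have hdσ : LinearMap.det (ρ''.ρ σ) = (ℓ : O'') :=
      (trace_det_of_charpoly ρ''.finrank_eq _ _ _ (hfrob ℓ hℓ hℓN hℓS B hB σ hσ)).2
    rw [hdet, map_pow, map_pow, hdσ] at e2
    apply hk
    have : algebraMap P.O O'' (P.χ ((ℓ : CuspForm.heckeAlgebra N 2 (↑S : Set ℕ)) ^ j - 1)) =
        -(1 - (ℓ : O'') ^ j) := by
      simp only [map_sub, map_pow, map_natCast, map_one]
      ring
    rw [this]
    exact Ideal.neg_mem_iff _ |>.mpr e2

end Point

/-! ### Main theorem -/

section Main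

variable {p : ℕ} {N : ℕ} [NeZero N] {S : Finset ℕ}
  {𝒪 : Type} [CommRing 𝒪] [IsDomain 𝒪] [IsDiscreteValuationRing 𝒪]
  [IsAdicComplete (IsLocalRing.maximalIdeal 𝒪) 𝒪]
  {θ : CuspForm.heckeAlgebra N 2 (↑S : Set ℕ) →+* IsLocalRing.ResidueField 𝒪}
  {T : Type} [CommRing T] [IsLocalRing T] [IsNoetherianRing T]
  [IsAdicComplete (IsLocalRing.maximalIdeal T) T] [Algebra 𝒪 T] [IsLocalHom (algebraMap 𝒪 T)]
  [Module.Finite 𝒪 T] [Module.Free 𝒪 T]

/-- trace and determinant of an inertia element at `q ‖ N` -/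
theorem trace_det_inertia (h30u : S30UStatement) (hcheb : ChebStatement) (hp : p.Prime)
    (hp𝒪 : (p : 𝒪) ∈ IsLocalRing.maximalIdeal 𝒪) (hpS : p ∈ S)
    (hNS : ∀ q : ℕ, q.Prime → q ∣ N → q ∈ S)
    (hPTS : PTS p (CuspForm.heckeAlgebra N 2 (↑S : Set ℕ)))
    (H : CuspForm.HeckeGaloisRepDatum N (↑S : Set ℕ) 𝒪 θ T)
    (q : ℕ) (hq : q.Prime) (hqp : q ≠ p) (hqN : q ∣ N) (hq2 : ¬ q ^ 2 ∣ N)
    (B₀ : ValuationSubring Qb) (hB₀ : B₀.LiesOverPrime q) (τ : GQ)
    (hτ : τ ∈ B₀.inertiaSubgroupIn ℚ) :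
    H.ρ.trace τ = 2 ∧ LinearMap.det (H.ρ.ρ τ) = 1 := by
  have hK : (⨅ n, IsLocalRing.maximalIdeal T ^ n) = ⊥ :=
    Ideal.iInf_pow_eq_bot_of_isLocalRing _ (Ideal.IsMaximal.ne_top inferInstance)
  suffices h : ∀ n, H.ρ.trace τ - 2 ∈ IsLocalRing.maximalIdeal T ^ n ∧
      LinearMap.det (H.ρ.ρ τ) - 1 ∈ IsLocalRing.maximalIdeal T ^ n by
    constructor
    · rw [← sub_eq_zero]
      have h1 : H.ρ.trace τ - 2 ∈ ⨅ n, IsLocalRing.maximalIdeal T ^ n := by
        rw [Ideal.mem_iInf]; exact fun n => (h n).1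
      rw [hK] at h1; simpa using h1
    · rw [← sub_eq_zero]
      have h1 : LinearMap.det (H.ρ.ρ τ) - 1 ∈ ⨅ n, IsLocalRing.maximalIdeal T ^ n := by
        rw [Ideal.mem_iInf]; exact fun n => (h n).2
      rw [hK] at h1; simpa using h1
  intro n
  -- the prime `m` of the Hecke algebra
  set m : Ideal (CuspForm.heckeAlgebra N 2 (↑S : Set ℕ)) :=
    Ideal.comap H.π (IsLocalRing.maximalIdeal T) with hm
  have hmprime : m.IsPrime := Ideal.comap_isPrime _ _
  have hpT : (p : T) ∈ IsLocalRing.maximalIdeal T := by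
    have h1 : (p : T) = algebraMap 𝒪 T (p : 𝒪) := by simp
    rw [h1, IsLocalRing.mem_maximalIdeal, mem_nonunits_iff]
    intro hu
    exact (IsLocalRing.mem_maximalIdeal _).mp hp𝒪 (isUnit_of_map_unit (algebraMap 𝒪 T) _ hu)
  have hpm : (p : CuspForm.heckeAlgebra N 2 (↑S : Set ℕ)) ∈ m := by
    rw [hm, Ideal.mem_comap, map_natCast]; exact hpT
  obtain ⟨F, n', hF⟩ := hPTS m hmprime hpm n
  -- fields
  have hpt := fun P : PadicPoint p (CuspForm.heckeAlgebra N 2 (↑S : Set ℕ)) =>
    exists_field_of_point_unip h30u hp hpS hNS P n' q hq hqp hqN hq2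
  choose LP hLPfin hLP using hpt
  obtain ⟨E₁, hE₁fin, hE₁⟩ := exists_sup_of_list F LP hLPfin
  obtain ⟨L₀, hL₀fin, hL₀⟩ := trace_congr_of_agree H.ρ n
  obtain ⟨L₀', hL₀'fin, hL₀'⟩ := det_congr_of_agree H.ρ n
  have := hE₁fin
  have := hL₀fin
  have := hL₀'fin
  have hfin2 : FiniteDimensional ℚ (L₀ ⊔ L₀' : IntermediateField ℚ Qb) :=
    IntermediateField.finiteDimensional_sup _ _
  set E : IntermediateField ℚ Qb := (L₀ ⊔ L₀') ⊔ E₁ with hE
  have hEfin : FiniteDimensional ℚ E := IntermediateField.finiteDimensional_sup _ _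
  -- Frobenius data for `τ`
  obtain ⟨ℓ, B, σ, k, j, hℓ, hℓS, hB, hσ, -, -, hj⟩ := hcheb E hEfin τ S
  have hℓN : ¬ ℓ ∣ N := fun h => hℓS (hNS ℓ hℓ h)
  have hℓS1 : ℓ ∉ (↑S : Set ℕ) := by simpa using hℓS
  have hL₀E : L₀ ≤ E := le_sup_left.trans le_sup_left
  have hL₀'E : L₀' ≤ E := le_sup_right.trans le_sup_left
  have hE₁E : E₁ ≤ E := le_sup_right
  have hfc : FrobCond H.ρ H.π := fun ℓ hℓ hℓN hℓS B hB σ hσ =>
    H.charpoly_frob ℓ hℓ hℓN hℓS B hB σ hσ
  have hmap : ∀ t, t ∈ m ^ n → H.π t ∈ IsLocalRing.maximalIdeal T ^ n := by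
    intro t ht
    have h1 : (m ^ n).map H.π ≤ IsLocalRing.maximalIdeal T ^ n := by
      rw [Ideal.map_pow]
      exact Ideal.pow_right_mono (Ideal.map_comap_le) n
    exact h1 (Ideal.mem_map_of_mem _ ht)
  have hpoints : ∀ P ∈ F, P.χ (heckePow hℓ hℓN hℓS1 j - 2) ∈ IsLocalRing.maximalIdeal P.O ^ n' ∧
      P.χ ((ℓ : CuspForm.heckeAlgebra N 2 (↑S : Set ℕ)) ^ j - 1) ∈
        IsLocalRing.maximalIdeal P.O ^ n' := fun P hP =>
    hLP P τ B₀ hB₀ hτ hℓ hℓN hℓS1 B hB σ hσ j (fun x hx => hj x (hE₁E (hE₁ P hP hx)))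
  constructor
  · have e1 := trace_sub_hecke_mem H.ρ H.π hfc n L₀ hL₀ τ hℓ hℓN hℓS1 B hB σ hσ j
      (fun x hx => hj x (hL₀E hx))
    have hdiff : heckePow hℓ hℓN hℓS1 j - 2 ∈ m ^ n := hF _ fun P hP => (hpoints P hP).1
    have hπ := hmap _ hdiff
    have : H.ρ.trace τ - 2 = (H.ρ.trace τ - H.π (heckePow hℓ hℓN hℓS1 j)) +
        H.π (heckePow hℓ hℓN hℓS1 j - 2) := by
      rw [map_sub, map_ofNat]; ring
    rw [this]
    exact Ideal.add_mem _ e1 hπ
  · have e2 := hL₀' τ (σ ^ j) (fun x hx => (hj x (hL₀'E hx)).symm)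
    have hdσ : LinearMap.det (H.ρ.ρ σ) = (ℓ : T) :=
      (trace_det_of_charpoly H.ρ.finrank_eq _ _ _ (hfc ℓ hℓ hℓN hℓS1 B hB σ hσ)).2
    rw [map_pow, map_pow, hdσ] at e2
    have hdiff : (ℓ : CuspForm.heckeAlgebra N 2 (↑S : Set ℕ)) ^ j - 1 ∈ m ^ n :=
      hF _ fun P hP => (hpoints P hP).2
    have hπ := hmap _ hdiff
    rw [map_sub, map_pow, map_natCast, map_one] at hπ
    have : LinearMap.det (H.ρ.ρ τ) - 1 = (LinearMap.det (H.ρ.ρ τ) - (ℓ : T) ^ j) +
        ((ℓ : T) ^ j - 1) := by ring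
    rw [this]
    exact Ideal.add_mem _ e2 hπ

/-- **S34 from its inputs**: in a Hecke–Galois datum of level `N`, the representation is
unipotent on inertia at every prime `q ≠ p` with `q ‖ N`. -/
theorem unipotent_of_parts (h30u : S30UStatement) (hcheb : ChebStatement) (hp : p.Prime)
    (hp𝒪 : (p : 𝒪) ∈ IsLocalRing.maximalIdeal 𝒪) (hpS : p ∈ S)
    (hNS : ∀ q : ℕ, q.Prime → q ∣ N → q ∈ S)
    (hPTS : PTS p (CuspForm.heckeAlgebra N 2 (↑S : Set ℕ)))
    (H : CuspForm.HeckeGaloisRepDatum N (↑S : Set ℕ) 𝒪 θ T)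
    (q : ℕ) (hq : q.Prime) (hqp : q ≠ p) (hqN : q ∣ N) (hq2 : ¬ q ^ 2 ∣ N) :
    H.ρ.IsUnipotentOnInertiaAt q := by
  intro B₀ hB₀ τ hτ
  obtain ⟨ht, hd⟩ := trace_det_inertia h30u hcheb hp hp𝒪 hpS hNS hPTS H q hq hqp hqN hq2
    B₀ hB₀ τ hτ
  exact unipotent_of_trace_det H.ρ.finrank_eq _ ht hd

end Main

/-- **The frozen statement S34 from its three inputs** (binders exactly as in the template). -/
theorem result_of_inputs (h30u : S30UStatement) (hcheb : ChebStatement)
    (hPTS : ∀ (p : ℕ), p.Prime → ∀ (N : ℕ) [NeZero N] (S : Finset ℕ),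
      (∀ q : ℕ, q.Prime → q ∣ N → q ∈ S) → PTS p (CuspForm.heckeAlgebra N 2 (↑S : Set ℕ)))
    {𝒪 : Type} [CommRing 𝒪] [IsDomain 𝒪] [IsDiscreteValuationRing 𝒪]
    [IsAdicComplete (IsLocalRing.maximalIdeal 𝒪) 𝒪] [Finite (IsLocalRing.ResidueField 𝒪)]
    [CharZero 𝒪]
    {p : ℕ} (hp : p.Prime) (hp𝒪 : (p : 𝒪) ∈ IsLocalRing.maximalIdeal 𝒪)
    {N : ℕ} [NeZero N] {S : Finset ℕ} (hpS : p ∈ S) (hNS : ∀ q : ℕ, q.Prime → q ∣ N → q ∈ S)
    {θ : CuspForm.heckeAlgebra N 2 (↑S : Set ℕ) →+* IsLocalRing.ResidueField 𝒪}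
    {T : Type} [CommRing T] [IsLocalRing T] [IsNoetherianRing T]
    [IsAdicComplete (IsLocalRing.maximalIdeal T) T] [Algebra 𝒪 T] [IsLocalHom (algebraMap 𝒪 T)]
    [Module.Finite 𝒪 T] [Module.Free 𝒪 T]
    (H : CuspForm.HeckeGaloisRepDatum N (↑S : Set ℕ) 𝒪 θ T)
    (q : ℕ) (hq : q.Prime) (hqp : q ≠ p) (hqN : q ∣ N) (hq2 : ¬ q ^ 2 ∣ N) :
    H.ρ.IsUnipotentOnInertiaAt q :=
  unipotent_of_parts h30u hcheb hp hp𝒪 hpS hNS (hPTS p hp N S hNS) H q hq hqp hqN hq2

end Fermat.Agent.S34.H733

end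
-- ===== PACK-END S34/H733/Glue.lean

-- ===== PACK-BEGIN Lib/EulerProd/PrimeSum.lean
section



/-!
# Prime ideal sums: `∑_{deg 𝔭 = 1} N(𝔭)^(-s) = log (1/(s-1)) + O(1)` on `(1, 2]`

Main results (any number field `K`):
* `zetaR_antitone`, `exists_zetaR_bounds`: `c ≤ (s - 1) ζ_K(s) ≤ C` on `(1, 2]`.
* `sum_x_le_log_zetaR`: `∑_{𝔭 ∈ T} N(𝔭)^(-s) ≤ log ζ_K(s)` for every finite set `T` of primes.
* `log_zetaR_le`: `log ζ_K(s) ≤ ∑' 𝔭, N(𝔭)^(-s) + 2 * degTwoBound K`.
* `exists_primeSumOne_bound`: `|∑'_{N(𝔭) prime} N(𝔭)^(-s) - log (1/(s-1))| ≤ C` on `(1, 2]`.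
-/

set_option autoImplicit false
set_option linter.style.haveILetI false
set_option linter.unusedSectionVars false

namespace Fermat.Agent.Lib.EulerProd

open NumberField Ideal Filter Topology Finset

variable (K : Type*) [Field K] [NumberField K]

theorem zetaR_antitone {s t : ℝ} (hs : 1 < s) (hst : s ≤ t) : zetaR K t ≤ zetaR K s := by
  refine (summable_absNorm_rpow K (lt_of_lt_of_le hs hst)).tsum_le_tsum (fun I => ?_)
    (summable_absNorm_rpow K hs)
  rcases Nat.eq_zero_or_pos (absNorm I) with h | h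
  · rw [h, Nat.cast_zero, Real.zero_rpow (by linarith), Real.zero_rpow (by linarith)]
  · have h1 : (1 : ℝ) ≤ ((absNorm I : ℕ) : ℝ) := by exact_mod_cast h
    exact Real.rpow_le_rpow_of_exponent_le h1 (by linarith)

/-- `c ≤ (s - 1) ζ_K(s) ≤ C` on `(1, 2]`. -/
theorem exists_zetaR_bounds :
    ∃ c C : ℝ, 0 < c ∧ 0 < C ∧ ∀ s : ℝ, 1 < s → s ≤ 2 →
      c ≤ (s - 1) * zetaR K s ∧ (s - 1) * zetaR K s ≤ C := by
  obtain ⟨C₁, hC₁, hup⟩ := eventually_zetaR_le K
  obtain ⟨c₁, hc₁, hlo⟩ := eventually_le_zetaR K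
  obtain ⟨u, hu, hsub⟩ := mem_nhdsGT_iff_exists_Ioo_subset.mp (hup.and hlo)
  have hu1 : (1 : ℝ) < u := hu
  set δ := min u 2 - 1 with hδ
  have hδpos : 0 < δ := by
    rw [hδ]
    have : (1 : ℝ) < min u 2 := lt_min hu1 (by norm_num)
    linarith
  have hδle : 1 + δ ≤ u := by
    rw [hδ]
    have := min_le_left u 2
    linarith
  have hZ : 0 < zetaR K (1 + δ / 2) := zetaR_pos K (by linarith)
  refine ⟨min c₁ (δ / 2), max C₁ (zetaR K (1 + δ / 2)), lt_min hc₁ (by linarith),
    lt_max_of_lt_left hC₁, fun s hs1 hs2 => ?_⟩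
  have hs0 : 0 < s - 1 := by linarith
  rcases lt_or_ge s (1 + δ / 2) with hlt | hge
  · have hmem : s ∈ Set.Ioo 1 u := ⟨hs1, by linarith⟩
    obtain ⟨h1, h2⟩ := hsub hmem
    constructor
    · refine le_trans (min_le_left _ _) ?_
      rw [div_le_iff₀ hs0] at h2
      linarith
    · refine le_trans ?_ (le_max_left _ _)
      rw [le_div_iff₀ hs0] at h1
      linarith
  · constructor
    · refine le_trans (min_le_right _ _) ?_
      have h1 := one_le_zetaR K hs1
      nlinarith
    · refine le_trans ?_ (le_max_right _ _)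
      have h1 := zetaR_antitone K (by linarith : (1 : ℝ) < 1 + δ / 2) hge
      have h2 : s - 1 ≤ 1 := by linarith
      have h3 := zetaR_pos K hs1
      nlinarith

variable {K}

theorem PrimeIdeal.x_lt_one (𝔭 : PrimeIdeal K) {s : ℝ} (hs : 1 ≤ s) : 𝔭.x s < 1 :=
  lt_of_le_of_lt (𝔭.x_le_half hs) (by norm_num)

theorem PrimeIdeal.one_le_inv_one_sub (𝔭 : PrimeIdeal K) {s : ℝ} (hs : 1 ≤ s) :
    1 ≤ (1 - 𝔭.x s)⁻¹ := by
  have h1 := 𝔭.x_pos s
  have h2 := 𝔭.x_lt_one hs
  rw [one_le_inv₀ (by linarith)]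
  linarith

theorem PrimeIdeal.exp_x_le (𝔭 : PrimeIdeal K) {s : ℝ} (hs : 1 ≤ s) :
    Real.exp (𝔭.x s) ≤ (1 - 𝔭.x s)⁻¹ := by
  have h2 := 𝔭.x_lt_one hs
  have h3 : 0 < 1 - 𝔭.x s := by linarith
  rw [le_inv_comm₀ (Real.exp_pos _) h3, ← Real.exp_neg]
  exact Real.one_sub_le_exp_neg _

theorem PrimeIdeal.inv_one_sub_le_exp (𝔭 : PrimeIdeal K) {s : ℝ} (hs : 1 ≤ s) :
    (1 - 𝔭.x s)⁻¹ ≤ Real.exp (𝔭.x s + 2 * 𝔭.x s ^ 2) := by
  have h1 := 𝔭.x_pos s
  have h2 := 𝔭.x_le_half hs
  have h3 : 0 < 1 - 𝔭.x s := by linarith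
  have h4 : (1 - 𝔭.x s)⁻¹ = 𝔭.x s / (1 - 𝔭.x s) + 1 := by
    field_simp
    ring
  have h5 : 𝔭.x s / (1 - 𝔭.x s) ≤ 𝔭.x s + 2 * 𝔭.x s ^ 2 := by
    rw [div_le_iff₀ h3]
    nlinarith [mul_nonneg (sq_nonneg (𝔭.x s)) (by linarith : (0 : ℝ) ≤ 1 - 2 * 𝔭.x s)]
  calc (1 - 𝔭.x s)⁻¹ = 𝔭.x s / (1 - 𝔭.x s) + 1 := h4
    _ ≤ Real.exp (𝔭.x s / (1 - 𝔭.x s)) := Real.add_one_le_exp _
    _ ≤ Real.exp (𝔭.x s + 2 * 𝔭.x s ^ 2) := Real.exp_le_exp.mpr h5

/-- A real `HasProd` with factors `≥ 1` dominates its finite partial products. -/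
theorem prod_le_of_hasProd_of_one_le {ι : Type*} {g : ι → ℝ} {a : ℝ} (h : HasProd g a)
    (hg : ∀ i, 1 ≤ g i) (T : Finset ι) : ∏ i ∈ T, g i ≤ a := by
  refine ge_of_tendsto h ?_
  filter_upwards [Filter.eventually_ge_atTop T] with T' hT'
  exact Finset.prod_le_prod_of_subset_of_one_le hT'
    (fun i _ => zero_le_one.trans (hg i)) (fun i _ _ => hg i)

variable (K)

/-- Finite Euler products are bounded by the zeta function. -/
theorem prod_inv_one_sub_le_zetaR {s : ℝ} (hs : 1 < s) (T : Finset (PrimeIdeal K)) :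
    ∏ 𝔭 ∈ T, (1 - 𝔭.x s)⁻¹ ≤ zetaR K s :=
  prod_le_of_hasProd_of_one_le (hasProd_zetaR K hs)
    (fun 𝔭 => 𝔭.one_le_inv_one_sub hs.le) T

/-- `exp (∑_{𝔭 ∈ T} N(𝔭)^(-s)) ≤ ζ_K(s)`. -/
theorem exp_sum_x_le_zetaR {s : ℝ} (hs : 1 < s) (T : Finset (PrimeIdeal K)) :
    Real.exp (∑ 𝔭 ∈ T, 𝔭.x s) ≤ zetaR K s := by
  rw [Real.exp_sum]
  refine le_trans (Finset.prod_le_prod (fun _ _ => (Real.exp_pos _).le)
    (fun 𝔭 _ => 𝔭.exp_x_le hs.le)) (prod_inv_one_sub_le_zetaR K hs T)

/-- `∑_{𝔭 ∈ T} N(𝔭)^(-s) ≤ log ζ_K(s)`. -/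
theorem sum_x_le_log_zetaR {s : ℝ} (hs : 1 < s) (T : Finset (PrimeIdeal K)) :
    ∑ 𝔭 ∈ T, 𝔭.x s ≤ Real.log (zetaR K s) := by
  rw [Real.le_log_iff_exp_le (zetaR_pos K hs)]
  exact exp_sum_x_le_zetaR K hs T

theorem summable_x {s : ℝ} (hs : 1 < s) : Summable (fun 𝔭 : PrimeIdeal K => 𝔭.x s) :=
  summable_of_sum_le (fun 𝔭 => (𝔭.x_pos s).le) (fun T => sum_x_le_log_zetaR K hs T)

theorem x_sq_le (𝔭 : PrimeIdeal K) {s : ℝ} (hs : 1 ≤ s) :
    𝔭.x s ^ 2 ≤ ((((absNorm 𝔭.1 : ℕ) : ℝ)) ^ 2)⁻¹ := by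
  have h1 := 𝔭.x_le_inv hs
  have h0 := (𝔭.x_pos s).le
  calc 𝔭.x s ^ 2 ≤ ((((absNorm 𝔭.1 : ℕ) : ℝ))⁻¹) ^ 2 := pow_le_pow_left₀ h0 h1 2
    _ = _ := by rw [inv_pow]

/-- `ζ_K(s) ≤ exp (∑' 𝔭, N(𝔭)^(-s) + 2 D)`. -/
theorem zetaR_le_exp {s : ℝ} (hs : 1 < s) :
    zetaR K s ≤ Real.exp ((∑' 𝔭 : PrimeIdeal K, 𝔭.x s) + 2 * degTwoBound K) := by
  refine le_of_tendsto (hasProd_zetaR K hs) ?_
  filter_upwards with T
  calc ∏ 𝔭 ∈ T, (1 - 𝔭.x s)⁻¹
      ≤ ∏ 𝔭 ∈ T, Real.exp (𝔭.x s + 2 * 𝔭.x s ^ 2) := by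
        refine Finset.prod_le_prod (fun 𝔭 _ => ?_) (fun 𝔭 _ => 𝔭.inv_one_sub_le_exp hs.le)
        exact le_trans zero_le_one (𝔭.one_le_inv_one_sub hs.le)
    _ = Real.exp (∑ 𝔭 ∈ T, 𝔭.x s + 2 * ∑ 𝔭 ∈ T, 𝔭.x s ^ 2) := by
        rw [← Real.exp_sum, Finset.sum_add_distrib, Finset.mul_sum]
    _ ≤ Real.exp ((∑' 𝔭 : PrimeIdeal K, 𝔭.x s) + 2 * degTwoBound K) := by
        refine Real.exp_le_exp.mpr (add_le_add ?_ (mul_le_mul_of_nonneg_left ?_ (by norm_num)))
        · exact (summable_x K hs).sum_le_tsum T fun 𝔭 _ => (𝔭.x_pos s).le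
        · exact le_trans (Finset.sum_le_sum fun 𝔭 _ => x_sq_le K 𝔭 hs.le)
            (sum_inv_absNorm_sq_le T)

/-- `log ζ_K(s) ≤ ∑' 𝔭, N(𝔭)^(-s) + 2 D`. -/
theorem log_zetaR_le {s : ℝ} (hs : 1 < s) :
    Real.log (zetaR K s) ≤ (∑' 𝔭 : PrimeIdeal K, 𝔭.x s) + 2 * degTwoBound K := by
  rw [Real.log_le_iff_le_exp (zetaR_pos K hs)]
  exact zetaR_le_exp K hs

theorem tsum_x_le_log_zetaR {s : ℝ} (hs : 1 < s) :
    (∑' 𝔭 : PrimeIdeal K, 𝔭.x s) ≤ Real.log (zetaR K s) :=
  (summable_x K hs).tsum_le_of_sum_le fun T => sum_x_le_log_zetaR K hs T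


/-! ### Degree-one primes -/

/-- The set of primes of degree one (prime absolute norm). -/
def degOne : Set (PrimeIdeal K) := {𝔭 | (absNorm 𝔭.1).Prime}

/-- The prime sum over primes of degree one. -/
noncomputable def primeSumOne (s : ℝ) : ℝ := ∑' 𝔭 : degOne K, 𝔭.1.x s

theorem summable_x_subtype {s : ℝ} (hs : 1 < s) (A : Set (PrimeIdeal K)) :
    Summable (fun 𝔭 : A => 𝔭.1.x s) :=
  (summable_x K hs).subtype A

theorem tsum_compl_degOne_le {s : ℝ} (hs : 1 < s) :
    ∑' 𝔭 : ((degOne K)ᶜ : Set (PrimeIdeal K)), 𝔭.1.x s ≤ degTwoBound K := by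
  refine (summable_x_subtype K hs _).tsum_le_of_sum_le fun T => ?_
  have h := sum_inv_absNorm_le_of_not_prime (T.map (Function.Embedding.subtype _))
    (fun 𝔭 h𝔭 => by
      obtain ⟨𝔮, -, rfl⟩ := Finset.mem_map.mp h𝔭
      exact 𝔮.2)
  rw [Finset.sum_map] at h
  refine le_trans (Finset.sum_le_sum fun 𝔭 _ => ?_) h
  exact 𝔭.1.x_le_inv hs.le

theorem tsum_compl_degOne_nonneg (s : ℝ) :
    0 ≤ ∑' 𝔭 : ((degOne K)ᶜ : Set (PrimeIdeal K)), 𝔭.1.x s :=
  tsum_nonneg fun 𝔭 => (𝔭.1.x_pos s).le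

theorem primeSumOne_add_compl {s : ℝ} (hs : 1 < s) :
    primeSumOne K s + ∑' 𝔭 : ((degOne K)ᶜ : Set (PrimeIdeal K)), 𝔭.1.x s =
      ∑' 𝔭 : PrimeIdeal K, 𝔭.x s :=
  (summable_x K hs).tsum_subtype_add_tsum_subtype_compl (degOne K)

theorem primeSumOne_le_log_zetaR {s : ℝ} (hs : 1 < s) :
    primeSumOne K s ≤ Real.log (zetaR K s) := by
  have h1 := primeSumOne_add_compl K hs
  have h2 := tsum_compl_degOne_nonneg K s
  have h3 := tsum_x_le_log_zetaR K hs
  linarith

theorem log_zetaR_le_primeSumOne {s : ℝ} (hs : 1 < s) :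
    Real.log (zetaR K s) ≤ primeSumOne K s + 3 * degTwoBound K := by
  have h1 := primeSumOne_add_compl K hs
  have h2 := tsum_compl_degOne_le K hs
  have h3 := log_zetaR_le K hs
  linarith

/-- **F1**: the prime sum over degree-one primes is `log (1/(s-1)) + O(1)` on `(1, 2]`. -/
theorem exists_primeSumOne_bound :
    ∃ C : ℝ, ∀ s : ℝ, 1 < s → s ≤ 2 →
      |primeSumOne K s - Real.log (1 / (s - 1))| ≤ C := by
  obtain ⟨c, C, hc, hC, hb⟩ := exists_zetaR_bounds K
  refine ⟨|Real.log c| + |Real.log C| + 3 * degTwoBound K, fun s hs1 hs2 => ?_⟩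
  obtain ⟨hlo, hup⟩ := hb s hs1 hs2
  have hs0 : 0 < s - 1 := by linarith
  have hz := zetaR_pos K hs1
  have hlog : Real.log (zetaR K s) =
      Real.log ((s - 1) * zetaR K s) + Real.log (1 / (s - 1)) := by
    rw [Real.log_mul hs0.ne' hz.ne', one_div, Real.log_inv]
    ring
  have h1 : Real.log c ≤ Real.log ((s - 1) * zetaR K s) := Real.log_le_log hc hlo
  have h2 : Real.log ((s - 1) * zetaR K s) ≤ Real.log C :=
    Real.log_le_log (lt_of_lt_of_le hc hlo) hup
  have h3 := primeSumOne_le_log_zetaR K hs1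
  have h4 := log_zetaR_le_primeSumOne K hs1
  have hD := degTwoBound_nonneg (K := K)
  rw [abs_le]
  constructor
  · have := neg_abs_le (Real.log c)
    have := abs_nonneg (Real.log C)
    linarith
  · have := le_abs_self (Real.log C)
    have := abs_nonneg (Real.log c)
    linarith

/-- The same statement for the sum over all primes. -/
theorem exists_primeSum_bound :
    ∃ C : ℝ, ∀ s : ℝ, 1 < s → s ≤ 2 →
      |(∑' 𝔭 : PrimeIdeal K, 𝔭.x s) - Real.log (1 / (s - 1))| ≤ C := by
  obtain ⟨C, hC⟩ := exists_primeSumOne_bound K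
  refine ⟨C + degTwoBound K, fun s hs1 hs2 => ?_⟩
  have h1 := primeSumOne_add_compl K hs1
  have h2 := tsum_compl_degOne_le K hs1
  have h3 := tsum_compl_degOne_nonneg K s
  have h4 := abs_le.mp (hC s hs1 hs2)
  rw [abs_le]
  constructor <;> linarith [h4.1, h4.2]

end Fermat.Agent.Lib.EulerProd

end
-- ===== PACK-END Lib/EulerProd/PrimeSum.lean

-- ===== PACK-BEGIN S24/Deg/H457_Bridge.lean
section





/-!
# S24 / DEG (helper457), bridge: the formal interface hypothesis `Hyp ℂ N n` from function level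

Inputs: helper648 (conjugate product, `exists_charPoly_eval_eq_zero`), helper708 (`HasQExp`),
helper264 (`hasSum_jFun`).  Remaining explicit hypotheses: the polynomiality principle `D5` for
`jFun` and the growth bound of `jFun` on the fundamental domain.
-/

set_option autoImplicit false

noncomputable section

open UpperHalfPlane ModularGroup CongruenceSubgroup Polynomial ModularCurve
open scoped MatrixGroups Manifold Modular Real

namespace Fermat.Agent.S24.Deg457

open Fermat.Agent.S24.H648 Fermat.Agent.S24.H708 Fermat.Agent.S24.JFun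

/-- `τ ↦ d τ` on the upper half plane -/
def scaleH (d : ℕ) [NeZero d] (τ : ℍ) : ℍ :=
  UpperHalfPlane.mk ((d : ℂ) * τ) (by
    have hd : (0 : ℝ) < d := by exact_mod_cast Nat.pos_of_ne_zero (NeZero.ne d)
    have : ((d : ℂ) * (τ : ℂ)).im = d * τ.im := by simp
    rw [this]
    exact mul_pos hd τ.im_pos)

theorem coe_scaleH (d : ℕ) [NeZero d] (τ : ℍ) : ((scaleH d τ : ℍ) : ℂ) = (d : ℂ) * τ := rfl

theorem coeff_JK_complex (n : ℤ) : (jqModC ℂ).coeff n = algebraMap ℚ ℂ (jq.coeff n) := by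
  rw [← JK_eq, JK, coeffEmb_coeff]

/-- the `q`-expansion of `τ ↦ j(dτ)` is `j(q^d)`. -/
theorem hasQExp_jFun_scale (d : ℕ) [NeZero d] :
    HasQExp 1 (fun τ => _root_.Fermat.Agent.S24.JFun.jFun (scaleH d τ)) (coeffEmb ℂ (qExpand ℚ d jq)) := by
  have hd : 0 < d := Nat.pos_of_ne_zero (NeZero.ne d)
  refine HasQExp.of_hasSum
    (mdifferentiable_J_scale jFun_mdifferentiable d hd (scaleH d) (coe_scaleH d)) ?_
  intro τ
  have h := hasSum_jFun (scaleH d τ)
  have hinj : Function.Injective (fun n : ℤ => (d : ℤ) * n) := by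
    intro a b hab
    have hd' : (d : ℤ) ≠ 0 := by exact_mod_cast hd.ne'
    exact mul_left_cancel₀ hd' hab
  have hsupp : ∀ m : ℤ, m ∉ Set.range (fun n : ℤ => (d : ℤ) * n) →
      (coeffEmb ℂ (qExpand ℚ d jq)).coeff m * qh 1 τ ^ m = 0 := by
    intro m hm
    have hndvd : ¬ (d : ℤ) ∣ m := by
      rintro ⟨k, rfl⟩
      exact hm ⟨k, rfl⟩
    rw [coeffEmb_coeff, qExpand_coeff_of_not_dvd d jq hndvd, map_zero, zero_mul]
  rw [← hinj.hasSum_iff hsupp]
  have hq : Function.Periodic.qParam 1 ((scaleH d τ : ℍ) : ℂ) = qh 1 τ ^ d := by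
    rw [qh_apply, coe_scaleH]
    simp only [Function.Periodic.qParam, Nat.cast_one, Complex.ofReal_one, div_one]
    rw [← Complex.exp_nat_mul]
    congr 1
    ring
  have hfun : ((fun m : ℤ => (coeffEmb ℂ (qExpand ℚ d jq)).coeff m * qh 1 τ ^ m) ∘
      fun n : ℤ => (d : ℤ) * n)
      = fun n : ℤ => (jqModC ℂ).coeff n *
          Function.Periodic.qParam 1 ((scaleH d τ : ℍ) : ℂ) ^ n := by
    funext n
    simp only [Function.comp_apply]
    rw [coeffEmb_coeff, qExpand_coeff_mul, coeff_JK_complex, hq, ← zpow_natCast, ← zpow_mul]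
  rw [hfun]
  exact h

variable (N : ℕ) [NeZero N]

/-- every element of `A_ℂ` is the `q`-expansion of a good function. -/
theorem exists_goodRing_hasQExp
    (hJfd : ∃ C : ℝ, ∀ τ : ℍ, τ ∈ 𝒟 → ‖_root_.Fermat.Agent.S24.JFun.jFun τ‖ ≤ C * Real.exp (2 * π * τ.im))
    {b : LaurentSeries ℂ} (hb : b ∈ AK ℂ N) :
    ∃ f : ℍ → ℂ, f ∈ goodRing N ∧ HasQExp 1 f b := by
  unfold AK at hb
  induction hb using Algebra.adjoin_induction with
  | mem x hx =>
    obtain ⟨y, ⟨d, hd, hdN, rfl⟩, rfl⟩ := hx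
    haveI := hd
    refine ⟨fun τ => _root_.Fermat.Agent.S24.JFun.jFun (scaleH d τ), ?_, hasQExp_jFun_scale d⟩
    exact J_scale_mem_goodRing N jFun_mdifferentiable _root_.Fermat.Agent.S24.JFun.jFun_smul hJfd d
      (Nat.pos_of_ne_zero (NeZero.ne d)) hdN (scaleH d) (coe_scaleH d)
  | algebraMap c =>
    refine ⟨fun _ => c, (goodRing N).algebraMap_mem c, ?_⟩
    have : algebraMap ℂ (LaurentSeries ℂ) c = HahnSeries.C c := by
      rw [algebraMap_laurentSeries_eq_single]; rfl
    rw [this]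
    exact HasQExp.const 1 c
  | add x y _ _ hx hy =>
    obtain ⟨f, hf, hfx⟩ := hx
    obtain ⟨g, hg, hgy⟩ := hy
    exact ⟨f + g, (goodRing N).add_mem hf hg, hfx.add hgy⟩
  | mul x y _ _ hx hy =>
    obtain ⟨f, hf, hfx⟩ := hx
    obtain ⟨g, hg, hgy⟩ := hy
    exact ⟨f * g, (goodRing N).mul_mem hf hg, hfx.mul hgy⟩

theorem hasQExp_jFun : HasQExp 1 _root_.Fermat.Agent.S24.JFun.jFun (JK ℂ) := by
  have h := hasQExp_jFun_scale 1
  rw [qExpand_one_apply] at h
  have hfun : (fun τ => _root_.Fermat.Agent.S24.JFun.jFun (scaleH 1 τ)) = _root_.Fermat.Agent.S24.JFun.jFun := by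
    funext τ
    congr 1
    apply UpperHalfPlane.ext
    rw [coe_scaleH]
    simp
  rw [hfun] at h
  exact h

/-- transfer of univariate polynomial expressions in `j` -/
theorem hasQExp_aeval (p : ℂ[X]) :
    HasQExp 1 (fun τ => p.eval (_root_.Fermat.Agent.S24.JFun.jFun τ)) (aeval (JK ℂ) p) := by
  induction p using Polynomial.induction_on' with
  | add p q hp hq =>
    have := hp.add hq
    rw [map_add]
    convert this using 1
    funext τ
    simp
  | monomial n c =>
    have h1 := (HasQExp.const 1 c).mul (hasQExp_jFun.pow n)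
    rw [aeval_monomial]
    have : algebraMap ℂ (LaurentSeries ℂ) c = HahnSeries.C c := by
      rw [algebraMap_laurentSeries_eq_single]; rfl
    rw [this]
    convert h1 using 1
    funext τ
    simp

/-- transfer of bivariate polynomial expressions -/
theorem hasQExp_eval₂ (P : ℂ[X][X]) {f : ℍ → ℂ} {b : LaurentSeries ℂ} (hf : HasQExp 1 f b) :
    HasQExp 1 (fun τ => (P.map (Polynomial.evalRingHom (_root_.Fermat.Agent.S24.JFun.jFun τ))).eval (f τ))
      (P.eval₂ (evJ (JK ℂ)) b) := by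
  induction P using Polynomial.induction_on' with
  | add p q hp hq =>
    have := hp.add hq
    rw [eval₂_add]
    convert this using 1
    funext τ
    simp
  | monomial n p =>
    have h1 := (hasQExp_aeval p).mul (hf.pow n)
    rw [eval₂_monomial, evJ_apply]
    convert h1 using 1
    funext τ
    simp

/-- **The interface hypothesis over `ℂ`**, from D5 and the growth bound of `j`. -/
theorem hyp_complex
    (hD5 : ∀ F : ℍ → ℂ, MDifferentiable 𝓘(ℂ) 𝓘(ℂ) F →
      (∀ (γ : SL(2, ℤ)) (τ : ℍ), F (γ • τ) = F τ) → ExpGrowth F →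
      ∃ p : ℂ[X], ∀ τ, F τ = p.eval (_root_.Fermat.Agent.S24.JFun.jFun τ))
    (hJfd : ∃ C : ℝ, ∀ τ : ℍ, τ ∈ 𝒟 → ‖_root_.Fermat.Agent.S24.JFun.jFun τ‖ ≤ C * Real.exp (2 * π * τ.im)) :
    Hyp ℂ N (Nat.card (XX N)) := by
  intro b hb
  obtain ⟨f, hf, hfb⟩ := exists_goodRing_hasQExp N hJfd hb
  haveI : Finite (SL(2, ℤ) ⧸ Gamma0 N) := inferInstanceAs (Finite (XX N))
  letI : Fintype (SL(2, ℤ) ⧸ Gamma0 N) := Fintype.ofFinite _
  obtain ⟨P, hPm, hPn, hP⟩ := exists_charPoly_eval_eq_zero (N := N) _root_.Fermat.Agent.S24.JFun.jFun hD5 hf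
  refine ⟨P, hPm, ?_, ?_⟩
  · rw [hPn, Nat.card_eq_fintype_card]
  · have h1 := hasQExp_eval₂ P hfb
    rw [h1.eq_zero_iff]
    funext τ
    exact hP τ

end Fermat.Agent.S24.Deg457

end
end
-- ===== PACK-END S24/Deg/H457_Bridge.lean

-- ===== PACK-BEGIN S30/H709/Occ.lean
section



/-!
# S30-OCC: every eigensystem of the Hecke algebra occurs in the period lattice

Main result `exists_adic_eigen_lattice`.  Input: the Hecke-equivariance of the period map
(`PeriodHecke N fac`, a hypothesis) and a ring homomorphism `χ : heckeAlgebra N 2 S →+* A` to an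
arbitrary domain `A` (for S30: `A = 𝒪'`; for S29: `A = F` a field of characteristic `p`).
Output: a lattice of integer-valued parabolic characters `c j : Γ₀(N) → ℤ` (`j : Fin r`), stable
under the cohomological Hecke operators with integer matrices `τ ℓ`, saturated and linearly
independent, and a nonzero vector `w : Fin r → A` such that `v = ∑ j, w j • c j` is an eigenvector
with eigenvalues `χ (T_ℓ)`.
-/

set_option autoImplicit false

noncomputable section

namespace Fermat.Agent.S30.H709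

open CongruenceSubgroup ModularCurve ModularCurve.Period
open scoped MatrixGroups

variable {N : ℕ} [NeZero N]

/-- The class of the period functional `λ_γ` in the period lattice. -/
def perCls (N : ℕ) [NeZero N] (γ : Gamma0 N) : perLattice N :=
  ⟨perFun N γ, perFun_mem_perLattice N γ⟩

theorem perCls_mul (γ δ : Gamma0 N) : perCls N (γ * δ) = perCls N γ + perCls N δ :=
  Subtype.ext (perFun_mul N γ δ)

theorem perCls_one : perCls N 1 = 0 := Subtype.ext (perFun_one N)

theorem perCls_eq_zero_of_trace (γ : Gamma0 N)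
    (hγ : ((γ : SL(2, ℤ)) : Matrix (Fin 2) (Fin 2) ℤ).trace ^ 2 = 4) : perCls N γ = 0 :=
  Subtype.ext (perFun_eq_zero_of_trace N γ hγ)

/-- The classes `perCls γ` generate the period lattice. -/
theorem perCls_induction {P : perLattice N → Prop} (h0 : P 0)
    (hadd : ∀ x y, P x → P y → P (x + y)) (hneg : ∀ x, P x → P (-x))
    (hcls : ∀ γ, P (perCls N γ)) (x : perLattice N) : P x := by
  obtain ⟨x, hx⟩ := x
  induction hx using Submodule.span_induction with
  | mem y hy =>
    obtain ⟨γ, rfl⟩ := hy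
    exact hcls γ
  | zero => exact h0
  | add y z hy hz ihy ihz => exact hadd ⟨y, hy⟩ ⟨z, hz⟩ ihy ihz
  | smul n y hy ihy =>
    have hsm : ∀ (k : ℕ), P (k • (⟨y, hy⟩ : perLattice N)) := by
      intro k
      induction k with
      | zero => rw [zero_smul]; exact h0
      | succ k ih => rw [succ_nsmul]; exact hadd _ _ ih ihy
    have key : P (n • (⟨y, hy⟩ : perLattice N)) := by
      rcases Int.eq_nat_or_neg n with ⟨k, rfl | rfl⟩
      · rw [natCast_zsmul]; exact hsm k
      · rw [neg_smul, natCast_zsmul]; exact hneg _ (hsm k)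
    exact key

theorem perRho_perCls {fac : ℕ → Gamma0 N → Multiset (Gamma0 N)}
    (hPH : PeriodHecke N fac) {S : Set ℕ} (hNS : ∀ q : ℕ, q.Prime → q ∣ N → q ∈ S)
    {ℓ : ℕ} (hℓ : ℓ.Prime) (hℓN : ¬ ℓ ∣ N) (hℓS : ℓ ∉ S) (γ : Gamma0 N) :
    perRho hPH hNS (CuspForm.heckeAlgebra.T hℓ hℓN hℓS) (perCls N γ)
      = ((fac ℓ γ).map (perCls N)).sum := by
  apply Subtype.ext
  have h1 : ((perRho hPH hNS (CuspForm.heckeAlgebra.T hℓ hℓN hℓS) (perCls N γ) : perLattice N) :
      Module.Dual ℂ (CuspForm (Gamma0 N) 2))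
      = Module.Dual.transpose (CuspForm.heckeTLin 2 hℓ hℓN) (perFun N γ) := rfl
  rw [h1, hPH.transpose_perFun hℓ hℓN γ]
  have h2 : ∀ m : Multiset (Gamma0 N),
      (((m.map (perCls N)).sum : perLattice N) : Module.Dual ℂ (CuspForm (Gamma0 N) 2))
        = (m.map (perFun N)).sum := by
    intro m
    induction m using Multiset.induction_on with
    | empty => simp
    | cons a m ih =>
      rw [Multiset.map_cons, Multiset.sum_cons, Submodule.coe_add, ih, Multiset.map_cons,
        Multiset.sum_cons]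
      rfl
  rw [h2]

/-- **S30-OCC** (adic `M4a`).  Every ring homomorphism `χ` from the Hecke algebra (away from a set
`S` containing the primes dividing `N`) to a domain `A` occurs in the lattice of integral parabolic
characters spanned by the period functionals. -/
theorem exists_adic_eigen_lattice {fac : ℕ → Gamma0 N → Multiset (Gamma0 N)}
    (hPH : PeriodHecke N fac) {S : Set ℕ} (hNS : ∀ q : ℕ, q.Prime → q ∣ N → q ∈ S)
    {A : Type*} [CommRing A] [IsDomain A] (χ : CuspForm.heckeAlgebra N 2 S →+* A) :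
    ∃ (r : ℕ) (c : Fin r → (Additive (Gamma0 N) →+ ℤ)) (τ : ℕ → Matrix (Fin r) (Fin r) ℤ)
      (w : Fin r → A),
      (∀ j, IsParabolicHom (Gamma0 N) (c j)) ∧
      (∀ (m : ℤ) (a : Fin r → ℤ),
        (∀ γ : Gamma0 N, m ∣ ∑ j, a j * c j (Additive.ofMul γ)) → ∀ j, m ∣ a j) ∧
      (∀ (ℓ : ℕ) (_ : ℓ.Prime) (_ : ¬ ℓ ∣ N) (_ : ℓ ∉ S) (j : Fin r) (γ : Gamma0 N),
        ((fac ℓ γ).map fun δ => c j (Additive.ofMul δ)).sum
          = ∑ k, τ ℓ j k * c k (Additive.ofMul γ)) ∧
      w ≠ 0 ∧
      ∀ (ℓ : ℕ) (hℓ : ℓ.Prime) (hℓN : ¬ ℓ ∣ N) (hℓS : ℓ ∉ S) (k : Fin r),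
        ∑ j, w j * ((τ ℓ j k : ℤ) : A) = χ (CuspForm.heckeAlgebra.T hℓ hℓN hℓS) * w k := by
  classical
  let b := Module.finBasis ℤ (perLattice N)
  let c : Fin (Module.finrank ℤ (perLattice N)) → (Additive (Gamma0 N) →+ ℤ) := fun j =>
    { toFun := fun γ => b.repr (perCls N (Additive.toMul γ)) j
      map_zero' := by
        rw [toMul_zero, perCls_one, map_zero]
        rfl
      map_add' := fun γ δ => by
        rw [toMul_add, perCls_mul, map_add]
        rfl }
  have hc : ∀ j (γ : Gamma0 N), c j (Additive.ofMul γ) = b.repr (perCls N γ) j := fun _ _ => rfl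
  let τ : ℕ → Matrix (Fin (Module.finrank ℤ (perLattice N)))
      (Fin (Module.finrank ℤ (perLattice N))) ℤ := fun ℓ =>
    if h : ℓ.Prime ∧ ¬ ℓ ∣ N ∧ ℓ ∉ S then
      Matrix.of fun j k => b.repr (perRho hPH hNS (CuspForm.heckeAlgebra.T h.1 h.2.1 h.2.2) (b k)) j
    else 0
  have hτ : ∀ (ℓ : ℕ) (hℓ : ℓ.Prime) (hℓN : ¬ ℓ ∣ N) (hℓS : ℓ ∉ S) (j k),
      τ ℓ j k = b.repr (perRho hPH hNS (CuspForm.heckeAlgebra.T hℓ hℓN hℓS) (b k)) j := by
    intro ℓ hℓ hℓN hℓS j k
    simp only [τ, dif_pos (show ℓ.Prime ∧ ¬ ℓ ∣ N ∧ ℓ ∉ S from ⟨hℓ, hℓN, hℓS⟩), Matrix.of_apply]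
  obtain ⟨w, hw0, hw⟩ := exists_eigen_coeffs (perRho hPH hNS) (perRho_injective hPH hNS) b χ
  refine ⟨Module.finrank ℤ (perLattice N), c, τ, w, ?_, ?_, ?_, hw0, ?_⟩
  · intro j γ hγ
    rw [hc, perCls_eq_zero_of_trace γ hγ, map_zero]
    rfl
  · intro m a ha k
    let Λ : perLattice N →ₗ[ℤ] ℤ := ∑ j, a j • b.coord j
    have hΛ : ∀ x, Λ x = ∑ j, a j * b.repr x j := by
      intro x
      simp only [Λ, LinearMap.sum_apply, LinearMap.smul_apply, Module.Basis.coord_apply,
        smul_eq_mul]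
    have hall : ∀ x : perLattice N, m ∣ Λ x := by
      intro x
      induction x using perCls_induction with
      | h0 => rw [map_zero]; exact dvd_zero m
      | hadd x y hx hy => rw [map_add]; exact dvd_add hx hy
      | hneg x hx => rw [map_neg]; exact (dvd_neg).mpr hx
      | hcls γ => rw [hΛ]; exact ha γ
    have hk : Λ (b k) = a k := by
      rw [hΛ]
      simp [Module.Basis.repr_self, Finsupp.single_apply]
    rw [← hk]
    exact hall (b k)
  · intro ℓ hℓ hℓN hℓS j γ
    have h1 : ((fac ℓ γ).map fun δ => c j (Additive.ofMul δ)).sum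
        = b.coord j (((fac ℓ γ).map (perCls N)).sum) := by
      rw [map_multiset_sum, Multiset.map_map]
      rfl
    rw [h1, ← perRho_perCls hPH hNS hℓ hℓN hℓS γ]
    conv_lhs => rw [← b.sum_repr (perCls N γ)]
    rw [map_sum, map_sum]
    refine Finset.sum_congr rfl fun k _ => ?_
    rw [map_zsmul, map_zsmul, hτ ℓ hℓ hℓN hℓS, hc, smul_eq_mul, Module.Basis.coord_apply, mul_comm]
  · intro ℓ hℓ hℓN hℓS k
    rw [← hw (CuspForm.heckeAlgebra.T hℓ hℓN hℓS) k]
    refine Finset.sum_congr rfl fun j _ => ?_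
    rw [hτ ℓ hℓ hℓN hℓS]

end Fermat.Agent.S30.H709

end
end
-- ===== PACK-END S30/H709/Occ.lean

-- ===== PACK-BEGIN S29/H222/ESKInt.lean
section
/-
S29 / helper222 — piece ESK, part 1: integral series (`S18.IsInt`) and the action of the
decomposition group of `A` on them.
-/


set_option autoImplicit false
set_option linter.style.haveILetI false

noncomputable section

namespace Fermat.Agent.S29.H222

open ModularCurve AlgebraicCurve HahnSeries IsLocalRing
open Fermat.Agent.S18 (Qb IsInt toF CoreStatement)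

variable {A : ValuationSubring Qb} {N : ℕ}

/-! ### Basic algebra of integral series -/

theorem esk_coeffMap_subtype_injective :
    Function.Injective (coeffMap A.subtype : LaurentSeries A → LaurentSeries Qb) := by
  intro x y hxy
  ext k
  have := congrArg (fun z => z.coeff k) hxy
  simpa using this

theorem isInt_one : IsInt A N (1 : LaurentSeries A) :=
  ⟨by rw [map_one]; exact one_mem _, by rw [map_one]; exact one_mem _,
    by rw [map_one]; exact one_ne_zero⟩

theorem isInt_mul {U V : LaurentSeries A} (hU : IsInt A N U) (hV : IsInt A N V) :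
    IsInt A N (U * V) :=
  ⟨by rw [map_mul]; exact mul_mem hU.1 hV.1, by rw [map_mul]; exact mul_mem hU.2.1 hV.2.1,
    by rw [map_mul]; exact mul_ne_zero hU.2.2 hV.2.2⟩

theorem isInt_pow {U : LaurentSeries A} (hU : IsInt A N U) (n : ℕ) : IsInt A N (U ^ n) :=
  ⟨by rw [map_pow]; exact pow_mem hU.1 n, by rw [map_pow]; exact pow_mem hU.2.1 n,
    by rw [map_pow]; exact pow_ne_zero n hU.2.2⟩

theorem toF_ne_zero {U : LaurentSeries A} (hU : IsInt A N U) : toF hU ≠ 0 := by
  intro h0
  have h1 : coeffMap A.subtype U = 0 := congrArg Subtype.val h0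
  have h2 : U = 0 := esk_coeffMap_subtype_injective (by rw [h1, map_zero])
  exact hU.2.2 (by rw [h2, map_zero])

@[simp] theorem coe_toF {U : LaurentSeries A} (hU : IsInt A N U) :
    ((toF hU : modularFunctionFieldBar N) : LaurentSeries Qb) = coeffMap A.subtype U := rfl

theorem toF_mul {U V : LaurentSeries A} (hU : IsInt A N U) (hV : IsInt A N V) :
    toF (isInt_mul hU hV) = toF hU * toF hV :=
  Subtype.ext (map_mul _ _ _)

theorem toF_pow {U : LaurentSeries A} (hU : IsInt A N U) (n : ℕ) :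
    toF (isInt_pow hU n) = toF hU ^ n :=
  Subtype.ext (map_pow _ _ _)

theorem toF_congr {U V : LaurentSeries A} (hU : IsInt A N U) (hV : IsInt A N V) (h : U = V) :
    toF hU = toF hV := by
  subst h; rfl

/-! ### Coefficientwise ring homomorphisms preserve the function field in characteristic `ℓ` -/

theorem coeffMap_mem_fullC {k : Type*} [Field k] (φ : k →+* k) {x : LaurentSeries k}
    (hx : x ∈ modularFunctionFieldFullC k N) :
    coeffMap φ x ∈ modularFunctionFieldFullC k N := by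
  unfold modularFunctionFieldFullC at hx
  induction hx using IntermediateField.adjoin_induction with
  | mem y hy =>
      obtain ⟨d, hne, hd, rfl⟩ := hy
      haveI := hne
      rw [coeffMap_qExpand, coeffMap_jqModC]
      exact jqModCd_mem_full k N hd
  | algebraMap c =>
      rw [coeffMap_algebraMap]
      exact (modularFunctionFieldFullC k N).algebraMap_mem _
  | add y z _ _ hy hz => rw [map_add]; exact add_mem hy hz
  | inv y _ hy => rw [map_inv₀]; exact inv_mem hy
  | mul y z _ _ hy hz => rw [map_mul]; exact mul_mem hy hz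

theorem coeffMap_ne_zero_of_injective {R S : Type*} [CommRing R] [CommRing S] (φ : R →+* S)
    (hφ : Function.Injective φ) {x : LaurentSeries R} (hx : x ≠ 0) : coeffMap φ x ≠ 0 := by
  intro h
  apply hx
  ext n
  have hn := congrArg (fun y : LaurentSeries S => y.coeff n) h
  simp only [coeffMap_coeff, HahnSeries.coeff_zero] at hn ⊢
  exact hφ (by rw [hn, map_zero])

/-! ### The decomposition group acts on integral series -/

/-- The ring endomorphism of `A` induced by an element of the decomposition group. -/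
def decA (g : A.decompositionSubgroup ℚ) : A →+* A :=
  MulSemiringAction.toRingHom (A.decompositionSubgroup ℚ) A g

@[simp] theorem coe_decA (g : A.decompositionSubgroup ℚ) (a : A) :
    ((decA g a : A) : Qb) = (g : Qb ≃ₐ[ℚ] Qb) (a : Qb) := rfl

/-- The ring endomorphism of the residue field induced by an element of the decomposition
group. -/
def decK (g : A.decompositionSubgroup ℚ) : ResidueField A →+* ResidueField A :=
  MulSemiringAction.toRingHom (A.decompositionSubgroup ℚ) (ResidueField A) g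

theorem decK_residue (g : A.decompositionSubgroup ℚ) (a : A) :
    decK g (residue A a) = residue A (decA g a) := rfl

theorem decK_injective (g : A.decompositionSubgroup ℚ) : Function.Injective (decK g) :=
  (decK g).injective

/-- The coefficientwise action of the decomposition group on `A((q))`. -/
def galA (g : A.decompositionSubgroup ℚ) : LaurentSeries A →+* LaurentSeries A :=
  coeffMap (decA g)

theorem coeffMap_subtype_galA (g : A.decompositionSubgroup ℚ) (U : LaurentSeries A) :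
    coeffMap A.subtype (galA g U)
      = coeffMap (((g : Qb ≃ₐ[ℚ] Qb)) : Qb →+* Qb) (coeffMap A.subtype U) := by
  rw [galA, coeffMap_coeffMap, coeffMap_coeffMap]
  exact coeffMap_congr (RingHom.ext fun a => rfl) U

theorem coeffMap_residue_galA (g : A.decompositionSubgroup ℚ) (U : LaurentSeries A) :
    coeffMap (residue A) (galA g U) = coeffMap (decK g) (coeffMap (residue A) U) := by
  rw [galA, coeffMap_coeffMap, coeffMap_coeffMap]
  exact coeffMap_congr (RingHom.ext fun a => rfl) U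

theorem isInt_galA (g : A.decompositionSubgroup ℚ) {U : LaurentSeries A} (hU : IsInt A N U) :
    IsInt A N (galA g U) := by
  refine ⟨?_, ?_, ?_⟩
  · rw [coeffMap_subtype_galA]
    exact coeffMap_mem_laurentBaseChange (g : Qb ≃ₐ[ℚ] Qb) hU.1
  · rw [coeffMap_residue_galA]
    exact coeffMap_mem_fullC _ hU.2.1
  · rw [coeffMap_residue_galA]
    exact coeffMap_ne_zero_of_injective _ (decK_injective g) hU.2.2

theorem toF_galA (g : A.decompositionSubgroup ℚ) {U : LaurentSeries A} (hU : IsInt A N U) :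
    toF (isInt_galA g hU)
      = arithmeticGalois (modularFunctionFieldFull N) (g : Qb ≃ₐ[ℚ] Qb) • toF hU := by
  apply Subtype.ext
  rw [coe_arithmeticGalois_smul]
  exact coeffMap_subtype_galA g U

end Fermat.Agent.S29.H222

end
end
-- ===== PACK-END S29/H222/ESKInt.lean

-- ===== PACK-BEGIN S37/H700/GaussMain.lean
section


/-!
# S37 / piece GAUSS (helper700): consequences of `S28.CoreData N k`

`A ⊆ Q̄` a valuation subring, `k = A/𝔪`, `F̄_N = Q̄(j(q^d) : d ∣ N) ⊆ Q̄((q))`,
`F_k = k(j(q^d) : d ∣ N) ⊆ k((q))`.  From `CoreData N k` (output of row S28):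

* `normal_form`     : for `u ∈ A((q)) ∩ F̄_N` there are `Q, Pᵢ ∈ A[X]` with
  `Q(j)·u = ∑ Pᵢ(j)·yᵢ` in `A((q))` and `Q mod 𝔪 ≠ 0`;
* `reduction_mem`   : (G1) the coefficientwise reduction of `u` lies in `F_k`;
* `pgi`             : (G2) `PrincipalGeneratedByIntegral A (residue A) N`.
-/

set_option autoImplicit false

noncomputable section

namespace Fermat.Agent.S37.H700

open ModularCurve HahnSeries Polynomial AlgebraicCurve
open Fermat.Agent.S28 (jField intDivisorExpansions CoreData)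

/-- The field `Q̄`. -/
abbrev Qb : Type := AlgebraicClosure ℚ

section Main

variable (N : ℕ) [NeZero N] (A : ValuationSubring Qb)

/-- Reductions of the integral monomials are linearly independent over `k(j)`: pointwise form. -/
theorem eq_zero_of_sum_evalJ_eq_zero {K : Type*} [Field K] {n : ℕ} (yK : Fin n → LaurentSeries K)
    (hind : LinearIndependent (jField K) yK) (P : Fin n → K[X])
    (h : ∑ i, evalJ K (P i) * yK i = 0) : ∀ i, P i = 0 := by
  intro i
  have h' : ∑ i, (⟨evalJ K (P i), evalJ_mem_jField K (P i)⟩ : jField K) • yK i = 0 := by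
    simpa only [smul_jField_def] using h
  have := Fintype.linearIndependent_iff.mp hind _ h' i
  exact (evalJ_eq_zero_iff K).mp (congrArg Subtype.val this)

theorem evalJ_C {R : Type*} [CommRing R] (c : R) :
    evalJ R (Polynomial.C c) = HahnSeries.C c := by
  unfold evalJ
  rw [Polynomial.eval₂_C]

variable {N A}

omit [NeZero N] in
/-- **Normal form** of a Gauss-integral element of `F̄_N`. -/
theorem normal_form {n : ℕ} (y : Fin n → LaurentSeries ℤ)
    (hy_mem : ∀ i, y i ∈ Subring.closure (intDivisorExpansions N))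
    (hy_span : ∀ x ∈ modularFunctionFieldFull N,
      x ∈ Submodule.span (jField ℚ) (Set.range fun i => coeffMap (Int.castRingHom ℚ) (y i)))
    (hy_ind : LinearIndependent (jField (IsLocalRing.ResidueField A))
      (fun i => coeffMap (Int.castRingHom (IsLocalRing.ResidueField A)) (y i)))
    (u : LaurentSeries A) (hu : coeffMap A.subtype u ∈ modularFunctionFieldBar N) :
    ∃ (Q : Polynomial A) (P : Fin n → Polynomial A),
      evalJ A Q * u = ∑ i, evalJ A (P i) * coeffMap (Int.castRingHom A) (y i) ∧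
      Q.map (IsLocalRing.residue A) ≠ 0 := by
  classical
  obtain ⟨Q₀, P₀, hQ₀, h₀⟩ := exists_denominator Qb y
    (mem_spanL_of_mem_baseChange Qb y N hy_mem hy_span hu)
  -- normalise the family `Q₀, P₀ i`
  obtain ⟨c, hc, P', hP', i₀, hi₀⟩ := normalize_family A
    (fun o : Option (Fin n) => o.elim Q₀ P₀) ⟨none, hQ₀⟩
  have hQ' : (P' none).map A.subtype = Polynomial.C c * Q₀ := hP' none
  have hPi : ∀ i, (P' (some i)).map A.subtype = Polynomial.C c * P₀ i := fun i => hP' (some i)
  have hid : evalJ A (P' none) * u =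
      ∑ i, evalJ A (P' (some i)) * coeffMap (Int.castRingHom A) (y i) := by
    apply coeffMap_injective A.subtype_injective
    rw [map_mul, map_sum, coeffMap_evalJ, hQ', evalJ_mul, mul_assoc, h₀, Finset.mul_sum]
    refine Finset.sum_congr rfl fun i _ => ?_
    rw [map_mul, coeffMap_evalJ, hPi, evalJ_mul, coeffMap_coeffMap, mul_assoc]
    congr 2
  refine ⟨P' none, fun i => P' (some i), hid, fun hzero => ?_⟩
  -- if `Q` reduces to zero, linear independence kills all `P i`, contradiction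
  have hred := congrArg (coeffMap (IsLocalRing.residue A)) hid
  rw [map_mul, map_sum, coeffMap_evalJ, hzero, evalJ_zero, zero_mul] at hred
  have hred' : ∑ i, evalJ (IsLocalRing.ResidueField A) ((P' (some i)).map (IsLocalRing.residue A)) *
      coeffMap (Int.castRingHom (IsLocalRing.ResidueField A)) (y i) = 0 := by
    rw [hred]
    refine Finset.sum_congr rfl fun i _ => ?_
    rw [map_mul, coeffMap_evalJ, coeffMap_coeffMap]
    congr 1
  have hall := eq_zero_of_sum_evalJ_eq_zero _ hy_ind _ hred'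
  rcases i₀ with _ | i
  · exact hi₀ hzero
  · exact hi₀ (hall i)

/-- **(G1)** The coefficientwise reduction of a Gauss-integral element of `F̄_N` lies in
`F_k = k(j(q^d) : d ∣ N)`. -/
theorem reduction_mem (hcore : CoreData N (IsLocalRing.ResidueField A))
    (u : LaurentSeries A) (hu : coeffMap A.subtype u ∈ modularFunctionFieldBar N) :
    coeffMap (IsLocalRing.residue A) u ∈
      modularFunctionFieldFullC (IsLocalRing.ResidueField A) N := by
  obtain ⟨n, y, hy_mem, hy_span, hy_ind⟩ := hcore.exists_basis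
  obtain ⟨Q, P, hid, hQ⟩ := normal_form y hy_mem hy_span hy_ind u hu
  have hred := congrArg (coeffMap (IsLocalRing.residue A)) hid
  rw [map_mul, map_sum, coeffMap_evalJ] at hred
  have hQ0 : evalJ (IsLocalRing.ResidueField A) (Q.map (IsLocalRing.residue A)) ≠ 0 :=
    fun h => hQ ((evalJ_eq_zero_iff _).mp h)
  have hjF : jField (IsLocalRing.ResidueField A) ≤
      modularFunctionFieldFullC (IsLocalRing.ResidueField A) N := by
    rw [jField, IntermediateField.adjoin_le_iff]
    rintro x rfl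
    exact jqModC_mem_full _ N
  have hmem : ∀ R : Polynomial (IsLocalRing.ResidueField A),
      evalJ (IsLocalRing.ResidueField A) R ∈
        modularFunctionFieldFullC (IsLocalRing.ResidueField A) N :=
    fun R => hjF (evalJ_mem_jField _ R)
  have : coeffMap (IsLocalRing.residue A) u =
      (evalJ (IsLocalRing.ResidueField A) (Q.map (IsLocalRing.residue A)))⁻¹ *
        ∑ i, coeffMap (IsLocalRing.residue A)
          (evalJ A (P i) * coeffMap (Int.castRingHom A) (y i)) := by
    rw [← hred, ← mul_assoc, inv_mul_cancel₀ hQ0, one_mul]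
  rw [this]
  refine mul_mem (inv_mem (hmem _)) (sum_mem fun i _ => ?_)
  rw [map_mul, coeffMap_evalJ, coeffMap_coeffMap]
  refine mul_mem (hmem _) ?_
  have := coeffMap_intCast_mem_fullC (IsLocalRing.ResidueField A) N (hy_mem i)
  rwa [coeffMap_congr (RingHom.ext_int _ (Int.castRingHom (IsLocalRing.ResidueField A))) (y i)]


/-- Constants have order zero at every place. -/
theorem ord_algebraMap_eq_zero {K F : Type*} [Field K] [Field F] [Algebra K F]
    (v : Place K F) {c : K} (hc : c ≠ 0) : v.ord (algebraMap K F c) = 0 := by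
  have h1 : (⟨algebraMap K F c, v.algebraMap_mem' c⟩ : v.toValuationSubring) *
      ⟨algebraMap K F c⁻¹, v.algebraMap_mem' c⁻¹⟩ = 1 := by
    apply Subtype.ext
    show algebraMap K F c * algebraMap K F c⁻¹ = 1
    rw [← map_mul, mul_inv_cancel₀ hc, map_one]
  have h2 : (⟨algebraMap K F c⁻¹, v.algebraMap_mem' c⁻¹⟩ : v.toValuationSubring) *
      ⟨algebraMap K F c, v.algebraMap_mem' c⟩ = 1 := by
    rw [mul_comm]; exact h1
  exact v.ord_coe_unit ⟨_, _, h1, h2⟩

omit [NeZero N] in
theorem jField_le_bar : jField Qb ≤ modularFunctionFieldBar N := by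
  rw [jField, IntermediateField.adjoin_le_iff]
  rintro x rfl
  have h1 : jqModC ℚ ∈ modularFunctionFieldFull N := by
    rw [← modularFunctionFieldFullC_rat]; exact jqModC_mem_full ℚ N
  have := coeffEmb_mem_laurentBaseChange Qb h1
  rwa [coeffEmb, coeffMap_jqModC] at this

omit [NeZero N] in
theorem C_mem_bar (c : Qb) : (HahnSeries.C c : LaurentSeries Qb) ∈ modularFunctionFieldBar N := by
  have := (modularFunctionFieldBar N).algebraMap_mem c
  rwa [algebraMap_laurentSeries_eq_single] at this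

/-- **(G2)** PGI: every principal divisor of `F̄_N` is a difference of two divisors of
Gauss-integral functions with nonzero reduction in `F_k`. -/
theorem pgi (hcore : CoreData N (IsLocalRing.ResidueField A))
    [HasPrincipalDivisors Qb (modularFunctionFieldBar N)] :
    PrincipalGeneratedByIntegral A (IsLocalRing.residue A) N := by
  classical
  obtain ⟨n, y, hy_mem, hy_span, hy_ind⟩ := hcore.exists_basis
  intro D hD
  obtain ⟨f, hf0, hDf⟩ := hD
  have hfU : (f : LaurentSeries Qb) ≠ 0 := fun h => hf0 (Subtype.ext h)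
  obtain ⟨Q₀, P₀, hQ₀, h₀⟩ := exists_denominator Qb y
    (mem_spanL_of_mem_baseChange Qb y N hy_mem hy_span f.2)
  have hQ₀e : evalJ Qb Q₀ ≠ 0 := fun h => hQ₀ ((evalJ_eq_zero_iff Qb).mp h)
  have hP₀ : ∃ i, P₀ i ≠ 0 := by
    by_contra hcon
    push Not at hcon
    have : evalJ Qb Q₀ * (f : LaurentSeries Qb) = 0 := by
      rw [h₀]
      exact Finset.sum_eq_zero fun i _ => by rw [hcon i, evalJ_zero, zero_mul]
    exact (mul_ne_zero hQ₀e hfU) this
  -- normalise `Q₀` and the `P₀ i` separately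
  obtain ⟨cQ, hcQ, Q', hQ', u₀, hQ'red⟩ := normalize_family A (fun _ : Unit => Q₀) ⟨(), hQ₀⟩
  obtain ⟨cP, hcP, P', hP', i₀, hi₀⟩ := normalize_family A P₀ hP₀
  set b : LaurentSeries A := evalJ A (Q' ()) with hb
  set a : LaurentSeries A := ∑ i, evalJ A (P' i) * coeffMap (Int.castRingHom A) (y i) with ha
  have hbL : coeffMap A.subtype b = HahnSeries.C cQ * evalJ Qb Q₀ := by
    rw [hb, coeffMap_evalJ, hQ' (), evalJ_mul, evalJ_C]
  have haL : coeffMap A.subtype a = HahnSeries.C cP * (evalJ Qb Q₀ * (f : LaurentSeries Qb)) := by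
    rw [ha, map_sum, h₀, Finset.mul_sum]
    refine Finset.sum_congr rfl fun i _ => ?_
    rw [map_mul, coeffMap_evalJ, hP' i, evalJ_mul, evalJ_C, coeffMap_coeffMap, mul_assoc]
    congr 2
  have hQmem : evalJ Qb Q₀ ∈ modularFunctionFieldBar N := jField_le_bar (evalJ_mem_jField Qb Q₀)
  have hbmem : coeffMap A.subtype b ∈ modularFunctionFieldBar N := by
    rw [hbL]; exact mul_mem (C_mem_bar cQ) hQmem
  have hamem : coeffMap A.subtype a ∈ modularFunctionFieldBar N := by
    rw [haL]; exact mul_mem (C_mem_bar cP) (mul_mem hQmem f.2)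
  -- reductions
  have hbred : coeffMap (IsLocalRing.residue A) b ≠ 0 := by
    rw [hb, coeffMap_evalJ]
    exact fun h => hQ'red ((evalJ_eq_zero_iff _).mp h)
  have hared : coeffMap (IsLocalRing.residue A) a ≠ 0 := by
    intro h
    rw [ha, map_sum] at h
    have h' : ∑ i, evalJ (IsLocalRing.ResidueField A) ((P' i).map (IsLocalRing.residue A)) *
        coeffMap (Int.castRingHom (IsLocalRing.ResidueField A)) (y i) = 0 := by
      rw [← h]
      refine Finset.sum_congr rfl fun i _ => ?_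
      rw [map_mul, coeffMap_evalJ, coeffMap_coeffMap]
      congr 1
    exact hi₀ (eq_zero_of_sum_evalJ_eq_zero _ hy_ind _ h' i₀)
  -- the elements of `F̄_N`
  set aF : modularFunctionFieldBar N := ⟨coeffMap A.subtype a, hamem⟩ with haF
  set bF : modularFunctionFieldBar N := ⟨coeffMap A.subtype b, hbmem⟩ with hbF
  set qF : modularFunctionFieldBar N := ⟨evalJ Qb Q₀, hQmem⟩ with hqF
  have hqF0 : qF ≠ 0 := fun h => hQ₀e (congrArg Subtype.val h)
  have haF_eq : aF = algebraMap Qb (modularFunctionFieldBar N) cP * (qF * f) := by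
    apply Subtype.ext
    show coeffMap A.subtype a = algebraMap Qb (LaurentSeries Qb) cP * (evalJ Qb Q₀ * f)
    rw [haL, algebraMap_laurentSeries_eq_single]; rfl
  have hbF_eq : bF = algebraMap Qb (modularFunctionFieldBar N) cQ * qF := by
    apply Subtype.ext
    show coeffMap A.subtype b = algebraMap Qb (LaurentSeries Qb) cQ * evalJ Qb Q₀
    rw [hbL, algebraMap_laurentSeries_eq_single]; rfl
  have hord : ∀ v : Place Qb (modularFunctionFieldBar N), v.ord f = v.ord aF - v.ord bF := by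
    intro v
    have hcP' : algebraMap Qb (modularFunctionFieldBar N) cP ≠ 0 :=
      (_root_.map_ne_zero _).mpr hcP
    have hcQ' : algebraMap Qb (modularFunctionFieldBar N) cQ ≠ 0 :=
      (_root_.map_ne_zero _).mpr hcQ
    rw [haF_eq, hbF_eq, v.ord_mul hcP' (mul_ne_zero hqF0 hf0), v.ord_mul hqF0 hf0,
      v.ord_mul hcQ' hqF0, ord_algebraMap_eq_zero v hcP, ord_algebraMap_eq_zero v hcQ]
    ring
  obtain ⟨Ea, hEa, -⟩ := HasPrincipalDivisors.exists_divisor (K := Qb) aF
    (fun h => hared (by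
      have : coeffMap A.subtype a = 0 := congrArg Subtype.val h
      rw [(coeffMap_injective A.subtype_injective) (this.trans (map_zero _).symm), map_zero]))
  obtain ⟨Eb, hEb, -⟩ := HasPrincipalDivisors.exists_divisor (K := Qb) bF
    (fun h => hbred (by
      have : coeffMap A.subtype b = 0 := congrArg Subtype.val h
      rw [(coeffMap_injective A.subtype_injective) (this.trans (map_zero _).symm), map_zero]))
  have hDeq : D = Ea - Eb := by
    ext v
    rw [Finsupp.sub_apply, hDf v, hEa v, hEb v, hord v]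
  rw [hDeq]
  refine AddSubgroup.sub_mem _ (AddSubgroup.subset_closure ?_) (AddSubgroup.subset_closure ?_)
  · exact ⟨a, hamem, reduction_mem hcore a hamem, hared, hEa⟩
  · exact ⟨b, hbmem, reduction_mem hcore b hbmem, hbred, hEb⟩

end Main

end Fermat.Agent.S37.H700

end
end
-- ===== PACK-END S37/H700/GaussMain.lean

-- ===== PACK-BEGIN S18/H138/Connected.lean
section



/-!
# S18, Route K, ASM (helper138): the special fibre of the `x`-line model is connected

Setting: `R` a noetherian domain with `R[X]` integrally closed (e.g. a DVR), `w ∈ R` a prime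
element, `F` a field of characteristic `0` containing `R`, `x ∈ F` transcendental over `R`,
`F` finite over the subfield `baseField R x` generated by `R` and `x`, and `R` integrally closed
in `F` (i.e. `Frac R` is algebraically closed in `F` and `R` is normal).

`B_fin = chart R {x}`, `B_inf = chart R {x⁻¹}`, `B_mid = chart R {x, x⁻¹}` are the integral
closures of `R[x]`, `R[x⁻¹]`, `R[x, x⁻¹]` in `F`.

**Theorem** (`connected_special_fibre`).  If `e₁ ∈ B_fin`, `e₂ ∈ B_inf` are idempotent modulo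
`w` (in their charts) and `e₁ ≡ e₂ mod w B_mid`, then `(e₁, e₂) ≡ (0, 0)` or `(1, 1)` modulo `w`.

This is the statement "`H⁰(X_k, O) = k`" for the normal model `X = Spec B_fin ∪ Spec B_inf`,
proved by the two-chart Čech argument of `H558.cech_connected` (`H¹(X, O)` is a finitely
generated `R`-module).
-/

set_option autoImplicit false
set_option linter.style.haveILetI false

namespace Fermat.Agent.S18.H138

open Polynomial

variable {R : Type*} [CommRing R] {F : Type*} [Field F] [Algebra R F]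

/-- Elements of the base field integral over an integrally closed subalgebra with that
fraction field lie in the subalgebra. -/
theorem mem_of_isIntegral_of_mem (A : Subalgebra R F) [IsIntegrallyClosed A] (K : Subfield F)
    (hAK : ∀ a ∈ A, a ∈ K) (hfrac : ∀ z ∈ K, ∃ a ∈ A, ∃ b ∈ A, z = a / b)
    {z : F} (hzK : z ∈ K) (hz : IsIntegral A z) : z ∈ A := by
  have h := minpoly_coeff_mem A K hAK hfrac hz 0
  have h2 : minpoly K z = X - C (⟨z, hzK⟩ : K) :=
    minpoly.eq_X_sub_C_of_algebraMap_inj (⟨z, hzK⟩ : K) (algebraMap K F).injective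
  rw [h2] at h
  simp only [coeff_sub, coeff_X_zero, coeff_C_zero, zero_sub] at h
  have : -(-z) ∈ A := A.neg_mem h
  simpa using this

/-- `R / w → B_fin / w` is injective. -/
theorem dvd_of_algebraMap_eq_mul [IsIntegrallyClosed R[X]]
    (hinjR : Function.Injective (algebraMap R F)) {x : F} (hx : Transcendental R x)
    (w a : R) {t : F} (ht : t ∈ chart R ({x} : Set F))
    (h : algebraMap R F a = algebraMap R F w * t) : w ∣ a := by
  by_cases hw : w = 0
  · subst hw
    rw [map_zero, zero_mul] at h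
    have : a = 0 := hinjR (by rw [h, map_zero])
    rw [this]
  have hwF : algebraMap R F w ≠ 0 := fun h0 => hw (hinjR (by rw [h0, map_zero]))
  haveI := isIntegrallyClosed_adjoin_singleton (R := R) hx
  have htK : t ∈ baseField R x := by
    have : t = algebraMap R F a / algebraMap R F w := by
      rw [h, mul_div_cancel_left₀ _ hwF]
    rw [this]
    exact (baseField R x).div_mem (Subfield.subset_closure (Or.inl ⟨a, rfl⟩))
      (Subfield.subset_closure (Or.inl ⟨w, rfl⟩))
  have htA : t ∈ Algebra.adjoin R ({x} : Set F) :=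
    mem_of_isIntegral_of_mem _ (baseField R x) (fun a ha => adjoin_le_baseField x ha)
      (fun z hz => exists_div_of_mem_baseField x hz) htK ht
  obtain ⟨P, rfl⟩ := mem_adjoin_singleton_iff.1 htA
  have h3 : aeval x (C a - C w * P) = 0 := by
    rw [map_sub, map_mul, aeval_C, aeval_C, h, sub_self]
  have h4 := (transcendental_iff.1 hx) _ h3
  have h5 : C a = C w * P := sub_eq_zero.1 h4
  refine ⟨P.coeff 0, ?_⟩
  have := congrArg (fun p : R[X] => p.coeff 0) h5
  simpa using this

section Finite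

variable [IsNoetherianRing R] [IsIntegrallyClosed R[X]] [CharZero F]

/-- `B_fin` is generated as an `R`-module by finitely many families `x ^ j * bs i`. -/
theorem exists_finite_gens {x : F} (hx : Transcendental R x)
    [FiniteDimensional (baseField R x) F] :
    ∃ (n : ℕ) (bs : Fin n → F), (∀ i, bs i ∈ chart R ({x} : Set F)) ∧
      ∀ b ∈ chart R ({x} : Set F),
        b ∈ Submodule.span R {z : F | ∃ (j : ℕ) (i : Fin n), z = x ^ j * bs i} := by
  classical
  set A : Subalgebra R F := Algebra.adjoin R ({x} : Set F) with hA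
  set K : Subfield F := baseField R x with hK
  haveI := isIntegrallyClosed_adjoin_singleton (R := R) hx
  haveI := isNoetherianRing_adjoin_singleton (R := R) hx
  let φ : A →+* K :=
    { toFun := fun a => ⟨a, adjoin_le_baseField x a.2⟩
      map_one' := rfl
      map_mul' := fun _ _ => rfl
      map_zero' := rfl
      map_add' := fun _ _ => rfl }
  letI : Algebra A K := φ.toAlgebra
  haveI : IsScalarTower A K F := IsScalarTower.of_algebraMap_eq (fun _ => rfl)
  have hinj : Function.Injective (algebraMap A K) := by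
    intro a b hab
    have : (a : F) = b := congrArg (fun t : K => (t : F)) hab
    exact Subtype.ext this
  haveI : FaithfulSMul A K := (faithfulSMul_iff_algebraMap_injective A K).2 hinj
  haveI : IsFractionRing A K := by
    refine IsFractionRing.of_field A K (fun z => ?_)
    obtain ⟨a, ha, b, hb, h⟩ := exists_div_of_mem_baseField (R := R) x z.2
    exact ⟨⟨a, ha⟩, ⟨b, hb⟩, Subtype.ext h⟩
  haveI : CharZero K := (algebraMap K F).charZero
  haveI : Module.Finite A (integralClosure A F) :=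
    IsIntegralClosure.finite A K F (integralClosure A F)
  obtain ⟨n, s, hs⟩ := Module.Finite.exists_fin (R := A) (M := integralClosure A F)
  refine ⟨n, fun i => (s i : F), fun i => (s i).2, ?_⟩
  intro b hb
  set T : Submodule R F :=
    Submodule.span R {z : F | ∃ (j : ℕ) (i : Fin n), z = x ^ j * (s i : F)} with hT
  -- `T` is stable under multiplication by `x`, hence by `A`
  have hxT : ∀ z ∈ T, x * z ∈ T := by
    intro z hz
    induction hz using Submodule.span_induction with
    | mem z hz =>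
      obtain ⟨j, i, rfl⟩ := hz
      exact Submodule.subset_span ⟨j + 1, i, by ring⟩
    | zero => simp
    | add y z _ _ hy hz => rw [mul_add]; exact T.add_mem hy hz
    | smul r z _ hz => rw [mul_smul_comm]; exact T.smul_mem r hz
  have hAT : ∀ a ∈ A, ∀ z ∈ T, a * z ∈ T := by
    intro a ha
    induction ha using Algebra.adjoin_induction with
    | mem y hy =>
      rw [Set.mem_singleton_iff] at hy
      subst hy
      exact hxT
    | algebraMap r =>
      intro z hz
      rw [← Algebra.smul_def]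
      exact T.smul_mem r hz
    | add y z _ _ hy hz =>
      intro u hu
      rw [add_mul]
      exact T.add_mem (hy u hu) (hz u hu)
    | mul y z _ _ hy hz =>
      intro u hu
      rw [mul_assoc]
      exact hy _ (hz u hu)
  have hb' : (⟨b, hb⟩ : integralClosure A F) ∈ Submodule.span A (Set.range s) := by
    rw [hs]; trivial
  have key : ∀ c : integralClosure A F, c ∈ Submodule.span A (Set.range s) → (c : F) ∈ T := by
    intro c hc
    induction hc using Submodule.span_induction with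
    | mem c hc =>
      obtain ⟨i, rfl⟩ := hc
      exact Submodule.subset_span ⟨0, i, by simp⟩
    | zero => simp
    | add y z _ _ hy hz => exact T.add_mem hy hz
    | smul a z _ hz => exact hAT a a.2 _ hz
  exact key _ hb'

/-- **Connectedness of the special fibre of the normal `x`-line model.** -/
theorem connected_special_fibre
    (hinjR : Function.Injective (algebraMap R F))
    (hRF : ∀ y : F, IsIntegral R y → y ∈ Set.range (algebraMap R F))
    {x : F} (hx : Transcendental R x) [FiniteDimensional (baseField R x) F]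
    (w : R) (hw : Prime w)
    (e₁ e₂ : F) (he₁ : e₁ ∈ chart R ({x} : Set F)) (he₂ : e₂ ∈ chart R ({x⁻¹} : Set F))
    (hi₁ : ∃ t ∈ chart R ({x} : Set F), e₁ ^ 2 - e₁ = algebraMap R F w * t)
    (hi₂ : ∃ t ∈ chart R ({x⁻¹} : Set F), e₂ ^ 2 - e₂ = algebraMap R F w * t)
    (h₁₂ : ∃ t ∈ chart R ({x, x⁻¹} : Set F), e₁ - e₂ = algebraMap R F w * t) :
    ((∃ t ∈ chart R ({x} : Set F), e₁ = algebraMap R F w * t) ∧
      (∃ t ∈ chart R ({x⁻¹} : Set F), e₂ = algebraMap R F w * t)) ∨
    ((∃ t ∈ chart R ({x} : Set F), 1 - e₁ = algebraMap R F w * t) ∧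
      (∃ t ∈ chart R ({x⁻¹} : Set F), 1 - e₂ = algebraMap R F w * t)) := by
  have hx0 : x ≠ 0 := ne_zero_of_transcendental hx
  obtain ⟨n, bs, hbs, hgen⟩ := exists_finite_gens (R := R) hx
  exact cech_connected_sub (ι := Fin n) w x x⁻¹ (mul_inv_cancel₀ hx0)
    (chart R {x}) (chart R {x⁻¹}) (chart R {x, x⁻¹})
    (chart_mono (by simp)) (chart_mono (by simp))
    (mem_chart_of_mem rfl) (mem_chart_of_mem rfl) bs hbs hgen
    (fun b hb => exists_pow_mul_mem_chart hx0 hb)
    (fun i => exists_inv_pow_mul_mem_chart hx0 (hbs i))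
    (fun b hbf hbi => by
      obtain ⟨a, ha⟩ := hRF b (isIntegral_of_mem_chart_inter hx hbf hbi)
      exact ⟨a, ha⟩)
    (fun a ⟨t, ht, h⟩ => dvd_of_algebraMap_eq_mul hinjR hx w a ht h)
    (fun a b h => hw.dvd_or_dvd h)
    e₁ e₂ he₁ he₂ hi₁ hi₂ h₁₂

end Finite

end Fermat.Agent.S18.H138

end
-- ===== PACK-END S18/H138/Connected.lean

-- ===== PACK-BEGIN S18/B12/H33/CoreAux.lean
section



/-!
# S18 b2.5 (helper33): auxiliary lemmas for the assembly of `B2CoreAbsStatement`
-/

set_option autoImplicit false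

noncomputable section

namespace Fermat.Agent.S18.B12.H33

open Polynomial

universe u v

section Quot

variable {P : Type u} [CommRing P] (w : P)

/-- `a ∈ (w, p)` iff `mk p ∣ mk a` in `P/(w)`. -/
theorem mem_span_pair_iff_mk_dvd (p a : P) :
    a ∈ Ideal.span {w, p} ↔
      Ideal.Quotient.mk (Ideal.span {w}) p ∣ Ideal.Quotient.mk (Ideal.span {w}) a := by
  constructor
  · intro h
    rw [Ideal.mem_span_pair] at h
    obtain ⟨c, d, rfl⟩ := h
    refine ⟨Ideal.Quotient.mk _ d, ?_⟩
    have hw0 : Ideal.Quotient.mk (Ideal.span {w}) w = 0 :=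
      Ideal.Quotient.eq_zero_iff_mem.mpr (Ideal.mem_span_singleton_self w)
    simp [map_add, map_mul, hw0, mul_comm]
  · rintro ⟨c, hc⟩
    obtain ⟨d, rfl⟩ := Ideal.Quotient.mk_surjective c
    rw [← map_mul, Ideal.Quotient.eq, Ideal.mem_span_singleton] at hc
    obtain ⟨e, he⟩ := hc
    rw [Ideal.mem_span_pair]
    refine ⟨e, d, ?_⟩
    have : a = w * e + p * d := by linear_combination he
    rw [this]; ring

theorem span_pair_eq_comap (p : P) :
    Ideal.span {w, p} = Ideal.comap (Ideal.Quotient.mk (Ideal.span {w}))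
      (Ideal.span {Ideal.Quotient.mk (Ideal.span {w}) p}) := by
  ext a
  rw [mem_span_pair_iff_mk_dvd, Ideal.mem_comap, Ideal.mem_span_singleton]

end Quot

end Fermat.Agent.S18.B12.H33

end
end
-- ===== PACK-END S18/B12/H33/CoreAux.lean

-- ===== PACK-BEGIN S18/H203/LiftBasis.lean
section


/-!
# S18 / b1 (helper203): lifting a basis of the special fibre — local freeness along `w = 0`

`S` a Noetherian integrally closed domain, `w ∈ S` prime, `S̄ = S ⧸ (w)`, `B` the integral
closure of `S` in a finite extension `F` of `K = Frac S`, finite over `S`, `B̄ = B ⧸ (w) B`.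
Let `b : ι → B` be a finite family whose reduction is an `S̄`-basis of `B̄`.  Then

* `exists_smul_mem_span` : there is `r ∈ S`, `r ≡ 1 mod w`, with `r • B ⊆ span_S b`
  (Nakayama), i.e. `b` generates `B` over the localisation `S[1/r]`;
* `linearIndependent_lift` : `b` is linearly independent over `S`;
* `basisOfLift` : the image of `b` in `F` is a `K`-basis of `F`; in particular
  `card ι = [F : K]` (`card_eq_finrank`).

So `B` is free with basis `b` over the semi-local ring `(1 + w S)⁻¹ S`, in particular over the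
local rings of `S` at all primes containing `w`: "B is locally free of rank `[F : K]` along the
special fibre".
-/

set_option autoImplicit false

namespace Fermat.Agent.S18.H203

open Ideal

section

variable {S B : Type*} [CommRing S] [CommRing B] [Algebra S B]

/-- The reduction map `B → B ⧸ (w) B`. -/
abbrev redB (w : S) : B →+* B ⧸ (Ideal.span {w}).map (algebraMap S B) :=
  Ideal.Quotient.mk _

/-- The reduction map `S → S ⧸ (w)`. -/
abbrev redS (w : S) : S →+* S ⧸ Ideal.span {w} :=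
  Ideal.Quotient.mk _

theorem redB_smul (w : S) (s : S) (β : B) :
    redB w (s • β) = redS w s • redB (S := S) w β := by
  rw [Ideal.Quotient.mk_smul_mk_quotient_map_quotient, Algebra.smul_def]

theorem redB_eq_zero_iff (w : S) (β : B) :
    redB (S := S) w β = 0 ↔ algebraMap S B w ∣ β := by
  rw [Ideal.Quotient.eq_zero_iff_mem, mem_map_span_singleton_iff]

theorem redS_eq_zero_iff (w : S) (s : S) : redS w s = 0 ↔ w ∣ s := by
  rw [Ideal.Quotient.eq_zero_iff_mem, Ideal.mem_span_singleton]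

variable {ι : Type*} [Fintype ι]

/-- Every element of `B` is congruent mod `w` to an `S`-combination of the lifts. -/
theorem exists_sum_add_mul (w : S) (b : ι → B)
    (hspan : Submodule.span (S ⧸ Ideal.span {w}) (Set.range fun i => redB (S := S) w (b i)) = ⊤)
    (β : B) : ∃ (c : ι → S) (β' : B), β = ∑ i, c i • b i + algebraMap S B w * β' := by
  have hβ : redB (S := S) w β ∈
      Submodule.span (S ⧸ Ideal.span {w}) (Set.range fun i => redB (S := S) w (b i)) := by
    rw [hspan]; exact Submodule.mem_top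
  obtain ⟨cb, hcb⟩ := (Submodule.mem_span_range_iff_exists_fun _).mp hβ
  choose c hc using fun i => Ideal.Quotient.mk_surjective (cb i)
  have h1 : redB (S := S) w (β - ∑ i, c i • b i) = 0 := by
    rw [map_sub, map_sum, ← hcb, sub_eq_zero]
    refine Finset.sum_congr rfl fun i _ => ?_
    rw [redB_smul, hc i]
  rw [redB_eq_zero_iff] at h1
  obtain ⟨β', hβ'⟩ := h1
  exact ⟨c, β', by rw [← hβ']; ring⟩

/-- **Nakayama**: a single `r ≡ 1 mod w` with `r • B ⊆ span_S b`. -/
theorem exists_smul_mem_span [Module.Finite S B] (w : S) (b : ι → B)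
    (hspan : Submodule.span (S ⧸ Ideal.span {w}) (Set.range fun i => redB (S := S) w (b i)) = ⊤) :
    ∃ r : S, r - 1 ∈ Ideal.span {w} ∧
      ∀ β : B, r • β ∈ Submodule.span S (Set.range b) := by
  set N : Submodule S B := Submodule.span S (Set.range b) with hN
  have hfg : (⊤ : Submodule S (B ⧸ N)).FG := Module.finite_def.mp inferInstance
  have hle : (⊤ : Submodule S (B ⧸ N)) ≤ Ideal.span {w} • ⊤ := by
    intro x _
    obtain ⟨β, rfl⟩ := N.mkQ_surjective x
    obtain ⟨c, β', hβ⟩ := exists_sum_add_mul w b hspan β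
    have h1 : N.mkQ β = w • N.mkQ β' := by
      rw [hβ, map_add, ← map_smul, Algebra.smul_def]
      have h2 : N.mkQ (∑ i, c i • b i) = 0 := by
        rw [Submodule.mkQ_apply, Submodule.Quotient.mk_eq_zero]
        exact Submodule.sum_mem _ fun i _ =>
          Submodule.smul_mem _ _ (Submodule.subset_span ⟨i, rfl⟩)
      rw [h2, zero_add]
    rw [h1]
    exact Submodule.smul_mem_smul (Ideal.mem_span_singleton_self w) Submodule.mem_top
  obtain ⟨r, hr1, hr⟩ :=
    Submodule.exists_sub_one_mem_and_smul_eq_zero_of_fg_of_le_smul (Ideal.span {w}) ⊤ hfg hle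
  refine ⟨r, hr1, fun β => ?_⟩
  have h3 := hr (N.mkQ β) Submodule.mem_top
  rw [← map_smul, Submodule.mkQ_apply, Submodule.Quotient.mk_eq_zero] at h3
  exact h3

end

section Indep

variable {S B : Type*} [CommRing S] [IsDomain S] [IsNoetherianRing S]
  [CommRing B] [Algebra S B] [Module.IsTorsionFree S B]
  {ι : Type*} [Fintype ι]

/-- In a Noetherian domain, an element divisible by all powers of a prime element is zero. -/
theorem eq_zero_of_forall_pow_dvd {w : S} (hw : Prime w) {a : S} (h : ∀ k : ℕ, w ^ k ∣ a) :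
    a = 0 := by
  by_contra ha
  have hfin : FiniteMultiplicity w a := FiniteMultiplicity.of_not_isUnit hw.not_isUnit ha
  obtain ⟨n, hn⟩ := hfin
  exact hn (h (n + 1))

/-- **Linear independence of the lifts.** -/
theorem linearIndependent_lift {w : S} (hw : Prime w) (b : ι → B)
    (hli : LinearIndependent (S ⧸ Ideal.span {w}) fun i => redB (S := S) w (b i)) :
    LinearIndependent S b := by
  rw [Fintype.linearIndependent_iff]
  intro a ha
  -- all coefficients are divisible by all powers of `w`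
  have key : ∀ k : ℕ, ∀ a : ι → S, ∑ i, a i • b i = 0 → ∀ i, w ^ k ∣ a i := by
    intro k
    induction k with
    | zero => intro a _ i; simp
    | succ k ih =>
      intro a ha i
      have h1 := ih a ha
      choose a' ha' using h1
      have h2 : ∑ i, a' i • b i = 0 := by
        have h3 : w ^ k • ∑ i, a' i • b i = 0 := by
          rw [Finset.smul_sum, ← ha]
          refine Finset.sum_congr rfl fun i _ => ?_
          rw [smul_smul, ← ha' i]
        exact (smul_eq_zero_iff_right (pow_ne_zero k hw.ne_zero)).mp h3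
      have h4 : ∑ i, redS w (a' i) • redB (S := S) w (b i) = 0 := by
        have := congrArg (redB (S := S) w) h2
        rw [map_sum, map_zero] at this
        rw [← this]
        refine Finset.sum_congr rfl fun i _ => ?_
        rw [redB_smul]
      have h5 := Fintype.linearIndependent_iff.mp hli _ h4 i
      rw [redS_eq_zero_iff] at h5
      obtain ⟨c, hc⟩ := h5
      exact ⟨c, by rw [ha' i, hc, pow_succ]; ring⟩
  intro i
  exact eq_zero_of_forall_pow_dvd hw fun k => key k a ha i

end Indep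

end Fermat.Agent.S18.H203

end
-- ===== PACK-END S18/H203/LiftBasis.lean

-- ===== PACK-BEGIN S18/B12/H278/SF.lean
section


/-!
# b2-SF and b2-SF' (helper278): proofs of the frozen statements `SFIdemStatement` and
`SFLatticeStatement` of `Fermat/Agent/S18/B12/Spec.lean`.

Both are instances of `exists_smul_mem_range_of_isIntegral` (`Transfer.lean`), which is the
localisation at `(t)` of the DVR normality criterion `mem_range_of_isIntegral`
(`Fermat/Agent/S37/H278/Normal.lean`).
-/

set_option autoImplicit false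
set_option linter.style.haveILetI false
set_option linter.unusedSectionVars false

namespace Fermat.Agent.S18.B12.H278

open Module Polynomial Fermat.Agent.S37.H278

universe u v

/-- An idempotent is integral. -/
theorem isIntegral_of_mul_self_eq {Λ : Type*} [CommRing Λ] [Nontrivial Λ] {L : Type*} [CommRing L] [Algebra Λ L]
    {ε : L} (hε : ε * ε = ε) : IsIntegral Λ ε := by
  refine ⟨X ^ 2 - X, ?_, ?_⟩
  · apply monic_X_pow_sub
    rw [degree_X]
    norm_num
  · simp [pow_two, hε]

/-- **b2-SF'** (= frozen statement `SFIdemStatement` of `B12/Spec.lean`, unfolded). -/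
theorem sfIdem :
  ∀ (Λ : Type u) [CommRing Λ] [IsDomain Λ] [IsPrincipalIdealRing Λ] (t : Λ) (_ : Prime t)
    (L : Type v) [CommRing L] [Algebra Λ L] [Module.IsTorsionFree Λ L] (C : Subalgebra Λ L)
    (n : ℕ) (b : Module.Basis (Fin n) Λ C)
    (s : ℕ) (y : Fin s → C)
    (_ : ∀ x : C, ∃ a : Fin s → Λ,
        x - ∑ i, a i • y i ∈ (Ideal.span {algebraMap Λ C t}).radical),
    Algebra.discr Λ b ≠ 0 → ¬ t ^ (n - s + 1) ∣ Algebra.discr Λ b →
    ∀ ε : L, ε * ε = ε → (∃ g₀ : Λ, g₀ ≠ 0 ∧ g₀ • ε ∈ C) → ∃ g : Λ, ¬ t ∣ g ∧ g • ε ∈ C := by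
  intro Λ _ _ _ t ht L _ _ _ C n b s y hy _ hd ε hε hε0
  have hL : ∀ (g : Λ) (l : L), g ≠ 0 → g • l = 0 → l = 0 := by
    intro g l hg h
    have hreg : IsSMulRegular L g := Module.IsTorsionFree.isSMulRegular (IsRegular.of_ne_zero hg)
    exact hreg (by simpa using h)
  have hx0 : ∃ g₀ : Λ, g₀ ≠ 0 ∧ g₀ • ε ∈ (C.val : C →ₐ[Λ] L).range := by
    obtain ⟨g₀, h0, h1⟩ := hε0
    exact ⟨g₀, h0, ⟨⟨_, h1⟩, rfl⟩⟩
  obtain ⟨g, hg, c, hc⟩ := exists_smul_mem_range_of_isIntegral ht hL C.val
    Subtype.val_injective b s y hy (by simpa using hd) ε (isIntegral_of_mul_self_eq hε) hx0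
  refine ⟨g, hg, ?_⟩
  have hc' : (c : L) = g • ε := hc
  rw [← hc']
  exact c.2

/-- An injective linear map between free modules of the same finite rank over a domain has
torsion cokernel: `d • N ⊆ range f` for some `d ≠ 0` (`d` = determinant). -/
theorem exists_smul_mem_range_of_injective {Λ : Type*} [CommRing Λ] [IsDomain Λ]
    {M N : Type*} [AddCommGroup M] [AddCommGroup N] [Module Λ M] [Module Λ N]
    {ι : Type*} [Fintype ι] [DecidableEq ι] (b : Basis ι Λ M) (bt : Basis ι Λ N)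
    (f : M →ₗ[Λ] N) (hf : Function.Injective f) :
    ∃ d : Λ, d ≠ 0 ∧ ∀ z : N, d • z ∈ LinearMap.range f := by
  classical
  set A := LinearMap.toMatrix b bt f with hA
  have hdet : A.det ≠ 0 := by
    intro h0
    obtain ⟨v, hv, hAv⟩ := Matrix.exists_mulVec_eq_zero_iff.mpr h0
    have h1 : f (b.equivFun.symm v) = 0 := by
      apply bt.equivFun.injective
      rw [map_zero]
      have := LinearMap.toMatrix_mulVec_repr b bt f (b.equivFun.symm v)
      rw [← hA] at this
      have hv' : ⇑(b.repr (b.equivFun.symm v)) = v := by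
        rw [← Basis.equivFun_apply, LinearEquiv.apply_symm_apply]
      rw [hv', hAv] at this
      funext i
      have := congrFun this i
      simpa using this.symm
    have h2 : b.equivFun.symm v = 0 := hf (by rw [h1, map_zero])
    apply hv
    have := congrArg b.equivFun h2
    rw [LinearEquiv.apply_symm_apply, map_zero] at this
    exact this
  refine ⟨A.det, hdet, fun z => ⟨Matrix.toLin bt b A.adjugate z, ?_⟩⟩
  have h3 : f ∘ₗ Matrix.toLin bt b A.adjugate = A.det • LinearMap.id := by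
    conv_lhs => rw [← Matrix.toLin_toMatrix b bt f, ← hA]
    rw [← Matrix.toLin_mul, Matrix.mul_adjugate, map_smul, Matrix.toLin_one]
  have := LinearMap.congr_fun h3 z
  simpa using this

/-- **b2-SF** (= frozen statement `SFLatticeStatement` of `B12/Spec.lean`, unfolded). -/
theorem sfLattice :
  ∀ (Λ : Type u) [CommRing Λ] [IsDomain Λ] [IsPrincipalIdealRing Λ] (t : Λ) (_ : Prime t)
    (L : Type v) [CommRing L] [Algebra Λ L] (C Ct : Subalgebra Λ L) (_ : C ≤ Ct)
    (n : ℕ) (b : Module.Basis (Fin n) Λ C) (_ : Module.Basis (Fin n) Λ Ct)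
    (s : ℕ) (y : Fin s → C)
    (_ : ∀ x : C, ∃ a : Fin s → Λ,
        x - ∑ i, a i • y i ∈ (Ideal.span {algebraMap Λ C t}).radical),
    Algebra.discr Λ b ≠ 0 → ¬ t ^ (n - s + 1) ∣ Algebra.discr Λ b →
    ∀ x ∈ Ct, ∃ g : Λ, ¬ t ∣ g ∧ g • x ∈ C := by
  intro Λ _ _ _ t ht L _ _ C Ct hle n b bt s y hy _ hd x hx
  haveI : Module.Free Λ Ct := Module.Free.of_basis bt
  have hL : ∀ (g : Λ) (l : Ct), g ≠ 0 → g • l = 0 → l = 0 := by
    intro g l hg h
    exact smul_eq_zero_imp hg h
  have hf : Function.Injective (Subalgebra.inclusion hle) := Subalgebra.inclusion_injective hle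
  haveI : Module.Finite Λ Ct := Module.Finite.of_basis bt
  have hxint : IsIntegral Λ (⟨x, hx⟩ : Ct) := Algebra.IsIntegral.isIntegral _
  obtain ⟨d, hd0, hdr⟩ := exists_smul_mem_range_of_injective b bt
    (Subalgebra.inclusion hle).toLinearMap hf
  have hx0 : ∃ g₀ : Λ, g₀ ≠ 0 ∧ g₀ • (⟨x, hx⟩ : Ct) ∈ (Subalgebra.inclusion hle).range := by
    obtain ⟨c, hc⟩ := hdr ⟨x, hx⟩
    exact ⟨d, hd0, c, hc⟩
  obtain ⟨g, hg, c, hc⟩ := exists_smul_mem_range_of_isIntegral ht hL (Subalgebra.inclusion hle)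
    hf b s y hy (by simpa using hd) ⟨x, hx⟩ hxint hx0
  refine ⟨g, hg, ?_⟩
  have hc' : ((Subalgebra.inclusion hle c : Ct) : L) = g • x := congrArg Subtype.val hc
  rw [← hc']
  exact c.2

end Fermat.Agent.S18.B12.H278

end
-- ===== PACK-END S18/B12/H278/SF.lean

-- ===== PACK-BEGIN S18/H754/KummerTransfer.lean
section


/-!
# S18 / Route K / étale Kummer cover: transfer between `B` and its localisation `R = B_𝔪`
-/

set_option autoImplicit false

noncomputable section

namespace Fermat.Agent.S18.H754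

open Polynomial IsLocalRing

section Transfer

variable {B : Type*} [CommRing B] [IsDomain B]
  (𝔪 : Ideal B) [h𝔪 : 𝔪.IsPrime]
  (R : Type*) [CommRing R] [Algebra B R] [IsLocalization.AtPrime R 𝔪]

include h𝔪 in
lemma algebraMap_loc_injective : Function.Injective (algebraMap B R) :=
  IsLocalization.injective R 𝔪.primeCompl_le_nonZeroDivisors

lemma disjoint_primeCompl_span {ϖ : B} (hϖ𝔪 : ϖ ∈ 𝔪) :
    Disjoint (𝔪.primeCompl : Set B) (Ideal.span {ϖ} : Ideal B) := by
  rw [Set.disjoint_left]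
  intro x hx hx'
  apply hx
  have h : Ideal.span {ϖ} ≤ 𝔪 := (Ideal.span_singleton_le_iff_mem _).2 hϖ𝔪
  exact h hx'

lemma span_map_singleton (ϖ : B) :
    Ideal.span {algebraMap B R ϖ} = Ideal.map (algebraMap B R) (Ideal.span {ϖ}) := by
  rw [Ideal.map_span, Set.image_singleton]

lemma prime_algebraMap_loc {ϖ : B} (hϖ : Prime ϖ) (hϖ𝔪 : ϖ ∈ 𝔪) :
    Prime (algebraMap B R ϖ) := by
  have h0 : algebraMap B R ϖ ≠ 0 := by
    intro h
    exact hϖ.ne_zero (algebraMap_loc_injective 𝔪 R (by rw [h, map_zero]))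
  rw [← Ideal.span_singleton_prime h0, span_map_singleton]
  exact IsLocalization.isPrime_of_isPrime_disjoint 𝔪.primeCompl R _
    ((Ideal.span_singleton_prime hϖ.ne_zero).2 hϖ) (disjoint_primeCompl_span 𝔪 hϖ𝔪)

lemma not_dvd_algebraMap_loc {ϖ : B} (hϖ : Prime ϖ) (hϖ𝔪 : ϖ ∈ 𝔪) {x : B}
    (hx : x ∉ Ideal.span {ϖ}) : algebraMap B R x ∉ Ideal.span {algebraMap B R ϖ} := by
  intro h
  apply hx
  rw [span_map_singleton] at h
  have := IsLocalization.comap_map_of_isPrime_disjoint 𝔪.primeCompl R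
    ((Ideal.span_singleton_prime hϖ.ne_zero).2 hϖ) (disjoint_primeCompl_span 𝔪 hϖ𝔪)
  rw [← this]
  exact h

lemma maximalIdeal_loc_eq_span_pair [IsLocalRing R] {ϖ t : B} (hϖ𝔪 : ϖ ∈ 𝔪) (ht𝔪 : t ∈ 𝔪)
    (h : ∀ a ∈ 𝔪, ∃ s : B, s ∉ 𝔪 ∧ s * a ∈ Ideal.span {ϖ, t}) :
    maximalIdeal R = Ideal.span {algebraMap B R ϖ, algebraMap B R t} := by
  rw [← IsLocalization.AtPrime.map_eq_maximalIdeal 𝔪 R]
  have hspan : Ideal.span {algebraMap B R ϖ, algebraMap B R t} =
      Ideal.map (algebraMap B R) (Ideal.span {ϖ, t}) := by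
    rw [Ideal.map_span, Set.image_pair]
  apply le_antisymm
  · rw [Ideal.map_le_iff_le_comap]
    intro a ha
    obtain ⟨s, hs, hsa⟩ := h a ha
    rw [Ideal.mem_comap, hspan]
    have h1 : algebraMap B R (s * a) ∈ Ideal.map (algebraMap B R) (Ideal.span {ϖ, t}) :=
      Ideal.mem_map_of_mem _ hsa
    rw [map_mul] at h1
    have hu : IsUnit (algebraMap B R s) := IsLocalization.map_units R (⟨s, hs⟩ : 𝔪.primeCompl)
    exact (Ideal.unit_mul_mem_iff_mem _ hu).1 h1
  · rw [Ideal.span_le]
    intro x hx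
    rcases hx with rfl | hx
    · exact Ideal.mem_map_of_mem _ hϖ𝔪
    · rw [Set.mem_singleton_iff] at hx
      subst hx
      exact Ideal.mem_map_of_mem _ ht𝔪

section Field

variable {F : Type*} [Field F] [Algebra B F] [Algebra R F] [IsScalarTower B R F]

lemma oneModPi_loc {ϖ : B} (hϖ : Prime ϖ) (hϖ𝔪 : ϖ ∈ 𝔪) {u : F} (h : OneModPi ϖ u) :
    OneModPi (algebraMap B R ϖ) u := by
  obtain ⟨a, s, hs, has, hu⟩ := h
  refine ⟨algebraMap B R a, algebraMap B R s, not_dvd_algebraMap_loc 𝔪 R hϖ hϖ𝔪 hs, ?_, ?_⟩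
  · rw [← map_sub, span_map_singleton]
    exact Ideal.mem_map_of_mem _ has
  · rw [← IsScalarTower.algebraMap_apply, ← IsScalarTower.algebraMap_apply]
    exact hu

include 𝔪 in
lemma locallyPow_of_divisibleDivisor [IsDomain R] [IsNoetherianRing R] {p : ℕ} {u : F}
    (h : DivisibleDivisor B p u) (π : R) (hπ : Prime π) : LocallyPow R p u π := by
  haveI hP : (Ideal.span {π}).IsPrime := (Ideal.span_singleton_prime hπ.ne_zero).2 hπ
  have hht : (Ideal.span {π} : Ideal R).height = 1 := by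
    apply le_antisymm
    · refine Ideal.height_le_one_of_isPrincipal_of_mem_minimalPrimes (Ideal.span {π}) _ ?_
      rw [Ideal.minimalPrimes_eq_subsingleton_self]
      exact Set.mem_singleton _
    · rw [Order.one_le_iff_pos, pos_iff_ne_zero]
      intro h0
      rw [Ideal.height_eq_zero_iff, IsDomain.minimalPrimes_eq_singleton_bot] at h0
      rw [Set.mem_singleton_iff, Ideal.span_singleton_eq_bot] at h0
      exact hπ.ne_zero h0
  have hht' : ((Ideal.span {π} : Ideal R).under B).height = 1 := by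
    rw [IsLocalization.height_comap 𝔪.primeCompl, hht]
  obtain ⟨t, a, s, ha, hs, hu⟩ := h ((Ideal.span {π} : Ideal R).under B) inferInstance hht'
  refine ⟨t, algebraMap B R a, algebraMap B R s, ?_, ?_, ?_⟩
  · intro hd
    apply ha
    rw [Ideal.under_def, Ideal.mem_comap, Ideal.mem_span_singleton]
    exact hd
  · intro hd
    apply hs
    rw [Ideal.under_def, Ideal.mem_comap, Ideal.mem_span_singleton]
    exact hd
  · rw [← IsScalarTower.algebraMap_apply, ← IsScalarTower.algebraMap_apply]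
    exact hu

end Field

section Int

variable {F' : Type*} [Field F'] [Algebra B F'] [Algebra R F'] [IsScalarTower B R F']

/-- an element integral over `R = B_𝔪` has a multiple by some `m ∉ 𝔪` integral over `B`. -/
lemma exists_notMem_isIntegral_mul {c : F'} (hc : IsIntegral R c) :
    ∃ m : B, m ∉ 𝔪 ∧ IsIntegral B (algebraMap B F' m * c) := by
  obtain ⟨⟨m, hm⟩, h⟩ := IsIntegral.exists_multiple_integral_of_isLocalization 𝔪.primeCompl c hc
  refine ⟨m, hm, ?_⟩
  rw [← Algebra.smul_def]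
  exact h

/-- `ϖ O'`-membership over `R = B_𝔪` gives `ϖ O'`-membership over `B` (same `O'`). -/
lemma inPiO_of_loc {ϖ : B} (hϖ : Prime ϖ) (hϖ𝔪 : ϖ ∈ 𝔪) {y : F'}
    (h : InPiO (algebraMap B R ϖ) y) : InPiO ϖ y := by
  obtain ⟨s', hs', c, hc, hsc⟩ := h
  obtain ⟨m, hm, hmc⟩ := exists_notMem_isIntegral_mul 𝔪 R hc
  obtain ⟨s₁, ⟨s₂, hs₂⟩, hs⟩ := IsLocalization.exists_mk'_eq 𝔪.primeCompl s'
  have hs12 : s' * algebraMap B R s₂ = algebraMap B R s₁ := by
    rw [← hs]
    exact IsLocalization.mk'_spec R s₁ ⟨s₂, hs₂⟩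
  have hπ' := prime_algebraMap_loc 𝔪 R hϖ hϖ𝔪
  have hs₁ : s₁ ∉ Ideal.span {ϖ} := by
    intro h1
    have h2 : algebraMap B R s₁ ∈ Ideal.span {algebraMap B R ϖ} := by
      rw [span_map_singleton]
      exact Ideal.mem_map_of_mem _ h1
    rw [← hs12, Ideal.mem_span_singleton] at h2
    rw [Ideal.mem_span_singleton] at hs'
    rcases hπ'.dvd_or_dvd h2 with h3 | h3
    · exact hs' h3
    · have hu : IsUnit (algebraMap B R s₂) :=
        IsLocalization.map_units R (⟨s₂, hs₂⟩ : 𝔪.primeCompl)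
      exact hπ'.not_unit (isUnit_of_dvd_unit h3 hu)
  have hm' : m ∉ Ideal.span {ϖ} := by
    intro h1
    apply hm
    have h : Ideal.span {ϖ} ≤ 𝔪 := (Ideal.span_singleton_le_iff_mem _).2 hϖ𝔪
    exact h h1
  refine ⟨s₁ * m, ?_, algebraMap B F' s₂ * (algebraMap B F' m * c),
    isIntegral_algebraMap.mul hmc, ?_⟩
  · intro h1
    rw [Ideal.mem_span_singleton] at h1 hs₁ hm'
    rcases hϖ.dvd_or_dvd h1 with h2 | h2
    · exact hs₁ h2
    · exact hm' h2
  · have e1 : algebraMap B F' s₁ = algebraMap R F' s' * algebraMap B F' s₂ := by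
      rw [IsScalarTower.algebraMap_apply B R F' s₁, ← hs12, map_mul,
        ← IsScalarTower.algebraMap_apply]
    have e2 : algebraMap R F' (algebraMap B R ϖ) = algebraMap B F' ϖ :=
      (IsScalarTower.algebraMap_apply B R F' ϖ).symm
    rw [e2] at hsc
    rw [map_mul, e1]
    calc algebraMap R F' s' * algebraMap B F' s₂ * algebraMap B F' m * y
        = algebraMap B F' s₂ * algebraMap B F' m * (algebraMap R F' s' * y) := by ring
      _ = algebraMap B F' s₂ * algebraMap B F' m * (algebraMap B F' ϖ * c) := by rw [hsc]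
      _ = algebraMap B F' ϖ * (algebraMap B F' s₂ * (algebraMap B F' m * c)) := by ring

/-- `ϖ O'`-membership over `B` gives `ϖ O'`-membership over `R = B_𝔪`. -/
lemma inPiO_to_loc {ϖ : B} (hϖ : Prime ϖ) (hϖ𝔪 : ϖ ∈ 𝔪) {y : F'}
    (h : InPiO ϖ y) : InPiO (algebraMap B R ϖ) y := by
  obtain ⟨s, hs, c, hc, hsc⟩ := h
  refine ⟨algebraMap B R s, not_dvd_algebraMap_loc 𝔪 R hϖ hϖ𝔪 hs, c, hc.tower_top, ?_⟩
  rw [← IsScalarTower.algebraMap_apply, ← IsScalarTower.algebraMap_apply]
  exact hsc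

end Int

end Transfer

end Fermat.Agent.S18.H754

end

end
-- ===== PACK-END S18/H754/KummerTransfer.lean

-- ===== PACK-BEGIN A2/H489/TwoExtD.lean
section


/-!
# A2 / M1-abs, part D (helper489): the theorem `TwoExt`

`A` a discrete valuation ring with fraction field `K`, `L/K` finite separable,
`V₁ ≠ V₂` valuation subrings of `L` over `A`, with families `u₁ : Fin f₁ → V₁`,
`u₂ : Fin f₂ → V₂` whose residues are linearly independent over the residue field of `A`, and
`[L : K] ≤ f₁ + f₂`.  Then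

* `twoExt_only`        : `V₁`, `V₂` are the only valuation subrings of `L` over `A`;
* `twoExt_uniformizer` : a uniformiser of `A` is a uniformiser of `V₁` and `V₂` (`e = 1`);
* `twoExt_integral`    : `x` is integral over `A` iff `x ∈ V₁ ∩ V₂`;
* `twoExt_span`        : the residues of `u₁` (`u₂`) span the residue field of `V₁` (`V₂`).
-/

set_option autoImplicit false

namespace Fermat.Agent.A2.H489

open IsDedekindDomain IsLocalRing WithZero

section Val

variable {S F : Type*} [CommRing S] [IsDedekindDomain S] [Field F] [Algebra S F]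
  [IsFractionRing S F]

theorem valuation_eq_exp_neg_one (v : HeightOneSpectrum S) {w : S} (hw : w ∈ v.asIdeal)
    (hw2 : w ∉ v.asIdeal ^ 2) : v.valuation F (algebraMap S F w) = exp (-1 : ℤ) := by
  have hw0 : w ≠ 0 := by
    rintro rfl
    exact hw2 (Ideal.zero_mem _)
  rw [HeightOneSpectrum.valuation_of_algebraMap]
  have h1 : v.intValuation w < 1 := (v.intValuation_lt_one_iff_mem w).mpr hw
  have h2 : ¬ v.intValuation w ≤ exp (-((2 : ℕ) : ℤ)) := fun h =>
    hw2 ((v.intValuation_le_pow_iff_mem w 2).mp h)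
  rw [v.intValuation_if_neg hw0] at h1 h2 ⊢
  rw [← exp_zero, exp_lt_exp] at h1
  rw [exp_le_exp] at h2
  congr 1
  push_cast at h2
  omega

theorem mul_inv_mem_of_lt_one (v : HeightOneSpectrum S) {w : S} (hw : w ∈ v.asIdeal)
    (hw2 : w ∉ v.asIdeal ^ 2) {x : F} (hx : v.valuation F x < 1) :
    v.valuation F (x * (algebraMap S F w)⁻¹) ≤ 1 := by
  have hv := valuation_eq_exp_neg_one (F := F) v hw hw2
  rw [map_mul, map_inv₀, hv]
  have h1 : x = 0 ∨ x ≠ 0 := eq_or_ne x 0
  rcases h1 with rfl | hx0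
  · simp
  have hne : v.valuation F x ≠ 0 := (Valuation.ne_zero_iff _).mpr hx0
  have h3 : v.valuation F x ≤ exp (-1 : ℤ) := by
    rw [← lt_mul_exp_iff_le (by simp)]
    rw [← exp_add]
    simpa using hx
  calc v.valuation F x * (exp (-1 : ℤ))⁻¹ ≤ exp (-1 : ℤ) * (exp (-1 : ℤ))⁻¹ :=
        mul_le_mul_left h3 _
    _ = 1 := mul_inv_cancel₀ (by simp)

theorem mem_nonunits_valuationSubring_iff (v : HeightOneSpectrum S) (x : F) :
    x ∈ (v.valuation F).valuationSubring.nonunits ↔ v.valuation F x < 1 := by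
  rw [ValuationSubring.mem_nonunits_iff_or]
  rcases eq_or_ne x 0 with rfl | hx
  · simp
  · have hne : v.valuation F x ≠ 0 := (Valuation.ne_zero_iff _).mpr hx
    rw [Valuation.mem_valuationSubring_iff, map_inv₀, not_le]
    constructor
    · rintro (h | h)
      · exact absurd h hx
      · exact (one_lt_inv₀ (zero_lt_iff.mpr hne)).mp h
    · intro h
      exact Or.inr ((one_lt_inv₀ (zero_lt_iff.mpr hne)).mpr h)

end Val

section Main

variable (K : Type*) {A L : Type*} [CommRing A] [IsDomain A] [IsDiscreteValuationRing A]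
  [Field K] [Algebra A K] [IsFractionRing A K]
  [Field L] [Algebra K L] [Algebra A L] [IsScalarTower A K L]
  [FiniteDimensional K L] [Algebra.IsSeparable K L]

/-- Hypotheses of `TwoExt`. -/
structure TwoExtHyp (K A : Type*) {L : Type*} [CommRing A] [IsDomain A]
    [IsDiscreteValuationRing A] [Field K] [Algebra A K]
    [Field L] [Algebra K L] [Algebra A L]
    (V₁ V₂ : ValuationSubring L) {f₁ f₂ : ℕ} (u₁ : Fin f₁ → L) (u₂ : Fin f₂ → L) : Prop where
  over₁ : IsOver A V₁
  over₂ : IsOver A V₂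
  ne : V₁ ≠ V₂
  deg : Module.finrank K L ≤ f₁ + f₂
  mem₁ : ∀ i, u₁ i ∈ V₁
  mem₂ : ∀ i, u₂ i ∈ V₂
  indep₁ : ∀ a : Fin f₁ → A, (∑ i, algebraMap A L (a i) * u₁ i) ∈ V₁.nonunits →
    ∀ i, a i ∈ maximalIdeal A
  indep₂ : ∀ a : Fin f₂ → A, (∑ i, algebraMap A L (a i) * u₂ i) ∈ V₂.nonunits →
    ∀ i, a i ∈ maximalIdeal A

variable {K} {V₁ V₂ : ValuationSubring L} {f₁ f₂ : ℕ} {u₁ : Fin f₁ → L} {u₂ : Fin f₂ → L}

omit [IsFractionRing A K] [IsScalarTower A K L] [FiniteDimensional K L]
  [Algebra.IsSeparable K L] in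
theorem TwoExtHyp.symm (h : TwoExtHyp K A V₁ V₂ u₁ u₂) : TwoExtHyp K A V₂ V₁ u₂ u₁ where
  over₁ := h.over₂
  over₂ := h.over₁
  ne := h.ne.symm
  deg := by have := h.deg; omega
  mem₁ := h.mem₂
  mem₂ := h.mem₁
  indep₁ := h.indep₂
  indep₂ := h.indep₁

theorem TwoExtHyp.core (h : TwoExtHyp K A V₁ V₂ u₁ u₂) :
    (∀ P : Ideal (integralClosure A L), P.IsPrime → P.LiesOver (maximalIdeal A) →
        P = center V₁ h.over₁.mem_integralClosure ∨
        P = center V₂ h.over₂.mem_integralClosure) ∧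
      Ideal.ramificationIdx' (maximalIdeal A) (center V₁ h.over₁.mem_integralClosure) = 1 ∧
      Ideal.ramificationIdx' (maximalIdeal A) (center V₂ h.over₂.mem_integralClosure) = 1 ∧
      Ideal.inertiaDeg' (maximalIdeal A) (center V₁ h.over₁.mem_integralClosure) = f₁ ∧
      Ideal.inertiaDeg' (maximalIdeal A) (center V₂ h.over₂.mem_integralClosure) = f₂ :=
  twoExt_core K h.over₁ h.over₂ h.ne h.deg
    (h.over₁.le_inertiaDeg K u₁ h.mem₁ h.indep₁) (h.over₂.le_inertiaDeg K u₂ h.mem₂ h.indep₂)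

/-- **TwoExt (1)**: `V₁` and `V₂` are the only valuation subrings of `L` over `A`. -/
theorem TwoExtHyp.only (h : TwoExtHyp K A V₁ V₂ u₁ u₂) {V : ValuationSubring L}
    (hV : IsOver A V) : V = V₁ ∨ V = V₂ := by
  have hD : IsDedekindDomain (integralClosure A L) := integralClosure.isDedekindDomain A K L
  have hFr : IsFractionRing (integralClosure A L) L :=
    integralClosure.isFractionRing_of_finite_extension K L
  rcases h.core.1 (center V hV.mem_integralClosure) inferInstance hV.center_liesOver with h1 | h1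
  · exact Or.inl (eq_of_center_eq V V₁ hV.mem_integralClosure h.over₁.mem_integralClosure
      (hV.ne_top K) (h.over₁.ne_top K) h1)
  · exact Or.inr (eq_of_center_eq V V₂ hV.mem_integralClosure h.over₂.mem_integralClosure
      (hV.ne_top K) (h.over₂.ne_top K) h1)

include K in
/-- `e = 1` in valuation form. -/
theorem IsOver.mul_inv_mem_of_ramificationIdx_eq_one {V : ValuationSubring L} (hV : IsOver A V)
    (he : Ideal.ramificationIdx' (maximalIdeal A) (center V hV.mem_integralClosure) = 1)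
    {w : A} (hw : Irreducible w) {x : L} (hx : x ∈ V.nonunits) :
    x * (algebraMap A L w)⁻¹ ∈ V := by
  have hD : IsDedekindDomain (integralClosure A L) := integralClosure.isDedekindDomain A K L
  have hFr : IsFractionRing (integralClosure A L) L :=
    integralClosure.isFractionRing_of_finite_extension K L
  have hne : V ≠ ⊤ := hV.ne_top K
  set v := centerSpec V hV.mem_integralClosure hne with hvdef
  have hVv : V = (v.valuation L).valuationSubring :=
    eq_valuationSubring_centerSpec V hV.mem_integralClosure hne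
  have hwmax : w ∈ maximalIdeal A := by
    rw [IsLocalRing.mem_maximalIdeal, _root_.mem_nonunits_iff]
    exact hw.not_isUnit
  have hw1 : algebraMap A (integralClosure A L) w ∈ v.asIdeal := by
    show algebraMap A (integralClosure A L) w ∈ center V hV.mem_integralClosure
    rw [mem_center_iff, ← IsScalarTower.algebraMap_apply]
    exact hV.nonunit w hwmax
  have hmap : Ideal.map (algebraMap A (integralClosure A L)) (maximalIdeal A)
      = Ideal.span {algebraMap A (integralClosure A L) w} := by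
    rw [hw.maximalIdeal_eq, Ideal.map_span, Set.image_singleton]
  have hle : Ideal.map (algebraMap A (integralClosure A L)) (maximalIdeal A)
      ≤ center V hV.mem_integralClosure := by
    rw [hmap, Ideal.span_singleton_le_iff_mem]
    exact hw1
  have hw2 : algebraMap A (integralClosure A L) w ∉ v.asIdeal ^ 2 := by
    intro hmem
    have h2 : Ideal.map (algebraMap A (integralClosure A L)) (maximalIdeal A)
        ≤ center V hV.mem_integralClosure ^ 2 := by
      rw [hmap, Ideal.span_singleton_le_iff_mem]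
      exact hmem
    exact ((Ideal.ramificationIdx'_ne_one_iff hle).mpr h2) he
  have hx' : v.valuation L x < 1 := by
    rw [← mem_nonunits_valuationSubring_iff, ← hVv]
    exact hx
  have key := mul_inv_mem_of_lt_one (F := L) v hw1 hw2 hx'
  rw [← IsScalarTower.algebraMap_apply] at key
  rw [hVv]
  exact key

/-- **TwoExt (2)**: a uniformiser of `A` is a uniformiser of `V₁`. -/
theorem TwoExtHyp.uniformizer₁ (h : TwoExtHyp K A V₁ V₂ u₁ u₂) {w : A} (hw : Irreducible w)
    {x : L} (hx : x ∈ V₁.nonunits) : x * (algebraMap A L w)⁻¹ ∈ V₁ :=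
  h.over₁.mul_inv_mem_of_ramificationIdx_eq_one (K := K) h.core.2.1 hw hx

/-- **TwoExt (2')**: a uniformiser of `A` is a uniformiser of `V₂`. -/
theorem TwoExtHyp.uniformizer₂ (h : TwoExtHyp K A V₁ V₂ u₁ u₂) {w : A} (hw : Irreducible w)
    {x : L} (hx : x ∈ V₂.nonunits) : x * (algebraMap A L w)⁻¹ ∈ V₂ :=
  h.over₂.mul_inv_mem_of_ramificationIdx_eq_one (K := K) h.core.2.2.1 hw hx

/-- **TwoExt (3)**: the integral closure of `A` in `L` is `V₁ ∩ V₂`. -/
theorem TwoExtHyp.isIntegral_iff (h : TwoExtHyp K A V₁ V₂ u₁ u₂) (x : L) :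
    IsIntegral A x ↔ x ∈ V₁ ∧ x ∈ V₂ := by
  constructor
  · intro hx
    exact ⟨h.over₁.integral_mem hx, h.over₂.integral_mem hx⟩
  · rintro ⟨hx₁, hx₂⟩
    have hD : IsDedekindDomain (integralClosure A L) := integralClosure.isDedekindDomain A K L
    have hFr : IsFractionRing (integralClosure A L) L :=
      integralClosure.isFractionRing_of_finite_extension K L
    have hint : Algebra.IsIntegral A (integralClosure A L) :=
      IsIntegralClosure.isIntegral_algebra A L
    have key : ∀ v : HeightOneSpectrum (integralClosure A L), v.valuation L x ≤ 1 := by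
      intro v
      have hmax : (v.asIdeal.comap (algebraMap A (integralClosure A L))).IsMaximal :=
        Ideal.isMaximal_comap_of_isIntegral_of_isMaximal v.asIdeal
      have hlo : v.asIdeal.LiesOver (maximalIdeal A) :=
        ⟨(IsLocalRing.eq_maximalIdeal hmax).symm⟩
      rcases h.core.1 v.asIdeal v.isPrime hlo with h1 | h1
      · have := eq_valuationSubring_of_center V₁ h.over₁.mem_integralClosure
          (h.over₁.ne_top K) v h1
        rw [this] at hx₁
        exact hx₁
      · have := eq_valuationSubring_of_center V₂ h.over₂.mem_integralClosure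
          (h.over₂.ne_top K) v h1
        rw [this] at hx₂
        exact hx₂
    obtain ⟨c, hc⟩ := HeightOneSpectrum.mem_integers_of_valuation_le_one L x key
    rw [← hc]
    exact c.2

include K in
/-- spanning of the residue field by an independent family of the right size -/
theorem IsOver.exists_sub_sum_mem_nonunits {V : ValuationSubring L} (hV : IsOver A V) {f : ℕ}
    (hf : Ideal.inertiaDeg' (maximalIdeal A) (center V hV.mem_integralClosure) = f)
    (u : Fin f → L) (hu : ∀ i, u i ∈ V)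
    (hind : ∀ a : Fin f → A, (∑ i, algebraMap A L (a i) * u i) ∈ V.nonunits →
      ∀ i, a i ∈ maximalIdeal A) {x : L} (hx : x ∈ V) :
    ∃ a : Fin f → A, x - ∑ i, algebraMap A L (a i) * u i ∈ V.nonunits := by
  have hlo := hV.center_liesOver
  have hfin : Module.Finite A (integralClosure A L) := IsIntegralClosure.finite A K L _
  rw [Ideal.inertiaDeg'_algebraMap] at hf
  choose s hs using fun i => hV.exists_sub_mem_nonunits K (hu i)
  have hli := hV.linearIndependent_mk u s hs hind
  have hcard : Fintype.card (Fin f)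
      = Module.finrank (A ⧸ maximalIdeal A)
          (integralClosure A L ⧸ center V hV.mem_integralClosure) := by
    rw [hf, Fintype.card_fin]
  let _ : Field (A ⧸ maximalIdeal A) := Ideal.Quotient.field (maximalIdeal A)
  have hspan := LinearIndependent.span_eq_top_of_card_eq_finrank' (K := A ⧸ maximalIdeal A)
    hli hcard
  obtain ⟨t, ht⟩ := hV.exists_sub_mem_nonunits K hx
  have hmem : Ideal.Quotient.mk (center V hV.mem_integralClosure) t ∈
      Submodule.span (A ⧸ maximalIdeal A)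
        (Set.range fun i => Ideal.Quotient.mk (center V hV.mem_integralClosure) (s i)) := by
    rw [hspan]
    exact Submodule.mem_top
  rw [Submodule.mem_span_range_iff_exists_fun] at hmem
  obtain ⟨c, hc⟩ := hmem
  choose a ha using fun i => Ideal.Quotient.mk_surjective (c i)
  refine ⟨a, ?_⟩
  have h1 : ∀ i, c i • Ideal.Quotient.mk (center V hV.mem_integralClosure) (s i)
      = Ideal.Quotient.mk (center V hV.mem_integralClosure)
          (algebraMap A (integralClosure A L) (a i) * s i) := by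
    intro i
    rw [Algebra.smul_def, ← ha i, Ideal.Quotient.algebraMap_mk_of_liesOver, map_mul]
  simp only [h1] at hc
  rw [← map_sum, Ideal.Quotient.eq, mem_center_iff] at hc
  have h2 : x - ∑ i, algebraMap A L (a i) * u i
      = (x - algebraMap (integralClosure A L) L t)
        - algebraMap (integralClosure A L) L
            (∑ i, algebraMap A (integralClosure A L) (a i) * s i - t)
        - ∑ i, algebraMap A L (a i) * (u i - algebraMap (integralClosure A L) L (s i)) := by
    rw [map_sub, map_sum]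
    have h3 : ∀ i, algebraMap (integralClosure A L) L
        (algebraMap A (integralClosure A L) (a i) * s i)
        = algebraMap A L (a i) * algebraMap (integralClosure A L) L (s i) := by
      intro i
      rw [map_mul, ← IsScalarTower.algebraMap_apply]
    simp only [h3, mul_sub, Finset.sum_sub_distrib]
    ring
  rw [h2]
  refine sub_mem (sub_mem ht hc) (sum_mem fun i _ => ?_)
  exact mul_mem_nonunits (hV.mem _) (hs i)

/-- **TwoExt (4)**: the residues of `u₁` span the residue field of `V₁`. -/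
theorem TwoExtHyp.span₁ (h : TwoExtHyp K A V₁ V₂ u₁ u₂) {x : L} (hx : x ∈ V₁) :
    ∃ a : Fin f₁ → A, x - ∑ i, algebraMap A L (a i) * u₁ i ∈ V₁.nonunits :=
  h.over₁.exists_sub_sum_mem_nonunits (K := K) h.core.2.2.2.1 u₁ h.mem₁ h.indep₁ hx

/-- **TwoExt (4')**: the residues of `u₂` span the residue field of `V₂`. -/
theorem TwoExtHyp.span₂ (h : TwoExtHyp K A V₁ V₂ u₁ u₂) {x : L} (hx : x ∈ V₂) :
    ∃ a : Fin f₂ → A, x - ∑ i, algebraMap A L (a i) * u₂ i ∈ V₂.nonunits :=
  h.over₂.exists_sub_sum_mem_nonunits (K := K) h.core.2.2.2.2 u₂ h.mem₂ h.indep₂ hx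

end Main

end Fermat.Agent.A2.H489

end
-- ===== PACK-END A2/H489/TwoExtD.lean

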