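import Fermat.Prelude.Def_ModularCurve_ReductionModL
import Mathlib
import Fermat.Prelude.Def_ModularCurve_X0ModL
import Fermat.Agent.Pack.S34.G0E7L1
import Fermat.Agent.Pack.S34.G0E4L3
import Fermat.Agent.Pack.S34.G0E7L2
import Fermat.Agent.Pack.S34.G0E7L3
import Fermat.Agent.Pack.S34.G0E7L0
import Fermat.Agent.Pack.S34.G0E6L2
import Fermat.Agent.Pack.S34.G0E6L3
import Fermat.Agent.Pack.S34.G0E4L1
import Fermat.Agent.Pack.S34.G0E4L2
import Fermat.Agent.Pack.S34.G0E1L3
import Fermat.Agent.Pack.S34.G0E5L3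
import Fermat.Agent.Pack.S34.G0E2L0
import Fermat.Agent.Pack.S34.G0E1L1

-- ===== PACK-BEGIN S30/H990/Glue.lean
section
/-
S30 top glue (helper990): assembly.
`result_of : ChebWeak → HasAdicEigenModules → <frozen statement S30>` (with `𝒪'' := 𝒪'`).
-/




set_option autoImplicit false

namespace Fermat.Agent.S30.H990

open Polynomial Fermat.Agent.S55.H414

section Assembly

variable {p N : ℕ} [Fact p.Prime] [NeZero N] {S : Finset ℕ}
  {𝒪 : Type} [CommRing 𝒪] [IsDomain 𝒪] [IsDiscreteValuationRing 𝒪]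
  [IsAdicComplete (IsLocalRing.maximalIdeal 𝒪) 𝒪] [Finite (IsLocalRing.ResidueField 𝒪)]
  {χ : CuspForm.heckeAlgebra N 2 (↑S : Set ℕ) →+* 𝒪}

/-- The quadratic relation modulo `𝔪 ^ n` for every element of `G_ℚ`. -/
theorem exists_rel_mod (hcheb : ChebWeak) (hpS : p ∈ S)
    (hNS : ∀ q : ℕ, q.Prime → q ∣ N → q ∈ S) (E : AdicEigenModule p N S 𝒪 χ)
    (d : GQ →* 𝒪ˣ)
    (hdfrob : ∀ ℓ : ℕ, ℓ.Prime → ℓ ≠ p → ∀ A : ValuationSubring (AlgebraicClosure ℚ),
      A.LiesOverPrime ℓ → ∀ σ : GQ, A.IsFrobeniusAt σ ℓ → ((d σ : 𝒪ˣ) : 𝒪) = (ℓ : 𝒪))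
    (hdcont : ∀ (n : ℕ) (σ : GQ), (∀ x ∈ cycloLevel (p ^ n), σ x = x) →
      ((d σ : 𝒪ˣ) : 𝒪) - 1 ∈ IsLocalRing.maximalIdeal 𝒪 ^ n)
    (g : GQ) (n : ℕ) :
    ∃ a : 𝒪, ∀ v : E.M, E.ρ g (E.ρ g v) - a • E.ρ g v + ((d g : 𝒪ˣ) : 𝒪) • v
      ∈ (IsLocalRing.maximalIdeal 𝒪 ^ n) • (⊤ : Submodule 𝒪 E.M) := by
  obtain ⟨L₁, hL₁fin, hL₁⟩ := E.cont n
  have : FiniteDimensional ℚ L₁ := hL₁fin
  have hLfin : FiniteDimensional ℚ ↥(L₁ ⊔ cycloLevel (p ^ n)) :=
    IntermediateField.finiteDimensional_sup L₁ (cycloLevel (p ^ n))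
  obtain ⟨ℓ, hℓ, hℓS, A, hA, τ, hτ, j, hj⟩ := hcheb (L₁ ⊔ cycloLevel (p ^ n)) hLfin g S
  have hℓp : ℓ ≠ p := fun h => hℓS (h ▸ hpS)
  have hℓN : ¬ ℓ ∣ N := fun h => hℓS (hNS ℓ hℓ h)
  have hℓS' : ℓ ∉ (↑S : Set ℕ) := fun h => hℓS (Finset.mem_coe.mp h)
  -- `g = τ ^ j * σ` with `σ` fixing `L`
  set σ : GQ := (τ ^ j)⁻¹ * g with hσ
  have hg : g = τ ^ j * σ := by rw [hσ, mul_inv_cancel_left]
  have hσfix : ∀ x ∈ L₁ ⊔ cycloLevel (p ^ n), σ x = x := by
    intro x hx
    have h1 : σ x = (τ ^ j)⁻¹ (g x) := rfl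
    rw [h1, hj x hx]
    exact (τ ^ j).symm_apply_apply x
  have hs : ∀ v : E.M, E.ρ σ v - v
      ∈ (IsLocalRing.maximalIdeal 𝒪 ^ n) • (⊤ : Submodule 𝒪 E.M) :=
    hL₁ σ (fun x hx => hσfix x ((le_sup_left : L₁ ≤ L₁ ⊔ cycloLevel (p ^ n)) hx))
  have hu : ((d σ : 𝒪ˣ) : 𝒪) - 1 ∈ IsLocalRing.maximalIdeal 𝒪 ^ n :=
    hdcont n σ (fun x hx =>
      hσfix x ((le_sup_right : cycloLevel (p ^ n) ≤ L₁ ⊔ cycloLevel (p ^ n)) hx))
  have hfrob := E.frob ℓ hℓ hℓN hℓS' A hA τ hτ
  obtain ⟨t, ht⟩ := lucas (E.ρ τ) (χ (CuspForm.heckeAlgebra.T hℓ hℓN hℓS')) (ℓ : 𝒪) hfrob j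
  refine ⟨t, fun v => ?_⟩
  have key := rel_mod_of_mul (IsLocalRing.maximalIdeal 𝒪 ^ n) (E.ρ τ ^ j) (E.ρ σ) t
    ((ℓ : 𝒪) ^ j) ((d σ : 𝒪ˣ) : 𝒪) ht hs hu v
  have hρg : E.ρ g = E.ρ τ ^ j * E.ρ σ := by rw [hg, map_mul, map_pow]
  have hdg : ((d g : 𝒪ˣ) : 𝒪) = (ℓ : 𝒪) ^ j * ((d σ : 𝒪ˣ) : 𝒪) := by
    rw [hg, map_mul, map_pow, Units.val_mul, Units.val_pow_eq_pow_val,
      hdfrob ℓ hℓ hℓp A hA τ hτ]
  rw [hρg, hdg]
  exact key

/-- From an adic eigenmodule to a two-dimensional adic Galois representation. -/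
theorem exists_galoisRepAdic [CharZero 𝒪] (hcheb : ChebWeak) (hpS : p ∈ S)
    (hNS : ∀ q : ℕ, q.Prime → q ∣ N → q ∈ S)
    (hp𝒪 : (p : 𝒪) ∈ IsLocalRing.maximalIdeal 𝒪) (E : AdicEigenModule p N S 𝒪 χ) :
    ∃ ρ : GaloisRepAdic 𝒪,
      (∀ (ℓ : ℕ) (hℓ : ℓ.Prime) (hℓN : ¬ ℓ ∣ N) (hℓS : ℓ ∉ (↑S : Set ℕ)),
        ∀ A : ValuationSubring (AlgebraicClosure ℚ), A.LiesOverPrime ℓ →
          ∀ σ : AlgebraicClosure ℚ ≃ₐ[ℚ] AlgebraicClosure ℚ, A.IsFrobeniusAt σ ℓ →
            LinearMap.charpoly (ρ.ρ σ) =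
              X ^ 2 - C (χ (CuspForm.heckeAlgebra.T hℓ hℓN hℓS)) * X + C ((ℓ : 𝒪))) ∧
      (∀ q : ℕ, q.Prime → ¬ q ∣ N → q ≠ p → ρ.IsUnramifiedAt q) := by
  obtain ⟨d, hdfrob, hdinert, hdc, hdcont⟩ := exists_cyclo p 𝒪 hp𝒪
  have hrel : ∀ g : GQ, ∃ a, Rel E.ρ d g a := fun g =>
    exists_rel_of_mod E.ρ d g (fun n => exists_rel_mod hcheb hpS hNS E d hdfrob hdcont g n)
  have h2 : (2 : 𝒪) ≠ 0 := two_ne_zero
  obtain ⟨T⟩ := exists_twoDim E.ρ d h2 hrel complexConjugation complexConjugation_mul_self hdc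
  refine ⟨{ V := T.V
            finrank_eq := T.finrank_eq
            ρ := T.ρ₂
            isAdicContinuous := ?_ }, ?_, ?_⟩
  · intro n
    obtain ⟨L₁, hL₁fin, hL₁⟩ := E.cont n
    have : FiniteDimensional ℚ L₁ := hL₁fin
    refine ⟨L₁ ⊔ cycloLevel (p ^ n),
      IntermediateField.finiteDimensional_sup L₁ (cycloLevel (p ^ n)), fun σ hσ v => ?_⟩
    refine T.cong (IsLocalRing.maximalIdeal 𝒪 ^ n) σ ?_ ?_ v
    · exact hL₁ σ (fun x hx => hσ x ((le_sup_left : L₁ ≤ L₁ ⊔ cycloLevel (p ^ n)) hx))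
    · exact hdcont n σ (fun x hx =>
        hσ x ((le_sup_right : cycloLevel (p ^ n) ≤ L₁ ⊔ cycloLevel (p ^ n)) hx))
  · intro ℓ hℓ hℓN hℓS A hA σ hσ
    have hℓp : ℓ ≠ p := fun h => hℓS (Finset.mem_coe.mpr (h ▸ hpS))
    have hr : Rel E.ρ d σ (χ (CuspForm.heckeAlgebra.T hℓ hℓN hℓS)) := by
      unfold Rel
      rw [hdfrob ℓ hℓ hℓp A hA σ hσ]
      exact E.frob ℓ hℓ hℓN hℓS A hA σ hσ
    have := T.charpoly_eq σ _ hr
    rw [hdfrob ℓ hℓ hℓp A hA σ hσ] at this
    exact this
  · intro q hq hqN hqp P hP σ hσ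
    have h1 : E.ρ σ = 1 := E.unram q hq hqN hqp P hP σ hσ
    have h2 : d σ = 1 := hdinert q hq hqp P hP σ hσ
    have h3 := T.cong ⊥ σ (fun v => by rw [h1]; simp) (by rw [h2]; simp)
    ext v
    have h4 := h3 v
    rw [Submodule.bot_smul, Submodule.mem_bot, sub_eq_zero] at h4
    simpa using h4

end Assembly

/-- **S30 from the Chebotarev hypothesis and the adic eigenmodules.** -/
theorem result_of (hcheb : ChebWeak) (hmod : HasAdicEigenModules) :
    ∀ (p : ℕ) [Fact p.Prime] (N : ℕ) [NeZero N] (S : Finset ℕ)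
      (_hpS : p ∈ S) (_hNS : ∀ q : ℕ, q.Prime → q ∣ N → q ∈ S)
      (𝒪' : Type) [CommRing 𝒪'] [IsDomain 𝒪'] [IsDiscreteValuationRing 𝒪']
      [IsAdicComplete (IsLocalRing.maximalIdeal 𝒪') 𝒪'] [Finite (IsLocalRing.ResidueField 𝒪')]
      [CharZero 𝒪'] (_hp𝒪' : (p : 𝒪') ∈ IsLocalRing.maximalIdeal 𝒪')
      (χ : CuspForm.heckeAlgebra N 2 (↑S : Set ℕ) →+* 𝒪'),
      ∃ (𝒪'' : Type) (_ : CommRing 𝒪'') (_ : IsDomain 𝒪'') (_ : IsDiscreteValuationRing 𝒪'')
        (_ : IsAdicComplete (IsLocalRing.maximalIdeal 𝒪'') 𝒪'')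
        (_ : Finite (IsLocalRing.ResidueField 𝒪'')) (_ : CharZero 𝒪'')
        (_ : Algebra 𝒪' 𝒪'') (_ : Module.Finite 𝒪' 𝒪'') (_ : IsLocalHom (algebraMap 𝒪' 𝒪'')),
      Function.Injective (algebraMap 𝒪' 𝒪'') ∧
      ∃ ρ : GaloisRepAdic 𝒪'',
        (∀ (ℓ : ℕ) (hℓ : ℓ.Prime) (hℓN : ¬ ℓ ∣ N) (hℓS : ℓ ∉ (↑S : Set ℕ)),
          ∀ A : ValuationSubring (AlgebraicClosure ℚ), A.LiesOverPrime ℓ →
            ∀ σ : AlgebraicClosure ℚ ≃ₐ[ℚ] AlgebraicClosure ℚ, A.IsFrobeniusAt σ ℓ →
              LinearMap.charpoly (ρ.ρ σ) =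
                X ^ 2 - C (algebraMap 𝒪' 𝒪'' (χ (CuspForm.heckeAlgebra.T hℓ hℓN hℓS))) * X
                  + C ((ℓ : 𝒪''))) ∧
        (∀ q : ℕ, q.Prime → ¬ q ∣ N → q ≠ p → ρ.IsUnramifiedAt q) := by
  intro p _ N _ S hpS hNS 𝒪' _ _ _ _ _ _ hp𝒪' χ
  obtain ⟨E⟩ := hmod p N S hpS hNS 𝒪' hp𝒪' χ
  obtain ⟨ρ, hρ1, hρ2⟩ := exists_galoisRepAdic hcheb hpS hNS hp𝒪' E
  exact ⟨𝒪', inferInstance, inferInstance, inferInstance, inferInstance, inferInstance,
    inferInstance, Algebra.id 𝒪', Module.Finite.self 𝒪', isLocalHom_id 𝒪',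
    Function.injective_id, ρ, hρ1, hρ2⟩

end Fermat.Agent.S30.H990

end
-- ===== PACK-END S30/H990/Glue.lean

-- ===== PACK-BEGIN Lib/Cheb/FrobeniusDivision.lean
section



/-!
# CHEB, Tier 1 END: the Frobenius division theorem over `ℚ̄`

`Fermat.Agent.Lib.Cheb.frobeniusDivision : Spec.FrobeniusDivisionStatement`

For every finite extension `E ⊆ ℚ̄` of `ℚ`, every `σ ∈ Gal(ℚ̄/ℚ)` and every finite set `S` of
numbers there are a prime `ℓ ∉ S`, a valuation subring `A` of `ℚ̄` over `ℓ`, a Frobenius `τ` at `A`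
(Prelude's `IsFrobeniusAt`) and exponents `k`, `j` such that the inertia group of `A` acts
trivially on `E`, `τ = σ ^ k` on `E` and `τ ^ j = σ` on `E`
(i.e. `τ|_E` and `σ|_E` generate the same cyclic subgroup: "Frobenius density, qualitative").

Assembled from
* `frobFinite` (finite level, Galois number fields; pieces Z, B0, A, D, M), and
* `H476.bridgeDivision` (bridge F6 from the finite level to valuation subrings of `ℚ̄`).
-/

set_option autoImplicit false

namespace Fermat.Agent.Lib.Cheb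

/-- **Frobenius division theorem** (qualitative Frobenius density theorem over `ℚ̄`). -/
theorem frobeniusDivision : Spec.FrobeniusDivisionStatement :=
  H476.bridgeDivision frobFinite

end Fermat.Agent.Lib.Cheb

end
-- ===== PACK-END Lib/Cheb/FrobeniusDivision.lean

-- ===== PACK-BEGIN S31/H622/Alg.lean
section


/-!
# Row S31, piece SS (helper622) — from self-adjointness of `T_ℓ` to reducedness

If every `T_ℓ` (`ℓ ∤ N`) is symmetric for the Petersson product, the Hecke algebra away from a set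
`S` containing the primes of `N` is reduced.
-/

set_option autoImplicit false
set_option linter.unusedSectionVars false

open UpperHalfPlane CongruenceSubgroup MeasureTheory
open scoped MatrixGroups ModularForm ComplexConjugate

namespace Fermat.Agent.S31.H622

variable (N : ℕ) [NeZero N]

/-- Symmetric operators for the Petersson product. -/
def IsPetSymm (X : Module.End ℂ (CuspForm (Gamma0 N) 2)) : Prop :=
  ∀ f g, petC N (X f) g = petC N f (X g)

theorem petC_zero_right (f : CuspForm (Gamma0 N) 2) : petC N f 0 = 0 := by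
  have h := petC_smul_right N 0 f 0
  rwa [zero_smul, zero_mul] at h

theorem isPetSymm_add {X Y : Module.End ℂ (CuspForm (Gamma0 N) 2)} (hX : IsPetSymm N X)
    (hY : IsPetSymm N Y) : IsPetSymm N (X + Y) := by
  intro f g
  rw [LinearMap.add_apply, LinearMap.add_apply, petC_add_left, petC_add_right, hX f g, hY f g]

theorem isPetSymm_algebraMap (n : ℤ) :
    IsPetSymm N (algebraMap ℤ (Module.End ℂ (CuspForm (Gamma0 N) 2)) n) := by
  intro f g
  have h : ∀ f : CuspForm (Gamma0 N) 2,
      (algebraMap ℤ (Module.End ℂ (CuspForm (Gamma0 N) 2)) n) f = (n : ℂ) • f := by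
    intro f
    rw [Algebra.algebraMap_eq_smul_one, LinearMap.smul_apply, Module.End.one_apply,
      Int.cast_smul_eq_zsmul]
  rw [h, h, petC_smul_left, petC_smul_right, map_intCast]

theorem isPetSymm_mul_of_commute {X Y : Module.End ℂ (CuspForm (Gamma0 N) 2)} (hX : IsPetSymm N X)
    (hY : IsPetSymm N Y) (hc : X * Y = Y * X) : IsPetSymm N (X * Y) := by
  intro f g
  calc petC N ((X * Y) f) g = petC N (X (Y f)) g := rfl
    _ = petC N (Y f) (X g) := hX _ _
    _ = petC N f (Y (X g)) := hY _ _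
    _ = petC N f ((Y * X) g) := rfl
    _ = petC N f ((X * Y) g) := by rw [hc]

theorem isPetSymm_of_mem_heckeAlgebra (S : Set ℕ)
    (hNS : ∀ q : ℕ, q.Prime → q ∣ N → q ∈ S)
    (hsa : ∀ (ℓ : ℕ) (hℓ : ℓ.Prime) (hℓN : ¬ ℓ ∣ N), IsPetSymm N (CuspForm.heckeTLin 2 hℓ hℓN))
    {X : Module.End ℂ (CuspForm (Gamma0 N) 2)} (hX : X ∈ CuspForm.heckeAlgebra N 2 S) :
    IsPetSymm N X := by
  unfold CuspForm.heckeAlgebra at hX
  induction hX using Algebra.adjoin_induction with
  | mem x hx =>
    rcases hx with ⟨ℓ, hℓ, hℓN, -, rfl⟩ | ⟨q, hqN, hq, hqS, rfl⟩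
    · exact hsa ℓ hℓ hℓN
    · exact absurd (hNS q hq hqN) hqS
  | algebraMap n => exact isPetSymm_algebraMap N n
  | add x y hx hy ihx ihy => exact isPetSymm_add N ihx ihy
  | mul x y hx hy ihx ihy =>
    refine isPetSymm_mul_of_commute N ihx ihy ?_
    have h := mul_comm (⟨x, hx⟩ : CuspForm.heckeAlgebra N 2 S) ⟨y, hy⟩
    exact congrArg Subtype.val h

theorem isReduced_of_selfAdjoint (S : Set ℕ)
    (hNS : ∀ q : ℕ, q.Prime → q ∣ N → q ∈ S)
    (hsa : ∀ (ℓ : ℕ) (hℓ : ℓ.Prime) (hℓN : ¬ ℓ ∣ N), IsPetSymm N (CuspForm.heckeTLin 2 hℓ hℓN)) :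
    IsReduced (CuspForm.heckeAlgebra N 2 S) := by
  rw [isReduced_iff_pow_one_lt 2 one_lt_two]
  intro X hX
  have hsym := isPetSymm_of_mem_heckeAlgebra N S hNS hsa X.2
  have h2 : (X : Module.End ℂ (CuspForm (Gamma0 N) 2)) * X = 0 := by
    have := congrArg Subtype.val hX
    rwa [pow_two] at this
  apply Subtype.ext
  apply LinearMap.ext
  intro f
  apply eq_zero_of_petC_self_eq_zero N
  rw [hsym, ← Module.End.mul_apply, h2, LinearMap.zero_apply, petC_zero_right]

end Fermat.Agent.S31.H622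

end
-- ===== PACK-END S31/H622/Alg.lean

-- ===== PACK-BEGIN S37/Core/PlaceRed.lean
section



/-!
# S37 row (helper37): from a place reduction map to the frozen statement

`PlaceRed N A ℓ σ₀` is the geometric datum to be constructed by the row:
a map `r` from the places of `ℚ̄(X₀(N))` to the places of the function field of the special
fibre such that
* `isRed`, `gen` : `r` witnesses `ReductionInputsModL A N` (Prelude);
* `inertia` : `r (τ • P) = r P` for `τ` in the inertia group at `A`;
* `es` : Eichler-Shimura on divisors, `r_* (T_ℓ P) = r (σ₀ P) + ℓ · r (σ₀⁻¹ P)`.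

`specialization_of_placeRed` turns it (together with `HeckeInputsAlong` and the conclusion of
the frozen statement S18, both taken as hypotheses) into the conclusion of S37 at `(ℓ, A)`.
Everything here is fully proved.
-/

set_option autoImplicit false
set_option synthInstance.maxHeartbeats 400000

noncomputable section

namespace Fermat.Agent.S37.Core

open ModularCurve ValuationSubring AlgebraicCurve HahnSeries

/-- the conclusion of the frozen statement S18 at `(N, ℓ, A)` -/
def InjTorsionModL (N : ℕ) [NeZero N] (ℓ : ℕ) (A : ValuationSubring (AlgebraicClosure ℚ)) :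
    Prop :=
  ∀ (_ : ReductionInputsModL A N) (m : ℕ), ¬ ℓ ∣ m → ∀ z : JZero N, m • z = 0 →
    reductionModL A N z = 0 → z = 0

/-- The geometric datum: a place reduction map with inertia invariance and the
Eichler-Shimura congruence on divisors, relative to one Frobenius element `σ₀`. -/
structure PlaceRed (N : ℕ) [NeZero N] (A : ValuationSubring (AlgebraicClosure ℚ)) (ℓ : ℕ)
    [NeZero ℓ] (σ₀ : AlgebraicClosure ℚ ≃ₐ[ℚ] AlgebraicClosure ℚ) : Type where
  /-- the reduction map on places -/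
  r : Place (AlgebraicClosure ℚ) (modularFunctionFieldBar N) →
    Place (IsLocalRing.ResidueField A) (modularFunctionFieldFullC (IsLocalRing.ResidueField A) N)
  isRed : IsPlaceReductionModL A N r
  gen : PrincipalGeneratedByIntegral A (IsLocalRing.residue A) N
  inertia : ∀ τ ∈ A.inertiaSubgroupIn ℚ,
    ∀ P : Place (AlgebraicClosure ℚ) (modularFunctionFieldBar N),
      r (arithmeticGalois (modularFunctionFieldFull N) τ • P) = r P
  es : ∀ (hα : HeckeAlphaBarIntegral (AlgebraicClosure ℚ) N ℓ)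
    (hβ : HeckeBetaBarIntegral (AlgebraicClosure ℚ) N ℓ)
    [HasPrincipalDivisors (AlgebraicClosure ℚ) (modularFunctionFieldBar (N * ℓ))]
    (P : Place (AlgebraicClosure ℚ) (modularFunctionFieldBar N)),
    Finsupp.mapDomain r (heckeDivBar hα hβ (Finsupp.single P 1)) =
      Finsupp.single (r (arithmeticGalois (modularFunctionFieldFull N) σ₀ • P)) 1 +
        Finsupp.single (r ((arithmeticGalois (modularFunctionFieldFull N) σ₀)⁻¹ • P)) (ℓ : ℤ)

section Torsion

variable {L : Type*} [Field L] [Algebra ℚ L] {A : ValuationSubring L}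
variable {k : Type*} [Field k] {π : A →+* k} {N : ℕ}

/-- two place reductions agree on principal divisors -/
theorem mapDomain_eq_of_mem_principal
    {r₁ r₂ : Place L (laurentBaseChange L (modularFunctionFieldFull N)) →
      Place k (modularFunctionFieldFullC k N)}
    (h₁ : IsPlaceReductionAlong A π N r₁) (h₂ : IsPlaceReductionAlong A π N r₂)
    (hgen : PrincipalGeneratedByIntegral A π N)
    {D : Divisor L (laurentBaseChange L (modularFunctionFieldFull N))}
    (hD : D ∈ Divisor.principal (K := L) (F := laurentBaseChange L (modularFunctionFieldFull N))) :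
    Finsupp.mapDomain r₁ D = Finsupp.mapDomain r₂ D := by
  have hD' := hgen hD
  clear hD
  induction hD' using AddSubgroup.closure_induction with
  | mem E hE =>
    obtain ⟨y, hy, hyk, hne, hDy⟩ := hE
    ext Q
    rw [h₁.2 y hy hyk hne E hDy Q, h₂.2 y hy hyk hne E hDy Q]
  | zero => rw [Finsupp.mapDomain_zero, Finsupp.mapDomain_zero]
  | add E E' _ _ hE hE' => rw [Finsupp.mapDomain_add, Finsupp.mapDomain_add, hE, hE']
  | neg E _ hE =>
    rw [← Finsupp.mapDomain.addMonoidHom_apply, ← Finsupp.mapDomain.addMonoidHom_apply, map_neg,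
      map_neg, Finsupp.mapDomain.addMonoidHom_apply, Finsupp.mapDomain.addMonoidHom_apply, hE]

/-- two place reductions agree on divisors some nonzero multiple of which is principal -/
theorem mapDomain_eq_of_nsmul_mem_principal
    {r₁ r₂ : Place L (laurentBaseChange L (modularFunctionFieldFull N)) →
      Place k (modularFunctionFieldFullC k N)}
    (h₁ : IsPlaceReductionAlong A π N r₁) (h₂ : IsPlaceReductionAlong A π N r₂)
    (hgen : PrincipalGeneratedByIntegral A π N)
    {D : Divisor L (laurentBaseChange L (modularFunctionFieldFull N))} {m : ℕ} (hm : m ≠ 0)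
    (hD : m • D ∈
      Divisor.principal (K := L) (F := laurentBaseChange L (modularFunctionFieldFull N))) :
    Finsupp.mapDomain r₁ D = Finsupp.mapDomain r₂ D := by
  have h := mapDomain_eq_of_mem_principal h₁ h₂ hgen hD
  rw [← Finsupp.mapDomain.addMonoidHom_apply, ← Finsupp.mapDomain.addMonoidHom_apply,
    map_nsmul, map_nsmul, Finsupp.mapDomain.addMonoidHom_apply,
    Finsupp.mapDomain.addMonoidHom_apply] at h
  ext Q
  have hQ := DFunLike.congr_fun h Q
  rw [Finsupp.smul_apply, Finsupp.smul_apply, nsmul_eq_mul, nsmul_eq_mul] at hQ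
  exact mul_left_cancel₀ (Nat.cast_ne_zero.mpr hm) hQ

/-- on torsion classes the reduction map does not depend on the place reduction -/
theorem reductionPic0Along_eq_of_nsmul_eq_zero
    {r₁ r₂ : Place L (laurentBaseChange L (modularFunctionFieldFull N)) →
      Place k (modularFunctionFieldFullC k N)}
    (h₁ : IsPlaceReductionAlong A π N r₁) (h₂ : IsPlaceReductionAlong A π N r₂)
    (hgen : PrincipalGeneratedByIntegral A π N) {m : ℕ} (hm : m ≠ 0)
    {x : Pic0 L (laurentBaseChange L (modularFunctionFieldFull N))} (hx : m • x = 0) :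
    reductionPic0Along r₁ h₁ hgen x = reductionPic0Along r₂ h₂ hgen x := by
  obtain ⟨D, rfl⟩ := Pic0.mk_surjective x
  rw [reductionPic0Along_mk, reductionPic0Along_mk]
  congr 1
  apply Subtype.ext
  rw [coe_reductionDegZeroAlong, coe_reductionDegZeroAlong]
  refine mapDomain_eq_of_nsmul_mem_principal h₁ h₂ hgen hm ?_
  have h0 : (m • D : Divisor.degZero (K := L)
      (F := laurentBaseChange L (modularFunctionFieldFull N))) ∈
      (Divisor.principal (K := L)
        (F := laurentBaseChange L (modularFunctionFieldFull N))).addSubgroupOf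
        (Divisor.degZero (K := L) (F := laurentBaseChange L (modularFunctionFieldFull N))) := by
    rw [← QuotientAddGroup.eq_zero_iff]
    exact hx
  rw [AddSubgroup.mem_addSubgroupOf, AddSubgroupClass.coe_nsmul] at h0
  exact h0

end Torsion

section Main

variable {N : ℕ} [NeZero N] {A : ValuationSubring (AlgebraicClosure ℚ)} {ℓ : ℕ} [NeZero ℓ]
  {σ₀ : AlgebraicClosure ℚ ≃ₐ[ℚ] AlgebraicClosure ℚ}

/-- the reduction map on `J₀(N)` attached to a `PlaceRed` -/
def PlaceRed.red (D : PlaceRed N A ℓ σ₀) : JZero N →+ JZeroC (IsLocalRing.ResidueField A) N :=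
  reductionPic0Along D.r D.isRed D.gen

theorem PlaceRed.red_mk (D : PlaceRed N A ℓ σ₀)
    (E : Divisor.degZero (K := AlgebraicClosure ℚ) (F := modularFunctionFieldBar N)) :
    D.red (Pic0.mk E) = Pic0.mk (reductionDegZeroAlong D.r D.isRed.1 E) := rfl

theorem PlaceRed.reductionInputs (D : PlaceRed N A ℓ σ₀) : ReductionInputsModL A N :=
  ⟨D.r, D.isRed, D.gen⟩

/-- on torsion classes `D.red` is the Prelude reduction map -/
theorem PlaceRed.red_eq_reductionModL (D : PlaceRed N A ℓ σ₀) {m : ℕ} (hm : m ≠ 0)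
    {x : JZero N} (hx : m • x = 0) : D.red x = reductionModL A N x := by
  have h := D.reductionInputs
  show reductionPic0Along D.r D.isRed D.gen x = reductionAlong A (IsLocalRing.residue A) N x
  rw [reductionAlong_eq h]
  exact reductionPic0Along_eq_of_nsmul_eq_zero D.isRed h.choose_spec.1 D.gen hm hx

/-- inertia acts trivially after reduction -/
theorem PlaceRed.red_inertia (D : PlaceRed N A ℓ σ₀)
    {τ : AlgebraicClosure ℚ ≃ₐ[ℚ] AlgebraicClosure ℚ} (hτ : τ ∈ A.inertiaSubgroupIn ℚ)
    (x : JZero N) : D.red (τ • x) = D.red x := by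
  obtain ⟨E, rfl⟩ := Pic0.mk_surjective x
  rw [galois_smul_pic0_def, SemilinearAut.pic0_smul_mk, D.red_mk, D.red_mk]
  congr 1
  apply Subtype.ext
  rw [coe_reductionDegZeroAlong, coe_reductionDegZeroAlong, SemilinearAut.coe_degZeroSMulHom,
    SemilinearAut.divisor_smul_def, ← Finsupp.mapDomain_comp]
  congr 1
  funext P
  exact D.inertia τ hτ P

/-- injectivity on prime-to-`ℓ` torsion, from the conclusion of S18 -/
theorem PlaceRed.red_inj_torsion (D : PlaceRed N A ℓ σ₀) (hS18 : InjTorsionModL N ℓ A)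
    {m : ℕ} (hm : ¬ ℓ ∣ m) {x : JZero N} (hx : m • x = 0) (h0 : D.red x = 0) : x = 0 := by
  have hm0 : m ≠ 0 := fun h => hm (h ▸ dvd_zero ℓ)
  refine hS18 D.reductionInputs m hm x hx ?_
  rw [← D.red_eq_reductionModL hm0 hx]
  exact h0

/-- the Eichler-Shimura relation on divisors -/
theorem PlaceRed.mapDomain_relation (D : PlaceRed N A ℓ σ₀)
    (hα : HeckeAlphaBarIntegral (AlgebraicClosure ℚ) N ℓ)
    (hβ : HeckeBetaBarIntegral (AlgebraicClosure ℚ) N ℓ)
    [HasPrincipalDivisors (AlgebraicClosure ℚ) (modularFunctionFieldBar (N * ℓ))]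
    (E : Divisor (AlgebraicClosure ℚ) (modularFunctionFieldBar N)) :
    Finsupp.mapDomain D.r
      (arithmeticGalois (modularFunctionFieldFull N) σ₀ •
          arithmeticGalois (modularFunctionFieldFull N) σ₀ • E -
        heckeDivBar hα hβ (arithmeticGalois (modularFunctionFieldFull N) σ₀ • E) +
        ℓ • E) = 0 := by
  set g := arithmeticGalois (modularFunctionFieldFull N) σ₀ with hg
  let Ψ : Divisor (AlgebraicClosure ℚ) (modularFunctionFieldBar N) →+
      Divisor (IsLocalRing.ResidueField A)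
        (modularFunctionFieldFullC (IsLocalRing.ResidueField A) N) :=
    (Finsupp.mapDomain.addMonoidHom D.r).comp
      ((DistribSMul.toAddMonoidHom _ g).comp (DistribSMul.toAddMonoidHom _ g) -
        (heckeDivBar hα hβ).comp (DistribSMul.toAddMonoidHom _ g) +
        ℓ • AddMonoidHom.id _)
  have hΨ : Ψ = 0 := by
    refine Finsupp.addHom_ext' fun P => ?_
    refine AddMonoidHom.ext_int ?_
    show Finsupp.mapDomain D.r (g • g • Finsupp.single P 1 -
      heckeDivBar hα hβ (g • Finsupp.single P 1) + ℓ • Finsupp.single P 1) = 0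
    rw [SemilinearAut.smul_single, SemilinearAut.smul_single, Finsupp.mapDomain_add,
      Finsupp.mapDomain_sub, D.es hα hβ (g • P), inv_smul_smul, Finsupp.mapDomain_single,
      Finsupp.smul_single, Finsupp.mapDomain_single, nsmul_eq_mul, mul_one]
    abel
  exact DFunLike.congr_fun hΨ E

end Main

end Fermat.Agent.S37.Core

end
end
-- ===== PACK-END S37/Core/PlaceRed.lean

-- ===== PACK-BEGIN S29/H395/GoodProd.lean
section
/-
S29 / layer M / bridge BR, piece NORM — helper395.

`heckeProd ℓ` preserves the landed ring `S24.H648.goodRing N` (holomorphic, `Γ₀(N)`-invariant, all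
`SL₂(ℤ)`-translates of at most exponential growth), for a prime `ℓ ∤ N`.
-/



set_option autoImplicit false
set_option linter.style.haveILetI false

noncomputable section

open CongruenceSubgroup Matrix.SpecialLinearGroup UpperHalfPlane
open scoped MatrixGroups Real Manifold OnePoint
open P2MW.S_ModularForm_heckeT_slash_eq_self_of_mem_Gamma0.ModularForm.HeckeSlashInvariance

namespace Fermat.Agent.S29.H395

open Fermat.Agent.S24 Fermat.Agent.S24.H648 Fermat.Agent.S29.H201

/-! ### Finite products -/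

theorem mdiff_finset_prod {ι : Type*} (s : Finset ι) (f : ι → ℍ → ℂ)
    (h : ∀ i ∈ s, MDifferentiable 𝓘(ℂ) 𝓘(ℂ) (f i)) :
    MDifferentiable 𝓘(ℂ) 𝓘(ℂ) (fun τ => ∏ i ∈ s, f i τ) := by
  classical
  induction s using Finset.induction_on with
  | empty => simpa using (mdifferentiable_const : MDifferentiable 𝓘(ℂ) 𝓘(ℂ) (fun _ : ℍ => (1 : ℂ)))
  | insert i s hi ih =>
    have h1 := h i (Finset.mem_insert_self i s)
    have h2 := ih fun j hj => h j (Finset.mem_insert_of_mem hj)
    have := h1.mul h2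
    have e : (fun τ => ∏ j ∈ insert i s, f j τ) = f i * fun τ => ∏ j ∈ s, f j τ := by
      funext τ
      simp [Finset.prod_insert hi]
    rw [e]
    exact this

theorem expGrowth_finset_prod {ι : Type*} (s : Finset ι) (f : ι → ℍ → ℂ)
    (h : ∀ i ∈ s, ExpGrowth (f i)) : ExpGrowth (fun τ => ∏ i ∈ s, f i τ) := by
  classical
  induction s using Finset.induction_on with
  | empty => simpa using expGrowth_const 1
  | insert i s hi ih =>
    have h1 := h i (Finset.mem_insert_self i s)
    have h2 := ih fun j hj => h j (Finset.mem_insert_of_mem hj)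
    have := h1.mul h2
    have e : (fun τ => ∏ j ∈ insert i s, f j τ) = f i * fun τ => ∏ j ∈ s, f j τ := by
      funext τ
      simp [Finset.prod_insert hi]
    rw [e]
    exact this

/-! ### Holomorphy -/

section Hol

variable {ℓ : ℕ} [Fact ℓ.Prime]

omit [Fact ℓ.Prime] in
theorem heckeRep_det_pos (x : OnePoint (ZMod ℓ)) : 0 < ((_root_.P2MW.S_ModularForm_heckeT_slash_eq_self_of_mem_Gamma0.ModularForm.HeckeSlashInvariance.heckeRep ℓ x).det : ℝ) := by
  induction x using OnePoint.rec with
  | infty => exact ModularForm.det_heckeDiagMatrix_pos ℓ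
  | coe j => exact ModularForm.det_heckeMatrix_pos ℓ j.val

theorem mdiff_heckeProd {U : ℍ → ℂ} (hU : MDifferentiable 𝓘(ℂ) 𝓘(ℂ) U) :
    MDifferentiable 𝓘(ℂ) 𝓘(ℂ) (heckeProd ℓ U) := by
  refine mdiff_finset_prod Finset.univ (fun x τ => U (_root_.P2MW.S_ModularForm_heckeT_slash_eq_self_of_mem_Gamma0.ModularForm.HeckeSlashInvariance.heckeRep ℓ x • τ)) fun x _ => ?_
  exact hU.comp (UpperHalfPlane.mdifferentiable_smul (heckeRep_det_pos x))

end Hol

/-! ### Periodicity of the translates of an invariant function -/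

theorem conj_T_pow_mem_Gamma0 (N : ℕ) (g : SL(2, ℤ)) :
    g * ModularGroup.T ^ (N : ℤ) * g⁻¹ ∈ Gamma0 N := by
  have h1 : ModularGroup.T ^ (N : ℤ) ∈ Gamma N := by
    have := ModularGroup_T_pow_mem_Gamma (N : ℤ) (N : ℤ) dvd_rfl
    simpa using this
  have h2 : g * ModularGroup.T ^ (N : ℤ) * g⁻¹ ∈ Gamma N := (Gamma_normal N).conj_mem _ h1 g
  rw [Gamma0_mem]
  exact (Gamma_mem.mp h2).2.2.1

theorem translate_periodic {N : ℕ} {G : ℍ → ℂ}
    (hG : ∀ γ ∈ Gamma0 N, ∀ τ : ℍ, G (γ • τ) = G τ) (g : SL(2, ℤ)) (τ : ℍ) :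
    G (g • ((N : ℝ) +ᵥ τ)) = G (g • τ) := by
  have h1 : ((N : ℝ) +ᵥ τ) = ModularGroup.T ^ (N : ℤ) • τ := by
    rw [UpperHalfPlane.modular_T_zpow_smul]; simp
  have h2 : g • (ModularGroup.T ^ (N : ℤ) • τ)
      = (g * ModularGroup.T ^ (N : ℤ) * g⁻¹) • (g • τ) := by
    rw [← mul_smul, ← mul_smul, inv_mul_cancel_right]
  rw [h1, h2, hG _ (conj_T_pow_mem_Gamma0 N g)]

theorem continuous_translate {G : ℍ → ℂ} (hG : MDifferentiable 𝓘(ℂ) 𝓘(ℂ) G) (g : SL(2, ℤ)) :
    Continuous (fun τ : ℍ => G (g • τ)) := by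
  have h : MDifferentiable 𝓘(ℂ) 𝓘(ℂ) (fun τ : ℍ => G (g • τ)) :=
    hG.comp (UpperHalfPlane.mdifferentiable_smul (g := (g : GL (Fin 2) ℝ)) (by simp))
  exact h.continuous

/-! ### The main statement -/

section Main

variable {N : ℕ} [NeZero N] {ℓ : ℕ} [Fact ℓ.Prime]

/-- Growth of a single factor `τ ↦ G (heckeRep x • g • τ)`. -/
theorem expGrowth_factor {G : ℍ → ℂ} (hG : G ∈ goodRing N) (g : SL(2, ℤ))
    (x : OnePoint (ZMod ℓ)) : ExpGrowth (fun τ => G (_root_.P2MW.S_ModularForm_heckeT_slash_eq_self_of_mem_Gamma0.ModularForm.HeckeSlashInvariance.heckeRep ℓ x • (g • τ))) := by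
  obtain ⟨hmd, hinv, hgr⟩ := hG
  have hℓ1 : ¬ ℓ ∣ 1 := (Fact.out : ℓ.Prime).one_lt.ne' ∘ Nat.dvd_one.mp
  have hℓ : 0 < ℓ := (Fact.out : ℓ.Prime).pos
  obtain ⟨g', -, hg'⟩ := heckeRep_mul hℓ1 g (one_dvd _) x
  have hNpos : (0 : ℝ) < (N : ℝ) := by exact_mod_cast Nat.pos_of_ne_zero (NeZero.ne N)
  have key : ∀ τ : ℍ, G (_root_.P2MW.S_ModularForm_heckeT_slash_eq_self_of_mem_Gamma0.ModularForm.HeckeSlashInvariance.heckeRep ℓ x • (g • τ))
      = G (g' • (_root_.P2MW.S_ModularForm_heckeT_slash_eq_self_of_mem_Gamma0.ModularForm.HeckeSlashInvariance.heckeRep ℓ (redMatrix ℓ g • x) • τ)) := by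
    intro τ
    show G (_root_.P2MW.S_ModularForm_heckeT_slash_eq_self_of_mem_Gamma0.ModularForm.HeckeSlashInvariance.heckeRep ℓ x • (mapGL ℝ g • τ)) = G (mapGL ℝ g' • (_root_.P2MW.S_ModularForm_heckeT_slash_eq_self_of_mem_Gamma0.ModularForm.HeckeSlashInvariance.heckeRep ℓ (redMatrix ℓ g • x) • τ))
    rw [← mul_smul, ← mul_smul, hg']
  have hF := continuous_translate hmd g'
  have hper := translate_periodic hinv g'
  generalize redMatrix ℓ g • x = y at key
  induction y using OnePoint.rec with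
  | infty =>
    have := expGrowth_comp_infAff hF hNpos hper (hgr g') hℓ one_pos 0
    have e : (fun τ => G (_root_.P2MW.S_ModularForm_heckeT_slash_eq_self_of_mem_Gamma0.ModularForm.HeckeSlashInvariance.heckeRep ℓ x • (g • τ))) = fun τ => G (g' • infAff ℓ 0 1 τ) := by
      funext τ
      rw [key τ, heckeRep_infty_smul]
    rw [e]
    exact this
  | coe j =>
    have := expGrowth_comp_infAff hF hNpos hper (hgr g') one_pos hℓ (j.val : ℤ)
    have e : (fun τ => G (_root_.P2MW.S_ModularForm_heckeT_slash_eq_self_of_mem_Gamma0.ModularForm.HeckeSlashInvariance.heckeRep ℓ x • (g • τ)))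
        = fun τ => G (g' • infAff 1 (j.val : ℤ) ℓ τ) := by
      funext τ
      rw [key τ, heckeRep_coe_smul]
    rw [e]
    exact this

/-- **`heckeProd ℓ` preserves good functions** (`ℓ ∤ N` prime). -/
theorem heckeProd_mem_goodRing (hℓN : ¬ ℓ ∣ N) {G : ℍ → ℂ} (hG : G ∈ goodRing N) :
    heckeProd ℓ G ∈ goodRing N := by
  refine ⟨mdiff_heckeProd hG.1, fun γ hγ τ => ?_, fun g => ?_⟩
  · have h := heckeProd_smul hℓN (h := G) (c := fun _ => 1)
      (fun γ τ => by rw [one_mul]; exact hG.2.1 _ γ.2 τ) ⟨γ, hγ⟩ τ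
    simpa using h
  · exact expGrowth_finset_prod Finset.univ
      (fun x τ => G (_root_.P2MW.S_ModularForm_heckeT_slash_eq_self_of_mem_Gamma0.ModularForm.HeckeSlashInvariance.heckeRep ℓ x • (g • τ))) fun x _ => expGrowth_factor hG g x

end Main

end Fermat.Agent.S29.H395

end

end
-- ===== PACK-END S29/H395/GoodProd.lean

-- ===== PACK-BEGIN S24/H504/FF3Local.lean
section



/-!
# Local norm formula: `∑_x ord_z (σ_x f) = m · ∑_{v | t} ord_v f`
-/

set_option autoImplicit false
set_option linter.style.haveILetI false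
set_option linter.unusedSectionVars false

namespace Fermat.Agent.S24.H504

open AlgebraicCurve IntermediateField

variable {K F : Type*} [Field K] [Field F] [Algebra K F]
variable {C : Type*} [Field C] {X : Type*} {t : F}

/-- `F` is algebraic over `K(t)` as soon as it is finite over a subfield of `K(t)`. -/
theorem isAlgebraic_adjoin_of_le (E : IntermediateField K F) (hE : E ≤ K⟮t⟯)
    [FiniteDimensional E F] : Algebra.IsAlgebraic K⟮t⟯ F := by
  letI : Algebra E K⟮t⟯ := (IntermediateField.inclusion hE).toRingHom.toAlgebra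
  haveI : IsScalarTower E K⟮t⟯ F := IsScalarTower.of_algebraMap_eq (fun x => rfl)
  exact Algebra.IsAlgebraic.tower_top (K := E) K⟮t⟯

theorem induces_placeOf (L : LocalData K F C X t) (x : X) :
    Induces (L.σ x) (H117.placeOf L x) :=
  fun f => H117.mem_placeOf_iff L x f

theorem placeOf_eq_iff_induces (L : LocalData K F C X t) (x : X) (v : Place K F) :
    H117.placeOf L x = v ↔ Induces (L.σ x) v :=
  ⟨fun h => h ▸ induces_placeOf L x, fun h => (induces_placeOf L x).unique h⟩

section

variable [IsAlgClosed K] [CharZero K] [CharZero C] [Finite X]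
variable (L : LocalData K F C X t)
variable (E : IntermediateField K F) (hE : E ≤ K⟮t⟯) [FiniteDimensional E F]
  (hrank : Module.finrank E F = Nat.card X)

include L hE hrank in
/-- **FF1 (equality).** `∑_{v | t} v(t) = #X = [F : E]`. -/
theorem sum_ord_eq_card (s : Finset (Place K F)) (hs : ∀ v, v ∈ s ↔ 0 < v.ord t) :
    ∑ v ∈ s, v.ord t = Nat.card X := by
  haveI := isAlgebraic_adjoin_of_le (t := t) E hE
  exact (H117.localThm L E hE hrank s hs (LocalData.card_le_sum_ord L s hs)).2.2

include hE hrank in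
theorem card_places_eq_numOrbits (s : Finset (Place K F)) (hs : ∀ v, v ∈ s ↔ 0 < v.ord t) :
    s.card = numOrbits L.perm := by
  haveI := isAlgebraic_adjoin_of_le (t := t) E hE
  exact (H117.localThm L E hE hrank s hs (LocalData.card_le_sum_ord L s hs)).1

omit [IsAlgClosed K] [CharZero K] [CharZero C] in
theorem sum_card_fibre [Fintype X] [DecidableEq (Place K F)] (s : Finset (Place K F))
    (hs : ∀ v, v ∈ s ↔ 0 < v.ord t) :
    ∑ v ∈ s, (Finset.univ.filter (fun x => H117.placeOf L x = v)).card = Fintype.card X := by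
  have hmaps : ∀ x ∈ (Finset.univ : Finset X), H117.placeOf L x ∈ s :=
    fun x _ => (hs _).mpr (H117.ord_t_pos L x)
  rw [← Finset.card_univ, Finset.card_eq_sum_card_fiberwise hmaps]

include hE hrank in
/-- Exactly `v(t)` embeddings induce a place `v` over `t = 0`. -/
theorem card_fibre_eq [Fintype X] [DecidableEq (Place K F)] (v : Place K F)
    (hv : 0 < v.ord t) :
    ((Finset.univ.filter (fun x => H117.placeOf L x = v)).card : ℤ) = v.ord t := by
  haveI := isAlgebraic_adjoin_of_le (t := t) E hE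
  have hfin : {v : Place K F | 0 < v.ord t}.Finite := H117.finite_places_over L E hE hrank
  set s := hfin.toFinset with hsdef
  have hs : ∀ v, v ∈ s ↔ 0 < v.ord t := fun v => by simp [hsdef]
  have hle : ∀ w ∈ s, ((Finset.univ.filter (fun x => H117.placeOf L x = w)).card : ℤ)
      ≤ w.ord t := by
    intro w hw
    have := LocalData.card_fibre_le L w ((hs w).mp hw)
    have hc : Nat.card {x : X // Induces (L.σ x) w}
        = (Finset.univ.filter (fun x => H117.placeOf L x = w)).card := by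
      haveI : Fintype {x : X // Induces (L.σ x) w} := Fintype.ofFinite _
      rw [Nat.card_eq_fintype_card]
      exact Fintype.card_of_subtype _ (fun x => by
        simp only [Finset.mem_filter, Finset.mem_univ, true_and]
        exact placeOf_eq_iff_induces L x w)
    rw [← hc]
    exact this
  have h1 := sum_ord_eq_card L E hE hrank s hs
  have h2 := sum_card_fibre L s hs
  have h3 : ∑ w ∈ s, (w.ord t
      - ((Finset.univ.filter (fun x => H117.placeOf L x = w)).card : ℤ)) = 0 := by
    rw [Finset.sum_sub_distrib, h1, ← Nat.cast_sum, h2, Nat.card_eq_fintype_card]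
    ring
  have h4 := (Finset.sum_eq_zero_iff_of_nonneg (fun w hw => sub_nonneg.mpr (hle w hw))).mp h3
    v ((hs v).mpr hv)
  linarith

include hE hrank in
/-- **Local norm formula.** -/
theorem sum_order_eq [Fintype X] (s : Finset (Place K F))
    (hs : ∀ v, v ∈ s ↔ 0 < v.ord t) (f : F) :
    ∑ x, (L.σ x f).order = L.m * ∑ v ∈ s, v.ord f := by
  classical
  have hmaps : ∀ x ∈ (Finset.univ : Finset X), H117.placeOf L x ∈ s :=
    fun x _ => (hs _).mpr (H117.ord_t_pos L x)
  rw [← Finset.sum_fiberwise_of_maps_to hmaps, Finset.mul_sum]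
  apply Finset.sum_congr rfl
  intro v hv
  have hv' : 0 < v.ord t := (hs v).mp hv
  have hcard := card_fibre_eq L E hE hrank v hv'
  have hterm : ∀ x ∈ Finset.univ.filter (fun x => H117.placeOf L x = v),
      v.ord t * (L.σ x f).order = L.m * v.ord f := by
    intro x hx
    have hx' : H117.placeOf L x = v := (Finset.mem_filter.mp hx).2
    have h1 := H117.order_eq L x f
    have h2 := H117.mult_mul_ord_t L x
    rw [hx'] at h1 h2
    rw [h1, ← h2]
    ring
  have hsum : v.ord t * ∑ x ∈ Finset.univ.filter (fun x => H117.placeOf L x = v),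
      (L.σ x f).order = v.ord t * (L.m * v.ord f) := by
    rw [Finset.mul_sum, Finset.sum_congr rfl hterm, Finset.sum_const, nsmul_eq_mul, hcard]
  exact mul_left_cancel₀ hv'.ne' hsum

end

end Fermat.Agent.S24.H504

end
-- ===== PACK-END S24/H504/FF3Local.lean

-- ===== PACK-BEGIN S28/H626/Upper.lean
section
/-
S28 helper (helper626): the upper bound `[k(j(q^d) : d ∣ N) : k(j)] ≤ ψ(N)` for every field `k`
in which `N` is invertible, from the prime-level modular polynomials; and its
linear-independence / spanning forms.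
-/




set_option autoImplicit false

noncomputable section

open ModularCurve HahnSeries Polynomial IntermediateField

namespace Fermat.Agent.S28.H626

/-! ### Arithmetic of `dedekindPsi` -/

section Psi

theorem psi_mul_prime_of_dvd {N p : ℕ} (hN : N ≠ 0) (hp : p.Prime) (hpN : p ∣ N) :
    dedekindPsi (N * p) = p * dedekindPsi N := by
  unfold dedekindPsi
  have hset : (N * p).divisors.filter Squarefree = N.divisors.filter Squarefree := by
    ext d
    simp only [Finset.mem_filter, Nat.mem_divisors]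
    constructor
    · rintro ⟨⟨hd, _⟩, hsq⟩
      refine ⟨⟨?_, hN⟩, hsq⟩
      have h2 : d ∣ N ^ 2 := by
        rw [pow_two]
        exact hd.trans (mul_dvd_mul_left N hpN)
      exact (hsq.dvd_pow_iff_dvd two_ne_zero).1 h2
    · rintro ⟨⟨hd, _⟩, hsq⟩
      exact ⟨⟨hd.mul_right p, mul_ne_zero hN hp.ne_zero⟩, hsq⟩
  rw [hset, Finset.mul_sum]
  refine Finset.sum_congr rfl fun d hd => ?_
  have hdN : d ∣ N := (Nat.mem_divisors.1 (Finset.mem_filter.1 hd).1).1
  obtain ⟨e, rfl⟩ := hdN
  have hd0 : 0 < d := Nat.pos_of_ne_zero (by rintro rfl; simp at hN)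
  rw [mul_assoc, Nat.mul_div_cancel_left _ hd0, Nat.mul_div_cancel_left _ hd0, mul_comm]

theorem psi_mul_prime_of_not_dvd {N p : ℕ} (hN : N ≠ 0) (hp : p.Prime) (hpN : ¬ p ∣ N) :
    dedekindPsi (N * p) = (p + 1) * dedekindPsi N := by
  unfold dedekindPsi
  have hcop : ∀ d, d ∣ N → Nat.Coprime d p := fun d hd =>
    (Nat.Coprime.symm ((Nat.Prime.coprime_iff_not_dvd hp).2 fun h => hpN (h.trans hd)))
  have hset : (N * p).divisors.filter Squarefree
      = (N.divisors.filter Squarefree) ∪ (N.divisors.filter Squarefree).image (· * p) := by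
    ext d
    simp only [Finset.mem_filter, Nat.mem_divisors, Finset.mem_union, Finset.mem_image]
    constructor
    · rintro ⟨⟨hd, _⟩, hsq⟩
      by_cases hpd : p ∣ d
      · right
        obtain ⟨e, rfl⟩ := hpd
        refine ⟨e, ⟨⟨?_, hN⟩, hsq.squarefree_of_dvd (Dvd.intro_left p rfl)⟩, mul_comm e p⟩
        rw [mul_comm p e] at hd
        exact Nat.dvd_of_mul_dvd_mul_right hp.pos hd
      · left
        refine ⟨⟨?_, hN⟩, hsq⟩
        have : Nat.Coprime d p := (Nat.Coprime.symm ((Nat.Prime.coprime_iff_not_dvd hp).2 hpd))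
        exact this.dvd_of_dvd_mul_right hd
    · rintro (⟨⟨hd, _⟩, hsq⟩ | ⟨e, ⟨⟨he, _⟩, hsq⟩, rfl⟩)
      · exact ⟨⟨hd.mul_right p, mul_ne_zero hN hp.ne_zero⟩, hsq⟩
      · refine ⟨⟨mul_dvd_mul_right he p, mul_ne_zero hN hp.ne_zero⟩, ?_⟩
        exact (Nat.squarefree_mul (hcop e he)).2 ⟨hsq, hp.squarefree⟩
  have hdisj : Disjoint (N.divisors.filter Squarefree)
      ((N.divisors.filter Squarefree).image (· * p)) := by
    rw [Finset.disjoint_left]
    intro d hd hd'
    simp only [Finset.mem_filter, Nat.mem_divisors, Finset.mem_image] at hd hd'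
    obtain ⟨e, _, rfl⟩ := hd'
    exact hpN ((Dvd.intro_left e rfl).trans hd.1.1)
  rw [hset, Finset.sum_union hdisj, Finset.sum_image, add_mul, one_mul, Finset.mul_sum]
  · congr 1
    · refine Finset.sum_congr rfl fun d hd => ?_
      have hdN : d ∣ N := (Nat.mem_divisors.1 (Finset.mem_filter.1 hd).1).1
      obtain ⟨e, rfl⟩ := hdN
      have hd0 : 0 < d := Nat.pos_of_ne_zero (by rintro rfl; simp at hN)
      rw [mul_assoc, Nat.mul_div_cancel_left _ hd0, Nat.mul_div_cancel_left _ hd0, mul_comm]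
    · refine Finset.sum_congr rfl fun d hd => ?_
      exact Nat.mul_div_mul_right N d hp.pos
  · intro a _ b _ hab
    exact Nat.eq_of_mul_eq_mul_right hp.pos hab

end Psi

/-! ### The upper bound -/

section Upper

variable {k : Type*} [Field k]

theorem full_one_eq : modularFunctionFieldFullC k 1 = IntermediateField.adjoin k {jqModC k} := by
  apply le_antisymm
  · refine full_le_of_forall_mem 1 _ ?_
    intro d _ hd
    have hd1 : d = 1 := Nat.dvd_one.mp hd
    rw [jd_congr k hd1, jd_one]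
    exact IntermediateField.subset_adjoin _ _ (Set.mem_singleton _)
  · rw [IntermediateField.adjoin_le_iff]
    intro y hy
    rw [Set.mem_singleton_iff] at hy
    rw [hy]
    exact jqModC_mem_full k 1

/-- **Upper bound**, `relrank` form (a `Cardinal` inequality, so it includes finiteness). -/
theorem relrank_full_le (N : ℕ) [NeZero N] (H : HasModPolys k N) :
    IntermediateField.relrank (modularFunctionFieldFullC k 1) (modularFunctionFieldFullC k N) ≤
      ((dedekindPsi N : ℕ) : Cardinal) := by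
  revert H
  have main : ∀ n : ℕ, ∀ (N : ℕ) [NeZero N], N = n → HasModPolys k N →
      IntermediateField.relrank (modularFunctionFieldFullC k 1) (modularFunctionFieldFullC k N) ≤
        ((dedekindPsi N : ℕ) : Cardinal) := by
    intro n
    induction n using Nat.strong_induction_on with
    | _ n ih =>
      intro N instN hNn H
      by_cases hN1 : N = 1
      · subst hN1
        rw [IntermediateField.relrank_self, dedekindPsi_one, Nat.cast_one]
      obtain ⟨p, hp, hpN⟩ := Nat.exists_prime_and_dvd hN1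
      obtain ⟨M, hM⟩ := hpN
      have hNM : N = M * p := by rw [hM, mul_comm]
      subst hNM
      have hM0 : M ≠ 0 := by
        rintro rfl
        exact (NeZero.ne (0 * p)) (zero_mul p)
      have instM : NeZero M := ⟨hM0⟩
      have hlt : M < n := by
        rw [← hNn]
        have := hp.one_lt
        have hMpos : 0 < M := Nat.pos_of_ne_zero hM0
        nlinarith
      have IH := ih M hlt M rfl (H.mono (Dvd.intro p rfl))
      have h1 : modularFunctionFieldFullC k 1 ≤ modularFunctionFieldFullC k M :=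
        full_degeneracyC_le k (one_dvd M)
      have h2 : modularFunctionFieldFullC k M ≤ modularFunctionFieldFullC k (M * p) :=
        full_degeneracyC_le k (Dvd.intro p rfl)
      rw [← IntermediateField.relrank_mul_relrank h1 h2]
      by_cases hpM : p ∣ M
      · rw [psi_mul_prime_of_dvd hM0 hp hpM, mul_comm p, Nat.cast_mul]
        exact mul_le_mul' IH (relrank_full_step_of_dvd hp H hpM)
      · rw [psi_mul_prime_of_not_dvd hM0 hp hpM, mul_comm (p + 1), Nat.cast_mul]
        exact mul_le_mul' IH (relrank_full_step_of_not_dvd hp H hpM)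
  exact main N N rfl

/-- `k(j) ≤ k(j(q^d) : d ∣ N)`. -/
theorem adjoin_j_le_full (N : ℕ) [NeZero N] :
    IntermediateField.adjoin k {jqModC k} ≤ modularFunctionFieldFullC k N := by
  rw [IntermediateField.adjoin_le_iff]
  intro y hy
  rw [Set.mem_singleton_iff] at hy
  rw [hy]
  exact jqModC_mem_full k N

/-- **Upper bound** over `k(j) = IntermediateField.adjoin k {j}`. -/
theorem relrank_adjoin_j_full_le (N : ℕ) [NeZero N] (H : HasModPolys k N) :
    IntermediateField.relrank (IntermediateField.adjoin k {jqModC k})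
      (modularFunctionFieldFullC k N) ≤ ((dedekindPsi N : ℕ) : Cardinal) := by
  rw [← full_one_eq]
  exact relrank_full_le N H

/-- The function field as a finite-dimensional `k(j)`-vector space: rank bound. -/
theorem rank_extendScalars_le (N : ℕ) [NeZero N] (H : HasModPolys k N) :
    Module.rank (IntermediateField.adjoin k {jqModC k})
      (IntermediateField.extendScalars (adjoin_j_le_full (k := k) N)) ≤
        ((dedekindPsi N : ℕ) : Cardinal) := by
  rw [← IntermediateField.relrank_eq_rank_of_le]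
  exact relrank_adjoin_j_full_le N H

theorem finiteDimensional_extendScalars (N : ℕ) [NeZero N] (H : HasModPolys k N) :
    FiniteDimensional (IntermediateField.adjoin k {jqModC k})
      (IntermediateField.extendScalars (adjoin_j_le_full (k := k) N)) := by
  rw [FiniteDimensional, ← Module.rank_lt_aleph0_iff]
  exact lt_of_le_of_lt (rank_extendScalars_le N H) (Cardinal.nat_lt_aleph0 _)

theorem finrank_extendScalars_le (N : ℕ) [NeZero N] (H : HasModPolys k N) :
    Module.finrank (IntermediateField.adjoin k {jqModC k})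
      (IntermediateField.extendScalars (adjoin_j_le_full (k := k) N)) ≤ dedekindPsi N := by
  have := finiteDimensional_extendScalars N H
  have h := rank_extendScalars_le N H
  rw [← Module.finrank_eq_rank, Nat.cast_le] at h
  exact h

/-- **Upper bound, linear-independence form.** A family of elements of `k(j(q^d) : d ∣ N)` which
is linearly independent over `k(j)` has at most `ψ(N)` members. -/
theorem card_le_of_linearIndependent (N : ℕ) [NeZero N] (H : HasModPolys k N)
    {ι : Type*} [Fintype ι] (v : ι → LaurentSeries k)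
    (hv : ∀ i, v i ∈ modularFunctionFieldFullC k N)
    (hli : LinearIndependent (IntermediateField.adjoin k {jqModC k}) v) :
    Fintype.card ι ≤ dedekindPsi N := by
  have := finiteDimensional_extendScalars N H
  set B := IntermediateField.extendScalars (adjoin_j_le_full (k := k) N) with hB
  let w : ι → B := fun i => ⟨v i, hv i⟩
  have hw : LinearIndependent (IntermediateField.adjoin k {jqModC k}) w := by
    refine LinearIndependent.of_comp (B.val.toLinearMap) ?_
    exact hli
  exact (hw.fintype_card_le_finrank).trans (finrank_extendScalars_le N H)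

/-- **Upper bound, spanning form.** A family of at least `ψ(N)` elements of
`k(j(q^d) : d ∣ N)` which is linearly independent over `k(j)` spans `k(j(q^d) : d ∣ N)`
over `k(j)`. -/
theorem mem_span_of_linearIndependent (N : ℕ) [NeZero N] (H : HasModPolys k N)
    {ι : Type*} [Fintype ι] (v : ι → LaurentSeries k)
    (hv : ∀ i, v i ∈ modularFunctionFieldFullC k N)
    (hli : LinearIndependent (IntermediateField.adjoin k {jqModC k}) v)
    (hcard : dedekindPsi N ≤ Fintype.card ι)
    {x : LaurentSeries k} (hx : x ∈ modularFunctionFieldFullC k N) :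
    x ∈ Submodule.span (IntermediateField.adjoin k {jqModC k}) (Set.range v) := by
  classical
  have := finiteDimensional_extendScalars N H
  set B := IntermediateField.extendScalars (adjoin_j_le_full (k := k) N) with hB
  let w : ι → B := fun i => ⟨v i, hv i⟩
  have hw : LinearIndependent (IntermediateField.adjoin k {jqModC k}) w := by
    refine LinearIndependent.of_comp (B.val.toLinearMap) ?_
    exact hli
  have hcard' : Fintype.card ι = Module.finrank (IntermediateField.adjoin k {jqModC k}) B :=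
    le_antisymm hw.fintype_card_le_finrank ((finrank_extendScalars_le N H).trans hcard)
  have htop : Submodule.span (IntermediateField.adjoin k {jqModC k}) (Set.range w) = ⊤ :=
    hw.span_eq_top_of_card_eq_finrank' hcard'
  have hxB : (⟨x, hx⟩ : B) ∈ Submodule.span (IntermediateField.adjoin k {jqModC k})
      (Set.range w) := by
    rw [htop]; exact Submodule.mem_top
  have := Submodule.apply_mem_span_image_of_mem_span (B.val.toLinearMap) hxB
  have himg : (B.val.toLinearMap) '' (Set.range w) = Set.range v := by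
    ext y
    constructor
    · rintro ⟨_, ⟨i, rfl⟩, rfl⟩
      exact ⟨i, rfl⟩
    · rintro ⟨i, rfl⟩
      exact ⟨w i, ⟨i, rfl⟩, rfl⟩
  rw [himg] at this
  exact this

end Upper

end Fermat.Agent.S28.H626

end

end
-- ===== PACK-END S28/H626/Upper.lean

-- ===== PACK-BEGIN Lib/RR/H443/LSpace.lean
section


/-!
# RR bridge (helper443), part 2: the spaces `L(D)` without `HasPrincipalDivisors`

Characteristic-free.  Under the hypotheses `Hyp K F` (all places have degree one, `F` is finite
over `K(x)` for every transcendental `x`, `K` is algebraically closed in `F`) we prove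
`L(0) = K`, finite-dimensionality of `L(D)` and `ℓ(D) ≤ deg D + 1` for `D ≥ 0`, *without*
assuming that principal divisors have degree zero.
-/

set_option autoImplicit false

noncomputable section

open AlgebraicCurve Polynomial IntermediateField
open Fermat.Agent.Lib.RR

namespace Fermat.Agent.Lib.RR.H443

variable {K F : Type*} [Field K] [Field F] [Algebra K F]

variable (K F) in
/-- Hypotheses of the bridge: a function field of one variable with constant field `K`, all of
whose places have degree one. -/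
structure Hyp : Prop where
  deg_eq_one : ∀ v : Place K F, v.deg = 1
  finite : ∀ x : F, Transcendental K x → FiniteDimensional K⟮x⟯ F
  const : ∀ f : F, IsAlgebraic K f → f ∈ (algebraMap K F).range

/-- Functions without poles are constant (no `HasPrincipalDivisors` needed). -/
theorem L_zero_eq (h : Hyp K F) :
    riemannRochSpace (0 : Divisor K F) = LinearMap.range (Algebra.linearMap K F) := by
  apply le_antisymm
  · intro f hf
    by_contra hcon
    have htr : Transcendental K f := fun halg => hcon (by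
      obtain ⟨c, hc⟩ := h.const f halg
      exact ⟨c, hc⟩)
    obtain ⟨v, hv⟩ := exists_place_ord_neg h.finite htr
    rcases mem_L_iff.mp hf v with h0 | h0
    · rw [h0, v.ord_zero] at hv
      exact lt_irrefl _ hv
    · simp only [Finsupp.coe_zero, Pi.zero_apply, neg_zero] at h0
      omega
  · rintro _ ⟨c, rfl⟩
    rw [mem_L_iff]
    intro v
    right
    simp [ord_algebraMap]

theorem finite_L_zero (h : Hyp K F) : Module.Finite K (riemannRochSpace (0 : Divisor K F)) := by
  rw [L_zero_eq h]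
  infer_instance

theorem ell_zero_eq (h : Hyp K F) : ell (0 : Divisor K F) = 1 := by
  unfold ell
  rw [L_zero_eq h]
  have hinj : Function.Injective (Algebra.linearMap K F) := (algebraMap K F).injective
  rw [LinearMap.finrank_range_of_inj hinj]
  exact Module.finrank_self K

theorem prim_le_of_pos {D : Divisor K F} (hD : 0 ≤ D) {v : Place K F} (hv : D v ≠ 0) :
    prim v ≤ D := by
  rw [Finsupp.le_def]
  intro w
  have hw0 : 0 ≤ D w := by simpa using Finsupp.le_def.mp hD w
  by_cases hw : w = v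
  · subst hw
    rw [prim_apply_self]
    omega
  · rw [prim_apply_of_ne hw]
    exact hw0

/-- `L(D)` is finite-dimensional of dimension `≤ deg D + 1` for effective `D`. -/
theorem finite_and_ell_le_of_nonneg (h : Hyp K F) :
    ∀ (n : ℕ) (D : Divisor K F), 0 ≤ D → Divisor.degree D ≤ n →
      Module.Finite K (riemannRochSpace D) ∧ (ell D : ℤ) ≤ Divisor.degree D + 1 := by
  intro n
  induction n with
  | zero =>
    intro D hD hdeg
    have hD0 : D = 0 := by
      by_contra hne
      obtain ⟨v, hv⟩ := Finsupp.support_nonempty_iff.mpr hne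
      rw [Finsupp.mem_support_iff] at hv
      have := degree_mono (prim_le_of_pos hD hv)
      rw [degree_prim v (h.deg_eq_one v)] at this
      push_cast at hdeg
      omega
    subst hD0
    refine ⟨finite_L_zero h, ?_⟩
    rw [ell_zero_eq h, map_zero]
    norm_num
  | succ n ih =>
    intro D hD hdeg
    by_cases hD0 : D = 0
    · subst hD0
      refine ⟨finite_L_zero h, ?_⟩
      rw [ell_zero_eq h, map_zero]
      norm_num
    obtain ⟨v, hv⟩ := Finsupp.support_nonempty_iff.mpr hD0
    rw [Finsupp.mem_support_iff] at hv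
    have hle := prim_le_of_pos hD hv
    have hD' : 0 ≤ D - prim v := sub_nonneg.mpr hle
    have hdeg' : Divisor.degree (D - prim v) ≤ n := by
      rw [map_sub, degree_prim v (h.deg_eq_one v)]
      push_cast at hdeg
      omega
    obtain ⟨hfin, hell⟩ := ih (D - prim v) hD' hdeg'
    have := L_add_prim_finite v (h.deg_eq_one v) (D - prim v)
    rw [sub_add_cancel] at this
    refine ⟨this.1, ?_⟩
    have h2 := this.2
    rw [map_sub, degree_prim v (h.deg_eq_one v)] at hell
    have h3 : (ell D : ℤ) ≤ (ell (D - prim v) : ℤ) + 1 := by exact_mod_cast h2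
    omega

theorem finite_L_of_nonneg (h : Hyp K F) {D : Divisor K F} (hD : 0 ≤ D) :
    Module.Finite K (riemannRochSpace D) :=
  (finite_and_ell_le_of_nonneg h (Divisor.degree D).toNat D hD (Int.self_le_toNat _)).1

theorem ell_le_of_nonneg (h : Hyp K F) {D : Divisor K F} (hD : 0 ≤ D) :
    (ell D : ℤ) ≤ Divisor.degree D + 1 :=
  (finite_and_ell_le_of_nonneg h (Divisor.degree D).toNat D hD (Int.self_le_toNat _)).2

/-- `L(D)` is finite-dimensional for every divisor `D`. -/
theorem finite_L (h : Hyp K F) (D : Divisor K F) : Module.Finite K (riemannRochSpace D) := by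
  have hle : D ≤ D ⊔ 0 := le_sup_left
  have hfin := finite_L_of_nonneg h (D := D ⊔ 0) le_sup_right
  exact Submodule.finiteDimensional_of_le (L_mono hle)

end Fermat.Agent.Lib.RR.H443

end
end
-- ===== PACK-END Lib/RR/H443/LSpace.lean

-- ===== PACK-BEGIN Lib/RR/H443/Degree.lean
section


/-!
# RR bridge (helper443), part 3: `deg (x)_∞ = [F : K(x)]` and `HasPrincipalDivisors`

Characteristic-free.  From `Hyp K F` and the bound `ZerosBound K F` (layer L2 of the RR library:
zeros of `x` counted with multiplicity are at most `[F : K(x)]`) we deduce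

* finiteness of the zeros and poles of every function;
* `[F : K(x)] ≤ deg (x)_∞` (Stichtenoth 1.4.11), hence equality;
* every principal divisor has degree `0`, i.e. `HasPrincipalDivisors K F`, and `FF1 K F`.
-/

set_option autoImplicit false

noncomputable section

open AlgebraicCurve Polynomial IntermediateField
open Fermat.Agent.Lib.RR

namespace Fermat.Agent.Lib.RR.H443

variable {K F : Type*} [Field K] [Field F] [Algebra K F]

variable (K F) in
/-- The statement of layer L2 of the RR library. -/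
def ZerosBound : Prop :=
  ∀ (x : F) [FiniteDimensional K⟮x⟯ F] (S : Finset (Place K F)), (∀ v ∈ S, 0 < v.ord x) →
    ∑ v ∈ S, v.ord x ≤ (Module.finrank K⟮x⟯ F : ℤ)

/-! ### Finiteness of zeros and poles -/

theorem finite_zeros_of_finite (hZ : ZerosBound K F) (x : F) [FiniteDimensional K⟮x⟯ F] :
    {v : Place K F | 0 < v.ord x}.Finite := by
  by_contra hinf
  have hinf' : {v : Place K F | 0 < v.ord x}.Infinite := hinf
  obtain ⟨S, hS, hcard⟩ := hinf'.exists_subset_card_eq (Module.finrank K⟮x⟯ F + 1)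
  have h1 := hZ x S (fun v hv => hS hv)
  have h2 : (S.card : ℤ) ≤ ∑ v ∈ S, v.ord x := by
    have : ∑ _v ∈ S, (1 : ℤ) ≤ ∑ v ∈ S, v.ord x :=
      Finset.sum_le_sum fun v hv => by
        have : 0 < v.ord x := hS hv
        omega
    simpa using this
  rw [hcard] at h2
  push_cast at h2
  omega

theorem transcendental_inv {f : F} (hf : Transcendental K f) : Transcendental K f⁻¹ :=
  fun h => hf (by simpa using h.inv)

theorem adjoin_inv_eq (f : F) : K⟮f⁻¹⟯ = K⟮f⟯ := by
  apply le_antisymm
  · rw [adjoin_simple_le_iff]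
    exact inv_mem (mem_adjoin_simple_self K f)
  · rw [adjoin_simple_le_iff]
    have h2 : (f⁻¹)⁻¹ ∈ K⟮f⁻¹⟯ := inv_mem (mem_adjoin_simple_self K f⁻¹)
    rwa [inv_inv] at h2

theorem finrank_adjoin_inv (f : F) : Module.finrank K⟮f⁻¹⟯ F = Module.finrank K⟮f⟯ F :=
  congrArg (fun E : IntermediateField K F => Module.finrank E F) (_root_.Fermat.Agent.Lib.RR.H443.adjoin_inv_eq f)

theorem ord_eq_zero_of_isAlgebraic (h : Hyp K F) {f : F} (hf : IsAlgebraic K f)
    (v : Place K F) : v.ord f = 0 := by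
  obtain ⟨c, rfl⟩ := h.const f hf
  exact ord_algebraMap v c

theorem finite_zeros (h : Hyp K F) (hZ : ZerosBound K F) (f : F) :
    {v : Place K F | 0 < v.ord f}.Finite := by
  by_cases hf : Transcendental K f
  · have := h.finite f hf
    exact finite_zeros_of_finite hZ f
  · have hf' : IsAlgebraic K f := by
      by_contra hna
      exact hf hna
    have : {v : Place K F | 0 < v.ord f} = ∅ := by
      ext v
      simp [ord_eq_zero_of_isAlgebraic h hf' v]
    rw [this]
    exact Set.finite_empty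

theorem finite_poles (h : Hyp K F) (hZ : ZerosBound K F) (f : F) :
    {v : Place K F | v.ord f < 0}.Finite := by
  refine (finite_zeros h hZ f⁻¹).subset fun v hv => ?_
  have hv' : v.ord f < 0 := hv
  show 0 < v.ord f⁻¹
  rw [v.ord_inv]
  omega

/-! ### The pole divisor -/

/-- The pole divisor `(f)_∞`. -/
def poleDiv (h : Hyp K F) (hZ : ZerosBound K F) (f : F) : Divisor K F :=
  Finsupp.ofSupportFinite (fun v => max 0 (-v.ord f)) <| by
    refine (finite_poles h hZ f).subset fun v hv => ?_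
    have hv' : max 0 (-v.ord f) ≠ 0 := hv
    show v.ord f < 0
    by_contra hcon
    apply hv'
    rw [max_eq_left]
    omega

@[simp]
theorem poleDiv_apply (h : Hyp K F) (hZ : ZerosBound K F) (f : F) (v : Place K F) :
    poleDiv h hZ f v = max 0 (-v.ord f) := rfl

theorem poleDiv_nonneg (h : Hyp K F) (hZ : ZerosBound K F) (f : F) : 0 ≤ poleDiv h hZ f := by
  rw [Finsupp.le_def]
  intro v
  simp

theorem mem_support_poleDiv (h : Hyp K F) (hZ : ZerosBound K F) (f : F) (v : Place K F) :
    v ∈ (poleDiv h hZ f).support ↔ v.ord f < 0 := by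
  rw [Finsupp.mem_support_iff, poleDiv_apply]
  constructor
  · intro hne
    by_contra hcon
    apply hne
    rw [max_eq_left]
    omega
  · intro hlt
    rw [max_eq_right (by omega)]
    omega

theorem degree_poleDiv (h : Hyp K F) (hZ : ZerosBound K F) (f : F) :
    Divisor.degree (poleDiv h hZ f) = ∑ v ∈ (poleDiv h hZ f).support, v.ord f⁻¹ := by
  rw [degree_eq_sum]
  refine Finset.sum_congr rfl fun v hv => ?_
  rw [mem_support_poleDiv] at hv
  rw [h.deg_eq_one v, poleDiv_apply, v.ord_inv, max_eq_right (by omega)]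
  simp

/-- `deg (x)_∞ ≤ [F : K(x)]`, from the zeros bound applied to `x⁻¹`. -/
theorem degree_poleDiv_le (h : Hyp K F) (hZ : ZerosBound K F) {x : F}
    (hx : Transcendental K x) :
    Divisor.degree (poleDiv h hZ x) ≤ (@Module.finrank K⟮x⟯ F _ _ _ : ℤ) := by
  have := h.finite x⁻¹ (transcendental_inv hx)
  rw [degree_poleDiv, ← finrank_adjoin_inv x]
  refine hZ x⁻¹ _ fun v hv => ?_
  rw [mem_support_poleDiv] at hv
  rw [v.ord_inv]
  omega

/-! ### The lower bound -/

theorem linearIndependent_pow_of_transcendental {A : Type*} [Ring A] [Algebra K A] {a : A}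
    (ha : Transcendental K a) (l : ℕ) :
    LinearIndependent K fun i : Fin (l + 1) => a ^ (i : ℕ) := by
  rw [Fintype.linearIndependent_iff]
  intro g hg i
  have hinj := transcendental_iff_injective.mp ha
  have hp : aeval a (∑ i : Fin (l + 1), Polynomial.monomial (i : ℕ) (g i)) = 0 := by
    rw [map_sum]
    simp_rw [aeval_monomial, ← Algebra.smul_def]
    exact hg
  have hp0 : (∑ i : Fin (l + 1), Polynomial.monomial (i : ℕ) (g i)) = 0 :=
    hinj (by rw [hp, map_zero])
  have := congrArg (fun q : K[X] => q.coeff (i : ℕ)) hp0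
  simp only [Polynomial.finsetSum_coeff, Polynomial.coeff_monomial, Polynomial.coeff_zero] at this
  rw [Finset.sum_eq_single i] at this
  · simpa using this
  · intro j _ hji
    rw [if_neg]
    exact fun h => hji (Fin.ext h)
  · intro hi
    exact absurd (Finset.mem_univ i) hi

set_option maxHeartbeats 800000 in
/-- The products `x ^ i * b j` (`i ≤ l`, `b` a `K(x)`-basis of `F`) are `K`-linearly
independent. -/
theorem linearIndependent_pow_mul_basis {x : F} (hx : Transcendental K x)
    [FiniteDimensional K⟮x⟯ F] (l : ℕ) :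
    LinearIndependent K fun p : Fin (l + 1) × Fin (Module.finrank K⟮x⟯ F) =>
      x ^ (p.1 : ℕ) * (Module.finBasis K⟮x⟯ F p.2 : F) := by
  have hgen : Transcendental K (AdjoinSimple.gen K x) := by
    rw [← transcendental_algebraMap_iff (algebraMap K⟮x⟯ F).injective]
    exact hx
  have h1 := linearIndependent_pow_of_transcendental hgen l
  have h2 := (Module.finBasis K⟮x⟯ F).linearIndependent
  have h3 := linearIndependent_smul h1 h2
  convert h3 using 2 with p
  rw [Algebra.smul_def]
  simp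

/-- `[F : K(x)] ≤ deg (x)_∞` (Stichtenoth, Thm. 1.4.11). -/
theorem finrank_le_degree_poleDiv (h : Hyp K F) (hZ : ZerosBound K F) {x : F}
    (hx : Transcendental K x) :
    (@Module.finrank K⟮x⟯ F _ _ _ : ℤ) ≤ Divisor.degree (poleDiv h hZ x) := by
  classical
  have hfinx := h.finite x hx
  set n := Module.finrank K⟮x⟯ F with hn
  set B := poleDiv h hZ x with hB
  set C : Divisor K F := ∑ j : Fin n, poleDiv h hZ (Module.finBasis K⟮x⟯ F j : F) with hC
  have hB0 : 0 ≤ B := poleDiv_nonneg h hZ x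
  have hC0 : 0 ≤ C := Finset.sum_nonneg fun j _ => poleDiv_nonneg h hZ _
  have hx0 : x ≠ 0 := fun h0 => hx (h0 ▸ isAlgebraic_zero)
  -- the key inequality for every `l`
  have key : ∀ l : ℕ, ((l + 1) * n : ℤ) ≤ l * Divisor.degree B + Divisor.degree C + 1 := by
    intro l
    have hD0 : 0 ≤ l • B + C := add_nonneg (nsmul_nonneg hB0 l) hC0
    have hfin := finite_L_of_nonneg h hD0
    have hell := ell_le_of_nonneg h hD0
    have hli := linearIndependent_pow_mul_basis hx l
    have hmem : ∀ p : Fin (l + 1) × Fin n,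
        x ^ (p.1 : ℕ) * (Module.finBasis K⟮x⟯ F p.2 : F) ∈ riemannRochSpace (l • B + C) := by
      rintro ⟨i, j⟩
      rw [mem_L_iff]
      intro v
      right
      have hbj : (Module.finBasis K⟮x⟯ F j : F) ≠ 0 := (Module.finBasis K⟮x⟯ F).ne_zero j
      rw [v.ord_mul (pow_ne_zero _ hx0) hbj, ord_pow]
      have hBv : B v = max 0 (-v.ord x) := rfl
      have hCv : max 0 (-v.ord (Module.finBasis K⟮x⟯ F j : F)) ≤ C v := by
        rw [hC, Finsupp.finsetSum_apply]
        have : poleDiv h hZ (Module.finBasis K⟮x⟯ F j : F) v ≤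
            ∑ j' : Fin n, poleDiv h hZ (Module.finBasis K⟮x⟯ F j' : F) v :=
          Finset.single_le_sum
            (f := fun j' => poleDiv h hZ (Module.finBasis K⟮x⟯ F j' : F) v)
            (fun j' _ => by simp) (Finset.mem_univ j)
        simpa using this
      have hi : (i : ℕ) ≤ l := Nat.lt_succ_iff.mp i.2
      have hval : (l • B + C) v = (l : ℤ) * B v + C v := by
        rw [Finsupp.add_apply, Finsupp.smul_apply, nsmul_eq_mul]
      rw [hval, hBv]
      have h1 : ((i : ℕ) : ℤ) * max 0 (-v.ord x) ≤ (l : ℤ) * max 0 (-v.ord x) :=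
        mul_le_mul_of_nonneg_right (by exact_mod_cast hi) (le_max_left _ _)
      have h2 : -(((i : ℕ) : ℤ) * max 0 (-v.ord x)) ≤ ((i : ℕ) : ℤ) * v.ord x := by
        have h3 : -v.ord x ≤ max 0 (-v.ord x) := le_max_right _ _
        have h4 : (0 : ℤ) ≤ ((i : ℕ) : ℤ) := Int.natCast_nonneg _
        nlinarith
      have h5 : -v.ord (Module.finBasis K⟮x⟯ F j : F) ≤
          max 0 (-v.ord (Module.finBasis K⟮x⟯ F j : F)) := le_max_right _ _
      push_cast
      linarith
    -- count
    let g : Fin (l + 1) × Fin n → riemannRochSpace (l • B + C) := fun p => ⟨_, hmem p⟩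
    have hli' : LinearIndependent K g := by
      apply LinearIndependent.of_comp (riemannRochSpace (l • B + C)).subtype
      exact hli
    have hcard := hli'.fintype_card_le_finrank
    rw [Fintype.card_prod, Fintype.card_fin, Fintype.card_fin] at hcard
    have hdeg : Divisor.degree (l • B + C) = l * Divisor.degree B + Divisor.degree C := by
      rw [map_add, map_nsmul, nsmul_eq_mul]
    have hcard' : (((l + 1) * n : ℕ) : ℤ) ≤ (ell (l • B + C) : ℤ) := by exact_mod_cast hcard
    rw [hdeg] at hell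
    push_cast at hcard'
    linarith
  -- conclude
  by_contra hcon
  rw [not_le] at hcon
  have hdC : 0 ≤ Divisor.degree C := degree_nonneg hC0
  have hdB : 0 ≤ Divisor.degree B := degree_nonneg hB0
  have hk := key ((Divisor.degree C).toNat + 1)
  have hl : ((Divisor.degree C).toNat : ℤ) = Divisor.degree C := Int.toNat_of_nonneg hdC
  push_cast at hk
  rw [hl] at hk
  have hn1 : 0 ≤ (n : ℤ) - Divisor.degree B - 1 := by omega
  have hC2 : 0 ≤ Divisor.degree C + 2 := by omega
  nlinarith [mul_nonneg hC2 hn1]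

/-- **The degree of the pole divisor** of a transcendental `x` is `[F : K(x)]`. -/
theorem degree_poleDiv_eq (h : Hyp K F) (hZ : ZerosBound K F) {x : F}
    (hx : Transcendental K x) :
    Divisor.degree (poleDiv h hZ x) = (@Module.finrank K⟮x⟯ F _ _ _ : ℤ) :=
  le_antisymm (degree_poleDiv_le h hZ hx) (finrank_le_degree_poleDiv h hZ hx)

/-! ### Principal divisors -/

/-- The divisor of a function. -/
def divFun (h : Hyp K F) (hZ : ZerosBound K F) (f : F) : Divisor K F :=
  poleDiv h hZ f⁻¹ - poleDiv h hZ f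

theorem divFun_apply (h : Hyp K F) (hZ : ZerosBound K F) (f : F) (v : Place K F) :
    divFun h hZ f v = v.ord f := by
  simp only [divFun, Finsupp.coe_sub, Pi.sub_apply, poleDiv_apply, v.ord_inv, neg_neg]
  rcases le_total 0 (v.ord f) with h0 | h0
  · rw [max_eq_right h0, max_eq_left (by omega)]
    ring
  · rw [max_eq_left h0, max_eq_right (by omega)]
    ring

theorem degree_divFun (h : Hyp K F) (hZ : ZerosBound K F) (f : F) :
    Divisor.degree (divFun h hZ f) = 0 := by
  by_cases hf : Transcendental K f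
  · rw [divFun, map_sub, degree_poleDiv_eq h hZ hf,
      degree_poleDiv_eq h hZ (transcendental_inv hf), finrank_adjoin_inv]
    ring
  · have hf' : IsAlgebraic K f := by
      by_contra hna
      exact hf hna
    have : divFun h hZ f = 0 := by
      ext v
      rw [divFun_apply, ord_eq_zero_of_isAlgebraic h hf' v]
      rfl
    rw [this, map_zero]

/-- **Principal divisors have degree zero** — in any characteristic. -/
theorem hasPrincipalDivisors (h : Hyp K F) (hZ : ZerosBound K F) : HasPrincipalDivisors K F :=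
  ⟨fun f _ => ⟨divFun h hZ f, divFun_apply h hZ f, degree_divFun h hZ f⟩⟩

/-- The bridge: the standing hypotheses `FF1` of the RR library. -/
theorem ff1_of_hyp (h : Hyp K F) (hZ : ZerosBound K F) {x : F} (hx : Transcendental K x) :
    FF1 K F where
  hpd := hasPrincipalDivisors h hZ
  deg_eq_one := h.deg_eq_one
  nonempty_place := by
    obtain ⟨v, -⟩ := exists_place_ord_pos h.finite hx
    exact ⟨v⟩
  exists_finite := ⟨x, hx, h.finite x hx⟩

/-- **Fundamental identity at the zeros**: `∑_{v(x) > 0} ord_v x = [F : K(x)]`. -/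
theorem sum_ord_zeros_eq_finrank (h : Hyp K F) (hZ : ZerosBound K F) {x : F}
    (hx : Transcendental K x) (S : Finset (Place K F)) (hS : ∀ v, v ∈ S ↔ 0 < v.ord x) :
    ∑ v ∈ S, v.ord x = (@Module.finrank K⟮x⟯ F _ _ _ : ℤ) := by
  have h1 := degree_poleDiv_eq h hZ (transcendental_inv hx)
  rw [finrank_adjoin_inv, degree_poleDiv, inv_inv] at h1
  rw [← h1]
  refine Finset.sum_congr ?_ fun _ _ => rfl
  ext v
  rw [hS, mem_support_poleDiv, v.ord_inv]
  omega

/-- **Fundamental identity at the poles**: `∑_{v(x) < 0} -ord_v x = [F : K(x)]`. -/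
theorem sum_ord_poles_eq_finrank (h : Hyp K F) (hZ : ZerosBound K F) {x : F}
    (hx : Transcendental K x) (S : Finset (Place K F)) (hS : ∀ v, v ∈ S ↔ v.ord x < 0) :
    ∑ v ∈ S, -v.ord x = (@Module.finrank K⟮x⟯ F _ _ _ : ℤ) := by
  have h1 := degree_poleDiv_eq h hZ hx
  rw [degree_poleDiv] at h1
  rw [← h1]
  refine Finset.sum_congr ?_ fun v _ => ?_
  · ext v
    rw [hS, mem_support_poleDiv]
  · rw [v.ord_inv]

end Fermat.Agent.Lib.RR.H443

end
end
-- ===== PACK-END Lib/RR/H443/Degree.lean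

-- ===== PACK-BEGIN S18/H438/Front/Finite.lean
section



/-!
# S18 / ALG-FRONT (helper438), part 6: finiteness and constants

For `G : Alg.GoodModel Lc Ec Fc R V w x S`, inside the field `Fc`:

* `GoodModelFront.isIntegral_Rf_mem_range` : `R` is integrally closed in `Fc`
  (hypothesis `hRF` of `H138.connected_special_fibre`);
* `GoodModelFront.finiteDimensional_baseField` : `Fc` is finite over `H138.baseField R x`;
* `GoodModelFront.finiteDimensional_fractionRing` / `_inv` : `Fc` is finite over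
  `FractionRing (baseRing R z)` for `z = x`, `z = x⁻¹` (hypothesis of `Front/Chart.lean`).
-/

set_option autoImplicit false
set_option linter.style.haveILetI false
set_option linter.unusedSectionVars false

noncomputable section

namespace Fermat.Agent.S18.H438

open Alg Polynomial

/-- Finite-dimensionality from a span statement inside an ambient field. -/
theorem finiteDimensional_of_span_subfield {K F Ω : Type*} [Field K] [Field F] [Field Ω]
    [Algebra K F] (ι : F →+* Ω) (E' : Subfield Ω)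
    (hE' : ∀ c ∈ E', ∃ k : K, ι (algebraMap K F k) = c)
    (s : Finset Ω) (hs : ∀ a ∈ s, ∃ f : F, ι f = a)
    (hspan : ∀ f : F, ι f ∈ Submodule.span E' (s : Set Ω)) :
    FiniteDimensional K F := by
  classical
  choose! g hg using hs
  refine (Module.finite_def (R := K) (M := F)).2 ⟨s.image g, ?_⟩
  rw [eq_top_iff]
  rintro f -
  obtain ⟨c, -, hc⟩ := Submodule.mem_span_finset.1 (hspan f)
  have hk : ∀ a : Ω, ∃ k : K, ι (algebraMap K F k) = (c a : Ω) := fun a => hE' _ (c a).2
  choose k hk using hk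
  have hf : f = ∑ a ∈ s, k a • g a := by
    apply ι.injective
    rw [← hc, map_sum]
    refine Finset.sum_congr rfl fun a ha => ?_
    have h1 : ι (k a • g a) = (c a : Ω) * a := by
      rw [Algebra.smul_def, map_mul, hk, hg a ha]
    rw [h1]
    rfl
  rw [hf]
  refine Submodule.sum_mem _ fun a ha => Submodule.smul_mem _ _ (Submodule.subset_span ?_)
  exact Finset.mem_coe.2 (Finset.mem_image_of_mem g ha)

variable {Ω : Type*} [Field Ω] {Lc Ec Fc : Subfield Ω} {R V : Subring Ω} {w x : Ω}
  {S : Finset Ω}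

namespace GoodModelFront

variable (G : GoodModel Lc Ec Fc R V w x S)

include G

/-- a subfield of `Ω` containing `R` and `x` contains `Ec(x)` -/
theorem ratField_le_of_mem (T : Subfield Ω) (hR : ∀ r ∈ R, r ∈ T) (hx : x ∈ T) :
    ratField Ec x ≤ T := by
  unfold ratField
  rw [Subfield.closure_le]
  rintro e (he | he)
  · rcases G.R_total e he with h | h
    · exact hR _ h
    · have := T.inv_mem (hR _ h)
      rwa [inv_inv] at this
  · rw [Set.mem_singleton_iff] at he
    rw [he]
    exact hx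

/-- **`Fc` is finite over any field `K → Fc` whose image contains `R` and `x`.** -/
theorem finiteDimensional_of_mem {K : Type*} [Field K] [Algebra K Fc]
    (hR : ∀ r : Rf Fc R, ∃ k : K, algebraMap K Fc k = (r : Fc))
    (hx : ∃ k : K, algebraMap K Fc k = xf G) : FiniteDimensional K Fc := by
  obtain ⟨s, hs, hspan⟩ := G.finite
  refine finiteDimensional_of_span_subfield Fc.subtype (ratField Ec x) ?_ s
    (fun a ha => ⟨⟨a, hs ha⟩, rfl⟩) (fun f => hspan f f.2)
  have hle : ratField Ec x ≤ ((algebraMap K Fc).fieldRange).map Fc.subtype := by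
    refine ratField_le_of_mem G _ (fun r hr => ?_) ?_
    · obtain ⟨k, hk⟩ := hR ⟨⟨r, R_le_Fc G hr⟩, hr⟩
      exact ⟨algebraMap K Fc k, ⟨k, rfl⟩, by rw [hk]; rfl⟩
    · obtain ⟨k, hk⟩ := hx
      exact ⟨algebraMap K Fc k, ⟨k, rfl⟩, by rw [hk]; rfl⟩
  intro c hc
  obtain ⟨f, ⟨k, rfl⟩, hf⟩ := hle hc
  exact ⟨k, hf⟩

/-- `Fc` is finite over `H138.baseField R x`. -/
theorem finiteDimensional_baseField :
    FiniteDimensional (H138.baseField (Rf Fc R) (xf G)) Fc :=
  finiteDimensional_of_mem G
    (fun r => ⟨⟨(r : Fc), Subfield.subset_closure (Or.inl ⟨r, rfl⟩)⟩, rfl⟩)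
    ⟨⟨xf G, Subfield.subset_closure (Or.inr rfl)⟩, rfl⟩

/-- `Fc` is finite over `H138.baseField R x⁻¹`. -/
theorem finiteDimensional_baseField_inv :
    FiniteDimensional (H138.baseField (Rf Fc R) (xf G)⁻¹) Fc := by
  rw [H138.baseField_inv]
  exact finiteDimensional_baseField G

section Frac

attribute [local instance] FractionRing.liftAlgebra

/-- `Fc` is finite over `Frac (R[x])`. -/
theorem finiteDimensional_fractionRing :
    FiniteDimensional (FractionRing (baseRing (Rf Fc R) (xf G))) Fc :=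
  finiteDimensional_of_mem G
    (fun r => ⟨algebraMap (baseRing (Rf Fc R) (xf G)) _
        (algebraMap (Rf Fc R) (baseRing (Rf Fc R) (xf G)) r), by
      rw [← IsScalarTower.algebraMap_apply]; rfl⟩)
    ⟨algebraMap (baseRing (Rf Fc R) (xf G)) _ ⟨xf G, self_mem_baseRing _ _⟩, by
      rw [← IsScalarTower.algebraMap_apply]; rfl⟩

/-- `Fc` is finite over `Frac (R[x⁻¹])`. -/
theorem finiteDimensional_fractionRing_inv :
    FiniteDimensional (FractionRing (baseRing (Rf Fc R) (xf G)⁻¹)) Fc :=
  finiteDimensional_of_mem G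
    (fun r => ⟨algebraMap (baseRing (Rf Fc R) (xf G)⁻¹) _
        (algebraMap (Rf Fc R) (baseRing (Rf Fc R) (xf G)⁻¹) r), by
      rw [← IsScalarTower.algebraMap_apply]; rfl⟩)
    ⟨(algebraMap (baseRing (Rf Fc R) (xf G)⁻¹) _ ⟨(xf G)⁻¹, self_mem_baseRing _ _⟩)⁻¹, by
      rw [map_inv₀, ← IsScalarTower.algebraMap_apply]
      show ((xf G)⁻¹)⁻¹ = xf G
      rw [inv_inv]⟩

end Frac

/-- the valuation ring `R` of the field `Ec` -/
def Re : ValuationSubring Ec :=
  { R.comap Ec.subtype with
    mem_or_inv_mem' := fun e => by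
      rcases G.R_total e e.2 with h | h
      · exact Or.inl h
      · exact Or.inr h }

theorem mem_Re {e : Ec} : e ∈ Re G ↔ (e : Ω) ∈ R := Iff.rfl

/-- **`R` is integrally closed in `Fc`.** -/
theorem isIntegral_Rf_mem_range (y : Fc) (hy : IsIntegral (Rf Fc R) y) :
    y ∈ Set.range (algebraMap (Rf Fc R) Fc) := by
  obtain ⟨p, hpm, hp⟩ := hy
  -- `y` is algebraic over `Ec`, hence lies in `Ec`
  let φ : Rf Fc R →+* Ec :=
    (Fc.subtype.comp (Rf Fc R).subtype).codRestrict Ec.toSubring (fun r => G.R_le r.2)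
  have hcomp : (algebraMap Ec Ω).comp φ = Fc.subtype.comp (algebraMap (Rf Fc R) Fc) := rfl
  have hφ : Function.Injective φ := by
    intro a b hab
    apply Subtype.ext
    apply Subtype.ext
    exact congrArg (fun t : Ec => (t : Ω)) hab
  have hyΩ : Polynomial.eval₂ ((algebraMap Ec Ω).comp φ) (y : Ω) p = 0 := by
    rw [hcomp]
    have h1 := Polynomial.hom_eval₂ p (algebraMap (Rf Fc R) Fc) Fc.subtype y
    rw [hp, map_zero] at h1
    exact h1.symm
  have halg : IsAlgebraic Ec (y : Ω) := by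
    refine ⟨p.map φ, (Polynomial.map_ne_zero_iff hφ).2 hpm.ne_zero, ?_⟩
    rw [Polynomial.aeval_def, Polynomial.eval₂_map]
    exact hyΩ
  have hyE : (y : Ω) ∈ Ec := G.E_closed_in_F y y.2 halg
  -- integrality over the valuation ring `Re`
  letI : Algebra (Rf Fc R) Ec := φ.toAlgebra
  have hint : IsIntegral (Rf Fc R) (⟨(y : Ω), hyE⟩ : Ec) := by
    refine ⟨p, hpm, ?_⟩
    apply Ec.subtype_injective
    rw [Polynomial.hom_eval₂, map_zero]
    exact hyΩ
  have hmem : (⟨(y : Ω), hyE⟩ : Ec) ∈ Re G :=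
    mem_valuationSubring_of_isIntegral (Re G) (fun a => a.2) hint
  exact ⟨⟨y, hmem⟩, rfl⟩

end GoodModelFront

end Fermat.Agent.S18.H438

end
end
-- ===== PACK-END S18/H438/Front/Finite.lean

-- ===== PACK-BEGIN S18/B12/H33/Core.lean
section



/-!
# S18 b2.5 (helper33): `B2CoreAbsStatement` from the assembly pieces A0, A2, A2', A3, A4, A5, A5'
-/

set_option autoImplicit false

noncomputable section

namespace Fermat.Agent.S18.B12.H33

open Polynomial

universe u v

section Setup

variable {P : Type u} [CommRing P] [IsDomain P] [UniqueFactorizationMonoid P] [IsNoetherianRing P]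
  {B : Type v} [CommRing B] [IsDomain B] [IsIntegrallyClosed B] [Algebra P B]
  [Module.Finite P B] [Module.IsTorsionFree P B]

/-- Local bases restrict to smaller ideals. -/
theorem IsLocalBasis.mono {𝔪 𝔫 : Ideal P} (h𝔫 : 𝔫 ≤ 𝔪) {n : ℕ} {x : Fin n → B}
    (hx : IsLocalBasis P B 𝔪 n x) : IsLocalBasis P B 𝔫 n x := by
  obtain ⟨hli, g, hg, hsp⟩ := hx
  exact ⟨hli, g, fun h => hg (h𝔫 h), hsp⟩

/-- For a local basis at `𝔪 ∋ π` (prime), `π ∣ ∑ aᵢ xᵢ` in `B` forces `π ∣ aᵢ`. -/
theorem IsLocalBasis.dvd_coeff {𝔪 : Ideal P} {n : ℕ} {x : Fin n → B}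
    (hx : IsLocalBasis P B 𝔪 n x) {π : P} (hπ : Prime π) (hπ𝔪 : π ∈ 𝔪)
    (a : Fin n → P) (h : (∑ i, a i • x i) ∈ Ideal.span {algebraMap P B π}) (i : Fin n) :
    π ∣ a i := by
  obtain ⟨hli, g, hg, hsp⟩ := hx
  rw [Ideal.mem_span_singleton] at h
  obtain ⟨b, hb⟩ := h
  have hgb := hsp b
  rw [Submodule.mem_span_range_iff_exists_fun] at hgb
  obtain ⟨c, hc⟩ := hgb
  -- ∑ (g aᵢ - π cᵢ) xᵢ = 0
  have hrel : ∑ j, (g * a j - π * c j) • x j = 0 := by
    have h1 : ∑ j, (g * a j - π * c j) • x j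
        = g • (∑ j, a j • x j) - π • (∑ j, c j • x j) := by
      rw [Finset.smul_sum, Finset.smul_sum, ← Finset.sum_sub_distrib]
      refine Finset.sum_congr rfl fun j _ => ?_
      rw [sub_smul, mul_smul, mul_smul]
    rw [h1, hc, hb, Algebra.smul_def, Algebra.smul_def, Algebra.smul_def]
    ring
  have hz := Fintype.linearIndependent_iff.mp hli _ hrel i
  have hdvd : π ∣ g * a i := ⟨c i, by linear_combination hz⟩
  rcases hπ.dvd_or_dvd hdvd with h | h
  · exact absurd (Ideal.mem_of_dvd 𝔪 h hπ𝔪) hg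
  · exact h

end Setup

end Fermat.Agent.S18.B12.H33

namespace Fermat.Agent.S18.B12.H33

open Polynomial

universe u v

set_option linter.unusedSectionVars false
set_option linter.unusedVariables false

section Main

variable {P : Type u} [CommRing P] [IsDomain P] (w : P)
  {B : Type v} [CommRing B] [Algebra P B]


/-- Reduction of a radical-membership from `B` to `B/wB`. -/
theorem mk_sub_sum_mem_radical {r : ℕ} (y : Fin r → B) (q : P) (t : (P ⧸ Ideal.span {w}))
    (hqt : Associated (Ideal.Quotient.mk (Ideal.span {w}) q) t)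
    (c : B) (a : Fin r → P)
    (h : c - ∑ i, a i • y i ∈ (Ideal.span {algebraMap P B w, algebraMap P B q}).radical) :
    (Ideal.Quotient.mk ((Ideal.span {w}).map (algebraMap P B)) c : (B ⧸ (Ideal.span {w}).map (algebraMap P B)))
      - ∑ i, (Ideal.Quotient.mk (Ideal.span {w}) (a i)) •
          (Ideal.Quotient.mk ((Ideal.span {w}).map (algebraMap P B)) (y i) : (B ⧸ (Ideal.span {w}).map (algebraMap P B))) ∈
      (Ideal.span {algebraMap (P ⧸ Ideal.span {w}) (B ⧸ (Ideal.span {w}).map (algebraMap P B)) t}).radical := by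
  obtain ⟨k, hk⟩ := h
  refine ⟨k, ?_⟩
  have e1 : (Ideal.Quotient.mk ((Ideal.span {w}).map (algebraMap P B)) c : (B ⧸ (Ideal.span {w}).map (algebraMap P B)))
      - ∑ i, (Ideal.Quotient.mk (Ideal.span {w}) (a i)) •
          (Ideal.Quotient.mk ((Ideal.span {w}).map (algebraMap P B)) (y i) : (B ⧸ (Ideal.span {w}).map (algebraMap P B)))
      = Ideal.Quotient.mk ((Ideal.span {w}).map (algebraMap P B)) (c - ∑ i, a i • y i) := by
    rw [map_sub, map_sum]
    congr 1
  rw [e1, ← map_pow]
  rw [Ideal.mem_span_pair] at hk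
  obtain ⟨c₁, c₂, hc⟩ := hk
  rw [← hc, map_add, map_mul, map_mul]
  have hw0 : Ideal.Quotient.mk ((Ideal.span {w}).map (algebraMap P B)) (algebraMap P B w) = 0 :=
    Ideal.Quotient.eq_zero_iff_mem.mpr
      (Ideal.mem_map_of_mem _ (Ideal.mem_span_singleton_self w))
  rw [hw0, mul_zero, zero_add]
  have hq' : Ideal.Quotient.mk ((Ideal.span {w}).map (algebraMap P B)) (algebraMap P B q)
      = algebraMap (P ⧸ Ideal.span {w}) (B ⧸ (Ideal.span {w}).map (algebraMap P B)) (Ideal.Quotient.mk (Ideal.span {w}) q) := rfl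
  rw [hq']
  obtain ⟨v, hv⟩ := hqt
  rw [Ideal.mem_span_singleton]
  refine Dvd.dvd.mul_left ?_ _
  rw [← hv, map_mul]
  exact ⟨algebraMap (P ⧸ Ideal.span {w}) (B ⧸ (Ideal.span {w}).map (algebraMap P B)) ((v⁻¹ : (P ⧸ Ideal.span {w})ˣ) : (P ⧸ Ideal.span {w})), by
    rw [mul_assoc, ← map_mul, Units.mul_inv, map_one, mul_one]⟩

end Main

end Fermat.Agent.S18.B12.H33

end
end
-- ===== PACK-END S18/B12/H33/Core.lean

-- ===== PACK-BEGIN S18/B12/H203/RedBasisAbs.lean
section






/-!
# S18 / b2.5, piece A5': reduced basis at a prime `s` with `P/(s)` a PID (`RedBasisAbsStatement`)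

Adapter: `H693.exists_redBasis` applied to `B/sB` over `P/(s)`, which is finite and torsion-free
(`H203.isTorsionFree_quotient`, `H203.finite_quotient`).
-/

set_option autoImplicit false

noncomputable section

namespace Fermat.Agent.S18.B12.H203

open Fermat.Agent.S18.H203

universe u v

/-- Nilpotency in `B/sB` is membership in `rad (sB)`. -/
theorem isNilpotent_redB_iff {P : Type*} {B : Type*} [CommRing P] [CommRing B] [Algebra P B]
    (s : P) (b : B) :
    IsNilpotent (redB (S := P) s b) ↔ b ∈ (Ideal.span {algebraMap P B s}).radical := by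
  rw [← map_span_singleton_eq]
  constructor
  · rintro ⟨k, hk⟩
    rw [← map_pow, Ideal.Quotient.eq_zero_iff_mem] at hk
    exact ⟨k, hk⟩
  · rintro ⟨k, hk⟩
    refine ⟨k, ?_⟩
    rw [← map_pow, Ideal.Quotient.eq_zero_iff_mem]
    exact hk

/-- **A5' (reduced basis at a prime `s` with `P/(s)` a PID).** -/
theorem redBasisAbs.{u₁, v₁} : RedBasisAbsStatement.{u₁, v₁} := by
  intro P _ _ _ B _ _ _ _ _ _ s hs hpid
  let _ : Algebra (FractionRing P) (FractionRing B) := FractionRing.liftAlgebra P _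
  have : IsScalarTower P (FractionRing P) (FractionRing B) :=
    FractionRing.isScalarTower_liftAlgebra P (FractionRing B)
  have : IsIntegralClosure B P (FractionRing B) :=
    IsIntegralClosure.of_isIntegrallyClosed _ _ _
  have hprime : (Ideal.span {s}).IsPrime := (Ideal.span_singleton_prime hs.ne_zero).mpr hs
  have hdom : IsDomain (P ⧸ Ideal.span {s}) := Ideal.Quotient.isDomain _
  have htf : Module.IsTorsionFree (P ⧸ Ideal.span {s})
      (B ⧸ (Ideal.span {s}).map (algebraMap P B)) :=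
    isTorsionFree_quotient (B := B) (FractionRing P) (FractionRing B) hs
  have hfin : Module.Finite (P ⧸ Ideal.span {s})
      (B ⧸ (Ideal.span {s}).map (algebraMap P B)) := finite_quotient (B := B) (Ideal.span {s})
  obtain ⟨r, yb, h1, h2⟩ := Fermat.Agent.S18.B12.H693.exists_redBasis (P ⧸ Ideal.span {s})
    (B ⧸ (Ideal.span {s}).map (algebraMap P B))
  choose y hy using fun i => Ideal.Quotient.mk_surjective (yb i)
  have hsum : ∀ a : Fin r → P,
      redB (S := P) s (∑ i, a i • y i) = ∑ i, redS s (a i) • yb i := by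
    intro a
    rw [map_sum]
    refine Finset.sum_congr rfl fun i _ => ?_
    rw [redB_smul, ← hy i]
  refine ⟨r, y, ?_, ?_⟩
  · intro a ha i
    have h3 : IsNilpotent (∑ i, redS s (a i) • yb i) := by
      rw [← hsum]
      exact (isNilpotent_redB_iff s _).mpr ha
    have h4 := congrFun (h1 _ h3) i
    exact (redS_eq_zero_iff s (a i)).mp h4
  · intro b
    obtain ⟨ab, hab⟩ := h2 (redB (S := P) s b)
    choose a ha using fun i => Ideal.Quotient.mk_surjective (ab i)
    refine ⟨a, ?_⟩
    rw [← isNilpotent_redB_iff, map_sub, hsum]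
    have : (fun i => redS s (a i)) = ab := funext ha
    simp only [this] at *
    have hfun : (∑ i, redS s (a i) • yb i) = ∑ i, ab i • yb i :=
      Finset.sum_congr rfl fun i _ => by rw [← ha i]
    rw [hfun]
    exact hab

end Fermat.Agent.S18.B12.H203

end
end
-- ===== PACK-END S18/B12/H203/RedBasisAbs.lean

-- ===== PACK-BEGIN A2/Alg/H754/SmoothAbs.lean
section





/-!
# A2 / ALG / P-S (helper754): purity at a smooth point of the special fibre, abstract form

`B` a Noetherian integrally closed domain with fraction field `F`, `ϖ ≠ 0` with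
`(ϖ) = p ⊓ p'` (two incomparable primes), `B / p` Dedekind, `n` a maximal ideal with `p ≤ n`,
`¬ p' ≤ n`.  If `u ∈ Fˣ` has divisor divisible by `m` at every height-one prime
(`S18.H754.DivisibleDivisor`) and is a unit at `p`, then there is `d ∈ Fˣ` with `u d ^ m` a unit
at `n` and `d` a unit at `p` and at `p'`.

Proof: `B_n` is a Noetherian local domain, `ϖ` is prime in `B_n` and `𝔪 B_n = (ϖ, t)`, so `B_n`
is a UFD (`S18.H754.ufd_of_regular_pair`) and `u = ε s ^ (-m)` (`S18.H754.exists_unit_mul_pow`).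
Then `s` is a unit at `p`, and `s = υ ϖ ^ j` at `p'`; correct by `g ^ (-j)`, `g := g₀ ^ 2 + ϖ`,
`g₀ ∈ p' ∖ n`.
-/

set_option autoImplicit false
set_option linter.style.haveILetI false

noncomputable section

namespace Fermat.Agent.A2.Alg.H754

open IsLocalRing
open Fermat.Agent.S18.H754 (DivisibleDivisor LocallyPow)

variable {B F : Type*} [CommRing B] [IsDomain B] [Field F] [Algebra B F] [IsFractionRing B F]

section Components

omit [IsDomain B] in
/-- local generation of `p` by `ϖ` away from `p'`. -/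
lemma exists_mul_eq_of_mem (ϖ : B) (p p' : Ideal B) (hinf : p ⊓ p' = Ideal.span {ϖ}) {g b : B}
    (hg : g ∈ p') (hb : b ∈ p) : ∃ c : B, g * b = ϖ * c := by
  have h : g * b ∈ p ⊓ p' := ⟨p.mul_mem_left g hb, p'.mul_mem_right b hg⟩
  rw [hinf, Ideal.mem_span_singleton] at h
  exact h

omit [IsDomain B] in
lemma mem_minimalPrimes_of_inf (ϖ : B) (p p' : Ideal B) [hp : p.IsPrime]
    (hinf : p ⊓ p' = Ideal.span {ϖ}) (h21 : ¬ p' ≤ p) :
    p ∈ (Ideal.span {ϖ}).minimalPrimes := by
  refine ⟨⟨hp, ?_⟩, ?_⟩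
  · rw [← hinf]
    exact inf_le_left
  · rintro q ⟨hq, hle⟩ hqp
    have h1 : p * p' ≤ q := le_trans Ideal.mul_le_inf (hinf ▸ hle)
    rcases (Ideal.IsPrime.mul_le hq).1 h1 with h | h
    · exact h
    · exact absurd (le_trans h hqp) h21

lemma height_eq_one_of_inf [IsNoetherianRing B] (ϖ : B) (hϖ : ϖ ≠ 0) (p p' : Ideal B)
    [hp : p.IsPrime] (hinf : p ⊓ p' = Ideal.span {ϖ}) (h21 : ¬ p' ≤ p) : p.height = 1 := by
  apply le_antisymm
  · exact Ideal.height_le_one_of_isPrincipal_of_mem_minimalPrimes (Ideal.span {ϖ}) p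
      (mem_minimalPrimes_of_inf ϖ p p' hinf h21)
  · rw [Order.one_le_iff_pos, pos_iff_ne_zero, Ne, Ideal.height_eq_zero_iff_eq_bot]
    intro h0
    have : ϖ ∈ p := by
      have : ϖ ∈ p ⊓ p' := hinf ▸ Ideal.mem_span_singleton_self ϖ
      exact this.1
    rw [h0, Ideal.mem_bot] at this
    exact hϖ this

end Components

section Unif

variable [IsNoetherianRing B] [IsIntegrallyClosed B]

/-- At a height-one prime `𝔮` whose localisation has uniformiser `ϖ`, every nonzero element of
`F` is a unit at `𝔮` times an integer power of `ϖ`. -/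
theorem exists_zpow_locU (𝔮 : Ideal B) [h𝔮 : 𝔮.IsPrime] (h : 𝔮.height = 1) (ϖ : B) (hϖ0 : ϖ ≠ 0)
    (hϖ : ϖ ∈ 𝔮) (hgen : ∀ a ∈ 𝔮, ∃ g : B, g ∉ 𝔮 ∧ ∃ c : B, g * a = ϖ * c) {f : F}
    (hf : f ≠ 0) :
    ∃ (j : ℤ) (υ : F), LocU 𝔮 υ ∧ f = υ * (algebraMap B F ϖ) ^ j := by
  obtain ⟨W, hdvr, hW⟩ := Fermat.Agent.S18.H438.exists_dvr_of_height_one (F := F) 𝔮 h
  haveI := hdvr
  have h1𝔮 : (1 : B) ∉ 𝔮 := fun h1 => h𝔮.ne_top ((Ideal.eq_top_iff_one _).2 h1)
  have hinj : Function.Injective (algebraMap B F) := IsFractionRing.injective B F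
  have hϖF : algebraMap B F ϖ ≠ 0 := fun h0 => hϖ0 (hinj (by rw [h0, map_zero]))
  have hϖW : algebraMap B F ϖ ∈ W := (hW _).2 ⟨ϖ, 1, h1𝔮, by rw [map_one, mul_one]⟩
  -- units of `W`
  have hunit : ∀ x : W, IsUnit x ↔ LocU 𝔮 (x : F) := by
    intro x
    constructor
    · intro hx
      obtain ⟨y, hy⟩ := isUnit_iff_exists_inv.1 hx
      have hxy : (x : F) * (y : F) = 1 := by
        have := congrArg (Subtype.val) hy
        simpa using this
      have hx0 : (x : F) ≠ 0 := left_ne_zero_of_mul_eq_one hxy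
      rw [locU_iff_of_valuationSubring 𝔮 W hW hx0]
      refine ⟨x.2, ?_⟩
      rw [inv_eq_of_mul_eq_one_right hxy]
      exact y.2
    · intro hx
      have hx0 := hx.ne_zero
      obtain ⟨-, h2⟩ := (locU_iff_of_valuationSubring 𝔮 W hW hx0).1 hx
      exact isUnit_iff_exists_inv.2 ⟨⟨(x : F)⁻¹, h2⟩, Subtype.ext (mul_inv_cancel₀ hx0)⟩
  have hirr : Irreducible (⟨algebraMap B F ϖ, hϖW⟩ : W) := by
    rw [IsDiscreteValuationRing.irreducible_iff_uniformizer]
    ext x
    rw [IsLocalRing.mem_maximalIdeal, mem_nonunits_iff, Ideal.mem_span_singleton]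
    constructor
    · intro hx
      obtain ⟨a, s, hs, has⟩ := (hW x).1 x.2
      have ha : a ∈ 𝔮 := by
        by_contra ha
        exact hx ((hunit x).2 ⟨a, s, ha, hs, has⟩)
      obtain ⟨g, hg, c, hc⟩ := hgen a ha
      have hgs : g * s ∉ 𝔮 := fun hgs => (h𝔮.mem_or_mem hgs).elim hg hs
      have hgsF : algebraMap B F (g * s) ≠ 0 := LocU.algebraMap_ne_zero hgs
      have hy : algebraMap B F c * (algebraMap B F (g * s))⁻¹ ∈ W :=
        (hW _).2 ⟨c, g * s, hgs, by rw [mul_assoc, inv_mul_cancel₀ hgsF, mul_one]⟩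
      refine ⟨⟨_, hy⟩, Subtype.ext ?_⟩
      change (x : F) = algebraMap B F ϖ * (algebraMap B F c * (algebraMap B F (g * s))⁻¹)
      have e : (x : F) * algebraMap B F (g * s) = algebraMap B F ϖ * algebraMap B F c := by
        rw [map_mul, mul_comm (algebraMap B F g), ← mul_assoc, has, ← map_mul, ← map_mul,
          mul_comm a g, hc]
      rw [← mul_assoc, ← e, mul_assoc, mul_inv_cancel₀ hgsF, mul_one]
    · rintro ⟨y, rfl⟩ hu
      have hu' : IsUnit (⟨algebraMap B F ϖ, hϖW⟩ : W) := isUnit_of_mul_isUnit_left hu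
      obtain ⟨a, b, ha, hb, hab⟩ := (hunit _).1 hu'
      apply ha
      have : a = ϖ * b := hinj (by rw [map_mul]; exact hab.symm)
      rw [this]
      exact 𝔮.mul_mem_right b hϖ
  have key : ∀ x : W, x ≠ 0 →
      ∃ (j : ℕ) (υ : F), LocU 𝔮 υ ∧ (x : F) = υ * (algebraMap B F ϖ) ^ j := by
    intro x hx
    obtain ⟨j, υ, hxυ⟩ := IsDiscreteValuationRing.eq_unit_mul_pow_irreducible hx hirr
    refine ⟨j, ((υ : W) : F), (hunit _).1 υ.isUnit, ?_⟩
    rw [hxυ]
    rfl
  rcases W.mem_or_inv_mem f with hfW | hfW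
  · obtain ⟨j, υ, hυ, e⟩ := key ⟨f, hfW⟩ (fun h0 => hf (congrArg Subtype.val h0))
    exact ⟨j, υ, hυ, by rw [zpow_natCast]; exact e⟩
  · obtain ⟨j, υ, hυ, e⟩ := key ⟨f⁻¹, hfW⟩
      (fun h0 => inv_ne_zero hf (congrArg Subtype.val h0))
    refine ⟨-j, υ⁻¹, hυ.inv, ?_⟩
    have e' : f⁻¹ = υ * algebraMap B F ϖ ^ j := e
    rw [zpow_neg, zpow_natCast, ← mul_inv, ← e', inv_inv]

end Unif

section Main

variable [IsNoetherianRing B] [IsIntegrallyClosed B]

/-- **Purity at a smooth point, abstract form.** -/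
theorem pure_smooth_abs (ϖ : B) (hϖ : ϖ ≠ 0) (p p' : Ideal B) [hp : p.IsPrime]
    [hp' : p'.IsPrime] (hinf : p ⊓ p' = Ideal.span {ϖ}) (h12 : ¬ p ≤ p') (h21 : ¬ p' ≤ p)
    (hD : IsDedekindDomain (B ⧸ p))
    (n : Ideal B) (hn : n.IsMaximal) (hpn : p ≤ n) (hp'n : ¬ p' ≤ n)
    (m : ℕ) (hm : 0 < m) (u : F) (hu : u ≠ 0)
    (hdiv : DivisibleDivisor B m u) (hup : LocU p u) :
    ∃ d : F, d ≠ 0 ∧ LocU n (u * d ^ m) ∧ LocU p d ∧ LocU p' d := by
  classical
  haveI hnp : n.IsPrime := hn.isPrime
  have h1n : (1 : B) ∉ n := fun h1 => hnp.ne_top ((Ideal.eq_top_iff_one _).2 h1)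
  have hinj : Function.Injective (algebraMap B F) := IsFractionRing.injective B F
  obtain ⟨g₀, hg₀p', hg₀n⟩ := SetLike.not_le_iff_exists.1 hp'n
  obtain ⟨h₀, hh₀p, hh₀p'⟩ := SetLike.not_le_iff_exists.1 h12
  have hϖpp : ϖ ∈ p ⊓ p' := hinf ▸ Ideal.mem_span_singleton_self ϖ
  have hϖp : ϖ ∈ p := hϖpp.1
  have hϖp' : ϖ ∈ p' := hϖpp.2
  have hϖn : ϖ ∈ n := hpn hϖp
  have hϖF : algebraMap B F ϖ ≠ 0 := fun h0 => hϖ (hinj (by rw [h0, map_zero]))
  -- local generator of `n` modulo `p`
  obtain ⟨t, htn, hreg⟩ : ∃ t ∈ n, ∀ a ∈ n, ∃ s : B, s ∉ n ∧ s * a ∈ Ideal.span {ϖ, t} := by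
    haveI := hD
    have hsurj : Function.Surjective (Ideal.Quotient.mk p) := Ideal.Quotient.mk_surjective
    have hM : (n.map (Ideal.Quotient.mk p)).IsMaximal := by
      haveI := hn
      exact Ideal.IsMaximal.map_of_surjective_of_ker_le hsurj (by rw [Ideal.mk_ker]; exact hpn)
    obtain ⟨tb, htb, sb, hsb, hall⟩ :=
      Fermat.Agent.S18.B12.H84.exists_local_generator (n.map (Ideal.Quotient.mk p)) hM
    obtain ⟨t, rfl⟩ := hsurj tb
    obtain ⟨s, rfl⟩ := hsurj sb
    have hmem : ∀ b : B, Ideal.Quotient.mk p b ∈ n.map (Ideal.Quotient.mk p) ↔ b ∈ n := by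
      intro b
      rw [← Ideal.mem_comap, Ideal.comap_map_of_surjective _ hsurj, ← RingHom.ker_eq_comap_bot,
        Ideal.mk_ker, sup_eq_left.2 hpn]
    have hsn : s ∉ n := fun h => hsb ((hmem s).2 h)
    refine ⟨t, (hmem t).1 htb, fun a ha => ⟨g₀ * s, ?_, ?_⟩⟩
    · exact fun h => (hnp.mem_or_mem h).elim hg₀n hsn
    · have h1 := hall _ ((hmem a).2 ha)
      rw [Ideal.mem_span_singleton'] at h1
      obtain ⟨cb, hcb⟩ := h1
      obtain ⟨c, rfl⟩ := hsurj cb
      have hd : s * a - c * t ∈ p := by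
        rw [← Ideal.Quotient.eq, map_mul, map_mul]
        exact hcb.symm
      obtain ⟨e, he⟩ := exists_mul_eq_of_mem ϖ p p' hinf hg₀p' hd
      rw [Ideal.mem_span_pair]
      refine ⟨e, g₀ * c, ?_⟩
      linear_combination (-1 : B) * he
  -- the local ring `A = B_n ⊆ F`
  let A : Subalgebra B F :=
    Localization.subalgebra.ofField F n.primeCompl n.primeCompl_le_nonZeroDivisors
  haveI : IsLocalization.AtPrime A n := (inferInstance : IsLocalization n.primeCompl A)
  haveI : IsLocalRing A := IsLocalization.AtPrime.isLocalRing A n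
  haveI : IsNoetherianRing A := IsLocalization.isNoetherianRing n.primeCompl A inferInstance
  have hmapp : Ideal.span {algebraMap B A ϖ} = Ideal.map (algebraMap B A) p := by
    apply le_antisymm
    · rw [Ideal.span_singleton_le_iff_mem]
      exact Ideal.mem_map_of_mem _ hϖp
    · rw [Ideal.map_le_iff_le_comap]
      intro b hb
      obtain ⟨c, hc⟩ := exists_mul_eq_of_mem ϖ p p' hinf hg₀p' hb
      rw [Ideal.mem_comap]
      have hu : IsUnit (algebraMap B A g₀) :=
        IsLocalization.map_units A (⟨g₀, hg₀n⟩ : n.primeCompl)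
      have h2 : algebraMap B A g₀ * algebraMap B A b ∈ Ideal.span {algebraMap B A ϖ} := by
        rw [← map_mul, hc, map_mul]
        exact Ideal.mul_mem_right _ _ (Ideal.mem_span_singleton_self _)
      exact (Ideal.unit_mul_mem_iff_mem _ hu).1 h2
  have hprime : Prime (algebraMap B A ϖ) := by
    have h0 : algebraMap B A ϖ ≠ 0 := fun h =>
      hϖ (IsLocalization.injective A n.primeCompl_le_nonZeroDivisors (by rw [h, map_zero]))
    rw [← Ideal.span_singleton_prime h0, hmapp]
    refine IsLocalization.isPrime_of_isPrime_disjoint n.primeCompl A p hp ?_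
    rw [Set.disjoint_left]
    intro x hx hx'
    exact hx (hpn hx')
  have hmax : maximalIdeal A = Ideal.span {algebraMap B A ϖ, algebraMap B A t} :=
    Fermat.Agent.S18.H754.maximalIdeal_loc_eq_span_pair n A hϖn htn hreg
  haveI : UniqueFactorizationMonoid A :=
    Fermat.Agent.S18.H754.ufd_of_regular_pair _ _ hprime hmax
  obtain ⟨s, hs0, ε, hε⟩ := Fermat.Agent.S18.H754.exists_unit_mul_pow (R := A) m hm u hu
    (fun π hπ => Fermat.Agent.S18.H754.locallyPow_of_divisibleDivisor n A hdiv π hπ)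
  -- `u * s ^ m` is a unit at `n`
  have hUn : LocU n (u * s ^ m) := by
    have hne : u * s ^ m ≠ 0 := mul_ne_zero hu (pow_ne_zero _ hs0)
    refine locU_of_frac_of_inv_frac n hne ?_ ?_
    · rw [hε]
      exact (Fermat.Agent.S18.H438.mem_ofField_primeCompl_iff n _).1 (ε : A).2
    · have e : (u * s ^ m)⁻¹ = algebraMap A F ((ε⁻¹ : Aˣ) : A) := by
        rw [hε]
        apply inv_eq_of_mul_eq_one_left
        rw [← map_mul, Units.inv_mul, map_one]
      rw [e]
      exact (Fermat.Agent.S18.H438.mem_ofField_primeCompl_iff n _).1 ((ε⁻¹ : Aˣ) : A).2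
  -- `s` is a unit at `p`
  have hhtp : p.height = 1 := height_eq_one_of_inf ϖ hϖ p p' hinf h21
  have hhtp' : p'.height = 1 :=
    height_eq_one_of_inf ϖ hϖ p' p (by rw [inf_comm]; exact hinf) h12
  have hsp : LocU p s := by
    obtain ⟨W, -, hW⟩ := Fermat.Agent.S18.H438.exists_dvr_of_height_one (F := F) p hhtp
    refine locU_of_pow p W hW hm ?_
    have h1 : LocU p (s ^ m * u) := by
      rw [mul_comm]
      exact hUn.mono hpn
    exact h1.of_mul_left hup
  -- `s` at `p'`
  have hgen' : ∀ a ∈ p', ∃ g : B, g ∉ p' ∧ ∃ c : B, g * a = ϖ * c := by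
    intro a ha
    refine ⟨h₀, hh₀p', ?_⟩
    obtain ⟨c, hc⟩ := exists_mul_eq_of_mem ϖ p p' hinf ha hh₀p
    exact ⟨c, by rw [mul_comm, hc]⟩
  obtain ⟨j, υ, hυ, hsυ⟩ := exists_zpow_locU p' hhtp' ϖ hϖ hϖp' hgen' hs0
  -- the correcting element
  have hgn : g₀ ^ 2 + ϖ ∉ n := by
    intro h
    have h2 : g₀ ^ 2 ∈ n := by
      have := n.sub_mem h hϖn
      rwa [add_sub_cancel_right] at this
    exact hg₀n (hnp.mem_of_pow_mem 2 h2)
  have hgp' : LocU p' (algebraMap B F (g₀ ^ 2 + ϖ) * (algebraMap B F ϖ)⁻¹) := by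
    obtain ⟨c, hc⟩ := exists_mul_eq_of_mem ϖ p p' hinf hg₀p' hh₀p
    have hh2 : h₀ ^ 2 ∉ p' := fun h => hh₀p' (hp'.mem_of_pow_mem 2 h)
    refine ⟨ϖ * c ^ 2 + h₀ ^ 2, h₀ ^ 2, ?_, hh2, ?_⟩
    · intro h
      apply hh2
      have := p'.sub_mem h (p'.mul_mem_right (c ^ 2) hϖp')
      rwa [add_sub_cancel_left] at this
    · have key : (g₀ ^ 2 + ϖ) * h₀ ^ 2 = ϖ * (ϖ * c ^ 2 + h₀ ^ 2) := by
        linear_combination (g₀ * h₀ + ϖ * c) * hc
      rw [mul_right_comm, ← map_mul, key, map_mul, mul_right_comm, mul_inv_cancel₀ hϖF, one_mul]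
  have hGn : LocU n (algebraMap B F (g₀ ^ 2 + ϖ)) := LocU.of_notMem hgn h1n
  have hG0 : algebraMap B F (g₀ ^ 2 + ϖ) ≠ 0 := hGn.ne_zero
  refine ⟨s * (algebraMap B F (g₀ ^ 2 + ϖ)) ^ (-j), mul_ne_zero hs0 (zpow_ne_zero _ hG0), ?_, ?_,
    ?_⟩
  · have e : u * (s * (algebraMap B F (g₀ ^ 2 + ϖ)) ^ (-j)) ^ m =
        (u * s ^ m) * ((algebraMap B F (g₀ ^ 2 + ϖ)) ^ (-j)) ^ m := by
      rw [mul_pow, mul_assoc]
    rw [e]
    exact hUn.mul ((hGn.zpow (-j)).pow m)
  · exact hsp.mul ((hGn.mono hpn).zpow (-j))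
  · have e : s * (algebraMap B F (g₀ ^ 2 + ϖ)) ^ (-j) =
        υ * (algebraMap B F (g₀ ^ 2 + ϖ) * (algebraMap B F ϖ)⁻¹) ^ (-j) := by
      rw [hsυ, mul_zpow, inv_zpow', neg_neg]
      ring
    rw [e]
    exact hυ.mul (hgp'.zpow (-j))

end Main

end Fermat.Agent.A2.Alg.H754

end

end
-- ===== PACK-END A2/Alg/H754/SmoothAbs.lean

-- ===== PACK-BEGIN A2/H489/GaussFrameA.lean
section


/-!
# A2 / M1mod-FRAME part A (helper489): Gauss normal form over a discrete valuation ring

`R` a discrete valuation ring, `E = Frac R`, `L ⊇ E` a field, `x ∈ L`.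

* `exists_eq_pow_mul_prim` : a nonzero `p ∈ R[X]` is `w ^ n` times a primitive polynomial
  (primitive := nonzero modulo the maximal ideal);
* `exists_normal_form_adjoin` : every element `a ∈ E(x)` satisfies
  `a · Q(x) = c · P(x)` with `c ∈ E` and `P, Q ∈ R[X]` primitive;
* `IsGaussOver R V x` : the valuation subring `V` of `L` contains `R`, `x`, its maximal ideal
  contains `𝔪_R`, and `P(x)` is a unit of `V` for every primitive `P ∈ R[X]`
  (i.e. `V` induces the Gauss valuation on `E(x)`);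
* `IsGaussOver.mem_iff`, `IsGaussOver.mem_nonunits_iff` : `V ∩ E(x)` and `𝔪_V ∩ E(x)` in terms of
  normal forms (independent of `V`).
-/

set_option autoImplicit false

namespace Fermat.Agent.A2.H489

open IsLocalRing Polynomial IntermediateField

section Prim

variable {R : Type*} [CommRing R] [IsDomain R] [IsDiscreteValuationRing R]

omit [IsDomain R] [IsDiscreteValuationRing R] in
/-- primitive polynomials over a local ring: nonzero modulo the maximal ideal -/
theorem map_residue_eq_zero_iff [IsLocalRing R] (P : R[X]) :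
    P.map (residue R) = 0 ↔ ∀ i, P.coeff i ∈ maximalIdeal R := by
  constructor
  · intro h i
    have := congrArg (fun p => p.coeff i) h
    simp only [coeff_map, coeff_zero] at this
    exact (residue_eq_zero_iff _).mp this
  · intro h
    ext i
    simp only [coeff_map, coeff_zero]
    exact (residue_eq_zero_iff _).mpr (h i)

theorem exists_eq_C_mul_of_map_residue_eq_zero {w : R} (hw : Irreducible w) {P : R[X]}
    (h : P.map (residue R) = 0) : ∃ P' : R[X], P = C w * P' := by
  have h1 : C w ∣ P := by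
    rw [C_dvd_iff_dvd_coeff]
    intro i
    have := (map_residue_eq_zero_iff P).mp h i
    rw [hw.maximalIdeal_eq, Ideal.mem_span_singleton] at this
    exact this
  exact h1

/-- A nonzero polynomial over a DVR is a power of the uniformiser times a primitive polynomial. -/
theorem exists_eq_pow_mul_prim {w : R} (hw : Irreducible w) {p : R[X]} (hp : p ≠ 0) :
    ∃ (n : ℕ) (P : R[X]), p = C (w ^ n) * P ∧ P.map (residue R) ≠ 0 := by
  classical
  let _ : StrongNormalizationMonoid R := UniqueFactorizationMonoid.strongNormalizationMonoid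
  let _ : NormalizedGCDMonoid R := UniqueFactorizationMonoid.toNormalizedGCDMonoid R
  have hc : p.content ≠ 0 := fun h => hp (content_eq_zero_iff.mp h)
  obtain ⟨n, hn⟩ := IsDiscreteValuationRing.associated_pow_irreducible hc hw
  obtain ⟨u, hu⟩ := hn.symm
  -- `w ^ n * u = content`
  refine ⟨n, C (u : R) * p.primPart, ?_, ?_⟩
  · conv_lhs => rw [p.eq_C_content_mul_primPart]
    rw [← mul_assoc, ← C_mul, hu]
  · intro h
    rw [Polynomial.map_mul, map_C] at h
    have hu' : (C (residue R (u : R)) : (ResidueField R)[X]) ≠ 0 := by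
      rw [Ne, C_eq_zero, residue_eq_zero_iff]
      intro hmem
      exact (IsLocalRing.mem_maximalIdeal _).mp hmem u.isUnit
    rcases mul_eq_zero.mp h with h1 | h1
    · exact hu' h1
    · obtain ⟨P', hP'⟩ := exists_eq_C_mul_of_map_residue_eq_zero hw h1
      have hprim := p.isPrimitive_primPart
      have := hprim w ⟨P', hP'⟩
      exact hw.not_isUnit this

end Prim

section NormalForm

variable {R E L : Type*} [CommRing R] [IsDomain R] [IsDiscreteValuationRing R]
  [Field E] [Algebra R E] [IsFractionRing R E]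
  [Field L] [Algebra E L] [Algebra R L] [IsScalarTower R E L]

omit [IsDiscreteValuationRing R] in
/-- clearing denominators -/
theorem exists_aeval_eq_of_polynomial (x : L) {p : E[X]} (hp : p ≠ 0) :
    ∃ (d : R) (P : R[X]), d ≠ 0 ∧ P ≠ 0 ∧ algebraMap R L d * aeval x p = aeval x P := by
  obtain ⟨b, hbM, hb⟩ := IsLocalization.integerNormalization_spec (nonZeroDivisors R) p
  refine ⟨b, IsLocalization.integerNormalization (nonZeroDivisors R) p,
    nonZeroDivisors.ne_zero hbM, ?_, ?_⟩
  · rw [Ne, IsFractionRing.integerNormalization_eq_zero_iff]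
    exact hp
  · have h1 := congrArg (aeval x) hb
    rw [aeval_map_algebraMap] at h1
    rw [h1, ← Algebra.smul_def]
    have h2 : (b • p : E[X]) = C (algebraMap R E b) * p := by
      rw [Algebra.smul_def]
      rfl
    rw [h2, map_mul, aeval_C, ← IsScalarTower.algebraMap_apply R E L, Algebra.smul_def]

omit [IsDiscreteValuationRing R] in
theorem algebraMap_RL_ne_zero (E : Type*) {R L : Type*} [CommRing R] [IsDomain R]
    [Field E] [Algebra R E] [IsFractionRing R E]
    [Field L] [Algebra E L] [Algebra R L] [IsScalarTower R E L]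
    {d : R} (hd : d ≠ 0) : algebraMap R L d ≠ 0 := by
  rw [IsScalarTower.algebraMap_apply R E L]
  intro h
  have h1 : algebraMap R E d = 0 := (algebraMap E L).injective (by rw [h, map_zero])
  exact hd ((IsFractionRing.injective R E) (by rw [h1, map_zero]))

/-- **Gauss normal form** in `E(x)`: `a · Q(x) = c · P(x)` with `P`, `Q` primitive. -/
theorem exists_normal_form_adjoin {w : R} (hw : Irreducible w) (x : L) {a : L}
    (ha : a ∈ E⟮x⟯) (ha0 : a ≠ 0) :
    ∃ (c : E) (P Q : R[X]), c ≠ 0 ∧ P.map (residue R) ≠ 0 ∧ Q.map (residue R) ≠ 0 ∧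
      a * aeval x Q = algebraMap E L c * aeval x P := by
  obtain ⟨r, s, hrs⟩ := (mem_adjoin_simple_iff E a).mp ha
  have hs0 : aeval x s ≠ 0 := by
    intro h
    rw [h, div_zero] at hrs
    exact ha0 hrs
  have hr0 : aeval x r ≠ 0 := by
    intro h
    rw [h, zero_div] at hrs
    exact ha0 hrs
  have hs : s ≠ 0 := by
    rintro rfl
    exact hs0 (map_zero _)
  have hr : r ≠ 0 := by
    rintro rfl
    exact hr0 (map_zero _)
  obtain ⟨dr, R', hdr, hR', eR⟩ := exists_aeval_eq_of_polynomial (R := R) x hr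
  obtain ⟨ds, S', hds, hS', eS⟩ := exists_aeval_eq_of_polynomial (R := R) x hs
  obtain ⟨n, R₀, hR₀, hR₀p⟩ := exists_eq_pow_mul_prim hw hR'
  obtain ⟨m, S₀, hS₀, hS₀p⟩ := exists_eq_pow_mul_prim hw hS'
  have hw0 : algebraMap R L w ≠ 0 := algebraMap_RL_ne_zero E hw.ne_zero
  have hwE : algebraMap R E w ≠ 0 := fun h =>
    hw.ne_zero ((IsFractionRing.injective R E) (by rw [h, map_zero]))
  have hdrE : algebraMap R E dr ≠ 0 := fun h =>
    hdr ((IsFractionRing.injective R E) (by rw [h, map_zero]))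
  have hdsE : algebraMap R E ds ≠ 0 := fun h =>
    hds ((IsFractionRing.injective R E) (by rw [h, map_zero]))
  refine ⟨algebraMap R E ds * algebraMap R E w ^ n / (algebraMap R E dr * algebraMap R E w ^ m),
    R₀, S₀, ?_, hR₀p, hS₀p, ?_⟩
  · exact div_ne_zero (mul_ne_zero hdsE (pow_ne_zero _ hwE))
      (mul_ne_zero hdrE (pow_ne_zero _ hwE))
  · rw [hR₀, map_mul, aeval_C, map_pow] at eR
    rw [hS₀, map_mul, aeval_C, map_pow] at eS
    have hdrL : algebraMap R L dr ≠ 0 := algebraMap_RL_ne_zero E hdr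
    have hdsL : algebraMap R L ds ≠ 0 := algebraMap_RL_ne_zero E hds
    have e1 : a * aeval x s = aeval x r := by
      rw [hrs, div_mul_cancel₀ _ hs0]
    rw [map_div₀, map_mul, map_mul, map_pow, map_pow, ← IsScalarTower.algebraMap_apply R E L,
      ← IsScalarTower.algebraMap_apply R E L, ← IsScalarTower.algebraMap_apply R E L]
    rw [div_mul_eq_mul_div, eq_div_iff (mul_ne_zero hdrL (pow_ne_zero _ hw0))]
    have e2 : algebraMap R L dr * (algebraMap R L w ^ m * aeval x S₀) * a
        = algebraMap R L dr * (algebraMap R L ds * aeval x r) := by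
      rw [← eS, ← e1]; ring
    calc a * aeval x S₀ * (algebraMap R L dr * algebraMap R L w ^ m)
        = algebraMap R L dr * (algebraMap R L w ^ m * aeval x S₀) * a := by ring
      _ = algebraMap R L dr * (algebraMap R L ds * aeval x r) := e2
      _ = algebraMap R L ds * (algebraMap R L dr * aeval x r) := by ring
      _ = algebraMap R L ds * (algebraMap R L w ^ n * aeval x R₀) := by rw [eR]
      _ = algebraMap R L ds * algebraMap R L w ^ n * aeval x R₀ := by ring

end NormalForm

section Gauss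

/-- `V` induces the Gauss valuation on `E(x)` (with respect to the local ring `R`): it lies over
`R`, contains `x`, and `P(x)` is a unit of `V` for every primitive polynomial `P ∈ R[X]`. -/
structure IsGaussOver (R : Type*) {L : Type*} [CommRing R] [IsLocalRing R] [Field L]
    [Algebra R L] (V : ValuationSubring L) (x : L) : Prop where
  isOver : IsOver R V
  mem : x ∈ V
  prim : ∀ P : R[X], aeval x P ∈ V.nonunits → P.map (residue R) = 0

variable {R E L : Type*} [CommRing R] [IsDomain R] [IsDiscreteValuationRing R]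
  [Field E] [Algebra R E] [IsFractionRing R E]
  [Field L] [Algebra E L] [Algebra R L] [IsScalarTower R E L]
  {V : ValuationSubring L} {x : L}

omit [IsDomain R] [IsDiscreteValuationRing R] in
theorem IsOver.aeval_mem [IsLocalRing R] (h : IsOver R V) (hx : x ∈ V) (P : R[X]) :
    aeval x P ∈ V := by
  rw [aeval_def, eval₂_eq_sum, Polynomial.sum]
  exact sum_mem fun i _ => mul_mem (h.mem _) (pow_mem hx _)

omit [IsDomain R] [IsDiscreteValuationRing R] in
theorem IsGaussOver.aeval_mem [IsLocalRing R] (h : IsGaussOver R V x) (P : R[X]) :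
    aeval x P ∈ V :=
  h.isOver.aeval_mem h.mem P

omit [IsDomain R] [IsDiscreteValuationRing R] in
theorem IsGaussOver.inv_aeval_mem [IsLocalRing R] (h : IsGaussOver R V x) {P : R[X]}
    (hP : P.map (residue R) ≠ 0) : (aeval x P)⁻¹ ∈ V := by
  have h1 := h.aeval_mem P
  have h2 : aeval x P ∉ V.nonunits := fun hn => hP (h.prim P hn)
  rw [ValuationSubring.mem_nonunits_iff, not_lt] at h2
  rw [← ValuationSubring.valuation_le_one_iff, map_inv₀]
  have h3 := (ValuationSubring.valuation_le_one_iff V _).mpr h1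
  have h4 : V.valuation (aeval x P) = 1 := le_antisymm h3 h2
  rw [h4, inv_one]

omit [IsDomain R] [IsDiscreteValuationRing R] in
theorem IsGaussOver.aeval_ne_zero [IsLocalRing R] (h : IsGaussOver R V x) {P : R[X]}
    (hP : P.map (residue R) ≠ 0) : aeval x P ≠ 0 := by
  intro h0
  apply hP
  apply h.prim
  rw [h0, ValuationSubring.mem_nonunits_iff, map_zero]
  exact zero_lt_one

omit [IsDomain R] [IsDiscreteValuationRing R] in
theorem IsGaussOver.aeval_mem_nonunits [IsLocalRing R] (h : IsGaussOver R V x) {P : R[X]}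
    (hP : P.map (residue R) = 0) : aeval x P ∈ V.nonunits := by
  rw [aeval_def, eval₂_eq_sum, Polynomial.sum, ValuationSubring.mem_nonunits_iff]
  refine Valuation.map_sum_lt _ one_ne_zero fun i _ => ?_
  rw [← ValuationSubring.mem_nonunits_iff, mul_comm]
  exact mul_mem_nonunits (pow_mem h.mem _)
    (h.isOver.nonunit _ ((map_residue_eq_zero_iff P).mp hP i))

/-- `V ∩ E = R`. -/
theorem IsOver.const_mem_iff (hV : IsOver R V) (c : E) :
    algebraMap E L c ∈ V ↔ ∃ r : R, algebraMap R E r = c := by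
  constructor
  · intro hc
    rcases ValuationRing.isInteger_or_isInteger R c with ⟨r, hr⟩ | ⟨r, hr⟩
    · exact ⟨r, hr⟩
    · by_cases hc0 : c = 0
      · exact ⟨0, by rw [map_zero, hc0]⟩
      by_cases hu : IsUnit r
      · obtain ⟨u, rfl⟩ := hu
        refine ⟨(↑u⁻¹ : R), ?_⟩
        have h1 : algebraMap R E (↑u⁻¹ : R) * algebraMap R E (u : R) = 1 := by
          rw [← map_mul, Units.inv_mul, map_one]
        have hr' : algebraMap R E (u : R) = c⁻¹ := hr
        rw [hr'] at h1
        field_simp at h1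
        exact h1
      · exfalso
        have hm : r ∈ maximalIdeal R := (IsLocalRing.mem_maximalIdeal r).mpr hu
        have h1 := hV.nonunit r hm
        have hr' : algebraMap R E r = c⁻¹ := hr
        rw [IsScalarTower.algebraMap_apply R E L, hr', map_inv₀] at h1
        have h2 := mul_mem_nonunits hc h1
        have hc0' : algebraMap E L c ≠ 0 := by
          rw [Ne, map_eq_zero]
          exact hc0
        rw [mul_inv_cancel₀ hc0', ValuationSubring.mem_nonunits_iff, map_one] at h2
        exact lt_irrefl _ h2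
  · rintro ⟨r, rfl⟩
    rw [← IsScalarTower.algebraMap_apply]
    exact hV.mem r

/-- `𝔪_V ∩ E = 𝔪_R`. -/
theorem IsOver.const_mem_nonunits_iff (hV : IsOver R V) (c : E) :
    algebraMap E L c ∈ V.nonunits ↔ ∃ r ∈ maximalIdeal R, algebraMap R E r = c := by
  constructor
  · intro hc
    obtain ⟨r, rfl⟩ := (hV.const_mem_iff c).mp (ValuationSubring.nonunits_subset hc)
    rw [← IsScalarTower.algebraMap_apply] at hc
    exact ⟨r, (hV.mem_nonunits_iff r).mp hc, rfl⟩
  · rintro ⟨r, hr, rfl⟩
    rw [← IsScalarTower.algebraMap_apply]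
    exact hV.nonunit r hr

/-- `V ∩ E(x)` in terms of Gauss normal forms. -/
theorem IsGaussOver.mem_iff (h : IsGaussOver R V x) {a : L} (ha : a ∈ E⟮x⟯) :
    a ∈ V ↔ ∃ P Q : R[X], Q.map (residue R) ≠ 0 ∧ a * aeval x Q = aeval x P := by
  constructor
  · intro haV
    by_cases ha0 : a = 0
    · exact ⟨0, 1, by rw [Polynomial.map_one]; exact one_ne_zero, by rw [ha0, zero_mul, map_zero]⟩
    obtain ⟨w, hw⟩ := IsDiscreteValuationRing.exists_irreducible R
    obtain ⟨c, P, Q, -, hP, hQ, e⟩ := exists_normal_form_adjoin (E := E) hw x ha ha0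
    have hc : algebraMap E L c ∈ V := by
      have h1 : algebraMap E L c = a * aeval x Q * (aeval x P)⁻¹ := by
        rw [e, mul_assoc, mul_inv_cancel₀ (h.aeval_ne_zero hP), mul_one]
      rw [h1]
      exact mul_mem (mul_mem haV (h.aeval_mem Q)) (h.inv_aeval_mem hP)
    obtain ⟨r, rfl⟩ := (h.isOver.const_mem_iff c).mp hc
    refine ⟨C r * P, Q, hQ, ?_⟩
    rw [e, map_mul, aeval_C, ← IsScalarTower.algebraMap_apply]
  · rintro ⟨P, Q, hQ, e⟩
    have h1 : a = aeval x P * (aeval x Q)⁻¹ := by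
      rw [← e, mul_assoc, mul_inv_cancel₀ (h.aeval_ne_zero hQ), mul_one]
    rw [h1]
    exact mul_mem (h.aeval_mem P) (h.inv_aeval_mem hQ)

/-- `𝔪_V ∩ E(x)` in terms of Gauss normal forms. -/
theorem IsGaussOver.mem_nonunits_iff (h : IsGaussOver R V x) {a : L} (ha : a ∈ E⟮x⟯) :
    a ∈ V.nonunits ↔ ∃ P Q : R[X], Q.map (residue R) ≠ 0 ∧ P.map (residue R) = 0 ∧
      a * aeval x Q = aeval x P := by
  constructor
  · intro haV
    by_cases ha0 : a = 0
    · exact ⟨0, 1, by rw [Polynomial.map_one]; exact one_ne_zero, Polynomial.map_zero _,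
        by rw [ha0, zero_mul, map_zero]⟩
    obtain ⟨w, hw⟩ := IsDiscreteValuationRing.exists_irreducible R
    obtain ⟨c, P, Q, -, hP, hQ, e⟩ := exists_normal_form_adjoin (E := E) hw x ha ha0
    have hc : algebraMap E L c ∈ V.nonunits := by
      have h1 : algebraMap E L c = aeval x Q * (aeval x P)⁻¹ * a := by
        rw [mul_comm _ a, ← mul_assoc, e, mul_assoc, mul_inv_cancel₀ (h.aeval_ne_zero hP),
          mul_one]
      rw [h1]
      exact mul_mem_nonunits (mul_mem (h.aeval_mem Q) (h.inv_aeval_mem hP)) haV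
    obtain ⟨r, hr, rfl⟩ := (h.isOver.const_mem_nonunits_iff c).mp hc
    refine ⟨C r * P, Q, hQ, ?_, ?_⟩
    · rw [Polynomial.map_mul, map_C, (residue_eq_zero_iff r).mpr hr, C_0, zero_mul]
    · rw [e, map_mul, aeval_C, ← IsScalarTower.algebraMap_apply]
  · rintro ⟨P, Q, hQ, hP, e⟩
    have h1 : a = (aeval x Q)⁻¹ * aeval x P := by
      rw [← e, mul_comm a, ← mul_assoc, inv_mul_cancel₀ (h.aeval_ne_zero hQ), one_mul]
    rw [h1]
    exact mul_mem_nonunits (h.inv_aeval_mem hQ) (h.aeval_mem_nonunits hP)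

/-- Two valuation subrings inducing the Gauss valuation agree on `E(x)`. -/
theorem IsGaussOver.mem_iff_mem {V' : ValuationSubring L} (h : IsGaussOver R V x)
    (h' : IsGaussOver R V' x) {a : L} (ha : a ∈ E⟮x⟯) : a ∈ V ↔ a ∈ V' := by
  rw [h.mem_iff (E := E) ha, h'.mem_iff (E := E) ha]

theorem IsGaussOver.mem_nonunits_iff_mem {V' : ValuationSubring L} (h : IsGaussOver R V x)
    (h' : IsGaussOver R V' x) {a : L} (ha : a ∈ E⟮x⟯) : a ∈ V.nonunits ↔ a ∈ V'.nonunits := by
  rw [h.mem_nonunits_iff (E := E) ha, h'.mem_nonunits_iff (E := E) ha]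

end Gauss

end Fermat.Agent.A2.H489

end
-- ===== PACK-END A2/H489/GaussFrameA.lean

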