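import Mathlib.Analysis.Complex.UpperHalfPlane.Manifold
import Mathlib.Geometry.Manifold.Notation
import Mathlib.Geometry.Manifold.MFDeriv.SpecificFunctions
import Mathlib.RingTheory.PowerSeries.Expand
import Fermat.Prelude.Def_ModularCurve_X0ModL
import Fermat.Prelude.Thm_ModularCurve_coeffMap_qExpand
import Fermat.Prelude.Def_FLTPrelim_Ramification
import Mathlib
import Fermat.Agent.Pack.S34.G0E7L2
import Fermat.Agent.Pack.S34.G0E6L1
import Fermat.Agent.Pack.S34.G0E7L1
import Fermat.Agent.Pack.S34.G0E7L0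
import Fermat.Agent.Pack.S34.G0E6L2
import Fermat.Agent.Pack.S34.G0E7L3
import Fermat.Agent.Pack.S34.G0E0L2
import Fermat.Agent.Pack.S34.G0E1L2
import Fermat.Agent.Pack.S34.G0E3L1
import Fermat.Agent.Pack.S34.G0E2L0

-- ===== PACK-BEGIN S24/Deg/H457_Degree.lean
section



/-!
# S24 / DEG (helper457): the degree fields of `ModularPackage`, unconditionally

`degree_fields N : FiniteDimensional ℚ̄(j) (FF N) ∧ finrank ℚ̄(j) (FF N) ≤ |SL₂(ℤ)/Γ₀(N)|`.

Chain: helper648 (conjugate product + D5 + growth of `j`, function level)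
→ `hyp_complex` (formal relations over `ℂ`, via helper708 `HasQExp` and helper264 `hasSum_jFun`)
→ `finiteDimensional_and_finrank_le` (descent `ℂ → ℚ̄` + primitive element).
-/

set_option autoImplicit false

noncomputable section

open UpperHalfPlane ModularGroup CongruenceSubgroup Polynomial ModularCurve
open scoped MatrixGroups Manifold Modular Real

namespace Fermat.Agent.S24.Deg457

theorem jFun_eq_H648 : Fermat.Agent.S24.JFun.jFun = Fermat.Agent.S24.H648.jFun := rfl

/-- the interface hypothesis over `ℂ`, unconditionally -/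
theorem hyp_complex_card (N : ℕ) [NeZero N] : Hyp ℂ N (Nat.card (XX N)) := by
  refine hyp_complex N ?_ ?_
  · rw [jFun_eq_H648]
    exact Fermat.Agent.S24.H648.exists_polynomial_of_expGrowth
  · rw [jFun_eq_H648]
    exact Fermat.Agent.S24.H648.jFun_bound_fd

/-- **The degree fields of helper984's `ModularPackage N`** (upper bound half). -/
theorem degree_fields (N : ℕ) [NeZero N] :
    FiniteDimensional ↥(IntermediateField.adjoin Kbar {jF N}) (FF N) ∧
      Module.finrank ↥(IntermediateField.adjoin Kbar {jF N}) (FF N) ≤ Nat.card (XX N) :=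
  finiteDimensional_and_finrank_le N _ (hyp_complex_card N)

end Fermat.Agent.S24.Deg457

end
end
-- ===== PACK-END S24/Deg/H457_Degree.lean

-- ===== PACK-BEGIN S24/H624/Laurent.lean
section


/-!
# Laurent expansion of quotients of holomorphic functions; `SL(2, ℤ)`-action and the
leading-coefficient form of the rotation lemma

`MerH := FractionRing holoRing` is the field of quotients of holomorphic functions on `ℍ`.
`laurentAt τ : MerH →+* LaurentSeries ℂ` is the (injective) Laurent expansion at `τ` in the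
coordinate `z - τ`.
-/

set_option autoImplicit false

namespace Fermat.Agent.S24.H624

open UpperHalfPlane Complex
open scoped Manifold Topology MatrixGroups

/-! ### order and leading coefficient of a power series viewed as a Laurent series -/

section PowerSeriesCoe

variable {R : Type*} [CommRing R]

theorem coeff_ofPowerSeries_nat (φ : PowerSeries R) (n : ℕ) :
    (HahnSeries.ofPowerSeries ℤ R φ).coeff (n : ℤ) = PowerSeries.coeff n φ := by
  simp

theorem coeff_ofPowerSeries_neg (φ : PowerSeries R) {i : ℤ} (hi : i < 0) :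
    (HahnSeries.ofPowerSeries ℤ R φ).coeff i = 0 := by
  have := PowerSeries.coeff_coe (R := R) (f := φ) i
  rw [if_pos hi] at this
  exact this

theorem order_ofPowerSeries {φ : PowerSeries R} {n : ℕ} (hn : φ.order = n) :
    (HahnSeries.ofPowerSeries ℤ R φ).order = (n : ℤ) := by
  have hφn : PowerSeries.coeff n φ ≠ 0 := ((PowerSeries.order_eq_nat).mp hn).1
  have hlt : ∀ i < n, PowerSeries.coeff i φ = 0 := ((PowerSeries.order_eq_nat).mp hn).2
  set x := HahnSeries.ofPowerSeries ℤ R φ with hx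
  have hxn : x.coeff (n : ℤ) ≠ 0 := by rw [hx, coeff_ofPowerSeries_nat]; exact hφn
  have hx0 : x ≠ 0 := fun h => hxn (by rw [h]; rfl)
  have hle : x.order ≤ n := HahnSeries.order_le_of_coeff_ne_zero hxn
  have hco : x.coeff x.order ≠ 0 := fun h => hx0 (HahnSeries.coeff_order_eq_zero.mp h)
  have hnn : 0 ≤ x.order := by
    by_contra hneg
    exact hco (coeff_ofPowerSeries_neg φ (not_le.mp hneg))
  obtain ⟨k, hk⟩ := Int.eq_ofNat_of_zero_le hnn
  rw [hk, coeff_ofPowerSeries_nat] at hco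
  have hkn : n ≤ k := by
    by_contra hlt'
    exact hco (hlt k (not_le.mp hlt'))
  rw [hk] at hle ⊢
  have : (k : ℤ) ≤ n := hle
  omega

theorem leadingCoeff_ofPowerSeries {φ : PowerSeries R} {n : ℕ} (hn : φ.order = n) :
    (HahnSeries.ofPowerSeries ℤ R φ).leadingCoeff = PowerSeries.coeff n φ := by
  rw [HahnSeries.leadingCoeff_eq, order_ofPowerSeries hn, coeff_ofPowerSeries_nat]

end PowerSeriesCoe

/-! ### transfer of order / leading coefficient relations to the fraction field -/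

section Transfer

variable {A : Type*} [CommRing A] [IsDomain A] {K : Type*} [Field K] [Algebra A K]
  [IsFractionRing A K] {C : Type*} [Field C]

theorem order_div_of_ne_zero {x y : LaurentSeries C} (hx : x ≠ 0) (hy : y ≠ 0) :
    (x / y).order = x.order - y.order := by
  have hxy : x / y ≠ 0 := div_ne_zero hx hy
  have h := HahnSeries.order_mul hxy hy
  rw [div_mul_cancel₀ x hy] at h
  omega

theorem leadingCoeff_div_of_ne_zero {x y : LaurentSeries C} (hy : y ≠ 0) :
    (x / y).leadingCoeff = x.leadingCoeff / y.leadingCoeff := by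
  have h := HahnSeries.leadingCoeff_mul (x / y) y
  rw [div_mul_cancel₀ x hy] at h
  rw [h, mul_div_assoc, div_self (HahnSeries.leadingCoeff_ne_zero.mpr hy), mul_one]

/-- If two embeddings `φ ψ : K → C((z))` of a fraction field satisfy
`ord (φ a) = ord (ψ a)` and `lc (φ a) = ζ ^ ord (ψ a) * lc (ψ a)` on the ring `A`, they do so
on all of `K`. -/
theorem order_leadingCoeff_transfer (φ ψ : K →+* LaurentSeries C) (ζ : C) (hζ : ζ ≠ 0)
    (h : ∀ a : A, a ≠ 0 → (φ (algebraMap A K a)).order = (ψ (algebraMap A K a)).order ∧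
      (φ (algebraMap A K a)).leadingCoeff
        = ζ ^ (ψ (algebraMap A K a)).order * (ψ (algebraMap A K a)).leadingCoeff)
    (x : K) :
    (φ x).order = (ψ x).order ∧
      (φ x).leadingCoeff = ζ ^ (ψ x).order * (ψ x).leadingCoeff := by
  obtain ⟨a, b, hb, rfl⟩ := IsFractionRing.div_surjective (A := A) x
  have hb0 : b ≠ 0 := nonZeroDivisors.ne_zero hb
  have hbK : algebraMap A K b ≠ 0 := by
    intro h0
    exact hb0 ((IsFractionRing.injective A K) (by rw [h0, map_zero]))
  by_cases ha0 : a = 0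
  · subst ha0
    simp
  have haK : algebraMap A K a ≠ 0 := by
    intro h0
    exact ha0 ((IsFractionRing.injective A K) (by rw [h0, map_zero]))
  have hφa : φ (algebraMap A K a) ≠ 0 := (map_ne_zero φ).mpr haK
  have hφb : φ (algebraMap A K b) ≠ 0 := (map_ne_zero φ).mpr hbK
  have hψa : ψ (algebraMap A K a) ≠ 0 := (map_ne_zero ψ).mpr haK
  have hψb : ψ (algebraMap A K b) ≠ 0 := (map_ne_zero ψ).mpr hbK
  obtain ⟨ha1, ha2⟩ := h a ha0
  obtain ⟨hb1, hb2⟩ := h b hb0
  rw [map_div₀, map_div₀, order_div_of_ne_zero hφa hφb, order_div_of_ne_zero hψa hψb,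
    leadingCoeff_div_of_ne_zero hφb, leadingCoeff_div_of_ne_zero hψb, ha1, hb1, ha2, hb2]
  refine ⟨rfl, ?_⟩
  rw [zpow_sub₀ hζ]
  have h1 : ζ ^ (ψ (algebraMap A K b)).order ≠ 0 := zpow_ne_zero _ hζ
  have h2 : (ψ (algebraMap A K b)).leadingCoeff ≠ 0 := HahnSeries.leadingCoeff_ne_zero.mpr hψb
  field_simp

end Transfer

/-! ### the field `MerH` and its Laurent expansions -/

/-- The field of quotients of holomorphic functions on the upper half-plane. -/
abbrev MerH : Type := FractionRing holoRing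

/-- Taylor expansion at `τ` as a ring hom into Laurent series. -/
noncomputable def taylorLaurent (τ : ℍ) : holoRing →+* LaurentSeries ℂ :=
  (HahnSeries.ofPowerSeries ℤ ℂ).comp (taylorAt τ : holoRing →+* PowerSeries ℂ)

theorem taylorLaurent_apply (τ : ℍ) (f : holoRing) :
    taylorLaurent τ f = HahnSeries.ofPowerSeries ℤ ℂ (taylorAt τ f) := rfl

theorem taylorLaurent_injective (τ : ℍ) : Function.Injective (taylorLaurent τ) := by
  intro f g h
  exact taylorAt_injective τ (HahnSeries.ofPowerSeries_injective h)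

/-- Laurent expansion at `τ` (coordinate `z - τ`) of a quotient of holomorphic functions. -/
noncomputable def laurentAt (τ : ℍ) : MerH →+* LaurentSeries ℂ :=
  IsFractionRing.lift (taylorLaurent_injective τ)

@[simp]
theorem laurentAt_algebraMap (τ : ℍ) (f : holoRing) :
    laurentAt τ (algebraMap holoRing MerH f) = HahnSeries.ofPowerSeries ℤ ℂ (taylorAt τ f) :=
  IsFractionRing.lift_algebraMap (taylorLaurent_injective τ) f

theorem laurentAt_injective (τ : ℍ) : Function.Injective (laurentAt τ) :=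
  (laurentAt τ).injective

theorem laurentAt_const (τ : ℍ) (c : ℂ) :
    laurentAt τ (algebraMap holoRing MerH (algebraMap ℂ holoRing c)) = HahnSeries.C c := by
  rw [laurentAt_algebraMap, AlgHom.commutes, PowerSeries.algebraMap_apply,
    Algebra.algebraMap_self, RingHom.id_apply, HahnSeries.ofPowerSeries_C]

theorem order_laurentAt_algebraMap (τ : ℍ) {f : holoRing} (hf : f ≠ 0) :
    (laurentAt τ (algebraMap holoRing MerH f)).order = ((ordAt τ (f : ℍ → ℂ)).toNat : ℤ) := by
  rw [laurentAt_algebraMap]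
  refine order_ofPowerSeries ?_
  rw [order_taylorAt, ENat.natCast_toNat (ordAt_ne_top f.2 (fun h => hf (Subtype.ext h)) τ)]

theorem leadingCoeff_laurentAt_algebraMap (τ : ℍ) {f : holoRing} (hf : f ≠ 0) :
    (laurentAt τ (algebraMap holoRing MerH f)).leadingCoeff
      = taylorCoeff τ (f : ℍ → ℂ) (ordAt τ (f : ℍ → ℂ)).toNat := by
  rw [laurentAt_algebraMap, leadingCoeff_ofPowerSeries (n := (ordAt τ (f : ℍ → ℂ)).toNat),
    coeff_taylorAt]
  rw [order_taylorAt, ENat.natCast_toNat (ordAt_ne_top f.2 (fun h => hf (Subtype.ext h)) τ)]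

/-! ### the `SL(2, ℤ)`-action on `MerH` -/

/-- The action of `SL(2, ℤ)` on `MerH` extending `(γ • f) τ = f (γ⁻¹ • τ)`. -/
noncomputable instance instMulSemiringActionMerH : MulSemiringAction SL(2, ℤ) MerH :=
  IsFractionRing.mulSemiringAction SL(2, ℤ) holoRing MerH

theorem smul_algebraMap_MerH (γ : SL(2, ℤ)) (f : holoRing) :
    γ • algebraMap holoRing MerH f = algebraMap holoRing MerH (γ • f) :=
  IsFractionRing.ringEquivOfRingEquiv_algebraMap (MulSemiringAction.toRingEquiv SL(2, ℤ) holoRing γ) f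

/-- The ring automorphism of `MerH` given by `γ`. -/
noncomputable def merSL (γ : SL(2, ℤ)) : MerH ≃+* MerH :=
  MulSemiringAction.toRingEquiv SL(2, ℤ) MerH γ

@[simp]
theorem merSL_apply (γ : SL(2, ℤ)) (F : MerH) : merSL γ F = γ • F := rfl

/-- **Rotation lemma, order + leading coefficient form**, on `MerH`. -/
theorem laurentAt_smul (γ : SL(2, ℤ)) (τ : ℍ) (F : MerH) :
    (laurentAt τ (γ • F)).order = (laurentAt (γ⁻¹ • τ) F).order ∧
    (laurentAt τ (γ • F)).leadingCoeff
      = (1 / denom ((γ⁻¹ : SL(2, ℤ)) : GL (Fin 2) ℝ) (τ : ℂ) ^ 2) ^ (laurentAt (γ⁻¹ • τ) F).order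
        * (laurentAt (γ⁻¹ • τ) F).leadingCoeff := by
  have hd : denom ((γ⁻¹ : SL(2, ℤ)) : GL (Fin 2) ℝ) (τ : ℂ) ≠ 0 := denom_ne_zero _ τ
  have hζ : (1 / denom ((γ⁻¹ : SL(2, ℤ)) : GL (Fin 2) ℝ) (τ : ℂ) ^ 2) ≠ 0 :=
    one_div_ne_zero (pow_ne_zero _ hd)
  refine order_leadingCoeff_transfer (A := holoRing)
    ((laurentAt τ).comp (merSL γ : MerH →+* MerH)) (laurentAt (γ⁻¹ • τ)) _ hζ ?_ F
  intro f hf
  have hγf : γ • f ≠ 0 := by
    intro h
    apply hf
    have := congrArg (fun g => γ⁻¹ • g) h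
    simpa using this
  have hord : ordAt τ ((γ • f : holoRing) : ℍ → ℂ) = ordAt (γ⁻¹ • τ) (f : ℍ → ℂ) := by
    have := ordAt_smul_holoRing γ f (γ⁻¹ • τ)
    rwa [smul_inv_smul] at this
  have hne := ordAt_ne_top f.2 (fun h => hf (Subtype.ext h)) (γ⁻¹ • τ)
  simp only [RingHom.coe_comp, RingHom.coe_coe, Function.comp_apply, merSL_apply]
  rw [smul_algebraMap_MerH, order_laurentAt_algebraMap τ hγf,
    order_laurentAt_algebraMap _ hf, leadingCoeff_laurentAt_algebraMap τ hγf,
    leadingCoeff_laurentAt_algebraMap _ hf, hord]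
  refine ⟨rfl, ?_⟩
  rw [zpow_natCast]
  exact taylorCoeff_smul_holoRing γ f τ (ENat.natCast_toNat hne).symm

theorem order_laurentAt_smul (γ : SL(2, ℤ)) (τ : ℍ) (F : MerH) :
    (laurentAt τ (γ • F)).order = (laurentAt (γ⁻¹ • τ) F).order :=
  (laurentAt_smul γ τ F).1

theorem leadingCoeff_laurentAt_smul (γ : SL(2, ℤ)) (τ : ℍ) (F : MerH) :
    (laurentAt τ (γ • F)).leadingCoeff
      = (1 / denom ((γ⁻¹ : SL(2, ℤ)) : GL (Fin 2) ℝ) (τ : ℂ) ^ 2) ^ (laurentAt (γ⁻¹ • τ) F).order
        * (laurentAt (γ⁻¹ • τ) F).leadingCoeff :=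
  (laurentAt_smul γ τ F).2

/-- Fixed-point version, in exactly the shape of the `LocalData` fields
`σ_perm_order` / `σ_perm_leadingCoeff`. -/
theorem laurentAt_smul_of_fixed {γ : SL(2, ℤ)} {τ : ℍ} (hτ : γ • τ = τ) (F : MerH) :
    (laurentAt τ (γ • F)).order = (laurentAt τ F).order ∧
    (laurentAt τ (γ • F)).leadingCoeff
      = (1 / denom ((γ⁻¹ : SL(2, ℤ)) : GL (Fin 2) ℝ) (τ : ℂ) ^ 2) ^ (laurentAt τ F).order
        * (laurentAt τ F).leadingCoeff := by
  have h := laurentAt_smul γ τ F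
  have hfix : γ⁻¹ • τ = τ := by
    rw [inv_smul_eq_iff, hτ]
  rwa [hfix] at h

end Fermat.Agent.S24.H624

end
-- ===== PACK-END S24/H624/Laurent.lean

-- ===== PACK-BEGIN S24/H864/FF3f.lean
section


/-!
# S24 / ALG / FF1, existence form: the zeros of a transcendental `t` form a finite set `s` and
`∑_{v ∈ s} v(t) = [F : K(t)]`  (exact shape of `Alg/Open.lean` `open_fundamental_eq`).
-/

set_option autoImplicit false

noncomputable section

open AlgebraicCurve IntermediateField IsDedekindDomain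
open scoped IntermediateField.algebraAdjoinAdjoin

namespace Fermat.Agent.S24.H864

section Rel

variable {K F : Type*} [Field K] [Field F] [Algebra K F]
variable {S : Type*} [CommRing S] [IsDedekindDomain S] [Algebra S F] [IsFractionRing S F]
  [Algebra K S] [IsScalarTower K S F]
variable {R : Type*} [CommRing R] [IsDomain R] [Algebra R S] [Algebra R F] [IsScalarTower R S F]
  [Module.Finite R S]
variable (p : Ideal R) [hpmax : p.IsMaximal] (τ : R)

/-- the set of zeros of `τ` is finite -/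
theorem exists_finset_zeros_abstract
    (hp : p = Ideal.span {τ}) (hτ : τ ≠ 0) (hinj : Function.Injective (algebraMap R S))
    (hR : ∀ v : Place K F, 0 < v.ord (algebraMap R F τ) →
      ∀ r : R, algebraMap R F r ∈ v.toValuationSubring) :
    ∃ s : Finset (Place K F), ∀ v, v ∈ s ↔ 0 < v.ord (algebraMap R F τ) := by
  classical
  haveI : Fintype (p.primesOver S) := (Algebra.QuasiFinite.finite_primesOver p).fintype
  have hτ' : algebraMap R S τ ≠ 0 := fun h => hτ (hinj (by rw [h, map_zero]))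
  set g : p.primesOver S → Place K F :=
    fun q => Place.ofHeightOneSpectrum (K := K) (wOf p τ hp hτ hinj q) with hg
  have hg_ord : ∀ q, (g q).ord (algebraMap R F τ) = (q.1.ramificationIdx R : ℤ) :=
    fun q => ord_wOf p τ hp hτ hinj q
  refine ⟨Finset.univ.image g, fun v => ?_⟩
  rw [Finset.mem_image]
  constructor
  · rintro ⟨q, -, rfl⟩
    rw [hg_ord]
    exact_mod_cast Ideal.ramificationIdx_pos q.1 R
  · intro hv
    have hS := algebraMap_mem_of_base (S := S) v (hR v hv)
    have hv' : 0 < v.ord (algebraMap S F (algebraMap R S τ)) := by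
      rwa [← IsScalarTower.algebraMap_apply R S F]
    obtain ⟨w, hw, hwq⟩ := exists_heightOneSpectrum_of_place v hS hτ' hv'
    have hle : p ≤ w.asIdeal.under R := by
      rw [hp, Ideal.span_singleton_le_iff_mem, Ideal.under_def, Ideal.mem_comap, hwq]
      exact (mem_primeOfPlace v hS hτ').mpr hv'
    have hne : w.asIdeal.under R ≠ ⊤ := (Ideal.IsPrime.under R w.asIdeal).ne_top
    have hq : w.asIdeal ∈ p.primesOver S := ⟨w.isPrime, ⟨hpmax.eq_of_le hne hle⟩⟩
    refine ⟨⟨w.asIdeal, hq⟩, Finset.mem_univ _, ?_⟩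
    rw [← hw]
    show Place.ofHeightOneSpectrum (K := K) (wOf p τ hp hτ hinj ⟨w.asIdeal, hq⟩) = _
    congr 1

end Rel

section Main

variable {K F : Type*} [Field K] [Field F] [Algebra K F] [IsAlgClosed K] [CharZero K]

/-- the zeros of a transcendental `t` are finite in number -/
theorem exists_finset_zeros (t : F) (ht : Transcendental K t)
    [FiniteDimensional ↥(IntermediateField.adjoin K {t}) F] :
    ∃ s : Finset (Place K F), ∀ v : Place K F, v ∈ s ↔ 0 < v.ord t := by
  haveI : IsPrincipalIdealRing (polyRing K t) := polyRing_isPrincipalIdealRing K t ht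
  haveI : IsScalarTower (polyRing K t) (integralClosure (polyRing K t) F) F :=
    Subalgebra.isScalarTower_mid _
  haveI : IsFractionRing (integralClosure (polyRing K t) F) F :=
    integralClosure.isFractionRing_of_finite_extension K⟮t⟯ F
  haveI : IsDedekindDomain (integralClosure (polyRing K t) F) :=
    IsIntegralClosure.isDedekindDomain (polyRing K t) K⟮t⟯ F (integralClosure (polyRing K t) F)
  haveI : Module.Finite (polyRing K t) (integralClosure (polyRing K t) F) :=
    IsIntegralClosure.finite (polyRing K t) K⟮t⟯ F (integralClosure (polyRing K t) F)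
  have hprime : (Ideal.span {tR K t}).IsPrime :=
    (Ideal.span_singleton_prime (tR_ne_zero K t ht)).mpr (tR_prime K t ht)
  have hne : Ideal.span {tR K t} ≠ ⊥ := by
    rw [Ne, Ideal.span_singleton_eq_bot]
    exact tR_ne_zero K t ht
  haveI hmax : (Ideal.span {tR K t}).IsMaximal := hprime.isMaximal hne
  have hinj : Function.Injective
      (algebraMap (polyRing K t) (integralClosure (polyRing K t) F)) := by
    intro a b hab
    have := congrArg (algebraMap (integralClosure (polyRing K t) F) F) hab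
    rw [← IsScalarTower.algebraMap_apply, ← IsScalarTower.algebraMap_apply] at this
    exact Subtype.ext this
  exact exists_finset_zeros_abstract (K := K) (F := F)
    (S := integralClosure (polyRing K t) F) (R := polyRing K t)
    (Ideal.span {tR K t}) (tR K t) rfl (tR_ne_zero K t ht) hinj
    (fun v hv r => coe_mem_valuationSubring_of_ord_nonneg K t v hv.le r)

/-- **FF1 (fundamental equality)**, exact shape of `Alg/Open.lean` `open_fundamental_eq`. -/
theorem fundamental_eq (t : F) (ht : Transcendental K t)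
    [FiniteDimensional ↥(IntermediateField.adjoin K {t}) F] :
    ∃ s : Finset (Place K F), (∀ v : Place K F, v ∈ s ↔ 0 < v.ord t) ∧
      ∑ v ∈ s, v.ord t = (Module.finrank ↥(IntermediateField.adjoin K {t}) F : ℤ) := by
  obtain ⟨s, hs⟩ := exists_finset_zeros t ht
  exact ⟨s, hs, fundamental_identity t ht s hs⟩

end Main

end Fermat.Agent.S24.H864

end
end
-- ===== PACK-END S24/H864/FF3f.lean

-- ===== PACK-BEGIN S29/H942/HoloRoot.lean
section





/-!
# Holomorphic `p`-th roots on the upper half plane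

If `g : ℍ → ℂ` is holomorphic, not identically zero, and all its orders of vanishing are divisible
by `p`, then `g = c ^ p` for a holomorphic `c : ℍ → ℂ`.
-/

set_option autoImplicit false

noncomputable section

open Filter Topology Set Complex MeromorphicOn Function UpperHalfPlane
open scoped Manifold

namespace Fermat.Agent.S29.H942

/-- A root in normal form of an analytic function is analytic. -/
lemma IsNFRootOn.analyticAt {h f : ℂ → ℂ} {V : Set ℂ} {p : ℕ} (hp : p ≠ 0)
    (hh : IsNFRootOn h f V p) {x : ℂ} (hx : x ∈ V) (hf : AnalyticAt ℂ f x) :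
    AnalyticAt ℂ h x := by
  rw [← (hh.1 hx).meromorphicOrderAt_nonneg_iff_analyticAt]
  have h1 : meromorphicOrderAt (h ^ p) x = meromorphicOrderAt f x :=
    meromorphicOrderAt_congr (hh.2 x hx)
  rw [meromorphicOrderAt_pow (hh.1 hx).meromorphicAt] at h1
  have h2 : 0 ≤ meromorphicOrderAt f x := hf.meromorphicOrderAt_nonneg
  rw [← h1] at h2
  by_cases htop : meromorphicOrderAt h x = ⊤
  · rw [htop]
    exact le_top
  · obtain ⟨n, hn⟩ := WithTop.ne_top_iff_exists.1 htop
    rw [← hn] at h2 ⊢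
    have h4 : ((p : ℕ) : WithTop ℤ) * ((n : ℤ) : WithTop ℤ) = (((p : ℤ) * n : ℤ) : WithTop ℤ) := by
      push_cast
      rfl
    rw [h4] at h2
    have h5 : (0 : ℤ) ≤ (p : ℤ) * n := by exact_mod_cast h2
    have hp' : (0 : ℤ) < p := by exact_mod_cast Nat.pos_of_ne_zero hp
    have h6 : (0 : ℤ) ≤ n := by
      by_contra hneg
      rw [not_le] at hneg
      nlinarith
    exact_mod_cast h6

/-- A root in normal form of an analytic function is a root everywhere. -/
lemma IsNFRootOn.pow_eq {h f : ℂ → ℂ} {V : Set ℂ} {p : ℕ} (hp : p ≠ 0)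
    (hh : IsNFRootOn h f V p) {x : ℂ} (hx : x ∈ V) (hf : AnalyticAt ℂ f x) :
    h x ^ p = f x := by
  have hA := hh.analyticAt hp hx hf
  have hc : ContinuousAt (h ^ p) x := (hA.pow p).continuousAt
  have := (hc.eventuallyEq_nhds_iff_eventuallyEq_nhdsNE hf.continuousAt).1 (hh.2 x hx)
  exact this.self_of_nhds

/-- **Holomorphic `p`-th roots on the upper half plane.** -/
theorem exists_holomorphic_root {g : ℍ → ℂ} (hg : MDiff g) {p : ℕ} (hp : p ≠ 0)
    (hdiv : ∀ τ : ℍ, ∃ k : ℕ, analyticOrderAt (g ∘ ofComplex) (τ : ℂ) = ((p * k : ℕ) : ℕ∞)) :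
    ∃ c : ℍ → ℂ, MDiff c ∧ c ^ p = g := by
  set f : ℂ → ℂ := g ∘ ofComplex with hf
  have hAn : AnalyticOnNhd ℂ f uhpSet :=
    (UpperHalfPlane.mdifferentiable_iff.mp hg).analyticOnNhd isOpen_upperHalfPlaneSet
  have hord : ∀ z ∈ uhpSet, ∃ k : ℕ, meromorphicOrderAt f z = ((p * k : ℕ) : ℤ) := by
    intro z hz
    obtain ⟨k, hk⟩ := hdiv ⟨z, hz⟩
    refine ⟨k, ?_⟩
    rw [(hAn z hz).meromorphicOrderAt_eq]
    have : analyticOrderAt f z = ((p * k : ℕ) : ℕ∞) := hk
    rw [this]
    rfl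
  obtain ⟨h, hh⟩ := exists_isNFRootOn_upperHalfPlane (f := f) hAn.meromorphicOn
    (fun z hz => by
      obtain ⟨k, hk⟩ := hord z hz
      rw [hk]
      exact WithTop.coe_ne_top)
    hp
    (fun z hz => by
      obtain ⟨k, hk⟩ := hord z hz
      rw [hk]
      simp only [WithTop.untop₀_coe]
      exact ⟨k, by push_cast; ring⟩)
  have hhA : AnalyticOnNhd ℂ h uhpSet := fun z hz => hh.analyticAt hp hz (hAn z hz)
  have hhp : ∀ z ∈ uhpSet, h z ^ p = f z := fun z hz => hh.pow_eq hp hz (hAn z hz)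
  refine ⟨fun τ => h (τ : ℂ), ?_, ?_⟩
  · rw [UpperHalfPlane.mdifferentiable_iff]
    refine hhA.differentiableOn.congr fun z hz => ?_
    simp only [Function.comp_apply]
    rw [ofComplex_apply_of_im_pos hz]
  · funext τ
    have := hhp (τ : ℂ) τ.im_pos
    simp only [Pi.pow_apply]
    rw [this, hf, Function.comp_apply, ofComplex_apply]

/-- Uniqueness of holomorphic `p`-th roots up to roots of unity. -/
theorem holomorphic_root_unique {c₁ c₂ : ℍ → ℂ} (h₁ : MDiff c₁) (h₂ : MDiff c₂)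
    (h₁0 : c₁ ≠ 0) {p : ℕ} (hp : p ≠ 0) (hpow : c₁ ^ p = c₂ ^ p) :
    ∃ ζ : ℂ, ζ ^ p = 1 ∧ c₂ = fun τ => ζ * c₁ τ := by
  set f : ℂ → ℂ := (c₁ ^ p) ∘ ofComplex with hf
  have hA₁ : AnalyticOnNhd ℂ (c₁ ∘ ofComplex) uhpSet :=
    (UpperHalfPlane.mdifferentiable_iff.mp h₁).analyticOnNhd isOpen_upperHalfPlaneSet
  have hA₂ : AnalyticOnNhd ℂ (c₂ ∘ ofComplex) uhpSet :=
    (UpperHalfPlane.mdifferentiable_iff.mp h₂).analyticOnNhd isOpen_upperHalfPlaneSet
  have hAf : AnalyticOnNhd ℂ f uhpSet :=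
    (UpperHalfPlane.mdifferentiable_iff.mp (MDifferentiable.pow h₁ p)).analyticOnNhd isOpen_upperHalfPlaneSet
  have hR₁ : IsNFRootOn (c₁ ∘ ofComplex) f uhpSet p :=
    ⟨hA₁.meromorphicNFOn, fun x _ => Eventually.of_forall fun y => rfl⟩
  have hR₂ : IsNFRootOn (c₂ ∘ ofComplex) f uhpSet p :=
    ⟨hA₂.meromorphicNFOn, fun x _ => Eventually.of_forall fun y => by
      simp only [hf, hpow, Pi.pow_apply, Function.comp_apply]⟩
  have hford : ∀ x ∈ uhpSet, meromorphicOrderAt f x ≠ ⊤ := by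
    intro x hx htop
    rw [(hAf x hx).meromorphicOrderAt_eq] at htop
    have h3 : analyticOrderAt f x = ⊤ := by
      by_contra hne
      obtain ⟨n, hn⟩ := ENat.ne_top_iff_exists.1 hne
      rw [← hn] at htop
      exact absurd htop (by simp)
    have h5 : ∀ᶠ z in 𝓝 x, f z = 0 := analyticOrderAt_eq_top.mp h3
    have hpre : IsPreconnected uhpSet := by
      have hconv : Convex ℝ uhpSet := by
        have : uhpSet = Complex.im ⁻¹' (Ioi 0) := rfl
        rw [this]
        exact (convex_Ioi (0 : ℝ)).is_linear_preimage Complex.imLm.isLinear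
      exact hconv.isPreconnected
    have h6 := hAf.eqOn_zero_of_preconnected_of_eventuallyEq_zero hpre hx h5
    apply h₁0
    funext τ
    have h7 := h6 τ.im_pos
    simp only [hf, Function.comp_apply, ofComplex_apply, Pi.pow_apply, Pi.zero_apply] at h7 ⊢
    exact pow_eq_zero_iff hp |>.mp h7
  have hconv : Convex ℝ uhpSet := by
    have : uhpSet = Complex.im ⁻¹' (Ioi 0) := rfl
    rw [this]
    exact (convex_Ioi (0 : ℝ)).is_linear_preimage Complex.imLm.isLinear
  obtain ⟨ζ, hζ, hζe⟩ := IsNFRootOn.exists_eq_mul hp isOpen_uhpSet hconv.isPreconnected hford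
    hR₁ hR₂
  refine ⟨ζ, hζ, ?_⟩
  funext τ
  have := hζe (τ : ℂ) τ.im_pos
  simpa [Function.comp_apply, ofComplex_apply] using this

end Fermat.Agent.S29.H942

end
end
-- ===== PACK-END S29/H942/HoloRoot.lean

-- ===== PACK-BEGIN S29/H222/ESKDiv.lean
section
/-
S29 / helper222 — piece ESK, part 2: divisors of functions (`IsDivOf`), their behaviour under
products, powers and semilinear automorphisms, and the decomposition of a principal divisor as a
difference of divisors of INTEGRAL series (from the Prelude's `PrincipalGeneratedByIntegral`).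
-/


set_option autoImplicit false
set_option linter.style.haveILetI false

noncomputable section

namespace Fermat.Agent.S29.H222

open ModularCurve AlgebraicCurve HahnSeries IsLocalRing
open Fermat.Agent.S18 (Qb IsInt toF CoreStatement)

section Generic

variable {K F : Type*} [Field K] [Field F] [Algebra K F]

/-- `D` is the divisor of the function `f`. -/
def IsDivOf (f : F) (D : Divisor K F) : Prop := ∀ v : Place K F, D v = v.ord f

theorem IsDivOf.mul {f g : F} {D E : Divisor K F} (hf0 : f ≠ 0) (hg0 : g ≠ 0)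
    (hf : IsDivOf f D) (hg : IsDivOf g E) : IsDivOf (f * g) (D + E) := fun v => by
  rw [Finsupp.add_apply, hf v, hg v, v.ord_mul hf0 hg0]

theorem esk_ord_pow (v : Place K F) (f : F) (n : ℕ) : v.ord (f ^ n) = n * v.ord f := by
  have := v.ord_zpow f (n : ℤ)
  simpa using this

theorem IsDivOf.pow {f : F} {D : Divisor K F} (hf : IsDivOf f D) (n : ℕ) :
    IsDivOf (f ^ n) ((n : ℤ) • D) := fun v => by
  rw [Finsupp.smul_apply, hf v, esk_ord_pow, smul_eq_mul]

theorem IsDivOf.smul {f : F} {D : Divisor K F} (g : SemilinearAut K F) (hf : IsDivOf f D) :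
    IsDivOf (g • f) (g • D) := fun w => by
  rw [SemilinearAut.divisor_smul_apply, hf (g⁻¹ • w)]
  have h := SemilinearAut.ord_smul g (g⁻¹ • w) f
  rw [smul_inv_smul] at h
  exact h.symm

theorem esk_ord_algebraMap (v : Place K F) {c : K} (hc : c ≠ 0) :
    v.ord (algebraMap K F c) = 0 := by
  have h1 : algebraMap K F c ∈ v.toValuationSubring := v.algebraMap_mem' c
  have h2 : algebraMap K F c⁻¹ ∈ v.toValuationSubring := v.algebraMap_mem' c⁻¹
  let u : (v.toValuationSubring)ˣ :=
    { val := ⟨algebraMap K F c, h1⟩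
      inv := ⟨algebraMap K F c⁻¹, h2⟩
      val_inv := by
        apply Subtype.ext
        show algebraMap K F c * algebraMap K F c⁻¹ = 1
        rw [← map_mul, mul_inv_cancel₀ hc, map_one]
      inv_val := by
        apply Subtype.ext
        show algebraMap K F c⁻¹ * algebraMap K F c = 1
        rw [← map_mul, inv_mul_cancel₀ hc, map_one] }
  exact v.ord_coe_unit u

/-- **Kummer criterion**: if `V₁ = c · y ^ m · V₂` and `div V₁ - div V₂ = m • E` (`m ≠ 0`), then
`E` is the divisor of `y`; in particular `E` is principal. -/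
theorem isDivOf_of_eq_const_mul_pow {m : ℕ} (hm : m ≠ 0) {V₁ V₂ y : F} {c : K} (hc : c ≠ 0)
    (hy : y ≠ 0) (hV₂ : V₂ ≠ 0) (h : V₁ = algebraMap K F c * y ^ m * V₂)
    {E : Divisor K F} (hE : ∀ v : Place K F, (m : ℤ) * E v = v.ord V₁ - v.ord V₂) :
    IsDivOf y E := fun v => by
  have hc' : algebraMap K F c ≠ 0 := by
    simpa using hc
  have h1 : v.ord V₁ = (m : ℤ) * v.ord y + v.ord V₂ := by
    rw [h, v.ord_mul (mul_ne_zero hc' (pow_ne_zero m hy)) hV₂,
      v.ord_mul hc' (pow_ne_zero m hy), esk_ord_algebraMap v hc, esk_ord_pow, zero_add]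
  have h2 : (m : ℤ) * E v = (m : ℤ) * v.ord y := by rw [hE v, h1]; ring
  exact mul_left_cancel₀ (Int.natCast_ne_zero.mpr hm) h2

end Generic

variable {A : ValuationSubring Qb} {N : ℕ}

/-- A principal divisor is the difference of the divisors of two integral series. -/
theorem exists_isInt_of_principal
    (hpgi : PrincipalGeneratedByIntegral A (residue A) N)
    {D : Divisor Qb (modularFunctionFieldBar N)}
    (hD : D ∈ Divisor.principal (K := Qb) (F := modularFunctionFieldBar N)) :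
    ∃ (U₁ U₂ : LaurentSeries A) (h₁ : IsInt A N U₁) (h₂ : IsInt A N U₂)
      (D₁ D₂ : Divisor Qb (modularFunctionFieldBar N)),
      IsDivOf (toF h₁) D₁ ∧ IsDivOf (toF h₂) D₂ ∧ D = D₁ - D₂ := by
  have hD' := hpgi hD
  clear hD
  induction hD' using AddSubgroup.closure_induction with
  | mem E hE =>
      obtain ⟨y, hy, hyk, hne, hEy⟩ := hE
      refine ⟨y, 1, ⟨hy, hyk, hne⟩, isInt_one, E, 0, fun v => hEy v, fun v => ?_, by simp⟩
      have : toF (isInt_one (A := A) (N := N)) = 1 := Subtype.ext (map_one _)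
      rw [this]
      simp
  | zero =>
      refine ⟨1, 1, isInt_one, isInt_one, 0, 0, fun v => ?_, fun v => ?_, by simp⟩ <;>
      · have : toF (isInt_one (A := A) (N := N)) = 1 := Subtype.ext (map_one _)
        rw [this]
        simp
  | add E E' _ _ hE hE' =>
      obtain ⟨U₁, U₂, h₁, h₂, D₁, D₂, hd₁, hd₂, rfl⟩ := hE
      obtain ⟨U₁', U₂', h₁', h₂', D₁', D₂', hd₁', hd₂', rfl⟩ := hE'
      refine ⟨U₁ * U₁', U₂ * U₂', isInt_mul h₁ h₁', isInt_mul h₂ h₂', D₁ + D₁', D₂ + D₂',
        ?_, ?_, by abel⟩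
      · rw [toF_mul h₁ h₁']
        exact hd₁.mul (toF_ne_zero h₁) (toF_ne_zero h₁') hd₁'
      · rw [toF_mul h₂ h₂']
        exact hd₂.mul (toF_ne_zero h₂) (toF_ne_zero h₂') hd₂'
  | neg E _ hE =>
      obtain ⟨U₁, U₂, h₁, h₂, D₁, D₂, hd₁, hd₂, rfl⟩ := hE
      exact ⟨U₂, U₁, h₂, h₁, D₂, D₁, hd₂, hd₁, by abel⟩

end Fermat.Agent.S29.H222

end
end
-- ===== PACK-END S29/H222/ESKDiv.lean

-- ===== PACK-BEGIN S18/H333/HauptPS.lean
section



/-!
# S18 / c3 (helper333): power-series preliminaries for the Hauptmoduln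

* `Vser p` is the ring homomorphism `PowerSeries.expand p`;
* `Zz = X² η₁¹² η₃¹²` with `Zz² = Δ Δ₃`, and the LINEAR level-3 identities
  `A3a = Zz (E₄³ - B3a)`, `A3b = Zz (E₄(q³)³ - B3b)` (sign fixed by the `q²`-coefficient).
-/

set_option autoImplicit false

noncomputable section

namespace Fermat.Agent.S18.H333

open PowerSeries ModularCurve

theorem Vser_eq_expand (p : ℕ) (hp : p ≠ 0) (f : PowerSeries ℤ) :
    Vser p f = PowerSeries.expand p hp f := by
  ext n
  rw [coeff_Vser, PowerSeries.coeff_expand]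

theorem Vser_mul (p : ℕ) (hp : p ≠ 0) (f g : PowerSeries ℤ) :
    Vser p (f * g) = Vser p f * Vser p g := by
  simp only [Vser_eq_expand p hp, map_mul]

theorem Vser_pow (p : ℕ) (hp : p ≠ 0) (f : PowerSeries ℤ) (n : ℕ) :
    Vser p (f ^ n) = Vser p f ^ n := by
  simp only [Vser_eq_expand p hp, map_pow]

theorem Vser_one (p : ℕ) (hp : p ≠ 0) : Vser p (1 : PowerSeries ℤ) = 1 := by
  simp only [Vser_eq_expand p hp, map_one]

theorem Vser_X (p : ℕ) (hp : p ≠ 0) : Vser p (X : PowerSeries ℤ) = X ^ p := by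
  rw [Vser_eq_expand p hp, PowerSeries.expand_X]

/-- `η¹²` -/
def eta12 : PowerSeries ℤ := etaProd ^ 12

/-- `η⁻¹²` -/
def eta12Inv : PowerSeries ℤ := eta12.invOfUnit 1

theorem constantCoeff_eta12 : PowerSeries.constantCoeff eta12 = 1 := by
  rw [eta12, map_pow, constantCoeff_etaProd, one_pow]

theorem eta12_mul_inv : eta12 * eta12Inv = 1 :=
  PowerSeries.mul_invOfUnit _ _ (by rw [constantCoeff_eta12]; rfl)

theorem eta12_sq : eta12 * eta12 = dedekindEtaUnit := by
  rw [eta12, dedekindEtaUnit]; ring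

theorem Dz_eq : Dz = X * dedekindEtaUnit := rfl

theorem Vser_Dz (p : ℕ) (hp : p ≠ 0) : Vser p Dz = X ^ p * Vser p dedekindEtaUnit := by
  rw [Dz_eq, Vser_mul p hp, Vser_X p hp]

/-- `q² η₁¹² η₃¹²` -/
def Zz : PowerSeries ℤ := X ^ 2 * eta12 * Vser 3 eta12

theorem Zz_sq : Zz * Zz = Dz * Vser 3 Dz := by
  rw [Vser_Dz 3 (by norm_num), Dz_eq, ← eta12_sq, Vser_mul 3 (by norm_num), Zz]
  ring

theorem tl_eta12 (n : ℕ) : tl n eta12 = tpow n (etaLrec n n) 12 := by
  rw [eta12, tl_pow, tl_etaProd]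

theorem tl_Zz (n : ℕ) : tl n Zz =
    tmul n (tmul n (tpow n (tX n) 2) (tpow n (etaLrec n n) 12))
      (tV n 3 (tpow n (etaLrec n n) 12)) := by
  rw [Zz, tl_mul, tl_mul, tl_pow, tl_X, tl_Vser _ _ (by norm_num), tl_eta12]

theorem tl_Ez_3 : tl 3 Ez = [1, 240, 2160] := by
  rw [tl_Ez]; decide +kernel

theorem tl_Dz_3 : tl 3 Dz = [0, 1, -24] := by
  rw [tl_Dz]; decide +kernel

theorem coeff_two_ne_of_tl {f : PowerSeries ℤ} {a b c : ℤ} (h : tl 3 f = [a, b, c]) (hc : c ≠ 0) :
    f ≠ 0 := by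
  intro h0
  have h2 := tl_getD 3 f (i := 2) (by norm_num)
  rw [h, h0] at h2
  simp at h2
  exact hc h2

/-- linear form of `(t₃+27)(t₃+243)³ = j t₃³` -/
theorem A3a_eq : A3a = Zz * (Ez ^ 3 - B3a) := by
  have h := Phi3a_eq_zero
  rw [Phi3a, ← Zz_sq] at h
  have hprod : (A3a - Zz * (Ez ^ 3 - B3a)) * (A3a + Zz * (Ez ^ 3 - B3a)) = 0 := by
    linear_combination h
  rcases mul_eq_zero.mp hprod with h1 | h1
  · exact sub_eq_zero.mp h1
  · exfalso
    have htl : tl 3 (A3a + Zz * (Ez ^ 3 - B3a)) = [0, 0, 2] := by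
      rw [A3a, B3a]
      simp only [tl_sub, tl_mul, tl_pow, tl_add, tl_smul, tl_Vser _ _ (show 0 < 3 by norm_num),
        tl_Dz_3, tl_Ez_3, tl_Zz]
      decide +kernel
    exact coeff_two_ne_of_tl htl (by norm_num) h1

/-- linear form of `(t₃+27)(t₃+3)³ = j(q³) t₃` -/
theorem A3b_eq : A3b = Zz * (Vser 3 Ez ^ 3 - B3b) := by
  have h := Phi3b_eq_zero
  rw [Phi3b, ← Zz_sq] at h
  have hprod : (A3b - Zz * (Vser 3 Ez ^ 3 - B3b)) * (A3b + Zz * (Vser 3 Ez ^ 3 - B3b)) = 0 := by
    linear_combination h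
  rcases mul_eq_zero.mp hprod with h1 | h1
  · exact sub_eq_zero.mp h1
  · exfalso
    have htl : tl 3 (A3b + Zz * (Vser 3 Ez ^ 3 - B3b)) = [0, 0, 2] := by
      rw [A3b, B3b]
      simp only [tl_sub, tl_mul, tl_pow, tl_add, tl_smul, tl_Vser _ _ (show 0 < 3 by norm_num),
        tl_Dz_3, tl_Ez_3, tl_Zz]
      decide +kernel
    exact coeff_two_ne_of_tl htl (by norm_num) h1

end Fermat.Agent.S18.H333

end
end
-- ===== PACK-END S18/H333/HauptPS.lean

-- ===== PACK-BEGIN S18/H333/HauptLaurent.lean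
section




/-!
# S18 / c3 (helper333): the Hauptmoduln `t₂`, `t₃` as Laurent series over `ℤ`

* `t2Z = q⁻¹ (η(q)/η(q²))²⁴`, `t3Z = q⁻¹ (η(q)/η(q³))¹²  : LaurentSeries ℤ`;
* `t2Z_rel_a : jqModC ℤ * t2Z ^ 2 = (t2Z + 256) ^ 3`
* `t2Z_rel_b : qExpand ℤ 2 (jqModC ℤ) * t2Z = (t2Z + 16) ^ 3`
* `t3Z_rel_a : jqModC ℤ * t3Z ^ 3 = (t3Z + 27) * (t3Z + 243) ^ 3`
* `t3Z_rel_b : qExpand ℤ 3 (jqModC ℤ) * t3Z = (t3Z + 27) * (t3Z + 3) ^ 3`
-/

set_option autoImplicit false

noncomputable section

namespace Fermat.Agent.S18.H333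

open PowerSeries ModularCurve HahnSeries

/-- power series to Laurent series over `ℤ` -/
abbrev ιZ : PowerSeries ℤ →+* LaurentSeries ℤ := HahnSeries.ofPowerSeries ℤ ℤ

theorem ιZ_injective : Function.Injective ιZ := HahnSeries.ofPowerSeries_injective

theorem ιZ_coeff_neg (f : PowerSeries ℤ) {k : ℤ} (hk : k < 0) : (ιZ f).coeff k = 0 :=
  ofPowerSeries_coeff_of_neg f hk

theorem ιZ_coeff_nat (f : PowerSeries ℤ) (n : ℕ) : (ιZ f).coeff (n : ℤ) = PowerSeries.coeff n f :=
  HahnSeries.ofPowerSeries_apply_coeff f n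

theorem qExpand_ιZ (p : ℕ) [NeZero p] (f : PowerSeries ℤ) :
    qExpand ℤ p (ιZ f) = ιZ (Vser p f) := by
  have hp : 0 < p := Nat.pos_of_ne_zero (NeZero.ne p)
  ext k
  by_cases hk : (p : ℤ) ∣ k
  · obtain ⟨m, rfl⟩ := hk
    rw [qExpand_coeff_mul]
    rcases le_or_gt 0 m with hm | hm
    · lift m to ℕ using hm
      rw [ιZ_coeff_nat, show ((p : ℤ) * (m : ℤ)) = ((p * m : ℕ) : ℤ) by push_cast; rfl,
        ιZ_coeff_nat, coeff_Vser, if_pos (Dvd.intro m rfl), Nat.mul_div_cancel_left m hp]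
    · rw [ιZ_coeff_neg _ hm, ιZ_coeff_neg _ (mul_neg_of_pos_of_neg (by exact_mod_cast hp) hm)]
  · rw [qExpand_coeff_of_not_dvd _ _ hk]
    rcases le_or_gt 0 k with hk0 | hk0
    · lift k to ℕ using hk0
      rw [ιZ_coeff_nat, coeff_Vser, if_neg]
      intro h
      exact hk (by exact_mod_cast h)
    · rw [ιZ_coeff_neg _ hk0]

theorem ιZ_X : ιZ X = single 1 1 := HahnSeries.ofPowerSeries_X

theorem single_neg_one_mul_single_one :
    (single (-1 : ℤ) (1 : ℤ) : LaurentSeries ℤ) * single 1 1 = 1 := by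
  rw [single_mul_single]
  simp

theorem jNum_map_int : jNum.map (Int.castRingHom ℤ) = jNum := by
  ext n
  simp

/-- `Δ` as a Laurent series -/
def DL : LaurentSeries ℤ := ιZ Dz

theorem DL_ne_zero : DL ≠ 0 := by
  intro h
  have h1 : (ιZ Dz).coeff ((1 : ℕ) : ℤ) = 0 := by rw [show ιZ Dz = DL from rfl, h]; rfl
  rw [ιZ_coeff_nat] at h1
  have h2 := tl_getD 3 Dz (i := 1) (by norm_num)
  rw [tl_Dz_3, h1] at h2
  simp at h2

theorem qExpand_DL_ne_zero (p : ℕ) [NeZero p] : qExpand ℤ p DL ≠ 0 := by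
  intro h
  exact DL_ne_zero (qExpand_injective p (by rw [h, map_zero]))

theorem jZ_mul_DL : jqModC ℤ * DL = ιZ (Ez ^ 3) := by
  have h1 : jNum * dedekindEtaUnit = Ez ^ 3 := by
    rw [jNum, mul_assoc, mul_comm dedekindEtaUnitInv, dedekindEtaUnit_mul_inv, mul_one]; rfl
  rw [jqModC, jNum_map_int, DL, Dz_eq, map_mul, ιZ_X, ← h1, map_mul]
  calc single (-1 : ℤ) (1 : ℤ) * ιZ jNum * (single 1 1 * ιZ dedekindEtaUnit)
      = (single (-1 : ℤ) (1 : ℤ) * single 1 1) * (ιZ jNum * ιZ dedekindEtaUnit) := by ring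
    _ = ιZ jNum * ιZ dedekindEtaUnit := by rw [single_neg_one_mul_single_one, one_mul]

theorem qExpand_jZ_mul (p : ℕ) [NeZero p] :
    qExpand ℤ p (jqModC ℤ) * qExpand ℤ p DL = ιZ (Vser p Ez ^ 3) := by
  rw [← map_mul, jZ_mul_DL, qExpand_ιZ, Vser_pow p (NeZero.ne p)]

/-- `t₂ = q⁻¹ (η(q)/η(q²))²⁴` -/
def t2Z : LaurentSeries ℤ :=
  single (-1 : ℤ) 1 * ιZ (dedekindEtaUnit * Vser 2 dedekindEtaUnitInv)

/-- `t₃ = q⁻¹ (η(q)/η(q³))¹²` -/
def t3Z : LaurentSeries ℤ :=
  single (-1 : ℤ) 1 * ιZ (eta12 * Vser 3 eta12Inv)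

theorem t2Z_mul : t2Z * qExpand ℤ 2 DL = DL := by
  have h1 : Vser 2 dedekindEtaUnitInv * Vser 2 dedekindEtaUnit = 1 := by
    rw [← Vser_mul 2 (by norm_num), mul_comm, dedekindEtaUnit_mul_inv, Vser_one 2 (by norm_num)]
  have h2 : ιZ (Vser 2 dedekindEtaUnitInv) * ιZ (Vser 2 dedekindEtaUnit) = 1 := by
    rw [← map_mul, h1, map_one]
  rw [t2Z, DL, qExpand_ιZ, Vser_Dz 2 (by norm_num), Dz_eq]
  simp only [map_mul, map_pow, ιZ_X]
  have h3 := single_neg_one_mul_single_one
  linear_combination (single (1 : ℤ) (1 : ℤ) * ιZ dedekindEtaUnit * ιZ (Vser 2 dedekindEtaUnitInv)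
    * ιZ (Vser 2 dedekindEtaUnit)) * h3 + single (1 : ℤ) (1 : ℤ) * ιZ dedekindEtaUnit * h2

theorem t3Z_mul : t3Z * qExpand ℤ 3 DL = ιZ Zz := by
  have h1 : Vser 3 eta12Inv * Vser 3 eta12 = 1 := by
    rw [← Vser_mul 3 (by norm_num), mul_comm, eta12_mul_inv, Vser_one 3 (by norm_num)]
  have h2 : ιZ (Vser 3 eta12Inv) * ιZ (Vser 3 eta12) = 1 := by
    rw [← map_mul, h1, map_one]
  rw [t3Z, DL, qExpand_ιZ, Vser_Dz 3 (by norm_num), Zz, ← eta12_sq, Vser_mul 3 (by norm_num)]
  simp only [map_mul, map_pow, ιZ_X]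
  have h3 := single_neg_one_mul_single_one
  linear_combination (single (1 : ℤ) (1 : ℤ) ^ 2 * ιZ eta12 * ιZ (Vser 3 eta12Inv)
    * ιZ (Vser 3 eta12) * ιZ (Vser 3 eta12)) * h3
    + single (1 : ℤ) (1 : ℤ) ^ 2 * ιZ eta12 * ιZ (Vser 3 eta12) * h2

theorem ιZ_zsmul (c : ℤ) (f : PowerSeries ℤ) : ιZ (c • f) = (c : LaurentSeries ℤ) * ιZ f := by
  rw [zsmul_eq_mul, map_mul, map_intCast]

/-- `j t₂² = (t₂ + 256)³` over `ℤ` -/
theorem t2Z_rel_a : jqModC ℤ * t2Z ^ 2 = (t2Z + 256) ^ 3 := by
  have hne := pow_ne_zero 3 (qExpand_DL_ne_zero 2)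
  refine mul_right_cancel₀ hne ?_
  have hP := congrArg ιZ Phi2a_eq_zero
  simp only [Phi2a, map_zero, map_sub, map_mul, map_pow, map_add, ιZ_zsmul] at hP
  have hE : ιZ Ez ^ 3 = jqModC ℤ * DL := by rw [jZ_mul_DL, map_pow]
  have hV : ιZ (Vser 2 Dz) = qExpand ℤ 2 DL := (qExpand_ιZ 2 Dz).symm
  rw [hE, hV, show ιZ Dz = DL from rfl] at hP
  push_cast at hP
  have ht := t2Z_mul
  linear_combination hP + (jqModC ℤ * qExpand ℤ 2 DL * (t2Z * qExpand ℤ 2 DL + DL)
    - ((t2Z + 256) * qExpand ℤ 2 DL) ^ 2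
    - (t2Z + 256) * qExpand ℤ 2 DL * (DL + 256 * qExpand ℤ 2 DL)
    - (DL + 256 * qExpand ℤ 2 DL) ^ 2) * ht

/-- `j(q²) t₂ = (t₂ + 16)³` over `ℤ` -/
theorem t2Z_rel_b : qExpand ℤ 2 (jqModC ℤ) * t2Z = (t2Z + 16) ^ 3 := by
  have hne := pow_ne_zero 3 (qExpand_DL_ne_zero 2)
  refine mul_right_cancel₀ hne ?_
  have hP := congrArg ιZ Phi2b_eq_zero
  simp only [Phi2b, map_zero, map_sub, map_mul, map_pow, map_add, ιZ_zsmul] at hP
  have hE : ιZ (Vser 2 Ez) ^ 3 = qExpand ℤ 2 (jqModC ℤ) * qExpand ℤ 2 DL := by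
    rw [qExpand_jZ_mul, map_pow]
  have hV : ιZ (Vser 2 Dz) = qExpand ℤ 2 DL := (qExpand_ιZ 2 Dz).symm
  rw [hE, hV, show ιZ Dz = DL from rfl] at hP
  push_cast at hP
  have ht := t2Z_mul
  linear_combination hP + (qExpand ℤ 2 (jqModC ℤ) * qExpand ℤ 2 DL * qExpand ℤ 2 DL
    - ((t2Z + 16) * qExpand ℤ 2 DL) ^ 2
    - (t2Z + 16) * qExpand ℤ 2 DL * (DL + 16 * qExpand ℤ 2 DL)
    - (DL + 16 * qExpand ℤ 2 DL) ^ 2) * ht

theorem ιZ_Zz_sq : ιZ Zz * ιZ Zz = DL * qExpand ℤ 3 DL := by
  rw [← map_mul, Zz_sq, map_mul, ← qExpand_ιZ]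
  rfl

/-- `j t₃³ = (t₃ + 27)(t₃ + 243)³` over `ℤ` -/
theorem t3Z_rel_a : jqModC ℤ * t3Z ^ 3 = (t3Z + 27) * (t3Z + 243) ^ 3 := by
  have hne := pow_ne_zero 4 (qExpand_DL_ne_zero 3)
  refine mul_right_cancel₀ hne ?_
  have hA := congrArg ιZ A3a_eq
  simp only [A3a, B3a, map_sub, map_mul, map_pow, map_add, ιZ_zsmul] at hA
  have hE : ιZ Ez ^ 3 = jqModC ℤ * DL := by rw [jZ_mul_DL, map_pow]
  have hV : ιZ (Vser 3 Dz) = qExpand ℤ 3 DL := (qExpand_ιZ 3 Dz).symm
  rw [hE, hV, show ιZ Dz = DL from rfl] at hA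
  push_cast at hA
  have ht := t3Z_mul
  have hZ := ιZ_Zz_sq
  generalize ιZ Zz = Z at *
  generalize qExpand ℤ 3 DL = Q at *
  generalize jqModC ℤ = j at *
  generalize DL = D at *
  have hG : j * Z ^ 3 * Q = (Z + 27 * Q) * (Z + 243 * Q) ^ 3 := by
    linear_combination (j * Q * Z - Z ^ 2 - D * Q - 756 * Q * Z - 196830 * Q ^ 2) * hZ
      - Q ^ 2 * hA
  calc j * t3Z ^ 3 * Q ^ 4 = j * (t3Z * Q) ^ 3 * Q := by ring
    _ = (t3Z * Q + 27 * Q) * (t3Z * Q + 243 * Q) ^ 3 := by rw [ht, hG]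
    _ = (t3Z + 27) * (t3Z + 243) ^ 3 * Q ^ 4 := by ring

/-- `j(q³) t₃ = (t₃ + 27)(t₃ + 3)³` over `ℤ` -/
theorem t3Z_rel_b : qExpand ℤ 3 (jqModC ℤ) * t3Z = (t3Z + 27) * (t3Z + 3) ^ 3 := by
  have hne := pow_ne_zero 4 (qExpand_DL_ne_zero 3)
  refine mul_right_cancel₀ hne ?_
  have hA := congrArg ιZ A3b_eq
  simp only [A3b, B3b, map_sub, map_mul, map_pow, map_add, ιZ_zsmul] at hA
  have hE : ιZ (Vser 3 Ez) ^ 3 = qExpand ℤ 3 (jqModC ℤ) * qExpand ℤ 3 DL := by
    rw [qExpand_jZ_mul, map_pow]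
  have hV : ιZ (Vser 3 Dz) = qExpand ℤ 3 DL := (qExpand_ιZ 3 Dz).symm
  rw [hE, hV, show ιZ Dz = DL from rfl] at hA
  push_cast at hA
  have ht := t3Z_mul
  have hZ := ιZ_Zz_sq
  generalize ιZ Zz = Z at *
  generalize qExpand ℤ 3 (jqModC ℤ) = J at *
  generalize qExpand ℤ 3 DL = Q at *
  generalize DL = D at *
  have hG : J * Q * Z * Q ^ 2 = (Z + 27 * Q) * (Z + 3 * Q) ^ 3 := by
    linear_combination (-(Z ^ 2 + D * Q + 36 * Q * Z + 270 * Q ^ 2)) * hZ - Q ^ 2 * hA
  calc J * t3Z * Q ^ 4 = J * Q * (t3Z * Q) * Q ^ 2 := by ring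
    _ = (t3Z * Q + 27 * Q) * (t3Z * Q + 3 * Q) ^ 3 := by rw [ht, hG]
    _ = (t3Z + 27) * (t3Z + 3) ^ 3 * Q ^ 4 := by ring

/-! ### leading terms -/

theorem constantCoeff_Vser (p : ℕ) (hp : p ≠ 0) (f : PowerSeries ℤ) :
    PowerSeries.constantCoeff (Vser p f) = PowerSeries.constantCoeff f := by
  rw [Vser_eq_expand p hp, PowerSeries.constantCoeff_expand]

theorem single_neg_one_mul_coeff (f : PowerSeries ℤ) (k : ℤ) :
    (single (-1 : ℤ) (1 : ℤ) * ιZ f).coeff k = (ιZ f).coeff (k + 1) := by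
  have := HahnSeries.coeff_single_mul_add (r := (1 : ℤ)) (x := ιZ f) (a := k + 1) (b := (-1 : ℤ))
  rw [one_mul] at this
  rw [← this]
  congr 1
  ring

theorem t2Z_coeff_neg_one : t2Z.coeff (-1) = 1 := by
  rw [t2Z, single_neg_one_mul_coeff]
  have : ((-1 : ℤ) + 1) = ((0 : ℕ) : ℤ) := by norm_num
  rw [this, ιZ_coeff_nat, PowerSeries.coeff_zero_eq_constantCoeff, map_mul,
    constantCoeff_dedekindEtaUnit, one_mul]
  have h := congrArg (PowerSeries.constantCoeff (R := ℤ))
    (show Vser 2 dedekindEtaUnit * Vser 2 dedekindEtaUnitInv = 1 by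
      rw [← Vser_mul 2 (by norm_num), dedekindEtaUnit_mul_inv, Vser_one 2 (by norm_num)])
  rw [map_mul, map_one, constantCoeff_Vser 2 (by norm_num), constantCoeff_dedekindEtaUnit,
    one_mul] at h
  exact h

theorem t2Z_coeff_of_lt {k : ℤ} (hk : k < -1) : t2Z.coeff k = 0 := by
  rw [t2Z, single_neg_one_mul_coeff]
  exact ιZ_coeff_neg _ (by omega)

theorem t3Z_coeff_neg_one : t3Z.coeff (-1) = 1 := by
  rw [t3Z, single_neg_one_mul_coeff]
  have : ((-1 : ℤ) + 1) = ((0 : ℕ) : ℤ) := by norm_num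
  rw [this, ιZ_coeff_nat, PowerSeries.coeff_zero_eq_constantCoeff, map_mul,
    constantCoeff_eta12, one_mul]
  have h := congrArg (PowerSeries.constantCoeff (R := ℤ))
    (show Vser 3 eta12 * Vser 3 eta12Inv = 1 by
      rw [← Vser_mul 3 (by norm_num), eta12_mul_inv, Vser_one 3 (by norm_num)])
  rw [map_mul, map_one, constantCoeff_Vser 3 (by norm_num), constantCoeff_eta12,
    one_mul] at h
  exact h

theorem t3Z_coeff_of_lt {k : ℤ} (hk : k < -1) : t3Z.coeff k = 0 := by
  rw [t3Z, single_neg_one_mul_coeff]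
  exact ιZ_coeff_neg _ (by omega)

end Fermat.Agent.S18.H333

end
end
-- ===== PACK-END S18/H333/HauptLaurent.lean

-- ===== PACK-BEGIN S18/H456/ModCoord.lean
section


/-!
# S18 / MOD assembly (helper456): `E_closed_in_F`, `x_mem`, `x_transcendental`
-/

set_option autoImplicit false

noncomputable section

namespace Fermat.Agent.S18.H456

open ModularCurve AlgebraicCurve HahnSeries Fermat.Agent.S18 Fermat.Agent.S18.Mod

variable (M : ℕ) (A : ValuationSubring Qb) (E : IntermediateField ℚ Qb)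

/-- `Q̄ ≃ Lc`. -/
def LcEquiv : Qb ≃+* Lc M :=
  RingEquiv.ofBijective (algebraMap Qb (Om M)).rangeRestrictField
    ⟨(algebraMap Qb (Om M)).rangeRestrictField.injective, fun ⟨_, c, hc⟩ => ⟨c, Subtype.ext hc⟩⟩

theorem cst_LcEquiv_symm (y : Lc M) : cst M ((LcEquiv M).symm y) = (y : Om M) := by
  have h := (LcEquiv M).apply_symm_apply y
  exact congrArg Subtype.val h

/-- An element of `Ω` which is algebraic over a field of constants is constant. -/
theorem exists_cst_of_isAlgebraic (K₀ : Subfield (Om M)) (hK : K₀ ≤ Lc M) (f : Om M)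
    (hf : IsAlgebraic K₀ f) : ∃ c : Qb, f = cst M c := by
  obtain ⟨p, hp0, hp⟩ := hf
  let ψ : K₀ →+* Qb := ((LcEquiv M).symm : Lc M →+* Qb).comp (Subfield.inclusion hK)
  have hψ : ∀ y : K₀, cst M (ψ y) = (y : Om M) := fun y =>
    cst_LcEquiv_symm M (Subfield.inclusion hK y)
  let val : Om M →+* LaurentSeries Qb := (modularFunctionFieldBar M).val.toRingHom
  have hcomp : val.comp (algebraMap K₀ (Om M)) =
      (algebraMap Qb (LaurentSeries Qb)).comp ψ := by
    ext1 y
    show ((algebraMap K₀ (Om M) y : Om M) : LaurentSeries Qb) =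
      algebraMap Qb (LaurentSeries Qb) (ψ y)
    have : (algebraMap K₀ (Om M) y : Om M) = cst M (ψ y) := (hψ y).symm
    rw [this]
    rfl
  have halg : IsAlgebraic Qb (f : LaurentSeries Qb) := by
    refine ⟨p.map ψ, (Polynomial.map_ne_zero_iff ψ.injective).2 hp0, ?_⟩
    rw [Polynomial.aeval_def, Polynomial.eval₂_map, ← hcomp]
    have h := Polynomial.hom_eval₂ p (algebraMap K₀ (Om M)) val f
    rw [Polynomial.aeval_def] at hp
    rw [hp, map_zero] at h
    exact h.symm
  obtain ⟨c, hc⟩ := laurent_const_of_isAlgebraic _ halg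
  exact ⟨c, Subtype.ext hc⟩

theorem field_E_closed_in_F : ∀ f ∈ Fc M E, IsAlgebraic (Ec M E) f → f ∈ Ec M E := by
  intro f hf halg
  obtain ⟨c, rfl⟩ := exists_cst_of_isAlgebraic M (Ec M E) (field_E_le_L M E) f halg
  have h := coeff_mem_of_mem_Fc M E hf 0
  rw [val_cst, HahnSeries.coeff_single_same] at h
  exact cst_mem_Ec M E h

/-! ### The coordinate -/

/-- The data of an integral `q`-expansion `q⁻¹ + …` of the coordinate. -/
def HasIntExp [NeZero M] (x : Om M) : Prop :=
  ∃ X : LaurentSeries ℤ, X.coeff (-1) = 1 ∧ (∀ k : ℤ, k < -1 → X.coeff k = 0) ∧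
     (x : LaurentSeries Qb) = coeffMap (Int.castRingHom Qb) X ∧
     coeffMap (Int.castRingHom ℚ) X ∈ modularFunctionFieldFull M

theorem val_jOm [NeZero M] : ((jOm M : Om M) : LaurentSeries Qb) = jqModC Qb := by
  show coeffEmb Qb (qExpand ℚ 1 jq) = _
  rw [qExpand_one_apply]
  exact coeffMap_jqModC (algebraMap ℚ Qb)

theorem hasIntExp_jOm [NeZero M] : HasIntExp M (jOm M) := by
  refine ⟨jqModC ℤ, coeff_jqModC_neg_one ℤ, fun k hk => coeff_jqModC_of_lt ℤ hk, ?_, ?_⟩
  · rw [val_jOm, coeffMap_jqModC]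
  · rw [coeffMap_jqModC]
    exact modularFunctionField_le_full M (jq_mem M)

theorem hasIntExp_of_isCoordinate [NeZero M] {ℓ : ℕ} {x : Om M} {S : Finset (Om M)}
    (hx : IsCoordinate M ℓ x S) : HasIntExp M x := by
  rcases hx with ⟨-, rfl, -⟩ | ⟨-, h⟩
  · exact hasIntExp_jOm M
  · exact h

theorem coeff_neg_one_of_hasIntExp [NeZero M] {x : Om M} (hx : HasIntExp M x) :
    (x : LaurentSeries Qb).coeff (-1) = 1 := by
  obtain ⟨X, h1, -, h3, -⟩ := hx
  rw [h3, coeffMap_coeff, h1, map_one]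

theorem coeff_of_lt_of_hasIntExp [NeZero M] {x : Om M} (hx : HasIntExp M x) {k : ℤ}
    (hk : k < -1) : (x : LaurentSeries Qb).coeff k = 0 := by
  obtain ⟨X, -, h2, h3, -⟩ := hx
  rw [h3, coeffMap_coeff, h2 k hk, map_zero]

theorem mem_Fc_of_hasIntExp [NeZero M] {x : Om M} (hx : HasIntExp M x) : x ∈ Fc M E := by
  obtain ⟨X, -, -, h3, h4⟩ := hx
  have : x = ofFull M _ h4 := by
    apply Subtype.ext
    rw [h3]
    show _ = coeffEmb Qb (coeffMap (Int.castRingHom ℚ) X)
    rw [coeffEmb, coeffMap_coeffMap]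
    exact coeffMap_congr (RingHom.ext_int _ _) X
  rw [this]
  exact ofFull_mem_Fc M E _ h4

theorem transcendental_of_hasIntExp [NeZero M] {x : Om M} (hx : HasIntExp M x) :
    Transcendental (Lc M) x := by
  intro halg
  obtain ⟨c, hc⟩ := exists_cst_of_isAlgebraic M (Lc M) le_rfl x halg
  have h := coeff_neg_one_of_hasIntExp M hx
  rw [hc, val_cst, HahnSeries.coeff_single_of_ne (by decide)] at h
  exact zero_ne_one h

theorem field_x_mem [NeZero M] {ℓ : ℕ} {x : Om M} {S : Finset (Om M)}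
    (hx : IsCoordinate M ℓ x S) : x ∈ Fc M E :=
  mem_Fc_of_hasIntExp M E (hasIntExp_of_isCoordinate M hx)

theorem field_x_transcendental [NeZero M] {ℓ : ℕ} {x : Om M} {S : Finset (Om M)}
    (hx : IsCoordinate M ℓ x S) : Transcendental (Lc M) x :=
  transcendental_of_hasIntExp M (hasIntExp_of_isCoordinate M hx)

end Fermat.Agent.S18.H456

end
end
-- ===== PACK-END S18/H456/ModCoord.lean

-- ===== PACK-BEGIN S18/H456/ModS.lean
section



/-!
# S18 / MOD assembly (helper456): the fields `S_mem`, `S_distinct`, `S_unit` of `Alg.GoodModel`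
-/

set_option autoImplicit false

noncomputable section

namespace Fermat.Agent.S18.H456

open ModularCurve AlgebraicCurve HahnSeries Fermat.Agent.S18 Fermat.Agent.S18.Mod

variable (M : ℕ) (A : ValuationSubring Qb) (E : IntermediateField ℚ Qb)

/-- An integer prime to `ℓ` is a unit of `A`. -/
theorem inv_intCast_mem_A {ℓ : ℕ} (hA : A.LiesOverPrime ℓ) (n : ℤ)
    (hn : IsCoprime n (ℓ : ℤ)) : ((n : Qb))⁻¹ ∈ A := by
  obtain ⟨a, b, hab⟩ := hn
  have hℓ : A.valuation (ℓ : Qb) < 1 := (ValuationSubring.mem_nonunits_iff A).1 hA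
  have hle : ∀ k : ℤ, A.valuation (k : Qb) ≤ 1 := fun k =>
    (A.valuation_le_one_iff _).2 (intCast_mem A k)
  rw [← A.valuation_le_one_iff, map_inv₀]
  by_contra hcon
  have hlt : A.valuation (n : Qb) < 1 := by
    by_contra h
    push Not at h
    have h1 : A.valuation (n : Qb) = 1 := le_antisymm (hle n) h
    rw [h1, inv_one] at hcon
    exact hcon le_rfl
  have h1 : A.valuation ((a : Qb) * n + b * ℓ) < 1 := by
    refine lt_of_le_of_lt (A.valuation.map_add _ _) (max_lt ?_ ?_)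
    · rw [map_mul]
      calc A.valuation (a : Qb) * A.valuation (n : Qb) ≤ 1 * A.valuation (n : Qb) :=
            mul_le_mul_left (hle a) _
        _ = A.valuation (n : Qb) := one_mul _
        _ < 1 := hlt
    · rw [map_mul]
      calc A.valuation (b : Qb) * A.valuation (ℓ : Qb) ≤ 1 * A.valuation (ℓ : Qb) :=
            mul_le_mul_left (hle b) _
        _ = A.valuation (ℓ : Qb) := one_mul _
        _ < 1 := hℓ
  have h2 : ((a : Qb) * n + b * ℓ) = 1 := by
    have := congrArg (Int.cast : ℤ → Qb) hab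
    push_cast at this
    exact this
  rw [h2, map_one] at h1
  exact lt_irrefl _ h1

theorem cst_intCast (n : ℤ) : cst M (n : Qb) = (n : Om M) := map_intCast _ n

theorem intCast_mem_Rc (n : ℤ) : (n : Om M) ∈ Rc M A E := by
  rw [← cst_intCast]
  exact cst_mem_Rc M A E (intCast_mem A n) (intCast_mem E n)

theorem inv_intCast_mem_Rc {ℓ : ℕ} (hA : A.LiesOverPrime ℓ) (n : ℤ)
    (hn : IsCoprime n (ℓ : ℤ)) : ((n : Om M))⁻¹ ∈ Rc M A E := by
  rw [← cst_intCast, ← map_inv₀]
  exact cst_mem_Rc M A E (inv_intCast_mem_A A hA n hn) (inv_mem (intCast_mem E n))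

/-- The three fields `S_mem`, `S_distinct`, `S_unit` for `S = {0, b}`, `b` an integer prime
to `ℓ`. -/
theorem S_fields_of_int {ℓ : ℕ} (hA : A.LiesOverPrime ℓ) (b : ℤ) (hb : IsCoprime b (ℓ : ℤ))
    (S : Finset (Om M)) (hS : ∀ s, s ∈ S ↔ s = 0 ∨ s = (b : Om M)) :
    (∀ s ∈ S, s ∈ Rc M A E) ∧
    (∀ s ∈ S, ∀ t ∈ S, s ≠ t → (s - t)⁻¹ ∈ Rc M A E) ∧
    (∀ s ∈ S, s ≠ 0 → s⁻¹ ∈ Rc M A E) := by
  have hb' : IsCoprime (-b) (ℓ : ℤ) := hb.neg_left
  refine ⟨?_, ?_, ?_⟩
  · intro s hs
    rcases (hS s).1 hs with rfl | rfl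
    · exact zero_mem _
    · exact intCast_mem_Rc M A E b
  · intro s hs t ht hst
    rcases (hS s).1 hs with rfl | rfl <;> rcases (hS t).1 ht with rfl | rfl
    · exact absurd rfl hst
    · rw [zero_sub]
      have := inv_intCast_mem_Rc M A E hA (-b) hb'
      rwa [Int.cast_neg] at this
    · rw [sub_zero]
      exact inv_intCast_mem_Rc M A E hA b hb
    · exact absurd rfl hst
  · intro s hs hs0
    rcases (hS s).1 hs with rfl | rfl
    · exact absurd rfl hs0
    · exact inv_intCast_mem_Rc M A E hA b hb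

/-- **S-fields** for an admissible coordinate (`ℓ` prime). -/
theorem field_S [NeZero M] {ℓ : ℕ} (hℓ : ℓ.Prime) (hA : A.LiesOverPrime ℓ) {x : Om M}
    {S : Finset (Om M)} (hx : IsCoordinate M ℓ x S) :
    (∀ s ∈ S, s ∈ Rc M A E) ∧
    (∀ s ∈ S, ∀ t ∈ S, s ≠ t → (s - t)⁻¹ ∈ Rc M A E) ∧
    (∀ s ∈ S, s ≠ 0 → s⁻¹ ∈ Rc M A E) := by
  rcases hx with ⟨h5, -, hS⟩ | ⟨⟨h3, -, hS⟩ | ⟨h2, -, hS⟩, -⟩
  · refine S_fields_of_int M A E hA 1728 ?_ S (fun s => by rw [hS s]; norm_num)
    have h1728 : (1728 : ℤ) = 2 ^ 6 * 3 ^ 3 := by norm_num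
    rw [h1728]
    have h2 : IsCoprime (2 : ℤ) (ℓ : ℤ) := by
      rw [Int.isCoprime_iff_gcd_eq_one]
      exact (Nat.coprime_primes Nat.prime_two hℓ).2 (by omega)
    have h3 : IsCoprime (3 : ℤ) (ℓ : ℤ) := by
      rw [Int.isCoprime_iff_gcd_eq_one]
      exact (Nat.coprime_primes Nat.prime_three hℓ).2 (by omega)
    exact (h2.pow_left).mul_left (h3.pow_left)
  · subst h3
    refine S_fields_of_int M A E hA (-64) ?_ S (fun s => by rw [hS s]; norm_num)
    have h64 : (-64 : ℤ) = -(2 ^ 6) := by norm_num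
    rw [h64]
    have h2 : IsCoprime (2 : ℤ) ((3 : ℕ) : ℤ) := by
      rw [Int.isCoprime_iff_gcd_eq_one]; decide
    exact (h2.pow_left).neg_left
  · subst h2
    refine S_fields_of_int M A E hA (-27) ?_ S (fun s => by rw [hS s]; norm_num)
    have h27 : (-27 : ℤ) = -(3 ^ 3) := by norm_num
    rw [h27]
    have h3 : IsCoprime (3 : ℤ) ((2 : ℕ) : ℤ) := by
      rw [Int.isCoprime_iff_gcd_eq_one]; decide
    exact (h3.pow_left).neg_left

end Fermat.Agent.S18.H456

end
end
-- ===== PACK-END S18/H456/ModS.lean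

-- ===== PACK-BEGIN S24/Count/H324Interface.lean
section




/-!
# S24 — COUNT interface, exact frozen shapes (helper324)

The four COUNT interface theorems of `Fermat/Agent/S24/Count.lean` (skeleton of helper984),
proved in the exact shapes `numOrbits (permOf N g)`, assembled from

* `Fermat.Agent.S20.Comb694` (helper694): index of `Γ₀(N)`, fixed points and orbit counts of
  `S` and `S * T`;
* `Fermat.Agent.S20.CuspCount360` (helper360): orbits of `T`.

The only new ingredient is the bridge between orbits of the cyclic group generated by the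
permutation `MulAction.toPerm g` and orbits of the cyclic group generated by `g`.
-/

set_option autoImplicit false

noncomputable section

open ModularCurve MulAction Subgroup
open scoped MatrixGroups

namespace Fermat.Agent.S24.H324

section Bridge

variable {G X : Type*} [Group G] [MulAction G X]

/-- The orbit relation of `⟨toPerm g⟩ ≤ Perm X` is the orbit relation of `⟨g⟩ ≤ G`. -/
theorem orbitRel_zpowers_toPerm (g : G) :
    orbitRel (zpowers (MulAction.toPerm g : Equiv.Perm X)) X = orbitRel (zpowers g) X := by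
  ext x y
  simp only [orbitRel_apply]
  constructor
  · rintro ⟨⟨π, hπ⟩, rfl⟩
    obtain ⟨k, rfl⟩ := Subgroup.mem_zpowers_iff.mp hπ
    refine ⟨⟨g ^ k, zpow_mem_zpowers g k⟩, ?_⟩
    have h : (MulAction.toPerm g : Equiv.Perm X) ^ k = MulAction.toPerm (g ^ k) :=
      (map_zpow (MulAction.toPermHom G X) g k).symm
    change g ^ k • y = ((MulAction.toPerm g : Equiv.Perm X) ^ k) y
    rw [h]
    rfl
  · rintro ⟨⟨h, hh⟩, rfl⟩
    obtain ⟨k, rfl⟩ := Subgroup.mem_zpowers_iff.mp hh
    refine ⟨⟨(MulAction.toPerm g : Equiv.Perm X) ^ k, zpow_mem_zpowers _ k⟩, ?_⟩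
    have h : (MulAction.toPerm g : Equiv.Perm X) ^ k = MulAction.toPerm (g ^ k) :=
      (map_zpow (MulAction.toPermHom G X) g k).symm
    change ((MulAction.toPerm g : Equiv.Perm X) ^ k) y = g ^ k • y
    rw [h]
    rfl

/-- `numOrbits (toPerm g)` is the number of orbits of the cyclic group generated by `g`. -/
theorem numOrbits_toPerm (g : G) :
    numOrbits (MulAction.toPerm g : Equiv.Perm X)
      = Nat.card (orbitRel.Quotient (zpowers g) X) := by
  unfold numOrbits
  refine Nat.card_congr (Quotient.congr (Equiv.refl X) ?_)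
  intro x y
  have h := orbitRel_zpowers_toPerm (X := X) g
  exact iff_of_eq (congrArg (fun s : Setoid X => s x y) h)

/-- `numOrbits` only depends on the cyclic group generated by the permutation. -/
theorem numOrbits_congr_zpowers {π π' : Equiv.Perm X} (h : zpowers π = zpowers π') :
    numOrbits π = numOrbits π' := by
  unfold numOrbits
  rw [h]

/-- A permutation and its inverse have the same number of orbits. -/
theorem numOrbits_inv (π : Equiv.Perm X) : numOrbits π⁻¹ = numOrbits π :=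
  numOrbits_congr_zpowers zpowers_inv

/-- `g⁻¹` and `g` have the same number of orbits. -/
theorem numOrbits_toPerm_inv (g : G) :
    numOrbits (MulAction.toPerm g⁻¹ : Equiv.Perm X)
      = numOrbits (MulAction.toPerm g : Equiv.Perm X) := by
  have h : (MulAction.toPerm g⁻¹ : Equiv.Perm X) = (MulAction.toPerm g : Equiv.Perm X)⁻¹ :=
    map_inv (MulAction.toPermHom G X) g
  rw [h, numOrbits_inv]

/-- Conjugate elements have the same number of orbits. -/
theorem numOrbits_toPerm_conj (g h : G) :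
    numOrbits (MulAction.toPerm (h * g * h⁻¹) : Equiv.Perm X)
      = numOrbits (MulAction.toPerm g : Equiv.Perm X) := by
  rw [numOrbits_toPerm, numOrbits_toPerm]
  refine Nat.card_congr (Quotient.congr (MulAction.toPerm h⁻¹) ?_)
  intro x y
  change x ∈ MulAction.orbit (zpowers (h * g * h⁻¹)) y ↔
    (h⁻¹ • x) ∈ MulAction.orbit (zpowers g) (h⁻¹ • y)
  constructor
  · rintro ⟨⟨u, hu⟩, rfl⟩
    obtain ⟨k, rfl⟩ := Subgroup.mem_zpowers_iff.mp hu
    refine ⟨⟨g ^ k, zpow_mem_zpowers g k⟩, ?_⟩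
    change g ^ k • h⁻¹ • y = h⁻¹ • ((h * g * h⁻¹) ^ k • y)
    have : (h * g * h⁻¹) ^ k = h * g ^ k * h⁻¹ := by
      rw [← conj_zpow]
    rw [this, smul_smul, smul_smul]
    congr 1
    group
  · rintro ⟨⟨u, hu⟩, hxy⟩
    obtain ⟨k, rfl⟩ := Subgroup.mem_zpowers_iff.mp hu
    refine ⟨⟨(h * g * h⁻¹) ^ k, zpow_mem_zpowers _ k⟩, ?_⟩
    change (h * g * h⁻¹) ^ k • y = x
    have hxy' : g ^ k • h⁻¹ • y = h⁻¹ • x := hxy
    have : (h * g * h⁻¹) ^ k = h * g ^ k * h⁻¹ := by
      rw [← conj_zpow]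
    rw [this, mul_smul, mul_smul, hxy', smul_inv_smul]

end Bridge

variable (N : ℕ)

theorem numOrbits_permOf (g : SL(2, ℤ)) :
    numOrbits (permOf N g)
      = Nat.card (orbitRel.Quotient (zpowers g) (SL(2, ℤ) ⧸ CongruenceSubgroup.Gamma0 N)) :=
  numOrbits_toPerm g

theorem card_XX : Nat.card (XX N) = dedekindPsi N :=
  Fermat.Agent.S20.Comb694.card_quotient_Gamma0 N

theorem numOrbits_permOf_inv (g : SL(2, ℤ)) :
    numOrbits (permOf N g⁻¹) = numOrbits (permOf N g) :=
  numOrbits_toPerm_inv g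

theorem numOrbits_permOf_conj (g h : SL(2, ℤ)) :
    numOrbits (permOf N (h * g * h⁻¹)) = numOrbits (permOf N g) :=
  numOrbits_toPerm_conj g h

variable [NeZero N]

theorem two_mul_numOrbits_S :
    2 * numOrbits (permOf N ModularGroup.S) = dedekindPsi N + nuTwo N := by
  rw [numOrbits_permOf]
  exact Fermat.Agent.S20.Comb694.two_mul_card_orbits_S N

theorem three_mul_numOrbits_ST :
    3 * numOrbits (permOf N (ModularGroup.S * ModularGroup.T))
      = dedekindPsi N + 2 * nuThree N := by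
  rw [numOrbits_permOf]
  exact Fermat.Agent.S20.Comb694.three_mul_card_orbits_ST N

theorem numOrbits_T : numOrbits (permOf N ModularGroup.T) = cuspCount N := by
  rw [numOrbits_permOf]
  exact Fermat.Agent.S20.CuspCount360.card_orbits_T N

end Fermat.Agent.S24.H324

end
end
-- ===== PACK-END S24/Count/H324Interface.lean

-- ===== PACK-BEGIN S18/H394/ChartInst.lean
section



/-!
# S18, Route K (helper394): instances for the charts `H138.chart R {x}`

For `R` noetherian with `R[X]` integrally closed, `F` of characteristic `0`, `x ∈ F` transcendental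
over `R` and `F` finite over `baseField R x`: the chart `B = chart R {x}` (integral closure of
`R[x]` in `F`), as a type, is a noetherian integrally closed domain with fraction field `F`.
-/

set_option autoImplicit false
set_option linter.style.haveILetI false

namespace Fermat.Agent.S18.H394

open Polynomial
open Fermat.Agent.S18.H138 (chart baseField)

section ChartInst

variable {R : Type*} [CommRing R] {F : Type*} [Field F] [Algebra R F]
variable [IsNoetherianRing R] [IsIntegrallyClosed R[X]] [CharZero F]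

theorem chart_instances {x : F} (hx : Transcendental R x)
    [FiniteDimensional (baseField R x) F] :
    IsNoetherianRing (chart R ({x} : Set F)) ∧ IsIntegrallyClosed (chart R ({x} : Set F)) ∧
      IsFractionRing (chart R ({x} : Set F)) F := by
  classical
  set A : Subalgebra R F := Algebra.adjoin R ({x} : Set F) with hA
  set K : Subfield F := baseField R x with hK
  haveI := H138.isIntegrallyClosed_adjoin_singleton (R := R) hx
  haveI := H138.isNoetherianRing_adjoin_singleton (R := R) hx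
  let φ : A →+* K :=
    { toFun := fun a => ⟨a, H138.adjoin_le_baseField x a.2⟩
      map_one' := rfl
      map_mul' := fun _ _ => rfl
      map_zero' := rfl
      map_add' := fun _ _ => rfl }
  letI : Algebra A K := φ.toAlgebra
  haveI : IsScalarTower A K F := IsScalarTower.of_algebraMap_eq (fun _ => rfl)
  have hinj : Function.Injective (algebraMap A K) := by
    intro a b hab
    have : (a : F) = b := congrArg (fun t : K => (t : F)) hab
    exact Subtype.ext this
  haveI : FaithfulSMul A K := (faithfulSMul_iff_algebraMap_injective A K).2 hinj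
  haveI : IsFractionRing A K := by
    refine IsFractionRing.of_field A K (fun z => ?_)
    obtain ⟨a, ha, b, hb, h⟩ := H138.exists_div_of_mem_baseField (R := R) x z.2
    exact ⟨⟨a, ha⟩, ⟨b, hb⟩, Subtype.ext h⟩
  haveI : CharZero K := (algebraMap K F).charZero
  have h1 : IsNoetherianRing (integralClosure A F) := integralClosure.isNoetherianRing (K := K) F
  have h2 : IsIntegrallyClosed (integralClosure A F) :=
    integralClosure.isIntegrallyClosedOfFiniteExtension K
  have h3 : IsFractionRing (integralClosure A F) F :=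
    integralClosure.isFractionRing_of_finite_extension K F
  exact ⟨h1, h2, h3⟩

end ChartInst

end Fermat.Agent.S18.H394

end
-- ===== PACK-END S18/H394/ChartInst.lean

-- ===== PACK-BEGIN A2/H729/Glue.lean
section


/-!
# A2, piece ALG_ss (helper729), version A: gluing a generic idempotent

Setting of `S18.H138.connected_special_fibre`: `R` a noetherian domain with `R[X]` integrally
closed (a DVR), `w ∈ R` prime, `F` a field of characteristic `0`, `x ∈ F` transcendental, `F`
finite over `baseField R x`, `R` integrally closed in `F`.  The charts are the integral closures of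
`R[x]`, `R[x⁻¹]`, `R[x, x⁻¹]` in `F`.

`O` is the *Gauss ring*: a subalgebra of `F` containing the charts (in the application the
intersection of the valuation rings of `F` over the Gauss valuations of the special fibre), with
the `q`-expansion principle `chart ∩ w O = w chart` for the three charts (the special fibre is
reduced).  `e₀ ∈ O` is idempotent modulo `w O` (an idempotent of the total ring of fractions of
the special fibre).

**Theorem** (`generic_idempotent_trivial`).  If `e₀` is *locally regular* at every closed point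
of the special fibre of both charts (for every maximal ideal `𝔫 ∋ w` of the chart there is a
denominator `s ∉ 𝔫` with `s e₀ ≡` an element of the chart modulo `w O`), then `e₀ ≡ 0` or
`e₀ ≡ 1` modulo `w O`.

No normality of the special fibre is used: only reducedness (the three `qep` hypotheses).
-/

set_option autoImplicit false

namespace Fermat.Agent.A2.H729

open Fermat.Agent.S18.H138

variable {R : Type*} [CommRing R] {F : Type*} [Field F] [Algebra R F]

/-- `z ∈ w O`. -/
def InW (O : Subalgebra R F) (w : R) (z : F) : Prop :=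
  ∃ t ∈ O, z = algebraMap R F w * t

theorem InW.add {O : Subalgebra R F} {w : R} {a b : F} (ha : InW O w a) (hb : InW O w b) :
    InW O w (a + b) := by
  obtain ⟨s, hs, rfl⟩ := ha
  obtain ⟨t, ht, rfl⟩ := hb
  exact ⟨s + t, O.add_mem hs ht, by ring⟩

theorem InW.neg {O : Subalgebra R F} {w : R} {a : F} (ha : InW O w a) : InW O w (-a) := by
  obtain ⟨s, hs, rfl⟩ := ha
  exact ⟨-s, O.neg_mem hs, by ring⟩

theorem InW.sub {O : Subalgebra R F} {w : R} {a b : F} (ha : InW O w a) (hb : InW O w b) :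
    InW O w (a - b) := by
  rw [sub_eq_add_neg]
  exact ha.add hb.neg

theorem InW.mul_left {O : Subalgebra R F} {w : R} {a : F} (ha : InW O w a) {c : F}
    (hc : c ∈ O) : InW O w (c * a) := by
  obtain ⟨s, hs, rfl⟩ := ha
  exact ⟨c * s, O.mul_mem hc hs, by ring⟩

theorem InW.mul_right {O : Subalgebra R F} {w : R} {a : F} (ha : InW O w a) {c : F}
    (hc : c ∈ O) : InW O w (a * c) := by
  rw [mul_comm]
  exact ha.mul_left hc

theorem InW.zero (O : Subalgebra R F) (w : R) : InW O w 0 :=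
  ⟨0, O.zero_mem, by ring⟩

theorem InW.of_mul {O : Subalgebra R F} (w : R) {t : F} (ht : t ∈ O) :
    InW O w (algebraMap R F w * t) :=
  ⟨t, ht, rfl⟩

theorem InW.mem {O : Subalgebra R F} {w : R} {a : F} (ha : InW O w a) : a ∈ O := by
  obtain ⟨s, hs, rfl⟩ := ha
  exact O.mul_mem (O.algebraMap_mem w) hs

theorem InW.sum {O : Subalgebra R F} {w : R} {ι : Type*} (s : Finset ι) (f : ι → F)
    (h : ∀ i ∈ s, InW O w (f i)) : InW O w (∑ i ∈ s, f i) := by
  classical
  induction s using Finset.induction_on with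
  | empty => simpa using InW.zero O w
  | insert a s ha ih =>
    rw [Finset.sum_insert ha]
    exact (h a (Finset.mem_insert_self a s)).add
      (ih fun i hi => h i (Finset.mem_insert_of_mem hi))

/-- The *regularity ideal* of `e₀` on the chart `C`: the denominators `s ∈ C` such that
`s e₀` is congruent modulo `w O` to an element of `C`. -/
def regIdeal (C O : Subalgebra R F) (hCO : C ≤ O) (w : R) (e₀ : F) : Ideal C where
  carrier := {s | ∃ e ∈ C, InW O w ((s : F) * e₀ - e)}
  add_mem' := by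
    rintro a b ⟨e, he, h⟩ ⟨e', he', h'⟩
    refine ⟨e + e', C.add_mem he he', ?_⟩
    have : ((a + b : C) : F) * e₀ - (e + e') = ((a : F) * e₀ - e) + ((b : F) * e₀ - e') := by
      push_cast; ring
    rw [this]
    exact h.add h'
  zero_mem' := ⟨0, C.zero_mem, by simpa using InW.zero O w⟩
  smul_mem' := by
    rintro c a ⟨e, he, h⟩
    refine ⟨c * e, C.mul_mem c.2 he, ?_⟩
    have : ((c • a : C) : F) * e₀ - c * e = (c : F) * ((a : F) * e₀ - e) := by
      rw [smul_eq_mul]; push_cast; ring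
    rw [this]
    exact h.mul_left (hCO c.2)

theorem mem_regIdeal {C O : Subalgebra R F} {hCO : C ≤ O} {w : R} {e₀ : F} {s : C} :
    s ∈ regIdeal C O hCO w e₀ ↔ ∃ e ∈ C, InW O w ((s : F) * e₀ - e) := Iff.rfl

/-- If `e₀ ∈ O` is locally regular at all maximal ideals of `C` containing `w`, it is congruent
modulo `w O` to an element of `C`. -/
theorem exists_chart_rep {C O : Subalgebra R F} (hCO : C ≤ O) (w : R) {e₀ : F} (he₀ : e₀ ∈ O)
    (hloc : ∀ 𝔫 : Ideal C, 𝔫.IsMaximal → algebraMap R C w ∈ 𝔫 →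
      ∃ s : C, s ∉ 𝔫 ∧ ∃ e ∈ C, InW O w ((s : F) * e₀ - e)) :
    ∃ e ∈ C, InW O w (e₀ - e) := by
  have hw : algebraMap R C w ∈ regIdeal C O hCO w e₀ := by
    refine ⟨0, C.zero_mem, ?_⟩
    rw [sub_zero]
    exact ⟨e₀, he₀, rfl⟩
  have htop : regIdeal C O hCO w e₀ = ⊤ := by
    by_contra hne
    obtain ⟨𝔫, h𝔫, hle⟩ := Ideal.exists_le_maximal _ hne
    obtain ⟨s, hs, e, he, h⟩ := hloc 𝔫 h𝔫 (hle hw)
    exact hs (hle ⟨e, he, h⟩)
  have h1 : (1 : C) ∈ regIdeal C O hCO w e₀ := by rw [htop]; trivial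
  obtain ⟨e, he, h⟩ := h1
  refine ⟨e, he, ?_⟩
  simpa using h

section Main

variable [IsNoetherianRing R] [IsIntegrallyClosed (Polynomial R)] [CharZero F]

/-- **ALG_ss, version A.**  A generic idempotent of a reduced special fibre which is locally
regular at every closed point of both charts is `0` or `1`. -/
theorem generic_idempotent_trivial
    (hinjR : Function.Injective (algebraMap R F))
    (hRF : ∀ y : F, IsIntegral R y → y ∈ Set.range (algebraMap R F))
    {x : F} (hx : Transcendental R x) [FiniteDimensional (baseField R x) F]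
    (w : R) (hw : Prime w)
    (O : Subalgebra R F)
    (hfin : chart R ({x} : Set F) ≤ O) (hinf : chart R ({x⁻¹} : Set F) ≤ O)
    (qep_fin : ∀ b ∈ chart R ({x} : Set F), InW O w b →
      ∃ t ∈ chart R ({x} : Set F), b = algebraMap R F w * t)
    (qep_inf : ∀ b ∈ chart R ({x⁻¹} : Set F), InW O w b →
      ∃ t ∈ chart R ({x⁻¹} : Set F), b = algebraMap R F w * t)
    (qep_mid : ∀ b ∈ chart R ({x, x⁻¹} : Set F), InW O w b →
      ∃ t ∈ chart R ({x, x⁻¹} : Set F), b = algebraMap R F w * t)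
    {e₀ : F} (he₀ : e₀ ∈ O) (hidem : InW O w (e₀ ^ 2 - e₀))
    (hloc_fin : ∀ 𝔫 : Ideal (chart R ({x} : Set F)), 𝔫.IsMaximal →
      algebraMap R (chart R ({x} : Set F)) w ∈ 𝔫 →
      ∃ s : chart R ({x} : Set F), s ∉ 𝔫 ∧
        ∃ e ∈ chart R ({x} : Set F), InW O w ((s : F) * e₀ - e))
    (hloc_inf : ∀ 𝔫 : Ideal (chart R ({x⁻¹} : Set F)), 𝔫.IsMaximal →
      algebraMap R (chart R ({x⁻¹} : Set F)) w ∈ 𝔫 →
      ∃ s : chart R ({x⁻¹} : Set F), s ∉ 𝔫 ∧
        ∃ e ∈ chart R ({x⁻¹} : Set F), InW O w ((s : F) * e₀ - e)) :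
    InW O w e₀ ∨ InW O w (1 - e₀) := by
  obtain ⟨e₁, he₁, h₁⟩ := exists_chart_rep hfin w he₀ hloc_fin
  obtain ⟨e₂, he₂, h₂⟩ := exists_chart_rep hinf w he₀ hloc_inf
  have he₁O : e₁ ∈ O := hfin he₁
  have he₂O : e₂ ∈ O := hinf he₂
  -- `e₁` is idempotent modulo `w` in the finite chart
  have hi₁ : ∃ t ∈ chart R ({x} : Set F), e₁ ^ 2 - e₁ = algebraMap R F w * t := by
    refine qep_fin _ (Subalgebra.sub_mem _ (Subalgebra.pow_mem _ he₁ 2) he₁) ?_
    have : e₁ ^ 2 - e₁ = (e₀ ^ 2 - e₀) - (e₀ - e₁) * (e₀ + e₁ - 1) := by ring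
    rw [this]
    exact hidem.sub (h₁.mul_right
      (O.sub_mem (O.add_mem he₀ he₁O) O.one_mem))
  have hi₂ : ∃ t ∈ chart R ({x⁻¹} : Set F), e₂ ^ 2 - e₂ = algebraMap R F w * t := by
    refine qep_inf _ (Subalgebra.sub_mem _ (Subalgebra.pow_mem _ he₂ 2) he₂) ?_
    have : e₂ ^ 2 - e₂ = (e₀ ^ 2 - e₀) - (e₀ - e₂) * (e₀ + e₂ - 1) := by ring
    rw [this]
    exact hidem.sub (h₂.mul_right
      (O.sub_mem (O.add_mem he₀ he₂O) O.one_mem))
  have h₁₂ : ∃ t ∈ chart R ({x, x⁻¹} : Set F), e₁ - e₂ = algebraMap R F w * t := by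
    refine qep_mid _ (Subalgebra.sub_mem _ (chart_mono (by simp) he₁)
      (chart_mono (by simp) he₂)) ?_
    have : e₁ - e₂ = (e₀ - e₂) - (e₀ - e₁) := by ring
    rw [this]
    exact h₂.sub h₁
  rcases connected_special_fibre hinjR hRF hx w hw e₁ e₂ he₁ he₂ hi₁ hi₂ h₁₂ with
    ⟨⟨t, ht, h⟩, _⟩ | ⟨⟨t, ht, h⟩, _⟩
  · left
    have : e₀ = (e₀ - e₁) + e₁ := by ring
    rw [this]
    exact h₁.add ⟨t, hfin ht, h⟩
  · right
    have : 1 - e₀ = (1 - e₁) - (e₀ - e₁) := by ring
    rw [this]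
    exact InW.sub ⟨t, hfin ht, h⟩ h₁

end Main

end Fermat.Agent.A2.H729

end
-- ===== PACK-END A2/H729/Glue.lean

-- ===== PACK-BEGIN A2/Mod/Asm.lean
section



/-!
# WALL A2 / MODASM — sub-assemblies and the top assembly (row-lead helper13)

`Fermat/Agent/A2/Mod/Spec.lean` (deputy helper994) freezes the concrete leaves L1–L14 and the
level-`M` hypothesis `GoodRedAt`.  This file freezes the five SUB-ASSEMBLIES which turn the leaves
into the fields of `ModSSData` (`ModDefs.lean`), and proves the top assembly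
`modSSData_of_parts` (sorry-free).

Objects (level `N = M * q`, coordinate `x = j · j_q`):

* `chartAlg P E N y` : the chart of the coordinate `y` as a subalgebra
  (`Bf = chartAlg x`, `Bi = chartAlg x⁻¹`);
* `IsCut P E N w V B p` : `p = B ∩ w V` (the component of the special fibre of `B` cut out by
  the valuation ring `V`).

Sub-assemblies (each ONE `Prop`; prove `theorem foo : FooStatement P E M q w` in
`Fermat/Agent/A2/Mod/H<seat>/*.lean`):

* `S1Statement` (two components): for `y ∈ {x, x⁻¹}` there are primes `p∞ = B ∩ w V∞`,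
  `p₀ = B ∩ w V₀`, incomparable, with `p∞ ⊓ p₀ = (w)`.
  [H48 `GaussPair.qep2` from L2, L3, L6, L8, L9, L10; incomparability from `H48.exists_approx`.]
* `S2Statement` (components normal): `B ⧸ p∞`, `B ⧸ p₀` are integrally closed.
  [M4: L11, L13, `GoodRedAt`; `B = α(B_M) + p∞`, `B = β(B_M) + p₀` (L5, L7 for the second).
  NOTE: at infinity `B` is integral over `α(B_M)` only MODULO `p∞` (`1/j_q ≡ (1/j)^q`).]
* `S3Statement` (ordinary double points): `(p∞ ⊔ p₀).IsRadical`.
  [H372 `KronCong.sup_isRadical_of_isDedekindDomain` from L12 (+ L5, L7), S2.]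
* `S4Statement` (`SepCoord`, ROUTE G ONLY).
* `StauStatement` (inertia): `τ x = x`, `τ b - b ∈ w B` on both charts.  [L14 + S1.]
-/

set_option autoImplicit false
set_option linter.unusedSectionVars false
set_option synthInstance.maxHeartbeats 400000
set_option maxHeartbeats 1600000

noncomputable section

namespace Fermat.Agent.A2.Mod

open ModularCurve HahnSeries Polynomial

section Objects

variable (P : ValuationSubring _root_.Fermat.Agent.A2.Mod.Qb) (E : IntermediateField ℚ _root_.Fermat.Agent.A2.Mod.Qb) (N : ℕ)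

/-- The chart of the coordinate `y` as a subalgebra of `F_{N,E}`: the integral closure of
`R_E[y]`. -/
def chartAlg (y : _root_.Fermat.Agent.A2.Mod.FE E N) : Subalgebra (_root_.Fermat.Agent.A2.Mod.RE P E) (_root_.Fermat.Agent.A2.Mod.FE E N) :=
  (integralClosure (Algebra.adjoin (_root_.Fermat.Agent.A2.Mod.RE P E) ({y} : Set (_root_.Fermat.Agent.A2.Mod.FE E N))) (_root_.Fermat.Agent.A2.Mod.FE E N)).restrictScalars
    (_root_.Fermat.Agent.A2.Mod.RE P E)

theorem mem_chartAlg {y f : _root_.Fermat.Agent.A2.Mod.FE E N} :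
    f ∈ chartAlg P E N y ↔ IsIntegral (Algebra.adjoin (_root_.Fermat.Agent.A2.Mod.RE P E) ({y} : Set (_root_.Fermat.Agent.A2.Mod.FE E N))) f :=
  Iff.rfl

/-- `p = B ∩ w V`. -/
def IsCut (w : _root_.Fermat.Agent.A2.Mod.RE P E) (V : ValuationSubring (_root_.Fermat.Agent.A2.Mod.FE E N)) (B : Subalgebra (_root_.Fermat.Agent.A2.Mod.RE P E) (_root_.Fermat.Agent.A2.Mod.FE E N))
    (p : Ideal B) : Prop :=
  ∀ b : B, b ∈ p ↔ InW P E N V w (b : _root_.Fermat.Agent.A2.Mod.FE E N)

end Objects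

section SubAssemblies

variable (P : ValuationSubring _root_.Fermat.Agent.A2.Mod.Qb) (E : IntermediateField ℚ _root_.Fermat.Agent.A2.Mod.Qb) (M q : ℕ) [NeZero M] [NeZero q]
  (w : _root_.Fermat.Agent.A2.Mod.RE P E)

/-- `y` is one of the two coordinates `x`, `x⁻¹` of level `M * q`. -/
def IsCoord (y : _root_.Fermat.Agent.A2.Mod.FE E (M * q)) : Prop := y = xE E M q ∨ y = (xE E M q)⁻¹

/-- The level-`M` coordinate attached to a level-`Mq` coordinate: `j` for `x`, `j⁻¹` for `x⁻¹`. -/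
def IsCoordPair (yM : _root_.Fermat.Agent.A2.Mod.FE E M) (y : _root_.Fermat.Agent.A2.Mod.FE E (M * q)) : Prop :=
  (yM = jE E M 1 (one_dvd _) ∧ y = xE E M q) ∨
    (yM = (jE E M 1 (one_dvd _))⁻¹ ∧ y = (xE E M q)⁻¹)

/-- **S1 (two components).** -/
def S1Statement : Prop :=
  Setting P E M q w →
    ∀ (V : ValuationSubring (_root_.Fermat.Agent.A2.Mod.FE E (M * q))) (W : _root_.Fermat.Agent.A2.Mod.FE E (M * q) ≃ₐ[E] _root_.Fermat.Agent.A2.Mod.FE E (M * q)),
      IsVinf P E (M * q) V → IsFricke E (M * q) W →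
      ∀ y : _root_.Fermat.Agent.A2.Mod.FE E (M * q), IsCoord E M q y →
        ∃ p₁ p₂ : Ideal (chartAlg P E (M * q) y),
          IsCut P E (M * q) w V (chartAlg P E (M * q) y) p₁ ∧
          IsCut P E (M * q) w (V.comap (W : _root_.Fermat.Agent.A2.Mod.FE E (M * q) →+* _root_.Fermat.Agent.A2.Mod.FE E (M * q)))
            (chartAlg P E (M * q) y) p₂ ∧
          p₁.IsPrime ∧ p₂.IsPrime ∧ ¬ p₁ ≤ p₂ ∧ ¬ p₂ ≤ p₁ ∧
          p₁ ⊓ p₂ = Ideal.span {algebraMap (_root_.Fermat.Agent.A2.Mod.RE P E) (chartAlg P E (M * q) y) w}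

/-- **S2 (components normal)**, given good reduction at level `M` in the corresponding chart. -/
def S2Statement : Prop :=
  Setting P E M q w →
    ∀ (VM : ValuationSubring (_root_.Fermat.Agent.A2.Mod.FE E M)) (V : ValuationSubring (_root_.Fermat.Agent.A2.Mod.FE E (M * q)))
      (W : _root_.Fermat.Agent.A2.Mod.FE E (M * q) ≃ₐ[E] _root_.Fermat.Agent.A2.Mod.FE E (M * q)),
      IsVinf P E M VM → IsVinf P E (M * q) V → IsFricke E (M * q) W →
      ∀ (yM : _root_.Fermat.Agent.A2.Mod.FE E M) (y : _root_.Fermat.Agent.A2.Mod.FE E (M * q)), IsCoordPair E M q yM y →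
        GoodRedAt P E M w VM yM →
        ∀ p₁ p₂ : Ideal (chartAlg P E (M * q) y),
          IsCut P E (M * q) w V (chartAlg P E (M * q) y) p₁ →
          IsCut P E (M * q) w (V.comap (W : _root_.Fermat.Agent.A2.Mod.FE E (M * q) →+* _root_.Fermat.Agent.A2.Mod.FE E (M * q)))
            (chartAlg P E (M * q) y) p₂ →
          IsIntegrallyClosed (chartAlg P E (M * q) y ⧸ p₁) ∧
          IsIntegrallyClosed (chartAlg P E (M * q) y ⧸ p₂)

/-- **S3 (ordinary double points)**, given good reduction at level `M`. -/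
def S3Statement : Prop :=
  Setting P E M q w →
    ∀ (VM : ValuationSubring (_root_.Fermat.Agent.A2.Mod.FE E M)) (V : ValuationSubring (_root_.Fermat.Agent.A2.Mod.FE E (M * q)))
      (W : _root_.Fermat.Agent.A2.Mod.FE E (M * q) ≃ₐ[E] _root_.Fermat.Agent.A2.Mod.FE E (M * q)),
      IsVinf P E M VM → IsVinf P E (M * q) V → IsFricke E (M * q) W →
      ∀ (yM : _root_.Fermat.Agent.A2.Mod.FE E M) (y : _root_.Fermat.Agent.A2.Mod.FE E (M * q)), IsCoordPair E M q yM y →
        GoodRedAt P E M w VM yM →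
        ∀ p₁ p₂ : Ideal (chartAlg P E (M * q) y),
          IsCut P E (M * q) w V (chartAlg P E (M * q) y) p₁ →
          IsCut P E (M * q) w (V.comap (W : _root_.Fermat.Agent.A2.Mod.FE E (M * q) →+* _root_.Fermat.Agent.A2.Mod.FE E (M * q)))
            (chartAlg P E (M * q) y) p₂ →
          (p₁ ⊔ p₂).IsRadical

/-- **S4 (separating coordinate; route G only).** -/
def S4Statement : Prop :=
  Setting P E M q w →
    ∀ (VM : ValuationSubring (_root_.Fermat.Agent.A2.Mod.FE E M)), IsVinf P E M VM →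
      GoodRedAt P E M w VM (jE E M 1 (one_dvd _)) →
      GoodRedAt P E M w VM (jE E M 1 (one_dvd _))⁻¹ →
      SepCoord (_root_.Fermat.Agent.A2.Mod.RE P E) E (xE E M q) (chartAlg P E (M * q) (xE E M q)) ∧
        SepCoord (_root_.Fermat.Agent.A2.Mod.RE P E) E (xE E M q)⁻¹ (chartAlg P E (M * q) (xE E M q)⁻¹)

/-- **Sτ (inertia acts trivially on the special fibre of both charts).** -/
def StauStatement : Prop :=
  Setting P E M q w →
    ∀ (τ : _root_.Fermat.Agent.A2.Mod.Qb ≃ₐ[ℚ] _root_.Fermat.Agent.A2.Mod.Qb) (τE : E ≃ₐ[ℚ] E), τ ∈ P.inertiaSubgroupIn ℚ →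
      (∀ e : E, ((τE e : E) : _root_.Fermat.Agent.A2.Mod.Qb) = τ (e : _root_.Fermat.Agent.A2.Mod.Qb)) →
      arithmeticRingAut (modularFunctionFieldFull (M * q)) τE (xE E M q) = xE E M q ∧
      ∀ y : _root_.Fermat.Agent.A2.Mod.FE E (M * q), IsCoord E M q y → ∀ b ∈ chartAlg P E (M * q) y,
        ∃ c ∈ chartAlg P E (M * q) y,
          arithmeticRingAut (modularFunctionFieldFull (M * q)) τE b - b =
            algebraMap (_root_.Fermat.Agent.A2.Mod.RE P E) (_root_.Fermat.Agent.A2.Mod.FE E (M * q)) w * c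

end SubAssemblies

section Top

variable (P : ValuationSubring _root_.Fermat.Agent.A2.Mod.Qb) (E : IntermediateField ℚ _root_.Fermat.Agent.A2.Mod.Qb) (M q : ℕ) [NeZero M] [NeZero q]

/-- The level-`M` hypothesis of MODASM (output of S18 b2): good reduction at level `M` in the
two charts of the coordinate `j`. -/
def GoodRedHyp : Prop :=
  ∀ (w : _root_.Fermat.Agent.A2.Mod.RE P E) (VM : ValuationSubring (_root_.Fermat.Agent.A2.Mod.FE E M)), Irreducible w → IsVinf P E M VM →
    GoodRedAt P E M w VM (jE E M 1 (one_dvd _)) ∧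
      GoodRedAt P E M w VM (jE E M 1 (one_dvd _))⁻¹

/-- The semistable chart `SSChart w (chartAlg y)` from S1, S2, S3. -/
theorem nonempty_ssChart (w : _root_.Fermat.Agent.A2.Mod.RE P E) (hS : Setting P E M q w)
    (hS1 : S1Statement P E M q w) (hS2 : S2Statement P E M q w) (hS3 : S3Statement P E M q w)
    (VM : ValuationSubring (_root_.Fermat.Agent.A2.Mod.FE E M)) (V : ValuationSubring (_root_.Fermat.Agent.A2.Mod.FE E (M * q)))
    (W : _root_.Fermat.Agent.A2.Mod.FE E (M * q) ≃ₐ[E] _root_.Fermat.Agent.A2.Mod.FE E (M * q))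
    (hVM : IsVinf P E M VM) (hV : IsVinf P E (M * q) V) (hW : IsFricke E (M * q) W)
    (yM : _root_.Fermat.Agent.A2.Mod.FE E M) (y : _root_.Fermat.Agent.A2.Mod.FE E (M * q)) (hy : IsCoordPair E M q yM y)
    (hgood : GoodRedAt P E M w VM yM) :
    Nonempty (SSChart w (chartAlg P E (M * q) y)) := by
  have hy' : IsCoord E M q y := by
    rcases hy with ⟨-, h⟩ | ⟨-, h⟩
    · exact Or.inl h
    · exact Or.inr h
  obtain ⟨p₁, p₂, hc₁, hc₂, hp₁, hp₂, h₁₂, h₂₁, hinf⟩ := hS1 hS V W hV hW y hy'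
  obtain ⟨hn₁, hn₂⟩ := hS2 hS VM V W hVM hV hW yM y hy hgood p₁ p₂ hc₁ hc₂
  have hrad := hS3 hS VM V W hVM hV hW yM y hy hgood p₁ p₂ hc₁ hc₂
  exact ⟨{ p₁ := p₁
           p₂ := p₂
           prime₁ := hp₁
           prime₂ := hp₂
           ne := fun h => h₁₂ (h ▸ le_refl p₁)
           not_le₁₂ := h₁₂
           not_le₂₁ := h₂₁
           inf_eq := hinf
           normal₁ := hn₁
           normal₂ := hn₂
           transversal := hrad }⟩

theorem dedekindPsi_pos_of_ne_zero (n : ℕ) (hn : n ≠ 0) : 0 < dedekindPsi n := by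
  unfold dedekindPsi
  have h1 : (1 : ℕ) ∈ n.divisors.filter (fun d => Squarefree d) := by
    simp [hn]
  calc 0 < n / 1 := by simpa using Nat.pos_of_ne_zero hn
    _ ≤ _ := Finset.single_le_sum (f := fun d => n / d) (fun _ _ => Nat.zero_le _) h1

/-- **MODASM, top assembly** (level `M * q`): the leaves L1, L4, L8, the sub-assemblies S1–S4,
Sτ and the level-`M` hypothesis `GoodRedHyp` give the semistable model `ModSSData`. -/
theorem modSSData_of_parts (hq : q.Prime) (hqM : ¬ q ∣ M) (hP : P.LiesOverPrime q)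
    (hdvr : IsDiscreteValuationRing (_root_.Fermat.Agent.A2.Mod.RE P E))
    (hVM : ∃ VM : ValuationSubring (_root_.Fermat.Agent.A2.Mod.FE E M), IsVinf P E M VM)
    (hV : ∃ V : ValuationSubring (_root_.Fermat.Agent.A2.Mod.FE E (M * q)), IsVinf P E (M * q) V)
    (hW : ∃ W : _root_.Fermat.Agent.A2.Mod.FE E (M * q) ≃ₐ[E] _root_.Fermat.Agent.A2.Mod.FE E (M * q), IsFricke E (M * q) W)
    (hDeg : DegStatement E M q)
    (hS1 : ∀ w, S1Statement P E M q w) (hS2 : ∀ w, S2Statement P E M q w)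
    (hS3 : ∀ w, S3Statement P E M q w) (hS4 : ∀ w, S4Statement P E M q w)
    (hSτ : ∀ w, StauStatement P E M q w)
    (hgood : GoodRedHyp P E M) :
    Nonempty (ModSSData P E (M * q)) := by
  obtain ⟨VM, hVM⟩ := hVM
  obtain ⟨V, hV⟩ := hV
  obtain ⟨W, hW⟩ := hW
  obtain ⟨hx, hfr, hconst⟩ := hDeg hq hqM
  have hS : ∀ w : _root_.Fermat.Agent.A2.Mod.RE P E, Irreducible w → Setting P E M q w := fun w hw =>
    { q_prime := hq
      q_not_dvd := hqM
      M_ne_zero := NeZero.ne M
      lies_over := hP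
      dvr := hdvr
      unif := hw }
  obtain ⟨w₀, hw₀⟩ := IsDiscreteValuationRing.exists_irreducible (_root_.Fermat.Agent.A2.Mod.RE P E)
  have hpos : 0 < Module.finrank (IntermediateField.adjoin E ({xE E M q} : Set (_root_.Fermat.Agent.A2.Mod.FE E (M * q))))
      (_root_.Fermat.Agent.A2.Mod.FE E (M * q)) := by
    rw [hfr]
    have h1 := dedekindPsi_pos_of_ne_zero M (NeZero.ne M)
    positivity
  have hfin : FiniteDimensional (IntermediateField.adjoin E ({xE E M q} : Set (_root_.Fermat.Agent.A2.Mod.FE E (M * q))))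
      (_root_.Fermat.Agent.A2.Mod.FE E (M * q)) := Module.finite_of_finrank_pos hpos
  have hg₀ := hgood w₀ VM hw₀ hVM
  have hsep := hS4 w₀ (hS w₀ hw₀) VM hVM hg₀.1 hg₀.2
  exact ⟨{ x := xE E M q
           hx := hx
           hfin := hfin
           hconst := hconst
           Bf := chartAlg P E (M * q) (xE E M q)
           Bi := chartAlg P E (M * q) (xE E M q)⁻¹
           hBf := fun _ => Iff.rfl
           hBi := fun _ => Iff.rfl
           cf := fun w hw => nonempty_ssChart P E M q w (hS w hw) (hS1 w) (hS2 w) (hS3 w)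
             VM V W hVM hV hW _ _ (Or.inl ⟨rfl, rfl⟩) (hgood w VM hw hVM).1
           ci := fun w hw => nonempty_ssChart P E M q w (hS w hw) (hS1 w) (hS2 w) (hS3 w)
             VM V W hVM hV hW _ _ (Or.inr ⟨rfl, rfl⟩) (hgood w VM hw hVM).2
           sf := hsep.1
           si := hsep.2
           hτx := fun hE τ hτ => ((hSτ w₀) (hS w₀ hw₀) τ (hE.res τ hτ) hτ (fun _ => rfl)).1
           hτf := fun hE τ hτ w hw b hb =>
             ((hSτ w) (hS w hw) τ (hE.res τ hτ) hτ (fun _ => rfl)).2 _ (Or.inl rfl) b hb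
           hτi := fun hE τ hτ w hw b hb =>
             ((hSτ w) (hS w hw) τ (hE.res τ hτ) hτ (fun _ => rfl)).2 _ (Or.inr rfl) b hb }⟩

/-- **MODASM, top assembly without `SepCoord`** (route S; shape of the hypothesis `hMOD` of
`T1.H849.kummerTarget_of_parts_of` with `SS := SSChart`, `Sep := True`). -/
theorem exists_model_of_parts (hq : q.Prime) (hqM : ¬ q ∣ M) (hP : P.LiesOverPrime q)
    (hdvr : IsDiscreteValuationRing (_root_.Fermat.Agent.A2.Mod.RE P E))
    (hVM : ∃ VM : ValuationSubring (_root_.Fermat.Agent.A2.Mod.FE E M), IsVinf P E M VM)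
    (hV : ∃ V : ValuationSubring (_root_.Fermat.Agent.A2.Mod.FE E (M * q)), IsVinf P E (M * q) V)
    (hW : ∃ W : _root_.Fermat.Agent.A2.Mod.FE E (M * q) ≃ₐ[E] _root_.Fermat.Agent.A2.Mod.FE E (M * q), IsFricke E (M * q) W)
    (hDeg : DegStatement E M q)
    (hS1 : ∀ w, S1Statement P E M q w) (hS2 : ∀ w, S2Statement P E M q w)
    (hS3 : ∀ w, S3Statement P E M q w) (hSτ : ∀ w, StauStatement P E M q w)
    (hgood : GoodRedHyp P E M) :
    ∃ (x : _root_.Fermat.Agent.A2.Mod.FE E (M * q)) (Bf Bi : Subalgebra (_root_.Fermat.Agent.A2.Mod.RE P E) (_root_.Fermat.Agent.A2.Mod.FE E (M * q))),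
      Transcendental E x ∧
      FiniteDimensional (IntermediateField.adjoin E ({x} : Set (_root_.Fermat.Agent.A2.Mod.FE E (M * q)))) (_root_.Fermat.Agent.A2.Mod.FE E (M * q)) ∧
      (∀ f : _root_.Fermat.Agent.A2.Mod.FE E (M * q), IsAlgebraic E f → f ∈ (algebraMap E (_root_.Fermat.Agent.A2.Mod.FE E (M * q))).range) ∧
      (∀ f : _root_.Fermat.Agent.A2.Mod.FE E (M * q), f ∈ Bf ↔
        IsIntegral (Algebra.adjoin (_root_.Fermat.Agent.A2.Mod.RE P E) ({x} : Set (_root_.Fermat.Agent.A2.Mod.FE E (M * q)))) f) ∧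
      (∀ f : _root_.Fermat.Agent.A2.Mod.FE E (M * q), f ∈ Bi ↔
        IsIntegral (Algebra.adjoin (_root_.Fermat.Agent.A2.Mod.RE P E) ({x⁻¹} : Set (_root_.Fermat.Agent.A2.Mod.FE E (M * q)))) f) ∧
      (∀ w : _root_.Fermat.Agent.A2.Mod.RE P E, Irreducible w → Nonempty (SSChart w Bf)) ∧
      (∀ w : _root_.Fermat.Agent.A2.Mod.RE P E, Irreducible w → Nonempty (SSChart w Bi)) ∧
      (∀ τ ∈ P.inertiaSubgroupIn ℚ, ∀ τE : E ≃ₐ[ℚ] E,
        (∀ e : E, ((τE e : E) : _root_.Fermat.Agent.A2.Mod.Qb) = τ (e : _root_.Fermat.Agent.A2.Mod.Qb)) →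
        arithmeticRingAut (modularFunctionFieldFull (M * q)) τE x = x) ∧
      (∀ τ ∈ P.inertiaSubgroupIn ℚ, ∀ τE : E ≃ₐ[ℚ] E,
        (∀ e : E, ((τE e : E) : _root_.Fermat.Agent.A2.Mod.Qb) = τ (e : _root_.Fermat.Agent.A2.Mod.Qb)) →
        ∀ w : _root_.Fermat.Agent.A2.Mod.RE P E, Irreducible w → ∀ b ∈ Bf, ∃ c ∈ Bf,
          arithmeticRingAut (modularFunctionFieldFull (M * q)) τE b - b =
            algebraMap (_root_.Fermat.Agent.A2.Mod.RE P E) (_root_.Fermat.Agent.A2.Mod.FE E (M * q)) w * c) ∧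
      (∀ τ ∈ P.inertiaSubgroupIn ℚ, ∀ τE : E ≃ₐ[ℚ] E,
        (∀ e : E, ((τE e : E) : _root_.Fermat.Agent.A2.Mod.Qb) = τ (e : _root_.Fermat.Agent.A2.Mod.Qb)) →
        ∀ w : _root_.Fermat.Agent.A2.Mod.RE P E, Irreducible w → ∀ b ∈ Bi, ∃ c ∈ Bi,
          arithmeticRingAut (modularFunctionFieldFull (M * q)) τE b - b =
            algebraMap (_root_.Fermat.Agent.A2.Mod.RE P E) (_root_.Fermat.Agent.A2.Mod.FE E (M * q)) w * c) := by
  obtain ⟨VM, hVM⟩ := hVM
  obtain ⟨V, hV⟩ := hV
  obtain ⟨W, hW⟩ := hW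
  obtain ⟨hx, hfr, hconst⟩ := hDeg hq hqM
  have hS : ∀ w : _root_.Fermat.Agent.A2.Mod.RE P E, Irreducible w → Setting P E M q w := fun w hw =>
    { q_prime := hq
      q_not_dvd := hqM
      M_ne_zero := NeZero.ne M
      lies_over := hP
      dvr := hdvr
      unif := hw }
  obtain ⟨w₀, hw₀⟩ := IsDiscreteValuationRing.exists_irreducible (_root_.Fermat.Agent.A2.Mod.RE P E)
  have hpos : 0 < Module.finrank (IntermediateField.adjoin E ({xE E M q} : Set (_root_.Fermat.Agent.A2.Mod.FE E (M * q))))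
      (_root_.Fermat.Agent.A2.Mod.FE E (M * q)) := by
    rw [hfr]
    have h1 := dedekindPsi_pos_of_ne_zero M (NeZero.ne M)
    positivity
  have hfin : FiniteDimensional (IntermediateField.adjoin E ({xE E M q} : Set (_root_.Fermat.Agent.A2.Mod.FE E (M * q))))
      (_root_.Fermat.Agent.A2.Mod.FE E (M * q)) := Module.finite_of_finrank_pos hpos
  refine ⟨xE E M q, chartAlg P E (M * q) (xE E M q), chartAlg P E (M * q) (xE E M q)⁻¹,
    hx, hfin, hconst, fun _ => Iff.rfl, fun _ => Iff.rfl, ?_, ?_, ?_, ?_, ?_⟩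
  · exact fun w hw => nonempty_ssChart P E M q w (hS w hw) (hS1 w) (hS2 w) (hS3 w)
      VM V W hVM hV hW _ _ (Or.inl ⟨rfl, rfl⟩) (hgood w VM hw hVM).1
  · exact fun w hw => nonempty_ssChart P E M q w (hS w hw) (hS1 w) (hS2 w) (hS3 w)
      VM V W hVM hV hW _ _ (Or.inr ⟨rfl, rfl⟩) (hgood w VM hw hVM).2
  · exact fun τ hτ τE hτE => ((hSτ w₀) (hS w₀ hw₀) τ τE hτ hτE).1
  · exact fun τ hτ τE hτE w hw b hb =>
      ((hSτ w) (hS w hw) τ τE hτ hτE).2 _ (Or.inl rfl) b hb
  · exact fun τ hτ τE hτE w hw b hb =>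
      ((hSτ w) (hS w hw) τ τE hτ hτE).2 _ (Or.inr rfl) b hb

end Top

end Fermat.Agent.A2.Mod

end
end
-- ===== PACK-END A2/Mod/Asm.lean

-- ===== PACK-BEGIN S28/H88/Kronecker.lean
section
/-
S28-derived shared brick -- helper88: Frobenius on Laurent series in characteristic `p`
(`f ^ p = V_p (f^{(p)})`) and the Kronecker congruence for the modular polynomial:
`Φ_p(X, Y) ≡ (X^p - Y)(X - Y^p) mod p`, derived formally from `ModPolyData p`.
-/


set_option autoImplicit false

noncomputable section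

open ModularCurve HahnSeries

namespace Fermat.Agent.S28

section Frobenius

variable (k : Type*) [Field k] (p : ℕ) [hp : Fact p.Prime] [CharP k p] [NeZero p]

omit hp [NeZero p] in
theorem h88_charP_laurent : CharP (LaurentSeries k) p :=
  charP_of_injective_ringHom (f := (HahnSeries.C : k →+* LaurentSeries k))
    HahnSeries.C_injective p

omit hp [CharP k p] in
/-- If all coefficients of `x` below `N` vanish, all coefficients of `x ^ p` below `p * N`
vanish. -/
theorem h88_coeff_pow_eq_zero {x : LaurentSeries k} {N : ℤ} (hx : ∀ i < N, x.coeff i = 0)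
    {n : ℤ} (hn : n < (p : ℤ) * N) : (x ^ p).coeff n = 0 := by
  by_cases hx0 : x = 0
  · rw [hx0, zero_pow (NeZero.ne p), HahnSeries.coeff_zero]
  · apply HahnSeries.coeff_eq_zero_of_lt_order
    rw [HahnSeries.order_pow, nsmul_eq_mul]
    have h1 : N ≤ x.order := by
      by_contra hlt
      rw [not_le] at hlt
      exact (HahnSeries.coeff_order_eq_zero.not.mpr hx0) (hx _ hlt)
    have hp0 : (0 : ℤ) ≤ (p : ℤ) := by positivity
    have h2 : (p : ℤ) * N ≤ (p : ℤ) * x.order := mul_le_mul_of_nonneg_left h1 hp0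
    exact lt_of_lt_of_le hn h2

/-- **Frobenius on Laurent series** in characteristic `p`: `f ^ p = V_p (f^{(p)})`, where
`f^{(p)}` raises every coefficient to the `p`-th power. -/
theorem h88_pow_char_eq_qExpand (f : LaurentSeries k) :
    f ^ p = qExpand k p (coeffMap (frobenius k p) f) := by
  have : CharP (LaurentSeries k) p := h88_charP_laurent k p
  have hp1 : (1 : ℤ) ≤ p := by exact_mod_cast Nat.pos_of_ne_zero (NeZero.ne p)
  ext n
  -- cut `f` at `N`
  obtain ⟨N, hN⟩ : ∃ N : ℤ, n < (p : ℤ) * N := by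
    refine ⟨|n| + 1, ?_⟩
    have h1 : n ≤ |n| := le_abs_self n
    have h2 : (0 : ℤ) ≤ |n| := abs_nonneg n
    nlinarith
  set A : LaurentSeries k :=
    ∑ i ∈ Finset.Ico f.order N, HahnSeries.single i (f.coeff i) with hA
  have hAcoeff : ∀ i, A.coeff i = if i ∈ Finset.Ico f.order N then f.coeff i else 0 := by
    intro i
    rw [hA, HahnSeries.coeff_sum]
    by_cases hi : i ∈ Finset.Ico f.order N
    · rw [if_pos hi, Finset.sum_eq_single_of_mem i hi, HahnSeries.coeff_single_same]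
      intro i' _ hne
      exact HahnSeries.coeff_single_of_ne (Ne.symm hne)
    · rw [if_neg hi]
      apply Finset.sum_eq_zero
      intro i' hi'
      apply HahnSeries.coeff_single_of_ne
      rintro rfl
      exact hi hi'
  have hB : ∀ i < N, (f - A).coeff i = 0 := by
    intro i hi
    rw [HahnSeries.coeff_sub, hAcoeff]
    by_cases hio : f.order ≤ i
    · rw [if_pos (Finset.mem_Ico.mpr ⟨hio, hi⟩), sub_self]
    · rw [if_neg (fun h => hio (Finset.mem_Ico.mp h).1), sub_zero]
      exact HahnSeries.coeff_eq_zero_of_lt_order (not_le.mp hio)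
  have hsplit : f ^ p = A ^ p + (f - A) ^ p := by
    rw [← add_pow_char, add_sub_cancel]
  have hApow : A ^ p = ∑ i ∈ Finset.Ico f.order N,
      HahnSeries.single ((p : ℤ) * i) (f.coeff i ^ p) := by
    rw [hA, sum_pow_char]
    refine Finset.sum_congr rfl fun i _ => ?_
    rw [HahnSeries.single_pow, nsmul_eq_mul]
  rw [hsplit, HahnSeries.coeff_add, h88_coeff_pow_eq_zero k p hB hN, add_zero, hApow,
    HahnSeries.coeff_sum]
  by_cases hdvd : (p : ℤ) ∣ n
  · obtain ⟨i₀, rfl⟩ := hdvd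
    rw [qExpand_coeff_mul, coeffMap_coeff, frobenius_def]
    have hi₀N : i₀ < N := by
      by_contra hge
      rw [not_lt] at hge
      have : (p : ℤ) * N ≤ (p : ℤ) * i₀ := mul_le_mul_of_nonneg_left hge (by positivity)
      omega
    have hpne : (p : ℤ) ≠ 0 := by exact_mod_cast NeZero.ne p
    by_cases hio : f.order ≤ i₀
    · rw [Finset.sum_eq_single_of_mem i₀ (Finset.mem_Ico.mpr ⟨hio, hi₀N⟩),
        HahnSeries.coeff_single_same]
      intro i' _ hne
      apply HahnSeries.coeff_single_of_ne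
      intro h
      exact hne (mul_left_cancel₀ hpne h).symm
    · rw [HahnSeries.coeff_eq_zero_of_lt_order (not_le.mp hio), zero_pow (NeZero.ne p)]
      apply Finset.sum_eq_zero
      intro i' hi'
      apply HahnSeries.coeff_single_of_ne
      intro h
      have h1 : i₀ = i' := mul_left_cancel₀ hpne h
      exact hio (h1 ▸ (Finset.mem_Ico.mp hi').1)
  · rw [qExpand_coeff_of_not_dvd p _ hdvd]
    apply Finset.sum_eq_zero
    intro i' _
    apply HahnSeries.coeff_single_of_ne
    rintro rfl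
    exact hdvd ⟨i', rfl⟩

end Frobenius

section FrobeniusZMod

variable (p : ℕ) [hp : Fact p.Prime] [NeZero p]

/-- Over `𝔽_p`: `V_p f = f ^ p`. -/
theorem h88_qExpand_zmod (f : LaurentSeries (ZMod p)) :
    qExpand (ZMod p) p f = f ^ p := by
  rw [h88_pow_char_eq_qExpand (ZMod p) p f]
  congr 1
  ext n
  rw [coeffMap_coeff, frobenius_def, ZMod.pow_card]

end FrobeniusZMod

section Kronecker

open Polynomial

variable (p : ℕ) [hp : Fact p.Prime] [NeZero p]

/-- The modular polynomial reduced mod `p`, in `𝔽_p[Y][X]`. -/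
def h88_PhiBar (Φ : ModPolyData p) : Polynomial (Polynomial (ZMod p)) :=
  Φ.Φ.map (Polynomial.mapRingHom (Int.castRingHom (ZMod p)))

theorem h88_PhiBar_monic (Φ : ModPolyData p) : (h88_PhiBar p Φ).Monic := Φ.monic.map _

theorem h88_PhiBar_natDegree (Φ : ModPolyData p) : (h88_PhiBar p Φ).natDegree = p + 1 := by
  rw [h88_PhiBar, Φ.monic.natDegree_map, Φ.natDegree_eq]

theorem h88_aeval_comp_mapRingHom (k : Type*) [Field k] (y : LaurentSeries k) :
    ((Polynomial.aeval (R := k) y).toRingHom).comp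
        (Polynomial.mapRingHom (Int.castRingHom k)) = evalAt y := by
  apply Polynomial.ringHom_ext
  · intro a
    simp [evalAt]
  · simp [evalAt]

/-- `Ψ(j^p, j) = 0` where `Ψ = Φ mod p`. -/
theorem h88_PhiBar_eval_jp (Φ : ModPolyData p) :
    (h88_PhiBar p Φ).eval₂ (Polynomial.aeval (R := ZMod p) (jqModC (ZMod p))).toRingHom
      ((jqModC (ZMod p)) ^ p) = 0 := by
  rw [h88_PhiBar, Polynomial.eval₂_map, h88_aeval_comp_mapRingHom, ← h88_qExpand_zmod]
  exact h88_modPoly_eval_jp (ZMod p) p Φ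

/-- `Ψ(j, j^p) = 0` where `Ψ = Φ mod p`. -/
theorem h88_PhiBar_eval_j (Φ : ModPolyData p) :
    (h88_PhiBar p Φ).eval₂ (Polynomial.aeval (R := ZMod p) ((jqModC (ZMod p)) ^ p)).toRingHom
      (jqModC (ZMod p)) = 0 := by
  rw [h88_PhiBar, Polynomial.eval₂_map, h88_aeval_comp_mapRingHom, ← h88_qExpand_zmod]
  exact h88_modPoly_eval_j (ZMod p) p Φ

/-- `Ψ(Y^p, Y) = 0` as a polynomial identity. -/
theorem h88_PhiBar_eval_X_pow (Φ : ModPolyData p) :
    (h88_PhiBar p Φ).eval ((Polynomial.X : Polynomial (ZMod p)) ^ p) = 0 := by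
  apply h88_aeval_jqModC_injective (ZMod p)
  rw [map_zero]
  have h := Polynomial.hom_eval₂ (h88_PhiBar p Φ) (RingHom.id (Polynomial (ZMod p)))
    (Polynomial.aeval (R := ZMod p) (jqModC (ZMod p))).toRingHom
    ((Polynomial.X : Polynomial (ZMod p)) ^ p)
  rw [Polynomial.eval₂_id, RingHom.comp_id] at h
  have h2 : (Polynomial.aeval (R := ZMod p) (jqModC (ZMod p))).toRingHom
      ((Polynomial.X : Polynomial (ZMod p)) ^ p) = (jqModC (ZMod p)) ^ p := by
    simp
  rw [h2, h88_PhiBar_eval_jp] at h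
  exact h

theorem h88_aeval_pow_eq_qExpand (c : Polynomial (ZMod p)) :
    Polynomial.aeval ((jqModC (ZMod p)) ^ p) c
      = qExpand (ZMod p) p (Polynomial.aeval (jqModC (ZMod p)) c) := by
  rw [← h88_qExpand_zmod]
  exact Polynomial.aeval_algHom_apply (qExpandAlgHomC (ZMod p) p) (jqModC (ZMod p)) c

/-- A polynomial `R ∈ 𝔽_p[Y][X]` of `X`-degree `< p` with `R(j, j^p) = 0` vanishes. -/
theorem h88_eq_zero_of_eval_j_pow (R : Polynomial (Polynomial (ZMod p)))
    (hdeg : R.natDegree < p)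
    (h : R.eval₂ (Polynomial.aeval (R := ZMod p) ((jqModC (ZMod p)) ^ p)).toRingHom
      (jqModC (ZMod p)) = 0) : R = 0 := by
  rw [Polynomial.eval₂_eq_sum_range' _ hdeg] at h
  have h' : ∑ i ∈ Finset.range p,
      qExpand (ZMod p) p (Polynomial.aeval (jqModC (ZMod p)) (R.coeff i))
        * (jqModC (ZMod p)) ^ i = 0 := by
    rw [← h]
    refine Finset.sum_congr rfl fun i _ => ?_
    rw [← h88_aeval_pow_eq_qExpand]
    rfl
  have h0 := h88_linIndep_core (ZMod p) p
    (fun i => Polynomial.aeval (jqModC (ZMod p)) (R.coeff i)) h'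
  refine Polynomial.ext fun i => ?_
  rw [Polynomial.coeff_zero]
  by_cases hi : i < p
  · apply h88_aeval_jqModC_injective (ZMod p)
    rw [map_zero]
    exact h0 i (Finset.mem_range.mpr hi)
  · exact Polynomial.coeff_eq_zero_of_natDegree_lt (by omega)

/-- **Kronecker congruence**: `Φ_p(X, Y) ≡ (X^p - Y)(X - Y^p) mod p`. -/
theorem h88_kronecker (Φ : ModPolyData p) :
    h88_PhiBar p Φ =
      ((Polynomial.X : Polynomial (Polynomial (ZMod p))) ^ p
          - Polynomial.C (Polynomial.X : Polynomial (ZMod p)))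
        * (Polynomial.X - Polynomial.C ((Polynomial.X : Polynomial (ZMod p)) ^ p)) := by
  have hp0 : p ≠ 0 := NeZero.ne p
  have hp2 : 2 ≤ p := hp.out.two_le
  obtain ⟨D, hD⟩ : ∃ D : Polynomial (Polynomial (ZMod p)),
      D = (Polynomial.X : Polynomial (Polynomial (ZMod p))) ^ p
        - Polynomial.C (Polynomial.X : Polynomial (ZMod p)) := ⟨_, rfl⟩
  rw [← hD]
  have hDmonic : D.Monic := by rw [hD]; exact Polynomial.monic_X_pow_sub_C _ hp0
  have hDdeg : D.natDegree = p := by rw [hD]; exact Polynomial.natDegree_X_pow_sub_C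
  have hD1 : D ≠ 1 := by
    intro h1
    have := congrArg Polynomial.natDegree h1
    rw [hDdeg, Polynomial.natDegree_one] at this
    exact hp0 this
  have hdiv := Polynomial.modByMonic_add_div (h88_PhiBar p Φ) D
  -- the remainder vanishes
  have hRdeg : (h88_PhiBar p Φ %ₘ D).natDegree < p := by
    have := Polynomial.natDegree_modByMonic_lt (h88_PhiBar p Φ) hDmonic hD1
    rwa [hDdeg] at this
  have hevD : D.eval₂ (Polynomial.aeval (R := ZMod p) ((jqModC (ZMod p)) ^ p)).toRingHom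
      (jqModC (ZMod p)) = 0 := by
    rw [hD, Polynomial.eval₂_sub, Polynomial.eval₂_pow, Polynomial.eval₂_X, Polynomial.eval₂_C]
    simp
  have hevR : (h88_PhiBar p Φ %ₘ D).eval₂
      (Polynomial.aeval (R := ZMod p) ((jqModC (ZMod p)) ^ p)).toRingHom
      (jqModC (ZMod p)) = 0 := by
    have h := h88_PhiBar_eval_j p Φ
    rw [← hdiv, Polynomial.eval₂_add, Polynomial.eval₂_mul, hevD, zero_mul, add_zero] at h
    exact h
  have hR0 : h88_PhiBar p Φ %ₘ D = 0 := h88_eq_zero_of_eval_j_pow p _ hRdeg hevR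
  rw [hR0, zero_add] at hdiv
  -- the quotient is monic of degree one
  have hmon : (D * (h88_PhiBar p Φ /ₘ D)).Monic := by
    rw [hdiv]; exact h88_PhiBar_monic p Φ
  have hQmonic : (h88_PhiBar p Φ /ₘ D).Monic := hDmonic.of_mul_monic_left hmon
  have hQdeg : (h88_PhiBar p Φ /ₘ D).natDegree = 1 := by
    have h := congrArg Polynomial.natDegree hdiv
    rw [hDmonic.natDegree_mul hQmonic, hDdeg, h88_PhiBar_natDegree] at h
    omega
  have hQ := hQmonic.eq_X_add_C hQdeg
  -- evaluate at `X = Y ^ p`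
  have hev := h88_PhiBar_eval_X_pow p Φ
  have hDev : D.eval ((Polynomial.X : Polynomial (ZMod p)) ^ p)
      = ((Polynomial.X : Polynomial (ZMod p)) ^ p) ^ p - Polynomial.X := by
    rw [hD, Polynomial.eval_sub, Polynomial.eval_pow, Polynomial.eval_X, Polynomial.eval_C]
  have hQev : (h88_PhiBar p Φ /ₘ D).eval ((Polynomial.X : Polynomial (ZMod p)) ^ p)
      = (Polynomial.X : Polynomial (ZMod p)) ^ p + (h88_PhiBar p Φ /ₘ D).coeff 0 := by
    conv_lhs => rw [hQ, Polynomial.eval_add, Polynomial.eval_X, Polynomial.eval_C]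
  rw [← hdiv, Polynomial.eval_mul, hDev, hQev] at hev
  have hne : ((Polynomial.X : Polynomial (ZMod p)) ^ p) ^ p - Polynomial.X ≠ 0 := by
    intro h0
    have h1 := congrArg (fun q => Polynomial.coeff q 1) h0
    simp only [Polynomial.coeff_sub, Polynomial.coeff_X_one, Polynomial.coeff_zero] at h1
    rw [← pow_mul, Polynomial.coeff_X_pow, if_neg (by nlinarith), zero_sub] at h1
    exact one_ne_zero (neg_eq_zero.mp h1)
  have hc : (h88_PhiBar p Φ /ₘ D).coeff 0 = -((Polynomial.X : Polynomial (ZMod p)) ^ p) := by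
    rcases mul_eq_zero.mp hev with h | h
    · exact absurd h hne
    · exact eq_neg_of_add_eq_zero_right h
  rw [← hdiv]
  conv_lhs => rw [hQ, hc, Polynomial.C_neg, ← sub_eq_add_neg]

/-- Kronecker congruence over any commutative ring `k` of characteristic `p`. -/
theorem h88_kronecker_charP (k : Type*) [CommRing k] [CharP k p] (Φ : ModPolyData p) :
    Φ.Φ.map (Polynomial.mapRingHom (Int.castRingHom k)) =
      ((Polynomial.X : Polynomial (Polynomial k)) ^ p
          - Polynomial.C (Polynomial.X : Polynomial k))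
        * (Polynomial.X - Polynomial.C ((Polynomial.X : Polynomial k) ^ p)) := by
  have h := congrArg (Polynomial.map (Polynomial.mapRingHom (ZMod.castHom (dvd_refl p) k)))
    (h88_kronecker p Φ)
  rw [h88_PhiBar, Polynomial.map_map] at h
  have hcomp : (Polynomial.mapRingHom (ZMod.castHom (dvd_refl p) k)).comp
      (Polynomial.mapRingHom (Int.castRingHom (ZMod p)))
      = Polynomial.mapRingHom (Int.castRingHom k) := by
    apply Polynomial.ringHom_ext
    · intro a
      simp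
    · simp
  rw [hcomp] at h
  rw [h]
  simp

/-- Kronecker congruence over `ℤ`: `Φ_p = (X^p - Y)(X - Y^p) + p · Θ`. -/
theorem h88_kronecker_int (Φ : ModPolyData p) :
    ∃ Θ : Polynomial (Polynomial ℤ), Φ.Φ =
      ((Polynomial.X : Polynomial (Polynomial ℤ)) ^ p
          - Polynomial.C (Polynomial.X : Polynomial ℤ))
        * (Polynomial.X - Polynomial.C ((Polynomial.X : Polynomial ℤ) ^ p))
        + Polynomial.C (Polynomial.C (p : ℤ)) * Θ := by
  set G : Polynomial (Polynomial ℤ) := Φ.Φ -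
      ((Polynomial.X : Polynomial (Polynomial ℤ)) ^ p
          - Polynomial.C (Polynomial.X : Polynomial ℤ))
        * (Polynomial.X - Polynomial.C ((Polynomial.X : Polynomial ℤ) ^ p)) with hG
  have hG0 : G.map (Polynomial.mapRingHom (Int.castRingHom (ZMod p))) = 0 := by
    rw [hG, Polynomial.map_sub]
    have h := h88_kronecker p Φ
    rw [h88_PhiBar] at h
    rw [h]
    simp
  have hdvd : ∀ i j, (p : ℤ) ∣ (G.coeff i).coeff j := by
    intro i j
    have h1 := congrArg (fun q => (Polynomial.coeff q i).coeff j) hG0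
    simp only [Polynomial.coeff_map, Polynomial.coe_mapRingHom, Polynomial.coeff_zero] at h1
    exact (ZMod.intCast_zmod_eq_zero_iff_dvd _ p).mp h1
  have hdvd2 : Polynomial.C (Polynomial.C (p : ℤ)) ∣ G := by
    rw [Polynomial.C_dvd_iff_dvd_coeff]
    intro i
    rw [Polynomial.C_dvd_iff_dvd_coeff]
    intro j
    exact hdvd i j
  obtain ⟨Θ, hΘ⟩ := hdvd2
  exact ⟨Θ, by rw [← hΘ, hG]; ring⟩

end Kronecker

end Fermat.Agent.S28

end

end
-- ===== PACK-END S28/H88/Kronecker.lean

-- ===== PACK-BEGIN A2/Mod/H96/L12Lift.lean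
section



/-!
# A2 / MOD leaf L12 (helper96), part 1: two closure lemmas on `F_k = k(j(t^d) : d ∣ N)`

`A` a valuation subring of a field `L ⊇ ℚ`, `κ` its residue field.

* `exists_lift_of_mem_fullC` : every element of `F_κ ⊆ κ((t))` is a quotient `Ū₁ / Ū₂` of
  reductions of `A`-integral series lying in `F_L = L(j(t^d) : d ∣ N)`, `Ū₂ ≠ 0`
  (the residue map of the Gauss valuation ring is onto `F_κ`);
* `exists_frob_root_of_mem_fullC` : if `k` has characteristic `q` and surjective Frobenius, then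
  every `r ∈ F_k` has a "Frobenius twist" `r' ∈ F_k` with `r' ^ q = r(t^q)`.
-/

set_option autoImplicit false
set_option linter.unusedSectionVars false
set_option linter.style.haveILetI false

noncomputable section

namespace Fermat.Agent.A2.Mod.H96

open ModularCurve HahnSeries

section Lift

variable {L : Type*} [Field L] [Algebra ℚ L] (A : ValuationSubring L)
variable (N : ℕ) [NeZero N]

theorem incl_castA_jqNModC_mem (d : ℕ) [NeZero d] (hd : d ∣ N) :
    H708.incl A (coeffMap (Int.castRingHom A) (jqNModC ℤ d)) ∈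
      laurentBaseChange L (modularFunctionFieldFull N) := by
  rw [H708.incl_castA]
  have h1 : H708.castQ (jqNModC ℤ d) = qExpand ℚ d jq := by
    show coeffMap (Int.castRingHom ℚ) (jqNModC ℤ d) = _
    rw [coeffMap_jqNModC]
    rfl
  rw [h1]
  exact coeffEmb_mem_laurentBaseChange L (jqd_mem_full N hd)

theorem red_castA_jqNModC (d : ℕ) [NeZero d] :
    H708.red A (coeffMap (Int.castRingHom A) (jqNModC ℤ d)) =
      qExpand (IsLocalRing.ResidueField A) d (jqModC (IsLocalRing.ResidueField A)) := by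
  show coeffMap (IsLocalRing.residue A) (coeffMap (Int.castRingHom A) (jqNModC ℤ d)) = _
  rw [coeffMap_coeffMap, coeffMap_jqNModC]
  rfl

/-- **Lifting.** Every element of `F_κ` is a quotient of reductions of integral series of `F_L`. -/
theorem exists_lift_of_mem_fullC {r : LaurentSeries (IsLocalRing.ResidueField A)}
    (hr : r ∈ modularFunctionFieldFullC (IsLocalRing.ResidueField A) N) :
    ∃ U₁ U₂ : LaurentSeries A,
      H708.incl A U₁ ∈ laurentBaseChange L (modularFunctionFieldFull N) ∧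
      H708.incl A U₂ ∈ laurentBaseChange L (modularFunctionFieldFull N) ∧
      H708.red A U₂ ≠ 0 ∧ H708.red A U₁ = r * H708.red A U₂ := by
  unfold modularFunctionFieldFullC at hr
  induction hr using IntermediateField.adjoin_induction with
  | mem x hx =>
    obtain ⟨d, hd, hdN, rfl⟩ := hx
    refine ⟨coeffMap (Int.castRingHom A) (jqNModC ℤ d), 1, incl_castA_jqNModC_mem A N d hdN, ?_,
      ?_, ?_⟩
    · rw [map_one]; exact one_mem _
    · rw [map_one]; exact one_ne_zero
    · rw [map_one, mul_one, red_castA_jqNModC]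
  | algebraMap c =>
    obtain ⟨a, rfl⟩ := IsLocalRing.residue_surjective c
    refine ⟨H708.cstA A a, 1, ?_, ?_, ?_, ?_⟩
    · rw [H708.incl_cstA]
      exact (laurentBaseChange L (modularFunctionFieldFull N)).algebraMap_mem _
    · rw [map_one]; exact one_mem _
    · rw [map_one]; exact one_ne_zero
    · rw [map_one, mul_one, H708.red_cstA, algebraMap_laurentSeries_eq_single]
  | add x y hx hy ihx ihy =>
    obtain ⟨U₁, U₂, h1, h2, h0, he⟩ := ihx
    obtain ⟨W₁, W₂, g1, g2, g0, ge⟩ := ihy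
    refine ⟨U₁ * W₂ + W₁ * U₂, U₂ * W₂, ?_, ?_, ?_, ?_⟩
    · rw [map_add, map_mul, map_mul]
      exact add_mem (mul_mem h1 g2) (mul_mem g1 h2)
    · rw [map_mul]; exact mul_mem h2 g2
    · rw [map_mul]; exact mul_ne_zero h0 g0
    · rw [map_add, map_mul, map_mul, map_mul, he, ge]
      ring
  | inv x hx ihx =>
    obtain ⟨U₁, U₂, h1, h2, h0, he⟩ := ihx
    by_cases hx0 : x = 0
    · refine ⟨0, 1, ?_, ?_, ?_, ?_⟩
      · rw [map_zero]; exact zero_mem _
      · rw [map_one]; exact one_mem _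
      · rw [map_one]; exact one_ne_zero
      · rw [hx0, inv_zero, zero_mul, map_zero]
    · refine ⟨U₂, U₁, h2, h1, ?_, ?_⟩
      · rw [he]; exact mul_ne_zero hx0 h0
      · rw [he, ← mul_assoc, inv_mul_cancel₀ hx0, one_mul]
  | mul x y hx hy ihx ihy =>
    obtain ⟨U₁, U₂, h1, h2, h0, he⟩ := ihx
    obtain ⟨W₁, W₂, g1, g2, g0, ge⟩ := ihy
    refine ⟨U₁ * W₁, U₂ * W₂, ?_, ?_, ?_, ?_⟩
    · rw [map_mul]; exact mul_mem h1 g1
    · rw [map_mul]; exact mul_mem h2 g2
    · rw [map_mul]; exact mul_ne_zero h0 g0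
    · rw [map_mul, map_mul, he, ge]
      ring

end Lift

section Frob

variable (k : Type*) [Field k] (q : ℕ) [NeZero q] (N : ℕ) [NeZero N]

/-- `j(t^d)^q = j(t^{dq})` in characteristic `q` (integer coefficients). -/
theorem jqd_pow_char (hq : q.Prime) [CharP k q] (d : ℕ) [NeZero d] :
    (qExpand k d (jqModC k)) ^ q = qExpand k q (qExpand k d (jqModC k)) := by
  haveI : Fact q.Prime := ⟨hq⟩
  obtain ⟨g, hg⟩ := H528.exists_frobCong q (jqNModC ℤ d)
  have h := congrArg (coeffMap (Int.castRingHom k)) hg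
  rw [map_sub, map_mul, map_pow, coeffMap_qExpand, coeffMap_jqNModC] at h
  have hC : coeffMap (Int.castRingHom k) (HahnSeries.C ((q : ℕ) : ℤ)) = 0 := by
    have h1 : (HahnSeries.C ((q : ℕ) : ℤ) : LaurentSeries ℤ) = HahnSeries.single 0 ((q : ℕ) : ℤ) :=
      rfl
    rw [h1, coeffMap_single]
    have h2 : (Int.castRingHom k) ((q : ℕ) : ℤ) = 0 := by
      rw [eq_intCast, Int.cast_natCast]
      exact CharP.cast_eq_zero k q
    rw [h2, HahnSeries.single_eq_zero]
  rw [hC, zero_mul, sub_eq_zero] at h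
  exact h.symm

/-- **Frobenius twist on `F_k`.** -/
theorem exists_frob_root_of_mem_fullC (hq : q.Prime) [CharP k q]
    (hperf : ∀ c : k, ∃ c' : k, c' ^ q = c) {r : LaurentSeries k}
    (hr : r ∈ modularFunctionFieldFullC k N) :
    ∃ r' ∈ modularFunctionFieldFullC k N, r' ^ q = qExpand k q r := by
  haveI : Fact q.Prime := ⟨hq⟩
  haveI : CharP (LaurentSeries k) q :=
    charP_of_injective_algebraMap (algebraMap k (LaurentSeries k)).injective q
  have key : ∀ x ∈ IntermediateField.adjoin k (divisorExpansionsC k N),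
      ∃ r' ∈ modularFunctionFieldFullC k N, r' ^ q = qExpand k q x := by
    intro x hx
    induction hx using IntermediateField.adjoin_induction with
    | mem x hx =>
      obtain ⟨d, hd, hdN, rfl⟩ := hx
      exact ⟨_, jqModCd_mem_full k N hdN, jqd_pow_char k q hq d⟩
    | algebraMap c =>
      obtain ⟨c', rfl⟩ := hperf c
      refine ⟨algebraMap k (LaurentSeries k) c',
        (modularFunctionFieldFullC k N).algebraMap_mem _, ?_⟩
      rw [← map_pow, algebraMap_laurentSeries_eq_single, qExpand_single, mul_zero]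
    | add x y hx hy ihx ihy =>
      obtain ⟨x', hx', hxe⟩ := ihx
      obtain ⟨y', hy', hye⟩ := ihy
      refine ⟨x' + y', add_mem hx' hy', ?_⟩
      rw [add_pow_char, hxe, hye, map_add]
    | inv x hx ihx =>
      obtain ⟨x', hx', hxe⟩ := ihx
      refine ⟨x'⁻¹, inv_mem hx', ?_⟩
      rw [inv_pow, hxe, map_inv₀]
    | mul x y hx hy ihx ihy =>
      obtain ⟨x', hx', hxe⟩ := ihx
      obtain ⟨y', hy', hye⟩ := ihy
      refine ⟨x' * y', mul_mem hx' hy', ?_⟩
      rw [mul_pow, hxe, hye, map_mul]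
  exact key r hr

end Frob

end Fermat.Agent.A2.Mod.H96

end
end
-- ===== PACK-END A2/Mod/H96/L12Lift.lean

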