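import Mathlib
import Fermat.Prelude.Def_AlgebraicCurve_DivisorClassGroup
import Fermat.Agent.Pack.S34.G0E7L0
import Fermat.Agent.Pack.S34.G0E7L3
import Fermat.Agent.Pack.S34.G0E7L2
import Fermat.Agent.Pack.S34.G0E7L1
import Fermat.Agent.Pack.S34.G0E5L1
import Fermat.Agent.Pack.S34.G0E6L3
import Fermat.Agent.Pack.S34.G0E1L0
import Fermat.Agent.Pack.S34.G0E6L2
import Fermat.Agent.Pack.S34.G0E1L1
import Fermat.Agent.Pack.S34.G0E5L2
import Fermat.Agent.Pack.S34.G0E4L2
import Fermat.Agent.Pack.S34.G0E6L1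
import Fermat.Agent.Pack.S34.G0E2L1

-- ===== PACK-BEGIN S22/H262/FG.lean
section


set_option autoImplicit false

/-!
# The period lattice is finitely generated
-/

open Complex Filter Function Metric Set
open UpperHalfPlane hiding I
open scoped Real Topology Manifold ModularForm MatrixGroups

namespace Fermat.Agent.S22.H262

open Matrix.SpecialLinearGroup CuspForm

variable {N : ℕ} [NeZero N] {n : ℕ}

/-- An element of `SL₂(ℤ)` as an element of the submonoid `posInt`. -/
noncomputable def sl (g : SL(2, ℤ)) : posInt := ⟨mapGL ℝ g, mapGL_mem_posInt g⟩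

@[simp] theorem coe_sl (g : SL(2, ℤ)) : ((sl g : posInt) : GL (Fin 2) ℝ) = mapGL ℝ g := rfl

theorem sl_mul (g h : SL(2, ℤ)) : sl (g * h) = sl g * sl h :=
  Subtype.ext (by simp)

theorem sl_one : sl 1 = 1 := Subtype.ext (by simp)

/-- The functional `f ↦ (tower (f|B) r)(i)`. -/
noncomputable def mu (N : ℕ) [NeZero N] (n : ℕ) (B : posInt) (r : ℕ) :
    Module.Dual ℂ (CuspForm (CongruenceSubgroup.Gamma0 N) ((n : ℤ) + 2)) where
  toFun f := tower (⇑f ∣[(n : ℤ) + 2] (B : GL (Fin 2) ℝ)) r UpperHalfPlane.I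
  map_add' f g := by
    rw [FunLike.coe_add, SlashAction.add_slash,
      tower_add (hasTower_slash_posInt f B.2) (hasTower_slash_posInt g B.2)]
    rfl
  map_smul' c f := by
    rw [FunLike.coe_smul, smul_slash_pos _ B.2.2, tower_smul (hasTower_slash_posInt f B.2)]
    rfl

theorem mu_apply (B : posInt) (r : ℕ)
    (f : CuspForm (CongruenceSubgroup.Gamma0 N) ((n : ℤ) + 2)) :
    mu N n B r f = tower (⇑f ∣[(n : ℤ) + 2] (B : GL (Fin 2) ℝ)) r UpperHalfPlane.I := rfl

theorem mu_sl_mul_of_mem {γ : SL(2, ℤ)} (hγ : γ ∈ CongruenceSubgroup.Gamma0 N) (g : SL(2, ℤ))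
    (r : ℕ) : mu N n (sl (γ * g)) r = mu N n (sl g) r := by
  ext f
  rw [mu_apply, mu_apply, coe_sl, coe_sl, map_mul, SlashAction.slash_mul]
  have h2 : ⇑f ∣[(n : ℤ) + 2] (mapGL ℝ γ) = ⇑f :=
    SlashInvariantFormClass.slash_action_eq f _ ⟨γ, hγ, rfl⟩
  rw [h2]

theorem finite_range_mu (r : ℕ) :
    (Set.range fun g : SL(2, ℤ) => mu N n (sl g) r).Finite := by
  let Ψ : SL(2, ℤ) ⧸ CongruenceSubgroup.Gamma0 N →
      Module.Dual ℂ (CuspForm (CongruenceSubgroup.Gamma0 N) ((n : ℤ) + 2)) :=
    fun q => Quotient.liftOn' q (fun g => mu N n (sl g⁻¹) r) (by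
      intro a b hab
      rw [QuotientGroup.leftRel_apply] at hab
      have : a⁻¹ = (a⁻¹ * b) * b⁻¹ := by group
      show mu N n (sl a⁻¹) r = mu N n (sl b⁻¹) r
      rw [this, mu_sl_mul_of_mem hab])
  refine (Set.finite_range Ψ).subset ?_
  rintro _ ⟨g, rfl⟩
  refine ⟨QuotientGroup.mk g⁻¹, ?_⟩
  show mu N n (sl g⁻¹⁻¹) r = _
  rw [inv_inv]

/-- The finite generating set of the container lattice. -/
def muSet (N : ℕ) [NeZero N] (n : ℕ) :
    Set (Module.Dual ℂ (CuspForm (CongruenceSubgroup.Gamma0 N) ((n : ℤ) + 2))) :=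
  ⋃ r ∈ Finset.range (n + 2),
    ((Set.range fun g : SL(2, ℤ) => mu N n (sl g) r) ∪
      (fun l => Complex.I • l) '' (Set.range fun g : SL(2, ℤ) => mu N n (sl g) r))

theorem muSet_finite : (muSet N n).Finite := by
  unfold muSet
  refine Set.Finite.biUnion (Finset.finite_toSet _) fun r _ => ?_
  exact (finite_range_mu r).union ((finite_range_mu r).image _)

/-- The container lattice. -/
noncomputable def container (N : ℕ) [NeZero N] (n : ℕ) :
    Submodule ℤ (Module.Dual ℂ (CuspForm (CongruenceSubgroup.Gamma0 N) ((n : ℤ) + 2))) :=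
  Submodule.span ℤ (muSet N n)

theorem container_fg : (container N n).FG := Submodule.fg_span muSet_finite

theorem mu_mem_container (g : SL(2, ℤ)) {r : ℕ} (hr : r < n + 2) :
    mu N n (sl g) r ∈ container N n := by
  apply Submodule.subset_span
  simp only [muSet, Set.mem_iUnion]
  exact ⟨r, Finset.mem_range.mpr hr, Or.inl ⟨g, rfl⟩⟩

theorem I_smul_mu_mem_container (g : SL(2, ℤ)) {r : ℕ} (hr : r < n + 2) :
    Complex.I • mu N n (sl g) r ∈ container N n := by
  apply Submodule.subset_span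
  simp only [muSet, Set.mem_iUnion]
  exact ⟨r, Finset.mem_range.mpr hr, Or.inr ⟨_, ⟨g, rfl⟩, rfl⟩⟩

/-- Gaussian integers inside `ℂ`. -/
def IsGauss (z : ℂ) : Prop := ∃ a b : ℤ, z = a + b * Complex.I

theorem IsGauss.mul {z w : ℂ} (hz : IsGauss z) (hw : IsGauss w) : IsGauss (z * w) := by
  obtain ⟨a, b, rfl⟩ := hz
  obtain ⟨c, d, rfl⟩ := hw
  refine ⟨a * c - b * d, a * d + b * c, ?_⟩
  push_cast
  linear_combination (b : ℂ) * d * Complex.I_sq

theorem isGauss_one : IsGauss 1 := ⟨1, 0, by simp⟩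

theorem IsGauss.pow {z : ℂ} (hz : IsGauss z) (m : ℕ) : IsGauss (z ^ m) := by
  induction m with
  | zero => simpa using isGauss_one
  | succ m ih => rw [pow_succ]; exact ih.mul hz

theorem isGauss_int (x : ℤ) : IsGauss x := ⟨x, 0, by simp⟩

theorem isGauss_nat (x : ℕ) : IsGauss x := ⟨x, 0, by simp⟩

theorem isGauss_sub_I_mul (x y : ℤ) : IsGauss ((x : ℂ) - Complex.I * y) :=
  ⟨x, -y, by push_cast; ring⟩

/-- `bigG n E i v` for an integer vector `v` is a Gaussian-integer combination of the tower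
values at `i`, with coefficients independent of the tower. -/
theorem bigG_I_eq (n : ℕ) {v : ℂ × ℂ} (hv : v ∈ Vint) :
    ∃ a b : ℕ → ℤ, ∀ E : ℕ → ℍ → ℂ, bigG n E UpperHalfPlane.I v =
      ∑ j ∈ Finset.range (n + 1), ((a j : ℂ) * E (j + 1) UpperHalfPlane.I +
        (b j : ℂ) * (Complex.I * E (j + 1) UpperHalfPlane.I)) := by
  obtain ⟨x, y, rfl⟩ := hv
  have key : ∀ j : ℕ, IsGauss ((n.descFactorial j : ℂ) *
      (((x : ℂ) - Complex.I * y) ^ (n - j) * (y : ℂ) ^ j)) := fun j =>
    (isGauss_nat _).mul (((isGauss_sub_I_mul x y).pow _).mul ((isGauss_int y).pow _))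
  choose a b hab using key
  refine ⟨a, b, fun E => ?_⟩
  unfold bigG
  refine Finset.sum_congr rfl fun j _ => ?_
  have := hab j
  simp only [UpperHalfPlane.coe_I] at *
  linear_combination E (j + 1) UpperHalfPlane.I * this

/-- The functional `f ↦ bigG n (tower (f|g)) i v` lies in the container lattice. -/
theorem exists_mem_container_bigG (g : SL(2, ℤ)) {v : ℂ × ℂ} (hv : v ∈ Vint) :
    ∃ l ∈ container N n, ∀ f : CuspForm (CongruenceSubgroup.Gamma0 N) ((n : ℤ) + 2),
      l f = bigG n (tower (⇑f ∣[(n : ℤ) + 2] (mapGL ℝ g))) UpperHalfPlane.I v := by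
  obtain ⟨a, b, hab⟩ := bigG_I_eq n hv
  refine ⟨∑ j ∈ Finset.range (n + 1),
    (a j • mu N n (sl g) (j + 1) + b j • (Complex.I • mu N n (sl g) (j + 1))), ?_, fun f => ?_⟩
  · refine Submodule.sum_mem _ fun j hj => ?_
    have hj' : j + 1 < n + 2 := by
      have := Finset.mem_range.mp hj
      omega
    exact Submodule.add_mem _ (Submodule.smul_mem _ _ (mu_mem_container g hj'))
      (Submodule.smul_mem _ _ (I_smul_mu_mem_container g hj'))
  · rw [hab]
    simp only [LinearMap.sum_apply, LinearMap.add_apply, LinearMap.smul_apply, mu_apply, coe_sl,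
      smul_eq_mul, zsmul_eq_mul]

theorem mapGL_apply_entry (g : SL(2, ℤ)) (i j : Fin 2) :
    (mapGL ℝ g : GL (Fin 2) ℝ) i j = ((g.1 i j : ℤ) : ℝ) := by
  simp

theorem mapGL_S_smul_I : (mapGL ℝ ModularGroup.S : GL (Fin 2) ℝ) • UpperHalfPlane.I =
    UpperHalfPlane.I := by
  apply UpperHalfPlane.ext
  rw [coe_smul_of_det_pos (mapGL_mem_posInt _).2]
  have h00 : (mapGL ℝ ModularGroup.S : GL (Fin 2) ℝ) 0 0 = 0 := by
    rw [mapGL_apply_entry, ModularGroup.coe_S]; simp
  have h01 : (mapGL ℝ ModularGroup.S : GL (Fin 2) ℝ) 0 1 = -1 := by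
    rw [mapGL_apply_entry, ModularGroup.coe_S]; simp
  have h10 : (mapGL ℝ ModularGroup.S : GL (Fin 2) ℝ) 1 0 = 1 := by
    rw [mapGL_apply_entry, ModularGroup.coe_S]; simp
  have h11 : (mapGL ℝ ModularGroup.S : GL (Fin 2) ℝ) 1 1 = 0 := by
    rw [mapGL_apply_entry, ModularGroup.coe_S]; simp
  simp only [num, denom, h00, h01, h10, h11, UpperHalfPlane.coe_I]
  push_cast
  rw [zero_mul, zero_add, one_mul, add_zero, neg_div, one_div, Complex.inv_I, neg_neg]

theorem mapGL_T_one_zero : (mapGL ℝ ModularGroup.T : GL (Fin 2) ℝ) 1 0 = 0 := by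
  rw [mapGL_apply_entry, ModularGroup.coe_T]; simp

/-- Slashing by a product in `SL₂(ℤ)`. -/
theorem slash_sl_mul (h : ℍ → ℂ) (k : ℤ) (x y : SL(2, ℤ)) :
    h ∣[k] (mapGL ℝ (x * y) : GL (Fin 2) ℝ) =
      (h ∣[k] (mapGL ℝ x : GL (Fin 2) ℝ)) ∣[k] (mapGL ℝ y : GL (Fin 2) ℝ) := by
  rw [map_mul, SlashAction.slash_mul]

theorem lamG_sl_mem_container (g : SL(2, ℤ)) :
    ∀ (g₀ : SL(2, ℤ)) (w : ℂ × ℂ), w ∈ Vint → lamG N n (sl g₀) (sl g) w ∈ container N n := by
  have hg : g ∈ Subgroup.closure ({ModularGroup.S, ModularGroup.T} : Set SL(2, ℤ)) := by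
    rw [SpecialLinearGroup.SL2Z_generators]
    exact Subgroup.mem_top g
  induction hg using Subgroup.closure_induction with
  | mem x hx =>
    intro g₀ w hw
    rcases hx with rfl | rfl
    · -- `S`
      obtain ⟨l₁, hl₁, h₁⟩ := exists_mem_container_bigG (N := N) (n := n) g₀
        (actV_mem_Vint (mapGL_mem_posInt ModularGroup.S) hw)
      obtain ⟨l₂, hl₂, h₂⟩ := exists_mem_container_bigG (N := N) (n := n)
        (g₀ * ModularGroup.S) hw
      have : lamG N n (sl g₀) (sl ModularGroup.S) w = l₁ - l₂ := by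
        ext f
        rw [lamG_apply, LinearMap.sub_apply, h₁, h₂, cocyc, coe_sl, coe_sl, mapGL_S_smul_I,
          slash_sl_mul]
      rw [this]
      exact Submodule.sub_mem _ hl₁ hl₂
    · -- `T`
      have : lamG N n (sl g₀) (sl ModularGroup.T) w = 0 := by
        ext f
        rw [lamG_apply, LinearMap.zero_apply]
        exact cocyc_upper n (hasTower_slash_posInt f (sl g₀).2) _
          (mapGL_mem_posInt ModularGroup.T).2 mapGL_T_one_zero w
      rw [this]
      exact Submodule.zero_mem _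
  | one =>
    intro g₀ w _
    have : lamG N n (sl g₀) (sl 1) w = 0 := by
      ext f
      rw [lamG_apply, LinearMap.zero_apply]
      exact cocyc_upper n (hasTower_slash_posInt f (sl g₀).2) _
        (mapGL_mem_posInt 1).2 (by simp) w
    rw [this]
    exact Submodule.zero_mem _
  | mul x y _ _ hx hy =>
    intro g₀ w hw
    have : lamG N n (sl g₀) (sl (x * y)) w =
        lamG N n (sl g₀) (sl x) (actV (mapGL ℝ y) w) + lamG N n (sl (g₀ * x)) (sl y) w := by
      ext f
      rw [LinearMap.add_apply, lamG_apply, lamG_apply, lamG_apply, coe_sl, coe_sl, coe_sl,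
        coe_sl, coe_sl, map_mul, cocyc_mul n _ _ (mapGL_mem_posInt x).2 (mapGL_mem_posInt y).2
          (hasTower_slash_posInt f (mapGL_mem_posInt g₀))
          (hasTower_slash_slash f (mapGL_mem_posInt g₀) (mapGL_mem_posInt x))
          (hasTower_slash_slash f (mapGL_mem_posInt g₀)
            (mul_mem (mapGL_mem_posInt x) (mapGL_mem_posInt y))),
        map_mul, SlashAction.slash_mul]
    rw [this]
    exact Submodule.add_mem _ (hx g₀ _ (actV_mem_Vint (mapGL_mem_posInt y) hw))
      (hy (g₀ * x) w hw)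
  | inv x _ hx =>
    intro g₀ w hw
    have : lamG N n (sl g₀) (sl x⁻¹) w =
        - lamG N n (sl (g₀ * x⁻¹)) (sl x) (actV (mapGL ℝ x⁻¹) w) := by
      ext f
      rw [LinearMap.neg_apply, lamG_apply, lamG_apply, coe_sl, coe_sl, coe_sl, coe_sl]
      have hmul := cocyc_mul n (h := ⇑f ∣[(n : ℤ) + 2] (mapGL ℝ (g₀ * x⁻¹) : GL (Fin 2) ℝ))
        (mapGL ℝ x) (mapGL ℝ x⁻¹) (mapGL_mem_posInt x).2 (mapGL_mem_posInt x⁻¹).2
        (hasTower_slash_posInt f (mapGL_mem_posInt _))
        (hasTower_slash_slash f (mapGL_mem_posInt _) (mapGL_mem_posInt x))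
        (hasTower_slash_slash f (mapGL_mem_posInt _)
            (mul_mem (mapGL_mem_posInt x) (mapGL_mem_posInt x⁻¹))) w
      have h1 : (mapGL ℝ x : GL (Fin 2) ℝ) * mapGL ℝ x⁻¹ = 1 := by
        rw [← map_mul, mul_inv_cancel, map_one]
      have h2 : (⇑f ∣[(n : ℤ) + 2] (mapGL ℝ (g₀ * x⁻¹) : GL (Fin 2) ℝ)) ∣[(n : ℤ) + 2]
          (mapGL ℝ x : GL (Fin 2) ℝ) = ⇑f ∣[(n : ℤ) + 2] (mapGL ℝ g₀ : GL (Fin 2) ℝ) := by
        rw [← slash_sl_mul, inv_mul_cancel_right]
      rw [h1, h2, cocyc_upper n (hasTower_slash_posInt f (mapGL_mem_posInt _)) 1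
        (by simp) (by simp)] at hmul
      linear_combination -hmul
    rw [this]
    exact Submodule.neg_mem _ (hx (g₀ * x⁻¹) _ (actV_mem_Vint (mapGL_mem_posInt x⁻¹) hw))

theorem lam_mem_container (A : posInt) {v : ℂ × ℂ} (hv : v ∈ Vint) :
    lam N n A v ∈ container N n := by
  obtain ⟨g, δ, hδ, h10, hA⟩ := exists_mapGL_mul_upper A.2
  have : lam N n A v = lamG N n (sl 1) (sl g) (actV δ v) := by
    ext f
    rw [lam_apply, lamG_apply, coe_sl, coe_sl, map_one, SlashAction.slash_one, hA,
      cocyc_mul n _ _ (mapGL_mem_posInt g).2 hδ.2 (hasTower_cuspForm f)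
        (hasTower_slash_posInt f (mapGL_mem_posInt g))
        (hasTower_slash_posInt f (mul_mem (mapGL_mem_posInt g) hδ)),
      cocyc_upper n (hasTower_slash_posInt f (mapGL_mem_posInt g)) δ hδ.2 h10, add_zero]
  rw [this]
  exact lamG_sl_mem_container g 1 _ (actV_mem_Vint hδ hv)

theorem periodLattice_le_container : periodLattice N n ≤ container N n := by
  apply Submodule.span_le.mpr
  rintro _ ⟨A, v, hv, rfl⟩
  exact lam_mem_container A hv

/-- The period lattice is finitely generated. -/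
theorem periodLattice_fg : (periodLattice N n).FG := by
  have : IsNoetherian ℤ (container N n) := isNoetherian_of_fg_of_noetherian _ container_fg
  exact Submodule.FG.of_le_of_isNoetherian periodLattice_le_container

end Fermat.Agent.S22.H262

end
-- ===== PACK-END S22/H262/FG.lean

-- ===== PACK-BEGIN S24/Inf/Gen.lean
section


/-!
# S24 / MOD-INF — expansions at `∞` of the functions `J((aτ+b)/d)` and distinctness

Everything is stated for an abstract function `J : ℍ → ℂ` satisfying
* `hinv : ∀ γ : SL(2, ℤ), ∀ τ, J (γ • τ) = J τ`,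
* `hexp : InfExp 1 J infJq` (the `q`-expansion of `J` is the Prelude series `jq`).
-/

set_option autoImplicit false

noncomputable section

open HahnSeries ModularCurve UpperHalfPlane Complex Matrix
open scoped Real MatrixGroups

namespace Fermat.Agent.S24

/-- The Prelude series `jq` with complex coefficients. -/
def infJq : LaurentSeries ℂ := coeffEmb ℂ jq

theorem infJq_coeff (n : ℤ) : infJq.coeff n = ((jq.coeff n : ℚ) : ℂ) := rfl

theorem infJq_coeff_neg_one : infJq.coeff (-1) = 1 := by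
  rw [infJq_coeff, coeff_jq_neg_one]; simp

theorem infJq_coeff_of_lt {k : ℤ} (hk : k < -1) : infJq.coeff k = 0 := by
  rw [infJq_coeff, coeff_jq_of_lt hk]; simp

theorem infJq_order : infJq.order = -1 :=
  inf_order_eq_of_coeff (by rw [infJq_coeff_neg_one]; exact one_ne_zero)
    (fun _ hm => infJq_coeff_of_lt hm)

theorem infJq_leadingCoeff : infJq.leadingCoeff = 1 := by
  rw [leadingCoeff_eq, infJq_order, infJq_coeff_neg_one]

theorem infJq_ne_zero : infJq ≠ 0 := by
  intro h
  have := infJq_coeff_neg_one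
  rw [h] at this
  simp at this

/-- The expansion of `J((aτ+b)/d)` in `z = exp(2πiτ/N)`, where `e = aN/d`. -/
def infGenExp (e : ℕ) [NeZero e] (b : ℤ) (d : ℕ) : LaurentSeries ℂ :=
  qExpand ℂ e (infTwist (infRoot b d) infJq)

theorem infGenExp_order (e : ℕ) [NeZero e] (b : ℤ) (d : ℕ) :
    (infGenExp e b d).order = -(e : ℤ) := by
  rw [infGenExp, inf_qExpand_order, infTwist_order, infJq_order]
  ring

theorem infGenExp_leadingCoeff (e : ℕ) [NeZero e] (b : ℤ) (d : ℕ) :
    (infGenExp e b d).leadingCoeff = (((infRoot b d)⁻¹ : ℂˣ) : ℂ) := by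
  rw [infGenExp, inf_qExpand_leadingCoeff, infTwist_leadingCoeff, infJq_leadingCoeff, infJq_order,
    one_mul, _root_.zpow_neg_one]

theorem infGenExp_ne_zero (e : ℕ) [NeZero e] (b : ℤ) (d : ℕ) : infGenExp e b d ≠ 0 := by
  rw [infGenExp, Ne, inf_qExpand_eq_zero_iff, infTwist_eq_zero_iff]
  exact infJq_ne_zero

section Abstract

variable {J : ℍ → ℂ}

/-- Expansion of `J((aτ+b)/d)` in `z = exp(2πiτ/N)` when `e·d = a·N`. -/
theorem inf_J_infAff_exp (hexp : InfExp 1 J infJq) {N a d e : ℕ} [NeZero e] (b : ℤ)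
    (ha : 0 < a) (hd : 0 < d) (hN : 0 < N) (he : e * d = a * N) :
    InfExp N (fun τ => J (infAff a b d τ)) (infGenExp e b d) := by
  have h := hexp.comp_infAff (e := e) b ha hd one_pos hN (by rw [mul_one]; exact he)
  rw [mul_one] at h
  exact h

/-- The function `τ ↦ J(dτ)` has the expansion `jq(z^{dN})` in `z = exp(2πiτ/N)`. -/
theorem inf_J_mul_exp (hexp : InfExp 1 J infJq) {N d : ℕ} (hd : 0 < d) (hN : 0 < N) :
    haveI : NeZero (d * N) := ⟨(Nat.mul_pos hd hN).ne'⟩
    InfExp N (fun τ => J (infAff d 0 1 τ)) (qExpand ℂ (d * N) infJq) := by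
  have : NeZero (d * N) := ⟨(Nat.mul_pos hd hN).ne'⟩
  have h := inf_J_infAff_exp hexp (e := d * N) 0 hd one_pos hN (by ring)
  rw [infGenExp, infRoot_zero, infTwist_one] at h
  exact h

/-- For `d ∣ N` and `γ ∈ SL₂(ℤ)`, the function `τ ↦ J(d·γτ)` has a convergent expansion in
`z = exp(2πiτ/N)`. -/
theorem inf_J_mul_smul_mem_expRing (hinv : ∀ (γ : SL(2, ℤ)) (τ : ℍ), J (γ • τ) = J τ)
    (hexp : InfExp 1 J infJq) {N d : ℕ} [NeZero N] (hdN : d ∣ N) (γ : SL(2, ℤ)) :
    (fun τ => J (infAff d 0 1 (γ • τ))) ∈ expRing N := by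
  have hN : 0 < N := Nat.pos_of_ne_zero (NeZero.ne N)
  have hd : 0 < d := Nat.pos_of_dvd_of_pos hdN hN
  obtain ⟨γ', a, d', b, ha, hd', had, h00, h01, h10, h11⟩ := inf_exists_hnf d hd γ
  have hd'N : d' ∣ N := (Dvd.intro_left a had).trans hdN
  obtain ⟨c, hc⟩ := hd'N
  have hc0 : 0 < c := by
    rcases Nat.eq_zero_or_pos c with h | h
    · rw [h, mul_zero] at hc; omega
    · exact h
  have : NeZero (a * c) := ⟨(Nat.mul_pos ha hc0).ne'⟩
  have h := inf_J_infAff_exp hexp (e := a * c) (N := N) b ha hd' hN (by rw [hc]; ring)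
  refine ⟨_, h.congr fun τ => ?_⟩
  rw [inf_aff_smul_eq hd ha hd' γ γ' h00 h01 h10 h11 τ, hinv]

end Abstract

end Fermat.Agent.S24

namespace Fermat.Agent.S24

open HahnSeries ModularCurve UpperHalfPlane Complex Matrix
open scoped Real MatrixGroups

theorem inf_SL2_mul_inv_10 (γ γ' : SL(2, ℤ)) :
    (γ * γ'⁻¹) 1 0 = γ 1 0 * γ' 1 1 - γ 1 1 * γ' 1 0 := by
  rw [Matrix.SpecialLinearGroup.SL2_inv_expl γ']
  simp [Matrix.SpecialLinearGroup.coe_mul, Matrix.mul_apply, Fin.sum_univ_two]
  ring

theorem infRoot_eq_iff {b b₁ : ℤ} {d : ℕ} (hd : 0 < d) :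
    infRoot b d = infRoot b₁ d ↔ (d : ℤ) ∣ b - b₁ := by
  have hd0 : (d : ℂ) ≠ 0 := by exact_mod_cast hd.ne'
  have hpi : (2 * π * Complex.I : ℂ) ≠ 0 := Complex.two_pi_I_ne_zero
  rw [← Units.val_inj, infRoot_coe, infRoot_coe, Complex.exp_eq_exp_iff_exists_int]
  constructor
  · rintro ⟨n, hn⟩
    refine ⟨n, ?_⟩
    field_simp at hn
    have h4 : b = b₁ + d * n := by exact_mod_cast hn
    linarith
  · rintro ⟨n, hn⟩
    refine ⟨n, ?_⟩
    have h1 : (b : ℂ) = b₁ + d * n := by
      have : b = b₁ + d * n := by linarith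
      exact_mod_cast this
    rw [h1]
    field_simp

section Distinct

variable {J : ℍ → ℂ}

/-- **Distinctness.**  If `J(N·γτ) = J(N·γ'τ)` for all `τ`, then `γ γ'⁻¹ ∈ Γ₀(N)`. -/
theorem inf_distinct (hinv : ∀ (γ : SL(2, ℤ)) (τ : ℍ), J (γ • τ) = J τ)
    (hexp : InfExp 1 J infJq) {N : ℕ} [NeZero N] (γ γ' : SL(2, ℤ))
    (h : ∀ τ, J (infAff N 0 1 (γ • τ)) = J (infAff N 0 1 (γ' • τ))) :
    γ * γ'⁻¹ ∈ CongruenceSubgroup.Gamma0 N := by
  have hN : 0 < N := Nat.pos_of_ne_zero (NeZero.ne N)
  obtain ⟨g, a, d, b, ha, hd, had, h00, h01, h10, h11⟩ := inf_exists_hnf N hN γ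
  obtain ⟨g', a', d', b', ha', hd', had', h00', h01', h10', h11'⟩ := inf_exists_hnf N hN γ'
  have : NeZero (a * a) := ⟨(Nat.mul_pos ha ha).ne'⟩
  have : NeZero (a' * a') := ⟨(Nat.mul_pos ha' ha').ne'⟩
  have e1 := inf_J_infAff_exp hexp (e := a * a) (N := N) b ha hd hN (by rw [← had]; ring)
  have e2 := inf_J_infAff_exp hexp (e := a' * a') (N := N) b' ha' hd' hN (by rw [← had']; ring)
  have hfun : ∀ τ, J (infAff a b d τ) = J (infAff a' b' d' τ) := by
    intro τ
    have := h τ
    rwa [inf_aff_smul_eq hN ha hd γ g h00 h01 h10 h11 τ, hinv,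
      inf_aff_smul_eq hN ha' hd' γ' g' h00' h01' h10' h11' τ, hinv] at this
  have heq : infGenExp (a * a) b d = infGenExp (a' * a') b' d' := e1.unique' e2 hfun
  -- compare orders
  have hord := congrArg HahnSeries.order heq
  rw [infGenExp_order, infGenExp_order] at hord
  have haa : a * a = a' * a' := by
    have : ((a * a : ℕ) : ℤ) = ((a' * a' : ℕ) : ℤ) := by linarith
    exact_mod_cast this
  have haeq : a = a' := Nat.mul_self_inj.mp haa
  subst haeq
  have hdeq : d = d' := by
    have : a * d = a * d' := by rw [had, had']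
    exact Nat.eq_of_mul_eq_mul_left ha this
  subst hdeq
  -- compare leading coefficients
  have hlc := congrArg HahnSeries.leadingCoeff heq
  rw [infGenExp_leadingCoeff, infGenExp_leadingCoeff] at hlc
  have hroot : infRoot b d = infRoot b' d := by
    have := Units.val_inj.mp hlc
    exact inv_injective this
  obtain ⟨k, hk⟩ := (infRoot_eq_iff hd).mp hroot
  -- conclude
  rw [CongruenceSubgroup.Gamma0_mem, ZMod.intCast_zmod_eq_zero_iff_dvd, inf_SL2_mul_inv_10]
  have hNad : (N : ℤ) = a * d := by exact_mod_cast had.symm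
  refine ⟨g 1 0 * g' 1 1 - g 1 1 * g' 1 0 - k * g 1 0 * g' 1 0, ?_⟩
  have hb : b = b' + d * k := by linarith
  rw [h10, h11, h10', h11', hNad, hb]
  ring

end Distinct

end Fermat.Agent.S24

end
end
-- ===== PACK-END S24/Inf/Gen.lean

-- ===== PACK-BEGIN S24/FFIdentity.lean
section




/-!
# S24 / FF layer: the fundamental identity `∑_{v(t) > 0} ord_v(t) = [F : K(t)]`
(helper804)
-/

set_option autoImplicit false
set_option linter.unusedSectionVars false

namespace Fermat.Agent.S24.FF

open AlgebraicCurve Polynomial IntermediateField IsDedekindDomain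

open scoped IntermediateField.algebraAdjoinAdjoin

/-- Abstract criterion: if every element of `S` is congruent mod `q` to an element of `R`,
the inertia degree of `q` is one. -/
theorem inertiaDeg_eq_one_of_forall_exists {R S : Type*} [CommRing R] [CommRing S] [Algebra R S]
    (p : Ideal R) (q : Ideal S) [q.LiesOver p] [p.IsMaximal] [q.IsMaximal]
    (h : ∀ s : S, ∃ r : R, s - algebraMap R S r ∈ q) : q.inertiaDeg R = 1 := by
  rw [Ideal.inertiaDeg_eq_of_isMaximal p q]
  let _ : Field (R ⧸ p) := Ideal.Quotient.field _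
  rw [finrank_eq_one_iff_of_nonzero' (1 : S ⧸ q) one_ne_zero]
  intro w
  obtain ⟨s, rfl⟩ := Ideal.Quotient.mk_surjective w
  obtain ⟨r, hr⟩ := h s
  refine ⟨Ideal.Quotient.mk _ r, ?_⟩
  rw [Algebra.smul_def, mul_one, Ideal.Quotient.algebraMap_mk_of_liesOver, eq_comm,
    Ideal.Quotient.eq]
  exact hr

variable {K F : Type*} [Field K] [Field F] [Algebra K F] {t : F}

instance instTowerCoordIntRing : IsScalarTower (coordRing K t) (intRing K t) F :=
  IsScalarTower.of_algebraMap_eq (fun _ => rfl)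

section

variable [CharZero K] [IsCoord K t]

theorem t_ne_zero (ht : Transcendental K t) : t ≠ 0 := by
  rintro rfl
  exact ht isAlgebraic_zero

theorem tS_ne_zero : tS K t ≠ 0 := by
  intro h
  apply t_ne_zero (IsCoord.transcendental (K := K) (t := t))
  have := congrArg (fun s : intRing K t => (s : F)) h
  simpa using this

theorem irreducible_tR : Irreducible (tR K t) := by
  have h := Polynomial.irreducible_X (R := K)
  have e := algEquivOfTranscendental K t (IsCoord.transcendental (K := K) (t := t))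
  rw [tR, ← algEquivOfTranscendental_apply_X K t (IsCoord.transcendental (K := K) (t := t))]
  exact (MulEquiv.irreducible_iff
    (algEquivOfTranscendental K t (IsCoord.transcendental (K := K) (t := t)))).mpr h

variable (K t) in
/-- The maximal ideal `(t)` of `K[t]`. -/
def tIdeal : Ideal (coordRing K t) := Ideal.span {tR K t}

instance tIdeal_isMaximal : (tIdeal K t).IsMaximal :=
  PrincipalIdealRing.isMaximal_of_irreducible irreducible_tR

theorem map_tIdeal :
    (tIdeal K t).map (algebraMap (coordRing K t) (intRing K t)) = Ideal.span {tS K t} := by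
  rw [tIdeal, Ideal.map_span, Set.image_singleton]
  rfl

theorem map_tIdeal_ne_bot :
    (tIdeal K t).map (algebraMap (coordRing K t) (intRing K t)) ≠ ⊥ := by
  rw [map_tIdeal, Ne, Ideal.span_singleton_eq_bot]
  exact tS_ne_zero

theorem liesOver_iff (q : Ideal (intRing K t)) [hq : q.IsPrime] :
    q.LiesOver (tIdeal K t) ↔ tS K t ∈ q := by
  constructor
  · intro h
    have : tR K t ∈ q.under (coordRing K t) := by
      rw [← h.over]
      exact Ideal.subset_span rfl
    exact this
  · intro h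
    refine ⟨?_⟩
    apply (tIdeal_isMaximal (K := K) (t := t)).eq_of_le (Ideal.IsPrime.under _ q).ne_top
    rw [tIdeal, Ideal.span_le, Set.singleton_subset_iff]
    exact h

/-- `ord_v(t)` at the place of a prime `q` over `(t)` is the ramification index of `q`. -/
theorem ord_t_eq_ramificationIdx (q : HeightOneSpectrum (intRing K t))
    [hq : q.asIdeal.LiesOver (tIdeal K t)] :
    (placeOfPrime K t q).ord t = (q.asIdeal.ramificationIdx (coordRing K t) : ℤ) := by
  have := q.isPrime
  rw [Ideal.IsDedekindDomain.ramificationIdx_eq_multiplicity (tIdeal K t) q.asIdeal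
    map_tIdeal_ne_bot, map_tIdeal, ord_placeOfPrime]
  have h1 : q.valuation F t = q.intValuation (tS K t) := q.valuation_of_algebraMap (tS K t)
  rw [h1, q.intValuation_eq_exp_neg_multiplicity tS_ne_zero]
  simp

/-- The residue degree of every prime over `(t)` is one. -/
theorem inertiaDeg_eq_one [IsAlgClosed K] (q : HeightOneSpectrum (intRing K t))
    [hq : q.asIdeal.LiesOver (tIdeal K t)] :
    q.asIdeal.inertiaDeg (coordRing K t) = 1 := by
  have : q.asIdeal.IsMaximal := q.isPrime.isMaximal q.ne_bot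
  refine inertiaDeg_eq_one_of_forall_exists (tIdeal K t) q.asIdeal fun s => ?_
  have hsO : (s : F) ∈ (placeOfPrime K t q).toValuationSubring :=
    mem_of_mem_intRing _ (ord_t_placeOfPrime_nonneg q) s.2
  obtain ⟨a, ha⟩ := exists_const_sub_mem_nonunits (placeOfPrime K t q)
    (IsCoord.transcendental (K := K) (t := t)) hsO
  refine ⟨algebraMap K (coordRing K t) a, ?_⟩
  rw [← center_placeOfPrime q, mem_center_iff]
  exact ha

/-- The height-one prime attached to a prime over `(t)`. -/
def primeOfOver (q : (tIdeal K t).primesOver (intRing K t)) :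
    HeightOneSpectrum (intRing K t) :=
  ⟨q.1, q.2.1, fun h => tS_ne_zero (K := K) (t := t) (by
    have h1 := (liesOver_iff q.1 (hq := q.2.1)).mp q.2.2
    rw [h] at h1
    exact h1)⟩

@[simp] theorem primeOfOver_asIdeal (q : (tIdeal K t).primesOver (intRing K t)) :
    (primeOfOver q).asIdeal = q.1 := rfl

instance primeOfOver_liesOver (q : (tIdeal K t).primesOver (intRing K t)) :
    (primeOfOver q).asIdeal.LiesOver (tIdeal K t) := q.2.2

/-- The place attached to a prime over `(t)`. -/
noncomputable def placeOfOver (q : (tIdeal K t).primesOver (intRing K t)) : Place K F :=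
  placeOfPrime K t (primeOfOver q)

theorem placeOfOver_injective :
    Function.Injective (placeOfOver : (tIdeal K t).primesOver (intRing K t) → Place K F) := by
  intro q q' h
  have := placeOfPrime_injective h
  apply Subtype.ext
  exact congrArg HeightOneSpectrum.asIdeal this

theorem ord_t_placeOfOver_pos (q : (tIdeal K t).primesOver (intRing K t)) :
    0 < (placeOfOver q).ord t := by
  rw [placeOfOver, ord_t_placeOfPrime_pos_iff (t_ne_zero (IsCoord.transcendental (K := K)))]
  exact (liesOver_iff q.1 (hq := q.2.1)).mp q.2.2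

theorem exists_placeOfOver_eq (v : Place K F) (ht : 0 < v.ord t) :
    ∃ q : (tIdeal K t).primesOver (intRing K t), placeOfOver q = v := by
  have ht0 : t ≠ 0 := t_ne_zero (IsCoord.transcendental (K := K))
  have hmem : tS K t ∈ center v ht.le :=
    (mem_center_iff v ht.le _).mpr ((ord_pos_iff_mem_nonunits v ht0).mp ht)
  refine ⟨⟨center v ht.le, center_isPrime v ht.le, (liesOver_iff _).mpr hmem⟩, ?_⟩
  exact placeOfPrime_centerPrime v ht

theorem range_placeOfOver :
    Set.range (placeOfOver : (tIdeal K t).primesOver (intRing K t) → Place K F) =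
      {v : Place K F | 0 < v.ord t} := by
  ext v
  constructor
  · rintro ⟨q, rfl⟩
    exact ord_t_placeOfOver_pos q
  · intro hv
    exact exists_placeOfOver_eq v hv

theorem sum_placeOfOver [IsAlgClosed K] :
    ∑ q : (tIdeal K t).primesOver (intRing K t), (placeOfOver q).ord t =
      (Module.finrank K⟮t⟯ F : ℤ) := by
  have h := Ideal.sum_ramification_inertia_eq_finrank (tIdeal K t) (intRing K t)
  rw [IsFractionRing.finrank_eq (coordRing K t) K⟮t⟯ (intRing K t) F, ← h]
  push_cast
  refine Finset.sum_congr rfl fun q _ => ?_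
  have h1 := inertiaDeg_eq_one (primeOfOver q)
  rw [primeOfOver_asIdeal] at h1
  rw [placeOfOver, ord_t_eq_ramificationIdx (primeOfOver q), h1]
  simp

end

section final

/-- **Fundamental identity, finiteness**: a coordinate function has finitely many zeros. -/
theorem finite_setOf_ord_pos [CharZero K] (ht : Transcendental K t)
    [FiniteDimensional K⟮t⟯ F] : {v : Place K F | 0 < v.ord t}.Finite := by
  have : IsCoord K t := ⟨ht, inferInstance⟩
  rw [← range_placeOfOver]
  exact Set.finite_range _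

/-- **Fundamental identity**: `∑_{v(t) > 0} ord_v(t) = [F : K(t)]`. -/
theorem sum_ord_eq_finrank [IsAlgClosed K] [CharZero K] (ht : Transcendental K t)
    [FiniteDimensional K⟮t⟯ F] (s : Finset (Place K F)) (hs : ∀ v, v ∈ s ↔ 0 < v.ord t) :
    ∑ v ∈ s, v.ord t = (Module.finrank K⟮t⟯ F : ℤ) := by
  have : IsCoord K t := ⟨ht, inferInstance⟩
  rw [← sum_placeOfOver]
  symm
  refine Finset.sum_bij (fun q _ => placeOfOver q) ?_ ?_ ?_ ?_
  · intro q _
    exact (hs _).mpr (ord_t_placeOfOver_pos q)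
  · intro q _ q' _ h
    exact placeOfOver_injective h
  · intro v hv
    obtain ⟨q, hq⟩ := exists_placeOfOver_eq v ((hs v).mp hv)
    exact ⟨q, Finset.mem_univ _, hq⟩
  · intro q _
    rfl

/-- Skeleton form of the fundamental identity (helper864 FF3b). -/
theorem sum_ord_pos_eq_finrank [IsAlgClosed K] [CharZero K] (ht : Transcendental K t)
    [FiniteDimensional K⟮t⟯ F] :
    ∑ v ∈ (finite_setOf_ord_pos ht).toFinset, v.ord t = (Module.finrank K⟮t⟯ F : ℤ) :=
  sum_ord_eq_finrank ht _ (fun v => by simp)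

end final

end Fermat.Agent.S24.FF

end
-- ===== PACK-END S24/FFIdentity.lean

-- ===== PACK-BEGIN S30/H709/OccJ.lean
section


/-!
# S30-OCC, transport to the Jacobian: occurrence of `χ` in `𝒪 ⊗ J` modulo every power of `p`

`KummerSystem` is the interface expected from the Kummer layer (`M4b` for all `pⁿ`): maps
`κ n : (Γ₀(N) → ℤ) → J` (the class attached to `c mod pⁿ`), additive on integral parabolic
characters, compatible (`p • κ (n+1) = κ n`, `κ 0 = 0`), Hecke-equivariant, and injective modulo `p`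
at level `1`.

`exists_occ_tensor`: from `PeriodHecke` and a `KummerSystem`, every `χ : heckeAlgebra N 2 S →+* 𝒪`
(`𝒪` a local principal ideal domain of characteristic `0` with `p ∈ 𝔪`) occurs in `𝒪 ⊗ J` with
exact order `pⁿ⁺¹` for every `n`: exactly the hypothesis `hocc` of
`Fermat.Agent.S30.H349.nonempty_adicEigenModule_of_tower`.
-/

set_option autoImplicit false

noncomputable section

namespace Fermat.Agent.S30.H709

open CongruenceSubgroup ModularCurve ModularCurve.Period TensorProduct IsLocalRing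
open scoped MatrixGroups

/-- Integral parabolic characters of `Γ₀(N)`, as plain functions. -/
def IsParZ {N : ℕ} (c : Gamma0 N → ℤ) : Prop :=
  (∀ γ δ : Gamma0 N, c (γ * δ) = c γ + c δ) ∧
    ∀ γ : Gamma0 N, ((γ : SL(2, ℤ)) : Matrix (Fin 2) (Fin 2) ℤ).trace ^ 2 = 4 → c γ = 0

theorem IsParZ.zero {N : ℕ} : IsParZ (0 : Gamma0 N → ℤ) :=
  ⟨fun _ _ => by simp, fun _ _ => rfl⟩

theorem IsParZ.add {N : ℕ} {c c' : Gamma0 N → ℤ} (h : IsParZ c) (h' : IsParZ c') :
    IsParZ (c + c') :=
  ⟨fun γ δ => by simp only [Pi.add_apply, h.1 γ δ, h'.1 γ δ]; ring,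
    fun γ hγ => by simp only [Pi.add_apply, h.2 γ hγ, h'.2 γ hγ, add_zero]⟩

theorem IsParZ.neg {N : ℕ} {c : Gamma0 N → ℤ} (h : IsParZ c) : IsParZ (-c) :=
  ⟨fun γ δ => by simp only [Pi.neg_apply, h.1 γ δ]; ring,
    fun γ hγ => by simp only [Pi.neg_apply, h.2 γ hγ, neg_zero]⟩

theorem IsParZ.smul {N : ℕ} {c : Gamma0 N → ℤ} (h : IsParZ c) (a : ℤ) : IsParZ (a • c) :=
  ⟨fun γ δ => by simp only [Pi.smul_apply, smul_eq_mul, h.1 γ δ]; ring,
    fun γ hγ => by simp only [Pi.smul_apply, smul_eq_mul, h.2 γ hγ, mul_zero]⟩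

theorem IsParZ.sum {N : ℕ} {ι : Type*} (s : Finset ι) (f : ι → Gamma0 N → ℤ)
    (h : ∀ i ∈ s, IsParZ (f i)) : IsParZ (∑ i ∈ s, f i) := by
  classical
  induction s using Finset.induction_on with
  | empty => rw [Finset.sum_empty]; exact IsParZ.zero
  | insert a s ha ih =>
    rw [Finset.sum_insert ha]
    exact (h a (Finset.mem_insert_self a s)).add
      (ih fun i hi => h i (Finset.mem_insert_of_mem hi))

/-- The cohomological Hecke operator on functions `Γ₀(N) → ℤ` attached to `fac`. -/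
def heckeFn {N : ℕ} (fac : ℕ → Gamma0 N → Multiset (Gamma0 N)) (ℓ : ℕ) (c : Gamma0 N → ℤ) :
    Gamma0 N → ℤ :=
  fun γ => ((fac ℓ γ).map c).sum

/-- **Interface of the Kummer layer for all powers of `p`.**  `κ n c` is the class in `J[pⁿ]`
attached to the character `c mod pⁿ` (for S30: `J = JZero N`, `T ℓ` the Hecke operator). -/
structure KummerSystem (N : ℕ) (fac : ℕ → Gamma0 N → Multiset (Gamma0 N)) (S : Set ℕ) (p : ℕ)
    (J : Type*) [AddCommGroup J] (T : Nat.Primes → J →+ J) where
  /-- the Kummer maps -/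
  κ : ℕ → (Gamma0 N → ℤ) → J
  map_add : ∀ n c c', IsParZ c → IsParZ c' → κ n (c + c') = κ n c + κ n c'
  map_zero_level : ∀ c, IsParZ c → κ 0 c = 0
  compat : ∀ n c, IsParZ c → p • κ (n + 1) c = κ n c
  inj : ∀ c, IsParZ c → κ 1 c = 0 → ∀ γ, (p : ℤ) ∣ c γ
  hecke : ∀ (n : ℕ) (ℓ : Nat.Primes), ¬ (ℓ : ℕ) ∣ N → (ℓ : ℕ) ∉ S → ∀ c, IsParZ c →
    T ℓ (κ n c) = κ n (heckeFn fac ℓ c)

namespace KummerSystem

variable {N : ℕ} {fac : ℕ → Gamma0 N → Multiset (Gamma0 N)} {S : Set ℕ} {p : ℕ}
  {J : Type*} [AddCommGroup J] {T : Nat.Primes → J →+ J} (K : KummerSystem N fac S p J T)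

theorem map_zero (n : ℕ) : K.κ n 0 = 0 := by
  have h := K.map_add n 0 0 IsParZ.zero IsParZ.zero
  rw [add_zero] at h
  exact left_eq_add.mp h

theorem map_neg (n : ℕ) {c : Gamma0 N → ℤ} (hc : IsParZ c) : K.κ n (-c) = - K.κ n c := by
  have h := K.map_add n c (-c) hc hc.neg
  rw [add_neg_cancel, K.map_zero] at h
  exact (neg_eq_of_add_eq_zero_right h.symm).symm

theorem map_nsmul (n : ℕ) {c : Gamma0 N → ℤ} (hc : IsParZ c) (k : ℕ) :
    K.κ n (k • c) = k • K.κ n c := by
  induction k with
  | zero => rw [zero_smul, zero_smul, K.map_zero]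
  | succ k ih =>
    rw [succ_nsmul, succ_nsmul, K.map_add n _ _ (by simpa using hc.smul (k : ℤ)) hc, ih]

theorem map_zsmul (n : ℕ) {c : Gamma0 N → ℤ} (hc : IsParZ c) (a : ℤ) :
    K.κ n (a • c) = a • K.κ n c := by
  rcases Int.eq_nat_or_neg a with ⟨k, rfl | rfl⟩
  · rw [natCast_zsmul, natCast_zsmul, K.map_nsmul n hc]
  · rw [neg_smul, neg_smul, natCast_zsmul, natCast_zsmul,
      K.map_neg n (by simpa using hc.smul (k : ℤ)), K.map_nsmul n hc]

theorem map_sum (n : ℕ) {ι : Type*} (s : Finset ι) (f : ι → Gamma0 N → ℤ)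
    (h : ∀ i ∈ s, IsParZ (f i)) : K.κ n (∑ i ∈ s, f i) = ∑ i ∈ s, K.κ n (f i) := by
  classical
  induction s using Finset.induction_on with
  | empty => rw [Finset.sum_empty, Finset.sum_empty, K.map_zero]
  | insert a s ha ih =>
    rw [Finset.sum_insert ha, Finset.sum_insert ha,
      K.map_add n _ _ (h a (Finset.mem_insert_self a s))
        (IsParZ.sum s f fun i hi => h i (Finset.mem_insert_of_mem hi)),
      ih fun i hi => h i (Finset.mem_insert_of_mem hi)]

theorem pow_smul (n k : ℕ) {c : Gamma0 N → ℤ} (hc : IsParZ c) :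
    p ^ k • K.κ (n + k) c = K.κ n c := by
  induction k with
  | zero => rw [pow_zero, one_smul, add_zero]
  | succ k ih =>
    rw [pow_succ, mul_smul, ← add_assoc, K.compat (n + k) c hc, ih]

end KummerSystem

/-- In a local principal ideal domain every nonzero vector is a nonzero multiple of a vector
with a unit coordinate. -/
theorem exists_primitive_vector {O : Type*} [CommRing O] [IsDomain O] [IsLocalRing O]
    [IsPrincipalIdealRing O] {r : ℕ} (w : Fin r → O) (hw : w ≠ 0) :
    ∃ (g : O) (w' : Fin r → O), g ≠ 0 ∧ (∀ j, w j = g * w' j) ∧ ∃ j, IsUnit (w' j) := by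
  classical
  obtain ⟨g, hg⟩ := (IsPrincipalIdealRing.principal (Ideal.span (Set.range w))).principal
  have hmem : ∀ j, w j ∈ Ideal.span ({g} : Set O) := by
    intro j
    have : w j ∈ Ideal.span (Set.range w) := Ideal.subset_span ⟨j, rfl⟩
    rw [hg] at this
    exact this
  have hdiv : ∀ j, ∃ a, w j = g * a := fun j => by
    obtain ⟨a, ha⟩ := Ideal.mem_span_singleton'.mp (hmem j)
    exact ⟨a, by rw [← ha, mul_comm]⟩
  choose w' hw' using hdiv
  have hg0 : g ≠ 0 := by
    rintro rfl
    apply hw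
    funext j
    rw [hw' j, zero_mul]
    rfl
  have hgmem : g ∈ Ideal.span (Set.range w) := by
    rw [hg]
    exact Ideal.subset_span rfl
  obtain ⟨a, ha⟩ := Ideal.mem_span_range_iff_exists_fun.mp hgmem
  have hone : ∑ j, a j * w' j = 1 := by
    have h1 : g * ∑ j, a j * w' j = g * 1 := by
      rw [mul_one, Finset.mul_sum]
      conv_rhs => rw [← ha]
      refine Finset.sum_congr rfl fun j _ => ?_
      rw [hw' j]
      ring
    exact mul_left_cancel₀ hg0 h1
  refine ⟨g, w', hg0, hw', ?_⟩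
  by_contra hcon
  rw [not_exists] at hcon
  have hmax : ∑ j, a j * w' j ∈ maximalIdeal O :=
    Ideal.sum_mem _ fun j _ => Ideal.mul_mem_left _ _ ((mem_maximalIdeal _).mpr (hcon j))
  rw [hone] at hmax
  exact (mem_maximalIdeal _).mp hmax isUnit_one

section Nonvanishing

variable {O : Type*} [CommRing O] [IsDomain O] [CharZero O] {J : Type*} [AddCommGroup J]

/-- The `j`-th coordinate `O ⊗ ℤʳ → O`. -/
def coordTensor (O : Type*) [CommRing O] {r : ℕ} (j : Fin r) : O ⊗[ℤ] (Fin r → ℤ) →+ O :=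
  (TensorProduct.lift (LinearMap.mk₂ ℤ (fun (o : O) (a : Fin r → ℤ) => a j • o)
    (fun o o' a => by simp only [smul_add])
    (fun t o a => smul_comm (a j) t o)
    (fun o a a' => by simp only [Pi.add_apply, add_smul])
    (fun t o a => by simp only [Pi.smul_apply, smul_eq_mul, mul_smul]))).toAddMonoidHom

omit [IsDomain O] [CharZero O] in
theorem coordTensor_tmul {r : ℕ} (j : Fin r) (o : O) (a : Fin r → ℤ) :
    coordTensor O j (o ⊗ₜ[ℤ] a) = a j • o := by
  simp only [coordTensor, LinearMap.toAddMonoidHom_coe, TensorProduct.lift.tmul,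
    LinearMap.mk₂_apply]

/-- Flatness: if `φ : ℤʳ → J` has kernel inside `p ℤʳ` and `∑ wⱼ ⊗ φ(eⱼ) = 0` in `O ⊗ J`,
then `p` divides every `wⱼ`. -/
theorem dvd_of_tensor_eq_zero {r : ℕ} (φ : (Fin r → ℤ) →ₗ[ℤ] J) (m : ℤ)
    (hker : ∀ a : Fin r → ℤ, φ a = 0 → ∀ j, m ∣ a j) (w : Fin r → O)
    (hz : ∑ j, w j ⊗ₜ[ℤ] φ (Pi.single j 1) = 0) (j : Fin r) : (m : O) ∣ w j := by
  classical
  let z : O ⊗[ℤ] (Fin r → ℤ) := ∑ k, w k ⊗ₜ[ℤ] (Pi.single k (1 : ℤ))
  have hzφ : LinearMap.lTensor O φ z = 0 := by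
    rw [map_sum, ← hz]
    refine Finset.sum_congr rfl fun k _ => ?_
    rw [LinearMap.lTensor_tmul]
  have hex := Module.Flat.lTensor_exact O (LinearMap.exact_subtype_ker_map φ)
  obtain ⟨t, ht⟩ := (hex z).mp hzφ
  have hzj : coordTensor O j z = w j := by
    rw [map_sum]
    simp only [coordTensor_tmul]
    rw [Finset.sum_eq_single j]
    · rw [Pi.single_eq_same, one_smul]
    · intro k _ hk
      rw [Pi.single_eq_of_ne (Ne.symm hk), zero_smul]
    · intro h
      exact absurd (Finset.mem_univ j) h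
  have hall : ∀ t : O ⊗[ℤ] LinearMap.ker φ,
      (m : O) ∣ coordTensor O j (LinearMap.lTensor O (LinearMap.ker φ).subtype t) := by
    intro t
    induction t using TensorProduct.induction_on with
    | zero => rw [map_zero, map_zero]; exact dvd_zero _
    | tmul o a =>
      rw [LinearMap.lTensor_tmul, coordTensor_tmul]
      obtain ⟨b, hb⟩ := hker a.1 (LinearMap.mem_ker.mp a.2) j
      rw [Submodule.subtype_apply, hb, mul_smul, zsmul_eq_mul]
      exact Dvd.intro _ rfl
    | add x y hx hy => rw [map_add, map_add]; exact dvd_add hx hy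
  rw [← hzj, ← ht]
  exact hall t

end Nonvanishing

section Main

variable {N : ℕ} [NeZero N]

/-- **Occurrence of `χ` in `𝒪 ⊗ J` modulo every power of `p`**: the hypothesis `hocc` of the
`p`-adic module layer, from `PeriodHecke` and a `KummerSystem`. -/
theorem exists_occ_tensor {fac : ℕ → Gamma0 N → Multiset (Gamma0 N)}
    (hPH : PeriodHecke N fac) {S : Set ℕ} (hNS : ∀ q : ℕ, q.Prime → q ∣ N → q ∈ S)
    {O : Type*} [CommRing O] [IsDomain O] [IsLocalRing O] [IsPrincipalIdealRing O] [CharZero O]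
    (χ : CuspForm.heckeAlgebra N 2 S →+* O)
    {p : ℕ} (hpO : (p : O) ∈ maximalIdeal O)
    {J : Type*} [AddCommGroup J] {T : Nat.Primes → J →+ J}
    (K : KummerSystem N fac S p J T) (n : ℕ) :
    ∃ x : O ⊗[ℤ] J, (p : O) ^ (n + 1) • x = 0 ∧ (p : O) ^ n • x ≠ 0 ∧
      ∀ (ℓ : ℕ) (hℓ : ℓ.Prime) (hℓN : ¬ ℓ ∣ N) (hℓS : ℓ ∉ S),
        (T ⟨ℓ, hℓ⟩).toIntLinearMap.baseChange O x
          = χ (CuspForm.heckeAlgebra.T hℓ hℓN hℓS) • x := by
  classical
  obtain ⟨r, c, τ, w₀, hpar, hsat, hτ, hw₀, heig₀⟩ := exists_adic_eigen_lattice hPH hNS χ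
  obtain ⟨g, w, hg0, hgw, j₀, hj₀⟩ := exists_primitive_vector w₀ hw₀
  -- the eigen-relation for the primitive vector
  have heig : ∀ (ℓ : ℕ) (hℓ : ℓ.Prime) (hℓN : ¬ ℓ ∣ N) (hℓS : ℓ ∉ S) (k : Fin r),
      ∑ j, w j * ((τ ℓ j k : ℤ) : O) = χ (CuspForm.heckeAlgebra.T hℓ hℓN hℓS) * w k := by
    intro ℓ hℓ hℓN hℓS k
    have h := heig₀ ℓ hℓ hℓN hℓS k
    apply mul_left_cancel₀ hg0
    rw [Finset.mul_sum]
    calc ∑ j, g * (w j * ((τ ℓ j k : ℤ) : O)) = ∑ j, w₀ j * ((τ ℓ j k : ℤ) : O) := by
          refine Finset.sum_congr rfl fun j _ => ?_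
          rw [hgw j]; ring
      _ = χ (CuspForm.heckeAlgebra.T hℓ hℓN hℓS) * w₀ k := h
      _ = g * (χ (CuspForm.heckeAlgebra.T hℓ hℓN hℓS) * w k) := by rw [hgw k]; ring
  -- the characters as functions
  let cf : Fin r → Gamma0 N → ℤ := fun j γ => c j (Additive.ofMul γ)
  have hcf : ∀ j, IsParZ (cf j) := fun j =>
    ⟨fun γ δ => by simp only [cf, ofMul_mul, map_add], fun γ hγ => hpar j γ hγ⟩
  have hheckeFn : ∀ (ℓ : ℕ) (hℓ : ℓ.Prime) (hℓN : ¬ ℓ ∣ N) (hℓS : ℓ ∉ S) (j : Fin r),
      heckeFn fac ℓ (cf j) = ∑ k, τ ℓ j k • cf k := by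
    intro ℓ hℓ hℓN hℓS j
    funext γ
    rw [heckeFn, hτ ℓ hℓ hℓN hℓS j γ, Finset.sum_apply]
    rfl
  -- the eigenclass at level `m`
  let x : ℕ → O ⊗[ℤ] J := fun m => ∑ j, w j ⊗ₜ[ℤ] K.κ m (cf j)
  have hx_pow : ∀ m k : ℕ, (p : O) ^ k • x (m + k) = x m := by
    intro m k
    simp only [x]
    rw [Finset.smul_sum]
    refine Finset.sum_congr rfl fun j _ => ?_
    rw [← K.pow_smul m k (hcf j), TensorProduct.tmul_smul, ← Nat.cast_pow,
      Nat.cast_smul_eq_nsmul]
  have hx0 : x 0 = 0 := by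
    simp only [x]
    refine Finset.sum_eq_zero fun j _ => ?_
    rw [K.map_zero_level _ (hcf j), TensorProduct.tmul_zero]
  refine ⟨x (n + 1), ?_, ?_, ?_⟩
  · have := hx_pow 0 (n + 1)
    rw [zero_add] at this
    rw [this, hx0]
  · have h1 := hx_pow 1 n
    rw [add_comm 1 n] at h1
    rw [h1]
    intro hzero
    -- `x 1 = 0` forces `p ∣ w j₀`, impossible for a unit
    let φ : (Fin r → ℤ) →ₗ[ℤ] J :=
      { toFun := fun a => ∑ j, a j • K.κ 1 (cf j)
        map_add' := fun a b => by
          simp only [Pi.add_apply, add_smul, Finset.sum_add_distrib]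
        map_smul' := fun t a => by
          simp only [Pi.smul_apply, smul_eq_mul, mul_smul, Finset.smul_sum, RingHom.id_apply] }
    have hφ : ∀ a : Fin r → ℤ, φ a = K.κ 1 (∑ j, a j • cf j) := by
      intro a
      rw [K.map_sum 1 Finset.univ (fun j => a j • cf j) fun j _ => (hcf j).smul (a j)]
      show ∑ j, a j • K.κ 1 (cf j) = _
      refine Finset.sum_congr rfl fun j _ => ?_
      rw [K.map_zsmul 1 (hcf j)]
    have hker : ∀ a : Fin r → ℤ, φ a = 0 → ∀ j, (p : ℤ) ∣ a j := by
      intro a ha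
      rw [hφ] at ha
      have hdiv := K.inj _ (IsParZ.sum Finset.univ (fun j => a j • cf j)
        fun j _ => (hcf j).smul (a j)) ha
      refine hsat (p : ℤ) a fun γ => ?_
      have := hdiv γ
      simpa [Finset.sum_apply, cf] using this
    have hsingle : ∀ j, φ (Pi.single j 1) = K.κ 1 (cf j) := by
      intro j
      show ∑ k, (Pi.single j (1 : ℤ) : Fin r → ℤ) k • K.κ 1 (cf k) = _
      rw [Finset.sum_eq_single j]
      · rw [Pi.single_eq_same, one_smul]
      · intro k _ hk
        rw [Pi.single_eq_of_ne hk, zero_smul]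
      · intro h
        exact absurd (Finset.mem_univ j) h
    have hz : ∑ j, w j ⊗ₜ[ℤ] φ (Pi.single j 1) = 0 := by
      rw [← hzero]
      refine Finset.sum_congr rfl fun j _ => ?_
      rw [hsingle]
    have hdvd := dvd_of_tensor_eq_zero φ (p : ℤ) hker w hz j₀
    rw [Int.cast_natCast] at hdvd
    have hmem : w j₀ ∈ maximalIdeal O := by
      obtain ⟨b, hb⟩ := hdvd
      rw [hb]
      exact Ideal.mul_mem_right _ _ hpO
    exact (mem_maximalIdeal _).mp hmem hj₀
  · intro ℓ hℓ hℓN hℓS
    simp only [x]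
    rw [map_sum, Finset.smul_sum]
    have h1 : ∀ j, (T ⟨ℓ, hℓ⟩).toIntLinearMap.baseChange O (w j ⊗ₜ[ℤ] K.κ (n + 1) (cf j))
        = ∑ k, (w j * ((τ ℓ j k : ℤ) : O)) ⊗ₜ[ℤ] K.κ (n + 1) (cf k) := by
      intro j
      rw [LinearMap.baseChange_tmul, AddMonoidHom.coe_toIntLinearMap,
        K.hecke (n + 1) ⟨ℓ, hℓ⟩ hℓN hℓS _ (hcf j), hheckeFn ℓ hℓ hℓN hℓS j,
        K.map_sum (n + 1) Finset.univ (fun k => τ ℓ j k • cf k)
          fun k _ => (hcf k).smul (τ ℓ j k), TensorProduct.tmul_sum]
      refine Finset.sum_congr rfl fun k _ => ?_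
      rw [K.map_zsmul (n + 1) (hcf k), TensorProduct.tmul_smul, TensorProduct.smul_tmul',
        zsmul_eq_mul, mul_comm]
    rw [Finset.sum_congr rfl fun j _ => h1 j, Finset.sum_comm]
    refine Finset.sum_congr rfl fun k _ => ?_
    rw [← TensorProduct.sum_tmul, heig ℓ hℓ hℓN hℓS k, TensorProduct.smul_tmul', smul_eq_mul]

end Main

end Fermat.Agent.S30.H709

end
end
-- ===== PACK-END S30/H709/OccJ.lean

-- ===== PACK-BEGIN S24/H864/FF3e.lean
section



/-!
# S24 / ALG / FF3: a principal divisor has degree zero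
-/

set_option autoImplicit false

noncomputable section

open AlgebraicCurve IntermediateField

namespace Fermat.Agent.S24.H864

variable {K F : Type*} [Field K] [Field F] [Algebra K F]

theorem adjoin_simple_inv_eq (f : F) : K⟮f⁻¹⟯ = K⟮f⟯ := by
  apply le_antisymm
  · rw [IntermediateField.adjoin_simple_le_iff]
    exact inv_mem (IntermediateField.mem_adjoin_simple_self K f)
  · rw [IntermediateField.adjoin_simple_le_iff]
    have h := inv_mem (IntermediateField.mem_adjoin_simple_self K f⁻¹)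
    rwa [inv_inv] at h

theorem transcendental_inv {f : F} (hf : Transcendental K f) : Transcendental K f⁻¹ := by
  intro h
  apply hf
  have := h.inv
  rwa [inv_inv] at this

variable [IsAlgClosed K] [CharZero K]

/-- the number of zeros equals the number of poles -/
theorem sum_ord_pos_eq_sum_ord_neg (f : F) (hf : Transcendental K f)
    [FiniteDimensional ↥(IntermediateField.adjoin K {f}) F]
    (sp sn : Finset (Place K F)) (hsp : ∀ v : Place K F, v ∈ sp ↔ 0 < v.ord f)
    (hsn : ∀ v : Place K F, v ∈ sn ↔ v.ord f < 0) :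
    ∑ v ∈ sp, v.ord f + ∑ v ∈ sn, v.ord f = 0 := by
  have h1 := fundamental_identity f hf sp hsp
  have hfi : Transcendental K f⁻¹ := transcendental_inv hf
  haveI : FiniteDimensional ↥(IntermediateField.adjoin K {f⁻¹}) F := by
    rw [adjoin_simple_inv_eq]; infer_instance
  have hsn' : ∀ v : Place K F, v ∈ sn ↔ 0 < v.ord f⁻¹ := by
    intro v
    rw [hsn, Place.ord_inv]
    omega
  have h2 := fundamental_identity f⁻¹ hfi sn hsn'
  have h3 : Module.finrank ↥(IntermediateField.adjoin K {f⁻¹}) F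
      = Module.finrank ↥(IntermediateField.adjoin K {f}) F := by
    rw [adjoin_simple_inv_eq]
  have h4 : ∑ v ∈ sn, v.ord f = -∑ v ∈ sn, v.ord f⁻¹ := by
    rw [← Finset.sum_neg_distrib]
    refine Finset.sum_congr rfl fun v _ => ?_
    rw [Place.ord_inv, neg_neg]
  rw [h1, h4, h2, h3]
  ring

/-- **FF3.**  A principal divisor has degree zero. -/
theorem degree_principal (j : F) (hj : Transcendental K j)
    [FiniteDimensional ↥(IntermediateField.adjoin K {j}) F] (f : F) (hf : f ≠ 0)
    (D : Divisor K F) (hD : ∀ v : Place K F, D v = v.ord f) : Divisor.degree D = 0 := by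
  classical
  have hdeg : Divisor.degree D = ∑ v ∈ D.support, v.ord f := by
    show Finsupp.liftAddHom (fun v : Place K F => AddMonoidHom.mulRight (v.deg : ℤ)) D = _
    rw [Finsupp.liftAddHom_apply, Finsupp.sum]
    refine Finset.sum_congr rfl fun v _ => ?_
    rw [AddMonoidHom.coe_mulRight, hD v, FF.deg_eq_one v hj]
    simp
  rw [hdeg]
  by_cases hfK : f ∈ (algebraMap K F).range
  · obtain ⟨c, rfl⟩ := hfK
    refine Finset.sum_eq_zero fun v _ => FF.ord_algebraMap v c
  · have hft : Transcendental K f := FF.transcendental_of_not_mem_range hfK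
    haveI : FiniteDimensional ↥(IntermediateField.adjoin K {f}) F :=
      FF.finiteDimensional_adjoin_of_transcendental hj hft
    have hsupp : ∀ v : Place K F, v ∈ D.support ↔ v.ord f ≠ 0 := by
      intro v
      rw [Finsupp.mem_support_iff, hD v]
    set sp := D.support.filter (fun v => 0 < v.ord f) with hsp
    set sn := D.support.filter (fun v => v.ord f < 0) with hsn
    have hsp' : ∀ v : Place K F, v ∈ sp ↔ 0 < v.ord f := by
      intro v
      rw [hsp, Finset.mem_filter, hsupp]
      constructor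
      · exact fun h => h.2
      · exact fun h => ⟨by omega, h⟩
    have hsn' : ∀ v : Place K F, v ∈ sn ↔ v.ord f < 0 := by
      intro v
      rw [hsn, Finset.mem_filter, hsupp]
      constructor
      · exact fun h => h.2
      · exact fun h => ⟨by omega, h⟩
    have hkey := sum_ord_pos_eq_sum_ord_neg f hft sp sn hsp' hsn'
    have hunion : D.support = sp ∪ sn := by
      ext v
      rw [Finset.mem_union, hsp', hsn', hsupp]
      omega
    have hdisj : Disjoint sp sn := by
      rw [Finset.disjoint_left]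
      intro v h1 h2
      rw [hsp'] at h1
      rw [hsn'] at h2
      omega
    rw [hunion, Finset.sum_union hdisj]
    exact hkey

end Fermat.Agent.S24.H864

end
end
-- ===== PACK-END S24/H864/FF3e.lean

-- ===== PACK-BEGIN S28/H326/Conj.lean
section
/-
S28 / helper326: the conjugates `y i` of `j(t^(p²))`; power sums; lifting to `ℤ[Y][X]`.
-/



set_option autoImplicit false
set_option linter.unusedSectionVars false

noncomputable section

namespace Fermat.Agent.S28.H326

open ModularCurve HahnSeries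

variable (p : ℕ) [NeZero p]

/-! ### The conjugates of `j` -/

/-- `j(t^(p²))` and `j(ζ^b t)` -/
def y : Option (Fin p) → LaurentSeries ℂ
  | none => qExpand ℂ p (jP p)
  | some b => HahnSeries.C ((zeta p ^ (b : ℕ))⁻¹) * HahnSeries.single (-1 : ℤ) 1 *
      cB p b (toC jNum)

theorem jC_mul_ofPS_DC : jqModC ℂ * ofPS DC = ofPS EC := by
  have := congrArg kap jq_mul_deltaZ
  rwa [map_mul, coeffMap_jqModC, deltaZ, kap_ofPS, kap_ofPS] at this

theorem y_mul_conj (i : Option (Fin p)) : y p i * conj p i DC = conj p i EC := by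
  cases i with
  | none =>
    simp only [y, conj, cInf, cBase, RingHom.comp_apply, jP]
    rw [← map_mul, ← map_mul, jC_mul_ofPS_DC]
  | some b =>
    simp only [y, conj]
    have hE : EC = toC jNum * UC := by
      rw [EC, UC, ← map_mul, jNum_mul_unit]
    rw [DC_eq, hE, map_mul, map_mul]
    have hX : cB p b PowerSeries.X =
        HahnSeries.C (zeta p ^ (b : ℕ)) * HahnSeries.single (1 : ℤ) 1 := by
      rw [cB, RingHom.comp_apply, PowerSeries.rescale_X, map_mul, HahnSeries.ofPowerSeries_C,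
        HahnSeries.ofPowerSeries_X]
    rw [hX]
    have h1 : HahnSeries.C ((zeta p ^ (b : ℕ))⁻¹) * HahnSeries.C (zeta p ^ (b : ℕ)) =
        (1 : LaurentSeries ℂ) := by
      rw [← map_mul, inv_mul_cancel₀ (pow_ne_zero _ (zeta_ne_zero p)), map_one]
    have h2 : HahnSeries.single (-1 : ℤ) (1 : ℂ) * HahnSeries.single (1 : ℤ) 1 = 1 := by
      rw [HahnSeries.single_mul_single]
      simp
    calc HahnSeries.C ((zeta p ^ (b : ℕ))⁻¹) * HahnSeries.single (-1 : ℤ) 1 *
          cB p b (toC jNum) * (HahnSeries.C (zeta p ^ (b : ℕ)) * HahnSeries.single (1 : ℤ) 1 *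
            cB p b UC)
        = (HahnSeries.C ((zeta p ^ (b : ℕ))⁻¹) * HahnSeries.C (zeta p ^ (b : ℕ))) *
            (HahnSeries.single (-1 : ℤ) (1 : ℂ) * HahnSeries.single (1 : ℤ) 1) *
            (cB p b (toC jNum) * cB p b UC) := by ring
      _ = _ := by rw [h1, h2, one_mul, one_mul]

theorem y_mul_w (i : Option (Fin p)) : y p i * w p i = Y p i := by
  rw [w, Y, ← y_mul_conj p i]
  ring

/-! ### Power sums of the `y i` -/

/-- polynomials over `ℂ((t))` with coefficients in `ℚ[j(t^p)]` -/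
abbrev BPoly : Subsemiring (Polynomial (LaurentSeries ℂ)) :=
  Polynomial.lifts ((Bsub p).val : (Bsub p) →+* LaurentSeries ℂ)

theorem mem_BPoly_iff (F : Polynomial (LaurentSeries ℂ)) :
    F ∈ BPoly p ↔ ∀ n, F.coeff n ∈ Bsub p := by
  rw [Polynomial.lifts_iff_coeff_lifts]
  constructor
  · intro h n
    obtain ⟨x, hx⟩ := h n
    rw [← hx]
    exact x.2
  · intro h n
    exact ⟨⟨F.coeff n, h n⟩, rfl⟩

theorem sum_Y_pow_mul_eval_mem (h : HeckeInput p) (a : ℕ) {F : Polynomial (LaurentSeries ℂ)}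
    (hF : F ∈ BPoly p) : ∑ i, Y p i ^ a * F.eval (w p i) ∈ Bsub p := by
  have h1 : ∀ i, Y p i ^ a * F.eval (w p i) =
      ∑ r ∈ Finset.range (F.natDegree + 1), F.coeff r * (Y p i ^ a * w p i ^ r) := by
    intro i
    rw [Polynomial.eval_eq_sum_range, Finset.mul_sum]
    exact Finset.sum_congr rfl fun r _ => by ring
  simp only [h1]
  rw [Finset.sum_comm]
  refine Subalgebra.sum_mem _ fun r _ => ?_
  rw [← Finset.mul_sum]
  obtain ⟨P, hP⟩ := sum_Y_pow_mul_w_pow p h a r
  rw [hP]
  exact Subalgebra.mul_mem _ ((mem_BPoly_iff p F).mp hF r) (theta_mem_Bsub p P)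

/-- the polynomial `G` with `w i * G(w i) = 1` -/
theorem exists_inv_poly (h : HeckeInput p) :
    ∃ G : Polynomial (LaurentSeries ℂ), G ∈ BPoly p ∧ ∀ i, w p i * G.eval (w p i) = 1 := by
  obtain ⟨c, hc0, hc⟩ := exists_WPoly_coeff_zero p h
  refine ⟨Polynomial.C (algebraMap ℚ (LaurentSeries ℂ) (-c⁻¹)) * (WPoly p).divX, ?_, ?_⟩
  · rw [mem_BPoly_iff]
    intro n
    rw [Polynomial.coeff_C_mul, Polynomial.coeff_divX]
    exact Subalgebra.mul_mem _ (Subalgebra.algebraMap_mem _ _) (WPoly_coeff_mem p h _)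
  · intro i
    have h1 := WPoly_eval p i
    rw [← Polynomial.divX_mul_X_add (WPoly p), Polynomial.eval_add, Polynomial.eval_mul,
      Polynomial.eval_X, Polynomial.eval_C, hc] at h1
    rw [Polynomial.eval_mul, Polynomial.eval_C]
    have h2 : (WPoly p).divX.eval (w p i) * w p i = -algebraMap ℚ (LaurentSeries ℂ) c :=
      eq_neg_of_add_eq_zero_left h1
    calc w p i * (algebraMap ℚ (LaurentSeries ℂ) (-c⁻¹) * (WPoly p).divX.eval (w p i))
        = algebraMap ℚ (LaurentSeries ℂ) (-c⁻¹) * ((WPoly p).divX.eval (w p i) * w p i) := by ring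
      _ = algebraMap ℚ (LaurentSeries ℂ) (-c⁻¹) * (-algebraMap ℚ (LaurentSeries ℂ) c) := by rw [h2]
      _ = algebraMap ℚ (LaurentSeries ℂ) (-c⁻¹ * -c) := by
        rw [map_mul, map_neg (algebraMap ℚ (LaurentSeries ℂ)) c]
      _ = 1 := by
        rw [neg_mul_neg, inv_mul_cancel₀ hc0, map_one]

theorem sum_y_pow_mem (h : HeckeInput p) (m : ℕ) : ∑ i, y p i ^ m ∈ Bsub p := by
  obtain ⟨G, hG, hGw⟩ := exists_inv_poly p h
  have h1 : ∀ i, y p i ^ m = Y p i ^ m * (G ^ m).eval (w p i) := by
    intro i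
    rw [Polynomial.eval_pow, ← mul_pow, ← y_mul_w, mul_assoc, hGw, mul_one]
  simp only [h1]
  exact sum_Y_pow_mul_eval_mem p h m (Subsemiring.pow_mem _ hG m)

/-! ### The polynomial `Φ` -/

/-- `Φ = ∏ (X - y i)` over `ℂ((t))` -/
def PhiPoly : Polynomial (LaurentSeries ℂ) := ∏ i, (Polynomial.X - Polynomial.C (y p i))

theorem PhiPoly_monic : (PhiPoly p).Monic :=
  Polynomial.monic_prod_of_monic _ _ fun _ _ => Polynomial.monic_X_sub_C _

theorem PhiPoly_natDegree : (PhiPoly p).natDegree = p + 1 := by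
  rw [PhiPoly, Polynomial.natDegree_prod_of_monic _ _ fun i _ => Polynomial.monic_X_sub_C _]
  simp

theorem PhiPoly_coeff_mem (h : HeckeInput p) (n : ℕ) : (PhiPoly p).coeff n ∈ Bsub p :=
  prod_X_sub_C_mem_of_psum_mem (Bsub p) (y p) (fun m _ => sum_y_pow_mem p h m) n

theorem PhiPoly_eval (i : Option (Fin p)) : (PhiPoly p).eval (y p i) = 0 := by
  rw [PhiPoly, Polynomial.eval_prod]
  exact Finset.prod_eq_zero (Finset.mem_univ i) (by simp)

/-! ### Integrality -/

theorem prod_X_sub_C_coeff_mem_subring (S : Subring (LaurentSeries ℂ)) {ι : Type*} [Fintype ι]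
    (z : ι → LaurentSeries ℂ) (hz : ∀ i, z i ∈ S) (n : ℕ) :
    (∏ i, (Polynomial.X - Polynomial.C (z i))).coeff n ∈ S := by
  have : (∏ i, (Polynomial.X - Polynomial.C (z i))) =
      (∏ i, (Polynomial.X - Polynomial.C (⟨z i, hz i⟩ : S))).map S.subtype := by
    rw [Polynomial.map_prod]
    refine Finset.prod_congr rfl fun i _ => ?_
    simp
  rw [this, Polynomial.coeff_map]
  exact Subtype.property _

theorem C_mem_IntCoeff {c : ℂ} (hc : IsIntegral ℤ c) : HahnSeries.C c ∈ IntCoeff := fun n => by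
  show IsIntegral ℤ ((HahnSeries.single 0 c).coeff n)
  rcases eq_or_ne n 0 with rfl | hn
  · rw [HahnSeries.coeff_single_same]; exact hc
  · rw [HahnSeries.coeff_single_of_ne hn]; exact isIntegral_zero

theorem single_one_mem_IntCoeff (e : ℤ) : HahnSeries.single e (1 : ℂ) ∈ IntCoeff := fun n => by
  rcases eq_or_ne n e with rfl | hn
  · rw [HahnSeries.coeff_single_same]; exact isIntegral_one
  · rw [HahnSeries.coeff_single_of_ne hn]; exact isIntegral_zero

theorem conj_mem_IntCoeff (i : Option (Fin p)) (g : PowerSeries ℤ) :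
    conj p i (toC g) ∈ IntCoeff := by
  cases i with
  | none =>
    simp only [conj, cInf, cBase, RingHom.comp_apply]
    rw [← kap_ofPS]
    exact qExpand_mem_IntCoeff p (qExpand_mem_IntCoeff p (kap_mem_IntCoeff _))
  | some b => exact cB_mem_IntCoeff p b g

theorem scal_mem_IntCoeff (i : Option (Fin p)) : scal p i ∈ IntCoeff := by
  cases i with
  | none => exact Subring.pow_mem _ (natCast_mem _ p) 12
  | some b => exact Subring.one_mem _

theorem w_mem_IntCoeff (i : Option (Fin p)) : w p i ∈ IntCoeff :=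
  Subring.mul_mem _ (Subring.mul_mem _ (scal_mem_IntCoeff p i) (conj_mem_IntCoeff p i DZ))
    (delInv_mem_IntCoeff p)

theorem zeta_pow_inv_isIntegral (b : ℕ) : IsIntegral ℤ ((zeta p ^ b)⁻¹) := by
  have h0 : zeta p ^ (p - 1) * zeta p = 1 := by
    rw [← pow_succ, Nat.sub_add_cancel (Nat.pos_of_ne_zero (NeZero.ne p)), zeta_pow_self]
  have h : (zeta p ^ b)⁻¹ = (zeta p ^ (p - 1)) ^ b := by
    rw [← inv_pow]
    congr 1
    exact (eq_inv_of_mul_eq_one_left h0).symm
  rw [h]
  exact ((zeta_isIntegral p).pow _).pow _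

theorem y_mem_IntCoeff (i : Option (Fin p)) : y p i ∈ IntCoeff := by
  cases i with
  | none =>
    simp only [y]
    have := jP_pow_mem_IntCoeff p 1
    rw [pow_one] at this
    exact qExpand_mem_IntCoeff p this
  | some b =>
    simp only [y]
    exact Subring.mul_mem _ (Subring.mul_mem _ (C_mem_IntCoeff (zeta_pow_inv_isIntegral p b))
      (single_one_mem_IntCoeff _)) (cB_mem_IntCoeff p b jNum)

/-! ### Lifting to `ℤ[Y][X]` -/

theorem exists_lift (F : Polynomial (LaurentSeries ℂ)) (hmonic : F.Monic)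
    (hB : ∀ n, F.coeff n ∈ Bsub p) (hI : ∀ n, F.coeff n ∈ IntCoeff) :
    ∃ Φ : Polynomial (Polynomial ℤ), Φ.Monic ∧ Φ.natDegree = F.natDegree ∧
      Φ.map (theta p) = F := by
  have hl : F ∈ Polynomial.lifts (theta p) := by
    rw [Polynomial.lifts_iff_coeff_lifts]
    intro n
    obtain ⟨Q, hQ⟩ := hB n
    have hQ' : Polynomial.aeval (jP p) Q = F.coeff n := hQ
    obtain ⟨Q', hQ''⟩ := exists_int_poly_of_integral p Q (hQ' ▸ hI n)
    exact ⟨Q', by rw [theta_eq_aeval, hQ'', hQ']⟩
  obtain ⟨Φ, h1, h2, h3⟩ := Polynomial.lifts_and_natDegree_eq_and_monic hl hmonic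
  exact ⟨Φ, h3, h2, h1⟩

/-- **The unit polynomial over `ℤ[j]`**. -/
theorem exists_W (h : HeckeInput p) :
    ∃ W : Polynomial (Polynomial ℤ), W.Monic ∧ W.natDegree = p + 1 ∧
      W.map (theta p) = WPoly p := by
  obtain ⟨W, h1, h2, h3⟩ := exists_lift p (WPoly p) (WPoly_monic p) (WPoly_coeff_mem p h)
    (fun n => prod_X_sub_C_coeff_mem_subring IntCoeff _ (w_mem_IntCoeff p) n)
  exact ⟨W, h1, h2.trans (WPoly_natDegree p), h3⟩

/-- **The modular polynomial over `ℤ[j]`**. -/
theorem exists_Phi (h : HeckeInput p) :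
    ∃ Φ : Polynomial (Polynomial ℤ), Φ.Monic ∧ Φ.natDegree = p + 1 ∧
      Φ.map (theta p) = PhiPoly p := by
  obtain ⟨Φ, h1, h2, h3⟩ := exists_lift p (PhiPoly p) (PhiPoly_monic p) (PhiPoly_coeff_mem p h)
    (fun n => prod_X_sub_C_coeff_mem_subring IntCoeff _ (y_mem_IntCoeff p) n)
  exact ⟨Φ, h1, h2.trans (PhiPoly_natDegree p), h3⟩

end Fermat.Agent.S28.H326

end
end
-- ===== PACK-END S28/H326/Conj.lean

-- ===== PACK-BEGIN S28/H326/Final.lean
section
/-
S28 / helper326: the prime-level analytic stubs of the captain skeleton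
(`ModPolyData p`, `UnitPolyData p` of `Fermat.Agent.S28.Defs`).
-/





set_option autoImplicit false
set_option linter.unusedSectionVars false

noncomputable section

namespace Fermat.Agent.S28.H326

open ModularCurve HahnSeries

variable (p : ℕ) [NeZero p]

/-- the base embedding `ℤ((q)) → ℂ((t))`, `q ↦ t^p` -/
def iotaP : LaurentSeries ℤ →+* LaurentSeries ℂ := (qExpand ℂ p).comp kap

theorem iotaP_injective : Function.Injective (iotaP p) :=
  (qExpand_injective p).comp kap_injective

theorem theta_eq_comp :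
    theta p = (iotaP p).comp (Polynomial.aeval (jqModC ℤ)).toRingHom := rfl

theorem theta_eq_comp' :
    theta p = kap.comp (Polynomial.aeval (qExpand ℤ p (jqModC ℤ))).toRingHom := by
  refine Polynomial.ringHom_ext (fun a => ?_) ?_
  · simp
  · rw [theta_X]
    simp only [RingHom.comp_apply, AlgHom.toRingHom_eq_coe, RingHom.coe_coe, Polynomial.aeval_X]
    rw [coeffMap_qExpand, coeffMap_jqModC, jP]

theorem iotaP_qExpand_jq : iotaP p (qExpand ℤ p (jqModC ℤ)) = y p none := by
  rw [iotaP, RingHom.comp_apply, coeffMap_qExpand, coeffMap_jqModC]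
  rfl

theorem kap_jq : kap (jqModC ℤ) = y p (some ⟨0, Nat.pos_of_ne_zero (NeZero.ne p)⟩) := by
  rw [coeffMap_jqModC]
  simp only [y, pow_zero, inv_one, map_one, one_mul, cB_zero]
  rfl

theorem deltaL_eq : deltaL ℤ = deltaZ := by
  rw [deltaL, deltaZ, DZ, map_mul, HahnSeries.ofPowerSeries_X]
  congr 2

theorem deltaInvL_eq : deltaInvL ℤ = deltaInvZ := by
  rw [deltaInvL, deltaInvZ]
  congr 2

theorem iotaP_unit :
    iotaP p ((p : LaurentSeries ℤ) ^ 12 * unitL ℤ p) = w p none := by
  rw [unitL, deltaL_eq, deltaInvL_eq, w, scal, conj, cInf, cBase, delInv, iotaP]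
  simp only [RingHom.comp_apply, map_mul, map_pow, map_natCast, coeffMap_qExpand]
  rw [deltaZ, kap_ofPS, DC]
  ring

/-- **[A-Φ]** existence of the modular polynomial of prime level `p`. -/
theorem nonempty_modPolyData (hp : p.Prime) : Nonempty (ModPolyData p) := by
  obtain ⟨Φ, hmonic, hdeg, hmap⟩ := exists_Phi p (heckeInput p hp)
  refine ⟨⟨Φ, hmonic, hdeg, ?_, ?_⟩⟩
  · apply iotaP_injective p
    rw [map_zero, Polynomial.hom_eval₂, ← theta_eq_comp, ← Polynomial.eval_map, hmap,
      iotaP_qExpand_jq]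
    exact PhiPoly_eval p none
  · apply kap_injective
    rw [map_zero, Polynomial.hom_eval₂, ← theta_eq_comp', ← Polynomial.eval_map, hmap, kap_jq p]
    exact PhiPoly_eval p _

/-- **[A-W]** `p¹² Δ(q^p)/Δ(q)` is integral over `ℤ[j]`. -/
theorem nonempty_unitPolyData (hp : p.Prime) : Nonempty (UnitPolyData p) := by
  obtain ⟨W, hmonic, -, hmap⟩ := exists_W p (heckeInput p hp)
  refine ⟨⟨W, hmonic, ?_⟩⟩
  apply iotaP_injective p
  rw [map_zero, Polynomial.hom_eval₂, ← theta_eq_comp, ← Polynomial.eval_map, hmap, iotaP_unit]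
  exact WPoly_eval p none

end Fermat.Agent.S28.H326

end
end
-- ===== PACK-END S28/H326/Final.lean

-- ===== PACK-BEGIN S18/Mod/H216/Eval.lean
section



/-!
# S18 / MOD (helper216): polynomials in `j` over `A ∩ E` — the evaluation dictionary

`S0 A E = A ∩ E ⊆ Q̄`,  `eRc : S0 ≃+* Rc M A E`,  `resS : S0 →+* κ`,
`Uev : (S0)[X] →+* intE M A E`, `X ↦ j`, with

* `toOm_Uev` : `toOm (Uev p) = evR (Rc M A E) (jOm M) (p.map eRc)`   (value in `Ω`),
* `redE_Uev` : `redE (Uev p) = evJ (p.map resS)`                      (reduction),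
* `redE_Uev_ne_zero_iff` : `redE (Uev p) ≠ 0 ↔ p.map resS ≠ 0`.
-/

set_option autoImplicit false
set_option linter.unusedSectionVars false

noncomputable section

namespace Fermat.Agent.S18.Mod.H216

open ModularCurve AlgebraicCurve HahnSeries Polynomial Fermat.Agent.S18 Fermat.Agent.S18.Mod

variable (M : ℕ) (A : ValuationSubring Qb) (E : IntermediateField ℚ Qb)

/-- `A ∩ E` as a subring of `Q̄`. -/
abbrev S0 : Subring Qb := A.toSubring ⊓ E.toSubfield.toSubring

theorem Rc_eq_map : Rc M A E = (S0 A E).map (algebraMap Qb (Om M)) := rfl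

/-- `A ∩ E ≃ Rc`. -/
def eRc : ↥(S0 A E) ≃+* ↥(Rc M A E) :=
  Subring.equivMapOfInjective (S0 A E) (algebraMap Qb (Om M)) (algebraMap Qb (Om M)).injective

@[simp] theorem coe_eRc (c : ↥(S0 A E)) :
    ((eRc M A E c : ↥(Rc M A E)) : Om M) = algebraMap Qb (Om M) (c : Qb) := rfl

/-- `A ∩ E → A`. -/
def s0ToA : ↥(S0 A E) →+* ↥A := Subring.inclusion (inf_le_left : S0 A E ≤ A.toSubring)

@[simp] theorem coe_s0ToA (c : ↥(S0 A E)) : ((s0ToA A E c : ↥A) : Qb) = (c : Qb) := rfl

/-- The residue map on `A ∩ E`. -/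
def resS : ↥(S0 A E) →+* IsLocalRing.ResidueField ↥A :=
  (IsLocalRing.residue ↥A).comp (s0ToA A E)

/-- Constant series. -/
def cS : ↥(S0 A E) →+* ↥(intE M A E) where
  toFun c := cInt M A E c.2.1 c.2.2
  map_one' := Subtype.ext (by simp [cInt]; rfl)
  map_mul' a b := Subtype.ext (by
    show HahnSeries.C (⟨(a : Qb) * (b : Qb), _⟩ : ↥A) = HahnSeries.C _ * HahnSeries.C _
    rw [← map_mul]
    rfl)
  map_zero' := Subtype.ext (by simp [cInt]; rfl)
  map_add' a b := Subtype.ext (by
    show HahnSeries.C (⟨(a : Qb) + (b : Qb), _⟩ : ↥A) = HahnSeries.C _ + HahnSeries.C _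
    rw [← map_add]
    rfl)

theorem toOm_cS (c : ↥(S0 A E)) : toOm M A E (cS M A E c) = algebraMap Qb (Om M) (c : Qb) :=
  toOm_cInt M A E c.2.1 c.2.2

theorem redE_cS (c : ↥(S0 A E)) : redE M A E (cS M A E c) = HahnSeries.C (resS A E c) :=
  redE_cInt M A E c.2.1 c.2.2

/-- Evaluation at `j` of polynomials over `A ∩ E`, as integral series. -/
def Uev : (↥(S0 A E))[X] →+* ↥(intE M A E) := Polynomial.eval₂RingHom (cS M A E) (jInt M A E)

theorem toOm_Uev (p : (↥(S0 A E))[X]) :
    toOm M A E (Uev M A E p) =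
      evR (Rc M A E) (jOm M) (p.map (eRc M A E : ↥(S0 A E) →+* ↥(Rc M A E))) := by
  have h : (toOm M A E).comp (Uev M A E) =
      (evR (Rc M A E) (jOm M)).comp
        (Polynomial.mapRingHom (eRc M A E : ↥(S0 A E) →+* ↥(Rc M A E))) := by
    apply Polynomial.ringHom_ext
    · intro c
      simp only [RingHom.comp_apply, Uev, Polynomial.coe_eval₂RingHom, Polynomial.eval₂_C,
        Polynomial.coe_mapRingHom, Polynomial.map_C, evR_C]
      rw [toOm_cS]
      rfl
    · simp only [RingHom.comp_apply, Uev, Polynomial.coe_eval₂RingHom, Polynomial.eval₂_X,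
        Polynomial.coe_mapRingHom, Polynomial.map_X, evR_X]
      exact toOm_jInt M A E
  exact RingHom.congr_fun h p

theorem redE_Uev (p : (↥(S0 A E))[X]) :
    redE M A E (Uev M A E p) = H516.evJ (p.map (resS A E)) := by
  have h : (redE M A E).comp (Uev M A E) =
      (Polynomial.eval₂RingHom (HahnSeries.C (Γ := ℤ) (R := IsLocalRing.ResidueField ↥A))
        (jqModC (IsLocalRing.ResidueField ↥A))).comp (Polynomial.mapRingHom (resS A E)) := by
    apply Polynomial.ringHom_ext
    · intro c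
      simp only [RingHom.comp_apply, Uev, Polynomial.coe_eval₂RingHom, Polynomial.eval₂_C,
        Polynomial.coe_mapRingHom, Polynomial.map_C]
      exact redE_cS M A E c
    · simp only [RingHom.comp_apply, Uev, Polynomial.coe_eval₂RingHom, Polynomial.eval₂_X,
        Polynomial.coe_mapRingHom, Polynomial.map_X]
      exact redE_jInt M A E
  exact RingHom.congr_fun h p

theorem redE_Uev_eq_zero_iff (p : (↥(S0 A E))[X]) :
    redE M A E (Uev M A E p) = 0 ↔ p.map (resS A E) = 0 := by
  rw [redE_Uev, H516.evJ_eq_zero_iff]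

/-- Every polynomial over `Rc` comes from a polynomial over `A ∩ E`. -/
theorem evR_eq_toOm_Uev (p : (↥(Rc M A E))[X]) :
    evR (Rc M A E) (jOm M) p =
      toOm M A E (Uev M A E (p.map ((eRc M A E).symm : ↥(Rc M A E) →+* ↥(S0 A E)))) := by
  rw [toOm_Uev, Polynomial.map_map]
  have : ((eRc M A E : ↥(S0 A E) →+* ↥(Rc M A E)).comp
      ((eRc M A E).symm : ↥(Rc M A E) →+* ↥(S0 A E))) = RingHom.id _ := by
    ext c
    simp
  rw [this, Polynomial.map_id]

end Fermat.Agent.S18.Mod.H216

end
end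
-- ===== PACK-END S18/Mod/H216/Eval.lean

-- ===== PACK-BEGIN S18/Mod/H216/PartVj.lean
section


/-!
# S18 / MOD (helper216): G-V for the coordinate `j` — the fields that need no basis

For a uniformiser `w` (`PartR (Ec M E) (Rc M A E) w`):
`R_le_V`, `w_inv_not_mem_V`, `V_gen`, `gauss` for `V = Vc M A E`, `x = jOm M`.
(`V_total` needs the S28 basis: see `Basis.lean`.)
-/

set_option autoImplicit false
set_option linter.unusedSectionVars false

noncomputable section

namespace Fermat.Agent.S18.Mod.H216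

open ModularCurve AlgebraicCurve HahnSeries Polynomial Fermat.Agent.S18 Fermat.Agent.S18.Mod

variable (M : ℕ) (A : ValuationSubring Qb) (E : IntermediateField ℚ Qb)

/-! ### Units and non-units of `A` -/

theorem residue_eq_zero_of_inv_not_mem {c : Qb} (hc : c ∈ A) (hinv : c⁻¹ ∉ A) :
    IsLocalRing.residue ↥A ⟨c, hc⟩ = 0 := by
  rw [IsLocalRing.residue_eq_zero_iff, IsLocalRing.mem_maximalIdeal, mem_nonunits_iff]
  rintro ⟨u, hu⟩
  apply hinv
  have h1 : (⟨c, hc⟩ : ↥A) * ((u⁻¹ : (↥A)ˣ) : ↥A) = 1 := by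
    rw [← hu]
    exact u.mul_inv
  have h2 : c * ((((u⁻¹ : (↥A)ˣ) : ↥A) : Qb)) = 1 := congrArg Subtype.val h1
  have h3 : c⁻¹ = ((((u⁻¹ : (↥A)ˣ) : ↥A) : Qb)) := inv_eq_of_mul_eq_one_right h2
  rw [h3]
  exact SetLike.coe_mem _

theorem residue_ne_zero_of_inv_mem {c : Qb} (hc : c ∈ A) (hc0 : c ≠ 0) (hinv : c⁻¹ ∈ A) :
    IsLocalRing.residue ↥A ⟨c, hc⟩ ≠ 0 := by
  rw [Ne, IsLocalRing.residue_eq_zero_iff, IsLocalRing.mem_maximalIdeal, mem_nonunits_iff, not_not]
  exact IsUnit.of_mul_eq_one (⟨c⁻¹, hinv⟩ : ↥A) (Subtype.ext (mul_inv_cancel₀ hc0))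

theorem inv_not_mem_of_residue_eq_zero {c : Qb} (hc : c ∈ A) (hc0 : c ≠ 0)
    (h : IsLocalRing.residue ↥A ⟨c, hc⟩ = 0) : c⁻¹ ∉ A :=
  fun hinv => residue_ne_zero_of_inv_mem A hc hc0 hinv h

/-! ### Constants -/

theorem algebraMap_mem_Rc_iff {c : Qb} : algebraMap Qb (Om M) c ∈ Rc M A E ↔ c ∈ A ∧ c ∈ E := by
  constructor
  · intro h
    obtain ⟨c', hA, hE, hcc⟩ := (mem_Rc_iff M A E).mp h
    have : c' = c := (algebraMap Qb (Om M)).injective hcc
    exact this ▸ ⟨hA, hE⟩
  · rintro ⟨hA, hE⟩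
    exact (mem_Rc_iff M A E).mpr ⟨c, hA, hE, rfl⟩

/-- The uniformiser data extracted from `PartR`. -/
theorem exists_unif {w : Om M} (hR : PartR (Ec M E) (Rc M A E) w) :
    ∃ c : Qb, c ∈ A ∧ c ∈ E ∧ c ≠ 0 ∧ c⁻¹ ∉ A ∧ algebraMap Qb (Om M) c = w := by
  obtain ⟨c, hA, hE, rfl⟩ := (mem_Rc_iff M A E).mp hR.w_mem
  refine ⟨c, hA, hE, ?_, ?_, rfl⟩
  · intro h0
    apply hR.w_ne_zero
    rw [h0, map_zero]
  · intro hinv
    apply hR.w_inv_not_mem
    rw [← map_inv₀]
    exact (algebraMap_mem_Rc_iff M A E).mpr ⟨hinv, inv_mem hE⟩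

theorem R_le_V : Rc M A E ≤ Vc M A E := by
  intro r hr
  obtain ⟨c, hA, hE, rfl⟩ := (mem_Rc_iff M A E).mp hr
  rw [← toOm_cInt M A E hA hE]
  exact toOm_mem_Vc M A E _

theorem w_inv_not_mem_V {w : Om M} (hR : PartR (Ec M E) (Rc M A E) w) : w⁻¹ ∉ Vc M A E := by
  obtain ⟨c, hA, hE, hc0, hcinv, rfl⟩ := exists_unif M A E hR
  intro h
  obtain ⟨U₁, U₂, hne, heq⟩ := (mem_Vc_iff' M A E).mp h
  have hw0 : algebraMap Qb (Om M) c ≠ 0 := hR.w_ne_zero
  have h1 : toOm M A E U₂ = toOm M A E (cInt M A E hA hE * U₁) := by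
    rw [map_mul, toOm_cInt, ← heq, ← mul_assoc, mul_inv_cancel₀ hw0, one_mul]
  have h2 : U₂ = cInt M A E hA hE * U₁ := toOm_injective M A E h1
  apply hne
  rw [h2, map_mul, redE_cInt, residue_eq_zero_of_inv_not_mem A hA hcinv, map_zero, zero_mul]

/-! ### Division of a series by the uniformiser -/

open Classical in
/-- Coefficientwise division by `c` (junk value `0` when the quotient is not in `A`). -/
def divC (c : Qb) : ZeroHom ↥A ↥A where
  toFun a := if h : (a : Qb) * c⁻¹ ∈ A then ⟨(a : Qb) * c⁻¹, h⟩ else 0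
  map_zero' := by
    have h : ((0 : ↥A) : Qb) * c⁻¹ ∈ A := by simp
    rw [dif_pos h]
    apply Subtype.ext
    simp

open Classical in
theorem divC_apply {c : Qb} {a : ↥A} (h : (a : Qb) * c⁻¹ ∈ A) :
    ((divC A c a : ↥A) : Qb) = (a : Qb) * c⁻¹ := by
  show ((if h : (a : Qb) * c⁻¹ ∈ A then (⟨(a : Qb) * c⁻¹, h⟩ : ↥A) else 0 : ↥A) : Qb) = _
  rw [dif_pos h]

theorem algebraMap_LS_eq_C (c : Qb) :
    algebraMap Qb (LaurentSeries Qb) c = HahnSeries.C c := by
  rw [algebraMap_laurentSeries_eq_single, ← HahnSeries.C_apply]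

/-- A series with zero reduction is divisible by the uniformiser inside `intE`. -/
theorem exists_eq_unif_mul {w : Om M} (hR : PartR (Ec M E) (Rc M A E) w)
    {U : ↥(intE M A E)} (hU : redE M A E U = 0) :
    ∃ U' : ↥(intE M A E), toOm M A E U = w * toOm M A E U' := by
  obtain ⟨c, hA, hE, hc0, hcinv, rfl⟩ := exists_unif M A E hR
  have hUE : ∀ n, (((U : LaurentSeries ↥A).coeff n : ↥A) : Qb) ∈ E :=
    ((mem_intE M A E).mp U.2).1
  have hres : ∀ n, IsLocalRing.residue ↥A ((U : LaurentSeries ↥A).coeff n) = 0 := by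
    intro n
    have := congrArg (fun z : LaurentSeries (IsLocalRing.ResidueField ↥A) => z.coeff n) hU
    simpa using this
  have hdiv : ∀ n, (((U : LaurentSeries ↥A).coeff n : ↥A) : Qb) * c⁻¹ ∈ A := by
    intro n
    set a := (U : LaurentSeries ↥A).coeff n with ha
    by_cases ha0 : (a : Qb) = 0
    · rw [ha0, zero_mul]
      exact zero_mem _
    have hr : algebraMap Qb (Om M) (a : Qb) ∈ Rc M A E :=
      (algebraMap_mem_Rc_iff M A E).mpr ⟨a.2, hUE n⟩
    have hrinv : (algebraMap Qb (Om M) (a : Qb))⁻¹ ∉ Rc M A E := by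
      rw [← map_inv₀, algebraMap_mem_Rc_iff]
      rintro ⟨h, -⟩
      exact inv_not_mem_of_residue_eq_zero A a.2 ha0 (hres n) h
    have := hR.w_gen _ hr hrinv
    rw [← map_inv₀, ← map_mul, algebraMap_mem_Rc_iff] at this
    exact this.1
  set U' : LaurentSeries ↥A := (U : LaurentSeries ↥A).map (divC A c) with hU'
  have hcoeff : ∀ n, ((U'.coeff n : ↥A) : Qb) = (((U : LaurentSeries ↥A).coeff n : ↥A) : Qb) * c⁻¹ :=
    fun n => divC_apply A (hdiv n)
  have hmul : inclA A (U : LaurentSeries ↥A) = HahnSeries.C c * inclA A U' := by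
    ext n
    rw [HahnSeries.C_mul_eq_smul, HahnSeries.coeff_smul]
    show (((U : LaurentSeries ↥A).coeff n : ↥A) : Qb) = c • ((U'.coeff n : ↥A) : Qb)
    rw [hcoeff, smul_eq_mul]
    field_simp
  have hw0 : algebraMap Qb (Om M) c ≠ 0 := hR.w_ne_zero
  have hincl : inclA A U' =
      (((algebraMap Qb (Om M) c)⁻¹ * toOm M A E U : Om M) : LaurentSeries Qb) := by
    have hC0 : (HahnSeries.C c : LaurentSeries Qb) ≠ 0 := by
      rw [← coe_algebraMap_Om M c]
      exact fun h => hw0 (Subtype.ext h)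
    push_cast
    rw [algebraMap_LS_eq_C, coe_toOm, hmul, ← mul_assoc, inv_mul_cancel₀ hC0, one_mul]
  have hmem : U' ∈ intE M A E := by
    rw [mem_intE]
    refine ⟨fun n => ?_, (algebraMap Qb (Om M) c)⁻¹ * toOm M A E U, ?_, hincl.symm⟩
    · rw [hcoeff]
      exact mul_mem (hUE n) (inv_mem hE)
    · exact mul_mem (inv_mem (Ec_le_Fc M E ((mem_Ec_iff M E).mpr ⟨c, hE, rfl⟩)))
        (toOm_mem_Fc M A E U)
  refine ⟨⟨U', hmem⟩, ?_⟩
  apply Subtype.ext
  push_cast
  rw [algebraMap_LS_eq_C, coe_toOm, coe_toOm]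
  exact hmul

theorem V_gen {w : Om M} (hR : PartR (Ec M E) (Rc M A E) w) :
    ∀ f ∈ Vc M A E, f⁻¹ ∉ Vc M A E → f * w⁻¹ ∈ Vc M A E := by
  intro f hf hfinv
  obtain ⟨U₁, U₂, hne, heq⟩ := (mem_Vc_iff' M A E).mp hf
  have hw0 := hR.w_ne_zero
  have h1 : redE M A E U₁ = 0 := by
    by_contra h1
    apply hfinv
    have hU1 := toOm_ne_zero_of_redE M A E h1
    have hf0 : f ≠ 0 := by
      intro h0
      rw [h0, zero_mul] at heq
      exact hU1 heq.symm
    refine (mem_Vc_iff' M A E).mpr ⟨U₂, U₁, h1, ?_⟩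
    rw [← heq, ← mul_assoc, inv_mul_cancel₀ hf0, one_mul]
  obtain ⟨U', hU'⟩ := exists_eq_unif_mul M A E hR h1
  refine (mem_Vc_iff' M A E).mpr ⟨U', U₂, hne, ?_⟩
  rw [mul_right_comm, heq, hU', mul_comm w, mul_assoc, mul_inv_cancel₀ hw0, mul_one]

/-! ### The Gauss property -/

theorem gauss_j (P : Polynomial (Om M)) (hP : ∀ i, P.coeff i ∈ Rc M A E)
    (hu : ∃ i, P.coeff i ≠ 0 ∧ (P.coeff i)⁻¹ ∈ Rc M A E) :
    (P.eval (jOm M))⁻¹ ∈ Vc M A E := by
  have hlifts : P ∈ Polynomial.lifts (Rc M A E).subtype :=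
    (Polynomial.lifts_iff_coeff_lifts P).mpr fun i => ⟨⟨P.coeff i, hP i⟩, rfl⟩
  obtain ⟨p, hp⟩ := (Polynomial.mem_lifts P).mp hlifts
  have hev : P.eval (jOm M) = evR (Rc M A E) (jOm M) p := by
    rw [← hp, evR_apply, Polynomial.eval_map]
  rw [hev, evR_eq_toOm_Uev]
  apply inv_toOm_mem_Vc
  rw [Ne, redE_Uev_eq_zero_iff]
  obtain ⟨i, hi0, hiinv⟩ := hu
  intro h0
  have h1 := congrArg (fun q => q.coeff i) h0
  simp only [Polynomial.coeff_map, Polynomial.coeff_zero] at h1
  set c := (eRc M A E).symm (p.coeff i) with hc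
  have hcP : algebraMap Qb (Om M) (c : Qb) = P.coeff i := by
    have h2 : ((eRc M A E c : ↥(Rc M A E)) : Om M) = ((p.coeff i : ↥(Rc M A E)) : Om M) := by
      rw [hc, RingEquiv.apply_symm_apply]
    rw [coe_eRc] at h2
    rw [h2, ← hp, Polynomial.coeff_map]
    rfl
  have hc0 : (c : Qb) ≠ 0 := by
    intro h
    apply hi0
    rw [← hcP, h, map_zero]
  have hcinv : (c : Qb)⁻¹ ∈ A := by
    rw [← hcP, ← map_inv₀, algebraMap_mem_Rc_iff] at hiinv
    exact hiinv.1
  exact residue_ne_zero_of_inv_mem A c.2.1 hc0 hcinv h1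

end Fermat.Agent.S18.Mod.H216

end
end
-- ===== PACK-END S18/Mod/H216/PartVj.lean

-- ===== PACK-BEGIN S18/H107/T2Model.lean
section






/-!
# helper107 — S18 / M3-T : the good model for the coordinate `t₂` (case `ℓ = 3`)

`goodModel_t2_107` : from the `j`-model WITHOUT branch-set fields (`BaseModel107 … j`, true for
every `ℓ ∤ M`), the branch data of the `j`-line in characteristic `0` (`BranchJ107`), the identity
`j t² = (t + 256)³`, `2⁻¹ ∈ R`, `t ∈ Fc ∩ V` and the Gauss property of `t`, we get the frozen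
`Alg.GoodModel Lc Ec Fc R V w t S` with `S = {0, -64}`.
-/

set_option autoImplicit false

namespace Fermat.Agent.S18.H107

open Polynomial Fermat.Agent.S18.Alg

variable {Ω : Type*} [Field Ω]

theorem ne_zero_of_transcendental107 {Lc : Subfield Ω} {j : Ω} (h : Transcendental Lc j) :
    j ≠ 0 := by
  rintro rfl
  exact h isAlgebraic_zero

/-- `gauss` applied to `X + C a`. -/
theorem gauss_X_add_C107 {R V : Subring Ω} {t : Ω}
    (hgauss : ∀ P : Polynomial Ω, (∀ i, P.coeff i ∈ R) →
      (∃ i, P.coeff i ≠ 0 ∧ (P.coeff i)⁻¹ ∈ R) → (P.eval t)⁻¹ ∈ V)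
    {a : Ω} (ha : a ∈ R) : (t + a)⁻¹ ∈ V := by
  have := hgauss (X + C a) (fun i => ?_) ⟨1, ?_, ?_⟩
  · simpa using this
  · rw [coeff_add, coeff_X, coeff_C]
    split_ifs
    · exact R.add_mem R.one_mem ha
    · exact R.add_mem R.one_mem R.zero_mem
    · exact R.add_mem R.zero_mem ha
    · exact R.add_mem R.zero_mem R.zero_mem
  · simp [coeff_X]
  · simp [coeff_X, R.one_mem]

theorem gauss_X107 {R V : Subring Ω} {t : Ω}
    (hgauss : ∀ P : Polynomial Ω, (∀ i, P.coeff i ∈ R) →
      (∃ i, P.coeff i ≠ 0 ∧ (P.coeff i)⁻¹ ∈ R) → (P.eval t)⁻¹ ∈ V) : t⁻¹ ∈ V := by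
  have := gauss_X_add_C107 hgauss R.zero_mem
  rwa [add_zero] at this

theorem goodModel_t2_107 {Lc Ec Fc : Subfield Ω} {R V : Subring Ω} {w j t : Ω} {S : Finset Ω}
    (hb : BaseModel107 Lc Ec Fc R V w j) (hB : BranchJ107 Lc j)
    (hrel : j * t ^ 2 = (t + 256) ^ 3) (htF : t ∈ Fc) (htV : t ∈ V) (h2 : (2 : Ω)⁻¹ ∈ R)
    (hgauss : ∀ P : Polynomial Ω, (∀ i, P.coeff i ∈ R) →
      (∃ i, P.coeff i ≠ 0 ∧ (P.coeff i)⁻¹ ∈ R) → (P.eval t)⁻¹ ∈ V)
    (hS : ∀ s, s ∈ S ↔ s = 0 ∨ s = -64) :
    GoodModel Lc Ec Fc R V w t S := by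
  have := hb.charZero
  have hj0 : j ≠ 0 := ne_zero_of_transcendental107 hb.x_transcendental
  have hH : HauptT2107 Fc R V j t :=
    { rel := hrel
      two_inv := h2
      two_ne := two_ne_zero
      j_ne := hj0
      t_mem_Fc := htF
      t_mem_V := htV
      t256_inv_mem_V := gauss_X_add_C107 hgauss (ofNat_mem R 256) }
  have ht0 : t ≠ 0 := hH.t_ne
  have hwF : w ∈ Fc := hb.E_le_F (hb.R_le hb.w_mem)
  have htinvV : t⁻¹ ∈ V := gauss_X107 hgauss
  have h64 : (64 : Ω)⁻¹ ∈ R := by
    have := R.pow_mem h2 6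
    have e : ((2 : Ω)⁻¹) ^ 6 = (64 : Ω)⁻¹ := by norm_num
    rwa [e] at this
  -- `j ∈ Ec(t)`
  have hjrat : j ∈ ratField Ec t := by
    have e : j = (t + 256) ^ 3 * (t ^ 2)⁻¹ := by
      field_simp
      linear_combination hrel
    rw [e]
    have ht := self_mem_ratField107 Ec t
    exact mul_mem (pow_mem (add_mem ht (ofNat_mem _ 256)) 3) (inv_mem (pow_mem ht 2))
  -- transcendence of `t`
  have htr : Transcendental Lc t := by
    intro halg
    apply hb.x_transcendental
    have e : j = (t + 256) ^ 3 * (t ^ 2)⁻¹ := by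
      field_simp
      linear_combination hrel
    rw [e]
    have h256 : IsAlgebraic Lc (256 : Ω) := by
      have : (256 : Ω) = algebraMap Lc Ω (256 : Lc) := by
        rw [map_ofNat]
      rw [this]
      exact isAlgebraic_algebraMap _
    exact ((halg.add h256).pow 3).mul (halg.pow 2).inv
  refine (show BaseModel107 Lc Ec Fc R V w t from
    { charZero := hb.charZero
      R_le := hb.R_le
      R_total := hb.R_total
      w_mem := hb.w_mem
      w_ne_zero := hb.w_ne_zero
      w_inv_not_mem := hb.w_inv_not_mem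
      w_gen := hb.w_gen
      w_discrete := hb.w_discrete
      residue_perfect := hb.residue_perfect
      E_le_L := hb.E_le_L
      E_le_F := hb.E_le_F
      L_algebraic := hb.L_algebraic
      L_algClosed := hb.L_algClosed
      E_closed_in_F := hb.E_closed_in_F
      compositum := hb.compositum
      x_mem := htF
      x_transcendental := htr
      finite := finite_transfer107 hjrat hb.finite
      V_le := hb.V_le
      V_total := hb.V_total
      R_le_V := hb.R_le_V
      w_inv_not_mem_V := hb.w_inv_not_mem_V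
      V_gen := hb.V_gen
      x_mem_V := htV
      gauss := hgauss
      qep_fin := hH.qep_fin hwF hb.qep_fin hb.qep_inf
      qep_inf := hH.qep_inf hwF hb.qep_fin hb.qep_inf
      separable := separable_transfer107 (e := t ^ 2)
        (Subring.pow_mem _ (self_mem_polyRing107 R t) 2)
        (by
          rw [hrel]
          exact Subring.pow_mem _
            (Subring.add_mem _ (self_mem_polyRing107 R t) (ofNat_mem _ 256)) 3)
        (V.pow_mem htV 2) (by rw [← inv_pow]; exact V.pow_mem htinvV 2) (pow_ne_zero _ ht0)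
        hb.separable }).toGoodModel S ?_ ?_ ?_ ?_
  · intro s hs
    rcases (hS s).1 hs with rfl | rfl
    · exact R.zero_mem
    · exact R.neg_mem (ofNat_mem R 64)
  · intro s hs s' hs' hne
    rcases (hS s).1 hs with rfl | rfl <;> rcases (hS s').1 hs' with rfl | rfl
    · exact absurd rfl hne
    · have e : ((0 : Ω) - -64)⁻¹ = (64 : Ω)⁻¹ := by norm_num
      rw [e]
      exact h64
    · have e : ((-64 : Ω) - 0)⁻¹ = -(64 : Ω)⁻¹ := by
        rw [sub_zero, inv_neg]
      rw [e]
      exact R.neg_mem h64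
    · exact absurd rfl hne
  · intro s hs hs0
    rcases (hS s).1 hs with rfl | rfl
    · exact absurd rfl hs0
    · rw [inv_neg]
      exact R.neg_mem h64
  · intro O hL c hc hcS hz hz'
    have hc0 : c ≠ 0 := fun h => hcS ((hS c).2 (Or.inl h))
    have hc64 : c ≠ -64 := fun h => hcS ((hS c).2 (Or.inr h))
    exact unramified_t2_107 Lc j t hrel hB O hL c hc hc64 hc0 hz hz'

end Fermat.Agent.S18.H107

end
-- ===== PACK-END S18/H107/T2Model.lean

-- ===== PACK-BEGIN S18/B12/H444/GenericDiscrSpec.lean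
section




/-!
# S18 / b2.5 / A5 (helper444): `GenericDiscrStatement` in the exact frozen shape

`theorem genericDiscr : GenericDiscrStatement` (frozen in `B12/Spec2.lean`, squad-lead helper33),
from `genericDiscr_abs` (`GenericDiscr.lean`) with `Λ := Localization.Away w`,
`C₀ := Localization (algebraMapSubmonoid B (powers w))` and helper274's tame discriminant bound
(`H274.tameDiscr`, on main).
-/

set_option autoImplicit false

noncomputable section

namespace Fermat.Agent.S18.B12.H444

open Polynomial Module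

universe u v

/-- A commutative ring in which all positive integers are units is a `ℚ`-algebra. -/
def ratAlgebraOfUnits (Λ : Type u) [CommRing Λ] (h : ∀ m : ℕ, m ≠ 0 → IsUnit ((m : ℕ) : Λ)) :
    Algebra ℚ Λ :=
  RingHom.toAlgebra
    (IsLocalization.lift (M := nonZeroDivisors ℤ) (S := ℚ) (g := Int.castRingHom Λ)
      (fun y => by
        have hy : (y : ℤ) ≠ 0 := nonZeroDivisors.coe_ne_zero y
        have hn : (y : ℤ).natAbs ≠ 0 := Int.natAbs_ne_zero.mpr hy
        have hu := h _ hn
        rcases Int.natAbs_eq (y : ℤ) with h1 | h1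
        · have : Int.castRingHom Λ (y : ℤ) = (((y : ℤ).natAbs : ℕ) : Λ) := by
            conv_lhs => rw [h1]
            simp
          rw [this]; exact hu
        · have : Int.castRingHom Λ (y : ℤ) = -(((y : ℤ).natAbs : ℕ) : Λ) := by
            conv_lhs => rw [h1]
            simp
          rw [this]; exact hu.neg))

theorem not_dvd_of_not_associated {P : Type u} [CommRing P] [IsDomain P] {π w : P}
    (hπ : Prime π) (hw : Prime w) (h : ¬ Associated π w) : ¬ π ∣ w := by
  rintro ⟨c, hc⟩
  rcases hw.irreducible.isUnit_or_isUnit hc with h1 | h1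
  · exact hπ.not_isUnit h1
  · exact h ⟨h1.unit, by simp [hc]⟩

/-- **A5** in the exact frozen shape of `B12/Spec2.lean`. -/
theorem genericDiscr : GenericDiscrStatement.{u, v} := by
  intro P _ _ _ _ w hw hPID hunits B _ _ _ _ _ _ π hπ hπw n x hx r y hy
  obtain ⟨hli, g, hgπ, hg⟩ := hx
  have hw0 : w ≠ 0 := hw.ne_zero
  let Λ := Localization.Away w
  let C₀ := Localization (Algebra.algebraMapSubmonoid B (Submonoid.powers w))
  letI : Algebra Λ C₀ := localizationAlgebra (Submonoid.powers w) B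
  haveI : IsScalarTower P Λ C₀ := IsScalarTower.of_algebraMap_eq'
    (by rw [RingHom.algebraMap_toAlgebra, IsLocalization.map_comp, ← IsScalarTower.algebraMap_eq])
  haveI : IsDomain Λ := IsLocalization.isDomain_localization (powers_le_nonZeroDivisors' w hw0)
  haveI : IsPrincipalIdealRing Λ := hPID
  letI : Algebra ℚ Λ := ratAlgebraOfUnits Λ (fun m hm => by
    have := hunits m hm
    rwa [map_natCast] at this)
  unfold intDiscr
  exact genericDiscr_abs B w hw0 Λ C₀ π hπ (not_dvd_of_not_associated hπ hw hπw) n x hli g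
    (fun h => hgπ (Ideal.mem_span_singleton.mpr h)) hg r y hy

end Fermat.Agent.S18.B12.H444

end
end
-- ===== PACK-END S18/B12/H444/GenericDiscrSpec.lean

-- ===== PACK-BEGIN S18/B12/H84/Stmt.lean
section





/-!
# S18 / b2.5 / A8 + A9 (helper84): the `Spec3`-typed statements

* `a9 : RegularAlongOfDedekindStatement`
* `a8_of_sfLattice : SFLatticeStatement → IntClosedOfDiscrStatement`
* `a8 : IntClosedOfDiscrStatement` (unconditional, with Theorem L = `H278.sfLattice` on main)
-/

set_option autoImplicit false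

namespace Fermat.Agent.S18.B12.H84

universe u v

/-- **A9**, exact frozen shape. -/
theorem a9 : B12.RegularAlongOfDedekindStatement.{u} :=
  fun B _ ϖ hD 𝔪 h𝔪 hϖ => regularAlongOfDedekind B ϖ hD 𝔪 h𝔪 hϖ

/-- **A8** from Theorem L, exact frozen shapes. -/
theorem a8_of_sfLattice (hSF : B12.SFLatticeStatement.{u, v}) :
    B12.IntClosedOfDiscrStatement.{u, v} :=
  fun Λ _ _ _ C _ _ _ n b hdisc hbound =>
    intClosedOfDiscr_of_sfLattice hSF Λ C n b hdisc hbound

/-- **A8**, exact frozen shape, unconditional (Theorem L from `H278.sfLattice`). -/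
theorem a8 : B12.IntClosedOfDiscrStatement.{u, v} :=
  a8_of_sfLattice H278.sfLattice.{u, v}

end Fermat.Agent.S18.B12.H84

end
-- ===== PACK-END S18/B12/H84/Stmt.lean

-- ===== PACK-BEGIN A2/H348/Conn.lean
section



/-!
# A2 / piece E (ALG_ss), part 5: the connectedness input from S18 (`H138.connected_special_fibre`)

`R` a noetherian domain with `R[X]` integrally closed, `F ⊇ R` a field of characteristic `0`,
`x ∈ F` transcendental over `R`, `F` finite over `Frac R (x)`.  For every finite field extension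
`L / F` in which `R` is integrally closed (constants do not grow), the special fibre of the
normalisation of the `x`-line model in `L` is connected: `ConnAt w B_fin B_inf B_mid L`
(`conn_of_const`).
-/

set_option autoImplicit false
set_option linter.unusedSectionVars false
set_option linter.style.haveILetI false

open Polynomial

namespace Fermat.Agent.A2.H348

open Fermat.Agent.S18.H138 (chart baseField)

section Adapter

variable {R F L : Type*} [CommRing R] [Field F] [Field L] [Algebra R F] [Algebra F L]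
  [Algebra R L] [IsScalarTower R F L]

/-- integrality over a subalgebra `T ⊆ F` and over its image in `L`. -/
theorem isIntegral_map_iff (T : Subalgebra R F) (e : L) :
    IsIntegral (T.map (IsScalarTower.toAlgHom R F L)) e ↔ IsIntegral T e := by
  have hinj : Function.Injective (IsScalarTower.toAlgHom R F L) := (algebraMap F L).injective
  set ψ := Subalgebra.equivMapOfInjective T (IsScalarTower.toAlgHom R F L) hinj with hψ
  constructor
  · intro h
    have := IsIntegral.map_of_comp_eq (R := T.map (IsScalarTower.toAlgHom R F L)) (S := L)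
      (T := T) (U := L) (ψ.symm : _ →+* _) (RingHom.id L) (by
        ext a
        obtain ⟨b, rfl⟩ := ψ.surjective a
        simp only [RingHom.coe_comp, Function.comp_apply, RingHom.coe_coe,
          AlgEquiv.symm_apply_apply, RingHom.id_apply]
        rfl) h
    simpa using this
  · intro h
    have := IsIntegral.map_of_comp_eq (R := T) (S := L)
      (T := T.map (IsScalarTower.toAlgHom R F L)) (U := L) (ψ : _ →+* _) (RingHom.id L) (by
        ext a
        rfl) h
    simpa using this

/-- integrality over a chart of `F` is integrality over the generating subalgebra. -/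
theorem isIntegral_chart_iff (S : Set F) (e : L) :
    IsIntegral (chart R S) e ↔ IsIntegral (Algebra.adjoin R S) e := by
  constructor
  · intro h
    -- transitivity
    set T := Algebra.adjoin R S with hT
    have h1 : IsIntegral (integralClosure T F) e := by
      have := IsIntegral.map_of_comp_eq (R := chart R S) (S := L)
        (T := integralClosure T F) (U := L)
        (RingHom.id _ : (integralClosure T F) →+* (integralClosure T F)) (RingHom.id L) (by
          ext a
          rfl) h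
      simpa using this
    exact isIntegral_trans (R := T) (A := integralClosure T F) e h1
  · intro h
    exact _root_.Fermat.Agent.A2.H348.isIntegral_of_le (Fermat.Agent.S18.H138.adjoin_le_chart S) h

/-- membership in a chart of `L` in terms of integrality over the chart of `F`. -/
theorem mem_chart_image_iff (S : Set F) (e : L) :
    e ∈ chart R ((algebraMap F L) '' S) ↔ IsIntegral (chart R S) e := by
  rw [isIntegral_chart_iff, ← isIntegral_map_iff, AlgHom.map_adjoin]
  rfl

end Adapter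

section Conn

variable {R F L : Type*} [CommRing R] [Field F] [Field L] [Algebra R F] [Algebra F L]
  [Algebra R L] [IsScalarTower R F L]

/-- `L` is finite over the base field of the `x`-line. -/
theorem finiteDimensional_baseField [FiniteDimensional F L] (x : F)
    [FiniteDimensional (baseField R x) F] :
    FiniteDimensional (baseField R (algebraMap F L x)) L := by
  set K := baseField R x with hK
  set K' := baseField R (algebraMap F L x) with hK'
  have hle : K ≤ K'.comap (algebraMap F L) := by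
    refine Subfield.closure_le.2 ?_
    rintro y (⟨r, rfl⟩ | hy)
    · show algebraMap F L (algebraMap R F r) ∈ K'
      rw [← IsScalarTower.algebraMap_apply]
      exact Subfield.subset_closure (Or.inl ⟨r, rfl⟩)
    · rw [Set.mem_singleton_iff] at hy
      subst hy
      exact Subfield.subset_closure (Or.inr rfl)
  haveI : Module.Finite K L := Module.Finite.trans F L
  let φ : K →+* K' :=
    { toFun := fun a => ⟨algebraMap F L a, hle a.2⟩
      map_one' := Subtype.ext (map_one _)
      map_mul' := fun a b => Subtype.ext (map_mul _ _ _)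
      map_zero' := Subtype.ext (map_zero _)
      map_add' := fun a b => Subtype.ext (map_add _ _ _) }
  letI : Algebra K K' := φ.toAlgebra
  haveI : IsScalarTower K K' L := IsScalarTower.of_algebraMap_eq fun _ => rfl
  exact Module.Finite.of_restrictScalars_finite K K' L

variable [IsNoetherianRing R] [IsIntegrallyClosed R[X]] [CharZero F]

/-- **Connectedness of the special fibre** of the normalisation of the `x`-line model in a
finite extension `L / F` with the same constants, in the language of `ConnAt`. -/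
theorem conn_of_const [FiniteDimensional F L] (hinjR : Function.Injective (algebraMap R F))
    {x : F} (hx : Transcendental R x) [FiniteDimensional (baseField R x) F]
    (w : R) (hw : Prime w)
    (hRL : ∀ y : L, IsIntegral R y → y ∈ Set.range (algebraMap R L)) :
    ConnAt w (chart R ({x} : Set F)) (chart R ({x⁻¹} : Set F)) (chart R ({x, x⁻¹} : Set F)) L := by
  intro e₁ e₂ he₁ he₂ hi1 hi2 h12
  haveI := finiteDimensional_baseField (R := R) (L := L) x
  haveI : CharZero L := charZero_of_injective_algebraMap (algebraMap F L).injective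
  set x' : L := algebraMap F L x with hx'def
  have hx' : Transcendental R x' :=
    (transcendental_algebraMap_iff (algebraMap F L).injective).2 hx
  have hinjL : Function.Injective (algebraMap R L) := by
    rw [IsScalarTower.algebraMap_eq R F L]
    exact (algebraMap F L).injective.comp hinjR
  have himg1 : (algebraMap F L) '' ({x} : Set F) = {x'} := Set.image_singleton
  have himg2 : (algebraMap F L) '' ({x⁻¹} : Set F) = {x'⁻¹} := by
    rw [Set.image_singleton, map_inv₀]
  have himg3 : (algebraMap F L) '' ({x, x⁻¹} : Set F) = {x', x'⁻¹} := by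
    rw [Set.image_pair, map_inv₀]
  have hw' : algebraMap F L (algebraMap R F w) = algebraMap R L w :=
    (IsScalarTower.algebraMap_apply R F L w).symm
  have m1 : ∀ e : L, e ∈ chart R ({x'} : Set L) ↔ IsIntegral (chart R ({x} : Set F)) e :=
    fun e => by rw [← himg1]; exact mem_chart_image_iff _ e
  have m2 : ∀ e : L, e ∈ chart R ({x'⁻¹} : Set L) ↔ IsIntegral (chart R ({x⁻¹} : Set F)) e :=
    fun e => by rw [← himg2]; exact mem_chart_image_iff _ e
  have m3 : ∀ e : L, e ∈ chart R ({x', x'⁻¹} : Set L) ↔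
      IsIntegral (chart R ({x, x⁻¹} : Set F)) e :=
    fun e => by rw [← himg3]; exact mem_chart_image_iff _ e
  rw [hw'] at hi1 hi2 h12 ⊢
  have := Fermat.Agent.S18.H138.connected_special_fibre hinjL hRL hx' w hw e₁ e₂
    ((m1 e₁).2 he₁) ((m2 e₂).2 he₂)
    (by obtain ⟨t, ht, h⟩ := hi1; exact ⟨t, (m1 t).2 ht, h⟩)
    (by obtain ⟨t, ht, h⟩ := hi2; exact ⟨t, (m2 t).2 ht, h⟩)
    (by obtain ⟨t, ht, h⟩ := h12; exact ⟨t, (m3 t).2 ht, h⟩)
  rcases this with ⟨⟨t, ht, h⟩, -⟩ | ⟨⟨t, ht, h⟩, -⟩
  · left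
    exact ⟨t, (m1 t).1 ht, h⟩
  · right
    exact ⟨t, (m1 t).1 ht, h⟩

end Conn

end Fermat.Agent.A2.H348

end
-- ===== PACK-END A2/H348/Conn.lean

-- ===== PACK-BEGIN A2/Mod/H816/L3.lean
section



/-!
# A2 / MOD leaf L3 (helper816): `vinfGauss : VinfGaussStatement P E w`

If `u ∈ F_N` is the image of an `R`-integral series `U = t^{-a}(c + …)`, `a > 0`, `c ∈ Rˣ`, then
for every `p ∈ R[X]` not divisible by the uniformiser `w`, `p(u)` is a unit of the Gauss
valuation ring `V∞`.

Proof: `p(u)` is the image of the integral series `Q = p(U)`; its reduction is `p̄(Ū) ≠ 0`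
(`L3Poly.eval₂_C_ne_zero_of_polar`), so `Q` is primitive, and `p(u) = Q / 1`, `p(u)⁻¹ = 1 / Q`
are Gauss-integral.
-/

set_option autoImplicit false
set_option synthInstance.maxHeartbeats 400000
set_option maxHeartbeats 1600000

noncomputable section

namespace Fermat.Agent.A2.Mod.H816

open ModularCurve HahnSeries Polynomial Fermat.Agent.A2 Fermat.Agent.A2.Mod

variable (P : ValuationSubring _root_.Fermat.Agent.A2.Mod.Qb) (E : IntermediateField ℚ _root_.Fermat.Agent.A2.Mod.Qb)

/-- `coeffMap` commutes with constants. -/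
theorem coeffMap_comp_C {R S : Type*} [CommRing R] [CommRing S] (f : R →+* S) :
    (coeffMap f).comp (HahnSeries.C : R →+* LaurentSeries R) =
      (HahnSeries.C : S →+* LaurentSeries S).comp f := by
  ext r : 1
  show coeffMap f (HahnSeries.single 0 r) = HahnSeries.single 0 (f r)
  exact coeffMap_single f 0 r

/-- The integral series `p(U)`. -/
def polyAt (p : Polynomial (_root_.Fermat.Agent.A2.Mod.RE P E)) (U : LaurentSeries (_root_.Fermat.Agent.A2.Mod.RE P E)) : LaurentSeries (_root_.Fermat.Agent.A2.Mod.RE P E) :=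
  p.eval₂ (HahnSeries.C : _root_.Fermat.Agent.A2.Mod.RE P E →+* LaurentSeries (_root_.Fermat.Agent.A2.Mod.RE P E)) U

theorem incl_polyAt (N : ℕ) (p : Polynomial (_root_.Fermat.Agent.A2.Mod.RE P E)) (U : LaurentSeries (_root_.Fermat.Agent.A2.Mod.RE P E))
    (u : _root_.Fermat.Agent.A2.Mod.FE E N) (hu : (u : LaurentSeries E) = H708.incl (_root_.Fermat.Agent.A2.Mod.RE P E) U) :
    ((ev P E N u p : _root_.Fermat.Agent.A2.Mod.FE E N) : LaurentSeries E) = H708.incl (_root_.Fermat.Agent.A2.Mod.RE P E) (polyAt P E p U) := by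
  unfold ev polyAt
  have h1 : ((p.eval₂ ((algebraMap E (_root_.Fermat.Agent.A2.Mod.FE E N)).comp (_root_.Fermat.Agent.A2.Mod.RE P E).subtype) u : _root_.Fermat.Agent.A2.Mod.FE E N) :
      LaurentSeries E) =
      p.eval₂ (((_root_.Fermat.Agent.A2.Mod.FE E N).val : _root_.Fermat.Agent.A2.Mod.FE E N →+* LaurentSeries E).comp
        ((algebraMap E (_root_.Fermat.Agent.A2.Mod.FE E N)).comp (_root_.Fermat.Agent.A2.Mod.RE P E).subtype)) (u : LaurentSeries E) :=
    Polynomial.hom_eval₂ p _ ((_root_.Fermat.Agent.A2.Mod.FE E N).val : _root_.Fermat.Agent.A2.Mod.FE E N →+* LaurentSeries E) u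
  rw [h1, hu]
  rw [H708.incl, Polynomial.hom_eval₂, coeffMap_comp_C]
  congr 1
  ext r : 1
  show ((algebraMap E (_root_.Fermat.Agent.A2.Mod.FE E N) (r : E) : _root_.Fermat.Agent.A2.Mod.FE E N) : LaurentSeries E) =
    HahnSeries.C ((r : E))
  rw [IntermediateField.coe_algebraMap_apply, algebraMap_laurentSeries_eq_single]
  rfl

theorem red_polyAt (p : Polynomial (_root_.Fermat.Agent.A2.Mod.RE P E)) (U : LaurentSeries (_root_.Fermat.Agent.A2.Mod.RE P E)) :
    H708.red (_root_.Fermat.Agent.A2.Mod.RE P E) (polyAt P E p U) =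
      (p.map (IsLocalRing.residue (_root_.Fermat.Agent.A2.Mod.RE P E))).eval₂
        (HahnSeries.C : IsLocalRing.ResidueField (_root_.Fermat.Agent.A2.Mod.RE P E) →+*
          LaurentSeries (IsLocalRing.ResidueField (_root_.Fermat.Agent.A2.Mod.RE P E))) (H708.red (_root_.Fermat.Agent.A2.Mod.RE P E) U) := by
  unfold polyAt
  rw [H708.red, Polynomial.hom_eval₂, coeffMap_comp_C, Polynomial.eval₂_map]

/-- The reduction of `p` is nonzero if `w ∤ p`. -/
theorem map_residue_ne_zero [IsDiscreteValuationRing (_root_.Fermat.Agent.A2.Mod.RE P E)] {w : _root_.Fermat.Agent.A2.Mod.RE P E} (hw : Irreducible w)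
    {p : Polynomial (_root_.Fermat.Agent.A2.Mod.RE P E)} (hp : ¬ Polynomial.C w ∣ p) :
    p.map (IsLocalRing.residue (_root_.Fermat.Agent.A2.Mod.RE P E)) ≠ 0 := by
  intro h
  apply hp
  rw [Polynomial.C_dvd_iff_dvd_coeff]
  intro i
  have h1 : (p.map (IsLocalRing.residue (_root_.Fermat.Agent.A2.Mod.RE P E))).coeff i = 0 := by rw [h]; simp
  rw [Polynomial.coeff_map, IsLocalRing.residue_eq_zero_iff] at h1
  rw [(IsDiscreteValuationRing.irreducible_iff_uniformizer w).mp hw,
    Ideal.mem_span_singleton] at h1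
  exact h1

/-- **L3.** -/
theorem vinfGauss (w : _root_.Fermat.Agent.A2.Mod.RE P E) : VinfGaussStatement P E w := by
  intro N _hN hdvr hw V hV u U a ha hu h0 hc p hp
  have := hdvr
  set Q := polyAt P E p U with hQ
  have hincl := incl_polyAt P E N p U u hu
  -- `Q` is primitive
  have hred : H708.red (_root_.Fermat.Agent.A2.Mod.RE P E) Q ≠ 0 := by
    rw [hQ, red_polyAt]
    refine eval₂_C_ne_zero_of_polar (a := -(a : ℤ)) (by omega) ?_ ?_
      (map_residue_ne_zero P E hw hp)
    · intro n hn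
      show (IsLocalRing.residue (_root_.Fermat.Agent.A2.Mod.RE P E)) (U.coeff n) = 0
      rw [h0 n hn, map_zero]
    · show (IsLocalRing.residue (_root_.Fermat.Agent.A2.Mod.RE P E)) (U.coeff (-(a : ℤ))) ≠ 0
      rw [Ne, IsLocalRing.residue_eq_zero_iff]
      exact fun hmem => (IsLocalRing.mem_maximalIdeal _).mp hmem hc
  have hQ0 : Q ≠ 0 := H708.ne_zero_of_red_ne_zero _ hred
  have hne : ((ev P E N u p : _root_.Fermat.Agent.A2.Mod.FE E N) : LaurentSeries E) ≠ 0 := by
    rw [hincl]; exact H708.incl_ne_zero _ hQ0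
  have hmemF : H708.incl (_root_.Fermat.Agent.A2.Mod.RE P E) Q ∈ laurentBaseChange E (modularFunctionFieldFull N) := by
    rw [← hincl]; exact (ev P E N u p).2
  constructor
  · rw [hV, hincl]
    exact H708.IsGaussInt.of_incl Q
  · rw [hV]
    refine ⟨1, Q, hred, hmemF, ?_⟩
    have hcoe : (((ev P E N u p)⁻¹ : _root_.Fermat.Agent.A2.Mod.FE E N) : LaurentSeries E) =
        ((ev P E N u p : _root_.Fermat.Agent.A2.Mod.FE E N) : LaurentSeries E)⁻¹ := rfl
    rw [hcoe, ← hincl, map_one]
    exact inv_mul_cancel₀ hne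

end Fermat.Agent.A2.Mod.H816

end

end
-- ===== PACK-END A2/Mod/H816/L3.lean

-- ===== PACK-BEGIN S18/H203/KBasis.lean
section


/-!
# S18 / b1 (helper203): the lifted family is a basis of the generic fibre

Same setting as `LiftBasis.lean`; moreover `F / K` is algebraic.  If the reductions of
`b : ι → B` form an `S̄`-basis of `B̄ = B ⧸ (w) B` then the images of the `b i` in `F` form a
`K`-basis of `F` (`basisOfLift`), so `card ι = [F : K]` (`card_eq_finrank`).
-/

set_option autoImplicit false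

namespace Fermat.Agent.S18.H203

open Ideal

section

variable {S B : Type*} [CommRing S] [IsDomain S] [CommRing B] [Algebra S B]

/-- The integral closure in a field is torsion-free over the base. -/
theorem isTorsionFree_of_isIntegralClosure (K F : Type*) [Field K] [Algebra S K]
    [IsFractionRing S K] [Field F] [Algebra K F] [Algebra S F] [IsScalarTower S K F]
    [Algebra B F] [IsScalarTower S B F] [IsIntegralClosure B S F] :
    Module.IsTorsionFree S B := by
  have hinjSF : Function.Injective (algebraMap S F) := by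
    rw [IsScalarTower.algebraMap_eq S K F]
    exact (algebraMap K F).injective.comp (IsFractionRing.injective S K)
  have h1 : Module.IsTorsionFree S F := Module.isTorsionFree_iff_algebraMap_injective.mpr hinjSF
  exact Function.Injective.moduleIsTorsionFree (algebraMap B F)
    (IsIntegralClosure.algebraMap_injective B S F) fun r m => by
      rw [Algebra.smul_def, map_mul, ← IsScalarTower.algebraMap_apply, Algebra.smul_def]

variable [IsNoetherianRing S] {ι : Type*} [Fintype ι]

/-- The lifts are linearly independent over `K` in `F`. -/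
theorem linearIndependent_map_lift (K F : Type*) [Field K] [Algebra S K]
    [IsFractionRing S K] [Field F] [Algebra K F] [Algebra S F] [IsScalarTower S K F]
    [Algebra B F] [IsScalarTower S B F] [IsIntegralClosure B S F]
    {w : S} (hw : Prime w) (b : ι → B)
    (hli : LinearIndependent (S ⧸ Ideal.span {w}) fun i => redB (S := S) w (b i)) :
    LinearIndependent K fun i => algebraMap B F (b i) := by
  have htf : Module.IsTorsionFree S B := isTorsionFree_of_isIntegralClosure K F
  have h1 : LinearIndependent S b := linearIndependent_lift hw b hli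
  have h2 : LinearIndependent S fun i => algebraMap B F (b i) := by
    have := h1.map' (IsScalarTower.toAlgHom S B F).toLinearMap
      (LinearMap.ker_eq_bot.mpr (IsIntegralClosure.algebraMap_injective B S F))
    exact this
  exact (LinearIndependent.iff_fractionRing S K).mp h2

omit [IsNoetherianRing S] in
/-- The lifts span `F` over `K`. -/
theorem span_map_lift_eq_top (K F : Type*) [Field K] [Algebra S K]
    [IsFractionRing S K] [Field F] [Algebra K F] [Algebra S F] [IsScalarTower S K F]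
    [Algebra B F] [IsScalarTower S B F] [IsIntegralClosure B S F]
    [Module.Finite S B] [Algebra.IsAlgebraic K F]
    (w : S) (hw1 : ¬ IsUnit w) (b : ι → B)
    (hspan : Submodule.span (S ⧸ Ideal.span {w}) (Set.range fun i => redB (S := S) w (b i)) = ⊤) :
    Submodule.span K (Set.range fun i => algebraMap B F (b i)) = ⊤ := by
  obtain ⟨r, hr1, hr⟩ := exists_smul_mem_span w b hspan
  have hinjSK : Function.Injective (algebraMap S K) := IsFractionRing.injective S K
  have hr0 : r ≠ 0 := by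
    rintro rfl
    rw [zero_sub, neg_mem_iff, Ideal.mem_span_singleton] at hr1
    exact hw1 (isUnit_of_dvd_one hr1)
  rw [eq_top_iff]
  intro f _
  -- `f` has an integral multiple
  have hf : IsAlgebraic S f := by
    have := Algebra.IsAlgebraic.isAlgebraic (R := K) f
    exact (IsFractionRing.isAlgebraic_iff S K F).mpr this
  obtain ⟨y, hy0, hy⟩ := hf.exists_integral_multiple
  obtain ⟨β, hβ⟩ := (IsIntegralClosure.isIntegral_iff (A := B)).mp hy
  -- `r • β ∈ span_S b`
  have h1 := hr β
  have h2 : algebraMap B F (r • β) ∈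
      Submodule.span K (Set.range fun i => algebraMap B F (b i)) := by
    have h3 : (IsScalarTower.toAlgHom S B F).toLinearMap (r • β) ∈
        Submodule.map (IsScalarTower.toAlgHom S B F).toLinearMap
          (Submodule.span S (Set.range b)) := Submodule.mem_map_of_mem h1
    rw [Submodule.map_span, ← Set.range_comp] at h3
    have h4 : Submodule.span S (Set.range ((IsScalarTower.toAlgHom S B F).toLinearMap ∘ b)) ≤
        (Submodule.span K (Set.range fun i => algebraMap B F (b i))).restrictScalars S := by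
      rw [Submodule.span_le]
      rintro _ ⟨i, rfl⟩
      exact Submodule.subset_span ⟨i, rfl⟩
    exact h4 h3
  have h5 : algebraMap B F (r • β) = (algebraMap S K (r * y)) • f := by
    rw [Algebra.smul_def r β, map_mul, hβ, ← IsScalarTower.algebraMap_apply,
      Algebra.smul_def y f, Algebra.smul_def, ← IsScalarTower.algebraMap_apply, map_mul]
    ring
  rw [h5] at h2
  have h6 : algebraMap S K (r * y) ≠ 0 := by
    simpa using (map_ne_zero_iff _ hinjSK).mpr (mul_ne_zero hr0 hy0)
  have h7 := Submodule.smul_mem _ (algebraMap S K (r * y))⁻¹ h2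
  rwa [smul_smul, inv_mul_cancel₀ h6, one_smul] at h7

/-- **The lifted basis of the generic fibre.** -/
noncomputable def basisOfLift (K F : Type*) [Field K] [Algebra S K]
    [IsFractionRing S K] [Field F] [Algebra K F] [Algebra S F] [IsScalarTower S K F]
    [Algebra B F] [IsScalarTower S B F] [IsIntegralClosure B S F]
    [Module.Finite S B] [Algebra.IsAlgebraic K F]
    {w : S} (hw : Prime w) (b : ι → B)
    (hli : LinearIndependent (S ⧸ Ideal.span {w}) fun i => redB (S := S) w (b i))
    (hspan : Submodule.span (S ⧸ Ideal.span {w}) (Set.range fun i => redB (S := S) w (b i)) = ⊤) :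
    Module.Basis ι K F :=
  Module.Basis.mk (linearIndependent_map_lift K F hw b hli)
    (span_map_lift_eq_top K F w hw.not_isUnit b hspan).ge

@[simp]
theorem basisOfLift_apply (K F : Type*) [Field K] [Algebra S K]
    [IsFractionRing S K] [Field F] [Algebra K F] [Algebra S F] [IsScalarTower S K F]
    [Algebra B F] [IsScalarTower S B F] [IsIntegralClosure B S F]
    [Module.Finite S B] [Algebra.IsAlgebraic K F]
    {w : S} (hw : Prime w) (b : ι → B)
    (hli : LinearIndependent (S ⧸ Ideal.span {w}) fun i => redB (S := S) w (b i))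
    (hspan : Submodule.span (S ⧸ Ideal.span {w}) (Set.range fun i => redB (S := S) w (b i)) = ⊤)
    (i : ι) : basisOfLift K F hw b hli hspan i = algebraMap B F (b i) := by
  simp [basisOfLift]

/-- The rank of the special fibre is the degree of the generic fibre. -/
theorem card_eq_finrank (K F : Type*) [Field K] [Algebra S K]
    [IsFractionRing S K] [Field F] [Algebra K F] [Algebra S F] [IsScalarTower S K F]
    [Algebra B F] [IsScalarTower S B F] [IsIntegralClosure B S F]
    [Module.Finite S B] [Algebra.IsAlgebraic K F]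
    {w : S} (hw : Prime w) (b : ι → B)
    (hli : LinearIndependent (S ⧸ Ideal.span {w}) fun i => redB (S := S) w (b i))
    (hspan : Submodule.span (S ⧸ Ideal.span {w}) (Set.range fun i => redB (S := S) w (b i)) = ⊤) :
    Fintype.card ι = Module.finrank K F :=
  (Module.finrank_eq_card_basis (basisOfLift K F hw b hli hspan)).symm

end

end Fermat.Agent.S18.H203

end
-- ===== PACK-END S18/H203/KBasis.lean

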