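import Mathlib
import Fermat.Agent.Pack.S34.G0E0L1
import Fermat.Agent.Pack.S34.G0E7L2
import Fermat.Agent.Pack.S34.G0E7L0
import Fermat.Agent.Pack.S34.G0E0L3
import Fermat.Agent.Pack.S34.G0E7L1
import Fermat.Agent.Pack.S34.G0E6L3
import Fermat.Agent.Pack.S34.G0E1L0
import Fermat.Agent.Pack.S34.G0E4L1
import Fermat.Agent.Pack.S34.G0E6L1
import Fermat.Agent.Pack.S34.G0E7L3
import Fermat.Agent.Pack.S34.G0E2L1
import Fermat.Agent.Pack.S34.G0E5L3

-- ===== PACK-BEGIN Lib/Cheb/H343/PrimeSumZ.lean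
section




/-!
# CHEB pieces Z and B0 in the frozen `Spec` shape

* `Fermat.Agent.Lib.Cheb.H343.primeSum : Spec.PrimeSumStatement`
* `Fermat.Agent.Lib.Cheb.H343.primeCountBound : Spec.PrimeCountBoundStatement`
-/

set_option autoImplicit false
set_option linter.style.haveILetI false
set_option linter.unusedSectionVars false

namespace Fermat.Agent.Lib.Cheb.H343

open NumberField Ideal Filter Topology Finset
open Fermat.Agent.Lib.EulerProd

variable (F : Type) [Field F] [NumberField F]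

/-- The fibre type of `Spec.primeCount`. -/
abbrev PrimeFibre (p : ℕ) : Type := {𝔮 : Ideal (𝓞 F) // 𝔮.IsPrime ∧ Ideal.absNorm 𝔮 = p}

instance instFinitePrimeFibre (p : ℕ) : Finite (PrimeFibre F p) := by
  haveI : Finite {I : Ideal (𝓞 F) // absNorm I = p} := finite_setOfPred_absNorm_eq p
  exact Finite.of_injective
    (fun 𝔮 : PrimeFibre F p => (⟨𝔮.1, 𝔮.2.2⟩ : {I : Ideal (𝓞 F) // absNorm I = p}))
    (fun a b h => Subtype.ext (congrArg (fun x => x.1) h))

theorem primeCount_eq (p : ℕ) : Spec.primeCount F p = Nat.card (PrimeFibre F p) := rfl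

variable {F}

theorem PrimeFibre.prime {p : ℕ} (hp : p ≠ 0) (𝔮 : PrimeFibre F p) : Prime 𝔮.1 := by
  have hne : 𝔮.1 ≠ ⊥ := by
    intro h
    have := 𝔮.2.2
    rw [h, Ideal.absNorm_bot] at this
    exact hp this.symm
  exact (Ideal.prime_iff_isPrime hne).mpr 𝔮.2.1

variable (F)

/-- Degree-one primes, fibred over their norm. -/
noncomputable def degOneEquiv : degOne F ≃ Σ p : Nat.Primes, PrimeFibre F p where
  toFun 𝔭 := ⟨⟨absNorm 𝔭.1.1, 𝔭.2⟩, ⟨𝔭.1.1, 𝔭.1.isPrime, rfl⟩⟩
  invFun x := ⟨⟨x.2.1, PrimeFibre.prime x.1.2.ne_zero x.2⟩, by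
    show (absNorm x.2.1).Prime
    rw [x.2.2.2]
    exact x.1.2⟩
  left_inv 𝔭 := rfl
  right_inv x := by
    obtain ⟨⟨p, hp⟩, 𝔮, hq, h⟩ := x
    dsimp only at h
    subst h
    rfl

theorem primeSumOne_eq_tsum_primes {s : ℝ} (hs : 1 < s) :
    primeSumOne F s =
      ∑' p : Nat.Primes, (Spec.primeCount F p : ℝ) * ((p : ℕ) : ℝ) ^ (-s) := by
  have hsum : Summable (fun 𝔭 : degOne F => 𝔭.1.x s) := summable_x_subtype F hs _
  have h1 : primeSumOne F s =
      ∑' x : (Σ p : Nat.Primes, PrimeFibre F p), (((x.1 : ℕ) : ℝ)) ^ (-s) := by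
    rw [primeSumOne, ← (degOneEquiv F).tsum_eq]
    rfl
  have hsum' : Summable (fun x : (Σ p : Nat.Primes, PrimeFibre F p) =>
      (((x.1 : ℕ) : ℝ)) ^ (-s)) := by
    rw [← (degOneEquiv F).summable_iff]
    exact hsum
  rw [h1, Summable.tsum_sigma' (fun p => Summable.of_finite) hsum']
  refine tsum_congr fun p => ?_
  show ∑' (_ : PrimeFibre F p), (((p : ℕ) : ℝ)) ^ (-s) = _
  rw [tsum_const, nsmul_eq_mul, primeCount_eq]

/-- **Z** (= F1 = W1). -/
theorem primeSum : Spec.PrimeSumStatement := by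
  intro F _ _
  obtain ⟨C, hC⟩ := exists_primeSumOne_bound F
  refine ⟨C, fun s hs1 hs2 => ?_⟩
  have h := hC s hs1 hs2
  rw [primeSumOne_eq_tsum_primes F hs1] at h
  exact h

/-- **B0**: at most `[F : ℚ]` primes of norm `p`. -/
theorem primeCountBound : Spec.PrimeCountBoundStatement := by
  classical
  intro F _ _ p
  rw [primeCount_eq]
  have hn : 1 ≤ Module.finrank ℚ F := Module.finrank_pos
  rcases Nat.eq_zero_or_pos p with rfl | hp
  · -- only `⊥` has norm `0`
    have : Subsingleton (PrimeFibre F 0) := by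
      refine ⟨fun a b => Subtype.ext ?_⟩
      rw [Ideal.absNorm_eq_zero_iff.mp a.2.2, Ideal.absNorm_eq_zero_iff.mp b.2.2]
    exact le_trans (Finite.card_le_one_iff_subsingleton.mpr this) hn
  · rcases isEmpty_or_nonempty (PrimeFibre F p) with he | ⟨⟨𝔮₀⟩⟩
    · rw [Nat.card_of_isEmpty]
      exact Nat.zero_le _
    · let 𝔭₀ : PrimeIdeal F := ⟨𝔮₀.1, PrimeFibre.prime hp.ne' 𝔮₀⟩
      obtain ⟨hq, hmem, k, hk1, -, hk⟩ := 𝔭₀.below_spec
      have hpk : p = 𝔭₀.below ^ k := by rw [← hk]; exact 𝔮₀.2.2.symm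
      have hall : ∀ 𝔮 : PrimeFibre F p, ((𝔭₀.below : ℕ) : 𝓞 F) ∈ 𝔮.1 := by
        intro 𝔮
        have h1 : ((absNorm 𝔮.1 : ℕ) : 𝓞 F) ∈ 𝔮.1 := absNorm_mem 𝔮.1
        have h2 : absNorm 𝔮.1 = 𝔭₀.below ^ k := 𝔮.2.2.trans hpk
        rw [h2, Nat.cast_pow] at h1
        exact 𝔮.2.1.mem_of_pow_mem k h1
      haveI : Fintype (PrimeFibre F p) := Fintype.ofFinite _
      let g : PrimeFibre F p → PrimeIdeal F := fun 𝔮 => ⟨𝔮.1, PrimeFibre.prime hp.ne' 𝔮⟩
      have hg : Function.Injective g := fun a b h =>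
        Subtype.ext (congrArg (fun x : PrimeIdeal F => x.1) h)
      have hcard := card_le_finrank_of_mem hq (Finset.univ.image g) (fun 𝔭 h𝔭 => by
        obtain ⟨𝔮, -, rfl⟩ := Finset.mem_image.mp h𝔭
        exact hall 𝔮)
      rw [Finset.card_image_of_injective _ hg, Finset.card_univ] at hcard
      rwa [Nat.card_eq_fintype_card]

end Fermat.Agent.Lib.Cheb.H343

end
-- ===== PACK-END Lib/Cheb/H343/PrimeSumZ.lean

-- ===== PACK-BEGIN S22/H262/Sep.lean
section



set_option autoImplicit false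

/-!
# The period lattice separates points
-/

open Complex Filter Function Metric Set
open UpperHalfPlane hiding I
open scoped Real Topology Manifold ModularForm MatrixGroups

namespace Fermat.Agent.S22.H262

open Matrix.SpecialLinearGroup CuspForm

variable {N : ℕ} [NeZero N] {n : ℕ}

/-- `x ↦ bigG n E w (a x + b, c x + d)` is a polynomial function. -/
theorem bigG_polynomial (n : ℕ) (E : ℕ → ℍ → ℂ) (w : ℍ) (a b c d : ℂ) :
    ∃ P : Polynomial ℂ, ∀ x : ℂ, P.eval x = bigG n E w (a * x + b, c * x + d) := by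
  refine ⟨∑ j ∈ Finset.range (n + 1), Polynomial.C ((n.descFactorial j : ℂ) * E (j + 1) w) *
    (Polynomial.C a * Polynomial.X + Polynomial.C b -
      Polynomial.C (w : ℂ) * (Polynomial.C c * Polynomial.X + Polynomial.C d)) ^ (n - j) *
    (Polynomial.C c * Polynomial.X + Polynomial.C d) ^ j, fun x => ?_⟩
  simp [bigG, Polynomial.eval_finset_sum]

theorem infinite_int_cast_complex : Set.Infinite (Set.range (fun x : ℤ => (x : ℂ))) :=
  Set.infinite_range_of_injective Int.cast_injective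

/-- If the tower at level `r + 1` vanishes then so does the level `r`. -/
theorem IsTower.eq_zero_of_succ {h : ℍ → ℂ} {E : ℕ → ℍ → ℂ} (hE : IsTower h E) (r : ℕ)
    (h0 : E (r + 1) = 0) : E r = 0 := by
  funext z
  have h1 := hE.hasDeriv r z
  rw [h0] at h1
  have h2 : HasDerivAt ((0 : ℍ → ℂ) ∘ ofComplex) 0 (z : ℂ) := by
    have : ((0 : ℍ → ℂ) ∘ ofComplex) = fun _ => (0 : ℂ) := rfl
    rw [this]
    exact hasDerivAt_const _ _
  exact h1.unique h2

theorem IsTower.eq_zero_of_top {h : ℍ → ℂ} {E : ℕ → ℍ → ℂ} (hE : IsTower h E) (r : ℕ)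
    (h0 : E r = 0) : h = 0 := by
  induction r with
  | zero => rw [← hE.zero, h0]
  | succ r ih => exact ih (hE.eq_zero_of_succ r h0)

/-- If the cocycle of `f` at `g ∈ SL₂(ℤ)` vanishes on integer vectors then the top of the tower
transforms like a form of weight `-n`. -/
theorem tower_top_slash (f : CuspForm (CongruenceSubgroup.Gamma0 N) ((n : ℤ) + 2))
    (g : SL(2, ℤ))
    (h : ∀ v ∈ Vint, cocyc n (⇑f) (mapGL ℝ g) v = 0) :
    (tower (⇑f) (n + 1)) ∣[-(n : ℤ)] g = tower (⇑f ∣[(n : ℤ) + 2] (mapGL ℝ g)) (n + 1) := by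
  funext z
  have hg : (mapGL ℝ g : GL (Fin 2) ℝ) ∈ posInt := mapGL_mem_posInt g
  have hT := hasTower_cuspForm f
  have hTg := hasTower_slash_posInt f hg
  -- the polynomial identity
  obtain ⟨P₁, hP₁⟩ := bigG_polynomial n (tower (⇑f)) ((mapGL ℝ g : GL (Fin 2) ℝ) • z)
    (((mapGL ℝ g : GL (Fin 2) ℝ) 0 0 : ℝ) : ℂ) (((mapGL ℝ g : GL (Fin 2) ℝ) 0 1 : ℝ) : ℂ)
    (((mapGL ℝ g : GL (Fin 2) ℝ) 1 0 : ℝ) : ℂ) (((mapGL ℝ g : GL (Fin 2) ℝ) 1 1 : ℝ) : ℂ)
  obtain ⟨P₂, hP₂⟩ := bigG_polynomial n (tower (⇑f ∣[(n : ℤ) + 2] (mapGL ℝ g))) z 1 0 0 1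
  have hroot : ∀ x : ℤ, (P₁ - P₂).IsRoot (x : ℂ) := by
    intro x
    have hv : (((x : ℂ), (1 : ℂ)) : ℂ × ℂ) ∈ Vint := ⟨x, 1, by simp⟩
    have h1 := h _ hv
    rw [cocyc_eq n _ hg.2 hT hTg _ z] at h1
    rw [Polynomial.IsRoot, Polynomial.eval_sub, hP₁, hP₂]
    simpa [actV] using h1
  have hzero : P₁ - P₂ = 0 := by
    apply Polynomial.eq_zero_of_infinite_isRoot
    refine infinite_int_cast_complex.mono ?_
    rintro _ ⟨x, rfl⟩
    exact hroot x
  have hz : P₁.eval (z : ℂ) = P₂.eval (z : ℂ) := by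
    have := congrArg (Polynomial.eval (z : ℂ)) hzero
    simpa [sub_eq_zero] using this
  rw [hP₁, hP₂] at hz
  -- evaluate both sides on the diagonal
  have hnum : (((mapGL ℝ g : GL (Fin 2) ℝ) 0 0 : ℝ) : ℂ) * (z : ℂ) +
      (((mapGL ℝ g : GL (Fin 2) ℝ) 0 1 : ℝ) : ℂ) =
      (((mapGL ℝ g : GL (Fin 2) ℝ) • z : ℍ) : ℂ) * denom (mapGL ℝ g : GL (Fin 2) ℝ) z := by
    rw [coe_smul_of_det_pos hg.2, div_mul_cancel₀ _ (denom_ne_zero _ z)]
    rfl
  have hden : (((mapGL ℝ g : GL (Fin 2) ℝ) 1 0 : ℝ) : ℂ) * (z : ℂ) +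
      (((mapGL ℝ g : GL (Fin 2) ℝ) 1 1 : ℝ) : ℂ) = denom (mapGL ℝ g : GL (Fin 2) ℝ) z := rfl
  rw [hnum, hden, bigG_diag] at hz
  have h2 : ((1 : ℂ) * (z : ℂ) + 0, (0 : ℂ) * (z : ℂ) + 1) = ((z : ℂ) * 1, (1 : ℂ)) := by simp
  rw [h2, bigG_diag] at hz
  have hfact : (n.factorial : ℂ) ≠ 0 := by exact_mod_cast n.factorial_ne_zero
  rw [ModularForm.SL_slash_apply]
  have hz' : tower (⇑f) (n + 1) ((mapGL ℝ g : GL (Fin 2) ℝ) • z) *
      denom (mapGL ℝ g : GL (Fin 2) ℝ) z ^ n =
      tower (⇑f ∣[(n : ℤ) + 2] (mapGL ℝ g)) (n + 1) z := by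
    apply mul_left_cancel₀ hfact
    rw [← mul_assoc, hz]
    simp
  rw [neg_neg, zpow_natCast]
  exact hz'

/-- The period lattice separates points. -/
theorem periodLattice_separating (f : CuspForm (CongruenceSubgroup.Gamma0 N) ((n : ℤ) + 2))
    (h : ∀ l ∈ periodLattice N n, l f = 0) : f = 0 := by
  have hc : ∀ (g : SL(2, ℤ)), ∀ v ∈ Vint, cocyc n (⇑f) (mapGL ℝ g) v = 0 := by
    intro g v hv
    have := h _ (lam_mem_periodLattice ⟨mapGL ℝ g, mapGL_mem_posInt g⟩ hv)
    rwa [lam_apply] at this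
  have hT := hasTower_cuspForm f
  have hF : tower (⇑f) (n + 1) = 0 := by
    apply eq_zero_of_weight_nonpos N (k := -(n : ℤ)) (by omega)
    · exact hT.isTower.mdiff n
    · rintro γ ⟨g, hg, rfl⟩
      have h1 := tower_top_slash f g (hc g)
      have h2 : ⇑f ∣[(n : ℤ) + 2] (mapGL ℝ g) = ⇑f :=
        SlashInvariantFormClass.slash_action_eq f _ ⟨g, hg, rfl⟩
      rw [h2] at h1
      exact h1
    · intro g
      rw [tower_top_slash f g (hc g)]
      exact (hasTower_slash_posInt f (mapGL_mem_posInt g)).isTower.isZero n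
  have : (⇑f : ℍ → ℂ) = 0 := hT.isTower.eq_zero_of_top (n + 1) hF
  exact DFunLike.coe_injective this

end Fermat.Agent.S22.H262

end
-- ===== PACK-END S22/H262/Sep.lean

-- ===== PACK-BEGIN S28/H867/Integral.lean
section



set_option autoImplicit false
noncomputable section
open ModularCurve HahnSeries IntermediateField Polynomial

namespace Fermat.Agent.S28.H867

section Integral

variable (k : Type*) [Field k]

/-- `j(q^d)` for `d ≠ 0`, with junk value at `0` (total function in `d`). -/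
def jd (d : ℕ) : LaurentSeries k :=
  if h : d = 0 then 0 else @qExpand k _ d ⟨h⟩ (jqModC k)

theorem jd_eq (d : ℕ) [hd : NeZero d] : jd k d = qExpand k d (jqModC k) := by
  rw [jd, dif_neg hd.out]

theorem jd_one : jd k 1 = jqModC k := by
  rw [jd_eq, qExpand_one_apply]

theorem qExpand_jd (a b : ℕ) [NeZero a] [NeZero b] : qExpand k a (jd k b) = jd k (a * b) := by
  rw [jd_eq, jd_eq, qExpand_qExpand]

/-- If `x` and `V_a j` are integral over `k(j)`, so is `V_a x`. -/
theorem isIntegral_qExpand (a : ℕ) [NeZero a] {x : LaurentSeries k}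
    (hx : IsIntegral (jField k) x) (ha : IsIntegral (jField k) (jd k a)) :
    IsIntegral (jField k) (qExpand k a x) := by
  set 𝔸 := algebraicClosure (jField k) (LaurentSeries k) with h𝔸
  have hmem : ∀ z ∈ jField k, qExpand k a z ∈ 𝔸.restrictScalars k := by
    have hle : (jField k).map (qExpandAlgHomC k a) ≤ 𝔸.restrictScalars k := by
      have h0 : (jField k).map (qExpandAlgHomC k a) = adjoin k {qExpand k a (jqModC k)} := by
        rw [← jpField_eq_map]; rfl
      rw [h0, adjoin_simple_le_iff]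
      show qExpand k a (jqModC k) ∈ 𝔸
      rw [h𝔸, mem_algebraicClosure_iff']
      rwa [jd_eq] at ha
    intro z hz
    exact hle ⟨z, hz, rfl⟩
  let φ : jField k →+* 𝔸 :=
    { toFun := fun z => ⟨qExpand k a z, hmem z z.2⟩
      map_one' := by ext; simp
      map_mul' := fun x y => by ext; simp
      map_zero' := by ext; simp
      map_add' := fun x y => by ext; simp }
  have h1 : IsIntegral 𝔸 (qExpand k a x) :=
    hx.map_of_comp_eq φ (qExpand k a) (by ext z; rfl)
  have : Algebra.IsIntegral (jField k) 𝔸 :=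
    (algebraicClosure.isAlgebraic (jField k) (LaurentSeries k)).isIntegral
  exact isIntegral_trans (R := jField k) (A := 𝔸) _ h1

theorem isIntegral_jd_prime {p : ℕ} [NeZero p] (D : ModPolyData p) :
    IsIntegral (jField k) (jd k p) := by
  let y : jField k := ⟨jqModC k, jq_mem_jField k⟩
  refine ⟨polyOver (jField k) y D.Φ, polyOver_monic _ y D.monic, ?_⟩
  rw [← Polynomial.aeval_def, aeval_polyOver, jd_eq]
  exact modPoly_eval_jp_field k D

theorem isIntegral_jd (d : ℕ) (hd : d ≠ 0)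
    (hΦ : ∀ p : ℕ, p.Prime → p ∣ d → ∀ [NeZero p], Nonempty (ModPolyData p)) :
    IsIntegral (jField k) (jd k d) := by
  induction d using Nat.recOnMul with
  | zero => exact absurd rfl hd
  | one =>
    rw [jd_one]
    exact isIntegral_algebraMap (x := (⟨jqModC k, jq_mem_jField k⟩ : jField k))
  | prime p hp =>
    have : NeZero p := ⟨hp.ne_zero⟩
    obtain ⟨D⟩ := hΦ p hp dvd_rfl
    exact isIntegral_jd_prime k D
  | mul a b iha ihb =>
    have ha0 : a ≠ 0 := fun h => hd (by rw [h, zero_mul])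
    have hb0 : b ≠ 0 := fun h => hd (by rw [h, mul_zero])
    have : NeZero a := ⟨ha0⟩
    have : NeZero b := ⟨hb0⟩
    rw [← qExpand_jd]
    exact isIntegral_qExpand k a
      (ihb hb0 fun p hp hpb => hΦ p hp (hpb.mul_left a))
      (iha ha0 fun p hp hpa => hΦ p hp (hpa.mul_right b))

theorem divisorExpansionsC_eq_image (M : ℕ) (hM : M ≠ 0) :
    divisorExpansionsC k M = (fun d => jd k d) '' (M.divisors : Set ℕ) := by
  ext x
  constructor
  · rintro ⟨d, hd, hdM, rfl⟩
    exact ⟨d, by simpa using ⟨hdM, hM⟩, jd_eq k d⟩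
  · rintro ⟨d, hd, rfl⟩
    have hd' : d ∣ M := Nat.dvd_of_mem_divisors hd
    have hd0 : d ≠ 0 := fun h => hM (by rw [h] at hd'; exact Nat.eq_zero_of_zero_dvd hd')
    have : NeZero d := ⟨hd0⟩
    exact ⟨d, ⟨hd0⟩, hd', jd_eq k d⟩

theorem degE_ne_zero (M : ℕ) (hM : M ≠ 0)
    (hΦ : ∀ p : ℕ, p.Prime → p ∣ M → ∀ [NeZero p], Nonempty (ModPolyData p)) :
    degE k M ≠ 0 := by
  have h1 : EF k M = jField k ⊔ adjoin k (divisorExpansionsC k M) :=
    (sup_eq_right.mpr (jField_le_EF k M)).symm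
  rw [degE, h1]
  refine relfinrank_sup_adjoin_ne_zero _ ?_ ?_
  · rw [divisorExpansionsC_eq_image k M hM]
    exact (Finset.finite_toSet _).image _
  · rw [divisorExpansionsC_eq_image k M hM]
    rintro x ⟨d, hd, rfl⟩
    have hd' : d ∣ M := Nat.dvd_of_mem_divisors hd
    have hd0 : d ≠ 0 := fun h => hM (by rw [h] at hd'; exact Nat.eq_zero_of_zero_dvd hd')
    exact isIntegral_jd k d hd0 fun p hp hpd => hΦ p hp (hpd.trans hd')

end Integral

end Fermat.Agent.S28.H867

end
end
-- ===== PACK-END S28/H867/Integral.lean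

-- ===== PACK-BEGIN S28/H807/SAction.lean
section
/-
S28 / helper807 — the action of `S : τ ↦ -1/τ` on the `p+1` conjugates
`{E(τ)} ∪ {G((τ+b)/p) : b < p}`: abstract permutation lemma + the point identities in `ℍ`.
-/



set_option autoImplicit false
set_option maxHeartbeats 400000

noncomputable section

open ModularCurve Polynomial Matrix UpperHalfPlane Complex
open scoped MatrixGroups

namespace Fermat.Agent.S28.H807

section Perm

variable (p : ℕ) [Fact p.Prime]

/-- `b ↦ -1/b` on nonzero residues, on representatives in `Fin p`. -/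
def negInvFin (b : Fin p) : Fin p :=
  ⟨(-((b : ℕ) : ZMod p)⁻¹).val, ZMod.val_lt _⟩

theorem negInvFin_cast (b : Fin p) :
    (((negInvFin p b : Fin p) : ℕ) : ZMod p) = -((b : ℕ) : ZMod p)⁻¹ := by
  simp [negInvFin]

theorem cast_ne_zero_of_ne_zero {b : Fin p} (hb : (b : ℕ) ≠ 0) : (((b : ℕ) : ZMod p)) ≠ 0 := by
  intro h
  rw [ZMod.natCast_eq_zero_iff] at h
  have := Nat.le_of_dvd (Nat.pos_of_ne_zero hb) h
  exact absurd b.2 (not_lt.mpr this)

theorem negInvFin_ne_zero {b : Fin p} (hb : (b : ℕ) ≠ 0) : ((negInvFin p b : Fin p) : ℕ) ≠ 0 := by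
  intro h
  have h1 := negInvFin_cast p b
  rw [h] at h1
  simp only [Nat.cast_zero] at h1
  have h2 : (((b : ℕ) : ZMod p))⁻¹ = 0 := by
    have := h1.symm
    rwa [neg_eq_zero] at this
  rw [inv_eq_zero] at h2
  exact cast_ne_zero_of_ne_zero p hb h2

theorem negInvFin_negInvFin {b : Fin p} (_hb : (b : ℕ) ≠ 0) :
    negInvFin p (negInvFin p b) = b := by
  apply Fin.ext
  show (-(((negInvFin p b : Fin p) : ℕ) : ZMod p)⁻¹).val = (b : ℕ)
  rw [negInvFin_cast, inv_neg, neg_neg, inv_inv, ZMod.val_natCast_of_lt b.2]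

theorem dvd_mul_negInvFin_add_one {b : Fin p} (hb : (b : ℕ) ≠ 0) :
    (p : ℤ) ∣ ((b : ℕ) : ℤ) * (((negInvFin p b : Fin p) : ℕ) : ℤ) + 1 := by
  have h1 : ((((b : ℕ) : ℤ) * (((negInvFin p b : Fin p) : ℕ) : ℤ) + 1 : ℤ) : ZMod p) = 0 := by
    push_cast
    rw [negInvFin_cast, mul_neg, mul_inv_cancel₀ (cast_ne_zero_of_ne_zero p hb)]
    ring
  exact (ZMod.intCast_zmod_eq_zero_iff_dvd _ p).mp h1

/-- The permutation of `P¹(𝔽_p) = Option (Fin p)` induced by `S`. -/
def sPermFun : Option (Fin p) → Option (Fin p)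
  | none => some ⟨0, (Fact.out : p.Prime).pos⟩
  | some b => if (b : ℕ) = 0 then none else some (negInvFin p b)

theorem sPermFun_involutive : Function.Involutive (sPermFun p) := by
  intro i
  cases i with
  | none => simp [sPermFun]
  | some b =>
    by_cases hb : (b : ℕ) = 0
    · simp only [sPermFun, hb, if_true]
      congr 1
      exact Fin.ext hb.symm
    · simp only [sPermFun, hb, if_false, negInvFin_ne_zero p hb]
      rw [negInvFin_negInvFin p hb]

/-- **Abstract `S`-invariance**: if the conjugates at `τ'` are obtained from those at `τ` by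
the permutation `sPermFun`, the two products agree. -/
theorem prod_conj_eq_of_perm (E E' : ℂ) (G G' : Fin p → ℂ)
    (ha : E' = G ⟨0, (Fact.out : p.Prime).pos⟩)
    (hb : G' ⟨0, (Fact.out : p.Prime).pos⟩ = E)
    (hc : ∀ b : Fin p, (b : ℕ) ≠ 0 → G' b = G (negInvFin p b)) :
    (X - C E') * ∏ b : Fin p, (X - C (G' b)) = (X - C E) * ∏ b : Fin p, (X - C (G b)) := by
  set f : Option (Fin p) → ℂ := fun i => Option.elim i E G with hf
  set f' : Option (Fin p) → ℂ := fun i => Option.elim i E' G' with hf'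
  have h1 : (X - C E) * ∏ b : Fin p, (X - C (G b)) = ∏ i : Option (Fin p), (X - C (f i)) := by
    rw [Fintype.prod_option]; rfl
  have h2 : (X - C E') * ∏ b : Fin p, (X - C (G' b)) = ∏ i : Option (Fin p), (X - C (f' i)) := by
    rw [Fintype.prod_option]; rfl
  have h3 : ∀ i, f' i = f (sPermFun p i) := by
    intro i
    cases i with
    | none => simp [hf, hf', sPermFun, ha]
    | some b =>
      by_cases hb0 : (b : ℕ) = 0
      · have hb1 : b = ⟨0, (Fact.out : p.Prime).pos⟩ := Fin.ext hb0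
        subst hb1
        show G' ⟨0, (Fact.out : p.Prime).pos⟩ = f (sPermFun p (some ⟨0, (Fact.out : p.Prime).pos⟩))
        rw [hb]
        simp [hf, sPermFun]
      · simp [hf, hf', sPermFun, hb0, hc b hb0]
  rw [h1, h2]
  rw [← Equiv.prod_comp ((sPermFun_involutive p).toPerm _) (fun i => (X - C (f i)))]
  apply Finset.prod_congr rfl
  intro i _
  rw [h3 i]
  rfl

end Perm

section PointIdentities

variable (p : ℕ) [NeZero p]

theorem mulNat_S_smul (τ : ℍ) :
    mulNat p (ModularGroup.S • τ) = ModularGroup.S • divShift p 0 τ := by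
  have hp : (p : ℂ) ≠ 0 := by exact_mod_cast NeZero.ne p
  have hτ : (τ : ℂ) ≠ 0 := ne_zero τ
  apply UpperHalfPlane.ext
  rw [modular_S_smul, modular_S_smul]
  simp only [coe_mulNat, coe_divShift, Int.cast_zero, add_zero]
  field_simp

theorem divShift_zero_S_smul (τ : ℍ) :
    divShift p 0 (ModularGroup.S • τ) = ModularGroup.S • mulNat p τ := by
  have hp : (p : ℂ) ≠ 0 := by exact_mod_cast NeZero.ne p
  have hτ : (τ : ℂ) ≠ 0 := ne_zero τ
  apply UpperHalfPlane.ext
  rw [modular_S_smul, modular_S_smul]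
  simp only [coe_mulNat, coe_divShift, Int.cast_zero, add_zero]
  field_simp

theorem mulNat_divShift (b : ℤ) (τ : ℍ) :
    mulNat p (divShift p b τ) = ModularGroup.T ^ b • τ := by
  have hp : (p : ℂ) ≠ 0 := by exact_mod_cast NeZero.ne p
  apply UpperHalfPlane.ext
  rw [modular_T_zpow_smul]
  simp only [coe_mulNat, coe_divShift, UpperHalfPlane.coe_vadd]
  field_simp
  push_cast
  ring

/-- The matrix `[[B, -k], [p, -B']]` with `B B' + 1 = p k`. -/
def conjMat (B B' k : ℤ) (h : B * B' + 1 = (p : ℤ) * k) : SL(2, ℤ) :=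
  ⟨!![B, -k; (p : ℤ), -B'], by
    rw [Matrix.det_fin_two_of]
    linarith⟩

theorem conjMat_smul (B B' k : ℤ) (h : B * B' + 1 = (p : ℤ) * k) (τ : ℍ) :
    conjMat p B B' k h • divShift p B' τ = divShift p B (ModularGroup.S • τ) := by
  have hp : (p : ℂ) ≠ 0 := by exact_mod_cast NeZero.ne p
  have hτ : (τ : ℂ) ≠ 0 := ne_zero τ
  have hk : (B : ℂ) * (B' : ℂ) + 1 = (p : ℂ) * (k : ℂ) := by exact_mod_cast h
  apply UpperHalfPlane.ext
  rw [coe_specialLinearGroup_apply, modular_S_smul]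
  simp only [coe_divShift, conjMat]
  simp only [Matrix.of_apply, Matrix.cons_val',
    Matrix.cons_val_zero, Matrix.cons_val_one, Matrix.cons_val_fin_one, algebraMap_int_eq,
    eq_intCast, Int.cast_neg, Int.cast_natCast, Complex.ofReal_intCast, Complex.ofReal_neg,
    Complex.ofReal_natCast]
  have hden : (p : ℂ) * (((τ : ℂ) + (B' : ℂ)) / (p : ℂ)) + -(B' : ℂ) = (τ : ℂ) := by
    field_simp; ring
  rw [hden]
  field_simp
  linear_combination hk

theorem denom_conjMat (B B' k : ℤ) (h : B * B' + 1 = (p : ℤ) * k) (τ : ℍ) :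
    denom (conjMat p B B' k h) (divShift p B' τ) = (τ : ℂ) := by
  have hp : (p : ℂ) ≠ 0 := by exact_mod_cast NeZero.ne p
  rw [ModularGroup.denom_apply]
  simp only [coe_divShift, conjMat]
  simp only [Matrix.of_apply, Matrix.cons_val',
    Matrix.cons_val_zero, Matrix.cons_val_one, Matrix.cons_val_fin_one]
  push_cast
  field_simp
  ring

end PointIdentities

end Fermat.Agent.S28.H807

end

end
-- ===== PACK-END S28/H807/SAction.lean

-- ===== PACK-BEGIN S28/H807/Families.lean
section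
/-
S28 / helper807 — `S`-invariance of the two families of conjugates:
* `j`-family: `{J(pτ)} ∪ {J((τ+b)/p)}` for an `SL(2,ℤ)`-invariant `J`;
* unit family: `{p¹² D(pτ)/D(τ)} ∪ {D((τ+b)/p)/D(τ)}` for a weight-12 form `D`.
-/



set_option autoImplicit false
set_option maxHeartbeats 400000

noncomputable section

open ModularCurve Polynomial Matrix UpperHalfPlane Complex
open scoped MatrixGroups

namespace Fermat.Agent.S28.H807

variable (p : ℕ) [NeZero p]

/-- The polynomial `(X - E(τ)) ∏_b (X - G((τ+b)/p))`. -/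
def conjPoly (E G : ℍ → ℂ) (τ : ℍ) : Polynomial ℂ :=
  (X - C (E τ)) * ∏ b : Fin p, (X - C (G (divShift p ((b : ℕ) : ℤ) τ)))

theorem conjPoly_S_of (hp : p.Prime) (E G : ℍ → ℂ)
    (ha : ∀ τ : ℍ, E (ModularGroup.S • τ) = G (divShift p 0 τ))
    (hb : ∀ τ : ℍ, G (divShift p 0 (ModularGroup.S • τ)) = E τ)
    (hc : ∀ (B B' k : ℤ) (_ : B * B' + 1 = (p : ℤ) * k) (τ : ℍ),
      G (divShift p B (ModularGroup.S • τ)) = G (divShift p B' τ))
    (τ : ℍ) : conjPoly p E G (ModularGroup.S • τ) = conjPoly p E G τ := by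
  have : Fact p.Prime := ⟨hp⟩
  unfold conjPoly
  apply prod_conj_eq_of_perm p (E τ) (E (ModularGroup.S • τ))
    (fun b => G (divShift p ((b : ℕ) : ℤ) τ))
    (fun b => G (divShift p ((b : ℕ) : ℤ) (ModularGroup.S • τ)))
  · simpa using ha τ
  · simpa using hb τ
  · intro b hb0
    obtain ⟨k, hk⟩ := dvd_mul_negInvFin_add_one p hb0
    exact hc _ _ k hk τ

/-- `S`-invariance for the `j`-family. -/
theorem conjPoly_J_S (hp : p.Prime) (J : ℍ → ℂ)
    (hJ : ∀ (γ : SL(2, ℤ)) (τ : ℍ), J (γ • τ) = J τ) (τ : ℍ) :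
    conjPoly p (fun τ => J (mulNat p τ)) J (ModularGroup.S • τ)
      = conjPoly p (fun τ => J (mulNat p τ)) J τ := by
  apply conjPoly_S_of p hp
  · intro τ
    rw [mulNat_S_smul, hJ]
  · intro τ
    rw [divShift_zero_S_smul, hJ]
  · intro B B' k h τ
    rw [← conjMat_smul p B B' k h, hJ]

/-- The function `τ' ↦ D(τ')/D(pτ')`, whose values at `(τ+b)/p` are `D((τ+b)/p)/D(τ)`. -/
def unitG (D : ℍ → ℂ) (τ : ℍ) : ℂ := D τ / D (mulNat p τ)

/-- The function `τ ↦ p¹² D(pτ)/D(τ)`. -/
def unitE (D : ℍ → ℂ) (τ : ℍ) : ℂ := (p : ℂ) ^ 12 * D (mulNat p τ) / D τ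

/-- `S`-invariance for the unit family. -/
theorem conjPoly_unit_S (hp : p.Prime) (D : ℍ → ℂ) (hD0 : ∀ τ, D τ ≠ 0)
    (hD : ∀ (γ : SL(2, ℤ)) (τ : ℍ), D (γ • τ) = (denom γ τ) ^ 12 * D τ) (τ : ℍ) :
    conjPoly p (unitE p D) (unitG p D) (ModularGroup.S • τ)
      = conjPoly p (unitE p D) (unitG p D) τ := by
  have hpc : (p : ℂ) ≠ 0 := by exact_mod_cast NeZero.ne p
  have hS : ∀ z : ℍ, D (ModularGroup.S • z) = (z : ℂ) ^ 12 * D z := by
    intro z
    rw [hD, ModularGroup.denom_S]
  have hT : ∀ (n : ℤ) (z : ℍ), D (ModularGroup.T ^ n • z) = D z := by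
    intro n z
    rw [hD]
    have : denom ((ModularGroup.T ^ n : SL(2, ℤ)) : GL (Fin 2) ℝ) z = 1 := by
      rw [ModularGroup.denom_apply]
      simp [ModularGroup.coe_T_zpow]
    rw [this, one_pow, one_mul]
  apply conjPoly_S_of p hp
  · intro τ
    have hτ : (τ : ℂ) ≠ 0 := ne_zero τ
    unfold unitE unitG
    rw [mulNat_S_smul, hS, hS, mulNat_divShift, hT]
    have h1 : ((divShift p 0 τ : ℍ) : ℂ) = (τ : ℂ) / (p : ℂ) := by simp
    rw [h1]
    have := hD0 τ
    field_simp
  · intro τ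
    have hτ : (τ : ℂ) ≠ 0 := ne_zero τ
    unfold unitE unitG
    rw [mulNat_divShift, hT, divShift_zero_S_smul, hS, hS]
    have h1 : ((mulNat p τ : ℍ) : ℂ) = (p : ℂ) * (τ : ℂ) := by simp
    rw [h1]
    have := hD0 τ
    field_simp
  · intro B B' k h τ
    have hτ : (τ : ℂ) ≠ 0 := ne_zero τ
    unfold unitG
    rw [mulNat_divShift, hT, mulNat_divShift, hT, ← conjMat_smul p B B' k h, hD,
      denom_conjMat, hS]
    have := hD0 τ
    field_simp

end Fermat.Agent.S28.H807

end

end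
-- ===== PACK-END S28/H807/Families.lean

-- ===== PACK-BEGIN S28/H25/Theta.lean
section





/-!
# [A-θ] The `θ`-identity `(θ j)⁶ = Δ · j⁴ · (j - 1728)³` in `ℤ((q))` (helper25)

Unconditional, in the exact shape of the captain skeleton
(`Fermat.Agent.S28.thetaL`, `Fermat.Agent.S28.deltaL`, Prelude `jqModC`).
-/

set_option autoImplicit false

open UpperHalfPlane hiding I
open ModularCurve HahnSeries

noncomputable section

namespace Fermat.Agent.S28.H25

/-- Bridge B2: `qExpansion 1 Δ = q ∏ (1 - qⁿ)²⁴` (from helper685's eta bridge). -/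
theorem deltaBridge : DeltaBridge := by
  have h1 : Fermat.Agent.S28.H685.HasQExp 1 (fun τ => ModularForm.discriminant τ)
      (PowerSeries.X * Fermat.Agent.S28.H685.dedekindEtaUnitC) :=
    (Fermat.Agent.S28.H685.HasQExp.X.mul
      Fermat.Agent.S28.H685.hasQExp_dedekindEtaUnitC).congr_fun
      (fun τ => (Fermat.Agent.S28.H685.discriminant_eq_etaC τ).symm)
  have h2 : Fermat.Agent.S28.H685.HasQExp 1 (fun τ => ModularForm.discriminant τ)
      (qExpansion 1 ModularForm.discriminant) := by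
    intro τ
    exact ModularForm.hasSum_qExpansion (discForm) one_pos
      one_mem_strictPeriods_SL τ
  exact h2.unique one_pos h1

theorem thetaL_eq_thetaLaurent (R : Type*) [CommRing R] (f : LaurentSeries R) :
    Fermat.Agent.S28.thetaL R f = thetaLaurent R f := rfl

theorem deltaL_int_eq : Fermat.Agent.S28.deltaL ℤ = deltaLaurentInt := by
  have h : dedekindEtaUnit.map (Int.castRingHom ℤ) = dedekindEtaUnit := by
    ext n
    simp
  rw [Fermat.Agent.S28.deltaL, deltaLaurentInt, h]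

/-- **[A-θ]** `(θ j)⁶ = Δ · j⁴ · (j - 1728)³` in `ℤ((q))`. -/
theorem theta_identity :
    (Fermat.Agent.S28.thetaL ℤ (jqModC ℤ)) ^ 6 =
      Fermat.Agent.S28.deltaL ℤ * (jqModC ℤ) ^ 4 * (jqModC ℤ - 1728) ^ 3 := by
  rw [thetaL_eq_thetaLaurent, deltaL_int_eq]
  exact theta_identity_laurent deltaBridge

end Fermat.Agent.S28.H25

end
end
-- ===== PACK-END S28/H25/Theta.lean

-- ===== PACK-BEGIN A2/H609/Purity.lean
section



/-!
# Node purity, part 7: the abstract purity criterion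

`R` a noetherian local integrally closed domain, `π ∈ 𝔪`, `u` regular modulo `π`, `(u, π)`
`𝔪`-primary, (H1) `m ∣ ord_𝔓 u` at the horizontal primes.  If an ideal `J' ∋ π` contains every
`f` with `f ^ m = u r`, `r ∈ 𝔪`, and `ℓ(R/(u, π)) < m ℓ(R/J')`, then `u = ε f ^ m`.
Mathlib only.
-/

set_option autoImplicit false

namespace Fermat.Agent.A2.H609

open Ideal

variable {R : Type*} [CommRing R] [IsDomain R] [IsIntegrallyClosed R] [IsNoetherianRing R]
  [IsLocalRing R]

/-- The abstract purity criterion (length count). -/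
theorem exists_unit_mul_pow_of_relLen {u π : R} {m : ℕ} (hm : m ≠ 0) (hu0 : u ≠ 0)
    (hπ0 : π ≠ 0) (hπ : π ∈ IsLocalRing.maximalIdeal R)
    (hreg : ∀ x : R, π ∣ u * x → π ∣ x)
    (huπ : ∀ 𝔮 : Ideal R, 𝔮.IsPrime → u ∈ 𝔮 → π ∈ 𝔮 → 𝔮 = IsLocalRing.maximalIdeal R)
    (H1 : ∀ 𝔓 : Ideal R, 𝔓.IsPrime → u ∈ 𝔓 → π ∉ 𝔓 → ∃ f r : R, r ∉ 𝔓 ∧ f ^ m = u * r)
    (J' : Ideal R) (hπJ : π ∈ J')
    (hJ' : ∀ f r : R, f ^ m = u * r → r ∈ IsLocalRing.maximalIdeal R → f ∈ J')
    (B : ℕ) (hB : (B : ℕ∞) ≤ relLen J' (⊤ : Ideal R))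
    (hlt : relLen (Ideal.span {u, π}) (⊤ : Ideal R) < (m : ℕ∞) * B) :
    ∃ (f : R) (ε : Rˣ), u = ε * f ^ m := by
  by_contra hcon
  have hall : ∀ f r : R, f ^ m = u * r → r ∈ IsLocalRing.maximalIdeal R := by
    intro f r hfr
    by_contra hr
    have hr' : IsUnit r := by
      by_contra h
      exact hr ((IsLocalRing.mem_maximalIdeal r).mpr h)
    obtain ⟨ε, rfl⟩ := hr'
    apply hcon
    refine ⟨f, ε⁻¹, ?_⟩
    rw [hfr, mul_comm u, ← mul_assoc, Units.inv_mul, one_mul]
  have hI : rootIdeal u m hm 1 ⊔ Ideal.span {π} ≤ J' := by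
    refine sup_le ?_ ?_
    · intro f hf
      rw [mem_rootIdeal, pow_one] at hf
      obtain ⟨r, hr⟩ := hf
      exact hJ' f r hr (hall f r hr)
    · rw [Ideal.span_singleton_le_iff_mem]
      exact hπJ
  have h1 : (B : ℕ∞) ≤ relLen (rootIdeal u m hm 1 ⊔ Ideal.span {π}) (⊤ : Ideal R) :=
    hB.trans (relLen_mono_left hI le_top)
  obtain ⟨t, r, k, ht, hk⟩ := exists_generator hm hu0 hπ huπ H1
  have hfin : relLen (Ideal.span {u, π}) (⊤ : Ideal R) ≠ ⊤ := by
    intro h
    rw [h] at hlt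
    exact not_top_lt hlt
  have h2 := relLen_span_pair_eq_nsmul (hm := hm) hu0 hπ0 hreg ht hk hfin
  rw [h2, nsmul_eq_mul] at hlt
  exact absurd (mul_le_mul_right h1 (m : ℕ∞)) (not_le.mpr hlt)

end Fermat.Agent.A2.H609

end
-- ===== PACK-END A2/H609/Purity.lean

-- ===== PACK-BEGIN A2/Mod/H553/Vinf.lean
section



/-!
# A2 / MOD leaves L1 `VinfExists`, L2 `VinfBasic` (helper553)

Level `E` Gauss valuation `V∞` of `F_{N,E} = E(j_d : d ∣ N)` over `R_E = P ∩ E` (a DVR):

* `VinfE P E N` : the valuation subring (`= H708.gaussInf`), `isVinf_VinfE`, `IsVinf.eq`;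
* `mem_of_int`, `inv_mem_of_int` : functions with integral `t`-expansion lie in `V∞`; if a
  coefficient is `±1` they are units of `V∞`;
* `vinfExists : VinfExistsStatement P E`  (L1);
* `vinfBasic : VinfBasicStatement P E w`  (L2).
-/

set_option autoImplicit false
set_option synthInstance.maxHeartbeats 400000
set_option maxHeartbeats 1600000
set_option linter.unusedSectionVars false
set_option linter.style.haveILetI false

noncomputable section

namespace Fermat.Agent.A2.Mod.H553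

open ModularCurve HahnSeries Polynomial
open Fermat.Agent.A2 Fermat.Agent.A2.Mod

variable (P : ValuationSubring _root_.Fermat.Agent.A2.Mod.Qb) (E : IntermediateField ℚ _root_.Fermat.Agent.A2.Mod.Qb)

/-- the Gauss valuation ring at `∞` of `F_{N,E}` -/
def VinfE (N : ℕ) [IsNoetherianRing ↥(_root_.Fermat.Agent.A2.Mod.RE P E)] : ValuationSubring ↥(_root_.Fermat.Agent.A2.Mod.FE E N) :=
  H708.gaussInf (_root_.Fermat.Agent.A2.Mod.RE P E) (modularFunctionFieldFull N) (H708.intGen_full N)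
    (H708.attainsMax_of_isNoetherianRing (_root_.Fermat.Agent.A2.Mod.RE P E) (modularFunctionFieldFull N))

theorem isVinf_VinfE (N : ℕ) [IsNoetherianRing ↥(_root_.Fermat.Agent.A2.Mod.RE P E)] : IsVinf P E N (VinfE P E N) :=
  fun _ => Iff.rfl

variable {P E}

theorem eq_VinfE_of_isVinf {N : ℕ} [IsNoetherianRing ↥(_root_.Fermat.Agent.A2.Mod.RE P E)] {V : ValuationSubring ↥(_root_.Fermat.Agent.A2.Mod.FE E N)}
    (hV : IsVinf P E N V) : V = VinfE P E N := by
  ext f
  rw [hV f]
  exact ((isVinf_VinfE P E N) f).symm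

/-- integral series, in `E((t))` -/
theorem coeffEmb_castQ (g : LaurentSeries ℤ) :
    coeffEmb (↥E) (H708.castQ g) = H708.incl (_root_.Fermat.Agent.A2.Mod.RE P E) (H708.castA (_root_.Fermat.Agent.A2.Mod.RE P E) g) :=
  (H708.incl_castA (_root_.Fermat.Agent.A2.Mod.RE P E) g).symm

/-- functions with integral `t`-expansion lie in `V∞` -/
theorem mem_of_int {N : ℕ} {V : ValuationSubring ↥(_root_.Fermat.Agent.A2.Mod.FE E N)} (hV : IsVinf P E N V)
    {f : ↥(_root_.Fermat.Agent.A2.Mod.FE E N)} {g : LaurentSeries ℤ}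
    (hfg : (f : LaurentSeries ↥E) = coeffEmb (↥E) (H708.castQ g)) : f ∈ V := by
  rw [hV f, hfg, coeffEmb_castQ (P := P)]
  exact H708.IsGaussInt.of_incl _

theorem red_castA_ne_zero {g : LaurentSeries ℤ} {k : ℤ}
    (hk : g.coeff k = 1 ∨ g.coeff k = -1) :
    H708.red (_root_.Fermat.Agent.A2.Mod.RE P E) (H708.castA (_root_.Fermat.Agent.A2.Mod.RE P E) g) ≠ 0 := by
  rw [H708.red_ne_zero_iff]
  refine ⟨k, ?_⟩
  have h1 : (((H708.castA (_root_.Fermat.Agent.A2.Mod.RE P E) g).coeff k : ↥(_root_.Fermat.Agent.A2.Mod.RE P E)) : ↥E) = ((g.coeff k : ℤ) : ↥E) := by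
    show ((((g.coeff k : ℤ) : ↥(_root_.Fermat.Agent.A2.Mod.RE P E))) : ↥E) = _
    simp
  rw [h1]
  rcases hk with hk | hk
  · rw [hk]; simp
  · rw [hk]; simp

/-- functions with integral `t`-expansion having a coefficient `±1` are units of `V∞` -/
theorem inv_mem_of_int {N : ℕ} {V : ValuationSubring ↥(_root_.Fermat.Agent.A2.Mod.FE E N)} (hV : IsVinf P E N V)
    {f : ↥(_root_.Fermat.Agent.A2.Mod.FE E N)} {g : LaurentSeries ℤ} {k : ℤ}
    (hfg : (f : LaurentSeries ↥E) = coeffEmb (↥E) (H708.castQ g))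
    (hk : g.coeff k = 1 ∨ g.coeff k = -1) : f⁻¹ ∈ V := by
  rw [hV f⁻¹]
  have hf : (f : LaurentSeries ↥E) = H708.incl (_root_.Fermat.Agent.A2.Mod.RE P E) (H708.castA (_root_.Fermat.Agent.A2.Mod.RE P E) g) := by
    rw [hfg, coeffEmb_castQ (P := P)]
  have hred := red_castA_ne_zero (P := P) (E := E) hk
  have hne : H708.incl (_root_.Fermat.Agent.A2.Mod.RE P E) (H708.castA (_root_.Fermat.Agent.A2.Mod.RE P E) g) ≠ 0 :=
    H708.incl_ne_zero _ (H708.ne_zero_of_red_ne_zero _ hred)
  refine ⟨1, H708.castA (_root_.Fermat.Agent.A2.Mod.RE P E) g, hred, ?_, ?_⟩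
  · rw [← hf]
    exact f.2
  · rw [IntermediateField.coe_inv, hf, inv_mul_cancel₀ hne, map_one]

/-- the generators `j_d` as integral series -/
theorem coe_jE (N d : ℕ) [NeZero d] (hd : d ∣ N) :
    ((jE E N d hd : ↥(_root_.Fermat.Agent.A2.Mod.FE E N)) : LaurentSeries ↥E) = coeffEmb (↥E) (H708.castQ (H708.jInt d)) := by
  rw [H708.castQ_jInt]
  rfl

theorem coeff_jInt_top (d : ℕ) [NeZero d] : (H708.jInt d).coeff (-(d : ℤ)) = 1 := by
  have h := coeff_jqModC_pow_self ℤ 1
  rw [H708.jInt, jqNModC,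
    show (-(d : ℤ)) = (d : ℤ) * (-((1 : ℕ) : ℤ)) by push_cast; ring, qExpand_coeff_mul]
  simpa using h

variable (P E)

/-- **L1.** -/
theorem vinfExists : VinfExistsStatement P E := by
  intro N _ hdvr
  haveI := hdvr
  exact ⟨VinfE P E N, isVinf_VinfE P E N⟩

/-- `V∞ ∩ E = R_E`. -/
theorem algebraMap_mem_iff {N : ℕ} [IsNoetherianRing ↥(_root_.Fermat.Agent.A2.Mod.RE P E)] {V : ValuationSubring ↥(_root_.Fermat.Agent.A2.Mod.FE E N)}
    (hV : IsVinf P E N V) (e : ↥E) : algebraMap ↥E ↥(_root_.Fermat.Agent.A2.Mod.FE E N) e ∈ V ↔ e ∈ _root_.Fermat.Agent.A2.Mod.RE P E := by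
  rw [eq_VinfE_of_isVinf hV]
  exact H708.algebraMap_mem_gaussInf_iff _ _ e

/-- every nonzero function is a constant times a unit of `V∞` -/
theorem exists_const_mul_unit {N : ℕ} [IsNoetherianRing ↥(_root_.Fermat.Agent.A2.Mod.RE P E)]
    {V : ValuationSubring ↥(_root_.Fermat.Agent.A2.Mod.FE E N)} (hV : IsVinf P E N V) {f : ↥(_root_.Fermat.Agent.A2.Mod.FE E N)} (hf : f ≠ 0) :
    ∃ c : ↥E, c ≠ 0 ∧ V.valuation (f * (algebraMap ↥E ↥(_root_.Fermat.Agent.A2.Mod.FE E N) c)⁻¹) = 1 := by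
  rw [eq_VinfE_of_isVinf hV]
  exact H708.exists_const_mul_unit _ _ hf

/-- **L2.** -/
theorem vinfBasic (w : _root_.Fermat.Agent.A2.Mod.RE P E) : VinfBasicStatement P E w := by
  intro N _ hdvr hw V hV
  haveI := hdvr
  have hw0 : (w : ↥E) ≠ 0 := by
    intro h0
    exact hw.ne_zero (Subtype.ext h0)
  have hwinv : ((w : ↥E))⁻¹ ∉ _root_.Fermat.Agent.A2.Mod.RE P E := by
    intro hmem
    apply hw.not_isUnit
    refine isUnit_iff_exists_inv.mpr ⟨⟨_, hmem⟩, Subtype.ext ?_⟩
    show (w : ↥E) * ((w : ↥E))⁻¹ = 1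
    exact mul_inv_cancel₀ hw0
  refine ⟨⟨?_, ?_, ?_⟩, fun e => algebraMap_mem_iff P E hV e, ?_⟩
  · exact (algebraMap_mem_iff P E hV _).mpr w.2
  · intro hmem
    have h1 : (cE P E N w)⁻¹ = algebraMap ↥E ↥(_root_.Fermat.Agent.A2.Mod.FE E N) ((w : ↥E))⁻¹ := (map_inv₀ _ _).symm
    rw [h1] at hmem
    exact hwinv ((algebraMap_mem_iff P E hV _).mp hmem)
  · intro f hfV hfinv
    rcases eq_or_ne f 0 with rfl | hf0
    · rw [zero_mul]; exact V.zero_mem
    obtain ⟨c, hc0, hu⟩ := exists_const_mul_unit P E hV hf0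
    obtain ⟨u, hu_def⟩ : ∃ u : ↥(_root_.Fermat.Agent.A2.Mod.FE E N), u = f * (algebraMap ↥E ↥(_root_.Fermat.Agent.A2.Mod.FE E N) c)⁻¹ := ⟨_, rfl⟩
    rw [← hu_def] at hu
    have hcF : algebraMap ↥E ↥(_root_.Fermat.Agent.A2.Mod.FE E N) c ≠ 0 :=
      (map_ne_zero_iff _ (algebraMap ↥E ↥(_root_.Fermat.Agent.A2.Mod.FE E N)).injective).mpr hc0
    have hu0 : u ≠ 0 := by
      rw [hu_def]
      exact mul_ne_zero hf0 (inv_ne_zero hcF)
    have huV : u ∈ V := (V.valuation_le_one_iff _).mp hu.le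
    have huinvV : u⁻¹ ∈ V := by
      rw [← V.valuation_le_one_iff, map_inv₀, hu, inv_one]
    have hfu : f = u * algebraMap ↥E ↥(_root_.Fermat.Agent.A2.Mod.FE E N) c := by
      rw [hu_def, mul_assoc, inv_mul_cancel₀ hcF, mul_one]
    -- `c ∈ R`
    have hcV : algebraMap ↥E ↥(_root_.Fermat.Agent.A2.Mod.FE E N) c ∈ V := by
      have : algebraMap ↥E ↥(_root_.Fermat.Agent.A2.Mod.FE E N) c = u⁻¹ * f := by
        rw [hfu, ← mul_assoc, inv_mul_cancel₀ hu0, one_mul]
      rw [this]
      exact V.mul_mem _ _ huinvV hfV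
    have hcR : c ∈ _root_.Fermat.Agent.A2.Mod.RE P E := (algebraMap_mem_iff P E hV c).mp hcV
    -- `c` is not a unit of `R`
    have hcnu : ¬ IsUnit (⟨c, hcR⟩ : ↥(_root_.Fermat.Agent.A2.Mod.RE P E)) := by
      intro hunit
      obtain ⟨d, hd⟩ := isUnit_iff_exists_inv.mp hunit
      have hd' : c * (d : ↥E) = 1 := congrArg Subtype.val hd
      have hdinv : c⁻¹ = (d : ↥E) := by
        rw [inv_eq_iff_eq_inv]
        exact eq_inv_of_mul_eq_one_left hd'
      apply hfinv
      have : f⁻¹ = u⁻¹ * algebraMap ↥E ↥(_root_.Fermat.Agent.A2.Mod.FE E N) (d : ↥E) := by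
        rw [hfu, mul_inv, ← hdinv, map_inv₀]
      rw [this]
      exact V.mul_mem _ _ huinvV ((algebraMap_mem_iff P E hV _).mpr d.2)
    have hcm : (⟨c, hcR⟩ : ↥(_root_.Fermat.Agent.A2.Mod.RE P E)) ∈ IsLocalRing.maximalIdeal ↥(_root_.Fermat.Agent.A2.Mod.RE P E) :=
      (IsLocalRing.mem_maximalIdeal _).mpr hcnu
    rw [hw.maximalIdeal_eq, Ideal.mem_span_singleton'] at hcm
    obtain ⟨r, hr⟩ := hcm
    have hr' : (r : ↥E) * (w : ↥E) = c := congrArg Subtype.val hr
    have hcwF : cE P E N w ≠ 0 :=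
      (map_ne_zero_iff _ (algebraMap ↥E ↥(_root_.Fermat.Agent.A2.Mod.FE E N)).injective).mpr hw0
    have hcr : algebraMap ↥E ↥(_root_.Fermat.Agent.A2.Mod.FE E N) c = algebraMap ↥E ↥(_root_.Fermat.Agent.A2.Mod.FE E N) (r : ↥E) * cE P E N w := by
      rw [← hr', map_mul]
      rfl
    have : f * (cE P E N w)⁻¹ = u * algebraMap ↥E ↥(_root_.Fermat.Agent.A2.Mod.FE E N) (r : ↥E) := by
      rw [hfu, hcr, mul_assoc, mul_assoc, mul_inv_cancel₀ hcwF, mul_one]
    rw [this]
    exact V.mul_mem _ _ huV ((algebraMap_mem_iff P E hV _).mpr r.2)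
  · intro d _ hd
    exact ⟨mem_of_int hV (coe_jE N d hd),
      inv_mem_of_int hV (coe_jE N d hd) (Or.inl (coeff_jInt_top d))⟩

end Fermat.Agent.A2.Mod.H553

end
end
-- ===== PACK-END A2/Mod/H553/Vinf.lean

-- ===== PACK-BEGIN S55/Bridge/H594/Lift.lean
section



/-!
# S55 bridge (helper594), piece B14: lifting decomposition and inertia elements

`F ⊂ ℚ̄` a normal intermediate field, `A` a valuation subring of `ℚ̄` over a prime number `q`.

* `exists_decomposition_lift`: every `τ ∈ Gal(F/ℚ)` stabilising the prime of `𝓞_F` below `A`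
  is the restriction of an element of the decomposition group of `A`;
* `exists_inertia_lift`: every `τ ∈ Gal(F/ℚ)` acting trivially on `𝓞_F` modulo the prime below
  `A` is the restriction of an element of the inertia group of `A`.
-/

set_option autoImplicit false
set_option linter.style.haveILetI false

namespace Fermat.Agent.S55.Bridge.H594

open Fermat.Agent.S54 Fermat.Agent.S55.Bridge
open scoped Pointwise

attribute [local instance] isAlgebraic_Qbar isGalois_Qbar

section lift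

variable (F : IntermediateField ℚ (AlgebraicClosure ℚ))

/-- An algebraic integer fixed by `Gal(ℚ̄/F)` lies in `F`. -/
theorem coe_mem_of_forall_fixingSubgroup_smul_eq
    (b : integralClosure ℤ (AlgebraicClosure ℚ))
    (hb : ∀ h : F.fixingSubgroup, h • b = b) : (b : AlgebraicClosure ℚ) ∈ F := by
  have h1 : (b : AlgebraicClosure ℚ) ∈ IntermediateField.fixedField F.fixingSubgroup := by
    intro h
    exact congrArg Subtype.val (hb h)
  rwa [InfiniteGalois.fixedField_fixingSubgroup] at h1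

variable [Normal ℚ F]

theorem restrictNormalHom_apply (σ : AlgebraicClosure ℚ ≃ₐ[ℚ] AlgebraicClosure ℚ) (x : F) :
    ((AlgEquiv.restrictNormalHom F σ x : F) : AlgebraicClosure ℚ) = σ (x : AlgebraicClosure ℚ) :=
  AlgEquiv.restrictNormal_commutes σ F x

theorem restrictNormalHom_eq_one_of_mem_fixingSubgroup
    (h : AlgebraicClosure ℚ ≃ₐ[ℚ] AlgebraicClosure ℚ) (hh : h ∈ F.fixingSubgroup) :
    AlgEquiv.restrictNormalHom F h = 1 := by
  apply AlgEquiv.ext
  intro x
  apply Subtype.ext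
  rw [restrictNormalHom_apply]
  exact (IntermediateField.mem_fixingSubgroup_iff F h).mp hh x x.2

variable (A : ValuationSubring (AlgebraicClosure ℚ))

/-- **B14, decomposition part.**  If `τ ∈ Gal(F/ℚ)` preserves the non-units of `A` among the
integers of `F`, then `τ` lifts to the decomposition group of `A`. -/
theorem exists_decomposition_lift {q : ℕ} (hq : q.Prime) (hA : A.LiesOverPrime q)
    (τ : F ≃ₐ[ℚ] F)
    (hτ : ∀ x : F, IsIntegral ℤ x →
      (((τ x : F) : AlgebraicClosure ℚ) ∈ A.nonunits ↔ (x : AlgebraicClosure ℚ) ∈ A.nonunits)) :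
    ∃ σ ∈ A.decompositionSubgroup ℚ, AlgEquiv.restrictNormalHom F σ = τ := by
  letI : TopologicalSpace (integralClosure ℤ (AlgebraicClosure ℚ)) := ⊥
  haveI : DiscreteTopology (integralClosure ℤ (AlgebraicClosure ℚ)) := ⟨rfl⟩
  haveI := continuousSMul_integralClosure
  haveI := primeBelow_isPrime A
  obtain ⟨τ₀, hτ₀⟩ := AlgEquiv.restrictNormalHom_surjective (F := ℚ) (K₁ := F)
    (AlgebraicClosure ℚ) τ
  haveI : (τ₀ • primeBelow A).IsPrime := by
    rw [Ideal.pointwise_smul_eq_comap]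
    exact Ideal.comap_isPrime _ _
  have hPQ : ∀ b : integralClosure ℤ (AlgebraicClosure ℚ),
      (∀ h : F.fixingSubgroup, h • b = b) → (b ∈ primeBelow A ↔ b ∈ τ₀ • primeBelow A) := by
    intro b hb
    have hbF : (b : AlgebraicClosure ℚ) ∈ F := coe_mem_of_forall_fixingSubgroup_smul_eq F b hb
    rw [Ideal.mem_pointwise_smul_iff_inv_smul_mem, mem_primeBelow, mem_primeBelow, coe_smul]
    -- `x = τ⁻¹ b`
    have hx : IsIntegral ℤ (τ⁻¹ ⟨(b : AlgebraicClosure ℚ), hbF⟩ : F) := by
      have hbint : IsIntegral ℤ (⟨(b : AlgebraicClosure ℚ), hbF⟩ : F) := by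
        have := b.2
        exact (isIntegral_algebraMap_iff
          (FaithfulSMul.algebraMap_injective F (AlgebraicClosure ℚ))).mp this
      exact hbint.map (τ⁻¹ : F ≃ₐ[ℚ] F)
    have h1 := hτ _ hx
    have h2 : τ (τ⁻¹ ⟨(b : AlgebraicClosure ℚ), hbF⟩ : F) = ⟨(b : AlgebraicClosure ℚ), hbF⟩ := by
      show (τ * τ⁻¹) _ = _
      rw [mul_inv_cancel]; rfl
    rw [h2] at h1
    have h3 : ((τ⁻¹ ⟨(b : AlgebraicClosure ℚ), hbF⟩ : F) : AlgebraicClosure ℚ) =
        τ₀⁻¹ (b : AlgebraicClosure ℚ) := by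
      rw [← hτ₀, ← map_inv, restrictNormalHom_apply]
    rw [h3] at h1
    exact h1
  obtain ⟨h, hh⟩ := exists_smul_eq_of_forall_fixed_mem_iff (B := integralClosure ℤ (AlgebraicClosure ℚ))
    F.fixingSubgroup (InfiniteGalois.fixingSubgroup_isClosed F) (τ₀ • primeBelow A)
    (primeBelow A) (fun b hb => (hPQ b hb).symm)
  refine ⟨(h : AlgebraicClosure ℚ ≃ₐ[ℚ] AlgebraicClosure ℚ) * τ₀, ?_, ?_⟩
  · rw [mem_decompositionSubgroup_iff_smul_primeBelow A hq hA, mul_smul, ← hh]
  · rw [map_mul, restrictNormalHom_eq_one_of_mem_fixingSubgroup F h h.2, one_mul, hτ₀]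

/-- **B14, inertia part.**  If `τ ∈ Gal(F/ℚ)` acts trivially modulo the non-units of `A` on the
integers of `F`, then `τ` lifts to the inertia group of `A`. -/
theorem exists_inertia_lift {q : ℕ} (hq : q.Prime) (hA : A.LiesOverPrime q)
    (τ : F ≃ₐ[ℚ] F)
    (hτ : ∀ x : F, IsIntegral ℤ x →
      ((τ x : F) : AlgebraicClosure ℚ) - (x : AlgebraicClosure ℚ) ∈ A.nonunits) :
    ∃ σ ∈ A.inertiaSubgroupIn ℚ, AlgEquiv.restrictNormalHom F σ = τ := by
  letI : TopologicalSpace (integralClosure ℤ (AlgebraicClosure ℚ)) := ⊥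
  haveI : DiscreteTopology (integralClosure ℤ (AlgebraicClosure ℚ)) := ⟨rfl⟩
  haveI := continuousSMul_integralClosure
  haveI := primeBelow_isPrime A
  have hτ' : ∀ x : F, IsIntegral ℤ x →
      (((τ x : F) : AlgebraicClosure ℚ) ∈ A.nonunits ↔
        (x : AlgebraicClosure ℚ) ∈ A.nonunits) := by
    intro x hx
    constructor
    · intro h
      have := A.nonunits.sub_mem h (hτ x hx)
      simpa using this
    · intro h
      have := A.nonunits.add_mem (hτ x hx) h
      simpa using this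
  obtain ⟨σ₁, hσ₁D, hσ₁⟩ := exists_decomposition_lift F A hq hA τ hτ'
  have hσ₁P : σ₁ • primeBelow A = primeBelow A :=
    (mem_decompositionSubgroup_iff_smul_primeBelow A hq hA σ₁).mp hσ₁D
  have hfix : ∀ b : integralClosure ℤ (AlgebraicClosure ℚ),
      (∀ h : F.fixingSubgroup, h • b = b) → σ₁ • b - b ∈ primeBelow A := by
    intro b hb
    have hbF : (b : AlgebraicClosure ℚ) ∈ F := coe_mem_of_forall_fixingSubgroup_smul_eq F b hb
    have hbint : IsIntegral ℤ (⟨(b : AlgebraicClosure ℚ), hbF⟩ : F) :=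
      (isIntegral_algebraMap_iff
        (FaithfulSMul.algebraMap_injective F (AlgebraicClosure ℚ))).mp b.2
    have h1 := hτ _ hbint
    rw [← hσ₁, restrictNormalHom_apply] at h1
    exact h1
  obtain ⟨h, hhP, hh⟩ := exists_stabilizer_congr_of_forall_fixed
    (B := integralClosure ℤ (AlgebraicClosure ℚ)) F.fixingSubgroup
    (InfiniteGalois.fixingSubgroup_isClosed F) (primeBelow A) σ₁ hσ₁P hfix
  have hhP' : ∀ b : integralClosure ℤ (AlgebraicClosure ℚ),
      b ∈ primeBelow A → (h : AlgebraicClosure ℚ ≃ₐ[ℚ] AlgebraicClosure ℚ)⁻¹ • b ∈ primeBelow A := by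
    intro b hb
    have := (smul_primeBelow_eq_iff A _).mp hhP
      ((h : AlgebraicClosure ℚ ≃ₐ[ℚ] AlgebraicClosure ℚ)⁻¹ • b)
    rw [smul_inv_smul] at this
    exact this.mp hb
  refine ⟨(h : AlgebraicClosure ℚ ≃ₐ[ℚ] AlgebraicClosure ℚ)⁻¹ * σ₁, ?_, ?_⟩
  · rw [mem_inertiaSubgroupIn_iff_primeBelow A hq hA]
    intro b
    have h1 : σ₁ • b - (h : AlgebraicClosure ℚ ≃ₐ[ℚ] AlgebraicClosure ℚ) • b ∈ primeBelow A := by
      have := (primeBelow A).neg_mem (hh b)
      simpa using this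
    have h2 := hhP' _ h1
    rw [smul_sub, inv_smul_smul] at h2
    rw [mul_smul]
    exact h2
  · rw [map_mul, map_inv, restrictNormalHom_eq_one_of_mem_fixingSubgroup F h h.2, inv_one,
      one_mul, hσ₁]

end lift

end Fermat.Agent.S55.Bridge.H594

end
-- ===== PACK-END S55/Bridge/H594/Lift.lean

-- ===== PACK-BEGIN A2/H489/ChartA.lean
section


/-!
# A2 / MODASM step S1-abs (helper489): the two components of a chart

Setting of `H48.GaussPairLe` (helper48): `R` a factorial domain (application: the discrete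
valuation ring `P ∩ E`), `ϖ ∈ R` prime, `K = Frac R[X]`, `F / K` finite, `V₁ ≠ V₂` valuation
subrings of `F` inducing the Gauss valuation on `K`, with residue-independent families of total
size `≥ [F : K]`.  In addition `F` is an `R`-algebra compatibly with `R → R[X] → F`, and
`x := algebraMap R[X] F X` is the coordinate.

For the chart `B` = integral closure of `R[x]` in `F` (any `Subalgebra R F` with
`f ∈ B ↔ IsIntegral (Algebra.adjoin R {x}) f`):

* `isIntegral_adjoin_iff` : integrality over `Algebra.adjoin R {x}` = integrality over `R[X]`;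
* `compIdeal B V hBV` : the ideal `B ∩ 𝔪_V` (`mem_compIdeal`), prime (`compIdeal_isPrime`);
* `GaussPairLe.exists_mem_not_mem` : some element of the chart lies in `𝔪_{V₁}` and is a unit of
  `V₂`;
* `GaussPairLe.compIdeal_inf` : `(B ∩ 𝔪_{V₁}) ⊓ (B ∩ 𝔪_{V₂}) = ϖ B`  (`SSChart.inf_eq`);
* `GaussPairLe.exists_components` : the fields `p₁ p₂ prime₁ prime₂ ne not_le₁₂ not_le₂₁ inf_eq`
  of `Fermat.Agent.A2.SSChart` (Spec v2), with `p_i` characterised by `b ∈ p_i ↔ b ∈ 𝔪_{V_i}`.
-/

set_option autoImplicit false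
set_option linter.style.haveILetI false
set_option linter.unusedSectionVars false

namespace Fermat.Agent.A2.H489

open Polynomial
open Fermat.Agent.A2.H48

section Integral

variable {R F : Type*} [CommRing R] [Field F] [Algebra R[X] F] [Algebra R F]
  [IsScalarTower R R[X] F]

/-- `R[X] → F` is evaluation at the coordinate `x = algebraMap R[X] F X`. -/
theorem aeval_coord_eq_algebraMap (P : R[X]) :
    aeval (algebraMap R[X] F X) P = algebraMap R[X] F P := by
  have h : (aeval (algebraMap R[X] F X) : R[X] →ₐ[R] F) = IsScalarTower.toAlgHom R R[X] F := by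
    apply Polynomial.algHom_ext
    simp
  exact DFunLike.congr_fun h P

/-- the constants: `algebraMap R F r = algebraMap R[X] F (C r)` -/
theorem algebraMap_const_eq (r : R) : algebraMap R F r = algebraMap R[X] F (C r) := by
  rw [IsScalarTower.algebraMap_apply R R[X] F]
  rfl

/-- Integrality over the subalgebra `R[x] ⊆ F` is integrality over the polynomial ring. -/
theorem isIntegral_adjoin_iff (f : F) :
    IsIntegral (Algebra.adjoin R ({algebraMap R[X] F X} : Set F)) f ↔ IsIntegral R[X] f := by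
  have hmem : ∀ P : R[X], algebraMap R[X] F P ∈
      Algebra.adjoin R ({algebraMap R[X] F X} : Set F) := by
    intro P
    have h1 := Polynomial.aeval_mem_adjoin_singleton (p := P) R (algebraMap R[X] F X)
    rwa [aeval_coord_eq_algebraMap] at h1
  let φ : R[X] →+* Algebra.adjoin R ({algebraMap R[X] F X} : Set F) :=
    (algebraMap R[X] F).codRestrict _ hmem
  have hsurj : Function.Surjective φ := by
    rintro ⟨y, hy⟩
    rw [Algebra.adjoin_singleton_eq_range_aeval] at hy
    obtain ⟨P, hP⟩ := hy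
    refine ⟨P, Subtype.ext ?_⟩
    show algebraMap R[X] F P = y
    rw [← hP]
    exact (aeval_coord_eq_algebraMap P).symm
  letI : Algebra R[X] (Algebra.adjoin R ({algebraMap R[X] F X} : Set F)) := φ.toAlgebra
  haveI : IsScalarTower R[X] (Algebra.adjoin R ({algebraMap R[X] F X} : Set F)) F :=
    IsScalarTower.of_algebraMap_eq (fun _ => rfl)
  constructor
  · intro hf
    haveI : Algebra.IsIntegral R[X] (Algebra.adjoin R ({algebraMap R[X] F X} : Set F)) :=
      ⟨fun y => RingHom.isIntegral_of_surjective φ hsurj y⟩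
    exact isIntegral_trans f hf
  · exact fun hf => hf.tower_top

end Integral

section Comp

variable {R F : Type*} [CommRing R] [Field F] [Algebra R F]

theorem nonunits_add_mem {V : ValuationSubring F} {a b : F} (ha : a ∈ V.nonunits)
    (hb : b ∈ V.nonunits) : a + b ∈ V.nonunits := by
  rw [ValuationSubring.mem_nonunits_iff] at ha hb ⊢
  exact lt_of_le_of_lt (Valuation.map_add _ _ _) (max_lt ha hb)

theorem mem_mul_nonunits {V : ValuationSubring F} {a b : F} (ha : a ∈ V)
    (hb : b ∈ V.nonunits) : a * b ∈ V.nonunits := by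
  rw [ValuationSubring.mem_nonunits_iff] at hb ⊢
  rw [map_mul]
  exact Right.mul_lt_one_of_le_of_lt ((ValuationSubring.valuation_le_one_iff V a).mpr ha) hb

/-- The component `B ∩ 𝔪_V` of the chart `B ⊆ V`. -/
def compIdeal (B : Subalgebra R F) (V : ValuationSubring F) (hBV : ∀ b : B, (b : F) ∈ V) :
    Ideal B where
  carrier := {b | (b : F) ∈ V.nonunits}
  add_mem' := fun {a b} ha hb => by
    show ((a + b : B) : F) ∈ V.nonunits
    rw [Subalgebra.coe_add]
    exact nonunits_add_mem ha hb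
  zero_mem' := by
    show ((0 : B) : F) ∈ V.nonunits
    rw [Subalgebra.coe_zero, ValuationSubring.mem_nonunits_iff, map_zero]
    exact zero_lt_one
  smul_mem' := fun c b hb => by
    show ((c • b : B) : F) ∈ V.nonunits
    rw [smul_eq_mul, Subalgebra.coe_mul]
    exact mem_mul_nonunits (hBV c) hb

theorem mem_compIdeal {B : Subalgebra R F} {V : ValuationSubring F}
    {hBV : ∀ b : B, (b : F) ∈ V} {b : B} :
    b ∈ compIdeal B V hBV ↔ (b : F) ∈ V.nonunits := Iff.rfl

theorem compIdeal_isPrime (B : Subalgebra R F) (V : ValuationSubring F)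
    (hBV : ∀ b : B, (b : F) ∈ V) : (compIdeal B V hBV).IsPrime := by
  rw [Ideal.isPrime_iff]
  constructor
  · intro h
    have h1 : (1 : B) ∈ compIdeal B V hBV := by rw [h]; exact Submodule.mem_top
    rw [mem_compIdeal, Subalgebra.coe_one, ValuationSubring.mem_nonunits_iff, map_one] at h1
    exact lt_irrefl _ h1
  · intro a b hab
    rw [mem_compIdeal, Subalgebra.coe_mul, ValuationSubring.mem_nonunits_iff, map_mul] at hab
    rw [mem_compIdeal, mem_compIdeal, ValuationSubring.mem_nonunits_iff,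
      ValuationSubring.mem_nonunits_iff]
    by_contra hcon
    push Not at hcon
    obtain ⟨h1, h2⟩ := hcon
    have ha := (ValuationSubring.valuation_le_one_iff V _).mpr (hBV a)
    have hb := (ValuationSubring.valuation_le_one_iff V _).mpr (hBV b)
    rw [le_antisymm ha h1, le_antisymm hb h2, one_mul] at hab
    exact lt_irrefl _ hab

end Comp

section Main

variable {R : Type*} [CommRing R] [IsDomain R] [UniqueFactorizationMonoid R]
variable {K F : Type*} [Field K] [Field F] [Algebra R[X] K] [IsFractionRing R[X] K]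
  [Algebra K F] [Algebra R[X] F] [IsScalarTower R[X] K F]
variable {ϖ : R} {V₁ V₂ : ValuationSubring F} {f₁ f₂ : ℕ} {b : Fin f₁ → F} {c : Fin f₂ → F}

theorem gaussPairLe_symm (h : GaussPairLe (K := K) ϖ V₁ V₂ b c) :
    GaussPairLe (K := K) ϖ V₂ V₁ c b where
  prime := h.prime
  unif₁ := h.unif₂
  unif₂ := h.unif₁
  poly₁ := h.poly₂
  poly₂ := h.poly₁
  gauss₁ := h.gauss₂
  gauss₂ := h.gauss₁
  ne := h.ne.symm
  b_mem := h.c_mem
  c_mem := h.b_mem
  b_indep := h.c_indep
  c_indep := h.b_indep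
  le := by have := h.le; omega

/-- the chart lies in `V₁` -/
theorem gaussPairLe_mem_of_isIntegral (h : GaussPairLe (K := K) ϖ V₁ V₂ b c) {f : F}
    (hf : IsIntegral R[X] f) : f ∈ V₁ := by
  obtain ⟨p, hp, hpf⟩ := hf
  refine mem_of_monic_root V₁ (p := p.map (algebraMap R[X] F)) (hp.map _)
    (fun i => by rw [coeff_map]; exact h.poly₁ _) ?_
  rw [eval_map]
  exact hpf

/-- a polynomial prime to `ϖ` is a unit of `V₁` -/
theorem gaussPairLe_valuation_eq_one (h : GaussPairLe (K := K) ϖ V₁ V₂ b c) {T : R[X]}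
    (hT : ¬ C ϖ ∣ T) : V₁.valuation (algebraMap R[X] F T) = 1 := by
  have h1 := (ValuationSubring.valuation_le_one_iff V₁ _).mpr (h.poly₁ T)
  have h2 := (ValuationSubring.valuation_le_one_iff V₁ _).mpr (h.gauss₁ T hT)
  rw [map_inv₀] at h2
  have hT0 : algebraMap R[X] F T ≠ 0 := by
    intro h0
    have hinj : Function.Injective (algebraMap R[X] F) := by
      rw [IsScalarTower.algebraMap_eq R[X] K F]
      exact (algebraMap K F).injective.comp (IsFractionRing.injective R[X] K)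
    have hT' : T = 0 := hinj (by rw [h0, map_zero])
    apply hT
    rw [hT']
    exact dvd_zero _
  have hv0 : V₁.valuation (algebraMap R[X] F T) ≠ 0 := (Valuation.ne_zero_iff _).mpr hT0
  exact le_antisymm h1 ((inv_le_one₀ (zero_lt_iff.mpr hv0)).mp h2)

/-- **clearing denominators**: an element of `V₁ ∩ V₂` becomes integral over `R[X]` after
multiplication by a polynomial prime to `ϖ`. -/
theorem gaussPairLe_exists_scale [FiniteDimensional K F]
    (h : GaussPairLe (K := K) ϖ V₁ V₂ b c) {u : F} (hu₁ : u ∈ V₁) (hu₂ : u ∈ V₂) :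
    ∃ T : R[X], ¬ C ϖ ∣ T ∧ IsIntegral R[X] (algebraMap R[X] F T * u) := by
  classical
  obtain ⟨p, hp, hpc, hpu⟩ := h.exists_monic_of_mem hu₁ hu₂
  have hex : ∀ i, ∃ P Q : R[X], ¬ C ϖ ∣ Q ∧
      p.coeff i = algebraMap R[X] K P / algebraMap R[X] K Q :=
    fun i => exists_div_of_mem_gaussRing h.prime h.unif₁ h.poly₁ h.gauss₁ (hpc i)
  choose P Q hQ hPQ using hex
  set n := p.natDegree with hn
  set T : R[X] := ∏ i ∈ Finset.range n, Q i with hTdef
  have hT : ¬ C ϖ ∣ T := by
    intro hdvd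
    obtain ⟨i, -, hi⟩ := (Prime.dvd_finsetProd_iff (prime_C h.prime) _).mp hdvd
    exact hQ i hi
  refine ⟨T, hT, ?_⟩
  set tK := algebraMap R[X] K T with htK
  have hroot : aeval (algebraMap K F tK * u) (p.scaleRoots tK) = 0 :=
    scaleRoots_aeval_eq_zero hpu
  have hmonic : (p.scaleRoots tK).Monic := (monic_scaleRoots_iff _).mpr hp
  have hcoef : ∀ i, (p.scaleRoots tK).coeff i ∈ Set.range (algebraMap R[X] K) := by
    intro i
    rw [coeff_scaleRoots, ← hn]
    rcases lt_trichotomy i n with hi | hi | hi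
    · have hQi0 : algebraMap R[X] K (Q i) ≠ 0 := by
        intro h0
        have : Q i = 0 := (IsFractionRing.injective R[X] K) (by rw [h0, map_zero])
        apply hQ i
        rw [this]
        exact dvd_zero _
      refine ⟨P i * (∏ j ∈ (Finset.range n).erase i, Q j) * T ^ (n - i - 1), ?_⟩
      have hTe : T = Q i * ∏ j ∈ (Finset.range n).erase i, Q j :=
        (Finset.mul_prod_erase _ _ (Finset.mem_range.mpr hi)).symm
      have hpow : n - i = (n - i - 1) + 1 := by omega
      rw [hPQ i]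
      conv_rhs => rw [hpow, pow_succ]
      have htK' : tK = algebraMap R[X] K (Q i) *
          algebraMap R[X] K (∏ j ∈ (Finset.range n).erase i, Q j) := by
        rw [htK, ← map_mul, ← hTe]
      rw [map_mul, map_mul, map_pow, ← htK]
      conv_rhs => rw [mul_comm (tK ^ (n - i - 1)) tK, ← mul_assoc]
      congr 1
      rw [htK']
      field_simp
    · subst hi
      rw [hn, hp.coeff_natDegree, Nat.sub_self, pow_zero, mul_one]
      exact ⟨1, map_one _⟩
    · rw [coeff_eq_zero_of_natDegree_lt (by rw [← hn]; exact hi), zero_mul]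
      exact ⟨0, map_zero _⟩
  obtain ⟨q, hq, -, hqm⟩ :=
    lifts_and_natDegree_eq_and_monic ((lifts_iff_coeff_lifts _).2 hcoef) hmonic
  refine ⟨q, hqm, ?_⟩
  have e : eval₂ (algebraMap R[X] F) (algebraMap R[X] F T * u) q =
      aeval (algebraMap R[X] F T * u) (q.map (algebraMap R[X] K)) := by
    rw [aeval_def, eval₂_map, ← IsScalarTower.algebraMap_eq]
  rw [e, hq, ← map_eq (K := K)]
  exact hroot

/-- some element of the chart lies in `𝔪_{V₁}` and is a unit of `V₂` -/
theorem gaussPairLe_exists_mem_not_mem [FiniteDimensional K F]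
    (h : GaussPairLe (K := K) ϖ V₁ V₂ b c) :
    ∃ g : F, IsIntegral R[X] g ∧ g ∈ V₁.nonunits ∧ g ∉ V₂.nonunits := by
  obtain ⟨c₀, hc0, hc1, hc2⟩ := exists_separating h.unif₁ h.unif₂ h.ne
  have hu1 : V₁.valuation (1 + c₀) = 1 := Valuation.map_one_add_of_lt _ hc1
  have h1c : 1 + c₀ ≠ 0 := by
    intro h0
    rw [h0, map_zero] at hu1
    exact zero_ne_one hu1
  have hv1 : V₁.valuation (c₀ * (1 + c₀)⁻¹) < 1 := by
    rw [map_mul, map_inv₀, hu1, inv_one, mul_one]
    exact hc1
  have hu_eq : c₀ * (1 + c₀)⁻¹ = (1 + c₀⁻¹)⁻¹ := by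
    have h2 : 1 + c₀⁻¹ = (1 + c₀) * c₀⁻¹ := by
      rw [add_mul, one_mul, mul_inv_cancel₀ hc0, add_comm]
    rw [h2, mul_inv, inv_inv, mul_comm]
  have hv2' : V₂.valuation (1 + c₀⁻¹) = 1 := Valuation.map_one_add_of_lt _ hc2
  have hv2 : V₂.valuation (c₀ * (1 + c₀)⁻¹) = 1 := by
    rw [hu_eq, map_inv₀, hv2', inv_one]
  have hu₁ : c₀ * (1 + c₀)⁻¹ ∈ V₁ := (ValuationSubring.valuation_le_one_iff V₁ _).mp hv1.le
  have hu₂ : c₀ * (1 + c₀)⁻¹ ∈ V₂ := (ValuationSubring.valuation_le_one_iff V₂ _).mp hv2.le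
  obtain ⟨T, hT, hint⟩ := gaussPairLe_exists_scale h hu₁ hu₂
  refine ⟨algebraMap R[X] F T * (c₀ * (1 + c₀)⁻¹), hint, ?_, ?_⟩
  · exact mem_mul_nonunits (h.poly₁ T) ((ValuationSubring.mem_nonunits_iff V₁).mpr hv1)
  · intro hmem
    rw [ValuationSubring.mem_nonunits_iff, map_mul, hv2, mul_one,
      gaussPairLe_valuation_eq_one (gaussPairLe_symm h) hT] at hmem
    exact lt_irrefl _ hmem

variable [Algebra R F] [IsScalarTower R R[X] F]

/-- **`SSChart.inf_eq`**: `(B ∩ 𝔪_{V₁}) ⊓ (B ∩ 𝔪_{V₂}) = ϖ B`. -/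
theorem gaussPairLe_compIdeal_inf [FiniteDimensional K F]
    (h : GaussPairLe (K := K) ϖ V₁ V₂ b c) (B : Subalgebra R F)
    (hB : ∀ f : F, f ∈ B ↔ IsIntegral R[X] f)
    (hBV₁ : ∀ b : B, (b : F) ∈ V₁) (hBV₂ : ∀ b : B, (b : F) ∈ V₂) :
    compIdeal B V₁ hBV₁ ⊓ compIdeal B V₂ hBV₂ = Ideal.span {algebraMap R B ϖ} := by
  have hϖF : ((algebraMap R B ϖ : B) : F) = algebraMap R[X] F (C ϖ) :=
    algebraMap_const_eq ϖ
  have hϖ0 : algebraMap R[X] F (C ϖ) ≠ 0 := h.unif₁.ne_zero
  apply le_antisymm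
  · intro y hy
    obtain ⟨hy₁, hy₂⟩ := hy
    rw [SetLike.mem_coe, mem_compIdeal, ValuationSubring.mem_nonunits_iff,
      ← h.unif₁.mul_inv_mem_iff] at hy₁
    rw [SetLike.mem_coe, mem_compIdeal, ValuationSubring.mem_nonunits_iff,
      ← h.unif₂.mul_inv_mem_iff] at hy₂
    have hint := h.qep2 ((hB _).mp y.2) hy₁ hy₂
    rw [Ideal.mem_span_singleton']
    refine ⟨⟨_, (hB _).mpr hint⟩, Subtype.ext ?_⟩
    rw [Subalgebra.coe_mul, hϖF]
    show (y : F) * (algebraMap R[X] F (C ϖ))⁻¹ * algebraMap R[X] F (C ϖ) = y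
    rw [mul_assoc, inv_mul_cancel₀ hϖ0, mul_one]
  · rw [Ideal.span_le, Set.singleton_subset_iff]
    constructor
    · rw [SetLike.mem_coe, mem_compIdeal, hϖF, ValuationSubring.mem_nonunits_iff]
      exact h.unif₁.val_lt_one
    · rw [SetLike.mem_coe, mem_compIdeal, hϖF, ValuationSubring.mem_nonunits_iff]
      exact h.unif₂.val_lt_one

/-- **MODASM S1-abs.**  The fields `p₁ p₂ prime₁ prime₂ ne not_le₁₂ not_le₂₁ inf_eq` of
`SSChart ϖ B` for the chart `B` = integral closure of `R[x]`, `x = algebraMap R[X] F X`, with the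
components characterised by the two valuations. -/
theorem gaussPairLe_exists_components [FiniteDimensional K F]
    (h : GaussPairLe (K := K) ϖ V₁ V₂ b c) (B : Subalgebra R F)
    (hB : ∀ f : F, f ∈ B ↔
      IsIntegral (Algebra.adjoin R ({algebraMap R[X] F X} : Set F)) f) :
    ∃ p₁ p₂ : Ideal B,
      (∀ y : B, y ∈ p₁ ↔ (y : F) ∈ V₁.nonunits) ∧ (∀ y : B, y ∈ p₂ ↔ (y : F) ∈ V₂.nonunits) ∧
      p₁.IsPrime ∧ p₂.IsPrime ∧ p₁ ≠ p₂ ∧ ¬ p₁ ≤ p₂ ∧ ¬ p₂ ≤ p₁ ∧
      p₁ ⊓ p₂ = Ideal.span {algebraMap R B ϖ} := by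
  have hB' : ∀ f : F, f ∈ B ↔ IsIntegral R[X] f := fun f =>
    (hB f).trans (isIntegral_adjoin_iff f)
  have hBV₁ : ∀ y : B, (y : F) ∈ V₁ := fun y =>
    gaussPairLe_mem_of_isIntegral h ((hB' _).mp y.2)
  have hBV₂ : ∀ y : B, (y : F) ∈ V₂ := fun y =>
    gaussPairLe_mem_of_isIntegral (gaussPairLe_symm h) ((hB' _).mp y.2)
  have h12 : ¬ compIdeal B V₁ hBV₁ ≤ compIdeal B V₂ hBV₂ := by
    intro hle
    obtain ⟨g, hg, hg₁, hg₂⟩ := gaussPairLe_exists_mem_not_mem h
    exact hg₂ (hle (show (⟨g, (hB' g).mpr hg⟩ : B) ∈ compIdeal B V₁ hBV₁ from hg₁))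
  have h21 : ¬ compIdeal B V₂ hBV₂ ≤ compIdeal B V₁ hBV₁ := by
    intro hle
    obtain ⟨g, hg, hg₁, hg₂⟩ := gaussPairLe_exists_mem_not_mem (gaussPairLe_symm h)
    exact hg₂ (hle (show (⟨g, (hB' g).mpr hg⟩ : B) ∈ compIdeal B V₂ hBV₂ from hg₁))
  refine ⟨compIdeal B V₁ hBV₁, compIdeal B V₂ hBV₂, fun _ => Iff.rfl, fun _ => Iff.rfl,
    compIdeal_isPrime B V₁ hBV₁, compIdeal_isPrime B V₂ hBV₂, ?_, h12, h21,
    gaussPairLe_compIdeal_inf h B hB' hBV₁ hBV₂⟩
  intro heq
  exact h12 (le_of_eq heq)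

end Main

end Fermat.Agent.A2.H489

end
-- ===== PACK-END A2/H489/ChartA.lean

-- ===== PACK-BEGIN A2/Mod/H549/L14.lean
section



/-!
# A2 / MOD, leaf L14 (Inertia) (helper549)

`inertia : Mod.InertiaStatement P E w` (statement of `Fermat/Agent/A2/Mod/Spec.lean`, verbatim).

Generic part (any field `L ⊇ ℚ`, any valuation subring `A` of `L`, any `F₀ ⊆ ℚ((t))`):

* `isGaussInt_coeffMap` : `σ f` is Gauss-integral (`H708.IsGaussInt`) if `f` is and `σ A ⊆ A`.
* `isGaussInt_sub_div` : if moreover `σ a - a ∈ 𝔪_A` for all `a ∈ A` and `w` generates `𝔪_A`,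
  then `(σ f - f) / w` is Gauss-integral.

Modular part:

* `fricke_comm` : a ring endomorphism `W` of `L(j_d : d ∣ N)` which is the identity on `L` and
  maps every `j_d` to a `σ`-fixed element commutes with the coefficientwise action of `σ`.

Instantiation at `L = E ⊆ ℚ̄`, `A = P ∩ E`:

* `inertia_core` : leaf L14 with the definitions of `Spec.lean` unfolded (`τE` any restriction of
  `τ` to `E`);
* `inertia` : leaf L14.
-/

set_option autoImplicit false

noncomputable section

namespace Fermat.Agent.A2.Mod.H549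

open ModularCurve HahnSeries Fermat.Agent.A2

/-! ## Generic part -/

section generic

variable {L : Type*} [Field L] [Algebra ℚ L] (A : ValuationSubring L)
  (F₀ : IntermediateField ℚ (LaurentSeries ℚ))

/-- the restriction of `σ` to `A` -/
def resA (σ : L ≃ₐ[ℚ] L) (hσA : ∀ a ∈ A, σ a ∈ A) : A →+* A where
  toFun x := ⟨σ x, hσA x x.2⟩
  map_one' := Subtype.ext (map_one σ)
  map_mul' x y := Subtype.ext (map_mul σ (x : L) (y : L))
  map_zero' := Subtype.ext (map_zero σ)
  map_add' x y := Subtype.ext (map_add σ (x : L) (y : L))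

variable {A}

theorem incl_coeffMap_resA (σ : L ≃ₐ[ℚ] L) (hσA : ∀ a ∈ A, σ a ∈ A) (U : LaurentSeries A) :
    H708.incl A (coeffMap (resA A σ hσA) U) = coeffMap (σ : L →+* L) (H708.incl A U) := by
  rw [H708.incl, coeffMap_coeffMap, coeffMap_coeffMap]
  exact coeffMap_congr (RingHom.ext fun _ => rfl) U

theorem residue_resA (σ : L ≃ₐ[ℚ] L) (hσA : ∀ a ∈ A, σ a ∈ A)
    (hσI : ∀ a ∈ A, σ a - a ∈ A.nonunits) (x : A) :
    IsLocalRing.residue A (resA A σ hσA x) = IsLocalRing.residue A x := by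
  rw [← sub_eq_zero, ← map_sub, IsLocalRing.residue_eq_zero_iff,
    ← ValuationSubring.coe_mem_nonunits_iff]
  exact hσI x x.2

theorem red_coeffMap_resA (σ : L ≃ₐ[ℚ] L) (hσA : ∀ a ∈ A, σ a ∈ A)
    (hσI : ∀ a ∈ A, σ a - a ∈ A.nonunits) (U : LaurentSeries A) :
    H708.red A (coeffMap (resA A σ hσA) U) = H708.red A U := by
  ext n
  simp only [coeffMap_coeff]
  exact residue_resA σ hσA hσI _

theorem red_coeffMap_resA_ne_zero (σ : L ≃ₐ[ℚ] L) (hσA : ∀ a ∈ A, σ a ∈ A)
    {U : LaurentSeries A} (hU : H708.red A U ≠ 0) :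
    H708.red A (coeffMap (resA A σ hσA) U) ≠ 0 := by
  obtain ⟨n, hn⟩ := (H708.red_ne_zero_iff A U).mp hU
  refine (H708.red_ne_zero_iff A _).mpr ⟨n, ?_⟩
  have hunit : IsUnit (U.coeff n) := (ValuationSubring.valuation_eq_one_iff A _).mpr hn
  have h2 : IsUnit (resA A σ hσA (U.coeff n)) := hunit.map (resA A σ hσA)
  rw [coeffMap_coeff]
  exact (ValuationSubring.valuation_eq_one_iff A _).mp h2

omit [Algebra ℚ L] in
/-- dividing an integral series with coefficients in `w A` by `w`. -/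
theorem exists_cstA_mul_eq (w : A) (hw0 : w ≠ 0) (U : LaurentSeries A)
    (h : ∀ n, w ∣ U.coeff n) : ∃ U' : LaurentSeries A, H708.cstA A w * U' = U := by
  choose d hd using h
  have hsupp : Function.support d ⊆ U.support := by
    intro n hn
    rw [Function.mem_support] at hn
    rw [HahnSeries.mem_support, hd n]
    exact mul_ne_zero hw0 hn
  refine ⟨⟨d, U.isPWO_support.mono hsupp⟩, ?_⟩
  apply HahnSeries.ext
  funext n
  rw [H708.cstA, HahnSeries.coeff_single_zero_mul]
  exact (hd n).symm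

/-- `σ f` is Gauss-integral if `f` is (`σ` in the decomposition group). -/
theorem isGaussInt_coeffMap (σ : L ≃ₐ[ℚ] L) (hσA : ∀ a ∈ A, σ a ∈ A)
    {f : LaurentSeries L} (hf : H708.IsGaussInt A F₀ f) :
    H708.IsGaussInt A F₀ (coeffMap (σ : L →+* L) f) := by
  obtain ⟨U₁, U₂, hred, hmem, heq⟩ := hf
  refine ⟨coeffMap (resA A σ hσA) U₁, coeffMap (resA A σ hσA) U₂,
    red_coeffMap_resA_ne_zero σ hσA hred, ?_, ?_⟩
  · rw [incl_coeffMap_resA]
    exact coeffMap_mem_laurentBaseChange σ hmem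
  · rw [incl_coeffMap_resA, incl_coeffMap_resA, ← map_mul, heq]

/-- **Inertia acts trivially modulo `w`** on the Gauss-integral elements: `(σ f - f) / w` is
Gauss-integral. -/
theorem isGaussInt_sub_div (σ : L ≃ₐ[ℚ] L) (hσA : ∀ a ∈ A, σ a ∈ A)
    (hσI : ∀ a ∈ A, σ a - a ∈ A.nonunits) (w : A) (hw0 : w ≠ 0)
    (hw : ∀ a : A, (a : L) ∈ A.nonunits → w ∣ a)
    {f : LaurentSeries L} (hf : H708.IsGaussInt A F₀ f) :
    H708.IsGaussInt A F₀ ((coeffMap (σ : L →+* L) f - f) * (H708.cst (w : L))⁻¹) := by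
  obtain ⟨U₁, U₂, hred, hmem, heq⟩ := hf
  have e1 : coeffMap (σ : L →+* L) f * H708.incl A (coeffMap (resA A σ hσA) U₂)
      = H708.incl A (coeffMap (resA A σ hσA) U₁) := by
    rw [incl_coeffMap_resA, incl_coeffMap_resA, ← map_mul, heq]
  have hred3 : H708.red A (coeffMap (resA A σ hσA) U₁ * U₂ - U₁ * coeffMap (resA A σ hσA) U₂)
      = 0 := by
    rw [map_sub, map_mul, map_mul, red_coeffMap_resA σ hσA hσI, red_coeffMap_resA σ hσA hσI,
      sub_self]
  have hdiv : ∀ n, w ∣
      (coeffMap (resA A σ hσA) U₁ * U₂ - U₁ * coeffMap (resA A σ hσA) U₂).coeff n := by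
    intro n
    refine hw _ ?_
    rw [ValuationSubring.mem_nonunits_iff]
    exact (H708.red_eq_zero_iff A _).mp hred3 n
  obtain ⟨U₃, hU₃⟩ := exists_cstA_mul_eq w hw0 _ hdiv
  have hwL : (w : L) ≠ 0 := fun h => hw0 (Subtype.ext h)
  have hcst : H708.cst (w : L) ≠ 0 := H708.cst_ne_zero hwL
  refine ⟨U₃, U₂ * coeffMap (resA A σ hσA) U₂, ?_, ?_, ?_⟩
  · rw [map_mul]
    exact mul_ne_zero hred (red_coeffMap_resA_ne_zero σ hσA hred)
  · rw [map_mul, incl_coeffMap_resA]
    exact mul_mem hmem (coeffMap_mem_laurentBaseChange σ hmem)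
  · have key : H708.cst (w : L) * H708.incl A U₃
        = (coeffMap (σ : L →+* L) f - f) * H708.incl A (U₂ * coeffMap (resA A σ hσA) U₂) := by
      rw [← H708.incl_cstA, ← map_mul, hU₃, map_sub, map_mul, map_mul, map_mul, ← e1, ← heq]
      ring
    rw [mul_right_comm, ← key, mul_comm (H708.cst (w : L)), mul_assoc,
      mul_inv_cancel₀ hcst, mul_one]

end generic

/-! ## The Fricke involution commutes with the Galois action -/

section fricke

variable {L : Type*} [Field L] [Algebra ℚ L] (N : ℕ)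

/-- the generator `j_d` of `L(j_d : d ∣ N)` -/
def jL (L : Type*) [Field L] [Algebra ℚ L] (N : ℕ) (d : ℕ) [NeZero d] (hd : d ∣ N) :
    ↥(laurentBaseChange L (modularFunctionFieldFull N)) :=
  ⟨coeffEmb L (qExpand ℚ d jq), coeffEmb_mem_laurentBaseChange L (jqd_mem_full N hd)⟩

/-- the coefficientwise action as a ring homomorphism -/
abbrev galHom (σ : L ≃ₐ[ℚ] L) : ↥(laurentBaseChange L (modularFunctionFieldFull N)) →+*
    ↥(laurentBaseChange L (modularFunctionFieldFull N)) :=
  ((arithmeticRingAut (modularFunctionFieldFull N) σ : _ ≃+* _) : _ →+* _)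

/-- the subfield of `σ`-fixed elements -/
def fixSub (σ : L ≃ₐ[ℚ] L) : Subfield ↥(laurentBaseChange L (modularFunctionFieldFull N)) :=
  RingHom.eqLocusField (galHom N σ) (RingHom.id _)

theorem mem_fixSub {σ : L ≃ₐ[ℚ] L} {g : ↥(laurentBaseChange L (modularFunctionFieldFull N))} :
    g ∈ fixSub N σ ↔ arithmeticRingAut (modularFunctionFieldFull N) σ g = g := Iff.rfl

theorem algebraMap_rat_mem_fixSub (σ : L ≃ₐ[ℚ] L) (c : ℚ) :
    algebraMap L ↥(laurentBaseChange L (modularFunctionFieldFull N)) (algebraMap ℚ L c)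
      ∈ fixSub N σ := by
  rw [mem_fixSub, arithmeticRingAut_algebraMap, AlgEquiv.commutes]

/-- If `W` maps every generator `j_d` to a `σ`-fixed element, it maps every rational function
to a `σ`-fixed element. -/
theorem fricke_rat_fixed
    (W : ↥(laurentBaseChange L (modularFunctionFieldFull N)) →+*
      ↥(laurentBaseChange L (modularFunctionFieldFull N)))
    (hWc : ∀ c : L, W (algebraMap L _ c) = algebraMap L _ c)
    (σ : L ≃ₐ[ℚ] L)
    (hW : ∀ (d : ℕ) [NeZero d] (hd : d ∣ N), W (jL L N d hd) ∈ fixSub N σ)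
    {z : LaurentSeries ℚ} (hz : z ∈ modularFunctionFieldFull N)
    (g : ↥(laurentBaseChange L (modularFunctionFieldFull N)))
    (hg : (g : LaurentSeries L) = coeffEmb L z) : W g ∈ fixSub N σ := by
  -- the subfield of `ℚ((t))` of all `z` such that `W (coeffEmb z)` is fixed
  let K' : Subfield (LaurentSeries ℚ) :=
    (((fixSub N σ).comap W).map
      (algebraMap ↥(laurentBaseChange L (modularFunctionFieldFull N)) (LaurentSeries L))).comap
        (coeffEmb L : LaurentSeries ℚ →+* LaurentSeries L)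
  have h1 : Set.range (algebraMap ℚ (LaurentSeries ℚ)) ⊆ (K' : Set (LaurentSeries ℚ)) := by
    rintro _ ⟨c, rfl⟩
    refine ⟨algebraMap L ↥(laurentBaseChange L (modularFunctionFieldFull N))
      (algebraMap ℚ L c), ?_, ?_⟩
    · show W _ ∈ fixSub N σ
      rw [hWc]
      exact algebraMap_rat_mem_fixSub N σ c
    · exact (Fermat.Agent.S18.H602.coeffMap_algebraMap' (algebraMap ℚ L) c).symm
  have h2 : divisorExpansions N ⊆ (K' : Set (LaurentSeries ℚ)) := by
    rintro _ ⟨d, hne, hd, rfl⟩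
    haveI := hne
    exact ⟨jL L N d hd, hW d hd, rfl⟩
  have hle : (modularFunctionFieldFull N).toSubfield ≤ K' :=
    IntermediateField.adjoin_le_subfield ℚ _ h1 h2
  obtain ⟨g', hg', hgg'⟩ := hle hz
  have : g' = g := Subtype.ext (hgg'.trans hg.symm)
  rw [← this]
  exact hg'

/-- **`τ W = W τ`.**  A ring endomorphism `W` of `L(j_d : d ∣ N)` which is the identity on `L` and
maps every generator `j_d` to a `σ`-fixed element commutes with the coefficientwise action of
`σ`. -/
theorem fricke_comm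
    (W : ↥(laurentBaseChange L (modularFunctionFieldFull N)) →+*
      ↥(laurentBaseChange L (modularFunctionFieldFull N)))
    (hWc : ∀ c : L, W (algebraMap L _ c) = algebraMap L _ c)
    (σ : L ≃ₐ[ℚ] L)
    (hW : ∀ (d : ℕ) [NeZero d] (hd : d ∣ N), W (jL L N d hd) ∈ fixSub N σ)
    (f : ↥(laurentBaseChange L (modularFunctionFieldFull N))) :
    arithmeticRingAut (modularFunctionFieldFull N) σ (W f)
      = W (arithmeticRingAut (modularFunctionFieldFull N) σ f) := by
  let S : Subfield ↥(laurentBaseChange L (modularFunctionFieldFull N)) :=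
    RingHom.eqLocusField ((galHom N σ).comp W) (W.comp (galHom N σ))
  let K : Subfield (LaurentSeries L) :=
    S.map (algebraMap ↥(laurentBaseChange L (modularFunctionFieldFull N)) (LaurentSeries L))
  have h1 : Set.range (algebraMap L (LaurentSeries L)) ⊆ (K : Set (LaurentSeries L)) := by
    rintro _ ⟨c, rfl⟩
    refine ⟨algebraMap L ↥(laurentBaseChange L (modularFunctionFieldFull N)) c, ?_, rfl⟩
    show arithmeticRingAut (modularFunctionFieldFull N) σ (W (algebraMap L _ c))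
      = W (arithmeticRingAut (modularFunctionFieldFull N) σ (algebraMap L _ c))
    rw [hWc, arithmeticRingAut_algebraMap, hWc]
  have h2 : (⇑(coeffEmb L) '' ((modularFunctionFieldFull N : IntermediateField ℚ
      (LaurentSeries ℚ)) : Set (LaurentSeries ℚ))) ⊆ (K : Set (LaurentSeries L)) := by
    rintro _ ⟨z, hz, rfl⟩
    refine ⟨⟨coeffEmb L z, coeffEmb_mem_laurentBaseChange L hz⟩, ?_, rfl⟩
    show arithmeticRingAut (modularFunctionFieldFull N) σ (W _)
      = W (arithmeticRingAut (modularFunctionFieldFull N) σ _)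
    have e1 := fricke_rat_fixed N W hWc σ hW hz
      ⟨coeffEmb L z, coeffEmb_mem_laurentBaseChange L hz⟩ rfl
    rw [mem_fixSub] at e1
    have e2 : arithmeticRingAut (modularFunctionFieldFull N) σ
        ⟨coeffEmb L z, coeffEmb_mem_laurentBaseChange L hz⟩
        = ⟨coeffEmb L z, coeffEmb_mem_laurentBaseChange L hz⟩ :=
      Subtype.ext (coeffMap_coeffEmb σ z)
    rw [e1, e2]
  have hle : (laurentBaseChange L (modularFunctionFieldFull N)).toSubfield ≤ K :=
    IntermediateField.adjoin_le_subfield L _ h1 h2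
  obtain ⟨g, hg, hgf⟩ := hle f.2
  have : g = f := Subtype.ext hgf
  rw [← this]
  exact hg

end fricke

/-! ## Instantiation at `L = E ⊆ ℚ̄`, `A = P ∩ E` -/

section inst

/-- nonunits of a comap -/
theorem mem_nonunits_comap {K L : Type*} [Field K] [Field L] (A : ValuationSubring L)
    (φ : K →+* L) (x : K) : x ∈ (A.comap φ).nonunits ↔ φ x ∈ A.nonunits := by
  rw [ValuationSubring.mem_nonunits_iff_or, ValuationSubring.mem_nonunits_iff_or,
    ValuationSubring.mem_comap, map_inv₀, map_eq_zero]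

variable (P : ValuationSubring (AlgebraicClosure ℚ))
  (E : IntermediateField ℚ (AlgebraicClosure ℚ))

/-- **Leaf L14 (Inertia)**, with the definitions of `A2/Mod/Spec.lean` unfolded.
`τ` in the inertia group of `P`, `τE` its restriction to `E`, `R = P ∩ E` a DVR with uniformiser
`w`, `V` the Gauss valuation ring of `F_{N,E}`, `W` the Fricke involution: then `τ W = W τ` and
`(τ f - f) / w ∈ V` for all `f ∈ V`. -/
theorem inertia_core (w : ↥(P.comap (algebraMap ↥E (AlgebraicClosure ℚ)))) (N : ℕ) (hN : N ≠ 0)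
    (_hdvr : IsDiscreteValuationRing ↥(P.comap (algebraMap ↥E (AlgebraicClosure ℚ))))
    (hw : Irreducible w)
    (V : ValuationSubring ↥(laurentBaseChange ↥E (modularFunctionFieldFull N)))
    (W : ↥(laurentBaseChange ↥E (modularFunctionFieldFull N)) ≃ₐ[↥E]
      ↥(laurentBaseChange ↥E (modularFunctionFieldFull N)))
    (hV : ∀ f : ↥(laurentBaseChange ↥E (modularFunctionFieldFull N)), f ∈ V ↔
      H708.IsGaussInt (P.comap (algebraMap ↥E (AlgebraicClosure ℚ)))
        (modularFunctionFieldFull N) (f : LaurentSeries ↥E))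
    (hW : ∀ (d d' : ℕ) [NeZero d] [NeZero d'] (hd : d ∣ N) (hd' : d' ∣ N), d * d' = N →
      W (jL ↥E N d hd) = jL ↥E N d' hd')
    (τ : AlgebraicClosure ℚ ≃ₐ[ℚ] AlgebraicClosure ℚ) (τE : ↥E ≃ₐ[ℚ] ↥E)
    (hτE : ∀ e : ↥E, ((τE e : ↥E) : AlgebraicClosure ℚ) = τ (e : AlgebraicClosure ℚ))
    (hτ : τ ∈ P.inertiaSubgroupIn ℚ) :
    (∀ f : ↥(laurentBaseChange ↥E (modularFunctionFieldFull N)),
      arithmeticRingAut (modularFunctionFieldFull N) τE (W f) =
        W (arithmeticRingAut (modularFunctionFieldFull N) τE f)) ∧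
    ∀ f ∈ V, (arithmeticRingAut (modularFunctionFieldFull N) τE f - f) *
      (algebraMap ↥E ↥(laurentBaseChange ↥E (modularFunctionFieldFull N)) (w : ↥E))⁻¹ ∈ V := by
  constructor
  · -- `τ W = W τ`
    refine fricke_comm N (W : _ →+* _) (fun c => W.commutes c) τE ?_
    intro d hne hd
    obtain ⟨d', hd'⟩ := hd
    have hd'0 : d' ≠ 0 := by
      rintro rfl
      exact hN (by rw [hd', mul_zero])
    haveI : NeZero d' := ⟨hd'0⟩
    have hdN : d ∣ N := ⟨d', hd'⟩
    have hd'N : d' ∣ N := ⟨d, by rw [hd', mul_comm]⟩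
    show W (jL ↥E N d hdN) ∈ fixSub N τE
    rw [hW d d' hdN hd'N hd'.symm, mem_fixSub]
    exact Subtype.ext (coeffMap_coeffEmb τE _)
  · -- `τ ≡ id` modulo `w V`
    intro f hf
    have hτD := H708.mem_decomposition_of_mem_inertiaIn P hτ
    have hσA : ∀ a ∈ P.comap (algebraMap ↥E (AlgebraicClosure ℚ)), τE a ∈
        P.comap (algebraMap ↥E (AlgebraicClosure ℚ)) := by
      intro a ha
      rw [ValuationSubring.mem_comap] at ha ⊢
      have e : algebraMap ↥E (AlgebraicClosure ℚ) (τE a)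
          = τ (algebraMap ↥E (AlgebraicClosure ℚ) a) := hτE a
      rw [e]
      exact H708.apply_mem_of_mem_decomposition P hτD ha
    have hσI : ∀ a ∈ P.comap (algebraMap ↥E (AlgebraicClosure ℚ)), τE a - a ∈
        (P.comap (algebraMap ↥E (AlgebraicClosure ℚ))).nonunits := by
      intro a ha
      rw [ValuationSubring.mem_comap] at ha
      rw [mem_nonunits_comap, map_sub]
      have e : algebraMap ↥E (AlgebraicClosure ℚ) (τE a)
          = τ (algebraMap ↥E (AlgebraicClosure ℚ) a) := hτE a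
      rw [e]
      exact H708.sub_mem_nonunits_of_mem_inertiaIn P hτ ha
    have hw0 : w ≠ 0 := hw.ne_zero
    have hwgen : ∀ a : ↥(P.comap (algebraMap ↥E (AlgebraicClosure ℚ))),
        (a : ↥E) ∈ (P.comap (algebraMap ↥E (AlgebraicClosure ℚ))).nonunits → w ∣ a := by
      intro a ha
      rw [ValuationSubring.coe_mem_nonunits_iff, hw.maximalIdeal_eq,
        Ideal.mem_span_singleton] at ha
      exact ha
    have key := isGaussInt_sub_div (F₀ := modularFunctionFieldFull N) τE hσA hσI w hw0 hwgen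
      ((hV f).mp hf)
    exact (hV _).mpr key

end inst

/-- **Leaf L14** (`Mod.InertiaStatement`, verbatim). -/
theorem inertia (P : ValuationSubring Mod.Qb) (E : IntermediateField ℚ Mod.Qb)
    (w : Mod.RE P E) : Mod.InertiaStatement P E w := by
  intro N hN hdvr hw V W hV hW τ hτ hτI
  exact inertia_core P E w N hN hdvr hw V W hV hW.1 τ (Mod.resE E τ hτ) (fun _ => rfl) hτI

end Fermat.Agent.A2.Mod.H549

end
end
-- ===== PACK-END A2/Mod/H549/L14.lean

-- ===== PACK-BEGIN A2/Mod/H900/L7Core.lean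
section



/-!
# A2 / MOD leaf L7 (helper900): Fricke stability of the Gauss valuation, core

`L ⊇ ℚ` a field, `A` a valuation subring of `L`, `k` its residue field, `N` a level with
`S28.CoreData N k` (true when `char k ∤ N`), `F = laurentBaseChange L (F_N)`.

* `exists_decomp` : every `f ≠ 0` of `F` satisfies
  `f · G(j) = c · ∑ᵢ Hᵢ(j) yᵢ` with `G, Hᵢ ∈ A[X]` having a coefficient `1`, `c ∈ Lˣ`,
  `yᵢ ∈ ℤ[j_d : d ∣ N]` the S28 monomials (refined form of `S18.H516.exists_gauss_decomp`);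
* `isGaussInt_iff_of_decomp` : `f` is Gauss-integral iff `c ∈ A`.
-/

set_option autoImplicit false
set_option linter.unusedSectionVars false
set_option synthInstance.maxHeartbeats 400000
set_option maxHeartbeats 1600000

noncomputable section

namespace Fermat.Agent.A2.Mod.H900

open ModularCurve HahnSeries Polynomial IntermediateField Fermat.Agent.S28

section Generic

variable {L : Type} [Field L] [Algebra ℚ L] (A : ValuationSubring L)
variable (N : ℕ) [NeZero N]

/-- the residue map of `A`. -/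
abbrev resA : A →+* IsLocalRing.ResidueField A := IsLocalRing.residue A

/-- integer series in `L((t))`. -/
abbrev castL (L : Type) [Field L] : LaurentSeries ℤ →+* LaurentSeries L :=
  coeffMap (Int.castRingHom L)

/-- **Refined Gauss decomposition** along the S28 basis. -/
theorem exists_decomp (core : CoreData N (IsLocalRing.ResidueField A)) {f : LaurentSeries L}
    (hf : f ∈ laurentBaseChange L (modularFunctionFieldFull N)) (hf0 : f ≠ 0) :
    ∃ (n : ℕ) (y : Fin n → LaurentSeries ℤ) (c : L) (G : A[X]) (H : Fin n → A[X]),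
      (∀ i, y i ∈ Subring.closure (intDivisorExpansions N)) ∧
      LinearIndependent (jField (IsLocalRing.ResidueField A))
        (fun i => coeffMap (Int.castRingHom (IsLocalRing.ResidueField A)) (y i)) ∧
      c ≠ 0 ∧ (∃ m, G.coeff m = 1) ∧ (∃ i m, (H i).coeff m = 1) ∧
      f * S18.H516.evJ (G.map A.subtype) =
        HahnSeries.C c * ∑ i, S18.H516.evJ ((H i).map A.subtype) * castL L (y i) := by
  classical
  obtain ⟨n, y, hy, hspan, hli⟩ := core.exists_basis
  have hS : S18.H516.SpansQ N y := ⟨hy, hspan⟩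
  have hfs := (S18.H516.mem_baseChange_iff_mem_spanL L hS).mp hf
  obtain ⟨G, H, hG, hGH⟩ := S18.H516.exists_cleared L _ hfs
  have hGne : S18.H516.evJ G ≠ 0 := fun h => hG ((S18.H516.evJ_eq_zero_iff L).mp h)
  have hH : ∃ i, H i ≠ 0 := by
    by_contra hcon
    push Not at hcon
    have : S18.H516.evJ G * f = 0 := by
      rw [hGH]
      exact Finset.sum_eq_zero fun i _ => by rw [hcon i, S18.H516.evJ_zero, zero_mul]
    rcases mul_eq_zero.mp this with h | h
    · exact hGne h
    · exact hf0 h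
  obtain ⟨g0, G', hg0, hG', i1, m1, hG1⟩ :=
    S18.H516.exists_scale A (fun _ : Fin 1 => G) ⟨0, hG⟩
  obtain rfl : i1 = 0 := Subsingleton.elim _ _
  obtain ⟨h0, H', hh0, hH', i0, m0, hH1⟩ := S18.H516.exists_scale A H hH
  refine ⟨n, y, h0 * g0⁻¹, G' 0, H', hy, hli, mul_ne_zero hh0 (inv_ne_zero hg0), ⟨m1, hG1⟩,
    ⟨i0, m0, hH1⟩, ?_⟩
  have h1 : ∀ i, S18.H516.evJ ((H' i).map A.subtype) = HahnSeries.C h0⁻¹ * S18.H516.evJ (H i) := by
    intro i
    rw [hH' i, S18.H516.evJ_mul, S18.H516.evJ_C]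
  have h2 : S18.H516.evJ ((G' 0).map A.subtype) = HahnSeries.C g0⁻¹ * S18.H516.evJ G := by
    rw [hG' 0, S18.H516.evJ_mul, S18.H516.evJ_C]
  have h3 : ∑ i, S18.H516.evJ ((H' i).map A.subtype) * castL L (y i) =
      HahnSeries.C h0⁻¹ * (S18.H516.evJ G * f) := by
    rw [hGH, Finset.mul_sum]
    refine Finset.sum_congr rfl fun i _ => ?_
    rw [h1 i]
    ring
  rw [h2, h3, map_mul]
  have hC : HahnSeries.C (Γ := ℤ) h0 * HahnSeries.C h0⁻¹ = 1 := by
    rw [← map_mul, mul_inv_cancel₀ hh0, map_one]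
  calc f * (HahnSeries.C g0⁻¹ * S18.H516.evJ G)
      = (HahnSeries.C (Γ := ℤ) h0 * HahnSeries.C h0⁻¹) *
          (HahnSeries.C g0⁻¹ * (S18.H516.evJ G * f)) := by
        rw [hC]; ring
    _ = HahnSeries.C h0 * HahnSeries.C g0⁻¹ *
          (HahnSeries.C h0⁻¹ * (S18.H516.evJ G * f)) := by ring

/-- In a refined decomposition, `f` is Gauss-integral iff the constant is integral. -/
theorem isGaussInt_iff_of_decomp {n : ℕ} {y : Fin n → LaurentSeries ℤ} {c : L} {G : A[X]}
    {H : Fin n → A[X]} {f : LaurentSeries L}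
    (hli : LinearIndependent (jField (IsLocalRing.ResidueField A))
      (fun i => coeffMap (Int.castRingHom (IsLocalRing.ResidueField A)) (y i)))
    (hG : ∃ m, G.coeff m = 1) (hH : ∃ i m, (H i).coeff m = 1)
    (he : f * S18.H516.evJ (G.map A.subtype) =
      HahnSeries.C c * ∑ i, S18.H516.evJ ((H i).map A.subtype) * castL L (y i)) :
    H708.IsGaussInt A (modularFunctionFieldFull N) f ↔ c ∈ A := by
  classical
  set U₂ : LaurentSeries A := S18.H516.evJ G with hU₂
  set U₁ : LaurentSeries A := ∑ i, S18.H516.evJ (H i) * H708.castA A (y i) with hU₁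
  have hU₂L : H708.incl A U₂ = S18.H516.evJ (G.map A.subtype) := by
    rw [hU₂, H708.incl, S18.H516.coeffMap_evJ]
  have hU₁L : H708.incl A U₁ = ∑ i, S18.H516.evJ ((H i).map A.subtype) * castL L (y i) := by
    rw [hU₁, map_sum]
    refine Finset.sum_congr rfl fun i _ => ?_
    rw [map_mul, H708.incl, S18.H516.coeffMap_evJ, H708.castA, coeffMap_coeffMap,
      show (A.subtype.comp (Int.castRingHom A)) = Int.castRingHom L from RingHom.ext_int _ _]
  have hU₂k : H708.red A U₂ = S18.H516.evJ (G.map (IsLocalRing.residue A)) := by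
    rw [hU₂, H708.red, S18.H516.coeffMap_evJ]
  have hU₁k : H708.red A U₁ = ∑ i, S18.H516.evJ ((H i).map (IsLocalRing.residue A)) *
      coeffMap (Int.castRingHom (IsLocalRing.ResidueField A)) (y i) := by
    rw [hU₁, map_sum]
    refine Finset.sum_congr rfl fun i _ => ?_
    rw [map_mul, H708.red, S18.H516.coeffMap_evJ, H708.castA, coeffMap_coeffMap,
      show ((IsLocalRing.residue A).comp (Int.castRingHom A)) =
        Int.castRingHom (IsLocalRing.ResidueField A) from RingHom.ext_int _ _]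
  have h₂ : H708.red A U₂ ≠ 0 := by
    rw [hU₂k]
    intro h1
    obtain ⟨m1, hG1⟩ := hG
    have h2 := (S18.H516.evJ_eq_zero_iff _).mp h1
    have h3 := congrArg (fun P : (IsLocalRing.ResidueField A)[X] => P.coeff m1) h2
    simp only [Polynomial.coeff_map, Polynomial.coeff_zero, hG1, map_one] at h3
    exact one_ne_zero h3
  have h₁ : H708.red A U₁ ≠ 0 := by
    rw [hU₁k]
    intro h0'
    obtain ⟨i0, m0, hH1⟩ := hH
    have hli' := Fintype.linearIndependent_iff.mp hli
      (fun i => (⟨S18.H516.evJ ((H i).map (IsLocalRing.residue A)),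
        S18.H516.evJ_mem_jField _ _⟩ : jField (IsLocalRing.ResidueField A))) h0' i0
    have h1 : S18.H516.evJ ((H i0).map (IsLocalRing.residue A)) = 0 :=
      congrArg Subtype.val hli'
    have h2 := (S18.H516.evJ_eq_zero_iff _).mp h1
    have h3 := congrArg (fun P : (IsLocalRing.ResidueField A)[X] => P.coeff m0) h2
    simp only [Polynomial.coeff_map, Polynomial.coeff_zero, hH1, map_one] at h3
    exact one_ne_zero h3
  have hm₂ : H708.incl A U₂ ∈ laurentBaseChange L (modularFunctionFieldFull N) := by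
    rw [hU₂L]
    exact S18.H516.jField_le_baseChange L (S18.H516.evJ_mem_jField L _)
  have he' : f * H708.incl A U₂ = H708.cst c * H708.incl A U₁ := by
    rw [hU₂L, hU₁L, he, H708.cst, algebraMap_laurentSeries_eq_single, HahnSeries.C_apply]
  exact H708.isGaussInt_iff_of_normal_form h₁ h₂ hm₂ he'

end Generic

section Fricke

variable {L : Type} [Field L] [Algebra ℚ L] (A : ValuationSubring L)
variable (N : ℕ) [NeZero N]

/-- `F_{N,L}`. -/
abbrev FL (L : Type) [Field L] [Algebra ℚ L] (N : ℕ) : IntermediateField L (LaurentSeries L) :=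
  laurentBaseChange L (modularFunctionFieldFull N)

/-- the generator `j_d` of `F_{N,L}`. -/
def jL (L : Type) [Field L] [Algebra ℚ L] (N : ℕ) (d : ℕ) [NeZero d] (hd : d ∣ N) : FL L N :=
  ⟨coeffEmb L (qExpand ℚ d jq), coeffEmb_mem_laurentBaseChange L (jqd_mem_full N hd)⟩

theorem coe_jL (d : ℕ) [NeZero d] (hd : d ∣ N) :
    ((jL L N d hd : FL L N) : LaurentSeries L) = qExpand L d (jqModC L) := by
  show coeffEmb L (qExpand ℚ d jq) = _
  rw [coeffEmb, coeffMap_qExpand, ← jqModC_rat, coeffMap_jqModC]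

theorem castL_gen (d : ℕ) [NeZero d] :
    castL L (qExpand ℤ d (jqModC ℤ)) = qExpand L d (jqModC L) := by
  rw [castL, coeffMap_qExpand, coeffMap_jqModC]

/-- `W` is a Fricke involution on generators. -/
def FrickeOnGens (W : FL L N ≃ₐ[L] FL L N) : Prop :=
  ∀ (d d' : ℕ) [NeZero d] [NeZero d'] (hd : d ∣ N) (hd' : d' ∣ N), d * d' = N →
    W (jL L N d hd) = jL L N d' hd'

variable {N}

/-- the S28 monomials and their Fricke images are integer series. -/
theorem exists_int_of_closure {W : FL L N ≃ₐ[L] FL L N} (hW : FrickeOnGens N W)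
    {y : LaurentSeries ℤ} (hy : y ∈ Subring.closure (intDivisorExpansions N)) :
    ∃ (g : FL L N) (y' : LaurentSeries ℤ), (g : LaurentSeries L) = castL L y ∧
      ((W g : FL L N) : LaurentSeries L) = castL L y' := by
  induction hy using Subring.closure_induction with
  | mem x hx =>
    obtain ⟨d, hd, hdN, rfl⟩ := hx
    have hN : N ≠ 0 := NeZero.ne N
    have hd0 : N / d ≠ 0 := by
      intro h
      rcases (Nat.div_eq_zero_iff).mp h with h1 | h1
      · exact (NeZero.ne d) h1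
      · exact absurd (Nat.le_of_dvd (Nat.pos_of_ne_zero hN) hdN) (not_le.mpr h1)
    have : NeZero (N / d) := ⟨hd0⟩
    refine ⟨jL L N d hdN, qExpand ℤ (N / d) (jqModC ℤ), ?_, ?_⟩
    · rw [coe_jL, castL_gen]
    · rw [hW d (N / d) hdN (Nat.div_dvd_of_dvd hdN) (Nat.mul_div_cancel' hdN), coe_jL, castL_gen]
  | zero => exact ⟨0, 0, by simp, by simp⟩
  | one => exact ⟨1, 1, by simp, by simp⟩
  | add x y _ _ hx hy =>
    obtain ⟨g, y', h1, h2⟩ := hx
    obtain ⟨g', y'', h1', h2'⟩ := hy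
    exact ⟨g + g', y' + y'', by rw [IntermediateField.coe_add, h1, h1', map_add],
      by rw [map_add, IntermediateField.coe_add, h2, h2', map_add]⟩
  | neg x _ hx =>
    obtain ⟨g, y', h1, h2⟩ := hx
    exact ⟨-g, -y', by rw [IntermediateField.coe_neg, h1, map_neg],
      by rw [map_neg, IntermediateField.coe_neg, h2, map_neg]⟩
  | mul x y _ _ hx hy =>
    obtain ⟨g, y', h1, h2⟩ := hx
    obtain ⟨g', y'', h1', h2'⟩ := hy
    exact ⟨g * g', y' * y'', by rw [IntermediateField.coe_mul, h1, h1', map_mul],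
      by rw [map_mul, IntermediateField.coe_mul, h2, h2', map_mul]⟩

/-- evaluation of a polynomial at `j = j_1` inside `F_{N,L}`: its series is `evJ`. -/
theorem coe_aeval_jL (Q : L[X]) :
    ((aeval (jL L N 1 (one_dvd N)) Q : FL L N) : LaurentSeries L) = S18.H516.evJ Q := by
  have h := Polynomial.aeval_algHom_apply (FL L N).val (jL L N 1 (one_dvd N)) Q
  have h1 : (FL L N).val (jL L N 1 (one_dvd N)) = jqModC L := by
    show ((jL L N 1 (one_dvd N) : FL L N) : LaurentSeries L) = _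
    rw [coe_jL, qExpand_one_apply]
  rw [h1] at h
  show (FL L N).val (aeval (jL L N 1 (one_dvd N)) Q) = _
  rw [← h, S18.H516.aeval_eq_evJ]

/-- evaluation of a polynomial at `j_N` inside `F_{N,L}`: its series is `qExpand N ∘ evJ`. -/
theorem coe_aeval_jL_top (Q : L[X]) :
    ((aeval (jL L N N dvd_rfl) Q : FL L N) : LaurentSeries L) =
      qExpand L N (S18.H516.evJ Q) := by
  have h := Polynomial.aeval_algHom_apply (FL L N).val (jL L N N dvd_rfl) Q
  have h1 : (FL L N).val (jL L N N dvd_rfl) = qExpandAlgHomC L N (jqModC L) := by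
    show ((jL L N N dvd_rfl : FL L N) : LaurentSeries L) = _
    rw [coe_jL, qExpandAlgHomC_apply]
  rw [h1, Polynomial.aeval_algHom_apply] at h
  show (FL L N).val (aeval (jL L N N dvd_rfl) Q) = _
  rw [← h, qExpandAlgHomC_apply, S18.H516.aeval_eq_evJ]

/-- **L7, core form.**  If `W` is an `L`-automorphism of `F_{N,L}` with `W j_d = j_{N/d}` and
`S28.CoreData N k` holds for the residue field `k` of `A`, then `W` preserves Gauss-integrality. -/
theorem frickeStable_core (core : CoreData N (IsLocalRing.ResidueField A))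
    {W : FL L N ≃ₐ[L] FL L N} (hW : FrickeOnGens N W) (f : FL L N)
    (hf : H708.IsGaussInt A (modularFunctionFieldFull N) (f : LaurentSeries L)) :
    H708.IsGaussInt A (modularFunctionFieldFull N) ((W f : FL L N) : LaurentSeries L) := by
  classical
  by_cases hf0 : f = 0
  · rw [hf0, map_zero]
    exact H708.IsGaussInt.zero
  have hf0' : (f : LaurentSeries L) ≠ 0 := fun h => hf0 (Subtype.ext h)
  obtain ⟨n, y, c, G, H, hy, hli, hc, hG, hH, he⟩ := exists_decomp A N core f.2 hf0'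
  have hcA : c ∈ A := (isGaussInt_iff_of_decomp A N hli hG hH he).mp hf
  -- the monomials inside `F`
  have hY : ∀ i, ∃ (g : FL L N) (y' : LaurentSeries ℤ), (g : LaurentSeries L) = castL L (y i) ∧
      ((W g : FL L N) : LaurentSeries L) = castL L y' := fun i => exists_int_of_closure hW (hy i)
  choose Y y' hY1 hY2 using hY
  -- the equation inside `F`
  have heF : f * aeval (jL L N 1 (one_dvd N)) (G.map A.subtype) =
      algebraMap L (FL L N) c *
        ∑ i, aeval (jL L N 1 (one_dvd N)) ((H i).map A.subtype) * Y i := by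
    apply Subtype.ext
    rw [IntermediateField.coe_mul, IntermediateField.coe_mul, coe_aeval_jL, he,
      IntermediateField.coe_sum]
    congr 1
    · show HahnSeries.C c = algebraMap L (LaurentSeries L) c
      rw [algebraMap_laurentSeries_eq_single, HahnSeries.C_apply]
    · refine Finset.sum_congr rfl fun i _ => ?_
      rw [IntermediateField.coe_mul, coe_aeval_jL, hY1 i]
  have hWj : W (jL L N 1 (one_dvd N)) = jL L N N dvd_rfl :=
    hW 1 N (one_dvd N) dvd_rfl (one_mul N)
  have hWaeval : ∀ Q : L[X], W (aeval (jL L N 1 (one_dvd N)) Q) = aeval (jL L N N dvd_rfl) Q := by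
    intro Q
    have := Polynomial.aeval_algHom_apply (W : FL L N →ₐ[L] FL L N) (jL L N 1 (one_dvd N)) Q
    rw [AlgEquiv.coe_toAlgHom, hWj] at this
    exact this.symm
  have heW := congrArg W heF
  rw [map_mul, map_mul, AlgEquiv.commutes, map_sum, hWaeval] at heW
  have heW' : ((W f : FL L N) : LaurentSeries L) *
      qExpand L N (S18.H516.evJ (G.map A.subtype)) =
      HahnSeries.C c * ∑ i, qExpand L N (S18.H516.evJ ((H i).map A.subtype)) * castL L (y' i) := by
    have h := congrArg (fun z : FL L N => (z : LaurentSeries L)) heW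
    simp only [IntermediateField.coe_mul, IntermediateField.coe_sum] at h
    rw [coe_aeval_jL_top] at h
    rw [h]
    congr 1
    · show algebraMap L (LaurentSeries L) c = HahnSeries.C c
      rw [algebraMap_laurentSeries_eq_single, HahnSeries.C_apply]
    · refine Finset.sum_congr rfl fun i _ => ?_
      rw [map_mul, hWaeval, IntermediateField.coe_mul, coe_aeval_jL_top, hY2 i]
  -- the integral model of `W f`
  set U₂ : LaurentSeries A := qExpand A N (S18.H516.evJ G) with hU₂
  set U₁ : LaurentSeries A := H708.cstA A ⟨c, hcA⟩ *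
    ∑ i, qExpand A N (S18.H516.evJ (H i)) * H708.castA A (y' i) with hU₁
  have hU₂L : H708.incl A U₂ = qExpand L N (S18.H516.evJ (G.map A.subtype)) := by
    rw [hU₂, H708.incl, coeffMap_qExpand, S18.H516.coeffMap_evJ]
  have hU₁L : H708.incl A U₁ =
      HahnSeries.C c * ∑ i, qExpand L N (S18.H516.evJ ((H i).map A.subtype)) * castL L (y' i) := by
    rw [hU₁, map_mul, H708.incl_cstA, H708.cst, algebraMap_laurentSeries_eq_single,
      HahnSeries.C_apply, map_sum]
    congr 1
    refine Finset.sum_congr rfl fun i _ => ?_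
    rw [map_mul, H708.incl, coeffMap_qExpand, S18.H516.coeffMap_evJ, H708.castA,
      coeffMap_coeffMap,
      show (A.subtype.comp (Int.castRingHom A)) = Int.castRingHom L from RingHom.ext_int _ _]
  refine ⟨U₁, U₂, ?_, ?_, ?_⟩
  · rw [hU₂, H708.red, coeffMap_qExpand, S18.H516.coeffMap_evJ]
    intro h1
    have h1' : S18.H516.evJ (G.map (IsLocalRing.residue A)) = 0 :=
      qExpand_injective N (by rw [h1, map_zero])
    obtain ⟨m1, hG1⟩ := hG
    have h2 := (S18.H516.evJ_eq_zero_iff _).mp h1'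
    have h3 := congrArg (fun P : (IsLocalRing.ResidueField A)[X] => P.coeff m1) h2
    simp only [Polynomial.coeff_map, Polynomial.coeff_zero, hG1, map_one] at h3
    exact one_ne_zero h3
  · rw [hU₂L, ← coe_aeval_jL_top]
    exact (aeval (jL L N N dvd_rfl) (G.map A.subtype) : FL L N).2
  · rw [hU₂L, hU₁L, heW']

end Fricke

end Fermat.Agent.A2.Mod.H900

end
end
-- ===== PACK-END A2/Mod/H900/L7Core.lean

-- ===== PACK-BEGIN S18/H576/Coeff.lean
section


/-!
# S18 / MOD-ASM (helper576): coefficients of `Fc`, `E_closed_in_F`, `compositum`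
-/

set_option autoImplicit false

noncomputable section

namespace Fermat.Agent.S18.H576

open ModularCurve AlgebraicCurve HahnSeries Fermat.Agent.S18 Fermat.Agent.S18.Mod

variable {M : ℕ} {A : ValuationSubring Qb} {E : IntermediateField ℚ Qb}

/-- The coercion `Ω → Q̄((q))` as a ring homomorphism. -/
abbrev valOm (M : ℕ) : Om M →+* LaurentSeries Qb := (modularFunctionFieldBar M).val.toRingHom

theorem valOm_apply (y : Om M) : valOm M y = (y : LaurentSeries Qb) := rfl

theorem valOm_injective (M : ℕ) : Function.Injective (valOm M) := Subtype.val_injective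

/-- Laurent series over `Q̄` all of whose coefficients lie in `E`. -/
def coeffSub (E : IntermediateField ℚ Qb) : Subfield (LaurentSeries Qb) :=
  (coeffMap (algebraMap E Qb)).fieldRange

theorem mem_coeffSub_iff {f : LaurentSeries Qb} :
    f ∈ coeffSub E ↔ ∀ n : ℤ, f.coeff n ∈ E := by
  constructor
  · rintro ⟨g, rfl⟩ n
    rw [coeffMap_coeff]
    exact (g.coeff n).2
  · intro h
    refine ⟨⟨fun n => ⟨f.coeff n, h n⟩, ?_⟩, ?_⟩
    · refine f.isPWO_support.mono ?_
      intro n hn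
      simp only [Function.mem_support, ne_eq] at hn ⊢
      intro h0
      exact hn (Subtype.ext h0)
    · ext n
      rfl

theorem coe_mem_coeffSub_of_mem_Fc {f : Om M} (hf : f ∈ Fc M E) :
    (f : LaurentSeries Qb) ∈ coeffSub E := by
  have hle : Fc M E ≤ (coeffSub E).comap (valOm M) := by
    unfold Fc
    rw [Subfield.closure_le]
    rintro y (hy | hy)
    · obtain ⟨a, ha, rfl⟩ := mem_Ec_iff.mp hy
      show (iota M a : LaurentSeries Qb) ∈ coeffSub E
      rw [coe_iota_single, mem_coeffSub_iff]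
      intro n
      by_cases hn : n = 0
      · subst hn
        rw [HahnSeries.coeff_single_same]
        exact ha
      · rw [HahnSeries.coeff_single_of_ne hn]
        exact zero_mem E
    · obtain ⟨d, hd, hdM, rfl⟩ := hy
      show (jd M d hdM : LaurentSeries Qb) ∈ coeffSub E
      rw [mem_coeffSub_iff]
      intro n
      show (coeffEmb Qb (qExpand ℚ d jq)).coeff n ∈ E
      rw [coeffEmb_coeff]
      exact E.algebraMap_mem _
  exact hle hf

theorem coeff_mem_of_mem_Fc {f : Om M} (hf : f ∈ Fc M E) (n : ℤ) :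
    (f : LaurentSeries Qb).coeff n ∈ E :=
  mem_coeffSub_iff.mp (coe_mem_coeffSub_of_mem_Fc hf) n

/-- A constant lying in `Fc` lies in `Ec`. -/
theorem mem_E_of_iota_mem_Fc {c : Qb} (h : iota M c ∈ Fc M E) : c ∈ E := by
  have := coeff_mem_of_mem_Fc h 0
  rwa [coe_iota_single, HahnSeries.coeff_single_same] at this

/-- An element of `Ω` algebraic over `Q̄` is a constant. -/
theorem exists_iota_eq_of_isAlgebraic {f : Om M} (hf : IsAlgebraic Qb f) :
    ∃ c : Qb, iota M c = f := by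
  have hint : IsIntegral Qb f := hf.isIntegral
  refine ⟨-(minpoly Qb f).coeff 0, ?_⟩
  have hq : (minpoly Qb f).leadingCoeff = 1 := minpoly.monic hint
  have h : (minpoly Qb f).degree = 1 :=
    IsAlgClosed.degree_eq_one_of_irreducible Qb (minpoly.irreducible hint)
  have : Polynomial.aeval f (minpoly Qb f) = 0 := minpoly.aeval Qb f
  rw [Polynomial.eq_X_add_C_of_degree_eq_one h, hq, Polynomial.C_1, one_mul,
    Polynomial.aeval_add, Polynomial.aeval_X, Polynomial.aeval_C,
    add_eq_zero_iff_eq_neg] at this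
  exact (map_neg (algebraMap Qb (Om M)) ((minpoly Qb f).coeff 0)).symm ▸ this.symm

theorem isAlgebraic_rat_of_mem_Ec {e : Om M} (he : e ∈ Ec M E) : IsAlgebraic ℚ e := by
  obtain ⟨a, -, rfl⟩ := mem_Ec_iff.mp he
  exact ((AlgebraicClosure.isAlgebraic ℚ).isAlgebraic a).algebraMap

theorem E_closed_in_F : ∀ f ∈ Fc M E, IsAlgebraic (Ec M E) f → f ∈ Ec M E := by
  intro f hf halg
  haveI : Algebra.IsAlgebraic ℚ (Ec M E) := by
    refine ⟨fun e => ?_⟩
    have h := isAlgebraic_rat_of_mem_Ec e.2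
    exact (isAlgebraic_algebraMap_iff (A := Om M) (algebraMap (Ec M E) (Om M)).injective).mp h
  have h1 : IsAlgebraic ℚ f := halg.restrictScalars ℚ
  have h2 : IsAlgebraic Qb f := h1.tower_top Qb
  obtain ⟨c, rfl⟩ := exists_iota_eq_of_isAlgebraic h2
  exact iota_mem_Ec (mem_E_of_iota_mem_Fc hf)

/-- The image of `ℚ(j_d : d ∣ M)` in `Q̄((q))` lies in (the image of) `Fc`. -/
theorem coeffEmb_mem_map_Fc {z : LaurentSeries ℚ} (hz : z ∈ modularFunctionFieldFull M) :
    coeffEmb Qb z ∈ (Fc M E).map (valOm M) := by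
  have hle : (modularFunctionFieldFull M).toSubfield ≤
      ((Fc M E).map (valOm M)).comap (coeffEmb Qb) := by
    unfold modularFunctionFieldFull
    rw [IntermediateField.adjoin_toSubfield, Subfield.closure_le]
    rintro y (⟨r, rfl⟩ | ⟨d, hd, hdM, rfl⟩)
    · show coeffEmb Qb (algebraMap ℚ (LaurentSeries ℚ) r) ∈ (Fc M E).map (valOm M)
      refine ⟨iota M (algebraMap ℚ Qb r), Ec_le_Fc (iota_mem_Ec (E.algebraMap_mem r)), ?_⟩
      rw [valOm_apply, coe_iota_single, algebraMap_laurentSeries_eq_single, coeffEmb, coeffMap_single]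
    · exact ⟨jd M d hdM, Subfield.subset_closure (Or.inr ⟨d, hd, hdM, rfl⟩), rfl⟩
  exact hle hz

theorem exists_mem_Fc_of_mem_full {z : LaurentSeries ℚ} (hz : z ∈ modularFunctionFieldFull M) :
    ∃ f ∈ Fc M E, (f : LaurentSeries Qb) = coeffEmb Qb z := by
  obtain ⟨f, hf, hfz⟩ := coeffEmb_mem_map_Fc (E := E) hz
  exact ⟨f, hf, hfz⟩

theorem compositum_eq_top : Subfield.closure ((Fc M E : Set (Om M)) ∪ Lc M) = ⊤ := by
  rw [eq_top_iff]
  rintro y -
  set T : Subfield (Om M) := Subfield.closure ((Fc M E : Set (Om M)) ∪ Lc M) with hT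
  have hle : (modularFunctionFieldBar M).toSubfield ≤ T.map (valOm M) := by
    show (laurentBaseChange Qb (modularFunctionFieldFull M)).toSubfield ≤ _
    unfold laurentBaseChange
    rw [IntermediateField.adjoin_toSubfield, Subfield.closure_le]
    rintro z (⟨a, rfl⟩ | ⟨z0, hz0, rfl⟩)
    · exact ⟨iota M a, Subfield.subset_closure (Or.inr (iota_mem_Lc a)), rfl⟩
    · obtain ⟨f, hf, hfz⟩ := exists_mem_Fc_of_mem_full (E := E) hz0
      exact ⟨f, Subfield.subset_closure (Or.inl hf), hfz⟩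
  obtain ⟨t, ht, hty⟩ := hle y.2
  have : t = y := valOm_injective M hty
  exact this ▸ ht

theorem fieldFacts (M : ℕ) (A : ValuationSubring Qb) (E : IntermediateField ℚ Qb) :
    FieldFacts M A E where
  R_le := Rc_subset_Ec
  R_total := Rc_total
  E_le_L := Ec_le_Lc
  E_le_F := Ec_le_Fc
  L_algebraic := isAlgebraic_Ec_of_mem_Lc
  L_algClosed := isAlgClosed_Lc M
  E_closed_in_F := E_closed_in_F
  compositum := compositum_eq_top

end Fermat.Agent.S18.H576

end
end
-- ===== PACK-END S18/H576/Coeff.lean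

-- ===== PACK-BEGIN A2/Mod/H708/Vinf.lean
section



/-!
# A2 / MOD leaves L1 `VinfExists` and L2 `VinfBasic` (helper708)

Exact shapes of `Fermat/Agent/A2/Mod/Spec.lean` (architect helper994):

* `vinfE P E N : ValuationSubring (FE E N)` — the Gauss valuation ring at `∞` over `R_E = P ∩ E`
  (`= H708.gaussInf`), for `R_E` noetherian;
* `isVinf_vinfE`, `eq_vinfE_of_isVinf` (the predicate `IsVinf` determines `V`);
* `vinfExists : VinfExistsStatement P E`                                              (L1);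
* `vinfBasic : VinfBasicStatement P E w`                                              (L2);
* reusable: `mem_of_isVinf_of_incl`, `inv_mem_of_isVinf_of_incl` (functions with an `R_E`-integral,
  resp. primitive `R_E`-integral, expansion are integral, resp. units),
  `algebraMap_mem_iff_of_isVinf`, `exists_const_mul_unit_of_isVinf`, `red_castA_jInt_ne_zero`.
-/

set_option autoImplicit false
set_option synthInstance.maxHeartbeats 400000
set_option maxHeartbeats 1600000

noncomputable section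

namespace Fermat.Agent.A2.Mod.H708

open ModularCurve HahnSeries Polynomial
open Fermat.Agent.A2

variable (P : ValuationSubring _root_.Fermat.Agent.A2.Mod.Qb) (E : IntermediateField ℚ _root_.Fermat.Agent.A2.Mod.Qb)

/-- The Gauss valuation ring at `∞` of `F_{N,E}` over `R_E` (`R_E` noetherian, e.g. a DVR). -/
def vinfE (N : ℕ) [IsNoetherianRing (_root_.Fermat.Agent.A2.Mod.RE P E)] : ValuationSubring (_root_.Fermat.Agent.A2.Mod.FE E N) :=
  H708.gaussInf (_root_.Fermat.Agent.A2.Mod.RE P E) (modularFunctionFieldFull N) (H708.intGen_full N)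
    (H708.attainsMax_of_isNoetherianRing (_root_.Fermat.Agent.A2.Mod.RE P E) (modularFunctionFieldFull N))

theorem isVinf_vinfE (N : ℕ) [IsNoetherianRing (_root_.Fermat.Agent.A2.Mod.RE P E)] : IsVinf P E N (vinfE P E N) :=
  fun _ => Iff.rfl

variable {P E}

/-- `IsVinf` determines the valuation ring. -/
theorem eq_vinfE_of_isVinf {N : ℕ} [IsNoetherianRing (_root_.Fermat.Agent.A2.Mod.RE P E)] {V : ValuationSubring (_root_.Fermat.Agent.A2.Mod.FE E N)}
    (hV : IsVinf P E N V) : V = vinfE P E N := by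
  ext f
  rw [hV f]
  exact Iff.rfl

/-- functions with an `R_E`-integral expansion lie in `V∞`. -/
theorem mem_of_isVinf_of_incl {N : ℕ} {V : ValuationSubring (_root_.Fermat.Agent.A2.Mod.FE E N)} (hV : IsVinf P E N V)
    {f : _root_.Fermat.Agent.A2.Mod.FE E N} (U : LaurentSeries (_root_.Fermat.Agent.A2.Mod.RE P E))
    (h : (f : LaurentSeries E) = H708.incl (_root_.Fermat.Agent.A2.Mod.RE P E) U) : f ∈ V := by
  rw [hV f, h]
  exact H708.IsGaussInt.of_incl U

/-- functions with a primitive `R_E`-integral expansion are units of `V∞`. -/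
theorem inv_mem_of_isVinf_of_incl {N : ℕ} {V : ValuationSubring (_root_.Fermat.Agent.A2.Mod.FE E N)} (hV : IsVinf P E N V)
    {f : _root_.Fermat.Agent.A2.Mod.FE E N} (U : LaurentSeries (_root_.Fermat.Agent.A2.Mod.RE P E))
    (h : (f : LaurentSeries E) = H708.incl (_root_.Fermat.Agent.A2.Mod.RE P E) U) (hU : H708.red (_root_.Fermat.Agent.A2.Mod.RE P E) U ≠ 0) :
    f⁻¹ ∈ V := by
  rw [hV f⁻¹]
  have hf0 : (f : LaurentSeries E) ≠ 0 := by
    rw [h]
    exact H708.incl_ne_zero (_root_.Fermat.Agent.A2.Mod.RE P E) (H708.ne_zero_of_red_ne_zero (_root_.Fermat.Agent.A2.Mod.RE P E) hU)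
  refine ⟨1, U, hU, h ▸ f.2, ?_⟩
  rw [IntermediateField.coe_inv, ← h, inv_mul_cancel₀ hf0, map_one]

/-- `V∞ ∩ E = R_E`. -/
theorem algebraMap_mem_iff_of_isVinf {N : ℕ} [IsNoetherianRing (_root_.Fermat.Agent.A2.Mod.RE P E)]
    {V : ValuationSubring (_root_.Fermat.Agent.A2.Mod.FE E N)} (hV : IsVinf P E N V) (e : E) :
    algebraMap E (_root_.Fermat.Agent.A2.Mod.FE E N) e ∈ V ↔ e ∈ _root_.Fermat.Agent.A2.Mod.RE P E := by
  rw [eq_vinfE_of_isVinf hV]
  exact H708.algebraMap_mem_gaussInf_iff _ _ e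

/-- value group of `V∞` = value group of `R_E`. -/
theorem exists_const_mul_unit_of_isVinf {N : ℕ} [IsNoetherianRing (_root_.Fermat.Agent.A2.Mod.RE P E)]
    {V : ValuationSubring (_root_.Fermat.Agent.A2.Mod.FE E N)} (hV : IsVinf P E N V) {f : _root_.Fermat.Agent.A2.Mod.FE E N} (hf : f ≠ 0) :
    ∃ c : E, c ≠ 0 ∧ V.valuation (f * (algebraMap E (_root_.Fermat.Agent.A2.Mod.FE E N) c)⁻¹) = 1 := by
  rw [eq_vinfE_of_isVinf hV]
  exact H708.exists_const_mul_unit _ _ hf

/-- the reduction of `j(t^d)` is nonzero. -/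
theorem red_castA_jInt_ne_zero (d : ℕ) [NeZero d] :
    H708.red (_root_.Fermat.Agent.A2.Mod.RE P E) (H708.castA (_root_.Fermat.Agent.A2.Mod.RE P E) (H708.jInt d)) ≠ 0 := by
  have h1 : H708.red (_root_.Fermat.Agent.A2.Mod.RE P E) (H708.castA (_root_.Fermat.Agent.A2.Mod.RE P E) (H708.jInt d))
      = jqNModC (IsLocalRing.ResidueField (_root_.Fermat.Agent.A2.Mod.RE P E)) d := by
    show coeffMap _ (coeffMap _ (jqNModC ℤ d)) = _
    rw [coeffMap_jqNModC, coeffMap_jqNModC]
  rw [h1]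
  intro h0
  have h2 : (jqNModC (IsLocalRing.ResidueField (_root_.Fermat.Agent.A2.Mod.RE P E)) d).coeff ((d : ℤ) * (-1)) = 1 := by
    rw [jqNModC, qExpand_coeff_mul, coeff_jqModC_neg_one]
  rw [h0] at h2
  simp at h2

/-- `j_d` has the `R_E`-integral expansion `j(t^d) ∈ ℤ((t))`. -/
theorem coe_jE_eq (N d : ℕ) [NeZero d] (hd : d ∣ N) :
    ((jE E N d hd : _root_.Fermat.Agent.A2.Mod.FE E N) : LaurentSeries E)
      = H708.incl (_root_.Fermat.Agent.A2.Mod.RE P E) (H708.castA (_root_.Fermat.Agent.A2.Mod.RE P E) (H708.jInt d)) := by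
  rw [H708.incl_castA, H708.castQ_jInt]
  rfl

section L1

variable (P E)

/-- **L1** (`VinfExistsStatement`): the Gauss valuation ring exists at every level. -/
theorem vinfExists : VinfExistsStatement P E := by
  intro N _ hdvr
  have := hdvr
  exact ⟨vinfE P E N, isVinf_vinfE P E N⟩

end L1

section L2

variable (P E) (w : _root_.Fermat.Agent.A2.Mod.RE P E)

/-- **L2** (`VinfBasicStatement`): `w` is a uniformiser of `V∞`, `V∞ ∩ E = R_E`, and the
generators `j_d` are units of `V∞`. -/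
theorem vinfBasic : VinfBasicStatement P E w := by
  intro N _ hdvr hw V hV
  have := hdvr
  have hw0 : (w : E) ≠ 0 := fun h => hw.ne_zero (Subtype.ext h)
  refine ⟨⟨?_, ?_, ?_⟩, fun e => algebraMap_mem_iff_of_isVinf hV e, ?_⟩
  · -- `w ∈ V`
    exact (algebraMap_mem_iff_of_isVinf hV (w : E)).mpr w.2
  · -- `w⁻¹ ∉ V`
    intro h
    have h1 : (cE P E N w)⁻¹ = algebraMap E (_root_.Fermat.Agent.A2.Mod.FE E N) ((w : E)⁻¹) := by
      rw [cE, map_inv₀]
    rw [h1] at h
    have h2 : (w : E)⁻¹ ∈ _root_.Fermat.Agent.A2.Mod.RE P E := (algebraMap_mem_iff_of_isVinf hV _).mp h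
    refine hw.not_isUnit (IsUnit.of_mul_eq_one (⟨(w : E)⁻¹, h2⟩ : _root_.Fermat.Agent.A2.Mod.RE P E) ?_)
    exact Subtype.ext (mul_inv_cancel₀ hw0)
  · -- every non-unit is divisible by `w`
    intro f hf hfinv
    have hf0 : f ≠ 0 := by
      rintro rfl
      exact hfinv (by rw [inv_zero]; exact V.zero_mem)
    obtain ⟨c, hc, hu⟩ := exists_const_mul_unit_of_isVinf hV hf0
    have hcF : algebraMap E (_root_.Fermat.Agent.A2.Mod.FE E N) c ≠ 0 := by
      rw [Ne, map_eq_zero]
      exact hc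
    -- `v(f) = v(c)`
    have hvf : V.valuation f = V.valuation (algebraMap E (_root_.Fermat.Agent.A2.Mod.FE E N) c) := by
      rw [map_mul, map_inv₀] at hu
      have hv0 : V.valuation (algebraMap E (_root_.Fermat.Agent.A2.Mod.FE E N) c) ≠ 0 :=
        (Valuation.ne_zero_iff _).mpr hcF
      calc V.valuation f
          = V.valuation f * (V.valuation (algebraMap E (_root_.Fermat.Agent.A2.Mod.FE E N) c))⁻¹ *
              V.valuation (algebraMap E (_root_.Fermat.Agent.A2.Mod.FE E N) c) := by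
            rw [mul_assoc, inv_mul_cancel₀ hv0, mul_one]
        _ = V.valuation (algebraMap E (_root_.Fermat.Agent.A2.Mod.FE E N) c) := by rw [hu, one_mul]
    have hcV : algebraMap E (_root_.Fermat.Agent.A2.Mod.FE E N) c ∈ V := by
      rw [← ValuationSubring.valuation_le_one_iff, ← hvf, ValuationSubring.valuation_le_one_iff]
      exact hf
    have hcinvV : (algebraMap E (_root_.Fermat.Agent.A2.Mod.FE E N) c)⁻¹ ∉ V := by
      rw [← ValuationSubring.valuation_le_one_iff, map_inv₀, ← hvf, ← map_inv₀,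
        ValuationSubring.valuation_le_one_iff]
      exact hfinv
    have hcR : c ∈ _root_.Fermat.Agent.A2.Mod.RE P E := (algebraMap_mem_iff_of_isVinf hV c).mp hcV
    have hcinvR : c⁻¹ ∉ _root_.Fermat.Agent.A2.Mod.RE P E := by
      intro h
      exact hcinvV (by rw [← map_inv₀]; exact (algebraMap_mem_iff_of_isVinf hV _).mpr h)
    -- `c` is a non-unit of `R_E`, hence divisible by `w`
    have hnu : ¬ IsUnit (⟨c, hcR⟩ : _root_.Fermat.Agent.A2.Mod.RE P E) := by
      intro hunit
      obtain ⟨d, hd⟩ := hunit.exists_right_inv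
      apply hcinvR
      have h3 : c * (d : E) = 1 := congrArg Subtype.val hd
      have h4 : c⁻¹ = (d : E) := inv_eq_of_mul_eq_one_right h3
      rw [h4]
      exact d.2
    have hmem : (⟨c, hcR⟩ : _root_.Fermat.Agent.A2.Mod.RE P E) ∈ IsLocalRing.maximalIdeal (_root_.Fermat.Agent.A2.Mod.RE P E) :=
      (IsLocalRing.mem_maximalIdeal _).mpr hnu
    rw [(IsDiscreteValuationRing.irreducible_iff_uniformizer w).mp hw,
      Ideal.mem_span_singleton] at hmem
    obtain ⟨d, hd⟩ := hmem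
    have hcd : c = (w : E) * (d : E) := congrArg Subtype.val hd
    have hdV : algebraMap E (_root_.Fermat.Agent.A2.Mod.FE E N) (d : E) ∈ V := (algebraMap_mem_iff_of_isVinf hV _).mpr d.2
    have hunitV : f * (algebraMap E (_root_.Fermat.Agent.A2.Mod.FE E N) c)⁻¹ ∈ V := by
      rw [← ValuationSubring.valuation_le_one_iff, hu]
    have hkey : f * (cE P E N w)⁻¹
        = f * (algebraMap E (_root_.Fermat.Agent.A2.Mod.FE E N) c)⁻¹ * algebraMap E (_root_.Fermat.Agent.A2.Mod.FE E N) (d : E) := by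
      have hwF : cE P E N w ≠ 0 := by
        rw [cE, Ne, map_eq_zero]
        exact hw0
      have hcF' : algebraMap E (_root_.Fermat.Agent.A2.Mod.FE E N) c = cE P E N w * algebraMap E (_root_.Fermat.Agent.A2.Mod.FE E N) (d : E) := by
        rw [cE, ← map_mul, hcd]
      have hdF : algebraMap E (_root_.Fermat.Agent.A2.Mod.FE E N) (d : E) ≠ 0 := by
        intro h0
        rw [h0, mul_zero] at hcF'
        exact hcF hcF'
      rw [hcF']
      field_simp
    rw [hkey]
    exact V.mul_mem _ _ hunitV hdV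
  · -- the `j_d` are units
    intro d _ hd
    exact ⟨mem_of_isVinf_of_incl hV _ (coe_jE_eq N d hd),
      inv_mem_of_isVinf_of_incl hV _ (coe_jE_eq N d hd) (red_castA_jInt_ne_zero d)⟩

end L2

end Fermat.Agent.A2.Mod.H708

end
end
-- ===== PACK-END A2/Mod/H708/Vinf.lean

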