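import Mathlib
import Fermat.Agent.Pack.S34.G0E0L0
import Fermat.Agent.Pack.S34.G0E8L2
import Fermat.Agent.Pack.S34.G0E8L1
import Fermat.Agent.Pack.S34.G0E8L3
import Fermat.Agent.Pack.S34.G0E5L2
import Fermat.Agent.Pack.S34.G0E6L2
import Fermat.Agent.Pack.S34.G0E8L0
import Fermat.Agent.Pack.S34.G0E5L1
import Fermat.Agent.Pack.S34.G0E3L3
import Fermat.Agent.Pack.S34.G0E4L1
import Fermat.Agent.Pack.S34.G0E2L3
import Fermat.Agent.Pack.S34.G0E7L0
import Fermat.Agent.Pack.S34.G0E6L0

-- ===== PACK-BEGIN Lib/RR/H864/FF1Bridge.lean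
section




/-!
# RR library, bridge: `FF1 K F` in characteristic zero

For `K` algebraically closed of characteristic `0` and `F` finite over `K(x)`, `x` transcendental:
`HasPrincipalDivisors K F` (divisors of functions exist and have degree `0`), every place has
degree one, and there is a place.  Hence `FF1 K F`.
-/

set_option autoImplicit false

noncomputable section

open AlgebraicCurve IntermediateField

namespace Fermat.Agent.Lib.RR.H864

variable {K F : Type*} [Field K] [Field F] [Algebra K F] [IsAlgClosed K] [CharZero K]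

/-- divisors of functions exist (finitely many zeros and poles) -/
theorem exists_divisor (x : F) (hx : Transcendental K x)
    [FiniteDimensional ↥(IntermediateField.adjoin K {x}) F] (f : F) (hf : f ≠ 0) :
    ∃ D : Divisor K F, (∀ v : Place K F, D v = v.ord f) ∧ Divisor.degree D = 0 := by
  classical
  suffices h : ∃ D : Divisor K F, ∀ v : Place K F, D v = v.ord f by
    obtain ⟨D, hD⟩ := h
    exact ⟨D, hD, S24.H864.degree_principal x hx f hf D hD⟩
  by_cases hfK : f ∈ (algebraMap K F).range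
  · obtain ⟨c, rfl⟩ := hfK
    exact ⟨0, fun v => by rw [S24.FF.ord_algebraMap v c]; rfl⟩
  · have hft : Transcendental K f := S24.FF.transcendental_of_not_mem_range hfK
    haveI : FiniteDimensional ↥(IntermediateField.adjoin K {f}) F :=
      S24.FF.finiteDimensional_adjoin_of_transcendental hx hft
    haveI : FiniteDimensional ↥(IntermediateField.adjoin K {f⁻¹}) F := by
      rw [S24.H864.adjoin_simple_inv_eq]; infer_instance
    obtain ⟨sp, hsp⟩ := S24.H864.exists_finset_zeros f hft
    obtain ⟨sn, hsn⟩ := S24.H864.exists_finset_zeros f⁻¹ (S24.H864.transcendental_inv hft)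
    refine ⟨Finsupp.onFinset (sp ∪ sn) (fun v => v.ord f) ?_, fun v => rfl⟩
    intro v hv
    rw [Finset.mem_union, hsp, hsn, Place.ord_inv]
    omega

theorem hasPrincipalDivisors (x : F) (hx : Transcendental K x)
    [FiniteDimensional ↥(IntermediateField.adjoin K {x}) F] : HasPrincipalDivisors K F :=
  ⟨fun f hf => exists_divisor x hx f hf⟩

/-- there is a place (a zero of `x`) -/
theorem nonempty_place (x : F) (hx : Transcendental K x)
    [FiniteDimensional ↥(IntermediateField.adjoin K {x}) F] : Nonempty (Place K F) := by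
  obtain ⟨s, _, hsum⟩ := S24.H864.fundamental_eq x hx
  by_contra hne
  rw [not_nonempty_iff] at hne
  have h0 : ∑ v ∈ s, v.ord x = 0 := Finset.sum_eq_zero fun v _ => (hne.false v).elim
  rw [h0] at hsum
  have hpos : 0 < Module.finrank ↥(IntermediateField.adjoin K {x}) F := Module.finrank_pos
  omega

/-- **Bridge.**  `FF1 K F` for function fields of one variable over an algebraically closed field
of characteristic zero. -/
theorem ff1 (x : F) (hx : Transcendental K x)
    [hfin : FiniteDimensional ↥(IntermediateField.adjoin K {x}) F] : FF1 K F where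
  hpd := hasPrincipalDivisors x hx
  deg_eq_one := fun v => S24.FF.deg_eq_one v hx
  nonempty_place := nonempty_place x hx
  exists_finite := ⟨x, hx, hfin⟩

end Fermat.Agent.Lib.RR.H864

end
end
-- ===== PACK-END Lib/RR/H864/FF1Bridge.lean

-- ===== PACK-BEGIN S29/H222/ESKInertia.lean
section
/-
S29 / helper222 — piece ESK-U: inertia at `A` acts trivially on `J₀(N)(ℚ̄)[m]`, from
`S18.CoreStatement N A m` and the Prelude's `PrincipalGeneratedByIntegral`.

Proof: `x = [D]`, `m D = div U₁ - div U₂` (`U₁, U₂` integral).  For `τ` in the inertia group put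
`V₁ = τU₁ · U₂`, `V₂ = U₁ · τU₂`; they have the same reduction, and `div V₁ - div V₂ = m (τD - D)`.
CORE gives `V₁ = c y^m V₂`, hence `τD - D = div y`.
-/


set_option autoImplicit false
set_option linter.style.haveILetI false

noncomputable section

namespace Fermat.Agent.S29.H222

open ModularCurve AlgebraicCurve HahnSeries IsLocalRing
open Fermat.Agent.S18 (Qb IsInt toF CoreStatement)

variable {A : ValuationSubring Qb} {N : ℕ}

/-- `m`-torsion classes: `m • D` is principal. -/
theorem smul_mem_principal_of_torsion {m : ℕ}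
    (D : Divisor.degZero (K := Qb) (F := modularFunctionFieldBar N))
    (hx : (m : ℤ) • (Pic0.mk D : JZero N) = 0) :
    (m : ℤ) • (D : Divisor Qb (modularFunctionFieldBar N))
      ∈ Divisor.principal (K := Qb) (F := modularFunctionFieldBar N) := by
  have hx' : ((m : ℤ) • D : Divisor.degZero (K := Qb) (F := modularFunctionFieldBar N)) ∈
      (Divisor.principal (K := Qb) (F := modularFunctionFieldBar N)).addSubgroupOf
        (Divisor.degZero (K := Qb) (F := modularFunctionFieldBar N)) := by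
    have : Pic0.mk ((m : ℤ) • D) = 0 := hx
    exact (QuotientAddGroup.eq_zero_iff _).mp this
  rw [AddSubgroup.mem_addSubgroupOf] at hx'
  simpa using hx'

/-- Two classes are equal as soon as the difference of the divisors is the divisor of a
function. -/
theorem pic0_mk_eq_of_isDivOf
    (D D' : Divisor.degZero (K := Qb) (F := modularFunctionFieldBar N))
    {y : modularFunctionFieldBar N} (hy : y ≠ 0)
    (h : IsDivOf (K := Qb) y ((D' : Divisor Qb (modularFunctionFieldBar N))
      - (D : Divisor Qb (modularFunctionFieldBar N)))) :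
    (Pic0.mk D' : JZero N) = Pic0.mk D := by
  symm
  refine QuotientAddGroup.eq.mpr ?_
  rw [AddSubgroup.mem_addSubgroupOf]
  refine ⟨y, hy, fun v => ?_⟩
  have := h v
  rw [← this]
  simp [sub_eq_neg_add]

theorem decK_eq_self_of_mem_inertia {g : A.decompositionSubgroup ℚ}
    (hg : g ∈ A.inertiaSubgroup ℚ) (x : ResidueField A) : decK g x = x := by
  have h1 := MonoidHom.mem_ker.mp hg
  exact congrArg (fun e : RingAut (ResidueField A) => e x) h1

theorem coeffMap_decK_of_mem_inertia {g : A.decompositionSubgroup ℚ}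
    (hg : g ∈ A.inertiaSubgroup ℚ) (x : LaurentSeries (ResidueField A)) :
    coeffMap (decK g) x = x := by
  ext n
  rw [coeffMap_coeff, decK_eq_self_of_mem_inertia hg]

/-- **ESK-U.** -/
theorem esk_inertia : ESKInertiaStatement := by
  intro N _ m hm A hcore hpgi τ hτ x hx
  obtain ⟨g, hg, rfl⟩ := hτ
  obtain ⟨D, rfl⟩ := Pic0.mk_surjective x
  obtain ⟨U₁, U₂, h₁, h₂, D₁, D₂, hd₁, hd₂, hDD⟩ :=
    exists_isInt_of_principal hpgi (smul_mem_principal_of_torsion D hx)
  set G := arithmeticGalois (modularFunctionFieldFull N)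
    (((A.decompositionSubgroup ℚ).subtype g : Qb ≃ₐ[ℚ] Qb)) with hG
  have hV₁ : IsInt A N (galA g U₁ * U₂) := isInt_mul (isInt_galA g h₁) h₂
  have hV₂ : IsInt A N (U₁ * galA g U₂) := isInt_mul h₁ (isInt_galA g h₂)
  have hred : coeffMap (residue A) (galA g U₁ * U₂) = coeffMap (residue A) (U₁ * galA g U₂) := by
    rw [map_mul, map_mul, coeffMap_residue_galA, coeffMap_residue_galA,
      coeffMap_decK_of_mem_inertia hg, coeffMap_decK_of_mem_inertia hg]
  have hgd₁ : IsDivOf (toF (isInt_galA g h₁)) (G • D₁) := by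
    rw [toF_galA]; exact hd₁.smul G
  have hgd₂ : IsDivOf (toF (isInt_galA g h₂)) (G • D₂) := by
    rw [toF_galA]; exact hd₂.smul G
  have hdV₁ : IsDivOf (toF hV₁) (G • D₁ + D₂) := by
    rw [toF_mul (isInt_galA g h₁) h₂]
    exact hgd₁.mul (toF_ne_zero _) (toF_ne_zero _) hd₂
  have hdV₂ : IsDivOf (toF hV₂) (D₁ + G • D₂) := by
    rw [toF_mul h₁ (isInt_galA g h₂)]
    exact hd₁.mul (toF_ne_zero _) (toF_ne_zero _) hgd₂
  have hkey : ∀ v : Place Qb (modularFunctionFieldBar N),
      (m : ℤ) * (G • (D : Divisor Qb (modularFunctionFieldBar N)) - D) v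
        = v.ord (toF hV₁) - v.ord (toF hV₂) := by
    intro v
    rw [← hdV₁ v, ← hdV₂ v]
    have e1 : ((m : ℤ) • (D : Divisor Qb (modularFunctionFieldBar N))) v = D₁ v - D₂ v := by
      rw [hDD, Finsupp.sub_apply]
    have e2 : ((m : ℤ) • (D : Divisor Qb (modularFunctionFieldBar N))) (G⁻¹ • v)
        = D₁ (G⁻¹ • v) - D₂ (G⁻¹ • v) := by
      rw [hDD, Finsupp.sub_apply]
    rw [Finsupp.smul_apply, smul_eq_mul] at e1 e2
    simp only [Finsupp.sub_apply, Finsupp.add_apply, SemilinearAut.divisor_smul_apply]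
    linear_combination e2 - e1
  have hord : ∀ v : Place Qb (modularFunctionFieldBar N),
      (m : ℤ) ∣ v.ord (toF hV₁) - v.ord (toF hV₂) := fun v => ⟨_, (hkey v).symm⟩
  obtain ⟨c, y, hc, hy, hcy⟩ := hcore _ _ hV₁ hV₂ hred hord
  have hE := isDivOf_of_eq_const_mul_pow hm hc hy (toF_ne_zero hV₂) hcy hkey
  show (((A.decompositionSubgroup ℚ).subtype g : Qb ≃ₐ[ℚ] Qb)) • (Pic0.mk D : JZero N) = Pic0.mk D
  rw [galois_smul_pic0_def, SemilinearAut.pic0_smul_mk]
  exact pic0_mk_eq_of_isDivOf D _ hy hE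

end Fermat.Agent.S29.H222

end
end
-- ===== PACK-END S29/H222/ESKInertia.lean

-- ===== PACK-BEGIN S28/H867/Lower.lean
section




set_option autoImplicit false
noncomputable section
open ModularCurve HahnSeries IntermediateField Polynomial

namespace Fermat.Agent.S28.H867

section Lower

variable (k : Type*) [Field k]

/-- Everything the lower-bound induction needs at level `N`. -/
structure Good (N : ℕ) : Prop where
  ne_zero : N ≠ 0
  modPoly : ∀ p : ℕ, p.Prime → p ∣ N → ∀ [NeZero p], Nonempty (ModPolyData p)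
  prime : ∀ p : ℕ, p.Prime → p ∣ N → ∀ [NeZero p], PrimeLevel k p
  indep : ∀ p : ℕ, p.Prime → p ∣ N → ∀ [NeZero p], LeafI k p
  upper : ∀ M : ℕ, M ∣ N → degE k M ≤ gFun M

variable {k}

theorem Good.of_dvd {N M : ℕ} (h : Good k N) (hMN : M ∣ N) : Good k M where
  ne_zero := fun h0 => h.ne_zero (by rw [h0] at hMN; exact Nat.eq_zero_of_zero_dvd hMN)
  modPoly := fun p hp hpM => h.modPoly p hp (hpM.trans hMN)
  prime := fun p hp hpM => h.prime p hp (hpM.trans hMN)
  indep := fun p hp hpM => h.indep p hp (hpM.trans hMN)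
  upper := fun M' hM' => h.upper M' (hM'.trans hMN)

theorem Good.degE_ne_zero {N : ℕ} (h : Good k N) : degE k N ≠ 0 :=
  H867.degE_ne_zero k N h.ne_zero h.modPoly

variable (k) in
theorem degE_one : degE k 1 = 1 := by
  rw [degE, relfinrank_eq_one_iff]
  show adjoin k (divisorExpansionsC k 1) ≤ jField k
  rw [adjoin_le_iff]
  rintro x ⟨d, hd, hd1, rfl⟩
  have : d = 1 := Nat.dvd_one.mp hd1
  subst this
  rw [qExpand_one_apply]
  exact jq_mem_jField k

variable (k) in
theorem EF_prime_eq (p : ℕ) [NeZero p] (hp : p.Prime) : EF k p = jField k ⊔ jpField k p := by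
  apply le_antisymm
  · show adjoin k (divisorExpansionsC k p) ≤ _
    rw [adjoin_le_iff]
    rintro x ⟨d, hd, hdp, rfl⟩
    rcases (Nat.dvd_prime hp).mp hdp with h1 | h1
    · subst h1
      rw [qExpand_one_apply]
      exact (le_sup_left : jField k ≤ _) (jq_mem_jField k)
    · subst h1
      exact (le_sup_right : jpField k d ≤ _) (jp_mem_jpField k d)
  · refine sup_le (jField_le_EF k p) ?_
    rw [jpField, adjoin_simple_le_iff]
    exact jqModCd_mem_full k p dvd_rfl

theorem Good.degE_prime {p : ℕ} (hp : p.Prime) (h : Good k p) : degE k p = p + 1 := by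
  have : NeZero p := ⟨hp.ne_zero⟩
  rw [degE, EF_prime_eq k p hp]
  exact (h.prime p hp dvd_rfl).deg_j

/-- the (b)-step in `Good` form -/
theorem Good.mul_le {N p : ℕ} (h : Good k N) (hp : p.Prime) (hpN : p ∣ N) :
    p * degE k (N / p) ≤ degE k N := by
  have : NeZero p := ⟨hp.ne_zero⟩
  have hN : N / p * p = N := Nat.div_mul_cancel hpN
  have := degE_mul_ge k (N / p) p (h.prime p hp hpN) (h.indep p hp hpN)
    (by rw [hN]; exact h.degE_ne_zero)
  rwa [hN] at this

theorem Good.tower {N M : ℕ} (h : Good k N) (hMN : M ∣ N) :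
    degE k M * (EF k M).relfinrank (EF k N) = degE k N := by
  have : NeZero N := ⟨h.ne_zero⟩
  have : NeZero M := ⟨(h.of_dvd hMN).ne_zero⟩
  exact relfinrank_mul_relfinrank (jField_le_EF k M) (full_degeneracyC_le k hMN)

/-- For a prime `p ∣ N` with `p ∤ N / p`: if `[E_{N/p} : k(j)] = g(N/p)`, then `[E_N : k(j)]`
is `p · g(N/p)` or `(p+1) · g(N/p) = g(N)`. -/
theorem Good.dichotomy {N p : ℕ} (h : Good k N) (hp : p.Prime) (hpN : p ∣ N)
    (hpM : ¬ p ∣ N / p) (hM : degE k (N / p) = gFun (N / p)) :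
    degE k N = gFun N ∨ degE k N * (p + 1) = p * gFun N := by
  have hN : N / p * p = N := Nat.div_mul_cancel hpN
  have hM0 : N / p ≠ 0 := fun h0 => h.ne_zero (by rw [← hN, h0, zero_mul])
  have hg : gFun N = (p + 1) * gFun (N / p) := by
    conv_lhs => rw [← hN]
    exact gFun_mul_of_not_dvd hM0 hp hpM
  have htower := h.tower (Nat.div_dvd_of_dvd hpN)
  set a := (EF k (N / p)).relfinrank (EF k N) with ha
  have hup := h.upper N dvd_rfl
  have hlow := h.mul_le hp hpN
  rw [hM] at htower hlow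
  have hgpos := gFun_pos (N / p)
  rw [← htower] at hup hlow ⊢
  rw [hg] at hup ⊢
  have ha1 : p ≤ a := by
    rw [mul_comm] at hlow
    exact Nat.le_of_mul_le_mul_left hlow hgpos
  have ha2 : a ≤ p + 1 := by
    rw [mul_comm (p + 1)] at hup
    exact Nat.le_of_mul_le_mul_left hup hgpos
  rcases Nat.lt_or_ge a (p + 1) with h1 | h1
  · right
    have : a = p := by omega
    rw [this]; ring
  · left
    have : a = p + 1 := by omega
    rw [this]; ring

theorem Good.le_degE : ∀ {N : ℕ}, Good k N → gFun N ≤ degE k N := by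
  intro N
  induction N using Nat.strong_induction_on with
  | _ N ih =>
    intro h
    rcases Nat.lt_or_ge 1 N with hN1 | hN1
    swap
    · have : N = 1 := by have := h.ne_zero; omega
      subst this
      rw [gFun_one, degE_one]
    -- `N > 1`
    by_cases hsq : ∃ r : ℕ, r.Prime ∧ r ∣ N ∧ r ∣ N / r
    · obtain ⟨r, hr, hrN, hrM⟩ := hsq
      have hN : N / r * r = N := Nat.div_mul_cancel hrN
      have hM0 : N / r ≠ 0 := fun h0 => h.ne_zero (by rw [← hN, h0, zero_mul])
      have hlt : N / r < N := Nat.div_lt_self (by omega) hr.one_lt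
      have ihM := ih (N / r) hlt (h.of_dvd (Nat.div_dvd_of_dvd hrN))
      calc gFun N = gFun (N / r * r) := by rw [hN]
        _ = r * gFun (N / r) := gFun_mul_of_dvd hM0 hr hrM
        _ ≤ r * degE k (N / r) := Nat.mul_le_mul_left _ ihM
        _ ≤ degE k N := h.mul_le hr hrN
    · simp only [not_exists, not_and] at hsq
      -- first prime
      set p := N.minFac with hp
      have hpp : p.Prime := Nat.minFac_prime (by omega)
      have hpN : p ∣ N := Nat.minFac_dvd N
      have hN : N / p * p = N := Nat.div_mul_cancel hpN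
      rcases Nat.lt_or_ge 1 (N / p) with hM1 | hM1
      swap
      · -- `N = p` is prime
        have hM0 : N / p ≠ 0 := fun h0 => h.ne_zero (by rw [← hN, h0, zero_mul])
        have : N / p = 1 := Nat.le_antisymm hM1 (Nat.one_le_iff_ne_zero.mpr hM0)
        have hNp : N = p := by rw [← hN, this, one_mul]
        have h' : Good k p := hNp ▸ h
        rw [hNp, gFun_prime hpp, h'.degE_prime hpp]
      -- second prime
      set r := (N / p).minFac with hr
      have hrp : r.Prime := Nat.minFac_prime (by omega)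
      have hrM : r ∣ N / p := Nat.minFac_dvd _
      have hrN : r ∣ N := hrM.trans (Nat.div_dvd_of_dvd hpN)
      have hpM : ¬ p ∣ N / p := hsq p hpp hpN
      have hrM' : ¬ r ∣ N / r := hsq r hrp hrN
      have hne : r ≠ p := fun he => hpM (he ▸ hrM)
      have hltp : N / p < N := Nat.div_lt_self (by omega) hpp.one_lt
      have hltr : N / r < N := Nat.div_lt_self (by omega) hrp.one_lt
      have hMp : degE k (N / p) = gFun (N / p) :=
        le_antisymm (h.upper _ (Nat.div_dvd_of_dvd hpN))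
          (ih _ hltp (h.of_dvd (Nat.div_dvd_of_dvd hpN)))
      have hMr : degE k (N / r) = gFun (N / r) :=
        le_antisymm (h.upper _ (Nat.div_dvd_of_dvd hrN))
          (ih _ hltr (h.of_dvd (Nat.div_dvd_of_dvd hrN)))
      rcases h.dichotomy hpp hpN hpM hMp with h1 | h1
      · exact h1.ge
      rcases h.dichotomy hrp hrN hrM' hMr with h2 | h2
      · exact h2.ge
      exfalso
      have hD : degE k N ≠ 0 := h.degE_ne_zero
      have hD' : 0 < degE k N := Nat.pos_of_ne_zero hD
      have key : degE k N * ((p + 1) * r) = degE k N * ((r + 1) * p) := by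
        calc degE k N * ((p + 1) * r) = (degE k N * (p + 1)) * r := by ring
          _ = p * gFun N * r := by rw [h1]
          _ = (r * gFun N) * p := by ring
          _ = (degE k N * (r + 1)) * p := by rw [h2]
          _ = degE k N * ((r + 1) * p) := by ring
      have := Nat.eq_of_mul_eq_mul_left hD' key
      apply hne
      nlinarith

theorem Good.degE_eq {N : ℕ} (h : Good k N) : degE k N = gFun N :=
  le_antisymm (h.upper N dvd_rfl) h.le_degE

end Lower

end Fermat.Agent.S28.H867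

end
end
-- ===== PACK-END S28/H867/Lower.lean

-- ===== PACK-BEGIN Lib/RR/H443/Bridge.lean
section




/-!
# RR bridge (helper443), part 4: `FF1 K F` in ANY characteristic

For `K` algebraically closed (of any characteristic) and `F` a finite extension of `K(x)`, `x`
transcendental over `K`:

* `hasPrincipalDivisors_of_isAlgClosed` : `HasPrincipalDivisors K F`
  (finitely many zeros and poles, principal divisors have degree `0`);
* `ff1_of_isAlgClosed` : the standing hypotheses `FF1 K F` of the RR library;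
* `sum_ord_zeros_eq_finrank'`, `sum_ord_poles_eq_finrank'` : the fundamental identity
  `∑_{v(x) > 0} ord_v x = [F : K(x)] = ∑_{v(x) < 0} -ord_v x`;
* `exists_place_ord_pos'`, `exists_place_ord_neg'` : existence of zeros and poles.

No separability, no Dedekind domains: only valuation theory (Stichtenoth, Ch. 1).
-/

set_option autoImplicit false

noncomputable section

open AlgebraicCurve Polynomial IntermediateField
open Fermat.Agent.Lib.RR

namespace Fermat.Agent.Lib.RR.H443

variable {K F : Type*} [Field K] [Field F] [Algebra K F]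

/-- Layer L2 of the RR library gives the zeros bound. -/
theorem zerosBound (hdeg : ∀ v : Place K F, v.deg = 1) : ZerosBound K F :=
  fun x _ S hS => sum_ord_le_finrank hdeg x S hS

variable [IsAlgClosed K]

/-- The hypotheses of the bridge hold over an algebraically closed constant field. -/
theorem hyp_of_isAlgClosed {x : F} (hx : Transcendental K x) [FiniteDimensional K⟮x⟯ F] :
    Hyp K F where
  deg_eq_one := fun v => S24.FF.deg_eq_one v hx
  finite := fun _ hy => S24.FF.finiteDimensional_adjoin_of_transcendental hx hy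
  const := fun _ hf => S24.FF.mem_range_of_isAlgebraic hf

/-- **`FF1 K F` in any characteristic.** -/
theorem ff1_of_isAlgClosed {x : F} (hx : Transcendental K x) [FiniteDimensional K⟮x⟯ F] :
    FF1 K F :=
  ff1_of_hyp (hyp_of_isAlgClosed hx) (zerosBound (hyp_of_isAlgClosed hx).deg_eq_one) hx

/-- **`HasPrincipalDivisors K F` in any characteristic.** -/
theorem hasPrincipalDivisors_of_isAlgClosed {x : F} (hx : Transcendental K x)
    [FiniteDimensional K⟮x⟯ F] : HasPrincipalDivisors K F :=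
  hasPrincipalDivisors (hyp_of_isAlgClosed hx) (zerosBound (hyp_of_isAlgClosed hx).deg_eq_one)

/-- Every place has degree one. -/
theorem deg_eq_one_of_isAlgClosed {x : F} (hx : Transcendental K x) [FiniteDimensional K⟮x⟯ F]
    (v : Place K F) : v.deg = 1 :=
  S24.FF.deg_eq_one v hx

/-- Every nonconstant function has a zero. -/
theorem exists_place_ord_pos' {x : F} (hx : Transcendental K x) [FiniteDimensional K⟮x⟯ F]
    {t : F} (ht : Transcendental K t) : ∃ v : Place K F, 0 < v.ord t :=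
  exists_place_ord_pos (hyp_of_isAlgClosed hx).finite ht

/-- Every nonconstant function has a pole. -/
theorem exists_place_ord_neg' {x : F} (hx : Transcendental K x) [FiniteDimensional K⟮x⟯ F]
    {t : F} (ht : Transcendental K t) : ∃ v : Place K F, v.ord t < 0 :=
  exists_place_ord_neg (hyp_of_isAlgClosed hx).finite ht

/-- Finitely many zeros and poles. -/
theorem finite_setOf_ord_ne_zero {x : F} (hx : Transcendental K x) [FiniteDimensional K⟮x⟯ F]
    (f : F) : {v : Place K F | v.ord f ≠ 0}.Finite := by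
  have h := hyp_of_isAlgClosed hx
  have hZ := zerosBound h.deg_eq_one
  refine ((finite_zeros h hZ f).union (finite_poles h hZ f)).subset fun v hv => ?_
  have hv' : v.ord f ≠ 0 := hv
  rcases lt_or_gt_of_ne hv' with h1 | h1
  · exact Or.inr h1
  · exact Or.inl h1

/-- **Fundamental identity at the zeros** (any characteristic). -/
theorem sum_ord_zeros_eq_finrank' {x : F} (hx : Transcendental K x) [FiniteDimensional K⟮x⟯ F]
    (S : Finset (Place K F)) (hS : ∀ v, v ∈ S ↔ 0 < v.ord x) :
    ∑ v ∈ S, v.ord x = (Module.finrank K⟮x⟯ F : ℤ) :=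
  sum_ord_zeros_eq_finrank (hyp_of_isAlgClosed hx)
    (zerosBound (hyp_of_isAlgClosed hx).deg_eq_one) hx S hS

/-- **Fundamental identity at the poles** (any characteristic). -/
theorem sum_ord_poles_eq_finrank' {x : F} (hx : Transcendental K x) [FiniteDimensional K⟮x⟯ F]
    (S : Finset (Place K F)) (hS : ∀ v, v ∈ S ↔ v.ord x < 0) :
    ∑ v ∈ S, -v.ord x = (Module.finrank K⟮x⟯ F : ℤ) :=
  sum_ord_poles_eq_finrank (hyp_of_isAlgClosed hx)
    (zerosBound (hyp_of_isAlgClosed hx).deg_eq_one) hx S hS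

/-- Every valuation subring `≠ ⊤` of `F` containing `K` is (the ring of) a place. -/
theorem exists_place_eq (O : ValuationSubring F) (hK : ∀ a : K, algebraMap K F a ∈ O)
    (hO : O ≠ ⊤) {x : F} (hx : Transcendental K x) [FiniteDimensional K⟮x⟯ F] :
    ∃ v : Place K F, v.toValuationSubring = O :=
  ⟨placeOfValuationSubring O hK hO (hyp_of_isAlgClosed hx).finite, rfl⟩

end Fermat.Agent.Lib.RR.H443

end
end
-- ===== PACK-END Lib/RR/H443/Bridge.lean

-- ===== PACK-BEGIN S18/H456/ModR.lean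
section



/-!
# S18 / MOD assembly (helper456): G-R — the fields `w_mem`, `w_ne_zero`, `w_inv_not_mem`, `w_gen`,
`w_discrete`, `residue_perfect` of `Alg.GoodModel` for `R = Rc M A E` (`E/ℚ` finite)

Input: `H602.isDiscreteValuationRing_RE` (helper602, on main).
-/

set_option autoImplicit false

noncomputable section

namespace Fermat.Agent.S18.H456

open ModularCurve AlgebraicCurve HahnSeries Fermat.Agent.S18 Fermat.Agent.S18.Mod
open scoped NumberField

variable (M : ℕ) (A : ValuationSubring Qb) (E : IntermediateField ℚ Qb)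

/-- The constant in `Ω` attached to an element of `R_E = A ∩ E`. -/
def cstR (r : H602.RE A E) : Om M := cst M ((r : E) : Qb)

theorem cstR_mem_Rc (r : H602.RE A E) : cstR M A E r ∈ Rc M A E :=
  cst_mem_Rc M A E (H602.mem_RE.1 r.2) (r : E).2

theorem mem_Rc_iff_cstR {f : Om M} : f ∈ Rc M A E ↔ ∃ r : H602.RE A E, cstR M A E r = f := by
  constructor
  · intro hf
    obtain ⟨c, hA, hE, rfl⟩ := (mem_Rc_iff M A E).1 hf
    exact ⟨⟨⟨c, hE⟩, H602.mem_RE.2 hA⟩, rfl⟩
  · rintro ⟨r, rfl⟩
    exact cstR_mem_Rc M A E r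

theorem cstR_injective : Function.Injective (cstR M A E) := by
  intro r s h
  have h1 : ((r : E) : Qb) = ((s : E) : Qb) := cst_injective M h
  exact Subtype.ext (Subtype.ext h1)

theorem cstR_mul (r s : H602.RE A E) : cstR M A E (r * s) = cstR M A E r * cstR M A E s := by
  unfold cstR
  rw [← map_mul]
  rfl

theorem cstR_pow (r : H602.RE A E) (n : ℕ) : cstR M A E (r ^ n) = cstR M A E r ^ n := by
  unfold cstR
  rw [← map_pow]
  rfl

theorem cstR_sub (r s : H602.RE A E) : cstR M A E (r - s) = cstR M A E r - cstR M A E s := by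
  unfold cstR
  rw [← map_sub]
  rfl

theorem cstR_one : cstR M A E 1 = 1 := by
  unfold cstR
  exact map_one _

theorem cstR_zero : cstR M A E 0 = 0 := by
  unfold cstR
  exact map_zero _

theorem cstR_natCast (n : ℕ) : cstR M A E (n : H602.RE A E) = (n : Om M) := by
  unfold cstR
  show cst M (((n : H602.RE A E) : E) : Qb) = _
  have : (((n : H602.RE A E) : E) : Qb) = (n : Qb) := by simp
  rw [this]
  exact map_natCast _ n

theorem cstR_eq_zero_iff {r : H602.RE A E} : cstR M A E r = 0 ↔ r = 0 := by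
  rw [← cstR_zero M A E]
  exact (cstR_injective M A E).eq_iff

/-- `cstR r` is invertible in `Rc` iff `r` is a unit. -/
theorem inv_cstR_mem_Rc_iff {r : H602.RE A E} (hr : r ≠ 0) :
    (cstR M A E r)⁻¹ ∈ Rc M A E ↔ IsUnit r := by
  constructor
  · intro h
    obtain ⟨s, hs⟩ := (mem_Rc_iff_cstR M A E).1 h
    refine isUnit_iff_exists_inv.2 ⟨s, ?_⟩
    apply cstR_injective M A E
    rw [cstR_mul, hs, cstR_one]
    exact mul_inv_cancel₀ (fun h0 => hr ((cstR_eq_zero_iff M A E).1 h0))
  · intro h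
    obtain ⟨s, hs⟩ := isUnit_iff_exists_inv.1 h
    have : (cstR M A E r)⁻¹ = cstR M A E s := by
      apply inv_eq_of_mul_eq_one_right
      rw [← cstR_mul, hs, cstR_one]
    rw [this]
    exact cstR_mem_Rc M A E s

/-- `w` is (the image of) a uniformiser of `R_E`. -/
def IsUnif (w : Om M) : Prop := ∃ ϖ : H602.RE A E, Irreducible ϖ ∧ w = cstR M A E ϖ

variable {M A E}

theorem IsUnif.mem {w : Om M} (hw : IsUnif M A E w) : w ∈ Rc M A E := by
  obtain ⟨ϖ, -, rfl⟩ := hw
  exact cstR_mem_Rc M A E ϖ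

theorem IsUnif.ne_zero {w : Om M} (hw : IsUnif M A E w) : w ≠ 0 := by
  obtain ⟨ϖ, hϖ, rfl⟩ := hw
  exact fun h => hϖ.ne_zero ((cstR_eq_zero_iff M A E).1 h)

theorem IsUnif.inv_not_mem {w : Om M} (hw : IsUnif M A E w) : w⁻¹ ∉ Rc M A E := by
  obtain ⟨ϖ, hϖ, rfl⟩ := hw
  exact fun h => hϖ.not_isUnit ((inv_cstR_mem_Rc_iff M A E hϖ.ne_zero).1 h)

section DVR

variable [IsDiscreteValuationRing (H602.RE A E)]

theorem IsUnif.gen {w : Om M} (hw : IsUnif M A E w) :
    ∀ r ∈ Rc M A E, r⁻¹ ∉ Rc M A E → r * w⁻¹ ∈ Rc M A E := by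
  obtain ⟨ϖ, hϖ, rfl⟩ := hw
  intro r hr hrinv
  obtain ⟨r₀, rfl⟩ := (mem_Rc_iff_cstR M A E).1 hr
  have hr0 : r₀ ≠ 0 := by
    rintro rfl
    rw [cstR_zero, inv_zero] at hrinv
    exact hrinv (zero_mem _)
  have hnu : ¬ IsUnit r₀ := fun h => hrinv ((inv_cstR_mem_Rc_iff M A E hr0).2 h)
  have hmem : r₀ ∈ IsLocalRing.maximalIdeal (H602.RE A E) :=
    (IsLocalRing.mem_maximalIdeal _).2 hnu
  rw [hϖ.maximalIdeal_eq, Ideal.mem_span_singleton] at hmem
  obtain ⟨s, rfl⟩ := hmem
  rw [cstR_mul, mul_comm (cstR M A E ϖ), mul_assoc,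
    mul_inv_cancel₀ (fun h => hϖ.ne_zero ((cstR_eq_zero_iff M A E).1 h)), mul_one]
  exact cstR_mem_Rc M A E s

theorem IsUnif.discrete {w : Om M} (hw : IsUnif M A E w) :
    ∀ r ∈ Rc M A E, r ≠ 0 →
      ∃ n : ℕ, r * (w⁻¹) ^ n ∈ Rc M A E ∧ (r * (w⁻¹) ^ n)⁻¹ ∈ Rc M A E := by
  obtain ⟨ϖ, hϖ, rfl⟩ := hw
  intro r hr hr0
  obtain ⟨r₀, rfl⟩ := (mem_Rc_iff_cstR M A E).1 hr
  have hr0' : r₀ ≠ 0 := fun h => hr0 (by rw [h, cstR_zero])
  obtain ⟨n, u, hu⟩ := IsDiscreteValuationRing.eq_unit_mul_pow_irreducible hr0' hϖ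
  have hw0 : cstR M A E ϖ ≠ 0 := fun h => hϖ.ne_zero ((cstR_eq_zero_iff M A E).1 h)
  have key : cstR M A E r₀ * ((cstR M A E ϖ)⁻¹) ^ n = cstR M A E (u : H602.RE A E) := by
    rw [hu, cstR_mul, cstR_pow, mul_assoc, inv_pow, mul_inv_cancel₀ (pow_ne_zero n hw0), mul_one]
  refine ⟨n, ?_, ?_⟩
  · rw [key]
    exact cstR_mem_Rc M A E _
  · rw [key]
    exact (inv_cstR_mem_Rc_iff M A E u.ne_zero).2 u.isUnit

/-- Membership in the maximal ideal, in terms of `w`. -/
theorem IsUnif.mul_inv_mem_iff {w : Om M} (hw : IsUnif M A E w) (r : H602.RE A E) :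
    cstR M A E r * w⁻¹ ∈ Rc M A E ↔ r ∈ IsLocalRing.maximalIdeal (H602.RE A E) := by
  obtain ⟨ϖ, hϖ, rfl⟩ := hw
  have hw0 : cstR M A E ϖ ≠ 0 := fun h => hϖ.ne_zero ((cstR_eq_zero_iff M A E).1 h)
  rw [hϖ.maximalIdeal_eq, Ideal.mem_span_singleton]
  constructor
  · intro h
    obtain ⟨s, hs⟩ := (mem_Rc_iff_cstR M A E).1 h
    refine ⟨s, ?_⟩
    apply cstR_injective M A E
    rw [cstR_mul, hs, mul_comm, mul_assoc, inv_mul_cancel₀ hw0, mul_one]
  · rintro ⟨s, rfl⟩
    rw [cstR_mul, mul_comm (cstR M A E ϖ), mul_assoc, mul_inv_cancel₀ hw0, mul_one]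
    exact cstR_mem_Rc M A E s

end DVR

variable (M A E)

theorem exists_isUnif [IsDiscreteValuationRing (H602.RE A E)] : ∃ w : Om M, IsUnif M A E w := by
  obtain ⟨ϖ, hϖ⟩ := IsDiscreteValuationRing.exists_irreducible (H602.RE A E)
  exact ⟨cstR M A E ϖ, ϖ, hϖ, rfl⟩

end Fermat.Agent.S18.H456

end
end
-- ===== PACK-END S18/H456/ModR.lean

-- ===== PACK-BEGIN A2/Alg/H754/PuritySmooth.lean
section





/-!
# A2 / ALG leaf P-S (helper754): `purity_smooth`, VERBATIM statement of `A2/Alg/Skel.lean`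

Purity at a closed point `n` of the special fibre lying on exactly ONE component `p` of the
chart `B`:

* `B` is a Noetherian integrally closed domain with fraction field `F`
  (`S18.H394.chart_instances`), integral over `R[x]` of Krull dimension `2`, so `B ⧸ p` is a
  Dedekind domain (`isDedekindDomain_quotient_of_dim`);
* `m ∣ div u` at every height-one prime of `B` (`divisibleDivisor_of_divisibleDiv`: horizontal
  primes from `DivisibleDiv`, the two vertical primes from `IsSplit`);
* abstract purity `pure_smooth_abs` (`B_n` is a UFD).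

Also exported (reusable for P-N / GLUE): `chart_package`, `isDedekindDomain_component`,
`divisibleDivisor_of_divisibleDiv`.
-/

set_option autoImplicit false
set_option linter.style.haveILetI false
set_option linter.unusedSectionVars false
set_option linter.unusedVariables false

noncomputable section

namespace Fermat.Agent.A2.Alg.H754

open Polynomial IsLocalRing
open Fermat.Agent.A2
open Fermat.Agent.S18.H138 (chart baseField)
open Fermat.Agent.S18.H754 (DivisibleDivisor)

section Chart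

variable {R E F : Type*} [CommRing R] [IsDomain R] [IsDiscreteValuationRing R]
  [Field E] [Algebra R E] [IsFractionRing R E]
  [Field F] [Algebra E F] [Algebra R F] [IsScalarTower R E F]

omit [IsDomain R] [IsDiscreteValuationRing R] in
theorem finiteDimensional_baseField (x : F)
    (hfin : FiniteDimensional (IntermediateField.adjoin E ({x} : Set F)) F) :
    FiniteDimensional (baseField R x) F := by
  have hle : ∀ z : F, z ∈ IntermediateField.adjoin E ({x} : Set F) → z ∈ baseField R x := by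
    intro z hz
    have hz' : z ∈ Subfield.closure (Set.range (algebraMap E F) ∪ {x}) := hz
    refine Subfield.closure_le.2 ?_ hz'
    rintro y (⟨e, rfl⟩ | hy)
    · obtain ⟨a, b, hb, rfl⟩ := IsFractionRing.div_surjective (A := R) e
      rw [map_div₀, ← IsScalarTower.algebraMap_apply, ← IsScalarTower.algebraMap_apply]
      exact (baseField R x).div_mem (Subfield.subset_closure (Or.inl ⟨a, rfl⟩))
        (Subfield.subset_closure (Or.inl ⟨b, rfl⟩))
    · exact Subfield.subset_closure (Or.inr hy)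
  let φ : (IntermediateField.adjoin E ({x} : Set F)) →+* (baseField R x) :=
    { toFun := fun z => ⟨z.1, hle z.1 z.2⟩
      map_one' := rfl
      map_mul' := fun _ _ => rfl
      map_zero' := rfl
      map_add' := fun _ _ => rfl }
  letI : Algebra (IntermediateField.adjoin E ({x} : Set F)) (baseField R x) := φ.toAlgebra
  haveI : IsScalarTower (IntermediateField.adjoin E ({x} : Set F)) (baseField R x) F :=
    IsScalarTower.of_algebraMap_eq (fun _ => rfl)
  exact Module.Finite.of_restrictScalars_finite (IntermediateField.adjoin E ({x} : Set F))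
    (baseField R x) F

omit [Field E] [Algebra R E] [IsFractionRing R E] [Algebra E F] [IsScalarTower R E F] in
theorem ringKrullDim_adjoin_le (x : F) (hx : Transcendental R x) :
    ringKrullDim (Algebra.adjoin R ({x} : Set F)) ≤ 2 := by
  have hinj : Function.Injective (aeval (R := R) x) :=
    (injective_iff_map_eq_zero _).2 (transcendental_iff.1 hx)
  let e : R[X] ≃ₐ[R] Algebra.adjoin R ({x} : Set F) :=
    (AlgEquiv.ofInjective (aeval (R := R) x) hinj).trans
      (Subalgebra.equivOfEq _ _ (Algebra.adjoin_singleton_eq_range_aeval R x).symm)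
  rw [← ringKrullDim_eq_of_ringEquiv e.toRingEquiv, ringKrullDim_of_isNoetherianRing]
  have h1 : ringKrullDim R ≤ 1 := by
    have := Ring.krullDimLE_iff.1 (inferInstance : Ring.KrullDimLE 1 R)
    exact_mod_cast this
  calc ringKrullDim R + 1 ≤ 1 + 1 := by gcongr
    _ = 2 := by norm_num

theorem transcendental_base [CharZero E] {x : F} (hx : Transcendental E x) : Transcendental R x :=
  hx.restrictScalars (IsFractionRing.injective R E)

include E in
omit [IsDomain R] [IsDiscreteValuationRing R] in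
theorem algebraMap_base_injective : Function.Injective (algebraMap R F) := by
  rw [IsScalarTower.algebraMap_eq R E F]
  exact (algebraMap E F).injective.comp (IsFractionRing.injective R E)

include E in
omit [IsDomain R] [IsDiscreteValuationRing R] in
theorem algebraMap_chart_injective (B : Subalgebra R F) :
    Function.Injective (algebraMap R B) := by
  intro a b hab
  apply algebraMap_base_injective (E := E) (F := F)
  have := congrArg (fun z : B => (z : F)) hab
  exact this

/-- The chart is a Noetherian integrally closed domain with fraction field `F`. -/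
theorem chart_package [CharZero E] (w : R) (x : F) (B : Subalgebra R F) (hB : ChartCtx E w x B) :
    IsNoetherianRing B ∧ IsIntegrallyClosed B ∧ IsFractionRing B F := by
  obtain rfl : B = chart R ({x} : Set F) :=
    SetLike.ext fun f => (hB.hB f).trans Fermat.Agent.S18.H138.mem_chart.symm
  haveI : CharZero F := charZero_of_injective_algebraMap (algebraMap E F).injective
  haveI := finiteDimensional_baseField (R := R) x hB.hfin
  exact Fermat.Agent.S18.H394.chart_instances (R := R) (transcendental_base hB.hx)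

/-- The components of the chart are Dedekind. -/
theorem isDedekindDomain_component [CharZero E] (w : R) (x : F) (B : Subalgebra R F)
    (hB : ChartCtx E w x B) (p : Ideal B) [hp : p.IsPrime] (hwp : algebraMap R B w ∈ p)
    (hnorm : IsIntegrallyClosed (B ⧸ p)) : IsDedekindDomain (B ⧸ p) := by
  obtain ⟨hN, -, -⟩ := chart_package w x B hB
  have hp0 : p ≠ ⊥ := by
    intro h0
    rw [h0, Ideal.mem_bot] at hwp
    exact hB.hw.ne_zero (algebraMap_chart_injective (E := E) B (by rw [hwp, map_zero]))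
  obtain rfl : B = chart R ({x} : Set F) :=
    SetLike.ext fun f => (hB.hB f).trans Fermat.Agent.S18.H138.mem_chart.symm
  have hxR : Transcendental R x := transcendental_base hB.hx
  haveI := Fermat.Agent.S18.H138.isNoetherianRing_adjoin_singleton (R := R) hxR
  letI : Algebra (Algebra.adjoin R ({x} : Set F)) (chart R ({x} : Set F)) :=
    inferInstanceAs (Algebra (Algebra.adjoin R ({x} : Set F))
      (integralClosure (Algebra.adjoin R ({x} : Set F)) F))
  haveI : Algebra.IsIntegral (Algebra.adjoin R ({x} : Set F)) (chart R ({x} : Set F)) :=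
    inferInstanceAs (Algebra.IsIntegral (Algebra.adjoin R ({x} : Set F))
      (integralClosure (Algebra.adjoin R ({x} : Set F)) F))
  exact isDedekindDomain_quotient_of_dim (A₀ := Algebra.adjoin R ({x} : Set F))
    (ringKrullDim_adjoin_le x hxR) p hp0 hnorm

/-- `m ∣ div u` at every height-one prime of the chart. -/
theorem divisibleDivisor_of_divisibleDiv (w : R) (hw : Irreducible w) (B : Subalgebra R F)
    [IsNoetherianRing B] [IsIntegrallyClosed B] [IsFractionRing B F]
    (c : SSChart w B) (m : ℕ) (u : F) (hdiv : DivisibleDiv E m u) (hs : IsSplit B c u) :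
    DivisibleDivisor B m u := by
  intro 𝔭 h𝔭 hht
  haveI := h𝔭
  have hinjB : Function.Injective (algebraMap R B) := algebraMap_chart_injective (E := E) B
  have hwB0 : algebraMap R B w ≠ 0 := fun h0 => hw.ne_zero (hinjB (by rw [h0, map_zero]))
  have hwpp : algebraMap R B w ∈ c.p₁ ⊓ c.p₂ := by
    rw [c.inf_eq]
    exact Ideal.mem_span_singleton_self _
  by_cases hw𝔭 : algebraMap R B w ∈ 𝔭
  · -- vertical prime: one of the two components
    have hle : c.p₁ * c.p₂ ≤ 𝔭 := by
      refine le_trans Ideal.mul_le_inf ?_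
      rw [c.inf_eq, Ideal.span_singleton_le_iff_mem]
      exact hw𝔭
    have key : ∀ p : Ideal B, p.IsPrime → algebraMap R B w ∈ p → p ≤ 𝔭 → ConstAt B p u →
        ∃ t : F, ∃ a s : B, a ∉ 𝔭 ∧ s ∉ 𝔭 ∧ u * t ^ m * algebraMap B F s = algebraMap B F a := by
      intro p hp hwp hp𝔭 hconst
      haveI := hp
      haveI : p.FiniteHeight := Ideal.finiteHeight_of_isNoetherianRing p
      have hpeq : p = 𝔭 := by
        refine Ideal.eq_of_le_of_height_le p hp𝔭 ?_
        rw [hht, Order.one_le_iff_pos, pos_iff_ne_zero, Ne, Ideal.height_eq_zero_iff_eq_bot]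
        intro h0
        rw [h0, Ideal.mem_bot] at hwp
        exact hwB0 hwp
      subst hpeq
      obtain ⟨c₀, hc₀, a, b, hb, hab, hu⟩ := hconst
      refine ⟨1, a, b, ?_, hb, ?_⟩
      · intro ha
        have h2 : algebraMap R B c₀ * b ∈ p := by
          have := p.sub_mem ha hab
          rwa [sub_sub_cancel] at this
        rcases hp.mem_or_mem h2 with h | h
        · exact hp.ne_top (Ideal.eq_top_of_isUnit_mem _ h (hc₀.map (algebraMap R B)))
        · exact hb h
      · rw [one_pow, mul_one]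
        exact hu
    rcases (Ideal.IsPrime.mul_le h𝔭).1 hle with h | h
    · exact key c.p₁ c.prime₁ hwpp.1 h hs.1
    · exact key c.p₂ c.prime₂ hwpp.2 h hs.2
  · -- horizontal prime: `B_𝔭` is a DVR containing `E`
    obtain ⟨W, hdvr, hW⟩ := Fermat.Agent.S18.H438.exists_dvr_of_height_one (F := F) 𝔭 hht
    have hE : ∀ e : E, algebraMap E F e ∈ W := by
      intro e
      obtain ⟨a, b, hb, rfl⟩ := IsFractionRing.div_surjective (A := R) e
      have hb0 : b ≠ 0 := nonZeroDivisors.ne_zero hb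
      obtain ⟨k, υ, hbk⟩ := IsDiscreteValuationRing.eq_unit_mul_pow_irreducible hb0 hw
      have hb𝔭 : algebraMap R B b ∉ 𝔭 := by
        rw [hbk, map_mul, map_pow]
        intro h
        rcases h𝔭.mem_or_mem h with h | h
        · exact h𝔭.ne_top (Ideal.eq_top_of_isUnit_mem _ h (υ.isUnit.map (algebraMap R B)))
        · exact hw𝔭 (h𝔭.mem_of_pow_mem k h)
      have hbF : algebraMap R F b ≠ 0 := fun h0 =>
        hb0 (algebraMap_base_injective (E := E) (F := F) (by rw [h0, map_zero]))
      refine (hW _).2 ⟨algebraMap R B a, algebraMap R B b, hb𝔭, ?_⟩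
      rw [← IsScalarTower.algebraMap_apply R B F, ← IsScalarTower.algebraMap_apply R B F,
        map_div₀, ← IsScalarTower.algebraMap_apply R E F, ← IsScalarTower.algebraMap_apply R E F,
        div_mul_cancel₀ _ hbF]
    obtain ⟨h, u₀, hh, hu₀, hu₀', hu⟩ := hdiv W hdvr hE
    by_cases hu₀0 : u₀ = 0
    · -- degenerate: `u = 0`, excluded by `IsSplit`
      exfalso
      obtain ⟨c₀, hc₀, a, b, hb, hab, hu'⟩ := hs.1
      rw [hu, hu₀0, zero_mul, zero_mul] at hu'
      have ha0 : a = 0 := Subtype.ext hu'.symm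
      rw [ha0, zero_sub, neg_mem_iff] at hab
      rcases c.prime₁.mem_or_mem hab with h' | h'
      · exact c.prime₁.ne_top (Ideal.eq_top_of_isUnit_mem _ h' (hc₀.map (algebraMap R B)))
      · exact hb h'
    · obtain ⟨a, s, ha, hs', has⟩ :=
        (locU_iff_of_valuationSubring 𝔭 W hW hu₀0).2 ⟨hu₀, hu₀'⟩
      refine ⟨h⁻¹, a, s, ha, hs', ?_⟩
      rw [hu, inv_pow, mul_assoc u₀, mul_inv_cancel₀ (pow_ne_zero _ hh), mul_one]
      exact has

/-- One-sided form of `purity_smooth`: `n` lies on `p` and not on `p'`. -/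
theorem purity_smooth_aux [CharZero E] (m : ℕ) (hm : 0 < m)
    (w : R) (x : F) (B : Subalgebra R F) (hB : ChartCtx E w x B)
    (c : SSChart w B) (u : F) (hu : u ≠ 0) (hdiv : DivisibleDiv E m u) (hs : IsSplit B c u)
    (p p' : Ideal B) (hp : p.IsPrime) (hp' : p'.IsPrime)
    (hinf : p ⊓ p' = Ideal.span {algebraMap R B w}) (h12 : ¬ p ≤ p') (h21 : ¬ p' ≤ p)
    (hnorm : IsIntegrallyClosed (B ⧸ p)) (hup : ConstAt B p u)
    (n : Ideal B) (hn : n.IsMaximal) (hpn : p ≤ n) (hp'n : ¬ p' ≤ n) :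
    ∃ d : F, d ≠ 0 ∧ LocUnit B n (u * d ^ m) ∧ LocUnit B p d ∧ LocUnit B p' d := by
  obtain ⟨hN, hIC, hFr⟩ := chart_package w x B hB
  haveI := hN
  haveI := hIC
  haveI := hFr
  haveI := hp
  haveI := hp'
  have hwB0 : algebraMap R B w ≠ 0 := fun h0 =>
    hB.hw.ne_zero (algebraMap_chart_injective (E := E) B (by rw [h0, map_zero]))
  have hwp : algebraMap R B w ∈ p := by
    have : algebraMap R B w ∈ p ⊓ p' := hinf ▸ Ideal.mem_span_singleton_self _
    exact this.1
  have hD : IsDedekindDomain (B ⧸ p) := isDedekindDomain_component w x B hB p hwp hnorm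
  have hDD : DivisibleDivisor B m u := divisibleDivisor_of_divisibleDiv w hB.hw B c m u hdiv hs
  have hup' : LocU p u := by
    obtain ⟨c₀, hc₀, a, b, hb, hab, hu'⟩ := hup
    refine ⟨a, b, ?_, hb, hu'⟩
    intro ha
    have h2 : algebraMap R B c₀ * b ∈ p := by
      have := p.sub_mem ha hab
      rwa [sub_sub_cancel] at this
    rcases hp.mem_or_mem h2 with h | h
    · exact hp.ne_top (Ideal.eq_top_of_isUnit_mem _ h (hc₀.map (algebraMap R B)))
    · exact hb h
  exact pure_smooth_abs (algebraMap R B w) hwB0 p p' hinf h12 h21 hD n hn hpn hp'n m hm u hu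
    hDD hup'

end Chart

section Leaf

variable {R E F : Type*} [CommRing R] [IsDomain R] [IsDiscreteValuationRing R]
  [HenselianLocalRing R] [IsAlgClosed (IsLocalRing.ResidueField R)]
  [Field E] [CharZero E] [Algebra R E] [IsFractionRing R E]
  [Field F] [Algebra E F] [Algebra R F] [IsScalarTower R E F]

/-- **P-S (purity at a smooth point).**  `n` lies on exactly one component `p`; then
`B_n / w = (B / p)_n` is a DVR, every divisorial ideal of `B_n` without vertical component is
principal (Nakayama), so the horizontal part `m · D` of `div u` is `m · div d⁻¹`; adjust `d` by an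
element of `p' ∖ (n ∪ p'^{(2)})` to make it a unit on the other component `p'`. -/
theorem purity_smooth (q m : ℕ) (hq : q.Prime) (hqR : (q : R) ∈ IsLocalRing.maximalIdeal R)
    (hm : 0 < m) (hqm : ¬ q ∣ m)
    (w : R) (x : F) (B : Subalgebra R F) (hB : ChartCtx E w x B)
    (c : SSChart w B) (hc : Incomparable c)
    (u : F) (hu : u ≠ 0) (hdiv : DivisibleDiv E m u) (hs : IsSplit B c u)
    (n : Ideal B) (hn : n.IsMaximal) (hwn : algebraMap R B w ∈ n)
    (h1 : ¬ (c.p₁ ≤ n ∧ c.p₂ ≤ n)) : PureAt B c m u n := by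
  have hle : c.p₁ * c.p₂ ≤ n := by
    refine le_trans Ideal.mul_le_inf ?_
    rw [c.inf_eq, Ideal.span_singleton_le_iff_mem]
    exact hwn
  rcases (Ideal.IsPrime.mul_le hn.isPrime).1 hle with h | h
  · have h2 : ¬ c.p₂ ≤ n := fun h2 => h1 ⟨h, h2⟩
    obtain ⟨d, hd0, hdn, hd1, hd2⟩ := purity_smooth_aux m hm w x B hB c u hu hdiv hs c.p₁ c.p₂
      c.prime₁ c.prime₂ c.inf_eq hc.1 hc.2 c.normal₁ hs.1 n hn h h2
    exact ⟨d, hd0, hdn, hd1, hd2⟩
  · have h2 : ¬ c.p₁ ≤ n := fun h2 => h1 ⟨h2, h⟩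
    obtain ⟨d, hd0, hdn, hd2, hd1⟩ := purity_smooth_aux m hm w x B hB c u hu hdiv hs c.p₂ c.p₁
      c.prime₂ c.prime₁ (by rw [inf_comm]; exact c.inf_eq) hc.2 hc.1 c.normal₂ hs.2 n hn h h2
    exact ⟨d, hd0, hdn, hd1, hd2⟩

end Leaf

end Fermat.Agent.A2.Alg.H754

end

end
-- ===== PACK-END A2/Alg/H754/PuritySmooth.lean

-- ===== PACK-BEGIN A2/H729/Gauss.lean
section



/-!
# A2 (helper729): the canonical Gauss ring of the `x`-line model and its `q`-expansion principle

`R` a domain with `R[X]` integrally closed, `w ∈ R` prime, `F ⊇ R` a field, `x ∈ F` transcendental.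
`gaussO hw x` is the ring of all `t ∈ F` such that `Q(x) t` is integral over `R[x]` for some
polynomial `Q` which is nonzero modulo `w` (the integral closure in `F` of the Gauss valuation ring
`R[x]_(w)` of `R(x)`; the intersection of the valuation rings of `F` over the Gauss valuation).

Results (all hypotheses of `generic_idempotent_trivial` / `kummer_trivial_of_local` about `O`):
* `chart_fin_le_gaussO`, `chart_inf_le_gaussO`, `chart_mid_le_gaussO`;
* `qep_fin`, `qep_inf`, `qep_mid`: `chart ∩ w O = w chart`.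
These hold for EVERY finite extension `F` (normality of the charts); reducedness of the special
fibre is what allows the user to prove congruences modulo `w O`.
-/

set_option autoImplicit false
set_option linter.unusedSectionVars false

namespace Fermat.Agent.A2.H729

open Polynomial Fermat.Agent.S18.H138

variable {R : Type*} [CommRing R] {F : Type*} [Field F] [Algebra R F]

/-- `s = Q(x)` for a polynomial `Q` which is nonzero modulo `w`. -/
def IsGaussDenom (w : R) (x s : F) : Prop :=
  ∃ Q : R[X], ¬ C w ∣ Q ∧ s = aeval x Q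

theorem not_C_dvd_one {w : R} (hw : Prime w) : ¬ (C w : R[X]) ∣ 1 := fun h =>
  hw.not_isUnit (Polynomial.isUnit_C.1 (isUnit_of_dvd_one h))

theorem not_C_dvd_X_pow {w : R} (hw : Prime w) (k : ℕ) : ¬ (C w : R[X]) ∣ X ^ k := by
  intro h
  have hp : Prime (C w : R[X]) := prime_C_iff.2 hw
  have h1 : (C w : R[X]) ∣ X := hp.dvd_of_dvd_pow h
  obtain ⟨q, hq⟩ := h1
  have := congrArg (fun p : R[X] => p.coeff 1) hq
  simp only [coeff_X_one, coeff_C_mul] at this
  exact hw.not_isUnit (IsUnit.of_mul_eq_one _ this.symm)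

theorem isGaussDenom_one {w : R} (hw : Prime w) (x : F) : IsGaussDenom w x 1 :=
  ⟨1, not_C_dvd_one hw, by simp⟩

theorem isGaussDenom_X_pow {w : R} (hw : Prime w) (x : F) (k : ℕ) : IsGaussDenom w x (x ^ k) :=
  ⟨X ^ k, not_C_dvd_X_pow hw k, by simp⟩

theorem IsGaussDenom.mul {w : R} (hw : Prime w) {x s s' : F} (hs : IsGaussDenom w x s)
    (hs' : IsGaussDenom w x s') : IsGaussDenom w x (s * s') := by
  obtain ⟨Q, hQ, rfl⟩ := hs
  obtain ⟨Q', hQ', rfl⟩ := hs'
  refine ⟨Q * Q', fun h => ?_, by simp⟩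
  rcases (prime_C_iff.2 hw).dvd_or_dvd h with h | h
  · exact hQ h
  · exact hQ' h

theorem IsGaussDenom.mem_adjoin {w : R} {x s : F} (hs : IsGaussDenom w x s) :
    s ∈ Algebra.adjoin R ({x} : Set F) := by
  obtain ⟨Q, -, rfl⟩ := hs
  exact mem_adjoin_singleton_iff.2 ⟨Q, rfl⟩

theorem x_mem_chart_fin (x : F) : x ∈ chart R ({x} : Set F) :=
  mem_chart_of_mem (Set.mem_singleton x)

theorem xinv_mem_chart_inf (x : F) : x⁻¹ ∈ chart R ({x⁻¹} : Set F) :=
  mem_chart_of_mem (Set.mem_singleton x⁻¹)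

theorem xinv_mem_chart_mid (x : F) : x⁻¹ ∈ chart R ({x, x⁻¹} : Set F) :=
  mem_chart_of_mem (Set.mem_insert_of_mem _ (Set.mem_singleton x⁻¹))

theorem chart_fin_le_mid (x : F) : chart R ({x} : Set F) ≤ chart R ({x, x⁻¹} : Set F) :=
  chart_mono (Set.singleton_subset_iff.2 (Set.mem_insert _ _))

theorem chart_inf_le_mid (x : F) : chart R ({x⁻¹} : Set F) ≤ chart R ({x, x⁻¹} : Set F) :=
  chart_mono (Set.singleton_subset_iff.2 (Set.mem_insert_of_mem _ (Set.mem_singleton x⁻¹)))

/-- The canonical Gauss ring. -/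
def gaussO {w : R} (hw : Prime w) (x : F) : Subalgebra R F where
  carrier := {t | ∃ s, IsGaussDenom w x s ∧ s * t ∈ chart R ({x} : Set F)}
  mul_mem' := by
    rintro a b ⟨s, hs, ha⟩ ⟨s', hs', hb⟩
    refine ⟨s * s', hs.mul hw hs', ?_⟩
    have : s * s' * (a * b) = (s * a) * (s' * b) := by ring
    rw [this]
    exact Subalgebra.mul_mem _ ha hb
  add_mem' := by
    rintro a b ⟨s, hs, ha⟩ ⟨s', hs', hb⟩
    refine ⟨s * s', hs.mul hw hs', ?_⟩
    have : s * s' * (a + b) = s' * (s * a) + s * (s' * b) := by ring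
    rw [this]
    exact Subalgebra.add_mem _
      (Subalgebra.mul_mem _ (adjoin_le_chart _ hs'.mem_adjoin) ha)
      (Subalgebra.mul_mem _ (adjoin_le_chart _ hs.mem_adjoin) hb)
  algebraMap_mem' r := ⟨1, isGaussDenom_one hw x, by
    rw [one_mul]; exact Subalgebra.algebraMap_mem _ r⟩

theorem mem_gaussO {w : R} {hw : Prime w} {x t : F} :
    t ∈ gaussO hw x ↔ ∃ s, IsGaussDenom w x s ∧ s * t ∈ chart R ({x} : Set F) := Iff.rfl

theorem chart_fin_le_gaussO {w : R} (hw : Prime w) (x : F) :
    chart R ({x} : Set F) ≤ gaussO hw x := fun t ht =>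
  ⟨1, isGaussDenom_one hw x, by rwa [one_mul]⟩

theorem chart_mid_le_gaussO {w : R} (hw : Prime w) {x : F} (hx : x ≠ 0) :
    chart R ({x, x⁻¹} : Set F) ≤ gaussO hw x := fun t ht => by
  obtain ⟨K, hK⟩ := exists_pow_mul_mem_chart hx ht
  exact ⟨x ^ K, isGaussDenom_X_pow hw x K, hK⟩

theorem chart_inf_le_gaussO {w : R} (hw : Prime w) {x : F} (hx : x ≠ 0) :
    chart R ({x⁻¹} : Set F) ≤ gaussO hw x :=
  le_trans (chart_inf_le_mid (R := R) x) (chart_mid_le_gaussO hw hx)

section Transcendental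

variable [IsDomain R]

/-- `R[X] ≃ R[x]` for transcendental `x`. -/
noncomputable def adjoinEquiv {x : F} (hx : Transcendental R x) :
    R[X] ≃ₐ[R] Algebra.adjoin R ({x} : Set F) :=
  (AlgEquiv.ofInjective (aeval x) (transcendental_iff_injective.1 hx)).trans
    (Subalgebra.equivOfEq _ _ (Algebra.adjoin_singleton_eq_range_aeval R x).symm)

theorem coe_adjoinEquiv {x : F} (hx : Transcendental R x) (Q : R[X]) :
    ((adjoinEquiv hx Q : Algebra.adjoin R ({x} : Set F)) : F) = aeval x Q := rfl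

theorem prime_algebraMap_adjoin {w : R} (hw : Prime w) {x : F} (hx : Transcendental R x) :
    Prime (algebraMap R (Algebra.adjoin R ({x} : Set F)) w) := by
  have h : Prime (adjoinEquiv hx (C w)) :=
    (MulEquiv.prime_iff (adjoinEquiv hx).toMulEquiv).2 (prime_C_iff.2 hw)
  have h2 : adjoinEquiv hx (C w) = algebraMap R (Algebra.adjoin R ({x} : Set F)) w := by
    apply Subtype.ext
    rw [coe_adjoinEquiv, aeval_C]
    rfl
  rwa [h2] at h

theorem not_dvd_adjoinEquiv {w : R} {x : F} (hx : Transcendental R x) {Q : R[X]}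
    (hQ : ¬ C w ∣ Q) :
    ¬ algebraMap R (Algebra.adjoin R ({x} : Set F)) w ∣ adjoinEquiv hx Q := by
  rintro ⟨a, ha⟩
  apply hQ
  refine ⟨(adjoinEquiv hx).symm a, ?_⟩
  apply (adjoinEquiv hx).injective
  rw [map_mul, AlgEquiv.apply_symm_apply, ha]
  congr 1
  apply Subtype.ext
  rw [coe_adjoinEquiv, aeval_C]
  rfl

variable [IsIntegrallyClosed R[X]]

/-- The regular-sequence lemma on the chart: if `w t` and `Q(x) t` are integral over `R[x]`,
`Q ≢ 0 mod w`, then `t` is integral over `R[x]`. -/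
theorem mem_chart_of_mul_mem {w : R} (hw : Prime w) {x : F} (hx : Transcendental R x)
    {s t : F} (hs : IsGaussDenom w x s)
    (h1 : algebraMap R F w * t ∈ chart R ({x} : Set F))
    (h2 : s * t ∈ chart R ({x} : Set F)) : t ∈ chart R ({x} : Set F) := by
  obtain ⟨Q, hQ, rfl⟩ := hs
  have := isIntegrallyClosed_adjoin_singleton (R := R) hx
  rw [mem_chart] at h1 h2 ⊢
  refine isIntegral_of_smul_of_smul (prime_algebraMap_adjoin hw hx)
    (not_dvd_adjoinEquiv hx hQ) ?_ ?_
  · have : algebraMap R (Algebra.adjoin R ({x} : Set F)) w • t = algebraMap R F w * t := rfl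
    rw [this]; exact h1
  · have : adjoinEquiv hx Q • t = aeval x Q * t := rfl
    rw [this]; exact h2

/-- **QEP** on the finite chart. -/
theorem qep_fin {w : R} (hw : Prime w) {x : F} (hx : Transcendental R x) :
    ∀ b ∈ chart R ({x} : Set F), InW (gaussO hw x) w b →
      ∃ t ∈ chart R ({x} : Set F), b = algebraMap R F w * t := by
  rintro b hb ⟨t, ⟨s, hs, hst⟩, rfl⟩
  exact ⟨t, mem_chart_of_mul_mem hw hx hs hb hst, rfl⟩

/-- **QEP** on the middle chart. -/
theorem qep_mid {w : R} (hw : Prime w) {x : F} (hx : Transcendental R x) :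
    ∀ b ∈ chart R ({x, x⁻¹} : Set F), InW (gaussO hw x) w b →
      ∃ t ∈ chart R ({x, x⁻¹} : Set F), b = algebraMap R F w * t := by
  have hx0 : x ≠ 0 := ne_zero_of_transcendental hx
  rintro b hb ⟨t, ⟨s, hs, hst⟩, rfl⟩
  obtain ⟨K, hK⟩ := exists_pow_mul_mem_chart hx0 hb
  have h1 : algebraMap R F w * (x ^ K * t) ∈ chart R ({x} : Set F) := by
    have : algebraMap R F w * (x ^ K * t) = x ^ K * (algebraMap R F w * t) := by ring
    rw [this]; exact hK
  have h2 : s * (x ^ K * t) ∈ chart R ({x} : Set F) := by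
    have : s * (x ^ K * t) = x ^ K * (s * t) := by ring
    rw [this]
    exact Subalgebra.mul_mem _ (Subalgebra.pow_mem _ (x_mem_chart_fin (R := R) x) K) hst
  have h3 : x ^ K * t ∈ chart R ({x} : Set F) := mem_chart_of_mul_mem hw hx hs h1 h2
  refine ⟨t, ?_, rfl⟩
  have : t = x⁻¹ ^ K * (x ^ K * t) := by
    rw [← mul_assoc, ← mul_pow, inv_mul_cancel₀ hx0, one_pow, one_mul]
  rw [this]
  exact Subalgebra.mul_mem _ (Subalgebra.pow_mem _ (xinv_mem_chart_mid (R := R) x) K)
    (chart_fin_le_mid (R := R) x h3)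

theorem not_C_dvd_reflect {w : R} {Q : R[X]} (hQ : ¬ C w ∣ Q) (d : ℕ) :
    ¬ C w ∣ reflect d Q := by
  rintro ⟨q, hq⟩
  apply hQ
  have h1 : Q = reflect d (reflect d Q) := reflect_reflect.symm
  rw [hq, reflect_C_mul] at h1
  exact ⟨_, h1⟩

/-- Membership in the Gauss ring can be tested on the chart at infinity. -/
theorem exists_denom_inv_of_mem_gaussO {w : R} (hw : Prime w) {x : F} (hx0 : x ≠ 0) {t : F}
    (ht : t ∈ gaussO hw x) :
    ∃ s, IsGaussDenom w x⁻¹ s ∧ s * t ∈ chart R ({x⁻¹} : Set F) := by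
  obtain ⟨s, ⟨Q, hQ, rfl⟩, hst⟩ := ht
  obtain ⟨D, hD⟩ := exists_inv_pow_mul_mem_chart hx0 hst
  set d := Q.natDegree with hd
  have hrefl : x⁻¹ ^ d * aeval x Q = aeval x⁻¹ (reflect d Q) := by
    have := pow_mul_aeval_inv (R := R) (x := x⁻¹) (inv_ne_zero hx0) Q (d := d) le_rfl
    rwa [inv_inv] at this
  refine ⟨aeval x⁻¹ (X ^ D * reflect d Q), ⟨X ^ D * reflect d Q, fun h => ?_, rfl⟩, ?_⟩
  · rcases (prime_C_iff.2 hw).dvd_or_dvd h with h | h
    · exact not_C_dvd_X_pow hw D h
    · exact not_C_dvd_reflect hQ d h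
  · rw [map_mul, map_pow, aeval_X, ← hrefl]
    have : x⁻¹ ^ D * (x⁻¹ ^ d * aeval x Q) * t = x⁻¹ ^ d * (x⁻¹ ^ D * (aeval x Q * t)) := by ring
    rw [this]
    exact Subalgebra.mul_mem _ (Subalgebra.pow_mem _ (xinv_mem_chart_inf (R := R) x) d) hD

/-- **QEP** on the chart at infinity. -/
theorem qep_inf {w : R} (hw : Prime w) {x : F} (hx : Transcendental R x) :
    ∀ b ∈ chart R ({x⁻¹} : Set F), InW (gaussO hw x) w b →
      ∃ t ∈ chart R ({x⁻¹} : Set F), b = algebraMap R F w * t := by
  have hx0 : x ≠ 0 := ne_zero_of_transcendental hx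
  rintro b hb ⟨t, ht, rfl⟩
  obtain ⟨s, hs, hst⟩ := exists_denom_inv_of_mem_gaussO hw hx0 ht
  exact ⟨t, mem_chart_of_mul_mem hw (transcendental_inv hx) hs hb hst, rfl⟩

end Transcendental

end Fermat.Agent.A2.H729

end
-- ===== PACK-END A2/H729/Gauss.lean

-- ===== PACK-BEGIN A2/H729/GaussUnits.lean
section


/-!
# A2 (helper729): units and roots in the canonical Gauss ring

* `mem_chart_of_pow_mem`, `mem_gaussO_of_pow_mem` : the charts and the Gauss ring are closed under
  taking roots (they are integrally closed in `F`).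
* `inv_one_add_mem_gaussO` : `w` lies in the Jacobson radical of the Gauss ring:
  `t ∈ O → (1 + w t)⁻¹ ∈ O`.
* `inW_inv_sub_one` : `h ≡ 1 mod w O → h⁻¹ ≡ 1 mod w O`.
-/

set_option autoImplicit false
set_option linter.unusedSectionVars false

namespace Fermat.Agent.A2.H729

open Polynomial Fermat.Agent.S18.H138

variable {R : Type*} [CommRing R] {F : Type*} [Field F] [Algebra R F]

theorem mem_chart_of_pow_mem {S : Set F} {z : F} {n : ℕ} (hn : 0 < n)
    (h : z ^ n ∈ chart R S) : z ∈ chart R S := by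
  rw [mem_chart] at h ⊢
  exact IsIntegral.of_pow hn h

theorem mem_gaussO_of_pow_mem {w : R} (hw : Prime w) {x z : F} {n : ℕ} (hn : 0 < n)
    (h : z ^ n ∈ gaussO hw x) : z ∈ gaussO hw x := by
  obtain ⟨s, hs, hsz⟩ := h
  refine ⟨s, hs, mem_chart_of_pow_mem hn ?_⟩
  have : (s * z) ^ n = s ^ (n - 1) * (s * z ^ n) := by
    rw [mul_pow, ← mul_assoc, ← pow_succ]
    congr 2
    omega
  rw [this]
  exact Subalgebra.mul_mem _ (Subalgebra.pow_mem _ (adjoin_le_chart _ hs.mem_adjoin) _) hsz

section Transcendental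

variable [IsDomain R]

theorem not_C_dvd_symm {w : R} {x : F} (hx : Transcendental R x)
    {a : Algebra.adjoin R ({x} : Set F)}
    (ha : ¬ algebraMap R (Algebra.adjoin R ({x} : Set F)) w ∣ a) :
    ¬ C w ∣ (adjoinEquiv hx).symm a := by
  rintro ⟨q, hq⟩
  apply ha
  refine ⟨adjoinEquiv hx q, ?_⟩
  have h1 := congrArg (adjoinEquiv hx) hq
  rw [AlgEquiv.apply_symm_apply, map_mul] at h1
  rw [h1]
  congr 1
  apply Subtype.ext
  rw [coe_adjoinEquiv, aeval_C]
  rfl

theorem isGaussDenom_of_not_dvd {w : R} {x : F} (hx : Transcendental R x)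
    {a : Algebra.adjoin R ({x} : Set F)}
    (ha : ¬ algebraMap R (Algebra.adjoin R ({x} : Set F)) w ∣ a) :
    IsGaussDenom w x (a : F) := by
  refine ⟨(adjoinEquiv hx).symm a, not_C_dvd_symm hx ha, ?_⟩
  rw [← coe_adjoinEquiv hx, AlgEquiv.apply_symm_apply]

/-- `w` is in the Jacobson radical of the Gauss ring. -/
theorem one_add_unit_gaussO {w : R} (hw : Prime w) {x : F} (hx : Transcendental R x)
    {t : F} (ht : t ∈ gaussO hw x) :
    (1 + algebraMap R F w * t) ≠ 0 ∧ (1 + algebraMap R F w * t)⁻¹ ∈ gaussO hw x := by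
  classical
  obtain ⟨s, ⟨Q, hQ, rfl⟩, hst⟩ := ht
  set A := Algebra.adjoin R ({x} : Set F) with hA
  set w' : A := algebraMap R A w with hw'
  have hw'p : Prime w' := prime_algebraMap_adjoin hw hx
  set sA : A := adjoinEquiv hx Q with hsA
  have hsA' : ¬ w' ∣ sA := not_dvd_adjoinEquiv hx hQ
  have hsAcoe : (sA : F) = aeval x Q := coe_adjoinEquiv hx Q
  set c : F := aeval x Q * t with hc
  obtain ⟨m, hm, hmc⟩ := (mem_chart.1 hst : IsIntegral A c)
  set n := m.natDegree with hn
  set P : A[X] := (m.scaleRoots w').comp (X - C sA) with hP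
  set β : F := aeval x Q + algebraMap R F w * c with hβ
  have hβC : β ∈ chart R ({x} : Set F) :=
    Subalgebra.add_mem _ (adjoin_le_chart _ (mem_adjoin_singleton_iff.2 ⟨Q, rfl⟩))
      (Subalgebra.mul_mem _ (Subalgebra.algebraMap_mem _ w) hst)
  -- `P(β) = 0`
  have hPβ : aeval β P = 0 := by
    rw [hP, aeval_comp]
    have h1 : aeval β (X - C sA : A[X]) = algebraMap A F w' * c := by
      rw [map_sub, aeval_X, aeval_C]
      have : algebraMap A F sA = aeval x Q := hsAcoe
      rw [this, hβ]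
      have : algebraMap A F w' = algebraMap R F w := rfl
      rw [this]
      ring
    rw [h1]
    exact scaleRoots_aeval_eq_zero hmc
  -- constant term of `P`
  have hP0 : ¬ w' ∣ P.coeff 0 := by
    rw [coeff_zero_eq_eval_zero, hP, eval_comp]
    have h0 : eval 0 (X - C sA : A[X]) = -sA := by simp
    rw [h0, eval_eq_sum_range, natDegree_scaleRoots, Finset.sum_range_succ]
    intro hdvd
    have hlow : w' ∣ ∑ i ∈ Finset.range m.natDegree,
        (m.scaleRoots w').coeff i * (-sA) ^ i := by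
      refine Finset.dvd_sum fun i hi => ?_
      rw [coeff_scaleRoots]
      have hi' : 0 < m.natDegree - i := by
        have := Finset.mem_range.1 hi
        omega
      exact Dvd.dvd.mul_right (Dvd.dvd.mul_left (dvd_pow_self _ hi'.ne') _) _
    have htop : w' ∣ (m.scaleRoots w').coeff m.natDegree * (-sA) ^ m.natDegree :=
      (dvd_add_right hlow).1 hdvd
    rw [coeff_scaleRoots, Nat.sub_self, pow_zero, mul_one, hm.coeff_natDegree, one_mul] at htop
    have := hw'p.dvd_of_dvd_pow htop
    exact hsA' ((dvd_neg).1 this)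
  -- `β * γ = p₀`
  set γ : F := -aeval β P.divX with hγ
  have hγC : γ ∈ chart R ({x} : Set F) := by
    rw [hγ]
    refine Subalgebra.neg_mem _ ?_
    rw [aeval_eq_sum_range]
    refine Subalgebra.sum_mem _ fun i _ => ?_
    rw [Algebra.smul_def]
    exact Subalgebra.mul_mem _ (adjoin_le_chart _ (P.divX.coeff i).2)
      (Subalgebra.pow_mem _ hβC i)
  have hβγ : β * γ = ((P.coeff 0 : A) : F) := by
    have h1 : aeval β (P.divX * X + C (P.coeff 0)) = 0 := by rw [divX_mul_X_add, hPβ]
    rw [map_add, map_mul, aeval_X, aeval_C] at h1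
    have h2 : algebraMap A F (P.coeff 0) = ((P.coeff 0 : A) : F) := rfl
    rw [h2] at h1
    rw [hγ]
    linear_combination -h1
  have hp0 : ((P.coeff 0 : A) : F) ≠ 0 := by
    intro h
    have : P.coeff 0 = 0 := Subtype.ext h
    exact hP0 (this ▸ dvd_zero _)
  have hβ0 : β ≠ 0 := fun h => hp0 (by rw [← hβγ, h, zero_mul])
  have hz : β = aeval x Q * (1 + algebraMap R F w * t) := by
    rw [hβ, hc]; ring
  have hz0 : (1 + algebraMap R F w * t) ≠ 0 := fun h => hβ0 (by rw [hz, h, mul_zero])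
  refine ⟨hz0, ((P.coeff 0 : A) : F), isGaussDenom_of_not_dvd hx hP0, ?_⟩
  have : ((P.coeff 0 : A) : F) * (1 + algebraMap R F w * t)⁻¹ = aeval x Q * γ := by
    rw [← hβγ, hz]
    field_simp
  rw [this]
  exact Subalgebra.mul_mem _ (adjoin_le_chart _ (mem_adjoin_singleton_iff.2 ⟨Q, rfl⟩)) hγC

theorem inv_one_add_mem_gaussO {w : R} (hw : Prime w) {x : F} (hx : Transcendental R x)
    {t : F} (ht : t ∈ gaussO hw x) : (1 + algebraMap R F w * t)⁻¹ ∈ gaussO hw x :=
  (one_add_unit_gaussO hw hx ht).2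

/-- `h ≡ 1 mod w O` implies `h ≠ 0`, `h⁻¹ ∈ O` and `h⁻¹ ≡ 1 mod w O`. -/
theorem inW_inv_sub_one {w : R} (hw : Prime w) {x : F} (hx : Transcendental R x)
    {h : F} (hh : InW (gaussO hw x) w (h - 1)) :
    h ≠ 0 ∧ h⁻¹ ∈ gaussO hw x ∧ InW (gaussO hw x) w (h⁻¹ - 1) := by
  obtain ⟨t, ht, htt⟩ := hh
  have hh' : h = 1 + algebraMap R F w * t := by rw [← htt]; ring
  obtain ⟨hne, hinv⟩ := one_add_unit_gaussO hw hx ht
  rw [← hh'] at hne hinv
  refine ⟨hne, hinv, ⟨-(h⁻¹ * t), Subalgebra.neg_mem _ (Subalgebra.mul_mem _ hinv ht), ?_⟩⟩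
  field_simp
  rw [hh']
  ring

end Transcendental

end Fermat.Agent.A2.H729

end
-- ===== PACK-END A2/H729/GaussUnits.lean

-- ===== PACK-BEGIN A2/Top/H994/Wall.lean
section



/-!
# WALL A2 — final assembly for ALL `q` (deputy helper994)

The MOD block can produce the semistable model `ModSSData P E N` only at levels `N` where the
good-reduction input at level `M = N / q` is available from S18: for `q = 3` this needs `2 ∣ N`,
for `q = 2` it needs `3 ∣ N` (Hauptmodul charts).  This file closes the wall for every level: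

* `t1_perN`            : `T1` for ONE level `N` (same proof as `T1.H669.t1`, which uses MOD only at
                         the level `N`);
* `ModSSGoodStatement` : `ModSSStatement` restricted to levels with the auxiliary prime;
* `D2Statement`        : descent of `KummerTarget` from the auxiliary level to `N` (norm trick,
                         degree `3` resp. `4`, prime to `m`; owners helper876 / helper133);
* `wall`               : `AlgSS → IF → ModSSGood → D2 → Target N q m` for all `q ‖ N`, `q ∤ m`.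
-/

set_option autoImplicit false
set_option synthInstance.maxHeartbeats 400000
set_option maxHeartbeats 1600000

noncomputable section

namespace Fermat.Agent.A2.Top.H994

open ModularCurve AlgebraicCurve Fermat.Agent.A2 Fermat.Agent.A2.T1.H669

/-- **T1 for one level.**  `ALG + IF + (MOD at the level N) ⟹ KummerTarget N q m`. -/
theorem t1_perN (hALG : AlgSSStatement) (hIF : IFStatement) (N q m : ℕ) (hq : q.Prime)
    (hm : 0 < m) (hqm : ¬ q ∣ m)
    (hMOD : ∀ (P : ValuationSubring _root_.Fermat.Agent.A2.Qb) (E : IntermediateField ℚ _root_.Fermat.Agent.A2.Qb),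
      P.LiesOverPrime q → GoodField P E → Nonempty (ModSSData P E N)) :
    KummerTarget N q m := by
  intro P hP τ hτ f hf hdiv
  refine kummer_of_levels (modularFunctionFieldFull N) m τ (fun S => ?_) f hf hdiv
  obtain ⟨E, hSE, hE⟩ := hIF q hq P hP S
  refine ⟨E, hSE, hE.res τ hτ, fun e => rfl, fun y hy0 hdd => ?_⟩
  obtain ⟨D⟩ := hMOD P E hP hE
  haveI : IsDiscreteValuationRing ↥(RE P E) := hE.dvr
  haveI : HenselianLocalRing ↥(RE P E) := hE.henselian
  haveI : IsAlgClosed (IsLocalRing.ResidueField ↥(RE P E)) := hE.algClosed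
  obtain ⟨w, hw⟩ := IsDiscreteValuationRing.exists_irreducible ↥(RE P E)
  obtain ⟨cf⟩ := D.cf w hw
  obtain ⟨ci⟩ := D.ci w hw
  have hconcl : AlgSSConclusion E m
      (arithmeticRingAut (modularFunctionFieldFull N) (hE.res τ hτ)) :=
    hALG (R := ↥(RE P E)) (E := E) (F := ↥(FE E N)) w hw q m hq
      (natCast_mem_maximalIdeal_RE E hP) hm hqm D.x D.hx D.hfin D.hconst D.Bf D.Bi D.hBf D.hBi
      cf ci D.sf D.si
      (arithmeticRingAut (modularFunctionFieldFull N) (hE.res τ hτ))
      (hE.res τ hτ).toRingEquiv (resR hE τ hτ)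
      (fun e => arithmeticRingAut_algebraMap (modularFunctionFieldFull N) (hE.res τ hτ) e)
      (fun r => rfl)
      (D.hτx hE τ hτ)
      (finite_order_arithmeticRingAut (modularFunctionFieldFull N) hE τ hτ)
      (D.hτf hE τ hτ w hw) (D.hτi hE τ hτ w hw)
  exact hconcl y hy0 hdd

/-- The auxiliary level: `lcm N 2` for `q = 3`, `lcm N 3` for `q = 2`, `N` otherwise. -/
def auxLevel (N q : ℕ) : ℕ :=
  if q = 3 then Nat.lcm N 2 else if q = 2 then Nat.lcm N 3 else N

/-- **MOD, producible form**: the semistable model at the levels `N` with `q ‖ N` which contain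
the auxiliary prime (`2 ∣ N` if `q = 3`, `3 ∣ N` if `q = 2`). -/
def ModSSGoodStatement : Prop :=
  ∀ (P : ValuationSubring _root_.Fermat.Agent.A2.Qb) (E : IntermediateField ℚ _root_.Fermat.Agent.A2.Qb) (N q : ℕ),
    q.Prime → q ∣ N → ¬ q ^ 2 ∣ N → N ≠ 0 → (q = 3 → 2 ∣ N) → (q = 2 → 3 ∣ N) →
    P.LiesOverPrime q → GoodField P E → Nonempty (ModSSData P E N)

/-- **D2, auxiliary-level descent** (norm trick; `[F_{aux} : F_N] ∈ {1, 3, 4}` is prime to `m`). -/
def D2Statement : Prop :=
  ∀ (N q m : ℕ), q.Prime → q ∣ N → ¬ q ^ 2 ∣ N → N ≠ 0 → 0 < m → ¬ q ∣ m →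
    KummerTarget (auxLevel N q) q m → KummerTarget N q m

theorem auxLevel_ne_zero {N : ℕ} (q : ℕ) (hN : N ≠ 0) : auxLevel N q ≠ 0 := by
  unfold auxLevel
  split_ifs
  · exact Nat.lcm_ne_zero hN (by norm_num)
  · exact Nat.lcm_ne_zero hN (by norm_num)
  · exact hN

theorem dvd_auxLevel (N q : ℕ) : N ∣ auxLevel N q := by
  unfold auxLevel
  split_ifs
  · exact Nat.dvd_lcm_left N 2
  · exact Nat.dvd_lcm_left N 3
  · exact dvd_rfl

theorem not_sq_dvd_lcm {N q a : ℕ} (hq : q.Prime) (ha : a.Prime) (hqa : q ≠ a)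
    (hq2 : ¬ q ^ 2 ∣ N) : ¬ q ^ 2 ∣ Nat.lcm N a := by
  intro h
  have hdvd : Nat.lcm N a ∣ N * a := Nat.lcm_dvd_mul N a
  have h1 : q ^ 2 ∣ N * a := h.trans hdvd
  have hcop : Nat.Coprime (q ^ 2) a := by
    apply Nat.Coprime.pow_left
    exact (Nat.coprime_primes hq ha).2 hqa
  exact hq2 (hcop.dvd_of_dvd_mul_right h1)

theorem not_sq_dvd_auxLevel {N q : ℕ} (hq : q.Prime) (hq2 : ¬ q ^ 2 ∣ N) :
    ¬ q ^ 2 ∣ auxLevel N q := by
  unfold auxLevel
  split_ifs with h3 h2
  · exact not_sq_dvd_lcm hq Nat.prime_two (by omega) hq2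
  · exact not_sq_dvd_lcm hq Nat.prime_three (by omega) hq2
  · exact hq2

theorem aux_two_dvd {N q : ℕ} (h : q = 3) : 2 ∣ auxLevel N q := by
  unfold auxLevel
  rw [if_pos h]
  exact Nat.dvd_lcm_right N 2

theorem aux_three_dvd {N q : ℕ} (h : q = 2) : 3 ∣ auxLevel N q := by
  unfold auxLevel
  rw [if_neg (by omega), if_pos h]
  exact Nat.dvd_lcm_right N 3

/-- **The Kummer form of the wall, all `q`.** -/
theorem kummerTarget_all (hALG : AlgSSStatement) (hIF : IFStatement)
    (hMOD : ModSSGoodStatement) (hD2 : D2Statement)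
    (N q m : ℕ) (hq : q.Prime) (hqN : q ∣ N) (hq2 : ¬ q ^ 2 ∣ N) (hN : N ≠ 0) (hm : 0 < m)
    (hqm : ¬ q ∣ m) : KummerTarget N q m := by
  apply hD2 N q m hq hqN hq2 hN hm hqm
  apply t1_perN hALG hIF (auxLevel N q) q m hq hm hqm
  intro P E hP hE
  exact hMOD P E (auxLevel N q) q hq (hqN.trans (dvd_auxLevel N q))
    (not_sq_dvd_auxLevel hq hq2) (auxLevel_ne_zero q hN) aux_two_dvd aux_three_dvd hP hE

/-- **The wall A2, all `q`**: unipotent inertia on `J₀(N)[m]` at every `q ‖ N`, `q ∤ m`. -/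
theorem wall (hALG : AlgSSStatement) (hIF : IFStatement)
    (hMOD : ModSSGoodStatement) (hD2 : D2Statement)
    (N q m : ℕ) (hq : q.Prime) (hqN : q ∣ N) (hq2 : ¬ q ^ 2 ∣ N) (hN : N ≠ 0) (hm : 0 < m)
    (hqm : ¬ q ∣ m) : Target N q m :=
  Fermat.Agent.A2.T0.H669.target_of_kummerTarget N q m hm
    (kummerTarget_all hALG hIF hMOD hD2 N q m hq hqN hq2 hN hm hqm)

end Fermat.Agent.A2.Top.H994

end

end
-- ===== PACK-END A2/Top/H994/Wall.lean

-- ===== PACK-BEGIN A2/H489/GaussFrameB.lean
section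


/-!
# A2 / M1mod-FRAME part B (helper489): the Gauss ring of `E(x)` and `TwoExtHyp`

`R` a discrete valuation ring, `E = Frac R`, `L ⊇ E` a field, `x ∈ L`, `V` a valuation subring of
`L` inducing the Gauss valuation on `E(x)` (`IsGaussOver R V x`).

* `gaussRing E V x = V ∩ E(x)` as a valuation subring of `E(x)`;
* `IsGaussOver.isDiscreteValuationRing` : it is a discrete valuation ring (uniformiser = that of
  `R`);
* `PolyIndepMod R V x u` : the family `u` is independent over `R[x]` modulo `𝔪_V`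
  (`∑ Pᵢ(x) uᵢ ∈ 𝔪_V ⟹ Pᵢ ∈ 𝔪_R[X]`);
* `twoExtHyp_of_gauss` : two distinct valuation subrings `V₁, V₂` inducing the Gauss valuation,
  with `PolyIndepMod` families of sizes `f₁, f₂`, `[L : E(x)] ≤ f₁ + f₂`, satisfy
  `TwoExtHyp E(x) (gaussRing E V₁ x) V₁ V₂ u₁ u₂`.
-/

set_option autoImplicit false

namespace Fermat.Agent.A2.H489

open IsLocalRing Polynomial IntermediateField

section Frame

variable {R E L : Type*} [CommRing R] [IsDomain R] [IsDiscreteValuationRing R]
  [Field E] [Algebra R E] [IsFractionRing R E]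
  [Field L] [Algebra E L] [Algebra R L] [IsScalarTower R E L]

/-- The Gauss ring `V ∩ E(x)` as a valuation subring of `E(x)`. -/
def gaussRing (E : Type*) {L : Type*} [Field E] [Field L] [Algebra E L]
    (V : ValuationSubring L) (x : L) : ValuationSubring E⟮x⟯ :=
  V.comap (algebraMap E⟮x⟯ L)

omit [IsDomain R] [IsDiscreteValuationRing R] [Algebra R E] [IsFractionRing R E] [Algebra R L]
  [IsScalarTower R E L] [CommRing R] in
theorem mem_gaussRing {V : ValuationSubring L} {x : L} (a : E⟮x⟯) :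
    a ∈ gaussRing E V x ↔ (a : L) ∈ V := Iff.rfl

omit [IsDomain R] [IsDiscreteValuationRing R] [Algebra R E] [IsFractionRing R E] [Algebra R L]
  [IsScalarTower R E L] [CommRing R] in
theorem mem_nonunits_gaussRing {V : ValuationSubring L} {x : L} (a : E⟮x⟯) :
    a ∈ (gaussRing E V x).nonunits ↔ (a : L) ∈ V.nonunits := by
  rw [ValuationSubring.mem_nonunits_iff_or, ValuationSubring.mem_nonunits_iff_or, mem_gaussRing]
  simp

omit [IsDomain R] [IsDiscreteValuationRing R] [Algebra R E] [IsFractionRing R E] [Algebra R L]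
  [IsScalarTower R E L] [CommRing R] in
theorem mem_maximalIdeal_gaussRing {V : ValuationSubring L} {x : L} (a : gaussRing E V x) :
    a ∈ maximalIdeal (gaussRing E V x) ↔ ((a : E⟮x⟯) : L) ∈ V.nonunits := by
  rw [← ValuationSubring.coe_mem_nonunits_iff, mem_nonunits_gaussRing]

variable {V : ValuationSubring L} {x : L}

/-- every nonzero element of `V ∩ E(x)` is a power of the uniformiser times a unit -/
theorem IsGaussOver.exists_pow_mul_unit (h : IsGaussOver R V x) {w : R} (hw : Irreducible w)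
    {a : L} (ha : a ∈ E⟮x⟯) (ha0 : a ≠ 0) (haV : a ∈ V) :
    ∃ (n : ℕ) (u : L), u ∈ E⟮x⟯ ∧ u ∈ V ∧ u⁻¹ ∈ V ∧ a = algebraMap R L w ^ n * u := by
  obtain ⟨c, P, Q, hc0, hP, hQ, e⟩ := exists_normal_form_adjoin (E := E) hw x ha ha0
  have hc : algebraMap E L c ∈ V := by
    have h1 : algebraMap E L c = a * aeval x Q * (aeval x P)⁻¹ := by
      rw [e, mul_assoc, mul_inv_cancel₀ (h.aeval_ne_zero hP), mul_one]
    rw [h1]
    exact mul_mem (mul_mem haV (h.aeval_mem Q)) (h.inv_aeval_mem hP)
  obtain ⟨r, rfl⟩ := (h.isOver.const_mem_iff c).mp hc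
  have hr0 : r ≠ 0 := by
    rintro rfl
    exact hc0 (map_zero _)
  obtain ⟨n, hn⟩ := IsDiscreteValuationRing.associated_pow_irreducible hr0 hw
  obtain ⟨t, ht⟩ := hn.symm
  -- `w ^ n * t = r`
  have hw0 : algebraMap R L w ≠ 0 := algebraMap_RL_ne_zero E hw.ne_zero
  have hwK : algebraMap R L w ∈ E⟮x⟯ := by
    rw [IsScalarTower.algebraMap_apply R E L]
    exact IntermediateField.algebraMap_mem _ _
  refine ⟨n, algebraMap R L (t : R) * aeval x P * (aeval x Q)⁻¹, ?_, ?_, ?_, ?_⟩
  · have h1 : algebraMap R L (t : R) * aeval x P * (aeval x Q)⁻¹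
        = a * (algebraMap R L w ^ n)⁻¹ := by
      have h2 : a = algebraMap R L r * aeval x P * (aeval x Q)⁻¹ := by
        rw [IsScalarTower.algebraMap_apply R E L, ← e, mul_assoc,
          mul_inv_cancel₀ (h.aeval_ne_zero hQ), mul_one]
      rw [h2, ← ht, map_mul, map_pow]
      field_simp
    rw [h1]
    exact mul_mem ha (inv_mem (pow_mem hwK n))
  · exact mul_mem (mul_mem (h.isOver.mem _) (h.aeval_mem P)) (h.inv_aeval_mem hQ)
  · have h1 : (algebraMap R L (t : R) * aeval x P * (aeval x Q)⁻¹)⁻¹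
        = algebraMap R L ((t⁻¹ : Rˣ) : R) * aeval x Q * (aeval x P)⁻¹ := by
      have h3 : algebraMap R L (t : R) * algebraMap R L ((t⁻¹ : Rˣ) : R) = 1 := by
        rw [← map_mul, Units.mul_inv, map_one]
      have h5 := h.aeval_ne_zero hP
      have h6 := h.aeval_ne_zero hQ
      apply inv_eq_of_mul_eq_one_right
      calc algebraMap R L (t : R) * aeval x P * (aeval x Q)⁻¹
            * (algebraMap R L ((t⁻¹ : Rˣ) : R) * aeval x Q * (aeval x P)⁻¹)
          = (algebraMap R L (t : R) * algebraMap R L ((t⁻¹ : Rˣ) : R))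
            * (aeval x P * (aeval x P)⁻¹) * ((aeval x Q)⁻¹ * aeval x Q) := by ring
        _ = 1 := by rw [h3, mul_inv_cancel₀ h5, inv_mul_cancel₀ h6, one_mul, one_mul]
    rw [h1]
    exact mul_mem (mul_mem (h.isOver.mem _) (h.aeval_mem Q)) (h.inv_aeval_mem hP)
  · rw [← mul_assoc, ← mul_assoc, ← map_pow, ← map_mul, ht, IsScalarTower.algebraMap_apply R E L,
      ← e, mul_assoc, mul_inv_cancel₀ (h.aeval_ne_zero hQ), mul_one]

/-- a nonunit of `V ∩ E(x)` is divisible by the uniformiser of `R` in `V ∩ E(x)` -/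
theorem IsGaussOver.exists_mul_of_mem_nonunits (h : IsGaussOver R V x) {w : R}
    (hw : Irreducible w) {a : L} (ha : a ∈ E⟮x⟯) (haV : a ∈ V.nonunits) :
    ∃ a' : L, a' ∈ E⟮x⟯ ∧ a' ∈ V ∧ a = algebraMap R L w * a' := by
  obtain ⟨P, Q, hQ, hP, e⟩ := (h.mem_nonunits_iff (E := E) ha).mp haV
  obtain ⟨P', rfl⟩ := exists_eq_C_mul_of_map_residue_eq_zero hw hP
  have hw0 : algebraMap R L w ≠ 0 := algebraMap_RL_ne_zero E hw.ne_zero
  have hwK : algebraMap R L w ∈ E⟮x⟯ := by
    rw [IsScalarTower.algebraMap_apply R E L]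
    exact IntermediateField.algebraMap_mem _ _
  have h1 : a = algebraMap R L w * (aeval x P' * (aeval x Q)⁻¹) := by
    rw [← mul_assoc, ← aeval_C (A := L) x w, ← map_mul, ← e, mul_assoc,
      mul_inv_cancel₀ (h.aeval_ne_zero hQ), mul_one]
  refine ⟨aeval x P' * (aeval x Q)⁻¹, ?_, mul_mem (h.aeval_mem P') (h.inv_aeval_mem hQ), h1⟩
  have h2 : aeval x P' * (aeval x Q)⁻¹ = (algebraMap R L w)⁻¹ * a := by
    rw [h1, ← mul_assoc, inv_mul_cancel₀ hw0, one_mul]
  rw [h2]
  exact mul_mem (inv_mem hwK) ha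

/-- The Gauss ring `V ∩ E(x)` is a discrete valuation ring. -/
theorem IsGaussOver.isDiscreteValuationRing (h : IsGaussOver R V x) :
    IsDiscreteValuationRing (gaussRing E V x) := by
  obtain ⟨w, hw⟩ := IsDiscreteValuationRing.exists_irreducible R
  have hw0 : algebraMap R L w ≠ 0 := algebraMap_RL_ne_zero E hw.ne_zero
  have hwK : algebraMap R L w ∈ E⟮x⟯ := by
    rw [IsScalarTower.algebraMap_apply R E L]
    exact IntermediateField.algebraMap_mem _ _
  have hwmax : w ∈ maximalIdeal R := by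
    rw [IsLocalRing.mem_maximalIdeal, _root_.mem_nonunits_iff]
    exact hw.not_isUnit
  let p : gaussRing E V x := ⟨⟨algebraMap R L w, hwK⟩, h.isOver.mem w⟩
  have hp0 : p ≠ 0 := by
    intro h0
    apply hw0
    have := congrArg (fun z : gaussRing E V x => ((z : E⟮x⟯) : L)) h0
    exact this
  have hpmax : p ∈ maximalIdeal (gaussRing E V x) := by
    rw [mem_maximalIdeal_gaussRing]
    exact h.isOver.nonunit w hwmax
  have hdiv : ∀ a ∈ maximalIdeal (gaussRing E V x), ∃ a' : gaussRing E V x, a = p * a' := by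
    intro a ha
    rw [mem_maximalIdeal_gaussRing] at ha
    obtain ⟨a', ha'K, ha'V, e⟩ := h.exists_mul_of_mem_nonunits (E := E) hw (a : E⟮x⟯).2 ha
    exact ⟨⟨⟨a', ha'K⟩, ha'V⟩, Subtype.ext (Subtype.ext e)⟩
  apply IsDiscreteValuationRing.ofHasUnitMulPowIrreducibleFactorization
  refine ⟨p, ?_, ?_⟩
  · rw [irreducible_iff]
    refine ⟨fun hu => (IsLocalRing.mem_maximalIdeal p).mp hpmax hu, ?_⟩
    intro a b hab
    by_contra hcon
    push Not at hcon
    obtain ⟨hna, hnb⟩ := hcon
    obtain ⟨a', ha'⟩ := hdiv a ((IsLocalRing.mem_maximalIdeal a).mpr hna)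
    rw [ha', mul_assoc] at hab
    have h1 : a' * b = 1 := by
      have h2 : p * 1 = p * (a' * b) := by rw [mul_one]; exact hab
      exact (mul_left_cancel₀ hp0 h2).symm
    exact hnb (IsUnit.of_mul_eq_one a' (by rw [mul_comm]; exact h1))
  · intro a ha0
    have ha0' : ((a : E⟮x⟯) : L) ≠ 0 := by
      intro h0
      apply ha0
      exact Subtype.ext (Subtype.ext h0)
    obtain ⟨n, u, huK, huV, huV', e⟩ :=
      h.exists_pow_mul_unit (E := E) hw (a : E⟮x⟯).2 ha0' a.2
    have hu0 : u ≠ 0 := by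
      rintro rfl
      rw [mul_zero] at e
      exact ha0' e
    let U : (gaussRing E V x)ˣ :=
      ⟨⟨⟨u, huK⟩, huV⟩, ⟨⟨u⁻¹, inv_mem huK⟩, huV'⟩,
        Subtype.ext (Subtype.ext (mul_inv_cancel₀ hu0)),
        Subtype.ext (Subtype.ext (inv_mul_cancel₀ hu0))⟩
    refine ⟨n, U, ?_⟩
    apply Subtype.ext
    apply Subtype.ext
    exact e.symm

end Frame

section Indep

/-- The family `u` is independent over `R[x]` modulo the maximal ideal of `V`:
`∑ Pᵢ(x) uᵢ ∈ 𝔪_V ⟹ Pᵢ ∈ 𝔪_R[X]` for all `i`. -/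
def PolyIndepMod (R : Type*) {L : Type*} [CommRing R] [IsLocalRing R] [Field L] [Algebra R L]
    (V : ValuationSubring L) (x : L) {f : ℕ} (u : Fin f → L) : Prop :=
  ∀ P : Fin f → R[X], (∑ i, aeval x (P i) * u i) ∈ V.nonunits →
    ∀ i, (P i).map (residue R) = 0

variable {R E L : Type*} [CommRing R] [IsDomain R] [IsDiscreteValuationRing R]
  [Field E] [Algebra R E] [IsFractionRing R E]
  [Field L] [Algebra E L] [Algebra R L] [IsScalarTower R E L]
  {V : ValuationSubring L} {x : L} {f : ℕ} {u : Fin f → L}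

omit [IsDomain R] [IsDiscreteValuationRing R] in
/-- a nonempty `PolyIndepMod` family of elements of `V` forces the Gauss valuation on `E(x)` -/
theorem IsGaussOver.of_polyIndepMod [IsLocalRing R] (hV : IsOver R V) (hx : x ∈ V) (hf : 0 < f)
    (hu : ∀ i, u i ∈ V) (hI : PolyIndepMod R V x u) : IsGaussOver R V x where
  isOver := hV
  mem := hx
  prim := by
    intro P hP
    classical
    have key := hI (fun i => if i = ⟨0, hf⟩ then P else 0) ?_ ⟨0, hf⟩
    · simpa using key
    · rw [Finset.sum_eq_single (⟨0, hf⟩ : Fin f)]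
      · rw [if_pos rfl, mul_comm]
        exact mul_mem_nonunits (hu _) hP
      · intro i _ hi
        rw [if_neg hi, map_zero, zero_mul]
      · intro h0
        exact absurd (Finset.mem_univ _) h0

/-- `PolyIndepMod` implies independence over the Gauss ring `V ∩ E(x)` modulo `𝔪_V`. -/
theorem IsGaussOver.indep_of_polyIndepMod (h : IsGaussOver R V x) (hI : PolyIndepMod R V x u)
    (a : Fin f → L) (haK : ∀ i, a i ∈ E⟮x⟯) (haV : ∀ i, a i ∈ V)
    (hsum : (∑ i, a i * u i) ∈ V.nonunits) : ∀ i, a i ∈ V.nonunits := by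
  classical
  have hex : ∀ i, ∃ P Q : R[X], Q.map (residue R) ≠ 0 ∧ a i * aeval x Q = aeval x P :=
    fun i => (h.mem_iff (E := E) (haK i)).mp (haV i)
  choose P Q hQ e using hex
  -- multiply by the common denominator
  have hD : (∏ l, aeval x (Q l)) ∈ V := prod_mem fun l _ => h.aeval_mem (Q l)
  have h1 : (∏ l, aeval x (Q l)) * ∑ i, a i * u i
      = ∑ i, aeval x (P i * ∏ l ∈ Finset.univ.erase i, Q l) * u i := by
    rw [Finset.mul_sum]
    refine Finset.sum_congr rfl fun i _ => ?_
    rw [← Finset.mul_prod_erase Finset.univ (fun l => aeval x (Q l)) (Finset.mem_univ i),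
      map_mul, map_prod, ← e i]
    ring
  have h2 := hI (fun i => P i * ∏ l ∈ Finset.univ.erase i, Q l)
    (by rw [← h1]; exact mul_mem_nonunits hD hsum)
  intro i
  have h3 := h2 i
  rw [Polynomial.map_mul, Polynomial.map_prod] at h3
  have h4 : (∏ l ∈ Finset.univ.erase i, (Q l).map (residue R)) ≠ 0 :=
    Finset.prod_ne_zero_iff.mpr fun l _ => hQ l
  have h5 : (P i).map (residue R) = 0 := (mul_eq_zero.mp h3).resolve_right h4
  exact (h.mem_nonunits_iff (E := E) (haK i)).mpr ⟨P i, Q i, hQ i, h5, e i⟩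

/-- **FRAME.** Two distinct valuation subrings of `L` inducing the Gauss valuation on `E(x)`,
with `R[x]`-independent families modulo the maximal ideals of total size `≥ [L : E(x)]`,
satisfy the hypotheses `TwoExtHyp` over the Gauss ring of `E(x)`. -/
theorem twoExtHyp_of_gauss {V₁ V₂ : ValuationSubring L}
    (h₁ : IsGaussOver R V₁ x) (h₂ : IsGaussOver R V₂ x) (hne : V₁ ≠ V₂)
    {f₁ f₂ : ℕ} {u₁ : Fin f₁ → L} {u₂ : Fin f₂ → L}
    (hu₁ : ∀ i, u₁ i ∈ V₁) (hu₂ : ∀ i, u₂ i ∈ V₂)
    (hI₁ : PolyIndepMod R V₁ x u₁) (hI₂ : PolyIndepMod R V₂ x u₂)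
    (hdeg : Module.finrank E⟮x⟯ L ≤ f₁ + f₂)
    [IsDiscreteValuationRing (gaussRing E V₁ x)] :
    TwoExtHyp E⟮x⟯ (gaussRing E V₁ x) V₁ V₂ u₁ u₂ where
  over₁ :=
    { mem := fun a => a.2
      nonunit := fun a ha => (mem_maximalIdeal_gaussRing a).mp ha }
  over₂ :=
    { mem := fun a => (h₁.mem_iff_mem (E := E) h₂ (a : E⟮x⟯).2).mp a.2
      nonunit := fun a ha =>
        (h₁.mem_nonunits_iff_mem (E := E) h₂ (a : E⟮x⟯).2).mp
          ((mem_maximalIdeal_gaussRing a).mp ha) }
  ne := hne
  deg := hdeg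
  mem₁ := hu₁
  mem₂ := hu₂
  indep₁ := by
    intro a hsum i
    rw [mem_maximalIdeal_gaussRing]
    exact h₁.indep_of_polyIndepMod (E := E) hI₁ (fun i => ((a i : E⟮x⟯) : L))
      (fun i => (a i : E⟮x⟯).2) (fun i => (a i).2) hsum i
  indep₂ := by
    intro a hsum i
    rw [mem_maximalIdeal_gaussRing]
    refine (h₁.mem_nonunits_iff_mem (E := E) h₂ (a i : E⟮x⟯).2).mpr ?_
    exact h₂.indep_of_polyIndepMod (E := E) hI₂ (fun i => ((a i : E⟮x⟯) : L))
      (fun i => (a i : E⟮x⟯).2)
      (fun i => (h₁.mem_iff_mem (E := E) h₂ (a i : E⟮x⟯).2).mp (a i).2) hsum i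

end Indep

end Fermat.Agent.A2.H489

end
-- ===== PACK-END A2/H489/GaussFrameB.lean

-- ===== PACK-BEGIN A2/Mod/H13/Frame.lean
section





/-!
# WALL A2 / MODASM, S1 part 1 (helper13): from the leaves to helper489's FRAME

Level `N = M * q`, coordinate `x = j · j_q`, `V = V∞` (`IsVinf`), `V₀ = V.comap W` (`IsFricke`).
From the leaves L2 (`H553.vinfBasic`, main), L3 (`H816.vinfGauss`, main), L6, L8, L9, L10
(hypotheses) we produce the hypotheses of `H489.twoExtHyp_of_gauss`:

* `isOver_of_isVinf`, `isOver_comap`        : `V`, `V₀` lie over `R_E`;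
* `isGaussOver_of_polar`                    : `IsGaussOver R V u` for every polar `u ∈ F_N`;
* `isGaussOver_xE`, `isGaussOver_comap_xE`  : the Gauss property of `V`, `V₀` for `x`;
* `polyIndepMod_of_indepMod`                : `Mod.IndepMod ⟹ H489.PolyIndepMod`;
* `twoExtHyp_of_leaves`                     : `H489.TwoExtHyp E(x) (V ∩ E(x)) V V₀ b c`.
-/

set_option autoImplicit false
set_option linter.unusedSectionVars false
set_option linter.style.haveILetI false
set_option synthInstance.maxHeartbeats 400000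
set_option maxHeartbeats 1600000

noncomputable section

namespace Fermat.Agent.A2.Mod.H13

open ModularCurve HahnSeries Polynomial IntermediateField
open Fermat.Agent.A2 Fermat.Agent.A2.Mod

variable (P : ValuationSubring _root_.Fermat.Agent.A2.Mod.Qb) (E : IntermediateField ℚ _root_.Fermat.Agent.A2.Mod.Qb)

/-! ### Integer series with a pole of exact order -/

/-- An integer Laurent series is *polar of order `a`*: lowest term `t^(-a)` with coefficient `1`. -/
def IsPolarInt (g : LaurentSeries ℤ) (a : ℕ) : Prop :=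
  (∀ n : ℤ, n < -(a : ℤ) → g.coeff n = 0) ∧ g.coeff (-(a : ℤ)) = 1

theorem IsPolarInt.order {g : LaurentSeries ℤ} {a : ℕ} (h : IsPolarInt g a) :
    g.order = -(a : ℤ) := by
  have h1 : g.coeff (-(a : ℤ)) ≠ 0 := by rw [h.2]; exact one_ne_zero
  have hg : g ≠ 0 := by
    rintro rfl
    exact h1 (by simp)
  apply le_antisymm
  · exact order_le_of_coeff_ne_zero h1
  · by_contra hlt
    exact (HahnSeries.coeff_order_eq_zero.not.mpr hg) (h.1 _ (not_le.mp hlt))

theorem IsPolarInt.mul {g g' : LaurentSeries ℤ} {a a' : ℕ} (h : IsPolarInt g a)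
    (h' : IsPolarInt g' a') : IsPolarInt (g * g') (a + a') := by
  have hg : g ≠ 0 := by
    rintro rfl
    have := h.2
    simp at this
  have hg' : g' ≠ 0 := by
    rintro rfl
    have := h'.2
    simp at this
  have hord : (g * g').order = -((a + a' : ℕ) : ℤ) := by
    rw [HahnSeries.order_mul hg hg', h.order, h'.order]
    push_cast
    ring
  refine ⟨fun n hn => ?_, ?_⟩
  · apply HahnSeries.coeff_eq_zero_of_lt_order
    rw [hord]
    exact hn
  · have key := HahnSeries.coeff_mul_order_add_order g g'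
    rw [HahnSeries.leadingCoeff_eq, HahnSeries.leadingCoeff_eq, h.order, h'.order, h.2, h'.2,
      mul_one] at key
    rw [← key]
    congr 1
    push_cast
    ring

theorem isPolarInt_jInt (d : ℕ) [NeZero d] : IsPolarInt (H708.jInt d) d := by
  refine ⟨fun n hn => ?_, H553.coeff_jInt_top d⟩
  rw [H708.jInt, jqNModC]
  by_cases hdn : (d : ℤ) ∣ n
  · obtain ⟨k, rfl⟩ := hdn
    rw [qExpand_coeff_mul]
    apply coeff_jqModC_of_lt
    have hd : (0 : ℤ) < d := by exact_mod_cast Nat.pos_of_ne_zero (NeZero.ne d)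
    by_contra hk
    have hk' : -1 ≤ k := not_lt.mp hk
    have : -(d : ℤ) ≤ (d : ℤ) * k := by nlinarith
    omega
  · exact qExpand_coeff_of_not_dvd d _ hdn

/-! ### `V∞` and `V₀` lie over `R_E` -/

section Over

variable {P E} {N : ℕ} [IsDiscreteValuationRing (_root_.Fermat.Agent.A2.Mod.RE P E)]

theorem algebraMap_RE_eq (r : _root_.Fermat.Agent.A2.Mod.RE P E) :
    algebraMap (_root_.Fermat.Agent.A2.Mod.RE P E) (_root_.Fermat.Agent.A2.Mod.FE E N) r = algebraMap E (_root_.Fermat.Agent.A2.Mod.FE E N) (r : E) := rfl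

theorem isOver_of_isVinf {V : ValuationSubring (_root_.Fermat.Agent.A2.Mod.FE E N)} (hV : IsVinf P E N V) :
    H489.IsOver (_root_.Fermat.Agent.A2.Mod.RE P E) V where
  mem := fun r => (H553.algebraMap_mem_iff P E hV (r : E)).mpr r.2
  nonunit := fun r hr => by
    rw [ValuationSubring.mem_nonunits_iff_or]
    by_cases h0 : r = 0
    · left
      rw [h0, map_zero]
    · right
      intro hmem
      have hr0 : (r : E) ≠ 0 := fun h => h0 (Subtype.ext h)
      have e : (algebraMap (_root_.Fermat.Agent.A2.Mod.RE P E) (_root_.Fermat.Agent.A2.Mod.FE E N) r)⁻¹ = algebraMap E (_root_.Fermat.Agent.A2.Mod.FE E N) ((r : E)⁻¹) := by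
        rw [algebraMap_RE_eq, map_inv₀]
      rw [e, H553.algebraMap_mem_iff P E hV] at hmem
      have hu : IsUnit r :=
        isUnit_iff_exists_inv.mpr ⟨⟨_, hmem⟩, Subtype.ext (mul_inv_cancel₀ hr0)⟩
      exact (IsLocalRing.mem_maximalIdeal r).mp hr hu

/-- Nonunits of the pull-back of a valuation ring along an automorphism. -/
theorem mem_nonunits_comap {F : Type*} [Field F] (V : ValuationSubring F) (W : F →+* F) (f : F) :
    f ∈ (V.comap W).nonunits ↔ W f ∈ V.nonunits := by
  rw [ValuationSubring.mem_nonunits_iff_or, ValuationSubring.mem_nonunits_iff_or,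
    ValuationSubring.mem_comap]
  constructor
  · rintro (h | h)
    · left
      rw [h, map_zero]
    · right
      intro h'
      apply h
      show W f⁻¹ ∈ V
      rw [map_inv₀]
      exact h'
  · rintro (h | h)
    · left
      exact (map_eq_zero W).mp h
    · right
      intro h'
      apply h
      have h'' : W f⁻¹ ∈ V := h'
      rwa [map_inv₀] at h''

theorem isOver_comap {V : ValuationSubring (_root_.Fermat.Agent.A2.Mod.FE E N)} (hV : IsVinf P E N V)
    (W : _root_.Fermat.Agent.A2.Mod.FE E N ≃ₐ[E] _root_.Fermat.Agent.A2.Mod.FE E N) :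
    H489.IsOver (_root_.Fermat.Agent.A2.Mod.RE P E) (V.comap (W : _root_.Fermat.Agent.A2.Mod.FE E N →+* _root_.Fermat.Agent.A2.Mod.FE E N)) where
  mem := fun r => by
    rw [ValuationSubring.mem_comap]
    show W (algebraMap (_root_.Fermat.Agent.A2.Mod.RE P E) (_root_.Fermat.Agent.A2.Mod.FE E N) r) ∈ V
    rw [algebraMap_RE_eq, W.commutes]
    exact (isOver_of_isVinf hV).mem r
  nonunit := fun r hr => by
    rw [mem_nonunits_comap]
    show W (algebraMap (_root_.Fermat.Agent.A2.Mod.RE P E) (_root_.Fermat.Agent.A2.Mod.FE E N) r) ∈ V.nonunits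
    rw [algebraMap_RE_eq, W.commutes]
    exact (isOver_of_isVinf hV).nonunit r hr

end Over

/-! ### The Gauss property for polar elements -/

section Gauss

variable {P E} {N : ℕ} [IsDiscreteValuationRing (_root_.Fermat.Agent.A2.Mod.RE P E)]

variable (E N) in
/-- `u ∈ F_N` is *polar of order `a`*: its `t`-expansion is an integer series with lowest term
`t^(-a)`. -/
def IsPolar (u : _root_.Fermat.Agent.A2.Mod.FE E N) (a : ℕ) : Prop :=
  ∃ g : LaurentSeries ℤ, IsPolarInt g a ∧ (u : LaurentSeries E) = coeffEmb E (H708.castQ g)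

theorem IsPolar.mul {u u' : _root_.Fermat.Agent.A2.Mod.FE E N} {a a' : ℕ} (h : IsPolar E N u a) (h' : IsPolar E N u' a') :
    IsPolar E N (u * u') (a + a') := by
  obtain ⟨g, hg, e⟩ := h
  obtain ⟨g', hg', e'⟩ := h'
  refine ⟨g * g', hg.mul hg', ?_⟩
  rw [map_mul, map_mul, ← e, ← e']
  rfl

theorem isPolar_jE (d : ℕ) [NeZero d] (hd : d ∣ N) : IsPolar E N (jE E N d hd) d :=
  ⟨H708.jInt d, isPolarInt_jInt d, H553.coe_jE N d hd⟩

theorem ev_eq_aeval (u : _root_.Fermat.Agent.A2.Mod.FE E N) (p : Polynomial (_root_.Fermat.Agent.A2.Mod.RE P E)) : ev P E N u p = aeval u p := rfl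

theorem not_C_dvd_of_map_ne_zero {w : _root_.Fermat.Agent.A2.Mod.RE P E} (hw : Irreducible w) {p : Polynomial (_root_.Fermat.Agent.A2.Mod.RE P E)}
    (hp : p.map (IsLocalRing.residue (_root_.Fermat.Agent.A2.Mod.RE P E)) ≠ 0) : ¬ Polynomial.C w ∣ p := by
  rintro ⟨Q, rfl⟩
  apply hp
  rw [Polynomial.map_mul, Polynomial.map_C]
  have : IsLocalRing.residue (_root_.Fermat.Agent.A2.Mod.RE P E) w = 0 := by
    rw [IsLocalRing.residue_eq_zero_iff]
    exact (IsLocalRing.mem_maximalIdeal w).mpr hw.not_isUnit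
  rw [this, map_zero, zero_mul]

/-- **Gauss property** of `V∞` for a polar element. -/
theorem isGaussOver_of_polar {V : ValuationSubring (_root_.Fermat.Agent.A2.Mod.FE E N)} (hV : IsVinf P E N V)
    {w : _root_.Fermat.Agent.A2.Mod.RE P E} (hw : Irreducible w) (hN : N ≠ 0) {u : _root_.Fermat.Agent.A2.Mod.FE E N} {a : ℕ} (ha : 0 < a)
    (hu : IsPolar E N u a) (htr : Transcendental (_root_.Fermat.Agent.A2.Mod.RE P E) u) :
    H489.IsGaussOver (_root_.Fermat.Agent.A2.Mod.RE P E) V u where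
  isOver := isOver_of_isVinf hV
  mem := by
    obtain ⟨g, -, e⟩ := hu
    exact H553.mem_of_int hV e
  prim := by
    intro p hp
    by_contra hne
    obtain ⟨g, hg, e⟩ := hu
    have hp0 : p ≠ 0 := by
      rintro rfl
      exact hne (Polynomial.map_zero _)
    have h3 := H816.vinfGauss P E w N hN inferInstance hw V hV u (H708.castA (_root_.Fermat.Agent.A2.Mod.RE P E) g) a ha
      (by rw [e]; exact H553.coeffEmb_castQ (P := P) g)
      (fun n hn => by
        show ((g.coeff n : ℤ) : _root_.Fermat.Agent.A2.Mod.RE P E) = 0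
        rw [hg.1 n hn, Int.cast_zero])
      (by
        have : (H708.castA (_root_.Fermat.Agent.A2.Mod.RE P E) g).coeff (-(a : ℤ)) = 1 := by
          show ((g.coeff (-(a : ℤ)) : ℤ) : _root_.Fermat.Agent.A2.Mod.RE P E) = 1
          rw [hg.2, Int.cast_one]
        rw [this]
        exact isUnit_one)
      p (not_C_dvd_of_map_ne_zero hw hne)
    rw [ev_eq_aeval] at h3
    rcases (ValuationSubring.mem_nonunits_iff_or V).mp hp with h0 | h0
    · exact htr ⟨p, hp0, h0⟩
    · exact h0 h3.2

/-- transport of the Gauss property along an `E`-automorphism. -/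
theorem isGaussOver_comap {V : ValuationSubring (_root_.Fermat.Agent.A2.Mod.FE E N)} (hV : IsVinf P E N V)
    (W : _root_.Fermat.Agent.A2.Mod.FE E N ≃ₐ[E] _root_.Fermat.Agent.A2.Mod.FE E N) {u : _root_.Fermat.Agent.A2.Mod.FE E N} (h : H489.IsGaussOver (_root_.Fermat.Agent.A2.Mod.RE P E) V (W u)) :
    H489.IsGaussOver (_root_.Fermat.Agent.A2.Mod.RE P E) (V.comap (W : _root_.Fermat.Agent.A2.Mod.FE E N →+* _root_.Fermat.Agent.A2.Mod.FE E N)) u where
  isOver := isOver_comap hV W
  mem := h.mem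
  prim := by
    intro p hp
    apply h.prim p
    rw [mem_nonunits_comap] at hp
    have e : W (aeval u p) = aeval (W u) p := by
      have := Polynomial.aeval_algHom_apply (W.toAlgHom.restrictScalars (_root_.Fermat.Agent.A2.Mod.RE P E)) u p
      exact this.symm
    rw [← e]
    exact hp

theorem transcendental_RE {u : _root_.Fermat.Agent.A2.Mod.FE E N} (h : Transcendental E u) : Transcendental (_root_.Fermat.Agent.A2.Mod.RE P E) u :=
  h.restrictScalars (fun a b hab => Subtype.ext hab)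

theorem transcendental_algEquiv (W : _root_.Fermat.Agent.A2.Mod.FE E N ≃ₐ[E] _root_.Fermat.Agent.A2.Mod.FE E N) {u : _root_.Fermat.Agent.A2.Mod.FE E N}
    (h : Transcendental E u) : Transcendental E (W u) := by
  rintro ⟨p, hp0, hp⟩
  apply h
  refine ⟨p, hp0, ?_⟩
  have e := Polynomial.aeval_algHom_apply W.toAlgHom u p
  have e' : W (aeval u p) = 0 := by
    rw [← hp]
    exact e.symm
  exact (map_eq_zero_iff W W.injective).mp e'

end Gauss

/-! ### The coordinate `x = j · j_q` -/

section Coordinate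

variable {P E} (M q : ℕ) [NeZero M] [NeZero q] [IsDiscreteValuationRing (_root_.Fermat.Agent.A2.Mod.RE P E)]

theorem isPolar_xE : IsPolar E (M * q) (xE E M q) (1 + q) :=
  (isPolar_jE 1 (one_dvd _)).mul (isPolar_jE q (dvd_mul_left q M))

theorem isPolar_fricke_xE {W : _root_.Fermat.Agent.A2.Mod.FE E (M * q) ≃ₐ[E] _root_.Fermat.Agent.A2.Mod.FE E (M * q)} (hW : IsFricke E (M * q) W) :
    IsPolar E (M * q) (W (xE E M q)) (M * q + M) := by
  have h1 : W (jE E (M * q) 1 (one_dvd _)) = jE E (M * q) (M * q) (dvd_refl _) :=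
    hW.1 1 (M * q) (one_dvd _) (dvd_refl _) (one_mul _)
  have h2 : W (jE E (M * q) q (dvd_mul_left q M)) = jE E (M * q) M (dvd_mul_right M q) :=
    hW.1 q M (dvd_mul_left q M) (dvd_mul_right M q) (mul_comm q M)
  rw [xE, map_mul, h1, h2]
  exact (isPolar_jE (M * q) (dvd_refl _)).mul (isPolar_jE M (dvd_mul_right M q))

variable {M q}

/-- `V∞` induces the Gauss valuation on `E(x)`. -/
theorem isGaussOver_xE {w : _root_.Fermat.Agent.A2.Mod.RE P E} (hw : Irreducible w)
    {V : ValuationSubring (_root_.Fermat.Agent.A2.Mod.FE E (M * q))} (hV : IsVinf P E (M * q) V)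
    (htr : Transcendental E (xE E M q)) :
    H489.IsGaussOver (_root_.Fermat.Agent.A2.Mod.RE P E) V (xE E M q) :=
  isGaussOver_of_polar hV hw (NeZero.ne _) (by omega) (isPolar_xE M q) (transcendental_RE htr)

/-- `V₀ = V∞ ∘ W` induces the Gauss valuation on `E(x)`. -/
theorem isGaussOver_comap_xE {w : _root_.Fermat.Agent.A2.Mod.RE P E} (hw : Irreducible w)
    {V : ValuationSubring (_root_.Fermat.Agent.A2.Mod.FE E (M * q))} (hV : IsVinf P E (M * q) V)
    {W : _root_.Fermat.Agent.A2.Mod.FE E (M * q) ≃ₐ[E] _root_.Fermat.Agent.A2.Mod.FE E (M * q)} (hW : IsFricke E (M * q) W)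
    (htr : Transcendental E (xE E M q)) :
    H489.IsGaussOver (_root_.Fermat.Agent.A2.Mod.RE P E) (V.comap (W : _root_.Fermat.Agent.A2.Mod.FE E (M * q) →+* _root_.Fermat.Agent.A2.Mod.FE E (M * q))) (xE E M q) :=
  isGaussOver_comap hV W
    (isGaussOver_of_polar hV hw (NeZero.ne _)
      (Nat.add_pos_right _ (Nat.pos_of_ne_zero (NeZero.ne M)))
      (isPolar_fricke_xE M q hW) (transcendental_RE (transcendental_algEquiv W htr)))

end Coordinate

/-! ### Independence and the final frame -/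

section Indep

variable {P E} {N : ℕ} [IsDiscreteValuationRing (_root_.Fermat.Agent.A2.Mod.RE P E)]

theorem inW_iff_mem_nonunits {V : ValuationSubring (_root_.Fermat.Agent.A2.Mod.FE E N)} {w : _root_.Fermat.Agent.A2.Mod.RE P E}
    (hu : H48.IsUnif V (cE P E N w)) (f : _root_.Fermat.Agent.A2.Mod.FE E N) : InW P E N V w f ↔ f ∈ V.nonunits := by
  rw [InW, hu.mul_inv_mem_iff, ValuationSubring.mem_nonunits_iff]

theorem isUnif_comap {V : ValuationSubring (_root_.Fermat.Agent.A2.Mod.FE E N)} {w : _root_.Fermat.Agent.A2.Mod.RE P E}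
    (hu : H48.IsUnif V (cE P E N w)) (W : _root_.Fermat.Agent.A2.Mod.FE E N ≃ₐ[E] _root_.Fermat.Agent.A2.Mod.FE E N) :
    H48.IsUnif (V.comap (W : _root_.Fermat.Agent.A2.Mod.FE E N →+* _root_.Fermat.Agent.A2.Mod.FE E N)) (cE P E N w) := by
  have hW : W (cE P E N w) = cE P E N w := W.commutes _
  have hWi : W (cE P E N w)⁻¹ = (cE P E N w)⁻¹ := by rw [map_inv₀, hW]
  refine ⟨?_, ?_, ?_⟩
  · show W (cE P E N w) ∈ V
    rw [hW]
    exact hu.mem
  · intro h
    have h' : W (cE P E N w)⁻¹ ∈ V := h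
    rw [hWi] at h'
    exact hu.inv_not_mem h'
  · intro f hf hfi
    show W (f * (cE P E N w)⁻¹) ∈ V
    rw [map_mul, hWi]
    refine hu.gen (W f) hf ?_
    intro h
    apply hfi
    show W f⁻¹ ∈ V
    rw [map_inv₀]
    exact h

theorem polyIndepMod_of_indepMod {V : ValuationSubring (_root_.Fermat.Agent.A2.Mod.FE E N)} {w : _root_.Fermat.Agent.A2.Mod.RE P E}
    (hw : Irreducible w) (hu : H48.IsUnif V (cE P E N w)) {x : _root_.Fermat.Agent.A2.Mod.FE E N} {n : ℕ}
    {b : Fin n → _root_.Fermat.Agent.A2.Mod.FE E N} (h : IndepMod P E N V w x b) :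
    H489.PolyIndepMod (_root_.Fermat.Agent.A2.Mod.RE P E) V x b := by
  intro a ha i
  have h1 := h a ((inW_iff_mem_nonunits hu _).mpr ha) i
  by_contra hne
  exact not_C_dvd_of_map_ne_zero hw hne h1

end Indep

section Final

variable {P E} {M q : ℕ} [NeZero M] [NeZero q] {w : _root_.Fermat.Agent.A2.Mod.RE P E}

/-- **The frame for `X₀(Mq)`**: from the leaves L2, L3 (main) and L6, L8, L9, L10 (hypotheses),
the two valuation rings `V∞`, `V₀ = V∞ ∘ W` satisfy `H489.TwoExtHyp` over the Gauss ring of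
`E(x)`, `x = j · j_q`. -/
theorem twoExtHyp_of_leaves (hS : Setting P E M q w)
    (V : ValuationSubring (_root_.Fermat.Agent.A2.Mod.FE E (M * q))) (W : _root_.Fermat.Agent.A2.Mod.FE E (M * q) ≃ₐ[E] _root_.Fermat.Agent.A2.Mod.FE E (M * q))
    (hV : IsVinf P E (M * q) V) (hW : IsFricke E (M * q) W)
    (hL6 : VzeroNeStatement P E M q w) (hL8 : DegStatement E M q)
    (hL9 : IndInfStatement P E M q w) (hL10 : IndZeroStatement P E M q w) :
    haveI := hS.dvr
    ∃ (b c : Fin ((q + 1) * dedekindPsi M) → _root_.Fermat.Agent.A2.Mod.FE E (M * q))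
      (_ : IsDiscreteValuationRing (H489.gaussRing E V (xE E M q))),
      H489.TwoExtHyp (IntermediateField.adjoin E ({xE E M q} : Set (_root_.Fermat.Agent.A2.Mod.FE E (M * q))))
        (H489.gaussRing E V (xE E M q)) V
        (V.comap (W : _root_.Fermat.Agent.A2.Mod.FE E (M * q) →+* _root_.Fermat.Agent.A2.Mod.FE E (M * q))) b c := by
  haveI := hS.dvr
  obtain ⟨htr, hfr, -⟩ := hL8 hS.q_prime hS.q_not_dvd
  obtain ⟨b, hb, hbI⟩ := hL9 hS V hV
  obtain ⟨c, hc, hcI⟩ := hL10 hS V W hV hW
  have hu : H48.IsUnif V (cE P E (M * q) w) :=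
    (H553.vinfBasic P E w (M * q) (NeZero.ne _) hS.dvr hS.unif V hV).1
  have hG₁ := isGaussOver_xE hS.unif hV htr
  have hG₂ := isGaussOver_comap_xE hS.unif hV hW htr
  have hdvr : IsDiscreteValuationRing (H489.gaussRing E V (xE E M q)) :=
    hG₁.isDiscreteValuationRing
  refine ⟨b, c, hdvr, ?_⟩
  exact H489.twoExtHyp_of_gauss hG₁ hG₂ (fun h => hL6 hS V W hV hW h.symm) hb hc
    (polyIndepMod_of_indepMod hS.unif hu hbI)
    (polyIndepMod_of_indepMod hS.unif (isUnif_comap hu W) hcI)
    (by rw [hfr, two_mul])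

end Final


end Fermat.Agent.A2.Mod.H13

end
end
-- ===== PACK-END A2/Mod/H13/Frame.lean

-- ===== PACK-BEGIN A2/H489/ChartB.lean
section



/-!
# A2 / MODASM step S1 (helper489): the two components of a chart, from an explicit coordinate

`R` a discrete valuation ring with uniformiser `w`, `E = Frac R`, `F ⊇ E` a field, `y ∈ F` a
coordinate, `V₁ ≠ V₂` valuation subrings of `F` inducing the Gauss valuation on `E(y)`
(`IsGaussOver`), both with uniformiser `w`, with `R[y]`-independent families modulo the maximal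
ideals (`PolyIndepMod`) of total size `≥ [F : E(y)]`.

* `gaussPairLe_of_frame` : the hypotheses `H48.GaussPairLe` for the `R[X]`-algebra structure
  `X ↦ y` (all instances are constructed here);
* `frame_exists_components` : for the chart `B` = integral closure of `R[y]`
  (`f ∈ B ↔ IsIntegral (Algebra.adjoin R {y}) f`) there are prime ideals `p₁ p₂` of `B` with
  `b ∈ p_i ↔ b ∈ 𝔪_{V_i}`, incomparable, and `p₁ ⊓ p₂ = w B`
  (= the fields `p₁ … inf_eq` of `Fermat.Agent.A2.SSChart`).
-/

set_option autoImplicit false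
set_option linter.style.haveILetI false
set_option linter.unusedSectionVars false

namespace Fermat.Agent.A2.H489

open IsLocalRing Polynomial IntermediateField

section Inj

variable {R F : Type*} [CommRing R] [IsDomain R] [IsDiscreteValuationRing R]
  [Field F] [Algebra R F]

/-- the coordinate of a Gauss valuation is transcendental over `R` -/
theorem IsGaussOver.aeval_injective (E : Type*) [Field E] [Algebra R E] [IsFractionRing R E]
    [Algebra E F] [IsScalarTower R E F] {V : ValuationSubring F} {y : F}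
    (h : IsGaussOver R V y) :
    Function.Injective (aeval y : R[X] → F) := by
  rw [injective_iff_map_eq_zero]
  intro P hP
  by_contra hP0
  obtain ⟨w, hw⟩ := IsDiscreteValuationRing.exists_irreducible R
  obtain ⟨n, P₀, rfl, hP₀⟩ := exists_eq_pow_mul_prim hw hP0
  rw [map_mul, aeval_C] at hP
  rcases mul_eq_zero.mp hP with h1 | h1
  · exact algebraMap_RL_ne_zero E (pow_ne_zero n hw.ne_zero) h1
  · exact h.aeval_ne_zero hP₀ h1

end Inj

section FrameChart

variable {R E F : Type*} [CommRing R] [IsDomain R] [IsDiscreteValuationRing R]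
  [Field E] [Algebra R E] [IsFractionRing R E]
  [Field F] [Algebra E F] [Algebra R F] [IsScalarTower R E F]

/-- divisibility by the uniformiser = vanishing modulo the maximal ideal -/
theorem C_dvd_iff_map_residue_eq_zero {w : R} (hw : Irreducible w) (P : R[X]) :
    C w ∣ P ↔ P.map (residue R) = 0 := by
  constructor
  · rintro ⟨P', rfl⟩
    have hwm : residue R w = 0 := by
      rw [residue_eq_zero_iff, IsLocalRing.mem_maximalIdeal, _root_.mem_nonunits_iff]
      exact hw.not_isUnit
    rw [Polynomial.map_mul, map_C, hwm, C_0, zero_mul]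
  · intro h
    obtain ⟨P', hP'⟩ := exists_eq_C_mul_of_map_residue_eq_zero hw h
    exact ⟨P', hP'⟩

variable {V : ValuationSubring F} {y : F}

/-- every element of `E(y)` is a quotient of polynomials over `R` -/
theorem exists_div_aeval_of_mem_adjoin {a : F} (ha : a ∈ E⟮y⟯) :
    ∃ P Q : R[X], a = aeval y P / aeval y Q := by
  obtain ⟨r, s, hrs⟩ := (mem_adjoin_simple_iff E a).mp ha
  by_cases hr : r = 0
  · refine ⟨0, 1, ?_⟩
    rw [hrs, hr, map_zero, zero_div, map_zero, zero_div]
  by_cases hs : s = 0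
  · refine ⟨0, 1, ?_⟩
    rw [hrs, hs, map_zero, div_zero, map_zero, zero_div]
  obtain ⟨dr, R', hdr, -, eR⟩ := exists_aeval_eq_of_polynomial (R := R) y hr
  obtain ⟨ds, S', hds, -, eS⟩ := exists_aeval_eq_of_polynomial (R := R) y hs
  have hdrL : algebraMap R F dr ≠ 0 := algebraMap_RL_ne_zero E hdr
  have hdsL : algebraMap R F ds ≠ 0 := algebraMap_RL_ne_zero E hds
  refine ⟨C ds * R', C dr * S', ?_⟩
  rw [map_mul, map_mul, aeval_C, aeval_C, ← eR, ← eS, hrs]
  by_cases hs0 : aeval y s = 0
  · rw [hs0, div_zero, mul_zero, mul_zero, div_zero]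
  · field_simp

/-- **MODASM S1, explicit coordinate.**  The two components of the chart `B` = integral closure
of `R[y]`: primes `p₁ = B ∩ 𝔪_{V₁}`, `p₂ = B ∩ 𝔪_{V₂}`, incomparable, `p₁ ⊓ p₂ = w B`. -/
theorem frame_exists_components {w : R} (hw : Irreducible w) {V₁ V₂ : ValuationSubring F}
    (h₁ : IsGaussOver R V₁ y) (h₂ : IsGaussOver R V₂ y)
    (hu₁ : H48.IsUnif V₁ (algebraMap R F w)) (hu₂ : H48.IsUnif V₂ (algebraMap R F w))
    (hne : V₁ ≠ V₂) {f₁ f₂ : ℕ} {u₁ : Fin f₁ → F} {u₂ : Fin f₂ → F}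
    (hm₁ : ∀ i, u₁ i ∈ V₁) (hm₂ : ∀ i, u₂ i ∈ V₂)
    (hI₁ : PolyIndepMod R V₁ y u₁) (hI₂ : PolyIndepMod R V₂ y u₂)
    [FiniteDimensional E⟮y⟯ F] (hdeg : Module.finrank E⟮y⟯ F ≤ f₁ + f₂)
    (B : Subalgebra R F)
    (hB : ∀ f : F, f ∈ B ↔ IsIntegral (Algebra.adjoin R ({y} : Set F)) f) :
    ∃ p₁ p₂ : Ideal B,
      (∀ b : B, b ∈ p₁ ↔ (b : F) ∈ V₁.nonunits) ∧ (∀ b : B, b ∈ p₂ ↔ (b : F) ∈ V₂.nonunits) ∧
      p₁.IsPrime ∧ p₂.IsPrime ∧ p₁ ≠ p₂ ∧ ¬ p₁ ≤ p₂ ∧ ¬ p₂ ≤ p₁ ∧
      p₁ ⊓ p₂ = Ideal.span {algebraMap R B w} := by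
  classical
  -- the `R[X]`-algebra structures `X ↦ y`
  letI algF : Algebra R[X] F := (aeval y : R[X] →ₐ[R] F).toRingHom.toAlgebra
  have hF : ∀ P : R[X], algebraMap R[X] F P = aeval y P := fun _ => rfl
  let yK : E⟮y⟯ := ⟨y, mem_adjoin_simple_self E y⟩
  letI algK : Algebra R[X] E⟮y⟯ := (aeval yK : R[X] →ₐ[R] E⟮y⟯).toRingHom.toAlgebra
  have hK : ∀ P : R[X], algebraMap R[X] E⟮y⟯ P = aeval yK P := fun _ => rfl
  haveI towerK : IsScalarTower R E⟮y⟯ F := IsScalarTower.of_algebraMap_eq (fun _ => rfl)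
  have hKF : ∀ P : R[X], ((aeval yK P : E⟮y⟯) : F) = aeval y P := by
    intro P
    have := Polynomial.aeval_algHom_apply (IsScalarTower.toAlgHom R E⟮y⟯ F) yK P
    exact this.symm
  haveI tower : IsScalarTower R[X] E⟮y⟯ F :=
    IsScalarTower.of_algebraMap_eq (fun P => (hKF P).symm)
  haveI towerR : IsScalarTower R R[X] F :=
    IsScalarTower.of_algebraMap_eq (fun r => (aeval_C y r).symm)
  have hinjF : Function.Injective (aeval y : R[X] → F) := h₁.aeval_injective E
  have hinjK : Function.Injective (algebraMap R[X] E⟮y⟯) := by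
    intro P Q hPQ
    apply hinjF
    rw [← hKF, ← hKF, ← hK, ← hK, hPQ]
  haveI : FaithfulSMul R[X] E⟮y⟯ := (faithfulSMul_iff_algebraMap_injective _ _).mpr hinjK
  haveI frac : IsFractionRing R[X] E⟮y⟯ := by
    apply IsFractionRing.of_field
    intro z
    obtain ⟨P, Q, hPQ⟩ := exists_div_aeval_of_mem_adjoin (R := R) (E := E) z.2
    refine ⟨P, Q, Subtype.ext ?_⟩
    rw [hPQ]
    show aeval y P / aeval y Q = ((aeval yK P / aeval yK Q : E⟮y⟯) : F)
    rw [IntermediateField.coe_div, hKF, hKF]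
  have hCw : algebraMap R[X] F (C w) = algebraMap R F w := aeval_C y w
  have hprim : ∀ P : R[X], ¬ C w ∣ P → P.map (residue R) ≠ 0 := fun P hP h0 =>
    hP ((C_dvd_iff_map_residue_eq_zero hw P).mpr h0)
  have hG : H48.GaussPairLe (K := E⟮y⟯) w V₁ V₂ u₁ u₂ :=
    { prime := hw.prime
      unif₁ := by rw [hCw]; exact hu₁
      unif₂ := by rw [hCw]; exact hu₂
      poly₁ := fun P => h₁.aeval_mem P
      poly₂ := fun P => h₂.aeval_mem P
      gauss₁ := fun P hP => h₁.inv_aeval_mem (hprim P hP)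
      gauss₂ := fun P hP => h₂.inv_aeval_mem (hprim P hP)
      ne := hne
      b_mem := hm₁
      c_mem := hm₂
      b_indep := by
        intro a ha i
        rw [hCw, hu₁.mul_inv_mem_iff, ← ValuationSubring.mem_nonunits_iff] at ha
        exact (C_dvd_iff_map_residue_eq_zero hw (a i)).mpr (hI₁ a ha i)
      c_indep := by
        intro a ha i
        rw [hCw, hu₂.mul_inv_mem_iff, ← ValuationSubring.mem_nonunits_iff] at ha
        exact (C_dvd_iff_map_residue_eq_zero hw (a i)).mpr (hI₂ a ha i)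
      le := hdeg }
  have hX : algebraMap R[X] F X = y := aeval_X y
  have hB' : ∀ f : F, f ∈ B ↔
      IsIntegral (Algebra.adjoin R ({algebraMap R[X] F X} : Set F)) f := by
    rw [hX]
    exact hB
  exact gaussPairLe_exists_components hG B hB'

end FrameChart

/-! ## The chart at infinity: the coordinate `y⁻¹` -/

section Inv

variable {R E F : Type*} [CommRing R] [IsDomain R] [IsDiscreteValuationRing R]
  [Field E] [Algebra R E] [IsFractionRing R E]
  [Field F] [Algebra E F] [Algebra R F] [IsScalarTower R E F]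
  {V : ValuationSubring F} {y : F}

omit [IsDomain R] [IsDiscreteValuationRing R] in
theorem aeval_inv_mul_pow (hy : y ≠ 0) (N : ℕ) (P : R[X]) (hP : P.natDegree ≤ N) :
    aeval y⁻¹ P * y ^ N = aeval y (reflect N P) := by
  have hy' : y⁻¹ ≠ 0 := inv_ne_zero hy
  letI : Invertible (y⁻¹) := invertibleOfNonzero hy'
  have h := eval₂_reflect_mul_pow (algebraMap R F) (y⁻¹) N P hP
  rw [invOf_eq_inv, inv_inv] at h
  rw [aeval_def, aeval_def, ← h, mul_assoc, ← mul_pow, inv_mul_cancel₀ hy, one_pow, mul_one]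

omit [IsDomain R] [IsDiscreteValuationRing R] in
theorem map_residue_reflect_eq_zero [IsLocalRing R] {N : ℕ} {P : R[X]}
    (h : (reflect N P).map (residue R) = 0) : P.map (residue R) = 0 := by
  rw [map_residue_eq_zero_iff] at h ⊢
  intro i
  have := h (revAt N i)
  rwa [coeff_reflect, revAt_invol] at this

omit [IsDomain R] [IsDiscreteValuationRing R] in
/-- the coordinate of a Gauss valuation is a unit -/
theorem IsGaussOver.inv_mem [IsLocalRing R] (h : IsGaussOver R V y) :
    y⁻¹ ∈ V := by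
  have h1 := h.inv_aeval_mem (P := X) (by
    rw [Polynomial.map_X]
    exact X_ne_zero)
  rwa [aeval_X] at h1

omit [IsDomain R] [IsDiscreteValuationRing R] in
theorem IsGaussOver.ne_zero [IsLocalRing R] (h : IsGaussOver R V y) :
    y ≠ 0 := by
  have h1 := h.aeval_ne_zero (P := X) (by
    rw [Polynomial.map_X]
    exact X_ne_zero)
  rwa [aeval_X] at h1

omit [IsDomain R] [IsDiscreteValuationRing R] in
/-- The Gauss valuation of `E(y)` is the Gauss valuation of `E(y⁻¹)`. -/
theorem IsGaussOver.inv [IsLocalRing R] (h : IsGaussOver R V y) :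
    IsGaussOver R V y⁻¹ where
  isOver := h.isOver
  mem := h.inv_mem
  prim := by
    intro P hP
    apply map_residue_reflect_eq_zero (N := P.natDegree)
    apply h.prim
    rw [← aeval_inv_mul_pow h.ne_zero P.natDegree P le_rfl, mul_comm]
    exact mem_mul_nonunits (pow_mem h.mem _) hP

omit [IsDomain R] [IsDiscreteValuationRing R] in
theorem PolyIndepMod.inv [IsLocalRing R] (h : IsGaussOver R V y) {f : ℕ}
    {u : Fin f → F} (hI : PolyIndepMod R V y u) : PolyIndepMod R V y⁻¹ u := by
  intro P hP i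
  set D := Finset.univ.sup (fun i => (P i).natDegree) with hD
  have hdeg : ∀ i, (P i).natDegree ≤ D := fun i =>
    Finset.le_sup (f := fun i => (P i).natDegree) (Finset.mem_univ i)
  apply map_residue_reflect_eq_zero (N := D)
  refine hI (fun i => reflect D (P i)) ?_ i
  have h1 : ∑ i, aeval y (reflect D (P i)) * u i = y ^ D * ∑ i, aeval y⁻¹ (P i) * u i := by
    rw [Finset.mul_sum]
    refine Finset.sum_congr rfl fun i _ => ?_
    rw [← aeval_inv_mul_pow h.ne_zero D (P i) (hdeg i)]
    ring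
  rw [h1]
  exact mem_mul_nonunits (pow_mem h.mem _) hP

omit [IsDomain R] [IsDiscreteValuationRing R] [Algebra R E] [IsFractionRing R E] [Algebra R F]
  [IsScalarTower R E F] [CommRing R] in
theorem adjoin_inv_eq (E : Type*) [Field E] [Algebra E F] (y : F) : E⟮y⁻¹⟯ = E⟮y⟯ := by
  apply le_antisymm
  · rw [adjoin_simple_le_iff]
    exact inv_mem (mem_adjoin_simple_self E y)
  · rw [adjoin_simple_le_iff]
    have := inv_mem (mem_adjoin_simple_self E y⁻¹)
    rwa [inv_inv] at this

/-- **MODASM S1, chart at infinity.**  Same hypotheses on the coordinate `y`; the chart is the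
integral closure of `R[y⁻¹]`. -/
theorem frame_exists_components_inv {w : R} (hw : Irreducible w) {V₁ V₂ : ValuationSubring F}
    (h₁ : IsGaussOver R V₁ y) (h₂ : IsGaussOver R V₂ y)
    (hu₁ : H48.IsUnif V₁ (algebraMap R F w)) (hu₂ : H48.IsUnif V₂ (algebraMap R F w))
    (hne : V₁ ≠ V₂) {f₁ f₂ : ℕ} {u₁ : Fin f₁ → F} {u₂ : Fin f₂ → F}
    (hm₁ : ∀ i, u₁ i ∈ V₁) (hm₂ : ∀ i, u₂ i ∈ V₂)
    (hI₁ : PolyIndepMod R V₁ y u₁) (hI₂ : PolyIndepMod R V₂ y u₂)
    [hfin : FiniteDimensional E⟮y⟯ F] (hdeg : Module.finrank E⟮y⟯ F ≤ f₁ + f₂)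
    (B : Subalgebra R F)
    (hB : ∀ f : F, f ∈ B ↔ IsIntegral (Algebra.adjoin R ({y⁻¹} : Set F)) f) :
    ∃ p₁ p₂ : Ideal B,
      (∀ b : B, b ∈ p₁ ↔ (b : F) ∈ V₁.nonunits) ∧ (∀ b : B, b ∈ p₂ ↔ (b : F) ∈ V₂.nonunits) ∧
      p₁.IsPrime ∧ p₂.IsPrime ∧ p₁ ≠ p₂ ∧ ¬ p₁ ≤ p₂ ∧ ¬ p₂ ≤ p₁ ∧
      p₁ ⊓ p₂ = Ideal.span {algebraMap R B w} := by
  have hE : E⟮y⁻¹⟯ = E⟮y⟯ := adjoin_inv_eq E y
  have key : ∀ (K : IntermediateField E F), K = E⟮y⟯ →
      FiniteDimensional K F ∧ Module.finrank K F ≤ f₁ + f₂ := by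
    rintro K rfl
    exact ⟨hfin, hdeg⟩
  obtain ⟨hfin', hdeg'⟩ := key _ hE
  exact frame_exists_components (E := E) hw h₁.inv h₂.inv hu₁ hu₂ hne hm₁ hm₂
    (hI₁.inv h₁) (hI₂.inv h₂) hdeg' B hB

end Inv

end Fermat.Agent.A2.H489

end
-- ===== PACK-END A2/H489/ChartB.lean

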