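import Mathlib
import Fermat.Agent.Pack.S34.G0E8L3
import Fermat.Agent.Pack.S34.G0E2L3
import Fermat.Agent.Pack.S34.G0E4L0
import Fermat.Agent.Pack.S34.G0E2L2
import Fermat.Agent.Pack.S34.G0E6L3
import Fermat.Agent.Pack.S34.G0E8L1
import Fermat.Agent.Pack.S34.G0E0L2
import Fermat.Agent.Pack.S34.G0E8L2
import Fermat.Agent.Pack.S34.G0E5L0
import Fermat.Agent.Pack.S34.G0E1L1
import Fermat.Agent.Pack.S34.G0E7L3
import Fermat.Agent.Pack.S34.G0E7L2
import Fermat.Agent.Pack.S34.G0E4L1
import Fermat.Agent.Pack.S34.G0E7L0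
import Fermat.Agent.Pack.S34.G0E6L0
import Fermat.Agent.Pack.S34.G0E2L0
import Fermat.Agent.Pack.S34.G0E2L1

-- ===== PACK-BEGIN Lib/Cheb/H943/End.lean
section







/-!
# CHEB Tier 1 assembled (helper943): the qualitative Frobenius density theorem

`frobFiniteStatement : Spec.FrobFiniteStatement` (finite level) and
`frobeniusDivisionStatement : Spec.FrobeniusDivisionStatement` (Prelude level, `Gal(ℚ̄/ℚ)`),
unconditionally, from the landed pieces

* Z  = `H343.primeSum`                (helper343),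
* B0 = `H943.primeCountBoundStatement`,
* A  = `H764.count`                   (helper764),
* D  = `H943.frobStatement`,
* M  = `H993.frobFinite`              (helper993),
* F6 = `H943.bridgeDivisionStatement`.

Also a client-friendly unfolded form `exists_frobenius_division`.
-/

set_option autoImplicit false

namespace Fermat.Agent.Lib.Cheb.H943

/-- Finite-level qualitative Frobenius density theorem. -/
theorem frobFiniteStatement : Spec.FrobFiniteStatement :=
  H993.frobFinite H343.primeSum primeCountBoundStatement H764.count frobStatement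

/-- **FROB**, Prelude level. -/
theorem frobeniusDivisionStatement : Spec.FrobeniusDivisionStatement :=
  bridgeDivisionStatement frobFiniteStatement

/-- **FROB**, unfolded for clients: on every finite extension `E` of `ℚ` inside `ℚ̄`, every
`σ ∈ Gal(ℚ̄/ℚ)` and some Frobenius element `τ` (at a valuation subring `A` over a prime
`ℓ ∉ S`, with inertia at `A` acting trivially on `E`) are powers of each other on `E`. -/
theorem exists_frobenius_division (E : IntermediateField ℚ (AlgebraicClosure ℚ))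
    [FiniteDimensional ℚ E] (σ : AlgebraicClosure ℚ ≃ₐ[ℚ] AlgebraicClosure ℚ) (S : Finset ℕ) :
    ∃ (ℓ : ℕ) (A : ValuationSubring (AlgebraicClosure ℚ))
      (τ : AlgebraicClosure ℚ ≃ₐ[ℚ] AlgebraicClosure ℚ) (k j : ℕ),
      ℓ.Prime ∧ ℓ ∉ S ∧ A.LiesOverPrime ℓ ∧ A.IsFrobeniusAt τ ℓ ∧
      (∀ ι ∈ A.inertiaSubgroupIn ℚ, ∀ x ∈ E, ι x = x) ∧
      (∀ x ∈ E, τ x = (σ ^ k) x) ∧ (∀ x ∈ E, (τ ^ j) x = σ x) :=
  frobeniusDivisionStatement E inferInstance σ S

end Fermat.Agent.Lib.Cheb.H943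

end
-- ===== PACK-END Lib/Cheb/H943/End.lean

-- ===== PACK-BEGIN S29/H882/GoodQ.lean
section


/-!
# S29 / MERO (helper882), part 1: `q`-expansions of good functions

`goodQ N` is the `ℂ`-subalgebra of `ℂ((q))` of `q`-expansions of the functions in the landed
`S24.H648.goodRing N` (holomorphic, `Γ₀(N)`-invariant, all `SL₂(ℤ)`-translates of at most
exponential growth at `i∞`).  Every element of `goodQ N` is a root of a monic polynomial of degree
`[SL₂(ℤ) : Γ₀(N)]` over `ℂ[j]`.
-/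

set_option autoImplicit false

noncomputable section

open UpperHalfPlane ModularGroup CongruenceSubgroup Polynomial ModularCurve
open scoped MatrixGroups Manifold Modular Real

namespace Fermat.Agent.S29.H882

open Fermat.Agent.S24 Fermat.Agent.S24.H648 Fermat.Agent.S24.H708 Fermat.Agent.S24.Deg457

variable (N : ℕ)

theorem T_mem_Gamma0 : ModularGroup.T ∈ Gamma0 N := by
  rw [Gamma0_mem]
  simp [ModularGroup.T]

variable {N}

/-- A `Γ₀(N)`-invariant function is `1`-periodic. -/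
theorem periodic_of_invariant {f : ℍ → ℂ} (hf : ∀ γ ∈ Gamma0 N, ∀ τ : ℍ, f (γ • τ) = f τ) :
    Function.Periodic (f ∘ ofComplex) (1 : ℝ) := by
  intro w
  by_cases hw : 0 < Complex.im w
  · have hw' : 0 < Complex.im (w + ((1 : ℝ) : ℂ)) := by simpa using hw
    simp only [Function.comp_apply, ofComplex_apply_of_im_pos hw', ofComplex_apply_of_im_pos hw]
    have h := hf _ (T_mem_Gamma0 N) ⟨w, hw⟩
    rw [← h]
    congr 1
    apply UpperHalfPlane.ext
    rw [UpperHalfPlane.modular_T_smul, UpperHalfPlane.coe_vadd]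
    simp [add_comm]
  · have hw0 : Complex.im w ≤ 0 := not_lt.mp hw
    have hw' : Complex.im (w + ((1 : ℝ) : ℂ)) ≤ 0 := by simpa using hw0
    simp only [Function.comp_apply]
    rw [ofComplex_apply_of_im_nonpos hw', ofComplex_apply_of_im_nonpos hw0]

/-- Exponential growth gives a pole of finite order at `i∞`. -/
theorem isBounded_mul_qh_pow_of_expGrowth {f : ℍ → ℂ} (hf : ExpGrowth f) :
    ∃ M : ℕ, IsBoundedAtImInfty (f * qh 1 ^ M) := by
  obtain ⟨C, m, h⟩ := hf
  refine ⟨m, ?_⟩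
  rw [UpperHalfPlane.isBoundedAtImInfty_iff]
  refine ⟨C, 1, fun τ hτ => ?_⟩
  have h1 := h τ hτ
  have hq : ‖qh 1 τ‖ = Real.exp (-2 * π * τ.im) := by
    rw [qh_apply, Function.Periodic.norm_qParam]
    simp
  rw [Pi.mul_apply, Pi.pow_apply, norm_mul, norm_pow, hq, ← Real.exp_nat_mul]
  calc ‖f τ‖ * Real.exp (m * (-2 * π * τ.im))
      ≤ C * Real.exp (2 * π * m * τ.im) * Real.exp (m * (-2 * π * τ.im)) :=
        mul_le_mul_of_nonneg_right h1 (Real.exp_pos _).le
    _ = C := by
        rw [mul_assoc, ← Real.exp_add]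
        have : 2 * π * m * τ.im + m * (-2 * π * τ.im) = 0 := by ring
        rw [this, Real.exp_zero, mul_one]

theorem isMerInf_of_mem_goodRing {f : ℍ → ℂ} (hf : f ∈ goodRing N) : IsMerInf 1 f := by
  obtain ⟨h1, h2, h3⟩ := hf
  refine ⟨h1, ?_, ?_⟩
  · have := periodic_of_invariant h2
    simpa using this
  · have h := h3 1
    simp only [one_smul] at h
    exact isBounded_mul_qh_pow_of_expGrowth h

theorem hasQExp_of_mem_goodRing {f : ℍ → ℂ} (hf : f ∈ goodRing N) :
    HasQExp 1 f (qexpFun 1 f) :=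
  HasQExp.of_isMerInf (isMerInf_of_mem_goodRing hf)

variable (N)

/-- The algebra of `q`-expansions of good functions of level `N`. -/
def goodQ : Subalgebra ℂ (LaurentSeries ℂ) where
  carrier := {b | ∃ f ∈ goodRing N, HasQExp 1 f b}
  mul_mem' := by
    rintro a b ⟨f, hf, hfa⟩ ⟨g, hg, hgb⟩
    exact ⟨f * g, (goodRing N).mul_mem hf hg, hfa.mul hgb⟩
  add_mem' := by
    rintro a b ⟨f, hf, hfa⟩ ⟨g, hg, hgb⟩
    exact ⟨f + g, (goodRing N).add_mem hf hg, hfa.add hgb⟩
  algebraMap_mem' := fun c => by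
    refine ⟨fun _ => c, (goodRing N).algebraMap_mem c, ?_⟩
    have : algebraMap ℂ (LaurentSeries ℂ) c = HahnSeries.C c := by
      rw [algebraMap_laurentSeries_eq_single]; rfl
    rw [this]
    exact HasQExp.const 1 c

variable {N}

theorem mem_goodQ {b : LaurentSeries ℂ} :
    b ∈ goodQ N ↔ ∃ f ∈ goodRing N, HasQExp 1 f b := Iff.rfl

theorem qexpFun_mem_goodQ {f : ℍ → ℂ} (hf : f ∈ goodRing N) : qexpFun 1 f ∈ goodQ N :=
  ⟨f, hf, hasQExp_of_mem_goodRing hf⟩

variable (N) in
theorem AK_le_goodQ [NeZero N] : AK ℂ N ≤ goodQ N := by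
  intro b hb
  have hJ : ∃ C : ℝ, ∀ τ : ℍ, τ ∈ 𝒟 → ‖JFun.jFun τ‖ ≤ C * Real.exp (2 * π * τ.im) := by
    rw [jFun_eq_H648]
    exact Fermat.Agent.S24.H648.jFun_bound_fd
  exact exists_goodRing_hasQExp N hJ hb

variable (N) in
theorem JK_mem_goodQ [NeZero N] : JK ℂ ∈ goodQ N := AK_le_goodQ N (JK_mem_AK ℂ N)

/-- Every `q`-expansion of a good function is a root of a monic polynomial of degree
`[SL₂(ℤ) : Γ₀(N)]` over `ℂ[j]`. -/
theorem exists_monic_of_mem_goodQ [NeZero N] {b : LaurentSeries ℂ} (hb : b ∈ goodQ N) :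
    ∃ P : ℂ[X][X], P.Monic ∧ P.natDegree = Nat.card (XX N) ∧
      P.eval₂ (evJ (JK ℂ)) b = 0 := by
  obtain ⟨f, hf, hfb⟩ := hb
  haveI : Finite (SL(2, ℤ) ⧸ Gamma0 N) := inferInstanceAs (Finite (XX N))
  letI : Fintype (SL(2, ℤ) ⧸ Gamma0 N) := Fintype.ofFinite _
  obtain ⟨P, hPm, hPn, hP⟩ := exists_charPoly_jFun_eval_eq_zero (N := N) hf
  refine ⟨P, hPm, ?_, ?_⟩
  · rw [hPn, Nat.card_eq_fintype_card]
  · have h1 := hasQExp_eval₂ P hfb
    rw [h1.eq_zero_iff]
    funext τ
    exact hP τ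

theorem algDeg_of_mem_goodQ [NeZero N] {b : LaurentSeries ℂ} (hb : b ∈ goodQ N) :
    AlgDeg ℂ (Nat.card (XX N)) b := by
  obtain ⟨P, hPm, hPn, hP⟩ := exists_monic_of_mem_goodQ hb
  exact ⟨P, hPm.ne_zero, hPn.le, hP⟩

end Fermat.Agent.S29.H882

end
end
-- ===== PACK-END S29/H882/GoodQ.lean

-- ===== PACK-BEGIN S24/Alg/Open.lean
section



/-!
# S24 / ALG — the fundamental equality (FF1)

INTERFACE FILE (statement by helper984).  Proof: helper804's Dedekind dictionary
(`Fermat.Agent.S24.FF.finite_setOf_ord_pos`, `Fermat.Agent.S24.FF.sum_ord_eq_finrank`).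
-/

set_option autoImplicit false

noncomputable section

open AlgebraicCurve

namespace Fermat.Agent.S24

variable {K F : Type*} [Field K] [Field F] [Algebra K F] [IsAlgClosed K] [CharZero K]

/-- FF1 (fundamental equality): the zeros of a transcendental `t` are finite in number and
`∑_{v | t} ord_v t = [F : K(t)]`. -/
theorem open_fundamental_eq (t : F) (ht : Transcendental K t)
    [FiniteDimensional ↥(IntermediateField.adjoin K {t}) F] :
    ∃ s : Finset (Place K F), (∀ v : Place K F, v ∈ s ↔ 0 < v.ord t) ∧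
      ∑ v ∈ s, v.ord t = (Module.finrank ↥(IntermediateField.adjoin K {t}) F : ℤ) :=
  ⟨(FF.finite_setOf_ord_pos ht).toFinset, fun v => by simp,
    FF.sum_ord_eq_finrank ht _ (fun v => by simp)⟩

end Fermat.Agent.S24

end
end
-- ===== PACK-END S24/Alg/Open.lean

-- ===== PACK-BEGIN S28/H568/Series.lean
section



/-!
# S28 / H568 — formal preliminaries on `LaurentSeries ℂ`

* order / leading coefficient of integer powers and finite products;
* the subring of Laurent series with coefficients in a subring `C ⊆ ℂ`;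
* `InfExp` for integer powers and finite products.
-/

set_option autoImplicit false

noncomputable section

open HahnSeries ModularCurve UpperHalfPlane Complex
open scoped Real

namespace Fermat.Agent.S28.H568

open Fermat.Agent.S24

/-! ### order and leading coefficient -/

section Order

variable {K : Type*} [Field K]

theorem order_inv' {x : LaurentSeries K} (hx : x ≠ 0) : (x⁻¹).order = -x.order := by
  have h := HahnSeries.order_mul hx (inv_ne_zero hx)
  rw [mul_inv_cancel₀ hx, HahnSeries.order_one] at h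
  linarith

theorem leadingCoeff_inv' (x : LaurentSeries K) : (x⁻¹).leadingCoeff = x.leadingCoeff⁻¹ := by
  rcases eq_or_ne x 0 with rfl | hx
  · simp
  · have h := HahnSeries.leadingCoeff_mul x x⁻¹
    rw [mul_inv_cancel₀ hx, HahnSeries.leadingCoeff_one] at h
    exact eq_inv_of_mul_eq_one_right h.symm

theorem order_pow' {x : LaurentSeries K} (hx : x ≠ 0) (n : ℕ) :
    (x ^ n).order = n * x.order := by
  induction n with
  | zero => simp
  | succ n ih =>
    rw [pow_succ, HahnSeries.order_mul (pow_ne_zero n hx) hx, ih]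
    push_cast
    ring

theorem leadingCoeff_pow' (x : LaurentSeries K) (n : ℕ) :
    (x ^ n).leadingCoeff = x.leadingCoeff ^ n := by
  induction n with
  | zero => simp
  | succ n ih => rw [pow_succ, HahnSeries.leadingCoeff_mul, ih, pow_succ]

theorem order_zpow' {x : LaurentSeries K} (hx : x ≠ 0) (r : ℤ) :
    (x ^ r).order = r * x.order := by
  obtain ⟨n, rfl | rfl⟩ := r.eq_nat_or_neg
  · rw [zpow_natCast, order_pow' hx]
  · rw [zpow_neg, zpow_natCast, order_inv' (pow_ne_zero n hx), order_pow' hx]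
    ring

theorem leadingCoeff_zpow' (x : LaurentSeries K) (r : ℤ) :
    (x ^ r).leadingCoeff = x.leadingCoeff ^ r := by
  obtain ⟨n, rfl | rfl⟩ := r.eq_nat_or_neg
  · rw [zpow_natCast, zpow_natCast, leadingCoeff_pow']
  · rw [zpow_neg, zpow_natCast, zpow_neg, zpow_natCast, leadingCoeff_inv', leadingCoeff_pow']

theorem order_prod' {ι : Type*} (s : Finset ι) (f : ι → LaurentSeries K)
    (hf : ∀ i ∈ s, f i ≠ 0) : (∏ i ∈ s, f i).order = ∑ i ∈ s, (f i).order := by
  classical
  induction s using Finset.induction_on with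
  | empty => simp
  | insert a s ha ih =>
    rw [Finset.prod_insert ha, Finset.sum_insert ha,
      HahnSeries.order_mul (hf a (Finset.mem_insert_self a s))
        (Finset.prod_ne_zero_iff.mpr fun i hi => hf i (Finset.mem_insert_of_mem hi)),
      ih fun i hi => hf i (Finset.mem_insert_of_mem hi)]

theorem leadingCoeff_prod' {ι : Type*} (s : Finset ι) (f : ι → LaurentSeries K) :
    (∏ i ∈ s, f i).leadingCoeff = ∏ i ∈ s, (f i).leadingCoeff := by
  classical
  induction s using Finset.induction_on with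
  | empty => simp
  | insert a s ha ih =>
    rw [Finset.prod_insert ha, Finset.prod_insert ha, HahnSeries.leadingCoeff_mul, ih]

end Order

/-! ### series with coefficients in a subring -/

section Coeff

variable (C : Subring ℂ)

/-- Laurent series over `ℂ` all of whose coefficients lie in the subring `C`. -/
def coeffSubring : Subring (LaurentSeries ℂ) := (coeffMap C.subtype).range

variable {C}

theorem mem_coeffSubring_iff {φ : LaurentSeries ℂ} :
    φ ∈ coeffSubring C ↔ ∀ n, φ.coeff n ∈ C := by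
  constructor
  · rintro ⟨ψ, rfl⟩ n
    rw [coeffMap_coeff]
    exact (ψ.coeff n).2
  · intro h
    refine ⟨⟨fun n => ⟨φ.coeff n, h n⟩, φ.isPWO_support.mono fun n hn => ?_⟩, ?_⟩
    · simp only [Function.mem_support, ne_eq] at hn
      rw [mem_support]
      intro h0
      exact hn (Subtype.ext h0)
    · ext n
      rw [coeffMap_coeff]
      rfl

theorem C_mem_coeffSubring {c : ℂ} (hc : c ∈ C) : (HahnSeries.C c : LaurentSeries ℂ) ∈
    coeffSubring C := by
  rw [mem_coeffSubring_iff]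
  intro n
  rw [C_apply]
  by_cases hn : n = 0
  · subst hn; simpa using hc
  · rw [coeff_single_of_ne hn]; exact C.zero_mem

theorem qExpand_mem_coeffSubring (e : ℕ) [NeZero e] {φ : LaurentSeries ℂ}
    (hφ : φ ∈ coeffSubring C) : qExpand ℂ e φ ∈ coeffSubring C := by
  rw [mem_coeffSubring_iff] at hφ ⊢
  intro n
  by_cases hn : (e : ℤ) ∣ n
  · obtain ⟨k, rfl⟩ := hn
    rw [qExpand_coeff_mul]
    exact hφ k
  · rw [qExpand_coeff_of_not_dvd e _ hn]
    exact C.zero_mem

theorem infTwist_mem_coeffSubring (u : ℂˣ) (hu : (u : ℂ) ∈ C) (hu' : ((u⁻¹ : ℂˣ) : ℂ) ∈ C)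
    {φ : LaurentSeries ℂ} (hφ : φ ∈ coeffSubring C) : infTwist u φ ∈ coeffSubring C := by
  rw [mem_coeffSubring_iff] at hφ ⊢
  intro n
  rw [infTwist_coeff]
  refine C.mul_mem (hφ n) ?_
  obtain ⟨m, rfl | rfl⟩ := n.eq_nat_or_neg
  · rw [zpow_natCast, Units.val_pow_eq_pow_val]
    exact C.pow_mem hu m
  · rw [zpow_neg, zpow_natCast, ← inv_pow, Units.val_pow_eq_pow_val]
    exact C.pow_mem hu' m

theorem coeffMap_int_mem_coeffSubring (ψ : LaurentSeries ℤ) :
    coeffMap (Int.castRingHom ℂ) ψ ∈ coeffSubring C := by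
  rw [mem_coeffSubring_iff]
  intro n
  rw [coeffMap_coeff]
  exact intCast_mem C _

theorem leadingCoeff_mem_of_mem_coeffSubring {φ : LaurentSeries ℂ} (hφ : φ ∈ coeffSubring C) :
    φ.leadingCoeff ∈ C := by
  rw [leadingCoeff_eq]
  exact mem_coeffSubring_iff.mp hφ _

end Coeff

/-! ### `InfExp` for powers and products -/

section Exp

variable {N : ℕ}

theorem InfExp.pow' {f : ℍ → ℂ} {φ : LaurentSeries ℂ} (hf : InfExp N f φ) (n : ℕ) :
    InfExp N (fun τ => f τ ^ n) (φ ^ n) := by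
  induction n with
  | zero => simpa using (InfExp.one (N := N))
  | succ n ih =>
    have := ih.mul hf
    simpa [pow_succ] using this

theorem InfExp.zpow' {f : ℍ → ℂ} {φ ψ : LaurentSeries ℂ} (hf : InfExp N f φ)
    (hg : InfExp N (fun τ => (f τ)⁻¹) ψ) (hφψ : φ * ψ = 1) (r : ℤ) :
    InfExp N (fun τ => f τ ^ r) (φ ^ r) := by
  have hψ : ψ = φ⁻¹ := eq_inv_of_mul_eq_one_right hφψ
  obtain ⟨n, rfl | rfl⟩ := r.eq_nat_or_neg
  · simpa using InfExp.pow' hf n
  · have := InfExp.pow' hg n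
    rw [hψ] at this
    simpa [zpow_neg, inv_pow] using this

theorem InfExp.prod' {ι : Type*} (s : Finset ι) {f : ι → ℍ → ℂ} {φ : ι → LaurentSeries ℂ}
    (hf : ∀ i ∈ s, InfExp N (f i) (φ i)) :
    InfExp N (fun τ => ∏ i ∈ s, f i τ) (∏ i ∈ s, φ i) := by
  classical
  induction s using Finset.induction_on with
  | empty => simpa using (InfExp.one (N := N))
  | insert a s ha ih =>
    have h1 := hf a (Finset.mem_insert_self a s)
    have h2 := ih fun i hi => hf i (Finset.mem_insert_of_mem hi)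
    have := h1.mul h2
    simpa [Finset.prod_insert ha] using this

end Exp

end Fermat.Agent.S28.H568

end
end
-- ===== PACK-END S28/H568/Series.lean

-- ===== PACK-BEGIN S18/H24/GaussA.lean
section


/-!
# S18 / MOD-ASM, piece G-V (helper24) — part A: integral series and the Gauss valuation ring

Concrete objects of `S18/Mod/Defs.lean`.  `inc = coeffMap A.subtype : A((q)) → Q̄((q))`,
`red = coeffMap (residue A) : A((q)) → κ((q))`.

* `isIntE_iff`                 : `IsIntE M A E U ↔ ∃ f ∈ Fc M E, f = inc U`;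
* `IsIntE.add/mul/neg/...`     : integral series form a ring;
* `Vc M A E : Subring (Om M)`  : the Gauss valuation ring, with carrier `VcSet M A E`
  (`coe_Vc`);
* fields `V_le`, `R_le_V`, `w_inv_not_mem_V` of `Alg.GoodModel`.
-/

set_option autoImplicit false

noncomputable section

namespace Fermat.Agent.S18.H24

open ModularCurve AlgebraicCurve HahnSeries Fermat.Agent.S18 Fermat.Agent.S18.Mod
open Fermat.Agent.S18.H456

variable (M : ℕ) (A : ValuationSubring Qb) (E : IntermediateField ℚ Qb)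

/-- `A((q)) → Q̄((q))`. -/
abbrev inc : LaurentSeries A →+* LaurentSeries Qb := coeffMap A.subtype

/-- `A((q)) → κ((q))`. -/
abbrev red : LaurentSeries A →+* LaurentSeries (IsLocalRing.ResidueField A) :=
  coeffMap (IsLocalRing.residue A)

variable {A} in
theorem inc_injective : Function.Injective (inc A) := by
  intro x y hxy
  ext k
  have := congrArg (fun z => z.coeff k) hxy
  simpa using this

variable {A} in
theorem inc_coeff (U : LaurentSeries A) (n : ℤ) : (inc A U).coeff n = (U.coeff n : Qb) := by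
  rw [coeffMap_coeff]; rfl

variable {A} in
theorem red_coeff (U : LaurentSeries A) (n : ℤ) :
    (red A U).coeff n = IsLocalRing.residue A (U.coeff n) := by
  rw [coeffMap_coeff]

variable {A} in
/-- A series over `Q̄` with coefficients in `A` comes from `A((q))`. -/
theorem exists_inc_eq {g : LaurentSeries Qb} (hg : ∀ n, g.coeff n ∈ A) :
    ∃ U : LaurentSeries A, inc A U = g := by
  have hsupp : (Function.support fun n => (⟨g.coeff n, hg n⟩ : A)) = g.support := by
    ext n
    simp only [Function.mem_support, HahnSeries.mem_support, ne_eq]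
    constructor
    · intro h h0
      exact h (Subtype.ext h0)
    · intro h h0
      exact h (congrArg Subtype.val h0)
  refine ⟨⟨fun n => ⟨g.coeff n, hg n⟩, ?_⟩, ?_⟩
  · rw [hsupp]; exact g.isPWO_support
  · ext n
    rw [inc_coeff]

variable {A} in
theorem red_eq_zero_iff (U : LaurentSeries A) :
    red A U = 0 ↔ ∀ n, U.coeff n ∈ IsLocalRing.maximalIdeal A := by
  constructor
  · intro h n
    have := congrArg (fun z => z.coeff n) h
    simp only [red_coeff, HahnSeries.coeff_zero] at this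
    exact (IsLocalRing.residue_eq_zero_iff _).mp this
  · intro h
    ext n
    rw [red_coeff, HahnSeries.coeff_zero]
    exact (IsLocalRing.residue_eq_zero_iff _).mpr (h n)

variable {A} in
/-- an element of `A` is in the maximal ideal iff it is `0` or its inverse is not in `A`. -/
theorem mem_maximalIdeal_iff (c : A) :
    c ∈ IsLocalRing.maximalIdeal A ↔ (c : Qb) = 0 ∨ (c : Qb)⁻¹ ∉ A := by
  rw [IsLocalRing.mem_maximalIdeal, mem_nonunits_iff]
  constructor
  · intro h
    by_contra hcon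
    rw [not_or, not_not] at hcon
    apply h
    exact isUnit_iff_exists_inv.mpr ⟨⟨(c : Qb)⁻¹, hcon.2⟩, Subtype.ext (by
      show (c : Qb) * (c : Qb)⁻¹ = 1
      exact mul_inv_cancel₀ hcon.1)⟩
  · rintro (h | h) hu
    · have : c = 0 := Subtype.ext h
      rw [this] at hu
      exact not_isUnit_zero hu
    · obtain ⟨d, hd⟩ := isUnit_iff_exists_inv.mp hu
      apply h
      have h1 : (c : Qb) * (d : Qb) = 1 := congrArg Subtype.val hd
      have : (c : Qb)⁻¹ = d := inv_eq_of_mul_eq_one_right h1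
      rw [this]; exact d.2

/-! ### Integral series -/

theorem isIntE_iff {U : LaurentSeries A} :
    IsIntE M A E U ↔ ∃ f ∈ Fc M E, (f : LaurentSeries Qb) = inc A U := by
  constructor
  · exact fun h => h.2
  · rintro ⟨f, hf, hfU⟩
    refine ⟨fun n => ?_, f, hf, hfU⟩
    have := coeff_mem_of_mem_Fc M E hf n
    rw [hfU, inc_coeff] at this
    exact this

variable {M A E}

theorem isIntE_zero : IsIntE M A E 0 :=
  (isIntE_iff M A E).mpr ⟨0, zero_mem _, by simp⟩

theorem isIntE_one : IsIntE M A E 1 :=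
  (isIntE_iff M A E).mpr ⟨1, one_mem _, by simp⟩

theorem IsIntE.add {U U' : LaurentSeries A} (h : IsIntE M A E U) (h' : IsIntE M A E U') :
    IsIntE M A E (U + U') := by
  obtain ⟨f, hf, hfU⟩ := (isIntE_iff M A E).mp h
  obtain ⟨f', hf', hfU'⟩ := (isIntE_iff M A E).mp h'
  exact (isIntE_iff M A E).mpr ⟨f + f', add_mem hf hf', by
    rw [map_add, ← hfU, ← hfU']; rfl⟩

theorem IsIntE.mul {U U' : LaurentSeries A} (h : IsIntE M A E U) (h' : IsIntE M A E U') :
    IsIntE M A E (U * U') := by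
  obtain ⟨f, hf, hfU⟩ := (isIntE_iff M A E).mp h
  obtain ⟨f', hf', hfU'⟩ := (isIntE_iff M A E).mp h'
  exact (isIntE_iff M A E).mpr ⟨f * f', mul_mem hf hf', by
    rw [map_mul, ← hfU, ← hfU']; rfl⟩

theorem IsIntE.neg {U : LaurentSeries A} (h : IsIntE M A E U) : IsIntE M A E (-U) := by
  obtain ⟨f, hf, hfU⟩ := (isIntE_iff M A E).mp h
  exact (isIntE_iff M A E).mpr ⟨-f, neg_mem hf, by
    rw [map_neg, ← hfU]; rfl⟩

theorem IsIntE.pow {U : LaurentSeries A} (h : IsIntE M A E U) (n : ℕ) : IsIntE M A E (U ^ n) := by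
  induction n with
  | zero => rw [pow_zero]; exact isIntE_one
  | succ n ih => rw [pow_succ]; exact IsIntE.mul ih h

/-- A constant `c ∈ A ∩ E` as an integral series. -/
theorem isIntE_C {c : A} (hc : (c : Qb) ∈ E) : IsIntE M A E (HahnSeries.C c) := by
  refine (isIntE_iff M A E).mpr ⟨cst M (c : Qb), field_E_le_F M E (cst_mem_Ec M E hc), ?_⟩
  rw [val_cst]
  ext n
  rw [inc_coeff]
  by_cases hn : n = 0
  · subst hn
    simp [HahnSeries.C_apply]
  · rw [HahnSeries.coeff_single_of_ne hn]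
    have : (HahnSeries.C c : LaurentSeries A).coeff n = 0 := by
      rw [HahnSeries.C_apply, HahnSeries.coeff_single_of_ne hn]
    rw [this]; rfl

theorem inc_C (c : A) : inc A (HahnSeries.C c) = HahnSeries.C (c : Qb) := by
  ext n
  rw [inc_coeff]
  by_cases hn : n = 0
  · subst hn
    simp [HahnSeries.C_apply]
  · rw [HahnSeries.C_apply, HahnSeries.C_apply, HahnSeries.coeff_single_of_ne hn,
      HahnSeries.coeff_single_of_ne hn]
    rfl

theorem red_C (c : A) : red A (HahnSeries.C c) = HahnSeries.C (IsLocalRing.residue A c) := by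
  ext n
  rw [red_coeff]
  by_cases hn : n = 0
  · subst hn
    simp [HahnSeries.C_apply]
  · rw [HahnSeries.C_apply, HahnSeries.C_apply, HahnSeries.coeff_single_of_ne hn,
      HahnSeries.coeff_single_of_ne hn, map_zero]

/-! ### The Gauss valuation ring -/

theorem mem_VcSet_iff {f : Om M} :
    f ∈ VcSet M A E ↔ f ∈ Fc M E ∧ ∃ U₁ U₂ : LaurentSeries A, IsIntE M A E U₁ ∧ IsIntE M A E U₂ ∧
      red A U₂ ≠ 0 ∧ (f : LaurentSeries Qb) * inc A U₂ = inc A U₁ := Iff.rfl

/-- An integral series defines an element of `V`. -/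
theorem mem_VcSet_of_isIntE {f : Om M} {U : LaurentSeries A} (hU : IsIntE M A E U)
    (hf : (f : LaurentSeries Qb) = inc A U) : f ∈ VcSet M A E := by
  obtain ⟨g, hg, hgU⟩ := (isIntE_iff M A E).mp hU
  have hfg : f = g := Subtype.ext (by rw [hf, hgU])
  refine ⟨hfg ▸ hg, U, 1, hU, isIntE_one, ?_, ?_⟩
  · rw [map_one]; exact one_ne_zero
  · rw [map_one, mul_one, hf]

variable (M A E) in
/-- The Gauss valuation ring `V` of `Fc`, as a subring of `Ω`. -/
def Vc : Subring (Om M) where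
  carrier := VcSet M A E
  zero_mem' := mem_VcSet_of_isIntE isIntE_zero (by simp)
  one_mem' := mem_VcSet_of_isIntE isIntE_one (by simp)
  add_mem' := by
    rintro f g ⟨hf, U₁, U₂, h₁, h₂, hr, hfU⟩ ⟨hg, W₁, W₂, k₁, k₂, kr, hgW⟩
    refine ⟨add_mem hf hg, U₁ * W₂ + W₁ * U₂, U₂ * W₂, IsIntE.add (IsIntE.mul h₁ k₂) (IsIntE.mul k₁ h₂), IsIntE.mul h₂ k₂,
      ?_, ?_⟩
    · rw [map_mul]; exact mul_ne_zero hr kr
    · show ((f : LaurentSeries Qb) + (g : LaurentSeries Qb)) * inc A (U₂ * W₂) = _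
      rw [map_mul, map_add, map_mul, map_mul, ← hfU, ← hgW]
      ring
  mul_mem' := by
    rintro f g ⟨hf, U₁, U₂, h₁, h₂, hr, hfU⟩ ⟨hg, W₁, W₂, k₁, k₂, kr, hgW⟩
    refine ⟨mul_mem hf hg, U₁ * W₁, U₂ * W₂, IsIntE.mul h₁ k₁, IsIntE.mul h₂ k₂, ?_, ?_⟩
    · rw [map_mul]; exact mul_ne_zero hr kr
    · show ((f : LaurentSeries Qb) * (g : LaurentSeries Qb)) * inc A (U₂ * W₂) = _
      rw [map_mul, map_mul, ← hfU, ← hgW]
      ring
  neg_mem' := by
    rintro f ⟨hf, U₁, U₂, h₁, h₂, hr, hfU⟩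
    refine ⟨neg_mem hf, -U₁, U₂, IsIntE.neg h₁, h₂, hr, ?_⟩
    show (-(f : LaurentSeries Qb)) * inc A U₂ = _
    rw [map_neg, ← hfU]
    ring

variable (M A E) in
theorem coe_Vc : (Vc M A E : Set (Om M)) = VcSet M A E := rfl

theorem mem_Vc_iff {f : Om M} : f ∈ Vc M A E ↔ f ∈ VcSet M A E := Iff.rfl

variable (M A E) in
/-- field `V_le`. -/
theorem field_V_le : (Vc M A E : Set (Om M)) ⊆ Fc M E := fun _ hf => hf.1

variable (M A E) in
/-- field `R_le_V`. -/
theorem field_R_le_V : Rc M A E ≤ Vc M A E := by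
  intro r hr
  obtain ⟨c, hcA, hcE, rfl⟩ := (mem_Rc_iff M A E).mp hr
  refine mem_VcSet_of_isIntE (U := HahnSeries.C (⟨c, hcA⟩ : A)) (isIntE_C hcE) ?_
  rw [val_cst, inc_C]
  rfl

/-- field `w_inv_not_mem_V`: a non-unit `w₀ ≠ 0` of `A` is not invertible in `V`. -/
theorem field_w_inv_not_mem_V {w₀ : Qb} (hw0 : w₀ ≠ 0) (hwn : w₀⁻¹ ∉ A) :
    (cst M w₀)⁻¹ ∉ Vc M A E := by
  rintro ⟨-, U₁, U₂, -, -, hr, hU⟩
  apply hr
  rw [red_eq_zero_iff]
  intro n
  rw [mem_maximalIdeal_iff]
  have hval : (((cst M w₀)⁻¹ : Om M) : LaurentSeries Qb) = HahnSeries.C (w₀⁻¹) := by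
    rw [← map_inv₀]
    exact val_cst M _
  rw [hval] at hU
  have hn := congrArg (fun z => z.coeff n) hU
  simp only [HahnSeries.C_mul_eq_smul, HahnSeries.coeff_smul, inc_coeff, smul_eq_mul] at hn
  by_cases h0 : ((U₂.coeff n : A) : Qb) = 0
  · exact Or.inl h0
  · right
    intro hinv
    apply hwn
    have : w₀⁻¹ = (U₁.coeff n : Qb) * ((U₂.coeff n : A) : Qb)⁻¹ := by
      rw [← hn]; field_simp
    rw [this]
    exact A.mul_mem _ _ (U₁.coeff n).2 hinv

end Fermat.Agent.S18.H24

end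
end
-- ===== PACK-END S18/H24/GaussA.lean

-- ===== PACK-BEGIN S18/H24/GaussB.lean
section


/-!
# S18 / MOD-ASM, piece G-V (helper24) — part B: `V_gen`, primitive parts, `V_total`

`IsUnif A E w₀` : `w₀` is a uniformiser of the discrete valuation ring `A ∩ E` (element-wise form,
to be supplied by G-R).  With `w = cst M w₀`:

* `field_V_gen`          : `f ∈ V`, `f⁻¹ ∉ V` ⟹ `f/w ∈ V`;
* `exists_primitive`     : a nonzero integral series is `w₀^a ·` (integral series with nonzero
                           reduction);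
* `exists_gauss_form`    : every `f ≠ 0` in `Fc` is `w^n · U₁/U₂` with `U₁, U₂` integral of nonzero
                           reduction;
* `field_V_total`        : `f ∈ V ∨ f⁻¹ ∈ V` for `f ∈ Fc`.
-/

set_option autoImplicit false

noncomputable section

namespace Fermat.Agent.S18.H24

open ModularCurve AlgebraicCurve HahnSeries Fermat.Agent.S18 Fermat.Agent.S18.Mod
open Fermat.Agent.S18.H456

/-- `w₀` is a uniformiser of the discrete valuation ring `A ∩ E`. -/
structure IsUnif (A : ValuationSubring Qb) (E : IntermediateField ℚ Qb) (w₀ : Qb) : Prop where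
  mem_A : w₀ ∈ A
  mem_E : w₀ ∈ E
  ne_zero : w₀ ≠ 0
  inv_not_mem : w₀⁻¹ ∉ A
  gen : ∀ c, c ∈ A → c ∈ E → c⁻¹ ∉ A → c * w₀⁻¹ ∈ A
  discrete : ∀ c, c ∈ A → c ∈ E → c ≠ 0 →
    ∃ n : ℕ, c * (w₀⁻¹) ^ n ∈ A ∧ (c * (w₀⁻¹) ^ n)⁻¹ ∈ A

variable {M : ℕ} {A : ValuationSubring Qb} {E : IntermediateField ℚ Qb}

theorem val_inv (f : Om M) : ((f⁻¹ : Om M) : LaurentSeries Qb) = (f : LaurentSeries Qb)⁻¹ := rfl

theorem val_mul (f g : Om M) :
    ((f * g : Om M) : LaurentSeries Qb) = (f : LaurentSeries Qb) * (g : LaurentSeries Qb) := rfl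

theorem val_cst' (c : Qb) : ((cst M c : Om M) : LaurentSeries Qb) = HahnSeries.C c := by
  rw [val_cst]; rfl

theorem val_eq_zero_iff {f : Om M} : (f : LaurentSeries Qb) = 0 ↔ f = 0 :=
  ⟨fun h => Subtype.ext h, fun h => by rw [h]; rfl⟩

theorem red_ne_zero_imp_inc_ne_zero {U : LaurentSeries A} (h : red A U ≠ 0) : inc A U ≠ 0 := by
  intro h0
  apply h
  have : U = 0 := inc_injective (by rw [h0, map_zero])
  rw [this, map_zero]

/-- Dividing an integral series with zero reduction by the uniformiser. -/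
theorem exists_div_unif {w₀ : Qb} (hw : _root_.Fermat.Agent.S18.H24.IsUnif A E w₀) {U : LaurentSeries A}
    (hU : IsIntE M A E U) (hred : red A U = 0) :
    ∃ U' : LaurentSeries A, IsIntE M A E U' ∧ inc A U' = HahnSeries.C (w₀⁻¹) * inc A U := by
  have hcoef : ∀ n, (HahnSeries.C (w₀⁻¹) * inc A U).coeff n ∈ A := by
    intro n
    rw [HahnSeries.C_mul_eq_smul, HahnSeries.coeff_smul, inc_coeff, smul_eq_mul, mul_comm]
    have hm := (red_eq_zero_iff U).mp hred n
    rcases (mem_maximalIdeal_iff _).mp hm with h0 | hni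
    · rw [h0, zero_mul]; exact A.zero_mem
    · exact hw.gen _ (U.coeff n).2 (hU.1 n) hni
  obtain ⟨U', hU'⟩ := exists_inc_eq hcoef
  refine ⟨U', ?_, hU'⟩
  obtain ⟨f, hf, hfU⟩ := hU.2
  refine (isIntE_iff M A E).mpr ⟨(cst M w₀)⁻¹ * f, ?_, ?_⟩
  · exact mul_mem (inv_mem (field_E_le_F M E (cst_mem_Ec M E hw.mem_E))) hf
  · rw [hU', val_mul, val_inv, val_cst', hfU, ← map_inv₀]

variable (M) in
/-- field `V_gen`. -/
theorem field_V_gen {w₀ : Qb} (hw : _root_.Fermat.Agent.S18.H24.IsUnif A E w₀) :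
    ∀ f ∈ Vc M A E, f⁻¹ ∉ Vc M A E → f * (cst M w₀)⁻¹ ∈ Vc M A E := by
  rintro f ⟨hfF, U₁, U₂, h₁, h₂, hr, hfU⟩ hfinv
  have hf0 : f ≠ 0 := by
    rintro rfl
    rw [inv_zero] at hfinv
    exact hfinv (zero_mem _)
  have hfv0 : (f : LaurentSeries Qb) ≠ 0 := fun h => hf0 (val_eq_zero_iff.mp h)
  have hred : red A U₁ = 0 := by
    by_contra hne
    apply hfinv
    refine ⟨inv_mem hfF, U₂, U₁, h₂, h₁, hne, ?_⟩
    rw [val_inv, ← hfU]
    field_simp
  obtain ⟨U', hU', hU'eq⟩ := exists_div_unif hw h₁ hred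
  refine ⟨mul_mem hfF (inv_mem (field_E_le_F M E (cst_mem_Ec M E hw.mem_E))), U', U₂, hU', h₂, hr,
    ?_⟩
  rw [hU'eq, val_mul, val_inv, val_cst', ← hfU, ← map_inv₀]
  ring

/-! ### Primitive parts -/

theorem unit_mul_pow_mem {w₀ : Qb} (hw : _root_.Fermat.Agent.S18.H24.IsUnif A E w₀) {c : Qb} {k a : ℕ} (hak : a ≤ k)
    (hc : c * (w₀⁻¹) ^ k ∈ A) : c * (w₀⁻¹) ^ a ∈ A := by
  obtain ⟨d, rfl⟩ := Nat.exists_eq_add_of_le hak
  have : c * (w₀⁻¹) ^ a = c * (w₀⁻¹) ^ (a + d) * w₀ ^ d := by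
    rw [_root_.pow_add, inv_pow, inv_pow]
    have := hw.ne_zero
    field_simp
  rw [this]
  exact A.mul_mem _ _ hc (pow_mem hw.mem_A d)

/-- A nonzero integral series is a power of the uniformiser times an integral series with
nonzero reduction. -/
theorem exists_primitive {w₀ : Qb} (hw : _root_.Fermat.Agent.S18.H24.IsUnif A E w₀) {U : LaurentSeries A}
    (hU : IsIntE M A E U) (hU0 : U ≠ 0) :
    ∃ (a : ℕ) (U₀ : LaurentSeries A), IsIntE M A E U₀ ∧ red A U₀ ≠ 0 ∧
      inc A U = HahnSeries.C (w₀ ^ a) * inc A U₀ := by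
  classical
  -- the set of valuations of nonzero coefficients
  have hex : ∃ k : ℕ, ∃ n : ℤ, U.coeff n ≠ 0 ∧ (U.coeff n : Qb) * (w₀⁻¹) ^ k ∈ A ∧
      ((U.coeff n : Qb) * (w₀⁻¹) ^ k)⁻¹ ∈ A := by
    obtain ⟨n, hn⟩ : ∃ n, U.coeff n ≠ 0 := by
      by_contra h
      push Not at h
      exact hU0 (HahnSeries.ext (funext h))
    have hn' : (U.coeff n : Qb) ≠ 0 := fun h => hn (Subtype.ext h)
    obtain ⟨k, hk1, hk2⟩ := hw.discrete _ (U.coeff n).2 (hU.1 n) hn'
    exact ⟨k, n, hn, hk1, hk2⟩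
  set a := Nat.find hex with ha
  obtain ⟨n₀, hn₀, hn₀1, hn₀2⟩ := Nat.find_spec hex
  have hmin : ∀ k, (∃ n : ℤ, U.coeff n ≠ 0 ∧ (U.coeff n : Qb) * (w₀⁻¹) ^ k ∈ A ∧
      ((U.coeff n : Qb) * (w₀⁻¹) ^ k)⁻¹ ∈ A) → a ≤ k := fun k hk => Nat.find_min' hex hk
  have hcoef : ∀ n, (HahnSeries.C ((w₀⁻¹) ^ a) * inc A U).coeff n ∈ A := by
    intro n
    rw [HahnSeries.C_mul_eq_smul, HahnSeries.coeff_smul, inc_coeff, smul_eq_mul, mul_comm]
    by_cases hn : U.coeff n = 0
    · rw [hn]; simp
    · have hn' : (U.coeff n : Qb) ≠ 0 := fun h => hn (Subtype.ext h)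
      obtain ⟨k, hk1, hk2⟩ := hw.discrete _ (U.coeff n).2 (hU.1 n) hn'
      exact unit_mul_pow_mem hw (hmin k ⟨n, hn, hk1, hk2⟩) hk1
  obtain ⟨U₀, hU₀⟩ := exists_inc_eq hcoef
  have hw0 := hw.ne_zero
  refine ⟨a, U₀, ?_, ?_, ?_⟩
  · obtain ⟨f, hf, hfU⟩ := hU.2
    refine (isIntE_iff M A E).mpr ⟨((cst M w₀)⁻¹) ^ a * f, ?_, ?_⟩
    · exact mul_mem (pow_mem (inv_mem (field_E_le_F M E (cst_mem_Ec M E hw.mem_E))) _) hf
    · rw [hU₀, val_mul, hfU]
      congr 1
      show (((cst M w₀)⁻¹ ^ a : Om M) : LaurentSeries Qb) = _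
      rw [← map_inv₀, ← map_pow]
      exact val_cst' _
  · intro hred
    have hm := (red_eq_zero_iff U₀).mp hred n₀
    rcases (mem_maximalIdeal_iff _).mp hm with h0 | hni
    · have h1 : ((U₀.coeff n₀ : A) : Qb) = (U.coeff n₀ : Qb) * (w₀⁻¹) ^ a := by
        rw [← inc_coeff, hU₀, HahnSeries.C_mul_eq_smul, HahnSeries.coeff_smul, inc_coeff,
          smul_eq_mul, mul_comm]
      rw [h1] at h0
      have hn₀' : (U.coeff n₀ : Qb) ≠ 0 := fun h => hn₀ (Subtype.ext h)
      exact mul_ne_zero hn₀' (pow_ne_zero _ (inv_ne_zero hw0)) h0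
    · apply hni
      have h1 : ((U₀.coeff n₀ : A) : Qb) = (U.coeff n₀ : Qb) * (w₀⁻¹) ^ a := by
        rw [← inc_coeff, hU₀, HahnSeries.C_mul_eq_smul, HahnSeries.coeff_smul, inc_coeff,
          smul_eq_mul, mul_comm]
      rw [h1]
      exact hn₀2
  · rw [hU₀, ← mul_assoc, ← map_mul, inv_pow, mul_inv_cancel₀ (pow_ne_zero _ hw0), map_one,
      one_mul]

/-! ### The Gauss normal form -/

/-- `f = w^n · U₁ / U₂` with integral `U₁, U₂` of nonzero reduction. -/
def GaussForm (M : ℕ) (A : ValuationSubring Qb) (E : IntermediateField ℚ Qb) (w₀ : Qb)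
    (f : Om M) : Prop :=
  ∃ (n : ℤ) (U₁ U₂ : LaurentSeries A), IsIntE M A E U₁ ∧ IsIntE M A E U₂ ∧
    red A U₁ ≠ 0 ∧ red A U₂ ≠ 0 ∧
    (f : LaurentSeries Qb) * inc A U₂ = HahnSeries.C w₀ ^ n * inc A U₁

theorem GaussForm.ne_zero {w₀ : Qb} (hw0 : w₀ ≠ 0) {f : Om M} (h : GaussForm M A E w₀ f) :
    f ≠ 0 := by
  rintro rfl
  obtain ⟨n, U₁, U₂, -, -, hr₁, -, heq⟩ := h
  have h1 : (HahnSeries.C w₀ : LaurentSeries Qb) ≠ 0 := by
    intro h
    exact hw0 (HahnSeries.C_injective (by rw [h, map_zero]))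
  have : HahnSeries.C w₀ ^ n * inc A U₁ = 0 := by
    rw [← heq]
    show (0 : LaurentSeries Qb) * _ = 0
    rw [zero_mul]
  rcases mul_eq_zero.mp this with h | h
  · exact zpow_ne_zero n h1 h
  · exact red_ne_zero_imp_inc_ne_zero hr₁ h

theorem C_ne_zero' {w₀ : Qb} (hw0 : w₀ ≠ 0) : (HahnSeries.C w₀ : LaurentSeries Qb) ≠ 0 := by
  intro h
  exact hw0 (HahnSeries.C_injective (by rw [h, map_zero]))

theorem GaussForm.inv {w₀ : Qb} (hw0 : w₀ ≠ 0) {f : Om M} (h : GaussForm M A E w₀ f) :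
    GaussForm M A E w₀ f⁻¹ := by
  have hf0 := h.ne_zero hw0
  obtain ⟨n, U₁, U₂, h₁, h₂, hr₁, hr₂, heq⟩ := h
  refine ⟨-n, U₂, U₁, h₂, h₁, hr₂, hr₁, ?_⟩
  have hfv0 : (f : LaurentSeries Qb) ≠ 0 := fun h => hf0 (val_eq_zero_iff.mp h)
  have hC := C_ne_zero' hw0
  have hCn : (HahnSeries.C w₀ : LaurentSeries Qb) ^ n ≠ 0 := zpow_ne_zero n hC
  rw [val_inv, zpow_neg]
  have h1 : inc A U₁ = (HahnSeries.C w₀ ^ n)⁻¹ * ((f : LaurentSeries Qb) * inc A U₂) := by
    rw [heq, ← mul_assoc, inv_mul_cancel₀ hCn, one_mul]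
  rw [h1]
  field_simp

theorem GaussForm.mul {w₀ : Qb} (hw0 : w₀ ≠ 0) {f g : Om M} (hf : GaussForm M A E w₀ f)
    (hg : GaussForm M A E w₀ g) : GaussForm M A E w₀ (f * g) := by
  obtain ⟨n, U₁, U₂, h₁, h₂, hr₁, hr₂, heq⟩ := hf
  obtain ⟨n', W₁, W₂, k₁, k₂, kr₁, kr₂, heq'⟩ := hg
  refine ⟨n + n', U₁ * W₁, U₂ * W₂, IsIntE.mul h₁ k₁, IsIntE.mul h₂ k₂, ?_, ?_, ?_⟩
  · rw [map_mul]; exact mul_ne_zero hr₁ kr₁
  · rw [map_mul]; exact mul_ne_zero hr₂ kr₂
  · rw [val_mul, map_mul, map_mul, zpow_add₀ (C_ne_zero' hw0)]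
    calc (f : LaurentSeries Qb) * (g : LaurentSeries Qb) * (inc A U₂ * inc A W₂)
        = ((f : LaurentSeries Qb) * inc A U₂) * ((g : LaurentSeries Qb) * inc A W₂) := by ring
      _ = _ := by rw [heq, heq']; ring

theorem GaussForm.neg {w₀ : Qb} {f : Om M} (hf : GaussForm M A E w₀ f) :
    GaussForm M A E w₀ (-f) := by
  obtain ⟨n, U₁, U₂, h₁, h₂, hr₁, hr₂, heq⟩ := hf
  refine ⟨n, -U₁, U₂, IsIntE.neg h₁, h₂, ?_, hr₂, ?_⟩
  · rw [map_neg]; exact neg_ne_zero.mpr hr₁
  · show (-(f : LaurentSeries Qb)) * inc A U₂ = _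
    rw [map_neg, neg_mul, heq, mul_neg]

/-- The sum of two Gauss forms (with `n ≤ n'`) is `0` or a Gauss form. -/
theorem GaussForm.add_aux {w₀ : Qb} (hw : _root_.Fermat.Agent.S18.H24.IsUnif A E w₀) {f g : Om M} {n : ℤ} {d : ℕ}
    {U₁ U₂ W₁ W₂ : LaurentSeries A}
    (h₁ : IsIntE M A E U₁) (h₂ : IsIntE M A E U₂) (hr₂ : red A U₂ ≠ 0)
    (heq : (f : LaurentSeries Qb) * inc A U₂ = HahnSeries.C w₀ ^ n * inc A U₁)
    (k₁ : IsIntE M A E W₁) (k₂ : IsIntE M A E W₂) (kr₂ : red A W₂ ≠ 0)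
    (heq' : (g : LaurentSeries Qb) * inc A W₂ = HahnSeries.C w₀ ^ (n + d) * inc A W₁) :
    f + g = 0 ∨ GaussForm M A E w₀ (f + g) := by
  have hw0 := hw.ne_zero
  have hC := C_ne_zero' hw0
  -- the numerator
  set Nn : LaurentSeries A := U₁ * W₂ + HahnSeries.C (⟨w₀, hw.mem_A⟩ ^ d : A) * W₁ * U₂ with hNn
  have hNint : IsIntE M A E Nn := by
    refine IsIntE.add (IsIntE.mul h₁ k₂) (IsIntE.mul (IsIntE.mul ?_ k₁) h₂)
    refine isIntE_C ?_
    show ((⟨w₀, hw.mem_A⟩ ^ d : A) : Qb) ∈ E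
    rw [SubmonoidClass.coe_pow]
    exact pow_mem hw.mem_E d
  have hincN : inc A Nn = inc A U₁ * inc A W₂ + HahnSeries.C w₀ ^ d * inc A W₁ * inc A U₂ := by
    rw [hNn, map_add, map_mul, map_mul, map_mul, inc_C, SubmonoidClass.coe_pow, map_pow]
  have hden : red A (U₂ * W₂) ≠ 0 := by rw [map_mul]; exact mul_ne_zero hr₂ kr₂
  have hmain : ((f + g : Om M) : LaurentSeries Qb) * inc A (U₂ * W₂) =
      HahnSeries.C w₀ ^ n * inc A Nn := by
    show ((f : LaurentSeries Qb) + (g : LaurentSeries Qb)) * inc A (U₂ * W₂) = _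
    rw [map_mul, hincN]
    calc ((f : LaurentSeries Qb) + (g : LaurentSeries Qb)) * (inc A U₂ * inc A W₂)
        = ((f : LaurentSeries Qb) * inc A U₂) * inc A W₂ +
            ((g : LaurentSeries Qb) * inc A W₂) * inc A U₂ := by ring
      _ = _ := by
        rw [heq, heq', zpow_add₀ hC, zpow_natCast]; ring
  by_cases hN0 : Nn = 0
  · left
    rw [hN0, map_zero, mul_zero] at hmain
    rcases mul_eq_zero.mp hmain with h | h
    · exact val_eq_zero_iff.mp h
    · exact absurd h (red_ne_zero_imp_inc_ne_zero hden)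
  · right
    obtain ⟨a, N₀, hN₀, hrN₀, hNeq⟩ := exists_primitive hw hNint hN0
    refine ⟨n + a, N₀, U₂ * W₂, hN₀, IsIntE.mul h₂ k₂, hrN₀, hden, ?_⟩
    rw [hmain, hNeq, zpow_add₀ hC, zpow_natCast, map_pow]
    ring

theorem GaussForm.add {w₀ : Qb} (hw : _root_.Fermat.Agent.S18.H24.IsUnif A E w₀) {f g : Om M}
    (hf : GaussForm M A E w₀ f) (hg : GaussForm M A E w₀ g) :
    f + g = 0 ∨ GaussForm M A E w₀ (f + g) := by
  obtain ⟨n, U₁, U₂, h₁, h₂, -, hr₂, heq⟩ := hf
  obtain ⟨n', W₁, W₂, k₁, k₂, -, kr₂, heq'⟩ := hg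
  rcases le_total n n' with h | h
  · obtain ⟨d, hd⟩ := Int.le.dest h
    rw [← hd] at heq'
    exact GaussForm.add_aux hw h₁ h₂ hr₂ heq k₁ k₂ kr₂ heq'
  · obtain ⟨d, hd⟩ := Int.le.dest h
    rw [← hd] at heq
    rw [add_comm]
    exact GaussForm.add_aux hw k₁ k₂ kr₂ heq' h₁ h₂ hr₂ heq

end Fermat.Agent.S18.H24

end
end
-- ===== PACK-END S18/H24/GaussB.lean

-- ===== PACK-BEGIN S18/H107/T3Model.lean
section







/-!
# helper107 — S18 / M3-T : the good model for the coordinate `t₃` (case `ℓ = 2`)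

`goodModel_t3_107` : from the `j`-model WITHOUT branch-set fields (`BaseModel107 … j`, true for
every `ℓ ∤ M`), the branch data of the `j`-line in characteristic `0` (`BranchJ107`), the identity
`j t³ = (t + 27)(t + 243)³`, `3⁻¹ ∈ R`, `t ∈ Fc ∩ V` and the Gauss property of `t`, we get the
frozen `Alg.GoodModel Lc Ec Fc R V w t S` with `S = {0, -27}`.
-/

set_option autoImplicit false

namespace Fermat.Agent.S18.H107

open Polynomial Fermat.Agent.S18.Alg

variable {Ω : Type*} [Field Ω]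

theorem goodModel_t3_107 {Lc Ec Fc : Subfield Ω} {R V : Subring Ω} {w j t : Ω} {S : Finset Ω}
    (hb : BaseModel107 Lc Ec Fc R V w j) (hB : BranchJ107 Lc j)
    (hrel : j * t ^ 3 = (t + 27) * (t + 243) ^ 3) (htF : t ∈ Fc) (htV : t ∈ V)
    (h3 : (3 : Ω)⁻¹ ∈ R)
    (hgauss : ∀ P : Polynomial Ω, (∀ i, P.coeff i ∈ R) →
      (∃ i, P.coeff i ≠ 0 ∧ (P.coeff i)⁻¹ ∈ R) → (P.eval t)⁻¹ ∈ V)
    (hS : ∀ s, s ∈ S ↔ s = 0 ∨ s = -27) :
    GoodModel Lc Ec Fc R V w t S := by
  have := hb.charZero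
  have hj0 : j ≠ 0 := ne_zero_of_transcendental107 hb.x_transcendental
  have hH : HauptT3107 Fc R V j t :=
    { rel := hrel
      three_inv := h3
      three_ne := three_ne_zero
      j_ne := hj0
      t_mem_Fc := htF
      t_mem_V := htV
      t27_inv_mem_V := gauss_X_add_C107 hgauss (ofNat_mem R 27) }
  have ht0 : t ≠ 0 := hH.t_ne
  have hwF : w ∈ Fc := hb.E_le_F (hb.R_le hb.w_mem)
  have htinvV : t⁻¹ ∈ V := gauss_X107 hgauss
  have h64 : (27 : Ω)⁻¹ ∈ R := hH.inv27_mem
  -- `j ∈ Ec(t)`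
  have hjrat : j ∈ ratField Ec t := by
    have e : j = (t + 27) * (t + 243) ^ 3 * (t ^ 3)⁻¹ := by
      field_simp
      linear_combination hrel
    rw [e]
    have ht := self_mem_ratField107 Ec t
    exact mul_mem (mul_mem (add_mem ht (ofNat_mem _ 27)) (pow_mem (add_mem ht (ofNat_mem _ 243)) 3))
      (inv_mem (pow_mem ht 3))
  -- transcendence of `t`
  have htr : Transcendental Lc t := by
    intro halg
    apply hb.x_transcendental
    have e : j = (t + 27) * (t + 243) ^ 3 * (t ^ 3)⁻¹ := by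
      field_simp
      linear_combination hrel
    rw [e]
    have h27 : IsAlgebraic Lc (27 : Ω) := by
      have : (27 : Ω) = algebraMap Lc Ω (27 : Lc) := by
        rw [map_ofNat]
      rw [this]
      exact isAlgebraic_algebraMap _
    have h243 : IsAlgebraic Lc (243 : Ω) := by
      have : (243 : Ω) = algebraMap Lc Ω (243 : Lc) := by
        rw [map_ofNat]
      rw [this]
      exact isAlgebraic_algebraMap _
    exact ((halg.add h27).mul ((halg.add h243).pow 3)).mul (halg.pow 3).inv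
  refine (show BaseModel107 Lc Ec Fc R V w t from
    { charZero := hb.charZero
      R_le := hb.R_le
      R_total := hb.R_total
      w_mem := hb.w_mem
      w_ne_zero := hb.w_ne_zero
      w_inv_not_mem := hb.w_inv_not_mem
      w_gen := hb.w_gen
      w_discrete := hb.w_discrete
      residue_perfect := hb.residue_perfect
      E_le_L := hb.E_le_L
      E_le_F := hb.E_le_F
      L_algebraic := hb.L_algebraic
      L_algClosed := hb.L_algClosed
      E_closed_in_F := hb.E_closed_in_F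
      compositum := hb.compositum
      x_mem := htF
      x_transcendental := htr
      finite := finite_transfer107 hjrat hb.finite
      V_le := hb.V_le
      V_total := hb.V_total
      R_le_V := hb.R_le_V
      w_inv_not_mem_V := hb.w_inv_not_mem_V
      V_gen := hb.V_gen
      x_mem_V := htV
      gauss := hgauss
      qep_fin := hH.qep_fin hwF hb.qep_fin hb.qep_inf
      qep_inf := hH.qep_inf hwF hb.qep_fin hb.qep_inf
      separable := separable_transfer107 (e := t ^ 3)
        (Subring.pow_mem _ (self_mem_polyRing107 R t) 3)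
        (by
          rw [hrel]
          exact Subring.mul_mem _ (Subring.add_mem _ (self_mem_polyRing107 R t) (ofNat_mem _ 27))
            (Subring.pow_mem _
              (Subring.add_mem _ (self_mem_polyRing107 R t) (ofNat_mem _ 243)) 3))
        (V.pow_mem htV 3) (by rw [← inv_pow]; exact V.pow_mem htinvV 3) (pow_ne_zero _ ht0)
        hb.separable }).toGoodModel S ?_ ?_ ?_ ?_
  · intro s hs
    rcases (hS s).1 hs with rfl | rfl
    · exact R.zero_mem
    · exact R.neg_mem (ofNat_mem R 27)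
  · intro s hs s' hs' hne
    rcases (hS s).1 hs with rfl | rfl <;> rcases (hS s').1 hs' with rfl | rfl
    · exact absurd rfl hne
    · have e : ((0 : Ω) - -27)⁻¹ = (27 : Ω)⁻¹ := by norm_num
      rw [e]
      exact h64
    · have e : ((-27 : Ω) - 0)⁻¹ = -(27 : Ω)⁻¹ := by
        rw [sub_zero, inv_neg]
      rw [e]
      exact R.neg_mem h64
    · exact absurd rfl hne
  · intro s hs hs0
    rcases (hS s).1 hs with rfl | rfl
    · exact absurd rfl hs0
    · rw [inv_neg]
      exact R.neg_mem h64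
  · intro O hL c hc hcS hz hz'
    have hc0 : c ≠ 0 := fun h => hcS ((hS c).2 (Or.inl h))
    have hc64 : c ≠ -27 := fun h => hcS ((hS c).2 (Or.inr h))
    exact unramified_t3_107 Lc j t hrel hB O hL c hc hc64 hc0 hz hz'

end Fermat.Agent.S18.H107

end
-- ===== PACK-END S18/H107/T3Model.lean

-- ===== PACK-BEGIN S18/H394/KummerCharts.lean
section






/-!
# S18, Route K (helper394): the Kummer endgame on the charts of the `x`-line model

Typed core of `node_alg`.  Setting (as in `H138/Connected.lean`): `R` a noetherian local domain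
with `R[X]` integrally closed (e.g. a DVR), `F` a field of characteristic `0` containing `R`,
`x ∈ F` transcendental over `R`, `F` finite over `baseField R x`, `R` integrally closed in `F`;
charts `B₀ = chart R {x}`, `B₁ = chart R {x⁻¹}`, `M = chart R {x, x⁻¹}` (integral closures of
`R[x]`, `R[x⁻¹]`, `R[x, x⁻¹]` in `F`), `w ∈ R` a non-unit, `m` invertible in `R`.

* `kummer_charts`: the hypotheses `hrc`, `hloc`, `hint`, `hfin`, `hden`, `hw1` of
  `H394.kummer_endgame` are discharged for the charts; conclusion: `u` does NOT have exact order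
  `m` modulo `Frac(R)ˣ (Fˣ)^m`.
* `kummer_charts_prime`: for `m` prime, `u = r ^ a * y ^ m` with `r ∈ R`, `a ∈ ℤ`, `y ∈ F`.
* `kummer_charts_of_regular`: the same from the chartwise hypotheses
  `Prime w`, `H754.RegularAlong w` (b2), `H754.OneModPi w u`, `H754.DivisibleDivisor B m u`
  (via `H214.local_existence`; the saturation hypothesis `hsat` is proved here).
-/

set_option autoImplicit false
set_option linter.style.haveILetI false

namespace Fermat.Agent.S18.H394

open Polynomial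
open Fermat.Agent.S18.H138 (chart baseField)

section Basic

variable {R : Type*} [CommRing R] {F : Type*} [Field F] [Algebra R F]

theorem rootClosed_chart (S : Set F) {m : ℕ} (hm : 0 < m) : RootClosed m (chart R S) := by
  intro f hf
  rw [H138.mem_chart] at hf ⊢
  exact IsIntegral.of_pow hm hf

theorem chart_inv_pair (x : F) :
    chart R ({x⁻¹, x⁻¹⁻¹} : Set F) = chart R ({x, x⁻¹} : Set F) := by
  rw [inv_inv, Set.pair_comm]

theorem subalgebra_dvd_iff (B : Subalgebra R F) (w : R) (s : B) :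
    algebraMap R B w ∣ s ↔ ∃ c ∈ B, (s : F) = algebraMap R F w * c := by
  constructor
  · rintro ⟨c, hc⟩
    exact ⟨c, c.2, by rw [hc]; rfl⟩
  · rintro ⟨c, hc, h⟩
    exact ⟨⟨c, hc⟩, Subtype.ext h⟩

/-- Elementary unmixedness inside the fraction field. -/
theorem mem_of_mul_mem_of_prime (B : Subalgebra R F) (w : R)
    (hw : Prime (algebraMap R B w)) (s : B) (hs : ¬ algebraMap R B w ∣ s) (g : F)
    (h1 : algebraMap R F w * g ∈ B) (h2 : (s : F) * g ∈ B) : g ∈ B := by
  have hw0 : algebraMap R F w ≠ 0 := by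
    intro h
    apply hw.ne_zero
    exact Subtype.ext h
  have hdvd : algebraMap R B w ∣ s * ⟨_, h1⟩ := by
    refine ⟨⟨_, h2⟩, Subtype.ext ?_⟩
    change (s : F) * (algebraMap R F w * g) = algebraMap R F w * ((s : F) * g)
    ring
  rcases hw.dvd_or_dvd hdvd with h | h
  · exact absurd h hs
  · obtain ⟨c, hc, h3⟩ := (subalgebra_dvd_iff B w _).mp h
    have : g = c := mul_left_cancel₀ hw0 h3
    rw [this]; exact hc

end Basic

section Charts

variable {R : Type*} [CommRing R] {F : Type*} [Field F] [Algebra R F]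
variable [IsNoetherianRing R] [IsIntegrallyClosed R[X]] [CharZero F]

/-- Finite generation of the chart in the form used by `kummer_endgame`. -/
theorem exists_finset_gens {x : F} (hx : Transcendental R x)
    [FiniteDimensional (baseField R x) F] :
    ∃ s : Finset F, ∀ b ∈ chart R ({x} : Set F), ∃ P : F → R[X],
      b = ∑ β ∈ s, aeval x (P β) * β := by
  classical
  obtain ⟨n, bs, -, hgen⟩ := H138.exists_finite_gens (R := R) hx
  refine ⟨Finset.univ.image bs, fun b hb => ?_⟩
  have key : ∀ z ∈ Submodule.span R {z : F | ∃ (j : ℕ) (i : Fin n), z = x ^ j * bs i},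
      ∃ P : F → R[X], z = ∑ β ∈ Finset.univ.image bs, aeval x (P β) * β := by
    intro z hz
    induction hz using Submodule.span_induction with
    | mem z hz =>
      obtain ⟨j, i, rfl⟩ := hz
      refine ⟨fun β => if β = bs i then X ^ j else 0, ?_⟩
      rw [Finset.sum_eq_single (bs i)]
      · simp
      · intro β _ hβ
        simp [hβ]
      · intro h
        exact absurd (Finset.mem_image_of_mem bs (Finset.mem_univ i)) h
    | zero => exact ⟨fun _ => 0, by simp⟩
    | add y z _ _ hy hz =>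
      obtain ⟨P, hP⟩ := hy
      obtain ⟨Q, hQ⟩ := hz
      refine ⟨fun β => P β + Q β, ?_⟩
      rw [hP, hQ, ← Finset.sum_add_distrib]
      refine Finset.sum_congr rfl fun β _ => ?_
      rw [map_add, add_mul]
    | smul r z _ hz =>
      obtain ⟨P, hP⟩ := hz
      refine ⟨fun β => C r * P β, ?_⟩
      rw [hP, Finset.smul_sum]
      refine Finset.sum_congr rfl fun β _ => ?_
      rw [map_mul, aeval_C, Algebra.smul_def, mul_assoc]
  exact key b (hgen b hb)

/-- Every element of `F` has a denominator in the chart. -/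
theorem exists_den {x : F} (hx : Transcendental R x) [FiniteDimensional (baseField R x) F]
    (z : F) : ∃ d ∈ chart R ({x} : Set F), d ≠ 0 ∧ d * z ∈ chart R ({x} : Set F) := by
  obtain ⟨-, -, hfr⟩ := chart_instances (R := R) hx
  obtain ⟨a, b, hb, hab⟩ := IsFractionRing.div_surjective (A := chart R ({x} : Set F)) z
  have hb0 : (b : F) ≠ 0 := by
    intro h
    exact nonZeroDivisors.ne_zero hb (Subtype.ext h)
  refine ⟨b, b.2, hb0, ?_⟩
  have : (b : F) * z = a := by
    rw [← hab]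
    change (b : F) * ((a : F) / (b : F)) = a
    field_simp
  rw [this]
  exact a.2

/-- `C w ∣ Q` if `Q(x) ∈ w B₀`. -/
theorem dvd_coeff_of_aeval_eq_mul {x : F} (hx : Transcendental R x)
    (hinjR : Function.Injective (algebraMap R F)) (w : R) (hw0 : w ≠ 0) (Q : R[X]) {t : F}
    (ht : t ∈ chart R ({x} : Set F)) (h : aeval x Q = algebraMap R F w * t) (n : ℕ) :
    w ∣ Q.coeff n := by
  have hwF : algebraMap R F w ≠ 0 := fun h0 => hw0 (hinjR (by rw [h0, map_zero]))
  haveI := H138.isIntegrallyClosed_adjoin_singleton (R := R) hx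
  have htK : t ∈ baseField R x := by
    have : t = aeval x Q / algebraMap R F w := by
      rw [h, mul_div_cancel_left₀ _ hwF]
    rw [this]
    refine (baseField R x).div_mem (H138.adjoin_le_baseField x ?_)
      (Subfield.subset_closure (Or.inl ⟨w, rfl⟩))
    exact H138.mem_adjoin_singleton_iff.2 ⟨Q, rfl⟩
  have htA : t ∈ Algebra.adjoin R ({x} : Set F) :=
    H138.mem_of_isIntegral_of_mem _ (baseField R x) (fun a ha => H138.adjoin_le_baseField x ha)
      (fun z hz => H138.exists_div_of_mem_baseField x hz) htK ht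
  obtain ⟨P, rfl⟩ := H138.mem_adjoin_singleton_iff.1 htA
  have h3 : aeval x (Q - C w * P) = 0 := by
    rw [map_sub, map_mul, aeval_C, h, sub_self]
  have h4 := (transcendental_iff.1 hx) _ h3
  have h5 : Q = C w * P := sub_eq_zero.1 h4
  refine ⟨P.coeff n, ?_⟩
  rw [h5, coeff_C_mul]

variable [IsLocalRing R]

/-- **The Kummer endgame on the charts.** -/
theorem kummer_charts
    (hinjR : Function.Injective (algebraMap R F))
    (hRF : ∀ y : F, IsIntegral R y → y ∈ Set.range (algebraMap R F))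
    {x : F} (hx : Transcendental R x) [FiniteDimensional (baseField R x) F]
    (w : R) (hw : ¬ IsUnit w)
    (m : ℕ) (hm : 2 ≤ m) (ν : R) (hν : ν * (m : R) = 1)
    (u : F) (hu : u ≠ 0) (σ₀ σ₁ : F)
    (h₀ : ∃ b ∈ chart R ({x} : Set F), σ₀ ^ m * u - 1 = algebraMap R F w * b)
    (h₁ : ∃ b ∈ chart R ({x⁻¹} : Set F), σ₁ ^ m * u - 1 = algebraMap R F w * b)
    (h₀₁ : ∃ γ : F, σ₀ - σ₁ = algebraMap R F w * γ ∧ γ ^ m * u ∈ chart R ({x, x⁻¹} : Set F)) :
    ∃ i : ℕ, 0 < i ∧ i < m ∧ ∃ f : F, f ≠ 0 ∧ ∃ r : R, f ^ m * u ^ i = algebraMap R F r := by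
  by_contra hcon
  push Not at hcon
  have hx0 : x ≠ 0 := H138.ne_zero_of_transcendental hx
  have hm0 : 0 < m := by omega
  refine kummer_endgame m hm ν hν w u hu (chart R ({x} : Set F)) (chart R ({x⁻¹} : Set F))
    (chart R ({x, x⁻¹} : Set F)) (rootClosed_chart _ hm0) (rootClosed_chart _ hm0)
    (rootClosed_chart _ hm0) x hx0 (H138.mem_chart_of_mem rfl) (H138.mem_chart_of_mem rfl)
    (H138.chart_mono (by simp)) (H138.chart_mono (by simp)) ?_ ?_ ?_ (exists_finset_gens hx) ?_ ?_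
    (fun i hi him f hf r => hcon i hi him f hf r) σ₀ σ₁ h₀ h₁ h₀₁
  · intro y hy
    exact H138.exists_pow_mul_mem_chart hx0 hy
  · intro y hy
    refine H138.exists_pow_mul_mem_chart (inv_ne_zero hx0) ?_
    rw [chart_inv_pair]
    exact hy
  · intro y hy0 hy1
    obtain ⟨r, hr⟩ := hRF y (H138.isIntegral_of_mem_chart_inter hx hy0 hy1)
    exact ⟨r, hr⟩
  · obtain ⟨d, hd, hd0, hdu⟩ := exists_den (R := R) hx u⁻¹
    exact ⟨d, hd, hd0, hdu⟩
  · intro b hb h
    apply hw
    have := H138.dvd_of_algebraMap_eq_mul hinjR hx w 1 hb (by rw [map_one, h])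
    exact isUnit_of_dvd_one this

/-- For prime `m`: `u` is a constant times an `m`-th power. -/
theorem kummer_charts_prime
    (hinjR : Function.Injective (algebraMap R F))
    (hRF : ∀ y : F, IsIntegral R y → y ∈ Set.range (algebraMap R F))
    {x : F} (hx : Transcendental R x) [FiniteDimensional (baseField R x) F]
    (w : R) (hw : ¬ IsUnit w)
    (m : ℕ) (hm : m.Prime) (ν : R) (hν : ν * (m : R) = 1)
    (u : F) (hu : u ≠ 0) (σ₀ σ₁ : F)
    (h₀ : ∃ b ∈ chart R ({x} : Set F), σ₀ ^ m * u - 1 = algebraMap R F w * b)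
    (h₁ : ∃ b ∈ chart R ({x⁻¹} : Set F), σ₁ ^ m * u - 1 = algebraMap R F w * b)
    (h₀₁ : ∃ γ : F, σ₀ - σ₁ = algebraMap R F w * γ ∧ γ ^ m * u ∈ chart R ({x, x⁻¹} : Set F)) :
    ∃ (r : R) (a : ℤ) (y : F), r ≠ 0 ∧ u = algebraMap R F r ^ a * y ^ m := by
  obtain ⟨i, hi0, him, f, hf, r, hr⟩ :=
    kummer_charts hinjR hRF hx w hw m hm.two_le ν hν u hu σ₀ σ₁ h₀ h₁ h₀₁
  have hr0 : r ≠ 0 := by
    rintro rfl
    rw [map_zero] at hr
    exact mul_ne_zero (pow_ne_zero m hf) (pow_ne_zero i hu) hr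
  have hrF : algebraMap R F r ≠ 0 := fun h => hr0 (hinjR (by rw [h, map_zero]))
  have hcop : Nat.Coprime i m :=
    ((Nat.Prime.coprime_iff_not_dvd hm).mpr (Nat.not_dvd_of_pos_of_lt hi0 him)).symm
  -- Bezout
  have hbez : (i : ℤ) * Nat.gcdA i m + (m : ℤ) * Nat.gcdB i m = 1 := by
    have := Nat.gcd_eq_gcd_ab i m
    rw [hcop.gcd_eq_one] at this
    exact_mod_cast this.symm
  set a : ℤ := Nat.gcdA i m with ha
  set b : ℤ := Nat.gcdB i m with hb
  refine ⟨r, a, f⁻¹ ^ a * u ^ b, hr0, ?_⟩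
  have e1 : (f ^ m * u ^ i) ^ a = f ^ ((m : ℤ) * a) * u ^ ((i : ℤ) * a) := by
    rw [mul_zpow, ← zpow_natCast f m, ← zpow_natCast u i, ← zpow_mul, ← zpow_mul]
  have e2 : (f⁻¹ ^ a * u ^ b) ^ m = f ^ (-((m : ℤ) * a)) * u ^ ((m : ℤ) * b) := by
    rw [mul_pow, ← zpow_natCast (f⁻¹ ^ a) m, ← zpow_natCast (u ^ b) m, ← zpow_mul, ← zpow_mul,
      inv_zpow', mul_comm a (m : ℤ), mul_comm b (m : ℤ)]
  rw [← hr, e1, e2]
  have e3 : f ^ ((m : ℤ) * a) * u ^ ((i : ℤ) * a) * (f ^ (-((m : ℤ) * a)) * u ^ ((m : ℤ) * b))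
      = (f ^ ((m : ℤ) * a) * f ^ (-((m : ℤ) * a))) * (u ^ ((i : ℤ) * a) * u ^ ((m : ℤ) * b)) := by
    ring
  rw [e3, ← zpow_add₀ hf, ← zpow_add₀ hu, add_neg_cancel, zpow_zero, one_mul, hbez, zpow_one]

end Charts

end Fermat.Agent.S18.H394

end
-- ===== PACK-END S18/H394/KummerCharts.lean

-- ===== PACK-BEGIN S18/H394/KummerRegular.lean
section




/-!
# S18, Route K (helper394): typed core of `node_alg` (prime `m`)

Setting of `H394/KummerCharts.lean` (= `H138/Connected.lean`): `R` noetherian local with `R[X]`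
integrally closed, `F ⊇ R` a field of characteristic `0`, `x` transcendental, `F` finite over
`baseField R x`, `R` integrally closed in `F`; charts `B₀ = chart R {x}`, `B₁ = chart R {x⁻¹}`.

**Theorem `kummer_charts_of_regular`.**  Let `m` be a prime invertible in `R`, `w ∈ R`, `u ∈ Fˣ`.
Assume on each chart `B ∈ {B₀, B₁}`:
* `w` is prime in `B`                      (q-expansion principle),
* `H754.RegularAlong w`                    (b2: the special fibre is regular = `B12.H33.b2Regular`),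
* `H754.OneModPi w u`                      (`u ≡ 1 mod w`),
* `H754.DivisibleDivisor B m u`            (`m ∣ div u`).
Then `u = r ^ a * y ^ m` with `r ∈ R ∖ {0}`, `a ∈ ℤ`, `y ∈ F`.

Proof: `H214.local_existence` (LE) + `H394.kummer_charts_prime` (graded Kummer algebra + b5).
No Kummer extension field, no roots of unity, no enlargement of constants.
-/

set_option autoImplicit false
set_option linter.style.haveILetI false

namespace Fermat.Agent.S18.H394

open Polynomial
open Fermat.Agent.S18.H138 (chart baseField)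

section Regular

variable {R : Type*} [CommRing R] {F : Type*} [Field F] [Algebra R F]
variable [IsNoetherianRing R] [IsIntegrallyClosed R[X]] [CharZero F]

/-- `w ∤ x` in the chart `B₀`. -/
theorem not_dvd_coord (hinjR : Function.Injective (algebraMap R F)) {x : F}
    (hx : Transcendental R x) (w : R) (hw : ¬ IsUnit w) (hw0 : w ≠ 0)
    (X₀ : chart R ({x} : Set F)) (hX₀ : (X₀ : F) = x) :
    ¬ algebraMap R (chart R ({x} : Set F)) w ∣ X₀ := by
  intro h
  obtain ⟨c, hc, h⟩ := (subalgebra_dvd_iff _ w X₀).mp h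
  rw [hX₀] at h
  have := dvd_coeff_of_aeval_eq_mul hx hinjR w hw0 X hc (by rw [aeval_X]; exact h) 1
  rw [coeff_X_one] at this
  exact hw (isUnit_of_dvd_one this)

/-- The saturation property of the overlap `M` (hypothesis `hsat` of `H214.local_existence`). -/
theorem chart_saturated (hinjR : Function.Injective (algebraMap R F)) {x : F}
    (hx : Transcendental R x) (w : R)
    (hw₀ : Prime (algebraMap R (chart R ({x} : Set F)) w))
    (hw₁ : Prime (algebraMap R (chart R ({x⁻¹} : Set F)) w))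
    (f : F) (s₀ : chart R ({x} : Set F)) (hs₀ : ¬ algebraMap R (chart R ({x} : Set F)) w ∣ s₀)
    (s₁ : chart R ({x⁻¹} : Set F)) (hs₁ : ¬ algebraMap R (chart R ({x⁻¹} : Set F)) w ∣ s₁)
    (h1 : (s₀ : F) * (s₁ : F) * f ∈ chart R ({x, x⁻¹} : Set F))
    (h2 : algebraMap R F w * f ∈ chart R ({x, x⁻¹} : Set F)) :
    f ∈ chart R ({x, x⁻¹} : Set F) := by
  have hx0 : x ≠ 0 := H138.ne_zero_of_transcendental hx
  have h0M : (chart R ({x} : Set F)) ≤ (chart R ({x, x⁻¹} : Set F)) := H138.chart_mono (by simp)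
  have h1M : (chart R ({x⁻¹} : Set F)) ≤ (chart R ({x, x⁻¹} : Set F)) := H138.chart_mono (by simp)
  have hxB0 : x ∈ (chart R ({x} : Set F)) := H138.mem_chart_of_mem rfl
  have hxB1 : x⁻¹ ∈ (chart R ({x⁻¹} : Set F)) := H138.mem_chart_of_mem rfl
  have hloc0 : ∀ y ∈ (chart R ({x, x⁻¹} : Set F)), ∃ n : ℕ, x ^ n * y ∈ (chart R ({x} : Set F)) := fun y hy =>
    H138.exists_pow_mul_mem_chart hx0 hy
  have hloc1 : ∀ y ∈ (chart R ({x, x⁻¹} : Set F)), ∃ n : ℕ, x⁻¹ ^ n * y ∈ (chart R ({x⁻¹} : Set F)) := by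
    intro y hy
    refine H138.exists_pow_mul_mem_chart (inv_ne_zero hx0) ?_
    rw [chart_inv_pair]
    exact hy
  have hwnu : ¬ IsUnit w := fun h => hw₀.not_isUnit (h.map _)
  have hw0 : w ≠ 0 := by
    rintro rfl
    exact hw₀.ne_zero (map_zero _)
  have hX₁ : ¬ algebraMap R (chart R ({x⁻¹} : Set F)) w ∣ (⟨x⁻¹, hxB1⟩ : (chart R ({x⁻¹} : Set F))) :=
    not_dvd_coord hinjR (H138.transcendental_inv hx) w hwnu hw0 _ rfl
  -- `t₁ = x ^ j * s₁ ∈ (chart R ({x} : Set F)) ∖ w (chart R ({x} : Set F))`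
  obtain ⟨j, hj⟩ := hloc0 (s₁ : F) (h1M s₁.2)
  have ht₁ : ¬ algebraMap R (chart R ({x} : Set F)) w ∣ (⟨x ^ j * s₁, hj⟩ : (chart R ({x} : Set F))) := by
    intro h
    obtain ⟨c, hc, h⟩ := (subalgebra_dvd_iff _ w _).mp h
    change x ^ j * (s₁ : F) = algebraMap R F w * c at h
    obtain ⟨n, hn⟩ := hloc1 c (h0M hc)
    have hs : (s₁ : F) = x⁻¹ ^ j * (algebraMap R F w * c) := by
      rw [← h, ← mul_assoc, ← mul_pow, inv_mul_cancel₀ hx0, one_pow, one_mul]
    have hdvd : algebraMap R (chart R ({x⁻¹} : Set F)) w ∣ (⟨x⁻¹, hxB1⟩ : (chart R ({x⁻¹} : Set F))) ^ n * s₁ := by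
      rw [subalgebra_dvd_iff]
      refine ⟨x⁻¹ ^ j * (x⁻¹ ^ n * c), (chart R ({x⁻¹} : Set F)).mul_mem ((chart R ({x⁻¹} : Set F)).pow_mem hxB1 _) hn, ?_⟩
      change (x⁻¹) ^ n * (s₁ : F) = algebraMap R F w * (x⁻¹ ^ j * (x⁻¹ ^ n * c))
      rw [hs]
      ring
    rcases hw₁.dvd_or_dvd hdvd with h' | h'
    · exact hX₁ (hw₁.dvd_of_dvd_pow h')
    · exact hs₁ h'
  obtain ⟨N₁, hN₁⟩ := hloc0 _ h2
  obtain ⟨N₂, hN₂⟩ := hloc0 _ h1
  set g : F := x ^ (N₁ + N₂ + j) * f with hg
  have hg1 : algebraMap R F w * g ∈ (chart R ({x} : Set F)) := by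
    have : algebraMap R F w * g = x ^ (N₂ + j) * (x ^ N₁ * (algebraMap R F w * f)) := by
      rw [hg]; ring
    rw [this]
    exact (chart R ({x} : Set F)).mul_mem ((chart R ({x} : Set F)).pow_mem hxB0 _) hN₁
  have hg2 : ((s₀ * ⟨x ^ j * s₁, hj⟩ : (chart R ({x} : Set F))) : F) * g ∈ (chart R ({x} : Set F)) := by
    have : ((s₀ * ⟨x ^ j * s₁, hj⟩ : (chart R ({x} : Set F))) : F) * g
        = x ^ (N₁ + j + j) * (x ^ N₂ * ((s₀ : F) * (s₁ : F) * f)) := by
      change (s₀ : F) * (x ^ j * (s₁ : F)) * g = _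
      rw [hg]; ring
    rw [this]
    exact (chart R ({x} : Set F)).mul_mem ((chart R ({x} : Set F)).pow_mem hxB0 _) hN₂
  have hst : ¬ algebraMap R (chart R ({x} : Set F)) w ∣ s₀ * ⟨x ^ j * s₁, hj⟩ := by
    intro h
    rcases hw₀.dvd_or_dvd h with h' | h'
    · exact hs₀ h'
    · exact ht₁ h'
  have hgB : g ∈ (chart R ({x} : Set F)) := mem_of_mul_mem_of_prime (chart R ({x} : Set F)) w hw₀ _ hst g hg1 hg2
  have : f = x⁻¹ ^ (N₁ + N₂ + j) * g := by
    rw [hg, ← mul_assoc, ← mul_pow, inv_mul_cancel₀ hx0, one_pow, one_mul]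
  rw [this]
  exact (chart R ({x, x⁻¹} : Set F)).mul_mem ((chart R ({x, x⁻¹} : Set F)).pow_mem (h1M hxB1) _) (h0M hgB)

variable [IsLocalRing R]

/-- **Typed core of `node_alg`** (prime `m`). -/
theorem kummer_charts_of_regular
    (hinjR : Function.Injective (algebraMap R F))
    (hRF : ∀ y : F, IsIntegral R y → y ∈ Set.range (algebraMap R F))
    {x : F} (hx : Transcendental R x) [FiniteDimensional (baseField R x) F]
    (w : R) (m : ℕ) (hm : m.Prime) (ν : R) (hν : ν * (m : R) = 1)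
    (u : F) (hu : u ≠ 0)
    (hw₀ : Prime (algebraMap R (chart R ({x} : Set F)) w))
    (hw₁ : Prime (algebraMap R (chart R ({x⁻¹} : Set F)) w))
    (hreg₀ : H754.RegularAlong (algebraMap R (chart R ({x} : Set F)) w))
    (hreg₁ : H754.RegularAlong (algebraMap R (chart R ({x⁻¹} : Set F)) w))
    (hu₀ : H754.OneModPi (algebraMap R (chart R ({x} : Set F)) w) u)
    (hu₁ : H754.OneModPi (algebraMap R (chart R ({x⁻¹} : Set F)) w) u)
    (hdiv₀ : H754.DivisibleDivisor (chart R ({x} : Set F)) m u)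
    (hdiv₁ : H754.DivisibleDivisor (chart R ({x⁻¹} : Set F)) m u) :
    ∃ (r : R) (a : ℤ) (y : F), r ≠ 0 ∧ u = algebraMap R F r ^ a * y ^ m := by
  have hwnu : ¬ IsUnit w := fun h => hw₀.not_isUnit (h.map _)
  haveI : FiniteDimensional (baseField R x⁻¹) F := by
    rw [H138.baseField_inv]; infer_instance
  obtain ⟨i1, i2, i3⟩ := chart_instances (R := R) hx
  obtain ⟨j1, j2, j3⟩ := chart_instances (R := R) (H138.transcendental_inv hx)
  obtain ⟨σ₀, σ₁, h₀, h₁, h₀₁⟩ := H214.local_existence m hm.ne_zero w u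
    (chart R ({x} : Set F)) (chart R ({x⁻¹} : Set F)) (chart R ({x, x⁻¹} : Set F))
    (H138.chart_mono (by simp)) (H138.chart_mono (by simp)) hw₀ hw₁ hreg₀ hreg₁ hu₀ hu₁
    hdiv₀ hdiv₁ (rootClosed_chart _ hm.pos)
    (fun f s₀ hs₀ s₁ hs₁ h1 h2 => chart_saturated hinjR hx w hw₀ hw₁ f s₀ hs₀ s₁ hs₁ h1 h2)
  exact kummer_charts_prime hinjR hRF hx w hwnu m hm ν hν u hu σ₀ σ₁ h₀ h₁ h₀₁

end Regular

end Fermat.Agent.S18.H394

end
-- ===== PACK-END S18/H394/KummerRegular.lean

-- ===== PACK-BEGIN A2/Alg/H34/Base.lean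
section



/-!
# WALL A2 / ALG — BASE adapter (helper34)

From the standing hypotheses of `AlgSSStatement` (`E = Frac R`, `F / E(x)` finite, charts given by
an integrality predicate) to the setting of `S18.H138` / `S18.H394` (`chart R {x}`,
`baseField R x`): `chart_eq`, `transcendental_of_field`, `finiteDimensional_baseField`,
`algebraMap_RF_injective`, `chart_instances'` (noetherian, integrally closed, fraction field `F`).
-/

set_option autoImplicit false
set_option linter.unusedSectionVars false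
set_option linter.style.haveILetI false

namespace Fermat.Agent.A2.Alg.H34

open Fermat.Agent.A2 Fermat.Agent.A2.Alg
open Fermat.Agent.S18.H138 (chart baseField)
open Polynomial

variable {R E F : Type*} [CommRing R] [IsDomain R] [Field E] [Algebra R E] [IsFractionRing R E]
  [Field F] [Algebra E F] [Algebra R F] [IsScalarTower R E F]

omit [IsDomain R] [Field E] [Algebra R E] [IsFractionRing R E] [Algebra E F]
  [IsScalarTower R E F] in
theorem algebraMap_RF_injective (E : Type*) [Field E] [Algebra R E] [IsFractionRing R E]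
    [Algebra E F] [IsScalarTower R E F] : Function.Injective (algebraMap R F) := by
  rw [IsScalarTower.algebraMap_eq R E F]
  exact (algebraMap E F).injective.comp (IsFractionRing.injective R E)

theorem transcendental_of_field {x : F} (hx : Transcendental E x) : Transcendental R x := by
  intro h
  exact hx (h.extendScalars (IsFractionRing.injective R E))

theorem algebraMap_mem_baseField (x : F) (e : E) : algebraMap E F e ∈ baseField R x := by
  obtain ⟨a, b, -, rfl⟩ := IsFractionRing.div_surjective (A := R) e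
  rw [map_div₀, ← IsScalarTower.algebraMap_apply, ← IsScalarTower.algebraMap_apply]
  exact div_mem (Subfield.subset_closure (Or.inl ⟨a, rfl⟩))
    (Subfield.subset_closure (Or.inl ⟨b, rfl⟩))

theorem mem_baseField_of_mem_adjoin (x : F) {z : F}
    (hz : z ∈ IntermediateField.adjoin E ({x} : Set F)) : z ∈ baseField R x := by
  have h : IntermediateField.adjoin E ({x} : Set F) ≤
      Subfield.toIntermediateField (baseField R x) (algebraMap_mem_baseField (R := R) x) := by
    rw [IntermediateField.adjoin_le_iff]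
    rintro y hy
    rw [Set.mem_singleton_iff] at hy
    subst hy
    exact Subfield.subset_closure (Or.inr rfl)
  exact h hz

theorem finiteDimensional_baseField (x : F)
    (hfin : FiniteDimensional (IntermediateField.adjoin E ({x} : Set F)) F) :
    FiniteDimensional (baseField R x) F := by
  let ι : (IntermediateField.adjoin E ({x} : Set F)) →+* baseField R x :=
    { toFun := fun a => ⟨a.1, mem_baseField_of_mem_adjoin (R := R) x a.2⟩
      map_one' := rfl
      map_mul' := fun _ _ => rfl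
      map_zero' := rfl
      map_add' := fun _ _ => rfl }
  letI : Algebra (IntermediateField.adjoin E ({x} : Set F)) (baseField R x) := ι.toAlgebra
  haveI : IsScalarTower (IntermediateField.adjoin E ({x} : Set F)) (baseField R x) F :=
    IsScalarTower.of_algebraMap_eq (fun _ => rfl)
  exact Module.Finite.of_restrictScalars_finite (IntermediateField.adjoin E ({x} : Set F))
    (baseField R x) F

theorem chart_eq (x : F) (B : Subalgebra R F)
    (hB : ∀ f : F, f ∈ B ↔ IsIntegral (Algebra.adjoin R ({x} : Set F)) f) :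
    B = chart R ({x} : Set F) :=
  SetLike.ext fun f => (hB f).trans Fermat.Agent.S18.H138.mem_chart.symm

theorem charZero_of_field [CharZero E] : CharZero F :=
  charZero_of_injective_algebraMap (algebraMap E F).injective

/-- The chart of `ChartCtx` is a noetherian integrally closed domain with fraction field `F`. -/
theorem chart_instances' [IsDiscreteValuationRing R] [CharZero E] (w : R) (x : F)
    (B : Subalgebra R F) (hB : ChartCtx E w x B) :
    IsNoetherianRing B ∧ IsIntegrallyClosed B ∧ IsFractionRing B F := by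
  obtain rfl := chart_eq x B hB.hB
  haveI : CharZero F := charZero_of_field (E := E)
  haveI := finiteDimensional_baseField (R := R) x hB.hfin
  exact Fermat.Agent.S18.H394.chart_instances (transcendental_of_field hB.hx)

end Fermat.Agent.A2.Alg.H34

end
-- ===== PACK-END A2/Alg/H34/Base.lean

-- ===== PACK-BEGIN A2/Alg/H34/StepI.lean
section




/-!
# WALL A2 / ALG — leaf A1 = Step I (helper34)

`stepI` : for every `f ≠ 0`, `τ f / f` has constant unit residues on both components of the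
chart (`IsSplit`).  Statement VERBATIM that of `Fermat/Agent/A2/Alg/Skel.lean`.

`constAt_tau_div` is the ring-theoretic core (one component, any noetherian chart with
fraction field `F`).
-/

set_option autoImplicit false
set_option linter.unusedSectionVars false
set_option linter.style.haveILetI false

namespace Fermat.Agent.A2.Alg.H34

open Fermat.Agent.A2 Fermat.Agent.A2.Alg

section Core

variable {R F : Type*} [CommRing R] [Field F] [Algebra R F]

/-- every `f ≠ 0` is `w ^ (k₁ - k₂) * A / D` with `A, D ∈ B ∖ p`. -/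
theorem exists_decomp (w : R) (B : Subalgebra R F) [IsNoetherianRing B] [IsFractionRing B F]
    (p q : Ideal B) (hp : p.IsPrime) (hpq : p ⊓ q = Ideal.span {algebraMap R B w})
    (hqp : ¬ q ≤ p) (f : F) (hf : f ≠ 0) :
    ∃ (k₁ k₂ : ℕ) (A D : B), A ∉ p ∧ D ∉ p ∧
      f * (algebraMap R F w ^ k₂ * (D : F)) = algebraMap R F w ^ k₁ * (A : F) := by
  haveI := hp
  have hwp : algebraMap R B w ∈ p := by
    have : algebraMap R B w ∈ p ⊓ q := by
      rw [hpq]
      exact Ideal.mem_span_singleton_self _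
    exact this.1
  obtain ⟨s, hsq, hsp⟩ := SetLike.not_le_iff_exists.1 hqp
  have hloc : ∀ a ∈ p, ∃ s, s ∉ p ∧ ∃ a', a * s = algebraMap R B w * a' := by
    intro a ha
    have h1 : a * s ∈ p ⊓ q := ⟨p.mul_mem_right _ ha, q.mul_mem_left _ hsq⟩
    rw [hpq, Ideal.mem_span_singleton'] at h1
    obtain ⟨a', ha'⟩ := h1
    exact ⟨s, hsp, a', by rw [← ha', mul_comm]⟩
  obtain ⟨a₀, b₀, hb₀, hab⟩ := IsFractionRing.div_surjective (A := B) f
  have hb₀' : b₀ ≠ 0 := nonZeroDivisors.ne_zero hb₀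
  have hb₀F : (b₀ : F) ≠ 0 := fun h => hb₀' (Subtype.ext h)
  have hfb : f * (b₀ : F) = (a₀ : F) := by
    have : (a₀ : F) / (b₀ : F) = f := hab
    rw [← this]
    field_simp
  have ha₀ : a₀ ≠ 0 := by
    rintro rfl
    have : f * (b₀ : F) = 0 := by rw [hfb]; rfl
    rcases mul_eq_zero.1 this with h | h
    · exact hf h
    · exact hb₀F h
  obtain ⟨k₁, a₁, t₁, ha₁, ht₁, h₁⟩ := exists_pow_mul_eq p (algebraMap R B w) hwp hloc a₀ ha₀
  obtain ⟨k₂, a₂, t₂, ha₂, ht₂, h₂⟩ := exists_pow_mul_eq p (algebraMap R B w) hwp hloc b₀ hb₀'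
  refine ⟨k₁, k₂, t₂ * a₁, a₂ * t₁, ?_, ?_, ?_⟩
  · intro h
    rcases hp.mem_or_mem h with h | h
    · exact ht₂ h
    · exact ha₁ h
  · intro h
    rcases hp.mem_or_mem h with h | h
    · exact ha₂ h
    · exact ht₁ h
  · have e₁ : (t₁ : F) * (a₀ : F) = algebraMap R F w ^ k₁ * (a₁ : F) := by
      have := congrArg (fun b : B => (b : F)) h₁
      simpa using this
    have e₂ : (t₂ : F) * (b₀ : F) = algebraMap R F w ^ k₂ * (a₂ : F) := by
      have := congrArg (fun b : B => (b : F)) h₂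
      simpa using this
    push_cast
    calc f * (algebraMap R F w ^ k₂ * ((a₂ : F) * (t₁ : F)))
        = f * ((algebraMap R F w ^ k₂ * (a₂ : F)) * (t₁ : F)) := by ring
      _ = f * (((t₂ : F) * (b₀ : F)) * (t₁ : F)) := by rw [e₂]
      _ = (t₂ : F) * ((t₁ : F) * (f * (b₀ : F))) := by ring
      _ = (t₂ : F) * ((t₁ : F) * (a₀ : F)) := by rw [hfb]
      _ = (t₂ : F) * (algebraMap R F w ^ k₁ * (a₁ : F)) := by rw [e₁]
      _ = algebraMap R F w ^ k₁ * ((t₂ : F) * (a₁ : F)) := by ring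

/-- **Step I, one component.** -/
theorem constAt_tau_div (w : R) (B : Subalgebra R F) [IsNoetherianRing B] [IsFractionRing B F]
    (p q : Ideal B) (hp : p.IsPrime) (hpq : p ⊓ q = Ideal.span {algebraMap R B w})
    (hqp : ¬ q ≤ p) (hw0 : algebraMap R F w ≠ 0)
    (τ : F ≃+* F) (hτB : ∀ b ∈ B, ∃ c ∈ B, τ b - b = algebraMap R F w * c)
    (ξ ξ' : R) (hξ : ξ * ξ' = 1) (hτw : τ (algebraMap R F w) = algebraMap R F (ξ * w))
    (f : F) (hf : f ≠ 0) : ConstAt B p (τ f * f⁻¹) := by
  have hwp : algebraMap R B w ∈ p := by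
    have : algebraMap R B w ∈ p ⊓ q := by
      rw [hpq]
      exact Ideal.mem_span_singleton_self _
    exact this.1
  obtain ⟨k₁, k₂, A, D, hA, hD, h⟩ := exists_decomp w B p q hp hpq hqp f hf
  obtain ⟨A', cA, hA', hcA⟩ := exists_tau_eq w B τ hτB A
  obtain ⟨D', cD, hD', hcD⟩ := exists_tau_eq w B τ hτB D
  have hD'p : D' ∉ p := by
    intro h'
    apply hD
    have h1 : D = D' - algebraMap R B w * cD := by rw [← hcD]; ring
    rw [h1]
    exact p.sub_mem h' (p.mul_mem_right _ hwp)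
  have hA0 : (A : F) ≠ 0 := fun h' => hA (by
    have : A = 0 := Subtype.ext h'
    rw [this]; exact p.zero_mem)
  have hD0 : (D : F) ≠ 0 := fun h' => hD (by
    have : D = 0 := Subtype.ext h'
    rw [this]; exact p.zero_mem)
  have hD'0 : (D' : F) ≠ 0 := by
    rw [hD']
    exact (map_ne_zero τ).2 hD0
  -- the constant
  refine ⟨ξ ^ k₁ * ξ' ^ k₂, ?_, algebraMap R B (ξ ^ k₁ * ξ' ^ k₂) * (A' * D), D' * A, ?_, ?_, ?_⟩
  · have h1 : IsUnit ξ := IsUnit.of_mul_eq_one ξ' hξ
    have h2 : IsUnit ξ' := IsUnit.of_mul_eq_one ξ (by rw [mul_comm]; exact hξ)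
    exact (h1.pow _).mul (h2.pow _)
  · intro h'
    rcases hp.mem_or_mem h' with h' | h'
    · exact hD'p h'
    · exact hA h'
  · have h1 : algebraMap R B (ξ ^ k₁ * ξ' ^ k₂) * (A' * D) -
        algebraMap R B (ξ ^ k₁ * ξ' ^ k₂) * (D' * A) =
        algebraMap R B w * (algebraMap R B (ξ ^ k₁ * ξ' ^ k₂) * (cA * D - cD * A)) := by
      have e1 : A' = A + algebraMap R B w * cA := by rw [← hcA]; ring
      have e2 : D' = D + algebraMap R B w * cD := by rw [← hcD]; ring
      rw [e1, e2]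
      ring
    rw [h1]
    exact p.mul_mem_right _ hwp
  · -- the identity in `F`
    set W : F := algebraMap R F w with hW
    set X : F := algebraMap R F ξ with hX
    set X' : F := algebraMap R F ξ' with hX'
    have hXX' : X * X' = 1 := by
      rw [hX, hX', ← map_mul, hξ, map_one]
    have hτW : τ W = X * W := by
      rw [hW, hτw, map_mul]
    have h2 : τ f * ((X * W) ^ k₂ * (D' : F)) = (X * W) ^ k₁ * (A' : F) := by
      have := congrArg τ h
      rw [map_mul, map_mul, map_mul, map_pow, map_pow, hτW] at this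
      rw [hD', hA']
      exact this
    have hX0 : X ≠ 0 := left_ne_zero_of_mul_eq_one hXX'
    have hfac : X ^ k₂ * W ^ k₂ * W ^ k₁ * f ≠ 0 :=
      mul_ne_zero (mul_ne_zero (mul_ne_zero (pow_ne_zero _ hX0) (pow_ne_zero _ hw0))
        (pow_ne_zero _ hw0)) hf
    have hpow : X ^ k₂ * X' ^ k₂ = 1 := by rw [← mul_pow, hXX', one_pow]
    apply mul_right_cancel₀ hfac
    have hff : f⁻¹ * f = 1 := inv_mul_cancel₀ hf
    push_cast
    rw [← hX, ← hX']
    have e1 : τ f * f⁻¹ * ((D' : F) * (A : F)) * (X ^ k₂ * W ^ k₂ * W ^ k₁ * f) =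
        (τ f * ((X * W) ^ k₂ * (D' : F))) * ((A : F) * W ^ k₁) * (f⁻¹ * f) := by
      rw [mul_pow]; ring
    have e2 : X ^ k₁ * X' ^ k₂ * ((A' : F) * (D : F)) * (X ^ k₂ * W ^ k₂ * W ^ k₁ * f) =
        (X ^ k₂ * X' ^ k₂) * (X ^ k₁ * W ^ k₁ * (A' : F)) * (f * (W ^ k₂ * (D : F))) := by
      ring
    rw [e1, e2, h2, h, hff, hpow, mul_pow]
    ring

end Core

section Main

variable {R E F : Type*} [CommRing R] [IsDomain R] [IsDiscreteValuationRing R]
  [HenselianLocalRing R] [IsAlgClosed (IsLocalRing.ResidueField R)]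
  [Field E] [CharZero E] [Algebra R E] [IsFractionRing R E]
  [Field F] [Algebra E F] [Algebra R F] [IsScalarTower R E F]

/-- `τ w = ξ w` with `ξ` a unit of `R`. -/
theorem exists_tau_unif (w : R) (hw : Irreducible w) (B : Subalgebra R F)
    (τ : F ≃+* F) (τE : E ≃+* E) (τR : R ≃+* R) (hτ : TauCtx w B τ τE τR) :
    ∃ ξ ξ' : R, ξ * ξ' = 1 ∧ τ (algebraMap R F w) = algebraMap R F (ξ * w) := by
  have h1 : τ (algebraMap R F w) = algebraMap R F (τR w) := by
    rw [IsScalarTower.algebraMap_apply R E F, hτ.hτE, hτ.hτR, ← IsScalarTower.algebraMap_apply]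
  have h2 : Irreducible (τR w) := (MulEquiv.irreducible_iff τR).2 hw
  obtain ⟨v, hv⟩ := IsDiscreteValuationRing.associated_of_irreducible R hw h2
  refine ⟨v, ↑v⁻¹, Units.mul_inv v, ?_⟩
  rw [h1, ← hv, mul_comm]

/-- **A1 (Step I).**  `B_{p_i}` is a DVR with uniformiser `w`; write `f = w ^ k · a / b`,
`a, b ∈ B ∖ p_i`; `τ w / w ∈ Rˣ` and `τ a · b - a · τ b ∈ w B`. -/
theorem stepI (w : R) (x : F) (B : Subalgebra R F) (hB : ChartCtx E w x B)
    (c : SSChart w B) (hc : Incomparable c)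
    (τ : F ≃+* F) (τE : E ≃+* E) (τR : R ≃+* R) (hτ : TauCtx w B τ τE τR)
    (f : F) (hf : f ≠ 0) : IsSplit B c (τ f * f⁻¹) := by
  obtain ⟨hN, -, hFr⟩ := chart_instances' w x B hB
  haveI := hN
  haveI := hFr
  have hw0 : algebraMap R F w ≠ 0 := by
    intro h
    exact hB.hw.ne_zero (algebraMap_RF_injective E (by rw [h, map_zero]))
  obtain ⟨ξ, ξ', hξ, hτw⟩ := exists_tau_unif w hB.hw B τ τE τR hτ
  refine ⟨constAt_tau_div w B c.p₁ c.p₂ c.prime₁ c.inf_eq hc.2 hw0 τ hτ.hτB ξ ξ' hξ hτw f hf,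
    constAt_tau_div w B c.p₂ c.p₁ c.prime₂ (by rw [inf_comm]; exact c.inf_eq) hc.1 hw0 τ hτ.hτB
      ξ ξ' hξ hτw f hf⟩

end Main

end Fermat.Agent.A2.Alg.H34

end
-- ===== PACK-END A2/Alg/H34/StepI.lean

-- ===== PACK-BEGIN A2/Alg/H609/ChartFacts.lean
section



/-!
# WALL A2 / ALG (helper609): facts on a chart of `ChartCtx`

For a chart `B` (the integral closure of `R[x]` in `F`, `R` a discrete valuation ring with
uniformiser `w`):

* `isIntegral_aeval_chart` : `B` is integral over `R[X]` via `X ↦ x`;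
* `isDedekindDomain_quotient_chart` : for a prime `p ∋ w` with `B ⧸ p` integrally closed,
  `B ⧸ p` is a Dedekind domain;
* `algebraMap_field_mem` : a valuation subring of `F` containing `B` and `w⁻¹` contains `E`.
-/

set_option autoImplicit false

namespace Fermat.Agent.A2.Alg.H609

open Polynomial Fermat.Agent.A2 Fermat.Agent.A2.Alg

section Integral

variable {R F : Type*} [CommRing R] [Field F] [Algebra R F]

theorem self_mem_chart (x : F) (B : Subalgebra R F)
    (hB : ∀ f : F, f ∈ B ↔ IsIntegral (Algebra.adjoin R ({x} : Set F)) f) : x ∈ B := by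
  rw [hB]
  have h : IsIntegral (Algebra.adjoin R ({x} : Set F))
      (algebraMap (Algebra.adjoin R ({x} : Set F)) F
        ⟨x, Algebra.self_mem_adjoin_singleton R x⟩) := isIntegral_algebraMap
  exact h

/-- The chart is integral over `R[X]`. -/
theorem isIntegral_aeval_chart (x : F) (B : Subalgebra R F)
    (hB : ∀ f : F, f ∈ B ↔ IsIntegral (Algebra.adjoin R ({x} : Set F)) f) :
    (aeval (R := R) (⟨x, self_mem_chart x B hB⟩ : B)).toRingHom.IsIntegral := by
  have hxB := self_mem_chart x B hB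
  have hle : Algebra.adjoin R ({x} : Set F) ≤ B :=
    Algebra.adjoin_le (Set.singleton_subset_iff.2 hxB)
  let ι : Algebra.adjoin R ({x} : Set F) →+* B := (Subalgebra.inclusion hle).toRingHom
  let σ : R[X] →+* Algebra.adjoin R ({x} : Set F) :=
    (aeval (R := R) (⟨x, Algebra.self_mem_adjoin_singleton R x⟩ :
      Algebra.adjoin R ({x} : Set F))).toRingHom
  have hσ : Function.Surjective σ := by
    rintro ⟨a, ha⟩
    have ha' := ha
    rw [Algebra.adjoin_singleton_eq_range_aeval] at ha'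
    obtain ⟨Q, hQ⟩ := ha'
    refine ⟨Q, Subtype.ext ?_⟩
    change ((aeval (R := R) (⟨x, Algebra.self_mem_adjoin_singleton R x⟩ :
      Algebra.adjoin R ({x} : Set F)) Q : Algebra.adjoin R ({x} : Set F)) : F) = a
    rw [← hQ]
    exact (Polynomial.aeval_algHom_apply (Algebra.adjoin R ({x} : Set F)).val
      (⟨x, Algebra.self_mem_adjoin_singleton R x⟩ : Algebra.adjoin R ({x} : Set F)) Q).symm
  have hι : ι.IsIntegral := by
    intro b
    obtain ⟨Q, hQm, hQ⟩ := (hB b).1 b.2
    refine ⟨Q, hQm, Subtype.ext ?_⟩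
    have h := Polynomial.hom_eval₂ Q ι B.val.toRingHom b
    change ((eval₂ ι b Q : B) : F) = 0
    have h' : ((eval₂ ι b Q : B) : F) = eval₂ (B.val.toRingHom.comp ι) (b : F) Q := h
    rw [h']
    exact hQ
  have hcomp : (aeval (R := R) (⟨x, hxB⟩ : B)).toRingHom = ι.comp σ := by
    refine Polynomial.ringHom_ext (fun r => ?_) ?_
    · simp only [AlgHom.toRingHom_eq_coe, RingHom.coe_coe, aeval_C, RingHom.comp_apply, σ, ι,
        AlgHom.commutes]
    · simp only [AlgHom.toRingHom_eq_coe, RingHom.coe_coe, aeval_X, RingHom.comp_apply, σ, ι]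
      rfl
  rw [hcomp]
  exact RingHom.IsIntegral.trans σ ι (RingHom.isIntegral_of_surjective σ hσ) hι

end Integral

section Chart

variable {R E F : Type*} [CommRing R] [IsDomain R] [IsDiscreteValuationRing R]
  [Field E] [CharZero E] [Algebra R E] [IsFractionRing R E]
  [Field F] [Algebra E F] [Algebra R F] [IsScalarTower R E F]

omit [CharZero E] [IsFractionRing R E] [IsScalarTower R E F] in
/-- The components of the special fibre of a chart are Dedekind. -/
theorem isDedekindDomain_quotient_chart (w : R) (x : F) (B : Subalgebra R F)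
    (hB : ChartCtx E w x B) [IsNoetherianRing B] (p : Ideal B) [p.IsPrime]
    (hwp : algebraMap R B w ∈ p) [IsIntegrallyClosed (B ⧸ p)] : IsDedekindDomain (B ⧸ p) := by
  have hmax : (Ideal.span {w}).IsMaximal := by
    rw [← hB.hw.maximalIdeal_eq]
    exact IsLocalRing.maximalIdeal.isMaximal R
  exact isDedekindDomain_quotient hmax _ (isIntegral_aeval_chart x B hB.hB) p hwp

omit [CharZero E] in
/-- A valuation subring of `F` containing `R` and `w⁻¹` contains `E`. -/
theorem algebraMap_field_mem {w : R} (hw : Irreducible w) (V : ValuationSubring F)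
    (hR : ∀ r : R, algebraMap R F r ∈ V) (hwV : (algebraMap R F w)⁻¹ ∈ V) (e : E) :
    algebraMap E F e ∈ V := by
  obtain ⟨a, b, hb, rfl⟩ := IsFractionRing.div_surjective (A := R) e
  have hb0 : b ≠ 0 := nonZeroDivisors.ne_zero hb
  obtain ⟨k, ε, hε⟩ := IsDiscreteValuationRing.eq_unit_mul_pow_irreducible hb0 hw
  rw [map_div₀, ← IsScalarTower.algebraMap_apply, ← IsScalarTower.algebraMap_apply]
  have h1 : algebraMap R F a / algebraMap R F b =
      algebraMap R F a * algebraMap R F ((ε⁻¹ : Rˣ) : R) * (algebraMap R F w)⁻¹ ^ k := by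
    have hεF : algebraMap R F (ε : R) * algebraMap R F ((ε⁻¹ : Rˣ) : R) = 1 := by
      rw [← map_mul, Units.mul_inv, map_one]
    have hεinv : (algebraMap R F (ε : R))⁻¹ = algebraMap R F ((ε⁻¹ : Rˣ) : R) :=
      inv_eq_of_mul_eq_one_right hεF
    rw [hε, map_mul, map_pow, inv_pow, div_eq_mul_inv, mul_inv, hεinv, mul_assoc]
  rw [h1]
  exact V.mul_mem _ _ (V.mul_mem _ _ (hR a) (hR _)) (V.pow_mem hwV k)

end Chart

end Fermat.Agent.A2.Alg.H609

end
-- ===== PACK-END A2/Alg/H609/ChartFacts.lean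

-- ===== PACK-BEGIN A2/H348/Final.lean
section


/-!
# A2 / piece E (ALG_ss): final theorem

`exists_pow_eq_of_local_factorisation`:

`R` a noetherian domain with `R[X]` integrally closed (e.g. a DVR), `w ∈ R` prime, `F ⊇ R` a field
of characteristic `0`, `x ∈ F` transcendental over `R`, `F` finite over `Frac R (x)`;
`B_fin = chart R {x}`, `B_inf = chart R {x⁻¹}` the two charts of the normal `x`-line model (as in
`S18.H138`), `V ⊆ F` the semilocal Gauss ring (intersection of the valuation rings of the generic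
points of the special fibre) with

* `GaussData w m u V` : `V` integrally closed in `F`, `w⁻¹ ∉ V`, `1 + w V ⊆ V^×`, `m⁻¹ ∈ R`,
  `u ∈ 1 + w V`;
* `ChartData w m u B V` for `B = B_fin, B_inf` : `B ⊆ V`, `B ∩ w V = w B` (reduced special fibre),
  and at every maximal ideal `𝔪 ∋ w` of `B` a **local factorisation** `u = ε h ^ m` with
  `ε ∈ 1 + w B_𝔪`, `h ∈ 1 + w V`;
* constants do not grow in the residue fields of the Kummer algebra `F[X]/(X ^ m - u)`.

Then `u = y ^ m` with `y ∈ F`, `y ∈ 1 + w V`.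
-/

set_option autoImplicit false
set_option linter.unusedSectionVars false
set_option linter.style.haveILetI false

open Polynomial

namespace Fermat.Agent.A2.H348

open Fermat.Agent.S18.H138 (chart baseField)

section KummerAlg

variable {F : Type*} [Field F]

/-- the Kummer basis of `F[X]/(X ^ m - u)`. -/
noncomputable def kummerBasisAdjoinRoot {m : ℕ} (hm : m ≠ 0) (u : F) :
    haveI : Nontrivial (AdjoinRoot (X ^ m - C u)) :=
      AdjoinRoot.nontrivial _ (by rw [degree_X_pow_sub_C (Nat.pos_of_ne_zero hm)]; exact_mod_cast hm)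
    KummerBasis m u (AdjoinRoot.root (X ^ m - C u)) :=
  haveI : Nontrivial (AdjoinRoot (X ^ m - C u)) :=
    AdjoinRoot.nontrivial _ (by rw [degree_X_pow_sub_C (Nat.pos_of_ne_zero hm)]; exact_mod_cast hm)
  have hf : (X ^ m - C u : F[X]) ≠ 0 := (monic_X_pow_sub_C u hm).ne_zero
  { pow_eq := by
      have h := AdjoinRoot.eval₂_root (X ^ m - C u : F[X])
      rw [eval₂_sub, eval₂_pow, eval₂_X, eval₂_C, sub_eq_zero] at h
      exact h
    basis := (AdjoinRoot.powerBasis hf).basis.reindex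
      (finCongr ((AdjoinRoot.powerBasis_dim hf).trans natDegree_X_pow_sub_C))
    basis_apply := by
      intro i
      rw [Module.Basis.reindex_apply, PowerBasis.basis_eq_pow, AdjoinRoot.powerBasis_gen]
      rfl }

end KummerAlg

section Final

variable {R F : Type*} [CommRing R] [Field F] [Algebra R F]
  [IsNoetherianRing R] [IsIntegrallyClosed R[X]] [CharZero F]

/-- **ALG_ss (route S of the A2 wall).** -/
theorem exists_pow_eq_of_local_factorisation
    (hinjR : Function.Injective (algebraMap R F))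
    {x : F} (hx : Transcendental R x) [FiniteDimensional (baseField R x) F]
    (w : R) (hw : Prime w) {m : ℕ} {u : F} {V : Subalgebra R F}
    (hV : GaussData w m u V)
    (hfin : ChartData w m u (chart R ({x} : Set F)) V)
    (hinf : ChartData w m u (chart R ({x⁻¹} : Set F)) V)
    (hconst : ∀ 𝔫 : Ideal (AdjoinRoot (X ^ m - C u)), 𝔫.IsMaximal →
      ∀ y : AdjoinRoot (X ^ m - C u) ⧸ 𝔫, IsIntegral R y →
        y ∈ Set.range (algebraMap R (AdjoinRoot (X ^ m - C u) ⧸ 𝔫))) :
    ∃ y : F, y ^ m = u ∧ ∃ t ∈ V, y = 1 + algebraMap R F w * t := by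
  have hm : m ≠ 0 := by
    rintro rfl
    exact hV.m_ne (by simp)
  have hx0 : x ≠ 0 := Fermat.Agent.S18.H138.ne_zero_of_transcendental hx
  haveI : Nontrivial (AdjoinRoot (X ^ m - C u)) :=
    AdjoinRoot.nontrivial _ (by rw [degree_X_pow_sub_C (Nat.pos_of_ne_zero hm)]; exact_mod_cast hm)
  have kb := kummerBasisAdjoinRoot hm u
  haveI := kb.finiteDimensional
  refine exists_root_of_connected (Bmid := chart R ({x, x⁻¹} : Set F)) hV hfin hinf
    (Fermat.Agent.S18.H138.chart_mono (by simp)) (Fermat.Agent.S18.H138.chart_mono (by simp))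
    ⟨x, Fermat.Agent.S18.H138.mem_chart_of_mem rfl⟩ hx0
    (Fermat.Agent.S18.H138.mem_chart_of_mem (by simp))
    (fun f hf => Fermat.Agent.S18.H138.exists_pow_mul_mem_chart hx0 hf) kb ?_
  intro 𝔫 h𝔫
  letI : Field (AdjoinRoot (X ^ m - C u) ⧸ 𝔫) := Ideal.Quotient.field 𝔫
  exact conn_of_const hinjR hx w hw (hconst 𝔫 h𝔫)

end Final

end Fermat.Agent.A2.H348

end
-- ===== PACK-END A2/H348/Final.lean

-- ===== PACK-BEGIN A2/Mod/H142/S2Frob.lean
section




/-!
# A2 / MODASM S2 — concrete basics (helper142)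

* `inW_iff` : `InW V w f ↔ v(f) < 1` for a uniformiser `w`;
* `inW_mul`, `inW_add`, ... : ideal properties of `w V`;
* `frobCong` : `j_{dq} ≡ j_d ^ q  mod w V∞` (integer series, `q ∈ w R`);
* `frobCong_inv` : `j_{dq}⁻¹ ≡ (j_d⁻¹) ^ q  mod w V∞`.
-/

set_option autoImplicit false
set_option synthInstance.maxHeartbeats 400000
set_option maxHeartbeats 1600000
set_option linter.unusedSectionVars false
set_option linter.style.haveILetI false

noncomputable section

namespace Fermat.Agent.A2.Mod.H142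

open ModularCurve HahnSeries Polynomial

variable (P : ValuationSubring _root_.Fermat.Agent.A2.Mod.Qb) (E : IntermediateField ℚ _root_.Fermat.Agent.A2.Mod.Qb)

section Basic

variable {P E} {N : ℕ} {V : ValuationSubring (_root_.Fermat.Agent.A2.Mod.FE E N)} {w : _root_.Fermat.Agent.A2.Mod.RE P E}

theorem inW_iff (hU : H48.IsUnif V (cE P E N w)) (f : _root_.Fermat.Agent.A2.Mod.FE E N) :
    InW P E N V w f ↔ V.valuation f < 1 :=
  hU.mul_inv_mem_iff

theorem inW_mul_right {f : _root_.Fermat.Agent.A2.Mod.FE E N} (hf : InW P E N V w f) {g : _root_.Fermat.Agent.A2.Mod.FE E N} (hg : g ∈ V) :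
    InW P E N V w (f * g) := by
  unfold InW at hf ⊢
  have : f * g * (cE P E N w)⁻¹ = f * (cE P E N w)⁻¹ * g := by ring
  rw [this]
  exact V.mul_mem _ _ hf hg

theorem inW_neg {f : _root_.Fermat.Agent.A2.Mod.FE E N} (hf : InW P E N V w f) : InW P E N V w (-f) := by
  unfold InW at hf ⊢
  rw [neg_mul]
  exact V.neg_mem _ hf

theorem inW_add {f g : _root_.Fermat.Agent.A2.Mod.FE E N} (hf : InW P E N V w f) (hg : InW P E N V w g) :
    InW P E N V w (f + g) := by
  unfold InW at hf hg ⊢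
  rw [add_mul]
  exact V.add_mem _ _ hf hg

theorem inW_sub {f g : _root_.Fermat.Agent.A2.Mod.FE E N} (hf : InW P E N V w f) (hg : InW P E N V w g) :
    InW P E N V w (f - g) := by
  unfold InW at hf hg ⊢
  rw [sub_mul]
  exact sub_mem hf hg

end Basic

section Frob

variable {P E}

/-- `q = r * w` in `R_E` when `P` lies over `q` and `w` is a uniformiser. -/
theorem exists_mul_eq_natCast {w : _root_.Fermat.Agent.A2.Mod.RE P E} {q : ℕ} (hdvr : IsDiscreteValuationRing (_root_.Fermat.Agent.A2.Mod.RE P E))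
    (hw : Irreducible w) (hP : P.LiesOverPrime q) : ∃ r : _root_.Fermat.Agent.A2.Mod.RE P E, r * w = (q : _root_.Fermat.Agent.A2.Mod.RE P E) := by
  haveI := hdvr
  have hmem : ((q : ℕ) : _root_.Fermat.Agent.A2.Mod.RE P E) ∈ IsLocalRing.maximalIdeal (_root_.Fermat.Agent.A2.Mod.RE P E) := by
    rw [IsLocalRing.mem_maximalIdeal, mem_nonunits_iff]
    intro hu
    obtain ⟨u, hu'⟩ := hu
    have h1 : (((u : _root_.Fermat.Agent.A2.Mod.RE P E) : E) : _root_.Fermat.Agent.A2.Mod.Qb) = (q : _root_.Fermat.Agent.A2.Mod.Qb) := by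
      rw [hu']
      push_cast
      rfl
    have h3 : ((((u⁻¹ : (_root_.Fermat.Agent.A2.Mod.RE P E)ˣ) : _root_.Fermat.Agent.A2.Mod.RE P E) : E) : _root_.Fermat.Agent.A2.Mod.Qb) ∈ P := ((u⁻¹ : (_root_.Fermat.Agent.A2.Mod.RE P E)ˣ) : _root_.Fermat.Agent.A2.Mod.RE P E).2
    have h4 : ((((u⁻¹ : (_root_.Fermat.Agent.A2.Mod.RE P E)ˣ) : _root_.Fermat.Agent.A2.Mod.RE P E) : E) : _root_.Fermat.Agent.A2.Mod.Qb) * (q : _root_.Fermat.Agent.A2.Mod.Qb) = 1 := by
      rw [← h1]
      have h5 : ((u⁻¹ : (_root_.Fermat.Agent.A2.Mod.RE P E)ˣ) : _root_.Fermat.Agent.A2.Mod.RE P E) * (u : _root_.Fermat.Agent.A2.Mod.RE P E) = 1 := Units.inv_mul u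
      calc ((((u⁻¹ : (_root_.Fermat.Agent.A2.Mod.RE P E)ˣ) : _root_.Fermat.Agent.A2.Mod.RE P E) : E) : _root_.Fermat.Agent.A2.Mod.Qb) * (((u : _root_.Fermat.Agent.A2.Mod.RE P E) : E) : _root_.Fermat.Agent.A2.Mod.Qb)
          = (((((u⁻¹ : (_root_.Fermat.Agent.A2.Mod.RE P E)ˣ) : _root_.Fermat.Agent.A2.Mod.RE P E) * (u : _root_.Fermat.Agent.A2.Mod.RE P E) : _root_.Fermat.Agent.A2.Mod.RE P E) : E) : _root_.Fermat.Agent.A2.Mod.Qb) := rfl
        _ = 1 := by rw [h5]; rfl
    have hq' : (q : _root_.Fermat.Agent.A2.Mod.Qb) ∈ P.nonunits := hP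
    rw [ValuationSubring.mem_nonunits_iff_exists_mem_maximalIdeal] at hq'
    obtain ⟨hqP, hqm⟩ := hq'
    rw [IsLocalRing.mem_maximalIdeal, mem_nonunits_iff] at hqm
    apply hqm
    refine IsUnit.of_mul_eq_one ⟨_, h3⟩ ?_
    exact Subtype.ext (by rw [mul_comm]; exact h4)
  rw [hw.maximalIdeal_eq, Ideal.mem_span_singleton'] at hmem
  exact hmem

/-- An element of `F_N` whose expansion is `q` times an integer series lies in `w V∞`. -/
theorem inW_of_coe_eq {w : _root_.Fermat.Agent.A2.Mod.RE P E} {q : ℕ} (hq0 : q ≠ 0)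
    (hdvr : IsDiscreteValuationRing (_root_.Fermat.Agent.A2.Mod.RE P E))
    (hw : Irreducible w) (hP : P.LiesOverPrime q) {N : ℕ} (hN : N ≠ 0)
    {V : ValuationSubring (_root_.Fermat.Agent.A2.Mod.FE E N)} (hV : IsVinf P E N V) (D : _root_.Fermat.Agent.A2.Mod.FE E N) (g : LaurentSeries ℤ)
    (hD : (D : LaurentSeries E) = coeffEmb E (H708.castQ (HahnSeries.C (q : ℤ) * g))) :
    InW P E N V w D := by
  haveI := hdvr
  obtain ⟨r, hr⟩ := exists_mul_eq_natCast hdvr hw hP
  have hL2 := H553.vinfBasic P E w N hN hdvr hw V hV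
  have hw0 : (w : E) ≠ 0 := fun h0 => hw.ne_zero (Subtype.ext h0)
  have hcw : cE P E N w ≠ 0 := (map_ne_zero_iff _ (algebraMap E (_root_.Fermat.Agent.A2.Mod.FE E N)).injective).mpr hw0
  have hqE : ((q : ℕ) : E) ≠ 0 := Nat.cast_ne_zero.mpr hq0
  have hqF : ((q : ℕ) : _root_.Fermat.Agent.A2.Mod.FE E N) ≠ 0 := Nat.cast_ne_zero.mpr hq0
  -- `G := D / q` has integral expansion `g`
  obtain ⟨G, hG⟩ : ∃ G : _root_.Fermat.Agent.A2.Mod.FE E N, G = D * ((q : ℕ) : _root_.Fermat.Agent.A2.Mod.FE E N)⁻¹ := ⟨_, rfl⟩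
  have hqL : ((q : ℕ) : LaurentSeries E) ≠ 0 := by
    rw [← map_natCast (algebraMap E (LaurentSeries E))]
    exact (_root_.map_ne_zero _).mpr hqE
  have hCq : coeffEmb E (H708.castQ (HahnSeries.C (q : ℤ))) = ((q : ℕ) : LaurentSeries E) := by
    have h1 : (HahnSeries.C (q : ℤ) : LaurentSeries ℤ) = ((q : ℕ) : LaurentSeries ℤ) := by
      rw [← map_natCast (HahnSeries.C : ℤ →+* LaurentSeries ℤ)]
    rw [h1, map_natCast, map_natCast]
  have hGc : (G : LaurentSeries E) = coeffEmb E (H708.castQ g) := by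
    have h1 : (G : LaurentSeries E) = (D : LaurentSeries E) * ((q : ℕ) : LaurentSeries E)⁻¹ := by
      rw [hG]
      push_cast
      rfl
    rw [h1, hD, map_mul, map_mul, hCq, mul_comm (((q : ℕ) : LaurentSeries E)), mul_assoc,
      mul_inv_cancel₀ hqL, mul_one]
  have hGV : G ∈ V := H553.mem_of_int hV hGc
  have hrV : algebraMap E (_root_.Fermat.Agent.A2.Mod.FE E N) (r : E) ∈ V := (hL2.2.1 _).mpr r.2
  have hqr : ((q : ℕ) : _root_.Fermat.Agent.A2.Mod.FE E N) = algebraMap E (_root_.Fermat.Agent.A2.Mod.FE E N) (r : E) * cE P E N w := by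
    have h1 : ((r * w : _root_.Fermat.Agent.A2.Mod.RE P E) : E) = ((q : ℕ) : E) := by
      rw [hr]
      rfl
    have h2 : ((r * w : _root_.Fermat.Agent.A2.Mod.RE P E) : E) = (r : E) * (w : E) := rfl
    rw [h2] at h1
    unfold cE
    rw [← map_mul, h1, map_natCast]
  have hDG : D = G * ((q : ℕ) : _root_.Fermat.Agent.A2.Mod.FE E N) := by
    rw [hG, mul_assoc, inv_mul_cancel₀ hqF, mul_one]
  unfold InW
  have : D * (cE P E N w)⁻¹ = G * algebraMap E (_root_.Fermat.Agent.A2.Mod.FE E N) (r : E) := by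
    rw [hDG, hqr, mul_assoc, mul_assoc, mul_inv_cancel₀ hcw, mul_one]
  rw [this]
  exact V.mul_mem _ _ hGV hrV

/-- **Frobenius congruence** at level `E`: `j_{dq} ≡ j_d ^ q mod w V∞`. -/
theorem frobCong {w : _root_.Fermat.Agent.A2.Mod.RE P E} {q : ℕ} (hq : q.Prime)
    (hdvr : IsDiscreteValuationRing (_root_.Fermat.Agent.A2.Mod.RE P E))
    (hw : Irreducible w) (hP : P.LiesOverPrime q) {N : ℕ} (hN : N ≠ 0)
    {V : ValuationSubring (_root_.Fermat.Agent.A2.Mod.FE E N)} (hV : IsVinf P E N V)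
    (d : ℕ) [NeZero d] [NeZero (d * q)] (hd : d ∣ N) (hdq : d * q ∣ N) :
    InW P E N V w (jE E N (d * q) hdq - jE E N d hd ^ q) := by
  haveI : Fact q.Prime := ⟨hq⟩
  haveI : NeZero q := ⟨hq.ne_zero⟩
  obtain ⟨g, hg⟩ := H528.exists_frobCong q (H708.jInt d)
  refine inW_of_coe_eq hq.ne_zero hdvr hw hP hN hV _ g ?_
  rw [← hg]
  have h1 : qExpand ℤ q (H708.jInt d) = H708.jInt (d * q) := by
    rw [H708.jInt, H708.jInt, jqNModC, jqNModC, qExpand_qExpand]
    exact qExpand_congr (mul_comm q d) _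
  rw [h1, map_sub, map_sub, map_pow, map_pow]
  show ((jE E N (d * q) hdq : _root_.Fermat.Agent.A2.Mod.FE E N) : LaurentSeries E)
    - ((jE E N d hd : _root_.Fermat.Agent.A2.Mod.FE E N) : LaurentSeries E) ^ q = _
  rw [H553.coe_jE, H553.coe_jE]

end Frob

end Fermat.Agent.A2.Mod.H142

end
end
-- ===== PACK-END A2/Mod/H142/S2Frob.lean

-- ===== PACK-BEGIN A2/Mod/H142/S2Side.lean
section



/-!
# A2 / MODASM S2 — one component (helper142)

`normal_side` : for a valuation subring `V'` of `F_{Mq}` (`V∞` or `V₀`) with uniformiser `w` and a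
degeneracy map `γ : F_M → F_{Mq}` (`α` or `β`) such that

* `γ V∞_M ⊆ V'`, residue degree one (`V' = γ V∞_M + w V'`),
* `y ≡ γ (y_M ^ (q+1)) mod w V'`, `γ y_M ∈ chartAlg y`,
* good reduction at level `M` in the chart of `y_M`,

the component `chartAlg y ⧸ (chartAlg y ∩ w V')` is integrally closed.
-/

set_option autoImplicit false
set_option synthInstance.maxHeartbeats 400000
set_option maxHeartbeats 1600000
set_option linter.unusedSectionVars false
set_option linter.style.haveILetI false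

noncomputable section

namespace Fermat.Agent.A2.Mod.H142

open ModularCurve HahnSeries Polynomial

variable (P : ValuationSubring _root_.Fermat.Agent.A2.Mod.Qb) (E : IntermediateField ℚ _root_.Fermat.Agent.A2.Mod.Qb)

section Chart

variable (N : ℕ)

/-- `chart` (Spec) and `chartAlg` (Asm) have the same elements. -/
theorem mem_chart_iff (y f : _root_.Fermat.Agent.A2.Mod.FE E N) : f ∈ chart P E N y ↔ f ∈ chartAlg P E N y :=
  (isIntegral_adjoin_iff (R := _root_.Fermat.Agent.A2.Mod.RE P E) y f).symm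

theorem self_mem_chartAlg (y : _root_.Fermat.Agent.A2.Mod.FE E N) : y ∈ chartAlg P E N y := by
  rw [mem_chartAlg]
  have h : y = algebraMap (Algebra.adjoin (_root_.Fermat.Agent.A2.Mod.RE P E) ({y} : Set (_root_.Fermat.Agent.A2.Mod.FE E N))) (_root_.Fermat.Agent.A2.Mod.FE E N)
      ⟨y, Algebra.subset_adjoin (Set.mem_singleton y)⟩ := rfl
  rw [h]
  exact isIntegral_algebraMap

end Chart

variable (M q : ℕ) [NeZero M] [NeZero q] (w : _root_.Fermat.Agent.A2.Mod.RE P E)

/-- **One component is normal.** -/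
theorem normal_side (hS : Setting P E M q w)
    (VM : ValuationSubring (_root_.Fermat.Agent.A2.Mod.FE E M)) (hVM : IsVinf P E M VM)
    (V' : ValuationSubring (_root_.Fermat.Agent.A2.Mod.FE E (M * q))) (hU' : H48.IsUnif V' (cE P E (M * q) w))
    (hRV' : ∀ r : _root_.Fermat.Agent.A2.Mod.RE P E, algebraMap (_root_.Fermat.Agent.A2.Mod.RE P E) (_root_.Fermat.Agent.A2.Mod.FE E (M * q)) r ∈ V')
    (γ : _root_.Fermat.Agent.A2.Mod.FE E M →ₐ[E] _root_.Fermat.Agent.A2.Mod.FE E (M * q))
    (hγV : ∀ g ∈ VM, γ g ∈ V')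
    (hres : ∀ f ∈ V', ∃ g ∈ VM, InW P E (M * q) V' w (f - γ g))
    (yM : _root_.Fermat.Agent.A2.Mod.FE E M) (y : _root_.Fermat.Agent.A2.Mod.FE E (M * q))
    (hyM : yM ∈ VM) (hy : y ∈ V')
    (hcong : InW P E (M * q) V' w (y - γ (yM ^ (q + 1))))
    (hγy : γ yM ∈ chartAlg P E (M * q) y)
    (hgood : GoodRedAt P E M w VM yM)
    (p : Ideal (chartAlg P E (M * q) y))
    (hp : IsCut P E (M * q) w V' (chartAlg P E (M * q) y) p) :
    IsIntegrallyClosed (chartAlg P E (M * q) y ⧸ p) := by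
  have hdvr := hS.dvr
  have hL2M := H553.vinfBasic P E w M hS.M_ne_zero hdvr hS.unif VM hVM
  have hUM : H48.IsUnif VM (cE P E M w) := hL2M.1
  have hRVM : ∀ r : _root_.Fermat.Agent.A2.Mod.RE P E, algebraMap (_root_.Fermat.Agent.A2.Mod.RE P E) (_root_.Fermat.Agent.A2.Mod.FE E M) r ∈ VM := fun r =>
    (hL2M.2.1 (r : E)).mpr r.2
  have hγR : ∀ r : _root_.Fermat.Agent.A2.Mod.RE P E, (γ : _root_.Fermat.Agent.A2.Mod.FE E M →+* _root_.Fermat.Agent.A2.Mod.FE E (M * q)) (algebraMap (_root_.Fermat.Agent.A2.Mod.RE P E) (_root_.Fermat.Agent.A2.Mod.FE E M) r) =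
      algebraMap (_root_.Fermat.Agent.A2.Mod.RE P E) (_root_.Fermat.Agent.A2.Mod.FE E (M * q)) r := fun r => γ.commutes (r : E)
  have hγc : γ (cE P E M w) = cE P E (M * q) w := γ.commutes (w : E)
  -- the charts lie in the valuation rings
  have hB₀ : ∀ b ∈ chartAlg P E M yM, b ∈ VM := fun b hb =>
    mem_valuationSubring_of_isIntegral_adjoin VM hRVM hyM ((mem_chartAlg P E M).1 hb)
  have hB : ∀ b ∈ chartAlg P E (M * q) y, b ∈ V' := fun b hb =>
    mem_valuationSubring_of_isIntegral_adjoin V' hRV' hy ((mem_chartAlg P E (M * q)).1 hb)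
  have hγB : ∀ b ∈ chartAlg P E M yM, (γ : _root_.Fermat.Agent.A2.Mod.FE E M →+* _root_.Fermat.Agent.A2.Mod.FE E (M * q)) b ∈ chartAlg P E (M * q) y :=
    fun b hb => (mem_chartAlg P E (M * q)).2
      (isIntegral_adjoin_map (γ : _root_.Fermat.Agent.A2.Mod.FE E M →+* _root_.Fermat.Agent.A2.Mod.FE E (M * q)) hγR
        ((mem_chartAlg P E (M * q)).1 hγy) ((mem_chartAlg P E M).1 hb))
  have hγp : ∀ g : _root_.Fermat.Agent.A2.Mod.FE E M, VM.valuation g < 1 →
      V'.valuation ((γ : _root_.Fermat.Agent.A2.Mod.FE E M →+* _root_.Fermat.Agent.A2.Mod.FE E (M * q)) g) < 1 := by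
    intro g hg
    rw [← inW_iff hUM] at hg
    rw [← inW_iff hU']
    unfold InW at hg ⊢
    have h1 := hγV _ hg
    rw [map_mul, map_inv₀, hγc] at h1
    exact h1
  have hres' : ∀ f ∈ V', ∃ g ∈ VM,
      V'.valuation (f - (γ : _root_.Fermat.Agent.A2.Mod.FE E M →+* _root_.Fermat.Agent.A2.Mod.FE E (M * q)) g) < 1 := by
    intro f hf
    obtain ⟨g, hg, hfg⟩ := hres f hf
    exact ⟨g, hg, (inW_iff hU' _).1 hfg⟩
  have hnorm₀ : NormalIn VM ((chartAlg P E M yM : Subalgebra (_root_.Fermat.Agent.A2.Mod.RE P E) (_root_.Fermat.Agent.A2.Mod.FE E M)) : Set (_root_.Fermat.Agent.A2.Mod.FE E M)) := by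
    intro f hf ⟨n, c, hc, hrel⟩
    obtain ⟨b, hb, hfb⟩ := hgood.normal f hf
      ⟨n, c, fun i => (mem_chart_iff P E M yM (c i)).2 (hc i), (inW_iff hUM _).2 hrel⟩
    exact ⟨b, (mem_chart_iff P E M yM b).1 hb, (inW_iff hUM _).1 hfb⟩
  have hint := isIntegralElem_of_coord (γ : _root_.Fermat.Agent.A2.Mod.FE E M →+* _root_.Fermat.Agent.A2.Mod.FE E (M * q)) hγR V'
    (chartAlg P E M yM) (chartAlg P E (M * q) y) hB hγB y (self_mem_chartAlg P E (M * q) y)
    (yM ^ (q + 1)) (pow_mem (self_mem_chartAlg P E M yM) _) ((inW_iff hU' _).1 hcong)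
    (fun b hb => (mem_chartAlg P E (M * q)).1 hb)
  have hnorm : NormalIn V'
      ((chartAlg P E (M * q) y : Subalgebra (_root_.Fermat.Agent.A2.Mod.RE P E) (_root_.Fermat.Agent.A2.Mod.FE E (M * q))) : Set (_root_.Fermat.Agent.A2.Mod.FE E (M * q))) :=
    normalIn_transfer (γ : _root_.Fermat.Agent.A2.Mod.FE E M →+* _root_.Fermat.Agent.A2.Mod.FE E (M * q)) VM V' hγV hγp
      (chartAlg P E M yM) (chartAlg P E (M * q) y) hB₀ hB hγB hres' hint hnorm₀
  exact isIntegrallyClosed_quotient_of_normal V' (chartAlg P E (M * q) y) hB p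
    (fun b => (hp b).trans (inW_iff hU' _)) hnorm

end Fermat.Agent.A2.Mod.H142

end
end
-- ===== PACK-END A2/Mod/H142/S2Side.lean

-- ===== PACK-BEGIN S18/H203/TraceRed.lean
section


/-!
# S18 / b1–b2.1 (helper203): traces and discriminants commute with reduction mod `w`

Setting of `LiftBasis.lean` / `KBasis.lean`: `S` Noetherian integrally closed domain, `w ∈ S`
prime, `K = Frac S`, `F / K` finite, `B` the integral closure of `S` in `F`, finite over `S`;
`S̄ = S ⧸ (w)`, `B̄ = B ⧸ (w) B`, and `b̄` an `S̄`-basis of `B̄`.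

* `trace_redB` : if `τ ∈ S` is the trace `Tr_{F/K} β` of `β ∈ B`, then
  `Tr_{B̄ / S̄} (β mod w) = τ mod w`.
* `exists_trace_eq` : the trace of `β ∈ B` lies in `S`.
* `exists_discr_eq` : for lifts `b i ∈ B` of `b̄ i` there is `d ∈ S` which is the discriminant of
  the `K`-basis `b` of `F` and whose reduction is the discriminant of the `S̄`-basis `b̄` of `B̄`.
-/

set_option autoImplicit false

namespace Fermat.Agent.S18.H203

open Ideal

section General

variable {R A : Type*} [CommRing R] [CommRing A] [Algebra R A]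
  {ι : Type*} [Fintype ι] [DecidableEq ι]

/-- Trace from a "matrix up to a scalar": if `r • (x * bas j) = ∑ i, s i j • bas i` for all `j`
then `r * Tr x = ∑ i, s i i`. -/
theorem mul_trace_eq_sum (bas : Module.Basis ι R A) (x : A) (r : R) (s : ι → ι → R)
    (h : ∀ j, r • (x * bas j) = ∑ i, s i j • bas i) :
    r * Algebra.trace R A x = ∑ i, s i i := by
  rw [Algebra.trace_eq_matrix_trace bas, Matrix.trace, Finset.mul_sum]
  refine Finset.sum_congr rfl fun i _ => ?_
  rw [Matrix.diag_apply, Algebra.leftMulMatrix_eq_repr_mul]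
  have h1 := congrArg (fun v => bas.repr v i) (h i)
  simp only [map_smul, Finsupp.smul_apply, smul_eq_mul, map_sum, Finsupp.coe_finsetSum,
    Finset.sum_apply, Module.Basis.repr_self, Finsupp.single_apply, mul_ite, mul_one,
    mul_zero, Finset.sum_ite_eq', Finset.mem_univ, if_true] at h1
  exact h1

end General

section

variable {S B : Type*} [CommRing S] [IsDomain S] [IsNoetherianRing S] [IsIntegrallyClosed S]
  [CommRing B] [Algebra S B] {ι : Type*} [Fintype ι] [DecidableEq ι]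

omit [IsNoetherianRing S] [IsDomain S] [DecidableEq ι] [Fintype ι] in
/-- The trace of an element of the integral closure lies in `S`. -/
theorem exists_trace_eq (K F : Type*) [Field K] [Algebra S K]
    [IsFractionRing S K] [Field F] [Algebra K F] [Algebra S F] [IsScalarTower S K F]
    [Algebra B F] [IsScalarTower S B F] [IsIntegralClosure B S F] [FiniteDimensional K F]
    (β : B) : ∃ τ : S, algebraMap S K τ = Algebra.trace K F (algebraMap B F β) := by
  have h1 : IsIntegral S (algebraMap B F β) := (IsIntegralClosure.isIntegral S F β).algebraMap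
  have h2 : IsIntegral S (Algebra.trace K F (algebraMap B F β)) := Algebra.isIntegral_trace h1
  exact IsIntegrallyClosed.isIntegral_iff.mp h2

omit [IsIntegrallyClosed S] in
/-- **Traces commute with reduction mod `w`.** -/
theorem trace_redB (K F : Type*) [Field K] [Algebra S K]
    [IsFractionRing S K] [Field F] [Algebra K F] [Algebra S F] [IsScalarTower S K F]
    [Algebra B F] [IsScalarTower S B F] [IsIntegralClosure B S F]
    [Module.Finite S B] [FiniteDimensional K F]
    {w : S} (hw : Prime w)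
    (bbar : Module.Basis ι (S ⧸ Ideal.span {w}) (B ⧸ (Ideal.span {w}).map (algebraMap S B)))
    (β : B) (τ : S) (hτ : algebraMap S K τ = Algebra.trace K F (algebraMap B F β)) :
    Algebra.trace (S ⧸ Ideal.span {w}) (B ⧸ (Ideal.span {w}).map (algebraMap S B))
      (redB (S := S) w β) = redS w τ := by
  -- lifts of the basis
  choose b hb using fun i => Ideal.Quotient.mk_surjective (bbar i)
  have hfun : (fun i => redB (S := S) w (b i)) = ⇑bbar := funext hb
  have hli : LinearIndependent (S ⧸ Ideal.span {w}) fun i => redB (S := S) w (b i) := by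
    rw [hfun]; exact bbar.linearIndependent
  have hspan : Submodule.span (S ⧸ Ideal.span {w})
      (Set.range fun i => redB (S := S) w (b i)) = ⊤ := by
    rw [hfun]; exact bbar.span_eq
  -- the `K`-basis
  set bK : Module.Basis ι K F := basisOfLift K F hw b hli hspan with hbK
  -- Nakayama
  obtain ⟨r, hr1, hr⟩ := exists_smul_mem_span w b hspan
  have hrbar : redS w r = 1 := by
    have : redS w (r - 1) = 0 := Ideal.Quotient.eq_zero_iff_mem.mpr hr1
    rwa [map_sub, map_one, sub_eq_zero] at this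
  -- the matrix
  have hex : ∀ j, ∃ c : ι → S, r • (β * b j) = ∑ i, c i • b i := fun j => by
    obtain ⟨c, hc⟩ := (Submodule.mem_span_range_iff_exists_fun S).mp (hr (β * b j))
    exact ⟨c, hc.symm⟩
  choose s hs using hex
  -- generic fibre
  have hK : ∀ j, algebraMap S K r • (algebraMap B F β * bK j) =
      ∑ i, algebraMap S K (s j i) • bK i := by
    intro j
    have := congrArg (algebraMap B F) (hs j)
    simp only [map_sum, Algebra.smul_def, map_mul, ← IsScalarTower.algebraMap_apply] at this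
    simp only [hbK, basisOfLift_apply, Algebra.smul_def, ← IsScalarTower.algebraMap_apply]
    exact this
  have e1 : algebraMap S K r * Algebra.trace K F (algebraMap B F β) =
      ∑ i, algebraMap S K (s i i) :=
    mul_trace_eq_sum bK (algebraMap B F β) (algebraMap S K r)
      (fun i j => algebraMap S K (s j i)) hK
  have e2 : r * τ = ∑ i, s i i := by
    apply IsFractionRing.injective S K
    rw [map_mul, hτ, e1, map_sum]
  -- special fibre
  have hbar : ∀ j, (1 : S ⧸ Ideal.span {w}) • (redB (S := S) w β * bbar j) =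
      ∑ i, redS w (s j i) • bbar i := by
    intro j
    have := congrArg (redB (S := S) w) (hs j)
    rw [redB_smul, hrbar, map_mul, map_sum, hb] at this
    rw [this]
    refine Finset.sum_congr rfl fun i _ => ?_
    rw [redB_smul, hb]
  have e3 := mul_trace_eq_sum bbar (redB (S := S) w β) 1 (fun i j => redS w (s j i)) hbar
  rw [one_mul] at e3
  rw [e3, ← map_sum, ← e2, map_mul, hrbar, one_mul]

/-- **Discriminants commute with reduction mod `w`.** -/
theorem exists_discr_eq (K F : Type*) [Field K] [Algebra S K]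
    [IsFractionRing S K] [Field F] [Algebra K F] [Algebra S F] [IsScalarTower S K F]
    [Algebra B F] [IsScalarTower S B F] [IsIntegralClosure B S F]
    [Module.Finite S B] [FiniteDimensional K F]
    {w : S} (hw : Prime w)
    (bbar : Module.Basis ι (S ⧸ Ideal.span {w}) (B ⧸ (Ideal.span {w}).map (algebraMap S B)))
    (b : ι → B) (hb : ∀ i, redB (S := S) w (b i) = bbar i) :
    ∃ d : S, algebraMap S K d = Algebra.discr K (fun i => algebraMap B F (b i)) ∧
      redS w d = Algebra.discr (S ⧸ Ideal.span {w}) bbar := by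
  choose D hD using fun p : ι × ι => exists_trace_eq (S := S) K F (b p.1 * b p.2)
  refine ⟨(Matrix.of fun i j => D (i, j)).det, ?_, ?_⟩
  · rw [Algebra.discr_def, RingHom.map_det]
    congr 1
    ext i j
    simp only [RingHom.mapMatrix_apply, Matrix.map_apply, Matrix.of_apply,
      Algebra.traceMatrix_apply, Algebra.traceForm_apply, hD (i, j), map_mul]
  · rw [Algebra.discr_def, RingHom.map_det]
    congr 1
    ext i j
    simp only [RingHom.mapMatrix_apply, Matrix.map_apply, Matrix.of_apply,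
      Algebra.traceMatrix_apply, Algebra.traceForm_apply]
    rw [← hb i, ← hb j, ← map_mul]
    exact (trace_redB K F hw bbar (b i * b j) (D (i, j)) (hD (i, j))).symm

end

end Fermat.Agent.S18.H203

end
-- ===== PACK-END S18/H203/TraceRed.lean

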