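import Fermat.Statements.S22
import Mathlib
import Fermat.Prelude.Def_ModularCurve_X0ModL
import Fermat.Prelude.Def_GroupCohomology_ContinuousUnramified
import Fermat.Agent.Pack.S34.G0E0L2
import Fermat.Agent.Pack.S34.G0E0L1
import Fermat.Agent.Pack.S34.G0E8L2
import Fermat.Agent.Pack.S34.G0E8L3
import Fermat.Agent.Pack.S34.G0E3L0
import Fermat.Agent.Pack.S34.G0E8L0
import Fermat.Agent.Pack.S34.G0E8L1
import Fermat.Agent.Pack.S34.G0E1L3
import Fermat.Agent.Pack.S34.G0E7L1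
import Fermat.Agent.Pack.S34.G0E6L1
import Fermat.Agent.Pack.S34.G0E2L3

-- ===== PACK-BEGIN S22.lean
section
-- Template for statement S22 (row 21; see the milestone table for weights).
-- The statement below is byte-identical to the frozen
-- statement CuspForm.FermatFrozen.S22 (Fermat/Statements/S22.lean; the theorem CuspForm.moduleFinite_heckeAlgebra);
-- the grader kernel-checks Fermat.Agent.S22.result against that frozen type.






set_option autoImplicit false
open CuspForm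

namespace Fermat.Agent.S22

theorem result (N : ℕ) [NeZero N] (k : ℤ) (S : Set ℕ) :
    Module.Finite ℤ (CuspForm.heckeAlgebra N k S) := by
  by_cases hk : k ≤ 1
  · exact H262.moduleFinite_heckeAlgebra_of_subsingleton (H262.cuspForm_eq_zero_of_le_one hk)
  · obtain ⟨n, rfl⟩ : ∃ n : ℕ, k = (n : ℤ) + 2 := ⟨(k - 2).toNat, by omega⟩
    exact H262.moduleFinite_heckeAlgebra_of_lattice (H262.periodLattice N n)
      H262.periodLattice_fg (H262.periodLattice_stable S) H262.periodLattice_separating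

end Fermat.Agent.S22

end
-- ===== PACK-END S22.lean

-- ===== PACK-BEGIN S31/H838/SSGlue.lean
section



/-!
# Row S31, piece SS — glue (helper838)

`heckeAlgebra_isReduced` (= `Skeleton.heckeAlgebra_isReduced` verbatim) obtained by combining

* helper695's function-level adjointness `Lib.Pet695.pet_heckeT_adjoint` (valid for every partition
  function of `Γ₀(N)`), and
* helper622's partition function `chiH`, Petersson product `petC` (positive definite) and
  `isReduced_of_selfAdjoint`.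
-/

set_option autoImplicit false
set_option linter.unusedSectionVars false

open UpperHalfPlane CongruenceSubgroup MeasureTheory
open scoped MatrixGroups ModularForm

namespace Fermat.Agent.S31.H838

open Fermat.Agent.Lib.Pet695 Fermat.Agent.S31.H622

variable (N : ℕ) [NeZero N]

theorem aGL_smul_eq (γ : Gamma0 N) (τ : ℍ) : aGL N γ • τ = (γ : SL(2, ℤ)) • τ := rfl

theorem isPartFn_chiH : IsPartFn (aGL N) (chiH N) where
  meas := measurable_chiH N
  nonneg := chiH_nonneg N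
  hasSum τ := by
    simpa only [aGL_smul_eq] using hasSum_chiH N τ
  integrable := integrable_chiH N

theorem isAdm_cuspForm (f : CuspForm (Gamma0 N) 2) : IsAdm 2 (f : ℍ → ℂ) where
  cont := ModularFormClass.continuous f
  bdd := by
    obtain ⟨C, -, hC⟩ := exists_petersson_self_bound N f
    exact ⟨C, hC⟩

theorem slash_aGL_eq (f : CuspForm (Gamma0 N) 2) (γ : Gamma0 N) :
    (f : ℍ → ℂ) ∣[(2 : ℤ)] aGL N γ = f :=
  SlashInvariantFormClass.slash_action_eq f _ ⟨(γ : SL(2, ℤ)), γ.2, rfl⟩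

theorem petC_eq_pet (f g : CuspForm (Gamma0 N) 2) :
    petC N f g = pet 2 (chiH N) (f : ℍ → ℂ) (g : ℍ → ℂ) := by
  unfold petC pet
  refine integral_congr_ae (Filter.Eventually.of_forall fun τ => ?_)
  simp only [mul_comm]

/-- `T_ℓ` (`ℓ ∤ N`) is symmetric for the Petersson product. -/
theorem isPetSymm_heckeTLin (ℓ : ℕ) (hℓ : ℓ.Prime) (hℓN : ¬ ℓ ∣ N) :
    IsPetSymm N (CuspForm.heckeTLin 2 hℓ hℓN) := by
  intro f g
  rw [petC_eq_pet, petC_eq_pet, CuspForm.coe_heckeTLin_apply, CuspForm.coe_heckeTLin_apply]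
  exact pet_heckeT_adjoint hℓ hℓN (isPartFn_chiH N) (isAdm_cuspForm N f) (isAdm_cuspForm N g)
    (slash_aGL_eq N f) (slash_aGL_eq N g)

/-- **SS**.  The anemic Hecke algebra of weight 2 and level `N` is reduced. -/
theorem heckeAlgebra_isReduced (N : ℕ) [NeZero N] (S : Set ℕ)
    (hNS : ∀ q : ℕ, q.Prime → q ∣ N → q ∈ S) : IsReduced (CuspForm.heckeAlgebra N 2 S) :=
  isReduced_of_selfAdjoint N S hNS (isPetSymm_heckeTLin N)

end Fermat.Agent.S31.H838

end
-- ===== PACK-END S31/H838/SSGlue.lean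

-- ===== PACK-BEGIN S24/H624/Elliptic.lean
section


/-!
# Elliptic fixed points: the rotation factor is a primitive 2nd / 3rd root of unity
-/

set_option autoImplicit false

namespace Fermat.Agent.S24.H624

open UpperHalfPlane Complex
open scoped Manifold Topology MatrixGroups

/-- The factor by which `γ` rotates leading coefficients at `τ`
(the derivative of `z ↦ γ⁻¹ • z` at `τ`). -/
noncomputable def rotFactor (γ : SL(2, ℤ)) (τ : ℍ) : ℂ :=
  1 / denom ((γ⁻¹ : SL(2, ℤ)) : GL (Fin 2) ℝ) (τ : ℂ) ^ 2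

theorem rotFactor_def (γ : SL(2, ℤ)) (τ : ℍ) :
    rotFactor γ τ = 1 / denom ((γ⁻¹ : SL(2, ℤ)) : GL (Fin 2) ℝ) (τ : ℂ) ^ 2 := rfl

theorem rotFactor_ne_zero (γ : SL(2, ℤ)) (τ : ℍ) : rotFactor γ τ ≠ 0 :=
  one_div_ne_zero (pow_ne_zero _ (denom_ne_zero _ τ))

/-- `LocalData`-shaped statement with `rotFactor`. -/
theorem laurentAt_smul_fixed_rotFactor {γ : SL(2, ℤ)} {τ : ℍ} (hτ : γ • τ = τ) (F : MerH) :
    (laurentAt τ (γ • F)).order = (laurentAt τ F).order ∧
    (laurentAt τ (γ • F)).leadingCoeff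
      = rotFactor γ τ ^ (laurentAt τ F).order * (laurentAt τ F).leadingCoeff :=
  laurentAt_smul_of_fixed hτ F

theorem trace_inv_SL (γ : SL(2, ℤ)) : (γ⁻¹) 0 0 + (γ⁻¹) 1 1 = γ 0 0 + γ 1 1 := by
  rw [Matrix.SpecialLinearGroup.coe_inv, Matrix.adjugate_fin_two]
  simp
  ring

theorem inv_smul_of_fixed {γ : SL(2, ℤ)} {τ : ℍ} (hτ : γ • τ = τ) : γ⁻¹ • τ = τ := by
  rw [inv_smul_eq_iff, hτ]

theorem rotFactor_eq_neg_one {γ : SL(2, ℤ)} {τ : ℍ} (hτ : γ • τ = τ)
    (htr : γ 0 0 + γ 1 1 = 0) : rotFactor γ τ = -1 := by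
  have h2 := denom_sq_eq_of_fixed (inv_smul_of_fixed hτ)
  rw [trace_inv_SL, htr] at h2
  simp only [Int.cast_zero, zero_mul, zero_sub] at h2
  rw [rotFactor_def, h2]
  norm_num

theorem isPrimitiveRoot_rotFactor_two {γ : SL(2, ℤ)} {τ : ℍ} (hτ : γ • τ = τ)
    (htr : γ 0 0 + γ 1 1 = 0) : IsPrimitiveRoot (rotFactor γ τ) 2 := by
  rw [rotFactor_eq_neg_one hτ htr]
  exact IsPrimitiveRoot.neg_one 0 (by norm_num)

theorem isPrimitiveRoot_three_of_root {μ : ℂ} (hμ : μ ^ 2 + μ + 1 = 0) : IsPrimitiveRoot μ 3 := by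
  have h3 : μ ^ 3 = 1 := by linear_combination (μ - 1) * hμ
  refine IsPrimitiveRoot.mk_of_lt μ (by norm_num) h3 ?_
  intro l hl0 hl3 hl
  have : 3 ∣ l := three_dvd_of_root hμ hl
  omega

theorem isPrimitiveRoot_rotFactor_three {γ : SL(2, ℤ)} {τ : ℍ} (hτ : γ • τ = τ)
    (htr : γ 0 0 + γ 1 1 = 1 ∨ γ 0 0 + γ 1 1 = -1) : IsPrimitiveRoot (rotFactor γ τ) 3 := by
  have h2 := denom_sq_eq_of_fixed (inv_smul_of_fixed hτ)
  rw [trace_inv_SL] at h2
  set lam := denom ((γ⁻¹ : SL(2, ℤ)) : GL (Fin 2) ℝ) (τ : ℂ) with hlam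
  have hlam0 : lam ≠ 0 := denom_ne_zero _ τ
  have hμ : (lam ^ 2) ^ 2 + lam ^ 2 + 1 = 0 := by
    rcases htr with htr | htr
    · rw [htr] at h2
      simp only [Int.cast_one, one_mul] at h2
      linear_combination (lam ^ 2 + lam + 1) * h2
    · rw [htr] at h2
      simp only [Int.cast_neg, Int.cast_one, neg_mul, one_mul] at h2
      linear_combination (lam ^ 2 - lam + 1) * h2
  apply isPrimitiveRoot_three_of_root
  rw [rotFactor_def, ← hlam]
  have h4 : (lam ^ 2) ≠ 0 := pow_ne_zero _ hlam0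
  field_simp
  linear_combination hμ

theorem S_smul_I : ModularGroup.S • UpperHalfPlane.I = UpperHalfPlane.I := by
  rw [modular_S_smul]
  ext
  simp [UpperHalfPlane.coe_I, Complex.inv_I]

theorem trace_S : (ModularGroup.S : SL(2, ℤ)) 0 0 + (ModularGroup.S : SL(2, ℤ)) 1 1 = 0 := by
  decide

theorem trace_ST :
    (ModularGroup.S * ModularGroup.T : SL(2, ℤ)) 0 0
      + (ModularGroup.S * ModularGroup.T : SL(2, ℤ)) 1 1 = 1 := by
  decide

/-- The point `ρ = -1/2 + (√3/2) i`. -/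
noncomputable def rhoH : ℍ :=
  ⟨⟨-1 / 2, Real.sqrt 3 / 2⟩, by
    show (0 : ℝ) < Real.sqrt 3 / 2
    positivity⟩

theorem rhoH_coe : (rhoH : ℂ) = ⟨-1 / 2, Real.sqrt 3 / 2⟩ := rfl

theorem rhoH_sq : (rhoH : ℂ) ^ 2 + (rhoH : ℂ) + 1 = 0 := by
  have h3 : Real.sqrt 3 * Real.sqrt 3 = 3 := Real.mul_self_sqrt (by norm_num)
  rw [rhoH_coe]
  apply Complex.ext
  · simp [pow_two]
    nlinarith
  · simp [pow_two]
    ring

theorem ST_smul_rhoH : (ModularGroup.S * ModularGroup.T) • rhoH = rhoH := by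
  apply UpperHalfPlane.ext
  rw [coe_specialLinearGroup_apply]
  have h := rhoH_sq
  have hne : (rhoH : ℂ) + 1 ≠ 0 := by
    intro h0
    have : (rhoH : ℂ) = -1 := by linear_combination h0
    rw [this] at h
    norm_num at h
  have e00 : (ModularGroup.S * ModularGroup.T : SL(2, ℤ)) 0 0 = 0 := by decide
  have e01 : (ModularGroup.S * ModularGroup.T : SL(2, ℤ)) 0 1 = -1 := by decide
  have e10 : (ModularGroup.S * ModularGroup.T : SL(2, ℤ)) 1 0 = 1 := by decide
  have e11 : (ModularGroup.S * ModularGroup.T : SL(2, ℤ)) 1 1 = 1 := by decide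
  rw [e00, e01, e10, e11]
  simp only [algebraMap_int_eq, Int.coe_castRingHom, Int.cast_zero, Complex.ofReal_zero,
    zero_mul, Int.cast_neg, Int.cast_one, Complex.ofReal_neg, Complex.ofReal_one, zero_add,
    one_mul]
  rw [div_eq_iff hne]
  linear_combination -h

theorem isPrimitiveRoot_rotFactor_S :
    IsPrimitiveRoot (rotFactor ModularGroup.S UpperHalfPlane.I) 2 :=
  isPrimitiveRoot_rotFactor_two S_smul_I trace_S

theorem isPrimitiveRoot_rotFactor_ST :
    IsPrimitiveRoot (rotFactor (ModularGroup.S * ModularGroup.T) rhoH) 3 :=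
  isPrimitiveRoot_rotFactor_three ST_smul_rhoH (Or.inl trace_ST)

end Fermat.Agent.S24.H624

end
-- ===== PACK-END S24/H624/Elliptic.lean

-- ===== PACK-BEGIN S37/Core/Assemble.lean
section


/-!
# S37 row (helper37): assembly

`result_of_pieces` : the frozen statement S37 from the three top-level pieces
* `hHIA`  : `HeckeInputsAlong ℚ̄ N ℓ` (so that the Prelude `T_ℓ` is the honest correspondence),
* `hS18`  : the conclusion of the frozen statement S18,
* `hPR`   : a `PlaceRed N A ℓ σ₀` for every Frobenius element `σ₀` at `A`.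
Fully proved.
-/

set_option autoImplicit false
set_option synthInstance.maxHeartbeats 400000

noncomputable section

namespace Fermat.Agent.S37.Core

open ModularCurve ValuationSubring AlgebraicCurve HahnSeries Fermat.Agent.S37.H99

section Main

variable {N : ℕ} [NeZero N] {A : ValuationSubring (AlgebraicClosure ℚ)} {ℓ : ℕ} [NeZero ℓ]
  {σ₀ : AlgebraicClosure ℚ ≃ₐ[ℚ] AlgebraicClosure ℚ}

/-- the Eichler-Shimura relation after reduction -/
theorem PlaceRed.red_relation (D : PlaceRed N A ℓ σ₀)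
    (HIA : HeckeInputsAlong (AlgebraicClosure ℚ) N ℓ) (x : JZero N) :
    D.red (σ₀ • σ₀ • x - heckeOperatorAlong (AlgebraicClosure ℚ) N ℓ (σ₀ • x) + ℓ • x) = 0 := by
  obtain ⟨hα, hβ, hP, hfin, hFI, hN⟩ := HIA
  haveI := hP
  rw [heckeOperatorAlong_eq hα hβ hFI hfin hN]
  obtain ⟨E, rfl⟩ := Pic0.mk_surjective x
  set g := arithmeticGalois (modularFunctionFieldFull N) σ₀ with hg
  have e1 : σ₀ • σ₀ • Pic0.mk E - heckePic0Bar hα hβ hFI hfin hN (σ₀ • Pic0.mk E) + ℓ • Pic0.mk E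
      = Pic0.mk (SemilinearAut.degZeroSMulHom g (SemilinearAut.degZeroSMulHom g E) -
          Pic0.degZeroCorrespondence (heckeBetaBar (AlgebraicClosure ℚ) N ℓ)
            (heckeAlphaBar (AlgebraicClosure ℚ) N ℓ) hβ hα hFI (SemilinearAut.degZeroSMulHom g E) +
          ℓ • E) := rfl
  rw [e1, D.red_mk]
  have e2 : reductionDegZeroAlong D.r D.isRed.1
      (SemilinearAut.degZeroSMulHom g (SemilinearAut.degZeroSMulHom g E) -
          Pic0.degZeroCorrespondence (heckeBetaBar (AlgebraicClosure ℚ) N ℓ)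
            (heckeAlphaBar (AlgebraicClosure ℚ) N ℓ) hβ hα hFI (SemilinearAut.degZeroSMulHom g E) +
          ℓ • E) = 0 := by
    apply Subtype.ext
    rw [coe_reductionDegZeroAlong]
    exact D.mapDomain_relation hα hβ (E : Divisor (AlgebraicClosure ℚ) (modularFunctionFieldBar N))
  rw [e2]
  rfl

end Main

/-- **S37 at one place from the pieces.** -/
theorem isWeakRed_of_placeRed (N p : ℕ) [NeZero N] (hcomm : HeckeOperatorsCommuteBar N)
    (A : ValuationSubring (AlgebraicClosure ℚ)) (ℓ : ℕ) (hℓ : ℓ.Prime) (hℓp : ¬ ℓ ∣ p)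
    (σ₀ : AlgebraicClosure ℚ ≃ₐ[ℚ] AlgebraicClosure ℚ) (hσ₀ : A.IsFrobeniusAt σ₀ ℓ)
    (HIA : haveI : NeZero ℓ := ⟨hℓ.ne_zero⟩; HeckeInputsAlong (AlgebraicClosure ℚ) N ℓ)
    (hS18 : InjTorsionModL N ℓ A)
    (D : haveI : NeZero ℓ := ⟨hℓ.ne_zero⟩; PlaceRed N A ℓ σ₀) :
    letI := heckeModuleBar N
    ∀ (_ : SMulCommClass (AlgebraicClosure ℚ ≃ₐ[ℚ] AlgebraicClosure ℚ) HeckeAlg (JZero N)),
      IsWeakRed (K := ℚ) p (JZero N) A ℓ hℓ σ₀
        (haveI : NeZero ℓ := ⟨hℓ.ne_zero⟩; D.red) := by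
  letI := heckeModuleBar N
  haveI : NeZero ℓ := ⟨hℓ.ne_zero⟩
  intro _
  refine ⟨hσ₀, fun τ hτ x => D.red_inertia hτ x, ?_, ?_⟩
  · rintro x ⟨n, hn⟩ hx
    refine D.red_inj_torsion hS18 (m := p ^ n) ?_ hn hx
    exact fun h => hℓp (hℓ.dvd_of_dvd_pow h)
  · intro x
    have h := D.red_relation HIA x
    rw [heckeModuleBar_heckeGen_smul hcomm ⟨ℓ, hℓ⟩ (σ₀ • x)]
    exact h

/-- **S37 from the three top-level pieces.** -/
theorem result_of_pieces (N p : ℕ) [NeZero N]
    (hHIA : ∀ (ℓ : ℕ) (hℓ : ℓ.Prime), ¬ ℓ ∣ N →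
      haveI : NeZero ℓ := ⟨hℓ.ne_zero⟩; HeckeInputsAlong (AlgebraicClosure ℚ) N ℓ)
    (hS18 : ∀ (ℓ : ℕ), ℓ.Prime → ¬ ℓ ∣ N →
      ∀ A : ValuationSubring (AlgebraicClosure ℚ), A.LiesOverPrime ℓ → InjTorsionModL N ℓ A)
    (hPR : ∀ (ℓ : ℕ) (hℓ : ℓ.Prime), ¬ ℓ ∣ N →
      ∀ A : ValuationSubring (AlgebraicClosure ℚ), A.LiesOverPrime ℓ →
        ∀ σ₀ : AlgebraicClosure ℚ ≃ₐ[ℚ] AlgebraicClosure ℚ, A.IsFrobeniusAt σ₀ ℓ →
          haveI : NeZero ℓ := ⟨hℓ.ne_zero⟩; Nonempty (PlaceRed N A ℓ σ₀))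
    (hcomm : ModularCurve.HeckeOperatorsCommuteBar N) :
    letI := ModularCurve.heckeModuleBar N
    ∀ (_ : SMulCommClass (AlgebraicClosure ℚ ≃ₐ[ℚ] AlgebraicClosure ℚ) ModularCurve.HeckeAlg
      (ModularCurve.JZero N)),
      ModularCurve.SpecializationExists (K := ℚ) (L := AlgebraicClosure ℚ) N p
        (ModularCurve.JZero N) := by
  letI := ModularCurve.heckeModuleBar N
  intro inst
  intro ℓ hℓ hdvd A hA
  have hℓN : ¬ ℓ ∣ N := fun h => hdvd (Dvd.dvd.mul_right h p)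
  have hℓp : ¬ ℓ ∣ p := fun h => hdvd (Dvd.dvd.mul_left h N)
  obtain ⟨σ₀, hσ₀⟩ := exists_isFrobeniusAt ℓ hℓ A hA
  haveI : NeZero ℓ := ⟨hℓ.ne_zero⟩
  obtain ⟨D⟩ := hPR ℓ hℓ hℓN A hA σ₀ hσ₀
  exact exists_specialization_of_isWeakRed p A ℓ hℓ σ₀ D.red
    (isWeakRed_of_placeRed N p hcomm A ℓ hℓ hℓp σ₀ hσ₀ (hHIA ℓ hℓ hℓN) (hS18 ℓ hℓ hℓN A hA) D inst)

end Fermat.Agent.S37.Core

end
end
-- ===== PACK-END S37/Core/Assemble.lean

-- ===== PACK-BEGIN S29/H882/Inter.lean
section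


/-!
# S29 / MERO (helper882), part (C): `F_L ∩ K((q)) = F_K`

For a field embedding `ι : K → L` and `F₀ ≤ ℚ((q))`: a Laurent series `y` over `K` whose base change
`coeffMap ι y` lies in `laurentBaseChange L F₀` already lies in `laurentBaseChange K F₀`.
-/

set_option autoImplicit false

noncomputable section

open Polynomial ModularCurve IntermediateField

namespace Fermat.Agent.S29.H882

open Fermat.Agent.S24 Fermat.Agent.S24.Deg457

section Span

variable (L : Type*) [Field L] [Algebra ℚ L] (F₀ : IntermediateField ℚ (LaurentSeries ℚ))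

/-- `coeffEmb` as a `ℚ`-linear map (for the `ℚ`-structure on `L((q))` induced by `L`). -/
theorem coeffEmb_smul_rat (c : ℚ) (u : LaurentSeries ℚ) :
    coeffEmb L (c • u) = (algebraMap ℚ L c) • coeffEmb L u := by
  ext k
  simp only [coeffEmb_coeff, HahnSeries.coeff_smul, smul_eq_mul, map_mul]

/-- The `L`-span of the image of `F₀`. -/
def spanImage : Submodule L (LaurentSeries L) :=
  Submodule.span L (⇑(coeffEmb L) '' (F₀ : Set (LaurentSeries ℚ)))

variable {L F₀}

theorem coeffEmb_mem_spanImage {u : LaurentSeries ℚ} (hu : u ∈ F₀) :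
    coeffEmb L u ∈ spanImage L F₀ :=
  Submodule.subset_span ⟨u, hu, rfl⟩

theorem spanImage_le : (spanImage L F₀ : Set (LaurentSeries L)) ⊆ laurentBaseChange L F₀ := by
  intro x hx
  refine Submodule.span_induction (p := fun x _ => x ∈ laurentBaseChange L F₀) ?_ ?_ ?_ ?_ hx
  · rintro _ ⟨u, hu, rfl⟩
    exact coeffEmb_mem_laurentBaseChange L hu
  · exact zero_mem _
  · intro a b _ _ ha hb
    exact add_mem ha hb
  · intro c a _ ha
    rw [hsmul_eq_algebraMap_mul]
    exact mul_mem ((laurentBaseChange L F₀).algebraMap_mem c) ha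

theorem mul_mem_spanImage {a b : LaurentSeries L} (ha : a ∈ spanImage L F₀)
    (hb : b ∈ spanImage L F₀) : a * b ∈ spanImage L F₀ := by
  refine Submodule.span_induction (p := fun a _ => a * b ∈ spanImage L F₀) ?_ ?_ ?_ ?_ ha
  · rintro _ ⟨u, hu, rfl⟩
    refine Submodule.span_induction (p := fun b _ => coeffEmb L u * b ∈ spanImage L F₀)
      ?_ ?_ ?_ ?_ hb
    · rintro _ ⟨v, hv, rfl⟩
      rw [← map_mul]
      exact coeffEmb_mem_spanImage (mul_mem hu hv)
    · rw [mul_zero]; exact zero_mem _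
    · intro x y _ _ hx hy
      rw [mul_add]; exact add_mem hx hy
    · intro c x _ hx
      have : coeffEmb L u * c • x = c • (coeffEmb L u * x) := by
        rw [hsmul_eq_algebraMap_mul, hsmul_eq_algebraMap_mul]; ring
      rw [this]; exact Submodule.smul_mem _ c hx
  · rw [zero_mul]; exact zero_mem _
  · intro x y _ _ hx hy
    rw [add_mul]; exact add_mem hx hy
  · intro c x _ hx
    have : c • x * b = c • (x * b) := by
      rw [hsmul_eq_algebraMap_mul, hsmul_eq_algebraMap_mul]; ring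
    rw [this]; exact Submodule.smul_mem _ c hx

theorem one_mem_spanImage : (1 : LaurentSeries L) ∈ spanImage L F₀ := by
  have := coeffEmb_mem_spanImage (L := L) (F₀ := F₀) (one_mem F₀)
  rwa [map_one] at this

theorem algebraMap_mem_spanImage (c : L) :
    algebraMap L (LaurentSeries L) c ∈ spanImage L F₀ := by
  have h : algebraMap L (LaurentSeries L) c = c • (1 : LaurentSeries L) := by
    rw [hsmul_eq_algebraMap_mul, mul_one]
  rw [h]
  exact Submodule.smul_mem _ c one_mem_spanImage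

variable (L F₀) in
/-- The span as a subalgebra. -/
def spanAlg : Subalgebra L (LaurentSeries L) where
  carrier := spanImage L F₀
  mul_mem' := mul_mem_spanImage
  add_mem' := fun ha hb => add_mem ha hb
  algebraMap_mem' := algebraMap_mem_spanImage

/-- Every element of the function field is a quotient of two elements of the span. -/
theorem exists_div_of_mem_laurentBaseChange {x : LaurentSeries L}
    (hx : x ∈ laurentBaseChange L F₀) :
    ∃ r ∈ spanImage L F₀, ∃ s ∈ spanImage L F₀, x = r / s := by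
  rw [laurentBaseChange, IntermediateField.mem_adjoin_iff_div] at hx
  obtain ⟨r, hr, s, hs, rfl⟩ := hx
  have hle : Algebra.adjoin L (⇑(coeffEmb L) '' (F₀ : Set (LaurentSeries ℚ))) ≤ spanAlg L F₀ :=
    Algebra.adjoin_le (fun x hx => Submodule.subset_span hx)
  exact ⟨r, hle hr, s, hle hs, rfl⟩

end Span

section Main

variable {K L : Type*} [Field K] [Algebra ℚ K] [Field L] [Algebra ℚ L]

/-- A finite `ℚ`-independent family in `F₀` whose image spans two given elements of the span. -/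
theorem exists_indep_family (F₀ : IntermediateField ℚ (LaurentSeries ℚ))
    {r s : LaurentSeries L} (hr : r ∈ spanImage L F₀) (hs : s ∈ spanImage L F₀) :
    ∃ (m : ℕ) (e : Fin m → LaurentSeries ℚ), (∀ i, e i ∈ F₀) ∧ LinearIndependent ℚ e ∧
      ∃ a b : Fin m → L, r = ∑ i, a i • coeffEmb L (e i) ∧ s = ∑ i, b i • coeffEmb L (e i) := by
  classical
  -- finite supports
  obtain ⟨lr, hlr, rfl⟩ := (Finsupp.mem_span_image_iff_linearCombination L).mp hr
  obtain ⟨ls, hls, rfl⟩ := (Finsupp.mem_span_image_iff_linearCombination L).mp hs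
  set S : Finset (LaurentSeries ℚ) := lr.support ∪ ls.support with hS
  have hSF : ∀ u ∈ S, u ∈ F₀ := by
    intro u hu
    rcases Finset.mem_union.mp hu with h | h
    · exact hlr h
    · exact hls h
  obtain ⟨B, hBt, hspan, hind⟩ := exists_linearIndependent ℚ (S : Set (LaurentSeries ℚ))
  have hBfin : B.Finite := (Finset.finite_toSet S).subset hBt
  haveI : Fintype B := hBfin.fintype
  -- the image of every element of `S` lies in the `L`-span of the image of `B`
  let EL : LaurentSeries ℚ →ₗ[ℚ] LaurentSeries L :=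
    { toFun := coeffEmb L
      map_add' := map_add _
      map_smul' := fun c u => by
        rw [coeffEmb_smul_rat, RingHom.id_apply, algebraMap_smul] }
  have hmem : ∀ u ∈ S, coeffEmb L u ∈ Submodule.span L (Set.range fun e : B => coeffEmb L (e : _)) := by
    intro u hu
    have h1 : u ∈ Submodule.span ℚ B := by
      rw [hspan]; exact Submodule.subset_span hu
    have h2 := Submodule.apply_mem_span_image_of_mem_span EL h1
    have h3 : Submodule.span ℚ (EL '' B) ≤
        (Submodule.span L (EL '' B)).restrictScalars ℚ := Submodule.span_le_restrictScalars ℚ L _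
    have h4 := h3 h2
    have h5 : (EL '' B) = Set.range fun e : B => coeffEmb L (e : _) := by
      ext x
      constructor
      · rintro ⟨u, hu, rfl⟩; exact ⟨⟨u, hu⟩, rfl⟩
      · rintro ⟨⟨u, hu⟩, rfl⟩; exact ⟨u, hu, rfl⟩
    rw [h5] at h4
    exact h4
  have hlin : ∀ l : LaurentSeries ℚ →₀ L, (l.support ⊆ S) →
      Finsupp.linearCombination L (⇑(coeffEmb L)) l ∈
        Submodule.span L (Set.range fun e : B => coeffEmb L (e : _)) := by
    intro l hl
    rw [Finsupp.linearCombination_apply, Finsupp.sum]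
    refine Submodule.sum_mem _ fun u hu => ?_
    exact Submodule.smul_mem _ _ (hmem u (hl hu))
  have hr' := hlin lr Finset.subset_union_left
  have hs' := hlin ls Finset.subset_union_right
  rw [Submodule.mem_span_range_iff_exists_fun] at hr' hs'
  obtain ⟨a, ha⟩ := hr'
  obtain ⟨b, hb⟩ := hs'
  -- reindex by `Fin m`
  let eq := Fintype.equivFin B
  refine ⟨Fintype.card B, fun i => ((eq.symm i : B) : LaurentSeries ℚ), ?_, ?_,
    fun i => a (eq.symm i), fun i => b (eq.symm i), ?_, ?_⟩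
  · intro i
    exact hSF _ (hBt (eq.symm i).2)
  · exact hind.comp _ eq.symm.injective
  · rw [← ha]
    exact (Equiv.sum_comp eq.symm (fun e : B => a e • coeffEmb L (e : LaurentSeries ℚ))).symm
  · rw [← hb]
    exact (Equiv.sum_comp eq.symm (fun e : B => b e • coeffEmb L (e : LaurentSeries ℚ))).symm

/-- **(C)** `F_L ∩ K((q)) = F_K`. -/
theorem mem_laurentBaseChange_of_coeffMap_mem (ι : K →+* L)
    (F₀ : IntermediateField ℚ (LaurentSeries ℚ)) {y : LaurentSeries K}
    (hy : coeffMap ι y ∈ laurentBaseChange L F₀) : y ∈ laurentBaseChange K F₀ := by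
  classical
  obtain ⟨r, hr, s, hs, hrs⟩ := exists_div_of_mem_laurentBaseChange hy
  by_cases hs0 : s = 0
  · -- then `coeffMap ι y = 0`, so `y = 0`
    rw [hs0, div_zero] at hrs
    have : y = 0 := by
      ext k
      have := congrArg (fun z : LaurentSeries L => z.coeff k) hrs
      simp only [coeffMap_coeff, HahnSeries.coeff_zero] at this
      simpa using this
    rw [this]; exact zero_mem _
  obtain ⟨m, e, heF, hind, a, b, hra, hsb⟩ := exists_indep_family F₀ hr hs
  have hxs : coeffMap ι y * s = r := by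
    rw [hrs]; field_simp
  -- the family over `K`
  let w : Fin m ⊕ Fin m → LaurentSeries K :=
    Sum.elim (fun i => y * coeffEmb K (e i)) (fun i => coeffEmb K (e i))
  have hindK : LinearIndependent K (fun i => coeffEmb K (e i)) := by
    have := linearIndependent_coeffMap (algebraMap ℚ K) e hind
    exact this
  have hnot : ¬ LinearIndependent K w := by
    intro hw
    have hL := linearIndependent_coeffMap ι w hw
    rw [Fintype.linearIndependent_iff] at hL
    have key := hL (Sum.elim b (fun i => -a i)) ?_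
    · apply hs0
      rw [hsb]
      refine Finset.sum_eq_zero fun i _ => ?_
      have := key (Sum.inl i)
      simp only [Sum.elim_inl] at this
      rw [this, zero_smul]
    · rw [Fintype.sum_sum_type]
      simp only [Sum.elim_inl, Sum.elim_inr, w, map_mul, coeffMap_coeffEmb']
      have h1 : ∑ i, b i • (coeffMap ι y * coeffEmb L (e i)) = coeffMap ι y * s := by
        rw [hsb, Finset.mul_sum]
        refine Finset.sum_congr rfl fun i _ => ?_
        rw [hsmul_eq_algebraMap_mul, hsmul_eq_algebraMap_mul]; ring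
      have h2 : ∑ i, (-a i) • coeffEmb L (e i) = -r := by
        rw [hra, ← Finset.sum_neg_distrib]
        refine Finset.sum_congr rfl fun i _ => ?_
        rw [neg_smul]
      rw [h1, h2, hxs, add_neg_cancel]
  rw [Fintype.not_linearIndependent_iff] at hnot
  obtain ⟨g, hg, i₀, hi₀⟩ := hnot
  rw [Fintype.sum_sum_type] at hg
  simp only [Sum.elim_inl, Sum.elim_inr, w] at hg
  set s' : LaurentSeries K := ∑ i, g (Sum.inl i) • coeffEmb K (e i) with hs'
  set r' : LaurentSeries K := -∑ i, g (Sum.inr i) • coeffEmb K (e i) with hr'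
  have hys : y * s' = r' := by
    have h1 : ∑ i, g (Sum.inl i) • (y * coeffEmb K (e i)) = y * s' := by
      rw [hs', Finset.mul_sum]
      refine Finset.sum_congr rfl fun i _ => ?_
      rw [hsmul_eq_algebraMap_mul, hsmul_eq_algebraMap_mul]; ring
    rw [h1] at hg
    rw [hr']
    exact eq_neg_of_add_eq_zero_left hg
  have hs'mem : s' ∈ laurentBaseChange K F₀ := by
    refine sum_mem fun i _ => ?_
    rw [hsmul_eq_algebraMap_mul]
    exact mul_mem ((laurentBaseChange K F₀).algebraMap_mem _)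
      (coeffEmb_mem_laurentBaseChange K (heF i))
  have hr'mem : r' ∈ laurentBaseChange K F₀ := by
    refine neg_mem (sum_mem fun i _ => ?_)
    rw [hsmul_eq_algebraMap_mul]
    exact mul_mem ((laurentBaseChange K F₀).algebraMap_mem _)
      (coeffEmb_mem_laurentBaseChange K (heF i))
  have hs'0 : s' ≠ 0 := by
    intro h0
    rw [Fintype.linearIndependent_iff] at hindK
    have hb0 : ∀ i, g (Sum.inl i) = 0 := hindK _ h0
    have hr0 : r' = 0 := by rw [← hys, h0, mul_zero]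
    have ha0 : ∀ i, g (Sum.inr i) = 0 := hindK _ (neg_eq_zero.mp hr0)
    rcases i₀ with i | i
    · exact hi₀ (hb0 i)
    · exact hi₀ (ha0 i)
  have : y = r' / s' := by
    rw [← hys]; field_simp
  rw [this]
  exact div_mem hr'mem hs'mem

end Main

end Fermat.Agent.S29.H882

end
end
-- ===== PACK-END S29/H882/Inter.lean

-- ===== PACK-BEGIN S28/H807/Core.lean
section
/-
S28 / helper807 — generic construction: from two convergent `q`-series `g, e ∈ ℤ((q))` whose
families of conjugates are `S`-stable, the polynomial `(X - e)·charpoly(secMat p g)` has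
coefficients in `ℤ[j]`.
-/





set_option autoImplicit false
set_option maxHeartbeats 400000

noncomputable section

open ModularCurve Polynomial Matrix UpperHalfPlane
open scoped MatrixGroups

namespace Fermat.Agent.S28.H807

/-- The level-one polynomial principle (analytic input, provided by the bridge seats):
an `S`-invariant function on `ℍ` with a convergent Laurent `q`-expansion is a polynomial in `j`. -/
def PolyPrinciple : Prop :=
  ∀ (c : LaurentSeries ℂ) (F : ℍ → ℂ), HasQExp c F →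
    (∀ τ : ℍ, F (ModularGroup.S • τ) = F τ) → ∃ P : Polynomial ℂ, c = evalJ ℂ P

section Formal

variable {R : Type*} [CommRing R] (p : ℕ) [NeZero p]

/-- The formal polynomial `(X - e) · charpoly (secMat p g)`. -/
def formalPoly (g e : LaurentSeries R) : Polynomial (LaurentSeries R) :=
  (X - C e) * (secMat p g).charpoly

theorem formalPoly_monic (g e : LaurentSeries R) : (formalPoly p g e).Monic :=
  (monic_X_sub_C e).mul (Matrix.charpoly_monic _)

theorem formalPoly_natDegree [Nontrivial R] (g e : LaurentSeries R) :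
    (formalPoly p g e).natDegree = p + 1 := by
  unfold formalPoly
  rw [Polynomial.Monic.natDegree_mul (monic_X_sub_C e) (Matrix.charpoly_monic _),
    natDegree_X_sub_C, Matrix.charpoly_natDegree_eq_dim, Fintype.card_fin, add_comm]

theorem formalPoly_eval_self (g e : LaurentSeries R) : (formalPoly p g e).eval e = 0 := by
  simp [formalPoly]

theorem formalPoly_map_qExpand_eval (g e : LaurentSeries R) :
    ((formalPoly p g e).map (qExpand R p)).eval g = 0 := by
  unfold formalPoly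
  rw [Polynomial.map_mul, Polynomial.eval_mul, secMat_charpoly_eval, mul_zero]

theorem formalPoly_map_coeffMap {S : Type*} [CommRing S] (φ : R →+* S) (g e : LaurentSeries R) :
    (formalPoly p g e).map (coeffMap φ) = formalPoly p (coeffMap φ g) (coeffMap φ e) := by
  unfold formalPoly
  rw [Polynomial.map_mul, Polynomial.map_sub, Polynomial.map_X, Polynomial.map_C,
    ← Matrix.charpoly_map, secMat_coeffMap]

end Formal

/-- Evaluation at `j` as a ring hom `ℤ[Y] → ℤ((q))`. -/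
def evalJZHom : Polynomial ℤ →+* LaurentSeries ℤ :=
  Polynomial.eval₂RingHom (Int.castRingHom _) (jqModC ℤ)

theorem evalJZHom_apply (Q : Polynomial ℤ) : evalJZHom Q = evalJZ Q := rfl

variable (p : ℕ) [NeZero p]

/-- The coefficients of the formal polynomial lie in `ℤ[j]`. -/
theorem formalPoly_coeff_mem_range (hPP : PolyPrinciple) (gZ eZ : LaurentSeries ℤ)
    (G E : ℍ → ℂ)
    (hG : HasQExp (coeffMap (Int.castRingHom ℂ) gZ) G)
    (hE : HasQExp (coeffMap (Int.castRingHom ℂ) eZ) E)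
    (hS : ∀ τ : ℍ, conjPoly p E G (ModularGroup.S • τ) = conjPoly p E G τ) (k : ℕ) :
    (formalPoly p gZ eZ).coeff k ∈ Set.range evalJZHom := by
  have h1 : HasQExp ((formalPoly p (coeffMap (Int.castRingHom ℂ) gZ)
      (coeffMap (Int.castRingHom ℂ) eZ)).coeff k) (fun τ => (conjPoly p E G τ).coeff k) :=
    hasQExp_coeff_mul_charpoly p _ _ G E hG hE k
  have h2 : ∀ τ : ℍ, (conjPoly p E G (ModularGroup.S • τ)).coeff k = (conjPoly p E G τ).coeff k :=
    fun τ => by rw [hS τ]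
  obtain ⟨P, hP⟩ := hPP _ _ h1 h2
  have h3 : evalJ ℂ P = coeffMap (Int.castRingHom ℂ) ((formalPoly p gZ eZ).coeff k) := by
    rw [← hP, ← formalPoly_map_coeffMap, Polynomial.coeff_map]
  obtain ⟨Q, hQ⟩ := exists_int_poly_of_evalJ_eq P _ h3
  exact ⟨Q, hQ⟩

/-- **Main generic theorem**: a monic lift of the formal polynomial to `ℤ[Y][X]`. -/
theorem exists_lift_formalPoly (hPP : PolyPrinciple) (gZ eZ : LaurentSeries ℤ)
    (G E : ℍ → ℂ)
    (hG : HasQExp (coeffMap (Int.castRingHom ℂ) gZ) G)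
    (hE : HasQExp (coeffMap (Int.castRingHom ℂ) eZ) E)
    (hS : ∀ τ : ℍ, conjPoly p E G (ModularGroup.S • τ) = conjPoly p E G τ) :
    ∃ Φ : Polynomial (Polynomial ℤ), Φ.Monic ∧ Φ.natDegree = p + 1 ∧
      Φ.map evalJZHom = formalPoly p gZ eZ := by
  have hl : formalPoly p gZ eZ ∈ Polynomial.lifts evalJZHom := by
    rw [Polynomial.lifts_iff_coeff_lifts]
    intro k
    exact formalPoly_coeff_mem_range p hPP gZ eZ G E hG hE hS k
  obtain ⟨Φ, h1, h2, h3⟩ :=
    Polynomial.lifts_and_natDegree_eq_and_monic hl (formalPoly_monic p gZ eZ)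
  exact ⟨Φ, h3, by rw [h2, formalPoly_natDegree], h1⟩

end Fermat.Agent.S28.H807

end

end
-- ===== PACK-END S28/H807/Core.lean

-- ===== PACK-BEGIN S18/H333/HauptMem.lean
section



/-!
# S18 / c3 (helper333): `t₂ ∈ K(j, j(q²))`, `t₃ ∈ K(j, j(q³))`

For every field `K`:
* `t2 K, t3 K : LaurentSeries K` (images of `t2Z`, `t3Z`), with the four relations
  `t2_rel_a`, `t2_rel_b`, `t3_rel_a`, `t3_rel_b`;
* `t2_mem_full : (2 : K) ≠ 0 → 2 ∣ M → t2 K ∈ modularFunctionFieldFullC K M`;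
* `t3_mem_full : (3 : K) ≠ 0 → 3 ∣ M → t3 K ∈ modularFunctionFieldFullC K M`.
Proof: explicit elimination `D t + N = 0` (HauptElim) and `D ≠ 0`, because
`D Δ² Δ₂² = -2²⁴ q⁵ + …`  resp.  `D Δ⁵ Δ₃³ = -3¹⁸ q⁷ + …`  (kernel computation).
-/

set_option autoImplicit false

noncomputable section

namespace Fermat.Agent.S18.H333

open PowerSeries ModularCurve HahnSeries

/-! ### two more truncation rules -/

theorem tl_ofNat (n : ℕ) (c : ℕ) [c.AtLeastTwo] :
    tl n (ofNat(c) : PowerSeries ℤ) = tsmul n (ofNat(c)) (tone n) := by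
  rw [← tl_one, ← tl_smul]
  congr 1
  rw [zsmul_eq_mul, mul_one, Int.cast_ofNat]

theorem tl_neg (n : ℕ) (f : PowerSeries ℤ) : tl n (-f) = tsmul n (-1) (tl n f) := by
  rw [← tl_smul]
  congr 1
  simp

/-! ### the numerators of `D` -/

/-- `D₂ Δ² Δ₂²` -/
def P2 : PowerSeries ℤ := elimDh2 (Ez ^ 3) Dz (Vser 2 Ez ^ 3) (Vser 2 Dz)

/-- `D₃ Δ⁵ Δ₃³` -/
def P3 : PowerSeries ℤ := elimDh3 (Ez ^ 3) Dz (Vser 3 Ez ^ 3) (Vser 3 Dz)

theorem tl_Ez_8 : tl 8 Ez = [1, 240, 2160, 6720, 17520, 30240, 60480, 82560] := by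
  rw [tl_Ez]; decide +kernel

theorem tl_Dz_8 : tl 8 Dz = [0, 1, -24, 252, -1472, 4830, -6048, -16744] := by
  rw [tl_Dz]; decide +kernel

theorem tl_Ez_6 : tl 6 Ez = [1, 240, 2160, 6720, 17520, 30240] := by
  rw [tl_Ez]; decide +kernel

theorem tl_Dz_6 : tl 6 Dz = [0, 1, -24, 252, -1472, 4830] := by
  rw [tl_Dz]; decide +kernel

theorem tl_P2 : tl 6 P2 = [0, 0, 0, 0, 0, -16777216] := by
  rw [P2, elimDh2]
  simp only [tl_sub, tl_mul, tl_pow, tl_add, tl_neg, tl_ofNat,
    tl_Vser _ _ (show 0 < 2 by norm_num), tl_Dz_6, tl_Ez_6]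
  decide +kernel

theorem tl_P3 : tl 8 P3 = [0, 0, 0, 0, 0, 0, 0, -387420489] := by
  rw [P3, elimDh3]
  simp only [tl_sub, tl_mul, tl_pow, tl_add, tl_neg, tl_ofNat,
    tl_Vser _ _ (show 0 < 3 by norm_num), tl_Dz_8, tl_Ez_8]
  decide +kernel

theorem coeff_P2 : PowerSeries.coeff 5 P2 = -16777216 := by
  have h := tl_getD 6 P2 (i := 5) (by norm_num)
  rw [tl_P2] at h
  simpa using h.symm

theorem coeff_P3 : PowerSeries.coeff 7 P3 = -387420489 := by
  have h := tl_getD 8 P3 (i := 7) (by norm_num)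
  rw [tl_P3] at h
  simpa using h.symm

theorem elimD2_mul : elimD2 (jqModC ℤ) (qExpand ℤ 2 (jqModC ℤ)) * DL ^ 2 * qExpand ℤ 2 DL ^ 2
    = ιZ P2 := by
  rw [elimD2_hom, jZ_mul_DL, qExpand_jZ_mul, P2, map_elimDh2, ← qExpand_ιZ 2 Dz]
  rfl

theorem elimD3_mul : elimD3 (jqModC ℤ) (qExpand ℤ 3 (jqModC ℤ)) * DL ^ 5 * qExpand ℤ 3 DL ^ 3
    = ιZ P3 := by
  rw [elimD3_hom, jZ_mul_DL, qExpand_jZ_mul, P3, map_elimDh3, ← qExpand_ιZ 3 Dz]
  rfl

/-! ### over a field -/

section Field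

variable (K : Type*) [Field K]

/-- `t₂` over `K` -/
def t2 : LaurentSeries K := coeffMap (Int.castRingHom K) t2Z

/-- `t₃` over `K` -/
def t3 : LaurentSeries K := coeffMap (Int.castRingHom K) t3Z

theorem t2_rel_a : jqModC K * t2 K ^ 2 = (t2 K + 256) ^ 3 := by
  have h := congrArg (coeffMap (Int.castRingHom K)) t2Z_rel_a
  simpa only [t2, map_mul, map_pow, map_add, map_ofNat, coeffMap_jqModC] using h

theorem t2_rel_b : qExpand K 2 (jqModC K) * t2 K = (t2 K + 16) ^ 3 := by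
  have h := congrArg (coeffMap (Int.castRingHom K)) t2Z_rel_b
  simpa only [t2, map_mul, map_pow, map_add, map_ofNat, coeffMap_jqModC, coeffMap_qExpand] using h

theorem t3_rel_a : jqModC K * t3 K ^ 3 = (t3 K + 27) * (t3 K + 243) ^ 3 := by
  have h := congrArg (coeffMap (Int.castRingHom K)) t3Z_rel_a
  simpa only [t3, map_mul, map_pow, map_add, map_ofNat, coeffMap_jqModC] using h

theorem t3_rel_b : qExpand K 3 (jqModC K) * t3 K = (t3 K + 27) * (t3 K + 3) ^ 3 := by
  have h := congrArg (coeffMap (Int.castRingHom K)) t3Z_rel_b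
  simpa only [t3, map_mul, map_pow, map_add, map_ofNat, coeffMap_jqModC, coeffMap_qExpand] using h

theorem coeffMap_ιZ_coeff (P : PowerSeries ℤ) (n : ℕ) :
    (coeffMap (Int.castRingHom K) (ιZ P)).coeff (n : ℤ) = ((PowerSeries.coeff n P : ℤ) : K) := by
  rw [coeffMap_coeff, ιZ_coeff_nat]
  rfl

theorem elimD2_ne_zero (h2 : (2 : K) ≠ 0) :
    elimD2 (jqModC K) (qExpand K 2 (jqModC K)) ≠ 0 := by
  intro h0
  have h := congrArg (coeffMap (Int.castRingHom K)) elimD2_mul
  rw [map_mul, map_mul, map_elimD2, coeffMap_jqModC, coeffMap_qExpand, coeffMap_jqModC, h0,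
    zero_mul, zero_mul] at h
  have h5 := congrArg (fun x : LaurentSeries K => x.coeff ((5 : ℕ) : ℤ)) h
  simp only [coeffMap_ιZ_coeff, coeff_P2] at h5
  have : ((-16777216 : ℤ) : K) = -(2 : K) ^ 24 := by push_cast; norm_num
  rw [this] at h5
  exact neg_ne_zero.mpr (pow_ne_zero 24 h2) h5.symm

theorem elimD3_ne_zero (h3 : (3 : K) ≠ 0) :
    elimD3 (jqModC K) (qExpand K 3 (jqModC K)) ≠ 0 := by
  intro h0
  have h := congrArg (coeffMap (Int.castRingHom K)) elimD3_mul
  rw [map_mul, map_mul, map_elimD3, coeffMap_jqModC, coeffMap_qExpand, coeffMap_jqModC, h0,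
    zero_mul, zero_mul] at h
  have h5 := congrArg (fun x : LaurentSeries K => x.coeff ((7 : ℕ) : ℤ)) h
  simp only [coeffMap_ιZ_coeff, coeff_P3] at h5
  have : ((-387420489 : ℤ) : K) = -(3 : K) ^ 18 := by push_cast; norm_num
  rw [this] at h5
  exact neg_ne_zero.mpr (pow_ne_zero 18 h3) h5.symm

/-- explicit formula: `t₂ = -N₂(j, j₂) / D₂(j, j₂)` -/
theorem t2_eq (h2 : (2 : K) ≠ 0) :
    t2 K = -elimN2 (jqModC K) (qExpand K 2 (jqModC K))
      / elimD2 (jqModC K) (qExpand K 2 (jqModC K)) := by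
  have h := elim2 (t2 K) _ _ (t2_rel_a K) (t2_rel_b K)
  rw [eq_div_iff (elimD2_ne_zero K h2)]
  linear_combination h

/-- explicit formula: `t₃ = -N₃(j, j₃) / D₃(j, j₃)` -/
theorem t3_eq (h3 : (3 : K) ≠ 0) :
    t3 K = -elimN3 (jqModC K) (qExpand K 3 (jqModC K))
      / elimD3 (jqModC K) (qExpand K 3 (jqModC K)) := by
  have h := elim3 (t3 K) _ _ (t3_rel_a K) (t3_rel_b K)
  rw [eq_div_iff (elimD3_ne_zero K h3)]
  linear_combination h

variable {K} in
theorem elimD2_mem (F : IntermediateField K (LaurentSeries K)) {j J : LaurentSeries K}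
    (hj : j ∈ F) (hJ : J ∈ F) : elimD2 j J ∈ F := by
  have := map_elimD2 (algebraMap F (LaurentSeries K)) ⟨j, hj⟩ ⟨J, hJ⟩
  exact this ▸ (elimD2 (⟨j, hj⟩ : F) ⟨J, hJ⟩).2

variable {K} in
theorem elimN2_mem (F : IntermediateField K (LaurentSeries K)) {j J : LaurentSeries K}
    (hj : j ∈ F) (hJ : J ∈ F) : elimN2 j J ∈ F := by
  have := map_elimN2 (algebraMap F (LaurentSeries K)) ⟨j, hj⟩ ⟨J, hJ⟩
  exact this ▸ (elimN2 (⟨j, hj⟩ : F) ⟨J, hJ⟩).2

variable {K} in
theorem elimD3_mem (F : IntermediateField K (LaurentSeries K)) {j J : LaurentSeries K}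
    (hj : j ∈ F) (hJ : J ∈ F) : elimD3 j J ∈ F := by
  have := map_elimD3 (algebraMap F (LaurentSeries K)) ⟨j, hj⟩ ⟨J, hJ⟩
  exact this ▸ (elimD3 (⟨j, hj⟩ : F) ⟨J, hJ⟩).2

variable {K} in
theorem elimN3_mem (F : IntermediateField K (LaurentSeries K)) {j J : LaurentSeries K}
    (hj : j ∈ F) (hJ : J ∈ F) : elimN3 j J ∈ F := by
  have := map_elimN3 (algebraMap F (LaurentSeries K)) ⟨j, hj⟩ ⟨J, hJ⟩
  exact this ▸ (elimN3 (⟨j, hj⟩ : F) ⟨J, hJ⟩).2

/-- **`t₂` is a modular function of level `M`** (`2 ∣ M`, `char K ≠ 2`). -/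
theorem t2_mem_full (h2 : (2 : K) ≠ 0) (M : ℕ) (hM : 2 ∣ M) :
    t2 K ∈ modularFunctionFieldFullC K M := by
  have hj : jqModC K ∈ modularFunctionFieldFullC K M := jqModC_mem_full K M
  have hJ : qExpand K 2 (jqModC K) ∈ modularFunctionFieldFullC K M := jqModCd_mem_full K M hM
  rw [t2_eq K h2]
  exact div_mem (neg_mem (elimN2_mem _ hj hJ)) (elimD2_mem _ hj hJ)

/-- **`t₃` is a modular function of level `M`** (`3 ∣ M`, `char K ≠ 3`). -/
theorem t3_mem_full (h3 : (3 : K) ≠ 0) (M : ℕ) (hM : 3 ∣ M) :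
    t3 K ∈ modularFunctionFieldFullC K M := by
  have hj : jqModC K ∈ modularFunctionFieldFullC K M := jqModC_mem_full K M
  have hJ : qExpand K 3 (jqModC K) ∈ modularFunctionFieldFullC K M := jqModCd_mem_full K M hM
  rw [t3_eq K h3]
  exact div_mem (neg_mem (elimN3_mem _ hj hJ)) (elimD3_mem _ hj hJ)

end Field

end Fermat.Agent.S18.H333

end
end
-- ===== PACK-END S18/H333/HauptMem.lean

-- ===== PACK-BEGIN A2/H609/Smooth.lean
section


/-!
# Node purity, part 8: a smooth point of the special fibre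

`R` a noetherian local integrally closed domain, `𝔭 = (π)` prime with `R ⧸ 𝔭` a discrete
valuation ring (so `R` is regular of dimension two, but unique factorisation of regular local
rings is not used).  If `u ∉ 𝔭` satisfies (H1) `m ∣ ord_𝔓 u` at the horizontal primes and (H2)
`u` is a unit times an `m`-th power modulo `𝔭`, then `u = ε f ^ m`.  Mathlib only.
-/

set_option autoImplicit false

namespace Fermat.Agent.A2.H609

open Ideal

section BranchLength

variable {R : Type*} [CommRing R] [IsLocalRing R]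
variable (𝔭 : Ideal R) [𝔭.IsPrime] [IsDiscreteValuationRing (R ⧸ 𝔭)]

/-- `𝔪 = (x) + 𝔭` for a uniformiser `x` modulo `𝔭`. -/
theorem maximalIdeal_le_span_sup {x : R} (hx : Irreducible (Ideal.Quotient.mk 𝔭 x)) :
    IsLocalRing.maximalIdeal R ≤ Ideal.span {x} ⊔ 𝔭 := by
  intro s hs
  obtain ⟨g, hg⟩ := exists_sub_mul_mem_of_mem_maximalIdeal 𝔭 hx hs
  have h : s = x * g + (s - x * g) := by ring
  rw [h]
  exact Ideal.add_mem _ (Ideal.mem_sup_left (Ideal.mem_span_singleton.mpr (Dvd.intro g rfl)))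
    (Ideal.mem_sup_right hg)

/-- `ℓ(R / ((x ^ k) + 𝔭)) = k` for a uniformiser `x` modulo `𝔭`. -/
theorem relLen_branch_pow {x : R} (hx : Irreducible (Ideal.Quotient.mk 𝔭 x)) (k : ℕ) :
    relLen (Ideal.span {x ^ k} ⊔ 𝔭) (⊤ : Ideal R) = k := by
  have h := relLen_pow_chain 𝔭 hx 𝔭 le_rfl 0 ?_ k
  · rw [zero_add, pow_zero, Ideal.span_singleton_one, top_sup_eq] at h
    exact h
  · intro n _ s hs
    obtain ⟨g, hg⟩ := exists_sub_mul_mem_of_mem_maximalIdeal 𝔭 hx hs
    have h : s * x ^ n = x ^ (n + 1) * g + (s - x * g) * x ^ n := by ring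
    rw [h]
    exact Ideal.add_mem _
      (Ideal.mem_sup_left (Ideal.mem_span_singleton.mpr (Dvd.intro g rfl)))
      (Ideal.mem_sup_right (𝔭.mul_mem_right _ hg))

omit [IsLocalRing R] [IsDiscreteValuationRing (R ⧸ 𝔭)] [𝔭.IsPrime] in
/-- A prime containing `𝔭` and `u ≡ ε x ^ n` contains `x`. -/
theorem mem_of_le_of_mk_eq {x u : R} {n : ℕ} {ε : (R ⧸ 𝔭)ˣ}
    (hu : Ideal.Quotient.mk 𝔭 u = ε * (Ideal.Quotient.mk 𝔭 x) ^ n)
    {𝔮 : Ideal R} (h𝔮 : 𝔮.IsPrime) (hle : 𝔭 ≤ 𝔮) (hu𝔮 : u ∈ 𝔮) : x ∈ 𝔮 := by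
  obtain ⟨e, he⟩ := exists_pow_sub_mul_mem 𝔭 hu
  refine h𝔮.mem_of_pow_mem n ?_
  have h : x ^ n = (x ^ n - u * e) + u * e := by ring
  rw [h]
  exact 𝔮.add_mem (hle he) (𝔮.mul_mem_right _ hu𝔮)

end BranchLength

variable {R : Type*} [CommRing R] [IsDomain R] [IsIntegrallyClosed R] [IsNoetherianRing R]
  [IsLocalRing R]

/-- **Purity at a smooth point of the special fibre.** -/
theorem exists_unit_mul_pow_of_smooth {u π : R} {m : ℕ} (hm : m ≠ 0) (hπ0 : π ≠ 0)
    (𝔭 : Ideal R) [𝔭.IsPrime] [IsDiscreteValuationRing (R ⧸ 𝔭)] (h𝔭 : 𝔭 = Ideal.span {π})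
    (hu : u ∉ 𝔭)
    (H1 : ∀ 𝔓 : Ideal R, 𝔓.IsPrime → u ∈ 𝔓 → π ∉ 𝔓 → ∃ f r : R, r ∉ 𝔓 ∧ f ^ m = u * r)
    (H2 : ∃ v : R ⧸ 𝔭, Associated (v ^ m) (Ideal.Quotient.mk 𝔭 u)) :
    ∃ (f : R) (ε : Rˣ), u = ε * f ^ m := by
  have hπ𝔭 : π ∈ 𝔭 := by
    rw [h𝔭]
    exact Ideal.mem_span_singleton_self π
  have h𝔭𝔪 : 𝔭 ≤ IsLocalRing.maximalIdeal R :=
    IsLocalRing.le_maximalIdeal (Ideal.IsPrime.ne_top inferInstance)
  have hu0 : u ≠ 0 := by
    rintro rfl
    exact hu 𝔭.zero_mem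
  obtain ⟨ϖ, hϖ⟩ := IsDiscreteValuationRing.exists_irreducible (R ⧸ 𝔭)
  obtain ⟨x, rfl⟩ := Ideal.Quotient.mk_surjective ϖ
  obtain ⟨a, ε, hε⟩ := exists_mk_eq_unit_mul_pow 𝔭 hϖ hm hu H2
  have h𝔪 := maximalIdeal_le_span_sup 𝔭 hϖ
  have hreg : ∀ z : R, π ∣ u * z → π ∣ z := by
    intro z hz
    have h1 : u * z ∈ 𝔭 := by
      rw [h𝔭]
      exact Ideal.mem_span_singleton.mpr hz
    rcases Ideal.IsPrime.mem_or_mem inferInstance h1 with h | h
    · exact absurd h hu
    · rw [h𝔭] at h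
      exact Ideal.mem_span_singleton.mp h
  have huπ : ∀ 𝔮 : Ideal R, 𝔮.IsPrime → u ∈ 𝔮 → π ∈ 𝔮 →
      𝔮 = IsLocalRing.maximalIdeal R := by
    intro 𝔮 h𝔮 hu𝔮 hπ𝔮
    have hle : 𝔭 ≤ 𝔮 := by
      rw [h𝔭, Ideal.span_singleton_le_iff_mem]
      exact hπ𝔮
    have hx𝔮 : x ∈ 𝔮 := mem_of_le_of_mk_eq 𝔭 hε h𝔮 hle hu𝔮
    refine le_antisymm (IsLocalRing.le_maximalIdeal h𝔮.ne_top) (h𝔪.trans ?_)
    exact sup_le ((Ideal.span_singleton_le_iff_mem _).mpr hx𝔮) hle
  refine exists_unit_mul_pow_of_relLen hm hu0 hπ0 (h𝔭𝔪 hπ𝔭) hreg huπ H1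
    (Ideal.span {x ^ (a + 1)} ⊔ 𝔭) (Ideal.mem_sup_right hπ𝔭) ?_ (a + 1) ?_ ?_
  · intro f r hf hr
    obtain ⟨g, hg⟩ := exists_sub_pow_succ_mul_mem 𝔭 hϖ hε hf hr
    have h : f = x ^ (a + 1) * g + (f - x ^ (a + 1) * g) := by ring
    rw [h]
    exact Ideal.add_mem _
      (Ideal.mem_sup_left (Ideal.mem_span_singleton.mpr (Dvd.intro g rfl)))
      (Ideal.mem_sup_right hg)
  · rw [relLen_branch_pow 𝔭 hϖ (a + 1)]
  · have hle : Ideal.span {x ^ (m * a)} ⊔ 𝔭 ≤ Ideal.span {u, π} := by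
      refine sup_le ?_ ?_
      · rw [Ideal.span_singleton_le_iff_mem]
        obtain ⟨e, he⟩ := exists_pow_sub_mul_mem 𝔭 hε
        rw [h𝔭, Ideal.mem_span_singleton] at he
        obtain ⟨c, hc⟩ := he
        have h : x ^ (m * a) = e * u + c * π := by
          have : x ^ (m * a) = (x ^ (m * a) - u * e) + u * e := by ring
          rw [this, hc]
          ring
        rw [h]
        exact Ideal.add_mem _
          (Ideal.mul_mem_left _ _ (Ideal.subset_span (by simp)))
          (Ideal.mul_mem_left _ _ (Ideal.subset_span (by simp)))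
      · rw [h𝔭, Ideal.span_singleton_le_iff_mem]
        exact Ideal.subset_span (by simp)
    have h1 : relLen (Ideal.span {u, π}) (⊤ : Ideal R) ≤ ((m * a : ℕ) : ℕ∞) := by
      rw [← relLen_branch_pow 𝔭 hϖ (m * a)]
      exact relLen_mono_left hle le_top
    refine lt_of_le_of_lt h1 ?_
    have h2 : m * a < m * (a + 1) := by
      have : 0 < m := Nat.pos_of_ne_zero hm
      nlinarith
    exact_mod_cast h2

end Fermat.Agent.A2.H609

end
-- ===== PACK-END A2/H609/Smooth.lean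

-- ===== PACK-BEGIN A2/H609/Node.lean
section


/-!
# Node purity, part 9: an ordinary double point of the special fibre

`R` a noetherian local integrally closed domain, `𝔭₁ 𝔭₂` primes with `𝔭₁ ⊓ 𝔭₂ = (π)`,
`𝔭₁ ⊔ 𝔭₂ = 𝔪` and `R ⧸ 𝔭ᵢ` discrete valuation rings (two smooth branches meeting transversally;
no hypothesis on the thickness of the node, no completion).  If `u ∉ 𝔭₁ ∪ 𝔭₂` satisfies
(H1) `m ∣ ord_𝔓 u` at the horizontal primes and (H2) `u` is a unit times an `m`-th power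
modulo each `𝔭ᵢ`, then `u = ε f ^ m`.  Mathlib only.
-/

set_option autoImplicit false

namespace Fermat.Agent.A2.H609

open Ideal

section NodeData

variable {R : Type*} [CommRing R] [IsLocalRing R]
variable (𝔭 𝔮 : Ideal R) [𝔭.IsPrime] [IsDiscreteValuationRing (R ⧸ 𝔭)]

/-- A uniformiser of the branch `𝔭` lying on the other branch `𝔮`. -/
theorem exists_mem_irreducible_mk (hsup : IsLocalRing.maximalIdeal R ≤ 𝔭 ⊔ 𝔮) :
    ∃ x ∈ 𝔮, Irreducible (Ideal.Quotient.mk 𝔭 x) := by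
  obtain ⟨ϖ, hϖ⟩ := IsDiscreteValuationRing.exists_irreducible (R ⧸ 𝔭)
  obtain ⟨z, rfl⟩ := Ideal.Quotient.mk_surjective ϖ
  have hz : z ∈ IsLocalRing.maximalIdeal R := by
    rw [IsLocalRing.mem_maximalIdeal]
    intro h
    exact hϖ.not_isUnit (h.map (Ideal.Quotient.mk 𝔭))
  obtain ⟨z₁, hz₁, z₂, hz₂, rfl⟩ := Submodule.mem_sup.mp (hsup hz)
  refine ⟨z₂, hz₂, ?_⟩
  have h : Ideal.Quotient.mk 𝔭 (z₁ + z₂) = Ideal.Quotient.mk 𝔭 z₂ := by
    rw [Ideal.Quotient.eq, add_sub_cancel_right]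
    exact hz₁
  rwa [h] at hϖ

/-- The other branch is generated by the uniformiser and `𝔭 ⊓ 𝔮`. -/
theorem le_span_sup_inf {x : R} (hx𝔮 : x ∈ 𝔮) (hx : Irreducible (Ideal.Quotient.mk 𝔭 x))
    (h𝔮 : 𝔮 ≤ IsLocalRing.maximalIdeal R) : 𝔮 ≤ Ideal.span {x} ⊔ (𝔭 ⊓ 𝔮) := by
  intro z hz
  obtain ⟨g, hg⟩ := exists_sub_mul_mem_of_mem_maximalIdeal 𝔭 hx (h𝔮 hz)
  have h : z = x * g + (z - x * g) := by ring
  rw [h]
  refine Ideal.add_mem _
    (Ideal.mem_sup_left (Ideal.mem_span_singleton.mpr (Dvd.intro g rfl)))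
    (Ideal.mem_sup_right ⟨hg, ?_⟩)
  exact 𝔮.sub_mem hz (𝔮.mul_mem_right _ hx𝔮)

end NodeData

variable {R : Type*} [CommRing R] [IsDomain R] [IsIntegrallyClosed R] [IsNoetherianRing R]
  [IsLocalRing R]

/-- **Purity at an ordinary double point of the special fibre.** -/
theorem exists_unit_mul_pow_of_node {u π : R} {m : ℕ} (hm : m ≠ 0)
    (𝔭₁ 𝔭₂ : Ideal R) [𝔭₁.IsPrime] [𝔭₂.IsPrime]
    [IsDiscreteValuationRing (R ⧸ 𝔭₁)] [IsDiscreteValuationRing (R ⧸ 𝔭₂)]
    (hinf : 𝔭₁ ⊓ 𝔭₂ = Ideal.span {π}) (hsup : 𝔭₁ ⊔ 𝔭₂ = IsLocalRing.maximalIdeal R)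
    (hu₁ : u ∉ 𝔭₁) (hu₂ : u ∉ 𝔭₂)
    (H1 : ∀ 𝔓 : Ideal R, 𝔓.IsPrime → u ∈ 𝔓 → π ∉ 𝔓 → ∃ f r : R, r ∉ 𝔓 ∧ f ^ m = u * r)
    (H2₁ : ∃ v : R ⧸ 𝔭₁, Associated (v ^ m) (Ideal.Quotient.mk 𝔭₁ u))
    (H2₂ : ∃ v : R ⧸ 𝔭₂, Associated (v ^ m) (Ideal.Quotient.mk 𝔭₂ u)) :
    ∃ (f : R) (ε : Rˣ), u = ε * f ^ m := by
  have h𝔭₁𝔪 : 𝔭₁ ≤ IsLocalRing.maximalIdeal R := hsup ▸ le_sup_left
  have h𝔭₂𝔪 : 𝔭₂ ≤ IsLocalRing.maximalIdeal R := hsup ▸ le_sup_right
  have hπ₁ : π ∈ 𝔭₁ :=
    (inf_le_left : 𝔭₁ ⊓ 𝔭₂ ≤ 𝔭₁) (hinf ▸ Ideal.mem_span_singleton_self π)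
  have hπ₂ : π ∈ 𝔭₂ :=
    (inf_le_right : 𝔭₁ ⊓ 𝔭₂ ≤ 𝔭₂) (hinf ▸ Ideal.mem_span_singleton_self π)
  have hmem_inf : ∀ z : R, z ∈ 𝔭₁ → z ∈ 𝔭₂ → ∃ c : R, z = c * π := by
    intro z h1 h2
    have h : z ∈ 𝔭₁ ⊓ 𝔭₂ := ⟨h1, h2⟩
    rw [hinf] at h
    exact Ideal.mem_span_singleton'.mp h |>.imp fun c hc => hc.symm
  have hu0 : u ≠ 0 := by
    rintro rfl
    exact hu₁ 𝔭₁.zero_mem
  -- uniformisers of the two branches
  obtain ⟨x, hx₂, hx⟩ := exists_mem_irreducible_mk 𝔭₁ 𝔭₂ hsup.ge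
  obtain ⟨y, hy₁, hy⟩ := exists_mem_irreducible_mk 𝔭₂ 𝔭₁ (by rw [sup_comm]; exact hsup.ge)
  have hx₁ : x ∉ 𝔭₁ := fun h => hx.ne_zero (Ideal.Quotient.eq_zero_iff_mem.mpr h)
  have hy₂ : y ∉ 𝔭₂ := fun h => hy.ne_zero (Ideal.Quotient.eq_zero_iff_mem.mpr h)
  have h𝔭₂ : 𝔭₂ ≤ Ideal.span {x} ⊔ Ideal.span {π} := by
    rw [← hinf]
    exact le_span_sup_inf 𝔭₁ 𝔭₂ hx₂ hx h𝔭₂𝔪
  have h𝔭₁ : 𝔭₁ ≤ Ideal.span {y} ⊔ Ideal.span {π} := by
    rw [← hinf, inf_comm]
    exact le_span_sup_inf 𝔭₂ 𝔭₁ hy₁ hy h𝔭₁𝔪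
  have h𝔭₂' : 𝔭₂ = Ideal.span {x} ⊔ Ideal.span {π} :=
    le_antisymm h𝔭₂ (sup_le ((Ideal.span_singleton_le_iff_mem _).mpr hx₂)
      ((Ideal.span_singleton_le_iff_mem _).mpr hπ₂))
  have hπ0 : π ≠ 0 := by
    rintro rfl
    obtain ⟨c, hc⟩ := hmem_inf (x * y) (𝔭₁.mul_mem_left _ hy₁) (𝔭₂.mul_mem_right _ hx₂)
    rw [mul_zero] at hc
    rcases mul_eq_zero.mp hc with h | h
    · exact hx₁ (h ▸ 𝔭₁.zero_mem)
    · exact hy₂ (h ▸ 𝔭₂.zero_mem)
  obtain ⟨a₁, ε₁, hε₁⟩ := exists_mk_eq_unit_mul_pow 𝔭₁ hx hm hu₁ H2₁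
  obtain ⟨a₂, ε₂, hε₂⟩ := exists_mk_eq_unit_mul_pow 𝔭₂ hy hm hu₂ H2₂
  have hreg : ∀ z : R, π ∣ u * z → π ∣ z := by
    intro z hz
    have h1 : u * z ∈ 𝔭₁ ⊓ 𝔭₂ := by
      rw [hinf]
      exact Ideal.mem_span_singleton.mpr hz
    have h2 : z ∈ 𝔭₁ :=
      (Ideal.IsPrime.mem_or_mem inferInstance h1.1).resolve_left hu₁
    have h3 : z ∈ 𝔭₂ :=
      (Ideal.IsPrime.mem_or_mem inferInstance h1.2).resolve_left hu₂
    obtain ⟨c, hc⟩ := hmem_inf z h2 h3
    exact ⟨c, by rw [hc, mul_comm]⟩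
  have huπ : ∀ 𝔮 : Ideal R, 𝔮.IsPrime → u ∈ 𝔮 → π ∈ 𝔮 →
      𝔮 = IsLocalRing.maximalIdeal R := by
    intro 𝔮 h𝔮 hu𝔮 hπ𝔮
    have hle : 𝔭₁ ⊓ 𝔭₂ ≤ 𝔮 := by
      rw [hinf, Ideal.span_singleton_le_iff_mem]
      exact hπ𝔮
    refine le_antisymm (IsLocalRing.le_maximalIdeal h𝔮.ne_top) ?_
    rw [← hsup]
    rcases h𝔮.inf_le.mp hle with h | h
    · have hx𝔮 : x ∈ 𝔮 := mem_of_le_of_mk_eq 𝔭₁ hε₁ h𝔮 h hu𝔮
      refine sup_le h (h𝔭₂.trans (sup_le ?_ ?_))
      · exact (Ideal.span_singleton_le_iff_mem _).mpr hx𝔮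
      · exact (Ideal.span_singleton_le_iff_mem _).mpr hπ𝔮
    · have hy𝔮 : y ∈ 𝔮 := mem_of_le_of_mk_eq 𝔭₂ hε₂ h𝔮 h hu𝔮
      refine sup_le (h𝔭₁.trans (sup_le ?_ ?_)) h
      · exact (Ideal.span_singleton_le_iff_mem _).mpr hy𝔮
      · exact (Ideal.span_singleton_le_iff_mem _).mpr hπ𝔮
  -- the lengths of the ideals `J(b, c) = (x ^ b, y ^ c, π)`, `b, c ≥ 1`
  have hlen : ∀ k c : ℕ, relLen
      (Ideal.span {x ^ (1 + k)} ⊔ (Ideal.span {y ^ (c + 1)} ⊔ Ideal.span {π}))
      (⊤ : Ideal R) = ((k + (c + 1) : ℕ) : ℕ∞) := by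
    intro k c
    have h𝔞 : Ideal.span {y ^ (c + 1)} ⊔ Ideal.span {π} ≤ 𝔭₁ :=
      sup_le ((Ideal.span_singleton_le_iff_mem _).mpr (𝔭₁.pow_mem_of_mem hy₁ _ (by omega)))
        ((Ideal.span_singleton_le_iff_mem _).mpr hπ₁)
    have hchain := relLen_pow_chain 𝔭₁ hx _ h𝔞 1 ?_ k
    · have hbase : Ideal.span {x ^ 1} ⊔ (Ideal.span {y ^ (c + 1)} ⊔ Ideal.span {π}) =
          Ideal.span {y ^ (c + 1)} ⊔ 𝔭₂ := by
        rw [pow_one, h𝔭₂', sup_left_comm]
      have hmono : Ideal.span {x ^ (1 + k)} ⊔ (Ideal.span {y ^ (c + 1)} ⊔ Ideal.span {π}) ≤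
          Ideal.span {x ^ 1} ⊔ (Ideal.span {y ^ (c + 1)} ⊔ Ideal.span {π}) := by
        refine sup_le_sup_right ?_ _
        rw [Ideal.span_singleton_le_span_singleton]
        exact pow_dvd_pow x (by omega)
      rw [relLen_add hmono le_top, hchain, hbase, relLen_branch_pow 𝔭₂ hy (c + 1)]
      push_cast
      rfl
    · intro n hn s hs
      obtain ⟨g, hg⟩ := exists_sub_mul_mem_of_mem_maximalIdeal 𝔭₁ hx hs
      obtain ⟨d, hd⟩ := hmem_inf ((s - x * g) * x ^ n) (𝔭₁.mul_mem_right _ hg)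
        (𝔭₂.mul_mem_left _ (𝔭₂.pow_mem_of_mem hx₂ _ (by omega)))
      have h : s * x ^ n = x ^ (n + 1) * g + d * π := by
        rw [← hd]
        ring
      rw [h]
      exact Ideal.add_mem _
        (Ideal.mem_sup_left (Ideal.mem_span_singleton.mpr (Dvd.intro g rfl)))
        (Ideal.mem_sup_right (Ideal.mem_sup_right
          (Ideal.mem_span_singleton.mpr (Dvd.intro_left d rfl))))
  refine exists_unit_mul_pow_of_relLen hm hu0 hπ0 (h𝔭₁𝔪 hπ₁) hreg huπ H1
    (Ideal.span {x ^ (1 + a₁)} ⊔ (Ideal.span {y ^ (a₂ + 1)} ⊔ Ideal.span {π}))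
    (Ideal.mem_sup_right (Ideal.mem_sup_right (Ideal.mem_span_singleton_self π))) ?_
    (a₁ + (a₂ + 1)) (hlen a₁ a₂).ge ?_
  · -- every `f` with `f ^ m = u r`, `r ∈ 𝔪`, lies in `J(a₁ + 1, a₂ + 1)`
    intro f r hf hr
    obtain ⟨g₁, hg₁⟩ := exists_sub_pow_succ_mul_mem 𝔭₁ hx hε₁ hf hr
    obtain ⟨g₂, hg₂⟩ := exists_sub_pow_succ_mul_mem 𝔭₂ hy hε₂ hf hr
    obtain ⟨d, hd⟩ := hmem_inf (f - x ^ (a₁ + 1) * g₁ - y ^ (a₂ + 1) * g₂)
      (𝔭₁.sub_mem hg₁ (𝔭₁.mul_mem_right _ (𝔭₁.pow_mem_of_mem hy₁ _ (by omega))))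
      (by
        have h : f - x ^ (a₁ + 1) * g₁ - y ^ (a₂ + 1) * g₂ =
            (f - y ^ (a₂ + 1) * g₂) - x ^ (a₁ + 1) * g₁ := by ring
        rw [h]
        exact 𝔭₂.sub_mem hg₂ (𝔭₂.mul_mem_right _ (𝔭₂.pow_mem_of_mem hx₂ _ (by omega))))
    have h : f = x ^ (1 + a₁) * g₁ + (y ^ (a₂ + 1) * g₂ + d * π) := by
      rw [← hd, add_comm 1 a₁]
      ring
    rw [h]
    exact Ideal.add_mem _
      (Ideal.mem_sup_left (Ideal.mem_span_singleton.mpr (Dvd.intro g₁ rfl)))
      (Ideal.mem_sup_right (Ideal.add_mem _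
        (Ideal.mem_sup_left (Ideal.mem_span_singleton.mpr (Dvd.intro g₂ rfl)))
        (Ideal.mem_sup_right (Ideal.mem_span_singleton.mpr (Dvd.intro_left d rfl)))))
  · -- `ℓ(R/(u, π)) ≤ m (a₁ + a₂)`
    set J'' : Ideal R :=
      Ideal.span {x ^ (1 + m * a₁)} ⊔ (Ideal.span {y ^ (m * a₂ + 1)} ⊔ Ideal.span {π})
      with hJ''
    set T : Ideal R := IsLocalRing.maximalIdeal R * Ideal.span {u} ⊔ Ideal.span {π} with hT
    have hxT : x ^ (1 + m * a₁) ∈ T := by
      obtain ⟨e, he⟩ := exists_pow_sub_mul_mem 𝔭₁ hε₁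
      obtain ⟨d, hd⟩ := hmem_inf (x * (x ^ (m * a₁) - u * e)) (𝔭₁.mul_mem_left _ he)
        (𝔭₂.mul_mem_right _ hx₂)
      have h : x ^ (1 + m * a₁) = (x * e) * u + d * π := by
        rw [← hd]
        ring
      rw [h]
      exact Ideal.add_mem _
        (Ideal.mem_sup_left (Ideal.mul_mem_mul (Ideal.mul_mem_right _ _ (h𝔭₂𝔪 hx₂))
          (Ideal.mem_span_singleton_self u)))
        (Ideal.mem_sup_right (Ideal.mem_span_singleton.mpr (Dvd.intro_left d rfl)))
    have hyT : y ^ (m * a₂ + 1) ∈ T := by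
      obtain ⟨e, he⟩ := exists_pow_sub_mul_mem 𝔭₂ hε₂
      obtain ⟨d, hd⟩ := hmem_inf (y * (y ^ (m * a₂) - u * e)) (𝔭₁.mul_mem_right _ hy₁)
        (𝔭₂.mul_mem_left _ he)
      have h : y ^ (m * a₂ + 1) = (y * e) * u + d * π := by
        rw [← hd]
        ring
      rw [h]
      exact Ideal.add_mem _
        (Ideal.mem_sup_left (Ideal.mul_mem_mul (Ideal.mul_mem_right _ _ (h𝔭₁𝔪 hy₁))
          (Ideal.mem_span_singleton_self u)))
        (Ideal.mem_sup_right (Ideal.mem_span_singleton.mpr (Dvd.intro_left d rfl)))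
    have hJT : J'' ≤ T :=
      sup_le ((Ideal.span_singleton_le_iff_mem _).mpr hxT)
        (sup_le ((Ideal.span_singleton_le_iff_mem _).mpr hyT) le_sup_right)
    have huT : u ∉ T := by
      intro h
      obtain ⟨t, ht, p, hp, htp⟩ := Submodule.mem_sup.mp h
      obtain ⟨s, hs, rfl⟩ := Ideal.mem_mul_span_singleton.mp ht
      obtain ⟨c, rfl⟩ := Ideal.mem_span_singleton'.mp hp
      have h1 : u * (1 - s) ∈ 𝔭₁ := by
        have : u * (1 - s) = c * π := by
          linear_combination -htp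
        rw [this]
        exact 𝔭₁.mul_mem_left _ hπ₁
      rcases Ideal.IsPrime.mem_or_mem inferInstance h1 with h2 | h2
      · exact hu₁ h2
      · have h3 : (1 : R) ∈ IsLocalRing.maximalIdeal R := by
          have : (1 : R) = (1 - s) + s := by ring
          rw [this]
          exact Ideal.add_mem _ (h𝔭₁𝔪 h2) hs
        exact (Ideal.ne_top_iff_one _).mp (IsLocalRing.maximalIdeal.isMaximal R).ne_top h3
    have hTle : T ≤ Ideal.span {u, π} := by
      refine sup_le ?_ ?_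
      · refine Ideal.mul_le_right.trans ?_
        rw [Ideal.span_singleton_le_iff_mem]
        exact Ideal.subset_span (by simp)
      · rw [Ideal.span_singleton_le_iff_mem]
        exact Ideal.subset_span (by simp)
    have h1 : 1 ≤ relLen J'' (Ideal.span {u, π}) :=
      one_le_relLen_of_notMem (Ideal.subset_span (by simp)) (fun h => huT (hJT h))
    have h2 : relLen J'' (⊤ : Ideal R) = ((m * a₁ + (m * a₂ + 1) : ℕ) : ℕ∞) := hlen _ _
    rw [relLen_add (hJT.trans hTle) le_top] at h2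
    have h3 : relLen (Ideal.span {u, π}) (⊤ : Ideal R) ≠ ⊤ := by
      intro h
      rw [h, add_top] at h2
      exact ENat.top_ne_natCast _ h2
    have h4 : relLen J'' (Ideal.span {u, π}) ≠ ⊤ := by
      intro h
      rw [h, top_add] at h2
      exact ENat.top_ne_natCast _ h2
    lift relLen (Ideal.span {u, π}) (⊤ : Ideal R) to ℕ using h3 with L
    lift relLen J'' (Ideal.span {u, π}) to ℕ using h4 with L'
    have h5 : 1 ≤ L' := by exact_mod_cast h1
    have h6 : L' + L = m * a₁ + (m * a₂ + 1) := by exact_mod_cast h2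
    have h7 : L < m * (a₁ + (a₂ + 1)) := by
      have : 0 < m := Nat.pos_of_ne_zero hm
      nlinarith
    exact_mod_cast h7

end Fermat.Agent.A2.H609

end
-- ===== PACK-END A2/H609/Node.lean

-- ===== PACK-BEGIN A2/H729/Kummer.lean
section


/-!
# A2, piece ALG_ss (helper729), versions B and C: the Kummer idempotent

Same setting as `Glue.lean`; `F` is now the Kummer field `F₀(y)`, `y ^ m = u`, `m` invertible
in `R`, and `y ≡ (root of unity)` generically on the special fibre: `y ^ m - 1 ∈ w O`.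

* `kummerIdem mi m y = mi * ∑_{i < m} y ^ i` is idempotent modulo `w O`
  (`inW_kummerIdem_sq_sub`), and `(y - 1) * kummerIdem ∈ w O` (`inW_sub_one_mul_kummerIdem`).
* **Version B** (`kummer_trivial_of_local`): if at every closed point `𝔫 ∋ w` of both charts
  there is `y₁ ≡ y mod w O` and a denominator `s ∉ 𝔫` with `s * y₁` in the chart, then
  `kummerIdem ∈ w O` or `y - 1 ∈ w O`.
* **Version C** (`kummer_trivial_of_local_factorisation`): the same with the local hypothesis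
  stated on the charts of a base subalgebra `F₀` (local factorisation `y ^ m = ε * h ^ m`,
  `h ≡ 1 mod w O`, `ε` regular at the point).
-/

set_option autoImplicit false

namespace Fermat.Agent.A2.H729

open Fermat.Agent.S18.H138

variable {R : Type*} [CommRing R] {F : Type*} [Field F] [Algebra R F]

/-- The Kummer idempotent `(1/m) ∑_{i<m} y^i`. -/
noncomputable def kummerIdem (mi : R) (m : ℕ) (y : F) : F :=
  algebraMap R F mi * ∑ i ∈ Finset.range m, y ^ i

theorem kummerIdem_mem {O : Subalgebra R F} (mi : R) (m : ℕ) {y : F} (hy : y ∈ O) :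
    kummerIdem mi m y ∈ O :=
  O.mul_mem (O.algebraMap_mem mi) (O.sum_mem fun i _ => O.pow_mem hy i)

theorem sub_one_mul_geom (m : ℕ) (y : F) :
    (y - 1) * ∑ i ∈ Finset.range m, y ^ i = y ^ m - 1 := by
  rw [mul_comm]
  exact geom_sum_mul y m

/-- `(y - 1) e₀ ∈ w O`. -/
theorem inW_sub_one_mul_kummerIdem {O : Subalgebra R F} {w : R} (mi : R) (m : ℕ) {y : F}
    (hym : InW O w (y ^ m - 1)) : InW O w ((y - 1) * kummerIdem mi m y) := by
  have : (y - 1) * kummerIdem mi m y = algebraMap R F mi * (y ^ m - 1) := by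
    rw [kummerIdem, ← sub_one_mul_geom m y]; ring
  rw [this]
  exact hym.mul_left (O.algebraMap_mem mi)

theorem inW_pow_sub_one_mul_kummerIdem {O : Subalgebra R F} {w : R} (mi : R) (m : ℕ) {y : F}
    (hy : y ∈ O) (hym : InW O w (y ^ m - 1)) (k : ℕ) :
    InW O w ((y ^ k - 1) * kummerIdem mi m y) := by
  induction k with
  | zero => simpa using InW.zero O w
  | succ k ih =>
    have : (y ^ (k + 1) - 1) * kummerIdem mi m y =
        y * ((y ^ k - 1) * kummerIdem mi m y) + (y - 1) * kummerIdem mi m y := by ring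
    rw [this]
    exact (ih.mul_left hy).add (inW_sub_one_mul_kummerIdem mi m hym)

/-- `e₀² ≡ e₀ mod w O`. -/
theorem inW_kummerIdem_sq_sub {O : Subalgebra R F} {w : R} {mi : R} {m : ℕ}
    (hmi : (m : R) * mi = 1) {y : F} (hy : y ∈ O) (hym : InW O w (y ^ m - 1)) :
    InW O w (kummerIdem mi m y ^ 2 - kummerIdem mi m y) := by
  have hmiF : (m : F) * algebraMap R F mi = 1 := by
    have := congrArg (algebraMap R F) hmi
    simpa using this
  have key : kummerIdem mi m y ^ 2 - kummerIdem mi m y =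
      algebraMap R F mi * ∑ i ∈ Finset.range m, (y ^ i - 1) * kummerIdem mi m y := by
    have h1 : ∑ i ∈ Finset.range m, (y ^ i - 1) * kummerIdem mi m y =
        (∑ i ∈ Finset.range m, y ^ i) * kummerIdem mi m y - (m : F) * kummerIdem mi m y := by
      rw [← Finset.sum_mul, Finset.sum_sub_distrib]
      simp [sub_mul]
    rw [h1]
    have h2 : algebraMap R F mi * ((∑ i ∈ Finset.range m, y ^ i) * kummerIdem mi m y) =
        kummerIdem mi m y ^ 2 := by
      rw [kummerIdem]; ring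
    have h3 : algebraMap R F mi * ((m : F) * kummerIdem mi m y) = kummerIdem mi m y := by
      rw [← mul_assoc, mul_comm (algebraMap R F mi), hmiF, one_mul]
    rw [mul_sub, h2, h3]
  rw [key]
  exact (InW.sum _ _ fun i _ => inW_pow_sub_one_mul_kummerIdem mi m hy hym i).mul_left
    (O.algebraMap_mem mi)

/-- If `e₀ ≡ 1` then `y ≡ 1`. -/
theorem inW_sub_one_of_inW_one_sub_kummerIdem {O : Subalgebra R F} {w : R} (mi : R) (m : ℕ)
    {y : F} (hy : y ∈ O) (hym : InW O w (y ^ m - 1))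
    (h : InW O w (1 - kummerIdem mi m y)) : InW O w (y - 1) := by
  have : y - 1 = (y - 1) * kummerIdem mi m y + (y - 1) * (1 - kummerIdem mi m y) := by ring
  rw [this]
  exact (inW_sub_one_mul_kummerIdem mi m hym).add (h.mul_left (O.sub_mem hy O.one_mem))

/-- `y ^ i ≡ y₁ ^ i` if `y ≡ y₁`. -/
theorem inW_pow_sub_pow {O : Subalgebra R F} {w : R} {y y₁ : F} (hy : y ∈ O) (hy₁ : y₁ ∈ O)
    (h : InW O w (y - y₁)) (i : ℕ) : InW O w (y ^ i - y₁ ^ i) := by
  induction i with
  | zero => simpa using InW.zero O w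
  | succ i ih =>
    have : y ^ (i + 1) - y₁ ^ (i + 1) = y * (y ^ i - y₁ ^ i) + (y - y₁) * y₁ ^ i := by ring
    rw [this]
    exact (ih.mul_left hy).add (h.mul_right (O.pow_mem hy₁ i))

/-- Local regularity of the Kummer idempotent from a local integral model of `y`. -/
theorem kummerIdem_locally_regular {C O : Subalgebra R F} (hCO : C ≤ O) {w : R} (mi : R)
    {m : ℕ} (hm : 0 < m) {y : F} (hy : y ∈ O) (𝔫 : Ideal C) [h𝔫 : 𝔫.IsPrime]
    {s : C} (hs : s ∉ 𝔫) {y₁ : F} (h₁ : InW O w (y - y₁)) (hsy : (s : F) * y₁ ∈ C) :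
    ∃ s' : C, s' ∉ 𝔫 ∧ ∃ e ∈ C, InW O w ((s' : F) * kummerIdem mi m y - e) := by
  have hy₁ : y₁ ∈ O := by
    have : y₁ = y - (y - y₁) := by ring
    rw [this]
    exact O.sub_mem hy h₁.mem
  refine ⟨s ^ (m - 1), fun h => hs (h𝔫.mem_of_pow_mem _ h),
    (s : F) ^ (m - 1) * kummerIdem mi m y₁, ?_, ?_⟩
  · -- `s^(m-1) * e₁ ∈ C`
    have : (s : F) ^ (m - 1) * kummerIdem mi m y₁ =
        algebraMap R F mi * ∑ i ∈ Finset.range m, (s : F) ^ (m - 1 - i) * ((s : F) * y₁) ^ i := by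
      rw [kummerIdem, Finset.mul_sum, Finset.mul_sum, Finset.mul_sum]
      refine Finset.sum_congr rfl fun i hi => ?_
      have hi' : i ≤ m - 1 := by
        have := Finset.mem_range.1 hi
        omega
      have : (s : F) ^ (m - 1) = (s : F) ^ (m - 1 - i) * (s : F) ^ i := by
        rw [← pow_add]; congr 1; omega
      rw [this, mul_pow]; ring
    rw [this]
    exact C.mul_mem (C.algebraMap_mem mi)
      (C.sum_mem fun i _ => C.mul_mem (C.pow_mem s.2 _) (C.pow_mem hsy i))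
  · have : ((s ^ (m - 1) : C) : F) * kummerIdem mi m y - (s : F) ^ (m - 1) * kummerIdem mi m y₁ =
        ((s : F) ^ (m - 1) * algebraMap R F mi) * ∑ i ∈ Finset.range m, (y ^ i - y₁ ^ i) := by
      rw [kummerIdem, kummerIdem, Finset.sum_sub_distrib]
      push_cast
      ring
    rw [this]
    exact (InW.sum _ _ fun i _ => inW_pow_sub_pow hy hy₁ h₁ i).mul_left
      (O.mul_mem (O.pow_mem (hCO s.2) _) (O.algebraMap_mem mi))

section Main

variable [IsNoetherianRing R] [IsIntegrallyClosed (Polynomial R)] [CharZero F]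

/-- **ALG_ss, version B.** -/
theorem kummer_trivial_of_local
    (hinjR : Function.Injective (algebraMap R F))
    (hRF : ∀ y : F, IsIntegral R y → y ∈ Set.range (algebraMap R F))
    {x : F} (hx : Transcendental R x) [FiniteDimensional (baseField R x) F]
    (w : R) (hw : Prime w)
    (O : Subalgebra R F)
    (hfin : chart R ({x} : Set F) ≤ O) (hinf : chart R ({x⁻¹} : Set F) ≤ O)
    (qep_fin : ∀ b ∈ chart R ({x} : Set F), InW O w b →
      ∃ t ∈ chart R ({x} : Set F), b = algebraMap R F w * t)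
    (qep_inf : ∀ b ∈ chart R ({x⁻¹} : Set F), InW O w b →
      ∃ t ∈ chart R ({x⁻¹} : Set F), b = algebraMap R F w * t)
    (qep_mid : ∀ b ∈ chart R ({x, x⁻¹} : Set F), InW O w b →
      ∃ t ∈ chart R ({x, x⁻¹} : Set F), b = algebraMap R F w * t)
    {mi : R} {m : ℕ} (hm : 0 < m) (hmi : (m : R) * mi = 1)
    {y : F} (hy : y ∈ O) (hym : InW O w (y ^ m - 1))
    (hloc_fin : ∀ 𝔫 : Ideal (chart R ({x} : Set F)), 𝔫.IsMaximal →
      algebraMap R (chart R ({x} : Set F)) w ∈ 𝔫 →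
      ∃ s : chart R ({x} : Set F), s ∉ 𝔫 ∧
        ∃ y₁ : F, InW O w (y - y₁) ∧ (s : F) * y₁ ∈ chart R ({x} : Set F))
    (hloc_inf : ∀ 𝔫 : Ideal (chart R ({x⁻¹} : Set F)), 𝔫.IsMaximal →
      algebraMap R (chart R ({x⁻¹} : Set F)) w ∈ 𝔫 →
      ∃ s : chart R ({x⁻¹} : Set F), s ∉ 𝔫 ∧
        ∃ y₁ : F, InW O w (y - y₁) ∧ (s : F) * y₁ ∈ chart R ({x⁻¹} : Set F)) :
    InW O w (kummerIdem mi m y) ∨ InW O w (y - 1) := by
  have h := generic_idempotent_trivial hinjR hRF hx w hw O hfin hinf qep_fin qep_inf qep_mid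
    (kummerIdem_mem mi m hy) (inW_kummerIdem_sq_sub hmi hy hym)
    (fun 𝔫 h𝔫 hw𝔫 => by
      obtain ⟨s, hs, y₁, h₁, hsy⟩ := hloc_fin 𝔫 h𝔫 hw𝔫
      have := h𝔫.isPrime
      exact kummerIdem_locally_regular hfin mi hm hy 𝔫 hs h₁ hsy)
    (fun 𝔫 h𝔫 hw𝔫 => by
      obtain ⟨s, hs, y₁, h₁, hsy⟩ := hloc_inf 𝔫 h𝔫 hw𝔫
      have := h𝔫.isPrime
      exact kummerIdem_locally_regular hinf mi hm hy 𝔫 hs h₁ hsy)
  rcases h with h | h
  · exact Or.inl h
  · exact Or.inr (inW_sub_one_of_inW_one_sub_kummerIdem mi m hy hym h)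

end Main

end Fermat.Agent.A2.H729

end
-- ===== PACK-END A2/H729/Kummer.lean

-- ===== PACK-BEGIN S55/Bridge/H594/Unram.lean
section



/-!
# S55 bridge (helper594), piece B10: Prelude "unramified" versus classical "unramified"

`F ⊂ ℚ̄` a finite Galois extension of `ℚ`, `q` a prime number.  The Prelude condition

  `∀ A : ValuationSubring ℚ̄, A.LiesOverPrime q → A.inertiaSubgroupIn ℚ ≤ F.fixingSubgroup`

is equivalent to: all inertia groups in `Gal(F/ℚ)` of primes of `𝓞 F` containing `q` are trivial,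
and to: the ramification index of `q` in `𝓞 F` is `1`.
-/

set_option autoImplicit false
set_option linter.style.haveILetI false
set_option linter.unusedSectionVars false

namespace Fermat.Agent.S55.Bridge.H594

open Fermat.Agent.S54 Fermat.Agent.S55.Bridge NumberField
open scoped Pointwise

attribute [local instance] isAlgebraic_Qbar isGalois_Qbar

section unram

variable (F : IntermediateField ℚ (AlgebraicClosure ℚ)) [FiniteDimensional ℚ F]

/-- A finite intermediate field of `ℚ̄/ℚ` is a number field. -/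
theorem numberField_of_finite : NumberField F :=
  { to_charZero := inferInstance, to_finiteDimensional := inferInstance }

attribute [local instance] numberField_of_finite

variable (A : ValuationSubring (AlgebraicClosure ℚ))

theorem algebraMap_ringOfIntegers_mem (x : 𝓞 F) :
    algebraMap (𝓞 F) (AlgebraicClosure ℚ) x ∈ A := by
  apply isIntegral_mem_valuationSubring A
  exact (RingOfIntegers.isIntegral x).map
    (IsScalarTower.toAlgHom ℤ (𝓞 F) (AlgebraicClosure ℚ))

/-- The prime of `𝓞 F` below the valuation subring `A` of `ℚ̄`. -/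
def primeBelowF : Ideal (𝓞 F) where
  carrier := {x | algebraMap (𝓞 F) (AlgebraicClosure ℚ) x ∈ A.nonunits}
  add_mem' := fun {a b} ha hb => by
    simp only [Set.mem_ofPred_eq, map_add] at ha hb ⊢
    exact A.nonunits.add_mem ha hb
  zero_mem' := by
    simp only [Set.mem_ofPred_eq, map_zero]
    exact A.nonunits.zero_mem
  smul_mem' := fun c b hb => by
    simp only [Set.mem_ofPred_eq, smul_eq_mul, map_mul] at hb ⊢
    rw [ValuationSubring.mem_nonunits_iff] at hb ⊢
    rw [map_mul]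
    have hc : A.valuation (algebraMap (𝓞 F) (AlgebraicClosure ℚ) c) ≤ 1 :=
      (A.valuation_le_one_iff _).mpr (algebraMap_ringOfIntegers_mem F A c)
    exact mul_lt_one_of_nonneg_of_lt_one_right hc zero_le hb

theorem mem_primeBelowF (x : 𝓞 F) :
    x ∈ primeBelowF F A ↔ algebraMap (𝓞 F) (AlgebraicClosure ℚ) x ∈ A.nonunits := Iff.rfl

theorem primeBelowF_isPrime : (primeBelowF F A).IsPrime := by
  constructor
  · intro h
    have : (1 : 𝓞 F) ∈ primeBelowF F A := by rw [h]; trivial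
    rw [mem_primeBelowF, ValuationSubring.mem_nonunits_iff, map_one, map_one] at this
    exact lt_irrefl _ this
  · intro a b hab
    rw [mem_primeBelowF, ValuationSubring.mem_nonunits_iff] at hab ⊢
    rw [mem_primeBelowF, ValuationSubring.mem_nonunits_iff]
    have ha : A.valuation (algebraMap (𝓞 F) (AlgebraicClosure ℚ) a) ≤ 1 :=
      (A.valuation_le_one_iff _).mpr (algebraMap_ringOfIntegers_mem F A a)
    have hb : A.valuation (algebraMap (𝓞 F) (AlgebraicClosure ℚ) b) ≤ 1 :=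
      (A.valuation_le_one_iff _).mpr (algebraMap_ringOfIntegers_mem F A b)
    by_contra hcon
    rw [not_or, not_lt, not_lt] at hcon
    have ha1 := le_antisymm ha hcon.1
    have hb1 := le_antisymm hb hcon.2
    rw [map_mul, map_mul, ha1, hb1, mul_one] at hab
    exact lt_irrefl _ hab

theorem natCast_mem_primeBelowF {q : ℕ} (hA : A.LiesOverPrime q) :
    (q : 𝓞 F) ∈ primeBelowF F A := by
  rw [mem_primeBelowF, map_natCast]
  exact hA

variable [IsGalois ℚ F]

theorem algebraMap_smul_ringOfIntegers (τ : F ≃ₐ[ℚ] F) (x : 𝓞 F) :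
    algebraMap (𝓞 F) (AlgebraicClosure ℚ) (τ • x) =
      ((τ (algebraMap (𝓞 F) F x) : F) : AlgebraicClosure ℚ) := rfl

theorem algebraMap_restrict_smul (σ : AlgebraicClosure ℚ ≃ₐ[ℚ] AlgebraicClosure ℚ) (x : 𝓞 F) :
    algebraMap (𝓞 F) (AlgebraicClosure ℚ) (AlgEquiv.restrictNormalHom F σ • x) =
      σ (algebraMap (𝓞 F) (AlgebraicClosure ℚ) x) := by
  rw [algebraMap_smul_ringOfIntegers, restrictNormalHom_apply]
  rfl

/-- The restriction to `F` of an element of the inertia group of `A` lies in the inertia group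
of the prime of `𝓞 F` below `A`. -/
theorem restrict_mem_inertia_primeBelowF (σ : AlgebraicClosure ℚ ≃ₐ[ℚ] AlgebraicClosure ℚ)
    (hσ : σ ∈ A.inertiaSubgroupIn ℚ) :
    AlgEquiv.restrictNormalHom F σ ∈ (primeBelowF F A).inertia (F ≃ₐ[ℚ] F) := by
  intro x
  show _ - x ∈ primeBelowF F A
  rw [mem_primeBelowF, map_sub, algebraMap_restrict_smul]
  exact ((mem_inertiaSubgroupIn_iff A σ).mp hσ).2 _ (algebraMap_ringOfIntegers_mem F A x)

/-- **B14 (inertia), ideal form**: the image in `Gal(F/ℚ)` of the inertia group of `A` is the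
inertia group of the prime of `𝓞 F` below `A`. -/
theorem map_inertiaSubgroupIn_eq {q : ℕ} (hq : q.Prime) (hA : A.LiesOverPrime q) :
    (A.inertiaSubgroupIn ℚ).map (AlgEquiv.restrictNormalHom F) =
      (primeBelowF F A).inertia (F ≃ₐ[ℚ] F) := by
  apply le_antisymm
  · rintro _ ⟨σ, hσ, rfl⟩
    exact restrict_mem_inertia_primeBelowF F A σ hσ
  · intro τ hτ
    obtain ⟨σ, hσ, hστ⟩ := exists_inertia_lift F A hq hA τ (fun x hx => by
      obtain ⟨y, rfl⟩ : ∃ y : 𝓞 F, algebraMap (𝓞 F) F y = x := ⟨⟨x, hx⟩, rfl⟩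
      have h2 : τ • y - y ∈ primeBelowF F A := hτ y
      rw [mem_primeBelowF, map_sub, algebraMap_smul_ringOfIntegers] at h2
      exact h2)
    exact ⟨σ, hσ, hστ⟩

/-- **B10.**  The Prelude unramifiedness condition at `q` for the finite Galois field `F` is
equivalent to the triviality of all inertia groups in `Gal(F/ℚ)` of primes of `𝓞 F` over `q`. -/
theorem inertia_le_fixingSubgroup_iff_inertia_eq_bot {q : ℕ} (hq : q.Prime) :
    (∀ A : ValuationSubring (AlgebraicClosure ℚ), A.LiesOverPrime q →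
        A.inertiaSubgroupIn ℚ ≤ F.fixingSubgroup) ↔
      ∀ P : Ideal (𝓞 F), P.IsPrime → (q : 𝓞 F) ∈ P → P.inertia (F ≃ₐ[ℚ] F) = ⊥ := by
  constructor
  · intro h P hP hqP
    rw [eq_bot_iff]
    intro τ hτ
    -- a valuation subring of `ℚ̄` above `P`
    let A₀ : Subring (AlgebraicClosure ℚ) := (algebraMap (𝓞 F) (AlgebraicClosure ℚ)).range
    let g : 𝓞 F →+* A₀ := (algebraMap (𝓞 F) (AlgebraicClosure ℚ)).rangeRestrict
    have hginj : Function.Injective g := by
      intro x y hxy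
      have h1 : algebraMap (𝓞 F) (AlgebraicClosure ℚ) x =
          algebraMap (𝓞 F) (AlgebraicClosure ℚ) y :=
        congrArg (fun z : A₀ => (z : AlgebraicClosure ℚ)) hxy
      exact FaithfulSMul.algebraMap_injective (𝓞 F) (AlgebraicClosure ℚ) h1
    have hgsurj : Function.Surjective g :=
      (algebraMap (𝓞 F) (AlgebraicClosure ℚ)).rangeRestrict_surjective
    have hI : P.map g ≠ ⊤ := by
      intro htop
      have h1 : (P.map g).comap g = P := Ideal.comap_map_of_bijective g ⟨hginj, hgsurj⟩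
      rw [htop, Ideal.comap_top] at h1
      exact hP.ne_top h1.symm
    obtain ⟨A, -, hA⟩ := Ideal.image_subset_nonunits_valuationSubring _ hI
    have hPA : ∀ x ∈ P, algebraMap (𝓞 F) (AlgebraicClosure ℚ) x ∈ A.nonunits := by
      intro x hx
      exact hA ⟨g x, Ideal.mem_map_of_mem g hx, rfl⟩
    have hAq : A.LiesOverPrime q := by
      have := hPA _ hqP
      rwa [map_natCast] at this
    obtain ⟨σ, hσ, hστ⟩ := exists_inertia_lift F A hq hAq τ (fun x hx => by
      obtain ⟨y, rfl⟩ : ∃ y : 𝓞 F, algebraMap (𝓞 F) F y = x := ⟨⟨x, hx⟩, rfl⟩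
      have h2 := hPA _ (hτ y)
      rw [map_sub, algebraMap_smul_ringOfIntegers] at h2
      exact h2)
    have h3 := h A hAq hσ
    rw [← hστ, Subgroup.mem_bot]
    exact restrictNormalHom_eq_one_of_mem_fixingSubgroup F σ h3
  · intro h A hA σ hσ
    haveI := primeBelowF_isPrime F A
    have h1 := restrict_mem_inertia_primeBelowF F A σ hσ
    rw [h (primeBelowF F A) inferInstance (natCast_mem_primeBelowF F A hA), Subgroup.mem_bot] at h1
    rw [IntermediateField.mem_fixingSubgroup_iff]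
    intro x hx
    have h2 := restrictNormalHom_apply F σ ⟨x, hx⟩
    rw [h1] at h2
    exact h2.symm

/-- A prime of `𝓞 F` containing the prime number `q` lies over `(q) ⊂ ℤ`. -/
theorem liesOver_span_of_natCast_mem {q : ℕ} (hq : q.Prime) (P : Ideal (𝓞 F)) [P.IsPrime]
    (hqP : (q : 𝓞 F) ∈ P) : P.LiesOver (Ideal.span {(q : ℤ)}) := by
  haveI hmax : (Ideal.span {(q : ℤ)}).IsMaximal :=
    PrincipalIdealRing.isMaximal_of_irreducible (Nat.prime_iff_prime_int.mp hq).irreducible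
  refine ⟨?_⟩
  have hle : Ideal.span {(q : ℤ)} ≤ P.under ℤ := by
    rw [Ideal.span_le, Set.singleton_subset_iff]
    show algebraMap ℤ (𝓞 F) (q : ℤ) ∈ P
    simpa using hqP
  exact hmax.eq_of_le (Ideal.IsPrime.under ℤ P).ne_top hle

/-- **B10, ramification index form.**  The Prelude unramifiedness condition at `q` for the
finite Galois field `F` holds iff `q` has ramification index `1` in `𝓞 F`. -/
theorem inertia_le_fixingSubgroup_iff_ramificationIdxIn {q : ℕ} (hq : q.Prime) :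
    (∀ A : ValuationSubring (AlgebraicClosure ℚ), A.LiesOverPrime q →
        A.inertiaSubgroupIn ℚ ≤ F.fixingSubgroup) ↔
      (Ideal.span {(q : ℤ)}).ramificationIdxIn (𝓞 F) = 1 := by
  haveI hgal : IsGaloisGroup (F ≃ₐ[ℚ] F) ℤ (𝓞 F) :=
    IsGaloisGroup.of_isFractionRing (F ≃ₐ[ℚ] F) ℤ (𝓞 F) ℚ F
  haveI hmax : (Ideal.span {(q : ℤ)}).IsMaximal :=
    PrincipalIdealRing.isMaximal_of_irreducible (Nat.prime_iff_prime_int.mp hq).irreducible
  haveI hprime : (Ideal.span {(q : ℤ)}).IsPrime := hmax.isPrime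
  rw [inertia_le_fixingSubgroup_iff_inertia_eq_bot F hq]
  constructor
  · intro h
    obtain ⟨A, hA⟩ := exists_valuationSubring_liesOver q hq
    haveI := primeBelowF_isPrime F A
    haveI := liesOver_span_of_natCast_mem F hq (primeBelowF F A) (natCast_mem_primeBelowF F A hA)
    rw [← Ideal.card_inertia_eq_ramificationIdxIn (G := F ≃ₐ[ℚ] F) (Ideal.span {(q : ℤ)})
      (primeBelowF F A), h _ inferInstance (natCast_mem_primeBelowF F A hA)]
    exact Subgroup.card_bot
  · intro h P hP hqP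
    haveI := hP
    haveI := liesOver_span_of_natCast_mem F hq P hqP
    have h1 := Ideal.card_inertia_eq_ramificationIdxIn (G := F ≃ₐ[ℚ] F) (Ideal.span {(q : ℤ)}) P
    rw [h] at h1
    exact (Subgroup.card_eq_one).mp h1

/-- **B10 for levels.**  A finite Galois `F` is unramified outside `S` in the Prelude sense iff
every prime number outside `S` has ramification index `1` in `𝓞 F`. -/
theorem isUnramifiedOutside_iff_ramificationIdxIn (S : Finset Nat.Primes) :
    F.IsUnramifiedOutside S ↔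
      ∀ q : Nat.Primes, q ∉ S → (Ideal.span {((q : ℕ) : ℤ)}).ramificationIdxIn (𝓞 F) = 1 := by
  constructor
  · intro h q hqS
    exact (inertia_le_fixingSubgroup_iff_ramificationIdxIn F q.2).mp (h.2 q hqS)
  · intro h
    exact ⟨inferInstance, fun q hqS =>
      (inertia_le_fixingSubgroup_iff_ramificationIdxIn F q.2).mpr (h q hqS)⟩

/-- **B10 for levels, inertia form.** -/
theorem isUnramifiedOutside_iff_inertia_eq_bot (S : Finset Nat.Primes) :
    F.IsUnramifiedOutside S ↔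
      ∀ q : Nat.Primes, q ∉ S → ∀ P : Ideal (𝓞 F), P.IsPrime → ((q : ℕ) : 𝓞 F) ∈ P →
        P.inertia (F ≃ₐ[ℚ] F) = ⊥ := by
  constructor
  · intro h q hqS
    exact (inertia_le_fixingSubgroup_iff_inertia_eq_bot F q.2).mp (h.2 q hqS)
  · intro h
    exact ⟨inferInstance, fun q hqS =>
      (inertia_le_fixingSubgroup_iff_inertia_eq_bot F q.2).mpr (h q hqS)⟩

end unram

end Fermat.Agent.S55.Bridge.H594

end
-- ===== PACK-END S55/Bridge/H594/Unram.lean

-- ===== PACK-BEGIN S55/Bridge/H594/Comap.lean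
section


/-!
# S55 bridge (helper594), piece B14 in `ValuationSubring.comap` form

For a finite (or just normal) intermediate field `F` of `ℚ̄/ℚ` and a valuation subring `A` of `ℚ̄`
over a prime number `q`, with `A ∩ F := A.comap (algebraMap F ℚ̄)`:

* `map_decompositionSubgroup_eq_comap`: the image of `D_A` in `Gal(F/ℚ)` is `D_{A ∩ F}`;
* `map_inertiaSubgroupIn_eq_comap`: the image of `I_A` in `Gal(F/ℚ)` is `I_{A ∩ F}`.

The first part of the file gives elementwise membership criteria for the decomposition and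
inertia groups of a valuation subring of an arbitrary field extension.
-/

set_option autoImplicit false
set_option linter.style.haveILetI false
set_option linter.unusedSectionVars false

namespace Fermat.Agent.S55.Bridge.H594

open Fermat.Agent.S54 Fermat.Agent.S55.Bridge
open scoped Pointwise

section general

variable {K L : Type*} [Field K] [Field L] [Algebra K L] (A : ValuationSubring L)

/-- Membership in the decomposition group, elementwise (general fields). -/
theorem mem_decompositionSubgroup_iff_forall (σ : L ≃ₐ[K] L) :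
    σ ∈ A.decompositionSubgroup K ↔ ∀ x, σ x ∈ A ↔ x ∈ A := by
  rw [MulAction.mem_stabilizer_iff]
  constructor
  · intro h x
    have hinv : σ⁻¹ • A = A := by
      conv_lhs => rw [← h]
      rw [inv_smul_smul]
    have h1 := ValuationSubring.mem_pointwise_smul_iff_inv_smul_mem (S := A)
      (g := σ⁻¹) (x := x)
    rw [hinv, inv_inv] at h1
    rw [h1]
    rfl
  · intro h
    apply SetLike.ext
    intro x
    rw [ValuationSubring.mem_pointwise_smul_iff_inv_smul_mem]
    have h2 := h (σ⁻¹ • x)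
    rw [AlgEquiv.smul_def] at h2 ⊢
    rw [← h2]
    have : σ (σ⁻¹ x) = x := by
      show (σ * σ⁻¹) x = x
      rw [mul_inv_cancel]
      rfl
    rw [this]

/-- Membership in the inertia group, elementwise (general fields). -/
theorem mem_inertiaSubgroupIn_iff_forall (σ : L ≃ₐ[K] L) :
    σ ∈ A.inertiaSubgroupIn K ↔
      σ ∈ A.decompositionSubgroup K ∧ ∀ z ∈ A, σ z - z ∈ A.nonunits := by
  constructor
  · rintro ⟨g, hg, rfl⟩
    refine ⟨g.2, fun z hzA => ?_⟩
    have h1 : MulSemiringAction.toRingAut (A.decompositionSubgroup K)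
        (IsLocalRing.ResidueField A) g = 1 := hg
    have h2 : g • (IsLocalRing.residue A ⟨z, hzA⟩) = IsLocalRing.residue A ⟨z, hzA⟩ := by
      have := congrArg (fun f => f (IsLocalRing.residue A ⟨z, hzA⟩)) h1
      simpa using this
    rw [← IsLocalRing.ResidueField.residue_smul] at h2
    have h3 : (g • (⟨z, hzA⟩ : A)) - ⟨z, hzA⟩ ∈ IsLocalRing.maximalIdeal A := by
      rw [← Ideal.Quotient.eq]
      exact h2
    rw [ValuationSubring.valuation_lt_one_iff] at h3
    rw [ValuationSubring.mem_nonunits_iff]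
    exact h3
  · rintro ⟨hD, h⟩
    refine ⟨⟨σ, hD⟩, ?_, rfl⟩
    show (⟨σ, hD⟩ : A.decompositionSubgroup K) ∈ MonoidHom.ker
      (MulSemiringAction.toRingAut (A.decompositionSubgroup K) (IsLocalRing.ResidueField A))
    rw [MonoidHom.mem_ker]
    apply RingEquiv.ext
    intro y
    obtain ⟨x, rfl⟩ := IsLocalRing.residue_surjective y
    show (⟨σ, hD⟩ : A.decompositionSubgroup K) • (IsLocalRing.residue A x)
      = IsLocalRing.residue A x
    rw [← IsLocalRing.ResidueField.residue_smul]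
    rw [← sub_eq_zero, ← map_sub, IsLocalRing.residue_eq_zero_iff]
    have h3 := h x.1 x.2
    rw [ValuationSubring.mem_nonunits_iff] at h3
    rw [ValuationSubring.valuation_lt_one_iff]
    exact h3

/-- Non-units of a `comap`. -/
theorem mem_nonunits_comap_iff {M : Type*} [Field M] (f : M →+* L) (x : M) :
    x ∈ (A.comap f).nonunits ↔ f x ∈ A.nonunits := by
  rw [ValuationSubring.mem_nonunits_iff_or, ValuationSubring.mem_nonunits_iff_or,
    ValuationSubring.mem_comap, map_inv₀, map_eq_zero_iff f f.injective]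

end general

section comap

attribute [local instance] isAlgebraic_Qbar isGalois_Qbar

variable (F : IntermediateField ℚ (AlgebraicClosure ℚ)) [Normal ℚ F]
variable (A : ValuationSubring (AlgebraicClosure ℚ))

/-- **B14 (decomposition groups).** -/
theorem map_decompositionSubgroup_eq_comap {q : ℕ} (hq : q.Prime) (hA : A.LiesOverPrime q) :
    (A.decompositionSubgroup ℚ).map (AlgEquiv.restrictNormalHom F) =
      (A.comap (algebraMap F (AlgebraicClosure ℚ))).decompositionSubgroup ℚ := by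
  apply le_antisymm
  · rintro _ ⟨σ, hσ, rfl⟩
    rw [mem_decompositionSubgroup_iff_forall]
    intro x
    rw [ValuationSubring.mem_comap, ValuationSubring.mem_comap]
    have := (mem_decompositionSubgroup_iff_forall A σ).mp hσ (x : AlgebraicClosure ℚ)
    have h2 : algebraMap F (AlgebraicClosure ℚ) (AlgEquiv.restrictNormalHom F σ x) =
        σ (x : AlgebraicClosure ℚ) := restrictNormalHom_apply F σ x
    rw [h2]
    exact this
  · intro τ hτ
    have hτ' := (mem_decompositionSubgroup_iff_forall _ τ).mp hτ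
    obtain ⟨σ, hσ, hστ⟩ := exists_decomposition_lift F A hq hA τ (fun x _ => by
      have h1 := mem_nonunits_comap_iff A (algebraMap F (AlgebraicClosure ℚ)) (τ x)
      have h2 := mem_nonunits_comap_iff A (algebraMap F (AlgebraicClosure ℚ)) x
      rw [show ((τ x : F) : AlgebraicClosure ℚ) = algebraMap F (AlgebraicClosure ℚ) (τ x) from rfl,
        show ((x : F) : AlgebraicClosure ℚ) = algebraMap F (AlgebraicClosure ℚ) x from rfl,
        ← h1, ← h2, ValuationSubring.mem_nonunits_iff_or, ValuationSubring.mem_nonunits_iff_or,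
        ← map_inv₀, hτ', map_eq_zero_iff τ τ.injective])
    exact ⟨σ, hσ, hστ⟩

/-- **B14 (inertia groups).** -/
theorem map_inertiaSubgroupIn_eq_comap {q : ℕ} (hq : q.Prime) (hA : A.LiesOverPrime q) :
    (A.inertiaSubgroupIn ℚ).map (AlgEquiv.restrictNormalHom F) =
      (A.comap (algebraMap F (AlgebraicClosure ℚ))).inertiaSubgroupIn ℚ := by
  apply le_antisymm
  · rintro _ ⟨σ, hσ, rfl⟩
    obtain ⟨hD, hI⟩ := (mem_inertiaSubgroupIn_iff_forall A σ).mp hσ
    rw [mem_inertiaSubgroupIn_iff_forall]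
    refine ⟨?_, fun z hz => ?_⟩
    · rw [← map_decompositionSubgroup_eq_comap F A hq hA]
      exact ⟨σ, hD, rfl⟩
    · rw [mem_nonunits_comap_iff, map_sub]
      rw [ValuationSubring.mem_comap] at hz
      have := hI _ hz
      rw [show algebraMap F (AlgebraicClosure ℚ) (AlgEquiv.restrictNormalHom F σ z) =
        σ (algebraMap F (AlgebraicClosure ℚ) z) from restrictNormalHom_apply F σ z]
      exact this
  · intro τ hτ
    obtain ⟨-, hI⟩ := (mem_inertiaSubgroupIn_iff_forall _ τ).mp hτ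
    obtain ⟨σ, hσ, hστ⟩ := exists_inertia_lift F A hq hA τ (fun x hx => by
      have hxA : x ∈ A.comap (algebraMap F (AlgebraicClosure ℚ)) := by
        rw [ValuationSubring.mem_comap]
        exact isIntegral_mem_valuationSubring A
          (hx.map (IsScalarTower.toAlgHom ℤ F (AlgebraicClosure ℚ)))
      have h1 := hI x hxA
      rw [mem_nonunits_comap_iff, map_sub] at h1
      exact h1)
    exact ⟨σ, hσ, hστ⟩

end comap

end Fermat.Agent.S55.Bridge.H594

end
-- ===== PACK-END S55/Bridge/H594/Comap.lean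

-- ===== PACK-BEGIN A2/Mod/H378/L11.lean
section






/-!
# A2 / MOD leaf L11 `ResInf` (helper378)

`theorem resInf : ResInfStatement P E M q w` : residue degree one over level `M` on `C∞`.

Route (independent of the other leaves): `F_{Mq} = F_M(j_{dq} : d ∣ M)`; by the Kronecker
congruence `Φ_q(X, Y) = (X^q - Y)(X - Y^q) + q Θ` (`S28.h88_kronecker_int`, with `Φ_q` from
`S28.H326.nonempty_modPolyData`) the generators satisfy
`(j_{dq}^q - j_d) (j_{dq} - j_d^q) = - q Θ(j_{dq}, j_d)` with `j_{dq}^q - j_d` a unit of `V∞`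
(its expansion starts with `t^{-d q²}`).  The abstract lemma `ResOneData.exists_congr`
(`L11Abstract.lean`) then gives `V∞_{Mq} = α(V∞_M) + w V∞_{Mq}`.
-/

set_option autoImplicit false
set_option linter.unusedSectionVars false
set_option linter.style.haveILetI false
set_option synthInstance.maxHeartbeats 400000
set_option maxHeartbeats 1600000

noncomputable section

namespace Fermat.Agent.A2.Mod.H378

open ModularCurve HahnSeries Fermat.Agent.A2.H708 Fermat.Agent.S28

/-! ## Generic facts on Gauss-integral elements -/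

section Generic

variable {L : Type*} [Field L] [Algebra ℚ L] (A : ValuationSubring L)
variable {F₀ F₁ : IntermediateField ℚ (LaurentSeries ℚ)}

theorem isGaussInt_mono (hle : laurentBaseChange L F₀ ≤ laurentBaseChange L F₁)
    {f : LaurentSeries L} (hf : IsGaussInt A F₀ f) : IsGaussInt A F₁ f := by
  obtain ⟨U₁, U₂, h0, hm, he⟩ := hf
  exact ⟨U₁, U₂, h0, hle hm, he⟩

theorem isGaussInt_descend (hgen : IntGen F₀) (hmax : AttainsMax A F₀)
    (hle : laurentBaseChange L F₀ ≤ laurentBaseChange L F₁)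
    {f : LaurentSeries L} (hfF : f ∈ laurentBaseChange L F₀) (hf : IsGaussInt A F₁ f) :
    IsGaussInt A F₀ f := by
  by_cases hf0 : f = 0
  · rw [hf0]; exact IsGaussInt.zero
  obtain ⟨c, U₁, U₂, hc, h₁, h₂, hm₁, hm₂, he⟩ := exists_normal_form hgen hmax hfF hf0
  have hcA : c ∈ A := (isGaussInt_iff_of_normal_form h₁ h₂ (hle hm₂) he).mp hf
  exact (isGaussInt_iff_of_normal_form h₁ h₂ hm₂ he).mpr hcA

theorem isGaussInt_cst_iff (F₀ : IntermediateField ℚ (LaurentSeries ℚ)) (c : L) :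
    IsGaussInt A F₀ (cst c) ↔ c ∈ A := by
  have he : cst c * incl A 1 = cst c * incl A 1 := rfl
  exact isGaussInt_iff_of_normal_form (by rw [map_one]; exact one_ne_zero)
    (by rw [map_one]; exact one_ne_zero) (by rw [map_one]; exact one_mem _) he

/-- the inverse of a primitive integral series of `F` is Gauss-integral. -/
theorem isGaussInt_inv_of_prim {U : LaurentSeries A} (hU : red A U ≠ 0)
    (hm : incl A U ∈ laurentBaseChange L F₀) : IsGaussInt A F₀ (incl A U)⁻¹ := by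
  refine ⟨1, U, hU, hm, ?_⟩
  rw [map_one, inv_mul_cancel₀ (incl_ne_zero A (ne_zero_of_red_ne_zero A hU))]

/-- discreteness: a nonzero Gauss-integral element is `w ^ n` times a Gauss unit. -/
theorem exists_pow_mul_unit [IsDiscreteValuationRing A] {w : A} (hw : Irreducible w)
    (hgen : IntGen F₀) (hmax : AttainsMax A F₀) {f : LaurentSeries L}
    (hfF : f ∈ laurentBaseChange L F₀) (hf0 : f ≠ 0) (hf : IsGaussInt A F₀ f) :
    ∃ n : ℕ, IsGaussInt A F₀ (f * (cst (w : L) ^ n)⁻¹) ∧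
      IsGaussInt A F₀ (f * (cst (w : L) ^ n)⁻¹)⁻¹ := by
  obtain ⟨c, U₁, U₂, hc, h₁, h₂, hm₁, hm₂, he⟩ := exists_normal_form hgen hmax hfF hf0
  have hcA : c ∈ A := (isGaussInt_iff_of_normal_form h₁ h₂ hm₂ he).mp hf
  have hc' : (⟨c, hcA⟩ : A) ≠ 0 := fun h => hc (congrArg Subtype.val h)
  obtain ⟨n, u, hu⟩ := IsDiscreteValuationRing.eq_unit_mul_pow_irreducible hc' hw
  have hcu : c = ((u : A) : L) * (w : L) ^ n := by
    have h1 := congrArg Subtype.val hu
    simpa using h1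
  have hw0 : (w : L) ≠ 0 := fun h => hw.ne_zero (Subtype.ext h)
  have hwn : cst (w : L) ^ n ≠ 0 := pow_ne_zero _ (cst_ne_zero hw0)
  have hu0 : ((u : A) : L) ≠ 0 := fun h => u.ne_zero (Subtype.ext h)
  have he' : (f * (cst (w : L) ^ n)⁻¹) * incl A U₂ = cst ((u : A) : L) * incl A U₁ := by
    have hpow : cst ((w : L) ^ n) = cst (w : L) ^ n := map_pow _ _ _
    rw [mul_right_comm, he, hcu, cst_mul, hpow]
    field_simp
  have hf0' : f * (cst (w : L) ^ n)⁻¹ ≠ 0 := mul_ne_zero hf0 (inv_ne_zero hwn)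
  refine ⟨n, (isGaussInt_iff_of_normal_form h₁ h₂ hm₂ he').mpr (u : A).2, ?_⟩
  have he'' := normal_form_inv (A := A) hf0' hu0 he'
  refine (isGaussInt_iff_of_normal_form h₂ h₁ hm₁ he'').mpr ?_
  have h2 : ((u : A) : L)⁻¹ = (((u⁻¹ : Aˣ) : A) : L) := by
    apply inv_eq_of_mul_eq_one_right
    have h3 := congrArg A.subtype u.mul_inv
    rw [map_mul, map_one] at h3
    exact h3
  rw [h2]
  exact ((u⁻¹ : Aˣ) : A).2

end Generic

/-! ## Series facts -/

section Series

variable (E : IntermediateField ℚ _root_.Fermat.Agent.A2.Mod.Qb)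

/-- `j(t^d)` as a series over `E`. -/
def jser (d : ℕ) [NeZero d] : LaurentSeries E := qExpand E d (jqModC E)

theorem jser_eq_coeffEmb (d : ℕ) [NeZero d] : jser E d = coeffEmb E (qExpand ℚ d jq) := by
  rw [jser, coeffEmb, ← jqModC_rat, coeffMap_qExpand, coeffMap_jqModC]

theorem jser_eq_incl (A : ValuationSubring E) (d : ℕ) [NeZero d] :
    jser E d = incl A (castA A (jInt d)) := by
  rw [incl_castA, castQ_jInt, jser_eq_coeffEmb]

theorem jser_mem (N d : ℕ) [NeZero d] (hd : d ∣ N) : jser E d ∈ _root_.Fermat.Agent.A2.Mod.FE E N := by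
  rw [jser_eq_coeffEmb]
  exact coeffEmb_mem_laurentBaseChange E (jqd_mem_full N hd)

theorem FE_le (M q : ℕ) [NeZero M] [NeZero q] : _root_.Fermat.Agent.A2.Mod.FE E M ≤ _root_.Fermat.Agent.A2.Mod.FE E (M * q) := by
  intro x hx
  have h := (heckeAlphaBar E M q ⟨x, hx⟩).2
  rw [coe_heckeAlphaBar] at h
  exact h

/-- the transfer `ℤ((t)) → E((t))`, `t ↦ t^d`. -/
def rho (d : ℕ) [NeZero d] : LaurentSeries ℤ →+* LaurentSeries E :=
  (qExpand E d).comp (coeffMap (Int.castRingHom E))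

theorem rho_j (d : ℕ) [NeZero d] : rho E d (jqModC ℤ) = jser E d := by
  rw [rho, RingHom.comp_apply, coeffMap_jqModC, jser]

theorem rho_jq (d q : ℕ) [NeZero d] [NeZero q] :
    rho E d (qExpand ℤ q (jqModC ℤ)) = jser E (d * q) := by
  rw [rho, RingHom.comp_apply, coeffMap_qExpand, coeffMap_jqModC, qExpand_qExpand, jser]

theorem rho_comp_evalAt (d : ℕ) [NeZero d] (y : LaurentSeries ℤ) :
    (rho E d).comp (evalAt y) = evalAt (rho E d y) := by
  apply Polynomial.ringHom_ext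
  · intro a
    simp [evalAt]
  · simp [evalAt]

/-- **Kronecker relation** for `j_{dq}`, `j_d`. -/
theorem kron_series (q : ℕ) [NeZero q] (hq : q.Prime) (d : ℕ) [NeZero d] :
    ∃ Θ : Polynomial (Polynomial ℤ),
      (jser E (d * q) ^ q - jser E d) * (jser E (d * q) - jser E d ^ q)
        + (q : LaurentSeries E) * Θ.eval₂ (evalAt (jser E d)) (jser E (d * q)) = 0 := by
  have hfact : Fact q.Prime := ⟨hq⟩
  obtain ⟨D⟩ := Fermat.Agent.S28.H326.nonempty_modPolyData q hq
  obtain ⟨Θ, hΘ⟩ := h88_kronecker_int q D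
  refine ⟨Θ, ?_⟩
  have h0 := D.eval_jp
  rw [hΘ] at h0
  have h1 := congrArg (rho E d) h0
  rw [map_zero, Polynomial.hom_eval₂, rho_comp_evalAt, rho_j, rho_jq] at h1
  have e1 : evalAt (jser E d) (Polynomial.X) = jser E d := by simp [evalAt]
  have e2 : evalAt (jser E d) (Polynomial.X ^ q) = jser E d ^ q := by simp [evalAt]
  have e3 : evalAt (jser E d) (Polynomial.C (q : ℤ)) = (q : LaurentSeries E) := by
    simp [evalAt]
  rw [Polynomial.eval₂_add, Polynomial.eval₂_mul, Polynomial.eval₂_sub, Polynomial.eval₂_sub,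
    Polynomial.eval₂_pow, Polynomial.eval₂_X, Polynomial.eval₂_C, Polynomial.eval₂_C,
    Polynomial.eval₂_mul, Polynomial.eval₂_C, e1, e2, e3] at h1
  exact h1

/-- the leading coefficient of `j_{dq}^q - j_d`. -/
theorem coeff_sInt (q : ℕ) [NeZero q] (hq : 2 ≤ q) (d : ℕ) [NeZero d] :
    (jInt (d * q) ^ q - jInt d).coeff (-((d * q * q : ℕ) : ℤ)) = 1 := by
  rw [HahnSeries.coeff_sub, jInt, jInt, jqNModC, jqNModC, ← map_pow]
  have h1 : (-((d * q * q : ℕ) : ℤ)) = ((d * q : ℕ) : ℤ) * (-(q : ℤ)) := by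
    push_cast
    ring
  have h2 : (-((d * q * q : ℕ) : ℤ)) = ((d : ℕ) : ℤ) * (-((q * q : ℕ) : ℤ)) := by
    push_cast
    ring
  have h3 : (qExpand ℤ (d * q) (jqModC ℤ ^ q)).coeff (-((d * q * q : ℕ) : ℤ)) = 1 := by
    rw [h1, qExpand_coeff_mul, coeff_jqModC_pow_self]
  have h4 : (qExpand ℤ d (jqModC ℤ)).coeff (-((d * q * q : ℕ) : ℤ)) = 0 := by
    rw [h2, qExpand_coeff_mul]
    apply coeff_jqModC_of_lt
    have : (4 : ℤ) ≤ ((q * q : ℕ) : ℤ) := by
      have : 4 ≤ q * q := by nlinarith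
      exact_mod_cast this
    omega
  rw [h3, h4, sub_zero]

/-- `j_{dq}^q - j_d` is a primitive integral series. -/
theorem red_sInt_ne_zero (A : ValuationSubring E) (q : ℕ) [NeZero q] (hq : 2 ≤ q) (d : ℕ)
    [NeZero d] : red A (castA A (jInt (d * q) ^ q - jInt d)) ≠ 0 := by
  intro h
  have h1 := congrArg (fun z => z.coeff (-((d * q * q : ℕ) : ℤ))) h
  simp only [coeffMap_coeff, HahnSeries.coeff_zero] at h1
  rw [coeff_sInt q hq d] at h1
  simp at h1

theorem incl_sInt (A : ValuationSubring E) (q d : ℕ) [NeZero q] [NeZero d] :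
    incl A (castA A (jInt (d * q) ^ q - jInt d)) = jser E (d * q) ^ q - jser E d := by
  rw [map_sub, map_sub, map_pow, map_pow, ← jser_eq_incl, ← jser_eq_incl]

end Series

/-! ## The concrete data -/

section Concrete

variable {P : ValuationSubring _root_.Fermat.Agent.A2.Mod.Qb} {E : IntermediateField ℚ _root_.Fermat.Agent.A2.Mod.Qb} {M q : ℕ} [NeZero M] [NeZero q]
  {w : _root_.Fermat.Agent.A2.Mod.RE P E}

/-- the new generators `j_{dq}`, `d ∣ M`, of `F_{Mq}` over `F_M`. -/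
def Xset (E : IntermediateField ℚ _root_.Fermat.Agent.A2.Mod.Qb) (M q : ℕ) [NeZero q] : Set (_root_.Fermat.Agent.A2.Mod.FE E (M * q)) :=
  {x | ∃ (d : ℕ) (_ : NeZero d), d ∣ M ∧ (x : LaurentSeries E) = jser E (d * q)}

/-- `α(V∞_M)` as a subring of `F_{Mq}`. -/
def Oring (E : IntermediateField ℚ _root_.Fermat.Agent.A2.Mod.Qb) (M q : ℕ) [NeZero M] [NeZero q]
    (VM : ValuationSubring (_root_.Fermat.Agent.A2.Mod.FE E M)) : Subring (_root_.Fermat.Agent.A2.Mod.FE E (M * q)) :=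
  VM.toSubring.map (αE E M q : _root_.Fermat.Agent.A2.Mod.FE E M →+* _root_.Fermat.Agent.A2.Mod.FE E (M * q))

theorem mem_Oring {VM : ValuationSubring (_root_.Fermat.Agent.A2.Mod.FE E M)} {x : _root_.Fermat.Agent.A2.Mod.FE E (M * q)} :
    x ∈ Oring E M q VM ↔ ∃ g ∈ VM, αE E M q g = x := by
  rw [Oring, Subring.mem_map]
  rfl

theorem attains (hS : Setting P E M q w) (N : ℕ) :
    AttainsMax (_root_.Fermat.Agent.A2.Mod.RE P E) (modularFunctionFieldFull N) := by
  haveI := hS.dvr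
  exact attainsMax_of_isNoetherianRing _ _

theorem alpha_mem_iff (hS : Setting P E M q w) {VM : ValuationSubring (_root_.Fermat.Agent.A2.Mod.FE E M)}
    {V : ValuationSubring (_root_.Fermat.Agent.A2.Mod.FE E (M * q))} (hVM : IsVinf P E M VM) (hV : IsVinf P E (M * q) V)
    (g : _root_.Fermat.Agent.A2.Mod.FE E M) : αE E M q g ∈ V ↔ g ∈ VM := by
  rw [hV (αE E M q g), hVM g, coe_heckeAlphaBar]
  constructor
  · exact isGaussInt_descend (_root_.Fermat.Agent.A2.Mod.RE P E) (intGen_full M) (attains hS M) (FE_le E M q) g.2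
  · exact isGaussInt_mono (_root_.Fermat.Agent.A2.Mod.RE P E) (FE_le E M q)

theorem cE_mem {N : ℕ} {V : ValuationSubring (_root_.Fermat.Agent.A2.Mod.FE E N)} (hV : IsVinf P E N V) (r : _root_.Fermat.Agent.A2.Mod.RE P E) :
    cE P E N r ∈ V := by
  rw [hV]
  exact (isGaussInt_cst_iff (_root_.Fermat.Agent.A2.Mod.RE P E) _ (r : E)).mpr r.2

theorem alpha_cE (r : _root_.Fermat.Agent.A2.Mod.RE P E) : αE E M q (cE P E M r) = cE P E (M * q) r :=
  (αE E M q).commutes (r : E)

theorem w_ne_zero (hS : Setting P E M q w) : (w : E) ≠ 0 :=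
  fun h => hS.unif.ne_zero (Subtype.ext h)

theorem cE_ne_zero (hS : Setting P E M q w) (N : ℕ) : cE P E N w ≠ 0 := by
  intro h
  exact w_ne_zero hS ((map_eq_zero (algebraMap E (_root_.Fermat.Agent.A2.Mod.FE E N))).mp h)

theorem w_inv_not_mem (hS : Setting P E M q w) : (w : E)⁻¹ ∉ _root_.Fermat.Agent.A2.Mod.RE P E := by
  intro h
  apply hS.unif.not_isUnit
  refine ⟨⟨w, ⟨(w : E)⁻¹, h⟩, ?_, ?_⟩, rfl⟩
  · exact Subtype.ext (mul_inv_cancel₀ (w_ne_zero hS))
  · exact Subtype.ext (inv_mul_cancel₀ (w_ne_zero hS))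

/-- `q ∈ w R`. -/
theorem exists_q_eq (hS : Setting P E M q w) : ∃ c : _root_.Fermat.Agent.A2.Mod.RE P E, ((q : ℕ) : E) = (w : E) * (c : E) := by
  haveI := hS.dvr
  have hq := hS.lies_over
  have hqv : P.valuation ((q : ℕ) : _root_.Fermat.Agent.A2.Mod.Qb) < 1 := (ValuationSubring.mem_nonunits_iff P).mp hq
  have hqP : algebraMap E _root_.Fermat.Agent.A2.Mod.Qb ((q : ℕ) : E) ∈ P := by
    rw [map_natCast, ← ValuationSubring.valuation_le_one_iff]
    exact hqv.le
  set qA : _root_.Fermat.Agent.A2.Mod.RE P E := ⟨((q : ℕ) : E), hqP⟩ with hqA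
  have hnu : ¬ IsUnit qA := by
    rintro ⟨u, hu⟩
    have h1 : qA * ((u⁻¹ : (_root_.Fermat.Agent.A2.Mod.RE P E)ˣ) : _root_.Fermat.Agent.A2.Mod.RE P E) = 1 := by
      rw [← hu]
      exact u.mul_inv
    have h2 : ((q : ℕ) : _root_.Fermat.Agent.A2.Mod.Qb) * algebraMap E _root_.Fermat.Agent.A2.Mod.Qb (((u⁻¹ : (_root_.Fermat.Agent.A2.Mod.RE P E)ˣ) : _root_.Fermat.Agent.A2.Mod.RE P E) : E) = 1 := by
      have h3 := congrArg (fun z : _root_.Fermat.Agent.A2.Mod.RE P E => algebraMap E _root_.Fermat.Agent.A2.Mod.Qb (z : E)) h1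
      simpa [hqA] using h3
    have h4 : P.valuation (algebraMap E _root_.Fermat.Agent.A2.Mod.Qb (((u⁻¹ : (_root_.Fermat.Agent.A2.Mod.RE P E)ˣ) : _root_.Fermat.Agent.A2.Mod.RE P E) : E)) ≤ 1 :=
      (ValuationSubring.valuation_le_one_iff _ _).mpr ((u⁻¹ : (_root_.Fermat.Agent.A2.Mod.RE P E)ˣ) : _root_.Fermat.Agent.A2.Mod.RE P E).2
    have h5 := congrArg P.valuation h2
    rw [map_mul, map_one] at h5
    have h6 : P.valuation ((q : ℕ) : _root_.Fermat.Agent.A2.Mod.Qb) *
        P.valuation (algebraMap E _root_.Fermat.Agent.A2.Mod.Qb (((u⁻¹ : (_root_.Fermat.Agent.A2.Mod.RE P E)ˣ) : _root_.Fermat.Agent.A2.Mod.RE P E) : E)) < 1 := by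
      calc _ ≤ P.valuation ((q : ℕ) : _root_.Fermat.Agent.A2.Mod.Qb) * 1 := by gcongr
        _ = P.valuation ((q : ℕ) : _root_.Fermat.Agent.A2.Mod.Qb) := mul_one _
        _ < 1 := hqv
    exact (ne_of_lt h6) h5
  have hmem : qA ∈ IsLocalRing.maximalIdeal (_root_.Fermat.Agent.A2.Mod.RE P E) := (IsLocalRing.mem_maximalIdeal _).mpr hnu
  rw [hS.unif.maximalIdeal_eq, Ideal.mem_span_singleton] at hmem
  obtain ⟨c, hc⟩ := hmem
  refine ⟨c, ?_⟩
  have := congrArg Subtype.val hc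
  simpa [hqA] using this

theorem eval₂_mem_subring {R S : Type*} [CommRing R] [CommRing S] (f : R →+* S) (x : S)
    (T : Subring S) (hf : ∀ r, f r ∈ T) (hx : x ∈ T) (p : Polynomial R) : p.eval₂ f x ∈ T := by
  rw [Polynomial.eval₂_eq_sum, Polynomial.sum]
  exact Subring.sum_mem _ fun i _ => T.mul_mem (hf _) (T.pow_mem hx i)

theorem jser_mem_V {N : ℕ} {V : ValuationSubring (_root_.Fermat.Agent.A2.Mod.FE E N)} (hV : IsVinf P E N V)
    {x : _root_.Fermat.Agent.A2.Mod.FE E N} {d : ℕ} [NeZero d] (hx : (x : LaurentSeries E) = jser E d) : x ∈ V := by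
  rw [hV, hx, jser_eq_incl E (_root_.Fermat.Agent.A2.Mod.RE P E) d]
  exact IsGaussInt.of_incl _

/-- the subtype ring homomorphism `F_N → E((t))`. -/
def valHom (E : IntermediateField ℚ _root_.Fermat.Agent.A2.Mod.Qb) (N : ℕ) : _root_.Fermat.Agent.A2.Mod.FE E N →+* LaurentSeries E :=
  ((_root_.Fermat.Agent.A2.Mod.FE E N).val : _root_.Fermat.Agent.A2.Mod.FE E N →+* LaurentSeries E)

theorem valHom_apply (N : ℕ) (x : _root_.Fermat.Agent.A2.Mod.FE E N) : valHom E N x = (x : LaurentSeries E) := rfl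

theorem valHom_comp_aeval (N : ℕ) (y : _root_.Fermat.Agent.A2.Mod.FE E N) :
    (valHom E N).comp (Polynomial.aeval (R := ℤ) y).toRingHom = evalAt (y : LaurentSeries E) := by
  apply Polynomial.ringHom_ext
  · intro a
    simp [evalAt, valHom]
  · simp [evalAt, valHom]

/-- **The Kronecker relation** for the generators `j_{dq}`. -/
theorem kron_X (hS : Setting P E M q w) {VM : ValuationSubring (_root_.Fermat.Agent.A2.Mod.FE E M)}
    {V : ValuationSubring (_root_.Fermat.Agent.A2.Mod.FE E (M * q))} (hVM : IsVinf P E M VM) (hV : IsVinf P E (M * q) V)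
    {x : _root_.Fermat.Agent.A2.Mod.FE E (M * q)} (hx : x ∈ Xset E M q) :
    ∃ a ∈ Oring E M q VM,
      ∃ s ∈ Subring.closure ((Oring E M q VM : Set (_root_.Fermat.Agent.A2.Mod.FE E (M * q))) ∪ Xset E M q),
        s ≠ 0 ∧ s⁻¹ ∈ V.toSubring ∧
        ∃ c ∈ Subring.closure ((Oring E M q VM : Set (_root_.Fermat.Agent.A2.Mod.FE E (M * q))) ∪ Xset E M q),
          s * (x - a) = cE P E (M * q) w * c := by
  obtain ⟨d, hd, hdM, hxd⟩ := hx
  haveI := hd
  set B := Subring.closure ((Oring E M q VM : Set (_root_.Fermat.Agent.A2.Mod.FE E (M * q))) ∪ Xset E M q) with hB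
  set y0 : _root_.Fermat.Agent.A2.Mod.FE E M := ⟨jser E d, jser_mem E M d hdM⟩ with hy0
  have hy0V : y0 ∈ VM := jser_mem_V hVM (d := d) rfl
  set y : _root_.Fermat.Agent.A2.Mod.FE E (M * q) := αE E M q y0 with hy
  have hyc : (y : LaurentSeries E) = jser E d := coe_heckeAlphaBar M q y0
  have hyO : y ∈ Oring E M q VM := mem_Oring.mpr ⟨y0, hy0V, rfl⟩
  have hxB : x ∈ B := Subring.subset_closure (Or.inr ⟨d, hd, hdM, hxd⟩)
  have hyB : y ∈ B := Subring.subset_closure (Or.inl hyO)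
  obtain ⟨Θ, hΘ⟩ := kron_series E q hS.q_prime d
  obtain ⟨c0, hc0⟩ := exists_q_eq hS
  set θ : _root_.Fermat.Agent.A2.Mod.FE E (M * q) := Θ.eval₂ ((Polynomial.aeval (R := ℤ) y).toRingHom) x with hθ
  have hθB : θ ∈ B := by
    refine eval₂_mem_subring _ x B (fun r => ?_) hxB Θ
    show Polynomial.aeval y r ∈ B
    rw [Polynomial.aeval_def]
    refine eval₂_mem_subring _ y B (fun n => ?_) hyB r
    rw [eq_intCast]
    exact intCast_mem B n
  have hθc : (θ : LaurentSeries E) = Θ.eval₂ (evalAt (jser E d)) (jser E (d * q)) := by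
    rw [← valHom_apply, hθ, Polynomial.hom_eval₂, valHom_comp_aeval, valHom_apply, hxd, hyc]
  -- the unit `s`
  have hsc : ((x ^ q - y : _root_.Fermat.Agent.A2.Mod.FE E (M * q)) : LaurentSeries E)
      = incl (_root_.Fermat.Agent.A2.Mod.RE P E) (castA (_root_.Fermat.Agent.A2.Mod.RE P E) (jInt (d * q) ^ q - jInt d)) := by
    rw [incl_sInt, ← valHom_apply, map_sub, map_pow, valHom_apply, valHom_apply, hxd, hyc]
  have hred := red_sInt_ne_zero E (_root_.Fermat.Agent.A2.Mod.RE P E) q hS.q_prime.two_le d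
  have hs0 : x ^ q - y ≠ 0 := by
    intro h
    have h1 : ((x ^ q - y : _root_.Fermat.Agent.A2.Mod.FE E (M * q)) : LaurentSeries E) = 0 := by
      rw [h]
      rfl
    rw [hsc] at h1
    exact incl_ne_zero _ (ne_zero_of_red_ne_zero _ hred) h1
  have hsi : (x ^ q - y)⁻¹ ∈ V := by
    rw [hV, IntermediateField.coe_inv, hsc]
    refine isGaussInt_inv_of_prim _ hred ?_
    rw [← hsc]
    exact (x ^ q - y).2
  have hc0O : cE P E (M * q) c0 ∈ Oring E M q VM :=
    mem_Oring.mpr ⟨cE P E M c0, cE_mem hVM c0, alpha_cE c0⟩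
  refine ⟨y ^ q, (Oring E M q VM).pow_mem hyO q, x ^ q - y,
    B.sub_mem (B.pow_mem hxB q) hyB, hs0, hsi, -(cE P E (M * q) c0 * θ),
    B.neg_mem (B.mul_mem (Subring.subset_closure (Or.inl hc0O)) hθB), ?_⟩
  apply Subtype.ext
  have hqc : ((q : ℕ) : LaurentSeries E) = cst ((w : E)) * cst (c0 : E) := by
    rw [← cst_mul, ← hc0]
    exact (map_natCast (algebraMap E (LaurentSeries E)) q).symm
  have hL : (((x ^ q - y) * (x - y ^ q) : _root_.Fermat.Agent.A2.Mod.FE E (M * q)) : LaurentSeries E)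
      = (jser E (d * q) ^ q - jser E d) * (jser E (d * q) - jser E d ^ q) := by
    rw [← valHom_apply, map_mul, map_sub, map_sub, map_pow, map_pow, valHom_apply, valHom_apply,
      hxd, hyc]
  have hR : ((cE P E (M * q) w * -(cE P E (M * q) c0 * θ) : _root_.Fermat.Agent.A2.Mod.FE E (M * q)) : LaurentSeries E)
      = cst (w : E) * -(cst (c0 : E) * Θ.eval₂ (evalAt (jser E d)) (jser E (d * q))) := by
    rw [← valHom_apply, map_mul, map_neg, map_mul, valHom_apply _ θ, hθc]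
    rfl
  rw [hL, hR]
  rw [hqc] at hΘ
  linear_combination hΘ

/-- divisors of `M q`: either `d ∣ M` or `d = d' q` with `d' ∣ M`. -/
theorem dvd_cases {M q d : ℕ} (hq : q.Prime) (hd : d ∣ M * q) :
    d ∣ M ∨ ∃ d', d' ∣ M ∧ d = d' * q := by
  by_cases hqd : q ∣ d
  · right
    obtain ⟨d', rfl⟩ := hqd
    refine ⟨d', ?_, mul_comm _ _⟩
    rw [mul_comm q d'] at hd
    exact (Nat.mul_dvd_mul_iff_right hq.pos).mp hd
  · left
    have hcop : Nat.Coprime d q := ((Nat.Prime.coprime_iff_not_dvd hq).mpr hqd).symm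
    exact hcop.dvd_of_dvd_mul_right hd

/-- `F_{Mq}` is generated as a field by `α(V∞_M)` and the `j_{dq}`. -/
theorem gen_X (hS : Setting P E M q w) {VM : ValuationSubring (_root_.Fermat.Agent.A2.Mod.FE E M)}
    (hVM : IsVinf P E M VM) (f : _root_.Fermat.Agent.A2.Mod.FE E (M * q)) :
    f ∈ Subfield.closure ((Oring E M q VM : Set (_root_.Fermat.Agent.A2.Mod.FE E (M * q))) ∪ Xset E M q) := by
  set G := Subfield.closure ((Oring E M q VM : Set (_root_.Fermat.Agent.A2.Mod.FE E (M * q))) ∪ Xset E M q) with hG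
  set Gs : Subfield (LaurentSeries E) := G.map (valHom E (M * q)) with hGsdef
  have hGs : ∀ x : _root_.Fermat.Agent.A2.Mod.FE E (M * q), (x : LaurentSeries E) ∈ Gs → x ∈ G := by
    intro x hx
    obtain ⟨y, hy, hyx⟩ := Subfield.mem_map.mp hx
    have h1 : y = x := Subtype.ext hyx
    rw [← h1]
    exact hy
  have hGs' : ∀ x : _root_.Fermat.Agent.A2.Mod.FE E (M * q), x ∈ G → (x : LaurentSeries E) ∈ Gs :=
    fun x hx => Subfield.mem_map.mpr ⟨x, hx, rfl⟩
  -- constants
  have hconstA : ∀ r : _root_.Fermat.Agent.A2.Mod.RE P E, cE P E (M * q) r ∈ G := fun r =>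
    Subfield.subset_closure (Or.inl (mem_Oring.mpr ⟨cE P E M r, cE_mem hVM r, alpha_cE r⟩))
  have hconst : ∀ e : E, algebraMap E (LaurentSeries E) e ∈ Gs := by
    intro e
    refine hGs' (algebraMap E (_root_.Fermat.Agent.A2.Mod.FE E (M * q)) e) ?_
    rcases (_root_.Fermat.Agent.A2.Mod.RE P E).mem_or_inv_mem e with h | h
    · exact hconstA ⟨e, h⟩
    · have h1 : algebraMap E (_root_.Fermat.Agent.A2.Mod.FE E (M * q)) e = (cE P E (M * q) ⟨e⁻¹, h⟩)⁻¹ := by
        rw [cE, ← map_inv₀, inv_inv]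
      rw [h1]
      exact G.inv_mem (hconstA _)
  -- generators
  have hj : ∀ (d : ℕ) [NeZero d], d ∣ M * q → jser E d ∈ Gs := by
    intro d hd hdN
    rcases dvd_cases hS.q_prime hdN with hdM | ⟨d', hd'M, hdd'⟩
    · have h1 : αE E M q ⟨jser E d, jser_mem E M d hdM⟩ ∈ G :=
        Subfield.subset_closure (Or.inl (mem_Oring.mpr
          ⟨⟨jser E d, jser_mem E M d hdM⟩, jser_mem_V hVM (d := d) rfl, rfl⟩))
      exact hGs' _ h1
    · subst hdd'
      haveI : NeZero d' := ⟨fun h => by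
        rw [h, zero_mul] at hd
        exact hd.out rfl⟩
      have h1 : (⟨jser E (d' * q), jser_mem E (M * q) (d' * q) hdN⟩ : _root_.Fermat.Agent.A2.Mod.FE E (M * q)) ∈ G :=
        Subfield.subset_closure (Or.inr ⟨d', inferInstance, hd'M, rfl⟩)
      exact hGs' _ h1
  apply hGs
  have hf := mem_laurentBaseChange_iff.mp f.2
  refine Subfield.closure_le.mpr ?_ hf
  rintro z (⟨e, rfl⟩ | ⟨z0, hz0, rfl⟩)
  · exact hconst e
  · have hz0' : z0 ∈ IntermediateField.adjoin ℚ (divisorExpansions (M * q)) := hz0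
    induction hz0' using IntermediateField.adjoin_induction with
    | mem y hy =>
      obtain ⟨d, hd, hdN, rfl⟩ := hy
      haveI := hd
      show coeffEmb E (qExpand ℚ d jq) ∈ Gs
      rw [← jser_eq_coeffEmb]
      exact hj d hdN
    | algebraMap c =>
      have h1 : coeffEmb E (algebraMap ℚ (LaurentSeries ℚ) c)
          = algebraMap E (LaurentSeries E) (algebraMap ℚ E c) := by
        rw [coeffEmb, algebraMap_laurentSeries_eq_single, algebraMap_laurentSeries_eq_single,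
          coeffMap_single]
      show coeffEmb E (algebraMap ℚ (LaurentSeries ℚ) c) ∈ Gs
      rw [h1]
      exact hconst _
    | add x y hx hy ihx ihy =>
      show coeffEmb E (x + y) ∈ Gs
      rw [map_add]
      exact Gs.add_mem (ihx hx) (ihy hy)
    | inv x hx ihx =>
      show coeffEmb E x⁻¹ ∈ Gs
      rw [map_inv₀]
      exact Gs.inv_mem (ihx hx)
    | mul x y hx hy ihx ihy =>
      show coeffEmb E (x * y) ∈ Gs
      rw [map_mul]
      exact Gs.mul_mem (ihx hx) (ihy hy)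

/-- discreteness of `V∞`. -/
theorem disc_V (hS : Setting P E M q w) (N : ℕ) {V : ValuationSubring (_root_.Fermat.Agent.A2.Mod.FE E N)}
    (hV : IsVinf P E N V) {x : _root_.Fermat.Agent.A2.Mod.FE E N} (hx : x ∈ V) (hx0 : x ≠ 0) :
    ∃ (n : ℕ) (u : _root_.Fermat.Agent.A2.Mod.FE E N), u ∈ V ∧ u⁻¹ ∈ V ∧ x = cE P E N w ^ n * u := by
  haveI := hS.dvr
  have hx0' : (x : LaurentSeries E) ≠ 0 := fun h => hx0 (Subtype.ext h)
  obtain ⟨n, h1, h2⟩ := exists_pow_mul_unit (_root_.Fermat.Agent.A2.Mod.RE P E) hS.unif (intGen_full N) (attains hS N)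
    x.2 hx0' ((hV x).mp hx)
  have hcw := cE_ne_zero hS N
  have hu : ((x * (cE P E N w ^ n)⁻¹ : _root_.Fermat.Agent.A2.Mod.FE E N) : LaurentSeries E)
      = (x : LaurentSeries E) * (cst ((w : _root_.Fermat.Agent.A2.Mod.RE P E) : E) ^ n)⁻¹ := by
    rw [← valHom_apply, map_mul, map_inv₀, map_pow]
    rfl
  refine ⟨n, x * (cE P E N w ^ n)⁻¹, ?_, ?_, ?_⟩
  · rw [hV, hu]
    exact h1
  · rw [hV, ← valHom_apply, map_inv₀, valHom_apply, hu]
    exact h2
  · field_simp

/-- **The data of the abstract lemma.** -/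
theorem resOneData (hS : Setting P E M q w) {VM : ValuationSubring (_root_.Fermat.Agent.A2.Mod.FE E M)}
    {V : ValuationSubring (_root_.Fermat.Agent.A2.Mod.FE E (M * q))} (hVM : IsVinf P E M VM) (hV : IsVinf P E (M * q) V) :
    ResOneData V.toSubring (Oring E M q VM) (cE P E (M * q) w) (Xset E M q) where
  O_le := by
    intro x hx
    obtain ⟨g, hg, rfl⟩ := mem_Oring.mp hx
    exact (alpha_mem_iff hS hVM hV g).mpr hg
  w_mem := mem_Oring.mpr ⟨cE P E M w, cE_mem hVM w, alpha_cE w⟩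
  w_ne := cE_ne_zero hS _
  w_nonunit := by
    intro h
    have h1 : (cE P E (M * q) w)⁻¹ ∈ V := h
    rw [hV, ← valHom_apply, map_inv₀] at h1
    have h2 : valHom E (M * q) (cE P E (M * q) w) = cst ((w : _root_.Fermat.Agent.A2.Mod.RE P E) : E) := rfl
    have h3 : (cst ((w : _root_.Fermat.Agent.A2.Mod.RE P E) : E))⁻¹ = cst ((w : E)⁻¹) := (map_inv₀ _ _).symm
    rw [h2, h3, isGaussInt_cst_iff] at h1
    exact w_inv_not_mem hS h1
  O_div := by
    intro x hx hxw
    obtain ⟨g, hg, rfl⟩ := mem_Oring.mp hx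
    have h1 : αE E M q g * (cE P E (M * q) w)⁻¹ = αE E M q (g * (cE P E M w)⁻¹) := by
      rw [map_mul, map_inv₀, alpha_cE]
    rw [h1] at hxw ⊢
    exact mem_Oring.mpr ⟨_, (alpha_mem_iff hS hVM hV _).mp hxw, rfl⟩
  O_inv := by
    intro x hx hxi
    obtain ⟨g, hg, rfl⟩ := mem_Oring.mp hx
    have h1 : (αE E M q g)⁻¹ = αE E M q g⁻¹ := (map_inv₀ _ _).symm
    rw [h1] at hxi ⊢
    exact mem_Oring.mpr ⟨_, (alpha_mem_iff hS hVM hV _).mp hxi, rfl⟩
  X_le := by
    rintro x ⟨d, hd, hdM, hxd⟩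
    haveI := hd
    exact jser_mem_V hV hxd
  disc := fun x hx hx0 => disc_V hS (M * q) hV hx hx0
  kron := fun x hx => kron_X hS hVM hV hx
  gen := gen_X hS hVM

/-- **Leaf L11 (`ResInf`)**: residue degree one over level `M` on `C∞`. -/
theorem resInf (P : ValuationSubring _root_.Fermat.Agent.A2.Mod.Qb) (E : IntermediateField ℚ _root_.Fermat.Agent.A2.Mod.Qb) (M q : ℕ) [NeZero M]
    [NeZero q] (w : _root_.Fermat.Agent.A2.Mod.RE P E) : ResInfStatement P E M q w := by
  intro hS VM V hVM hV f hf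
  obtain ⟨g', hg', hcong⟩ := (resOneData hS hVM hV).exists_congr hf
  obtain ⟨g, hg, rfl⟩ := mem_Oring.mp hg'
  exact ⟨g, hg, hcong⟩

end Concrete

end Fermat.Agent.A2.Mod.H378

end
end
-- ===== PACK-END A2/Mod/H378/L11.lean

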