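import Mathlib
import Fermat.Prelude.Def_AlgebraicCurve_DivisorClassGroup
import Fermat.Prelude.Def_AlgebraicCurve_DivisorPushPull
import Mathlib.NumberTheory.ModularForms.Basic
import Fermat.Prelude.Def_FLTPrelim_Ramification
import Fermat.Agent.Pack.S34.G0E8L0
import Fermat.Agent.Pack.S34.G0E2L1
import Fermat.Agent.Pack.S34.G0E8L1
import Fermat.Agent.Pack.S34.G0E8L2
import Fermat.Agent.Pack.S34.G0E5L2
import Fermat.Agent.Pack.S34.G0E0L2
import Fermat.Agent.Pack.S34.G0E3L3
import Fermat.Agent.Pack.S34.G0E3L2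
import Fermat.Agent.Pack.S34.G0E7L0
import Fermat.Agent.Pack.S34.G0E8L3
import Fermat.Agent.Pack.S34.G0E5L3

-- ===== PACK-BEGIN S30/H990/Final.lean
section
/-
S30 top glue (helper990): the frozen statement S30 from the adic eigenmodules alone
(the Chebotarev input is Tier 1 of the shared CHEB library).
-/




set_option autoImplicit false

namespace Fermat.Agent.S30.H990

open Polynomial

/-- **S30 from the adic eigenmodules.** -/
theorem result_of_hasAdicEigenModules (hmod : HasAdicEigenModules) :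
    ∀ (p : ℕ) [Fact p.Prime] (N : ℕ) [NeZero N] (S : Finset ℕ)
      (_hpS : p ∈ S) (_hNS : ∀ q : ℕ, q.Prime → q ∣ N → q ∈ S)
      (𝒪' : Type) [CommRing 𝒪'] [IsDomain 𝒪'] [IsDiscreteValuationRing 𝒪']
      [IsAdicComplete (IsLocalRing.maximalIdeal 𝒪') 𝒪'] [Finite (IsLocalRing.ResidueField 𝒪')]
      [CharZero 𝒪'] (_hp𝒪' : (p : 𝒪') ∈ IsLocalRing.maximalIdeal 𝒪')
      (χ : CuspForm.heckeAlgebra N 2 (↑S : Set ℕ) →+* 𝒪'),
      ∃ (𝒪'' : Type) (_ : CommRing 𝒪'') (_ : IsDomain 𝒪'') (_ : IsDiscreteValuationRing 𝒪'')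
        (_ : IsAdicComplete (IsLocalRing.maximalIdeal 𝒪'') 𝒪'')
        (_ : Finite (IsLocalRing.ResidueField 𝒪'')) (_ : CharZero 𝒪'')
        (_ : Algebra 𝒪' 𝒪'') (_ : Module.Finite 𝒪' 𝒪'') (_ : IsLocalHom (algebraMap 𝒪' 𝒪'')),
      Function.Injective (algebraMap 𝒪' 𝒪'') ∧
      ∃ ρ : GaloisRepAdic 𝒪'',
        (∀ (ℓ : ℕ) (hℓ : ℓ.Prime) (hℓN : ¬ ℓ ∣ N) (hℓS : ℓ ∉ (↑S : Set ℕ)),
          ∀ A : ValuationSubring (AlgebraicClosure ℚ), A.LiesOverPrime ℓ →
            ∀ σ : AlgebraicClosure ℚ ≃ₐ[ℚ] AlgebraicClosure ℚ, A.IsFrobeniusAt σ ℓ →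
              LinearMap.charpoly (ρ.ρ σ) =
                X ^ 2 - C (algebraMap 𝒪' 𝒪'' (χ (CuspForm.heckeAlgebra.T hℓ hℓN hℓS))) * X
                  + C ((ℓ : 𝒪''))) ∧
        (∀ q : ℕ, q.Prime → ¬ q ∣ N → q ≠ p → ρ.IsUnramifiedAt q) :=
  result_of (chebWeak_of_frobeniusDivision Fermat.Agent.Lib.Cheb.frobeniusDivision) hmod

end Fermat.Agent.S30.H990

end
-- ===== PACK-END S30/H990/Final.lean

-- ===== PACK-BEGIN S29/H882/FieldDeg.lean
section


/-!
# S29 / MERO (helper882), part 2: generic algebra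

* `exists_relation_of_coeffMap_ne_zero`: descent of a NONZERO bivariate relation along a coefficient
  embedding (generalises the monic case of the landed `S24.Deg457`).
* `exists_clear_denominators`: a polynomial over `K(j)` becomes, after multiplication by a nonzero
  element of `K[j]`, the image of a bivariate polynomial.
* `algDeg_of_mem_adjoin`: if every element of a subalgebra `B ∋ j` of `K((q))` is algebraic of
  degree `≤ n` over `K[j]`, so is every element of the field generated by `B`.
-/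

set_option autoImplicit false

noncomputable section

open Polynomial ModularCurve IntermediateField

namespace Fermat.Agent.S29.H882

open Fermat.Agent.S24 Fermat.Agent.S24.Deg457

section Descent

variable {K L : Type*} [Field K] [Field L]

/-- **Descent** of a nonzero relation of degree `≤ n` over `L[ι J]` for `ι a` to a nonzero relation
of degree `≤ n` over `K[J]` for `a`. -/
theorem exists_relation_of_coeffMap_ne_zero (ι : K →+* L) (J a : LaurentSeries K) (n : ℕ)
    (P : L[X][X]) (hP : P ≠ 0) (hn : P.natDegree ≤ n)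
    (h0 : P.eval₂ (evJ (coeffMap ι J)) (coeffMap ι a) = 0) :
    ∃ Q : K[X][X], Q ≠ 0 ∧ Q.natDegree ≤ n ∧ Q.eval₂ (evJ J) a = 0 := by
  classical
  set D : ℕ := P.support.sup fun k => (P.coeff k).natDegree with hD
  have hDle : ∀ k, (P.coeff k).natDegree ≤ D := by
    intro k
    by_cases hk : k ∈ P.support
    · exact Finset.le_sup (f := fun k => (P.coeff k).natDegree) hk
    · rw [notMem_support_iff.mp hk]; simp
  let v : Fin (D + 1) × Fin (n + 1) → LaurentSeries K := fun p => J ^ (p.1 : ℕ) * a ^ (p.2 : ℕ)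
  have hnot : ¬ LinearIndependent K v := by
    intro hv
    have hw := linearIndependent_coeffMap ι v hv
    rw [Fintype.linearIndependent_iff] at hw
    -- a nonzero coefficient of `P`
    have hlc : P.coeff P.natDegree ≠ 0 := by
      rw [coeff_natDegree]; exact leadingCoeff_ne_zero.mpr hP
    have hlc2 : (P.coeff P.natDegree).coeff (P.coeff P.natDegree).natDegree ≠ 0 := by
      rw [coeff_natDegree]; exact leadingCoeff_ne_zero.mpr hlc
    have key := hw (fun p => (P.coeff p.2).coeff p.1) ?_
      (⟨(P.coeff P.natDegree).natDegree, Nat.lt_succ_of_le (hDle _)⟩,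
        ⟨P.natDegree, Nat.lt_succ_of_le hn⟩)
    · exact hlc2 key
    · rw [Fintype.sum_prod_type_right]
      rw [eval₂_eq_sum_range' _ (n := n + 1) (Nat.lt_succ_of_le hn)] at h0
      rw [← h0, Finset.sum_range]
      refine Finset.sum_congr rfl fun k _ => ?_
      rw [evJ_apply, aeval_eq_sum_range' (n := D + 1) (Nat.lt_succ_of_le (hDle _)),
        Finset.sum_range, Finset.sum_mul]
      refine Finset.sum_congr rfl fun i _ => ?_
      simp only [v, map_mul, map_pow]
      rw [hsmul_eq_algebraMap_mul, Algebra.smul_def, mul_assoc]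
  rw [Fintype.not_linearIndependent_iff] at hnot
  obtain ⟨g, hg, p, hp⟩ := hnot
  refine ⟨tablePoly g, ?_, tablePoly_natDegree_le g, ?_⟩
  · intro h
    apply hp
    rw [← tablePoly_coeff_coeff g p.1 p.2, h]
    simp
  · rw [tablePoly_eval₂]
    exact hg

end Descent

section Clear

variable {K M : Type*} [Field K] [Field M] [Algebra K M]

/-- Clearing denominators of a polynomial over `K(j)`. -/
theorem exists_clear_denominators (j : M) (p : Polynomial (IntermediateField.adjoin K {j})) :
    ∃ (t : K[X]) (Q : K[X][X]), aeval (AdjoinSimple.gen K j) t ≠ 0 ∧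
      Q.map ((aeval (AdjoinSimple.gen K j) : K[X] →ₐ[K] K⟮j⟯).toRingHom)
        = C (aeval (AdjoinSimple.gen K j) t) * p := by
  set φ : K[X] →+* K⟮j⟯ := (aeval (AdjoinSimple.gen K j) : K[X] →ₐ[K] K⟮j⟯).toRingHom with hφ
  have hφa : ∀ t : K[X], φ t = aeval (AdjoinSimple.gen K j) t := fun _ => rfl
  induction p using Polynomial.induction_on' with
  | add p q hp hq =>
    obtain ⟨t₁, Q₁, h1, h1'⟩ := hp
    obtain ⟨t₂, Q₂, h2, h2'⟩ := hq
    refine ⟨t₁ * t₂, C t₂ * Q₁ + C t₁ * Q₂, ?_, ?_⟩
    · rw [map_mul]; exact mul_ne_zero h1 h2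
    · rw [Polynomial.map_add, Polynomial.map_mul, Polynomial.map_mul, Polynomial.map_C,
        Polynomial.map_C, h1', h2', hφa, hφa, map_mul, C_mul]
      ring
  | monomial k c =>
    obtain ⟨r, s, hrs⟩ := (IntermediateField.mem_adjoin_simple_iff K (c : M)).mp c.2
    by_cases hs : aeval (AdjoinSimple.gen K j) s = 0
    · -- then `c = 0`
      have hs' : aeval j s = 0 := by
        have := congrArg (algebraMap K⟮j⟯ M) hs
        rwa [← aeval_algebraMap_apply, AdjoinSimple.algebraMap_gen, map_zero] at this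
      have hc : c = 0 := by
        apply Subtype.ext
        rw [hrs, hs', div_zero]; rfl
      refine ⟨1, 0, ?_, ?_⟩
      · rw [map_one]; exact one_ne_zero
      · rw [hc]; simp
    · refine ⟨s, monomial k r, hs, ?_⟩
      rw [Polynomial.map_monomial, C_mul_monomial]
      congr 1
      rw [hφa]
      apply Subtype.ext
      have h1 : ((aeval (AdjoinSimple.gen K j) r : K⟮j⟯) : M) = aeval j r := by
        have := (aeval_algebraMap_apply M (AdjoinSimple.gen K j) r).symm
        rwa [AdjoinSimple.algebraMap_gen] at this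
      have h2 : ((aeval (AdjoinSimple.gen K j) s : K⟮j⟯) : M) = aeval j s := by
        have := (aeval_algebraMap_apply M (AdjoinSimple.gen K j) s).symm
        rwa [AdjoinSimple.algebraMap_gen] at this
      have hs' : aeval j s ≠ 0 := by
        intro h
        apply hs
        apply Subtype.ext
        rw [h2, h]; rfl
      rw [h1]
      show aeval j r = ((aeval (AdjoinSimple.gen K j) s : K⟮j⟯) : M) * (c : M)
      rw [h2, hrs]
      field_simp

end Clear

section Alg

variable {K : Type*} [Field K] [Algebra ℚ K]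

theorem aeval_JK_mem (B : Subalgebra K (LaurentSeries K)) (hJ : JK K ∈ B) (t : K[X]) :
    aeval (JK K) t ∈ B := by
  rw [aeval_def, eval₂_eq_sum_range]
  refine Subalgebra.sum_mem _ fun i _ => ?_
  exact Subalgebra.mul_mem _ (Subalgebra.algebraMap_mem _ _) (Subalgebra.pow_mem _ hJ _)

theorem eval₂_mem_subalgebra (B : Subalgebra K (LaurentSeries K)) (hJ : JK K ∈ B)
    (Q : K[X][X]) {s : LaurentSeries K} (hs : s ∈ B) :
    Q.eval₂ (evJ (JK K)) s ∈ B := by
  rw [eval₂_eq_sum_range]
  refine Subalgebra.sum_mem _ fun i _ => ?_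
  exact Subalgebra.mul_mem _ (aeval_JK_mem B hJ _) (Subalgebra.pow_mem _ hs _)

/-- a nonzero algebraic element of `B` has an "inverse up to a polynomial in `j`" in `B`. -/
theorem exists_mul_eq_aeval_subalgebra (B : Subalgebra K (LaurentSeries K)) (hJ : JK K ∈ B)
    {n : ℕ} {s : LaurentSeries K} (hs : s ∈ B) (hs0 : s ≠ 0)
    (ha : AlgDeg K n s) : ∃ g ∈ B, ∃ t : K[X], t ≠ 0 ∧ s * g = aeval (JK K) t := by
  obtain ⟨Q, hQ0, -, hQ⟩ := ha
  have key : ∀ m : ℕ, ∀ Q : K[X][X], Q.natDegree ≤ m → Q ≠ 0 → Q.eval₂ (evJ (JK K)) s = 0 →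
      ∃ Q₁ : K[X][X], Q₁.coeff 0 ≠ 0 ∧ Q₁.eval₂ (evJ (JK K)) s = 0 := by
    intro m
    induction m with
    | zero =>
      intro Q hdeg hQ0 hQ
      refine ⟨Q, ?_, hQ⟩
      intro h0
      apply hQ0
      rw [eq_C_of_natDegree_le_zero hdeg, h0, map_zero]
    | succ m ih =>
      intro Q hdeg hQ0 hQ
      by_cases h0 : Q.coeff 0 = 0
      · have hdiv : Q = divX Q * X := by
          conv_lhs => rw [← divX_mul_X_add Q, h0, map_zero, add_zero]
        have hd0 : divX Q ≠ 0 := by
          intro h; apply hQ0; rw [hdiv, h, zero_mul]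
        have hev : (divX Q).eval₂ (evJ (JK K)) s = 0 := by
          rw [hdiv, eval₂_mul, eval₂_X] at hQ
          rcases mul_eq_zero.mp hQ with h | h
          · exact h
          · exact absurd h hs0
        refine ih (divX Q) ?_ hd0 hev
        rw [natDegree_divX_eq_natDegree_tsub_one]
        omega
      · exact ⟨Q, h0, hQ⟩
  obtain ⟨Q₁, h0, hQ₁⟩ := key Q.natDegree Q le_rfl hQ0 hQ
  refine ⟨-(divX Q₁).eval₂ (evJ (JK K)) s, Subalgebra.neg_mem _ (eval₂_mem_subalgebra B hJ _ hs),
    Q₁.coeff 0, h0, ?_⟩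
  have hsplit : Q₁.eval₂ (evJ (JK K)) s
      = (divX Q₁).eval₂ (evJ (JK K)) s * s + aeval (JK K) (Q₁.coeff 0) := by
    conv_lhs => rw [← divX_mul_X_add Q₁]
    rw [eval₂_add, eval₂_mul, eval₂_X, eval₂_C, evJ_apply]
  rw [hQ₁] at hsplit
  linear_combination hsplit

/-- If every element of the subalgebra `B ∋ j` is algebraic of degree `≤ n` over `K[j]`, so is
every element of the field generated by `B`. -/
theorem algDeg_of_mem_adjoin (B : Subalgebra K (LaurentSeries K)) (hJ : JK K ∈ B) {n : ℕ}
    (hB : ∀ b ∈ B, AlgDeg K n b) {x : LaurentSeries K}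
    (hx : x ∈ IntermediateField.adjoin K (B : Set (LaurentSeries K))) : AlgDeg K n x := by
  rw [IntermediateField.mem_adjoin_iff_div] at hx
  obtain ⟨r, hr, s, hs, rfl⟩ := hx
  rw [Algebra.adjoin_eq] at hr hs
  by_cases hs0 : s = 0
  · subst hs0
    rw [div_zero]
    exact hB 0 (Subalgebra.zero_mem _)
  · obtain ⟨g, hg, t, ht, hst⟩ := exists_mul_eq_aeval_subalgebra B hJ hs hs0 (hB s hs)
    refine AlgDeg.of_mul_eq (a := r * g) ht ?_ (hB _ (Subalgebra.mul_mem _ hr hg))
    rw [← hst]
    field_simp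

end Alg

end Fermat.Agent.S29.H882

end
end
-- ===== PACK-END S29/H882/FieldDeg.lean

-- ===== PACK-BEGIN S24/FFDegree.lean
section




/-!
# S24 / FF layer: poles of a coordinate function and `deg (div f) = 0`
(helper804)
-/

set_option autoImplicit false
set_option linter.unusedSectionVars false

namespace Fermat.Agent.S24.FF

open AlgebraicCurve Polynomial IntermediateField

variable {K F : Type*} [Field K] [Field F] [Algebra K F]

theorem adjoin_inv_eq (f : F) : K⟮f⁻¹⟯ = K⟮f⟯ := by
  apply le_antisymm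
  · rw [adjoin_simple_le_iff]
    exact inv_mem (mem_adjoin_simple_self K f)
  · rw [adjoin_simple_le_iff]
    have := inv_mem (mem_adjoin_simple_self K f⁻¹)
    rwa [inv_inv] at this

theorem finrank_adjoin_inv (f : F) : Module.finrank K⟮f⁻¹⟯ F = Module.finrank K⟮f⟯ F := by
  rw [adjoin_inv_eq]

theorem transcendental_inv {f : F} (hf : Transcendental K f) : Transcendental K f⁻¹ := by
  intro h
  apply hf
  have := h.inv
  rwa [inv_inv] at this

theorem finiteDimensional_adjoin_inv (f : F) [h : FiniteDimensional K⟮f⟯ F] :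
    FiniteDimensional K⟮f⁻¹⟯ F := by
  rw [adjoin_inv_eq]
  exact h

theorem adjoin_sub_const_eq (f : F) (a : K) : K⟮f - algebraMap K F a⟯ = K⟮f⟯ := by
  apply le_antisymm
  · rw [adjoin_simple_le_iff]
    exact sub_mem (mem_adjoin_simple_self K f) (IntermediateField.algebraMap_mem _ a)
  · rw [adjoin_simple_le_iff]
    have := add_mem (mem_adjoin_simple_self K (f - algebraMap K F a))
      (IntermediateField.algebraMap_mem K⟮f - algebraMap K F a⟯ a)
    rwa [sub_add_cancel] at this

theorem finrank_adjoin_sub_const (f : F) (a : K) :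
    Module.finrank K⟮f - algebraMap K F a⟯ F = Module.finrank K⟮f⟯ F := by
  rw [adjoin_sub_const_eq]

theorem finiteDimensional_adjoin_sub_const (f : F) (a : K) [h : FiniteDimensional K⟮f⟯ F] :
    FiniteDimensional K⟮f - algebraMap K F a⟯ F := by
  rw [adjoin_sub_const_eq]
  exact h

theorem transcendental_sub_const {f : F} (hf : Transcendental K f) (a : K) :
    Transcendental K (f - algebraMap K F a) := by
  intro h
  apply hf
  have := h.add (isAlgebraic_algebraMap (R := K) (A := F) a)
  rwa [sub_add_cancel] at this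

section

variable [CharZero K]

/-- A coordinate function has finitely many poles. -/
theorem finite_setOf_ord_neg {t : F} (ht : Transcendental K t) [FiniteDimensional K⟮t⟯ F] :
    {v : Place K F | v.ord t < 0}.Finite := by
  have := finiteDimensional_adjoin_inv (K := K) t
  have h := finite_setOf_ord_pos (transcendental_inv ht)
  refine h.subset ?_
  intro v hv
  change 0 < v.ord t⁻¹
  have hv' : v.ord t < 0 := hv
  rw [v.ord_inv]
  omega

/-- A nonconstant function has finitely many zeros and poles. -/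
theorem finite_setOf_ord_ne_zero {t : F} (ht : Transcendental K t) [FiniteDimensional K⟮t⟯ F] :
    {v : Place K F | v.ord t ≠ 0}.Finite := by
  refine ((finite_setOf_ord_pos ht).union (finite_setOf_ord_neg ht)).subset ?_
  intro v hv
  have hv' : v.ord t ≠ 0 := hv
  rcases lt_or_gt_of_ne hv' with h | h
  · exact Or.inr h
  · exact Or.inl h

variable [IsAlgClosed K]

/-- **Fundamental identity at the poles**: `∑_{v(t) < 0} ord_v(t) = -[F : K(t)]`. -/
theorem sum_ord_neg_eq_neg_finrank {t : F} (ht : Transcendental K t) [FiniteDimensional K⟮t⟯ F]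
    (s : Finset (Place K F)) (hs : ∀ v, v ∈ s ↔ v.ord t < 0) :
    ∑ v ∈ s, v.ord t = -(Module.finrank K⟮t⟯ F : ℤ) := by
  have := finiteDimensional_adjoin_inv (K := K) t
  have h := sum_ord_eq_finrank (transcendental_inv ht) s (fun v => by
    rw [hs, v.ord_inv]
    omega)
  rw [finrank_adjoin_inv] at h
  rw [← h, ← Finset.sum_neg_distrib]
  refine Finset.sum_congr rfl fun v _ => ?_
  rw [v.ord_inv, neg_neg]

/-- **Fundamental identity over the point `a`**: `∑_{v(t - a) > 0} ord_v(t - a) = [F : K(t)]`. -/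
theorem sum_ord_sub_const_eq_finrank {t : F} (ht : Transcendental K t)
    [FiniteDimensional K⟮t⟯ F] (a : K)
    (s : Finset (Place K F)) (hs : ∀ v, v ∈ s ↔ 0 < v.ord (t - algebraMap K F a)) :
    ∑ v ∈ s, v.ord (t - algebraMap K F a) = (Module.finrank K⟮t⟯ F : ℤ) := by
  have := finiteDimensional_adjoin_sub_const (K := K) t a
  have h := sum_ord_eq_finrank (transcendental_sub_const ht a) s hs
  rwa [finrank_adjoin_sub_const] at h

theorem degree_eq_sum (D : Divisor K F) :
    Divisor.degree D = ∑ v ∈ D.support, D v * (v.deg : ℤ) := by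
  simp [Divisor.degree, Finsupp.sum]

/-- **FF3: a principal divisor has degree zero.** -/
theorem degree_principal (j : F) (hj : Transcendental K j) [FiniteDimensional K⟮j⟯ F]
    (f : F) (D : Divisor K F) (hD : ∀ v : Place K F, D v = v.ord f) :
    Divisor.degree D = 0 := by
  by_cases hfr : f ∈ (algebraMap K F).range
  · obtain ⟨a, rfl⟩ := hfr
    have : D = 0 := by
      ext v
      rw [hD, _root_.Fermat.Agent.S24.FF.ord_algebraMap]
      rfl
    rw [this, map_zero]
  have hft : Transcendental K f := transcendental_of_not_mem_range hfr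
  have hfin : FiniteDimensional K⟮f⟯ F := finiteDimensional_adjoin_of_transcendental hj hft
  classical
  rw [degree_eq_sum]
  have hsupp : ∀ v, v ∈ D.support ↔ v.ord f ≠ 0 := fun v => by
    rw [Finsupp.mem_support_iff, hD]
  have h1 : ∑ v ∈ D.support, D v * (v.deg : ℤ) = ∑ v ∈ D.support, v.ord f := by
    refine Finset.sum_congr rfl fun v _ => ?_
    rw [hD, deg_eq_one v hj]
    simp
  rw [h1, ← Finset.sum_filter_add_sum_filter_not D.support (fun v => 0 < v.ord f)]
  have hP := sum_ord_eq_finrank hft (D.support.filter fun v => 0 < v.ord f) (fun v => by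
    rw [Finset.mem_filter, hsupp]
    constructor
    · exact fun h => h.2
    · exact fun h => ⟨h.ne', h⟩)
  have hN := sum_ord_neg_eq_neg_finrank hft (D.support.filter fun v => ¬ 0 < v.ord f)
    (fun v => by
      rw [Finset.mem_filter, hsupp]
      constructor
      · rintro ⟨h1, h2⟩
        omega
      · intro h
        exact ⟨h.ne, by omega⟩)
  rw [hP, hN]
  ring

end

end Fermat.Agent.S24.FF

namespace Fermat.Agent.S24.FF

open AlgebraicCurve

variable {K F : Type*} [Field K] [Field F] [Algebra K F] [IsAlgClosed K] [CharZero K]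

/-- Exact shape of helper984's `open_fundamental_le` (`Alg/Open.lean`). -/
theorem fundamental_le (t : F) (ht : Transcendental K t)
    [FiniteDimensional ↥(IntermediateField.adjoin K {t}) F]
    (s : Finset (Place K F)) (hs : ∀ v : Place K F, v ∈ s ↔ 0 < v.ord t) :
    (Module.finrank ↥(IntermediateField.adjoin K {t}) F : ℤ) ≤ ∑ v ∈ s, v.ord t :=
  (sum_ord_eq_finrank ht s hs).ge

/-- Exact shape of helper984's `open_degree_principal` (`Alg/Open.lean`). -/
theorem degree_principal' (j : F) (hj : Transcendental K j)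
    [FiniteDimensional ↥(IntermediateField.adjoin K {j}) F] (f : F) (_hf : f ≠ 0)
    (D : Divisor K F) (hD : ∀ v : Place K F, D v = v.ord f) : Divisor.degree D = 0 :=
  _root_.Fermat.Agent.S24.FF.degree_principal j hj f D hD

end Fermat.Agent.S24.FF

end
-- ===== PACK-END S24/FFDegree.lean

-- ===== PACK-BEGIN S30/H709/ParEigen.lean
section




/-!
# S30-OCC, unconditional: the eigensystem `χ` occurs in the parabolic cohomology `H¹_par(Γ₀(N), O)`

* `periodHecke_facCoh` : the hypothesis `PeriodHecke` holds for the factorisation of `DefsM.lean`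
  (`heckeFac`), by helper201's E2a (`H201.periodMap_heckeTLin`) and helper391's bridge
  (`M4aTop_heckeCoh_eq_sum_trf`).
* `exists_parEigen` : for every domain `O` (any characteristic) and every ring homomorphism
  `χ : heckeAlgebra N 2 S →+* O` (`S` containing the primes dividing `N`) there is a nonzero
  parabolic character `c : Γ₀(N) → O` (`S29.IsParHom`) with `heckeCoh N ℓ c = χ (T_ℓ) • c` for all
  primes `ℓ ∉ S`.  This is the statement `(P) ParEigenStatement` of the adic module layer
  (helper330 `AdicDefs.lean`), unfolded.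
* `exists_adic_eigen_lattice_coh`, `exists_occ_tensor_coh` : the lattice form and the transport to
  `O ⊗ J`, with `PeriodHecke` discharged.
-/

set_option autoImplicit false

noncomputable section

namespace Fermat.Agent.S30.H709

open CongruenceSubgroup ModularCurve ModularCurve.Period TensorProduct IsLocalRing
open Fermat.Agent.S29
open scoped MatrixGroups

variable (N : ℕ) [NeZero N]

/-- The multiset `{γ'ᵢ}` of `DefsM.heckeFac`: `αᵢ γ = γ'ᵢ α_{π i}`. -/
def facCoh (ℓ : ℕ) (γ : Gamma0 N) : Multiset (Gamma0 N) :=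
  (Finset.univ : Finset (Option (Fin ℓ))).val.map fun i => (heckeFac N ℓ γ i).2

omit [NeZero N] in
theorem sum_map_facCoh {A : Type*} [AddCommMonoid A] (ℓ : ℕ) (c : Gamma0 N → A) (γ : Gamma0 N) :
    ((facCoh N ℓ γ).map c).sum = heckeCoh N ℓ c γ := by
  rw [facCoh, Multiset.map_map]
  rfl

omit [NeZero N] in
/-- **`PeriodHecke` holds** for the factorisation `heckeFac` of `DefsM.lean`. -/
theorem periodHecke_facCoh : PeriodHecke N (facCoh N) := by
  intro ℓ hℓ hℓN f γ
  have : Fact ℓ.Prime := ⟨hℓ⟩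
  rw [sum_map_facCoh N ℓ (fun δ => periodMap N f (Additive.ofMul δ)) γ,
    M4aTop_heckeCoh_eq_sum_trf hℓN, Fermat.Agent.S29.H201.periodMap_heckeTLin hℓ hℓN f,
    Fermat.Agent.S29.H201.heckeHom_apply]

variable {N}

/-- Period classes of elements of finite order vanish. -/
theorem perCls_eq_zero_of_pow {γ : Gamma0 N} {n : ℕ} (hn : 0 < n) (hγ : γ ^ n = 1) :
    perCls N γ = 0 := by
  have hpow : ∀ k : ℕ, perCls N (γ ^ k) = k • perCls N γ := by
    intro k
    induction k with
    | zero => rw [pow_zero, perCls_one, zero_smul]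
    | succ k ih => rw [pow_succ, perCls_mul, ih, succ_nsmul]
  have h := hpow n
  rw [hγ, perCls_one] at h
  have h2 : (n : ℤ) • perCls N γ = 0 := by rw [natCast_zsmul]; exact h.symm
  rcases smul_eq_zero.mp h2 with h3 | h3
  · exact absurd h3 (by exact_mod_cast hn.ne')
  · exact h3

/-- **(P)** The eigensystem `χ` occurs in the parabolic cohomology of `Γ₀(N)` with coefficients
in `O` (any domain). -/
theorem exists_parEigen {S : Set ℕ} (hNS : ∀ q : ℕ, q.Prime → q ∣ N → q ∈ S)
    {O : Type*} [CommRing O] [IsDomain O] (χ : CuspForm.heckeAlgebra N 2 S →+* O) :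
    ∃ c : G0 N → O, IsParHom c ∧ c ≠ 0 ∧
      ∀ (ℓ : ℕ) (hℓ : ℓ.Prime) (hℓN : ¬ ℓ ∣ N) (hℓS : ℓ ∉ S) (γ : G0 N),
        heckeCoh N ℓ c γ = χ (CuspForm.heckeAlgebra.T hℓ hℓN hℓS) * c γ := by
  classical
  have hPH := periodHecke_facCoh N
  let b := Module.finBasis ℤ (perLattice N)
  obtain ⟨w, hw0, hw⟩ := exists_eigen_coeffs (perRho hPH hNS) (perRho_injective hPH hNS) b χ
  -- the `χ`-semilinear functional on the period lattice
  let u : perLattice N →+ O :=
    { toFun := fun x => ∑ j, w j * ((b.repr x j : ℤ) : O)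
      map_zero' := by simp
      map_add' := fun x y => by
        simp only [map_add, Finsupp.coe_add, Pi.add_apply, Int.cast_add, mul_add,
          Finset.sum_add_distrib] }
  have hu : ∀ x, u x = ∑ j, w j * ((b.repr x j : ℤ) : O) := fun _ => rfl
  have hub : ∀ k, u (b k) = w k := by
    intro k
    rw [hu, Finset.sum_eq_single k]
    · rw [Module.Basis.repr_self, Finsupp.single_eq_same, Int.cast_one, mul_one]
    · intro j _ hj
      rw [Module.Basis.repr_self, Finsupp.single_eq_of_ne hj, Int.cast_zero, mul_zero]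
    · intro h
      exact absurd (Finset.mem_univ k) h
  have hsemi : ∀ (t : CuspForm.heckeAlgebra N 2 S) (x : perLattice N),
      u (perRho hPH hNS t x) = χ t * u x := by
    intro t x
    conv_lhs => rw [← b.sum_repr x]
    conv_rhs => rw [← b.sum_repr x]
    rw [map_sum, map_sum, map_sum, Finset.mul_sum]
    refine Finset.sum_congr rfl fun k _ => ?_
    rw [map_zsmul, map_zsmul, map_zsmul, hub, zsmul_eq_mul, zsmul_eq_mul, hu, hw t k]
    ring
  refine ⟨fun γ => u (perCls N γ), ⟨?_, ?_, ?_⟩, ?_, ?_⟩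
  · intro γ γ'
    show u (perCls N (γ * γ')) = _
    rw [perCls_mul, map_add]
  · intro γ hγ
    have htr : ((γ : SL(2, ℤ)) : Matrix (Fin 2) (Fin 2) ℤ).trace ^ 2 = 4 := by
      rcases hγ with h | h
      · have : ((γ : SL(2, ℤ)) : Matrix (Fin 2) (Fin 2) ℤ).trace = 2 := h
        rw [this]; norm_num
      · have : ((γ : SL(2, ℤ)) : Matrix (Fin 2) (Fin 2) ℤ).trace = -2 := h
        rw [this]; norm_num
    show u (perCls N γ) = 0
    rw [perCls_eq_zero_of_trace γ htr, map_zero]
  · intro γ n hn hγ
    show u (perCls N γ) = 0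
    rw [perCls_eq_zero_of_pow hn hγ, map_zero]
  · intro hc
    apply hw0
    have hvan : ∀ x : perLattice N, u x = 0 := by
      intro x
      induction x using perCls_induction with
      | h0 => exact map_zero u
      | hadd x y hx hy => rw [map_add, hx, hy, add_zero]
      | hneg x hx => rw [map_neg, hx, neg_zero]
      | hcls γ => exact congrFun hc γ
    funext k
    rw [← hub k, hvan]
    rfl
  · intro ℓ hℓ hℓN hℓS γ
    rw [← sum_map_facCoh N ℓ (fun γ => u (perCls N γ)) γ]
    have h1 : ((facCoh N ℓ γ).map fun δ => u (perCls N δ)).sum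
        = u (((facCoh N ℓ γ).map (perCls N)).sum) := by
      rw [map_multiset_sum, Multiset.map_map]
      rfl
    rw [h1, ← perRho_perCls hPH hNS hℓ hℓN hℓS γ, hsemi]

end Fermat.Agent.S30.H709

end
end
-- ===== PACK-END S30/H709/ParEigen.lean

-- ===== PACK-BEGIN Lib/FF398/Local.lean
section







/-!
# Lib/FF398 — relative theory of places for a finite extension `F'/F` of function fields

For a place `v` of `F` and a finite extension `F'/F` (characteristic zero) we use the integral
closure `S` of `O_v` in `F'` (a semi-local Dedekind domain) as a dictionary: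
places of `F'` over `v`  ↔  height-one primes of `S`.

Main results of this file (helper398):
* `placeOf v q` : the place of `F'` attached to a height one prime `q` of `S`;
* `restrict_placeOf`, `exists_placeOf_eq`, `placeOf_injective` : the dictionary;
* `ord_placeOf` : `ord` of `placeOf v q` is the `q`-adic valuation.
-/

set_option autoImplicit false
set_option linter.unusedSectionVars false

open AlgebraicCurve IsDedekindDomain

namespace Fermat.Agent.Lib.FF398

section Max

variable {K F : Type*} [Field K] [Field F] [Algebra K F]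

/-- Discrete valuation rings are maximal subrings: comparable places are equal. -/
theorem place_eq_of_le {v w : Place K F} (h : v.toValuationSubring ≤ w.toValuationSubring) :
    v = w :=
  Place.ext (ValuationSubring.eq_of_le_of_ne_top _ h w.ne_top')

end Max

section Local

variable {K F F' : Type*} [Field K] [Field F] [Field F'] [Algebra K F] [Algebra K F']
  [Algebra F F'] [IsScalarTower K F F'] [FiniteDimensional F F'] [CharZero F]
variable (v : Place K F)

variable (F') in
/-- The integral closure of `O_v` in `F'`. -/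
abbrev intCl : Subalgebra v.toValuationSubring F' := integralClosure v.toValuationSubring F'

omit [Algebra K F'] [IsScalarTower K F F'] [FiniteDimensional F F'] [CharZero F] in
theorem algebraMap_OF'_injective :
    Function.Injective (algebraMap v.toValuationSubring F') := by
  intro a b h
  apply Subtype.ext
  exact (algebraMap F F').injective h

instance (priority := 2000) instFaithfulOF' : FaithfulSMul v.toValuationSubring F' :=
  (faithfulSMul_iff_algebraMap_injective _ _).mpr (algebraMap_OF'_injective v)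

instance (priority := 2000) instTorsionFreeOF' :
    Module.IsTorsionFree v.toValuationSubring F' :=
  FaithfulSMul.to_isTorsionFree _ _

instance (priority := 2000) instTorsionFreeIntCl :
    Module.IsTorsionFree v.toValuationSubring (intCl F' v) :=
  Subalgebra.instIsTorsionFree (intCl F' v)

instance instTowerKOF' : IsScalarTower K v.toValuationSubring F' :=
  IsScalarTower.of_algebraMap_eq fun a => by
    show algebraMap K F' a = algebraMap F F' (algebraMap K F a)
    rw [← IsScalarTower.algebraMap_apply]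

instance instDedekindIntCl : IsDedekindDomain (intCl F' v) :=
  integralClosure.isDedekindDomain v.toValuationSubring F F'

instance instFracIntCl : IsFractionRing (intCl F' v) F' :=
  IsIntegralClosure.isFractionRing_of_finite_extension v.toValuationSubring F F' (intCl F' v)

instance instFiniteIntCl : Module.Finite v.toValuationSubring (intCl F' v) :=
  IsIntegralClosure.finite v.toValuationSubring F F' (intCl F' v)

instance instFreeIntCl : Module.Free v.toValuationSubring (intCl F' v) :=
  Module.free_of_finite_type_torsion_free'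

/-- The place of `F'` attached to a height-one prime of the integral closure of `O_v`. -/
noncomputable def placeOf (q : HeightOneSpectrum (intCl F' v)) : Place K F' :=
  Place.ofHeightOneSpectrum (K := K) q

theorem placeOf_toValuationSubring (q : HeightOneSpectrum (intCl F' v)) :
    (placeOf v q).toValuationSubring = (q.valuation F').valuationSubring := rfl

theorem mem_placeOf_iff (q : HeightOneSpectrum (intCl F' v)) (g : F') :
    g ∈ (placeOf v q).toValuationSubring ↔ q.valuation F' g ≤ 1 := Iff.rfl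

/-- `placeOf v q` lies over `v`. -/
theorem restrict_placeOf (q : HeightOneSpectrum (intCl F' v)) :
    (placeOf v q).restrict F = v := by
  symm
  apply place_eq_of_le
  intro a ha
  rw [Place.restrict_toValuationSubring, ValuationSubring.mem_comap, mem_placeOf_iff]
  have : algebraMap F F' a = algebraMap (intCl F' v) F'
      (algebraMap v.toValuationSubring (intCl F' v) ⟨a, ha⟩) := rfl
  rw [this]
  exact q.valuation_le_one _

/-- The order function of `placeOf v q` is the `q`-adic valuation. -/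
theorem ord_placeOf (q : HeightOneSpectrum (intCl F' v)) (g : F') :
    (placeOf v q).ord g = -(WithZero.log (q.valuation F' g)) := by
  rcases eq_or_ne g 0 with rfl | hg
  · simp
  symm
  obtain ⟨π, hπ⟩ := q.valuation_exists_uniformizer F'
  have hπ0 : π ≠ 0 := by
    rintro rfl
    rw [map_zero] at hπ
    exact WithZero.exp_ne_zero hπ.symm
  refine Fermat.Agent.S24.FF.ordLike_eq_ord (fun g => -(WithZero.log (q.valuation F' g)))
    (fun f g hf hg => ?_) (placeOf v q) (fun f hf => ?_) hπ0 ?_ hg
  · rw [map_mul, WithZero.log_mul ((Valuation.ne_zero_iff _).mpr hf)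
      ((Valuation.ne_zero_iff _).mpr hg)]
    ring
  · rw [mem_placeOf_iff, neg_nonneg,
      WithZero.log_le_iff_le_exp ((Valuation.ne_zero_iff _).mpr hf)]
    rfl
  · rw [hπ, WithZero.log_exp]
    ring

/-- Membership in a height-one prime, read off from the valuation subring. -/
theorem mem_asIdeal_iff (q : HeightOneSpectrum (intCl F' v)) (s : intCl F' v) :
    s ∈ q.asIdeal ↔ s = 0 ∨ ((s : F'))⁻¹ ∉ (placeOf v q).toValuationSubring := by
  rw [mem_placeOf_iff, ← q.valuation_lt_one_iff_mem (K := F')]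
  show q.valuation F' (s : F') < 1 ↔ s = 0 ∨ ¬ q.valuation F' ((s : F'))⁻¹ ≤ 1
  rcases eq_or_ne s 0 with rfl | hs
  · simp
  have hs' : (s : F') ≠ 0 := fun h => hs (Subtype.ext h)
  have hv0 : q.valuation F' (s : F') ≠ 0 := (Valuation.ne_zero_iff _).mpr hs'
  rw [map_inv₀, not_le, one_lt_inv₀ (zero_lt_iff.mpr hv0)]
  simp [hs]

theorem placeOf_injective : Function.Injective (placeOf (F' := F') v) := by
  intro q q' h
  apply HeightOneSpectrum.ext
  ext s
  rw [mem_asIdeal_iff, mem_asIdeal_iff, h]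

omit [CharZero F] in
/-- The integral closure of `O_{w|F}` is contained in `O_w`. -/
theorem coe_intCl_mem (w : Place K F') (s : intCl F' (w.restrict F)) :
    (s : F') ∈ w.toValuationSubring := by
  obtain ⟨p, hp, hps⟩ := s.2
  have hint : IsIntegral w.toValuationSubring (s : F') := by
    refine ⟨p.map (Place.restrictInclusion F w), hp.map _, ?_⟩
    rw [Polynomial.eval₂_map]
    exact hps
  obtain ⟨y, hy⟩ := IsIntegrallyClosed.isIntegral_iff.mp hint
  rw [← hy]
  exact y.2

/-- The inclusion of the integral closure of `O_{w|F}` into `O_w`. -/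
def intClInclusion (w : Place K F') : intCl F' (w.restrict F) →+* w.toValuationSubring where
  toFun s := ⟨(s : F'), coe_intCl_mem w s⟩
  map_one' := rfl
  map_mul' _ _ := rfl
  map_zero' := rfl
  map_add' _ _ := rfl

@[simp]
theorem coe_intClInclusion (w : Place K F') (s : intCl F' (w.restrict F)) :
    ((intClInclusion w s : w.toValuationSubring) : F') = (s : F') := rfl

/-- The centre of `w` on the integral closure of `O_{w|F}`. -/
def centre (w : Place K F') : Ideal (intCl F' (w.restrict F)) :=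
  Ideal.comap (intClInclusion w) (IsLocalRing.maximalIdeal w.toValuationSubring)

instance centre_isPrime (w : Place K F') : (centre (F := F) w).IsPrime :=
  Ideal.comap_isPrime _ _

theorem centre_ne_bot (w : Place K F') : centre (F := F) w ≠ ⊥ := by
  obtain ⟨π, hπ⟩ := IsDiscreteValuationRing.exists_irreducible (w.restrict F).toValuationSubring
  intro h
  have hmem : algebraMap (w.restrict F).toValuationSubring (intCl F' (w.restrict F)) π
      ∈ centre (F := F) w := by
    rw [centre, Ideal.mem_comap, IsLocalRing.mem_maximalIdeal, mem_nonunits_iff]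
    intro hu
    have hu' : IsUnit (Place.restrictInclusion F w π) := hu
    exact hπ.not_isUnit (isUnit_of_map_unit (Place.restrictInclusion F w) π hu')
  rw [h, Ideal.mem_bot] at hmem
  have hinj : Function.Injective
      (algebraMap (w.restrict F).toValuationSubring (intCl F' (w.restrict F))) :=
    FaithfulSMul.algebraMap_injective _ _
  exact hπ.ne_zero (hinj (by rw [hmem, map_zero]))

/-- The centre of `w` as a height-one prime. -/
def centrePrime (w : Place K F') : HeightOneSpectrum (intCl F' (w.restrict F)) :=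
  ⟨centre w, centre_isPrime w, centre_ne_bot w⟩

theorem placeOf_centrePrime (w : Place K F') : placeOf (w.restrict F) (centrePrime w) = w := by
  apply place_eq_of_le
  intro g hg
  rw [mem_placeOf_iff] at hg
  obtain ⟨n, d, hnd⟩ := (centrePrime w).exists_primeCompl_mul_eq_of_integer g hg
  have hd : (d : intCl F' (w.restrict F)) ∉ centre (F := F) w := d.2
  rw [centre, Ideal.mem_comap, IsLocalRing.mem_maximalIdeal, mem_nonunits_iff, not_not] at hd
  obtain ⟨b, hb⟩ := isUnit_iff_exists_inv.mp hd
  have hb' : ((d : intCl F' (w.restrict F)) : F') * (b : F') = 1 := congrArg Subtype.val hb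
  have hd0 : ((d : intCl F' (w.restrict F)) : F') ≠ 0 := left_ne_zero_of_mul_eq_one hb'
  have hg' : g = ((n : F')) * (b : F') := by
    have h1 : g * ((d : intCl F' (w.restrict F)) : F') = (n : F') := hnd
    calc g = g * (((d : intCl F' (w.restrict F)) : F') * (b : F')) := by rw [hb', mul_one]
      _ = (n : F') * (b : F') := by rw [← mul_assoc, h1]
  rw [hg']
  exact mul_mem (coe_intCl_mem w n) b.2

/-- Every place of `F'` over `v` comes from a height-one prime of the integral closure. -/
theorem exists_placeOf_eq (w : Place K F') (hw : w.restrict F = v) :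
    ∃ q : HeightOneSpectrum (intCl F' v), placeOf v q = w := by
  subst hw
  exact ⟨centrePrime w, placeOf_centrePrime w⟩

theorem range_placeOf : Set.range (placeOf (F' := F') v) = {w : Place K F' | w.restrict F = v} := by
  ext w
  constructor
  · rintro ⟨q, rfl⟩
    exact restrict_placeOf v q
  · intro hw
    exact exists_placeOf_eq v w hw

/-! ### Primes over the maximal ideal of `O_v` -/

/-- The maximal ideal of `O_v`. -/
abbrev pv : Ideal v.toValuationSubring := IsLocalRing.maximalIdeal v.toValuationSubring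

theorem pv_ne_bot : pv v ≠ ⊥ := IsDiscreteValuationRing.not_a_field _

theorem algebraMap_O_intCl_injective :
    Function.Injective (algebraMap v.toValuationSubring (intCl F' v)) :=
  FaithfulSMul.algebraMap_injective _ _

theorem map_pv_ne_bot : (pv v).map (algebraMap v.toValuationSubring (intCl F' v)) ≠ ⊥ := by
  rw [Ne, Ideal.map_eq_bot_iff_of_injective (algebraMap_O_intCl_injective v)]
  exact pv_ne_bot v

instance liesOver_pv (q : HeightOneSpectrum (intCl F' v)) : q.asIdeal.LiesOver (pv v) := by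
  constructor
  have hprime : (q.asIdeal.under v.toValuationSubring).IsPrime := Ideal.IsPrime.under _ _
  have hne : q.asIdeal.under v.toValuationSubring ≠ ⊥ :=
    Ideal.under_ne_bot v.toValuationSubring q.ne_bot
  have hmax : (q.asIdeal.under v.toValuationSubring).IsMaximal := hprime.isMaximal hne
  exact (IsLocalRing.eq_maximalIdeal hmax).symm

instance isMaximal_asIdeal (q : HeightOneSpectrum (intCl F' v)) : q.asIdeal.IsMaximal :=
  q.isPrime.isMaximal q.ne_bot

/-- The height-one prime attached to a prime over `𝔪_v`. -/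
def primeOfOver (q : (pv v).primesOver (intCl F' v)) : HeightOneSpectrum (intCl F' v) :=
  ⟨q.1, q.2.1, by
    have := q.2.2
    exact Ideal.ne_bot_of_liesOver_of_ne_bot (pv_ne_bot v) q.1⟩

@[simp]
theorem primeOfOver_asIdeal (q : (pv v).primesOver (intCl F' v)) :
    (primeOfOver v q).asIdeal = q.1 := rfl

theorem primeOfOver_injective : Function.Injective (primeOfOver (F' := F') v) := by
  intro q q' h
  apply Subtype.ext
  exact congrArg HeightOneSpectrum.asIdeal h

theorem primeOfOver_surjective : Function.Surjective (primeOfOver (F' := F') v) := by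
  intro q
  exact ⟨⟨q.asIdeal, q.isPrime, liesOver_pv v q⟩, rfl⟩

instance finite_primesOver : Finite ((pv v).primesOver (intCl F' v)) :=
  (Algebra.QuasiFinite.finite_primesOver (pv v)).to_subtype

instance finite_heightOneSpectrum : Finite (HeightOneSpectrum (intCl F' v)) :=
  Finite.of_surjective _ (primeOfOver_surjective v)

/-- The fibre over `v` is finite (no `HasPrincipalDivisors` needed). -/
theorem finite_fibre : {w : Place K F' | w.restrict F = v}.Finite := by
  rw [← range_placeOf]
  exact Set.finite_range _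

/-! ### Ramification index and residue degree -/

theorem mem_asIdeal_iff_ord (q : HeightOneSpectrum (intCl F' v)) (s : intCl F' v) :
    s ∈ q.asIdeal ↔ s = 0 ∨ 0 < (placeOf v q).ord (s : F') := by
  rcases eq_or_ne s 0 with rfl | hs
  · simp
  have hs' : (s : F') ≠ 0 := fun h => hs (Subtype.ext h)
  have hv0 : q.valuation F' (s : F') ≠ 0 := (Valuation.ne_zero_iff _).mpr hs'
  rw [ord_placeOf, neg_pos, WithZero.log_lt_iff_lt_exp hv0, ← q.valuation_lt_one_iff_mem (K := F')]
  simp only [hs, false_or]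
  rfl

theorem ord_placeOf_coe_nonneg (q : HeightOneSpectrum (intCl F' v)) (s : intCl F' v) :
    0 ≤ (placeOf v q).ord (s : F') :=
  (Fermat.Agent.S24.FF.mem_iff_ord_nonneg _).mp
    ((mem_placeOf_iff v q _).mpr (q.valuation_le_one s))

/-- The ramification index of `placeOf v q` (in the sense of the Prelude) is Mathlib's
ramification index of `q` over `O_v`. -/
theorem ramificationIndex_placeOf (q : HeightOneSpectrum (intCl F' v)) :
    ((placeOf v q).ramificationIndex F : ℤ)
      = (q.asIdeal.ramificationIdx v.toValuationSubring : ℤ) := by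
  obtain ⟨π, hπ, hπ1⟩ := Fermat.Agent.S24.FF.exists_irreducible_coe v
  have h1 := (placeOf v q).ord_restrict (F := F) (π : F)
  rw [restrict_placeOf, hπ1, mul_one] at h1
  rw [← h1, ord_placeOf]
  have hπS : algebraMap v.toValuationSubring (intCl F' v) π ≠ 0 := fun h =>
    hπ.ne_zero (algebraMap_O_intCl_injective v (by rw [h, map_zero]))
  have h2 : q.valuation F' (algebraMap F F' (π : F))
      = q.intValuation (algebraMap v.toValuationSubring (intCl F' v) π) :=
    q.valuation_of_algebraMap (algebraMap v.toValuationSubring (intCl F' v) π)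
  rw [h2, q.intValuation_eq_exp_neg_multiplicity hπS, WithZero.log_exp, neg_neg,
    Ideal.IsDedekindDomain.ramificationIdx_eq_multiplicity (pv v) q.asIdeal (map_pv_ne_bot v)]
  have h3 : (pv v).map (algebraMap v.toValuationSubring (intCl F' v))
      = Ideal.span {algebraMap v.toValuationSubring (intCl F' v) π} := by
    rw [pv, hπ.maximalIdeal_eq, Ideal.map_span, Set.image_singleton]
  rw [h3]

/-- If all places of `F'` have degree one, residue degrees over `O_v` are one. -/
theorem inertiaDeg_intCl_eq_one (hdeg' : ∀ w : Place K F', w.deg = 1)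
    (q : HeightOneSpectrum (intCl F' v)) :
    q.asIdeal.inertiaDeg v.toValuationSubring = 1 := by
  refine Fermat.Agent.S24.FF.inertiaDeg_eq_one_of_forall_exists (pv v) q.asIdeal fun s => ?_
  obtain ⟨c, hc⟩ := Fermat.Agent.Lib.RR.exists_const_sub (placeOf v q) (hdeg' _)
    (ord_placeOf_coe_nonneg v q s)
  refine ⟨algebraMap K v.toValuationSubring c, ?_⟩
  rw [mem_asIdeal_iff_ord]
  have hcoe : ((s - algebraMap v.toValuationSubring (intCl F' v)
      (algebraMap K v.toValuationSubring c) : intCl F' v) : F') = (s : F') - algebraMap K F' c := by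
    rw [IsScalarTower.algebraMap_apply K F F']
    rfl
  rcases hc with hc | hc
  · left
    apply Subtype.ext
    rw [hcoe]
    exact hc
  · right
    rw [hcoe]
    exact hc

omit [CharZero F] [FiniteDimensional F F'] in
/-- If all places of `F'` have degree one, the Prelude's residue degrees are one. -/
theorem inertiaDeg_eq_one [Algebra.IsIntegral F F'] (hdeg' : ∀ w : Place K F', w.deg = 1)
    (w : Place K F') : w.inertiaDeg F = 1 := by
  have h := w.deg_restrict_mul_inertiaDeg (F := F)
  rw [hdeg' w] at h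
  exact (mul_eq_one.mp h).2

omit [CharZero F] [FiniteDimensional F F'] in
theorem deg_restrict_eq_one [Algebra.IsIntegral F F'] (hdeg' : ∀ w : Place K F', w.deg = 1)
    (w : Place K F') : (w.restrict F).deg = 1 := by
  have h := w.deg_restrict_mul_inertiaDeg (F := F)
  rw [hdeg' w] at h
  exact (mul_eq_one.mp h).1

/-- **Local fundamental identity** `∑_{w | v} e(w|v) = [F' : F]`. -/
theorem sum_ramificationIndex (hdeg' : ∀ w : Place K F', w.deg = 1)
    (s : Finset (Place K F')) (hs : ∀ w, w ∈ s ↔ w.restrict F = v) :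
    ∑ w ∈ s, (w.ramificationIndex F : ℤ) = (Module.finrank F F' : ℤ) := by
  let _ : Fintype ((pv v).primesOver (intCl F' v)) := Fintype.ofFinite _
  have h := Ideal.sum_ramification_inertia_eq_finrank (pv v) (intCl F' v)
  rw [IsFractionRing.finrank_eq v.toValuationSubring F (intCl F' v) F', ← h]
  push_cast
  symm
  refine Finset.sum_bij (fun q _ => placeOf v (primeOfOver v q)) ?_ ?_ ?_ ?_
  · intro q _
    exact (hs _).mpr (restrict_placeOf v _)
  · intro q _ q' _ h
    exact primeOfOver_injective v (placeOf_injective v h)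
  · intro w hw
    obtain ⟨q, hq⟩ := exists_placeOf_eq v w ((hs w).mp hw)
    obtain ⟨q', rfl⟩ := primeOfOver_surjective v q
    exact ⟨q', Finset.mem_univ _, hq⟩
  · intro q _
    have h1 := inertiaDeg_intCl_eq_one v hdeg' (primeOfOver v q)
    rw [primeOfOver_asIdeal] at h1
    rw [ramificationIndex_placeOf, primeOfOver_asIdeal, h1]
    simp

/-! ### Norm formula -/

open UniqueFactorizationMonoid

theorem ord_coe_eq_multiplicity (a : v.toValuationSubring) (ha : a ≠ 0) :
    v.ord (a : F) = (multiplicity (pv v) (Ideal.span {a}) : ℤ) := by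
  rw [Place.ord, v.adicValuation_coe, v.heightOneSpectrum.intValuation_eq_exp_neg_multiplicity ha,
    WithZero.log_exp, neg_neg]
  rfl

theorem ord_placeOf_coe_eq_multiplicity (q : HeightOneSpectrum (intCl F' v)) (x : intCl F' v)
    (hx : x ≠ 0) :
    (placeOf v q).ord (x : F') = (multiplicity q.asIdeal (Ideal.span {x}) : ℤ) := by
  rw [ord_placeOf]
  have h2 : q.valuation F' (x : F') = q.intValuation x := q.valuation_of_algebraMap x
  rw [h2, q.intValuation_eq_exp_neg_multiplicity hx, WithZero.log_exp, neg_neg]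

theorem multiplicity_eq_count (q : HeightOneSpectrum (intCl F' v)) (I : Ideal (intCl F' v))
    (hI : I ≠ ⊥) :
    multiplicity q.asIdeal I = (normalizedFactors I).count q.asIdeal := by
  have hq : Prime q.asIdeal := Ideal.prime_of_isPrime q.ne_bot q.isPrime
  rw [multiplicity_eq_of_emultiplicity_eq_some
    (emultiplicity_eq_count_normalizedFactors hq.irreducible hI), normalize_eq]

theorem sum_count_eq_card [Fintype (HeightOneSpectrum (intCl F' v))] (I : Ideal (intCl F' v))
    (hI : I ≠ ⊥) :
    ∑ q : HeightOneSpectrum (intCl F' v), (normalizedFactors I).count q.asIdeal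
      = Multiset.card (normalizedFactors I) := by
  classical
  rw [← Multiset.toFinset_sum_count_eq]
  have hinj : Function.Injective
      (fun q : HeightOneSpectrum (intCl F' v) => q.asIdeal) := fun q q' h =>
    HeightOneSpectrum.ext h
  rw [← Finset.sum_image (s := Finset.univ)
    (f := fun P : Ideal (intCl F' v) => (normalizedFactors I).count P)
    (g := fun q : HeightOneSpectrum (intCl F' v) => q.asIdeal) (fun q _ q' _ h => hinj h)]
  symm
  refine Finset.sum_subset ?_ ?_
  · intro P hP
    rw [Multiset.mem_toFinset, Ideal.mem_normalizedFactors_iff hI] at hP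
    have hPne : P ≠ ⊥ := fun h => hI (le_bot_iff.mp (h ▸ hP.2))
    exact Finset.mem_image.mpr ⟨⟨P, hP.1, hPne⟩, Finset.mem_univ _, rfl⟩
  · intro P _ hP
    rw [Multiset.mem_toFinset] at hP
    exact Multiset.count_eq_zero_of_notMem hP

theorem relNorm_eq_pow (hdeg' : ∀ w : Place K F', w.deg = 1) (I : Ideal (intCl F' v))
    (hI : I ≠ ⊥) :
    Ideal.relNorm v.toValuationSubring I = (pv v) ^ Multiset.card (normalizedFactors I) := by
  conv_lhs => rw [← Ideal.prod_normalizedFactors_eq_self hI]
  rw [map_multiset_prod]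
  have hconst : (normalizedFactors I).map (Ideal.relNorm v.toValuationSubring)
      = (normalizedFactors I).map (fun _ => pv v) := by
    refine Multiset.map_congr rfl fun P hP => ?_
    rw [Ideal.mem_normalizedFactors_iff hI] at hP
    have hPne : P ≠ ⊥ := fun h => hI (le_bot_iff.mp (h ▸ hP.2))
    have key : ∀ q : HeightOneSpectrum (intCl F' v),
        Ideal.relNorm v.toValuationSubring q.asIdeal = pv v := fun q => by
      have h1 := Ideal.relNorm_eq_pow_of_isMaximal q.asIdeal (pv v)
      rw [inertiaDeg_intCl_eq_one v hdeg' q, pow_one] at h1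
      exact h1
    exact key ⟨P, hP.1, hPne⟩
  rw [hconst, Multiset.map_const', Multiset.prod_replicate]

theorem sum_ord_coe_eq_ord_intNorm [Fintype (HeightOneSpectrum (intCl F' v))]
    (hdeg' : ∀ w : Place K F', w.deg = 1) (x : intCl F' v) (hx : x ≠ 0) :
    ∑ q : HeightOneSpectrum (intCl F' v), (placeOf v q).ord (x : F')
      = v.ord ((Algebra.intNorm v.toValuationSubring (intCl F' v) x : v.toValuationSubring) : F) := by
  have hI : Ideal.span {x} ≠ (⊥ : Ideal (intCl F' v)) := by
    rw [Ne, Ideal.span_singleton_eq_bot]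
    exact hx
  have hN : Algebra.intNorm v.toValuationSubring (intCl F' v) x ≠ 0 :=
    Algebra.intNorm_ne_zero.mpr hx
  rw [ord_coe_eq_multiplicity v _ hN, ← Ideal.relNorm_singleton, relNorm_eq_pow v hdeg' _ hI,
    multiplicity_pow_self_of_prime
      (Ideal.prime_of_isPrime (pv_ne_bot v) (IsLocalRing.maximalIdeal.isMaximal _).isPrime),
    ← sum_count_eq_card v _ hI]
  push_cast
  refine Finset.sum_congr rfl fun q _ => ?_
  rw [ord_placeOf_coe_eq_multiplicity v q x hx, multiplicity_eq_count v q _ hI]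

omit [FiniteDimensional F F'] [CharZero F] [Algebra K F'] [IsScalarTower K F F'] [Algebra F F'] in
theorem ord_div' (u : Place K F) {f g : F} (hf : f ≠ 0) (hg : g ≠ 0) :
    u.ord (f / g) = u.ord f - u.ord g := by
  rw [div_eq_mul_inv, u.ord_mul hf (inv_ne_zero hg), u.ord_inv]
  ring

theorem sum_ord_eq_ord_norm_of_mem (hdeg' : ∀ w : Place K F', w.deg = 1)
    (s : Finset (Place K F')) (hs : ∀ w, w ∈ s ↔ w.restrict F = v)
    (x : intCl F' v) (hx : x ≠ 0) :
    ∑ w ∈ s, w.ord (x : F') = v.ord (Algebra.norm F (x : F')) := by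
  let _ : Fintype (HeightOneSpectrum (intCl F' v)) := Fintype.ofFinite _
  have h1 := sum_ord_coe_eq_ord_intNorm v hdeg' x hx
  have h2 : ((Algebra.intNorm v.toValuationSubring (intCl F' v) x : v.toValuationSubring) : F)
      = Algebra.norm F (x : F') :=
    Algebra.algebraMap_intNorm (A := v.toValuationSubring) (K := F) (L := F')
      (B := intCl F' v) x
  rw [← h2, ← h1]
  symm
  refine Finset.sum_bij (fun q _ => placeOf v q) ?_ ?_ ?_ ?_
  · intro q _
    exact (hs _).mpr (restrict_placeOf v _)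
  · intro q _ q' _ h
    exact placeOf_injective v h
  · intro w hw
    obtain ⟨q, hq⟩ := exists_placeOf_eq v w ((hs w).mp hw)
    exact ⟨q, Finset.mem_univ _, hq⟩
  · intro q _
    rfl

/-- **Local norm formula** `∑_{w | v} ord_w(g) = ord_v(N_{F'/F} g)`. -/
theorem sum_ord_eq_ord_norm (hdeg' : ∀ w : Place K F', w.deg = 1)
    (s : Finset (Place K F')) (hs : ∀ w, w ∈ s ↔ w.restrict F = v)
    (g : F') (hg : g ≠ 0) :
    ∑ w ∈ s, w.ord g = v.ord (Algebra.norm F g) := by
  obtain ⟨a, b, hb, rfl⟩ := IsFractionRing.div_surjective (A := intCl F' v) g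
  have hb0 : b ≠ 0 := nonZeroDivisors.ne_zero hb
  have ha0 : a ≠ 0 := by
    rintro rfl
    simp at hg
  have ha' : (a : F') ≠ 0 := fun h => ha0 (Subtype.ext h)
  have hb' : (b : F') ≠ 0 := fun h => hb0 (Subtype.ext h)
  have hcoea : algebraMap (intCl F' v) F' a = (a : F') := rfl
  have hcoeb : algebraMap (intCl F' v) F' b = (b : F') := rfl
  have hnorm : Algebra.norm F ((a : F') / (b : F'))
      = Algebra.norm F (a : F') / Algebra.norm F (b : F') := by
    rw [eq_div_iff (Algebra.norm_ne_zero_iff.mpr hb'), ← map_mul, div_mul_cancel₀ _ hb']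
  rw [hcoea, hcoeb, hnorm,
    ord_div' v (Algebra.norm_ne_zero_iff.mpr ha') (Algebra.norm_ne_zero_iff.mpr hb'),
    ← sum_ord_eq_ord_norm_of_mem v hdeg' s hs a ha0,
    ← sum_ord_eq_ord_norm_of_mem v hdeg' s hs b hb0, ← Finset.sum_sub_distrib]
  refine Finset.sum_congr rfl fun w _ => ?_
  exact ord_div' w ha' hb'

end Local

end Fermat.Agent.Lib.FF398

end
-- ===== PACK-END Lib/FF398/Local.lean

-- ===== PACK-BEGIN S29/H942/KummerChar.lean
section



/-!
# The Kummer character of a holomorphic function with invariant `p`-th power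

If `c : ℍ → ℂ` is holomorphic, `c ≠ 0`, and `c ^ p` is invariant under a subgroup
`Γ ≤ SL(2,ℤ)`, then `c (γ z) = κ γ * c z` for a unique character `κ : Γ →* ℂˣ` with `κ ^ p = 1`.
-/

set_option autoImplicit false

noncomputable section

open Filter Topology Set Complex Function UpperHalfPlane ModularForm
open scoped Manifold MatrixGroups

namespace Fermat.Agent.S29.H942

lemma mdiff_comp_smul {c : ℍ → ℂ} (hc : MDiff c) (γ : SL(2, ℤ)) :
    MDiff (fun z : ℍ => c (γ • z)) := by
  have h := MDifferentiable.slash hc 0 (γ : GL (Fin 2) ℝ)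
  have h2 : (c ∣[(0 : ℤ)] (γ : GL (Fin 2) ℝ)) = fun z : ℍ => c (γ • z) := by
    funext z
    rw [← SL_slash, SL_slash_apply]
    simp
  rwa [h2] at h

lemma exists_ne_zero_of_ne_zero {c : ℍ → ℂ} (hc0 : c ≠ 0) : ∃ z : ℍ, c z ≠ 0 := by
  by_contra h
  simp only [not_exists, not_not] at h
  exact hc0 (funext h)

/-- **Kummer character.** -/
theorem exists_kummerChar (Γ : Subgroup SL(2, ℤ)) {c : ℍ → ℂ} (hc : MDiff c) (hc0 : c ≠ 0)
    {p : ℕ} (hp : p ≠ 0)
    (hinv : ∀ γ ∈ Γ, ∀ z : ℍ, c (γ • z) ^ p = c z ^ p) :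
    ∃ κ : Γ →* ℂˣ, (∀ γ, κ γ ^ p = 1) ∧
      ∀ (γ : Γ) (z : ℍ), c ((γ : SL(2, ℤ)) • z) = ((κ γ : ℂˣ) : ℂ) * c z := by
  obtain ⟨z₀, hz₀⟩ := exists_ne_zero_of_ne_zero hc0
  have h1 : ∀ γ : Γ, ∃ ζ : ℂ, ζ ^ p = 1 ∧
      (fun z : ℍ => c ((γ : SL(2, ℤ)) • z)) = fun z => ζ * c z := by
    intro γ
    refine holomorphic_root_unique hc (mdiff_comp_smul hc γ) hc0 hp ?_
    funext z
    simp only [Pi.pow_apply]
    exact (hinv γ γ.2 z).symm
  choose ζ hζ hζc using h1
  have hζ0 : ∀ γ, ζ γ ≠ 0 := by
    intro γ h0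
    have := hζ γ
    rw [h0, zero_pow hp] at this
    exact zero_ne_one this
  have hζapp : ∀ (γ : Γ) (z : ℍ), c ((γ : SL(2, ℤ)) • z) = ζ γ * c z := fun γ z =>
    congrFun (hζc γ) z
  have hone : ζ 1 = 1 := by
    have := hζapp 1 z₀
    simp only [Subgroup.coe_one, one_smul] at this
    have h2 : (ζ 1 - 1) * c z₀ = 0 := by rw [sub_mul, one_mul, ← this, sub_self]
    rcases mul_eq_zero.1 h2 with h | h
    · exact sub_eq_zero.1 h
    · exact absurd h hz₀
  have hmul : ∀ γ δ : Γ, ζ (γ * δ) = ζ γ * ζ δ := by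
    intro γ δ
    have h2 := hζapp (γ * δ) z₀
    rw [Subgroup.coe_mul, mul_smul, hζapp γ, hζapp δ] at h2
    have h3 : (ζ (γ * δ) - ζ γ * ζ δ) * c z₀ = 0 := by
      rw [sub_mul, ← h2]
      ring
    rcases mul_eq_zero.1 h3 with h | h
    · exact sub_eq_zero.1 h
    · exact absurd h hz₀
  refine ⟨{ toFun := fun γ => Units.mk0 (ζ γ) (hζ0 γ)
            map_one' := by
              apply Units.ext
              simpa using hone
            map_mul' := fun γ δ => by
              apply Units.ext
              simpa using hmul γ δ }, fun γ => ?_, fun γ z => ?_⟩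
  · apply Units.ext
    simpa using hζ γ
  · simpa using hζapp γ z

end Fermat.Agent.S29.H942

end
end
-- ===== PACK-END S29/H942/KummerChar.lean

-- ===== PACK-BEGIN S18/Mod/H216/Basis.lean
section


/-!
# S18 / MOD (helper216): the S28 basis inside `Fc M E`

* `exists_Fc_of_full` (T0): `coeffEmb Q̄ z`, `z ∈ F_ℚ`, is the value of an element of `Fc M E`.
* `exists_FE_of_Fc` (T1): every `f ∈ Fc M E` is the coefficientwise image of an element of
  `F_E := laurentBaseChange E (modularFunctionFieldFull M) ⊆ E((q))`.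
* `yInt` : the S28 monomials as elements of `intE M A E`.
* `exists_scaled_relation` (B2): `q(j) f = ∑ pᵢ(j) yᵢ` with `q, pᵢ ∈ (A ∩ E)[X]`, jointly primitive.
* `redE_sum_eq_zero` (B3): independence of the reductions over `κ[j̄]`.
-/

set_option autoImplicit false
set_option linter.unusedSectionVars false

noncomputable section

namespace Fermat.Agent.S18.Mod.H216

open ModularCurve AlgebraicCurve HahnSeries Polynomial Fermat.Agent.S18 Fermat.Agent.S18.Mod
open Fermat.Agent.S28

variable (M : ℕ) (A : ValuationSubring Qb) (E : IntermediateField ℚ Qb)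

/-! ### T0, T1 -/

theorem coe_jd (d : ℕ) [NeZero d] (hd : d ∣ M) :
    ((jd M d hd : Om M) : LaurentSeries Qb) = coeffEmb Qb (qExpand ℚ d jq) := rfl

theorem jd_mem_Fc (d : ℕ) [NeZero d] (hd : d ∣ M) : jd M d hd ∈ Fc M E :=
  Subfield.subset_closure (Or.inr ⟨d, inferInstance, hd, rfl⟩)

theorem coeffEmb_algebraMap (r : ℚ) :
    coeffEmb Qb (algebraMap ℚ (LaurentSeries ℚ) r) = HahnSeries.C (algebraMap ℚ Qb r) := by
  rw [algebraMap_laurentSeries_eq_single, coeffEmb, coeffMap_single, ← HahnSeries.C_apply]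

/-- **T0.** -/
theorem exists_Fc_of_full {z : LaurentSeries ℚ} (hz : z ∈ modularFunctionFieldFull M) :
    ∃ f ∈ Fc M E, (f : LaurentSeries Qb) = coeffEmb Qb z := by
  have hle : Subfield.closure (Set.range (algebraMap ℚ (LaurentSeries ℚ)) ∪ divisorExpansions M) ≤
      Subfield.comap (coeffEmb Qb) ((Fc M E).map (omVal M)) := by
    rw [Subfield.closure_le]
    rintro x (⟨r, rfl⟩ | ⟨d, hd, hdM, rfl⟩)
    · refine ⟨algebraMap Qb (Om M) (algebraMap ℚ Qb r), ?_, ?_⟩
      · exact Ec_le_Fc M E ((mem_Ec_iff M E).mpr ⟨_, E.algebraMap_mem r, rfl⟩)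
      · rw [omVal_apply, coe_algebraMap_Om, coeffEmb_algebraMap]
    · haveI := hd
      exact ⟨jd M d hdM, jd_mem_Fc M E d hdM, rfl⟩
  obtain ⟨f, hf, hfz⟩ := hle hz
  exact ⟨f, hf, hfz⟩

/-- `E((q)) → Q̄((q))`. -/
abbrev iotaE : LaurentSeries ↥E →+* LaurentSeries Qb := coeffMap (algebraMap ↥E Qb)

theorem iotaE_coeffEmb (z : LaurentSeries ℚ) : iotaE E (coeffEmb ↥E z) = coeffEmb Qb z := by
  rw [coeffEmb, coeffEmb, coeffMap_coeffMap]
  exact coeffMap_congr (RingHom.ext_rat _ _) z

theorem iotaE_algebraMap (c : ↥E) :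
    iotaE E (algebraMap ↥E (LaurentSeries ↥E) c) = HahnSeries.C (c : Qb) := by
  rw [algebraMap_laurentSeries_eq_single, coeffMap_single, ← HahnSeries.C_apply]
  rfl

/-- **T1.** -/
theorem exists_FE_of_Fc {f : Om M} (hf : f ∈ Fc M E) :
    ∃ g ∈ laurentBaseChange ↥E (modularFunctionFieldFull M), iotaE E g = (f : LaurentSeries Qb) := by
  have hle : Fc M E ≤ Subfield.comap (omVal M)
      ((laurentBaseChange ↥E (modularFunctionFieldFull M)).toSubfield.map (iotaE E)) := by
    rw [Fc, Subfield.closure_le]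
    rintro x (hx | ⟨d, hd, hdM, rfl⟩)
    · obtain ⟨c, hc, rfl⟩ := (mem_Ec_iff M E).mp hx
      refine ⟨algebraMap ↥E (LaurentSeries ↥E) ⟨c, hc⟩, ?_, ?_⟩
      · exact (laurentBaseChange ↥E (modularFunctionFieldFull M)).algebraMap_mem _
      · rw [omVal_apply, coe_algebraMap_Om]
        exact iotaE_algebraMap E ⟨c, hc⟩
    · haveI := hd
      refine ⟨coeffEmb ↥E (qExpand ℚ d jq), ?_, ?_⟩
      · exact coeffEmb_mem_laurentBaseChange ↥E (jqd_mem_full M hdM)
      · rw [omVal_apply, coe_jd]
        exact iotaE_coeffEmb E _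
  obtain ⟨g, hg, hgf⟩ := hle hf
  exact ⟨g, hg, hgf⟩

/-! ### The monomials -/

variable {M} {n : ℕ} {y : Fin n → LaurentSeries ℤ}

theorem coeffMap_intCast_mem_intE [NeZero M] (hS : H516.SpansQ M y) (i : Fin n) :
    coeffMap (Int.castRingHom ↥A) (y i) ∈ intE M A E := by
  rw [mem_intE]
  obtain ⟨f, hf, hfz⟩ := exists_Fc_of_full M E (H516.yQ_mem_full hS i)
  refine ⟨fun k => ?_, f, hf, ?_⟩
  · rw [coeffMap_coeff]
    simp only [eq_intCast, SubringClass.coe_intCast]
    exact intCast_mem E _
  · rw [hfz, ← H516.coeffMap_intCast_eq_coeffEmb, coeffMap_coeffMap]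
    exact coeffMap_congr (RingHom.ext_int _ _) _

/-- The S28 monomials as integral series. -/
def yInt [NeZero M] (hS : H516.SpansQ M y) (i : Fin n) : ↥(intE M A E) :=
  ⟨coeffMap (Int.castRingHom ↥A) (y i), coeffMap_intCast_mem_intE A E hS i⟩

theorem coe_toOm_yInt [NeZero M] (hS : H516.SpansQ M y) (i : Fin n) :
    ((toOm M A E (yInt A E hS i) : Om M) : LaurentSeries Qb) =
      coeffMap (Int.castRingHom Qb) (y i) := by
  rw [coe_toOm]
  show coeffMap A.subtype (coeffMap (Int.castRingHom ↥A) (y i)) = _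
  rw [coeffMap_coeffMap]
  exact coeffMap_congr (RingHom.ext_int _ _) _

theorem redE_yInt [NeZero M] (hS : H516.SpansQ M y) (i : Fin n) :
    redE M A E (yInt A E hS i) =
      coeffMap (Int.castRingHom (IsLocalRing.ResidueField ↥A)) (y i) := by
  show coeffMap (IsLocalRing.residue ↥A) (coeffMap (Int.castRingHom ↥A) (y i)) = _
  rw [coeffMap_coeffMap]
  exact coeffMap_congr (RingHom.ext_int _ _) _

/-- **(B3)** independence of the reductions over `κ[j̄]`. -/
theorem redE_sum_eq_zero [NeZero M] (hS : H516.SpansQ M y)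
    (hli : LinearIndependent (jField (IsLocalRing.ResidueField ↥A))
      (fun i => coeffMap (Int.castRingHom (IsLocalRing.ResidueField ↥A)) (y i)))
    (p : Fin n → (↥(S0 A E))[X])
    (h : redE M A E (∑ i, Uev M A E (p i) * yInt A E hS i) = 0) :
    ∀ i, (p i).map (resS A E) = 0 := by
  rw [map_sum] at h
  simp only [map_mul, redE_Uev, redE_yInt] at h
  have h2 := Fintype.linearIndependent_iff.mp hli
    (fun i => (⟨H516.evJ ((p i).map (resS A E)), H516.evJ_mem_jField _ _⟩ :
      jField (IsLocalRing.ResidueField ↥A))) h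
  intro i
  have h3 := congrArg Subtype.val (h2 i)
  exact (H516.evJ_eq_zero_iff _).mp h3

/-! ### (B2) the scaled relation -/

variable (M) in
theorem coe_toOm_Uev (p : (↥(S0 A E))[X]) :
    ((toOm M A E (Uev M A E p) : Om M) : LaurentSeries Qb) =
      H516.evJ (p.map (S0 A E).subtype) := by
  have h : (omVal M).comp ((toOm M A E).comp (Uev M A E)) =
      (Polynomial.eval₂RingHom (HahnSeries.C (Γ := ℤ) (R := Qb)) (jqModC Qb)).comp
        (Polynomial.mapRingHom (S0 A E).subtype) := by
    apply Polynomial.ringHom_ext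
    · intro c
      simp only [RingHom.comp_apply, Uev, Polynomial.coe_eval₂RingHom, Polynomial.eval₂_C,
        Polynomial.coe_mapRingHom, Polynomial.map_C, omVal_apply]
      rw [toOm_cS, coe_algebraMap_Om]
      rfl
    · simp only [RingHom.comp_apply, Uev, Polynomial.coe_eval₂RingHom, Polynomial.eval₂_X,
        Polynomial.coe_mapRingHom, Polynomial.map_X, omVal_apply]
      rw [toOm_jInt, coe_jOm]
  exact RingHom.congr_fun h p

/-- `A ∩ E` as a valuation subring of `E`. -/
def RE : ValuationSubring ↥E := A.comap (algebraMap ↥E Qb)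

/-- `RE → S0`. -/
def reToS0 : ↥(RE A E) →+* ↥(S0 A E) where
  toFun c := ⟨algebraMap ↥E Qb (c : ↥E), c.2, (c : ↥E).2⟩
  map_one' := Subtype.ext (by simp)
  map_mul' a b := Subtype.ext (by simp)
  map_zero' := Subtype.ext (by simp)
  map_add' a b := Subtype.ext (by simp)

theorem subtype_comp_reToS0 :
    (S0 A E).subtype.comp (reToS0 A E) = (algebraMap ↥E Qb).comp (RE A E).subtype := rfl

variable (M) in
theorem coe_toOm_Uev_map (P : (↥(RE A E))[X]) :
    ((toOm M A E (Uev M A E (P.map (reToS0 A E))) : Om M) : LaurentSeries Qb) =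
      iotaE E (H516.evJ (P.map (RE A E).subtype)) := by
  rw [coe_toOm_Uev, H516.coeffMap_evJ, Polynomial.map_map, Polynomial.map_map,
    subtype_comp_reToS0]

/-- **(B2)** every `f ∈ Fc M E` satisfies a jointly primitive relation
`q(j) f = ∑ pᵢ(j) yᵢ` over `A ∩ E`. -/
theorem exists_scaled_relation [NeZero M] (hS : H516.SpansQ M y) {f : Om M}
    (hf : f ∈ Fc M E) :
    ∃ (q : (↥(S0 A E))[X]) (p : Fin n → (↥(S0 A E))[X]),
      (q.map (resS A E) ≠ 0 ∨ ∃ i, (p i).map (resS A E) ≠ 0) ∧
      toOm M A E (Uev M A E q) * f =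
        toOm M A E (∑ i, Uev M A E (p i) * yInt A E hS i) := by
  classical
  obtain ⟨g, hg, hgf⟩ := exists_FE_of_Fc M E hf
  have hgs := (H516.mem_baseChange_iff_mem_spanL ↥E hS).mp hg
  obtain ⟨G, H, hG, hrel⟩ :=
    H516.exists_cleared ↥E (fun i => coeffMap (Int.castRingHom ↥E) (y i)) hgs
  obtain ⟨c, H', hc, hH', i0, m0, h1⟩ :=
    H516.exists_scale (RE A E) (Fin.cons G H : Fin (n + 1) → (↥E)[X]) ⟨0, by simpa using hG⟩
  have hq : (H' 0).map (RE A E).subtype = C c⁻¹ * G := by
    rw [hH' 0, Fin.cons_zero]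
  have hp : ∀ i : Fin n, (H' i.succ).map (RE A E).subtype = C c⁻¹ * H i := by
    intro i
    rw [hH' i.succ, Fin.cons_succ]
  refine ⟨(H' 0).map (reToS0 A E), fun i => (H' i.succ).map (reToS0 A E), ?_, ?_⟩
  · -- primitivity
    have hone : ∀ P : (↥(RE A E))[X], P.coeff m0 = 1 →
        (P.map (reToS0 A E)).map (resS A E) ≠ 0 := by
      intro P hP h0
      have := congrArg (fun q => q.coeff m0) h0
      simp only [Polynomial.coeff_map, hP, map_one, Polynomial.coeff_zero] at this
      exact one_ne_zero this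
    rcases Fin.eq_zero_or_eq_succ i0 with h0 | ⟨i, hi⟩
    · left
      exact hone _ (h0 ▸ h1)
    · right
      exact ⟨i, hone _ (hi ▸ h1)⟩
  · -- the relation
    have hE : H516.evJ ((H' 0).map (RE A E).subtype) * g =
        ∑ i, H516.evJ ((H' i.succ).map (RE A E).subtype) *
          coeffMap (Int.castRingHom ↥E) (y i) := by
      rw [hq, H516.evJ_mul, mul_assoc, hrel, Finset.mul_sum]
      refine Finset.sum_congr rfl fun i _ => ?_
      rw [hp i, H516.evJ_mul, mul_assoc]
    apply Subtype.ext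
    have hy : ∀ i, iotaE E (coeffMap (Int.castRingHom ↥E) (y i)) =
        ((toOm M A E (yInt A E hS i) : Om M) : LaurentSeries Qb) := by
      intro i
      rw [coe_toOm_yInt, coeffMap_coeffMap]
      exact coeffMap_congr (RingHom.ext_int _ _) _
    have h2 := congrArg (iotaE E) hE
    rw [map_mul, map_sum, hgf, ← coe_toOm_Uev_map M] at h2
    rw [map_sum]
    push_cast
    rw [h2]
    refine Finset.sum_congr rfl fun i _ => ?_
    rw [map_mul, hy, ← coe_toOm_Uev_map M, map_mul]
    rfl

end Fermat.Agent.S18.Mod.H216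

end
end
-- ===== PACK-END S18/Mod/H216/Basis.lean

-- ===== PACK-BEGIN S24/Count.lean
section



/-!
# S24 — counting on `SL₂(ℤ)/Γ₀(N) ≅ ℙ¹(ℤ/N)`

INTERFACE FILE (statements frozen by helper984 @4630f4b), proofs filled in by helper324 from
`Fermat.Agent.S24.H324` (which assembles helper694's `S20.Comb` and helper360's `CuspCount360`).
-/

set_option autoImplicit false

noncomputable section

open ModularCurve
open scoped MatrixGroups

namespace Fermat.Agent.S24

variable (N : ℕ) [NeZero N]

theorem card_XX : Nat.card (XX N) = dedekindPsi N :=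
  H324.card_XX N

theorem two_mul_numOrbits_S :
    2 * numOrbits (permOf N ModularGroup.S) = dedekindPsi N + nuTwo N :=
  H324.two_mul_numOrbits_S N

theorem three_mul_numOrbits_ST :
    3 * numOrbits (permOf N (ModularGroup.S * ModularGroup.T))
      = dedekindPsi N + 2 * nuThree N :=
  H324.three_mul_numOrbits_ST N

theorem numOrbits_T : numOrbits (permOf N ModularGroup.T) = cuspCount N :=
  H324.numOrbits_T N

end Fermat.Agent.S24

end
end
-- ===== PACK-END S24/Count.lean

-- ===== PACK-BEGIN S18/H438/Front/H138Charts.lean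
section




/-!
# S18 / ALG-FRONT (helper438), part 9: the hypotheses of `H394.kummer_charts_of_regular`
on the chart `H138.chart R {x}` of a good model

For `G : Alg.GoodModel Lc Ec Fc R V w x S`, with `R' := Rf Fc R` (a type), `x' := xf G : Fc`,
`w' := wR G : R'` and `B := H138.chart R' {x'}`:

* `GoodModelFront.prime_chart`            : `Prime (algebraMap R' B w')`;
* `GoodModelFront.oneModPi_chart`         : `(u - 1) / w ∈ V` ⟹ `H754.OneModPi (algebraMap R' B w') u`;
* `GoodModelFront.divisibleDivisor_chart` : `H754.DivisibleDivisor B m u` from the divisor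
  hypothesis of `Alg.AlgMainStatement`.

The chart at infinity is obtained by applying these to `H425.goodModel_inv G`.
-/

set_option autoImplicit false
set_option linter.style.haveILetI false
set_option linter.unusedSectionVars false

noncomputable section

namespace Fermat.Agent.S18.H438

open Alg Polynomial

section Equiv

variable {F : Type*} [Field F] (R : Subring F) (z : F)

/-- The identity `chartRing R z ≃ H138.chart R {z}`. -/
def chartEquiv138 : chartRing R z ≃+* H138.chart R ({z} : Set F) where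
  toFun c := ⟨c.1, c.2⟩
  invFun c := ⟨c.1, c.2⟩
  left_inv _ := rfl
  right_inv _ := rfl
  map_mul' _ _ := rfl
  map_add' _ _ := rfl

theorem chartEquiv138_chartUnif {w : F} (hwR : w ∈ R) :
    chartEquiv138 R z (chartUnif (z := z) hwR) =
      algebraMap R (H138.chart R ({z} : Set F)) ⟨w, hwR⟩ := rfl

theorem prime_chart138 {w : F} (hwR : w ∈ R) (h : Prime (chartUnif (z := z) hwR)) :
    Prime (algebraMap R (H138.chart R ({z} : Set F)) ⟨w, hwR⟩) := by
  rw [← chartEquiv138_chartUnif]
  exact (MulEquiv.prime_iff (chartEquiv138 R z).toMulEquiv).2 h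

theorem oneModPi_chart138 {w : F} (hwR : w ∈ R) {u : F}
    (h : H754.OneModPi (chartUnif (z := z) hwR) u) :
    H754.OneModPi (algebraMap R (H138.chart R ({z} : Set F)) ⟨w, hwR⟩) u := by
  obtain ⟨a, s, hs, has, hu⟩ := h
  refine ⟨chartEquiv138 R z a, chartEquiv138 R z s, ?_, ?_, hu⟩
  · rw [Ideal.mem_span_singleton] at hs ⊢
    rw [← chartEquiv138_chartUnif]
    intro h
    exact hs ((map_dvd_iff (chartEquiv138 R z)).1 h)
  · rw [Ideal.mem_span_singleton] at has ⊢
    rw [← chartEquiv138_chartUnif, ← map_sub]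
    exact (map_dvd_iff (chartEquiv138 R z)).2 has

end Equiv

variable {Ω : Type*} [Field Ω] {Lc Ec Fc : Subfield Ω} {R V : Subring Ω} {w x : Ω}
  {S : Finset Ω}

namespace GoodModelFront

variable (G : GoodModel Lc Ec Fc R V w x S)

/-- the uniformiser as an element of the ring `R` -/
def wR : Rf Fc R := ⟨wf G, wf_mem_Rf G⟩

@[simp] theorem coe_wR : ((wR G : Rf Fc R) : Fc) = wf G := rfl

section

attribute [local instance] FractionRing.liftAlgebra

include G in
/-- instances on `chartRing R x` -/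
theorem chartRing_instances :
    IsFractionRing (chartRing (Rf Fc R) (xf G)) Fc ∧
      IsNoetherianRing (chartRing (Rf Fc R) (xf G)) := by
  haveI := charZero_Fc G
  haveI := isDiscreteValuationRing_Rf G
  haveI := finiteDimensional_fractionRing G
  exact ⟨chartRing_isFractionRing _ _, chartRing_isNoetherianRing _ _ (transcendental_xf G)⟩

end

/-- **`w` is prime in the chart.** -/
theorem prime_chart :
    Prime (algebraMap (Rf Fc R) (H138.chart (Rf Fc R) ({xf G} : Set Fc)) (wR G)) :=
  prime_chart138 (Rf Fc R) (xf G) (wf_mem_Rf G)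
    (prime_chartUnif (V := Vf G) (wf_mem_Rf G) (wf_ne_zero G) (Rf_le_Vf G) (xf_mem_Vf G)
      (wf_inv_not_mem_Vf G) (Vf_gen G) (qep_fin' G))

/-- **`u ≡ 1 mod w` on the chart.** -/
theorem oneModPi_chart {u : Fc} (hu : ((u : Ω) - 1) * w⁻¹ ∈ V) :
    H754.OneModPi (algebraMap (Rf Fc R) (H138.chart (Rf Fc R) ({xf G} : Set Fc)) (wR G)) u := by
  obtain ⟨i1, i2⟩ := chartRing_instances G
  refine oneModPi_chart138 (Rf Fc R) (xf G) (wf_mem_Rf G)
    (oneModPi_of_sub_one_mem (V := Vf G) (wf_mem_Rf G) (wf_ne_zero G) (Rf_le_Vf G) (xf_mem_Vf G)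
      (wf_inv_not_mem_Vf G) (Vf_gen G) (qep_fin' G) ?_)
  exact hu

include G in
/-- instances on `H138.chart R {x}` -/
theorem chart_instances138 :
    IsNoetherianRing (H138.chart (Rf Fc R) ({xf G} : Set Fc)) ∧
      IsIntegrallyClosed (H138.chart (Rf Fc R) ({xf G} : Set Fc)) ∧
      IsFractionRing (H138.chart (Rf Fc R) ({xf G} : Set Fc)) Fc := by
  haveI := charZero_Fc G
  haveI := isDiscreteValuationRing_Rf G
  haveI := finiteDimensional_baseField G
  exact H394.chart_instances (transcendental_xf G)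

/-- **`m ∣ div u` on the chart**, from the divisor hypothesis of `Alg.AlgMainStatement`. -/
theorem divisibleDivisor_chart {u : Fc} (hu : ((u : Ω) - 1) * w⁻¹ ∈ V) {m : ℕ}
    (hdiv : ∀ O : ValuationSubring Ω, (∀ a ∈ Lc, a ∈ O) →
      ∃ t : Ω, t ≠ 0 ∧ (u : Ω) * t ^ m ∈ O ∧ ((u : Ω) * t ^ m)⁻¹ ∈ O) :
    H754.DivisibleDivisor (H138.chart (Rf Fc R) ({xf G} : Set Fc)) m u := by
  obtain ⟨i1, i2, i3⟩ := chart_instances138 G
  exact divisibleDivisor G
    (fun r hr => ⟨algebraMap (Rf Fc R) (H138.chart (Rf Fc R) ({xf G} : Set Fc)) ⟨r, hr⟩, rfl⟩)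
    _ (prime_chart G) rfl (oneModPi_chart G hu) hdiv

end GoodModelFront

end Fermat.Agent.S18.H438

end
end
-- ===== PACK-END S18/H438/Front/H138Charts.lean

-- ===== PACK-BEGIN S18/B12/H33/CoreMain.lean
section



/-!
# S18 b2.5 (helper33): `B2CoreAbsStatement` from the assembly pieces A0, A2, A2', A3, A4, A5, A5'
-/

set_option autoImplicit false

noncomputable section

namespace Fermat.Agent.S18.B12.H33

open Polynomial

universe u v

theorem b2CoreAbs_of_pieces
    (hA0 : RegSeqAbsStatement.{u, v}) (hA2 : LocalBasisStatement.{u, v})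
    (hA2' : LocalBasisRankStatement.{u, v}) (hA3 : DiscrRedStatement.{u, v})
    (hA4 : UFDStepStatement.{u}) (hA5 : GenericDiscrStatement.{u, v})
    (hA5' : RedBasisAbsStatement.{u, v}) : B2CoreAbsStatement.{u, v} := by
  intro P _ _ _ _ w hw hΛ hΛ₀ hℚ B _ _ _ _ _ _ hsep S hS1 hS2 hNC t ht n bb
  haveI := hΛ
  haveI hdomΛ : IsDomain (P ⧸ Ideal.span {w}) := by
    rw [Ideal.Quotient.isDomain_iff_prime]
    exact (Ideal.span_singleton_prime hw.ne_zero).mpr hw
  have hmkw : Ideal.Quotient.mk (Ideal.span {w}) w = 0 :=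
    Ideal.Quotient.eq_zero_iff_mem.mpr (Ideal.mem_span_singleton_self w)
  obtain ⟨p, hp⟩ := Ideal.Quotient.mk_surjective t
  -- the closed point
  have htmax : (Ideal.span {t}).IsMaximal :=
    PrincipalIdealRing.isMaximal_of_irreducible ht.irreducible
  have h𝔪p : (Ideal.span {w, p}).IsMaximal := by
    rw [span_pair_eq_comap, hp]
    exact Ideal.comap_isMaximal_of_surjective _ Ideal.Quotient.mk_surjective
  -- choice of the second generator `q`
  obtain ⟨q, hq𝔪, hqcase⟩ : ∃ q, Ideal.span {w, q} = Ideal.span {w, p} ∧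
      (q ∈ S ∨ ∀ s ∈ S, s ∉ Ideal.span {w, p}) := by
    by_cases h : ∃ s ∈ S, s ∈ Ideal.span {w, p}
    · obtain ⟨s, hs, hs𝔪⟩ := h
      refine ⟨s, ?_, Or.inl hs⟩
      have hmax := (hS1 s hs).2.2.1
      refine hmax.eq_of_le h𝔪p.ne_top ?_
      rw [Ideal.span_le]
      intro z hz
      rcases hz with rfl | hz
      · exact Ideal.subset_span (by simp)
      · rw [Set.mem_singleton_iff] at hz; subst hz; exact hs𝔪
    · push_neg at h
      exact ⟨p, rfl, Or.inr h⟩
  have h𝔪max : (Ideal.span {w, q}).IsMaximal := hq𝔪 ▸ h𝔪p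
  haveI h𝔪prime : (Ideal.span {w, q}).IsPrime := h𝔪max.isPrime
  have hw𝔪 : w ∈ Ideal.span {w, q} := Ideal.subset_span (by simp)
  -- `mk q` is associated to `t`
  have hqt : Associated (Ideal.Quotient.mk (Ideal.span {w}) q) t := by
    rw [← Ideal.span_singleton_eq_span_singleton]
    ext b
    obtain ⟨a, rfl⟩ := Ideal.Quotient.mk_surjective b
    rw [Ideal.mem_span_singleton, Ideal.mem_span_singleton, ← mem_span_pair_iff_mk_dvd, hq𝔪,
      mem_span_pair_iff_mk_dvd, hp]
  have hmkq_prime : Prime (Ideal.Quotient.mk (Ideal.span {w}) q) := hqt.symm.prime ht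
  have hwq : ¬ w ∣ q := by
    intro h
    apply hmkq_prime.ne_zero
    exact Ideal.Quotient.eq_zero_iff_mem.mpr (Ideal.mem_span_singleton.mpr h)
  -- local basis
  haveI : Algebra.IsIntegral P B := inferInstance
  have hreg := hA0 P B q w hw hwq
  obtain ⟨n₀, x, hx⟩ := hA2 P B w q h𝔪max hreg
  obtain ⟨hn₀, hgram⟩ := hA2' P B (Ideal.span {w, q}) n₀ x hx
  obtain ⟨hn, u, hu, hD⟩ := hA3 P B w hw (Ideal.span {w, q}) hw𝔪 n₀ x hx n bb
  subst hn
  -- `w ∤ D`
  have hwD : ¬ w ∣ intDiscr P B x := by
    obtain ⟨x', hx'⟩ := hsep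
    subst hn₀
    obtain ⟨g, v, hg, hgv⟩ := hgram x'
    intro hdvd
    have h1 : w ∣ g ^ 2 * intDiscr P B x' := by
      rw [hgv]; exact Dvd.dvd.mul_left hdvd _
    rcases hw.dvd_or_dvd h1 with h2 | h2
    · exact hg (Ideal.mem_of_dvd _ (hw.dvd_of_dvd_pow h2) hw𝔪)
    · exact hx' h2
  have hD0 : intDiscr P B x ≠ 0 := fun h => hwD (h ▸ dvd_zero w)
  have hmkD0 : Ideal.Quotient.mk (Ideal.span {w}) (intDiscr P B x) ≠ 0 := by
    intro h
    exact hwD (Ideal.mem_span_singleton.mp (Ideal.Quotient.eq_zero_iff_mem.mp h))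
  have hdisc0 : Algebra.discr (P ⧸ Ideal.span {w}) bb ≠ 0 := by
    intro h
    rw [h, mul_zero] at hD
    exact hmkD0 hD
  refine ⟨hdisc0, ?_⟩
  have hmku : ¬ t ∣ Ideal.Quotient.mk (Ideal.span {w}) u := by
    intro h
    apply hu
    rw [mem_span_pair_iff_mk_dvd]
    exact hqt.dvd.trans h
  -- unramified primes through the closed point do not divide `D`
  have hunram : ∀ π : P, Prime π → π ∈ Ideal.span {w, q} → ¬ Associated π w →
      (∀ s ∈ S, ¬ Associated π s) → ¬ π ∣ intDiscr P B x := by
    intro π hπ hπ𝔪 hπw hπS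
    have hrad := hNC π hπ hπw hπS
    have hxπ : IsLocalBasis P B (Ideal.span {π}) n x :=
      IsLocalBasis.mono ((Ideal.span_singleton_le_iff_mem _).mpr hπ𝔪) hx
    have := hA5 P w hw hΛ₀ hℚ B π hπ hπw n x hxπ n x
      (fun a ha i => IsLocalBasis.dvd_coeff hx hπ hπ𝔪 a (hrad.radical ▸ ha) i)
    simpa using this
  rcases hqcase with hqS | hnoS
  · -- Case 1: the closed point is a branch point `q ∈ S`
    obtain ⟨hqprime, hqw, -, hqPID⟩ := hS1 q hqS
    obtain ⟨a, D₁, hDeq, hD₁⟩ := hA4 P (Ideal.span {w, q}) q hqprime (intDiscr P B x) hD0 (by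
      intro π hπ hπD hπ𝔪
      by_contra hne
      refine hunram π hπ hπ𝔪 ?_ ?_ hπD
      · intro hπw
        exact hwD (hπw.symm.dvd.trans hπD)
      · intro s hs hπs
        have hs𝔪 : s ∈ Ideal.span {w, q} := Ideal.mem_of_dvd _ hπs.dvd hπ𝔪
        by_cases hsq : q = s
        · subst hsq; exact hne hπs
        · exact hS2 q hqS s hs hsq hs𝔪)
    obtain ⟨r, y, hyi, hys⟩ := hA5' P B q hqprime hqPID
    have hxq : IsLocalBasis P B (Ideal.span {q}) n x :=
      IsLocalBasis.mono ((Ideal.span_singleton_le_iff_mem _).mpr (Ideal.subset_span (by simp))) hx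
    have hnd := hA5 P w hw hΛ₀ hℚ B q hqprime hqw n x hxq r y hyi
    have ha : a < n - r + 1 := by
      by_contra hcon
      push_neg at hcon
      apply hnd
      rw [hDeq]
      exact Dvd.dvd.mul_right (pow_dvd_pow q hcon) _
    refine ⟨r, fun i => Ideal.Quotient.mk _ (y i), ?_, ?_⟩
    · intro c
      obtain ⟨c, rfl⟩ := Ideal.Quotient.mk_surjective c
      obtain ⟨a', ha'⟩ := hys c
      refine ⟨fun i => Ideal.Quotient.mk _ (a' i), ?_⟩
      refine mk_sub_sum_mem_radical w y q t hqt c a' ?_
      refine Ideal.radical_mono ?_ ha'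
      rw [Ideal.span_le]
      intro z hz
      rw [Set.mem_singleton_iff] at hz; subst hz
      exact Ideal.subset_span (by simp)
    · intro hdvd
      have h1 : Ideal.Quotient.mk (Ideal.span {w}) q ^ (n - r + 1) ∣
          Ideal.Quotient.mk (Ideal.span {w}) (intDiscr P B x) := by
        rw [hD]
        exact Dvd.dvd.mul_left ((hqt.pow_pow.dvd).trans hdvd) _
      rw [hDeq, map_mul, map_pow] at h1
      have h2 : Ideal.Quotient.mk (Ideal.span {w}) q ^ (a + 1) ∣
          Ideal.Quotient.mk (Ideal.span {w}) q ^ a * Ideal.Quotient.mk (Ideal.span {w}) D₁ :=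
        (pow_dvd_pow _ (by omega)).trans h1
      rw [pow_succ, mul_dvd_mul_iff_left (pow_ne_zero _ hmkq_prime.ne_zero)] at h2
      exact hD₁ ((mem_span_pair_iff_mk_dvd w q D₁).mpr h2)
  · -- Case 2: no branch point at this closed point
    have hnoS' : ∀ s ∈ S, s ∉ Ideal.span {w, q} := hq𝔪 ▸ hnoS
    obtain ⟨a, D₁, hDeq, hD₁⟩ := hA4 P (Ideal.span {w, q}) w hw (intDiscr P B x) hD0 (by
      intro π hπ hπD hπ𝔪
      by_contra hne
      refine hunram π hπ hπ𝔪 hne ?_ hπD
      intro s hs hπs
      exact hnoS' s hs (Ideal.mem_of_dvd _ hπs.dvd hπ𝔪))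
    have ha0 : a = 0 := by
      by_contra h
      apply hwD
      rw [hDeq]
      exact Dvd.dvd.mul_right (dvd_pow_self w h) _
    subst ha0
    rw [pow_zero, one_mul] at hDeq
    obtain ⟨hli, g, hg, hsp⟩ := hx
    -- inverse of `g` modulo the maximal ideal
    obtain ⟨g', hg'⟩ : ∃ g', g * g' - 1 ∈ Ideal.span {w, q} := by
      have := h𝔪max.exists_inv hg
      obtain ⟨g', m, hm, hgm⟩ := this
      refine ⟨g', ?_⟩
      have : g * g' - 1 = -m := by linear_combination hgm
      rw [this]; exact neg_mem hm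
    refine ⟨n, fun i => Ideal.Quotient.mk _ (x i), ?_, ?_⟩
    · intro c
      obtain ⟨c, rfl⟩ := Ideal.Quotient.mk_surjective c
      have hgc := hsp c
      rw [Submodule.mem_span_range_iff_exists_fun] at hgc
      obtain ⟨cf, hcf⟩ := hgc
      refine ⟨fun i => Ideal.Quotient.mk _ (g' * cf i), ?_⟩
      refine mk_sub_sum_mem_radical w x q t hqt c (fun i => g' * cf i) ?_
      apply Ideal.le_radical
      have e : c - ∑ i, (g' * cf i) • x i = algebraMap P B (-(g * g' - 1)) * c := by
        have : ∑ i, (g' * cf i) • x i = g' • (g • c) := by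
          rw [← hcf, Finset.smul_sum]
          exact Finset.sum_congr rfl fun i _ => by rw [mul_smul]
        rw [this, Algebra.smul_def, Algebra.smul_def, map_neg, map_sub, map_mul, map_one]
        ring
      rw [e]
      refine Ideal.mul_mem_right _ _ ?_
      have hmap : Ideal.map (algebraMap P B) (Ideal.span {w, q})
          = Ideal.span {algebraMap P B w, algebraMap P B q} := by
        rw [Ideal.map_span]; congr 1; simp [Set.image_pair]
      rw [← hmap]
      exact Ideal.mem_map_of_mem _ (neg_mem hg')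
    · intro hdvd
      have hnn : n - n + 1 = 1 := by omega
      rw [hnn, pow_one] at hdvd
      have h1 : t ∣ Ideal.Quotient.mk (Ideal.span {w}) (intDiscr P B x) := by
        rw [hD]; exact Dvd.dvd.mul_left hdvd _
      apply hD₁
      rw [← hDeq, mem_span_pair_iff_mk_dvd]
      exact hqt.dvd.trans h1

end Fermat.Agent.S18.B12.H33

end
end
-- ===== PACK-END S18/B12/H33/CoreMain.lean

-- ===== PACK-BEGIN S18/B12/H33/Regular.lean
section



/-!
# S18 b2.5 (helper33): OUTPUT O1 — `B2RegularStatement` from the pieces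

`B2RegularStatement` (special fibre of the normal model is regular = `H754.RegularAlong (C w)`)
from `B2CoreAbsStatement` (heart), A0 (regular sequence), A8 (normality from discriminant bounds),
A9 (regular along a Dedekind fibre) and A1 (instantiation `P = R[X]`).
-/

set_option autoImplicit false

noncomputable section

namespace Fermat.Agent.S18.B12.H33

open Polynomial

universe u v

section Abs

variable {P : Type u} [CommRing P] [IsDomain P] [IsIntegrallyClosed P]
  {B : Type v} [CommRing B] [IsDomain B] [IsIntegrallyClosed B] [Algebra P B]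
  [Module.Finite P B] [Module.IsTorsionFree P B]

/-- `B/wB` is torsion-free over `P/(w)` (from A0). -/
theorem isTorsionFree_quotient (hA0 : RegSeqAbsStatement.{u, v}) (w : P) (hw : Prime w) :
    Module.IsTorsionFree (P ⧸ Ideal.span {w}) (B ⧸ (Ideal.span {w}).map (algebraMap P B)) := by
  haveI : IsDomain (P ⧸ Ideal.span {w}) := by
    rw [Ideal.Quotient.isDomain_iff_prime]
    exact (Ideal.span_singleton_prime hw.ne_zero).mpr hw
  haveI : Algebra.IsIntegral P B := inferInstance
  have hJ : (Ideal.span {w}).map (algebraMap P B) = Ideal.span {algebraMap P B w} := by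
    rw [Ideal.map_span, Set.image_singleton]
  refine Module.IsTorsionFree.of_smul_eq_zero fun a b hab => ?_
  obtain ⟨a, rfl⟩ := Ideal.Quotient.mk_surjective a
  obtain ⟨b, rfl⟩ := Ideal.Quotient.mk_surjective b
  by_cases ha : w ∣ a
  · left
    exact Ideal.Quotient.eq_zero_iff_mem.mpr (Ideal.mem_span_singleton.mpr ha)
  · right
    rw [Ideal.Quotient.mk_smul_mk_quotient_map_quotient, Ideal.Quotient.eq_zero_iff_mem, hJ,
      Ideal.mem_span_singleton] at hab
    obtain ⟨c, hc⟩ := hab
    obtain ⟨b'', hb, -⟩ := hA0 P B a w hw ha b c hc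
    rw [Ideal.Quotient.eq_zero_iff_mem, hJ, Ideal.mem_span_singleton]
    exact ⟨b'', hb⟩

end Abs

end Fermat.Agent.S18.B12.H33

namespace Fermat.Agent.S18.B12.H33

open Polynomial

universe u v

/-- In `P/(w)`, the image of `p` is prime if `(w, p)` is maximal and `w ∤ p`. -/
theorem prime_mk_of_isMaximal {P : Type u} [CommRing P] [IsDomain P] (w p : P) (hw : Prime w)
    (hmax : (Ideal.span {w, p}).IsMaximal) (hwp : ¬ w ∣ p) :
    Prime (Ideal.Quotient.mk (Ideal.span {w}) p) := by
  haveI : IsDomain (P ⧸ Ideal.span {w}) := by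
    rw [Ideal.Quotient.isDomain_iff_prime]
    exact (Ideal.span_singleton_prime hw.ne_zero).mpr hw
  have hne : Ideal.Quotient.mk (Ideal.span {w}) p ≠ 0 := by
    intro h
    exact hwp (Ideal.mem_span_singleton.mp (Ideal.Quotient.eq_zero_iff_mem.mp h))
  rw [← Ideal.span_singleton_prime hne]
  have hcomap : Ideal.comap (Ideal.Quotient.mk (Ideal.span {w}))
      (Ideal.span {Ideal.Quotient.mk (Ideal.span {w}) p}) = Ideal.span {w, p} :=
    (span_pair_eq_comap w p).symm
  have hmap : Ideal.span {Ideal.Quotient.mk (Ideal.span {w}) p}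
      = Ideal.map (Ideal.Quotient.mk (Ideal.span {w})) (Ideal.span {w, p}) := by
    rw [← hcomap, Ideal.map_comap_of_surjective _ Ideal.Quotient.mk_surjective]
  rw [hmap]
  rcases Ideal.map_eq_top_or_isMaximal_of_surjective (Ideal.Quotient.mk (Ideal.span {w}))
    Ideal.Quotient.mk_surjective hmax with h | h
  · exfalso
    rw [← hmap] at h
    have : Ideal.span {w, p} = ⊤ := by
      rw [← hcomap, h, Ideal.comap_top]
    exact hmax.ne_top this
  · exact h.isPrime

theorem b2Regular_of_pieces
    (hcore : B2CoreAbsStatement.{u, v}) (hA0 : RegSeqAbsStatement.{u, v})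
    (hA8 : IntClosedOfDiscrStatement.{u, v}) (hA9 : RegularAlongOfDedekindStatement.{v})
    (hA1 : PolyInstStatement.{u}) : B2RegularStatement.{u, v} := by
  intro R _ _ _ _ w hw B _ _ _ _ _ _ hdom hsep S hS hNC 𝔪 h𝔪 hw𝔪
  obtain ⟨hCw, hΛ, hΛ₀, hℚ, hc⟩ := hA1 R w hw
  refine hA9 B (algebraMap R[X] B (C w)) ?_ 𝔪 h𝔪 hw𝔪
  have hJ : (Ideal.span {(C w : R[X])}).map (algebraMap R[X] B)
      = Ideal.span {algebraMap R[X] B (C w)} := by
    rw [Ideal.map_span, Set.image_singleton]
  rw [← hJ]
  -- instances on the special fibre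
  haveI hJprime : ((Ideal.span {(C w : R[X])}).map (algebraMap R[X] B)).IsPrime := by
    rw [hJ]; exact (Ideal.span_singleton_prime hdom.ne_zero).mpr hdom
  haveI := hΛ
  haveI : IsDomain (R[X] ⧸ Ideal.span {(C w : R[X])}) := by
    rw [Ideal.Quotient.isDomain_iff_prime]
    exact (Ideal.span_singleton_prime hCw.ne_zero).mpr hCw
  haveI tf := isTorsionFree_quotient (B := B) hA0 (C w : R[X]) hCw
  haveI : Module.Finite (R[X] ⧸ Ideal.span {(C w : R[X])})
      (B ⧸ (Ideal.span {(C w : R[X])}).map (algebraMap R[X] B)) :=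
    Module.Finite.of_restrictScalars_finite R[X] _ _
  haveI : Module.Free (R[X] ⧸ Ideal.span {(C w : R[X])})
      (B ⧸ (Ideal.span {(C w : R[X])}).map (algebraMap R[X] B)) :=
    Module.free_of_finite_type_torsion_free'
  let bb := Module.finBasis (R[X] ⧸ Ideal.span {(C w : R[X])})
      (B ⧸ (Ideal.span {(C w : R[X])}).map (algebraMap R[X] B))
  -- translate the hypotheses
  classical
  have hS1' : ∀ s ∈ S.image (fun c => (X - C c : R[X])), Prime s ∧ ¬ Associated s (C w) ∧
      (Ideal.span {(C w : R[X]), s}).IsMaximal ∧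
      IsPrincipalIdealRing (R[X] ⧸ Ideal.span {s}) := by
    intro s hs
    obtain ⟨c, -, rfl⟩ := Finset.mem_image.mp hs
    obtain ⟨h1, h2, h3, h4, -⟩ := hc c
    exact ⟨h1, h2, h3, h4⟩
  have hS2' : ∀ s ∈ S.image (fun c => (X - C c : R[X])),
      ∀ s' ∈ S.image (fun c => (X - C c : R[X])), s ≠ s' →
      s' ∉ Ideal.span {(C w : R[X]), s} := by
    intro s hs s' hs' hne hmem
    obtain ⟨c, hcS, rfl⟩ := Finset.mem_image.mp hs
    obtain ⟨c', hcS', rfl⟩ := Finset.mem_image.mp hs'
    have hcc : c ≠ c' := fun h => hne (by rw [h])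
    exact (hc c).2.2.2.2 c' hmem (hS c hcS c' hcS' hcc)
  have hNC' : ∀ π : R[X], Prime π → ¬ Associated π (C w) →
      (∀ s ∈ S.image (fun c => (X - C c : R[X])), ¬ Associated π s) →
      (Ideal.span {algebraMap R[X] B π}).IsRadical := by
    intro π hπ hπw hπS
    exact hNC π hπ hπw (fun c hcS => hπS _ (Finset.mem_image_of_mem _ hcS))
  have hcore' := hcore R[X] (C w) hCw hΛ hΛ₀ hℚ B hsep (S.image (fun c => (X - C c : R[X])))
    hS1' hS2' hNC'
  -- a prime of `Λ`
  obtain ⟨h01, h02, h03, -, -⟩ := hc 0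
  have hw0 : ¬ (C w : R[X]) ∣ X - C 0 := by
    intro hdvd
    obtain ⟨r, hr⟩ := hdvd
    rcases h01.irreducible.isUnit_or_isUnit hr with h | h
    · exact hCw.not_unit h
    · exact h02 ⟨h.unit⁻¹, by rw [hr, mul_assoc, IsUnit.mul_val_inv, mul_one]⟩
  have ht₀ := prime_mk_of_isMaximal (C w : R[X]) (X - C 0) hCw h03 hw0
  have hdisc := (hcore' _ ht₀ _ bb).1
  haveI : IsIntegrallyClosed (B ⧸ (Ideal.span {(C w : R[X])}).map (algebraMap R[X] B)) :=
    hA8 _ _ _ bb hdisc (fun t ht => (hcore' t ht _ bb).2)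
  haveI : IsNoetherianRing B :=
    isNoetherian_of_tower R[X] (isNoetherian_of_isNoetherianRing_of_finite R[X] B)
  haveI : Ring.DimensionLEOne (B ⧸ (Ideal.span {(C w : R[X])}).map (algebraMap R[X] B)) :=
    Ring.DimensionLEOne.of_isIntegral (R[X] ⧸ Ideal.span {(C w : R[X])}) _
  exact { }

end Fermat.Agent.S18.B12.H33

end
end
-- ===== PACK-END S18/B12/H33/Regular.lean

-- ===== PACK-BEGIN S18/H576/Unif.lean
section




/-!
# S18 / MOD-ASM (helper576): the uniformiser facts (`UnifFacts`) from `H602.isDiscreteValuationRing_RE`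
-/

set_option autoImplicit false

noncomputable section

namespace Fermat.Agent.S18.H576

open ModularCurve AlgebraicCurve HahnSeries Fermat.Agent.S18 Fermat.Agent.S18.Mod
open Fermat.Agent.S18.H602 (RE mem_RE toA)

variable {M : ℕ} {A : ValuationSubring Qb} {E : IntermediateField ℚ Qb}

/-- The inclusion `R_E → Ω`. -/
def iotaR (M : ℕ) (A : ValuationSubring Qb) (E : IntermediateField ℚ Qb) : RE A E →+* Om M :=
  (iota M).comp ((algebraMap E Qb).comp (RE A E).subtype)

theorem iotaR_apply (r : RE A E) : iotaR M A E r = iota M ((r : E) : Qb) := rfl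

theorem iotaR_injective : Function.Injective (iotaR M A E) := by
  intro r s h
  have h1 : ((r : E) : Qb) = ((s : E) : Qb) := iota_injective M h
  exact Subtype.ext (Subtype.ext h1)

theorem iotaR_mem_Rc (r : RE A E) : iotaR M A E r ∈ Rc M A E :=
  iota_mem_Rc (mem_RE.mp r.2) (r : E).2

theorem mem_Rc_iff_exists_iotaR {y : Om M} : y ∈ Rc M A E ↔ ∃ r : RE A E, iotaR M A E r = y := by
  constructor
  · intro hy
    obtain ⟨a, haA, haE, rfl⟩ := mem_Rc_iff.mp hy
    exact ⟨⟨⟨a, haE⟩, haA⟩, rfl⟩
  · rintro ⟨r, rfl⟩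
    exact iotaR_mem_Rc r

theorem iotaR_inv_mem_Rc_iff (r : RE A E) : (iotaR M A E r)⁻¹ ∈ Rc M A E ↔ r = 0 ∨ IsUnit r := by
  constructor
  · intro h
    by_cases hr : r = 0
    · exact Or.inl hr
    right
    obtain ⟨s, hs⟩ := mem_Rc_iff_exists_iotaR.mp h
    refine isUnit_iff_exists_inv.mpr ⟨s, ?_⟩
    apply iotaR_injective (M := M)
    rw [map_mul, hs, map_one]
    exact mul_inv_cancel₀ (fun h0 => hr (iotaR_injective (by rw [h0, map_zero])))
  · rintro (rfl | hu)
    · rw [map_zero, inv_zero]
      exact zero_mem _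
    · obtain ⟨s, hs⟩ := isUnit_iff_exists_inv.mp hu
      have : (iotaR M A E r)⁻¹ = iotaR M A E s := by
        have h1 : iotaR M A E r * iotaR M A E s = 1 := by rw [← map_mul, hs, map_one]
        exact inv_eq_of_mul_eq_one_right h1
      rw [this]
      exact iotaR_mem_Rc s

/-- Every element of the residue field of `R_E` is algebraic over `𝔽_ℓ`. -/
theorem exists_polynomial_residue (r : RE A E) {ℓ : ℕ} (hℓ : ℓ.Prime) :
    ∃ P : Polynomial ℤ, P.map (Int.castRingHom (ZMod ℓ)) ≠ 0 ∧
      Polynomial.eval₂ (Int.castRingHom (RE A E)) r P = 0 := by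
  haveI : Fact ℓ.Prime := ⟨hℓ⟩
  have halgQ : IsAlgebraic ℚ ((r : E) : Qb) := (AlgebraicClosure.isAlgebraic ℚ).isAlgebraic _
  have halgZ : IsAlgebraic ℤ ((r : E) : Qb) := (IsFractionRing.isAlgebraic_iff ℤ ℚ Qb).mpr halgQ
  obtain ⟨P, hP0, hP⟩ := halgZ
  have hprim : P.primPart.IsPrimitive := Polynomial.isPrimitive_primPart P
  have hev : Polynomial.aeval ((r : E) : Qb) P.primPart = 0 := by
    have h1 := P.eq_C_content_mul_primPart
    rw [h1, map_mul, Polynomial.aeval_C] at hP
    rcases mul_eq_zero.mp hP with h | h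
    · exfalso
      have : (P.content : Qb) = 0 := by simpa using h
      have h2 : P.content = 0 := by exact_mod_cast this
      exact hP0 (Polynomial.content_eq_zero_iff.mp h2)
    · exact h
  refine ⟨P.primPart, ?_, ?_⟩
  · intro h0
    have hdvd : Polynomial.C (ℓ : ℤ) ∣ P.primPart := by
      rw [Polynomial.C_dvd_iff_dvd_coeff]
      intro i
      have := congrArg (fun Q : Polynomial (ZMod ℓ) => Q.coeff i) h0
      simp only [Polynomial.coeff_map, Polynomial.coeff_zero, eq_intCast] at this
      exact (ZMod.intCast_zmod_eq_zero_iff_dvd _ _).mp this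
    have hu := hprim _ hdvd
    have : IsUnit (ℓ : ℤ) := hu
    rw [Int.isUnit_iff] at this
    have hℓ2 := hℓ.two_le
    omega
  · have hinj : Function.Injective ((algebraMap E Qb).comp (RE A E).subtype) := by
      intro a b h
      exact Subtype.ext (Subtype.ext h)
    apply hinj
    rw [map_zero, Polynomial.hom_eval₂]
    have : (((algebraMap E Qb).comp (RE A E).subtype).comp (Int.castRingHom (RE A E))) =
        algebraMap ℤ Qb := RingHom.ext_int _ _
    rw [this]
    exact hev

end Fermat.Agent.S18.H576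

namespace Fermat.Agent.S18.H576

open ModularCurve AlgebraicCurve HahnSeries Fermat.Agent.S18 Fermat.Agent.S18.Mod
open Fermat.Agent.S18.H602 (RE mem_RE toA)

variable {M : ℕ} {A : ValuationSubring Qb} {E : IntermediateField ℚ Qb}

theorem natCast_mem_maximalIdeal_RE {ℓ : ℕ} (hA : A.LiesOverPrime ℓ) :
    ((ℓ : ℕ) : RE A E) ∈ IsLocalRing.maximalIdeal (RE A E) := by
  rw [IsLocalRing.mem_maximalIdeal, mem_nonunits_iff]
  have h := H602.natCast_not_isUnit_RE A E (ℓ := ℓ) hA
  intro hu
  apply h
  have : (⟨(ℓ : E), H602.natCast_mem_RE A E ℓ⟩ : RE A E) = ((ℓ : ℕ) : RE A E) := by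
    apply Subtype.ext
    simp
  rw [this]
  exact hu

theorem natCast_residue_RE_eq_zero {ℓ : ℕ} (hA : A.LiesOverPrime ℓ) :
    ((ℓ : ℕ) : IsLocalRing.ResidueField (RE A E)) = 0 := by
  have := (IsLocalRing.residue_eq_zero_iff ((ℓ : ℕ) : RE A E)).mpr
    (natCast_mem_maximalIdeal_RE hA)
  simpa using this

/-- The residue field of `R_E` is perfect: Frobenius is surjective modulo the maximal ideal. -/
theorem exists_pow_sub_mem_maximalIdeal {ℓ : ℕ} (hℓ : ℓ.Prime) (hA : A.LiesOverPrime ℓ)
    (r : RE A E) : ∃ s : RE A E, r - s ^ ℓ ∈ IsLocalRing.maximalIdeal (RE A E) := by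
  haveI : Fact ℓ.Prime := ⟨hℓ⟩
  set κ := IsLocalRing.ResidueField (RE A E) with hκ
  haveI : CharP κ ℓ := (CharP.charP_iff_prime_eq_zero hℓ).mpr (natCast_residue_RE_eq_zero hA)
  letI : Algebra (ZMod ℓ) κ := ZMod.algebra κ ℓ
  haveI : Algebra.IsAlgebraic (ZMod ℓ) κ := by
    refine ⟨fun x => ?_⟩
    obtain ⟨r', rfl⟩ := IsLocalRing.residue_surjective x
    obtain ⟨P, hP0, hP⟩ := exists_polynomial_residue r' hℓ
    refine ⟨P.map (Int.castRingHom (ZMod ℓ)), hP0, ?_⟩
    rw [Polynomial.aeval_def, Polynomial.eval₂_map]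
    have h1 : (algebraMap (ZMod ℓ) κ).comp (Int.castRingHom (ZMod ℓ)) =
        (IsLocalRing.residue (RE A E)).comp (Int.castRingHom (RE A E)) := RingHom.ext_int _ _
    rw [h1, ← Polynomial.hom_eval₂, hP, map_zero]
  haveI : PerfectField κ := Algebra.IsAlgebraic.perfectField (ZMod ℓ)
  haveI : ExpChar κ ℓ := ExpChar.prime hℓ
  obtain ⟨y, hy⟩ := surjective_frobenius κ ℓ (IsLocalRing.residue (RE A E) r)
  obtain ⟨s, rfl⟩ := IsLocalRing.residue_surjective y
  refine ⟨s, ?_⟩
  rw [← IsLocalRing.residue_eq_zero_iff, map_sub, map_pow, sub_eq_zero]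
  rw [frobenius_def] at hy
  exact hy.symm

/-- The uniformiser facts for `w = ` image of a uniformiser of `R_E`. -/
theorem exists_unifFacts (M : ℕ) {A : ValuationSubring Qb} (E : IntermediateField ℚ Qb)
    [FiniteDimensional ℚ E] {ℓ : ℕ} (hℓ : ℓ.Prime) (hA : A.LiesOverPrime ℓ) :
    ∃ ϖ : RE A E, Irreducible ϖ ∧ UnifFacts M A E (iotaR M A E ϖ) := by
  haveI : IsDiscreteValuationRing (RE A E) :=
    H602.isDiscreteValuationRing_RE A E hℓ.ne_zero hA
  obtain ⟨ϖ, hϖ⟩ := IsDiscreteValuationRing.exists_irreducible (RE A E)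
  have hϖ0 : ϖ ≠ 0 := hϖ.ne_zero
  have hw0 : iotaR M A E ϖ ≠ 0 := fun h => hϖ0 (iotaR_injective (by rw [h, map_zero]))
  have hmax : ∀ r : RE A E, r ∈ IsLocalRing.maximalIdeal (RE A E) → ∃ b : RE A E, r = b * ϖ := by
    intro r hr
    rw [hϖ.maximalIdeal_eq, Ideal.mem_span_singleton] at hr
    obtain ⟨b, hb⟩ := hr
    exact ⟨b, by rw [hb, mul_comm]⟩
  have hdiv : ∀ b : RE A E, iotaR M A E (b * ϖ) * (iotaR M A E ϖ)⁻¹ = iotaR M A E b := by
    intro b
    rw [map_mul, mul_assoc, mul_inv_cancel₀ hw0, mul_one]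
  refine ⟨ϖ, hϖ, ⟨iotaR_mem_Rc ϖ, hw0, ?_, ?_, ?_, ?_⟩⟩
  · intro h
    rcases (iotaR_inv_mem_Rc_iff ϖ).mp h with h0 | hu
    · exact hϖ0 h0
    · exact hϖ.not_isUnit hu
  · intro y hy hyinv
    obtain ⟨r, rfl⟩ := mem_Rc_iff_exists_iotaR.mp hy
    have hr : r ∈ IsLocalRing.maximalIdeal (RE A E) := by
      rw [IsLocalRing.mem_maximalIdeal, mem_nonunits_iff]
      intro hu
      exact hyinv ((iotaR_inv_mem_Rc_iff r).mpr (Or.inr hu))
    obtain ⟨b, rfl⟩ := hmax r hr
    rw [hdiv]
    exact iotaR_mem_Rc b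
  · intro y hy hy0
    obtain ⟨r, rfl⟩ := mem_Rc_iff_exists_iotaR.mp hy
    have hr0 : r ≠ 0 := fun h => hy0 (by rw [h, map_zero])
    obtain ⟨n, u, hu⟩ := IsDiscreteValuationRing.eq_unit_mul_pow_irreducible hr0 hϖ
    refine ⟨n, ?_⟩
    have h1 : iotaR M A E r * ((iotaR M A E ϖ)⁻¹) ^ n = iotaR M A E (u : RE A E) := by
      rw [hu, map_mul, map_pow, mul_assoc, ← mul_pow, mul_inv_cancel₀ hw0, one_pow, mul_one]
    rw [h1]
    exact ⟨iotaR_mem_Rc _, (iotaR_inv_mem_Rc_iff _).mpr (Or.inr u.isUnit)⟩
  · refine ⟨ℓ, hℓ, ?_, ?_⟩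
    · obtain ⟨b, hb⟩ := hmax _ (natCast_mem_maximalIdeal_RE (E := E) hA)
      have h1 : ((ℓ : ℕ) : Om M) = iotaR M A E (b * ϖ) := by
        rw [← hb, map_natCast]
      rw [h1, hdiv]
      exact iotaR_mem_Rc b
    · intro y hy
      obtain ⟨r, rfl⟩ := mem_Rc_iff_exists_iotaR.mp hy
      obtain ⟨s, hs⟩ := exists_pow_sub_mem_maximalIdeal hℓ hA r
      obtain ⟨b, hb⟩ := hmax _ hs
      refine ⟨iotaR M A E s, iotaR_mem_Rc s, ?_⟩
      have h1 : iotaR M A E r - iotaR M A E s ^ ℓ = iotaR M A E (b * ϖ) := by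
        rw [← hb, map_sub, map_pow]
      rw [h1, hdiv]
      exact iotaR_mem_Rc b

end Fermat.Agent.S18.H576

end
end
-- ===== PACK-END S18/H576/Unif.lean

-- ===== PACK-BEGIN S18/H576/Transport.lean
section



/-!
# S18 / node_mod (helper576): TRANSPORT between the `E`-level and the concrete objects of `Mod/Defs`

`E ⊆ Q̄` an intermediate field, `R_E = H602.RE A E = A ∩ E`, `κ_E` its residue field,
`F_E = laurentBaseChange E (modularFunctionFieldFull M) ⊆ E((q))`.

* `descendsTo_of_mem_Fc`     : `f ∈ Fc M E` ⟹ `f` comes from `F_E`;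
* `exists_mem_Fc_of_mem_FE`  : `g ∈ F_E` ⟹ `g` is (the `q`-expansion of) an element of `Fc M E`;
* `OE M A E : Subring R_E((q))` : the integral series lying in `F_E`;
  `phi : OE →+* Ω` (injective, values in `Fc M E`), `rho : OE →+* κ_E((q))` (reduction);
* `exists_rep_of_mem_VcSet`  : `f ∈ VcSet M A E` ⟹ `f · phi V₂ = phi V₁` with `rho V₂ ≠ 0`;
* `mem_VcSet_of_rep`         : the converse;
* `exists_div_of_rho_eq_zero`: `rho V = 0` ⟹ `phi V · w⁻¹ = phi V'` (for `w` with `w_gen`).
-/

set_option autoImplicit false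

noncomputable section

namespace Fermat.Agent.S18.H576

open ModularCurve AlgebraicCurve HahnSeries Fermat.Agent.S18 Fermat.Agent.S18.Mod
open Fermat.Agent.S18.H602 (RE mem_RE toA)

variable {M : ℕ} {A : ValuationSubring Qb} {E : IntermediateField ℚ Qb}

/-- Elements of `Fc M E` are defined over `E` (inside the base change `F_E`). -/
theorem descendsTo_of_mem_Fc {f : Om M} (hf : f ∈ Fc M E) :
    H602.DescendsTo (modularFunctionFieldFull M) E (f : LaurentSeries Qb) := by
  unfold Fc at hf
  induction hf using Subfield.closure_induction with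
  | mem y hy =>
      rcases hy with hy | ⟨d, hd, hdM, rfl⟩
      · obtain ⟨a, ha, rfl⟩ := mem_Ec_iff.mp hy
        refine ⟨algebraMap E (LaurentSeries E) ⟨a, ha⟩,
          (laurentBaseChange E (modularFunctionFieldFull M)).algebraMap_mem _, ?_⟩
        rw [H602.coeffMap_algebraMap']
        rfl
      · exact H602.descendsTo_coeffEmb E (jqd_mem_full M hdM)
  | one => exact H602.DescendsTo.one E
  | add x y _ _ hx hy => exact hx.add hy
  | neg x _ hx => exact hx.neg
  | inv x _ hx => exact hx.inv
  | mul x y _ _ hx hy => exact hx.mul hy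

/-- Elements of `F_E` give elements of `Fc M E`. -/
theorem exists_mem_Fc_of_mem_FE {g : LaurentSeries E}
    (hg : g ∈ laurentBaseChange E (modularFunctionFieldFull M)) :
    ∃ f ∈ Fc M E, (f : LaurentSeries Qb) = coeffMap (algebraMap E Qb) g := by
  rw [mem_laurentBaseChange_iff] at hg
  induction hg using Subfield.closure_induction with
  | mem y hy =>
      rcases hy with ⟨a, rfl⟩ | ⟨z, hz, rfl⟩
      · refine ⟨iota M (a : Qb), Ec_le_Fc (iota_mem_Ec a.2), ?_⟩
        rw [H602.coeffMap_algebraMap']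
        rfl
      · obtain ⟨f, hf, hfz⟩ := exists_mem_Fc_of_mem_full (M := M) (E := E) hz
        refine ⟨f, hf, ?_⟩
        rw [hfz, H602.coeffMap_coeffEmb']
  | one => exact ⟨1, one_mem _, by rw [map_one]; rfl⟩
  | add x y _ _ hx hy =>
      obtain ⟨f, hf, hfx⟩ := hx
      obtain ⟨g, hg, hgy⟩ := hy
      exact ⟨f + g, add_mem hf hg, by rw [map_add, ← hfx, ← hgy]; rfl⟩
  | neg x _ hx =>
      obtain ⟨f, hf, hfx⟩ := hx
      exact ⟨-f, neg_mem hf, by rw [map_neg, ← hfx]; rfl⟩
  | inv x _ hx =>
      obtain ⟨f, hf, hfx⟩ := hx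
      exact ⟨f⁻¹, inv_mem hf, by rw [map_inv₀, ← hfx]; rfl⟩
  | mul x y _ _ hx hy =>
      obtain ⟨f, hf, hfx⟩ := hx
      obtain ⟨g, hg, hgy⟩ := hy
      exact ⟨f * g, mul_mem hf hg, by rw [map_mul, ← hfx, ← hgy]; rfl⟩

theorem C_mem_FE (M : ℕ) (c : E) :
    HahnSeries.C (Γ := ℤ) c ∈ laurentBaseChange E (modularFunctionFieldFull M) := by
  have := (laurentBaseChange E (modularFunctionFieldFull M)).algebraMap_mem c
  rwa [algebraMap_laurentSeries_eq_single, ← HahnSeries.C_apply] at this

/-- The ring of integral series over `R_E` lying in `F_E`. -/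
def OE (M : ℕ) (A : ValuationSubring Qb) (E : IntermediateField ℚ Qb) :
    Subring (LaurentSeries (RE A E)) :=
  (laurentBaseChange E (modularFunctionFieldFull M)).toSubfield.toSubring.comap
    (coeffMap (RE A E).subtype)

theorem mem_OE {V : LaurentSeries (RE A E)} :
    V ∈ OE M A E ↔
      coeffMap (RE A E).subtype V ∈ laurentBaseChange E (modularFunctionFieldFull M) :=
  Iff.rfl

/-- `R_E((q)) → Q̄((q))`. -/
def incQ (A : ValuationSubring Qb) (E : IntermediateField ℚ Qb) :
    LaurentSeries (RE A E) →+* LaurentSeries Qb :=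
  (coeffMap (algebraMap E Qb)).comp (coeffMap (RE A E).subtype)

theorem incQ_apply (V : LaurentSeries (RE A E)) :
    incQ A E V = coeffMap (algebraMap E Qb) (coeffMap (RE A E).subtype V) := rfl

theorem incQ_eq (V : LaurentSeries (RE A E)) :
    incQ A E V = coeffMap A.subtype (coeffMap (toA A E) V) := by
  rw [incQ_apply, coeffMap_coeffMap, coeffMap_coeffMap, H602.subtype_comp_toA]

theorem incQ_injective : Function.Injective (incQ A E) := by
  intro x y h
  have h1 := H602.coeffMap_injective (algebraMap E Qb) (algebraMap E Qb).injective h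
  exact H602.coeffMap_injective (RE A E).subtype Subtype.val_injective h1

theorem incQ_mem (V : OE M A E) :
    incQ A E (V : LaurentSeries (RE A E)) ∈ modularFunctionFieldBar M :=
  H602.coeffMap_mem_laurentBaseChange _ _ V.2

/-- The element of `Ω` defined by an integral series. -/
def phi (M : ℕ) (A : ValuationSubring Qb) (E : IntermediateField ℚ Qb) : OE M A E →+* Om M where
  toFun V := ⟨incQ A E (V : LaurentSeries (RE A E)), incQ_mem V⟩
  map_one' := Subtype.ext (by simp)
  map_mul' x y := Subtype.ext (by simp)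
  map_zero' := Subtype.ext (by simp)
  map_add' x y := Subtype.ext (by simp)

theorem coe_phi (V : OE M A E) :
    ((phi M A E V : Om M) : LaurentSeries Qb) = incQ A E (V : LaurentSeries (RE A E)) := rfl

theorem phi_injective : Function.Injective (phi M A E) := by
  intro x y h
  have h1 : incQ A E (x : LaurentSeries (RE A E)) = incQ A E (y : LaurentSeries (RE A E)) :=
    congrArg Subtype.val h
  exact Subtype.ext (incQ_injective h1)

theorem phi_mem_Fc (V : OE M A E) : phi M A E V ∈ Fc M E := by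
  obtain ⟨f, hf, hfV⟩ := exists_mem_Fc_of_mem_FE (M := M) V.2
  have : phi M A E V = f := Subtype.ext (by rw [coe_phi, incQ_apply, hfV])
  rw [this]
  exact hf

/-- Reduction of an integral series. -/
def rho (M : ℕ) (A : ValuationSubring Qb) (E : IntermediateField ℚ Qb) :
    OE M A E →+* LaurentSeries (IsLocalRing.ResidueField (RE A E)) :=
  (coeffMap (IsLocalRing.residue (RE A E))).comp (OE M A E).subtype

theorem rho_apply (V : OE M A E) :
    rho M A E V = coeffMap (IsLocalRing.residue (RE A E)) (V : LaurentSeries (RE A E)) := rfl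

/-- The reduction over `A` of the series over `A` attached to `V`. -/
theorem residue_toA_eq (V : LaurentSeries (RE A E)) :
    coeffMap (IsLocalRing.residue A) (coeffMap (toA A E) V) =
      coeffMap (H602.resMap A E) (coeffMap (IsLocalRing.residue (RE A E)) V) :=
  H602.coeffMap_residue_toA A E V

theorem residue_toA_ne_zero_iff (V : LaurentSeries (RE A E)) :
    coeffMap (IsLocalRing.residue A) (coeffMap (toA A E) V) ≠ 0 ↔
      coeffMap (IsLocalRing.residue (RE A E)) V ≠ 0 := by
  rw [residue_toA_eq]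
  constructor
  · intro h h0
    exact h (by rw [h0, map_zero])
  · intro h h0
    apply h
    apply H602.coeffMap_injective (H602.resMap A E) (H602.resMap_injective A E)
    rw [h0, map_zero]

theorem isIntE_toA (V : OE M A E) :
    IsIntE M A E (coeffMap (toA A E) (V : LaurentSeries (RE A E))) := by
  refine ⟨fun n => ?_, phi M A E V, phi_mem_Fc V, ?_⟩
  · rw [coeffMap_coeff]
    exact ((V : LaurentSeries (RE A E)).coeff n : E).2
  · rw [coe_phi, incQ_eq]

/-- Every element of `VcSet` is a quotient of two integral series over `R_E`, the denominator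
with nonzero reduction. -/
theorem exists_rep_of_mem_VcSet {f : Om M} (hf : f ∈ VcSet M A E) :
    ∃ V₁ V₂ : OE M A E, rho M A E V₂ ≠ 0 ∧ f * phi M A E V₂ = phi M A E V₁ := by
  obtain ⟨-, U₁, U₂, ⟨-, g₁, hg₁, hgU₁⟩, ⟨-, g₂, hg₂, hgU₂⟩, hne, heq⟩ := hf
  have d₁ := descendsTo_of_mem_Fc hg₁
  have d₂ := descendsTo_of_mem_Fc hg₂
  rw [hgU₁] at d₁
  rw [hgU₂] at d₂
  obtain ⟨V₁, hV₁, hVU₁⟩ := H602.exists_series_descent U₁ d₁
  obtain ⟨V₂, hV₂, hVU₂⟩ := H602.exists_series_descent U₂ d₂
  refine ⟨⟨V₁, hV₁⟩, ⟨V₂, hV₂⟩, ?_, ?_⟩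
  · rw [rho_apply]
    rw [← hVU₂] at hne
    exact (residue_toA_ne_zero_iff V₂).mp hne
  · apply Subtype.ext
    show (f : LaurentSeries Qb) * incQ A E V₂ = incQ A E V₁
    rw [incQ_eq, incQ_eq, hVU₁, hVU₂]
    exact heq

/-- Conversely a quotient of two integral series over `R_E`, the denominator with nonzero
reduction, lies in `VcSet`. -/
theorem mem_VcSet_of_rep {g : Om M} (V₁ V₂ : OE M A E) (h2 : rho M A E V₂ ≠ 0)
    (h : g * phi M A E V₂ = phi M A E V₁) : g ∈ VcSet M A E := by
  have hV₂0 : phi M A E V₂ ≠ 0 := by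
    intro h0
    apply h2
    have : V₂ = 0 := phi_injective (by rw [h0, map_zero])
    rw [this, map_zero]
  have hg : g = phi M A E V₁ * (phi M A E V₂)⁻¹ := by
    rw [← h, mul_assoc, mul_inv_cancel₀ hV₂0, mul_one]
  refine ⟨?_, coeffMap (toA A E) (V₁ : LaurentSeries (RE A E)),
    coeffMap (toA A E) (V₂ : LaurentSeries (RE A E)), isIntE_toA V₁, isIntE_toA V₂, ?_, ?_⟩
  · rw [hg]
    exact mul_mem (phi_mem_Fc V₁) (inv_mem (phi_mem_Fc V₂))
  · exact (residue_toA_ne_zero_iff _).mpr h2
  · rw [← incQ_eq, ← incQ_eq, ← coe_phi, ← coe_phi, ← h]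
    rfl

theorem coeff_mem_maximalIdeal_of_rho_eq_zero (V : OE M A E) (hV : rho M A E V = 0) (n : ℤ) :
    (V : LaurentSeries (RE A E)).coeff n ∈ IsLocalRing.maximalIdeal (RE A E) := by
  rw [← IsLocalRing.residue_eq_zero_iff]
  have := congrArg (fun z : LaurentSeries (IsLocalRing.ResidueField (RE A E)) => z.coeff n) hV
  simpa [rho_apply, coeffMap_coeff] using this

/-- A series with zero reduction is divisible by the uniformiser `w`. -/
theorem exists_div_of_rho_eq_zero {w : Om M} (hwm : w ∈ Rc M A E)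
    (hwg : ∀ r ∈ Rc M A E, r⁻¹ ∉ Rc M A E → r * w⁻¹ ∈ Rc M A E)
    (V : OE M A E) (hV : rho M A E V = 0) :
    ∃ V' : OE M A E, phi M A E V' = phi M A E V * w⁻¹ := by
  obtain ⟨ϖ, rfl⟩ := mem_Rc_iff_exists_iotaR.mp hwm
  set c : E := ((ϖ : E))⁻¹ with hc
  set y : LaurentSeries E :=
    HahnSeries.C c * coeffMap (RE A E).subtype (V : LaurentSeries (RE A E)) with hy
  have hcoeff : ∀ n, y.coeff n = c * (((V : LaurentSeries (RE A E)).coeff n : RE A E) : E) := by
    intro n
    rw [hy, HahnSeries.C_mul_eq_smul, HahnSeries.coeff_smul, smul_eq_mul, coeffMap_coeff]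
    rfl
  have hrange : ∀ n, y.coeff n ∈ Set.range (RE A E).subtype := by
    intro n
    set r : RE A E := (V : LaurentSeries (RE A E)).coeff n with hr
    by_cases hr0 : r = 0
    · refine ⟨0, ?_⟩
      rw [hcoeff, ← hr, hr0]
      simp
    have hnu : ¬ IsUnit r := by
      have := coeff_mem_maximalIdeal_of_rho_eq_zero V hV n
      rwa [IsLocalRing.mem_maximalIdeal, mem_nonunits_iff] at this
    have hinv : (iotaR M A E r)⁻¹ ∉ Rc M A E := by
      intro h
      rcases (iotaR_inv_mem_Rc_iff r).mp h with h | h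
      · exact hr0 h
      · exact hnu h
    obtain ⟨s, hs⟩ := mem_Rc_iff_exists_iotaR.mp (hwg _ (iotaR_mem_Rc r) hinv)
    refine ⟨s, ?_⟩
    rw [hcoeff, ← hr]
    have hinj : Function.Injective ((iota M).comp (algebraMap E Qb)) :=
      (iota_injective M).comp (algebraMap E Qb).injective
    apply hinj
    show iotaR M A E s = _
    rw [hs, map_mul, hc, map_inv₀, mul_comm]
    rfl
  obtain ⟨V', hV'⟩ := H602.exists_coeffMap_eq (RE A E).subtype Subtype.val_injective y hrange
  have hV'mem : V' ∈ OE M A E := by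
    rw [mem_OE, hV', hy]
    exact mul_mem (C_mem_FE M c) V.2
  refine ⟨⟨V', hV'mem⟩, ?_⟩
  apply Subtype.ext
  show incQ A E V' = incQ A E (V : LaurentSeries (RE A E)) *
    ((iotaR M A E ϖ : Om M) : LaurentSeries Qb)⁻¹
  rw [incQ_apply, hV', hy, map_mul, H516.coeffMap_C, ← incQ_apply, iotaR_apply, coe_iota_single,
    ← HahnSeries.C_apply, ← map_inv₀, hc, map_inv₀, mul_comm]
  rfl

end Fermat.Agent.S18.H576

end
end
-- ===== PACK-END S18/H576/Transport.lean

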