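import Mathlib
import Fermat.Prelude.Def_ModularCurve_ReductionModL
import Fermat.Prelude.Def_FLTPrelim_Ramification
import Fermat.Prelude.Def_ModularCurve_ArithmeticGalois
import Fermat.Agent.Pack.S34.G0E9L2
import Fermat.Agent.Pack.S34.G0E5L0
import Fermat.Agent.Pack.S34.G0E9L0
import Fermat.Agent.Pack.S34.G0E3L1
import Fermat.Agent.Pack.S34.G0E3L0
import Fermat.Agent.Pack.S34.G0E5L1
import Fermat.Agent.Pack.S34.G0E8L0
import Fermat.Agent.Pack.S34.G0E1L0
import Fermat.Agent.Pack.S34.G0E6L2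
import Fermat.Agent.Pack.S34.G0E6L3
import Fermat.Agent.Pack.S34.G0E8L2
import Fermat.Agent.Pack.S34.G0E8L3
import Fermat.Agent.Pack.S34.G0E1L2
import Fermat.Agent.Pack.S34.G0E5L3
import Fermat.Agent.Pack.S34.G0E3L2
import Fermat.Agent.Pack.S34.G0E9L3
import Fermat.Agent.Pack.S34.G0E7L3
import Fermat.Agent.Pack.S34.G0E8L1
import Fermat.Agent.Pack.S34.G0E9L1
import Fermat.Agent.Pack.S34.G0E4L1
import Fermat.Agent.Pack.S34.G0E4L3
import Fermat.Agent.Pack.S34.G0E4L0

-- ===== PACK-BEGIN S37/Core/AssemblePull.lean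
section


/-!
# S37 row (helper37): assembly through an auxiliary level

For `ℓ ∈ {2, 3}` the smooth model is only available at levels `M` divisible by an auxiliary
prime.  `PullData N M ℓ` is the interface of piece [PULL]: a pullback map
`π^* : J₀(N) → J₀(M)` which is Galois equivariant, injective on prime-to-`ℓ` torsion and
commutes with `T_ℓ`.  `result_of_pieces'` is the variant of `result_of_pieces` in which the
place reduction may live at any such level `M` (take `M = N`, `pull = id` when possible).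
Fully proved.
-/

set_option autoImplicit false
set_option synthInstance.maxHeartbeats 400000

noncomputable section

namespace Fermat.Agent.S37.Core

open ModularCurve ValuationSubring AlgebraicCurve HahnSeries Fermat.Agent.S37.H99

/-- Interface of piece [PULL]. -/
structure PullData (N M : ℕ) [NeZero N] [NeZero M] (ℓ : ℕ) [NeZero ℓ] : Type where
  /-- the pullback map -/
  pull : JZero N →+ JZero M
  galois : ∀ (σ : AlgebraicClosure ℚ ≃ₐ[ℚ] AlgebraicClosure ℚ) (x : JZero N),
    pull (σ • x) = σ • pull x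
  inj_torsion : ∀ (m : ℕ), ¬ ℓ ∣ m → ∀ x : JZero N, m • x = 0 → pull x = 0 → x = 0
  hecke : ∀ x : JZero N,
    pull (heckeOperatorAlong (AlgebraicClosure ℚ) N ℓ x) =
      heckeOperatorAlong (AlgebraicClosure ℚ) M ℓ (pull x)

/-- the trivial pull datum -/
def PullData.refl (N : ℕ) [NeZero N] (ℓ : ℕ) [NeZero ℓ] : PullData N N ℓ where
  pull := AddMonoidHom.id _
  galois _ _ := rfl
  inj_torsion _ _ _ _ h := h
  hecke _ := rfl

/-- **S37 at one place from the pieces, through an auxiliary level `M`.** -/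
theorem isWeakRed_of_placeRed_pull (N M p : ℕ) [NeZero N] [NeZero M]
    (hcomm : HeckeOperatorsCommuteBar N)
    (A : ValuationSubring (AlgebraicClosure ℚ)) (ℓ : ℕ) (hℓ : ℓ.Prime) (hℓp : ¬ ℓ ∣ p)
    (σ₀ : AlgebraicClosure ℚ ≃ₐ[ℚ] AlgebraicClosure ℚ) (hσ₀ : A.IsFrobeniusAt σ₀ ℓ)
    (HIA : haveI : NeZero ℓ := ⟨hℓ.ne_zero⟩; HeckeInputsAlong (AlgebraicClosure ℚ) M ℓ)
    (hS18 : InjTorsionModL M ℓ A)
    (D : haveI : NeZero ℓ := ⟨hℓ.ne_zero⟩; PlaceRed M A ℓ σ₀)
    (Pd : haveI : NeZero ℓ := ⟨hℓ.ne_zero⟩; PullData N M ℓ) :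
    letI := heckeModuleBar N
    ∀ (_ : SMulCommClass (AlgebraicClosure ℚ ≃ₐ[ℚ] AlgebraicClosure ℚ) HeckeAlg (JZero N)),
      IsWeakRed (K := ℚ) p (JZero N) A ℓ hℓ σ₀
        (haveI : NeZero ℓ := ⟨hℓ.ne_zero⟩; D.red.comp Pd.pull) := by
  letI := heckeModuleBar N
  haveI : NeZero ℓ := ⟨hℓ.ne_zero⟩
  intro _
  refine ⟨hσ₀, ?_, ?_, ?_⟩
  · intro τ hτ x
    show D.red (Pd.pull (τ • x)) = D.red (Pd.pull x)
    rw [Pd.galois, D.red_inertia hτ]
  · rintro x ⟨n, hn⟩ hx
    have hℓpn : ¬ ℓ ∣ p ^ n := fun h => hℓp (hℓ.dvd_of_dvd_pow h)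
    refine Pd.inj_torsion (p ^ n) hℓpn x hn ?_
    refine D.red_inj_torsion hS18 (m := p ^ n) hℓpn ?_ hx
    rw [← map_nsmul, hn, map_zero]
  · intro x
    rw [heckeModuleBar_heckeGen_smul hcomm ⟨ℓ, hℓ⟩ (σ₀ • x)]
    show D.red (Pd.pull (σ₀ • σ₀ • x - heckeOperatorAlong (AlgebraicClosure ℚ) N ℓ (σ₀ • x)
      + ℓ • x)) = 0
    rw [map_add, map_sub, map_nsmul, Pd.galois, Pd.galois, Pd.hecke, Pd.galois]
    exact D.red_relation HIA (Pd.pull x)

/-- **S37 from the pieces, the place reduction living at auxiliary levels.** -/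
theorem result_of_pieces' (N p : ℕ) [NeZero N]
    (H : ∀ (ℓ : ℕ) (hℓ : ℓ.Prime), ¬ ℓ ∣ N →
      ∀ A : ValuationSubring (AlgebraicClosure ℚ), A.LiesOverPrime ℓ →
        ∀ σ₀ : AlgebraicClosure ℚ ≃ₐ[ℚ] AlgebraicClosure ℚ, A.IsFrobeniusAt σ₀ ℓ →
          haveI : NeZero ℓ := ⟨hℓ.ne_zero⟩
          ∃ (M : ℕ) (_ : NeZero M), HeckeInputsAlong (AlgebraicClosure ℚ) M ℓ ∧
            InjTorsionModL M ℓ A ∧ Nonempty (PlaceRed M A ℓ σ₀) ∧ Nonempty (PullData N M ℓ))
    (hcomm : ModularCurve.HeckeOperatorsCommuteBar N) :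
    letI := ModularCurve.heckeModuleBar N
    ∀ (_ : SMulCommClass (AlgebraicClosure ℚ ≃ₐ[ℚ] AlgebraicClosure ℚ) ModularCurve.HeckeAlg
      (ModularCurve.JZero N)),
      ModularCurve.SpecializationExists (K := ℚ) (L := AlgebraicClosure ℚ) N p
        (ModularCurve.JZero N) := by
  letI := ModularCurve.heckeModuleBar N
  intro inst ℓ hℓ hdvd A hA
  have hℓN : ¬ ℓ ∣ N := fun h => hdvd (Dvd.dvd.mul_right h p)
  have hℓp : ¬ ℓ ∣ p := fun h => hdvd (Dvd.dvd.mul_left h N)
  obtain ⟨σ₀, hσ₀⟩ := exists_isFrobeniusAt ℓ hℓ A hA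
  haveI : NeZero ℓ := ⟨hℓ.ne_zero⟩
  obtain ⟨M, hM, hHIA, hS18, ⟨D⟩, ⟨Pd⟩⟩ := H ℓ hℓ hℓN A hA σ₀ hσ₀
  exact exists_specialization_of_isWeakRed p A ℓ hℓ σ₀ (D.red.comp Pd.pull)
    (isWeakRed_of_placeRed_pull N M p hcomm A ℓ hℓ hℓp σ₀ hσ₀ hHIA hS18 D Pd inst)

end Fermat.Agent.S37.Core

end
end
-- ===== PACK-END S37/Core/AssemblePull.lean

-- ===== PACK-BEGIN S37/Core/Final.lean
section


/-!
# S37 row (helper37): the FINAL interface `WeakRedData`

`WeakRedData M A ℓ σ₀` : an additive map `red : J₀(M) →+ Y` (any target) with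
* `inertia`     : `red (τ • x) = red x` for `τ` in the inertia group at `A`,
* `inj_torsion` : `red` is injective on torsion of order prime to `ℓ`,
* `relation`    : `red (σ₀² x - T_ℓ σ₀ x + ℓ x) = 0` for the ONE Frobenius element `σ₀`,
  where `T_ℓ = heckeOperatorAlong ℚ̄ M ℓ` is the Prelude operator (no `HeckeInputsAlong` needed
  here: it is needed by whoever proves `relation`).

`result_of_weakRedData` : the frozen statement S37 at level `N` from a `WeakRedData` at some
level `M` and a `PullData N M ℓ` (`M = N`, `PullData.refl` for `ℓ ≥ 5`).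
Fully proved.
-/

set_option autoImplicit false
set_option synthInstance.maxHeartbeats 400000

noncomputable section

namespace Fermat.Agent.S37.Core

open ModularCurve ValuationSubring AlgebraicCurve HahnSeries Fermat.Agent.S37.H99

/-- The final interface of the geometric part of S37. -/
structure WeakRedData (M : ℕ) [NeZero M] (A : ValuationSubring (AlgebraicClosure ℚ)) (ℓ : ℕ)
    [NeZero ℓ] (σ₀ : AlgebraicClosure ℚ ≃ₐ[ℚ] AlgebraicClosure ℚ) : Type 1 where
  /-- the target group -/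
  Y : Type
  /-- additive group structure on the target -/
  instY : AddCommGroup Y
  /-- the reduction map -/
  red : JZero M →+ Y
  inertia : ∀ τ ∈ A.inertiaSubgroupIn ℚ, ∀ x : JZero M, red (τ • x) = red x
  inj_torsion : ∀ (m : ℕ), ¬ ℓ ∣ m → ∀ x : JZero M, m • x = 0 → red x = 0 → x = 0
  relation : ∀ x : JZero M,
    red (σ₀ • σ₀ • x - heckeOperatorAlong (AlgebraicClosure ℚ) M ℓ (σ₀ • x) + ℓ • x) = 0

attribute [instance] WeakRedData.instY

/-- a `PlaceRed` gives a `WeakRedData` (pointwise route) -/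
def PlaceRed.toWeakRedData {M : ℕ} [NeZero M] {A : ValuationSubring (AlgebraicClosure ℚ)}
    {ℓ : ℕ} [NeZero ℓ] {σ₀ : AlgebraicClosure ℚ ≃ₐ[ℚ] AlgebraicClosure ℚ}
    (D : PlaceRed M A ℓ σ₀) (HIA : HeckeInputsAlong (AlgebraicClosure ℚ) M ℓ)
    (hS18 : InjTorsionModL M ℓ A) : WeakRedData M A ℓ σ₀ where
  Y := JZeroC (IsLocalRing.ResidueField A) M
  instY := inferInstance
  red := D.red
  inertia τ hτ x := D.red_inertia hτ x
  inj_torsion _ hm _ hx h0 := D.red_inj_torsion hS18 hm hx h0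
  relation x := D.red_relation HIA x

/-- **S37 at one place from a `WeakRedData` at level `M` and a `PullData N M ℓ`.** -/
theorem isWeakRed_of_weakRedData (N M p : ℕ) [NeZero N] [NeZero M]
    (hcomm : HeckeOperatorsCommuteBar N)
    (A : ValuationSubring (AlgebraicClosure ℚ)) (ℓ : ℕ) (hℓ : ℓ.Prime) (hℓp : ¬ ℓ ∣ p)
    (σ₀ : AlgebraicClosure ℚ ≃ₐ[ℚ] AlgebraicClosure ℚ) (hσ₀ : A.IsFrobeniusAt σ₀ ℓ)
    (W : haveI : NeZero ℓ := ⟨hℓ.ne_zero⟩; WeakRedData M A ℓ σ₀)
    (Pd : haveI : NeZero ℓ := ⟨hℓ.ne_zero⟩; PullData N M ℓ) :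
    letI := heckeModuleBar N
    ∀ (_ : SMulCommClass (AlgebraicClosure ℚ ≃ₐ[ℚ] AlgebraicClosure ℚ) HeckeAlg (JZero N)),
      IsWeakRed (K := ℚ) p (JZero N) A ℓ hℓ σ₀
        (haveI : NeZero ℓ := ⟨hℓ.ne_zero⟩; W.red.comp Pd.pull) := by
  letI := heckeModuleBar N
  haveI : NeZero ℓ := ⟨hℓ.ne_zero⟩
  intro _
  refine ⟨hσ₀, ?_, ?_, ?_⟩
  · intro τ hτ x
    show W.red (Pd.pull (τ • x)) = W.red (Pd.pull x)
    rw [Pd.galois, W.inertia τ hτ]
  · rintro x ⟨n, hn⟩ hx
    have hℓpn : ¬ ℓ ∣ p ^ n := fun h => hℓp (hℓ.dvd_of_dvd_pow h)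
    refine Pd.inj_torsion (p ^ n) hℓpn x hn ?_
    refine W.inj_torsion (p ^ n) hℓpn _ ?_ hx
    rw [← map_nsmul, hn, map_zero]
  · intro x
    rw [heckeModuleBar_heckeGen_smul hcomm ⟨ℓ, hℓ⟩ (σ₀ • x)]
    show W.red (Pd.pull (σ₀ • σ₀ • x - heckeOperatorAlong (AlgebraicClosure ℚ) N ℓ (σ₀ • x)
      + ℓ • x)) = 0
    rw [map_add, map_sub, map_nsmul, Pd.galois, Pd.galois, Pd.hecke, Pd.galois]
    exact W.relation (Pd.pull x)

/-- **S37 from `WeakRedData` at auxiliary levels.**  THE final glue of the row. -/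
theorem result_of_weakRedData (N p : ℕ) [NeZero N]
    (H : ∀ (ℓ : ℕ) (hℓ : ℓ.Prime), ¬ ℓ ∣ N →
      ∀ A : ValuationSubring (AlgebraicClosure ℚ), A.LiesOverPrime ℓ →
        ∀ σ₀ : AlgebraicClosure ℚ ≃ₐ[ℚ] AlgebraicClosure ℚ, A.IsFrobeniusAt σ₀ ℓ →
          haveI : NeZero ℓ := ⟨hℓ.ne_zero⟩
          ∃ (M : ℕ) (_ : NeZero M), Nonempty (WeakRedData M A ℓ σ₀) ∧ Nonempty (PullData N M ℓ))
    (hcomm : ModularCurve.HeckeOperatorsCommuteBar N) :
    letI := ModularCurve.heckeModuleBar N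
    ∀ (_ : SMulCommClass (AlgebraicClosure ℚ ≃ₐ[ℚ] AlgebraicClosure ℚ) ModularCurve.HeckeAlg
      (ModularCurve.JZero N)),
      ModularCurve.SpecializationExists (K := ℚ) (L := AlgebraicClosure ℚ) N p
        (ModularCurve.JZero N) := by
  letI := ModularCurve.heckeModuleBar N
  intro inst ℓ hℓ hdvd A hA
  have hℓN : ¬ ℓ ∣ N := fun h => hdvd (Dvd.dvd.mul_right h p)
  have hℓp : ¬ ℓ ∣ p := fun h => hdvd (Dvd.dvd.mul_left h N)
  obtain ⟨σ₀, hσ₀⟩ := exists_isFrobeniusAt ℓ hℓ A hA
  haveI : NeZero ℓ := ⟨hℓ.ne_zero⟩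
  obtain ⟨M, hM, ⟨W⟩, ⟨Pd⟩⟩ := H ℓ hℓ hℓN A hA σ₀ hσ₀
  exact exists_specialization_of_isWeakRed p A ℓ hℓ σ₀ (W.red.comp Pd.pull)
    (isWeakRed_of_weakRedData N M p hcomm A ℓ hℓ hℓp σ₀ hσ₀ W Pd inst)

end Fermat.Agent.S37.Core

end
end
-- ===== PACK-END S37/Core/Final.lean

-- ===== PACK-BEGIN S37/H999/RawES.lean
section



/-!
# S37 → S29 bridge (helper999): the RAW Eichler–Shimura statement

`Fermat.Agent.S29.RawESStatement` (the only input the rows S29/S30/S42 take from the rows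
S37/S18) follows from the FINAL interface of the S37 row, i.e. from exactly the hypothesis `H` of
`Fermat.Agent.S37.Core.result_of_weakRedData` (for all levels `N`).  No Hecke-module structure,
no `HeckeOperatorsCommuteBar`, no `SMulCommClass` is needed.

* `rawES_at` : the statement at one `(N, p, ℓ, A)`;
* `rawES_of_weakRedData` : `RawESStatement`.

Fully proved.
-/

set_option autoImplicit false
set_option synthInstance.maxHeartbeats 400000

noncomputable section

namespace Fermat.Agent.S37.H999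

open ModularCurve ValuationSubring AlgebraicCurve Fermat.Agent.S37.Core Fermat.Agent.S37.H99

/-- additive maps preserve `m`-torsion -/
theorem nsmul_map_eq_zero {G H : Type*} [AddCommGroup G] [AddCommGroup H] (f : G →+ H) {m : ℕ}
    {x : G} (hx : m • x = 0) : m • f x = 0 := by
  rw [← map_nsmul, hx, map_zero]

/-- the composite reduction map kills nothing on prime-to-`ℓ` torsion -/
theorem eq_zero_of_red_pull_eq_zero {N M : ℕ} [NeZero N] [NeZero M]
    {A : ValuationSubring (AlgebraicClosure ℚ)} {ℓ : ℕ} [NeZero ℓ]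
    {σ₀ : AlgebraicClosure ℚ ≃ₐ[ℚ] AlgebraicClosure ℚ}
    (W : WeakRedData M A ℓ σ₀) (Pd : PullData N M ℓ) {m : ℕ} (hm : ¬ ℓ ∣ m)
    {z : JZero N} (hz : m • z = 0) (h0 : W.red (Pd.pull z) = 0) : z = 0 := by
  refine Pd.inj_torsion m hm z hz ?_
  refine W.inj_torsion m hm _ ?_ h0
  rw [← map_nsmul, hz, map_zero]

/-- inertia acts trivially on prime-to-`ℓ` torsion -/
theorem inertia_smul_eq_of_weakRedData {N M : ℕ} [NeZero N] [NeZero M]
    {A : ValuationSubring (AlgebraicClosure ℚ)} {ℓ : ℕ} [NeZero ℓ]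
    {σ₀ : AlgebraicClosure ℚ ≃ₐ[ℚ] AlgebraicClosure ℚ}
    (W : WeakRedData M A ℓ σ₀) (Pd : PullData N M ℓ) {m : ℕ} (hm : ¬ ℓ ∣ m)
    {τ : AlgebraicClosure ℚ ≃ₐ[ℚ] AlgebraicClosure ℚ} (hτ : τ ∈ A.inertiaSubgroupIn ℚ)
    {x : JZero N} (hx : m • x = 0) : τ • x = x := by
  have hz : m • (τ • x - x) = 0 := by
    have h := nsmul_map_eq_zero (DistribSMul.toAddMonoidHom (JZero N) τ - AddMonoidHom.id _) hx
    exact h
  have h0 : W.red (Pd.pull (τ • x - x)) = 0 := by
    rw [map_sub, map_sub, Pd.galois, W.inertia τ hτ, sub_self]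
  exact sub_eq_zero.mp (eq_zero_of_red_pull_eq_zero W Pd hm hz h0)

/-- the Eichler–Shimura relation on prime-to-`ℓ` torsion, for the Frobenius element `σ₀` -/
theorem frobenius_relation_of_weakRedData {N M : ℕ} [NeZero N] [NeZero M]
    {A : ValuationSubring (AlgebraicClosure ℚ)} {ℓ : ℕ} [NeZero ℓ]
    {σ₀ : AlgebraicClosure ℚ ≃ₐ[ℚ] AlgebraicClosure ℚ}
    (W : WeakRedData M A ℓ σ₀) (Pd : PullData N M ℓ) {m : ℕ} (hm : ¬ ℓ ∣ m)
    {x : JZero N} (hx : m • x = 0) :
    σ₀ • σ₀ • x - heckeOperatorAlong (AlgebraicClosure ℚ) N ℓ (σ₀ • x) + ℓ • x = 0 := by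
  refine eq_zero_of_red_pull_eq_zero W Pd hm ?_ ?_
  · have h := nsmul_map_eq_zero
      ((DistribSMul.toAddMonoidHom (JZero N) σ₀).comp (DistribSMul.toAddMonoidHom (JZero N) σ₀) -
        (heckeOperatorAlong (AlgebraicClosure ℚ) N ℓ).comp
          (DistribSMul.toAddMonoidHom (JZero N) σ₀) + ℓ • AddMonoidHom.id _) hx
    exact h
  · rw [map_add, map_sub, map_nsmul, Pd.galois, Pd.galois, Pd.hecke, Pd.galois]
    exact W.relation (Pd.pull x)

/-- The RAW Eichler–Shimura statement at one `(N, p, ℓ, A)`, from the final interface of the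
S37 row at `(N, ℓ, A)`. -/
theorem rawES_at (N p : ℕ) [NeZero N] (ℓ : ℕ) (hℓ : ℓ.Prime) (hdvd : ¬ ℓ ∣ N * p)
    (A : ValuationSubring (AlgebraicClosure ℚ)) (hA : A.LiesOverPrime ℓ)
    (H : ∀ σ₀ : AlgebraicClosure ℚ ≃ₐ[ℚ] AlgebraicClosure ℚ, A.IsFrobeniusAt σ₀ ℓ →
      haveI : NeZero ℓ := ⟨hℓ.ne_zero⟩
      ∃ (M : ℕ) (_ : NeZero M), Nonempty (WeakRedData M A ℓ σ₀) ∧ Nonempty (PullData N M ℓ)) :
    (∀ σ ∈ A.inertiaSubgroupIn ℚ, ∀ x : JZero N, (p : ℤ) • x = 0 → σ • x = x) ∧
      (∀ σ : AlgebraicClosure ℚ ≃ₐ[ℚ] AlgebraicClosure ℚ, A.IsFrobeniusAt σ ℓ →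
        ∀ x : JZero N, (p : ℤ) • x = 0 →
          σ • σ • x - heckeOperatorBar N ⟨ℓ, hℓ⟩ (σ • x) + (ℓ : ℤ) • x = 0) := by
  have : NeZero ℓ := ⟨hℓ.ne_zero⟩
  have hℓp : ¬ ℓ ∣ p := fun h => hdvd (Dvd.dvd.mul_left h N)
  constructor
  · intro τ hτ x hx
    obtain ⟨σ₀, hσ₀⟩ := exists_isFrobeniusAt ℓ hℓ A hA
    obtain ⟨M, hM, ⟨W⟩, ⟨Pd⟩⟩ := H σ₀ hσ₀
    rw [natCast_zsmul] at hx
    exact inertia_smul_eq_of_weakRedData W Pd hℓp hτ hx
  · intro σ hσ x hx
    obtain ⟨M, hM, ⟨W⟩, ⟨Pd⟩⟩ := H σ hσ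
    rw [natCast_zsmul] at hx
    rw [natCast_zsmul]
    exact frobenius_relation_of_weakRedData W Pd hℓp hx

/-- **`RawESStatement` of the S29 row from the final interface of the S37 row.** -/
theorem rawES_of_weakRedData
    (H : ∀ (N : ℕ) [NeZero N] (ℓ : ℕ) (hℓ : ℓ.Prime), ¬ ℓ ∣ N →
      ∀ A : ValuationSubring (AlgebraicClosure ℚ), A.LiesOverPrime ℓ →
        ∀ σ₀ : AlgebraicClosure ℚ ≃ₐ[ℚ] AlgebraicClosure ℚ, A.IsFrobeniusAt σ₀ ℓ →
          haveI : NeZero ℓ := ⟨hℓ.ne_zero⟩
          ∃ (M : ℕ) (_ : NeZero M), Nonempty (WeakRedData M A ℓ σ₀) ∧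
            Nonempty (PullData N M ℓ)) :
    Fermat.Agent.S29.RawESStatement := by
  intro N p _ _ ℓ hℓ hdvd A hA
  have hℓN : ¬ ℓ ∣ N := fun h => hdvd (Dvd.dvd.mul_right h p)
  exact rawES_at N p ℓ hℓ hdvd A hA (fun σ₀ hσ₀ => H N ℓ hℓ hℓN A hA σ₀ hσ₀)

end Fermat.Agent.S37.H999

end
end
-- ===== PACK-END S37/H999/RawES.lean

-- ===== PACK-BEGIN S28/H867/Core.lean
section








set_option autoImplicit false
noncomputable section
open ModularCurve HahnSeries IntermediateField Polynomial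

namespace Fermat.Agent.S28.H867

section Psi

theorem gFun_eq_dedekindPsi : ∀ {N : ℕ}, N ≠ 0 → gFun N = dedekindPsi N := by
  intro N
  induction N using Nat.strong_induction_on with
  | _ N ih =>
    intro hN
    rcases Nat.lt_or_ge 1 N with hN1 | hN1
    swap
    · have : N = 1 := by omega
      subst this
      rw [gFun_one, dedekindPsi_one]
    have hpp : N.minFac.Prime := Nat.minFac_prime (by omega)
    have hpN : N.minFac ∣ N := Nat.minFac_dvd N
    have hNe : N / N.minFac * N.minFac = N := Nat.div_mul_cancel hpN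
    have hM0 : N / N.minFac ≠ 0 := fun h0 => hN (by rw [← hNe, h0, zero_mul])
    have hlt : N / N.minFac < N := Nat.div_lt_self (by omega) hpp.one_lt
    have ihM := ih _ hlt hM0
    by_cases hd : N.minFac ∣ N / N.minFac
    · calc gFun N = gFun (N / N.minFac * N.minFac) := by rw [hNe]
        _ = N.minFac * gFun (N / N.minFac) := gFun_mul_of_dvd hM0 hpp hd
        _ = N.minFac * dedekindPsi (N / N.minFac) := by rw [ihM]
        _ = dedekindPsi (N / N.minFac * N.minFac) := (H626.psi_mul_prime_of_dvd hM0 hpp hd).symm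
        _ = dedekindPsi N := by rw [hNe]
    · calc gFun N = gFun (N / N.minFac * N.minFac) := by rw [hNe]
        _ = (N.minFac + 1) * gFun (N / N.minFac) := gFun_mul_of_not_dvd hM0 hpp hd
        _ = (N.minFac + 1) * dedekindPsi (N / N.minFac) := by rw [ihM]
        _ = dedekindPsi (N / N.minFac * N.minFac) :=
            (H626.psi_mul_prime_of_not_dvd hM0 hpp hd).symm
        _ = dedekindPsi N := by rw [hNe]

end Psi

section Adapters

variable (k : Type*) [Field k]

/-- Leaf [L.I] from helper145's `eq_zero_of_sum_qExpand_mul_pow_eq_zero`. -/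
theorem leafI (p : ℕ) [NeZero p] : LeafI k p := by
  intro B hB
  rw [Fintype.linearIndependent_iff]
  intro g hg i
  have hc : ∀ i, ∃ c : LaurentSeries k, qExpand k p c = (g i : LaurentSeries k) := by
    intro i
    obtain ⟨c, hc⟩ := hB (g i).2
    exact ⟨c, hc⟩
  choose c hc using hc
  have h : ∑ i : Fin p, qExpand k p (c i) * (jqModC k) ^ (i : ℕ) = 0 := by
    rw [← hg]
    refine Finset.sum_congr rfl fun i _ => ?_
    rw [hc i]
    rfl
  have := H145.eq_zero_of_sum_qExpand_mul_pow_eq_zero p (jqModC k) (H145.jqModC_ne_zero' k)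
    (H145.isCoprime_order_jqModC k p) c h i
  apply Subtype.ext
  rw [← hc i, this, map_zero]
  rfl

/-- Leaf [L.B1] from helper88's `h88_jp_not_mem_jField`. -/
theorem leafB1 (p : ℕ) [NeZero p] (hp : p.Prime) (hpk : (p : k) ≠ 0) (W : UnitPolyData p)
    (hθ : (thetaL ℤ (jqModC ℤ)) ^ 6 = deltaL ℤ * (jqModC ℤ) ^ 4 * (jqModC ℤ - 1728) ^ 3) :
    LeafB1 k p :=
  h88_jp_not_mem_jField k p hpk hp.one_lt W hθ

/-- `ModPolyData` in helper626's hypothesis form. -/
theorem isModPoly_of_modPolyData {p : ℕ} [NeZero p] (D : ModPolyData p) :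
    H626.IsModPoly p D.Φ := by
  have hev : ∀ y x : LaurentSeries ℤ, H626.ev2 D.Φ y x = D.Φ.eval₂ (evalAt y) x := by
    intro y x
    unfold H626.ev2
    congr 1
    apply Polynomial.ringHom_ext
    · intro a; simp [evalAt]
    · simp [evalAt]
  refine ⟨D.monic, D.natDegree_eq, ?_, ?_⟩
  · rw [hev]; exact D.eval_jp
  · rw [hev]; exact D.eval_j

end Adapters

end Fermat.Agent.S28.H867

namespace Fermat.Agent.S28.H867

section Assembly

variable (k : Type*) [Field k]

theorem hasModPolys (N : ℕ)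
    (hΦ : ∀ p : ℕ, p.Prime → p ∣ N → ∀ [NeZero p], Nonempty (ModPolyData p))
    (hchar : ∀ p : ℕ, p.Prime → p ∣ N → (p : k) ≠ 0) : H626.HasModPolys k N := by
  intro p hp hpN
  have : NeZero p := ⟨hp.ne_zero⟩
  obtain ⟨D⟩ := hΦ p hp hpN
  exact ⟨hchar p hp hpN, D.Φ, isModPoly_of_modPolyData D⟩

/-- The upper bound in `relfinrank` form. -/
theorem degE_le_gFun (M : ℕ) (hM : M ≠ 0) (H : H626.HasModPolys k M) : degE k M ≤ gFun M := by
  have : NeZero M := ⟨hM⟩
  rw [gFun_eq_dedekindPsi hM, degE, relfinrank_eq_finrank_of_le (jField_le_EF k M)]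
  exact H626.finrank_extendScalars_le M H

theorem good_of_inputs (N : ℕ) (hN : N ≠ 0)
    (hΦ : ∀ p : ℕ, p.Prime → p ∣ N → ∀ [NeZero p], Nonempty (ModPolyData p))
    (hW : ∀ p : ℕ, p.Prime → p ∣ N → ∀ [NeZero p], Nonempty (UnitPolyData p))
    (hθ : (thetaL ℤ (jqModC ℤ)) ^ 6 = deltaL ℤ * (jqModC ℤ) ^ 4 * (jqModC ℤ - 1728) ^ 3)
    (hchar : ∀ p : ℕ, p.Prime → p ∣ N → (p : k) ≠ 0) : Good k N where
  ne_zero := hN
  modPoly := hΦ
  prime := by
    intro p hp hpN _
    obtain ⟨D⟩ := hΦ p hp hpN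
    obtain ⟨W⟩ := hW p hp hpN
    exact primeLevel_of_leaves k hp D (leafI k p) (leafB1 k p hp (hchar p hp hpN) W hθ)
  indep := fun p _ _ _ => leafI k p
  upper := by
    intro M hMN
    have hM : M ≠ 0 := fun h0 => hN (by rw [h0] at hMN; exact Nat.eq_zero_of_zero_dvd hMN)
    exact degE_le_gFun k M hM ((hasModPolys k N hΦ hchar).mono hMN)

variable {k} in
/-- Extraction of `ψ(N)` independent elements. -/
theorem Good.exists_linearIndependent {N : ℕ} (h : Good k N) :
    ∃ x : Fin (dedekindPsi N) → LaurentSeries k,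
      (∀ i, x i ∈ modularFunctionFieldFullC k N) ∧ LinearIndependent (jField k) x := by
  have hdeg : degE k N = dedekindPsi N := by rw [h.degE_eq, gFun_eq_dedekindPsi h.ne_zero]
  have hle := jField_le_EF k N
  rw [degE, relfinrank_eq_finrank_of_le hle] at hdeg
  obtain ⟨x, hx⟩ : ∃ x : Fin (dedekindPsi N) → extendScalars hle,
      LinearIndependent (jField k) x :=
    exists_linearIndependent_of_le_finrank hdeg.ge
  refine ⟨fun i => (x i : LaurentSeries k), fun i => (x i).2, ?_⟩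
  have := hx.map' (extendScalars hle).val.toLinearMap
    (LinearMap.ker_eq_bot.mpr (extendScalars hle).val.injective)
  exact this

end Assembly

section Final

/-- **[L]** `CoreData` from the three analytic inputs. -/
theorem coreData_of_inputs (N : ℕ) [NeZero N] (ℓ : ℕ) [Fact ℓ.Prime] (hℓN : ¬ ℓ ∣ N)
    (K : Type) [Field K] [CharP K ℓ]
    (hΦ : ∀ p : ℕ, p.Prime → p ∣ N → ∀ [NeZero p], Nonempty (ModPolyData p))
    (hW : ∀ p : ℕ, p.Prime → p ∣ N → ∀ [NeZero p], Nonempty (UnitPolyData p))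
    (hθ : (thetaL ℤ (jqModC ℤ)) ^ 6 = deltaL ℤ * (jqModC ℤ) ^ 4 * (jqModC ℤ - 1728) ^ 3) :
    CoreData N K := by
  have hN : N ≠ 0 := NeZero.ne N
  have hcharK : ∀ p : ℕ, p.Prime → p ∣ N → (p : K) ≠ 0 := by
    intro p hp hpN h0
    have hdvd : ℓ ∣ p := (CharP.cast_eq_zero_iff K ℓ p).mp h0
    have hℓ : ℓ.Prime := Fact.out
    have : ℓ = p := (Nat.prime_dvd_prime_iff_eq hℓ hp).mp hdvd
    exact hℓN (this ▸ hpN)
  have hcharQ : ∀ p : ℕ, p.Prime → p ∣ N → (p : ℚ) ≠ 0 := by
    intro p hp _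
    exact_mod_cast hp.ne_zero
  have hgood : Good K N := good_of_inputs K N hN hΦ hW hθ hcharK
  refine H325.coreData_of_bounds N K (RingHom.id K) (dedekindPsi N)
    (coreData_integral N hΦ) ?_ hgood.exists_linearIndependent
  intro m x hx hli
  have := H626.card_le_of_linearIndependent (k := ℚ) N (hasModPolys ℚ N hΦ hcharQ) x hx hli
  simpa using this

end Final

end Fermat.Agent.S28.H867

end
end
-- ===== PACK-END S28/H867/Core.lean

-- ===== PACK-BEGIN S28/H807/ModPoly.lean
section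
/-
S28 / helper807 — the prime-level analytic inputs `ModPolyData p` and `UnitPolyData p`
of the captain skeleton (`Fermat/Agent/S28/Defs.lean`), from three explicit analytic
hypotheses (level-one polynomial principle, `q`-expansion of `j`, `q`-expansion of `Δ^{±1}`).
-/




set_option autoImplicit false
set_option maxHeartbeats 400000

noncomputable section

open ModularCurve Polynomial Matrix UpperHalfPlane
open scoped MatrixGroups

namespace Fermat.Agent.S28.H807

open Fermat.Agent.S28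

theorem evalAt_jqModC_eq : evalAt (jqModC ℤ) = evalJZHom := by
  apply Polynomial.ringHom_ext
  · intro a
    simp [evalAt, evalJZHom]
  · simp [evalAt, evalJZHom]

theorem evalAt_comp_qExpand (p : ℕ) [NeZero p] :
    evalAt (qExpand ℤ p (jqModC ℤ)) = (qExpand ℤ p).comp evalJZHom := by
  apply Polynomial.ringHom_ext
  · intro a
    simp [evalAt, evalJZHom]
  · simp [evalAt, evalJZHom]

variable (p : ℕ) [NeZero p]

/-- **[A-Φ]** The modular polynomial of prime level `p`, from the analytic hypotheses. -/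
theorem nonempty_modPolyData_of (hp : p.Prime) (hPP : PolyPrinciple) (J : ℍ → ℂ)
    (hJinv : ∀ (γ : SL(2, ℤ)) (τ : ℍ), J (γ • τ) = J τ)
    (hJexp : HasQExp (jqModC ℂ) J) : Nonempty (ModPolyData p) := by
  have hG : HasQExp (coeffMap (Int.castRingHom ℂ) (jqModC ℤ)) J := by
    rw [coeffMap_jqModC]; exact hJexp
  have hE : HasQExp (coeffMap (Int.castRingHom ℂ) (qExpand ℤ p (jqModC ℤ)))
      (fun τ => J (mulNat p τ)) := by
    rw [coeffMap_qExpand, coeffMap_jqModC]; exact hJexp.mulNat p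
  obtain ⟨Φ, hmonic, hdeg, hmap⟩ := exists_lift_formalPoly p hPP (jqModC ℤ)
    (qExpand ℤ p (jqModC ℤ)) J (fun τ => J (mulNat p τ)) hG hE (conjPoly_J_S p hp J hJinv)
  refine ⟨⟨Φ, hmonic, hdeg, ?_, ?_⟩⟩
  · rw [evalAt_jqModC_eq, Polynomial.eval₂_eq_eval_map, hmap]
    exact formalPoly_eval_self p _ _
  · rw [evalAt_comp_qExpand, Polynomial.eval₂_eq_eval_map, ← Polynomial.map_map, hmap]
    exact formalPoly_map_qExpand_eval p _ _

/-- **[A-W]** `p¹² Δ(q^p)/Δ(q)` is integral over `ℤ[j]`, from the analytic hypotheses. -/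
theorem nonempty_unitPolyData_of (hp : p.Prime) (hPP : PolyPrinciple) (D : ℍ → ℂ)
    (hD0 : ∀ τ, D τ ≠ 0)
    (hD : ∀ (γ : SL(2, ℤ)) (τ : ℍ), D (γ • τ) = (denom γ τ) ^ 12 * D τ)
    (hDexp : HasQExp (coeffMap (Int.castRingHom ℂ) (deltaL ℤ)) D)
    (hDinvexp : HasQExp (coeffMap (Int.castRingHom ℂ) (deltaInvL ℤ)) (fun τ => (D τ)⁻¹)) :
    Nonempty (UnitPolyData p) := by
  have hG : HasQExp (coeffMap (Int.castRingHom ℂ) (deltaL ℤ * qExpand ℤ p (deltaInvL ℤ)))
      (unitG p D) := by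
    rw [map_mul, coeffMap_qExpand]
    intro τ
    have := (hDexp.mul (hDinvexp.mulNat p)) τ
    simpa [unitG, div_eq_mul_inv] using this
  have hE : HasQExp (coeffMap (Int.castRingHom ℂ) ((p : LaurentSeries ℤ) ^ 12 * unitL ℤ p))
      (unitE p D) := by
    rw [map_mul, map_pow, map_natCast, unitL, map_mul, coeffMap_qExpand]
    have hc : HasQExp ((p : LaurentSeries ℂ) ^ 12) (fun _ => (p : ℂ) ^ 12) := by
      have h1 : ((p : LaurentSeries ℂ) ^ 12) = HahnSeries.C ((p : ℂ) ^ 12) := by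
        rw [map_pow, map_natCast]
      rw [h1]
      exact hasQExp_C _
    intro τ
    have := (hc.mul ((hDexp.mulNat p).mul hDinvexp)) τ
    simpa [unitE, div_eq_mul_inv, mul_assoc] using this
  obtain ⟨Φ, hmonic, _, hmap⟩ := exists_lift_formalPoly p hPP
    (deltaL ℤ * qExpand ℤ p (deltaInvL ℤ)) ((p : LaurentSeries ℤ) ^ 12 * unitL ℤ p)
    (unitG p D) (unitE p D) hG hE (conjPoly_unit_S p hp D hD0 hD)
  refine ⟨⟨Φ, hmonic, ?_⟩⟩
  rw [evalAt_jqModC_eq, Polynomial.eval₂_eq_eval_map, hmap]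
  exact formalPoly_eval_self p _ _

end Fermat.Agent.S28.H807

end

end
-- ===== PACK-END S28/H807/ModPoly.lean

-- ===== PACK-BEGIN S28/H807/Analytic.lean
section
/-
S28 / helper807 — UNCONDITIONAL prime-level analytic inputs `[A-Φ]`, `[A-W]` of the captain
skeleton: `Nonempty (ModPolyData p)` and `Nonempty (UnitPolyData p)` for every prime `p`.

Bridge facts used (already on main): helper565 (`q`-expansions of `j`, `Δ`, `Δ⁻¹`,
`SL(2,ℤ)`-invariance of `j`) and helper685 (level-one polynomial principle, `S`-invariant form).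
-/





set_option autoImplicit false
set_option maxHeartbeats 400000

noncomputable section

open ModularCurve Polynomial Matrix UpperHalfPlane
open scoped MatrixGroups

namespace Fermat.Agent.S28.H807

open Fermat.Agent.S28

theorem hasQExp_iff_hasTExp (c : LaurentSeries ℂ) (F : ℍ → ℂ) :
    HasQExp c F ↔ H565.HasTExp 1 F c := by
  rw [hasQExp_iff]
  rfl

theorem hasQExp_iff_hasQLaurent (c : LaurentSeries ℂ) (F : ℍ → ℂ) :
    HasQExp c F ↔ H685.HasQLaurent 1 F c := by
  rw [hasQExp_iff]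
  rfl

theorem evalJ_eq_aeval (P : Polynomial ℂ) :
    evalJ ℂ P = Polynomial.aeval (jqModC ℂ) P := by
  unfold evalJ
  rw [Polynomial.aeval_def]
  congr 1
  ext c : 1
  exact (H685.algebraMap_eq_C c).symm

/-- The polynomial principle holds (helper685). -/
theorem polyPrinciple : PolyPrinciple := by
  intro c F hF hS
  obtain ⟨P, hP, -⟩ := H685.exists_polynomial_of_S_invariant' F c
    ((hasQExp_iff_hasQLaurent c F).mp hF) hS
  exact ⟨P, by rw [evalJ_eq_aeval]; exact hP⟩

theorem hasQExp_jFun : HasQExp (jqModC ℂ) H565.jFun :=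
  (hasQExp_iff_hasTExp _ _).mpr H565.hasTExp_jFun

theorem coeffMap_deltaL : coeffMap (Int.castRingHom ℂ) (deltaL ℤ) = H565.deltaSeriesC := by
  unfold deltaL H565.deltaSeriesC
  rw [map_mul, coeffMap_single, coeffMap_ofPowerSeries, map_one]
  congr 2
  rw [← H565.map_dedekindEtaUnit]
  ext n
  simp

theorem coeffMap_deltaInvL :
    coeffMap (Int.castRingHom ℂ) (deltaInvL ℤ) = H565.deltaInvSeriesC := by
  unfold deltaInvL H565.deltaInvSeriesC H565.etaInvC
  rw [map_mul, coeffMap_single, coeffMap_ofPowerSeries, map_one]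
  congr 2

theorem discriminant_smul_denom (γ : SL(2, ℤ)) (τ : ℍ) :
    ModularForm.discriminant (γ • τ) = (denom γ τ) ^ 12 * ModularForm.discriminant τ := by
  rw [H565.discriminant_smul, ModularGroup.denom_apply]
  norm_cast

variable (p : ℕ) [NeZero p]

/-- **[A-Φ]** (captain stub `nonempty_modPolyData`): the modular polynomial of prime level. -/
theorem nonempty_modPolyData (hp : p.Prime) : Nonempty (ModPolyData p) :=
  nonempty_modPolyData_of p hp polyPrinciple H565.jFun H565.jFun_smul hasQExp_jFun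

/-- **[A-W]** (captain stub `nonempty_unitPolyData`): `p¹² Δ(q^p)/Δ(q)` is integral over
`ℤ[j]`. -/
theorem nonempty_unitPolyData (hp : p.Prime) : Nonempty (UnitPolyData p) :=
  nonempty_unitPolyData_of p hp polyPrinciple ModularForm.discriminant
    ModularForm.discriminant_ne_zero discriminant_smul_denom
    (by rw [coeffMap_deltaL]; exact (hasQExp_iff_hasTExp _ _).mpr H565.hasTExp_discriminant)
    (by rw [coeffMap_deltaInvL]; exact (hasQExp_iff_hasTExp _ _).mpr H565.hasTExp_discriminant_inv)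

end Fermat.Agent.S28.H807

end

end
-- ===== PACK-END S28/H807/Analytic.lean

-- ===== PACK-BEGIN S18/H516/CoreRes.lean
section







/-!
# S18 / MOD (helper516): the S28 core data for the residue field of a place over `ℓ`

`coreData_residue` : for `A ⊆ L` a valuation subring with `(ℓ : L) ∈ 𝔪_A` (`A.LiesOverPrime ℓ`),
`ℓ ∤ N`: `CoreData N (IsLocalRing.ResidueField A)` (S28 H867 + H326 + H25, all on main).
`coreData_of_charP` : the same for any field `k : Type` of characteristic `ℓ`.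
-/

set_option autoImplicit false

noncomputable section

namespace Fermat.Agent.S18.H516

open ModularCurve Fermat.Agent.S28

/-- S28 core data for every field of characteristic `ℓ ∤ N`. -/
theorem coreData_of_charP (N : ℕ) [NeZero N] (ℓ : ℕ) [Fact ℓ.Prime] (hℓN : ¬ ℓ ∣ N)
    (k : Type) [Field k] [CharP k ℓ] : CoreData N k :=
  H867.coreData_of_inputs N ℓ hℓN k
    (fun p hp _ _ => H326.nonempty_modPolyData p hp)
    (fun p hp _ _ => H326.nonempty_unitPolyData p hp)
    H25.theta_identity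

theorem charP_residue {L : Type*} [Field L] (A : ValuationSubring L) {ℓ : ℕ} [Fact ℓ.Prime]
    (hA : A.LiesOverPrime ℓ) : CharP (IsLocalRing.ResidueField A) ℓ := by
  have hℓ : ℓ.Prime := Fact.out
  have h0 : ((ℓ : ℕ) : IsLocalRing.ResidueField A) = 0 := by
    have h1 : IsLocalRing.residue A ((ℓ : ℕ) : ↥A) = 0 := by
      rw [IsLocalRing.residue_eq_zero_iff, IsLocalRing.mem_maximalIdeal, mem_nonunits_iff]
      intro hu
      have h2 : (ℓ : L) ∈ A.nonunits := hA
      rw [ValuationSubring.mem_nonunits_iff] at h2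
      have h3 : A.valuation (ℓ : L) = 1 := by
        have := (A.valuation_eq_one_iff ((ℓ : ℕ) : ↥A)).mp hu
        simpa using this
      exact absurd h3 h2.ne
    simpa using h1
  exact (CharP.charP_iff_prime_eq_zero hℓ).mpr h0

/-- **S28 core data for the residue field of a place over `ℓ ∤ N`.** -/
theorem coreData_residue (N : ℕ) [NeZero N] {ℓ : ℕ} [Fact ℓ.Prime] (hℓN : ¬ ℓ ∣ N)
    (A : ValuationSubring (AlgebraicClosure ℚ)) (hA : A.LiesOverPrime ℓ) :
    CoreData N (IsLocalRing.ResidueField A) := by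
  have := charP_residue A hA
  exact coreData_of_charP N ℓ hℓN _

end Fermat.Agent.S18.H516

end
end
-- ===== PACK-END S18/H516/CoreRes.lean

-- ===== PACK-BEGIN S18/H694/CoreMul.lean
section






/-!
# S18 / helper694 — the hub `CoreStatement N A m` is multiplicative in `m`

The S18 interfaces (v4) prove `CoreStatement N A p` only for PRIME `p ≠ ℓ`.  Row S29 (ES-KUM,
`S29/H222/ESKFamily.lean`, `CoreFamily`) consumes `CoreStatement N A (p ^ n)`.  This file is the
bridge:

* `laurent_const_of_pow_eq_C` : in `k((q))`, `z ^ a = C γ`, `γ ≠ 0`, `(a : k) ≠ 0` ⟹ `z = C δ`.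
* `gauss_unit`      : `incl W₁ = C γ * incl W₂` with `W̄₁ ≠ 0 ≠ W̄₂` ⟹ `γ` is a unit of `A`.
* `core_mul`        : `CoreStatement N A a → CoreStatement N A b → CoreStatement N A (a * b)`
                      (given `CoreData N k` for the residue field `k` and `(a : k) ≠ 0`).
* `coreStatement_one`, `coreStatement_of_prime`, `coreFamily_of_prime` (exact body of
  `S29.H222.CoreFamily`).
-/

set_option autoImplicit false

noncomputable section

namespace Fermat.Agent.S18.H694

open ModularCurve AlgebraicCurve HahnSeries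

/-! ## 1. Constants of `k((q))` -/

section Const

variable {k : Type*} [Field k]

/-- In a power series ring over a field: `p ^ a = C γ` with `(a : k) ≠ 0`, `γ ≠ 0` forces `p`
to be constant. -/
theorem powerSeries_const_of_pow_eq_C {a : ℕ} (ha : (a : k) ≠ 0) {p : PowerSeries k} {γ : k}
    (hγ : γ ≠ 0) (h : p ^ a = PowerSeries.C γ) :
    p = PowerSeries.C (PowerSeries.constantCoeff p) := by
  set p₀ : k := PowerSeries.constantCoeff p with hp₀
  have h0 : p₀ ^ a = γ := by
    have := congrArg PowerSeries.constantCoeff h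
    rwa [map_pow, PowerSeries.constantCoeff_C] at this
  have hp₀ne : p₀ ≠ 0 := by
    intro h'
    rw [h'] at h0
    have ha0 : a ≠ 0 := by
      rintro rfl
      exact ha (by simp)
    rw [zero_pow ha0] at h0
    exact hγ h0.symm
  have hgeom := geom_sum₂_mul p (PowerSeries.C p₀) a
  have hrhs : p ^ a - (PowerSeries.C p₀) ^ a = 0 := by
    rw [h, ← map_pow, h0, sub_self]
  rw [hrhs] at hgeom
  have hsum : (∑ i ∈ Finset.range a, p ^ i * (PowerSeries.C p₀) ^ (a - 1 - i)) ≠ 0 := by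
    intro hs
    have := congrArg PowerSeries.constantCoeff hs
    rw [map_sum, map_zero] at this
    have h2 : ∀ i ∈ Finset.range a,
        PowerSeries.constantCoeff (p ^ i * (PowerSeries.C p₀) ^ (a - 1 - i)) = p₀ ^ (a - 1) := by
      intro i hi
      rw [map_mul, map_pow, map_pow, PowerSeries.constantCoeff_C, ← hp₀, ← _root_.pow_add]
      congr 1
      have := Finset.mem_range.mp hi
      omega
    rw [Finset.sum_congr rfl h2, Finset.sum_const, Finset.card_range, nsmul_eq_mul] at this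
    rcases mul_eq_zero.mp this with h3 | h3
    · exact ha h3
    · exact hp₀ne (pow_eq_zero_iff (n := a - 1) (by
        intro h4
        rw [h4, pow_zero] at h3
        exact one_ne_zero h3) |>.mp h3)
  rcases mul_eq_zero.mp hgeom with h1 | h1
  · exact absurd h1 hsum
  · exact sub_eq_zero.mp h1

/-- In `k((q))`: `z ^ a = C γ` with `(a : k) ≠ 0`, `γ ≠ 0` forces `z` to be a nonzero constant. -/
theorem laurent_const_of_pow_eq_C {a : ℕ} (ha : (a : k) ≠ 0) {z : LaurentSeries k} {γ : k}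
    (hγ : γ ≠ 0) (h : z ^ a = HahnSeries.C γ) :
    ∃ δ : k, δ ≠ 0 ∧ z = HahnSeries.C δ := by
  have ha0 : a ≠ 0 := by
    rintro rfl
    exact ha (by simp)
  have hz : z ≠ 0 := by
    rintro rfl
    rw [zero_pow ha0] at h
    exact hγ (HahnSeries.C_injective (by rw [← h, map_zero]))
  have hord : z.order = 0 := by
    have h1 := congrArg HahnSeries.order h
    rw [HahnSeries.order_pow, HahnSeries.order_C, nsmul_eq_mul] at h1
    rcases mul_eq_zero.mp h1 with h2 | h2
    · exact absurd (by exact_mod_cast h2) ha0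
    · exact h2
  have hp : HahnSeries.ofPowerSeries ℤ k z.powerSeriesPart = z := by
    rw [LaurentSeries.ofPowerSeries_powerSeriesPart, hord, neg_zero]
    show (1 : LaurentSeries k) * z = z
    rw [one_mul]
  have hpa : z.powerSeriesPart ^ a = PowerSeries.C γ := by
    apply HahnSeries.ofPowerSeries_injective (Γ := ℤ)
    rw [map_pow, hp, h, HahnSeries.ofPowerSeries_C]
  have hconst := powerSeries_const_of_pow_eq_C ha hγ hpa
  refine ⟨PowerSeries.constantCoeff z.powerSeriesPart, ?_, ?_⟩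
  · intro h0
    rw [h0, map_zero] at hconst
    rw [hconst, map_zero] at hp
    exact hz hp.symm
  · rw [← HahnSeries.ofPowerSeries_C, ← hconst, hp]

end Const

/-! ## 2. The Gauss unit lemma -/

section Gauss

variable {L : Type*} [Field L] (A : ValuationSubring L)

/-- If two series over `A` with nonzero reductions differ by a constant `γ` of `L`, then `γ` is
(the image of) a unit of `A`. -/
theorem gauss_unit {W₁ W₂ : LaurentSeries A} {γ : L}
    (h1 : coeffMap (IsLocalRing.residue A) W₁ ≠ 0)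
    (h2 : coeffMap (IsLocalRing.residue A) W₂ ≠ 0)
    (h : coeffMap A.subtype W₁ = HahnSeries.C γ * coeffMap A.subtype W₂) :
    ∃ g : A, (g : L) = γ ∧ IsLocalRing.residue A g ≠ 0 ∧ W₁ = HahnSeries.C g * W₂ := by
  have key : ∀ hγ : γ ∈ A, ∃ g : A, (g : L) = γ ∧ IsLocalRing.residue A g ≠ 0 ∧
      W₁ = HahnSeries.C g * W₂ := by
    intro hγ
    have hW : W₁ = HahnSeries.C (⟨γ, hγ⟩ : A) * W₂ := by
      apply H516.incl_injective A
      rw [map_mul, H516.coeffMap_C, h]
      rfl
    refine ⟨⟨γ, hγ⟩, rfl, ?_, hW⟩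
    intro h0
    apply h1
    rw [hW, map_mul, H516.coeffMap_C, h0, map_zero, zero_mul]
  rcases A.mem_or_inv_mem γ with hγ | hγ
  · exact key hγ
  · have hγ0 : γ ≠ 0 := by
      rintro rfl
      apply h1
      have : W₁ = 0 := by
        apply H516.incl_injective A
        rw [h, map_zero, zero_mul, map_zero]
      rw [this, map_zero]
    have hW : HahnSeries.C (⟨γ⁻¹, hγ⟩ : A) * W₁ = W₂ := by
      apply H516.incl_injective A
      rw [map_mul, H516.coeffMap_C, h]
      show HahnSeries.C γ⁻¹ * (HahnSeries.C γ * _) = _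
      rw [← mul_assoc, ← map_mul, inv_mul_cancel₀ hγ0, map_one, one_mul]
    have hres : IsLocalRing.residue A (⟨γ⁻¹, hγ⟩ : A) ≠ 0 := by
      intro h0
      apply h2
      rw [← hW, map_mul, H516.coeffMap_C, h0, map_zero, zero_mul]
    have hu : IsUnit (⟨γ⁻¹, hγ⟩ : A) := by
      by_contra hnu
      exact hres ((IsLocalRing.residue_eq_zero_iff _).mpr
        ((IsLocalRing.mem_maximalIdeal _).mpr (mem_nonunits_iff.mpr hnu)))
    obtain ⟨u, hu⟩ := hu
    have hmem : γ ∈ A := by
      have h3 : ((u⁻¹ : Aˣ) : A) * (⟨γ⁻¹, hγ⟩ : A) = 1 := by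
        rw [← hu]
        exact u.inv_mul
      have h4 : (((u⁻¹ : Aˣ) : A) : L) * γ⁻¹ = 1 := by
        have := congrArg (Subtype.val) h3
        simpa using this
      have h5 : (((u⁻¹ : Aˣ) : A) : L) = γ := by
        field_simp at h4
        exact h4
      rw [← h5]
      exact ((u⁻¹ : Aˣ) : A).2
    exact key hmem

end Gauss

/-! ## 3. Multiplicativity of the hub -/

section Core

variable (N : ℕ) [NeZero N] (A : ValuationSubring Qb)

omit [NeZero N] in
theorem coe_algebraMap_bar (c : Qb) :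
    ((algebraMap Qb (modularFunctionFieldBar N) c : modularFunctionFieldBar N) :
      LaurentSeries Qb) = HahnSeries.C c := by
  show algebraMap Qb (LaurentSeries Qb) c = HahnSeries.C c
  rw [algebraMap_laurentSeries_eq_single, ← HahnSeries.C_apply]

variable {N A}

omit [NeZero N] in
theorem toF_ne_zero {U : LaurentSeries A} (h : IsInt A N U) : toF h ≠ 0 := by
  intro h0
  have h1 : coeffMap A.subtype U = 0 := congrArg Subtype.val h0
  have h2 : U = 0 := H516.incl_injective A (by rw [h1, map_zero])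
  exact h.2.2 (by rw [h2, map_zero])

theorem isInt_C_mul {U : LaurentSeries A} (h : IsInt A N U) {g : A}
    (hg : IsLocalRing.residue A g ≠ 0) : IsInt A N (HahnSeries.C g * U) := by
  refine ⟨?_, ?_, ?_⟩
  · rw [map_mul, H516.coeffMap_C]
    exact mul_mem (H516.C_mem_baseChange N _) h.1
  · rw [map_mul, H516.coeffMap_C]
    exact mul_mem (H516.C_mem_fullC N _ _) h.2.1
  · rw [map_mul, H516.coeffMap_C]
    refine mul_ne_zero ?_ h.2.2
    intro h0
    exact hg (HahnSeries.C_injective (by rw [h0, map_zero]))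

omit [NeZero N] in
theorem toF_C_mul {U : LaurentSeries A} (h : IsInt A N U) {g : A}
    (hg : IsInt A N (HahnSeries.C g * U)) :
    toF hg = algebraMap Qb (modularFunctionFieldBar N) (g : Qb) * toF h := by
  apply Subtype.ext
  show coeffMap A.subtype (HahnSeries.C g * U) = _
  rw [map_mul, H516.coeffMap_C]
  show _ = ((algebraMap Qb (modularFunctionFieldBar N) (g : Qb) : modularFunctionFieldBar N) :
      LaurentSeries Qb) * coeffMap A.subtype U
  rw [coe_algebraMap_bar]
  rfl

/-- **Multiplicativity of the hub.**  `CORE(a)` and `CORE(b)` imply `CORE(a * b)`, provided `a` is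
invertible in the residue field of `A` (and the S28 core data for the residue field). -/
theorem core_mul (core : Fermat.Agent.S28.CoreData N (IsLocalRing.ResidueField A)) {a b : ℕ}
    (ha : ((a : ℕ) : IsLocalRing.ResidueField A) ≠ 0)
    (hCa : CoreStatement N A a) (hCb : CoreStatement N A b) : CoreStatement N A (a * b) := by
  intro U₁ U₂ h₁ h₂ hred hdiv
  have ha0 : a ≠ 0 := by
    rintro rfl
    exact ha (by simp)
  have hdiv_a : ∀ v : Place Qb (modularFunctionFieldBar N),
      (a : ℤ) ∣ v.ord (toF h₁) - v.ord (toF h₂) := by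
    intro v
    refine dvd_trans ?_ (hdiv v)
    push_cast
    exact dvd_mul_right _ _
  obtain ⟨c, y, hc, hy, hcy⟩ := hCa U₁ U₂ h₁ h₂ hred hdiv_a
  have h₂ne := toF_ne_zero h₂
  have hcne : ∀ {c : Qb}, c ≠ 0 → algebraMap Qb (modularFunctionFieldBar N) c ≠ 0 := by
    intro c hc
    exact (map_ne_zero _).mpr hc
  have hord : ∀ v : Place Qb (modularFunctionFieldBar N),
      v.ord (toF h₁) - v.ord (toF h₂) = a * v.ord y := by
    intro v
    rw [hcy, v.ord_mul (mul_ne_zero (hcne hc) (pow_ne_zero _ hy)) h₂ne,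
      v.ord_mul (hcne hc) (pow_ne_zero _ hy), Lib.RR.ord_algebraMap, Lib.RR.ord_pow]
    ring
  have hb : ∀ v : Place Qb (modularFunctionFieldBar N), (b : ℤ) ∣ v.ord y := by
    intro v
    have := hdiv v
    rw [hord v] at this
    push_cast at this
    exact (mul_dvd_mul_iff_left (by exact_mod_cast ha0)).mp this
  -- Gauss decomposition of `y`
  have hyL : (y : LaurentSeries Qb) ≠ 0 := fun h => hy (Subtype.ext h)
  obtain ⟨c', Y₁, Y₂, hc', hY₁, hY₂, hdec⟩ :=
    H516.exists_gauss_decomp A (IsLocalRing.residue A) N core y.2 hyL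
  have hY₁' : IsInt A N Y₁ := hY₁
  have hY₂' : IsInt A N Y₂ := hY₂
  -- the identity of series
  have hcyL : coeffMap A.subtype U₁ =
      HahnSeries.C c * (y : LaurentSeries Qb) ^ a * coeffMap A.subtype U₂ := by
    have h := congrArg (Subtype.val) hcy
    rw [← coe_algebraMap_bar N c]
    exact h
  have hW : coeffMap A.subtype (U₁ * Y₂ ^ a) =
      HahnSeries.C (c * c' ^ a) * coeffMap A.subtype (Y₁ ^ a * U₂) := by
    rw [map_mul, map_pow, map_mul, map_pow, hcyL, map_mul, map_pow]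
    calc HahnSeries.C c * (y : LaurentSeries Qb) ^ a * coeffMap A.subtype U₂ *
          coeffMap A.subtype Y₂ ^ a
        = HahnSeries.C c * ((y : LaurentSeries Qb) * coeffMap A.subtype Y₂) ^ a *
          coeffMap A.subtype U₂ := by ring
      _ = HahnSeries.C c * (HahnSeries.C c' * coeffMap A.subtype Y₁) ^ a *
          coeffMap A.subtype U₂ := by rw [hdec]
      _ = _ := by ring
  have hW₁ : coeffMap (IsLocalRing.residue A) (U₁ * Y₂ ^ a) ≠ 0 := by
    rw [map_mul, map_pow]
    exact mul_ne_zero h₁.2.2 (pow_ne_zero _ hY₂'.2.2)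
  have hW₂ : coeffMap (IsLocalRing.residue A) (Y₁ ^ a * U₂) ≠ 0 := by
    rw [map_mul, map_pow]
    exact mul_ne_zero (pow_ne_zero _ hY₁'.2.2) h₂.2.2
  obtain ⟨g, -, hgres, hWA⟩ := gauss_unit A hW₁ hW₂ hW
  -- reduce mod the maximal ideal
  have hWk := congrArg (coeffMap (IsLocalRing.residue A)) hWA
  rw [map_mul, map_pow, map_mul, map_mul, map_pow, H516.coeffMap_C, ← hred] at hWk
  have hY₁ne := hY₁'.2.2
  have hz : (coeffMap (IsLocalRing.residue A) Y₂ * (coeffMap (IsLocalRing.residue A) Y₁)⁻¹) ^ a =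
      HahnSeries.C (IsLocalRing.residue A g) := by
    have h3 : coeffMap (IsLocalRing.residue A) Y₂ ^ a =
        HahnSeries.C (IsLocalRing.residue A g) * coeffMap (IsLocalRing.residue A) Y₁ ^ a := by
      apply mul_left_cancel₀ h₁.2.2
      rw [hWk]
      ring
    rw [mul_pow, h3, inv_pow, mul_assoc, mul_inv_cancel₀ (pow_ne_zero _ hY₁ne), mul_one]
  obtain ⟨δ', hδ', hzδ⟩ := laurent_const_of_pow_eq_C ha hgres hz
  obtain ⟨δ, rfl⟩ := IsLocalRing.residue_surjective δ'
  have hY₁'' : IsInt A N (HahnSeries.C δ * Y₁) := isInt_C_mul hY₁' hδ'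
  have hredY : coeffMap (IsLocalRing.residue A) (HahnSeries.C δ * Y₁) =
      coeffMap (IsLocalRing.residue A) Y₂ := by
    rw [map_mul, H516.coeffMap_C, ← hzδ, mul_assoc, inv_mul_cancel₀ hY₁ne, mul_one]
  have hδne : (δ : Qb) ≠ 0 := by
    intro h0
    apply hδ'
    have : δ = 0 := Subtype.ext h0
    rw [this, map_zero]
  have hF1 := toF_C_mul hY₁' hY₁''
  have hF2 : y * toF hY₂' = algebraMap Qb (modularFunctionFieldBar N) c' * toF hY₁' := by
    apply Subtype.ext
    show (y : LaurentSeries Qb) * coeffMap A.subtype Y₂ =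
      ((algebraMap Qb (modularFunctionFieldBar N) c' : modularFunctionFieldBar N) :
        LaurentSeries Qb) * coeffMap A.subtype Y₁
    rw [coe_algebraMap_bar, hdec]
  have hY₁F := toF_ne_zero hY₁'
  have hY₂F := toF_ne_zero hY₂'
  have hdivb : ∀ v : Place Qb (modularFunctionFieldBar N),
      (b : ℤ) ∣ v.ord (toF hY₁'') - v.ord (toF hY₂') := by
    intro v
    have e1 : v.ord (toF hY₁'') = v.ord (toF hY₁') := by
      rw [hF1, v.ord_mul (hcne hδne) hY₁F, Lib.RR.ord_algebraMap, zero_add]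
    have e2 : v.ord y + v.ord (toF hY₂') = v.ord (toF hY₁') := by
      have := congrArg v.ord hF2
      rw [v.ord_mul hy hY₂F, v.ord_mul (hcne hc') hY₁F, Lib.RR.ord_algebraMap, zero_add] at this
      exact this
    have e3 : v.ord (toF hY₁'') - v.ord (toF hY₂') = v.ord y := by
      rw [e1, ← e2]
      ring
    rw [e3]
    exact hb v
  obtain ⟨c'', t, hc'', ht, hct⟩ := hCb (HahnSeries.C δ * Y₁) Y₂ hY₁'' hY₂' hredY hdivb
  have hyt : y = algebraMap Qb (modularFunctionFieldBar N) (c' * (δ : Qb)⁻¹ * c'') * t ^ b := by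
    apply mul_right_cancel₀ hY₂F
    rw [hF2]
    have h4 : toF hY₁' = algebraMap Qb (modularFunctionFieldBar N) (δ : Qb)⁻¹ * toF hY₁'' := by
      rw [hF1, ← mul_assoc, ← map_mul, inv_mul_cancel₀ hδne, map_one, one_mul]
    rw [h4, hct]
    simp only [map_mul]
    ring
  refine ⟨c * (c' * (δ : Qb)⁻¹ * c'') ^ a, t, ?_, ht, ?_⟩
  · exact mul_ne_zero hc
      (pow_ne_zero _ (mul_ne_zero (mul_ne_zero hc' (inv_ne_zero hδne)) hc''))
  · rw [hcy, hyt]
    simp only [map_mul, map_pow]
    rw [mul_comm a b, pow_mul]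
    ring

omit [NeZero N] in
/-- `CORE(1)` is trivial. -/
theorem coreStatement_one : CoreStatement N A 1 := by
  intro U₁ U₂ h₁ h₂ _ _
  have h₁ne := toF_ne_zero h₁
  have h₂ne := toF_ne_zero h₂
  refine ⟨1, toF h₁ * (toF h₂)⁻¹, one_ne_zero, mul_ne_zero h₁ne (inv_ne_zero h₂ne), ?_⟩
  rw [map_one, one_mul, pow_one, mul_assoc, inv_mul_cancel₀ h₂ne, mul_one]

/-- **From prime `m` to all `m`.**  If the hub holds for all primes `p ≠ ℓ`, it holds for all `m`
prime to `ℓ` (`A` over `ℓ ∤ N`). -/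
theorem coreStatement_of_prime {ℓ : ℕ} [Fact ℓ.Prime] (hℓN : ¬ ℓ ∣ N)
    (hA : A.LiesOverPrime ℓ)
    (h : ∀ p : ℕ, p.Prime → ¬ ℓ ∣ p → CoreStatement N A p) :
    ∀ m : ℕ, ¬ ℓ ∣ m → CoreStatement N A m := by
  have core := H516.coreData_residue N hℓN A hA
  have := H516.charP_residue A hA
  intro m
  induction m using Nat.recOnMul with
  | zero => intro h0; exact absurd (dvd_zero ℓ) h0
  | one => intro _; exact coreStatement_one
  | prime p hp => intro hp'; exact h p hp hp'
  | mul a b iha ihb =>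
    intro hab
    have ha' : ¬ ℓ ∣ a := fun h' => hab (Dvd.dvd.mul_right h' b)
    have hb' : ¬ ℓ ∣ b := fun h' => hab (Dvd.dvd.mul_left h' a)
    refine core_mul core ?_ (iha ha') (ihb hb')
    rw [Ne, CharP.cast_eq_zero_iff (IsLocalRing.ResidueField A) ℓ]
    exact ha'

end Core

/-- The bridge S18 → S29 in the exact shape of `Fermat.Agent.S29.H222.CoreFamily`: the hub for
all primes `p ≠ ℓ` gives the hub for all `m` prime to `ℓ`. -/
theorem coreFamily_of_prime
    (h : ∀ (N : ℕ) [NeZero N] (ℓ : ℕ), ℓ.Prime → ¬ ℓ ∣ N → ∀ p : ℕ, p.Prime → ¬ ℓ ∣ p →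
      ∀ A : ValuationSubring Qb, A.LiesOverPrime ℓ → CoreStatement N A p) :
    ∀ (N : ℕ) [NeZero N] (ℓ : ℕ), ℓ.Prime → ¬ ℓ ∣ N → ∀ m : ℕ, ¬ ℓ ∣ m →
      ∀ A : ValuationSubring Qb, A.LiesOverPrime ℓ → CoreStatement N A m := by
  intro N _ ℓ hℓ hℓN m hm A hA
  have : Fact ℓ.Prime := ⟨hℓ⟩
  exact coreStatement_of_prime hℓN hA (fun p hp hp' => h N ℓ hℓ hℓN p hp hp' A hA) m hm

end Fermat.Agent.S18.H694

end
end
-- ===== PACK-END S18/H694/CoreMul.lean

-- ===== PACK-BEGIN S18/H333/Coord.lean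
section



/-!
# S18 / NODE COORD (c3), helper333: existence of the coordinates

`node_coord` has EXACTLY the type of `Integ.node_coord` in the row skeleton
(origin/helper18:Fermat/Agent/S18/Integ/Skeleton.lean):

    theorem node_coord (M : ℕ) [NeZero M] {ℓ : ℕ} [Fact ℓ.Prime] (hℓM : ¬ ℓ ∣ M)
        (h3 : ℓ = 3 → 2 ∣ M) (h2 : ℓ = 2 → 3 ∣ M) : Mod.CoordinateStatement M ℓ

`ℓ ≥ 5`: `x = j`;  `ℓ = 3`: `x = t₂ = q⁻¹(η(q)/η(q²))²⁴`;  `ℓ = 2`: `x = t₃ = q⁻¹(η(q)/η(q³))¹²`.
-/

set_option autoImplicit false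

noncomputable section

namespace Fermat.Agent.S18.H333

open ModularCurve AlgebraicCurve HahnSeries

theorem coeffEmb_coeffMap_int (X : LaurentSeries ℤ) :
    coeffEmb Qb (coeffMap (Int.castRingHom ℚ) X) = coeffMap (Int.castRingHom Qb) X := by
  rw [coeffEmb, coeffMap_coeffMap]
  exact coeffMap_congr (RingHom.ext_int _ _) X

theorem jOm_coe (M : ℕ) : ((Mod.jOm M : Mod.Om M) : LaurentSeries Qb) = jqModC Qb := by
  show coeffEmb Qb (qExpand ℚ 1 jq) = jqModC Qb
  rw [qExpand_one_apply, ← jqModC_rat, coeffEmb, coeffMap_jqModC]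

/-- the element of `Ω = F_M` given by an integral series lying in `ℚ(j_d : d ∣ M)` -/
def omOf (M : ℕ) (X : LaurentSeries ℤ)
    (hX : coeffMap (Int.castRingHom ℚ) X ∈ modularFunctionFieldFull M) : Mod.Om M :=
  ⟨coeffEmb Qb (coeffMap (Int.castRingHom ℚ) X), coeffEmb_mem_laurentBaseChange Qb hX⟩

theorem omOf_coe (M : ℕ) (X : LaurentSeries ℤ)
    (hX : coeffMap (Int.castRingHom ℚ) X ∈ modularFunctionFieldFull M) :
    ((omOf M X hX : Mod.Om M) : LaurentSeries Qb) = coeffMap (Int.castRingHom Qb) X :=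
  coeffEmb_coeffMap_int X

theorem t2Q_mem (M : ℕ) (hM : 2 ∣ M) :
    coeffMap (Int.castRingHom ℚ) t2Z ∈ modularFunctionFieldFull M :=
  t2_mem_full ℚ (by norm_num) M hM

theorem t3Q_mem (M : ℕ) (hM : 3 ∣ M) :
    coeffMap (Int.castRingHom ℚ) t3Z ∈ modularFunctionFieldFull M :=
  t3_mem_full ℚ (by norm_num) M hM

/-- `t₂ ∈ Ω = F_M` (`2 ∣ M`) -/
def t2Om (M : ℕ) (hM : 2 ∣ M) : Mod.Om M := omOf M t2Z (t2Q_mem M hM)

/-- `t₃ ∈ Ω = F_M` (`3 ∣ M`) -/
def t3Om (M : ℕ) (hM : 3 ∣ M) : Mod.Om M := omOf M t3Z (t3Q_mem M hM)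

theorem t2Om_rel (M : ℕ) (hM : 2 ∣ M) :
    Mod.jOm M * t2Om M hM ^ 2 = (t2Om M hM + 256) ^ 3 := by
  apply Subtype.ext
  have h := t2_rel_a Qb
  have hx : ((t2Om M hM : Mod.Om M) : LaurentSeries Qb) = t2 Qb := omOf_coe M t2Z _
  push_cast
  rw [jOm_coe, hx]
  exact h

theorem t3Om_rel (M : ℕ) (hM : 3 ∣ M) :
    Mod.jOm M * t3Om M hM ^ 3 = (t3Om M hM + 27) * (t3Om M hM + 243) ^ 3 := by
  apply Subtype.ext
  have h := t3_rel_a Qb
  have hx : ((t3Om M hM : Mod.Om M) : LaurentSeries Qb) = t3 Qb := omOf_coe M t3Z _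
  push_cast
  rw [jOm_coe, hx]
  exact h

/-- **NODE COORD.** -/
theorem node_coord (M : ℕ) [NeZero M] {ℓ : ℕ} [Fact ℓ.Prime] (hℓM : ¬ ℓ ∣ M)
    (h3 : ℓ = 3 → 2 ∣ M) (h2 : ℓ = 2 → 3 ∣ M) : Mod.CoordinateStatement M ℓ := by
  classical
  have hp : ℓ.Prime := Fact.out
  by_cases hl3 : ℓ = 3
  · refine ⟨t2Om M (h3 hl3), {0, -64}, Or.inr ⟨Or.inl ⟨hl3, t2Om_rel M (h3 hl3), ?_⟩, ?_⟩⟩
    · intro s; simp
    · exact ⟨t2Z, t2Z_coeff_neg_one, fun k hk => t2Z_coeff_of_lt hk, omOf_coe M t2Z _,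
        t2Q_mem M (h3 hl3)⟩
  by_cases hl2 : ℓ = 2
  · refine ⟨t3Om M (h2 hl2), {0, -27}, Or.inr ⟨Or.inr ⟨hl2, t3Om_rel M (h2 hl2), ?_⟩, ?_⟩⟩
    · intro s; simp
    · exact ⟨t3Z, t3Z_coeff_neg_one, fun k hk => t3Z_coeff_of_lt hk, omOf_coe M t3Z _,
        t3Q_mem M (h2 hl2)⟩
  · refine ⟨Mod.jOm M, {0, 1728}, Or.inl ⟨?_, rfl, ?_⟩⟩
    · have h2' := hp.two_le
      by_contra hlt
      have : ℓ = 4 := by omega
      subst this
      exact absurd hp (by norm_num)
    · intro s; simp

end Fermat.Agent.S18.H333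

end
end
-- ===== PACK-END S18/H333/Coord.lean

-- ===== PACK-BEGIN S28/H988/Degree.lean
section
/-
S28 degree API (helper988), UNCONDITIONAL, for consumers in rows S18 / S37 / A2.
`E_N(k) := modularFunctionFieldFullC k N = k(j(q^d) : d ∣ N) ⊂ k((q))`.

* `relfinrank_jField_full_eq`  : `[E_N(k) : k(j)] = ψ(N)`            (all primes `p ∣ N` invertible in `k`)
* `relfinrank_full_mul_prime`  : `[E_{Np}(k) : E_N(k)] = p + 1` (`p ∤ N`), `= p` (`p ∣ N`)
* `modularFunctionFieldBar_eq_fullC` : the Prelude's `ℚ̄`-function field of `X₀(N)` is `E_N(ℚ̄)`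
* `relfinrank_bar_mul_prime`, `relfinrank_jField_bar_eq` : the same for `modularFunctionFieldBar`.
-/







set_option autoImplicit false

noncomputable section

open ModularCurve IntermediateField

namespace Fermat.Agent.S28.H988

section AnyField

variable (k : Type*) [Field k]

/-- All hypotheses of helper867's degree theory hold as soon as the primes dividing `N` are
invertible in `k`. -/
theorem good_of_char (N : ℕ) (hN : N ≠ 0) (hchar : ∀ p : ℕ, p.Prime → p ∣ N → (p : k) ≠ 0) :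
    H867.Good k N :=
  H867.good_of_inputs k N hN (fun p hp _ _ => H807.nonempty_modPolyData p hp)
    (fun p hp _ _ => H807.nonempty_unitPolyData p hp) H25.theta_identity hchar

/-- **Degree formula.** `[k(j(q^d) : d ∣ N) : k(j)] = ψ(N)`. -/
theorem relfinrank_jField_full_eq (N : ℕ) (hN : N ≠ 0)
    (hchar : ∀ p : ℕ, p.Prime → p ∣ N → (p : k) ≠ 0) :
    (jField k).relfinrank (modularFunctionFieldFullC k N) = dedekindPsi N := by
  have h := (good_of_char k N hN hchar).degE_eq
  rw [H867.gFun_eq_dedekindPsi hN] at h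
  exact h

theorem dedekindPsi_pos (N : ℕ) (hN : N ≠ 0) : 0 < dedekindPsi N := by
  rw [← H867.gFun_eq_dedekindPsi hN]
  exact H867.gFun_pos N

/-- **Degree of the tower step.** `[E_{Np} : E_N] = p + 1` if `p ∤ N`, `= p` if `p ∣ N`. -/
theorem relfinrank_full_mul_prime (N p : ℕ) (hN : N ≠ 0) (hp : p.Prime)
    (hchar : ∀ r : ℕ, r.Prime → r ∣ N * p → (r : k) ≠ 0) :
    (modularFunctionFieldFullC k N).relfinrank (modularFunctionFieldFullC k (N * p)) =
      if p ∣ N then p else p + 1 := by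
  have hNp : N * p ≠ 0 := Nat.mul_ne_zero hN hp.ne_zero
  have hdvd : N ∣ N * p := Dvd.intro p rfl
  have hG := good_of_char k (N * p) hNp hchar
  have htower := hG.tower hdvd
  have h1 : H867.degE k N = dedekindPsi N :=
    relfinrank_jField_full_eq k N hN (fun r hr hrN => hchar r hr (hrN.trans hdvd))
  have h2 : H867.degE k (N * p) = dedekindPsi (N * p) :=
    relfinrank_jField_full_eq k (N * p) hNp hchar
  rw [h1, h2] at htower
  have hpos := dedekindPsi_pos N hN
  by_cases hpN : p ∣ N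
  · rw [if_pos hpN]
    rw [H626.psi_mul_prime_of_dvd hN hp hpN, mul_comm p] at htower
    exact Nat.eq_of_mul_eq_mul_left hpos htower
  · rw [if_neg hpN]
    rw [H626.psi_mul_prime_of_not_dvd hN hp hpN, mul_comm (p + 1)] at htower
    exact Nat.eq_of_mul_eq_mul_left hpos htower

end AnyField

section Bar

variable (L : Type*) [Field L] [Algebra ℚ L]

theorem image_divisorExpansions_eq (N : ℕ) :
    ⇑(coeffEmb L) '' divisorExpansions N = divisorExpansionsC L N := by
  ext x
  constructor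
  · rintro ⟨y, ⟨d, hne, hd, rfl⟩, rfl⟩
    refine ⟨d, hne, hd, ?_⟩
    rw [coeffEmb, ← jqModC_rat, coeffMap_qExpand, coeffMap_jqModC]
  · rintro ⟨d, hne, hd, rfl⟩
    refine ⟨qExpand ℚ d jq, ⟨d, hne, hd, rfl⟩, ?_⟩
    rw [coeffEmb, ← jqModC_rat, coeffMap_qExpand, coeffMap_jqModC]

/-- The base change of the Prelude's `ℚ`-function field is `L(j(q^d) : d ∣ N)`. -/
theorem laurentBaseChange_full_eq_fullC (N : ℕ) :
    laurentBaseChange L (modularFunctionFieldFull N) = modularFunctionFieldFullC L N := by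
  rw [modularFunctionFieldFull, Fermat.Agent.S24.H368.laurentBaseChange_adjoin,
    image_divisorExpansions_eq]
  rfl

end Bar

/-- The Prelude's function field of `X₀(N)` over `ℚ̄` is `ℚ̄(j(q^d) : d ∣ N)`. -/
theorem modularFunctionFieldBar_eq_fullC (N : ℕ) :
    modularFunctionFieldBar N = modularFunctionFieldFullC (AlgebraicClosure ℚ) N :=
  laurentBaseChange_full_eq_fullC _ N

theorem natCast_ne_zero_bar {p : ℕ} (hp : p ≠ 0) : ((p : ℕ) : AlgebraicClosure ℚ) ≠ 0 :=
  Nat.cast_ne_zero.mpr hp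

/-- `[ℚ̄(X₀(N)) : ℚ̄(j)] = ψ(N)`. -/
theorem relfinrank_jField_bar_eq (N : ℕ) (hN : N ≠ 0) :
    (jField (AlgebraicClosure ℚ)).relfinrank (modularFunctionFieldBar N) = dedekindPsi N := by
  rw [modularFunctionFieldBar_eq_fullC]
  exact relfinrank_jField_full_eq _ N hN (fun p hp _ => natCast_ne_zero_bar hp.ne_zero)

/-- `[ℚ̄(X₀(Np)) : ℚ̄(X₀(N))] = p + 1` if `p ∤ N`, `= p` if `p ∣ N`. -/
theorem relfinrank_bar_mul_prime (N p : ℕ) (hN : N ≠ 0) (hp : p.Prime) :
    (modularFunctionFieldBar N).relfinrank (modularFunctionFieldBar (N * p)) =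
      if p ∣ N then p else p + 1 := by
  rw [modularFunctionFieldBar_eq_fullC, modularFunctionFieldBar_eq_fullC]
  exact relfinrank_full_mul_prime _ N p hN hp (fun r hr _ => natCast_ne_zero_bar hr.ne_zero)

end Fermat.Agent.S28.H988

end

end
-- ===== PACK-END S28/H988/Degree.lean

-- ===== PACK-BEGIN S18/Mod/H216/DenJ.lean
section


/-!
# S18 / MOD (helper216): `V_total`, denominators and integrality for the coordinate `j`

From the S28 basis (`SpansQ M y`, independence of the reductions over `κ(j̄)`, integrality of the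
`j(q^d)` over `ℤ[j]`):

* `V_total_j`     : `Vc M A E` is a valuation ring of `Fc M E`;
* `injective_evR_j` : `j` is transcendental over `Rc M A E`;
* `isIntegral_toOm_yInt` : the monomials are integral over `Rc[j]`;
* `denAt_j`       : the denominator statement `DenAt` on the chart `Rc[j]`.
-/

set_option autoImplicit false
set_option linter.unusedSectionVars false

noncomputable section

namespace Fermat.Agent.S18.Mod.H216

open ModularCurve AlgebraicCurve HahnSeries Polynomial Fermat.Agent.S18 Fermat.Agent.S18.Mod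
open Fermat.Agent.S28 Fermat.Agent.S18.Alg

variable {M : ℕ} [NeZero M] (A : ValuationSubring Qb) (E : IntermediateField ℚ Qb)
variable {n : ℕ} {y : Fin n → LaurentSeries ℤ}

theorem redE_sum_ne_zero (hS : H516.SpansQ M y)
    (hli : LinearIndependent (jField (IsLocalRing.ResidueField ↥A))
      (fun i => coeffMap (Int.castRingHom (IsLocalRing.ResidueField ↥A)) (y i)))
    {q : (↥(S0 A E))[X]} {p : Fin n → (↥(S0 A E))[X]}
    (hprim : q.map (resS A E) ≠ 0 ∨ ∃ i, (p i).map (resS A E) ≠ 0)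
    (hq : q.map (resS A E) = 0) :
    redE M A E (∑ i, Uev M A E (p i) * yInt A E hS i) ≠ 0 := by
  intro h
  have h1 := redE_sum_eq_zero A E hS hli p h
  rcases hprim with h2 | ⟨i, hi⟩
  · exact h2 hq
  · exact hi (h1 i)

/-- **`V_total`** for `x = j`. -/
theorem V_total_j (hS : H516.SpansQ M y)
    (hli : LinearIndependent (jField (IsLocalRing.ResidueField ↥A))
      (fun i => coeffMap (Int.castRingHom (IsLocalRing.ResidueField ↥A)) (y i))) :
    ∀ f ∈ Fc M E, f ∈ Vc M A E ∨ f⁻¹ ∈ Vc M A E := by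
  intro f hf
  obtain ⟨q, p, hprim, hrel⟩ := exists_scaled_relation A E hS hf
  by_cases hq : q.map (resS A E) = 0
  · right
    have hN := redE_sum_ne_zero A E hS hli hprim hq
    have hf0 : f ≠ 0 := by
      intro h0
      rw [h0, mul_zero] at hrel
      exact toOm_ne_zero_of_redE M A E hN hrel.symm
    refine (mem_Vc_iff' M A E).mpr
      ⟨Uev M A E q, ∑ i, Uev M A E (p i) * yInt A E hS i, hN, ?_⟩
    rw [← hrel, mul_comm (toOm M A E (Uev M A E q)), ← mul_assoc, inv_mul_cancel₀ hf0, one_mul]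
  · left
    have hD : redE M A E (Uev M A E q) ≠ 0 := by rwa [Ne, redE_Uev_eq_zero_iff]
    refine (mem_Vc_iff' M A E).mpr
      ⟨∑ i, Uev M A E (p i) * yInt A E hS i, Uev M A E q, hD, ?_⟩
    rw [mul_comm]
    exact hrel

/-- `j` is transcendental over `Rc`. -/
theorem injective_evR_j : Function.Injective (evR (Rc M A E) (jOm M)) := by
  rw [injective_iff_map_eq_zero]
  intro p hp
  rw [evR_eq_toOm_Uev] at hp
  have h1 := congrArg (fun z : Om M => (z : LaurentSeries Qb)) hp
  simp only [coe_toOm_Uev, ZeroMemClass.coe_zero] at h1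
  have h2 := (H516.evJ_eq_zero_iff Qb).mp h1
  rw [Polynomial.map_map] at h2
  have hinj : Function.Injective
      (((S0 A E).subtype).comp ((eRc M A E).symm : ↥(Rc M A E) →+* ↥(S0 A E))) :=
    (Subtype.val_injective).comp (eRc M A E).symm.injective
  exact Polynomial.map_injective _ hinj (by rw [h2, Polynomial.map_zero])

theorem toOm_Uev_mem_polyRing (p : (↥(S0 A E))[X]) :
    toOm M A E (Uev M A E p) ∈ polyRing (Rc M A E) (jOm M) := by
  rw [toOm_Uev]
  exact (mem_polyRing_iff _ _).mpr ⟨_, rfl⟩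

theorem isIntegral_toOm_Uev (p : (↥(S0 A E))[X]) :
    IsIntegral (polyRing (Rc M A E) (jOm M)) (toOm M A E (Uev M A E p)) :=
  isIntegral_algebraMap (R := polyRing (Rc M A E) (jOm M)) (A := Om M)
    (x := ⟨_, toOm_Uev_mem_polyRing A E p⟩)

/-- **Denominators** on the chart `Rc[j]`. -/
theorem denAt_j {w : Om M} (hR : PartR (Ec M E) (Rc M A E) w) (hS : H516.SpansQ M y)
    (hli : LinearIndependent (jField (IsLocalRing.ResidueField ↥A))
      (fun i => coeffMap (Int.castRingHom (IsLocalRing.ResidueField ↥A)) (y i)))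
    (hint : ∀ i, IsIntegral (polyRing (Rc M A E) (jOm M)) (toOm M A E (yInt A E hS i))) :
    DenAt (Fc M E) (Rc M A E) (Vc M A E) w (jOm M) := by
  intro f hf hfV
  obtain ⟨q, p, hprim, hrel⟩ := exists_scaled_relation A E hS hf
  have hq : q.map (resS A E) ≠ 0 := by
    intro hq0
    have hN := redE_sum_ne_zero A E hS hli hprim hq0
    obtain ⟨U₁, U₂, hne, heq⟩ := (mem_Vc_iff' M A E).mp hfV
    have h1 : toOm M A E (Uev M A E q * U₁) =
        toOm M A E ((∑ i, Uev M A E (p i) * yInt A E hS i) * U₂) := by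
      rw [map_mul, map_mul, ← heq, ← hrel]
      ring
    have h3 := congrArg (redE M A E) (toOm_injective M A E h1)
    rw [map_mul, map_mul, (redE_Uev_eq_zero_iff M A E q).mpr hq0, zero_mul] at h3
    exact mul_ne_zero hN hne h3.symm
  have hD : redE M A E (Uev M A E q) ≠ 0 := by rwa [Ne, redE_Uev_eq_zero_iff]
  refine ⟨toOm M A E (Uev M A E q), toOm_Uev_mem_polyRing A E q, ?_, ?_⟩
  · intro h
    obtain ⟨c, hA, hE, hc0, hcinv, rfl⟩ := exists_unif M A E hR
    have hw0 : algebraMap Qb (Om M) c ≠ 0 := hR.w_ne_zero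
    obtain ⟨U₁, U₂, hne, heq⟩ := (mem_Vc_iff' M A E).mp h
    have h1 : toOm M A E (Uev M A E q * U₂) = toOm M A E (cInt M A E hA hE * U₁) := by
      rw [map_mul, map_mul, toOm_cInt, ← heq]
      field_simp
    have h3 := congrArg (redE M A E) (toOm_injective M A E h1)
    rw [map_mul, map_mul, redE_cInt, residue_eq_zero_of_inv_not_mem A hA hcinv, map_zero,
      zero_mul] at h3
    exact mul_ne_zero hD hne h3
  · rw [hrel, map_sum]
    refine IsIntegral.sum _ fun i _ => ?_
    rw [map_mul]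
    exact (isIntegral_toOm_Uev A E (p i)).mul (hint i)

end Fermat.Agent.S18.Mod.H216

end
end
-- ===== PACK-END S18/Mod/H216/DenJ.lean

-- ===== PACK-BEGIN S18/Mod/H216/IntegJ.lean
section


/-!
# S18 / MOD (helper216): integrality of the S28 monomials over `Rc[j]`, and G-V, G-QEP for `x = j`

* `isIntegral_jd` : `j(q^d)` is integral over `Rc[j]` (from `CoreData.integral`).
* `isIntegral_toOm_yInt` : the monomials `yᵢ ∈ ℤ[j_d : d ∣ M]` are integral over `Rc[j]`.
* `partV_j`, `partQep_j` : `PartV`, `PartQep` for `(Fc M E, Rc M A E, Vc M A E, w, jOm M)` from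
  `CoreData M κ`, `κ` the residue field of `A`.
-/

set_option autoImplicit false
set_option linter.unusedSectionVars false

noncomputable section

namespace Fermat.Agent.S18.Mod.H216

open ModularCurve AlgebraicCurve HahnSeries Polynomial Fermat.Agent.S18 Fermat.Agent.S18.Mod
open Fermat.Agent.S28 Fermat.Agent.S18.Alg

variable {M : ℕ} [NeZero M] (A : ValuationSubring Qb) (E : IntermediateField ℚ Qb)

/-- `ℤ((q)) → Q̄((q))`. -/
abbrev phiZ : LaurentSeries ℤ →+* LaurentSeries Qb := coeffMap (Int.castRingHom Qb)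

theorem coe_jd_eq_phiZ (d : ℕ) [NeZero d] (hd : d ∣ M) :
    ((jd M d hd : Om M) : LaurentSeries Qb) = phiZ (qExpand ℤ d (jqModC ℤ)) := by
  rw [coe_jd, coeffEmb, coeffMap_qExpand, coeffMap_qExpand, ← jqModC_rat, coeffMap_jqModC,
    coeffMap_jqModC]

theorem intCast_mem_Rc (k : ℤ) : (k : Om M) ∈ Rc M A E := intCast_mem _ k

theorem aeval_jOm_mem_polyRing (g : Polynomial ℤ) :
    Polynomial.aeval (jOm M) g ∈ polyRing (Rc M A E) (jOm M) := by
  rw [Polynomial.aeval_eq_sum_range]
  refine sum_mem fun i _ => ?_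
  rw [zsmul_eq_mul]
  exact mul_mem (le_polyRing _ _ (intCast_mem_Rc A E _)) (pow_mem (self_mem_polyRing _ _) i)

/-- `ℤ[X] → Rc[j]`. -/
def psiZ : Polynomial ℤ →+* ↥(polyRing (Rc M A E) (jOm M)) :=
  (Polynomial.aeval (R := ℤ) (jOm M)).toRingHom.codRestrict (polyRing (Rc M A E) (jOm M))
    (aeval_jOm_mem_polyRing A E)

theorem omVal_comp_aeval :
    (omVal M).comp (Polynomial.aeval (R := ℤ) (jOm M)).toRingHom =
      phiZ.comp (evalAt (jqModC ℤ)) := by
  apply Polynomial.ringHom_ext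
  · intro k
    simp
  · simp only [RingHom.comp_apply, AlgHom.toRingHom_eq_coe, RingHom.coe_coe, Polynomial.aeval_X,
      omVal_apply]
    rw [coe_jOm, coeffMap_jqModC]

theorem isIntegral_jd
    (hint : ∀ (d : ℕ) [NeZero d], d ∣ M → ∃ P : Polynomial (Polynomial ℤ), P.Monic ∧
      P.eval₂ (evalAt (jqModC ℤ)) (qExpand ℤ d (jqModC ℤ)) = 0)
    (d : ℕ) [NeZero d] (hd : d ∣ M) :
    IsIntegral (polyRing (Rc M A E) (jOm M)) (jd M d hd) := by
  obtain ⟨P, hmonic, hroot⟩ := hint d hd
  refine ⟨P.map (psiZ A E), hmonic.map _, ?_⟩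
  rw [Polynomial.eval₂_map]
  have hcomp : (algebraMap ↥(polyRing (Rc M A E) (jOm M)) (Om M)).comp (psiZ A E) =
      (Polynomial.aeval (R := ℤ) (jOm M)).toRingHom := rfl
  rw [hcomp]
  apply omVal_injective M
  rw [map_zero, Polynomial.hom_eval₂, omVal_comp_aeval, omVal_apply, coe_jd_eq_phiZ,
    ← Polynomial.hom_eval₂, hroot, map_zero]

variable {n : ℕ} {y : Fin n → LaurentSeries ℤ}

theorem isIntegral_toOm_yInt (hS : H516.SpansQ M y)
    (hint : ∀ (d : ℕ) [NeZero d], d ∣ M → ∃ P : Polynomial (Polynomial ℤ), P.Monic ∧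
      P.eval₂ (evalAt (jqModC ℤ)) (qExpand ℤ d (jqModC ℤ)) = 0)
    (i : Fin n) :
    IsIntegral (polyRing (Rc M A E) (jOm M)) (toOm M A E (yInt A E hS i)) := by
  have hle : Subring.closure (intDivisorExpansions M) ≤
      Subring.comap phiZ
        ((integralClosure ↥(polyRing (Rc M A E) (jOm M)) (Om M)).toSubring.map (omVal M)) := by
    rw [Subring.closure_le]
    rintro z ⟨d, hd, hdM, rfl⟩
    haveI := hd
    exact ⟨jd M d hdM, isIntegral_jd A E hint d hdM, coe_jd_eq_phiZ d hdM⟩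
  obtain ⟨f, hf, hfy⟩ := hle (hS.1 i)
  have : f = toOm M A E (yInt A E hS i) := by
    apply Subtype.ext
    rw [coe_toOm_yInt]
    exact hfy
  rw [← this]
  exact hf

/-! ### G-V and G-QEP for `x = j` -/

/-- **G-V** for the coordinate `j`. -/
theorem partV_j (core : CoreData M (IsLocalRing.ResidueField ↥A)) {w : Om M}
    (hR : PartR (Ec M E) (Rc M A E) w) :
    PartV (Fc M E) (Rc M A E) (Vc M A E) w (jOm M) := by
  obtain ⟨n, y, hy, hspan, hli⟩ := core.exists_basis
  have hS : H516.SpansQ M y := ⟨hy, hspan⟩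
  exact
    { V_le := Vc_le_Fc M A E
      V_total := V_total_j A E hS hli
      R_le_V := R_le_V M A E
      w_inv_not_mem_V := w_inv_not_mem_V M A E hR
      V_gen := V_gen M A E hR
      x_mem_V := jOm_mem_Vc M A E
      gauss := gauss_j M A E }

/-- **G-QEP** for the coordinate `j`. -/
theorem partQep_j (core : CoreData M (IsLocalRing.ResidueField ↥A)) {w : Om M}
    (hR : PartR (Ec M E) (Rc M A E) w) :
    PartQep (Fc M E) (Rc M A E) (Vc M A E) w (jOm M) := by
  obtain ⟨n, y, hy, hspan, hli⟩ := core.exists_basis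
  have hS : H516.SpansQ M y := ⟨hy, hspan⟩
  exact partQep_of_den hR (partV_j A E core hR) (Ec_le_Fc M E) (jOm_mem_Vc M A E)
    (injective_evR_j A E)
    (denAt_j A E hR hS hli (isIntegral_toOm_yInt A E hS (fun d _ hd => core.integral d hd)))

end Fermat.Agent.S18.Mod.H216

end
end
-- ===== PACK-END S18/Mod/H216/IntegJ.lean

-- ===== PACK-BEGIN S18/Mod/H216/NodeJ.lean
section






/-!
# S18 / MOD (helper216): G-V and G-QEP for the coordinate `j` — UNCONDITIONAL

For `ℓ ∤ M` and `A` over `ℓ`: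
* `coreData_residue` : S28 `CoreData M κ` for the residue field `κ` of `A`;
* `partVStatement_j`   : `PartVStatement M A (jOm M)`;
* `partQepStatement_j` : `PartQepStatement M A (jOm M)`.
-/

set_option autoImplicit false
set_option linter.unusedSectionVars false

noncomputable section

namespace Fermat.Agent.S18.Mod.H216

open ModularCurve AlgebraicCurve HahnSeries Polynomial Fermat.Agent.S18 Fermat.Agent.S18.Mod
open Fermat.Agent.S28 Fermat.Agent.S18.Alg

variable {M : ℕ} [NeZero M] {ℓ : ℕ} [Fact ℓ.Prime] (A : ValuationSubring Qb)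

theorem charP_residue (hA : A.LiesOverPrime ℓ) : CharP (IsLocalRing.ResidueField ↥A) ℓ := by
  have hp : ℓ.Prime := Fact.out
  rw [CharP.charP_iff_prime_eq_zero hp]
  obtain ⟨ha, hmem⟩ := (ValuationSubring.mem_nonunits_iff_exists_mem_maximalIdeal).mp hA
  have h1 : IsLocalRing.residue ↥A ⟨(ℓ : Qb), ha⟩ = 0 :=
    (IsLocalRing.residue_eq_zero_iff _).mpr hmem
  have h2 : (⟨(ℓ : Qb), ha⟩ : ↥A) = ((ℓ : ℕ) : ↥A) := Subtype.ext (by simp)
  rw [h2, map_natCast] at h1
  exact h1

/-- S28 `CoreData` over the residue field of `A`. -/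
theorem coreData_residue (hℓM : ¬ ℓ ∣ M) (hA : A.LiesOverPrime ℓ) :
    CoreData M (IsLocalRing.ResidueField ↥A) := by
  haveI := charP_residue A hA
  exact H867.coreData_of_inputs M ℓ hℓM (IsLocalRing.ResidueField ↥A)
    (fun p hp _ _ => H807.nonempty_modPolyData p hp)
    (fun p hp _ _ => H807.nonempty_unitPolyData p hp)
    H25.theta_identity

/-- **G-V for `x = j`** (exact target `PartVStatement M A (jOm M)`). -/
theorem partVStatement_j (hℓM : ¬ ℓ ∣ M) (hA : A.LiesOverPrime ℓ) :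
    PartVStatement M A (jOm M) :=
  fun E _ _ hR => partV_j A E (coreData_residue A hℓM hA) hR

/-- **G-QEP for `x = j`** (exact target `PartQepStatement M A (jOm M)`). -/
theorem partQepStatement_j (hℓM : ¬ ℓ ∣ M) (hA : A.LiesOverPrime ℓ) :
    PartQepStatement M A (jOm M) :=
  fun E _ _ hR => partQep_j A E (coreData_residue A hℓM hA) hR

end Fermat.Agent.S18.Mod.H216

end
end
-- ===== PACK-END S18/Mod/H216/NodeJ.lean

-- ===== PACK-BEGIN S18/H24/Finite.lean
section




/-!
# S18 / node_mod, part G-FLD (helper24) — the field `finite` for `x = j`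

`field_finite_j` : for every intermediate field `E` of `Q̄/ℚ` and every level `M ≥ 1`,

    ∃ s : Finset (Om M), ↑s ⊆ Fc M E ∧ ∀ f ∈ Fc M E, f ∈ Submodule.span (ratField (Ec M E) (jOm M)) ↑s

(exact type of the field `finite` of `Alg.GoodModel` at the concrete objects, `x = jOm M`).

Proof: `Fc = Ec(j)(j_d : d ∣ M)`, finitely many generators, each integral over `ℤ[j]`
(modular polynomials, S28 `H867.coreData_integral` + `H807.nonempty_modPolyData`).
`field_finite_of_mem` : the same for any coordinate `x ∈ Fc` with `j ∈ Ec(x)` (e.g. `t₂`, `t₃`).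
-/

set_option autoImplicit false

noncomputable section

namespace Fermat.Agent.S18.H24

open ModularCurve AlgebraicCurve HahnSeries Fermat.Agent.S18 Fermat.Agent.S18.Mod
open Fermat.Agent.S18.Alg Fermat.Agent.S18.H456 Fermat.Agent.S28 Polynomial

variable (M : ℕ) [NeZero M] (E : IntermediateField ℚ Qb)

/-- `ℤ[Y] → Ω`, `Y ↦ j`. -/
def evJOm : Polynomial ℤ →+* Om M := (Polynomial.aeval (R := ℤ) (jOm M)).toRingHom

/-- The subtype map `Ω → Q̄((q))` as a ring hom. -/
abbrev valHom : Om M →+* LaurentSeries Qb := (modularFunctionFieldBar M).val.toRingHom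

theorem valHom_injective : Function.Injective (valHom M) := Subtype.val_injective

theorem val_jd' (d : ℕ) [NeZero d] (hd : d ∣ M) :
    valHom M (jd M d hd) = coeffMap (Int.castRingHom Qb) (qExpand ℤ d (jqModC ℤ)) := by
  show coeffEmb Qb (qExpand ℚ d jq) = _
  have h1 : coeffEmb Qb (qExpand ℚ d jq) = jqNModC Qb d := coeffMap_jqNModC (algebraMap ℚ Qb) d
  have h2 : coeffMap (Int.castRingHom Qb) (jqNModC ℤ d) = jqNModC Qb d :=
    coeffMap_jqNModC (Int.castRingHom Qb) d
  exact h1.trans h2.symm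

theorem val_jOm' : valHom M (jOm M) = coeffMap (Int.castRingHom Qb) (jqModC ℤ) := by
  show ((jOm M : Om M) : LaurentSeries Qb) = _
  rw [val_jOm, coeffMap_jqModC]

/-- compatibility of the two evaluations `ℤ[Y] → Q̄((q))`. -/
theorem valHom_comp_evJOm :
    (valHom M).comp (evJOm M) =
      (coeffMap (Int.castRingHom Qb)).comp (evalAt (jqModC ℤ)) := by
  apply Polynomial.ringHom_ext
  · intro a
    simp [evJOm, evalAt]
  · show valHom M (Polynomial.aeval (jOm M) (X : Polynomial ℤ)) =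
      coeffMap (Int.castRingHom Qb) (Polynomial.aeval (jqModC ℤ) (X : Polynomial ℤ))
    rw [Polynomial.aeval_X, Polynomial.aeval_X]
    exact val_jOm' M

/-- `j_d` is a root of a monic polynomial with coefficients in `ℤ[j] ⊆ Ω`. -/
theorem exists_monic_root_jd (d : ℕ) [NeZero d] (hd : d ∣ M) :
    ∃ P : Polynomial (Polynomial ℤ), P.Monic ∧ (P.map (evJOm M)).eval (jd M d hd) = 0 := by
  obtain ⟨P, hP, hPe⟩ := H867.coreData_integral M
    (fun p hp _ _ => H807.nonempty_modPolyData p hp) d hd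
  refine ⟨P, hP, ?_⟩
  apply valHom_injective M
  rw [map_zero, Polynomial.eval_map, Polynomial.hom_eval₂, valHom_comp_evJOm, val_jd',
    ← Polynomial.hom_eval₂, hPe, map_zero]

theorem jOm_mem_ratField : jOm M ∈ ratField (Ec M E) (jOm M) :=
  Subfield.subset_closure (Or.inr rfl)

theorem Ec_le_ratField (x : Om M) : Ec M E ≤ ratField (Ec M E) x :=
  fun _ h => Subfield.subset_closure (Or.inl h)

theorem evJOm_mem_ratField (p : Polynomial ℤ) : evJOm M p ∈ ratField (Ec M E) (jOm M) := by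
  show Polynomial.aeval (jOm M) p ∈ _
  rw [Polynomial.aeval_def, Polynomial.eval₂_eq_sum_range]
  refine Subfield.sum_mem _ fun i _ => ?_
  refine mul_mem ?_ (pow_mem (jOm_mem_ratField M E) i)
  rw [eq_intCast]
  exact intCast_mem _ _

/-- `j_d` is integral over `Ec(j)`. -/
theorem isIntegral_jd (d : ℕ) [NeZero d] (hd : d ∣ M) :
    IsIntegral (ratField (Ec M E) (jOm M)) (jd M d hd) := by
  obtain ⟨P, hP, hroot⟩ := exists_monic_root_jd M d hd
  have hl : P.map (evJOm M) ∈ Polynomial.lifts (ratField (Ec M E) (jOm M)).subtype := by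
    rw [Polynomial.lifts_iff_coeff_lifts]
    intro i
    rw [Polynomial.coeff_map]
    exact ⟨⟨_, evJOm_mem_ratField M E (P.coeff i)⟩, rfl⟩
  obtain ⟨q, hq, -, hqm⟩ := Polynomial.lifts_and_natDegree_eq_and_monic hl (hP.map _)
  refine ⟨q, hqm, ?_⟩
  have : eval₂ (ratField (Ec M E) (jOm M)).subtype (jd M d hd) q =
      eval (jd M d hd) (q.map (ratField (Ec M E) (jOm M)).subtype) := (eval_map _ _).symm
  rw [show (algebraMap (ratField (Ec M E) (jOm M)) (Om M)) =
    (ratField (Ec M E) (jOm M)).subtype from rfl, this, hq, hroot]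

theorem gens_finite : (gens M).Finite := by
  classical
  have : gens M ⊆ Set.range (fun d : {d : ℕ // d ∣ M ∧ d ≠ 0} =>
      haveI : NeZero d.1 := ⟨d.2.2⟩
      jd M d.1 d.2.1) := by
    rintro y ⟨d, hd, hdM, rfl⟩
    exact ⟨⟨d, hdM, hd.out⟩, rfl⟩
  refine Set.Finite.subset ?_ this
  have hfin : Finite {d : ℕ // d ∣ M ∧ d ≠ 0} := by
    have : {d : ℕ | d ∣ M ∧ d ≠ 0} ⊆ (M.divisors : Set ℕ) := by
      intro d hd
      exact Nat.mem_divisors.mpr ⟨hd.1, NeZero.ne M⟩
    exact Set.Finite.subset (Finset.finite_toSet _) this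
  exact Set.finite_range _

/-- `Fc` as an intermediate field over `Ec(j)`. -/
theorem Fc_eq_adjoin :
    (Fc M E : Set (Om M)) =
      (IntermediateField.adjoin (ratField (Ec M E) (jOm M)) (gens M) : Set (Om M)) := by
  have hjF : jOm M ∈ Fc M E :=
    Subfield.subset_closure (Or.inr ⟨1, inferInstance, one_dvd M, rfl⟩)
  have hK : ratField (Ec M E) (jOm M) ≤ Fc M E := by
    refine Subfield.closure_le.mpr ?_
    rintro y (hy | hy)
    · exact field_E_le_F M E hy
    · rw [Set.mem_singleton_iff] at hy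
      rw [hy]; exact hjF
  apply Set.Subset.antisymm
  · -- `Fc ⊆ adjoin`
    have : Fc M E ≤ (IntermediateField.adjoin (ratField (Ec M E) (jOm M)) (gens M)).toSubfield := by
      refine Subfield.closure_le.mpr ?_
      rintro y (hy | hy)
      · exact IntermediateField.algebraMap_mem
          (IntermediateField.adjoin (ratField (Ec M E) (jOm M)) (gens M))
          (⟨y, Ec_le_ratField M E _ hy⟩ : ratField (Ec M E) (jOm M))
      · exact IntermediateField.subset_adjoin _ _ hy
    exact this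
  · -- `adjoin ⊆ Fc`
    intro y hy
    have h : IntermediateField.adjoin (ratField (Ec M E) (jOm M)) (gens M) ≤
        Subfield.toIntermediateField (Fc M E) (fun x => hK x.2) := by
      rw [IntermediateField.adjoin_le_iff]
      intro z hz
      exact Subfield.subset_closure (Or.inr hz)
    exact h hy

/-- **field `finite` for `x = j`.** -/
theorem field_finite_j :
    ∃ s : Finset (Om M), (s : Set (Om M)) ⊆ Fc M E ∧
      ∀ f ∈ Fc M E, f ∈ Submodule.span (ratField (Ec M E) (jOm M)) (s : Set (Om M)) := by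
  classical
  set K := ratField (Ec M E) (jOm M) with hKdef
  set L := IntermediateField.adjoin K (gens M) with hLdef
  have hint : ∀ y ∈ gens M, IsIntegral K y := by
    rintro y ⟨d, hd, hdM, rfl⟩
    exact isIntegral_jd M E d hdM
  haveI : Finite (gens M) := (gens_finite M).to_subtype
  haveI hfd : FiniteDimensional K L := IntermediateField.finiteDimensional_adjoin hint
  -- a finite spanning set of `L` over `K`
  obtain ⟨s, hs⟩ := (Module.finite_def (R := K) (M := L)).mp hfd
  refine ⟨s.image (fun y : L => (y : Om M)), ?_, ?_⟩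
  · intro y hy
    rw [Finset.coe_image] at hy
    obtain ⟨z, -, rfl⟩ := hy
    have h0 : (z : Om M) ∈
        (IntermediateField.adjoin (ratField (Ec M E) (jOm M)) (gens M) : Set (Om M)) := z.2
    rw [← Fc_eq_adjoin M E] at h0
    exact h0
  · intro f hf
    have hfL : f ∈ L := by
      have h0 : f ∈
          (IntermediateField.adjoin (ratField (Ec M E) (jOm M)) (gens M) : Set (Om M)) := by
        rw [← Fc_eq_adjoin M E]; exact hf
      exact h0
    have h1 : (⟨f, hfL⟩ : L) ∈ Submodule.span K (s : Set L) := by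
      rw [hs]; exact Submodule.mem_top
    have h2 := Submodule.mem_map_of_mem (f := (L.val.toLinearMap : L →ₗ[K] Om M)) h1
    rw [Submodule.map_span] at h2
    rw [Finset.coe_image]
    exact h2

omit [NeZero M] in
theorem span_mono_subfield {K₁ K₂ : Subfield (Om M)} (h : K₁ ≤ K₂) (s : Set (Om M)) {f : Om M}
    (hf : f ∈ Submodule.span K₁ s) : f ∈ Submodule.span K₂ s := by
  induction hf using Submodule.span_induction with
  | mem x hx => exact Submodule.subset_span hx
  | zero => exact Submodule.zero_mem _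
  | add x y _ _ hx hy => exact Submodule.add_mem _ hx hy
  | smul c x _ hx =>
    have : c • x = (⟨(c : Om M), h c.2⟩ : K₂) • x := rfl
    rw [this]
    exact Submodule.smul_mem _ _ hx

/-- **field `finite`** for every admissible coordinate. -/
theorem field_finite {ℓ : ℕ} {x : Om M} {S : Finset (Om M)} (hx : IsCoordinate M ℓ x S) :
    ∃ s : Finset (Om M), (s : Set (Om M)) ⊆ Fc M E ∧
      ∀ f ∈ Fc M E, f ∈ Submodule.span (ratField (Ec M E) x) (s : Set (Om M)) := by
  have hx0 : x ≠ 0 := by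
    rintro rfl
    exact field_x_transcendental M hx isAlgebraic_zero
  have hxK : x ∈ ratField (Ec M E) x := Subfield.subset_closure (Or.inr rfl)
  have hnat : ∀ n : ℕ, (n : Om M) ∈ ratField (Ec M E) x := fun n => natCast_mem _ n
  -- `j ∈ Ec(x)`
  have hj : jOm M ∈ ratField (Ec M E) x := by
    rcases hx with ⟨-, rfl, -⟩ | ⟨h | h, -⟩
    · exact hxK
    · obtain ⟨-, hid, -⟩ := h
      have : jOm M = (x + 256) ^ 3 * (x ^ 2)⁻¹ := by
        rw [← hid]; field_simp
      rw [this]
      exact mul_mem (pow_mem (add_mem hxK (by exact_mod_cast hnat 256)) 3)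
        (inv_mem (pow_mem hxK 2))
    · obtain ⟨-, hid, -⟩ := h
      have : jOm M = (x + 27) * (x + 243) ^ 3 * (x ^ 3)⁻¹ := by
        rw [← hid]; field_simp
      rw [this]
      exact mul_mem (mul_mem (add_mem hxK (by exact_mod_cast hnat 27))
        (pow_mem (add_mem hxK (by exact_mod_cast hnat 243)) 3)) (inv_mem (pow_mem hxK 3))
  have hle : ratField (Ec M E) (jOm M) ≤ ratField (Ec M E) x := by
    refine Subfield.closure_le.mpr ?_
    rintro y (hy | hy)
    · exact Ec_le_ratField M E x hy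
    · rw [Set.mem_singleton_iff] at hy
      rw [hy]; exact hj
  obtain ⟨s, hs, hspan⟩ := field_finite_j M E
  exact ⟨s, hs, fun f hf => span_mono_subfield M hle _ (hspan f hf)⟩

end Fermat.Agent.S18.H24

end
end
-- ===== PACK-END S18/H24/Finite.lean

-- ===== PACK-BEGIN A2/Alg/H34/Asm.lean
section


/-!
# WALL A2 / ALG — route S assembly (helper34): `AlgSSStatement` from three leaves

`algSS_of_leaves : PuritySmoothLeaf → PurityNodeLeaf → GlueLeaf → AlgSSStatement`
(`AlgSSStatement` = frozen interface of `Fermat/Agent/A2/Spec.lean` v2).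

The three leaf `Prop`s are VERBATIM the statements `purity_smooth`, `purity_node`, `glue` of
`origin/helper34:Fermat/Agent/A2/Alg/Skel.lean`, at universe level `0`.  Everything else (Step I,
`DivisibleDiv` transport, the passage `PureAt u ⇒ LocalFactor (τ u / u)`) is proved in
`Alg/H34/{StepI,Basic,Base,Val}.lean`.  Neither `τ x = x` nor the finite order of `τ` is used.
-/

set_option autoImplicit false

namespace Fermat.Agent.A2.Alg.H34

open Fermat.Agent.A2 Fermat.Agent.A2.Alg

/-- **Leaf P-S** (purity at a closed point lying on ONE component). -/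
def PuritySmoothLeaf : Prop :=
  ∀ {R E F : Type} [CommRing R] [IsDomain R] [IsDiscreteValuationRing R]
    [HenselianLocalRing R] [IsAlgClosed (IsLocalRing.ResidueField R)]
    [Field E] [CharZero E] [Algebra R E] [IsFractionRing R E]
    [Field F] [Algebra E F] [Algebra R F] [IsScalarTower R E F]
    (q m : ℕ) (_ : q.Prime) (_ : (q : R) ∈ IsLocalRing.maximalIdeal R)
    (_ : 0 < m) (_ : ¬ q ∣ m)
    (w : R) (x : F) (B : Subalgebra R F) (_ : ChartCtx E w x B)
    (c : SSChart w B) (_ : Incomparable c)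
    (u : F) (_ : u ≠ 0) (_ : DivisibleDiv E m u) (_ : IsSplit B c u)
    (n : Ideal B) (_ : n.IsMaximal) (_ : algebraMap R B w ∈ n)
    (_ : ¬ (c.p₁ ≤ n ∧ c.p₂ ≤ n)), PureAt B c m u n

/-- **Leaf P-N** (purity at a crossing point). -/
def PurityNodeLeaf : Prop :=
  ∀ {R E F : Type} [CommRing R] [IsDomain R] [IsDiscreteValuationRing R]
    [HenselianLocalRing R] [IsAlgClosed (IsLocalRing.ResidueField R)]
    [Field E] [CharZero E] [Algebra R E] [IsFractionRing R E]
    [Field F] [Algebra E F] [Algebra R F] [IsScalarTower R E F]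
    (q m : ℕ) (_ : q.Prime) (_ : (q : R) ∈ IsLocalRing.maximalIdeal R)
    (_ : 0 < m) (_ : ¬ q ∣ m)
    (w : R) (x : F) (B : Subalgebra R F) (_ : ChartCtx E w x B)
    (c : SSChart w B) (_ : Incomparable c) (_ : SepCoord R E x B)
    (u : F) (_ : u ≠ 0) (_ : DivisibleDiv E m u) (_ : IsSplit B c u)
    (n : Ideal B) (_ : n.IsMaximal) (_ : algebraMap R B w ∈ n)
    (_ : c.p₁ ≤ n) (_ : c.p₂ ≤ n), PureAt B c m u n

/-- **Leaf GLUE** (a Kummer class locally factored at every closed point of the special fibre of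
both charts is trivial). -/
def GlueLeaf : Prop :=
  ∀ {R E F : Type} [CommRing R] [IsDomain R] [IsDiscreteValuationRing R]
    [HenselianLocalRing R] [IsAlgClosed (IsLocalRing.ResidueField R)]
    [Field E] [CharZero E] [Algebra R E] [IsFractionRing R E]
    [Field F] [Algebra E F] [Algebra R F] [IsScalarTower R E F]
    (q m : ℕ) (_ : q.Prime) (_ : (q : R) ∈ IsLocalRing.maximalIdeal R)
    (_ : 0 < m) (_ : ¬ q ∣ m)
    (w : R) (x : F) (Bf Bi : Subalgebra R F)
    (_ : ChartCtx E w x Bf) (_ : ChartCtx E w x⁻¹ Bi)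
    (cf : SSChart w Bf) (ci : SSChart w Bi) (_ : Incomparable cf) (_ : Incomparable ci)
    (u : F) (_ : u ≠ 0) (_ : DivisibleDiv E m u)
    (_ : LocallyFactored Bf cf m u) (_ : LocallyFactored Bi ci m u),
    ∃ y : F, y ≠ 0 ∧ u = y ^ m

theorem incomparable_of_ssChart {R F : Type*} [CommRing R] [Field F] [Algebra R F] {w : R}
    {B : Subalgebra R F} (c : SSChart w B) : Incomparable c :=
  ⟨c.not_le₁₂, c.not_le₂₁⟩

section Asm

variable {R E F : Type} [CommRing R] [IsDomain R] [IsDiscreteValuationRing R]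
  [HenselianLocalRing R] [IsAlgClosed (IsLocalRing.ResidueField R)]
  [Field E] [CharZero E] [Algebra R E] [IsFractionRing R E]
  [Field F] [Algebra E F] [Algebra R F] [IsScalarTower R E F]

/-- Purity at every closed point of the special fibre. -/
theorem purity_of_leaves (hPS : PuritySmoothLeaf) (hPN : PurityNodeLeaf)
    (q m : ℕ) (hq : q.Prime) (hqR : (q : R) ∈ IsLocalRing.maximalIdeal R)
    (hm : 0 < m) (hqm : ¬ q ∣ m)
    (w : R) (x : F) (B : Subalgebra R F) (hB : ChartCtx E w x B)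
    (c : SSChart w B) (s : SepCoord R E x B)
    (u : F) (hu : u ≠ 0) (hdiv : DivisibleDiv E m u) (hs : IsSplit B c u)
    (n : Ideal B) (hn : n.IsMaximal) (hwn : algebraMap R B w ∈ n) : PureAt B c m u n := by
  by_cases h1 : c.p₁ ≤ n ∧ c.p₂ ≤ n
  · exact hPN q m hq hqR hm hqm w x B hB c (incomparable_of_ssChart c) s u hu hdiv hs n hn hwn
      h1.1 h1.2
  · exact hPS q m hq hqR hm hqm w x B hB c (incomparable_of_ssChart c) u hu hdiv hs n hn hwn h1

/-- **Step II.**  A split Kummer class is fixed by `τ`. -/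
theorem stepII_of_leaves (hPS : PuritySmoothLeaf) (hPN : PurityNodeLeaf) (hG : GlueLeaf)
    (q m : ℕ) (hq : q.Prime) (hqR : (q : R) ∈ IsLocalRing.maximalIdeal R)
    (hm : 0 < m) (hqm : ¬ q ∣ m)
    (w : R) (x : F) (Bf Bi : Subalgebra R F)
    (hBf : ChartCtx E w x Bf) (hBi : ChartCtx E w x⁻¹ Bi)
    (cf : SSChart w Bf) (ci : SSChart w Bi)
    (sf : SepCoord R E x Bf) (si : SepCoord R E x⁻¹ Bi)
    (τ : F ≃+* F) (τE : E ≃+* E) (τR : R ≃+* R)
    (hτf : TauCtx w Bf τ τE τR) (hτi : TauCtx w Bi τ τE τR)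
    (u : F) (hu : u ≠ 0) (hdiv : DivisibleDiv E m u)
    (hsf : IsSplit Bf cf u) (hsi : IsSplit Bi ci u) :
    ∃ h : F, h ≠ 0 ∧ τ u = h ^ m * u := by
  have hτu : τ u ≠ 0 := (map_ne_zero τ).2 hu
  have hu' : τ u * u⁻¹ ≠ 0 := mul_ne_zero hτu (inv_ne_zero hu)
  have hdiv' : DivisibleDiv E m (τ u * u⁻¹) :=
    divisibleDiv_mul_inv m _ _ (divisibleDiv_tau τ τE hτf.hτE m u hdiv) hdiv
  have hf : LocallyFactored Bf cf m (τ u * u⁻¹) := fun n hn hwn =>
    localFactor_of_pureAt w Bf cf τ τE τR hτf m u hu n hn.isPrime hwn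
      (purity_of_leaves hPS hPN q m hq hqR hm hqm w x Bf hBf cf sf u hu hdiv hsf n hn hwn)
  have hi : LocallyFactored Bi ci m (τ u * u⁻¹) := fun n hn hwn =>
    localFactor_of_pureAt w Bi ci τ τE τR hτi m u hu n hn.isPrime hwn
      (purity_of_leaves hPS hPN q m hq hqR hm hqm w x⁻¹ Bi hBi ci si u hu hdiv hsi n hn hwn)
  obtain ⟨y, hy, hyu⟩ := hG q m hq hqR hm hqm w x Bf Bi hBf hBi cf ci
    (incomparable_of_ssChart cf) (incomparable_of_ssChart ci) _ hu' hdiv' hf hi
  refine ⟨y, hy, ?_⟩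
  rw [← hyu, mul_assoc, inv_mul_cancel₀ hu, mul_one]

end Asm

/-- **ALG, route S**: the frozen interface `AlgSSStatement` from the three leaves. -/
theorem algSS_of_leaves (hPS : PuritySmoothLeaf) (hPN : PurityNodeLeaf) (hG : GlueLeaf) :
    AlgSSStatement := by
  intro R E F _ _ _ _ _ _ _ _ _ _ _ _ _ w hw q m hq hqR hm hqm x hx hfin hconst Bf Bi hBf hBi
    cf ci sf si τ τE τR hτE hτR _ _ hτf hτi
  have hCf : ChartCtx E w x Bf := ⟨hw, hx, hfin, hconst, hBf⟩
  have hCi : ChartCtx E w x⁻¹ Bi := chartCtx_inv w hw x hx hfin hconst Bi hBi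
  have hTf : TauCtx w Bf τ τE τR := ⟨hτE, hτR, hτf⟩
  have hTi : TauCtx w Bi τ τE τR := ⟨hτE, hτR, hτi⟩
  intro f hf hdiv
  have hτf0 : τ f ≠ 0 := (map_ne_zero τ).2 hf
  have hu : τ f * f⁻¹ ≠ 0 := mul_ne_zero hτf0 (inv_ne_zero hf)
  have hdivu : DivisibleDiv E m (τ f * f⁻¹) :=
    divisibleDiv_mul_inv m _ _ (divisibleDiv_tau τ τE hτE m f hdiv) hdiv
  obtain ⟨h, hh, hh2⟩ := stepII_of_leaves hPS hPN hG q m hq hqR hm hqm w x Bf Bi hCf hCi cf ci
    sf si τ τE τR hTf hTi (τ f * f⁻¹) hu hdivu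
    (stepI w x Bf hCf cf (incomparable_of_ssChart cf) τ τE τR hTf f hf)
    (stepI w x⁻¹ Bi hCi ci (incomparable_of_ssChart ci) τ τE τR hTi f hf)
  refine ⟨h, hh, ?_⟩
  rw [map_mul, map_inv₀] at hh2
  have h3 : τ (τ f) = h ^ m * (τ f * f⁻¹) * τ f := by
    rw [← hh2, mul_assoc, inv_mul_cancel₀ hτf0, mul_one]
  rw [h3]
  field_simp

end Fermat.Agent.A2.Alg.H34

end
-- ===== PACK-END A2/Alg/H34/Asm.lean

-- ===== PACK-BEGIN A2/Alg/H754/PuritySmoothLeaf.lean
section



/-!
# A2 / ALG leaf P-S (helper754): `puritySmoothLeaf : H34.PuritySmoothLeaf`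

The leaf `Prop` of `Fermat/Agent/A2/Alg/H34/Asm.lean` (universe level `0`), from the
universe-polymorphic `H754.purity_smooth` (VERBATIM statement of `Alg/Skel.lean`).
-/

set_option autoImplicit false

namespace Fermat.Agent.A2.Alg.H754

/-- **Leaf P-S**, in the exact shape consumed by `H34.algSS_of_leaves`. -/
theorem puritySmoothLeaf : Fermat.Agent.A2.Alg.H34.PuritySmoothLeaf :=
  fun q m hq hqR hm hqm w x B hB c hc u hu hdiv hs n hn hwn h1 =>
    purity_smooth q m hq hqR hm hqm w x B hB c hc u hu hdiv hs n hn hwn h1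

end Fermat.Agent.A2.Alg.H754

end
-- ===== PACK-END A2/Alg/H754/PuritySmoothLeaf.lean

-- ===== PACK-BEGIN A2/Alg/H348/ChartComp.lean
section




/-!
# A2 / ALG / GLUE, `hconst` part, step 2: the components of a chart give discrete valuation rings

In the setting of `Alg/Spec.lean` (`ChartCtx E w x B`, `c : SSChart w B`): the hypotheses
`CompData` of `CompDvr.lean` hold for `A = R[x]`, `B`, `p = c.p₁`, `p' = c.p₂` (and symmetrically),
hence `B_{p_i}` is a discrete valuation ring of `F` with uniformiser `w`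
(`compData₁`, `compData₂`).

Reusable pieces:
* `chart_eq`                 : `B = H138.chart R {x}`;
* `injective_algebraMap_RF`, `transcendental_R`, `prime_w`;
* `isAlgebraic_adjoin`       : `F` is algebraic over `R[x]` (from `hfin`);
* `exists_mul_mem_chart`     : `F = Frac B`, denominators in `R[x]`;
* `contract_of_inf`          : `p ∩ R[x] = w R[x]` (torsion-freeness of `B / w B` over `k[x]`,
                               `H729.mem_chart_of_mul_mem`).
-/

set_option autoImplicit false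
set_option linter.unusedSectionVars false
set_option linter.style.haveILetI false

open Polynomial

namespace Fermat.Agent.A2.Alg.H348

open Fermat.Agent.A2 Fermat.Agent.A2.Alg Fermat.Agent.A2.H348
open Fermat.Agent.S18.H138 (chart baseField)

section Basic

theorem injective_algebraMap_RF (R E F : Type*) [CommRing R] [IsDomain R]
    [Field E] [Algebra R E] [IsFractionRing R E]
    [Field F] [Algebra E F] [Algebra R F] [IsScalarTower R E F] :
    Function.Injective (algebraMap R F) := by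
  rw [IsScalarTower.algebraMap_eq R E F]
  exact (algebraMap E F).injective.comp (IsFractionRing.injective R E)

variable {R E F : Type*} [CommRing R] [IsDomain R]
  [Field E] [Algebra R E] [IsFractionRing R E]
  [Field F] [Algebra E F] [Algebra R F] [IsScalarTower R E F]

variable (R) in
theorem transcendental_R {x : F} (hx : Transcendental E x) : Transcendental R x :=
  hx.restrictScalars (IsFractionRing.injective R E)

/-- `E(x) ⊆ Frac R[x]` inside `F`. -/
theorem adjoin_le_baseField (x : F) :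
    (IntermediateField.adjoin E ({x} : Set F)).toSubfield ≤ baseField R x := by
  rw [IntermediateField.adjoin_toSubfield, Subfield.closure_le]
  rintro y (⟨e, rfl⟩ | hy)
  · obtain ⟨a, b, -, rfl⟩ := IsFractionRing.div_surjective (A := R) e
    rw [map_div₀, ← IsScalarTower.algebraMap_apply, ← IsScalarTower.algebraMap_apply]
    exact (baseField R x).div_mem (Subfield.subset_closure (Or.inl ⟨a, rfl⟩))
      (Subfield.subset_closure (Or.inl ⟨b, rfl⟩))
  · exact Subfield.subset_closure (Or.inr hy)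

/-- `F` is algebraic over `R[x]`. -/
theorem isAlgebraic_adjoin {x : F}
    (hfin : FiniteDimensional (IntermediateField.adjoin E ({x} : Set F)) F) (f : F) :
    IsAlgebraic (Algebra.adjoin R ({x} : Set F)) f := by
  classical
  set A : Subalgebra R F := Algebra.adjoin R ({x} : Set F) with hA
  set K : Subfield F := baseField R x with hK
  have hle := _root_.Fermat.Agent.A2.Alg.H348.adjoin_le_baseField (R := R) (E := E) x
  have h1 : IsAlgebraic (IntermediateField.adjoin E ({x} : Set F)) f :=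
    Algebra.IsAlgebraic.isAlgebraic f
  obtain ⟨P, hP0, hP⟩ := h1
  let φ : A →+* K :=
    { toFun := fun a => ⟨a, Fermat.Agent.S18.H138.adjoin_le_baseField x a.2⟩
      map_one' := rfl
      map_mul' := fun _ _ => rfl
      map_zero' := rfl
      map_add' := fun _ _ => rfl }
  letI : Algebra A K := φ.toAlgebra
  haveI : IsScalarTower A K F := IsScalarTower.of_algebraMap_eq (fun _ => rfl)
  have hinj : Function.Injective (algebraMap A K) := by
    intro a b hab
    have : (a : F) = b := congrArg (fun t : K => (t : F)) hab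
    exact Subtype.ext this
  haveI : FaithfulSMul A K := (faithfulSMul_iff_algebraMap_injective A K).2 hinj
  haveI : IsFractionRing A K := by
    refine IsFractionRing.of_field A K (fun z => ?_)
    obtain ⟨a, ha, b, hb, h⟩ := Fermat.Agent.S18.H138.exists_div_of_mem_baseField (R := R) x z.2
    exact ⟨⟨a, ha⟩, ⟨b, hb⟩, Subtype.ext h⟩
  rw [IsFractionRing.isAlgebraic_iff A K F]
  refine ⟨P.map (Subfield.inclusion hle), ?_, ?_⟩
  · exact (Polynomial.map_ne_zero_iff (Subfield.inclusion hle).injective).2 hP0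
  · rw [aeval_def, eval₂_map]
    exact hP

end Basic

section Chart

variable {R E F : Type*} [CommRing R] [IsDomain R] [IsDiscreteValuationRing R]
  [Field E] [Algebra R E] [IsFractionRing R E]
  [Field F] [Algebra E F] [Algebra R F] [IsScalarTower R E F]

theorem prime_w {w : R} (hw : Irreducible w) : Prime w := hw.prime

theorem chart_eq {w : R} {x : F} {B : Subalgebra R F} (hB : ChartCtx E w x B) :
    B = chart R ({x} : Set F) := by
  ext f
  rw [hB.hB f]
  rfl

/-- `F = Frac B`, with denominators in `R[x]`. -/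
theorem exists_mul_mem_chart {x : F}
    (hfin : FiniteDimensional (IntermediateField.adjoin E ({x} : Set F)) F) (f : F) :
    ∃ a ∈ Algebra.adjoin R ({x} : Set F), a ≠ 0 ∧ a * f ∈ chart R ({x} : Set F) := by
  obtain ⟨a, ha0, ha⟩ := (isAlgebraic_adjoin (R := R) (E := E) hfin f).exists_integral_multiple
  refine ⟨a, a.2, fun h => ha0 (Subtype.ext h), ?_⟩
  exact ha

/-- every nonzero element of the chart divides a nonzero element of `R[x]`. -/
theorem exists_cofactor {x : F} {b : F} (hb : b ∈ chart R ({x} : Set F)) (hb0 : b ≠ 0) :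
    ∃ g ∈ chart R ({x} : Set F), b * g ∈ Algebra.adjoin R ({x} : Set F) ∧ b * g ≠ 0 := by
  have hint : IsIntegral (Algebra.adjoin R ({x} : Set F)) b := hb
  obtain ⟨t, ht, r, hr, h⟩ := hint.isAlgebraic.exists_nonzero_eq_adjoin_mul
    (mem_nonZeroDivisors_of_ne_zero hb0)
  have ht' : IsIntegral (Algebra.adjoin R ({x} : Set F)) t := adjoin_le_integralClosure hint ht
  refine ⟨t, ht', ?_, ?_⟩
  · rw [h]; exact r.2
  · rw [h]
    intro h0
    exact hr (Subtype.ext h0)

/-- no nonzero element of `R[x]` is divisible by all powers of `w`. -/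
theorem exists_not_pow_dvd {w : R} (hw : Irreducible w) {x : F} (hx : Transcendental R x)
    {a : F} (ha : a ∈ Algebra.adjoin R ({x} : Set F)) (ha0 : a ≠ 0) :
    ∃ n : ℕ, ∀ a' ∈ Algebra.adjoin R ({x} : Set F), a ≠ algebraMap R F w ^ (n + 1) * a' := by
  haveI := Fermat.Agent.S18.H138.isNoetherianRing_adjoin_singleton (R := R) hx
  have hpr := Fermat.Agent.A2.H729.prime_algebraMap_adjoin (prime_w hw) hx
  have hfm : FiniteMultiplicity (algebraMap R (Algebra.adjoin R ({x} : Set F)) w)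
      (⟨a, ha⟩ : Algebra.adjoin R ({x} : Set F)) :=
    FiniteMultiplicity.of_not_isUnit hpr.not_unit (fun h => ha0 (congrArg Subtype.val h))
  obtain ⟨n, hn⟩ := hfm
  refine ⟨n, fun a' ha' h => hn ⟨⟨a', ha'⟩, ?_⟩⟩
  apply Subtype.ext
  exact h

/-- `p ∩ R[x] = w R[x]` for a component `p` of the special fibre of the chart. -/
theorem contract_of_inf {w : R} (hw : Irreducible w) {x : F} (hx : Transcendental R x)
    {p p' : Ideal (chart R ({x} : Set F))}
    (hinf : p ⊓ p' = Ideal.span {algebraMap R (chart R ({x} : Set F)) w}) (hle : ¬ p' ≤ p)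
    (a : chart R ({x} : Set F)) (haA : (a : F) ∈ Algebra.adjoin R ({x} : Set F)) (hap : a ∈ p) :
    ∃ a' ∈ Algebra.adjoin R ({x} : Set F), (a : F) = algebraMap R F w * a' := by
  by_contra hcon
  have hw0 : algebraMap R F w ≠ 0 := by
    intro h0
    apply hcon
    exact absurd (Fermat.Agent.A2.H729.prime_algebraMap_adjoin (prime_w hw) hx).ne_zero
      (by
        intro hne
        apply hne
        apply Subtype.ext
        exact h0)
  have hnd : ¬ algebraMap R (Algebra.adjoin R ({x} : Set F)) w ∣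
      (⟨(a : F), haA⟩ : Algebra.adjoin R ({x} : Set F)) := by
    rintro ⟨a', ha'⟩
    apply hcon
    refine ⟨a', a'.2, ?_⟩
    exact congrArg Subtype.val ha'
  have hG := Fermat.Agent.A2.H729.isGaussDenom_of_not_dvd hx hnd
  obtain ⟨t, ht', ht⟩ := SetLike.not_le_iff_exists.1 hle
  have hat : a * t ∈ p ⊓ p' := ⟨p.mul_mem_right _ hap, p'.mul_mem_left _ ht'⟩
  rw [hinf, Ideal.mem_span_singleton'] at hat
  obtain ⟨c, hc⟩ := hat
  have hc' : (c : F) * algebraMap R F w = (a : F) * (t : F) := congrArg Subtype.val hc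
  have h1 : algebraMap R F w * ((t : F) * (algebraMap R F w)⁻¹) ∈ chart R ({x} : Set F) := by
    have : algebraMap R F w * ((t : F) * (algebraMap R F w)⁻¹) = (t : F) := by field_simp
    rw [this]; exact t.2
  have h2 : (a : F) * ((t : F) * (algebraMap R F w)⁻¹) ∈ chart R ({x} : Set F) := by
    have : (a : F) * ((t : F) * (algebraMap R F w)⁻¹) = (c : F) := by
      rw [← mul_assoc, ← hc', mul_assoc, mul_inv_cancel₀ hw0, mul_one]
    rw [this]; exact c.2
  have h3 := Fermat.Agent.A2.H729.mem_chart_of_mul_mem (prime_w hw) hx hG h1 h2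
  apply ht
  have h4 : t = algebraMap R (chart R ({x} : Set F)) w * ⟨_, h3⟩ := by
    apply Subtype.ext
    show (t : F) = algebraMap R F w * ((t : F) * (algebraMap R F w)⁻¹)
    field_simp
  have hwp : algebraMap R (chart R ({x} : Set F)) w ∈ p := by
    have : algebraMap R (chart R ({x} : Set F)) w ∈ p ⊓ p' := by
      rw [hinf]; exact Ideal.mem_span_singleton_self _
    exact this.1
  rw [h4]
  exact p.mul_mem_right _ hwp

theorem adjoin_le_of_ctx {w : R} {x : F} {B : Subalgebra R F} (hB : ChartCtx E w x B) :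
    Algebra.adjoin R ({x} : Set F) ≤ B := by
  rw [chart_eq hB]
  exact Fermat.Agent.S18.H138.adjoin_le_chart _

/-- **`CompData` for a component of a chart.** -/
theorem compData_of_inf {w : R} {x : F} {B : Subalgebra R F} (hB : ChartCtx E w x B)
    {p p' : Ideal B} (hinf : p ⊓ p' = Ideal.span {algebraMap R B w}) (hle : ¬ p' ≤ p) :
    CompData (Algebra.adjoin R ({x} : Set F)) B p p' w := by
  obtain rfl := chart_eq hB
  have hx : Transcendental R x := transcendental_R R hB.hx
  have hw0 : algebraMap R F w ≠ 0 := by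
    intro h0
    exact hB.hw.ne_zero (injective_algebraMap_RF R E F (by rw [h0, map_zero]))
  exact
    { inf_eq := hinf
      not_le := hle
      w_ne := hw0
      contract := contract_of_inf hB.hw hx hinf hle
      finite_mult := fun a ha ha0 => exists_not_pow_dvd hB.hw hx ha ha0
      cofactor := fun b hb hb0 => exists_cofactor hb hb0
      frac := fun f => by
        obtain ⟨a, ha, ha0, haf⟩ := exists_mul_mem_chart (R := R) (E := E) hB.hfin f
        exact ⟨a, ha, ha0, Fermat.Agent.S18.H138.adjoin_le_chart _ ha, haf⟩ }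

theorem compData₁ {w : R} {x : F} {B : Subalgebra R F} (hB : ChartCtx E w x B)
    (c : SSChart w B) : CompData (Algebra.adjoin R ({x} : Set F)) B c.p₁ c.p₂ w :=
  compData_of_inf hB c.inf_eq c.not_le₂₁

theorem compData₂ {w : R} {x : F} {B : Subalgebra R F} (hB : ChartCtx E w x B)
    (c : SSChart w B) : CompData (Algebra.adjoin R ({x} : Set F)) B c.p₂ c.p₁ w :=
  compData_of_inf hB (by rw [inf_comm]; exact c.inf_eq) c.not_le₁₂

end Chart

end Fermat.Agent.A2.Alg.H348

end
-- ===== PACK-END A2/Alg/H348/ChartComp.lean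

-- ===== PACK-BEGIN A2/Alg/H348/HConst.lean
section




/-!
# A2 / ALG / GLUE, the `hconst` part

`hconst_of_locallyFactored`: in the setting of the leaf `glue` of `Alg/Skel.lean` (only ONE chart
`B` with its `SSChart` and its local factorisations is used), constants do not grow in the residue
fields of the Kummer algebra `F[X]/(X ^ m - u)`:  this is EXACTLY the hypothesis `hconst` of
`Fermat.Agent.A2.H348.exists_pow_eq_of_local_factorisation`.

Proof: `V₁ = B_{p₁}` is a discrete valuation ring with uniformiser `w` (`ChartComp.lean`),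
`u ∈ 1 + w V₁` (local factorisation at a closed point of the component `p₁`), so `V₁` is unramified
in every residue field `L` of the Kummer algebra and `E` is algebraically closed in `L`
(`ConstDvr.lean`: Chevalley + `H93.CoverSplit` + `H313.hens_integral`).
-/

set_option autoImplicit false
set_option linter.unusedSectionVars false
set_option linter.style.haveILetI false

open Polynomial

namespace Fermat.Agent.A2.Alg.H348

open Fermat.Agent.A2 Fermat.Agent.A2.Alg Fermat.Agent.A2.H348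

section One

variable {R F : Type*} [CommRing R] [Field F] [Algebra R F]
  {A B : Subalgebra R F} {p p' : Ideal B} [hp : p.IsPrime] {w : R}

/-- `p B_p = w B_p`. -/
theorem CompData.mul_inv_mem_of_mem (D : CompData A B p p' w) {d : B} (hd : d ∈ p) :
    (d : F) * (algebraMap R F w)⁻¹ ∈ locAt B p := by
  obtain ⟨t, ht', ht⟩ := D.exists_notMem
  have hdt : d * t ∈ p ⊓ p' := ⟨p.mul_mem_right _ hd, p'.mul_mem_left _ ht'⟩
  rw [D.inf_eq, Ideal.mem_span_singleton'] at hdt
  obtain ⟨c, hc⟩ := hdt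
  refine ⟨t, ht, ?_⟩
  have hc' : (c : F) * algebraMap R F w = (d : F) * (t : F) := congrArg Subtype.val hc
  have : (t : F) * ((d : F) * (algebraMap R F w)⁻¹) = c := by
    rw [← mul_assoc, mul_comm (t : F) d, ← hc', mul_assoc, mul_inv_cancel₀ D.w_ne, mul_one]
  rw [this]
  exact c.2

/-- `LocOne B n I v` with `I ⊆ p ⊆ n` gives `v ∈ 1 + w B_p`. -/
theorem CompData.one_of_locOne (D : CompData A B p p' w) {n I : Ideal B} (hpn : p ≤ n)
    (hI : I ≤ p) {v : F} (h : LocOne B n I v) :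
    ∃ t ∈ locAt B p, v = 1 + algebraMap R F w * t := by
  obtain ⟨a, b, hb, hab, hv⟩ := h
  have hbp : b ∉ p := fun h => hb (hpn h)
  have hb0 : (b : F) ≠ 0 := coe_ne_zero_of_notMem p hbp
  have h1 := D.mul_inv_mem_of_mem (hI hab)
  refine ⟨((a - b : B) : F) * (algebraMap R F w)⁻¹ * (b : F)⁻¹,
    (locAt B p).mul_mem h1 (inv_mem_locAt p hbp), ?_⟩
  have hw := D.w_ne
  have hv' : v = (a : F) * (b : F)⁻¹ := by
    rw [← hv]; field_simp
  rw [hv']
  push_cast
  field_simp
  ring

theorem CompData.one_mul (D : CompData A B p p' w) {v v' : F}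
    (h : ∃ t ∈ locAt B p, v = 1 + algebraMap R F w * t)
    (h' : ∃ t ∈ locAt B p, v' = 1 + algebraMap R F w * t) :
    ∃ t ∈ locAt B p, v * v' = 1 + algebraMap R F w * t := by
  obtain ⟨t, ht, rfl⟩ := h
  obtain ⟨t', ht', rfl⟩ := h'
  refine ⟨t + t' + algebraMap R F w * t * t', ?_, by ring⟩
  exact (locAt B p).add_mem ((locAt B p).add_mem ht ht')
    ((locAt B p).mul_mem ((locAt B p).mul_mem ((locAt B p).algebraMap_mem w) ht) ht')

theorem CompData.one_pow (D : CompData A B p p' w) {v : F}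
    (h : ∃ t ∈ locAt B p, v = 1 + algebraMap R F w * t) (k : ℕ) :
    ∃ t ∈ locAt B p, v ^ k = 1 + algebraMap R F w * t := by
  induction k with
  | zero => exact ⟨0, (locAt B p).zero_mem, by simp⟩
  | succ k ih =>
    rw [pow_succ]
    exact D.one_mul ih h

theorem CompData.one_inv (D : CompData A B p p' w) {v : F}
    (h : ∃ t ∈ locAt B p, v = 1 + algebraMap R F w * t) :
    v⁻¹ ∈ locAt B p ∧ ∃ t ∈ locAt B p, v⁻¹ = 1 + algebraMap R F w * t := by
  obtain ⟨t, ht, rfl⟩ := h
  have h1 : (1 + algebraMap R F w * t)⁻¹ ∈ locAt B p :=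
    one_add_mul_inv_mem_locAt p D.w_mem ht
  have hne : (1 + algebraMap R F w * t) ≠ 0 := by
    intro h0
    apply D.w_inv_notMem
    have h2 : algebraMap R F w * (-t) = 1 := by linear_combination -h0
    rw [inv_eq_of_mul_eq_one_right h2]
    exact (locAt B p).neg_mem ht
  refine ⟨h1, -(t * (1 + algebraMap R F w * t)⁻¹),
    (locAt B p).neg_mem ((locAt B p).mul_mem ht h1), ?_⟩
  field_simp
  ring

end One

section Main

variable {R E F : Type*} [CommRing R] [IsDomain R] [IsDiscreteValuationRing R]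
  [HenselianLocalRing R] [IsAlgClosed (IsLocalRing.ResidueField R)]
  [Field E] [CharZero E] [Algebra R E] [IsFractionRing R E]
  [Field F] [Algebra E F] [Algebra R F] [IsScalarTower R E F]

/-- `u ∈ 1 + w B_{p₁}` for a locally factored `u`. -/
theorem one_of_locallyFactored {w : R} {x : F} {B : Subalgebra R F} (hB : ChartCtx E w x B)
    (c : SSChart w B) {m : ℕ} {u : F} (hf : LocallyFactored B c m u) :
    haveI := c.prime₁
    ∃ t ∈ locAt B c.p₁, u = 1 + algebraMap R F w * t := by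
  haveI := c.prime₁
  have D := compData₁ hB c
  obtain ⟨n, hn, hpn⟩ := Ideal.exists_le_maximal c.p₁ c.prime₁.ne_top
  obtain ⟨h, hh0, hLO, hO1, -⟩ := hf n hn (hpn D.w_mem)
  have hspan : Ideal.span {algebraMap R B w} ≤ c.p₁ := by
    rw [Ideal.span_le, Set.singleton_subset_iff]
    exact D.w_mem
  have h1 := D.one_of_locOne hpn hspan hLO
  have h2 := D.one_of_locOne le_rfl le_rfl hO1
  have h3 := (D.one_inv (D.one_pow h2 m)).2
  have h4 := D.one_mul h1 h3
  have : u * h ^ m * (h ^ m)⁻¹ = u := by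
    rw [mul_assoc, mul_inv_cancel₀ (pow_ne_zero _ hh0), mul_one]
  rwa [this] at h4

/-- **The `hconst` part of GLUE.** -/
theorem hconst_of_locallyFactored (q m : ℕ) (hq : q.Prime)
    (hqR : (q : R) ∈ IsLocalRing.maximalIdeal R) (hm : 0 < m) (hqm : ¬ q ∣ m)
    (w : R) (x : F) (B : Subalgebra R F) (hB : ChartCtx E w x B) (c : SSChart w B)
    (u : F) (hf : LocallyFactored B c m u) :
    ∀ 𝔫 : Ideal (AdjoinRoot (X ^ m - C u : F[X])), 𝔫.IsMaximal →
      ∀ y : AdjoinRoot (X ^ m - C u : F[X]) ⧸ 𝔫, IsIntegral R y →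
        y ∈ Set.range (algebraMap R (AdjoinRoot (X ^ m - C u : F[X]) ⧸ 𝔫)) := by
  intro 𝔫 h𝔫 y hy
  haveI := c.prime₁
  have D := compData₁ hB c
  have hAB := adjoin_le_of_ctx hB
  letI : Field (AdjoinRoot (X ^ m - C u : F[X]) ⧸ 𝔫) := Ideal.Quotient.field 𝔫
  obtain ⟨ζ, hζ⟩ := exists_primitiveRoot (R := R) q m hq hqR hm hqm
  have hmu := isUnit_natCast (R := R) q m hq hqR hqm
  obtain ⟨t, ht, hut⟩ := one_of_locallyFactored hB c hf
  have hw0 := D.w_ne
  have huV : u ∈ locAt B c.p₁ := by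
    rw [hut]
    exact (locAt B c.p₁).add_mem (locAt B c.p₁).one_mem
      ((locAt B c.p₁).mul_mem ((locAt B c.p₁).algebraMap_mem w) ht)
  have hu' : u⁻¹ ∈ locAt B c.p₁ := (D.one_inv ⟨t, ht, hut⟩).1
  have hu1 : (u - 1) * (algebraMap R F w)⁻¹ ∈ locAt B c.p₁ := by
    have : (u - 1) * (algebraMap R F w)⁻¹ = t := by
      rw [hut]; field_simp; ring
    rw [this]; exact ht
  have hz : (Ideal.Quotient.mk 𝔫 (AdjoinRoot.root (X ^ m - C u : F[X]))) ^ m =
      algebraMap F (AdjoinRoot (X ^ m - C u : F[X]) ⧸ 𝔫) u := by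
    have h := AdjoinRoot.eval₂_root (X ^ m - C u : F[X])
    rw [eval₂_sub, eval₂_pow, eval₂_X, eval₂_C, sub_eq_zero] at h
    rw [← map_pow, h]
    rfl
  have hgen : Algebra.adjoin F
      ({Ideal.Quotient.mk 𝔫 (AdjoinRoot.root (X ^ m - C u : F[X]))} :
        Set (AdjoinRoot (X ^ m - C u : F[X]) ⧸ 𝔫)) = ⊤ := by
    have h1 : (Ideal.Quotient.mkₐ F 𝔫) '' {AdjoinRoot.root (X ^ m - C u : F[X])} =
        {Ideal.Quotient.mk 𝔫 (AdjoinRoot.root (X ^ m - C u : F[X]))} := by
      rw [Set.image_singleton]; rfl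
    rw [← h1, ← AlgHom.map_adjoin, AdjoinRoot.adjoinRoot_eq_top, Algebra.map_top,
      AlgHom.range_eq_top]
    exact Ideal.Quotient.mkₐ_surjective F 𝔫
  exact const_of_dvr E w hB.hw (D.valuationSubring hAB)
    (fun r => (locAt B c.p₁).algebraMap_mem r) D.w_inv_notMem
    (fun f hf hf' => D.mul_inv_mem hf hf') (D.exists_mul_pow_mem hAB) m hm ζ hζ hmu u huV hu' hu1
    (Ideal.Quotient.mk 𝔫 (AdjoinRoot.root (X ^ m - C u : F[X]))) hz hgen y hy

end Main

end Fermat.Agent.A2.Alg.H348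

end
-- ===== PACK-END A2/Alg/H348/HConst.lean

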