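import Mathlib
import Fermat.Prelude.Def_AlgebraicCurve_DivisorClassGroup
import Fermat.Agent.Pack.S34.G0E7L0
import Fermat.Agent.Pack.S34.G0E9L2
import Fermat.Agent.Pack.S34.G0E3L2
import Fermat.Agent.Pack.S34.G0E8L2
import Fermat.Agent.Pack.S34.G0E4L2
import Fermat.Agent.Pack.S34.G0E0L2
import Fermat.Agent.Pack.S34.G0E8L1
import Fermat.Agent.Pack.S34.G0E0L0
import Fermat.Agent.Pack.S34.G0E9L3
import Fermat.Agent.Pack.S34.G0E9L1
import Fermat.Agent.Pack.S34.G0E1L0
import Fermat.Agent.Pack.S34.G0E1L3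
import Fermat.Agent.Pack.S34.G0E9L0
import Fermat.Agent.Pack.S34.G0E2L1
import Fermat.Agent.Pack.S34.G0E6L3

-- ===== PACK-BEGIN S24/Mod/H997Taylor.lean
section




/-!
# S24 / MOD — the finite-point data of `AnalyticCore` from Taylor expansions

For a `HolBase N` whose ring `Hol` consists of holomorphic functions and whose `J 1` is the
`j`-function, the three `PointData` fields of `AnalyticCore` are constructed from
helper624's Taylor/rotation package (`H624`) and helper47's local orders of `j` (`M7.H47`).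
-/

set_option autoImplicit false

noncomputable section

open ModularCurve HahnSeries UpperHalfPlane ModularForm EisensteinSeries
open scoped MatrixGroups Manifold

namespace Fermat.Agent.S24.H997

open Fermat.Agent.S24.H624 Fermat.Agent.S20.L1 Fermat.Agent.S24.M7.H47

variable {N : ℕ} [NeZero N]

/-- `Hol` consists of holomorphic functions and `J 1` is the `j`-function. -/
structure HolBase.IsHolo (B : HolBase N) : Prop where
  mdiff : ∀ f ∈ B.Hol, f ∈ holoRing
  J_one : B.J 1 = jFun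

namespace HolBase

variable (B : HolBase N) (hB : B.IsHolo)

/-- the inclusion `Hol → holoRing` -/
def toHolo : B.Hol →+* holoRing where
  toFun h := ⟨h.1, hB.mdiff h.1 h.2⟩
  map_one' := rfl
  map_mul' _ _ := rfl
  map_zero' := rfl
  map_add' _ _ := rfl

theorem toHolo_injective : Function.Injective (B.toHolo hB) := by
  intro x y h
  exact Subtype.ext (congrArg (fun f : holoRing => (f : ℍ → ℂ)) h)

theorem toHolo_compH (ε : SL(2, ℤ)) (h : B.Hol) :
    B.toHolo hB (B.compH ε h) = ε⁻¹ • B.toHolo hB h := by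
  apply Subtype.ext
  funext τ
  rw [smul_holoRing_apply, inv_inv]
  rfl

/-- the Taylor expansion at `τ₀` as an `Expansion` -/
def taylorExpansion (τ₀ : ℍ) : Expansion B where
  E := (taylorLaurent τ₀).comp (B.toHolo hB)
  inj := (taylorLaurent_injective τ₀).comp (B.toHolo_injective hB)
  const c := by
    show HahnSeries.ofPowerSeries ℤ ℂ (taylorAt τ₀ (B.toHolo hB (B.constH c))) = HahnSeries.C c
    have : B.toHolo hB (B.constH c) = algebraMap ℂ holoRing c := rfl
    rw [this, AlgHom.commutes, PowerSeries.algebraMap_apply, Algebra.algebraMap_self,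
      RingHom.id_apply, HahnSeries.ofPowerSeries_C]

theorem taylorExpansion_E (τ₀ : ℍ) (h : B.Hol) :
    (B.taylorExpansion hB τ₀).E h
      = laurentAt τ₀ (algebraMap holoRing MerH (B.toHolo hB h)) :=
  (laurentAt_algebraMap τ₀ _).symm

/-- rotation data at a fixed point -/
def taylorRot {τ₀ : ℍ} {ε : SL(2, ℤ)} (hε : ε • τ₀ = τ₀) (m : ℕ) (hm : 0 < m)
    (hζ : IsPrimitiveRoot (rotFactor ε⁻¹ τ₀) m) :
    RotData B (B.taylorExpansion hB τ₀) ε where
  m := m
  m_pos := hm
  ζ := rotFactor ε⁻¹ τ₀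
  hζ := hζ
  rot h := by
    have hfix : ε⁻¹ • τ₀ = τ₀ := inv_smul_of_fixed hε
    rw [taylorExpansion_E, taylorExpansion_E, toHolo_compH, ← smul_algebraMap_MerH]
    exact laurentAt_smul_fixed_rotFactor hfix _

/-- trivial rotation data -/
def trivialRot (X : Expansion B) : RotData B X 1 where
  m := 1
  m_pos := one_pos
  ζ := 1
  hζ := IsPrimitiveRoot.one
  rot h := by
    rw [B.compH_one]
    exact ⟨rfl, by simp⟩

theorem taylor_order_J (τ₀ : ℍ) (a : ℂ) (ha : jFun τ₀ = a) (m : ℕ)
    (hord : analyticOrderAt (fun w : ℂ => jFun (ofComplex w) - jFun τ₀) (τ₀ : ℂ) = m) :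
    ((B.taylorExpansion hB τ₀).E (B.JH 1 (one_dvd N) - B.constH a)).order = (m : ℤ) := by
  show (HahnSeries.ofPowerSeries ℤ ℂ (taylorAt τ₀ (B.toHolo hB _))).order = _
  apply order_ofPowerSeries
  rw [order_taylorAt, ordAt_def, ← hord]
  congr 1
  funext w
  show B.J 1 (ofComplex w) - a = _
  rw [hB.J_one, ha]

/-- the point data over a generic value -/
def genericPoint (a : ℂ) (h0 : a ≠ 0) (h1 : a ≠ 1728) : PointData B a 1 :=
  let τ₀ : ℍ := (jFun_surjective a).choose
  have hτ₀ : jFun τ₀ = a := (jFun_surjective a).choose_spec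
  { X := B.taylorExpansion hB τ₀
    R := B.trivialRot _
    order_J := by
      have h4 : E₄ τ₀ ≠ 0 := fun h => h0 (hτ₀ ▸ (jFun_eq_zero_iff τ₀).mpr h)
      have h6 : E₆ τ₀ ≠ 0 := fun h => h1 (hτ₀ ▸ (jFun_eq_1728_iff τ₀).mpr h)
      have := B.taylor_order_J hB τ₀ a hτ₀ 1
        (by exact_mod_cast analyticOrderAt_jFun_sub_generic h4 h6)
      exact this }

/-- the point data over `1728` (at `i`, rotation by `S`) -/
def point1728 : PointData B 1728 ModularGroup.S where
  X := B.taylorExpansion hB UpperHalfPlane.I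
  R := B.taylorRot hB (τ₀ := UpperHalfPlane.I) (ε := ModularGroup.S)
    Fermat.Agent.S24.H624.S_smul_I 2 two_pos
    (isPrimitiveRoot_rotFactor_two (inv_smul_of_fixed Fermat.Agent.S24.H624.S_smul_I)
      (by rw [trace_inv_SL]; exact trace_S))
  order_J := by
    have := B.taylor_order_J hB UpperHalfPlane.I 1728 jFun_I 2
      (by exact_mod_cast analyticOrderAt_jFun_sub_of_E₆ E₆_I)
    exact this

/-- the point data over `0` (at `ρ`, rotation by `S * T`) -/
def point0 : PointData B 0 (ModularGroup.S * ModularGroup.T) where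
  X := B.taylorExpansion hB rho
  R := B.taylorRot hB (τ₀ := rho) (ε := ModularGroup.S * ModularGroup.T)
    ST_smul_rho 3 (by norm_num)
    (isPrimitiveRoot_rotFactor_three (inv_smul_of_fixed ST_smul_rho)
      (by rw [trace_inv_SL]; exact Or.inl trace_ST))
  order_J := by
    have := B.taylor_order_J hB rho 0 jFun_rho 3
      (by exact_mod_cast analyticOrderAt_jFun_sub_of_E₄ E₄_rho)
    exact this

/-- **`AnalyticCore` from a holomorphic `HolBase` with `T`-shift.** -/
def toAnalyticCore (ζ : ℂ) (hζ : IsPrimitiveRoot ζ N)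
    (hshift : ∀ (h : B.Hol) (n : ℤ),
      (B.qexp (B.compH ModularGroup.T h)).coeff n = ζ ^ n * (B.qexp h).coeff n) :
    AnalyticCore N where
  toHolBase := B
  generic := B.genericPoint hB
  at1728 := B.point1728 hB
  at0 := B.point0 hB
  infζ := ζ
  inf_hζ := hζ
  inf_shift := hshift

end HolBase

end Fermat.Agent.S24.H997

end
end
-- ===== PACK-END S24/Mod/H997Taylor.lean

-- ===== PACK-BEGIN S24/Mod/H997HolBase.lean
section




/-!
# S24 / MOD — the concrete `HolBase N` and `Nonempty (AnalyticCore N)`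

`Hol := {f holomorphic on ℍ | ∀ γ ∈ SL(2,ℤ), f ∘ γ has a convergent expansion in exp(2πiτ/N)}`,
`J d τ := j(dτ)`, `qexp :=` expansion at `i∞` (helper384's `expInf`).
-/

set_option autoImplicit false

noncomputable section

open ModularCurve HahnSeries UpperHalfPlane ModularForm EisensteinSeries
open scoped MatrixGroups Manifold Real

namespace Fermat.Agent.S24.H997

open Fermat.Agent.S24.H624 Fermat.Agent.S20.L1

/-- the `j`-function has the Prelude `q`-expansion -/
theorem infExp_jFun : InfExp 1 jFun infJq := by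
  intro τ
  have h := Fermat.Agent.S24.JFun.hasSum_jFun τ
  have h1 : infJq = jqModC ℂ := by
    rw [infJq, ← map_jqModC (algebraMap ℚ ℂ), jqModC_rat]
    rfl
  have h2 : infZ 1 τ = Function.Periodic.qParam 1 (τ : ℂ) := by
    simp [infZ]
  rw [h1]
  simp only [h2]
  exact h

theorem jFun_smul' (γ : SL(2, ℤ)) (τ : ℍ) : jFun (γ • τ) = jFun τ :=
  Fermat.Agent.S24.M7.H47.jFun_smul γ τ

/-- `τ ↦ j(dτ)` -/
def Jd (d : ℕ) : ℍ → ℂ := fun τ => jFun (infAff d 0 1 τ)

theorem Jd_one : Jd 1 = jFun := by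
  funext τ
  simp [Jd]

theorem mdiff_Jd {d : ℕ} (hd : 0 < d) : MDiff (Jd d) := by
  rw [UpperHalfPlane.mdifferentiable_iff]
  have hj : DifferentiableOn ℂ (jFun ∘ ofComplex) {z : ℂ | 0 < z.im} :=
    UpperHalfPlane.mdifferentiable_iff.mp mdiff_jFun
  have hmul : DifferentiableOn ℂ (fun z : ℂ => (d : ℂ) * z) {z : ℂ | 0 < z.im} :=
    (differentiable_id.const_mul (d : ℂ)).differentiableOn
  have hmaps : Set.MapsTo (fun z : ℂ => (d : ℂ) * z) {z : ℂ | 0 < z.im} {z : ℂ | 0 < z.im} := by
    intro z hz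
    simp only [Set.mem_ofPred_eq] at hz ⊢
    have : ((d : ℂ) * z).im = d * z.im := by simp
    rw [this]
    have hd' : (0 : ℝ) < d := by exact_mod_cast hd
    positivity
  refine (hj.comp hmul hmaps).congr ?_
  intro z hz
  simp only [Set.mem_ofPred_eq] at hz
  simp only [Function.comp_apply, Jd]
  congr 1
  apply UpperHalfPlane.ext
  rw [infAff_coe hd one_pos, ofComplex_apply_of_im_pos hz]
  have hz' : 0 < ((d : ℂ) * z).im := hmaps hz
  rw [ofComplex_apply_of_im_pos hz']
  simp

variable (N : ℕ) [NeZero N]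

/-- the ring `Hol` -/
def holN : Subring (ℍ → ℂ) where
  carrier := {f | f ∈ holoRing ∧ ∀ γ : SL(2, ℤ), compSL γ f ∈ expRing N}
  mul_mem' := by
    rintro f g ⟨hf, hf'⟩ ⟨hg, hg'⟩
    exact ⟨mul_mem hf hg, fun γ => mul_mem (hf' γ) (hg' γ)⟩
  one_mem' := ⟨one_mem _, fun _ => one_mem _⟩
  add_mem' := by
    rintro f g ⟨hf, hf'⟩ ⟨hg, hg'⟩
    exact ⟨add_mem hf hg, fun γ => add_mem (hf' γ) (hg' γ)⟩
  zero_mem' := ⟨zero_mem _, fun _ => zero_mem _⟩
  neg_mem' := by
    rintro f ⟨hf, hf'⟩
    exact ⟨neg_mem hf, fun γ => neg_mem (hf' γ)⟩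

theorem mem_holN {f : ℍ → ℂ} :
    f ∈ holN N ↔ f ∈ holoRing ∧ ∀ γ : SL(2, ℤ), compSL γ f ∈ expRing N := Iff.rfl

theorem const_mem_holN (c : ℂ) : (fun _ : ℍ => c) ∈ holN N :=
  ⟨(algebraMap ℂ holoRing c).2, fun _ => (InfExp.const c).mem_expRing⟩

theorem comp_mem_holN (g : SL(2, ℤ)) (f : ℍ → ℂ) (hf : f ∈ holN N) : compSL g f ∈ holN N := by
  refine ⟨(precompSL g ⟨f, hf.1⟩).2, fun γ => ?_⟩
  rw [← compSL_mul]
  exact hf.2 _

theorem Jd_mem_holN (d : ℕ) (hd : d ∣ N) : Jd d ∈ holN N := by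
  have hN : 0 < N := Nat.pos_of_ne_zero (NeZero.ne N)
  have hd0 : 0 < d := Nat.pos_of_dvd_of_pos hd hN
  exact ⟨mdiff_Jd hd0, fun γ => inf_J_mul_smul_mem_expRing jFun_smul' infExp_jFun hd γ⟩

theorem Jd_inv (d : ℕ) (hd : d ∣ N) (g : SL(2, ℤ)) (hg : g ∈ CongruenceSubgroup.Gamma0 N)
    (τ : ℍ) : Jd d (g • τ) = Jd d τ := by
  have hN : 0 < N := Nat.pos_of_ne_zero (NeZero.ne N)
  have hd0 : 0 < d := Nat.pos_of_dvd_of_pos hd hN
  have hNg : (N : ℤ) ∣ g 1 0 := by
    rw [CongruenceSubgroup.Gamma0_mem] at hg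
    exact (ZMod.intCast_zmod_eq_zero_iff_dvd _ _).mp hg
  have hdg : (d : ℤ) ∣ g 1 0 := dvd_trans (by exact_mod_cast hd) hNg
  obtain ⟨c, hc⟩ := hdg
  have hdet := inf_sl_det g
  let g' : SL(2, ℤ) := ⟨!![g 0 0, d * g 0 1; c, g 1 1], by
    rw [Matrix.det_fin_two_of]
    rw [hc] at hdet
    linear_combination hdet⟩
  have h := inf_aff_smul_eq (d := d) (a := d) (d' := 1) (b := 0) hd0 hd0 one_pos g g'
    (by simp [g']; ring) (by simp [g']) (by simp [g', hc]; ring) (by simp [g']) τ
  show jFun (infAff d 0 1 (g • τ)) = jFun (infAff d 0 1 τ)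
  rw [h, jFun_smul']

theorem Jd_distinct (g : SL(2, ℤ)) (h : ∀ τ : ℍ, Jd N (g • τ) = Jd N τ) :
    g ∈ CongruenceSubgroup.Gamma0 N := by
  have := inf_distinct (J := jFun) jFun_smul' infExp_jFun (N := N) g 1
    (fun τ => by simpa [Jd] using h τ)
  simpa using this

/-- the inclusion `Hol → expRing N` -/
def holToExp : holN N →+* expRing N where
  toFun h := ⟨h.1, by simpa [compSL_one] using h.2.2 1⟩
  map_one' := rfl
  map_mul' _ _ := rfl
  map_zero' := rfl
  map_add' _ _ := rfl

theorem holToExp_injective : Function.Injective (holToExp N) := by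
  intro x y h
  exact Subtype.ext (congrArg (fun f : expRing N => (f : ℍ → ℂ)) h)

theorem expInf_Jd (d : ℕ) (hd : d ∣ N) :
    haveI : NeZero (d * N) := ⟨Nat.mul_ne_zero
      (Nat.pos_of_dvd_of_pos hd (Nat.pos_of_ne_zero (NeZero.ne N))).ne' (NeZero.ne N)⟩
    expInf N (holToExp N ⟨Jd d, Jd_mem_holN N d hd⟩) = qExpand ℂ (d * N) infJq := by
  have hN : 0 < N := Nat.pos_of_ne_zero (NeZero.ne N)
  have hd0 : 0 < d := Nat.pos_of_dvd_of_pos hd hN
  exact (inf_J_mul_exp infExp_jFun hd0 hN).expInf_eq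

/-- **The concrete `HolBase N`.** -/
def holBase : HolBase N where
  Hol := holN N
  const_mem := const_mem_holN N
  comp_mem := comp_mem_holN N
  J := Jd
  J_mem := Jd_mem_holN N
  J_one_inv g τ := by rw [Jd_one]; exact jFun_smul' g τ
  J_inv := Jd_inv N
  J_distinct := Jd_distinct N
  qexp := (expInf N).comp (holToExp N)
  qexp_injective := expInf_injective.comp (holToExp_injective N)
  qexp_const c := (InfExp.const c).expInf_eq
  qexp_J d hd k := by
    have hN : 0 < N := Nat.pos_of_ne_zero (NeZero.ne N)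
    have hd0 : 0 < d := Nat.pos_of_dvd_of_pos hd hN
    haveI : NeZero (d * N) := ⟨Nat.mul_ne_zero hd0.ne' (NeZero.ne N)⟩
    show (expInf N (holToExp N ⟨Jd d, Jd_mem_holN N d hd⟩)).coeff k = _
    rw [expInf_Jd N d hd]
    have hcast : ((N * d : ℕ) : ℤ) = ((d * N : ℕ) : ℤ) := by rw [mul_comm]
    rw [hcast]
    split_ifs with hk
    · obtain ⟨m, rfl⟩ := hk
      rw [qExpand_coeff_mul, Int.mul_ediv_cancel_left _
        (by exact_mod_cast (NeZero.ne (d * N)) : ((d * N : ℕ) : ℤ) ≠ 0)]
      rfl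
    · exact qExpand_coeff_of_not_dvd (d * N) _ hk

theorem holBase_isHolo : (holBase N).IsHolo where
  mdiff f hf := hf.1
  J_one := Jd_one

theorem T_smul_eq_infAff (τ : ℍ) : ModularGroup.T • τ = infAff 1 1 1 τ := by
  apply UpperHalfPlane.ext
  rw [UpperHalfPlane.modular_T_smul, infAff_coe one_pos one_pos]
  simp [add_comm]

theorem holBase_shift (h : (holBase N).Hol) (n : ℤ) :
    ((holBase N).qexp ((holBase N).compH ModularGroup.T h)).coeff n
      = ((infRoot 1 N : ℂˣ) : ℂ) ^ n * ((holBase N).qexp h).coeff n := by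
  have hf : InfExp N (h : ℍ → ℂ) ((holBase N).qexp h) := expInf_spec (holToExp N h)
  have hT := hf.comp_translate 1
  have hT' : InfExp N (((holBase N).compH ModularGroup.T h : (holBase N).Hol) : ℍ → ℂ)
      (infTwist (infRoot 1 N) ((holBase N).qexp h)) := by
    refine hT.congr fun τ => ?_
    show (h : ℍ → ℂ) (infAff 1 1 1 τ) = (h : ℍ → ℂ) (ModularGroup.T • τ)
    rw [T_smul_eq_infAff]
  have heq : (holBase N).qexp ((holBase N).compH ModularGroup.T h)
      = infTwist (infRoot 1 N) ((holBase N).qexp h) :=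
    (expInf_spec (holToExp N ((holBase N).compH ModularGroup.T h))).unique hT'
  rw [heq, infTwist_coeff, Units.val_zpow_eq_zpow_val, mul_comm]

theorem isPrimitiveRoot_infRoot : IsPrimitiveRoot ((infRoot 1 N : ℂˣ) : ℂ) N := by
  have h := Complex.isPrimitiveRoot_exp N (NeZero.ne N)
  have : ((infRoot 1 N : ℂˣ) : ℂ) = Complex.exp (2 * π * Complex.I / N) := by
    rw [infRoot_coe]
    congr 1
    push_cast
    ring
  rw [this]
  exact h

/-- **The analytic core exists.** -/
def analyticCore : AnalyticCore N :=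
  (holBase N).toAnalyticCore (holBase_isHolo N) _ (isPrimitiveRoot_infRoot N) (holBase_shift N)

theorem nonempty_analyticCore : Nonempty (AnalyticCore N) := ⟨analyticCore N⟩

end Fermat.Agent.S24.H997

end
end
-- ===== PACK-END S24/Mod/H997HolBase.lean

-- ===== PACK-BEGIN S24/Mod.lean
section




/-!
# S24 — modular side: local embedding data for the function field of `X₀(N)`

INTERFACE FILE (statements frozen by helper984 @4630f4b).

Proof: helper997's assembly `H997.AnalyticCore.modularPackage_fields` applied to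
* the concrete analytic core `H997.analyticCore N` (`Mod/H997HolBase.lean`: helper384's
  expansions at `∞`, helper624's Taylor expansions, helper47's local orders of `j`, helper264's
  `q`-expansion of `j`), and
* the degree bound `Deg457.degree_fields N` (helper457 / helper648 / helper708).
-/

set_option autoImplicit false

noncomputable section

open AlgebraicCurve ModularCurve
open scoped MatrixGroups

namespace Fermat.Agent.S24

/-- Everything the algebraic side needs to know about `F = ℚ̄(j(q^d) : d ∣ N)`. -/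
structure ModularPackage (N : ℕ) [NeZero N] where
  finiteDimensional :
    FiniteDimensional ↥(IntermediateField.adjoin Kbar {jF N}) (FF N)
  finrank_eq :
    Module.finrank ↥(IntermediateField.adjoin Kbar {jF N}) (FF N) = Nat.card (XX N)
  dataFin : ∀ a : Kbar, LocalData Kbar (FF N) ℂ (XX N) (jF N - algebraMap Kbar (FF N) a)
  dataInf : LocalData Kbar (FF N) ℂ (XX N) (jF N)⁻¹
  perm_generic : ∀ a : Kbar, a ≠ 0 → a ≠ 1728 → (dataFin a).perm = 1
  orbits_zero :
    numOrbits (dataFin 0).perm = numOrbits (permOf N (ModularGroup.S * ModularGroup.T))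
  orbits_1728 : numOrbits (dataFin 1728).perm = numOrbits (permOf N ModularGroup.S)
  orbits_inf : numOrbits dataInf.perm = numOrbits (permOf N ModularGroup.T)

theorem nonempty_modularPackage (N : ℕ) [NeZero N] : Nonempty (ModularPackage N) := by
  obtain ⟨hfd, hle⟩ := Deg457.degree_fields N
  obtain ⟨dF, dI, h1, h2, h3, h4, h5⟩ := (H997.analyticCore N).modularPackage_fields hfd hle
  exact ⟨⟨hfd, h1, dF, dI, h2, h3, h4, h5⟩⟩

end Fermat.Agent.S24

end
end
-- ===== PACK-END S24/Mod.lean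

-- ===== PACK-BEGIN Lib/RR/H804/CharZero.lean
section



/-!
# RR library, bridge: `FF1 K F` for function fields over an algebraically closed field of
characteristic zero  (helper804)

From the Dedekind dictionary of `Fermat.Agent.S24.FF`: if `K` is algebraically closed of
characteristic zero and `F` is finite over `K(x)` for a transcendental `x`, then `F/K` satisfies
the standing hypotheses `FF1 K F` of the RR library.
-/

set_option autoImplicit false

noncomputable section

open AlgebraicCurve IntermediateField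

namespace Fermat.Agent.Lib.RR.H804

open Fermat.Agent.S24

variable {K F : Type*} [Field K] [Field F] [Algebra K F] [IsAlgClosed K] [CharZero K]

/-- Every function has finitely many zeros and poles. -/
theorem finite_setOf_ord_ne_zero {x : F} (hx : Transcendental K x) [FiniteDimensional K⟮x⟯ F]
    (f : F) : {v : Place K F | v.ord f ≠ 0}.Finite := by
  by_cases hfr : f ∈ (algebraMap K F).range
  · obtain ⟨a, rfl⟩ := hfr
    convert Set.finite_empty
    ext v
    simp [FF.ord_algebraMap]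
  · have hft : Transcendental K f := FF.transcendental_of_not_mem_range hfr
    have : FiniteDimensional K⟮f⟯ F := FF.finiteDimensional_adjoin_of_transcendental hx hft
    exact FF.finite_setOf_ord_ne_zero hft

/-- The divisor of a function. -/
def divOf {x : F} (hx : Transcendental K x) [FiniteDimensional K⟮x⟯ F] (f : F) :
    Divisor K F :=
  Finsupp.ofSupportFinite (fun v => v.ord f) (finite_setOf_ord_ne_zero hx f)

@[simp] theorem divOf_apply {x : F} (hx : Transcendental K x) [FiniteDimensional K⟮x⟯ F]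
    (f : F) (v : Place K F) : _root_.Fermat.Agent.Lib.RR.H804.divOf hx f v = v.ord f := rfl

theorem degree_divOf {x : F} (hx : Transcendental K x) [FiniteDimensional K⟮x⟯ F] (f : F) :
    Divisor.degree (_root_.Fermat.Agent.Lib.RR.H804.divOf hx f) = 0 :=
  FF.degree_principal x hx f _ (fun _ => rfl)

/-- Principal divisors exist and have degree zero. -/
theorem hasPrincipalDivisors {x : F} (hx : Transcendental K x) [FiniteDimensional K⟮x⟯ F] :
    HasPrincipalDivisors K F :=
  ⟨fun f _ => ⟨_root_.Fermat.Agent.Lib.RR.H804.divOf hx f, fun _ => rfl, _root_.Fermat.Agent.Lib.RR.H804.degree_divOf hx f⟩⟩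

/-- There is at least one place (a zero of `x`). -/
theorem nonempty_place {x : F} (hx : Transcendental K x) [FiniteDimensional K⟮x⟯ F] :
    Nonempty (Place K F) := by
  by_contra hne
  rw [not_nonempty_iff] at hne
  have h := FF.sum_ord_eq_finrank hx (∅ : Finset (Place K F)) (fun v => (hne.false v).elim)
  rw [Finset.sum_empty] at h
  have hpos : 0 < Module.finrank K⟮x⟯ F := Module.finrank_pos
  omega

/-- There is a zero of `x - a` for every `a`. -/
theorem exists_place_ord_sub_pos {x : F} (hx : Transcendental K x) [FiniteDimensional K⟮x⟯ F]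
    (a : K) : ∃ v : Place K F, 0 < v.ord (x - algebraMap K F a) := by
  by_contra hne
  rw [not_exists] at hne
  have h := FF.sum_ord_sub_const_eq_finrank hx a (∅ : Finset (Place K F))
    (fun v => ⟨fun h => (Finset.notMem_empty v h).elim, fun h => (hne v h).elim⟩)
  rw [Finset.sum_empty] at h
  have hpos : 0 < Module.finrank K⟮x⟯ F := Module.finrank_pos
  omega

/-- There is a pole of `x`. -/
theorem exists_place_ord_neg {x : F} (hx : Transcendental K x) [FiniteDimensional K⟮x⟯ F] :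
    ∃ v : Place K F, v.ord x < 0 := by
  by_contra hne
  rw [not_exists] at hne
  have h := FF.sum_ord_neg_eq_neg_finrank hx (∅ : Finset (Place K F))
    (fun v => ⟨fun h => (Finset.notMem_empty v h).elim, fun h => (hne v h).elim⟩)
  rw [Finset.sum_empty] at h
  have hpos : 0 < Module.finrank K⟮x⟯ F := Module.finrank_pos
  omega

omit [CharZero K] in
/-- The residue field of every place is `K`. -/
theorem residue_bijective {x : F} (hx : Transcendental K x) [FiniteDimensional K⟮x⟯ F]
    (v : Place K F) : Function.Bijective (algebraMap K v.ResidueField) := by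
  refine ⟨(algebraMap K v.ResidueField).injective, fun r => ?_⟩
  obtain ⟨f, rfl⟩ := IsLocalRing.residue_surjective r
  obtain ⟨a, ha⟩ := FF.exists_const_sub_mem_nonunits v hx f.2
  refine ⟨a, ?_⟩
  rw [IsScalarTower.algebraMap_apply K v.toValuationSubring v.ResidueField]
  symm
  rw [IsLocalRing.ResidueField.algebraMap_eq, ← sub_eq_zero, ← map_sub,
    IsLocalRing.residue_eq_zero_iff]
  exact ValuationSubring.coe_mem_nonunits_iff.mp ha

omit [CharZero K] in
/-- Residue fields are finite over `K`. -/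
theorem finite_residueField {x : F} (hx : Transcendental K x) [FiniteDimensional K⟮x⟯ F]
    (v : Place K F) : Module.Finite K v.ResidueField :=
  Module.Finite.of_surjective (Algebra.linearMap K v.ResidueField)
    (residue_bijective hx v).2

/-- **Bridge**: `FF1 K F` for `K` algebraically closed of characteristic zero. -/
theorem ff1 {x : F} (hx : Transcendental K x) [FiniteDimensional K⟮x⟯ F] : FF1 K F where
  hpd := hasPrincipalDivisors hx
  deg_eq_one := fun v => FF.deg_eq_one v hx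
  nonempty_place := nonempty_place hx
  exists_finite := ⟨x, hx, inferInstance⟩

end Fermat.Agent.Lib.RR.H804

end
end
-- ===== PACK-END Lib/RR/H804/CharZero.lean

-- ===== PACK-BEGIN S28/H568/DeltaSeries.lean
section


/-!
# S28 / H568 — the formal discriminant over `ℤ` and `ℂ`, and its expansions along `τ ↦ (aτ+b)/d`
-/

set_option autoImplicit false

noncomputable section

open HahnSeries ModularCurve UpperHalfPlane Complex Matrix
open scoped Real MatrixGroups

namespace Fermat.Agent.S28.H568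

open Fermat.Agent.S24

/-! ### the integral series -/

/-- The formal discriminant `Δ = q ∏ (1 - qⁿ)²⁴` over `ℤ`. -/
def deltaZ : LaurentSeries ℤ :=
  HahnSeries.single (1 : ℤ) (1 : ℤ) * HahnSeries.ofPowerSeries ℤ ℤ dedekindEtaUnit

/-- The formal inverse of `Δ` over `ℤ`. -/
def deltaInvZ : LaurentSeries ℤ :=
  HahnSeries.single (-1 : ℤ) (1 : ℤ) * HahnSeries.ofPowerSeries ℤ ℤ dedekindEtaUnitInv

theorem deltaZ_mul_deltaInvZ : deltaZ * deltaInvZ = 1 := by
  rw [deltaZ, deltaInvZ]
  have h1 : HahnSeries.single (1 : ℤ) (1 : ℤ) * HahnSeries.single (-1 : ℤ) (1 : ℤ) = 1 := by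
    rw [HahnSeries.single_mul_single]
    simp
  have h2 : HahnSeries.ofPowerSeries ℤ ℤ dedekindEtaUnit *
      HahnSeries.ofPowerSeries ℤ ℤ dedekindEtaUnitInv = 1 := by
    rw [← map_mul, dedekindEtaUnit_mul_inv, map_one]
  calc _ = (HahnSeries.single (1 : ℤ) (1 : ℤ) * HahnSeries.single (-1 : ℤ) (1 : ℤ)) *
      (HahnSeries.ofPowerSeries ℤ ℤ dedekindEtaUnit *
        HahnSeries.ofPowerSeries ℤ ℤ dedekindEtaUnitInv) := by ring
    _ = 1 := by rw [h1, h2, one_mul]

/-- `Δ` as a unit of `ℤ((q))`. -/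
def deltaU : (LaurentSeries ℤ)ˣ :=
  ⟨deltaZ, deltaInvZ, deltaZ_mul_deltaInvZ, by rw [mul_comm]; exact deltaZ_mul_deltaInvZ⟩

@[simp] theorem deltaU_val : (deltaU : LaurentSeries ℤ) = deltaZ := rfl

/-- Coefficient extension `ℤ((q)) → ℂ((q))`. -/
abbrev castC : LaurentSeries ℤ →+* LaurentSeries ℂ := coeffMap (Int.castRingHom ℂ)

theorem castC_injective : Function.Injective castC :=
  inf_coeffMap_injective (RingHom.injective_int (Int.castRingHom ℂ))

/-- The formal discriminant over `ℂ`. -/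
abbrev dS : LaurentSeries ℂ := H565.deltaSeriesC

/-- The formal inverse discriminant over `ℂ`. -/
abbrev dInvS : LaurentSeries ℂ := H565.deltaInvSeriesC

theorem castC_deltaZ : castC deltaZ = dS := by
  rw [deltaZ, map_mul, coeffMap_single, coeffMap_ofPowerSeries, H565.map_dedekindEtaUnit]
  simp [H565.deltaSeriesC]

theorem castC_deltaInvZ : castC deltaInvZ = dInvS := by
  rw [deltaInvZ, map_mul, coeffMap_single, coeffMap_ofPowerSeries]
  simp [H565.deltaInvSeriesC, H565.etaInvC]

theorem dS_mul_dInvS : dS * dInvS = 1 := H565.deltaSeriesC_mul_inv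

theorem dS_ne_zero : dS ≠ 0 := left_ne_zero_of_mul_eq_one dS_mul_dInvS

theorem dInvS_ne_zero : dInvS ≠ 0 := right_ne_zero_of_mul_eq_one dS_mul_dInvS

theorem dInvS_eq_inv : dInvS = dS⁻¹ := eq_inv_of_mul_eq_one_right dS_mul_dInvS

theorem dS_coeff_one : dS.coeff 1 = 1 := by
  have h := inf_coeff_single_mul_ofPowerSeries (1 : ℤ) (H565.etaProdC ^ 24) 0
  simp only [Nat.cast_zero, zero_add] at h
  rw [show dS = single (1 : ℤ) (1 : ℂ) * ofPowerSeries ℤ ℂ (H565.etaProdC ^ 24) from rfl, h,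
    ← H565.map_dedekindEtaUnit, PowerSeries.coeff_map, PowerSeries.coeff_zero_eq_constantCoeff,
    constantCoeff_dedekindEtaUnit]
  simp

theorem dS_coeff_of_lt {m : ℤ} (hm : m < 1) : dS.coeff m = 0 :=
  inf_coeff_single_mul_ofPowerSeries_of_lt (1 : ℤ) (H565.etaProdC ^ 24) hm

theorem dS_order : dS.order = 1 :=
  inf_order_eq_of_coeff (by rw [dS_coeff_one]; exact one_ne_zero) fun _ hm => dS_coeff_of_lt hm

theorem dS_leadingCoeff : dS.leadingCoeff = 1 := by
  rw [leadingCoeff_eq, dS_order, dS_coeff_one]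

theorem dInvS_order : dInvS.order = -1 := by
  rw [dInvS_eq_inv, order_inv' dS_ne_zero, dS_order]

theorem dInvS_leadingCoeff : dInvS.leadingCoeff = 1 := by
  rw [dInvS_eq_inv, leadingCoeff_inv', dS_leadingCoeff, inv_one]

theorem dS_mem_coeffSubring (C : Subring ℂ) : dS ∈ coeffSubring C := by
  rw [← castC_deltaZ]; exact coeffMap_int_mem_coeffSubring _

theorem dInvS_mem_coeffSubring (C : Subring ℂ) : dInvS ∈ coeffSubring C := by
  rw [← castC_deltaInvZ]; exact coeffMap_int_mem_coeffSubring _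

/-! ### analytic expansions -/

local notation "Δ" => ModularForm.discriminant

theorem infExp_of_hasTExp_one {f : ℍ → ℂ} {φ : LaurentSeries ℂ} (h : H565.HasTExp 1 f φ) :
    InfExp 1 f φ := by
  intro τ
  have := h τ
  simpa [infZ] using this

theorem infExp_delta : InfExp 1 Δ dS := infExp_of_hasTExp_one H565.hasTExp_discriminant

theorem infExp_delta_inv : InfExp 1 (fun τ => (Δ τ)⁻¹) dInvS :=
  infExp_of_hasTExp_one H565.hasTExp_discriminant_inv

/-- Expansion of `Δ((aτ+b)/d)` in `z = exp(2πiτ/N)` when `e·d = a·N`. -/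
theorem infExp_delta_aff {N a d e : ℕ} [NeZero e] (b : ℤ)
    (ha : 0 < a) (hd : 0 < d) (hN : 0 < N) (he : e * d = a * N) :
    InfExp N (fun τ => Δ (infAff a b d τ)) (qExpand ℂ e (infTwist (infRoot b d) dS)) := by
  have h := infExp_delta.comp_infAff (e := e) b ha hd one_pos hN (by rw [mul_one]; exact he)
  rw [mul_one] at h
  exact h

/-- Expansion of `Δ((aτ+b)/d)⁻¹` in `z = exp(2πiτ/N)` when `e·d = a·N`. -/
theorem infExp_delta_inv_aff {N a d e : ℕ} [NeZero e] (b : ℤ)
    (ha : 0 < a) (hd : 0 < d) (hN : 0 < N) (he : e * d = a * N) :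
    InfExp N (fun τ => (Δ (infAff a b d τ))⁻¹) (qExpand ℂ e (infTwist (infRoot b d) dInvS)) := by
  have h := infExp_delta_inv.comp_infAff (e := e) b ha hd one_pos hN (by rw [mul_one]; exact he)
  rw [mul_one] at h
  exact h

/-- Expansion of `Δ(τ)` in `z = exp(2πiτ/N)`. -/
theorem infExp_delta_N {N : ℕ} [NeZero N] : InfExp N Δ (qExpand ℂ N dS) := by
  have hN : 0 < N := Nat.pos_of_ne_zero (NeZero.ne N)
  have h := infExp_delta_aff (N := N) (e := N) 0 one_pos one_pos hN (by ring)
  rw [infRoot_zero, infTwist_one] at h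
  exact h.congr fun τ => by rw [infAff_one_zero_one]

/-- Expansion of `Δ(τ)⁻¹` in `z = exp(2πiτ/N)`. -/
theorem infExp_delta_inv_N {N : ℕ} [NeZero N] :
    InfExp N (fun τ => (Δ τ)⁻¹) (qExpand ℂ N dInvS) := by
  have hN : 0 < N := Nat.pos_of_ne_zero (NeZero.ne N)
  have h := infExp_delta_inv_aff (N := N) (e := N) 0 one_pos one_pos hN (by ring)
  rw [infRoot_zero, infTwist_one] at h
  exact h.congr fun τ => by rw [infAff_one_zero_one]

/-! ### transformation of `Δ` -/

theorem discriminant_smul (γ : SL(2, ℤ)) (τ : ℍ) :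
    Δ (γ • τ) = (((γ 1 0 : ℤ) : ℂ) * τ + ((γ 1 1 : ℤ) : ℂ)) ^ 12 * Δ τ := by
  have := SlashInvariantForm.slash_action_eqn' (Γ := 𝒮ℒ) CuspForm.discriminant
    (γ := (Matrix.SpecialLinearGroup.mapGL ℝ γ)) ⟨γ, rfl⟩ τ
  have h2 : (Matrix.SpecialLinearGroup.mapGL ℝ γ) • τ = γ • τ := rfl
  rw [h2] at this
  simpa using this

end Fermat.Agent.S28.H568

end
end
-- ===== PACK-END S28/H568/DeltaSeries.lean

-- ===== PACK-BEGIN S29/H332/KummerFun.lean
section




/-!
# S29 / M4b / K1 — the Kummer function `h = E^χ₁₂ / (2Δ)`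

For a character `χ : Γ₀(N) →* ℂˣ`, unitary and trivial on all elements of trace `±2`, the function
`kummerFun N χ = E^χ₁₂ / (2Δ)` is holomorphic on `ℍ`, satisfies `h(γτ) = χ(γ) h(τ)`, belongs to the
S24 ring `holN N` (expansions in `exp(2πiτ/N)` at all cusps) and has a simple pole with leading
coefficient `1` at `i∞` (in `q = exp(2πiτ)`).

The first part is abstract: any holomorphic function with a parabolic character and moderate growth
belongs to `holN N`.
-/

set_option autoImplicit false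

noncomputable section

open UpperHalfPlane EisensteinSeries ModularForm Filter Topology HahnSeries ModularCurve
open scoped Matrix MatrixGroups Manifold

namespace Fermat.Agent.S29.H332

open Fermat.Agent.S24 Fermat.Agent.S24.H997 Fermat.Agent.S24.H624

local notation "Δ" => ModularForm.discriminant

/-! ### Conjugates of translations -/

/-- `g T^w g⁻¹` has trace `2`. -/
theorem trace_conj_T_zpow (g : SL(2, ℤ)) (w : ℤ) :
    (g * ModularGroup.T ^ w * g⁻¹ : SL(2, ℤ)).1.trace = 2 := by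
  rw [Matrix.SpecialLinearGroup.coe_mul, Matrix.SpecialLinearGroup.coe_mul, Matrix.trace_mul_comm,
    ← Matrix.mul_assoc, ← Matrix.SpecialLinearGroup.coe_mul, inv_mul_cancel,
    Matrix.SpecialLinearGroup.coe_one, Matrix.one_mul, ModularGroup.coe_T_zpow]
  simp [Matrix.trace_fin_two]

/-- `g T^N g⁻¹ ∈ Γ₀(N)` for every `g ∈ SL(2,ℤ)`. -/
theorem conj_T_zpow_mem_Gamma0 (N : ℕ) (g : SL(2, ℤ)) (m : ℤ) :
    g * ModularGroup.T ^ ((N : ℤ) * m) * g⁻¹ ∈ CongruenceSubgroup.Gamma0 N := by
  rw [CongruenceSubgroup.Gamma0_mem]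
  have h : (g * ModularGroup.T ^ ((N : ℤ) * m) * g⁻¹ : SL(2, ℤ)).1 1 0
      = -((N : ℤ) * m * (g.1 1 0) ^ 2) := by
    rw [Matrix.SpecialLinearGroup.coe_mul, Matrix.SpecialLinearGroup.coe_mul,
      ModularGroup.coe_T_zpow, Matrix.SpecialLinearGroup.coe_inv, Matrix.adjugate_fin_two]
    simp [Matrix.mul_apply, Fin.sum_univ_two]
    ring
  rw [h]
  push_cast
  simp

/-! ### The discriminant -/

theorem mdiff_delta : MDiff Δ := CuspForm.discriminant.holo'

theorem mdiff_delta_pow (m : ℕ) : MDiff (fun τ : ℍ => Δ τ ^ m) := by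
  induction m with
  | zero => simpa using (mdifferentiable_const : MDiff (fun _ : ℍ => (1 : ℂ)))
  | succ m ih =>
    have := ih.mul mdiff_delta
    have e : (fun τ : ℍ => Δ τ ^ (m + 1)) = (fun τ => Δ τ ^ m) * Δ := by
      funext τ
      simp [pow_succ]
    rw [e]
    exact this

theorem delta_slash (γ : SL(2, ℤ)) : Δ ∣[(12 : ℤ)] γ = Δ := by
  have := SlashInvariantFormClass.slash_action_eq CuspForm.discriminant
    (Matrix.SpecialLinearGroup.mapGL ℝ γ) ⟨γ, rfl⟩
  rw [CuspForm.coe_discriminant] at this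
  rw [ModularForm.SL_slash]
  exact this

theorem delta_smul (γ : SL(2, ℤ)) (τ : ℍ) : Δ (γ • τ) = denom γ τ ^ (12 : ℤ) * Δ τ := by
  have h := congrFun (delta_slash γ) τ
  rw [SL_slash_apply] at h
  have hd : denom γ τ ≠ 0 := denom_ne_zero γ τ
  rw [← h, mul_comm, mul_assoc, ← zpow_add₀ hd]
  simp

theorem delta_vadd (n : ℤ) (τ : ℍ) : Δ ((n : ℝ) +ᵥ τ) = Δ τ := by
  have h := delta_smul (ModularGroup.T ^ n) τ
  rw [denom_T_zpow, one_zpow, one_mul, UpperHalfPlane.modular_T_zpow_smul] at h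
  exact h

/-- A function on `ℍ` invariant under `τ ↦ τ + N` gives an `N`-periodic function on `ℂ`. -/
theorem periodic_comp_ofComplex_of_vadd {f : ℍ → ℂ} {N : ℕ}
    (h : ∀ τ : ℍ, f (((N : ℤ) : ℝ) +ᵥ τ) = f τ) :
    Function.Periodic (f ∘ ofComplex) (N : ℝ) := by
  intro z
  simp only [Function.comp_apply]
  by_cases hz : 0 < z.im
  · have hz' : 0 < (z + (N : ℝ)).im := by simpa using hz
    rw [ofComplex_apply_of_im_pos hz, ofComplex_apply_of_im_pos hz']
    rw [← h ⟨z, hz⟩]
    congr 1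
    apply UpperHalfPlane.ext
    simp [add_comm]
  · have hz' : ¬ 0 < (z + (N : ℝ)).im := by simpa using hz
    rw [ofComplex_apply_eq_of_im_nonpos (not_lt.mp hz') (not_lt.mp hz)]

theorem infExp_deltaInv (N : ℕ) [NeZero N] :
    InfExp N (fun τ : ℍ => (Δ τ)⁻¹) (qExpand ℂ N Fermat.Agent.S28.H568.dInvS) := by
  have hN : 0 < N := Nat.pos_of_ne_zero (NeZero.ne N)
  have h := Fermat.Agent.S28.H568.infExp_delta_inv_aff (N := N) (e := N) 0 one_pos one_pos hN
    (by ring)
  rw [infRoot_zero, infTwist_one] at h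
  exact h.congr fun τ => by rw [infAff_one_zero_one]

/-! ### Functions with a parabolic character -/

section Character

variable {N : ℕ} [NeZero N]

/-- `χ` is trivial on all elements of `Γ₀(N)` of trace `±2` (cusp stabilisers and `-1`). -/
def ParTrivial (χ : CongruenceSubgroup.Gamma0 N →* ℂˣ) : Prop :=
  ∀ γ : CongruenceSubgroup.Gamma0 N,
    ((γ : SL(2, ℤ)).1.trace = 2 ∨ (γ : SL(2, ℤ)).1.trace = -2) → χ γ = 1

/-- `h(γ τ) = χ(γ) h(τ)` for all `γ ∈ Γ₀(N)`. -/
def HasCharacter (χ : CongruenceSubgroup.Gamma0 N →* ℂˣ) (h : ℍ → ℂ) : Prop :=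
  ∀ (γ : CongruenceSubgroup.Gamma0 N) (τ : ℍ), h ((γ : SL(2, ℤ)) • τ) = (χ γ : ℂ) * h τ

variable {χ : CongruenceSubgroup.Gamma0 N →* ℂˣ} {h : ℍ → ℂ}

omit [NeZero N] in
/-- If `g T^w g⁻¹ ∈ Γ₀(N)`, then `h ∘ g` is invariant under `τ ↦ τ + w` (local parameter of width
`w` at the cusp `g∞`). -/
theorem HasCharacter.compSL_T_zpow (hh : HasCharacter χ h) (hχ : ParTrivial χ) (g : SL(2, ℤ))
    (w : ℤ) (hw : g * ModularGroup.T ^ w * g⁻¹ ∈ CongruenceSubgroup.Gamma0 N) (τ : ℍ) :
    compSL g h (ModularGroup.T ^ w • τ) = compSL g h τ := by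
  have h1 : g • (ModularGroup.T ^ w • τ) = (g * ModularGroup.T ^ w * g⁻¹) • (g • τ) := by
    rw [← mul_smul, ← mul_smul, mul_assoc, mul_assoc, inv_mul_cancel, mul_one]
  have h2 := hh ⟨_, hw⟩ (g • τ)
  rw [hχ ⟨_, hw⟩ (Or.inl (trace_conj_T_zpow g w))] at h2
  simp only [compSL_apply]
  rw [h1, h2, Units.val_one, one_mul]

omit [NeZero N] in
/-- `h ∘ g` is `w`-periodic if `g T^w g⁻¹ ∈ Γ₀(N)`. -/
theorem HasCharacter.compSL_vadd (hh : HasCharacter χ h) (hχ : ParTrivial χ) (g : SL(2, ℤ))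
    (w : ℕ) (hw : g * ModularGroup.T ^ (w : ℤ) * g⁻¹ ∈ CongruenceSubgroup.Gamma0 N)
    (τ : ℍ) : compSL g h (((w : ℤ) : ℝ) +ᵥ τ) = compSL g h τ := by
  have := hh.compSL_T_zpow hχ g (w : ℤ) hw τ
  rwa [UpperHalfPlane.modular_T_zpow_smul] at this

omit [NeZero N] in
theorem HasCharacter.periodic (hh : HasCharacter χ h) (hχ : ParTrivial χ) (g : SL(2, ℤ))
    (w : ℕ) (hw : g * ModularGroup.T ^ (w : ℤ) * g⁻¹ ∈ CongruenceSubgroup.Gamma0 N) :
    Function.Periodic (compSL g h ∘ ofComplex) (w : ℝ) :=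
  periodic_comp_ofComplex_of_vadd (hh.compSL_vadd hχ g w hw)

/-- The expansion of `h ∘ g` in the local parameter of width `w`, as an explicit Laurent series
(`m` = a bound for the pole order in units of `Δ⁻¹`). -/
def cuspExp (h : ℍ → ℂ) (m : ℕ) (g : SL(2, ℤ)) (w : ℕ) [NeZero w] : LaurentSeries ℂ :=
  qExpand ℂ w Fermat.Agent.S28.H568.dInvS ^ m *
    HahnSeries.ofPowerSeries ℤ ℂ
      (UpperHalfPlane.qExpansion (w : ℝ) (fun τ => Δ τ ^ m * compSL g h τ))

omit [NeZero N] in
/-- Expansion at the cusp `g∞` in the local parameter of width `w` (any `w` with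
`g T^w g⁻¹ ∈ Γ₀(N)`): a holomorphic function with a parabolic character such that
`Δ^m · (h ∘ g)` is bounded at `i∞` has a Laurent expansion in `exp(2πiτ/w)`. -/
theorem HasCharacter.infExp_cuspExp (hh : HasCharacter χ h) (hχ : ParTrivial χ)
    (hhol : MDiff h) (m : ℕ) (g : SL(2, ℤ)) (w : ℕ) [NeZero w]
    (hw : g * ModularGroup.T ^ (w : ℤ) * g⁻¹ ∈ CongruenceSubgroup.Gamma0 N)
    (hbd : IsBoundedAtImInfty (fun τ => Δ τ ^ m * compSL g h τ)) :
    InfExp w (compSL g h) (cuspExp h m g w) := by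
  have hN : (0 : ℝ) < w := by exact_mod_cast Nat.pos_of_ne_zero (NeZero.ne w)
  set F : ℍ → ℂ := fun τ => Δ τ ^ m * compSL g h τ with hF
  have hcomp : MDiff (compSL g h) := (precompSL g ⟨h, hhol⟩).2
  have hFhol : MDiff F := (mdiff_delta_pow m).mul hcomp
  have hFper : Function.Periodic (F ∘ ofComplex) (w : ℝ) := by
    intro z
    have h1 := hh.periodic hχ g w hw z
    have h2 := periodic_comp_ofComplex_of_vadd (f := Δ) (N := w) (fun τ => delta_vadd w τ) z
    simp only [Function.comp_apply, hF] at h1 h2 ⊢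
    rw [h1, h2]
  have hsum := fun τ => UpperHalfPlane.hasSum_qExpansion hN hFper hFhol hbd τ
  have hP : InfPExp w F (UpperHalfPlane.qExpansion (w : ℝ) F) := by
    intro τ
    simpa [infZ, smul_eq_mul] using hsum τ
  have hE : InfExp w F (HahnSeries.ofPowerSeries ℤ ℂ (UpperHalfPlane.qExpansion (w : ℝ) F)) := by
    have := hP.infExp 0
    simp only [zpow_zero, one_mul] at this
    have e : (HahnSeries.single (0 : ℤ) (1 : ℂ)) = 1 := rfl
    rwa [e, one_mul] at this
  have hDinv : InfExp w (fun τ => (Δ τ)⁻¹ ^ m)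
      (qExpand ℂ w Fermat.Agent.S28.H568.dInvS ^ m) :=
    Fermat.Agent.S28.H568.InfExp.pow' (infExp_deltaInv w) m
  have : compSL g h = fun τ => (Δ τ)⁻¹ ^ m * F τ := by
    funext τ
    simp only [hF]
    have hΔ : Δ τ ≠ 0 := ModularForm.discriminant_ne_zero τ
    rw [← mul_assoc, ← mul_pow, inv_mul_cancel₀ hΔ, one_pow, one_mul]
  rw [this]
  exact hDinv.mul hE

/-- Abstract membership criterion at one cusp. -/
theorem HasCharacter.compSL_mem_expRing (hh : HasCharacter χ h) (hχ : ParTrivial χ)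
    (hhol : MDiff h) (m : ℕ) (g : SL(2, ℤ))
    (hbd : IsBoundedAtImInfty (fun τ => Δ τ ^ m * compSL g h τ)) :
    compSL g h ∈ expRing N :=
  (hh.infExp_cuspExp hχ hhol m g N (by simpa using conj_T_zpow_mem_Gamma0 N g 1) hbd).mem_expRing

/-- Abstract membership criterion: a holomorphic function with a parabolic character such that
`Δ^m · (h ∘ g)` is bounded at `i∞` for every `g ∈ SL(2,ℤ)` lies in the S24 ring `holN N`. -/
theorem HasCharacter.mem_holN (hh : HasCharacter χ h) (hχ : ParTrivial χ)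
    (hhol : MDiff h) (m : ℕ)
    (hbd : ∀ g : SL(2, ℤ), IsBoundedAtImInfty (fun τ => Δ τ ^ m * compSL g h τ)) :
    h ∈ holN N :=
  ⟨hhol, fun g => hh.compSL_mem_expRing hχ hhol m g (hbd g)⟩

omit [NeZero N] in
/-- Powers: `h ^ p` has character `χ ^ p`; in particular it is `Γ₀(N)`-invariant if `χ ^ p = 1`. -/
theorem HasCharacter.pow_invariant (hh : HasCharacter χ h) {p : ℕ}
    (hp : ∀ γ, χ γ ^ p = 1) (γ : CongruenceSubgroup.Gamma0 N) (τ : ℍ) :
    h ((γ : SL(2, ℤ)) • τ) ^ p = h τ ^ p := by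
  rw [hh γ τ, mul_pow, ← Units.val_pow_eq_pow_val, hp γ, Units.val_one, one_mul]

end Character

/-! ### The Kummer function -/

section Kummer

variable (N : ℕ) [NeZero N] (χ : CongruenceSubgroup.Gamma0 N →* ℂˣ)

/-- The Kummer function `E^χ₁₂ / (2Δ)`. -/
def kummerFun : ℍ → ℂ :=
  fun τ => twistedEis (CongruenceSubgroup.Gamma0 N) χ 12 τ / (2 * Δ τ)

variable {N χ}

omit [NeZero N] in
theorem ParTrivial.trivialOnUnipotent (hχ : ParTrivial χ) : TrivialOnUnipotent χ := by
  intro γ hγ
  apply hχ γ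
  left
  have h10 : (γ : SL(2, ℤ)).1 1 0 = 0 := by
    have := congrFun hγ 0
    simpa [botRow] using this
  have h11 : (γ : SL(2, ℤ)).1 1 1 = 1 := by
    have := congrFun hγ 1
    simpa [botRow] using this
  have hdet := (γ : SL(2, ℤ)).det_coe
  rw [Matrix.det_fin_two, h10, h11, mul_zero, sub_zero, mul_one] at hdet
  rw [Matrix.trace_fin_two, hdet, h11]
  rfl

omit [NeZero N] in
theorem ParTrivial.neg_one (hχ : ParTrivial χ)
    (hneg : (-1 : SL(2, ℤ)) ∈ CongruenceSubgroup.Gamma0 N) : χ ⟨-1, hneg⟩ = 1 := by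
  apply hχ
  right
  simp [Matrix.trace_fin_two]

omit [NeZero N] in
theorem neg_one_mem_Gamma0 : (-1 : SL(2, ℤ)) ∈ CongruenceSubgroup.Gamma0 N := by
  rw [CongruenceSubgroup.Gamma0_mem]
  simp

omit [NeZero N] in
theorem compSL_kummerFun (g : SL(2, ℤ)) :
    compSL g (kummerFun N χ)
      = fun τ => (twistedEis (CongruenceSubgroup.Gamma0 N) χ 12 ∣[(12 : ℤ)] g) τ / (2 * Δ τ) := by
  funext τ
  have hd : denom g τ ≠ 0 := denom_ne_zero g τ
  have hΔ : Δ τ ≠ 0 := ModularForm.discriminant_ne_zero τ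
  simp only [compSL_apply, kummerFun]
  rw [SL_slash_apply, delta_smul, zpow_neg]
  field_simp

omit [NeZero N] in
theorem hasCharacter_kummerFun (hχ : ParTrivial χ) : HasCharacter χ (kummerFun N χ) := by
  intro γ τ
  have h := congrFun (compSL_kummerFun (N := N) (χ := χ) (γ : SL(2, ℤ))) τ
  rw [compSL_apply] at h
  rw [h, twistedEis_slash hχ.trivialOnUnipotent]
  simp only [Pi.smul_apply, smul_eq_mul, kummerFun]
  ring

omit [NeZero N] in
theorem mdiff_kummerFun (hχ : ParTrivial χ) (hnorm : ∀ γ, ‖(χ γ : ℂ)‖ = 1) :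
    MDiff (kummerFun N χ) := by
  have hE : MDiff (twistedEis (CongruenceSubgroup.Gamma0 N) χ 12) :=
    twistedEis_mdifferentiable hχ.trivialOnUnipotent hnorm (by norm_num)
  rw [UpperHalfPlane.mdifferentiable_iff] at hE ⊢
  have hΔ := UpperHalfPlane.mdifferentiable_iff.mp mdiff_delta
  have h2 : DifferentiableOn ℂ (fun z => 2 * (Δ ∘ ofComplex) z) {z : ℂ | 0 < z.im} :=
    hΔ.const_mul 2
  refine (hE.div h2 ?_).congr ?_
  · intro z hz
    exact mul_ne_zero two_ne_zero (ModularForm.discriminant_ne_zero _)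
  · intro z hz
    simp [kummerFun]

omit [NeZero N] in
theorem isBoundedAtImInfty_delta_mul_kummerFun (hχ : ParTrivial χ)
    (hnorm : ∀ γ, ‖(χ γ : ℂ)‖ = 1) (g : SL(2, ℤ)) :
    IsBoundedAtImInfty (fun τ => Δ τ ^ 1 * compSL g (kummerFun N χ) τ) := by
  have hE := twistedEis_slash_isBoundedAtImInfty hχ.trivialOnUnipotent hnorm
    (k := 12) (by norm_num) g
  have : (fun τ => Δ τ ^ 1 * compSL g (kummerFun N χ) τ)
      = (fun _ : ℍ => (1 / 2 : ℂ)) * (twistedEis (CongruenceSubgroup.Gamma0 N) χ 12 ∣[(12 : ℤ)] g) := by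
    funext τ
    have hΔ : Δ τ ≠ 0 := ModularForm.discriminant_ne_zero τ
    rw [compSL_kummerFun]
    simp only [Pi.mul_apply, pow_one]
    field_simp
  rw [this]
  exact (Filter.const_boundedAtFilter _ _).mul hE

/-- **K1**: the Kummer function lies in the S24 ring `holN N`. -/
theorem kummerFun_mem_holN (hχ : ParTrivial χ) (hnorm : ∀ γ, ‖(χ γ : ℂ)‖ = 1) :
    kummerFun N χ ∈ holN N :=
  (hasCharacter_kummerFun hχ).mem_holN hχ (mdiff_kummerFun hχ hnorm) 1
    (isBoundedAtImInfty_delta_mul_kummerFun hχ hnorm)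

/-! ### The expansion of the Kummer function at `i∞` -/

omit [NeZero N] in
theorem T_mem_Gamma0 :
    (1 : SL(2, ℤ)) * ModularGroup.T ^ ((1 : ℕ) : ℤ) * (1 : SL(2, ℤ))⁻¹
      ∈ CongruenceSubgroup.Gamma0 N := by
  rw [CongruenceSubgroup.Gamma0_mem]
  simp [ModularGroup.T]

omit [NeZero N] in
theorem delta_mul_kummerFun (τ : ℍ) :
    Δ τ ^ 1 * compSL 1 (kummerFun N χ) τ
      = twistedEis (CongruenceSubgroup.Gamma0 N) χ 12 τ / 2 := by
  have hΔ : Δ τ ≠ 0 := ModularForm.discriminant_ne_zero τ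
  rw [compSL_one]
  simp only [kummerFun, pow_one]
  field_simp

omit [NeZero N] in
theorem tendsto_delta_mul_kummerFun (hχ : ParTrivial χ) (hnorm : ∀ γ, ‖(χ γ : ℂ)‖ = 1) :
    Tendsto (fun τ => Δ τ ^ 1 * compSL 1 (kummerFun N χ) τ) atImInfty (𝓝 1) := by
  have h := tendsto_twistedEis_two hχ.trivialOnUnipotent hnorm (k := 12) (by norm_num)
    (by decide) neg_one_mem_Gamma0 (hχ.neg_one _)
  have h2 := h.div_const 2
  rw [div_self (two_ne_zero)] at h2
  refine h2.congr fun τ => ?_
  rw [delta_mul_kummerFun]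

variable (N χ) in
/-- The expansion of the Kummer function at `i∞` in `q = exp(2πiτ)`. -/
def kummerExp : LaurentSeries ℂ := cuspExp (kummerFun N χ) 1 1 1

omit [NeZero N] in
theorem infExp_kummerFun (hχ : ParTrivial χ) (hnorm : ∀ γ, ‖(χ γ : ℂ)‖ = 1) :
    InfExp 1 (kummerFun N χ) (kummerExp N χ) := by
  have h := (hasCharacter_kummerFun hχ).infExp_cuspExp hχ (mdiff_kummerFun hχ hnorm) 1 1 1
    T_mem_Gamma0 (isBoundedAtImInfty_delta_mul_kummerFun hχ hnorm 1)
  rwa [compSL_one] at h

omit [NeZero N] in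
theorem coeff_zero_qExpansion_kummer (hχ : ParTrivial χ) (hnorm : ∀ γ, ‖(χ γ : ℂ)‖ = 1) :
    (UpperHalfPlane.qExpansion ((1 : ℕ) : ℝ)
      (fun τ => Δ τ ^ 1 * compSL 1 (kummerFun N χ) τ)).coeff 0 = 1 := by
  have hper : Function.Periodic ((fun τ => Δ τ ^ 1 * compSL 1 (kummerFun N χ) τ) ∘ ofComplex)
      ((1 : ℕ) : ℝ) := by
    intro z
    have h1 := (hasCharacter_kummerFun hχ).periodic hχ 1 1 T_mem_Gamma0 z
    have h2 := periodic_comp_ofComplex_of_vadd (f := Δ) (N := 1) (fun τ => delta_vadd (1 : ℕ) τ) z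
    simp only [Function.comp_apply] at h1 h2 ⊢
    rw [h1, h2]
  have hhol : MDiff (fun τ => Δ τ ^ 1 * compSL 1 (kummerFun N χ) τ) :=
    (mdiff_delta_pow 1).mul (precompSL 1 ⟨_, mdiff_kummerFun hχ hnorm⟩).2
  have han := UpperHalfPlane.analyticAt_cuspFunction_zero (h := ((1 : ℕ) : ℝ)) (by norm_num)
    hper hhol (isBoundedAtImInfty_delta_mul_kummerFun hχ hnorm 1)
  rw [UpperHalfPlane.qExpansion_coeff_zero (by norm_num) han hper]
  exact (tendsto_delta_mul_kummerFun hχ hnorm).limUnder_eq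

omit [NeZero N] in
theorem kummerExp_eq (hχ : ParTrivial χ) (hnorm : ∀ γ, ‖(χ γ : ℂ)‖ = 1) :
    (kummerExp N χ).order = -1 ∧ (kummerExp N χ).leadingCoeff = 1 := by
  set ψ := UpperHalfPlane.qExpansion ((1 : ℕ) : ℝ)
      (fun τ => Δ τ ^ 1 * compSL 1 (kummerFun N χ) τ) with hψ
  have hc : PowerSeries.coeff 0 ψ = 1 := coeff_zero_qExpansion_kummer hχ hnorm
  have hord : ψ.order = ((0 : ℕ) : ℕ∞) := by
    rw [PowerSeries.order_eq_nat]
    exact ⟨by rw [hc]; exact one_ne_zero, fun i hi => absurd hi (Nat.not_lt_zero i)⟩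
  have h1 : (HahnSeries.ofPowerSeries ℤ ℂ ψ).order = 0 := by
    simpa using order_ofPowerSeries hord
  have h2 : (HahnSeries.ofPowerSeries ℤ ℂ ψ).leadingCoeff = 1 := by
    rw [leadingCoeff_ofPowerSeries hord, hc]
  have h3 : (qExpand ℂ 1 Fermat.Agent.S28.H568.dInvS ^ 1).order = -1 := by
    rw [pow_one, inf_qExpand_order, Fermat.Agent.S28.H568.dInvS_order]
    simp
  have h4 : (qExpand ℂ 1 Fermat.Agent.S28.H568.dInvS ^ 1).leadingCoeff = 1 := by
    rw [pow_one, inf_qExpand_leadingCoeff, Fermat.Agent.S28.H568.dInvS_leadingCoeff]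
  have hx : (qExpand ℂ 1 Fermat.Agent.S28.H568.dInvS ^ 1) ≠ 0 := by
    intro h0
    rw [h0] at h4
    simp at h4
  have hy : (HahnSeries.ofPowerSeries ℤ ℂ ψ) ≠ 0 := by
    intro h0
    rw [h0] at h2
    simp at h2
  refine ⟨?_, ?_⟩
  · show (_ * _ : LaurentSeries ℂ).order = -1
    rw [HahnSeries.order_mul hx hy, h3, h1, add_zero]
  · show (_ * _ : LaurentSeries ℂ).leadingCoeff = 1
    rw [HahnSeries.leadingCoeff_mul, h4, h2, one_mul]

omit [NeZero N] in
theorem kummerExp_ne_zero (hχ : ParTrivial χ) (hnorm : ∀ γ, ‖(χ γ : ℂ)‖ = 1) :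
    kummerExp N χ ≠ 0 := by
  intro h0
  have := (kummerExp_eq hχ hnorm).2
  rw [h0] at this
  simp at this

omit [NeZero N] in
theorem kummerFun_ne_zero (hχ : ParTrivial χ) (hnorm : ∀ γ, ‖(χ γ : ℂ)‖ = 1) :
    kummerFun N χ ≠ 0 := by
  intro h0
  have h := infExp_kummerFun hχ hnorm
  rw [h0] at h
  exact kummerExp_ne_zero hχ hnorm (InfExp.eq_zero h)

/-- The expansion in `exp(2πiτ/N)` (the S24 `qexp`). -/
theorem infExp_kummerFun_level (hχ : ParTrivial χ) (hnorm : ∀ γ, ‖(χ γ : ℂ)‖ = 1) :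
    InfExp N (kummerFun N χ) (qExpand ℂ N (kummerExp N χ)) := by
  have hN : (N : ℂ) ≠ 0 := by exact_mod_cast NeZero.ne N
  have h := (infExp_kummerFun hχ hnorm).subst (N := N) (fun τ => τ) 1 N (fun τ => by
    rw [infZ_def, infZ_def, Units.val_one, one_mul, ← Complex.exp_nat_mul]
    congr 1
    push_cast
    field_simp)
  rwa [infTwist_one] at h

theorem expInf_kummerFun (hχ : ParTrivial χ) (hnorm : ∀ γ, ‖(χ γ : ℂ)‖ = 1) :
    expInf N (holToExp N ⟨kummerFun N χ, kummerFun_mem_holN hχ hnorm⟩)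
      = qExpand ℂ N (kummerExp N χ) :=
  (infExp_kummerFun_level hχ hnorm).expInf_eq

end Kummer


end Fermat.Agent.S29.H332

end
end
-- ===== PACK-END S29/H332/KummerFun.lean

-- ===== PACK-BEGIN S18/H24/GaussC.lean
section



/-!
# S18 / MOD-ASM, piece G-V (helper24) — part C: `V_total`, `gauss`, `x ∈ V`

* `gaussForm_of_mem_Fc` : every `f ∈ Fc` is `0` or has a Gauss normal form `w^n U₁/U₂`;
* `field_V_total`       : field `V_total` of `Alg.GoodModel`;
* `field_gauss`         : field `gauss` for every coordinate with an integral expansion `q⁻¹ + …`;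
* `coord_mem_Vc`        : the coordinate lies in `V`.
-/

set_option autoImplicit false

noncomputable section

namespace Fermat.Agent.S18.H24

open ModularCurve AlgebraicCurve HahnSeries Fermat.Agent.S18 Fermat.Agent.S18.Mod
open Fermat.Agent.S18.H456

variable {M : ℕ} {A : ValuationSubring Qb} {E : IntermediateField ℚ Qb}

theorem residue_ne_zero_of_inv_mem {c : A} (hc0 : (c : Qb) ≠ 0) (hc : (c : Qb)⁻¹ ∈ A) :
    IsLocalRing.residue A c ≠ 0 := by
  intro h
  have hm := (IsLocalRing.residue_eq_zero_iff _).mp h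
  rcases (mem_maximalIdeal_iff _).mp hm with h0 | hni
  · exact hc0 h0
  · exact hni hc

/-- Gauss form of a nonzero constant of `E`. -/
theorem gaussForm_cst {w₀ : Qb} (hw : _root_.Fermat.Agent.S18.H24.IsUnif A E w₀) {c : Qb} (hcE : c ∈ E) (hc0 : c ≠ 0) :
    GaussForm M A E w₀ (cst M c) := by
  have hw0 := hw.ne_zero
  have hC := C_ne_zero' hw0
  -- the case `c ∈ A`
  have key : ∀ c : Qb, c ∈ E → c ≠ 0 → c ∈ A → GaussForm M A E w₀ (cst M c) := by
    intro c hcE hc0 hcA
    obtain ⟨k, hk1, hk2⟩ := hw.discrete c hcA hcE hc0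
    have hu0 : c * (w₀⁻¹) ^ k ≠ 0 := mul_ne_zero hc0 (pow_ne_zero _ (inv_ne_zero hw0))
    have huE : c * (w₀⁻¹) ^ k ∈ E := mul_mem hcE (pow_mem (inv_mem hw.mem_E) _)
    refine ⟨k, HahnSeries.C (⟨c * (w₀⁻¹) ^ k, hk1⟩ : A), 1, isIntE_C huE, isIntE_one, ?_, ?_, ?_⟩
    · rw [red_C]
      intro h
      exact residue_ne_zero_of_inv_mem (c := ⟨c * (w₀⁻¹) ^ k, hk1⟩) hu0 hk2
        (HahnSeries.C_injective (by rw [h, map_zero]))
    · rw [map_one]; exact one_ne_zero
    · rw [map_one, mul_one, val_cst', inc_C, zpow_natCast, ← map_pow, ← map_mul]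
      congr 1
      show c = w₀ ^ k * (c * (w₀⁻¹) ^ k)
      rw [inv_pow]
      field_simp
  rcases A.mem_or_inv_mem c with hcA | hcA
  · exact key c hcE hc0 hcA
  · have := (key c⁻¹ (inv_mem hcE) (inv_ne_zero hc0) hcA).inv hw0
    rwa [← map_inv₀, inv_inv] at this

theorem jqNModC_ne_zero (K : Type*) [CommRing K] [Nontrivial K] (d : ℕ) [NeZero d] :
    jqNModC K d ≠ 0 := by
  intro h
  have : jqModC K = 0 := qExpand_injective d (by rw [map_zero]; exact h)
  exact jqModC_ne_zero_of_nontrivial K this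

theorem val_jd (d : ℕ) [NeZero d] (hd : d ∣ M) :
    ((jd M d hd : Om M) : LaurentSeries Qb) = inc A (jqNModC A d) := by
  show coeffEmb Qb (qExpand ℚ d jq) = _
  have h1 : coeffEmb Qb (qExpand ℚ d jq) = jqNModC Qb d := coeffMap_jqNModC (algebraMap ℚ Qb) d
  rw [h1]
  exact (coeffMap_jqNModC A.subtype d).symm

theorem jd_mem_Fc (d : ℕ) [NeZero d] (hd : d ∣ M) : jd M d hd ∈ Fc M E :=
  Subfield.subset_closure (Or.inr ⟨d, inferInstance, hd, rfl⟩)

theorem gaussForm_jd (w₀ : Qb) (d : ℕ) [NeZero d] (hd : d ∣ M) :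
    GaussForm M A E w₀ (jd M d hd) := by
  refine ⟨0, jqNModC A d, 1, ?_, isIntE_one, ?_, ?_, ?_⟩
  · exact (isIntE_iff M A E).mpr ⟨jd M d hd, jd_mem_Fc d hd, val_jd d hd⟩
  · show coeffMap (IsLocalRing.residue A) (jqNModC A d) ≠ 0
    rw [coeffMap_jqNModC]
    exact jqNModC_ne_zero _ d
  · rw [map_one]; exact one_ne_zero
  · rw [map_one, mul_one, zpow_zero, one_mul, val_jd d hd]

theorem gaussForm_one (w₀ : Qb) : GaussForm M A E w₀ 1 := by
  refine ⟨0, 1, 1, isIntE_one, isIntE_one, ?_, ?_, ?_⟩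
  · rw [map_one]; exact one_ne_zero
  · rw [map_one]; exact one_ne_zero
  · rw [map_one, mul_one, zpow_zero, one_mul]; rfl

/-- **Gauss normal form.** -/
theorem gaussForm_of_mem_Fc {w₀ : Qb} (hw : _root_.Fermat.Agent.S18.H24.IsUnif A E w₀) {f : Om M} (hf : f ∈ Fc M E) :
    f = 0 ∨ GaussForm M A E w₀ f := by
  have hw0 := hw.ne_zero
  unfold Fc at hf
  induction hf using Subfield.closure_induction with
  | mem y hy =>
    rcases hy with hy | hy
    · obtain ⟨c, hc, rfl⟩ := (mem_Ec_iff M E).1 hy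
      by_cases hc0 : c = 0
      · left; rw [hc0]; exact map_zero _
      · right; exact gaussForm_cst hw hc hc0
    · obtain ⟨d, hd, hdM, rfl⟩ := hy
      right
      exact gaussForm_jd w₀ d hdM
  | one => right; exact gaussForm_one w₀
  | add x y _ _ hx hy =>
    rcases hx with rfl | hx
    · rw [zero_add]; exact hy
    · rcases hy with rfl | hy
      · rw [add_zero]; exact Or.inr hx
      · exact hx.add hw hy
  | neg x _ hx =>
    rcases hx with rfl | hx
    · left; rw [neg_zero]
    · right; exact hx.neg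
  | inv x _ hx =>
    rcases hx with rfl | hx
    · left; rw [inv_zero]
    · right; exact hx.inv hw0
  | mul x y _ _ hx hy =>
    rcases hx with rfl | hx
    · left; rw [zero_mul]
    · rcases hy with rfl | hy
      · left; rw [mul_zero]
      · right; exact hx.mul hw0 hy

/-- A Gauss form with `n ≥ 0` lies in `V`. -/
theorem GaussForm.mem_Vc_of_nonneg {w₀ : Qb} (hw : _root_.Fermat.Agent.S18.H24.IsUnif A E w₀) {f : Om M} (hfF : f ∈ Fc M E)
    {n : ℕ} {U₁ U₂ : LaurentSeries A} (h₁ : IsIntE M A E U₁) (h₂ : IsIntE M A E U₂)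
    (hr₂ : red A U₂ ≠ 0)
    (heq : (f : LaurentSeries Qb) * inc A U₂ = HahnSeries.C w₀ ^ n * inc A U₁) :
    f ∈ Vc M A E := by
  refine ⟨hfF, HahnSeries.C (⟨w₀, hw.mem_A⟩ ^ n : A) * U₁, U₂, IsIntE.mul (isIntE_C ?_) h₁, h₂,
    hr₂, ?_⟩
  · show ((⟨w₀, hw.mem_A⟩ ^ n : A) : Qb) ∈ E
    rw [SubmonoidClass.coe_pow]
    exact pow_mem hw.mem_E n
  · rw [heq, map_mul, inc_C, SubmonoidClass.coe_pow, map_pow]

variable (M) in
/-- field `V_total`. -/
theorem field_V_total {w₀ : Qb} (hw : _root_.Fermat.Agent.S18.H24.IsUnif A E w₀) :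
    ∀ f ∈ Fc M E, f ∈ Vc M A E ∨ f⁻¹ ∈ Vc M A E := by
  intro f hf
  rcases gaussForm_of_mem_Fc hw hf with rfl | hG
  · left; exact zero_mem _
  · have hw0 := hw.ne_zero
    obtain ⟨n, U₁, U₂, h₁, h₂, hr₁, hr₂, heq⟩ := hG
    rcases le_total 0 n with hn | hn
    · left
      obtain ⟨d, rfl⟩ := Int.eq_ofNat_of_zero_le hn
      rw [zpow_natCast] at heq
      exact GaussForm.mem_Vc_of_nonneg hw hf h₁ h₂ hr₂ heq
    · right
      have hG' : GaussForm M A E w₀ f := ⟨n, U₁, U₂, h₁, h₂, hr₁, hr₂, heq⟩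
      obtain ⟨n', W₁, W₂, k₁, k₂, kr₁, kr₂, heq'⟩ := hG'.inv hw0
      -- use the explicit inverse form instead
      have hf0 := hG'.ne_zero hw0
      have hfv0 : (f : LaurentSeries Qb) ≠ 0 := fun h => hf0 (val_eq_zero_iff.mp h)
      have hC := C_ne_zero' hw0
      obtain ⟨d, hd⟩ : ∃ d : ℕ, -n = d := Int.eq_ofNat_of_zero_le (by omega)
      have heq2 : ((f⁻¹ : Om M) : LaurentSeries Qb) * inc A U₁ = HahnSeries.C w₀ ^ d * inc A U₂ := by
        rw [val_inv]
        have hCn : (HahnSeries.C w₀ : LaurentSeries Qb) ^ n ≠ 0 := zpow_ne_zero n hC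
        have h1 : inc A U₁ = (HahnSeries.C w₀ ^ n)⁻¹ * ((f : LaurentSeries Qb) * inc A U₂) := by
          rw [heq, ← mul_assoc, inv_mul_cancel₀ hCn, one_mul]
        rw [h1, ← zpow_neg, hd, zpow_natCast]
        field_simp
      exact GaussForm.mem_Vc_of_nonneg hw (inv_mem hf) h₂ h₁ hr₁ heq2

/-! ### The coordinate and the field `gauss` -/

section Coord

variable [NeZero M]

/-- The integral series of a coordinate, over `A`. -/
theorem exists_series_of_hasIntExp {x : Om M} (hx : HasIntExp M x) :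
    ∃ XA : LaurentSeries A, IsIntE M A E XA ∧ inc A XA = (x : LaurentSeries Qb) ∧
      (red A XA).order ≠ 0 := by
  have hxF := mem_Fc_of_hasIntExp M E hx
  obtain ⟨X, h1, h2, h3, -⟩ := hx
  refine ⟨coeffMap (Int.castRingHom A) X, ?_, ?_, ?_⟩
  · refine (isIntE_iff M A E).mpr ⟨x, hxF, ?_⟩
    rw [h3]
    show _ = coeffMap A.subtype (coeffMap (Int.castRingHom A) X)
    rw [coeffMap_coeffMap]
    exact coeffMap_congr (RingHom.ext_int _ _) X
  · rw [h3]
    show coeffMap A.subtype (coeffMap (Int.castRingHom A) X) = _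
    rw [coeffMap_coeffMap]
    exact coeffMap_congr (RingHom.ext_int _ _) X
  · show (coeffMap (IsLocalRing.residue A) (coeffMap (Int.castRingHom A) X)).order ≠ 0
    rw [coeffMap_coeffMap]
    set Xk := coeffMap ((IsLocalRing.residue A).comp (Int.castRingHom A)) X with hXk
    have hc1 : Xk.coeff (-1) = 1 := by
      rw [hXk, coeffMap_coeff, h1, map_one]
    have hne : Xk ≠ 0 := by
      intro h
      rw [h, HahnSeries.coeff_zero] at hc1
      exact zero_ne_one hc1
    have hle : Xk.order ≤ -1 := HahnSeries.order_le_of_coeff_ne_zero (by rw [hc1]; exact one_ne_zero)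
    omega

theorem coord_mem_Vc {x : Om M} (hx : HasIntExp M x) : x ∈ Vc M A E := by
  obtain ⟨XA, hXA, hinc, -⟩ := exists_series_of_hasIntExp (A := A) (E := E) hx
  exact mem_VcSet_of_isIntE hXA hinc.symm

/-- field `gauss` (for a coordinate with integral expansion `q⁻¹ + …`). -/
theorem field_gauss {x : Om M} (hx : HasIntExp M x) :
    ∀ P : Polynomial (Om M), (∀ i, P.coeff i ∈ Rc M A E) →
      (∃ i, P.coeff i ≠ 0 ∧ (P.coeff i)⁻¹ ∈ Rc M A E) → (P.eval x)⁻¹ ∈ Vc M A E := by
  intro P hP hunit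
  have hxF := mem_Fc_of_hasIntExp M E hx
  obtain ⟨XA, hXA, hinc, hord⟩ := exists_series_of_hasIntExp (A := A) (E := E) hx
  -- lift `P` to `A[X]`
  let φ : A →+* Om M := (algebraMap Qb (Om M)).comp A.subtype
  have hlift : P ∈ Polynomial.lifts φ := by
    rw [Polynomial.lifts_iff_coeff_lifts]
    intro i
    obtain ⟨c, hcA, -, hc⟩ := (mem_Rc_iff M A E).mp (hP i)
    exact ⟨⟨c, hcA⟩, hc⟩
  obtain ⟨p, hp'⟩ := hlift
  have hp : p.map φ = P := hp'
  have hpcoeff : ∀ i, cst M ((p.coeff i : A) : Qb) = P.coeff i := by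
    intro i
    rw [← hp, Polynomial.coeff_map]
    rfl
  have hpE : ∀ i, ((p.coeff i : A) : Qb) ∈ E := by
    intro i
    obtain ⟨c, -, hcE, hc⟩ := (mem_Rc_iff M A E).mp (hP i)
    have : c = ((p.coeff i : A) : Qb) := cst_injective M (by rw [hc, hpcoeff])
    rw [← this]; exact hcE
  -- the series
  set U : LaurentSeries A := p.eval₂ (HahnSeries.C (Γ := ℤ) (R := A)) XA with hU
  have hUint : IsIntE M A E U := by
    rw [hU, Polynomial.eval₂_eq_sum_range]
    have : ∀ (s : Finset ℕ), IsIntE M A E (∑ i ∈ s, HahnSeries.C (p.coeff i) * XA ^ i) := by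
      intro s
      induction s using Finset.induction_on with
      | empty => rw [Finset.sum_empty]; exact isIntE_zero
      | insert a s ha ih =>
        rw [Finset.sum_insert ha]
        exact IsIntE.add (IsIntE.mul (isIntE_C (hpE a)) (IsIntE.pow hXA a)) ih
    exact this _
  have hincU : inc A U = ((P.eval x : Om M) : LaurentSeries Qb) := by
    rw [hU, Polynomial.hom_eval₂, hinc]
    have h1 : ((P.eval x : Om M) : LaurentSeries Qb) =
        P.eval₂ (modularFunctionFieldBar M).val.toRingHom (x : LaurentSeries Qb) := by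
      have := Polynomial.hom_eval₂ P (RingHom.id (Om M)) (modularFunctionFieldBar M).val.toRingHom x
      simp only [Polynomial.eval₂_id, RingHom.comp_id] at this
      exact this
    rw [h1, ← hp, Polynomial.eval₂_map]
    congr 1
    ext c : 1
    show inc A (HahnSeries.C c) = ((cst M (c : Qb) : Om M) : LaurentSeries Qb)
    rw [inc_C, val_cst']
  have hredU : red A U ≠ 0 := by
    rw [hU, Polynomial.hom_eval₂]
    have hcomp : (red A).comp (HahnSeries.C (Γ := ℤ) (R := A)) =
        (HahnSeries.C (Γ := ℤ) (R := IsLocalRing.ResidueField A)).comp (IsLocalRing.residue A) := by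
      ext c : 1
      exact red_C c
    rw [hcomp, ← Polynomial.eval₂_map]
    intro h0
    have hp0 := Fermat.Agent.S28.H806.eq_zero_of_eval₂_C_eq_zero _ hord _ h0
    obtain ⟨i, hi0, hiinv⟩ := hunit
    have hci : (p.map (IsLocalRing.residue A)).coeff i = 0 := by rw [hp0, Polynomial.coeff_zero]
    rw [Polynomial.coeff_map] at hci
    have hc0 : ((p.coeff i : A) : Qb) ≠ 0 := by
      intro h
      apply hi0
      rw [← hpcoeff, h]
      exact map_zero _
    have hcinv : ((p.coeff i : A) : Qb)⁻¹ ∈ A := by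
      obtain ⟨c, hcA, -, hc⟩ := (mem_Rc_iff M A E).mp hiinv
      rw [← hpcoeff, ← map_inv₀] at hc
      have := cst_injective M hc
      rw [← this]; exact hcA
    exact residue_ne_zero_of_inv_mem hc0 hcinv hci
  have hPx0 : ((P.eval x : Om M) : LaurentSeries Qb) ≠ 0 := by
    rw [← hincU]; exact red_ne_zero_imp_inc_ne_zero hredU
  refine ⟨inv_mem ?_, 1, U, isIntE_one, hUint, hredU, ?_⟩
  · -- `P.eval x ∈ Fc`
    rw [Polynomial.eval_eq_sum_range]
    refine Subfield.sum_mem _ fun i _ => ?_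
    exact mul_mem (field_E_le_F M E (field_R_le M A E (hP i))) (pow_mem hxF i)
  · rw [val_inv, hincU, map_one, inv_mul_cancel₀ hPx0]

end Coord

end Fermat.Agent.S18.H24

end
end
-- ===== PACK-END S18/H24/GaussC.lean

-- ===== PACK-BEGIN S18/H24/GaussFields.lean
section


/-!
# S18 / node_mod, part G-V (helper24) — HAND-IN

All `V`-fields of `Alg.GoodModel` (v4 on main) for the concrete objects of `S18/Mod/Defs.lean`:

`gv_fields` : for every subring `V` with underlying set `VcSet M A E`, every `w` satisfying the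
`w`-fields of G-R (`w_mem, w_ne_zero, w_inv_not_mem, w_gen, w_discrete` for `Rc M A E`), and every
coordinate `x` with an integral expansion `q⁻¹ + …` (`H456.HasIntExp`, e.g. from `IsCoordinate`):

    V_le ∧ V_total ∧ R_le_V ∧ x_mem_V ∧ w_inv_not_mem_V ∧ V_gen ∧ gauss

in exactly the field types of `Alg.GoodModel (Lc M) (Ec M E) (Fc M E) (Rc M A E) V w x S`.
No hypothesis on `ℓ`, `M`, or finiteness of `E` is needed here (they enter through G-R).
-/

set_option autoImplicit false

noncomputable section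

namespace Fermat.Agent.S18.H24

open ModularCurve AlgebraicCurve HahnSeries Fermat.Agent.S18 Fermat.Agent.S18.Mod
open Fermat.Agent.S18.H456

variable {M : ℕ} {A : ValuationSubring Qb} {E : IntermediateField ℚ Qb}

/-- The `w`-fields of G-R give a uniformiser in the sense of `IsUnif`. -/
theorem exists_isUnif {w : Om M} (hwR : w ∈ Rc M A E) (hw0 : w ≠ 0) (hwinv : w⁻¹ ∉ Rc M A E)
    (hgen : ∀ r ∈ Rc M A E, r⁻¹ ∉ Rc M A E → r * w⁻¹ ∈ Rc M A E)
    (hdisc : ∀ r ∈ Rc M A E, r ≠ 0 →
      ∃ n : ℕ, r * (w⁻¹) ^ n ∈ Rc M A E ∧ (r * (w⁻¹) ^ n)⁻¹ ∈ Rc M A E) :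
    ∃ w₀ : Qb, w = cst M w₀ ∧ _root_.Fermat.Agent.S18.H24.IsUnif A E w₀ := by
  obtain ⟨w₀, hw₀A, hw₀E, rfl⟩ := (mem_Rc_iff M A E).mp hwR
  have hw₀0 : w₀ ≠ 0 := by
    rintro rfl
    exact hw0 (map_zero _)
  have hninv : w₀⁻¹ ∉ A := by
    intro h
    apply hwinv
    rw [← map_inv₀]
    exact cst_mem_Rc M A E h (inv_mem hw₀E)
  refine ⟨w₀, rfl, hw₀A, hw₀E, hw₀0, hninv, ?_, ?_⟩
  · intro c hcA hcE hcinv
    have h1 : (cst M c)⁻¹ ∉ Rc M A E := by
      intro h
      rw [← map_inv₀] at h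
      exact hcinv ((cst_mem_Rc_iff M A E).mp h).1
    have h2 := hgen _ (cst_mem_Rc M A E hcA hcE) h1
    rw [← map_inv₀, ← map_mul] at h2
    exact ((cst_mem_Rc_iff M A E).mp h2).1
  · intro c hcA hcE hc0
    have h1 : cst M c ≠ 0 := fun h => hc0 (cst_injective M (by rw [h]; exact (map_zero _).symm))
    obtain ⟨n, hn1, hn2⟩ := hdisc _ (cst_mem_Rc M A E hcA hcE) h1
    refine ⟨n, ?_, ?_⟩
    · rw [← map_inv₀, ← map_pow, ← map_mul] at hn1
      exact ((cst_mem_Rc_iff M A E).mp hn1).1
    · rw [← map_inv₀, ← map_pow, ← map_mul, ← map_inv₀] at hn2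
      exact ((cst_mem_Rc_iff M A E).mp hn2).1

/-- **G-V hand-in**: all `V`-fields of `GoodModel` for the concrete Gauss valuation ring. -/
theorem gv_fields [NeZero M] (V : Subring (Om M)) (hV : (V : Set (Om M)) = VcSet M A E)
    {w : Om M} (hwR : w ∈ Rc M A E) (hw0 : w ≠ 0) (hwinv : w⁻¹ ∉ Rc M A E)
    (hgen : ∀ r ∈ Rc M A E, r⁻¹ ∉ Rc M A E → r * w⁻¹ ∈ Rc M A E)
    (hdisc : ∀ r ∈ Rc M A E, r ≠ 0 →
      ∃ n : ℕ, r * (w⁻¹) ^ n ∈ Rc M A E ∧ (r * (w⁻¹) ^ n)⁻¹ ∈ Rc M A E)
    {x : Om M} (hx : HasIntExp M x) :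
    ((V : Set (Om M)) ⊆ Fc M E) ∧
    (∀ f ∈ Fc M E, f ∈ V ∨ f⁻¹ ∈ V) ∧
    (Rc M A E ≤ V) ∧
    (x ∈ V) ∧
    (w⁻¹ ∉ V) ∧
    (∀ f ∈ V, f⁻¹ ∉ V → f * w⁻¹ ∈ V) ∧
    (∀ P : Polynomial (Om M), (∀ i, P.coeff i ∈ Rc M A E) →
      (∃ i, P.coeff i ≠ 0 ∧ (P.coeff i)⁻¹ ∈ Rc M A E) → (P.eval x)⁻¹ ∈ V) := by
  have hVeq : V = Vc M A E := SetLike.coe_injective (by rw [hV, coe_Vc])
  subst hVeq
  obtain ⟨w₀, rfl, hw⟩ := _root_.Fermat.Agent.S18.H24.exists_isUnif hwR hw0 hwinv hgen hdisc
  exact ⟨field_V_le M A E, field_V_total M hw, field_R_le_V M A E, coord_mem_Vc hx,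
    field_w_inv_not_mem_V hw.ne_zero hw.inv_not_mem, field_V_gen M hw, field_gauss hx⟩

/-- The same for a coordinate in the sense of `Mod.IsCoordinate`. -/
theorem gv_fields_of_isCoordinate [NeZero M] (V : Subring (Om M))
    (hV : (V : Set (Om M)) = VcSet M A E)
    {w : Om M} (hwR : w ∈ Rc M A E) (hw0 : w ≠ 0) (hwinv : w⁻¹ ∉ Rc M A E)
    (hgen : ∀ r ∈ Rc M A E, r⁻¹ ∉ Rc M A E → r * w⁻¹ ∈ Rc M A E)
    (hdisc : ∀ r ∈ Rc M A E, r ≠ 0 →
      ∃ n : ℕ, r * (w⁻¹) ^ n ∈ Rc M A E ∧ (r * (w⁻¹) ^ n)⁻¹ ∈ Rc M A E)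
    {ℓ : ℕ} {x : Om M} {S : Finset (Om M)} (hx : IsCoordinate M ℓ x S) :
    ((V : Set (Om M)) ⊆ Fc M E) ∧
    (∀ f ∈ Fc M E, f ∈ V ∨ f⁻¹ ∈ V) ∧
    (Rc M A E ≤ V) ∧
    (x ∈ V) ∧
    (w⁻¹ ∉ V) ∧
    (∀ f ∈ V, f⁻¹ ∉ V → f * w⁻¹ ∈ V) ∧
    (∀ P : Polynomial (Om M), (∀ i, P.coeff i ∈ Rc M A E) →
      (∃ i, P.coeff i ≠ 0 ∧ (P.coeff i)⁻¹ ∈ Rc M A E) → (P.eval x)⁻¹ ∈ V) :=
  gv_fields V hV hwR hw0 hwinv hgen hdisc (hasIntExp_of_isCoordinate M hx)

end Fermat.Agent.S18.H24

end
end
-- ===== PACK-END S18/H24/GaussFields.lean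

-- ===== PACK-BEGIN S18/H804/ValPlace.lean
section




/-!
# S18 / GLUE input: every nontrivial valuation subring of a function field containing the
constants is a place  (helper804)

`K` a field of characteristic zero, `F` finite over `K(x)`, `x` transcendental.  A valuation
subring `O ≠ ⊤` of `F` containing `K` is the valuation ring of a `Place K F` (a discrete
valuation ring).  Proof: `x` or `x⁻¹` lies in `O`; `O` dominates the localisation of the integral
closure of `K[x^{±1}]` at its center, which is a DVR, hence maximal among proper subrings.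

Corollary (`exists_mul_pow_unit`): if `m ∣ ord_v u` for every place `v`, then for every valuation
subring `O ⊇ K` of `F` there is `t ≠ 0` with `u * t ^ m` a unit of `O`.
-/

set_option autoImplicit false
set_option linter.unusedSectionVars false

namespace Fermat.Agent.S18.H804

open AlgebraicCurve Polynomial IntermediateField IsDedekindDomain Fermat.Agent.S24 FF

open scoped IntermediateField.algebraAdjoinAdjoin

variable {K F : Type*} [Field K] [Field F] [Algebra K F] {t : F}

/-- `K[t] ⊆ O` when `t ∈ O`. -/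
theorem mem_of_mem_coordRing_val (O : ValuationSubring F)
    (hK : ∀ a : K, algebraMap K F a ∈ O) (ht : t ∈ O) {r : F}
    (hr : r ∈ coordRing K t) : r ∈ O := by
  induction hr using Algebra.adjoin_induction with
  | mem x hx =>
    rw [Set.mem_singleton_iff] at hx
    subst hx
    exact ht
  | algebraMap a => exact hK a
  | add x y _ _ hx hy => exact add_mem hx hy
  | mul x y _ _ hx hy => exact mul_mem hx hy

/-- The integral closure of `K[t]` is contained in `O` when `t ∈ O`. -/
theorem mem_of_mem_intRing_val (O : ValuationSubring F)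
    (hK : ∀ a : K, algebraMap K F a ∈ O) (ht : t ∈ O) {s : F}
    (hs : s ∈ intRing K t) : s ∈ O := by
  let φ : coordRing K t →+* O :=
    { toFun := fun y => ⟨y, mem_of_mem_coordRing_val O hK ht y.2⟩
      map_one' := rfl
      map_mul' := fun _ _ => rfl
      map_zero' := rfl
      map_add' := fun _ _ => rfl }
  obtain ⟨p, hpm, hp⟩ := hs
  have hint' : IsIntegral O s := by
    refine ⟨p.map φ, hpm.map φ, ?_⟩
    rw [← hp, Polynomial.eval₂_map]
    rfl
  obtain ⟨y, hy⟩ := IsIntegrallyClosed.isIntegral_iff.mp hint'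
  rw [← hy]
  exact y.2

/-- The inclusion of the integral closure of `K[t]` into `O`. -/
def toValRing (O : ValuationSubring F) (hK : ∀ a : K, algebraMap K F a ∈ O) (ht : t ∈ O) :
    intRing K t →+* O where
  toFun s := ⟨s, mem_of_mem_intRing_val O hK ht s.2⟩
  map_one' := rfl
  map_mul' _ _ := rfl
  map_zero' := rfl
  map_add' _ _ := rfl

/-- The center of `O` on the integral closure of `K[t]`. -/
def centerVal (O : ValuationSubring F) (hK : ∀ a : K, algebraMap K F a ∈ O) (ht : t ∈ O) :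
    Ideal (intRing K t) :=
  Ideal.comap (toValRing O hK ht) (IsLocalRing.maximalIdeal O)

instance centerVal_isPrime (O : ValuationSubring F) (hK : ∀ a : K, algebraMap K F a ∈ O)
    (ht : t ∈ O) : (centerVal O hK ht).IsPrime := by
  unfold centerVal
  infer_instance

theorem mem_centerVal_iff (O : ValuationSubring F) (hK : ∀ a : K, algebraMap K F a ∈ O)
    (ht : t ∈ O) (s : intRing K t) :
    s ∈ centerVal O hK ht ↔ (s : F) ∈ O.nonunits := by
  rw [centerVal, Ideal.mem_comap]
  exact ValuationSubring.coe_mem_nonunits_iff.symm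

section withCoord

variable [CharZero K] [IsCoord K t]

/-- The center of a proper valuation subring is nonzero. -/
theorem centerVal_ne_bot (O : ValuationSubring F) (hK : ∀ a : K, algebraMap K F a ∈ O)
    (ht : t ∈ O) (hO : O ≠ ⊤) : centerVal O hK ht ≠ ⊥ := by
  intro h
  apply hO
  refine SetLike.ext fun f => ⟨fun _ => ValuationSubring.mem_top f, fun _ => ?_⟩
  -- `f = a / b` with `a, b` in the integral closure, `b ≠ 0` a unit of `O`
  obtain ⟨a, b, hb, rfl⟩ := IsFractionRing.div_surjective (A := intRing K t) f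
  have hb0 : b ≠ 0 := nonZeroDivisors.ne_zero hb
  have hbF : (b : F) ≠ 0 := fun h0 => hb0 (Subtype.ext h0)
  have hbnot : (b : F) ∉ O.nonunits := by
    intro hbn
    have : b ∈ centerVal O hK ht := (mem_centerVal_iff O hK ht b).mpr hbn
    rw [h, Ideal.mem_bot] at this
    exact hb0 this
  have hbinv : (b : F)⁻¹ ∈ O := by
    by_contra hcon
    exact hbnot ((ValuationSubring.mem_nonunits_iff_or _).mpr (Or.inr hcon))
  have ha : (a : F) ∈ O := mem_of_mem_intRing_val O hK ht a.2
  show algebraMap (intRing K t) F a / algebraMap (intRing K t) F b ∈ O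
  rw [div_eq_mul_inv]
  exact mul_mem ha hbinv

/-- A proper valuation subring containing `K` and `t` is the valuation ring of a place. -/
theorem exists_place_of_mem (O : ValuationSubring F) (hK : ∀ a : K, algebraMap K F a ∈ O)
    (ht : t ∈ O) (hO : O ≠ ⊤) : ∃ v : Place K F, v.toValuationSubring = O := by
  let q : HeightOneSpectrum (intRing K t) :=
    ⟨centerVal O hK ht, inferInstance, centerVal_ne_bot O hK ht hO⟩
  refine ⟨placeOfPrime K t q, ?_⟩
  rw [placeOfPrime_toValuationSubring,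
    ← HeightOneSpectrum.valuationSubringAtPrime_eq_valuationSubring]
  refine ValuationSubring.eq_of_le_of_ne_top _ ?_ hO
  rintro x ⟨a, s, hs, rfl⟩
  have ha : (a : F) ∈ O := mem_of_mem_intRing_val O hK ht a.2
  have hs' : (s : F) ∉ O.nonunits := fun h =>
    hs ((mem_centerVal_iff O hK ht s).mpr h)
  have hsinv : (s : F)⁻¹ ∈ O := by
    by_contra hcon
    exact hs' ((ValuationSubring.mem_nonunits_iff_or _).mpr (Or.inr hcon))
  exact mul_mem ha hsinv

end withCoord

/-- **Every proper valuation subring of `F` containing `K` is a place.** -/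
theorem exists_place_of_valuationSubring [CharZero K] {x : F} (hx : Transcendental K x)
    [FiniteDimensional K⟮x⟯ F] (O : ValuationSubring F)
    (hK : ∀ a : K, algebraMap K F a ∈ O) (hO : O ≠ ⊤) :
    ∃ v : Place K F, v.toValuationSubring = O := by
  rcases O.mem_or_inv_mem x with h | h
  · have : IsCoord K x := ⟨hx, inferInstance⟩
    exact exists_place_of_mem O hK h hO
  · have : FiniteDimensional K⟮x⁻¹⟯ F := finiteDimensional_adjoin_inv x
    have : IsCoord K x⁻¹ := ⟨transcendental_inv hx, inferInstance⟩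
    exact exists_place_of_mem O hK h hO

/-- If `m` divides the order of `u` at every place, then `u` is, up to an `m`-th power, a unit of
every valuation subring of `F` containing `K`. -/
theorem exists_mul_pow_unit [CharZero K] {x : F} (hx : Transcendental K x)
    [FiniteDimensional K⟮x⟯ F] (m : ℕ) (u : F) (hu : u ≠ 0)
    (hdiv : ∀ v : Place K F, (m : ℤ) ∣ v.ord u) (O : ValuationSubring F)
    (hK : ∀ a : K, algebraMap K F a ∈ O) :
    ∃ t : F, t ≠ 0 ∧ u * t ^ m ∈ O ∧ (u * t ^ m)⁻¹ ∈ O := by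
  by_cases hO : O = ⊤
  · subst hO
    exact ⟨1, one_ne_zero, ValuationSubring.mem_top _, ValuationSubring.mem_top _⟩
  obtain ⟨v, rfl⟩ := exists_place_of_valuationSubring hx O hK hO
  obtain ⟨π, hπ, hπ1⟩ := exists_irreducible_coe v
  have hπ0 : (π : F) ≠ 0 := by
    intro h
    rw [h, v.ord_zero] at hπ1
    exact zero_ne_one hπ1
  obtain ⟨k, hk⟩ := hdiv v
  refine ⟨(π : F) ^ (-k), zpow_ne_zero _ hπ0, ?_, ?_⟩
  all_goals
    have hne : u * ((π : F) ^ (-k)) ^ m ≠ 0 :=
      mul_ne_zero hu (pow_ne_zero _ (zpow_ne_zero _ hπ0))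
    have hord : v.ord (u * ((π : F) ^ (-k)) ^ m) = 0 := by
      rw [v.ord_mul hu (pow_ne_zero _ (zpow_ne_zero _ hπ0)), ← zpow_natCast, ← zpow_mul,
        v.ord_zpow, hπ1, hk]
      ring
  · exact mem_of_ord_nonneg v hord.ge
  · apply mem_of_ord_nonneg v
    rw [v.ord_inv, hord]
    simp

end Fermat.Agent.S18.H804

end
-- ===== PACK-END S18/H804/ValPlace.lean

-- ===== PACK-BEGIN A2/H729/BaseChange.lean
section


/-!
# A2 (helper729): base change of charts and Gauss rings along a field extension `F₀ → F`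

`F₀ ⊆ F` fields over `R`, `x₀ ∈ F₀`, `x = algebraMap F₀ F x₀`.  The charts and the Gauss ring of
`F₀` map into those of `F`, congruences modulo `w O` are preserved, maximal ideals of the chart of
`F` contract to maximal ideals of the chart of `F₀`, and `F₀`-automorphisms of `F` preserve the
charts, the Gauss ring and congruences modulo `w O`.
-/

set_option autoImplicit false
set_option linter.unusedSectionVars false

namespace Fermat.Agent.A2.H729

open Polynomial Fermat.Agent.S18.H138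

variable {R : Type*} [CommRing R] {F₀ : Type*} [Field F₀] [Algebra R F₀]
  {F : Type*} [Field F] [Algebra R F] [Algebra F₀ F] [IsScalarTower R F₀ F]

/-- The restriction `R[S] → R[φ S]` of `F₀ → F`. -/
noncomputable def adjoinMap (S : Set F₀) :
    Algebra.adjoin R S →ₐ[R] Algebra.adjoin R ((algebraMap F₀ F) '' S) :=
  AlgHom.codRestrict ((IsScalarTower.toAlgHom R F₀ F).comp (Algebra.adjoin R S).val)
    (Algebra.adjoin R ((algebraMap F₀ F) '' S)) (fun a => by
      have h := AlgHom.map_adjoin (IsScalarTower.toAlgHom R F₀ F) S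
      have h2 : (IsScalarTower.toAlgHom R F₀ F) a ∈
          Subalgebra.map (IsScalarTower.toAlgHom R F₀ F) (Algebra.adjoin R S) :=
        Subalgebra.mem_map.2 ⟨a, a.2, rfl⟩
      rw [h] at h2
      exact h2)

theorem coe_adjoinMap (S : Set F₀) (a : Algebra.adjoin R S) :
    ((adjoinMap (F := F) S a : Algebra.adjoin R ((algebraMap F₀ F) '' S)) : F) =
      algebraMap F₀ F a := rfl

/-- Charts map to charts. -/
theorem algebraMap_mem_chart {S : Set F₀} {z : F₀} (hz : z ∈ chart R S) :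
    algebraMap F₀ F z ∈ chart R ((algebraMap F₀ F) '' S) := by
  rw [mem_chart] at hz ⊢
  exact IsIntegral.map_of_comp_eq (adjoinMap (F := F) S).toRingHom (algebraMap F₀ F)
    (by ext a; rfl) hz

theorem algebraMap_mem_chart_singleton {x₀ z : F₀} (hz : z ∈ chart R ({x₀} : Set F₀)) :
    algebraMap F₀ F z ∈ chart R ({algebraMap F₀ F x₀} : Set F) := by
  have := algebraMap_mem_chart (F := F) hz
  rwa [Set.image_singleton] at this

theorem algebraMap_mem_chart_inv {x₀ z : F₀} (hz : z ∈ chart R ({x₀⁻¹} : Set F₀)) :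
    algebraMap F₀ F z ∈ chart R ({(algebraMap F₀ F x₀)⁻¹} : Set F) := by
  have := algebraMap_mem_chart (F := F) hz
  rwa [Set.image_singleton, map_inv₀] at this

theorem IsGaussDenom.map {w : R} {x₀ s : F₀} (hs : IsGaussDenom w x₀ s) :
    IsGaussDenom w (algebraMap F₀ F x₀) (algebraMap F₀ F s) := by
  obtain ⟨Q, hQ, rfl⟩ := hs
  refine ⟨Q, hQ, ?_⟩
  rw [← aeval_algebraMap_apply]

/-- The Gauss ring maps to the Gauss ring. -/
theorem algebraMap_mem_gaussO {w : R} (hw : Prime w) {x₀ t : F₀} (ht : t ∈ gaussO hw x₀) :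
    algebraMap F₀ F t ∈ gaussO hw (algebraMap F₀ F x₀) := by
  obtain ⟨s, hs, hst⟩ := ht
  refine ⟨algebraMap F₀ F s, hs.map, ?_⟩
  rw [← map_mul]
  exact algebraMap_mem_chart_singleton hst

/-- Congruences modulo `w O` are preserved. -/
theorem InW.map {w : R} (hw : Prime w) {x₀ z : F₀} (hz : InW (gaussO hw x₀) w z) :
    InW (gaussO hw (algebraMap F₀ F x₀)) w (algebraMap F₀ F z) := by
  obtain ⟨t, ht, rfl⟩ := hz
  refine ⟨algebraMap F₀ F t, algebraMap_mem_gaussO hw ht, ?_⟩
  rw [map_mul, ← IsScalarTower.algebraMap_apply]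

section Auto

/-- `F₀`-automorphisms of `F` preserve the chart. -/
theorem algEquiv_mem_chart (σ : F ≃ₐ[F₀] F) {S : Set F}
    (hS : ∀ a ∈ S, σ a = a) {z : F} (hz : z ∈ chart R S) : σ z ∈ chart R S := by
  rw [mem_chart] at hz ⊢
  have hfix : ∀ a ∈ Algebra.adjoin R S, σ a = a := by
    intro a ha
    induction ha using Algebra.adjoin_induction with
    | mem y hy => exact hS y hy
    | algebraMap r =>
      rw [IsScalarTower.algebraMap_apply R F₀ F, AlgEquiv.commutes]
    | add y z _ _ hy hz => rw [map_add, hy, hz]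
    | mul y z _ _ hy hz => rw [map_mul, hy, hz]
  refine IsIntegral.map_of_comp_eq (RingHom.id _) (σ : F →+* F) ?_ hz
  ext a
  exact (hfix a a.2).symm

theorem algEquiv_mem_gaussO {w : R} (hw : Prime w) (σ : F ≃ₐ[F₀] F) {x₀ : F₀} {t : F}
    (ht : t ∈ gaussO hw (algebraMap F₀ F x₀)) : σ t ∈ gaussO hw (algebraMap F₀ F x₀) := by
  obtain ⟨s, ⟨Q, hQ, rfl⟩, hst⟩ := ht
  have hsx : σ (algebraMap F₀ F x₀) = algebraMap F₀ F x₀ := σ.commutes x₀
  have hs : σ (aeval (algebraMap F₀ F x₀) Q) = aeval (algebraMap F₀ F x₀) Q := by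
    rw [aeval_algebraMap_apply, σ.commutes]
  refine ⟨aeval (algebraMap F₀ F x₀) Q, ⟨Q, hQ, rfl⟩, ?_⟩
  have := algEquiv_mem_chart (R := R) σ
    (S := ({algebraMap F₀ F x₀} : Set F)) (fun a ha => by
      rw [Set.mem_singleton_iff] at ha; rw [ha, hsx]) hst
  rwa [map_mul, hs] at this

theorem InW.algEquiv {w : R} (hw : Prime w) (σ : F ≃ₐ[F₀] F) {x₀ : F₀} {z : F}
    (hz : InW (gaussO hw (algebraMap F₀ F x₀)) w z) :
    InW (gaussO hw (algebraMap F₀ F x₀)) w (σ z) := by
  obtain ⟨t, ht, rfl⟩ := hz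
  refine ⟨σ t, algEquiv_mem_gaussO hw σ ht, ?_⟩
  rw [map_mul, IsScalarTower.algebraMap_apply R F₀ F, σ.commutes]

end Auto

end Fermat.Agent.A2.H729

end
-- ===== PACK-END A2/H729/BaseChange.lean

-- ===== PACK-BEGIN A2/H729/Contract.lean
section


/-!
# A2 (helper729): contraction of closed points of the chart of `F` to the chart of `F₀`

`chartMap x₀ : chart_{F₀} {x₀} →+* chart_F {x}` is an integral ring homomorphism, so maximal ideals
contract to maximal ideals.
-/

set_option autoImplicit false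
set_option linter.unusedSectionVars false

namespace Fermat.Agent.A2.H729

open Polynomial Fermat.Agent.S18.H138

variable {R : Type*} [CommRing R] {F₀ : Type*} [Field F₀] [Algebra R F₀]
  {F : Type*} [Field F] [Algebra R F] [Algebra F₀ F] [IsScalarTower R F₀ F]

/-- `R[x₀] → R[x]`. -/
noncomputable def adjoinMapS (x₀ : F₀) :
    Algebra.adjoin R ({x₀} : Set F₀) →ₐ[R] Algebra.adjoin R ({algebraMap F₀ F x₀} : Set F) :=
  AlgHom.codRestrict ((IsScalarTower.toAlgHom R F₀ F).comp (Algebra.adjoin R ({x₀} : Set F₀)).val)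
    (Algebra.adjoin R ({algebraMap F₀ F x₀} : Set F)) (fun a => by
      have h := AlgHom.map_adjoin_singleton (IsScalarTower.toAlgHom R F₀ F) x₀
      have h2 : (IsScalarTower.toAlgHom R F₀ F) a ∈
          Subalgebra.map (IsScalarTower.toAlgHom R F₀ F) (Algebra.adjoin R ({x₀} : Set F₀)) :=
        Subalgebra.mem_map.2 ⟨a, a.2, rfl⟩
      rw [h] at h2
      exact h2)

theorem coe_adjoinMapS (x₀ : F₀) (a : Algebra.adjoin R ({x₀} : Set F₀)) :
    ((adjoinMapS (F := F) x₀ a : Algebra.adjoin R ({algebraMap F₀ F x₀} : Set F)) : F) =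
      algebraMap F₀ F a := rfl

theorem adjoinMapS_surjective (x₀ : F₀) :
    Function.Surjective (adjoinMapS (R := R) (F := F) x₀) := by
  rintro ⟨b, hb⟩
  have h := AlgHom.map_adjoin_singleton (IsScalarTower.toAlgHom R F₀ F) x₀
  have hb' : b ∈ Subalgebra.map (IsScalarTower.toAlgHom R F₀ F)
      (Algebra.adjoin R ({x₀} : Set F₀)) := by
    rw [h]; exact hb
  obtain ⟨a, ha, rfl⟩ := Subalgebra.mem_map.1 hb'
  exact ⟨⟨a, ha⟩, Subtype.ext rfl⟩

/-- `chart_{F₀} {x₀} → chart_F {x}`. -/
noncomputable def chartMap (x₀ : F₀) :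
    chart R ({x₀} : Set F₀) →+* chart R ({algebraMap F₀ F x₀} : Set F) where
  toFun z := ⟨algebraMap F₀ F z, algebraMap_mem_chart_singleton z.2⟩
  map_one' := Subtype.ext (map_one _)
  map_mul' _ _ := Subtype.ext (map_mul _ _ _)
  map_zero' := Subtype.ext (map_zero _)
  map_add' _ _ := Subtype.ext (map_add _ _ _)

theorem coe_chartMap (x₀ : F₀) (z : chart R ({x₀} : Set F₀)) :
    ((chartMap (F := F) x₀ z : chart R ({algebraMap F₀ F x₀} : Set F)) : F) =
      algebraMap F₀ F z := rfl

theorem chartMap_algebraMap (x₀ : F₀) (r : R) :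
    chartMap (R := R) (F := F) x₀ (algebraMap R (chart R ({x₀} : Set F₀)) r) =
      algebraMap R (chart R ({algebraMap F₀ F x₀} : Set F)) r := by
  apply Subtype.ext
  rw [coe_chartMap]
  exact (IsScalarTower.algebraMap_apply R F₀ F r).symm

theorem chartMap_isIntegral (x₀ : F₀) : (chartMap (R := R) (F := F) x₀).IsIntegral := by
  classical
  intro c
  obtain ⟨p, hpm, hp⟩ := (mem_chart.1 c.2 :
    IsIntegral (Algebra.adjoin R ({algebraMap F₀ F x₀} : Set F)) (c : F))
  have hlift : p ∈ lifts (adjoinMapS (R := R) (F := F) x₀).toRingHom := by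
    rw [lifts_iff_coeff_lifts]
    intro n
    exact adjoinMapS_surjective x₀ _
  obtain ⟨q, hq, -, hqm⟩ := lifts_and_degree_eq_and_monic hlift hpm
  -- inclusion `R[x₀] → chart`
  let incl : Algebra.adjoin R ({x₀} : Set F₀) →+* chart R ({x₀} : Set F₀) :=
    (Subalgebra.inclusion (adjoin_le_chart (R := R) ({x₀} : Set F₀))).toRingHom
  refine ⟨q.map incl, hqm.map incl, ?_⟩
  apply Subtype.ext
  have h1 : ((eval₂ (chartMap (R := R) (F := F) x₀) c (q.map incl) :
      chart R ({algebraMap F₀ F x₀} : Set F)) : F) =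
      eval₂ (((chart R ({algebraMap F₀ F x₀} : Set F)).val.toRingHom).comp
        (chartMap (R := R) (F := F) x₀)) (c : F) (q.map incl) :=
    hom_eval₂ (q.map incl) (chartMap (R := R) (F := F) x₀)
      ((chart R ({algebraMap F₀ F x₀} : Set F)).val.toRingHom) c
  rw [h1, eval₂_map]
  have h2 : ((((chart R ({algebraMap F₀ F x₀} : Set F)).val.toRingHom).comp
      (chartMap (R := R) (F := F) x₀)).comp incl) =
      (algebraMap (Algebra.adjoin R ({algebraMap F₀ F x₀} : Set F)) F).comp
        (adjoinMapS (R := R) (F := F) x₀).toRingHom := by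
    ext a
    rfl
  rw [h2, ← eval₂_map, hq]
  exact hp

/-- Maximal ideals of the chart of `F` contract to maximal ideals of the chart of `F₀`. -/
theorem isMaximal_comap_chartMap (x₀ : F₀)
    (𝔫 : Ideal (chart R ({algebraMap F₀ F x₀} : Set F))) [𝔫.IsMaximal] :
    (Ideal.comap (chartMap (R := R) (F := F) x₀) 𝔫).IsMaximal :=
  Ideal.isMaximal_comap_of_isIntegral_of_isMaximal' _ (chartMap_isIntegral x₀) 𝔫

end Fermat.Agent.A2.H729

end
-- ===== PACK-END A2/H729/Contract.lean

-- ===== PACK-BEGIN A2/IF/H429/Inertia.lean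
section





/-!
# A2 / IF (helper429): the inertia group of a valuation subring of `ℚ̄` and its fixed field

`P` a valuation subring of `ℚ̄` over a prime number `q`, `I = P.inertiaSubgroupIn ℚ`,
`E_I = ℚ̄^I` the inertia field.

* `valuation_map_eq`          : elements of the decomposition group preserve the valuation of `P`;
* `exists_inertia_apply_eq`   : an automorphism fixing `E_I` pointwise agrees, on each element of
                                `ℚ̄`, with some element of `I`;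
* `exists_zpow_of_mem_inertiaField` : every nonzero element of `E_I` is a unit times a power of
                                `q` (the inertia field is unramified).
-/

set_option autoImplicit false
set_option linter.style.haveILetI false
set_option linter.unusedSectionVars false

open scoped Pointwise
open NumberField IsDedekindDomain

namespace Fermat.Agent.A2.IF.H429

open Fermat.Agent.S55.Bridge Fermat.Agent.S55.Bridge.H594

attribute [local instance] isAlgebraic_Qbar isGalois_Qbar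

/-- `ℚ̄` (local abbreviation). -/
local notation "Qb" => AlgebraicClosure ℚ

variable (P : ValuationSubring Qb)

/-! ## Decomposition and inertia elements -/

theorem mem_of_mem_decomp {σ : Qb ≃ₐ[ℚ] Qb} (hσ : σ ∈ P.decompositionSubgroup ℚ) {x : Qb}
    (hx : x ∈ P) : σ x ∈ P :=
  ((mem_decompositionSubgroup_iff_forall P σ).mp hσ x).mpr hx

theorem mem_nonunits_of_mem_decomp {σ : Qb ≃ₐ[ℚ] Qb} (hσ : σ ∈ P.decompositionSubgroup ℚ)
    {x : Qb} (hx : x ∈ P.nonunits) : σ x ∈ P.nonunits := by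
  rw [ValuationSubring.mem_nonunits_iff_or] at hx ⊢
  rcases hx with rfl | hx
  · left; simp
  · right
    intro h
    apply hx
    rw [← map_inv₀] at h
    exact ((mem_decompositionSubgroup_iff_forall P σ).mp hσ _).mp h

theorem decomp_of_inertia {σ : Qb ≃ₐ[ℚ] Qb} (hσ : σ ∈ P.inertiaSubgroupIn ℚ) :
    σ ∈ P.decompositionSubgroup ℚ :=
  ((mem_inertiaSubgroupIn_iff_forall P σ).mp hσ).1

theorem sub_mem_nonunits_of_inertia {σ : Qb ≃ₐ[ℚ] Qb} (hσ : σ ∈ P.inertiaSubgroupIn ℚ)
    {x : Qb} (hx : x ∈ P) : σ x - x ∈ P.nonunits :=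
  ((mem_inertiaSubgroupIn_iff_forall P σ).mp hσ).2 x hx

/-- Elements of the decomposition group are strictly monotone for the valuation. -/
theorem valuation_map_lt {σ : Qb ≃ₐ[ℚ] Qb} (hσ : σ ∈ P.decompositionSubgroup ℚ) {a b : Qb}
    (h : P.valuation a < P.valuation b) : P.valuation (σ a) < P.valuation (σ b) := by
  have hb : b ≠ 0 := by
    rintro rfl
    simp at h
  have hbv : P.valuation b ≠ 0 := (Valuation.ne_zero_iff _).mpr hb
  have hσb : σ b ≠ 0 := by simpa using hb
  have hσbv : P.valuation (σ b) ≠ 0 := (Valuation.ne_zero_iff _).mpr hσb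
  have h1 : a / b ∈ P.nonunits := by
    rw [ValuationSubring.mem_nonunits_iff, map_div₀]
    exact (div_lt_one₀ (zero_lt_iff.mpr hbv)).mpr h
  have h2 := mem_nonunits_of_mem_decomp P hσ h1
  rw [ValuationSubring.mem_nonunits_iff, map_div₀, map_div₀] at h2
  exact (div_lt_one₀ (zero_lt_iff.mpr hσbv)).mp h2

theorem valuation_iterate_lt {σ : Qb ≃ₐ[ℚ] Qb} (hσ : σ ∈ P.decompositionSubgroup ℚ) {x : Qb}
    (h : P.valuation (σ x) < P.valuation x) (k : ℕ) :
    P.valuation ((σ ^ (k + 1)) x) < P.valuation x := by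
  induction k with
  | zero => simpa using h
  | succ k ih =>
    have h1 := valuation_map_lt P hσ ih
    have h2 : (σ ^ (k + 1 + 1)) x = σ ((σ ^ (k + 1)) x) := by
      rw [pow_succ' σ (k + 1)]; rfl
    rw [h2]
    exact h1.trans h

theorem valuation_iterate_gt {σ : Qb ≃ₐ[ℚ] Qb} (hσ : σ ∈ P.decompositionSubgroup ℚ) {x : Qb}
    (h : P.valuation x < P.valuation (σ x)) (k : ℕ) :
    P.valuation x < P.valuation ((σ ^ (k + 1)) x) := by
  induction k with
  | zero => simpa using h
  | succ k ih =>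
    have h1 := valuation_map_lt P hσ ih
    have h2 : (σ ^ (k + 1 + 1)) x = σ ((σ ^ (k + 1)) x) := by
      rw [pow_succ' σ (k + 1)]; rfl
    rw [h2]
    exact h.trans h1

/-- Every element of `ℚ̄` is fixed by a positive power of any automorphism. -/
theorem exists_pow_apply_eq (σ : Qb ≃ₐ[ℚ] Qb) (x : Qb) : ∃ k : ℕ, (σ ^ (k + 1)) x = x := by
  have hx : IsIntegral ℚ x := Algebra.IsIntegral.isIntegral x
  have hfin : ((minpoly ℚ x).rootSet Qb).Finite := Polynomial.rootSet_finite _ _
  have hmem : ∀ i : ℕ, (σ ^ i) x ∈ (minpoly ℚ x).rootSet Qb := by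
    intro i
    rw [Polynomial.mem_rootSet]
    refine ⟨minpoly.ne_zero hx, ?_⟩
    have := Polynomial.aeval_algHom_apply ((σ ^ i : Qb ≃ₐ[ℚ] Qb) : Qb →ₐ[ℚ] Qb) x (minpoly ℚ x)
    rw [minpoly.aeval, map_zero] at this
    exact this
  haveI : Finite ((minpoly ℚ x).rootSet Qb) := hfin
  obtain ⟨i, j, hij, h⟩ := Finite.exists_ne_map_eq_of_infinite
    (fun i : ℕ => (⟨(σ ^ i) x, hmem i⟩ : (minpoly ℚ x).rootSet Qb))
  have h' : (σ ^ i) x = (σ ^ j) x := congrArg Subtype.val h
  wlog hlt : i < j generalizing i j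
  · exact this j i hij.symm h.symm h'.symm (lt_of_le_of_ne (not_lt.mp hlt) hij.symm)
  obtain ⟨k, rfl⟩ : ∃ k, j = i + (k + 1) := ⟨j - i - 1, by omega⟩
  refine ⟨k, ?_⟩
  have h3 : (σ ^ (i + (k + 1))) x = (σ ^ i) ((σ ^ (k + 1)) x) := by
    rw [pow_add]; rfl
  rw [h3] at h'
  exact ((σ ^ i).injective h').symm

/-- Elements of the decomposition group preserve the valuation. -/
theorem valuation_map_eq {σ : Qb ≃ₐ[ℚ] Qb} (hσ : σ ∈ P.decompositionSubgroup ℚ) (x : Qb) :
    P.valuation (σ x) = P.valuation x := by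
  obtain ⟨k, hk⟩ := exists_pow_apply_eq σ x
  rcases lt_trichotomy (P.valuation (σ x)) (P.valuation x) with h | h | h
  · have := valuation_iterate_lt P hσ h k
    rw [hk] at this
    exact absurd this (lt_irrefl _)
  · exact h
  · have := valuation_iterate_gt P hσ h k
    rw [hk] at this
    exact absurd this (lt_irrefl _)

/-- Every finite set of algebraic numbers lies in a finite Galois extension of `ℚ` in `ℚ̄`. -/
theorem exists_finite_galois (S : Finset Qb) :
    ∃ M : IntermediateField ℚ Qb, (∀ s ∈ S, s ∈ M) ∧ FiniteDimensional ℚ M ∧ IsGalois ℚ M := by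
  let M₀ : IntermediateField ℚ Qb := IntermediateField.adjoin ℚ (S : Set Qb)
  haveI : FiniteDimensional ℚ M₀ :=
    IntermediateField.finiteDimensional_adjoin (fun x _ => Algebra.IsIntegral.isIntegral x)
  let M : IntermediateField ℚ Qb := IntermediateField.normalClosure ℚ M₀ Qb
  refine ⟨M, fun s hs => ?_, inferInstance, ?_⟩
  · have h1 : M₀ ≤ M := IntermediateField.le_normalClosure M₀
    exact h1 (IntermediateField.subset_adjoin ℚ _ hs)
  · haveI : Normal ℚ Qb := IsGalois.to_normal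
    haveI : Normal ℚ M := normalClosure.normal ℚ M₀ Qb
    exact ⟨⟩

/-- The inertia field of `P`. -/
noncomputable def inertiaField : IntermediateField ℚ Qb :=
  IntermediateField.fixedField (P.inertiaSubgroupIn ℚ)

theorem mem_inertiaField_iff {x : Qb} :
    x ∈ inertiaField P ↔ ∀ τ ∈ P.inertiaSubgroupIn ℚ, τ x = x := by
  unfold inertiaField
  rw [IntermediateField.mem_fixedField_iff]

/-- **Lemma A.**  An automorphism fixing the inertia field pointwise agrees, on each element,
with some element of the inertia group. -/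
theorem exists_inertia_apply_eq (σ : Qb ≃ₐ[ℚ] Qb) (hσ : ∀ e ∈ inertiaField P, σ e = e)
    (x : Qb) : ∃ τ ∈ P.inertiaSubgroupIn ℚ, σ x = τ x := by
  obtain ⟨M, hxM, hfin, hgal⟩ := exists_finite_galois {x}
  have hx : x ∈ M := hxM x (Finset.mem_singleton_self x)
  let H : Subgroup (M ≃ₐ[ℚ] M) := (P.inertiaSubgroupIn ℚ).map (AlgEquiv.restrictNormalHom M)
  have hmem : AlgEquiv.restrictNormalHom M σ ∈ H := by
    rw [← IntermediateField.fixingSubgroup_fixedField H]
    rw [IntermediateField.mem_fixingSubgroup_iff]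
    intro y hy
    apply Subtype.ext
    rw [restrictNormalHom_apply]
    apply hσ
    rw [mem_inertiaField_iff]
    intro τ hτ
    rw [IntermediateField.mem_fixedField_iff] at hy
    have h1 := hy (AlgEquiv.restrictNormalHom M τ) ⟨τ, hτ, rfl⟩
    rw [← restrictNormalHom_apply M τ y, h1]
  obtain ⟨τ, hτ, hτσ⟩ := hmem
  refine ⟨τ, hτ, ?_⟩
  have h1 := restrictNormalHom_apply M σ ⟨x, hx⟩
  have h2 := restrictNormalHom_apply M τ ⟨x, hx⟩
  rw [← hτσ] at h1
  exact h1.symm.trans h2


/-- **The inertia field is unramified**: every nonzero element of the inertia field is a unit of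
`P` times a power of `q`. -/
theorem exists_zpow_of_mem_inertiaField (q : ℕ) (hq : q.Prime) (hP : P.LiesOverPrime q)
    (y : Qb) (hy : y ∈ inertiaField P) (hy0 : y ≠ 0) :
    ∃ k : ℤ, P.valuation (y / (q : Qb) ^ k) = 1 := by
  obtain ⟨M, hyM, hfin, hgal⟩ := exists_finite_galois {y}
  have hyM' : y ∈ M := hyM y (Finset.mem_singleton_self y)
  haveI : NumberField M := numberField_of_finite M
  have hne : Fermat.Agent.S14.H937.primeOf M P ≠ ⊥ :=
    Fermat.Agent.S14.H937.primeOf_ne_bot M P q hq hP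
  let w : HeightOneSpectrum (𝓞 M) := ⟨Fermat.Agent.S14.H937.primeOf M P, inferInstance, hne⟩
  have hw : w.asIdeal = Fermat.Agent.S14.H937.primeOf M P := rfl
  have hqw : (q : 𝓞 M) ∈ w.asIdeal := Fermat.Agent.S14.H937.natCast_mem_primeOf M P q hP
  have hfix : ∀ τ ∈ w.asIdeal.inertia Gal(M/ℚ), τ (⟨y, hyM'⟩ : M) = ⟨y, hyM'⟩ := by
    intro τ hτ
    obtain ⟨σ, hσ, hστ⟩ := exists_inertia_lift M P hq hP τ (fun x hx => by
      obtain ⟨x', rfl⟩ : ∃ x' : 𝓞 M, algebraMap (𝓞 M) M x' = x := ⟨⟨x, hx⟩, rfl⟩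
      have h2 : τ • x' - x' ∈ Fermat.Agent.S14.H937.primeOf M P := hτ x'
      exact (Fermat.Agent.S14.H937.mem_primeOf M P _).mp h2)
    apply Subtype.ext
    rw [← hστ, restrictNormalHom_apply]
    exact (mem_inertiaField_iff P).mp hy σ hσ
  obtain ⟨k, hk⟩ := exists_zpow_valuation_eq_one_of_fixed M w q hq hqw ⟨y, hyM'⟩
    (fun h => hy0 (congrArg Subtype.val h)) hfix
  refine ⟨k, ?_⟩
  have h1 := Fermat.Agent.S14.H937.valuation_eq_one_of M P w hw _ hk
  rw [map_div₀, map_zpow₀, map_natCast] at h1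
  exact h1


end Fermat.Agent.A2.IF.H429

end
-- ===== PACK-END A2/IF/H429/Inertia.lean

-- ===== PACK-BEGIN A2/IF/H429/Local.lean
section


/-!
# A2 / IF (helper429): local lemmas for a valuation subring `P` of `ℚ̄` over `q`

* `root_unique_of_derivative_notMem` : a root of `f` is determined by its residue class when the
  derivative is a unit there;
* `exists_root_sub_mem_nonunits` : if `f(a) ≡ 0`, some root of the monic `f` is `≡ a`;
* `exists_pow_sub_mem_nonunits` : the residue field of `P` is algebraic over `𝔽_q`, in the form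
  `a ^ N ≡ a` for some `N` divisible by `q`;
* `exists_teichmuller` : every element of `P` is congruent to an element of the inertia field
  (a root of `X ^ N - X`).
-/

set_option autoImplicit false
set_option linter.style.haveILetI false
set_option linter.unusedSectionVars false

open scoped Pointwise
open Polynomial

namespace Fermat.Agent.A2.IF.H429

open Fermat.Agent.S55.Bridge Fermat.Agent.S55.Bridge.H594

attribute [local instance] isAlgebraic_Qbar isGalois_Qbar

local notation "Qb" => AlgebraicClosure ℚ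

/-- A root of `f` is determined by its class modulo `m` if `f'` is not in `m` there. -/
theorem root_unique_of_derivative_notMem {A : Type*} [CommRing A] [IsDomain A] (m : Ideal A)
    (f : A[X]) (a₀ α β : A) (hα : f.IsRoot α) (hβ : f.IsRoot β)
    (hd : f.derivative.eval a₀ ∉ m) (hαa : α - a₀ ∈ m) (hβa : β - a₀ ∈ m) : α = β := by
  by_contra hne
  obtain ⟨g, hg⟩ : ∃ g, f = (X - C α) * g := Polynomial.dvd_iff_isRoot.mpr hα
  have hgβ : g.eval β = 0 := by
    have h1 : f.eval β = 0 := hβ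
    rw [hg, eval_mul, eval_sub, eval_X, eval_C] at h1
    rcases mul_eq_zero.mp h1 with h | h
    · exact absurd (sub_eq_zero.mp h).symm hne
    · exact h
  apply hd
  have h2 : f.derivative.eval a₀ = g.eval a₀ + (a₀ - α) * g.derivative.eval a₀ := by
    rw [hg, derivative_mul, derivative_sub, derivative_X, derivative_C]
    simp
  rw [h2]
  apply m.add_mem
  · have h3 : a₀ - β ∣ g.eval a₀ - g.eval β := sub_dvd_eval_sub a₀ β g
    rw [hgβ, sub_zero] at h3
    obtain ⟨c, hc⟩ := h3
    rw [hc]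
    apply m.mul_mem_right
    have : a₀ - β = -(β - a₀) := by ring
    rw [this]
    exact m.neg_mem hβa
  · apply m.mul_mem_right
    have : a₀ - α = -(α - a₀) := by ring
    rw [this]
    exact m.neg_mem hαa

variable (P : ValuationSubring Qb)

/-- Roots of monic polynomials over `P` lie in `P`. -/
theorem mem_of_isRoot_map (g : (P : Type)[X]) (hg : g.Monic) (r : Qb)
    (hr : (g.map P.subtype).IsRoot r) : r ∈ P := by
  have hint : IsIntegral P r := by
    refine ⟨g, hg, ?_⟩
    have h1 : (g.map P.subtype).eval r = 0 := hr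
    rw [eval_map] at h1
    exact h1
  obtain ⟨y, hy⟩ := IsIntegrallyClosed.isIntegral_iff.mp hint
  rw [← hy]
  exact y.2

/-- If `f(a)` is a non-unit, then `a` is congruent to a root of the monic polynomial `f`. -/
theorem exists_root_sub_mem_nonunits (f : Qb[X]) (hf : f.Monic)
    (hroots : ∀ r ∈ f.roots, r ∈ P) (a : Qb) (ha : a ∈ P) (h : f.eval a ∈ P.nonunits) :
    ∃ r ∈ f.roots, a - r ∈ P.nonunits := by
  by_contra hcon
  have h1 : ∀ r ∈ f.roots, P.valuation (a - r) = 1 := by
    intro r hr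
    have h2 : a - r ∉ P.nonunits := fun h' => hcon ⟨r, hr, h'⟩
    rw [ValuationSubring.mem_nonunits_iff, not_lt] at h2
    exact le_antisymm ((P.valuation_le_one_iff _).mpr (sub_mem ha (hroots r hr))) h2
  have h3 : P.valuation (f.eval a) = 1 := by
    rw [(IsAlgClosed.splits f).eval_eq_prod_roots_of_monic hf a, map_multiset_prod,
      Multiset.map_map]
    apply Multiset.prod_eq_one
    intro x hx
    obtain ⟨r, hr, rfl⟩ := Multiset.mem_map.mp hx
    exact h1 r hr
  rw [ValuationSubring.mem_nonunits_iff, h3] at h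
  exact lt_irrefl _ h

/-- Every algebraic number is a root of a primitive integer polynomial. -/
theorem exists_primitive_aeval_eq_zero (a : Qb) :
    ∃ h : ℤ[X], h.IsPrimitive ∧ aeval a h = 0 := by
  have h1 : IsAlgebraic ℚ a := Algebra.IsAlgebraic.isAlgebraic a
  have h2 : IsAlgebraic ℤ a := (IsFractionRing.isAlgebraic_iff ℤ ℚ Qb).mpr h1
  obtain ⟨h, hh0, hha⟩ := h2
  refine ⟨h.primPart, h.isPrimitive_primPart, ?_⟩
  have h3 := h.eq_C_content_mul_primPart
  rw [h3, map_mul, aeval_C] at hha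
  rcases mul_eq_zero.mp hha with h4 | h4
  · exfalso
    have h5 : h.content ≠ 0 := by
      rw [Ne, content_eq_zero_iff]; exact hh0
    rw [eq_intCast, Int.cast_eq_zero] at h4
    exact h5 h4
  · exact h4

/-- The residue field of `P` is algebraic over `𝔽_q`, elementary form. -/
theorem exists_pow_sub_mem_nonunits (q : ℕ) (hq : q.Prime) (hP : P.LiesOverPrime q)
    (a : Qb) (ha : a ∈ P) : ∃ N : ℕ, q ∣ N ∧ 0 < N ∧ a ^ N - a ∈ P.nonunits := by
  classical
  haveI : Fact q.Prime := ⟨hq⟩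
  let k := IsLocalRing.ResidueField P
  have hqk : ((q : ℕ) : k) = 0 := by
    have h1 : ((q : ℕ) : k) = IsLocalRing.residue P ((q : ℕ) : P) := by
      rw [map_natCast]
    rw [h1, IsLocalRing.residue_eq_zero_iff, ← ValuationSubring.coe_mem_nonunits_iff]
    have h2 : (((q : ℕ) : P) : Qb) = (q : Qb) := by simp
    rw [h2]
    exact hP
  haveI : CharP k q := (CharP.charP_iff_prime_eq_zero hq).mpr hqk
  letI : Algebra (ZMod q) k := ZMod.algebra k q
  let a' : P := ⟨a, ha⟩
  let ā : k := IsLocalRing.residue P a'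
  have halg : IsAlgebraic (ZMod q) ā := by
    obtain ⟨h, hprim, hha⟩ := exists_primitive_aeval_eq_zero a
    refine ⟨h.map (Int.castRingHom (ZMod q)), ?_, ?_⟩
    · intro h0
      have hdvd : C (q : ℤ) ∣ h := by
        rw [C_dvd_iff_dvd_coeff]
        intro i
        have := congrArg (fun p => coeff p i) h0
        simp only [coeff_map, eq_intCast, coeff_zero] at this
        exact (ZMod.intCast_zmod_eq_zero_iff_dvd _ q).mp this
      have hu := hprim (q : ℤ) hdvd
      rw [Int.isUnit_iff] at hu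
      rcases hu with hu | hu
      · have : q = 1 := by exact_mod_cast hu
        exact hq.one_lt.ne' this
      · have : (0 : ℤ) ≤ (q : ℤ) := Int.natCast_nonneg q
        omega
    · rw [aeval_def, eval₂_map]
      have hcomp : (algebraMap (ZMod q) k).comp (Int.castRingHom (ZMod q)) =
          (IsLocalRing.residue P).comp (Int.castRingHom P) := RingHom.ext_int _ _
      rw [hcomp, ← hom_eval₂]
      have hz : eval₂ (Int.castRingHom P) a' h = 0 := by
        apply Subtype.ext
        have h1 := hom_eval₂ h (Int.castRingHom P) P.subtype a'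
        have h2 : P.subtype.comp (Int.castRingHom P) = algebraMap ℤ Qb := RingHom.ext_int _ _
        rw [h2] at h1
        have h3 : eval₂ (algebraMap ℤ Qb) (P.subtype a') h = 0 := hha
        rw [h3] at h1
        exact h1
      rw [hz, map_zero]
  let F : IntermediateField (ZMod q) k := IntermediateField.adjoin (ZMod q) {ā}
  haveI : FiniteDimensional (ZMod q) F :=
    IntermediateField.adjoin.finiteDimensional halg.isIntegral
  haveI : Finite F := Module.finite_of_finite (ZMod q)
  haveI : Fintype F := Fintype.ofFinite F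
  let x : F := ⟨ā, IntermediateField.mem_adjoin_simple_self (ZMod q) ā⟩
  have hx : x ^ Fintype.card F = x := FiniteField.pow_card x
  have hN0 : ((Fintype.card F : ℕ) : F) = 0 := FiniteField.cast_card_eq_zero F
  haveI : CharP F q := (RingHom.charP_iff (algebraMap F k) (algebraMap F k).injective q).mpr
    inferInstance
  refine ⟨Fintype.card F, (CharP.cast_eq_zero_iff F q _).mp hN0, Fintype.card_pos, ?_⟩
  have h1 : ā ^ Fintype.card F = ā := by
    have := congrArg (fun y : F => (y : k)) hx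
    simpa using this
  have h2 : IsLocalRing.residue P (a' ^ Fintype.card F - a') = 0 := by
    rw [map_sub, map_pow]
    exact sub_eq_zero.mpr h1
  rw [IsLocalRing.residue_eq_zero_iff, ← ValuationSubring.coe_mem_nonunits_iff] at h2
  simpa using h2


theorem natCast_mem_maximalIdeal_of_dvd (q : ℕ) (hP : P.LiesOverPrime q) (N : ℕ) (hqN : q ∣ N) :
    ((N : ℕ) : P) ∈ IsLocalRing.maximalIdeal P := by
  obtain ⟨c, rfl⟩ := hqN
  rw [Nat.cast_mul]
  apply Ideal.mul_mem_right
  rw [← ValuationSubring.coe_mem_nonunits_iff]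
  have h2 : (((q : ℕ) : P) : Qb) = (q : Qb) := by simp
  rw [h2]
  exact hP

/-- **Teichmüller lifts.**  Every element of `P` is congruent modulo the maximal ideal to an
element of the inertia field lying in `P`. -/
theorem exists_teichmuller (q : ℕ) (hq : q.Prime) (hP : P.LiesOverPrime q) (a : Qb)
    (ha : a ∈ P) : ∃ z : Qb, z ∈ P ∧ z ∈ inertiaField P ∧ a - z ∈ P.nonunits := by
  obtain ⟨N, hqN, hN0, haN⟩ := exists_pow_sub_mem_nonunits P q hq hP a ha
  have hN2 : 2 ≤ N := le_trans hq.two_le (Nat.le_of_dvd hN0 hqN)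
  let g : (P : Type)[X] := X ^ N - X
  have hg : g.Monic := by
    apply monic_X_pow_sub
    rw [degree_X]
    exact_mod_cast hN2
  have hgmap : g.map P.subtype = X ^ N - X := by
    simp [g]
  have hroots : ∀ r ∈ (g.map P.subtype).roots, r ∈ P := fun r hr =>
    mem_of_isRoot_map P g hg r (isRoot_of_mem_roots hr)
  have heval : (g.map P.subtype).eval a ∈ P.nonunits := by
    rw [hgmap]
    simpa using haN
  obtain ⟨z, hz, hza⟩ := exists_root_sub_mem_nonunits P _ (hg.map _) hroots a ha heval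
  have hzP : z ∈ P := hroots z hz
  have hzN : z ^ N = z := by
    have h1 : (g.map P.subtype).eval z = 0 := isRoot_of_mem_roots hz
    rw [hgmap] at h1
    simp only [eval_sub, eval_pow, eval_X] at h1
    exact sub_eq_zero.mp h1
  refine ⟨z, hzP, ?_, hza⟩
  rw [mem_inertiaField_iff]
  intro τ hτ
  have hτzP : τ z ∈ P := mem_of_mem_decomp P (decomp_of_inertia P hτ) hzP
  have hτzN : (τ z) ^ N = τ z := by rw [← map_pow, hzN]
  have key := root_unique_of_derivative_notMem (IsLocalRing.maximalIdeal P) g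
    (⟨z, hzP⟩ : P) ⟨z, hzP⟩ ⟨τ z, hτzP⟩ ?_ ?_ ?_ ?_ ?_
  · exact (congrArg Subtype.val key).symm
  · show g.eval _ = 0
    simp only [g, eval_sub, eval_pow, eval_X]
    apply Subtype.ext
    simpa using sub_eq_zero.mpr hzN
  · show g.eval _ = 0
    simp only [g, eval_sub, eval_pow, eval_X]
    apply Subtype.ext
    simpa using sub_eq_zero.mpr hτzN
  · intro hmem
    have hN := natCast_mem_maximalIdeal_of_dvd P q hP N hqN
    have h1 : g.derivative.eval (⟨z, hzP⟩ : P) =
        (N : P) * (⟨z, hzP⟩ : P) ^ (N - 1) - 1 := by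
      simp [g, derivative_X_pow]
    rw [h1] at hmem
    have h2 : (1 : P) ∈ IsLocalRing.maximalIdeal P := by
      have := Ideal.sub_mem _ (Ideal.mul_mem_right ((⟨z, hzP⟩ : P) ^ (N - 1)) _ hN) hmem
      simpa using this
    exact (Ideal.ne_top_iff_one _).mp (IsLocalRing.maximalIdeal.isMaximal P).ne_top h2
  · simp
  · rw [← ValuationSubring.coe_mem_nonunits_iff]
    exact sub_mem_nonunits_of_inertia P hτ hzP


end Fermat.Agent.A2.IF.H429

end
-- ===== PACK-END A2/IF/H429/Local.lean

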