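import Mathlib
import Mathlib.RingTheory.Ideal.AssociatedPrime.Localization
import Mathlib.RingTheory.Ideal.GoingUp
import Fermat.Agent.Pack.S34.G0E7L1
import Fermat.Agent.Pack.S34.G0E1L1
import Fermat.Agent.Pack.S34.G0E9L3
import Fermat.Agent.Pack.S34.G0E9L0
import Fermat.Agent.Pack.S34.G0E5L2
import Fermat.Agent.Pack.S34.G0E5L1
import Fermat.Agent.Pack.S34.G0E5L3
import Fermat.Agent.Pack.S34.G0E5L0
import Fermat.Agent.Pack.S34.G0E8L0
import Fermat.Agent.Pack.S34.G0E8L2
import Fermat.Agent.Pack.S34.G0E7L2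
import Fermat.Agent.Pack.S34.G0E4L1
import Fermat.Agent.Pack.S34.G0E1L2
import Fermat.Agent.Pack.S34.G0E9L2
import Fermat.Agent.Pack.S34.G0E2L3
import Fermat.Agent.Pack.S34.G0E4L2
import Fermat.Agent.Pack.S34.G0E9L1

-- ===== PACK-BEGIN S29/H812/FundId.lean
section




/-!
# S29 / H812 — the fundamental identity `∑_{w | v} e(w | v) = [F' : F]` for a finite extension of
function fields of one variable over an algebraically closed field of characteristic zero.
-/

set_option autoImplicit false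

noncomputable section

open AlgebraicCurve IntermediateField

namespace Fermat.Agent.S29.H812

open Fermat.Agent.S24

variable {K F F' : Type*} [Field K] [Field F] [Field F']
  [Algebra K F] [Algebra K F'] [Algebra F F'] [IsScalarTower K F F']
  [Algebra.IsIntegral F F'] [HasPrincipalDivisors K F']

/-- The index set of the adapted family of the fibre over `v`. -/
abbrev FibIdx (F' : Type*) [Field F'] [Algebra K F'] [Algebra F F'] [IsScalarTower K F F']
    [Algebra.IsIntegral F F'] [HasPrincipalDivisors K F'] (v : Place K F) : Type _ :=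
  Σ w : {w : Place K F' // w ∈ v.fiber F'}, Fin (w.1.ramificationIndex F)

theorem card_fibIdx (v : Place K F) :
    Fintype.card (FibIdx F' v) = ∑ w ∈ v.fiber F', w.ramificationIndex F := by
  classical
  rw [Fintype.card_sigma]
  simp only [Fintype.card_fin]
  exact Finset.sum_coe_sort (v.fiber F') (fun w => w.ramificationIndex F)

theorem fibIdx_ext (v : Place K F) (a b : FibIdx F' v) (h1 : a.1.1 = b.1.1)
    (h2 : (a.2 : ℕ) = (b.2 : ℕ)) : a = b := by
  obtain ⟨⟨w, hw⟩, i⟩ := a
  obtain ⟨⟨w', hw'⟩, i'⟩ := b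
  simp only at h1
  subst h1
  simp only at h2
  have : i = i' := Fin.ext h2
  subst this
  rfl

/-- An adapted family for the fibre over `v`. -/
theorem exists_family (v : Place K F) :
    ∃ u : FibIdx F' v → F', (∀ a, u a ≠ 0) ∧ (∀ a : FibIdx F' v, a.1.1.ord (u a) = (a.2 : ℕ)) ∧
      (∀ a b : FibIdx F' v, b.1.1 ≠ a.1.1 →
        ((b.1.1.ramificationIndex F : ℕ) : ℤ) ≤ b.1.1.ord (u a)) := by
  classical
  set B : ℕ := ∑ w ∈ v.fiber F', w.ramificationIndex F with hB
  have h : ∀ a : FibIdx F' v, ∃ u : F', u ≠ 0 ∧ a.1.1.ord u = (a.2 : ℕ) ∧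
      ∀ w' ∈ (v.fiber F').erase a.1.1, (B : ℤ) ≤ w'.ord u := fun a =>
    exists_ord_eq_and_ge a.1.1 ((v.fiber F').erase a.1.1) (Finset.notMem_erase _ _) a.2 B
  choose u hu0 hu1 hu2 using h
  refine ⟨u, hu0, hu1, ?_⟩
  intro a b hne
  have hmem : b.1.1 ∈ (v.fiber F').erase a.1.1 := Finset.mem_erase.mpr ⟨hne, b.1.2⟩
  have h1 := hu2 a b.1.1 hmem
  have h2 : b.1.1.ramificationIndex F ≤ B :=
    Finset.single_le_sum (f := fun w : Place K F' => w.ramificationIndex F)
      (fun _ _ => Nat.zero_le _) b.1.2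
  have h3 : ((b.1.1.ramificationIndex F : ℕ) : ℤ) ≤ (B : ℤ) := by exact_mod_cast h2
  linarith

/-- The coordinate lemma for an adapted family. -/
theorem family_coord (v : Place K F) (u : FibIdx F' v → F') (hu0 : ∀ a, u a ≠ 0)
    (hu1 : ∀ a : FibIdx F' v, a.1.1.ord (u a) = (a.2 : ℕ))
    (hu2 : ∀ a b : FibIdx F' v, b.1.1 ≠ a.1.1 →
        ((b.1.1.ramificationIndex F : ℕ) : ℤ) ≤ b.1.1.ord (u a))
    (c : FibIdx F' v → F) (hc : ∃ a, c a ≠ 0) :
    ∃ a₀, c a₀ ≠ 0 ∧ (∀ a, c a ≠ 0 → v.ord (c a₀) ≤ v.ord (c a)) ∧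
      (∑ a, c a • u a) ≠ 0 ∧
      a₀.1.1.ord (∑ a, c a • u a)
        = (a₀.1.1.ramificationIndex F : ℤ) * v.ord (c a₀) + ((a₀.2 : ℕ) : ℤ) :=
  coord_lemma v (fun a : FibIdx F' v => a.1.1) (fun a => (a.2 : ℕ)) u
    (fun a => Place.mem_fiber.mp a.1.2) (fun a => a.2.2) hu0 hu1 hu2
    (fun a b h1 h2 => fibIdx_ext v a b h1 h2) c hc

theorem family_linearIndependent (v : Place K F) (u : FibIdx F' v → F') (hu0 : ∀ a, u a ≠ 0)
    (hu1 : ∀ a : FibIdx F' v, a.1.1.ord (u a) = (a.2 : ℕ))
    (hu2 : ∀ a b : FibIdx F' v, b.1.1 ≠ a.1.1 →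
        ((b.1.1.ramificationIndex F : ℕ) : ℤ) ≤ b.1.1.ord (u a)) :
    LinearIndependent F u := by
  rw [Fintype.linearIndependent_iff]
  intro c hsum a
  by_contra ha
  obtain ⟨_, _, _, hne, _⟩ := family_coord v u hu0 hu1 hu2 c ⟨a, ha⟩
  exact hne hsum

/-- **Fundamental inequality** `∑_{w | v} e(w | v) ≤ [F' : F]`. -/
theorem sum_ramificationIndex_le_finrank [Module.Finite F F'] (v : Place K F) :
    ∑ w ∈ v.fiber F', w.ramificationIndex F ≤ Module.finrank F F' := by
  obtain ⟨u, hu0, hu1, hu2⟩ := exists_family (F' := F') v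
  rw [← card_fibIdx]
  exact (family_linearIndependent v u hu0 hu1 hu2).fintype_card_le_finrank

section Identity

variable [IsAlgClosed K] [CharZero K] [Module.Finite F F']

omit [Algebra.IsIntegral F F'] [HasPrincipalDivisors K F'] [IsAlgClosed K] [CharZero K]
  [Module.Finite F F'] in
theorem not_mem_range_of_ord_ne_zero (v : Place K F) {f : F} (hf : v.ord f ≠ 0) :
    f ∉ (algebraMap K F).range := by
  rintro ⟨c, rfl⟩
  exact hf (H117.ord_algebraMap v c)

/-- **Fundamental identity** `∑_{w | v} e(w | v) = [F' : F]`. -/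
theorem sum_ramificationIndex_eq_finrank
    (hF : ∃ x : F, Transcendental K x ∧ FiniteDimensional K⟮x⟯ F) (v : Place K F) :
    ∑ w ∈ v.fiber F', w.ramificationIndex F = Module.finrank F F' := by
  classical
  obtain ⟨x, hx, hxfin⟩ := hF
  obtain ⟨π, hπ0, hπ1⟩ := H117.exists_ord_eq_one v
  have hπt : Transcendental K π :=
    FF.transcendental_of_not_mem_range (not_mem_range_of_ord_ne_zero v (by rw [hπ1]; norm_num))
  haveI hπfin : FiniteDimensional K⟮π⟯ F := FF.finiteDimensional_adjoin_of_transcendental hx hπt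
  set π' : F' := algebraMap F F' π with hπ'
  have hπ't : Transcendental K π' := transcendental_algebraMap_of hπt
  haveI hπ'fin : FiniteDimensional K⟮π'⟯ F' := finiteDimensional_adjoin_algebraMap π
  set Z : Finset (Place K F) := (FF.finite_setOf_ord_pos hπt).toFinset with hZ
  set Z' : Finset (Place K F') := (FF.finite_setOf_ord_pos hπ't).toFinset with hZ'
  have hZmem : ∀ v', v' ∈ Z ↔ 0 < v'.ord π := fun v' => by simp [hZ]
  have hZ'mem : ∀ w, w ∈ Z' ↔ 0 < w.ord π' := fun w => by simp [hZ']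
  have h1 := FF.sum_ord_eq_finrank hπt Z hZmem
  have h2 := FF.sum_ord_eq_finrank hπ't Z' hZ'mem
  rw [finrank_adjoin_algebraMap] at h2
  -- positivity transfer
  have hpos : ∀ w : Place K F', 0 < w.ord π' ↔ 0 < (w.restrict F).ord π := by
    intro w
    rw [hπ', w.ord_restrict]
    have he : (0 : ℤ) < (w.ramificationIndex F : ℤ) := by
      exact_mod_cast w.ramificationIndex_pos (F := F)
    constructor
    · intro h
      by_contra hcon
      push Not at hcon
      nlinarith
    · intro h
      exact mul_pos he h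
  have hmaps : ∀ w ∈ Z', w.restrict F ∈ Z := fun w hw =>
    (hZmem _).mpr ((hpos w).mp ((hZ'mem w).mp hw))
  have h3 : ∑ w ∈ Z', w.ord π'
      = ∑ v' ∈ Z, v'.ord π * ((∑ w ∈ v'.fiber F', w.ramificationIndex F : ℕ) : ℤ) := by
    rw [← Finset.sum_fiberwise_of_maps_to hmaps]
    refine Finset.sum_congr rfl fun v' hv' => ?_
    have hfilter : Z'.filter (fun w => w.restrict F = v') = v'.fiber F' := by
      ext w
      simp only [Finset.mem_filter, Place.mem_fiber]
      constructor
      · exact fun h => h.2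
      · intro h
        refine ⟨(hZ'mem w).mpr ((hpos w).mpr ?_), h⟩
        rw [h]
        exact (hZmem v').mp hv'
    rw [hfilter]
    push_cast
    rw [Finset.mul_sum]
    refine Finset.sum_congr rfl fun w hw => ?_
    rw [hπ', w.ord_restrict, Place.mem_fiber.mp hw]
    ring
  -- compare
  have h4 : ∑ v' ∈ Z, v'.ord π * ((∑ w ∈ v'.fiber F', w.ramificationIndex F : ℕ) : ℤ)
      = ∑ v' ∈ Z, v'.ord π * (Module.finrank F F' : ℤ) := by
    rw [← h3, h2, ← Finset.sum_mul, h1]
    push_cast
    ring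
  have hle : ∀ v' ∈ Z, v'.ord π * ((∑ w ∈ v'.fiber F', w.ramificationIndex F : ℕ) : ℤ)
      ≤ v'.ord π * (Module.finrank F F' : ℤ) := by
    intro v' hv'
    have h5 : (0 : ℤ) ≤ v'.ord π := ((hZmem v').mp hv').le
    have h6 : ((∑ w ∈ v'.fiber F', w.ramificationIndex F : ℕ) : ℤ) ≤ (Module.finrank F F' : ℤ) := by
      exact_mod_cast sum_ramificationIndex_le_finrank (F' := F') v'
    exact mul_le_mul_of_nonneg_left h6 h5
  have h7 := (Finset.sum_eq_sum_iff_of_le hle).mp h4 v ((hZmem v).mpr (by rw [hπ1]; norm_num))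
  rw [hπ1, one_mul, one_mul] at h7
  exact_mod_cast h7

end Identity

end Fermat.Agent.S29.H812

end
end
-- ===== PACK-END S29/H812/FundId.lean

-- ===== PACK-BEGIN S29/H812/IntBasis.lean
section


/-!
# S29 / H812 — a local integral basis at a place `v` of `F` for a finite extension `F'/F`

`InFib v x` : `x ∈ F'` is integral at every place above `v`.  We construct a basis `b` of `F'/F`
consisting of such elements, such that the coordinates of every such element lie in the valuation
ring of `v`.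
-/

set_option autoImplicit false

noncomputable section

open AlgebraicCurve IntermediateField

namespace Fermat.Agent.S29.H812

open Fermat.Agent.S24

variable {K F F' : Type*} [Field K] [Field F] [Field F']
  [Algebra K F] [Algebra K F'] [Algebra F F'] [IsScalarTower K F F']
  [Algebra.IsIntegral F F'] [HasPrincipalDivisors K F']

/-- `x` is integral at all places of `F'` above `v`. -/
def InFib (v : Place K F) (x : F') : Prop := ∀ w ∈ v.fiber F', x ∈ w.toValuationSubring

theorem inFib_zero (v : Place K F) : InFib v (0 : F') := fun _ _ => zero_mem _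

theorem inFib_one (v : Place K F) : InFib v (1 : F') := fun _ _ => one_mem _

theorem InFib.add {v : Place K F} {x y : F'} (hx : InFib v x) (hy : InFib v y) :
    InFib v (x + y) := fun w hw => add_mem (hx w hw) (hy w hw)

theorem InFib.mul {v : Place K F} {x y : F'} (hx : InFib v x) (hy : InFib v y) :
    InFib v (x * y) := fun w hw => mul_mem (hx w hw) (hy w hw)

theorem inFib_sum {v : Place K F} {ι : Type*} (s : Finset ι) (f : ι → F')
    (h : ∀ i ∈ s, InFib v (f i)) : InFib v (∑ i ∈ s, f i) :=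
  fun w hw => sum_mem fun i hi => h i hi w hw

theorem inFib_algebraMap {v : Place K F} {c : F} (hc : c ∈ v.toValuationSubring) :
    InFib v (algebraMap F F' c) := by
  intro w hw
  have h := Place.mem_fiber.mp hw
  rw [← h] at hc
  exact (Place.mem_restrict_iff w).mp hc

theorem InFib.smul {v : Place K F} {c : F} (hc : c ∈ v.toValuationSubring) {x : F'}
    (hx : InFib v x) : InFib v (c • x) := by
  rw [Algebra.smul_def]
  exact (inFib_algebraMap hc).mul hx

theorem inFib_iff_ord {v : Place K F} {x : F'} :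
    InFib v x ↔ ∀ w ∈ v.fiber F', 0 ≤ w.ord x :=
  forall₂_congr fun w _ => H117.mem_iff_ord_nonneg w

section Basis

variable [IsAlgClosed K] [CharZero K] [Module.Finite F F']

/-- **Local integral basis.** -/
theorem exists_integral_basis
    (hF : ∃ x : F, Transcendental K x ∧ FiniteDimensional K⟮x⟯ F) (v : Place K F) :
    ∃ b : Module.Basis (FibIdx F' v) F F',
      (∀ i, InFib v (b i)) ∧
      (∀ x : F', InFib v x → ∀ i, b.repr x i ∈ v.toValuationSubring) := by
  classical
  obtain ⟨u, hu0, hu1, hu2⟩ := exists_family (F' := F') v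
  have hli := family_linearIndependent v u hu0 hu1 hu2
  have hcard : Fintype.card (FibIdx F' v) = Module.finrank F F' := by
    rw [card_fibIdx, sum_ramificationIndex_eq_finrank hF v]
  set b : Module.Basis (FibIdx F' v) F F' := basisOfLinearIndependentOfCardEqFinrank' u hli hcard
    with hb
  have hbu : ∀ i, b i = u i := fun i => by
    rw [hb, coe_basisOfLinearIndependentOfCardEqFinrank']
  refine ⟨b, ?_, ?_⟩
  · intro a
    rw [hbu, inFib_iff_ord]
    intro w hw
    by_cases h : w = a.1.1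
    · rw [h, hu1]; exact Int.natCast_nonneg _
    · have hpos : 0 < w.ramificationIndex F := w.ramificationIndex_pos (F := F)
      have := hu2 a ⟨⟨w, hw⟩, ⟨0, hpos⟩⟩ h
      have h0 : (0 : ℤ) ≤ ((w.ramificationIndex F : ℕ) : ℤ) := Int.natCast_nonneg _
      exact h0.trans this
  · intro x hx a
    by_cases hall : ∀ a, b.repr x a = 0
    · rw [hall a]; exact zero_mem _
    push Not at hall
    obtain ⟨a₀, hc₀, hmin, -, hord⟩ := family_coord v u hu0 hu1 hu2 (fun a => b.repr x a) hall
    have hsum : ∑ a, b.repr x a • u a = x := by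
      have := b.sum_repr x
      simpa [hbu] using this
    rw [hsum] at hord
    have h0 : 0 ≤ a₀.1.1.ord x := H117.ord_nonneg_of_mem _ (hx a₀.1.1 a₀.1.2)
    have hi : ((a₀.2 : ℕ) : ℤ) < (a₀.1.1.ramificationIndex F : ℤ) := by exact_mod_cast a₀.2.2
    have hm : 0 ≤ v.ord (b.repr x a₀) := by
      by_contra hneg
      push Not at hneg
      have he : (0 : ℤ) < (a₀.1.1.ramificationIndex F : ℤ) := by
        exact_mod_cast a₀.1.1.ramificationIndex_pos (F := F)
      nlinarith
    by_cases ha : b.repr x a = 0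
    · rw [ha]; exact zero_mem _
    · exact H117.mem_of_ord_nonneg v (hm.trans (hmin a ha))

end Basis

end Fermat.Agent.S29.H812

end
end
-- ===== PACK-END S29/H812/IntBasis.lean

-- ===== PACK-BEGIN S29/H812/Norm.lean
section


/-!
# S29 / H812 — the norm formula `ord_v (N_{F'/F} f) = ∑_{w | v} ord_w f` for a finite extension
of function fields of one variable over an algebraically closed field of characteristic zero.
-/

set_option autoImplicit false

noncomputable section

open AlgebraicCurve IntermediateField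

namespace Fermat.Agent.S29.H812

open Fermat.Agent.S24

section Single

variable {K F : Type*} [Field K] [Field F] [Algebra K F]

theorem ord_prod (w : Place K F) {ι : Type*} (s : Finset ι) (g : ι → F)
    (hg : ∀ i ∈ s, g i ≠ 0) : w.ord (∏ i ∈ s, g i) = ∑ i ∈ s, w.ord (g i) := by
  classical
  induction s using Finset.induction_on with
  | empty => simp
  | insert a s ha ih =>
    rw [Finset.prod_insert ha, Finset.sum_insert ha,
      w.ord_mul (hg a (Finset.mem_insert_self _ _))
        (Finset.prod_ne_zero_iff.mpr fun i hi => hg i (Finset.mem_insert_of_mem hi)),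
      ih fun i hi => hg i (Finset.mem_insert_of_mem hi)]

theorem isUnit_of_ord_eq_zero (v : Place K F) (a : v.toValuationSubring) (ha : (a : F) ≠ 0)
    (h : v.ord (a : F) = 0) : IsUnit a := by
  rw [← v.adicValuation_coe_eq_one_iff, H504.adicValuation_eq_exp_neg_ord v ha, h]
  simp

end Single

variable {K F F' : Type*} [Field K] [Field F] [Field F']
  [Algebra K F] [Algebra K F'] [Algebra F F'] [IsScalarTower K F F']
  [Algebra.IsIntegral F F'] [HasPrincipalDivisors K F']
  [IsAlgClosed K] [CharZero K] [Module.Finite F F']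

/-- The matrix of multiplication by an integral element in a local integral basis, over the
valuation ring. -/
theorem exists_matrix (v : Place K F) [DecidableEq (FibIdx F' v)]
    (b : Module.Basis (FibIdx F' v) F F')
    (hb : ∀ i, InFib v (b i))
    (hrepr : ∀ x : F', InFib v x → ∀ i, b.repr x i ∈ v.toValuationSubring)
    {x : F'} (hx : InFib v x) :
    ∃ A : Matrix (FibIdx F' v) (FibIdx F' v) v.toValuationSubring,
      Algebra.leftMulMatrix b x = A.map v.toValuationSubring.subtype := by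
  refine ⟨fun i j => ⟨Algebra.leftMulMatrix b x i j, ?_⟩, ?_⟩
  · rw [Algebra.leftMulMatrix_eq_repr_mul]
    exact hrepr _ (hx.mul (hb j)) i
  · ext i j
    rfl

/-- The norm of an element integral above `v` is integral at `v`. -/
theorem norm_mem_of_inFib (hF : ∃ x : F, Transcendental K x ∧ FiniteDimensional K⟮x⟯ F)
    (v : Place K F) {x : F'} (hx : InFib v x) : Algebra.norm F x ∈ v.toValuationSubring := by
  classical
  obtain ⟨b, hb, hrepr⟩ := exists_integral_basis (F' := F') hF v
  obtain ⟨A, hA⟩ := exists_matrix v b hb hrepr hx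
  rw [Algebra.norm_eq_matrix_det b x, hA, ← RingHom.mapMatrix_apply, ← RingHom.map_det]
  exact (A.det).2

/-- If the norm of an integral element is a unit at `v`, the inverse is integral above `v`. -/
theorem inFib_inv_of_ord_norm_eq_zero
    (hF : ∃ x : F, Transcendental K x ∧ FiniteDimensional K⟮x⟯ F)
    (v : Place K F) {x : F'} (hx0 : x ≠ 0) (hx : InFib v x)
    (hN : v.ord (Algebra.norm F x) = 0) : InFib v x⁻¹ := by
  classical
  obtain ⟨b, hb, hrepr⟩ := exists_integral_basis (F' := F') hF v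
  obtain ⟨A, hA⟩ := exists_matrix v b hb hrepr hx
  have hdet : ((A.det : v.toValuationSubring) : F) = Algebra.norm F x := by
    rw [Algebra.norm_eq_matrix_det b x, hA, ← RingHom.mapMatrix_apply, ← RingHom.map_det]
    rfl
  have hNne : Algebra.norm F x ≠ 0 := Algebra.norm_ne_zero_iff.mpr hx0
  have hunit : IsUnit A.det :=
    isUnit_of_ord_eq_zero v A.det (by rw [hdet]; exact hNne) (by rw [hdet]; exact hN)
  -- the inverse matrix
  have h1 : A⁻¹ * A = 1 := Matrix.nonsing_inv_mul A hunit
  have h2 : (A⁻¹).map v.toValuationSubring.subtype * Algebra.leftMulMatrix b x = 1 := by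
    rw [hA, ← Matrix.map_mul, h1]
    exact Matrix.map_one _ (map_zero _) (map_one _)
  have h3 : Algebra.leftMulMatrix b x * Algebra.leftMulMatrix b x⁻¹ = 1 := by
    rw [← map_mul, mul_inv_cancel₀ hx0, map_one]
  have h4 : Algebra.leftMulMatrix b x⁻¹ = (A⁻¹).map v.toValuationSubring.subtype := by
    calc Algebra.leftMulMatrix b x⁻¹
        = ((A⁻¹).map v.toValuationSubring.subtype * Algebra.leftMulMatrix b x)
            * Algebra.leftMulMatrix b x⁻¹ := by rw [h2, one_mul]
      _ = (A⁻¹).map v.toValuationSubring.subtype := by rw [mul_assoc, h3, mul_one]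
  -- coordinates of `x⁻¹`
  have hcoord : ∀ i, b.repr x⁻¹ i ∈ v.toValuationSubring := by
    intro i
    have h5 := congrFun (Algebra.leftMulMatrix_mulVec_repr b x⁻¹ 1) i
    rw [mul_one] at h5
    rw [← h5, Matrix.mulVec, dotProduct]
    refine sum_mem fun j _ => mul_mem ?_ (hrepr 1 (inFib_one v) j)
    rw [h4]
    exact (A⁻¹ i j).2
  rw [← b.sum_repr x⁻¹]
  exact inFib_sum _ _ fun i _ => (hb i).smul (hcoord i)

variable (hF : ∃ x : F, Transcendental K x ∧ FiniteDimensional K⟮x⟯ F)

include hF in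
/-- Units above `v` have unit norm. -/
theorem ord_norm_eq_zero_of_unit (v : Place K F) {x : F'} (hx0 : x ≠ 0)
    (hx : ∀ w ∈ v.fiber F', w.ord x = 0) : v.ord (Algebra.norm F x) = 0 := by
  have h1 : InFib v x := inFib_iff_ord.mpr fun w hw => (hx w hw).ge
  have h2 : InFib v x⁻¹ := inFib_iff_ord.mpr fun w hw => by
    rw [w.ord_inv, hx w hw]; rfl
  have h3 := H117.ord_nonneg_of_mem v (norm_mem_of_inFib hF v h1)
  have h4 := H117.ord_nonneg_of_mem v (norm_mem_of_inFib hF v h2)
  have h5 : Algebra.norm F x * Algebra.norm F x⁻¹ = 1 := by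
    rw [← map_mul, mul_inv_cancel₀ hx0, map_one]
  have h6 : v.ord (Algebra.norm F x) + v.ord (Algebra.norm F x⁻¹) = 0 := by
    rw [← v.ord_mul (Algebra.norm_ne_zero_iff.mpr hx0)
      (Algebra.norm_ne_zero_iff.mpr (inv_ne_zero hx0)), h5, v.ord_one]
  omega

include hF in
/-- Non-units above `v` have non-unit norm. -/
theorem ord_norm_pos_of_ord_pos (v : Place K F) {x : F'} (hx0 : x ≠ 0) (hx : InFib v x)
    {w₀ : Place K F'} (hw₀ : w₀ ∈ v.fiber F') (hpos : 0 < w₀.ord x) :
    0 < v.ord (Algebra.norm F x) := by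
  have h3 := H117.ord_nonneg_of_mem v (norm_mem_of_inFib hF v hx)
  rcases eq_or_lt_of_le h3 with h0 | hlt
  · exfalso
    have h := inFib_inv_of_ord_norm_eq_zero hF v hx0 hx h0.symm
    have := H117.ord_nonneg_of_mem w₀ (h w₀ hw₀)
    rw [w₀.ord_inv] at this
    omega
  · exact hlt

include hF in
/-- Elements with the same orders above `v` have norms of the same order at `v`. -/
theorem ord_norm_congr (v : Place K F) {g h : F'} (hg : g ≠ 0) (hh : h ≠ 0)
    (hgh : ∀ w ∈ v.fiber F', w.ord g = w.ord h) :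
    v.ord (Algebra.norm F g) = v.ord (Algebra.norm F h) := by
  have hu0 : g * h⁻¹ ≠ 0 := mul_ne_zero hg (inv_ne_zero hh)
  have hu : v.ord (Algebra.norm F (g * h⁻¹)) = 0 :=
    ord_norm_eq_zero_of_unit hF v hu0 fun w hw => by
      rw [w.ord_mul hg (inv_ne_zero hh), w.ord_inv, hgh w hw]; ring
  have h1 : g = (g * h⁻¹) * h := by field_simp
  have h2 : Algebra.norm F g = Algebra.norm F (g * h⁻¹) * Algebra.norm F h := by
    rw [← map_mul, ← h1]
  rw [h2, v.ord_mul (Algebra.norm_ne_zero_iff.mpr hu0) (Algebra.norm_ne_zero_iff.mpr hh), hu,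
    zero_add]

end Fermat.Agent.S29.H812

end
end
-- ===== PACK-END S29/H812/Norm.lean

-- ===== PACK-BEGIN S18/H456/ModRes.lean
section


/-!
# S18 / MOD assembly (helper456): `residue_perfect` for `R = Rc M A E`
-/

set_option autoImplicit false

noncomputable section

namespace Fermat.Agent.S18.H456

open ModularCurve AlgebraicCurve HahnSeries Fermat.Agent.S18 Fermat.Agent.S18.Mod
open IsDedekindDomain
open scoped NumberField

variable (A : ValuationSubring Qb) (E : IntermediateField ℚ Qb)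

section NF

variable [NumberField E]

/-- `𝓞 E → κ_E`. -/
def toRes : 𝓞 E →+* IsLocalRing.ResidueField (H602.RE A E) :=
  (IsLocalRing.residue (H602.RE A E)).comp (H602.ofInt A E)

omit [NumberField E] in
theorem toRes_eq_zero_iff (a : 𝓞 E) : toRes A E a = 0 ↔ a ∈ H602.primeBelow A E := by
  unfold toRes
  rw [RingHom.comp_apply, IsLocalRing.residue_eq_zero_iff]
  rfl

theorem toRes_surjective {ℓ : ℕ} (hℓ : ℓ ≠ 0) (hA : (ℓ : Qb) ∈ A.nonunits) :
    Function.Surjective (toRes A E) := by
  intro x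
  obtain ⟨r, rfl⟩ := IsLocalRing.residue_surjective x
  have hr : (r : E) ∈ (H602.primeSpec A E hℓ hA).valuationSubringAtPrime E := by
    rw [H602.RE_eq_valuationSubringAtPrime A E hℓ hA]
    exact r.2
  obtain ⟨a, s, hs, hrs⟩ := hr
  -- `s` is invertible modulo the maximal ideal `P`
  have hPmax : (H602.primeBelow A E).IsMaximal :=
    Ideal.IsPrime.isMaximal inferInstance (H602.primeBelow_ne_bot A E hℓ hA)
  have hs' : s ∉ H602.primeBelow A E := hs
  obtain ⟨t, ht⟩ := Ideal.IsMaximal.exists_inv hPmax hs'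
  obtain ⟨u, hu, hstu⟩ := ht
  -- `s * t + u = 1`, hence `φ s * φ t = 1`
  have h1 : toRes A E s * toRes A E t = 1 := by
    have := congrArg (toRes A E) hstu
    rw [map_add, map_mul, (toRes_eq_zero_iff A E u).2 hu, add_zero, map_one] at this
    rwa [mul_comm] at this
  refine ⟨a * t, ?_⟩
  -- `r * s = a` in `R_E`
  have h2 : r * H602.ofInt A E s = H602.ofInt A E a := by
    apply Subtype.ext
    show (r : E) * algebraMap (𝓞 E) E s = algebraMap (𝓞 E) E a
    rw [hrs]
    have hs0 : algebraMap (𝓞 E) E s ≠ 0 := by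
      intro h0
      have : s = 0 := by
        apply FaithfulSMul.algebraMap_injective (𝓞 E) E
        rw [h0, map_zero]
      exact hs' (this ▸ Ideal.zero_mem _)
    rw [mul_assoc, inv_mul_cancel₀ hs0, mul_one]
  have h3 : IsLocalRing.residue (H602.RE A E) r * toRes A E s = toRes A E a := by
    have := congrArg (IsLocalRing.residue (H602.RE A E)) h2
    rwa [map_mul] at this
  rw [map_mul, ← h3, mul_assoc, h1, mul_one]

theorem finite_residueField {ℓ : ℕ} (hℓ : ℓ ≠ 0) (hA : (ℓ : Qb) ∈ A.nonunits) :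
    Finite (IsLocalRing.ResidueField (H602.RE A E)) := by
  have hP : H602.primeBelow A E ≠ ⊥ := H602.primeBelow_ne_bot A E hℓ hA
  have : Finite (𝓞 E ⧸ H602.primeBelow A E) := Ideal.finiteQuotientOfFreeOfNeBot _ hP
  let ψ : 𝓞 E ⧸ H602.primeBelow A E →+* IsLocalRing.ResidueField (H602.RE A E) :=
    Ideal.Quotient.lift _ (toRes A E) (fun a ha => (toRes_eq_zero_iff A E a).2 ha)
  have hψ : Function.Surjective ψ := by
    intro x
    obtain ⟨a, rfl⟩ := toRes_surjective A E hℓ hA x
    exact ⟨Ideal.Quotient.mk _ a, rfl⟩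
  exact Finite.of_surjective ψ hψ

end NF

/-- Frobenius is surjective on the residue field of `R_E` (`E/ℚ` finite). -/
theorem exists_pow_sub_mem_maximalIdeal [FiniteDimensional ℚ E] {ℓ : ℕ} (hℓ : ℓ.Prime)
    (hA : A.LiesOverPrime ℓ) (r : H602.RE A E) :
    ∃ s : H602.RE A E, r - s ^ ℓ ∈ IsLocalRing.maximalIdeal (H602.RE A E) := by
  have := H602.numberField_of_finiteDimensional E
  have : Finite (IsLocalRing.ResidueField (H602.RE A E)) :=
    finite_residueField A E hℓ.ne_zero hA
  have hℓ0 : ((ℓ : ℕ) : IsLocalRing.ResidueField (H602.RE A E)) = 0 := by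
    rw [← map_natCast (IsLocalRing.residue (H602.RE A E)), IsLocalRing.residue_eq_zero_iff,
      IsLocalRing.mem_maximalIdeal, mem_nonunits_iff]
    exact H602.natCast_not_isUnit_RE A E hA
  have : Fact ℓ.Prime := ⟨hℓ⟩
  have : CharP (IsLocalRing.ResidueField (H602.RE A E)) ℓ :=
    (CharP.charP_iff_prime_eq_zero hℓ).2 hℓ0
  have : PerfectRing (IsLocalRing.ResidueField (H602.RE A E)) ℓ :=
    PerfectRing.ofFiniteOfIsReduced ℓ _
  obtain ⟨y, hy⟩ := surjective_frobenius (IsLocalRing.ResidueField (H602.RE A E)) ℓ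
    (IsLocalRing.residue _ r)
  obtain ⟨s, rfl⟩ := IsLocalRing.residue_surjective y
  refine ⟨s, ?_⟩
  rw [← IsLocalRing.residue_eq_zero_iff, map_sub, map_pow, sub_eq_zero]
  exact hy.symm

variable (M : ℕ)

/-- **`residue_perfect`** for `R = Rc M A E`. -/
theorem field_residue_perfect [FiniteDimensional ℚ E] {ℓ : ℕ} (hℓ : ℓ.Prime)
    (hA : A.LiesOverPrime ℓ) {w : Om M} (hw : IsUnif M A E w) :
    ∃ p : ℕ, p.Prime ∧ (p : Om M) * w⁻¹ ∈ Rc M A E ∧
      ∀ r ∈ Rc M A E, ∃ s ∈ Rc M A E, (r - s ^ p) * w⁻¹ ∈ Rc M A E := by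
  have : IsDiscreteValuationRing (H602.RE A E) :=
    H602.isDiscreteValuationRing_RE A E hℓ.ne_zero hA
  refine ⟨ℓ, hℓ, ?_, ?_⟩
  · rw [← cstR_natCast M A E, hw.mul_inv_mem_iff, IsLocalRing.mem_maximalIdeal, mem_nonunits_iff]
    exact H602.natCast_not_isUnit_RE A E hA
  · intro r hr
    obtain ⟨r₀, rfl⟩ := (mem_Rc_iff_cstR M A E).1 hr
    obtain ⟨s, hs⟩ := exists_pow_sub_mem_maximalIdeal A E hℓ hA r₀
    refine ⟨cstR M A E s, cstR_mem_Rc M A E s, ?_⟩
    rw [← cstR_pow, ← cstR_sub, hw.mul_inv_mem_iff]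
    exact hs

end Fermat.Agent.S18.H456

end
end
-- ===== PACK-END S18/H456/ModRes.lean

-- ===== PACK-BEGIN S18/B12/H33/B2Regular.lean
section












/-!
# S18 b2 (squad S18/S33, assembled by helper33): `b2Regular : B2RegularStatement`, UNCONDITIONAL

This is output O1 of piece b2 of Route K (see `B12/Spec3.lean`): for a finite, torsion-free,
integrally closed `R[X]`-algebra `B` (`R` a DVR-like PID of characteristic 0 with prime `w`) whose
special fibre `B / w B` is a domain and generically separable over `k[X]`, tame at the primes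
`X - c` (`c ∈ S`, distinct mod `w`) and unramified (reduced fibre) at all other primes of `R[X]`,
the ring `B` is regular along `w`:  `H754.RegularAlong (algebraMap R[X] B (C w))`.

Pieces (all sorry-free, standard axioms):
* A0, A2, A2' (regular sequence, local bases, rank)  : helper93  (`B12/H93`; also helper873)
* A3  (discriminant reduction)                        : helper393 (`B12/H393`; also helper203/204)
* A4, A1 (UFD step, polynomial-ring instance)         : helper203 (`B12/H203`; also helper245/693)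
* A5  (generic discriminant, tame)                    : helper444 (`B12/H444`, via helper274 P3)
* A5' (reduction basis)                               : helper203 (`B12/H203`; also helper245/633)
* A8, A9 (integrally closed fibre, Dedekind => regular): helper84 (`B12/H84`, via helper278 P2;
                                                        also helper231/845)
* heart A6' and glue O1                               : helper33  (`B12/H33`)
-/

set_option autoImplicit false

namespace Fermat.Agent.S18.B12.H33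

universe u v

/-- **A6' (heart of b2), unconditional.** -/
theorem b2CoreAbs : B2CoreAbsStatement.{u, v} :=
  b2CoreAbs_of_pieces H93.regSeqAbs H93.localBasis H93.localBasisRank H393.discrRed
    H203.ufdStep H444.genericDiscr H203.redBasisAbs

/-- **O1 = b2, unconditional**: `H754.RegularAlong (C w)` for the chart ring. -/
theorem b2Regular : B2RegularStatement.{u, v} :=
  b2Regular_of_pieces b2CoreAbs H93.regSeqAbs H84.a8 H84.a9 H203.polyInst

end Fermat.Agent.S18.B12.H33

end
-- ===== PACK-END S18/B12/H33/B2Regular.lean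

-- ===== PACK-BEGIN S18/B12/H33/RegChart.lean
section






/-!
# S18 b2 (helper33): REG-CHART — `b2Regular` instantiated on the charts of helper138

Setting (the one of `H138.connected_special_fibre`): `R` a discrete valuation ring, `F` a field of
characteristic `0` which is an `R`-algebra, `x : F` transcendental over `R`,
`[FiniteDimensional (H138.baseField R x) F]`, and the chart
`B := H138.chart R {x} : Subalgebra R F` (the integral closure of `R[x]` in `F`).

Main result `regularAlong_chart`: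

    H754.RegularAlong (algebraMap R (H138.chart R {x}) w)

from
* `hdom` : `w` is prime in the chart (QEP),
* `hsep` : elementwise separability of the special fibre (shape of `H425.hsep_poly`),
* `S`, `hS` : the branch values, pairwise distinct mod `w`,
* `hNC` : for every prime `π` of `R[X]` not associated to `w` or to some `X - c` (`c ∈ S`), the
  ideal `π(x) B` is radical (unramifiedness away from `S`, from `GoodModel.unramified`).

All the instance plumbing (`R[X]`-algebra structure through `aeval x`, finiteness, torsion-freeness,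
integral closedness) is done here.  `regularAlong_chart_field` is the same theorem with the
hypotheses `hsep`, `hNC` stated by elements of `F`.
-/

set_option autoImplicit false
set_option linter.style.haveILetI false

noncomputable section

namespace Fermat.Agent.S18.B12.H33

open Polynomial

universe u v

section RegChart

variable (R : Type u) [CommRing R] {F : Type v} [Field F] [Algebra R F]

/-- The coordinate `x` as an element of the chart. -/
def chartX (x : F) : H138.chart R ({x} : Set F) := ⟨x, H138.mem_chart_of_mem rfl⟩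

/-- The structure map `R[X] → B`, `X ↦ x`. -/
def chartPolyHom (x : F) : R[X] →ₐ[R] H138.chart R ({x} : Set F) := aeval (chartX R x)

variable {R}

@[simp] theorem coe_chartX (x : F) : ((chartX R x : H138.chart R ({x} : Set F)) : F) = x := rfl

theorem chartPolyHom_apply (x : F) (p : R[X]) : chartPolyHom R x p = aeval (chartX R x) p := rfl

theorem coe_chartPolyHom (x : F) (p : R[X]) :
    ((chartPolyHom R x p : H138.chart R ({x} : Set F)) : F) = aeval x p := by
  have h := Polynomial.aeval_algHom_apply (H138.chart R ({x} : Set F)).val (chartX R x) p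
  rw [chartPolyHom_apply]
  exact h.symm

theorem chartPolyHom_C (x : F) (r : R) :
    chartPolyHom R x (C r) = algebraMap R (H138.chart R ({x} : Set F)) r := by
  rw [chartPolyHom_apply, aeval_C]

theorem chartPolyHom_injective {x : F} (hx : Transcendental R x) :
    Function.Injective (chartPolyHom R x) := by
  rw [injective_iff_map_eq_zero]
  intro p hp
  have h : aeval x p = 0 := by
    rw [← coe_chartPolyHom, hp]; rfl
  exact transcendental_iff.1 hx p h

theorem algebraMap_injective_of_transcendental {x : F} (hx : Transcendental R x) :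
    Function.Injective (algebraMap R F) := by
  rw [injective_iff_map_eq_zero]
  intro r hr
  have h : aeval x (C r : R[X]) = 0 := by rw [aeval_C, hr]
  have := transcendental_iff.1 hx _ h
  exact C_eq_zero.1 this

end RegChart

section Package

variable {R : Type u} [CommRing R] {F : Type v} [Field F] [Algebra R F]

/-- The `R[X]`-algebra structure of the chart (`X ↦ x`).  Not an instance. -/
@[reducible] def chartAlgebra (R : Type u) [CommRing R] {F : Type v} [Field F] [Algebra R F]
    (x : F) : Algebra R[X] (H138.chart R ({x} : Set F)) :=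
  (chartPolyHom R x).toRingHom.toAlgebra

/-- The chart is (tautologically) the integral closure of `R[x]` in `F`. -/
def chartEquiv (x : F) :
    integralClosure (Algebra.adjoin R ({x} : Set F)) F ≃+* H138.chart R ({x} : Set F) where
  toFun c := ⟨c.1, c.2⟩
  invFun c := ⟨c.1, c.2⟩
  left_inv _ := rfl
  right_inv _ := rfl
  map_mul' _ _ := rfl
  map_add' _ _ := rfl

/-- `R[X] ≃ R[x]` for transcendental `x`. -/
def polyEquivAdjoin {x : F} (hx : Transcendental R x) :
    R[X] ≃ₐ[R] Algebra.adjoin R ({x} : Set F) :=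
  (AlgEquiv.ofInjective (aeval (R := R) x)
    ((injective_iff_map_eq_zero _).2 (transcendental_iff.1 hx))).trans
      (Subalgebra.equivOfEq _ _ (Algebra.adjoin_singleton_eq_range_aeval R x).symm)

theorem coe_polyEquivAdjoin {x : F} (hx : Transcendental R x) (p : R[X]) :
    ((polyEquivAdjoin hx p : Algebra.adjoin R ({x} : Set F)) : F) = aeval x p := rfl

/-- The chart is integrally closed and finite over `R[X]`. -/
theorem chart_package [IsDomain R] [IsNoetherianRing R] [IsIntegrallyClosed R[X]] [CharZero F]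
    {x : F} (hx : Transcendental R x) [FiniteDimensional (H138.baseField R x) F] :
    IsIntegrallyClosed (H138.chart R ({x} : Set F)) ∧
      @Module.Finite R[X] (H138.chart R ({x} : Set F)) _ _ (chartAlgebra R x).toModule := by
  classical
  set A : Subalgebra R F := Algebra.adjoin R ({x} : Set F) with hA
  set K : Subfield F := H138.baseField R x with hK
  haveI := H138.isIntegrallyClosed_adjoin_singleton (R := R) hx
  haveI := H138.isNoetherianRing_adjoin_singleton (R := R) hx
  let φ : A →+* K :=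
    { toFun := fun a => ⟨a, H138.adjoin_le_baseField x a.2⟩
      map_one' := rfl
      map_mul' := fun _ _ => rfl
      map_zero' := rfl
      map_add' := fun _ _ => rfl }
  letI : Algebra A K := φ.toAlgebra
  haveI : IsScalarTower A K F := IsScalarTower.of_algebraMap_eq (fun _ => rfl)
  have hinj : Function.Injective (algebraMap A K) := by
    intro a b hab
    have : (a : F) = b := congrArg (fun t : K => (t : F)) hab
    exact Subtype.ext this
  haveI : FaithfulSMul A K := (faithfulSMul_iff_algebraMap_injective A K).2 hinj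
  haveI : IsFractionRing A K := by
    refine IsFractionRing.of_field A K (fun z => ?_)
    obtain ⟨a, ha, b, hb, h⟩ := H138.exists_div_of_mem_baseField (R := R) x z.2
    exact ⟨⟨a, ha⟩, ⟨b, hb⟩, Subtype.ext h⟩
  haveI : CharZero K := (algebraMap K F).charZero
  haveI hfinA : Module.Finite A (integralClosure A F) :=
    IsIntegralClosure.finite A K F (integralClosure A F)
  haveI hic : IsIntegrallyClosed (integralClosure A F) :=
    integralClosure.isIntegrallyClosedOfFiniteExtension K
  refine ⟨IsIntegrallyClosed.of_equiv (chartEquiv x), ?_⟩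
  letI := chartAlgebra R x
  refine Module.Finite.of_equiv_equiv (A₁ := A) (B₁ := integralClosure A F)
    (polyEquivAdjoin hx).symm.toRingEquiv (chartEquiv x) ?_
  refine RingHom.ext (fun a => ?_)
  obtain ⟨p, rfl⟩ := (polyEquivAdjoin hx).surjective a
  apply Subtype.ext
  simp only [RingHom.comp_apply, RingHom.coe_coe,
    AlgEquiv.coe_ringEquiv, AlgEquiv.symm_apply_apply]
  change ((chartPolyHom R x p : H138.chart R ({x} : Set F)) : F) = _
  rw [coe_chartPolyHom]
  rfl

end Package

section Coe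

variable {R : Type u} [CommRing R] {F : Type v} [Field F] [Algebra R F]

/-- Divisibility by `w` in the chart, in terms of elements of `F`. -/
theorem algebraMap_dvd_chart_iff {x : F} (w : R) (z : H138.chart R ({x} : Set F)) :
    algebraMap R (H138.chart R ({x} : Set F)) w ∣ z ↔
      ∃ t ∈ H138.chart R ({x} : Set F), (z : F) = algebraMap R F w * t := by
  constructor
  · rintro ⟨t, rfl⟩
    exact ⟨t, t.2, rfl⟩
  · rintro ⟨t, ht, h⟩
    exact ⟨⟨t, ht⟩, Subtype.ext h⟩

/-- Divisibility by `π(x)` in the chart, in terms of elements of `F`. -/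
theorem chartPolyHom_dvd_chart_iff {x : F} (π : R[X]) (z : H138.chart R ({x} : Set F)) :
    chartPolyHom R x π ∣ z ↔
      ∃ t ∈ H138.chart R ({x} : Set F), (z : F) = aeval x π * t := by
  constructor
  · rintro ⟨t, rfl⟩
    exact ⟨t, t.2, by rw [Subalgebra.coe_mul, coe_chartPolyHom]⟩
  · rintro ⟨t, ht, h⟩
    exact ⟨⟨t, ht⟩, Subtype.ext (by rw [Subalgebra.coe_mul, coe_chartPolyHom]; exact h)⟩

/-- Evaluation of a lifted polynomial, in terms of elements of `F`. -/
theorem coe_eval₂_chartPolyHom {x : F} (Q : R[X][X]) (b : H138.chart R ({x} : Set F)) :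
    ((Q.eval₂ (chartPolyHom R x : R[X] →+* H138.chart R ({x} : Set F)) b :
      H138.chart R ({x} : Set F)) : F)
      = (Q.map (aeval x : R[X] →ₐ[R] F).toRingHom).eval (b : F) := by
  have h := Polynomial.hom_eval₂ Q (chartPolyHom R x : R[X] →+* H138.chart R ({x} : Set F))
    (H138.chart R ({x} : Set F)).val.toRingHom b
  rw [eval_map]
  have hcomp : ((H138.chart R ({x} : Set F)).val.toRingHom.comp
      (chartPolyHom R x : R[X] →+* H138.chart R ({x} : Set F)))
      = (aeval x : R[X] →ₐ[R] F).toRingHom := by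
    refine RingHom.ext (fun p => ?_)
    exact coe_chartPolyHom x p
  rw [hcomp] at h
  exact h

end Coe

section Main

variable {R : Type u} [CommRing R] [IsDomain R] [IsDiscreteValuationRing R]
  {F : Type v} [Field F] [CharZero F] [Algebra R F]

/-- **REG-CHART.**  `b2Regular` on the chart `H138.chart R {x}`: the special fibre of the chart is
regular at every closed point. -/
theorem regularAlong_chart
    {x : F} (hx : Transcendental R x) [FiniteDimensional (H138.baseField R x) F]
    (w : R) (hw : Irreducible w)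
    (hdom : Prime (algebraMap R (H138.chart R ({x} : Set F)) w))
    (hsep : ∀ b : H138.chart R ({x} : Set F), ∃ P : R[X][X],
        algebraMap R (H138.chart R ({x} : Set F)) w ∣
          P.eval₂ (chartPolyHom R x : R[X] →+* H138.chart R ({x} : Set F)) b ∧
        ¬ algebraMap R (H138.chart R ({x} : Set F)) w ∣
          (derivative P).eval₂ (chartPolyHom R x : R[X] →+* H138.chart R ({x} : Set F)) b)
    (S : Finset R) (hS : ∀ c ∈ S, ∀ c' ∈ S, c ≠ c' → IsUnit (c - c'))
    (hNC : ∀ π : R[X], Prime π → ¬ Associated π (C w) → (∀ c ∈ S, ¬ Associated π (X - C c)) →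
        (Ideal.span {chartPolyHom R x π}).IsRadical) :
    H754.RegularAlong (algebraMap R (H138.chart R ({x} : Set F)) w) := by
  classical
  haveI : CharZero R := (algebraMap R F).charZero
  obtain ⟨hic, hfin⟩ := chart_package (R := R) hx
  letI := chartAlgebra R x
  haveI := hic
  haveI := hfin
  haveI : Module.IsTorsionFree R[X] (H138.chart R ({x} : Set F)) :=
    Module.isTorsionFree_iff_algebraMap_injective.2 (chartPolyHom_injective hx)
  have hCw : algebraMap R[X] (H138.chart R ({x} : Set F)) (C w)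
      = algebraMap R (H138.chart R ({x} : Set F)) w := chartPolyHom_C x w
  have hdom' : Prime (algebraMap R[X] (H138.chart R ({x} : Set F)) (C w)) := by
    rw [hCw]; exact hdom
  have hsep' := H425.hsep_poly R w hw (H138.chart R ({x} : Set F)) hdom' (by
    intro b
    obtain ⟨P, h1, h2⟩ := hsep b
    refine ⟨P, ?_, ?_⟩
    · rw [hCw]; exact h1
    · rw [hCw]; exact h2)
  have hreg := b2Regular.{u, v} R w hw (H138.chart R ({x} : Set F)) hdom' hsep' S hS hNC
  intro 𝔪 h𝔪 hw𝔪
  have := hreg 𝔪 h𝔪 (by rw [hCw]; exact hw𝔪)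
  rwa [hCw] at this

/-- **REG-CHART, field form.**  Same as `regularAlong_chart`, with `hsep` and `hNC` stated by
elements of `F`:
* `hsep` : for every `b` in the chart there is a polynomial `P` with coefficients in `R[x]` with
  `P(b) ∈ w B` and `P'(b) ∉ w B`;
* `hNC`  : for the primes `π` of `R[X]` away from `w` and the `X - c`, `c ∈ S`:
  `b ∈ B`, `b² ∈ π(x) B` ⟹ `b ∈ π(x) B`. -/
theorem regularAlong_chart_field
    {x : F} (hx : Transcendental R x) [FiniteDimensional (H138.baseField R x) F]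
    (w : R) (hw : Irreducible w)
    (hdom : Prime (algebraMap R (H138.chart R ({x} : Set F)) w))
    (hsep : ∀ b ∈ H138.chart R ({x} : Set F), ∃ P : F[X],
        (∀ i, P.coeff i ∈ Algebra.adjoin R ({x} : Set F)) ∧
        (∃ t ∈ H138.chart R ({x} : Set F), P.eval b = algebraMap R F w * t) ∧
        ¬ ∃ t ∈ H138.chart R ({x} : Set F), (derivative P).eval b = algebraMap R F w * t)
    (S : Finset R) (hS : ∀ c ∈ S, ∀ c' ∈ S, c ≠ c' → IsUnit (c - c'))
    (hNC : ∀ π : R[X], Prime π → ¬ Associated π (C w) → (∀ c ∈ S, ¬ Associated π (X - C c)) →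
        ∀ b ∈ H138.chart R ({x} : Set F),
          (∃ t ∈ H138.chart R ({x} : Set F), b ^ 2 = aeval x π * t) →
          ∃ t ∈ H138.chart R ({x} : Set F), b = aeval x π * t) :
    H754.RegularAlong (algebraMap R (H138.chart R ({x} : Set F)) w) := by
  refine regularAlong_chart hx w hw hdom ?_ S hS ?_
  · intro b
    obtain ⟨P, hP, h1, h2⟩ := hsep b b.2
    have hlift : P ∈ Polynomial.lifts (aeval x : R[X] →ₐ[R] F).toRingHom := by
      rw [Polynomial.lifts_iff_coeff_lifts]
      intro n
      have := hP n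
      rw [Algebra.adjoin_singleton_eq_range_aeval] at this
      obtain ⟨q, hq⟩ := this
      exact ⟨q, hq⟩
    obtain ⟨Q, hQ⟩ := (Polynomial.mem_lifts P).1 hlift
    refine ⟨Q, ?_, ?_⟩
    · rw [algebraMap_dvd_chart_iff, coe_eval₂_chartPolyHom, hQ]
      exact h1
    · rw [algebraMap_dvd_chart_iff, coe_eval₂_chartPolyHom, ← derivative_map, hQ]
      exact h2
  · intro π hπ h1 h2
    rw [Ideal.isRadical_iff_pow_one_lt 2 one_lt_two]
    intro r hr
    rw [Ideal.mem_span_singleton] at hr ⊢
    rw [chartPolyHom_dvd_chart_iff] at hr ⊢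
    obtain ⟨t, ht, h⟩ := hr
    refine hNC π hπ h1 h2 r r.2 ⟨t, ht, ?_⟩
    rw [← h]
    rfl

omit [IsDomain R] [IsDiscreteValuationRing R] [CharZero F] in
/-- The finiteness instance for the chart at infinity. -/
theorem finiteDimensional_baseField_inv (x : F) [h : FiniteDimensional (H138.baseField R x) F] :
    FiniteDimensional (H138.baseField R x⁻¹) F := by
  rw [H138.baseField_inv]
  exact h

/-- **REG-CHART at infinity** (field form): `regularAlong_chart_field` for the chart
`H138.chart R {x⁻¹}`, with the finiteness instance of the finite chart. -/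
theorem regularAlong_chart_inv_field
    {x : F} (hx : Transcendental R x) [FiniteDimensional (H138.baseField R x) F]
    (w : R) (hw : Irreducible w)
    (hdom : Prime (algebraMap R (H138.chart R ({x⁻¹} : Set F)) w))
    (hsep : ∀ b ∈ H138.chart R ({x⁻¹} : Set F), ∃ P : F[X],
        (∀ i, P.coeff i ∈ Algebra.adjoin R ({x⁻¹} : Set F)) ∧
        (∃ t ∈ H138.chart R ({x⁻¹} : Set F), P.eval b = algebraMap R F w * t) ∧
        ¬ ∃ t ∈ H138.chart R ({x⁻¹} : Set F), (derivative P).eval b = algebraMap R F w * t)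
    (S : Finset R) (hS : ∀ c ∈ S, ∀ c' ∈ S, c ≠ c' → IsUnit (c - c'))
    (hNC : ∀ π : R[X], Prime π → ¬ Associated π (C w) → (∀ c ∈ S, ¬ Associated π (X - C c)) →
        ∀ b ∈ H138.chart R ({x⁻¹} : Set F),
          (∃ t ∈ H138.chart R ({x⁻¹} : Set F), b ^ 2 = aeval x⁻¹ π * t) →
          ∃ t ∈ H138.chart R ({x⁻¹} : Set F), b = aeval x⁻¹ π * t) :
    H754.RegularAlong (algebraMap R (H138.chart R ({x⁻¹} : Set F)) w) := by
  haveI := finiteDimensional_baseField_inv (R := R) x
  exact regularAlong_chart_field (H138.transcendental_inv hx) w hw hdom hsep S hS hNC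

end Main

end Fermat.Agent.S18.B12.H33

end
end
-- ===== PACK-END S18/B12/H33/RegChart.lean

-- ===== PACK-BEGIN A2/H609/MinPrimes.lean
section


/-!
# Node purity, part 10: (H1) at the minimal primes of `(u)` only

The theorems `exists_unit_mul_pow_of_relLen`, `exists_unit_mul_pow_of_smooth`,
`exists_unit_mul_pow_of_node` with the hypothesis (H1) required only at the minimal primes `𝔓`
of `(u)` with `π ∉ 𝔓` (these are the primes at which `R_𝔓` is a discrete valuation ring, so that
(H1) follows from `m ∣ ord_𝔓 u`).  Mathlib only.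
-/

set_option autoImplicit false

namespace Fermat.Agent.A2.H609

open Ideal

variable {R : Type*} [CommRing R] [IsDomain R] [IsIntegrallyClosed R] [IsNoetherianRing R]
  [IsLocalRing R]

omit [IsIntegrallyClosed R] in
/-- If `𝔪` is the only prime containing `u` and `π`, every prime `𝔓 ∋ u` with `π ∉ 𝔓` is a
minimal prime of `(u)`. -/
theorem mem_minimalPrimes_of_mem_of_notMem {u π : R} (hu0 : u ≠ 0)
    (hπ : π ∈ IsLocalRing.maximalIdeal R)
    (huπ : ∀ 𝔮 : Ideal R, 𝔮.IsPrime → u ∈ 𝔮 → π ∈ 𝔮 → 𝔮 = IsLocalRing.maximalIdeal R)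
    {𝔓 : Ideal R} (h𝔓 : 𝔓.IsPrime) (hu : u ∈ 𝔓) (hπ𝔓 : π ∉ 𝔓) :
    𝔓 ∈ (Ideal.span {u}).minimalPrimes := by
  have hle : Ideal.span {u} ≤ 𝔓 := by
    rw [Ideal.span_le, Set.singleton_subset_iff]
    exact hu
  obtain ⟨𝔓₀, h𝔓₀min, h𝔓₀le⟩ := Ideal.exists_minimalPrimes_le hle
  have h𝔓₀ : 𝔓₀.IsPrime := h𝔓₀min.1.1
  have hu₀ : u ∈ 𝔓₀ := h𝔓₀min.1.2 (Ideal.mem_span_singleton_self u)
  by_cases hne : 𝔓₀ = 𝔓
  · rw [← hne]
    exact h𝔓₀min
  · exact (not_lt_of_mem_of_not_mem hu0 hπ huπ hu₀ hπ𝔓 (lt_of_le_of_ne h𝔓₀le hne)).elim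

/-- The abstract purity criterion, (H1) at the minimal primes of `(u)`. -/
theorem exists_unit_mul_pow_of_relLen_min {u π : R} {m : ℕ} (hm : m ≠ 0) (hu0 : u ≠ 0)
    (hπ0 : π ≠ 0) (hπ : π ∈ IsLocalRing.maximalIdeal R)
    (hreg : ∀ x : R, π ∣ u * x → π ∣ x)
    (huπ : ∀ 𝔮 : Ideal R, 𝔮.IsPrime → u ∈ 𝔮 → π ∈ 𝔮 → 𝔮 = IsLocalRing.maximalIdeal R)
    (H1 : ∀ 𝔓 ∈ (Ideal.span {u}).minimalPrimes, π ∉ 𝔓 → ∃ f r : R, r ∉ 𝔓 ∧ f ^ m = u * r)
    (J' : Ideal R) (hπJ : π ∈ J')
    (hJ' : ∀ f r : R, f ^ m = u * r → r ∈ IsLocalRing.maximalIdeal R → f ∈ J')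
    (B : ℕ) (hB : (B : ℕ∞) ≤ relLen J' (⊤ : Ideal R))
    (hlt : relLen (Ideal.span {u, π}) (⊤ : Ideal R) < (m : ℕ∞) * B) :
    ∃ (f : R) (ε : Rˣ), u = ε * f ^ m :=
  exists_unit_mul_pow_of_relLen hm hu0 hπ0 hπ hreg huπ
    (fun 𝔓 h𝔓 hu𝔓 hπ𝔓 =>
      H1 𝔓 (mem_minimalPrimes_of_mem_of_notMem hu0 hπ huπ h𝔓 hu𝔓 hπ𝔓) hπ𝔓)
    J' hπJ hJ' B hB hlt

/-- **Purity at a smooth point of the special fibre**, (H1) at the minimal primes of `(u)`. -/
theorem exists_unit_mul_pow_of_smooth_min {u π : R} {m : ℕ} (hm : m ≠ 0) (hπ0 : π ≠ 0)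
    (𝔭 : Ideal R) [𝔭.IsPrime] [IsDiscreteValuationRing (R ⧸ 𝔭)] (h𝔭 : 𝔭 = Ideal.span {π})
    (hu : u ∉ 𝔭)
    (H1 : ∀ 𝔓 ∈ (Ideal.span {u}).minimalPrimes, π ∉ 𝔓 → ∃ f r : R, r ∉ 𝔓 ∧ f ^ m = u * r)
    (H2 : ∃ v : R ⧸ 𝔭, Associated (v ^ m) (Ideal.Quotient.mk 𝔭 u)) :
    ∃ (f : R) (ε : Rˣ), u = ε * f ^ m := by
  have hπ𝔭 : π ∈ 𝔭 := by
    rw [h𝔭]
    exact Ideal.mem_span_singleton_self π
  have h𝔭𝔪 : 𝔭 ≤ IsLocalRing.maximalIdeal R :=
    IsLocalRing.le_maximalIdeal (Ideal.IsPrime.ne_top inferInstance)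
  have hu0 : u ≠ 0 := by
    rintro rfl
    exact hu 𝔭.zero_mem
  obtain ⟨ϖ, hϖ⟩ := IsDiscreteValuationRing.exists_irreducible (R ⧸ 𝔭)
  obtain ⟨x, rfl⟩ := Ideal.Quotient.mk_surjective ϖ
  obtain ⟨a, ε, hε⟩ := exists_mk_eq_unit_mul_pow 𝔭 hϖ hm hu H2
  have h𝔪 := maximalIdeal_le_span_sup 𝔭 hϖ
  have hreg : ∀ z : R, π ∣ u * z → π ∣ z := by
    intro z hz
    have h1 : u * z ∈ 𝔭 := by
      rw [h𝔭]
      exact Ideal.mem_span_singleton.mpr hz
    rcases Ideal.IsPrime.mem_or_mem inferInstance h1 with h | h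
    · exact absurd h hu
    · rw [h𝔭] at h
      exact Ideal.mem_span_singleton.mp h
  have huπ : ∀ 𝔮 : Ideal R, 𝔮.IsPrime → u ∈ 𝔮 → π ∈ 𝔮 →
      𝔮 = IsLocalRing.maximalIdeal R := by
    intro 𝔮 h𝔮 hu𝔮 hπ𝔮
    have hle : 𝔭 ≤ 𝔮 := by
      rw [h𝔭, Ideal.span_singleton_le_iff_mem]
      exact hπ𝔮
    have hx𝔮 : x ∈ 𝔮 := mem_of_le_of_mk_eq 𝔭 hε h𝔮 hle hu𝔮
    refine le_antisymm (IsLocalRing.le_maximalIdeal h𝔮.ne_top) (h𝔪.trans ?_)
    exact sup_le ((Ideal.span_singleton_le_iff_mem _).mpr hx𝔮) hle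
  refine exists_unit_mul_pow_of_relLen_min hm hu0 hπ0 (h𝔭𝔪 hπ𝔭) hreg huπ H1
    (Ideal.span {x ^ (a + 1)} ⊔ 𝔭) (Ideal.mem_sup_right hπ𝔭) ?_ (a + 1) ?_ ?_
  · intro f r hf hr
    obtain ⟨g, hg⟩ := exists_sub_pow_succ_mul_mem 𝔭 hϖ hε hf hr
    have h : f = x ^ (a + 1) * g + (f - x ^ (a + 1) * g) := by ring
    rw [h]
    exact Ideal.add_mem _
      (Ideal.mem_sup_left (Ideal.mem_span_singleton.mpr (Dvd.intro g rfl)))
      (Ideal.mem_sup_right hg)
  · rw [relLen_branch_pow 𝔭 hϖ (a + 1)]
  · have hle : Ideal.span {x ^ (m * a)} ⊔ 𝔭 ≤ Ideal.span {u, π} := by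
      refine sup_le ?_ ?_
      · rw [Ideal.span_singleton_le_iff_mem]
        obtain ⟨e, he⟩ := exists_pow_sub_mul_mem 𝔭 hε
        rw [h𝔭, Ideal.mem_span_singleton] at he
        obtain ⟨c, hc⟩ := he
        have h : x ^ (m * a) = e * u + c * π := by
          have : x ^ (m * a) = (x ^ (m * a) - u * e) + u * e := by ring
          rw [this, hc]
          ring
        rw [h]
        exact Ideal.add_mem _
          (Ideal.mul_mem_left _ _ (Ideal.subset_span (by simp)))
          (Ideal.mul_mem_left _ _ (Ideal.subset_span (by simp)))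
      · rw [h𝔭, Ideal.span_singleton_le_iff_mem]
        exact Ideal.subset_span (by simp)
    have h1 : relLen (Ideal.span {u, π}) (⊤ : Ideal R) ≤ ((m * a : ℕ) : ℕ∞) := by
      rw [← relLen_branch_pow 𝔭 hϖ (m * a)]
      exact relLen_mono_left hle le_top
    refine lt_of_le_of_lt h1 ?_
    have h2 : m * a < m * (a + 1) := by
      have : 0 < m := Nat.pos_of_ne_zero hm
      nlinarith
    exact_mod_cast h2


/-- **Purity at an ordinary double point of the special fibre**, (H1) at the minimal primes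
of `(u)`. -/
theorem exists_unit_mul_pow_of_node_min {u π : R} {m : ℕ} (hm : m ≠ 0)
    (𝔭₁ 𝔭₂ : Ideal R) [𝔭₁.IsPrime] [𝔭₂.IsPrime]
    [IsDiscreteValuationRing (R ⧸ 𝔭₁)] [IsDiscreteValuationRing (R ⧸ 𝔭₂)]
    (hinf : 𝔭₁ ⊓ 𝔭₂ = Ideal.span {π}) (hsup : 𝔭₁ ⊔ 𝔭₂ = IsLocalRing.maximalIdeal R)
    (hu₁ : u ∉ 𝔭₁) (hu₂ : u ∉ 𝔭₂)
    (H1 : ∀ 𝔓 ∈ (Ideal.span {u}).minimalPrimes, π ∉ 𝔓 → ∃ f r : R, r ∉ 𝔓 ∧ f ^ m = u * r)
    (H2₁ : ∃ v : R ⧸ 𝔭₁, Associated (v ^ m) (Ideal.Quotient.mk 𝔭₁ u))
    (H2₂ : ∃ v : R ⧸ 𝔭₂, Associated (v ^ m) (Ideal.Quotient.mk 𝔭₂ u)) :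
    ∃ (f : R) (ε : Rˣ), u = ε * f ^ m := by
  have h𝔭₁𝔪 : 𝔭₁ ≤ IsLocalRing.maximalIdeal R := hsup ▸ le_sup_left
  have h𝔭₂𝔪 : 𝔭₂ ≤ IsLocalRing.maximalIdeal R := hsup ▸ le_sup_right
  have hπ₁ : π ∈ 𝔭₁ :=
    (inf_le_left : 𝔭₁ ⊓ 𝔭₂ ≤ 𝔭₁) (hinf ▸ Ideal.mem_span_singleton_self π)
  have hπ₂ : π ∈ 𝔭₂ :=
    (inf_le_right : 𝔭₁ ⊓ 𝔭₂ ≤ 𝔭₂) (hinf ▸ Ideal.mem_span_singleton_self π)
  have hmem_inf : ∀ z : R, z ∈ 𝔭₁ → z ∈ 𝔭₂ → ∃ c : R, z = c * π := by
    intro z h1 h2
    have h : z ∈ 𝔭₁ ⊓ 𝔭₂ := ⟨h1, h2⟩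
    rw [hinf] at h
    exact Ideal.mem_span_singleton'.mp h |>.imp fun c hc => hc.symm
  have hu0 : u ≠ 0 := by
    rintro rfl
    exact hu₁ 𝔭₁.zero_mem
  -- uniformisers of the two branches
  obtain ⟨x, hx₂, hx⟩ := exists_mem_irreducible_mk 𝔭₁ 𝔭₂ hsup.ge
  obtain ⟨y, hy₁, hy⟩ := exists_mem_irreducible_mk 𝔭₂ 𝔭₁ (by rw [sup_comm]; exact hsup.ge)
  have hx₁ : x ∉ 𝔭₁ := fun h => hx.ne_zero (Ideal.Quotient.eq_zero_iff_mem.mpr h)
  have hy₂ : y ∉ 𝔭₂ := fun h => hy.ne_zero (Ideal.Quotient.eq_zero_iff_mem.mpr h)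
  have h𝔭₂ : 𝔭₂ ≤ Ideal.span {x} ⊔ Ideal.span {π} := by
    rw [← hinf]
    exact le_span_sup_inf 𝔭₁ 𝔭₂ hx₂ hx h𝔭₂𝔪
  have h𝔭₁ : 𝔭₁ ≤ Ideal.span {y} ⊔ Ideal.span {π} := by
    rw [← hinf, inf_comm]
    exact le_span_sup_inf 𝔭₂ 𝔭₁ hy₁ hy h𝔭₁𝔪
  have h𝔭₂' : 𝔭₂ = Ideal.span {x} ⊔ Ideal.span {π} :=
    le_antisymm h𝔭₂ (sup_le ((Ideal.span_singleton_le_iff_mem _).mpr hx₂)
      ((Ideal.span_singleton_le_iff_mem _).mpr hπ₂))
  have hπ0 : π ≠ 0 := by
    rintro rfl
    obtain ⟨c, hc⟩ := hmem_inf (x * y) (𝔭₁.mul_mem_left _ hy₁) (𝔭₂.mul_mem_right _ hx₂)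
    rw [mul_zero] at hc
    rcases mul_eq_zero.mp hc with h | h
    · exact hx₁ (h ▸ 𝔭₁.zero_mem)
    · exact hy₂ (h ▸ 𝔭₂.zero_mem)
  obtain ⟨a₁, ε₁, hε₁⟩ := exists_mk_eq_unit_mul_pow 𝔭₁ hx hm hu₁ H2₁
  obtain ⟨a₂, ε₂, hε₂⟩ := exists_mk_eq_unit_mul_pow 𝔭₂ hy hm hu₂ H2₂
  have hreg : ∀ z : R, π ∣ u * z → π ∣ z := by
    intro z hz
    have h1 : u * z ∈ 𝔭₁ ⊓ 𝔭₂ := by
      rw [hinf]
      exact Ideal.mem_span_singleton.mpr hz
    have h2 : z ∈ 𝔭₁ :=
      (Ideal.IsPrime.mem_or_mem inferInstance h1.1).resolve_left hu₁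
    have h3 : z ∈ 𝔭₂ :=
      (Ideal.IsPrime.mem_or_mem inferInstance h1.2).resolve_left hu₂
    obtain ⟨c, hc⟩ := hmem_inf z h2 h3
    exact ⟨c, by rw [hc, mul_comm]⟩
  have huπ : ∀ 𝔮 : Ideal R, 𝔮.IsPrime → u ∈ 𝔮 → π ∈ 𝔮 →
      𝔮 = IsLocalRing.maximalIdeal R := by
    intro 𝔮 h𝔮 hu𝔮 hπ𝔮
    have hle : 𝔭₁ ⊓ 𝔭₂ ≤ 𝔮 := by
      rw [hinf, Ideal.span_singleton_le_iff_mem]
      exact hπ𝔮
    refine le_antisymm (IsLocalRing.le_maximalIdeal h𝔮.ne_top) ?_
    rw [← hsup]
    rcases h𝔮.inf_le.mp hle with h | h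
    · have hx𝔮 : x ∈ 𝔮 := mem_of_le_of_mk_eq 𝔭₁ hε₁ h𝔮 h hu𝔮
      refine sup_le h (h𝔭₂.trans (sup_le ?_ ?_))
      · exact (Ideal.span_singleton_le_iff_mem _).mpr hx𝔮
      · exact (Ideal.span_singleton_le_iff_mem _).mpr hπ𝔮
    · have hy𝔮 : y ∈ 𝔮 := mem_of_le_of_mk_eq 𝔭₂ hε₂ h𝔮 h hu𝔮
      refine sup_le (h𝔭₁.trans (sup_le ?_ ?_)) h
      · exact (Ideal.span_singleton_le_iff_mem _).mpr hy𝔮
      · exact (Ideal.span_singleton_le_iff_mem _).mpr hπ𝔮
  -- the lengths of the ideals `J(b, c) = (x ^ b, y ^ c, π)`, `b, c ≥ 1`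
  have hlen : ∀ k c : ℕ, relLen
      (Ideal.span {x ^ (1 + k)} ⊔ (Ideal.span {y ^ (c + 1)} ⊔ Ideal.span {π}))
      (⊤ : Ideal R) = ((k + (c + 1) : ℕ) : ℕ∞) := by
    intro k c
    have h𝔞 : Ideal.span {y ^ (c + 1)} ⊔ Ideal.span {π} ≤ 𝔭₁ :=
      sup_le ((Ideal.span_singleton_le_iff_mem _).mpr (𝔭₁.pow_mem_of_mem hy₁ _ (by omega)))
        ((Ideal.span_singleton_le_iff_mem _).mpr hπ₁)
    have hchain := relLen_pow_chain 𝔭₁ hx _ h𝔞 1 ?_ k
    · have hbase : Ideal.span {x ^ 1} ⊔ (Ideal.span {y ^ (c + 1)} ⊔ Ideal.span {π}) =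
          Ideal.span {y ^ (c + 1)} ⊔ 𝔭₂ := by
        rw [pow_one, h𝔭₂', sup_left_comm]
      have hmono : Ideal.span {x ^ (1 + k)} ⊔ (Ideal.span {y ^ (c + 1)} ⊔ Ideal.span {π}) ≤
          Ideal.span {x ^ 1} ⊔ (Ideal.span {y ^ (c + 1)} ⊔ Ideal.span {π}) := by
        refine sup_le_sup_right ?_ _
        rw [Ideal.span_singleton_le_span_singleton]
        exact pow_dvd_pow x (by omega)
      rw [relLen_add hmono le_top, hchain, hbase, relLen_branch_pow 𝔭₂ hy (c + 1)]
      push_cast
      rfl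
    · intro n hn s hs
      obtain ⟨g, hg⟩ := exists_sub_mul_mem_of_mem_maximalIdeal 𝔭₁ hx hs
      obtain ⟨d, hd⟩ := hmem_inf ((s - x * g) * x ^ n) (𝔭₁.mul_mem_right _ hg)
        (𝔭₂.mul_mem_left _ (𝔭₂.pow_mem_of_mem hx₂ _ (by omega)))
      have h : s * x ^ n = x ^ (n + 1) * g + d * π := by
        rw [← hd]
        ring
      rw [h]
      exact Ideal.add_mem _
        (Ideal.mem_sup_left (Ideal.mem_span_singleton.mpr (Dvd.intro g rfl)))
        (Ideal.mem_sup_right (Ideal.mem_sup_right
          (Ideal.mem_span_singleton.mpr (Dvd.intro_left d rfl))))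
  refine exists_unit_mul_pow_of_relLen_min hm hu0 hπ0 (h𝔭₁𝔪 hπ₁) hreg huπ H1
    (Ideal.span {x ^ (1 + a₁)} ⊔ (Ideal.span {y ^ (a₂ + 1)} ⊔ Ideal.span {π}))
    (Ideal.mem_sup_right (Ideal.mem_sup_right (Ideal.mem_span_singleton_self π))) ?_
    (a₁ + (a₂ + 1)) (hlen a₁ a₂).ge ?_
  · -- every `f` with `f ^ m = u r`, `r ∈ 𝔪`, lies in `J(a₁ + 1, a₂ + 1)`
    intro f r hf hr
    obtain ⟨g₁, hg₁⟩ := exists_sub_pow_succ_mul_mem 𝔭₁ hx hε₁ hf hr
    obtain ⟨g₂, hg₂⟩ := exists_sub_pow_succ_mul_mem 𝔭₂ hy hε₂ hf hr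
    obtain ⟨d, hd⟩ := hmem_inf (f - x ^ (a₁ + 1) * g₁ - y ^ (a₂ + 1) * g₂)
      (𝔭₁.sub_mem hg₁ (𝔭₁.mul_mem_right _ (𝔭₁.pow_mem_of_mem hy₁ _ (by omega))))
      (by
        have h : f - x ^ (a₁ + 1) * g₁ - y ^ (a₂ + 1) * g₂ =
            (f - y ^ (a₂ + 1) * g₂) - x ^ (a₁ + 1) * g₁ := by ring
        rw [h]
        exact 𝔭₂.sub_mem hg₂ (𝔭₂.mul_mem_right _ (𝔭₂.pow_mem_of_mem hx₂ _ (by omega))))
    have h : f = x ^ (1 + a₁) * g₁ + (y ^ (a₂ + 1) * g₂ + d * π) := by
      rw [← hd, add_comm 1 a₁]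
      ring
    rw [h]
    exact Ideal.add_mem _
      (Ideal.mem_sup_left (Ideal.mem_span_singleton.mpr (Dvd.intro g₁ rfl)))
      (Ideal.mem_sup_right (Ideal.add_mem _
        (Ideal.mem_sup_left (Ideal.mem_span_singleton.mpr (Dvd.intro g₂ rfl)))
        (Ideal.mem_sup_right (Ideal.mem_span_singleton.mpr (Dvd.intro_left d rfl)))))
  · -- `ℓ(R/(u, π)) ≤ m (a₁ + a₂)`
    set J'' : Ideal R :=
      Ideal.span {x ^ (1 + m * a₁)} ⊔ (Ideal.span {y ^ (m * a₂ + 1)} ⊔ Ideal.span {π})
      with hJ''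
    set T : Ideal R := IsLocalRing.maximalIdeal R * Ideal.span {u} ⊔ Ideal.span {π} with hT
    have hxT : x ^ (1 + m * a₁) ∈ T := by
      obtain ⟨e, he⟩ := exists_pow_sub_mul_mem 𝔭₁ hε₁
      obtain ⟨d, hd⟩ := hmem_inf (x * (x ^ (m * a₁) - u * e)) (𝔭₁.mul_mem_left _ he)
        (𝔭₂.mul_mem_right _ hx₂)
      have h : x ^ (1 + m * a₁) = (x * e) * u + d * π := by
        rw [← hd]
        ring
      rw [h]
      exact Ideal.add_mem _
        (Ideal.mem_sup_left (Ideal.mul_mem_mul (Ideal.mul_mem_right _ _ (h𝔭₂𝔪 hx₂))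
          (Ideal.mem_span_singleton_self u)))
        (Ideal.mem_sup_right (Ideal.mem_span_singleton.mpr (Dvd.intro_left d rfl)))
    have hyT : y ^ (m * a₂ + 1) ∈ T := by
      obtain ⟨e, he⟩ := exists_pow_sub_mul_mem 𝔭₂ hε₂
      obtain ⟨d, hd⟩ := hmem_inf (y * (y ^ (m * a₂) - u * e)) (𝔭₁.mul_mem_right _ hy₁)
        (𝔭₂.mul_mem_left _ he)
      have h : y ^ (m * a₂ + 1) = (y * e) * u + d * π := by
        rw [← hd]
        ring
      rw [h]
      exact Ideal.add_mem _
        (Ideal.mem_sup_left (Ideal.mul_mem_mul (Ideal.mul_mem_right _ _ (h𝔭₁𝔪 hy₁))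
          (Ideal.mem_span_singleton_self u)))
        (Ideal.mem_sup_right (Ideal.mem_span_singleton.mpr (Dvd.intro_left d rfl)))
    have hJT : J'' ≤ T :=
      sup_le ((Ideal.span_singleton_le_iff_mem _).mpr hxT)
        (sup_le ((Ideal.span_singleton_le_iff_mem _).mpr hyT) le_sup_right)
    have huT : u ∉ T := by
      intro h
      obtain ⟨t, ht, p, hp, htp⟩ := Submodule.mem_sup.mp h
      obtain ⟨s, hs, rfl⟩ := Ideal.mem_mul_span_singleton.mp ht
      obtain ⟨c, rfl⟩ := Ideal.mem_span_singleton'.mp hp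
      have h1 : u * (1 - s) ∈ 𝔭₁ := by
        have : u * (1 - s) = c * π := by
          linear_combination -htp
        rw [this]
        exact 𝔭₁.mul_mem_left _ hπ₁
      rcases Ideal.IsPrime.mem_or_mem inferInstance h1 with h2 | h2
      · exact hu₁ h2
      · have h3 : (1 : R) ∈ IsLocalRing.maximalIdeal R := by
          have : (1 : R) = (1 - s) + s := by ring
          rw [this]
          exact Ideal.add_mem _ (h𝔭₁𝔪 h2) hs
        exact (Ideal.ne_top_iff_one _).mp (IsLocalRing.maximalIdeal.isMaximal R).ne_top h3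
    have hTle : T ≤ Ideal.span {u, π} := by
      refine sup_le ?_ ?_
      · refine Ideal.mul_le_right.trans ?_
        rw [Ideal.span_singleton_le_iff_mem]
        exact Ideal.subset_span (by simp)
      · rw [Ideal.span_singleton_le_iff_mem]
        exact Ideal.subset_span (by simp)
    have h1 : 1 ≤ relLen J'' (Ideal.span {u, π}) :=
      one_le_relLen_of_notMem (Ideal.subset_span (by simp)) (fun h => huT (hJT h))
    have h2 : relLen J'' (⊤ : Ideal R) = ((m * a₁ + (m * a₂ + 1) : ℕ) : ℕ∞) := hlen _ _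
    rw [relLen_add (hJT.trans hTle) le_top] at h2
    have h3 : relLen (Ideal.span {u, π}) (⊤ : Ideal R) ≠ ⊤ := by
      intro h
      rw [h, add_top] at h2
      exact ENat.top_ne_natCast _ h2
    have h4 : relLen J'' (Ideal.span {u, π}) ≠ ⊤ := by
      intro h
      rw [h, top_add] at h2
      exact ENat.top_ne_natCast _ h2
    lift relLen (Ideal.span {u, π}) (⊤ : Ideal R) to ℕ using h3 with L
    lift relLen J'' (Ideal.span {u, π}) to ℕ using h4 with L'
    have h5 : 1 ≤ L' := by exact_mod_cast h1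
    have h6 : L' + L = m * a₁ + (m * a₂ + 1) := by exact_mod_cast h2
    have h7 : L < m * (a₁ + (a₂ + 1)) := by
      have : 0 < m := Nat.pos_of_ne_zero hm
      nlinarith
    exact_mod_cast h7


end Fermat.Agent.A2.H609

end
-- ===== PACK-END A2/H609/MinPrimes.lean

-- ===== PACK-BEGIN A2/H609/Horizontal.lean
section




/-!
# Node purity, part 11: (H1) from divisibility of the horizontal valuations

`R` a noetherian integrally closed domain with fraction field `K`, `u ∈ R`, `u ≠ 0`, `𝔓` a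
minimal prime of `(u)`.  Then `R_𝔓 ⊆ K` is a discrete valuation ring
(`isDiscreteValuationRing_locAt_of_mem_minimalPrimes`), and if `u = u₀ h ^ m` with `u₀` a unit
of the corresponding valuation subring, then `f ^ m = u r` with `f, r ∈ R`, `r ∉ 𝔓`
(`exists_pow_eq_mul_of_divisible`): this is hypothesis (H1) of the purity theorems.
Mathlib + `A2.H849` (Hartogs).
-/

set_option autoImplicit false

namespace Fermat.Agent.A2.H609

open Fermat.Agent.A2.H849

variable {R : Type*} [CommRing R] [IsDomain R] [IsNoetherianRing R] [IsIntegrallyClosed R]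
variable {K : Type*} [Field K] [Algebra R K] [IsFractionRing R K]

omit [IsIntegrallyClosed R] [IsDomain R] in
/-- A minimal prime of `(u)` is a colon ideal `(u) : c`. -/
theorem exists_colon_of_mem_minimalPrimes {u : R} {𝔓 : Ideal R}
    (h𝔓 : 𝔓 ∈ (Ideal.span {u}).minimalPrimes) :
    ∃ c : R, ∀ r, r ∈ 𝔓 ↔ u ∣ r * c := by
  have h1 : 𝔓 ∈ (Module.annihilator R (R ⧸ Ideal.span {u})).minimalPrimes := by
    rw [Ideal.annihilator_quotient]
    exact h𝔓
  have h2 := Module.associatedPrimes.minimalPrimes_annihilator_subset_associatedPrimes R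
    (R ⧸ Ideal.span {u}) h1
  obtain ⟨-, y, hy⟩ := (isAssociatedPrime_iff (I := 𝔓) (M := R ⧸ Ideal.span {u})).1 h2
  obtain ⟨c, rfl⟩ := Ideal.Quotient.mk_surjective y
  refine ⟨c, fun r => ?_⟩
  rw [hy, Submodule.mem_colon_singleton, Submodule.mem_bot]
  exact smul_mk_span_eq_zero_iff u r c

/-- The localisation at a minimal prime of a nonzero principal ideal is a discrete valuation
ring. -/
theorem isDiscreteValuationRing_locAt_of_mem_minimalPrimes {u : R} (hu : u ≠ 0)
    {𝔓 : Ideal R} [𝔓.IsPrime] (h𝔓 : 𝔓 ∈ (Ideal.span {u}).minimalPrimes) :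
    IsDiscreteValuationRing (locAt K 𝔓) := by
  obtain ⟨c, hc⟩ := exists_colon_of_mem_minimalPrimes h𝔓
  exact isDiscreteValuationRing_locAt_of_colon 𝔓 u c hu hc

omit [IsDomain R] [IsNoetherianRing R] [IsIntegrallyClosed R] [Algebra R K]
  [IsFractionRing R K] in
/-- In a valuation subring, `x ^ m ∈ V → x ∈ V`. -/
theorem mem_valuationSubring_of_pow_mem (V : ValuationSubring K) {x : K} {m : ℕ} (hm : m ≠ 0)
    (hx : x ^ m ∈ V) : x ∈ V := by
  rcases V.mem_or_inv_mem x with h | h
  · exact h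
  · by_cases hx0 : x = 0
    · rw [hx0]
      exact V.zero_mem
    have h1 : x = x ^ m * x⁻¹ ^ (m - 1) := by
      obtain ⟨k, rfl⟩ := Nat.exists_eq_succ_of_ne_zero hm
      rw [Nat.succ_sub_one, pow_succ, inv_pow]
      field_simp
    rw [h1]
    exact V.mul_mem _ _ hx (V.pow_mem h _)

/-- **(H1) from divisibility.**  At a minimal prime `𝔓` of `(u)`: if `u = u₀ h ^ m` with `u₀` a
unit of the discrete valuation ring `R_𝔓`, then `f ^ m = u r` with `r ∉ 𝔓`. -/
theorem exists_pow_eq_mul_of_divisible {u : R} (hu : u ≠ 0) {m : ℕ} (hm : m ≠ 0)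
    {𝔓 : Ideal R} (h𝔓 : 𝔓 ∈ (Ideal.span {u}).minimalPrimes)
    (hdiv : ∀ V : ValuationSubring K, IsDiscreteValuationRing V →
      (∀ r : R, algebraMap R K r ∈ V) → (∀ s : R, s ∉ 𝔓 → (algebraMap R K s)⁻¹ ∈ V) →
      ∃ h u₀ : K, u₀ ∈ V ∧ u₀⁻¹ ∈ V ∧ algebraMap R K u = u₀ * h ^ m) :
    ∃ f r : R, r ∉ 𝔓 ∧ f ^ m = u * r := by
  have h𝔓p : 𝔓.IsPrime := h𝔓.1.1
  have hinj : Function.Injective (algebraMap R K) := IsFractionRing.injective R K
  have hdvr : IsDiscreteValuationRing (locAt K 𝔓) :=
    isDiscreteValuationRing_locAt_of_mem_minimalPrimes hu h𝔓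
  have hV := isLocDVR_locValuationSubring (K := K) 𝔓 hdvr
  set V : ValuationSubring K :=
    locValuationSubring 𝔓 (inferInstance : ValuationRing (locAt K 𝔓)) with hVdef
  obtain ⟨h, u₀, hu₀, hu₀', huh⟩ := hdiv V hV.dvr hV.le hV.inv_mem
  have huK : algebraMap R K u ≠ 0 := fun h0 => hu (hinj (by rw [h0, map_zero]))
  have hu₀0 : u₀ ≠ 0 := by
    rintro rfl
    rw [zero_mul] at huh
    exact huK huh
  have hh0 : h ≠ 0 := by
    rintro rfl
    rw [zero_pow hm, mul_zero] at huh
    exact huK huh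
  have hhV : h ∈ V := by
    refine mem_valuationSubring_of_pow_mem V hm ?_
    have : h ^ m = algebraMap R K u * u₀⁻¹ := by
      rw [huh]
      field_simp
    rw [this]
    exact V.mul_mem _ _ (hV.le u) hu₀'
  obtain ⟨φ, s, hs, hφ⟩ := hV.exists_frac h hhV
  obtain ⟨ρ, t, ht, hρ⟩ := hV.exists_frac u₀⁻¹ hu₀'
  have hsK : algebraMap R K s ≠ 0 := by
    intro h0
    apply hs
    rw [hinj (by rw [h0, map_zero] : algebraMap R K s = algebraMap R K 0)]
    exact 𝔓.zero_mem
  have htK : algebraMap R K t ≠ 0 := by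
    intro h0
    apply ht
    rw [hinj (by rw [h0, map_zero] : algebraMap R K t = algebraMap R K 0)]
    exact 𝔓.zero_mem
  have hρK : algebraMap R K ρ ≠ 0 := by
    intro h0
    rw [h0, zero_mul] at hρ
    exact inv_ne_zero hu₀0 hρ
  have hρ0 : ρ ≠ 0 := by
    rintro rfl
    exact hρK (map_zero _)
  have hu₀ρ : u₀ * algebraMap R K ρ = algebraMap R K t := by
    have h1 : u₀ * u₀⁻¹ = 1 := mul_inv_cancel₀ hu₀0
    rw [hρ] at h1
    field_simp at h1
    exact h1
  have hρ𝔓 : ρ ∉ 𝔓 := by
    intro hmem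
    apply hV.inv_not_mem ρ hmem hρ0
    have : (algebraMap R K ρ)⁻¹ = u₀ * (algebraMap R K t)⁻¹ := by
      rw [← hu₀ρ]
      field_simp
    rw [this]
    exact V.mul_mem _ _ hu₀ (hV.inv_mem t ht)
  refine ⟨φ * t, ρ * s ^ m * t ^ (m - 1), ?_, ?_⟩
  · intro hmem
    rcases h𝔓p.mem_or_mem hmem with h1 | h1
    · rcases h𝔓p.mem_or_mem h1 with h2 | h2
      · exact hρ𝔓 h2
      · exact hs (h𝔓p.mem_of_pow_mem m h2)
    · exact ht (h𝔓p.mem_of_pow_mem _ h1)
  · apply hinj
    obtain ⟨k, rfl⟩ := Nat.exists_eq_succ_of_ne_zero hm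
    rw [Nat.succ_sub_one]
    simp only [map_mul, map_pow]
    have hs' : h * algebraMap R K s = algebraMap R K φ := by
      rw [hφ]
      field_simp
    calc (algebraMap R K φ * algebraMap R K t) ^ (k + 1)
        = algebraMap R K t * (algebraMap R K φ) ^ (k + 1) * (algebraMap R K t) ^ k := by ring
      _ = (u₀ * algebraMap R K ρ) * (h * algebraMap R K s) ^ (k + 1) *
            (algebraMap R K t) ^ k := by rw [hu₀ρ, hs']
      _ = algebraMap R K u * (algebraMap R K ρ * (algebraMap R K s) ^ (k + 1) *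
            (algebraMap R K t) ^ k) := by rw [huh, Nat.succ_eq_add_one]; ring

end Fermat.Agent.A2.H609

end
-- ===== PACK-END A2/H609/Horizontal.lean

-- ===== PACK-BEGIN A2/H729/Bridge.lean
section



/-!
# A2 (helper729): from the components of the special fibre to the canonical Gauss ring

`B = chart R {x}`, `p₁, p₂` prime ideals of `B` with `p₁ ⊓ p₂ = (w)` (the two components of a
reduced special fibre).

* `inv_mem_gaussO_of_not_mem` (**Gauss units**): `b ∈ B`, `b ∉ p₁`, `b ∉ p₂` implies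
  `b⁻¹ ∈ gaussO` (going-up and incomparability for the integral extension `R[x] ⊆ B`).
* `inW_sub_one_of_oneAt` (**bridge**): if `h ≡ 1` on both components
  (`h b_i = a_i`, `b_i ∉ p_i`, `a_i - b_i ∈ p_i`) and the components are incomparable, then
  `h ≡ 1 mod w · gaussO`.
-/

set_option autoImplicit false
set_option linter.unusedSectionVars false
set_option linter.style.haveILetI false

namespace Fermat.Agent.A2.H729

open Polynomial Fermat.Agent.S18.H138

variable {R : Type*} [CommRing R] [IsDomain R] {F : Type*} [Field F] [Algebra R F]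

/-- The inclusion `R[x] → chart R {x}`. -/
noncomputable def adjoinToChart (x : F) :
    Algebra.adjoin R ({x} : Set F) →+* chart R ({x} : Set F) :=
  (Subalgebra.inclusion (adjoin_le_chart (R := R) ({x} : Set F))).toRingHom

theorem coe_adjoinToChart (x : F) (a : Algebra.adjoin R ({x} : Set F)) :
    ((adjoinToChart x a : chart R ({x} : Set F)) : F) = (a : F) := rfl

theorem adjoinToChart_algebraMap (x : F) (r : R) :
    adjoinToChart x (algebraMap R (Algebra.adjoin R ({x} : Set F)) r) =
      algebraMap R (chart R ({x} : Set F)) r := rfl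

theorem adjoinToChart_isIntegral (x : F) : (adjoinToChart (R := R) x).IsIntegral := by
  intro b
  obtain ⟨p, hpm, hp⟩ := (mem_chart.1 b.2 : IsIntegral (Algebra.adjoin R ({x} : Set F)) (b : F))
  refine ⟨p, hpm, ?_⟩
  apply Subtype.ext
  have h1 : ((eval₂ (adjoinToChart (R := R) x) b p : chart R ({x} : Set F)) : F) =
      eval₂ (((chart R ({x} : Set F)).val.toRingHom).comp (adjoinToChart (R := R) x))
        (b : F) p :=
    hom_eval₂ p (adjoinToChart (R := R) x) ((chart R ({x} : Set F)).val.toRingHom) b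
  rw [h1]
  exact hp

/-- **Gauss units.**  An element of the chart outside both components of the special fibre is
a unit of the Gauss ring. -/
theorem exists_gaussDenom_mul_of_not_mem {w : R} (hw : Prime w) {x : F}
    (hx : Transcendental R x) {p₁ p₂ : Ideal (chart R ({x} : Set F))}
    (hp₁ : p₁.IsPrime) (hp₂ : p₂.IsPrime)
    (hinf : p₁ ⊓ p₂ = Ideal.span {algebraMap R (chart R ({x} : Set F)) w})
    {b : chart R ({x} : Set F)} (hb₁ : b ∉ p₁) (hb₂ : b ∉ p₂) :
    ∃ s : F, IsGaussDenom w x s ∧ ∃ c : chart R ({x} : Set F), s = (b : F) * (c : F) := by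
  classical
  letI : Algebra (Algebra.adjoin R ({x} : Set F)) (chart R ({x} : Set F)) :=
    (adjoinToChart (R := R) x).toAlgebra
  haveI : Algebra.IsIntegral (Algebra.adjoin R ({x} : Set F)) (chart R ({x} : Set F)) :=
    ⟨adjoinToChart_isIntegral x⟩
  have hwAp : Prime (algebraMap R (Algebra.adjoin R ({x} : Set F)) w) :=
    prime_algebraMap_adjoin hw hx
  haveI hPprime : (Ideal.span {algebraMap R (Algebra.adjoin R ({x} : Set F)) w}).IsPrime :=
    (Ideal.span_singleton_prime hwAp.ne_zero).2 hwAp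
  have hw₁ : algebraMap R (chart R ({x} : Set F)) w ∈ p₁ := by
    have : algebraMap R (chart R ({x} : Set F)) w ∈ p₁ ⊓ p₂ := by
      rw [hinf]; exact Ideal.mem_span_singleton_self _
    exact this.1
  have hw₂ : algebraMap R (chart R ({x} : Set F)) w ∈ p₂ := by
    have : algebraMap R (chart R ({x} : Set F)) w ∈ p₁ ⊓ p₂ := by
      rw [hinf]; exact Ideal.mem_span_singleton_self _
    exact this.2
  -- the key claim
  have key : ¬ (Ideal.span {b}).comap
      (algebraMap (Algebra.adjoin R ({x} : Set F)) (chart R ({x} : Set F))) ≤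
      Ideal.span {algebraMap R (Algebra.adjoin R ({x} : Set F)) w} := by
    intro hle
    obtain ⟨Q, hQb, hQp, hQ⟩ := Ideal.exists_ideal_over_prime_of_isIntegral
      (Ideal.span {algebraMap R (Algebra.adjoin R ({x} : Set F)) w}) (Ideal.span {b}) hle
    have hbQ : b ∈ Q := hQb (Ideal.mem_span_singleton_self b)
    have hwQ : algebraMap R (chart R ({x} : Set F)) w ∈ Q := by
      have : algebraMap R (Algebra.adjoin R ({x} : Set F)) w ∈
          Q.comap (algebraMap (Algebra.adjoin R ({x} : Set F)) (chart R ({x} : Set F))) := by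
        rw [hQ]; exact Ideal.mem_span_singleton_self _
      exact this
    have hle' : p₁ ⊓ p₂ ≤ Q := by
      rw [hinf, Ideal.span_singleton_le_iff_mem]
      exact hwQ
    -- a component contained in `Q` with the same contraction equals `Q`
    have aux : ∀ p : Ideal (chart R ({x} : Set F)), p.IsPrime →
        algebraMap R (chart R ({x} : Set F)) w ∈ p → p ≤ Q → b ∉ p → False := by
      intro p hp hwp hpQ hbp
      have hlt : p < Q := lt_of_le_of_ne hpQ (fun h => hbp (h ▸ hbQ))
      obtain ⟨z, hzQ, hzp⟩ := SetLike.exists_of_lt hlt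
      have h1 : p.comap (algebraMap (Algebra.adjoin R ({x} : Set F)) (chart R ({x} : Set F))) <
          Q.comap (algebraMap (Algebra.adjoin R ({x} : Set F)) (chart R ({x} : Set F))) :=
        Ideal.comap_lt_comap_of_integral_mem_sdiff hpQ ⟨hzQ, hzp⟩
          (Algebra.IsIntegral.isIntegral z)
      have h2 : Q.comap (algebraMap (Algebra.adjoin R ({x} : Set F)) (chart R ({x} : Set F))) ≤
          p.comap (algebraMap (Algebra.adjoin R ({x} : Set F)) (chart R ({x} : Set F))) := by
        rw [hQ, Ideal.span_singleton_le_iff_mem]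
        exact hwp
      exact (lt_irrefl _ (lt_of_lt_of_le h1 h2))
    rcases (Ideal.IsPrime.inf_le hQp).1 hle' with h | h
    · exact aux p₁ hp₁ hw₁ h hb₁
    · exact aux p₂ hp₂ hw₂ h hb₂
  obtain ⟨a, ha, haP⟩ := SetLike.not_le_iff_exists.1 key
  have ha' : algebraMap (Algebra.adjoin R ({x} : Set F)) (chart R ({x} : Set F)) a ∈
      Ideal.span {b} := ha
  obtain ⟨c, hc⟩ := Ideal.mem_span_singleton'.1 ha'
  have hnd : ¬ algebraMap R (Algebra.adjoin R ({x} : Set F)) w ∣ a :=
    fun h => haP (Ideal.mem_span_singleton.2 h)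
  refine ⟨(a : F), isGaussDenom_of_not_dvd hx hnd, c, ?_⟩
  have := congrArg (fun t : chart R ({x} : Set F) => (t : F)) hc
  rw [mul_comm]
  exact this.symm

theorem inv_mem_gaussO_of_not_mem {w : R} (hw : Prime w) {x : F}
    (hx : Transcendental R x) {p₁ p₂ : Ideal (chart R ({x} : Set F))}
    (hp₁ : p₁.IsPrime) (hp₂ : p₂.IsPrime)
    (hinf : p₁ ⊓ p₂ = Ideal.span {algebraMap R (chart R ({x} : Set F)) w})
    {b : chart R ({x} : Set F)} (hb₁ : b ∉ p₁) (hb₂ : b ∉ p₂) :
    (b : F)⁻¹ ∈ gaussO hw x := by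
  obtain ⟨s, hs, c, hsc⟩ := exists_gaussDenom_mul_of_not_mem hw hx hp₁ hp₂ hinf hb₁ hb₂
  have hb0 : (b : F) ≠ 0 := by
    intro h0
    apply hb₁
    have : b = 0 := Subtype.ext h0
    rw [this]
    exact p₁.zero_mem
  refine ⟨s, hs, ?_⟩
  have : s * (b : F)⁻¹ = (c : F) := by
    rw [hsc]; field_simp
  rw [this]
  exact c.2

/-- **Bridge.**  `h ≡ 1` on both components implies `h ≡ 1 mod w · gaussO`. -/
theorem inW_sub_one_of_oneAt {w : R} (hw : Prime w) {x : F}
    (hx : Transcendental R x) {p₁ p₂ : Ideal (chart R ({x} : Set F))}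
    (hp₁ : p₁.IsPrime) (hp₂ : p₂.IsPrime)
    (hinf : p₁ ⊓ p₂ = Ideal.span {algebraMap R (chart R ({x} : Set F)) w})
    (h₁₂ : ¬ p₁ ≤ p₂) (h₂₁ : ¬ p₂ ≤ p₁) {h : F}
    (hone₁ : ∃ a b : chart R ({x} : Set F), b ∉ p₁ ∧ a - b ∈ p₁ ∧ h * (b : F) = (a : F))
    (hone₂ : ∃ a b : chart R ({x} : Set F), b ∉ p₂ ∧ a - b ∈ p₂ ∧ h * (b : F) = (a : F)) :
    InW (gaussO hw x) w (h - 1) := by
  obtain ⟨a₁, b₁, hb₁, hab₁, e₁⟩ := hone₁
  obtain ⟨a₂, b₂, hb₂, hab₂, e₂⟩ := hone₂
  obtain ⟨c₂, hc₂p₁, hc₂p₂⟩ := SetLike.not_le_iff_exists.1 h₁₂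
  obtain ⟨c₁, hc₁p₂, hc₁p₁⟩ := SetLike.not_le_iff_exists.1 h₂₁
  -- `c₁ ∈ p₂ ∖ p₁`, `c₂ ∈ p₁ ∖ p₂`
  set b := b₁ * c₁ + b₂ * c₂ with hb
  set a := a₁ * c₁ + a₂ * c₂ with ha
  have hbp₁ : b ∉ p₁ := by
    intro hmem
    have h1 : b₂ * c₂ ∈ p₁ := p₁.mul_mem_left _ hc₂p₁
    have h2 : b₁ * c₁ ∈ p₁ := by
      have := p₁.sub_mem hmem h1
      rwa [hb, add_sub_cancel_right] at this
    rcases hp₁.mem_or_mem h2 with h3 | h3
    · exact hb₁ h3
    · exact hc₁p₁ h3
  have hbp₂ : b ∉ p₂ := by
    intro hmem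
    have h1 : b₁ * c₁ ∈ p₂ := p₂.mul_mem_left _ hc₁p₂
    have h2 : b₂ * c₂ ∈ p₂ := by
      have := p₂.sub_mem hmem h1
      rwa [hb, add_sub_cancel_left] at this
    rcases hp₂.mem_or_mem h2 with h3 | h3
    · exact hb₂ h3
    · exact hc₂p₂ h3
  have hab : a - b ∈ p₁ ⊓ p₂ := by
    have e : a - b = (a₁ - b₁) * c₁ + (a₂ - b₂) * c₂ := by rw [ha, hb]; ring
    rw [e]
    refine ⟨p₁.add_mem (p₁.mul_mem_right _ hab₁) (p₁.mul_mem_left _ hc₂p₁),
      p₂.add_mem (p₂.mul_mem_left _ hc₁p₂) (p₂.mul_mem_right _ hab₂)⟩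
  rw [hinf] at hab
  obtain ⟨d, hd⟩ := Ideal.mem_span_singleton'.1 hab
  have hbinv := inv_mem_gaussO_of_not_mem hw hx hp₁ hp₂ hinf hbp₁ hbp₂
  have hb0 : (b : F) ≠ 0 := by
    intro h0
    apply hbp₁
    have : b = 0 := Subtype.ext h0
    rw [this]
    exact p₁.zero_mem
  have ehb : h * (b : F) = (a : F) := by
    have : (b : F) = (b₁ : F) * c₁ + (b₂ : F) * c₂ := by rw [hb]; rfl
    rw [this]
    have : (a : F) = (a₁ : F) * c₁ + (a₂ : F) * c₂ := by rw [ha]; rfl
    rw [this, ← e₁, ← e₂]
    ring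
  have hdF : (a : F) - (b : F) = (d : F) * algebraMap R F w := by
    have := congrArg (fun t : chart R ({x} : Set F) => (t : F)) hd
    exact this.symm
  refine ⟨(d : F) * (b : F)⁻¹,
    Subalgebra.mul_mem _ (chart_fin_le_gaussO hw x d.2) hbinv, ?_⟩
  have : h - 1 = ((a : F) - (b : F)) * (b : F)⁻¹ := by
    rw [← ehb]; field_simp
  rw [this, hdF]
  ring

end Fermat.Agent.A2.H729

end
-- ===== PACK-END A2/H729/Bridge.lean

-- ===== PACK-BEGIN A2/Mod/H13/S1.lean
section



/-!
# WALL A2 / MODASM, sub-assembly S1 (helper13): the two components of the special fibre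

`s1 : VzeroNeStatement → DegStatement → IndInfStatement → IndZeroStatement → S1Statement`
(leaves L6, L8, L9, L10 of `Mod/Spec.lean`; L2 and L3 are used from main).

For both charts `B = chartAlg y`, `y ∈ {x, x⁻¹}`, `x = j · j_q`: the ideals `p∞ = B ∩ w V∞`,
`p₀ = B ∩ w V₀` are prime, incomparable, and `p∞ ⊓ p₀ = w B` (the special fibre is reduced with
exactly two components).  Proof: `Frame.lean` (leaves ⟹ frame) + helper489's
`frame_exists_components(_inv)` (frame ⟹ components; two-extension theorem + QEP2).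
-/

set_option autoImplicit false
set_option linter.unusedSectionVars false
set_option linter.style.haveILetI false
set_option synthInstance.maxHeartbeats 400000
set_option maxHeartbeats 1600000

noncomputable section

namespace Fermat.Agent.A2.Mod.H13

open ModularCurve HahnSeries Polynomial IntermediateField
open Fermat.Agent.A2 Fermat.Agent.A2.Mod

variable {P : ValuationSubring _root_.Fermat.Agent.A2.Mod.Qb} {E : IntermediateField ℚ _root_.Fermat.Agent.A2.Mod.Qb} {M q : ℕ} [NeZero M] [NeZero q]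
  {w : _root_.Fermat.Agent.A2.Mod.RE P E}

/-- **S1.** -/
theorem s1 (hL6 : VzeroNeStatement P E M q w) (hL8 : DegStatement E M q)
    (hL9 : IndInfStatement P E M q w) (hL10 : IndZeroStatement P E M q w) :
    S1Statement P E M q w := by
  intro hS V W hV hW y hy
  haveI := hS.dvr
  obtain ⟨htr, hfr, -⟩ := hL8 hS.q_prime hS.q_not_dvd
  obtain ⟨b, hb, hbI⟩ := hL9 hS V hV
  obtain ⟨c, hc, hcI⟩ := hL10 hS V W hV hW
  have hu : H48.IsUnif V (cE P E (M * q) w) :=
    (H553.vinfBasic P E w (M * q) (NeZero.ne _) hS.dvr hS.unif V hV).1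
  have hu₂ := isUnif_comap hu W
  have hG₁ := isGaussOver_xE hS.unif hV htr
  have hG₂ := isGaussOver_comap_xE hS.unif hV hW htr
  have hne : V ≠ V.comap (W : _root_.Fermat.Agent.A2.Mod.FE E (M * q) →+* _root_.Fermat.Agent.A2.Mod.FE E (M * q)) :=
    fun h => hL6 hS V W hV hW h.symm
  have hpos : 0 < Module.finrank (IntermediateField.adjoin E ({xE E M q} : Set (_root_.Fermat.Agent.A2.Mod.FE E (M * q))))
      (_root_.Fermat.Agent.A2.Mod.FE E (M * q)) := by
    rw [hfr]
    have h1 := dedekindPsi_pos_of_ne_zero M (NeZero.ne M)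
    positivity
  haveI hfin : FiniteDimensional (IntermediateField.adjoin E ({xE E M q} : Set (_root_.Fermat.Agent.A2.Mod.FE E (M * q))))
      (_root_.Fermat.Agent.A2.Mod.FE E (M * q)) := Module.finite_of_finrank_pos hpos
  have hdeg : Module.finrank (IntermediateField.adjoin E ({xE E M q} : Set (_root_.Fermat.Agent.A2.Mod.FE E (M * q))))
      (_root_.Fermat.Agent.A2.Mod.FE E (M * q)) ≤ (q + 1) * dedekindPsi M + (q + 1) * dedekindPsi M := by
    rw [hfr, two_mul]
  have hI₁ := polyIndepMod_of_indepMod hS.unif hu hbI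
  have hI₂ := polyIndepMod_of_indepMod hS.unif hu₂ hcI
  rcases hy with rfl | rfl
  · obtain ⟨p₁, p₂, hc₁, hc₂, hp₁, hp₂, -, h₁₂, h₂₁, hinf⟩ :=
      H489.frame_exists_components (E := E) hS.unif hG₁ hG₂ hu hu₂ hne hb hc hI₁ hI₂ hdeg
        (chartAlg P E (M * q) (xE E M q)) (fun _ => Iff.rfl)
    exact ⟨p₁, p₂, fun b => (hc₁ b).trans (inW_iff_mem_nonunits hu _).symm,
      fun b => (hc₂ b).trans (inW_iff_mem_nonunits hu₂ _).symm, hp₁, hp₂, h₁₂, h₂₁, hinf⟩
  · obtain ⟨p₁, p₂, hc₁, hc₂, hp₁, hp₂, -, h₁₂, h₂₁, hinf⟩ :=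
      H489.frame_exists_components_inv (E := E) hS.unif hG₁ hG₂ hu hu₂ hne hb hc hI₁ hI₂ hdeg
        (chartAlg P E (M * q) (xE E M q)⁻¹) (fun _ => Iff.rfl)
    exact ⟨p₁, p₂, fun b => (hc₁ b).trans (inW_iff_mem_nonunits hu _).symm,
      fun b => (hc₂ b).trans (inW_iff_mem_nonunits hu₂ _).symm, hp₁, hp₂, h₁₂, h₂₁, hinf⟩

end Fermat.Agent.A2.Mod.H13

end
end
-- ===== PACK-END A2/Mod/H13/S1.lean

-- ===== PACK-BEGIN S18/B12/H638/Normal.lean
section



/-!
# S18 b2 (helper638): FULL NORMALITY of the special fibre — `B2NormalDomStatement`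

Requested by row S37 (helper37, `coord/S37-b2-request.md`): hypothesis (H3) `lift_fin`/`lift_inf`
of the S37 reduction datum needs b2 for ALL integral elements of `Frac (B/wB)`, not only for
idempotents.

* `H638.B2NormalDomStatement` : the requested statement `B2NormalStatement`, with the extra hypothesis
  `hdom : Prime (algebraMap R[X] B (C w))` (the special fibre is a domain; in the application
  `B/wB` embeds into `κ((q))` by the `q`-expansion principle).
* `B2IntClosedStatement` : same hypotheses, conclusion `IsIntegrallyClosed (B/wB)`.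
* `b2IntClosed_of_pieces`, `b2NormalDom_of_pieces` : both from the frozen pieces
  `B2CoreAbsStatement` (A6'), `RegSeqAbsStatement` (A0), `IntClosedOfDiscrStatement` (A8),
  `PolyInstStatement` (A1) of `B12/Spec*.lean`.
* `b2NormalDom_of_intClosed` : the pure algebra step (no pieces): in a domain `B` with `w` prime and
  `B/wB` integrally closed, `b/g` integral over `B/wB` implies `b ≡ g b₀ mod w`.
-/

set_option autoImplicit false
set_option linter.style.haveILetI false

noncomputable section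

namespace Fermat.Agent.S18.B12.H638

open Polynomial

universe u v

/-- **b2, integrally closed form.**  Hypotheses of `B2RegularStatement`; conclusion: the special
fibre `B/wB` is an integrally closed domain. -/
def B2IntClosedStatement : Prop :=
  ∀ (R : Type u) [CommRing R] [IsDomain R] [IsDiscreteValuationRing R] [CharZero R]
    (w : R) (_ : Irreducible w)
    (B : Type v) [CommRing B] [IsDomain B] [IsIntegrallyClosed B] [Algebra R[X] B]
    [Module.Finite R[X] B] [Module.IsTorsionFree R[X] B]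
    (_ : Prime (algebraMap R[X] B (C w)))
    (_ : ∃ x : Fin (Module.finrank R[X] B) → B,
        ¬ C w ∣ (Matrix.of fun i j => Algebra.intTrace R[X] B (x i * x j)).det)
    (S : Finset R) (_ : ∀ c ∈ S, ∀ c' ∈ S, c ≠ c' → IsUnit (c - c'))
    (_ : ∀ π : R[X], Prime π → ¬ Associated π (C w) → (∀ c ∈ S, ¬ Associated π (X - C c)) →
        (Ideal.span {algebraMap R[X] B π}).IsRadical),
    IsIntegrallyClosed (B ⧸ Ideal.span {algebraMap R[X] B (C w)})

/-- **b2, full normality form (domain case).**  `B2NormalStatement` of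
`origin/helper37:coord/S37-b2-request.md` with the extra hypothesis that `w` is prime in `B`:
if `ε = b/g` satisfies `ε^d + Σ a_i ε^i = 0` in `Frac (B/wB)` then `ε ∈ B/wB`. -/
def B2NormalDomStatement : Prop :=
  ∀ (R : Type u) [CommRing R] [IsDomain R] [IsDiscreteValuationRing R] [CharZero R]
    (w : R) (_ : Irreducible w)
    (B : Type v) [CommRing B] [IsDomain B] [IsIntegrallyClosed B] [Algebra R[X] B]
    [Module.Finite R[X] B] [Module.IsTorsionFree R[X] B]
    (_ : Prime (algebraMap R[X] B (C w)))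
    (_ : ∃ x : Fin (Module.finrank R[X] B) → B,
        ¬ C w ∣ (Matrix.of fun i j => Algebra.intTrace R[X] B (x i * x j)).det)
    (S : Finset R) (_ : ∀ c ∈ S, ∀ c' ∈ S, c ≠ c' → IsUnit (c - c'))
    (_ : ∀ π : R[X], Prime π → ¬ Associated π (C w) → (∀ c ∈ S, ¬ Associated π (X - C c)) →
        (Ideal.span {algebraMap R[X] B π}).IsRadical)
    (b : B) (g : R[X]), ¬ C w ∣ g →
    (∃ (d : ℕ) (a : Fin d → B),
        b ^ d + ∑ i : Fin d, a i * b ^ (i : ℕ) * algebraMap R[X] B g ^ (d - (i : ℕ)) ∈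
          Ideal.span {algebraMap R[X] B (C w)}) →
      ∃ b₀ : B, b - algebraMap R[X] B g * b₀ ∈ Ideal.span {algebraMap R[X] B (C w)}


/-- In a torsion-free integral extension `B` of an integrally closed domain `P`, divisibility of
elements of `P` can be tested in `B`. -/
theorem dvd_of_algebraMap_dvd {P : Type u} {B : Type v} [CommRing P] [IsDomain P]
    [IsIntegrallyClosed P] [CommRing B] [IsDomain B] [Algebra P B] [Algebra.IsIntegral P B]
    [Module.IsTorsionFree P B] (w g : P) (hw : w ≠ 0)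
    (h : algebraMap P B w ∣ algebraMap P B g) : w ∣ g := by
  obtain ⟨c, hc⟩ := h
  have hinj : Function.Injective (algebraMap P B) := FaithfulSMul.algebraMap_injective P B
  let K := FractionRing P
  let L := FractionRing B
  have hinjL : Function.Injective (algebraMap P L) := by
    rw [IsScalarTower.algebraMap_eq P B L]
    exact (IsFractionRing.injective B L).comp hinj
  haveI : FaithfulSMul P L := (faithfulSMul_iff_algebraMap_injective P L).mpr hinjL
  letI : Algebra K L := FractionRing.liftAlgebra P L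
  haveI : IsScalarTower P K L := FractionRing.isScalarTower_liftAlgebra P L
  have hwK : algebraMap P K w ≠ 0 := by
    intro h0
    exact hw ((IsFractionRing.injective P K) (by rw [h0, map_zero]))
  set k : K := algebraMap P K g / algebraMap P K w with hk
  have hkL : algebraMap K L k = algebraMap B L c := by
    have hwL : algebraMap K L (algebraMap P K w) ≠ 0 := by
      intro h0
      exact hwK ((algebraMap K L).injective (by rw [h0, map_zero]))
    rw [hk, map_div₀, div_eq_iff hwL, ← IsScalarTower.algebraMap_apply P K L,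
      ← IsScalarTower.algebraMap_apply P K L, IsScalarTower.algebraMap_apply P B L g, hc,
      map_mul, IsScalarTower.algebraMap_apply P B L w, mul_comm]
  have hint : IsIntegral P k := by
    have h1 : IsIntegral P (algebraMap B L c) :=
      (Algebra.IsIntegral.isIntegral (R := P) c).algebraMap
    rw [← hkL] at h1
    exact (isIntegral_algebraMap_iff (algebraMap K L).injective).mp h1
  obtain ⟨y, hy⟩ := (IsIntegrallyClosed.isIntegral_iff (R := P) (K := K)).mp hint
  refine ⟨y, ?_⟩
  apply IsFractionRing.injective P K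
  rw [map_mul, hy, hk, mul_div_cancel₀ _ hwK]

/-- **Pure algebra step.**  `B` a commutative ring, `ϖ ∈ B` prime with `B/ϖB` integrally closed,
`γ ∉ ϖB`.  If `b^d + Σ_{i<d} a_i b^i γ^(d-i) ∈ ϖB` then `b ≡ γ b₀ mod ϖ` for some `b₀`. -/
theorem exists_sub_mul_mem_of_isIntegrallyClosed {B : Type v} [CommRing B] (ϖ : B)
    (hϖ : Prime ϖ) [IsIntegrallyClosed (B ⧸ Ideal.span {ϖ})] (b γ : B)
    (hγ : γ ∉ Ideal.span {ϖ}) (d : ℕ) (a : Fin d → B)
    (h : b ^ d + ∑ i : Fin d, a i * b ^ (i : ℕ) * γ ^ (d - (i : ℕ)) ∈ Ideal.span {ϖ}) :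
    ∃ b₀ : B, b - γ * b₀ ∈ Ideal.span {ϖ} := by
  haveI hprime : (Ideal.span {ϖ}).IsPrime := (Ideal.span_singleton_prime hϖ.ne_zero).mpr hϖ
  haveI : IsDomain (B ⧸ Ideal.span {ϖ}) := Ideal.Quotient.isDomain _
  set Cq := B ⧸ Ideal.span {ϖ} with hCq
  set K := FractionRing Cq with hK
  let mk : B →+* Cq := Ideal.Quotient.mk _
  have hγ0 : mk γ ≠ 0 := fun h0 => hγ (Ideal.Quotient.eq_zero_iff_mem.mp h0)
  have hγK : algebraMap Cq K (mk γ) ≠ 0 := by
    intro h0
    exact hγ0 ((IsFractionRing.injective Cq K) (by rw [h0, map_zero]))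
  -- the equation in `Cq`
  have heq : mk b ^ d + ∑ i : Fin d, mk (a i) * mk b ^ (i : ℕ) * mk γ ^ (d - (i : ℕ)) = 0 := by
    have := Ideal.Quotient.eq_zero_iff_mem.mpr h
    simpa [map_add, map_sum, map_mul, map_pow] using this
  -- the monic polynomial
  let p : Cq[X] := X ^ d + ∑ i : Fin d, C (mk (a i)) * X ^ (i : ℕ)
  have hlt : (∑ i : Fin d, C (mk (a i)) * X ^ (i : ℕ) : Cq[X]).degree < (d : WithBot ℕ) :=
    Polynomial.degree_sum_fin_lt fun i => mk (a i)
  have hmonic : p.Monic := Polynomial.monic_X_pow_add hlt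
  set ε : K := algebraMap Cq K (mk b) / algebraMap Cq K (mk γ) with hε
  have hroot : Polynomial.eval₂ (algebraMap Cq K) ε p = 0 := by
    have h1 := congrArg (algebraMap Cq K) heq
    simp only [map_add, map_sum, map_mul, map_pow, map_zero] at h1
    have hb : algebraMap Cq K (mk b) = ε * algebraMap Cq K (mk γ) := by
      rw [hε, div_mul_cancel₀ _ hγK]
    simp only [p, Polynomial.eval₂_add, Polynomial.eval₂_pow, Polynomial.eval₂_X,
      Polynomial.eval₂_finsetSum, Polynomial.eval₂_mul, Polynomial.eval₂_C]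
    have hgd : (algebraMap Cq K (mk γ)) ^ d ≠ 0 := pow_ne_zero _ hγK
    apply mul_right_cancel₀ hgd
    rw [zero_mul, add_mul, Finset.sum_mul, ← h1, hb]
    congr 1
    · rw [mul_pow]
    · refine Finset.sum_congr rfl fun i _ => ?_
      have hi : (i : ℕ) + (d - (i : ℕ)) = d := Nat.add_sub_cancel' i.2.le
      calc algebraMap Cq K (mk (a i)) * ε ^ (i : ℕ) * algebraMap Cq K (mk γ) ^ d
          = algebraMap Cq K (mk (a i)) * ε ^ (i : ℕ) *
              (algebraMap Cq K (mk γ) ^ (i : ℕ) * algebraMap Cq K (mk γ) ^ (d - (i : ℕ))) := by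
            rw [← pow_add, hi]
        _ = algebraMap Cq K (mk (a i)) * (ε * algebraMap Cq K (mk γ)) ^ (i : ℕ) *
              algebraMap Cq K (mk γ) ^ (d - (i : ℕ)) := by
            rw [mul_pow]; ring
  have hint : IsIntegral Cq ε := ⟨p, hmonic, hroot⟩
  obtain ⟨c, hc⟩ := (IsIntegrallyClosed.isIntegral_iff (R := Cq) (K := K)).mp hint
  obtain ⟨b₀, rfl⟩ := Ideal.Quotient.mk_surjective c
  refine ⟨b₀, ?_⟩
  rw [← Ideal.Quotient.eq_zero_iff_mem, map_sub, map_mul, sub_eq_zero]
  apply IsFractionRing.injective Cq K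
  rw [map_mul]
  change algebraMap Cq K (mk b) = algebraMap Cq K (mk γ) * algebraMap Cq K (mk b₀)
  rw [hc, hε, mul_div_cancel₀ _ hγK]

/-- `B2IntClosedStatement` from the frozen pieces (first half of `H33.b2Regular_of_pieces`). -/
theorem b2IntClosed_of_pieces
    (hcore : B2CoreAbsStatement.{u, v}) (hA0 : RegSeqAbsStatement.{u, v})
    (hA8 : IntClosedOfDiscrStatement.{u, v}) (hA1 : PolyInstStatement.{u}) :
    B2IntClosedStatement.{u, v} := by
  intro R _ _ _ _ w hw B _ _ _ _ _ _ hdom hsep S hS hNC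
  obtain ⟨hCw, hΛ, hΛ₀, hℚ, hc⟩ := hA1 R w hw
  have hJ : (Ideal.span {(C w : R[X])}).map (algebraMap R[X] B)
      = Ideal.span {algebraMap R[X] B (C w)} := by
    rw [Ideal.map_span, Set.image_singleton]
  rw [← hJ]
  -- instances on the special fibre
  haveI hJprime : ((Ideal.span {(C w : R[X])}).map (algebraMap R[X] B)).IsPrime := by
    rw [hJ]; exact (Ideal.span_singleton_prime hdom.ne_zero).mpr hdom
  haveI := hΛ
  haveI : IsDomain (R[X] ⧸ Ideal.span {(C w : R[X])}) := by
    rw [Ideal.Quotient.isDomain_iff_prime]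
    exact (Ideal.span_singleton_prime hCw.ne_zero).mpr hCw
  haveI tf := H33.isTorsionFree_quotient (B := B) hA0 (C w : R[X]) hCw
  haveI : Module.Finite (R[X] ⧸ Ideal.span {(C w : R[X])})
      (B ⧸ (Ideal.span {(C w : R[X])}).map (algebraMap R[X] B)) :=
    Module.Finite.of_restrictScalars_finite R[X] _ _
  haveI : Module.Free (R[X] ⧸ Ideal.span {(C w : R[X])})
      (B ⧸ (Ideal.span {(C w : R[X])}).map (algebraMap R[X] B)) :=
    Module.free_of_finite_type_torsion_free'
  let bb := Module.finBasis (R[X] ⧸ Ideal.span {(C w : R[X])})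
      (B ⧸ (Ideal.span {(C w : R[X])}).map (algebraMap R[X] B))
  -- translate the hypotheses
  classical
  have hS1' : ∀ s ∈ S.image (fun c => (X - C c : R[X])), Prime s ∧ ¬ Associated s (C w) ∧
      (Ideal.span {(C w : R[X]), s}).IsMaximal ∧
      IsPrincipalIdealRing (R[X] ⧸ Ideal.span {s}) := by
    intro s hs
    obtain ⟨c, -, rfl⟩ := Finset.mem_image.mp hs
    obtain ⟨h1, h2, h3, h4, -⟩ := hc c
    exact ⟨h1, h2, h3, h4⟩
  have hS2' : ∀ s ∈ S.image (fun c => (X - C c : R[X])),
      ∀ s' ∈ S.image (fun c => (X - C c : R[X])), s ≠ s' →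
      s' ∉ Ideal.span {(C w : R[X]), s} := by
    intro s hs s' hs' hne hmem
    obtain ⟨c, hcS, rfl⟩ := Finset.mem_image.mp hs
    obtain ⟨c', hcS', rfl⟩ := Finset.mem_image.mp hs'
    have hcc : c ≠ c' := fun h => hne (by rw [h])
    exact (hc c).2.2.2.2 c' hmem (hS c hcS c' hcS' hcc)
  have hNC' : ∀ π : R[X], Prime π → ¬ Associated π (C w) →
      (∀ s ∈ S.image (fun c => (X - C c : R[X])), ¬ Associated π s) →
      (Ideal.span {algebraMap R[X] B π}).IsRadical := by
    intro π hπ hπw hπS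
    exact hNC π hπ hπw (fun c hcS => hπS _ (Finset.mem_image_of_mem _ hcS))
  have hcore' := hcore R[X] (C w) hCw hΛ hΛ₀ hℚ B hsep (S.image (fun c => (X - C c : R[X])))
    hS1' hS2' hNC'
  -- a prime of `Λ`
  obtain ⟨h01, h02, h03, -, -⟩ := hc 0
  have hw0 : ¬ (C w : R[X]) ∣ X - C 0 := by
    intro hdvd
    obtain ⟨r, hr⟩ := hdvd
    rcases h01.irreducible.isUnit_or_isUnit hr with h | h
    · exact hCw.not_isUnit h
    · exact h02 ⟨h.unit⁻¹, by rw [hr, mul_assoc, IsUnit.mul_val_inv, mul_one]⟩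
  have ht₀ := H33.prime_mk_of_isMaximal (C w : R[X]) (X - C 0) hCw h03 hw0
  have hdisc := (hcore' _ ht₀ _ bb).1
  exact hA8 _ _ _ bb hdisc (fun t ht => (hcore' t ht _ bb).2)

/-- `B2NormalDomStatement` from `B2IntClosedStatement` (pure algebra). -/
theorem b2NormalDom_of_intClosed (hIC : B2IntClosedStatement.{u, v}) :
    B2NormalDomStatement.{u, v} := by
  intro R _ _ _ _ w hw B _ _ _ _ _ _ hdom hsep S hS hNC b g hg hex
  obtain ⟨d, a, h⟩ := hex
  haveI := hIC R w hw B hdom hsep S hS hNC
  refine exists_sub_mul_mem_of_isIntegrallyClosed (algebraMap R[X] B (C w)) hdom b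
    (algebraMap R[X] B g) ?_ d a h
  -- `g ∉ wB` from `¬ C w ∣ g`: `B` is integrally closed, `g / w ∈ Frac R[X]` integral
  intro hmem
  haveI : IsIntegrallyClosed R[X] := inferInstance
  have hCw : (C w : R[X]) ≠ 0 := by
    rw [Ne, Polynomial.C_eq_zero]; exact hw.ne_zero
  exact hg (dvd_of_algebraMap_dvd (P := R[X]) (B := B) (C w) g hCw
    (Ideal.mem_span_singleton.mp hmem))

/-- **`B2NormalDomStatement` from the frozen pieces.** -/
theorem b2NormalDom_of_pieces
    (hcore : B2CoreAbsStatement.{u, v}) (hA0 : RegSeqAbsStatement.{u, v})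
    (hA8 : IntClosedOfDiscrStatement.{u, v}) (hA1 : PolyInstStatement.{u}) :
    B2NormalDomStatement.{u, v} :=
  b2NormalDom_of_intClosed (b2IntClosed_of_pieces hcore hA0 hA8 hA1)

end Fermat.Agent.S18.B12.H638

end
end
-- ===== PACK-END S18/B12/H638/Normal.lean

-- ===== PACK-BEGIN S18/B12/H203/DiscrRed.lean
section




/-!
# S18 / b2.5, piece A3: discriminant reduction mod `w` (`DiscrRedStatement`)

`P` an integrally closed domain, `B` an integrally closed domain, finite and torsion-free over `P`,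
`w ∈ P` prime, `𝔪 ∋ w` a prime ideal, `x` a basis of `B` locally at `𝔪` (`g • B ⊆ span x`, `g ∉ 𝔪`),
`bb` a basis of `B/wB` over `P/(w)`.  Then `bb` has as many elements as `x` and
`intDiscr x mod w = ū² · disc bb` with `u ∉ 𝔪`.
-/

set_option autoImplicit false
set_option linter.unusedSectionVars false
set_option linter.unusedVariables false

noncomputable section

namespace Fermat.Agent.S18.B12.H203

open Fermat.Agent.S18.H203

universe u v

section Quasi

variable {P : Type*} {B : Type*} [CommRing P] [CommRing B] [Algebra P B]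
  {ι : Type*} [Fintype ι]

/-- Coefficients of `g • b` with respect to a quasi-basis. -/
theorem exists_coef_of_smul_mem (x : ι → B) (g : P)
    (hg : ∀ b : B, g • b ∈ Submodule.span P (Set.range x)) :
    ∃ c : B → ι → P, ∀ b, g • b = ∑ i, c b i • x i := by
  choose c hc using fun b => (Submodule.mem_span_range_iff_exists_fun P).mp (hg b)
  exact ⟨c, fun b => (hc b).symm⟩

/-- The reduction mod `w` of a quasi-basis (with `w ∤ g`) is linearly independent. -/
theorem linearIndependent_red_of_quasi [IsDomain P] {w : P} (hw : Prime w) (x : ι → B)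
    (hli : LinearIndependent P x) (g : P) (hgw : ¬ w ∣ g)
    (hg : ∀ b : B, g • b ∈ Submodule.span P (Set.range x)) :
    LinearIndependent (P ⧸ Ideal.span {w}) fun i => redB (S := P) w (x i) := by
  obtain ⟨c, hc⟩ := exists_coef_of_smul_mem x g hg
  rw [Fintype.linearIndependent_iff]
  intro ab hab i
  choose a ha using fun i => Ideal.Quotient.mk_surjective (ab i)
  have h1 : redB (S := P) w (∑ i, a i • x i) = 0 := by
    rw [map_sum, ← hab]
    refine Finset.sum_congr rfl fun i _ => ?_
    rw [redB_smul, ha]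
  rw [redB_eq_zero_iff] at h1
  obtain ⟨b', hb'⟩ := h1
  have h2 : ∑ i, (g * a i) • x i = ∑ i, (w * c b' i) • x i := by
    calc ∑ i, (g * a i) • x i = g • ∑ i, a i • x i := by
          rw [Finset.smul_sum]
          exact Finset.sum_congr rfl fun i _ => mul_smul _ _ _
      _ = g • (algebraMap P B w * b') := by rw [hb']
      _ = w • (g • b') := by rw [← Algebra.smul_def, smul_comm]
      _ = ∑ i, (w * c b' i) • x i := by
          rw [hc, Finset.smul_sum]
          exact Finset.sum_congr rfl fun i _ => (mul_smul _ _ _).symm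
  have h3 : g * a i = w * c b' i := by
    have := Fintype.linearIndependent_iff.mp hli (fun i => g * a i - w * c b' i) (by
      simp only [sub_smul, Finset.sum_sub_distrib, h2, sub_self])
    exact sub_eq_zero.mp (this i)
  have h4 : w ∣ a i := (hw.dvd_or_dvd ⟨c b' i, h3⟩).resolve_left hgw
  rw [← ha i]
  exact (redS_eq_zero_iff w (a i)).mpr h4

end Quasi

section Abstract

variable {A V : Type*} [CommRing A] [CommRing V] [Algebra A V] {n : ℕ}

/-- If `g • bb j = ∑ i, N i j • xb i` then `toMatrix bb xb * N = g • 1`. -/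
theorem toMatrix_mul_eq_smul_one (bb : Module.Basis (Fin n) A V) (xb : Fin n → V) (g : A)
    (N : Matrix (Fin n) (Fin n) A) (hN : ∀ j, g • bb j = ∑ i, N i j • xb i) :
    bb.toMatrix xb * N = g • (1 : Matrix (Fin n) (Fin n) A) := by
  ext l j
  have h := congrArg (fun v => bb.repr v l) (hN j)
  simp only [map_smul, Finsupp.smul_apply, smul_eq_mul, map_sum, Finsupp.coe_finsetSum,
    Finset.sum_apply, Module.Basis.repr_self, Finsupp.single_apply] at h
  rw [Matrix.mul_apply, Matrix.smul_apply, Matrix.one_apply, smul_eq_mul]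
  simp only [Module.Basis.toMatrix_apply]
  rw [show (∑ k, bb.repr (xb k) l * N k j) = ∑ k, N k j * bb.repr (xb k) l from
    Finset.sum_congr rfl fun k _ => mul_comm _ _, ← h]
  by_cases hlj : l = j
  · simp [hlj]
  · have : ¬ j = l := fun h' => hlj h'.symm
    simp [hlj, this]

/-- The determinant of the transition matrix to a quasi-basis is nonzero. -/
theorem det_toMatrix_ne_zero [IsDomain A] (bb : Module.Basis (Fin n) A V) (xb : Fin n → V)
    (g : A) (hg0 : g ≠ 0) (N : Matrix (Fin n) (Fin n) A)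
    (hN : ∀ j, g • bb j = ∑ i, N i j • xb i) :
    (bb.toMatrix xb).det * N.det = g ^ n ∧ (bb.toMatrix xb).det ≠ 0 := by
  have h := congrArg Matrix.det (toMatrix_mul_eq_smul_one bb xb g N hN)
  rw [Matrix.det_mul, Matrix.det_smul, Matrix.det_one, mul_one, Fintype.card_fin] at h
  refine ⟨h, fun h0 => ?_⟩
  rw [h0, zero_mul] at h
  exact pow_ne_zero n hg0 h.symm

/-- Trace from a "matrix up to a scalar" with respect to a quasi-basis. -/
theorem mul_trace_eq_trace_of_quasi [IsDomain A] (bb : Module.Basis (Fin n) A V)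
    (xb : Fin n → V) (hdet : (bb.toMatrix xb).det ≠ 0) (g : A) (β : V)
    (m : Matrix (Fin n) (Fin n) A) (hm : ∀ j, g • (β * xb j) = ∑ i, m i j • xb i) :
    g * Algebra.trace A V β = m.trace := by
  set M := bb.toMatrix xb with hM
  set T := Algebra.leftMulMatrix bb β with hT
  have key : g • (T * M) = M * m := by
    ext l j
    have h := congrArg (fun v => bb.repr v l) (hm j)
    simp only [map_smul, Finsupp.smul_apply, smul_eq_mul, map_sum, Finsupp.coe_finsetSum,
      Finset.sum_apply] at h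
    rw [Matrix.smul_apply, smul_eq_mul, Matrix.mul_apply, Matrix.mul_apply]
    have h1 : ∑ k, T l k * M k j = bb.repr (β * xb j) l := by
      have := congrFun (Algebra.leftMulMatrix_mulVec_repr bb β (xb j)) l
      rw [← this]
      rfl
    rw [h1, h]
    exact Finset.sum_congr rfl fun k _ => mul_comm _ _
  have h1 : M.det * (g * T.trace) = M.det * m.trace := by
    calc M.det * (g * T.trace) = ((g • (T * M)) * M.adjugate).trace := by
          rw [Matrix.smul_mul, Matrix.mul_assoc, Matrix.mul_adjugate, Matrix.trace_smul,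
            Matrix.mul_smul, Matrix.trace_smul, Matrix.mul_one, smul_eq_mul, smul_eq_mul]
          ring
      _ = (M * m * M.adjugate).trace := by rw [key]
      _ = (M.adjugate * (M * m)).trace := by rw [Matrix.trace_mul_comm]
      _ = M.det * m.trace := by
          rw [← Matrix.mul_assoc, Matrix.adjugate_mul, Matrix.smul_mul, Matrix.one_mul,
            Matrix.trace_smul, smul_eq_mul]
  rw [Algebra.trace_eq_matrix_trace bb]
  exact mul_left_cancel₀ hdet h1

end Abstract

section Generic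

variable {S B : Type*} [CommRing S] [IsDomain S] [CommRing B] [Algebra S B]
  {ι : Type*} [Fintype ι]

/-- A linearly independent family of `B` stays linearly independent in the generic fibre. -/
theorem linearIndependent_map_of_linearIndependent (K F : Type*) [Field K] [Algebra S K]
    [IsFractionRing S K] [Field F] [Algebra K F] [Algebra S F] [IsScalarTower S K F]
    [Algebra B F] [IsScalarTower S B F] [IsIntegralClosure B S F]
    (b : ι → B) (h1 : LinearIndependent S b) :
    LinearIndependent K fun i => algebraMap B F (b i) := by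
  have h2 : LinearIndependent S fun i => algebraMap B F (b i) := by
    have := h1.map' (IsScalarTower.toAlgHom S B F).toLinearMap
      (LinearMap.ker_eq_bot.mpr (IsIntegralClosure.algebraMap_injective B S F))
    exact this
  exact (LinearIndependent.iff_fractionRing S K).mp h2

/-- A quasi-basis spans the generic fibre. -/
theorem span_map_eq_top_of_smul_mem (K F : Type*) [Field K] [Algebra S K]
    [IsFractionRing S K] [Field F] [Algebra K F] [Algebra S F] [IsScalarTower S K F]
    [Algebra B F] [IsScalarTower S B F] [IsIntegralClosure B S F]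
    [Algebra.IsAlgebraic K F]
    (r : S) (hr0 : r ≠ 0) (b : ι → B)
    (hr : ∀ β : B, r • β ∈ Submodule.span S (Set.range b)) :
    Submodule.span K (Set.range fun i => algebraMap B F (b i)) = ⊤ := by
  have hinjSK : Function.Injective (algebraMap S K) := IsFractionRing.injective S K
  rw [eq_top_iff]
  intro f _
  have hf : IsAlgebraic S f := by
    have := Algebra.IsAlgebraic.isAlgebraic (R := K) f
    exact (IsFractionRing.isAlgebraic_iff S K F).mpr this
  obtain ⟨y, hy0, hy⟩ := hf.exists_integral_multiple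
  obtain ⟨β, hβ⟩ := (IsIntegralClosure.isIntegral_iff (A := B)).mp hy
  have h1 := hr β
  have h2 : algebraMap B F (r • β) ∈
      Submodule.span K (Set.range fun i => algebraMap B F (b i)) := by
    have h3 : (IsScalarTower.toAlgHom S B F).toLinearMap (r • β) ∈
        Submodule.map (IsScalarTower.toAlgHom S B F).toLinearMap
          (Submodule.span S (Set.range b)) := Submodule.mem_map_of_mem h1
    rw [Submodule.map_span, ← Set.range_comp] at h3
    have h4 : Submodule.span S (Set.range ((IsScalarTower.toAlgHom S B F).toLinearMap ∘ b)) ≤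
        (Submodule.span K (Set.range fun i => algebraMap B F (b i))).restrictScalars S := by
      rw [Submodule.span_le]
      rintro _ ⟨i, rfl⟩
      exact Submodule.subset_span ⟨i, rfl⟩
    exact h4 h3
  have h5 : algebraMap B F (r • β) = (algebraMap S K (r * y)) • f := by
    rw [Algebra.smul_def r β, map_mul, hβ, ← IsScalarTower.algebraMap_apply,
      Algebra.smul_def y f, Algebra.smul_def, ← IsScalarTower.algebraMap_apply, map_mul]
    ring
  rw [h5] at h2
  have h6 : algebraMap S K (r * y) ≠ 0 := by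
    simpa using (map_ne_zero_iff _ hinjSK).mpr (mul_ne_zero hr0 hy0)
  have h7 := Submodule.smul_mem _ (algebraMap S K (r * y))⁻¹ h2
  rwa [smul_smul, inv_mul_cancel₀ h6, one_smul] at h7

/-- The `K`-basis of the generic fibre given by a quasi-basis. -/
def quasiBasis (K F : Type*) [Field K] [Algebra S K]
    [IsFractionRing S K] [Field F] [Algebra K F] [Algebra S F] [IsScalarTower S K F]
    [Algebra B F] [IsScalarTower S B F] [IsIntegralClosure B S F]
    [Algebra.IsAlgebraic K F]
    (b : ι → B) (hli : LinearIndependent S b) (r : S) (hr0 : r ≠ 0)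
    (hr : ∀ β : B, r • β ∈ Submodule.span S (Set.range b)) :
    Module.Basis ι K F :=
  Module.Basis.mk (linearIndependent_map_of_linearIndependent K F b hli)
    (span_map_eq_top_of_smul_mem K F r hr0 b hr).ge

@[simp]
theorem quasiBasis_apply (K F : Type*) [Field K] [Algebra S K]
    [IsFractionRing S K] [Field F] [Algebra K F] [Algebra S F] [IsScalarTower S K F]
    [Algebra B F] [IsScalarTower S B F] [IsIntegralClosure B S F]
    [Algebra.IsAlgebraic K F]
    (b : ι → B) (hli : LinearIndependent S b) (r : S) (hr0 : r ≠ 0)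
    (hr : ∀ β : B, r • β ∈ Submodule.span S (Set.range b)) (i : ι) :
    quasiBasis K F b hli r hr0 hr i = algebraMap B F (b i) := by
  simp [quasiBasis]

/-- Trace in the generic fibre from a matrix up to a scalar, with respect to a quasi-basis. -/
theorem mul_trace_eq_sum_of_quasi [DecidableEq ι] (K F : Type*) [Field K] [Algebra S K]
    [IsFractionRing S K] [Field F] [Algebra K F] [Algebra S F] [IsScalarTower S K F]
    [Algebra B F] [IsScalarTower S B F] [IsIntegralClosure B S F]
    [Algebra.IsAlgebraic K F]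
    (b : ι → B) (hli : LinearIndependent S b) (r : S) (hr0 : r ≠ 0)
    (hr : ∀ β : B, r • β ∈ Submodule.span S (Set.range b))
    (β : B) (m : ι → ι → S) (hm : ∀ j, r • (β * b j) = ∑ i, m i j • b i) :
    algebraMap S K r * Algebra.trace K F (algebraMap B F β) = ∑ i, algebraMap S K (m i i) := by
  have hK : ∀ j, algebraMap S K r • (algebraMap B F β * quasiBasis K F b hli r hr0 hr j) =
      ∑ i, algebraMap S K (m i j) • quasiBasis K F b hli r hr0 hr i := by
    intro j
    have := congrArg (algebraMap B F) (hm j)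
    simp only [map_sum, Algebra.smul_def, map_mul, ← IsScalarTower.algebraMap_apply] at this
    simp only [quasiBasis_apply, Algebra.smul_def, ← IsScalarTower.algebraMap_apply]
    exact this
  exact mul_trace_eq_sum (quasiBasis K F b hli r hr0 hr) (algebraMap B F β) (algebraMap S K r)
    (fun i j => algebraMap S K (m i j)) hK

end Generic

section IntTrace

variable {P : Type u} {B : Type v} [CommRing P] [IsDomain P] [IsIntegrallyClosed P]
  [CommRing B] [IsDomain B] [IsIntegrallyClosed B] [Algebra P B] [Module.Finite P B]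
  [Module.IsTorsionFree P B] {ι : Type*} [Fintype ι] [DecidableEq ι]

open nonZeroDivisors in
/-- The integral trace from a matrix up to a scalar, with respect to a quasi-basis. -/
theorem mul_intTrace_eq_sum_of_quasi
    (b : ι → B) (hli : LinearIndependent P b) (r : P) (hr0 : r ≠ 0)
    (hr : ∀ β : B, r • β ∈ Submodule.span P (Set.range b))
    (β : B) (m : ι → ι → P) (hm : ∀ j, r • (β * b j) = ∑ i, m i j • b i) :
    r * Algebra.intTrace P B β = ∑ i, m i i := by
  let _ : Algebra (FractionRing P) (FractionRing B) := FractionRing.liftAlgebra P _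
  have : IsScalarTower P (FractionRing P) (FractionRing B) :=
    FractionRing.isScalarTower_liftAlgebra P (FractionRing B)
  have : IsIntegralClosure B P (FractionRing B) :=
    IsIntegralClosure.of_isIntegrallyClosed _ _ _
  have : Algebra.IsAlgebraic (FractionRing P) (FractionRing B) :=
    isAlgebraic_of_isFractionRing P B ..
  apply IsFractionRing.injective P (FractionRing P)
  rw [map_mul, Algebra.algebraMap_intTrace_fractionRing, map_sum]
  exact mul_trace_eq_sum_of_quasi (FractionRing P) (FractionRing B) b hli r hr0 hr β m hm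

end IntTrace

section Final

variable {P : Type u} {B : Type v} [CommRing P] [IsDomain P] [CommRing B] [Algebra P B]

/-- Reduction of the quasi-basis relation: `ḡ • β̄ ∈ span x̄`, with coefficients. -/
theorem exists_red_coef {w : P} {ι : Type*} [Fintype ι] (x : ι → B) (g : P)
    (hg : ∀ b : B, g • b ∈ Submodule.span P (Set.range x))
    (y : B ⧸ (Ideal.span {w}).map (algebraMap P B)) :
    ∃ c : ι → P ⧸ Ideal.span {w}, redS w g • y = ∑ i, c i • redB (S := P) w (x i) := by
  obtain ⟨b, rfl⟩ := Ideal.Quotient.mk_surjective y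
  obtain ⟨c, hc⟩ := (Submodule.mem_span_range_iff_exists_fun P).mp (hg b)
  refine ⟨fun i => redS w (c i), ?_⟩
  have := congrArg (redB (S := P) w) hc
  rw [redB_smul] at this
  rw [← this, map_sum]
  exact Finset.sum_congr rfl fun i _ => (redB_smul w (c i) (x i)).symm

theorem isDomain_quotient_span_of_prime {w : P} (hw : Prime w) :
    IsDomain (P ⧸ Ideal.span {w}) := by
  have : (Ideal.span {w}).IsPrime := (Ideal.span_singleton_prime hw.ne_zero).mpr hw
  exact Ideal.Quotient.isDomain _

/-- A basis of the special fibre has as many elements as a quasi-basis. -/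
theorem card_eq_of_quasi {w : P} (hw : Prime w) {n n' : ℕ} (x : Fin n → B)
    (hli : LinearIndependent P x) (g : P) (hgw : ¬ w ∣ g)
    (hg : ∀ b : B, g • b ∈ Submodule.span P (Set.range x))
    (bb : Module.Basis (Fin n') (P ⧸ Ideal.span {w})
      (B ⧸ (Ideal.span {w}).map (algebraMap P B))) : n' = n := by
  have hdom : IsDomain (P ⧸ Ideal.span {w}) := isDomain_quotient_span_of_prime hw
  have hg0 : redS w g ≠ 0 := fun h => hgw ((redS_eq_zero_iff w g).mp h)
  apply le_antisymm
  · -- `ḡ • bb` is linearly independent inside `span x̄`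
    have hv : LinearIndependent (P ⧸ Ideal.span {w}) fun j => redS w g • bb j := by
      rw [Fintype.linearIndependent_iff]
      intro a ha j
      have h1 : ∑ j, (a j * redS w g) • bb j = 0 := by
        rw [← ha]
        exact Finset.sum_congr rfl fun j _ => mul_smul _ _ _
      have h2 := Fintype.linearIndependent_iff.mp bb.linearIndependent _ h1 j
      exact (mul_eq_zero.mp h2).resolve_right hg0
    have hsub : Set.range (fun j => redS w g • bb j) ≤
        Submodule.span (P ⧸ Ideal.span {w}) (Set.range fun i => redB (S := P) w (x i)) := by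
      rintro _ ⟨j, rfl⟩
      obtain ⟨c, hc⟩ := exists_red_coef (w := w) x g hg (bb j)
      simp only [SetLike.mem_coe]
      rw [hc]
      exact Submodule.sum_mem _ fun i _ => Submodule.smul_mem _ _ (Submodule.subset_span ⟨i, rfl⟩)
    classical
    have h3 := linearIndependent_le_span_aux' _ hv _ hsub
    have h4 := Fintype.card_range_le (fun i => redB (S := P) w (x i))
    simpa using h3.trans h4
  · have hxb := linearIndependent_red_of_quasi hw x hli g hgw hg
    have hfin : Module.Finite (P ⧸ Ideal.span {w})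
        (B ⧸ (Ideal.span {w}).map (algebraMap P B)) := Module.Finite.of_basis bb
    have h1 := hxb.fintype_card_le_finrank
    rw [Module.finrank_eq_card_basis bb] at h1
    simpa using h1

end Final

section Final2

variable {P : Type u} {B : Type v} [CommRing P] [IsDomain P] [IsIntegrallyClosed P]
  [CommRing B] [IsDomain B] [IsIntegrallyClosed B] [Algebra P B] [Module.Finite P B]
  [Module.IsTorsionFree P B]

/-- **The integral trace commutes with reduction mod `w`** (quasi-basis version). -/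
theorem trace_red_of_quasi {w : P} (hw : Prime w) {n : ℕ} (x : Fin n → B)
    (hli : LinearIndependent P x) (g : P) (hgw : ¬ w ∣ g)
    (hg : ∀ b : B, g • b ∈ Submodule.span P (Set.range x))
    (bb : Module.Basis (Fin n) (P ⧸ Ideal.span {w})
      (B ⧸ (Ideal.span {w}).map (algebraMap P B))) (β : B) :
    Algebra.trace (P ⧸ Ideal.span {w}) (B ⧸ (Ideal.span {w}).map (algebraMap P B))
      (redB (S := P) w β) = redS w (Algebra.intTrace P B β) := by
  have hdom : IsDomain (P ⧸ Ideal.span {w}) := isDomain_quotient_span_of_prime hw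
  have hgb0 : redS w g ≠ 0 := fun h => hgw ((redS_eq_zero_iff w g).mp h)
  have hg0 : g ≠ 0 := by
    rintro rfl
    exact hgw (dvd_zero w)
  obtain ⟨c, hc⟩ := exists_coef_of_smul_mem x g hg
  -- generic side
  have e1 : g * Algebra.intTrace P B β = ∑ i, c (β * x i) i :=
    mul_intTrace_eq_sum_of_quasi x hli g hg0 hg β (fun i j => c (β * x j) i)
      (fun j => hc (β * x j))
  -- special side
  choose N hN using fun j => exists_red_coef (w := w) x g hg (bb j)
  have hdet := (det_toMatrix_ne_zero bb (fun i => redB (S := P) w (x i)) (redS w g) hgb0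
    (Matrix.of fun i j => N j i) (fun j => by simpa using hN j)).2
  have e2 := mul_trace_eq_trace_of_quasi bb (fun i => redB (S := P) w (x i)) hdet (redS w g)
    (redB (S := P) w β) (Matrix.of fun i j => redS w (c (β * x j) i)) (fun j => by
      have := congrArg (redB (S := P) w) (hc (β * x j))
      rw [redB_smul, map_mul, map_sum] at this
      rw [this]
      exact Finset.sum_congr rfl fun i _ => redB_smul w _ _)
  have e3 : redS w g * Algebra.trace (P ⧸ Ideal.span {w})
      (B ⧸ (Ideal.span {w}).map (algebraMap P B)) (redB (S := P) w β) =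
      redS w g * redS w (Algebra.intTrace P B β) := by
    rw [e2, ← map_mul, e1, map_sum]
    rfl
  exact mul_left_cancel₀ hgb0 e3

end Final2

/-- **A3 (discriminant reduction mod `w`).** -/
theorem discrRed.{u₁, v₁} : DiscrRedStatement.{u₁, v₁} := by
  intro P _ _ _ B _ _ _ _ _ _ w hw 𝔪 h𝔪 hwm n x hx n' bb
  obtain ⟨hli, g, hgm, hg⟩ := hx
  have hgw : ¬ w ∣ g := fun h => hgm (Ideal.mem_of_dvd 𝔪 h hwm)
  have hnn : n' = n := card_eq_of_quasi hw x hli g hgw hg bb
  subst hnn
  refine ⟨rfl, ?_⟩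
  have hdom : IsDomain (P ⧸ Ideal.span {w}) := isDomain_quotient_span_of_prime hw
  have hgb0 : redS w g ≠ 0 := fun h => hgw ((redS_eq_zero_iff w g).mp h)
  choose N hN using fun j => exists_red_coef (w := w) x g hg (bb j)
  obtain ⟨hMN, hdet⟩ := det_toMatrix_ne_zero bb (fun i => redB (S := P) w (x i)) (redS w g) hgb0
    (Matrix.of fun i j => N j i) (fun j => by simpa using hN j)
  obtain ⟨u, hu⟩ := Ideal.Quotient.mk_surjective (bb.toMatrix fun i => redB (S := P) w (x i)).det
  obtain ⟨v, hv⟩ := Ideal.Quotient.mk_surjective (Matrix.of fun i j => N j i).det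
  refine ⟨u, ?_, ?_⟩
  · intro hum
    have h1 : redS w (u * v - g ^ n') = 0 := by
      rw [map_sub, map_mul, map_pow]
      change Ideal.Quotient.mk _ u * Ideal.Quotient.mk _ v - _ = 0
      rw [hu, hv, hMN, sub_self]
    rw [redS_eq_zero_iff] at h1
    have h2 : u * v - g ^ n' ∈ 𝔪 := Ideal.mem_of_dvd 𝔪 h1 hwm
    have h3 : g ^ n' ∈ 𝔪 := by
      have := 𝔪.sub_mem (𝔪.mul_mem_right v hum) h2
      simpa using this
    exact hgm (h𝔪.mem_of_pow_mem n' h3)
  · rw [hu]
    have hx' : (fun i => redB (S := P) w (x i)) =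
        Matrix.vecMul (⇑bb) ((bb.toMatrix fun i => redB (S := P) w (x i)).map
          (algebraMap (P ⧸ Ideal.span {w}) (B ⧸ (Ideal.span {w}).map (algebraMap P B)))) := by
      funext j
      rw [← Module.Basis.sum_toMatrix_smul_self bb (fun i => redB (S := P) w (x i)) j]
      simp only [Matrix.vecMul, dotProduct, Matrix.map_apply, Algebra.smul_def]
      exact Finset.sum_congr rfl fun i _ => mul_comm _ _
    rw [← Algebra.discr_of_matrix_vecMul, ← hx', Algebra.discr_def, intDiscr, RingHom.map_det]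
    congr 1
    ext i j
    simp only [RingHom.mapMatrix_apply, Matrix.map_apply, Matrix.of_apply,
      Algebra.traceMatrix_apply, Algebra.traceForm_apply]
    rw [← map_mul]
    exact (trace_red_of_quasi hw x hli g hgw hg bb (x i * x j)).symm

end Fermat.Agent.S18.B12.H203

end
end
-- ===== PACK-END S18/B12/H203/DiscrRed.lean

-- ===== PACK-BEGIN S18/B12/H638/NormalFinal.lean
section











/-!
# S18 b2 (helper638): FULL NORMALITY of the special fibre, UNCONDITIONAL

Assembly of the landed b2.5 pieces (A0, A2, A2' helper93; A3, A4, A5', A1 helper203; A5 helper444;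
A8 helper84 with Theorem L of helper278; heart A6' helper33):

* `b2CoreAbs : B2CoreAbsStatement` (the heart, unconditional);
* `b2IntClosed : B2IntClosedStatement` — `R` DVR of char 0, `B` normal, finite, torsion-free over
  `R[X]`, `w` prime in `B`, `hsep`, branch values `S` distinct mod `w`, unramified outside `S`
  ⟹ `B/wB` is integrally closed;
* `b2NormalDom : B2NormalDomStatement` — the shape requested by row S37
  (`origin/helper37:coord/S37-b2-request.md`, with `hdom`);
* `b2Regular : B2RegularStatement` (output O1 of `B12/Spec3.lean`).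
-/

set_option autoImplicit false

namespace Fermat.Agent.S18.B12.H638

universe u v

/-- The heart A6' of b2, unconditional. -/
theorem b2CoreAbs : B2CoreAbsStatement.{u, v} :=
  H33.b2CoreAbs_of_pieces H93.regSeqAbs H93.localBasis H93.localBasisRank H203.discrRed
    H203.ufdStep H444.genericDiscr H203.redBasisAbs

/-- **b2, integrally closed form, unconditional.** -/
theorem b2IntClosed : B2IntClosedStatement.{u, v} :=
  b2IntClosed_of_pieces b2CoreAbs H93.regSeqAbs H84.a8 H203.polyInst

/-- **b2, full normality form (domain case), unconditional.** -/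
theorem b2NormalDom : B2NormalDomStatement.{u, v} :=
  b2NormalDom_of_intClosed b2IntClosed

/-- **b2, regular form (output O1), unconditional.** -/
theorem b2Regular : B2RegularStatement.{u, v} :=
  H33.b2Regular_of_pieces b2CoreAbs H93.regSeqAbs H84.a8 H84.a9 H203.polyInst

end Fermat.Agent.S18.B12.H638

end
-- ===== PACK-END S18/B12/H638/NormalFinal.lean

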