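import Fermat.Prelude.Def_ModularCurve_HeckeModule
import Fermat.Prelude.Def_AlgebraicCurve_Correspondence
import Mathlib.RingTheory.Polynomial.ScaleRoots
import Fermat.Agent.Pack.S34.G0E9L3
import Fermat.Agent.Pack.S34.G0E7L2
import Fermat.Agent.Pack.S34.G0E6L1
import Fermat.Agent.Pack.S34.G0E4L0
import Fermat.Agent.Pack.S34.G0E6L0
import Fermat.Agent.Pack.S34.G0E0L1
import Fermat.Agent.Pack.S34.G0E4L2
import Fermat.Agent.Pack.S34.G0E9L1
import Fermat.Agent.Pack.S34.G0E9L2
import Fermat.Agent.Pack.S34.G0E0L2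
import Fermat.Agent.Pack.S34.G0E5L1
import Fermat.Agent.Pack.S34.G0E3L0
import Fermat.Agent.Pack.S34.G0E3L1
import Fermat.Agent.Pack.S34.G0E7L0
import Fermat.Agent.Pack.S34.G0E8L1
import Fermat.Agent.Pack.S34.G0E5L0
import Fermat.Agent.Pack.S34.G0E7L1
import Fermat.Agent.Pack.S34.G0E9L0
import Fermat.Agent.Pack.S34.G0E5L2

-- ===== PACK-BEGIN S34/K789/S30U.lean
section
/-
Row S34 / cell A2 (helper789): the middle glue.  COLLISION-FREE COPY of `S34/H789/S30U.lean`
(without the import of `S34.H193.Glue`: `S31.H169.PowTr` and `S31.H22.PowTr` realize the equation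
lemma of `S31.powTr` with different proofs, so both must not be in one closure).

    (adic eigenmodules on which inertia at `q ∥ N` acts unipotently)  ⟹  `S30UStatement`
    ⟹ (with CHEB Tier 1 and PTS)  the frozen statement S34.

The top glue `Fermat.Agent.S34.H733.result_of_inputs`
consumes a Galois representation attached to a `p`-adic point of the Hecke algebra which is
unipotent on inertia at `q`.  The S30 top glue of helper990 builds that representation from an
`AdicEigenModule`; here we record that the extraction keeps unipotency: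
if `(ρ σ - 1)² = 0` on the eigenmodule and `σ` is in an inertia group at `q ≠ p`, then
`ρ σ` satisfies the quadratic relation with `a = 2`, `d σ = 1`, hence the extracted rank two
representation has characteristic polynomial `X² - 2 X + 1 = (X - 1)²` at `σ`.

So the only thing the cell A2 + the `p`-adic mid layer have to deliver for S34 is
`HasAdicEigenModulesU`: an eigenmodule (any nonzero finite free module with Eichler–Shimura
relations, e.g. an eigenspace of `𝒪' ⊗ lim J₀(N)[pⁿ]`) on which `(σ - 1)² = 0` for `σ` in the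
inertia groups at the primes `q ≠ p`, `q ∥ N`.
-/



set_option autoImplicit false

namespace Fermat.Agent.S34.K789

open Polynomial Fermat.Agent.S30.H990 Fermat.Agent.S55.H414

/-- Inertia at `q` acts unipotently (`(σ - 1)² = 0`) on the adic eigenmodule `E`. -/
def EigenUnipAt {p N : ℕ} [NeZero N] {S : Finset ℕ} {𝒪 : Type} [CommRing 𝒪] [IsLocalRing 𝒪]
    {χ : CuspForm.heckeAlgebra N 2 (↑S : Set ℕ) →+* 𝒪} (E : AdicEigenModule p N S 𝒪 χ)
    (q : ℕ) : Prop :=
  ∀ P : ValuationSubring (AlgebraicClosure ℚ), P.LiesOverPrime q →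
    ∀ σ ∈ P.inertiaSubgroupIn ℚ, (E.ρ σ - 1) * (E.ρ σ - 1) = 0

/-- **Deliverable of cell A2 + the `p`-adic mid layer**: every eigencharacter has an adic
eigenmodule on which the inertia groups at the primes `q ≠ p` exactly dividing the level act
unipotently. -/
def HasAdicEigenModulesU : Prop :=
  ∀ (p : ℕ) [Fact p.Prime] (N : ℕ) [NeZero N] (S : Finset ℕ)
    (_hpS : p ∈ S) (_hNS : ∀ q : ℕ, q.Prime → q ∣ N → q ∈ S)
    (𝒪' : Type) [CommRing 𝒪'] [IsDomain 𝒪'] [IsDiscreteValuationRing 𝒪']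
    [IsAdicComplete (IsLocalRing.maximalIdeal 𝒪') 𝒪'] [Finite (IsLocalRing.ResidueField 𝒪')]
    [CharZero 𝒪'] (_hp𝒪' : (p : 𝒪') ∈ IsLocalRing.maximalIdeal 𝒪')
    (χ : CuspForm.heckeAlgebra N 2 (↑S : Set ℕ) →+* 𝒪'),
    ∃ E : AdicEigenModule p N S 𝒪' χ,
      ∀ q : ℕ, q.Prime → q ≠ p → q ∣ N → ¬ q ^ 2 ∣ N → EigenUnipAt E q

theorem hasAdicEigenModules_of_U (h : HasAdicEigenModulesU) : HasAdicEigenModules := by
  intro p _ N _ S hpS hNS 𝒪' _ _ _ _ _ _ hp𝒪' χ
  obtain ⟨E, -⟩ := h p N S hpS hNS 𝒪' hp𝒪' χ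
  exact ⟨E⟩

section Assembly

variable {p N : ℕ} [Fact p.Prime] [NeZero N] {S : Finset ℕ}
  {𝒪 : Type} [CommRing 𝒪] [IsDomain 𝒪] [IsDiscreteValuationRing 𝒪]
  [IsAdicComplete (IsLocalRing.maximalIdeal 𝒪) 𝒪] [Finite (IsLocalRing.ResidueField 𝒪)]
  {χ : CuspForm.heckeAlgebra N 2 (↑S : Set ℕ) →+* 𝒪}

/-- `(X - 1)²` in the normal form of `TwoDimOut.charpoly_eq`. -/
theorem sq_X_sub_one_eq' {R : Type*} [CommRing R] :
    ((X : R[X]) - 1) ^ 2 = X ^ 2 - C (2 : R) * X + C (1 : R) := by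
  simp only [map_ofNat, map_one]
  ring

/-- The extraction of helper990 (`exists_galoisRepAdic`) with the additional conclusion that the
representation is unipotent on inertia at every prime `q ≠ p` at which the eigenmodule is. -/
theorem exists_galoisRepAdic_unip [CharZero 𝒪] (hcheb : ChebWeak) (hpS : p ∈ S)
    (hNS : ∀ q : ℕ, q.Prime → q ∣ N → q ∈ S)
    (hp𝒪 : (p : 𝒪) ∈ IsLocalRing.maximalIdeal 𝒪) (E : AdicEigenModule p N S 𝒪 χ) :
    ∃ ρ : GaloisRepAdic 𝒪,
      (∀ (ℓ : ℕ) (hℓ : ℓ.Prime) (hℓN : ¬ ℓ ∣ N) (hℓS : ℓ ∉ (↑S : Set ℕ)),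
        ∀ A : ValuationSubring (AlgebraicClosure ℚ), A.LiesOverPrime ℓ →
          ∀ σ : AlgebraicClosure ℚ ≃ₐ[ℚ] AlgebraicClosure ℚ, A.IsFrobeniusAt σ ℓ →
            LinearMap.charpoly (ρ.ρ σ) =
              X ^ 2 - C (χ (CuspForm.heckeAlgebra.T hℓ hℓN hℓS)) * X + C ((ℓ : 𝒪))) ∧
      (∀ q : ℕ, q.Prime → ¬ q ∣ N → q ≠ p → ρ.IsUnramifiedAt q) ∧
      (∀ q : ℕ, q.Prime → q ≠ p → EigenUnipAt E q → ρ.IsUnipotentOnInertiaAt q) := by
  obtain ⟨d, hdfrob, hdinert, hdc, hdcont⟩ := exists_cyclo p 𝒪 hp𝒪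
  have hrel : ∀ g : GQ, ∃ a, Fermat.Agent.S30.H990.Rel E.ρ d g a := fun g =>
    exists_rel_of_mod E.ρ d g (fun n => exists_rel_mod hcheb hpS hNS E d hdfrob hdcont g n)
  have h2 : (2 : 𝒪) ≠ 0 := two_ne_zero
  obtain ⟨T⟩ := exists_twoDim E.ρ d h2 hrel complexConjugation complexConjugation_mul_self hdc
  refine ⟨{ V := T.V
            finrank_eq := T.finrank_eq
            ρ := T.ρ₂
            isAdicContinuous := ?_ }, ?_, ?_, ?_⟩
  · intro n
    obtain ⟨L₁, hL₁fin, hL₁⟩ := E.cont n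
    have : FiniteDimensional ℚ L₁ := hL₁fin
    refine ⟨L₁ ⊔ cycloLevel (p ^ n),
      IntermediateField.finiteDimensional_sup L₁ (cycloLevel (p ^ n)), fun σ hσ v => ?_⟩
    refine T.cong (IsLocalRing.maximalIdeal 𝒪 ^ n) σ ?_ ?_ v
    · exact hL₁ σ (fun x hx => hσ x ((le_sup_left : L₁ ≤ L₁ ⊔ cycloLevel (p ^ n)) hx))
    · exact hdcont n σ (fun x hx =>
        hσ x ((le_sup_right : cycloLevel (p ^ n) ≤ L₁ ⊔ cycloLevel (p ^ n)) hx))
  · intro ℓ hℓ hℓN hℓS A hA σ hσ
    have hℓp : ℓ ≠ p := fun h => hℓS (Finset.mem_coe.mpr (h ▸ hpS))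
    have hr : Fermat.Agent.S30.H990.Rel E.ρ d σ (χ (CuspForm.heckeAlgebra.T hℓ hℓN hℓS)) := by
      unfold Fermat.Agent.S30.H990.Rel
      rw [hdfrob ℓ hℓ hℓp A hA σ hσ]
      exact E.frob ℓ hℓ hℓN hℓS A hA σ hσ
    have := T.charpoly_eq σ _ hr
    rw [hdfrob ℓ hℓ hℓp A hA σ hσ] at this
    exact this
  · intro q hq hqN hqp P hP σ hσ
    have h1 : E.ρ σ = 1 := E.unram q hq hqN hqp P hP σ hσ
    have h2 : d σ = 1 := hdinert q hq hqp P hP σ hσ
    have h3 := T.cong ⊥ σ (fun v => by rw [h1]; simp) (by rw [h2]; simp)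
    ext v
    have h4 := h3 v
    rw [Submodule.bot_smul, Submodule.mem_bot, sub_eq_zero] at h4
    simpa using h4
  · intro q hq hqp hU P hP σ hσ
    have hd : d σ = 1 := hdinert q hq hqp P hP σ hσ
    have hu : (E.ρ σ - 1) * (E.ρ σ - 1) = 0 := hU P hP σ hσ
    have hr : Fermat.Agent.S30.H990.Rel E.ρ d σ (2 : 𝒪) := by
      unfold Fermat.Agent.S30.H990.Rel
      rw [hd, Units.val_one, one_smul, ← hu]
      simp only [mul_sub, sub_mul, mul_one, one_mul, two_smul]
      abel
    have := T.charpoly_eq σ _ hr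
    rw [hd, Units.val_one] at this
    show LinearMap.charpoly (T.ρ₂ σ) = (X - 1) ^ 2
    rw [this, sq_X_sub_one_eq']

end Assembly

/-- **`S30UStatement` from the unipotent adic eigenmodules** (with `𝒪'' := 𝒪'`). -/
theorem s30U_of_hasAdicEigenModulesU (hmod : HasAdicEigenModulesU) :
    Fermat.Agent.S34.H733.S30UStatement := by
  intro p _ N _ S hpS hNS 𝒪' _ _ _ _ _ _ hp𝒪' χ
  obtain ⟨E, hE⟩ := hmod p N S hpS hNS 𝒪' hp𝒪' χ
  obtain ⟨ρ, hρ1, -, hρ3⟩ := exists_galoisRepAdic_unip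
    (chebWeak_of_frobeniusDivision Fermat.Agent.Lib.Cheb.frobeniusDivision) hpS hNS hp𝒪' E
  exact ⟨𝒪', inferInstance, inferInstance, inferInstance, inferInstance, inferInstance,
    inferInstance, Algebra.id 𝒪', Module.Finite.self 𝒪', isLocalHom_id 𝒪',
    Function.injective_id, ρ, hρ1, fun q hq hqp hqN hq2 => hρ3 q hq hqp (hE q hq hqp hqN hq2)⟩

end Fermat.Agent.S34.K789

end
-- ===== PACK-END S34/K789/S30U.lean

-- ===== PACK-BEGIN S34/K789/TowerU.lean
section
/-
Row S34 / cell A2 (helper789): the `p`-adic mid layer keeps unipotency.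

The abstract Tate eigenmodule constructions of row S30 (`H649.exists_adicFrobModule_of_lattice`,
`H349.exists_adic_eigenmodule`) transfer every relation `σ² - T_i σ + c = 0` from `J[p^∞]` to the
eigenmodule `M` (with `T_i` replaced by its eigenvalue `a_i`).  Adding the operator `2 • id`
(eigenvalue `2`) to the family `T` gives the transfer of the relation `σ² - 2 σ + 1 = 0`,
i.e. of unipotency `(σ - 1)² = 0`.

Main results
* `exists_adicFrobModule_of_lattice_unip` : the statement of PIECE `Tate` of the S30 skeleton with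
  the additional conclusion `(σ - 1)² = 0 on J[p^∞] ⟹ (ρ σ - 1)² = 0`.
* `exists_adicEigenModuleU_of_lattice` : adapter to `H990.AdicEigenModule` + `EigenUnipAt`.
* `jZero_unip_of_a2Kummer` : the hypothesis on `J = JZero N` from the Kummer form of wall A2
  (`Fermat.Agent.A2.H129.A2Kummer N (p ^ n) σ` for all `n`).
-/




set_option autoImplicit false

namespace Fermat.Agent.S34.K789

open TensorProduct IsLocalRing

/-- The absolute Galois group of `ℚ`. -/
abbrev GQ' : Type := AlgebraicClosure ℚ ≃ₐ[ℚ] AlgebraicClosure ℚ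

section Abstract

/-- `(f - 1)² = 0` from the quadratic relation with `a = 2`, `c = 1`. -/
theorem sub_one_mul_self_eq_zero {𝒪 M : Type*} [CommRing 𝒪] [AddCommGroup M] [Module 𝒪 M]
    (f : Module.End 𝒪 M)
    (h : f * f - (2 : 𝒪) • f + (((1 : ℤ) : 𝒪)) • (1 : Module.End 𝒪 M) = 0) :
    (f - 1) * (f - 1) = 0 := by
  rw [Int.cast_one, one_smul, two_smul] at h
  rw [← h]
  simp only [mul_sub, sub_mul, mul_one, one_mul]
  abel

/-- **PIECE `Tate` of the S30 skeleton, with unipotency transfer.**  Same hypotheses as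
`Fermat.Agent.S30.H649.exists_adicFrobModule_of_lattice`; the additional last conclusion says that
`(ρ σ - 1)² = 0` as soon as `(σ - 1)² = 0` on the `p`-power torsion of `J`. -/
theorem exists_adicFrobModule_of_lattice_unip
    {𝒪 : Type} [CommRing 𝒪] [IsDomain 𝒪] [IsDiscreteValuationRing 𝒪]
    [IsAdicComplete (IsLocalRing.maximalIdeal 𝒪) 𝒪] [Finite (IsLocalRing.ResidueField 𝒪)]
    [CharZero 𝒪] {p : ℕ} (hp : p.Prime) (hp𝒪 : (p : 𝒪) ∈ IsLocalRing.maximalIdeal 𝒪)
    {J : Type} [AddCommGroup J] [DistribMulAction GQ' J]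
    {ι : Type} (T : ι → J →ₗ[ℤ] J)
    (hTG : ∀ (i : ι) (σ : GQ') (x : J), T i (σ • x) = σ • T i x)
    (hfin : Finite {x : J // (p : ℤ) • x = 0})
    (hsmooth : ∀ x : J, (∃ n : ℕ, ((p : ℤ) ^ n) • x = 0) →
      ∃ L : IntermediateField ℚ (AlgebraicClosure ℚ), FiniteDimensional ℚ L ∧
        ∀ σ : GQ', (∀ y ∈ L, σ y = y) → σ • x = x)
    {Λ : Type} [AddCommGroup Λ] [Module.Free ℤ Λ] [Module.Finite ℤ Λ]
    (TΛ : ι → Λ →ₗ[ℤ] Λ) (κ : ℕ → Λ →ₗ[ℤ] J)
    (hκ0 : ∀ (n : ℕ) (x : Λ), κ n x = 0 ↔ ∃ y : Λ, x = ((p : ℤ) ^ n) • y)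
    (hκs : ∀ (n : ℕ) (x : Λ), (p : ℤ) • κ (n + 1) x = κ n x)
    (hκT : ∀ (i : ι) (n : ℕ) (x : Λ), κ n (TΛ i x) = T i (κ n x))
    (a : ι → 𝒪) (v : 𝒪 ⊗[ℤ] Λ) (hv : v ≠ 0)
    (hva : ∀ i : ι, (TΛ i).baseChange 𝒪 v = a i • v) :
    ∃ (M : Type) (_ : AddCommGroup M) (_ : Module 𝒪 M) (_ : Module.Free 𝒪 M)
      (_ : Module.Finite 𝒪 M) (ρ : GQ' →* Module.End 𝒪 M),
      Nontrivial M ∧ GaloisActionIsAdicContinuous 𝒪 ρ ∧
      (∀ σ : GQ', (∀ x : J, (∃ n : ℕ, ((p : ℤ) ^ n) • x = 0) → σ • x = x) → ρ σ = 1) ∧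
      (∀ (σ : GQ') (i : ι) (c : ℤ),
        (∀ x : J, (∃ n : ℕ, ((p : ℤ) ^ n) • x = 0) →
          σ • σ • x - T i (σ • x) + c • x = 0) →
        ρ σ * ρ σ - a i • ρ σ + (c : 𝒪) • (1 : Module.End 𝒪 M) = 0) ∧
      (∀ σ : GQ', (∀ x : J, (∃ n : ℕ, ((p : ℤ) ^ n) • x = 0) →
          σ • (σ • x - x) = σ • x - x) → (ρ σ - 1) * (ρ σ - 1) = 0) := by
  classical
  -- the extended families, indexed by `Option ι`
  let T' : Option ι → J →ₗ[ℤ] J := fun o => o.elim ((2 : ℤ) • LinearMap.id) T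
  let TΛ' : Option ι → Λ →ₗ[ℤ] Λ := fun o => o.elim ((2 : ℤ) • LinearMap.id) TΛ
  let a' : Option ι → 𝒪 := fun o => o.elim (2 : 𝒪) a
  have hTG' : ∀ (i : Option ι) (σ : GQ') (x : J), T' i (σ • x) = σ • T' i x := by
    intro i σ x
    cases i with
    | none =>
      show (2 : ℤ) • (σ • x) = σ • ((2 : ℤ) • x)
      rw [two_smul, two_smul, smul_add]
    | some i => exact hTG i σ x
  have hκT' : ∀ (i : Option ι) (n : ℕ) (x : Λ), κ n (TΛ' i x) = T' i (κ n x) := by
    intro i n x
    cases i with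
    | none =>
      show κ n ((2 : ℤ) • x) = (2 : ℤ) • κ n x
      rw [map_smul]
    | some i => exact hκT i n x
  have hva' : ∀ i : Option ι, (TΛ' i).baseChange 𝒪 v = a' i • v := by
    intro i
    cases i with
    | none =>
      show ((2 : ℤ) • (LinearMap.id : Λ →ₗ[ℤ] Λ)).baseChange 𝒪 v = (2 : 𝒪) • v
      rw [LinearMap.baseChange_smul, LinearMap.baseChange_id, LinearMap.smul_apply,
        LinearMap.id_apply, ← Fermat.Agent.S30.H649.intCast_smul_tensor]
      norm_num
    | some i => exact hva i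
  obtain ⟨M, i1, i2, i3, i4, ρ, hnt, hcont, hone, hquad⟩ :=
    Fermat.Agent.S30.H649.exists_adicFrobModule_of_lattice (𝒪 := 𝒪) hp hp𝒪 (J := J)
      (ι := Option ι) T' hTG' hfin hsmooth TΛ' κ hκ0 hκs hκT' a' v hv hva'
  refine ⟨M, i1, i2, i3, i4, ρ, hnt, hcont, hone, ?_, ?_⟩
  · intro σ i c h
    exact hquad σ (some i) c h
  · intro σ h
    have h1 := hquad σ none 1 (fun x hx => by
      have h2 := h x hx
      show σ • σ • x - (2 : ℤ) • (σ • x) + (1 : ℤ) • x = 0
      rw [smul_sub] at h2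
      rw [two_smul, one_smul]
      have h3 : σ • σ • x = σ • x - x + σ • x := by
        rw [← h2]; abel
      rw [h3]; abel)
    exact sub_one_mul_self_eq_zero (ρ σ) h1

end Abstract

section Adapter

open Fermat.Agent.S30.H990

/-- **Adapter**: from the lattice data of the S30 skeleton for a Galois module `J` with operators
`T_ℓ` at the good primes, the raw Eichler–Shimura statements on `J[p^∞]` (unramified outside `Np`,
Frobenius relation) and unipotency of inertia at the primes `q ≠ p`, `q ∥ N` on `J[p^∞]`, to an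
`AdicEigenModule` which is unipotent at these primes (the input `HasAdicEigenModulesU` of
`result_of_U_SS`). -/
theorem exists_adicEigenModuleU_of_lattice
    {𝒪 : Type} [CommRing 𝒪] [IsDomain 𝒪] [IsDiscreteValuationRing 𝒪]
    [IsAdicComplete (IsLocalRing.maximalIdeal 𝒪) 𝒪] [Finite (IsLocalRing.ResidueField 𝒪)]
    [CharZero 𝒪] {p : ℕ} (hp : p.Prime) (hp𝒪 : (p : 𝒪) ∈ IsLocalRing.maximalIdeal 𝒪)
    {N : ℕ} [NeZero N] {S : Finset ℕ}
    (χ : CuspForm.heckeAlgebra N 2 (↑S : Set ℕ) →+* 𝒪)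
    {J : Type} [AddCommGroup J] [DistribMulAction GQ' J]
    (T : {ℓ : Nat.Primes // ¬ (ℓ : ℕ) ∣ N ∧ (ℓ : ℕ) ∉ (↑S : Set ℕ)} → J →ₗ[ℤ] J)
    (hTG : ∀ i (σ : GQ') (x : J), T i (σ • x) = σ • T i x)
    (hfin : Finite {x : J // (p : ℤ) • x = 0})
    (hsmooth : ∀ x : J, (∃ n : ℕ, ((p : ℤ) ^ n) • x = 0) →
      ∃ L : IntermediateField ℚ (AlgebraicClosure ℚ), FiniteDimensional ℚ L ∧
        ∀ σ : GQ', (∀ y ∈ L, σ y = y) → σ • x = x)
    {Λ : Type} [AddCommGroup Λ] [Module.Free ℤ Λ] [Module.Finite ℤ Λ]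
    (TΛ : {ℓ : Nat.Primes // ¬ (ℓ : ℕ) ∣ N ∧ (ℓ : ℕ) ∉ (↑S : Set ℕ)} → Λ →ₗ[ℤ] Λ)
    (κ : ℕ → Λ →ₗ[ℤ] J)
    (hκ0 : ∀ (n : ℕ) (x : Λ), κ n x = 0 ↔ ∃ y : Λ, x = ((p : ℤ) ^ n) • y)
    (hκs : ∀ (n : ℕ) (x : Λ), (p : ℤ) • κ (n + 1) x = κ n x)
    (hκT : ∀ i (n : ℕ) (x : Λ), κ n (TΛ i x) = T i (κ n x))
    (v : 𝒪 ⊗[ℤ] Λ) (hv : v ≠ 0)
    (hva : ∀ i, (TΛ i).baseChange 𝒪 v = χ (CuspForm.heckeAlgebra.T i.1.2 i.2.1 i.2.2) • v)
    (hunr : ∀ q : ℕ, q.Prime → ¬ q ∣ N → q ≠ p →
      ∀ P : ValuationSubring (AlgebraicClosure ℚ), P.LiesOverPrime q →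
        ∀ σ ∈ P.inertiaSubgroupIn ℚ, ∀ x : J, (∃ n : ℕ, ((p : ℤ) ^ n) • x = 0) → σ • x = x)
    (hfrob : ∀ i : {ℓ : Nat.Primes // ¬ (ℓ : ℕ) ∣ N ∧ (ℓ : ℕ) ∉ (↑S : Set ℕ)},
      ∀ A : ValuationSubring (AlgebraicClosure ℚ), A.LiesOverPrime (i.1 : ℕ) →
        ∀ σ : GQ', A.IsFrobeniusAt σ (i.1 : ℕ) →
          ∀ x : J, (∃ n : ℕ, ((p : ℤ) ^ n) • x = 0) →
            σ • σ • x - T i (σ • x) + (((i.1 : ℕ) : ℤ)) • x = 0)
    (hunip : ∀ q : ℕ, q.Prime → q ≠ p → q ∣ N → ¬ q ^ 2 ∣ N →
      ∀ P : ValuationSubring (AlgebraicClosure ℚ), P.LiesOverPrime q →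
        ∀ σ ∈ P.inertiaSubgroupIn ℚ, ∀ x : J, (∃ n : ℕ, ((p : ℤ) ^ n) • x = 0) →
          σ • (σ • x - x) = σ • x - x) :
    ∃ E : AdicEigenModule p N S 𝒪 χ,
      ∀ q : ℕ, q.Prime → q ≠ p → q ∣ N → ¬ q ^ 2 ∣ N → EigenUnipAt E q := by
  obtain ⟨M, i1, i2, i3, i4, ρ, hnt, hcont, hone, hquad, huni⟩ :=
    exists_adicFrobModule_of_lattice_unip (𝒪 := 𝒪) hp hp𝒪 (J := J) T hTG hfin hsmooth TΛ κ
      hκ0 hκs hκT (fun i => χ (CuspForm.heckeAlgebra.T i.1.2 i.2.1 i.2.2)) v hv hva
  refine ⟨{ M := M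
            ρ := ρ
            cont := hcont
            unram := fun q hq hqN hqp P hP σ hσ =>
              hone σ fun x hx => hunr q hq hqN hqp P hP σ hσ x hx
            frob := fun ℓ hℓ hℓN hℓS A hA σ hσ => by
              have h := hquad σ ⟨⟨ℓ, hℓ⟩, hℓN, hℓS⟩ ((ℓ : ℕ) : ℤ)
                (fun x hx => hfrob ⟨⟨ℓ, hℓ⟩, hℓN, hℓS⟩ A hA σ hσ x hx)
              simpa using h }, ?_⟩
  intro q hq hqp hqN hq2 P hP σ hσ
  exact huni σ fun x hx => hunip q hq hqp hqN hq2 P hP σ hσ x hx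

end Adapter

section JZero

open ModularCurve

/-- **Wall A2 in Kummer form gives the unipotency hypothesis on `J₀(N)[p^∞]`.** -/
theorem jZero_unip_of_a2Kummer (N p : ℕ) (hp : p ≠ 0) (σ : GQ')
    (h : ∀ n : ℕ, Fermat.Agent.A2.H129.A2Kummer N (p ^ n) σ)
    (x : JZero N) (hx : ∃ n : ℕ, ((p : ℤ) ^ n) • x = 0) :
    σ • (σ • x - x) = σ • x - x := by
  obtain ⟨n, hn⟩ := hx
  refine Fermat.Agent.A2.H129.unipotent_JZero_of_kummer N (p ^ n) (pow_ne_zero n hp) σ (h n) x ?_
  rw [← natCast_zsmul, Nat.cast_pow]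
  exact hn

end JZero

end Fermat.Agent.S34.K789

end
-- ===== PACK-END S34/K789/TowerU.lean

-- ===== PACK-BEGIN S31/H22/Final.lean
section







/-!
# S31: final glue (row-lead helper22)

`result_of_S30_SS` : the frozen statement S31 from the two remaining inputs
* `h30 : S30Statement`  — the frozen statement S30 (row S30, Galois tower);
* `hSS` : the anemic Hecke algebra is reduced (piece SS),
and `result_of_S30_petersson`, the same with SS replaced by its analytic core `PeterssonData`.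

Everything else is on main: CHEB Tier 1 (`Lib.Cheb.H943.frobeniusDivisionStatement`), S22,
piece A (`H202.trace_criterion`), piece D (`H262.pts_of_reduced`), pieces B, C, E (`H22`).
-/

set_option autoImplicit false

namespace Fermat.Agent.S31.H22

open Fermat.Agent.S31

/-- piece SS as a `Prop` -/
def SSStatement : Prop :=
  ∀ (N : ℕ) [NeZero N] (S : Set ℕ), (∀ q : ℕ, q.Prime → q ∣ N → q ∈ S) →
    IsReduced (CuspForm.heckeAlgebra N 2 S)

theorem ssStatement_of_petersson (hPet : ∀ (N : ℕ) [NeZero N], Nonempty (PeterssonData N)) :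
    SSStatement :=
  fun N _ S hNS => isReduced_of_petersson (hPet N).some S hNS

section

variable {p : ℕ} {N : ℕ} [NeZero N] {S : Finset ℕ}
  {𝒪 : Type} [CommRing 𝒪] [IsDomain 𝒪] [IsDiscreteValuationRing 𝒪]
  [IsAdicComplete (IsLocalRing.maximalIdeal 𝒪) 𝒪]
  {θ : CuspForm.heckeAlgebra N 2 (↑S : Set ℕ) →+* IsLocalRing.ResidueField 𝒪}
  {T : Type} [CommRing T] [IsLocalRing T] [IsNoetherianRing T]
  [IsAdicComplete (IsLocalRing.maximalIdeal T) T] [Algebra 𝒪 T] [IsLocalHom (algebraMap 𝒪 T)]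
  [Module.Finite 𝒪 T] [Module.Free 𝒪 T]

theorem result_of_S30_SS (h30 : S30Statement) (hSS : SSStatement) (hp : p.Prime)
    (hp𝒪 : (p : 𝒪) ∈ IsLocalRing.maximalIdeal 𝒪) (hpS : p ∈ S)
    (hNS : ∀ q : ℕ, q.Prime → q ∣ N → q ∈ S)
    (H : CuspForm.HeckeGaloisRepDatum N (↑S : Set ℕ) 𝒪 θ T)
    (q : ℕ) (hq : q.Prime) (hqS : q ∉ S) :
    H.ρ.IsUnramifiedAt q := by
  have hfin : Module.Finite ℤ (CuspForm.heckeAlgebra N 2 (↑S : Set ℕ)) :=
    Fermat.Agent.S22.result N 2 (↑S : Set ℕ)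
  have hred : IsReduced (CuspForm.heckeAlgebra N 2 (↑S : Set ℕ)) :=
    hSS N (↑S : Set ℕ) (fun q hq hqN => by simpa using hNS q hq hqN)
  have hPTS : PTS p (CuspForm.heckeAlgebra N 2 (↑S : Set ℕ)) :=
    H262.pts_of_reduced p hp _
  exact unramified_of_parts_of_criterion h30
    Fermat.Agent.Lib.Cheb.H943.frobeniusDivisionStatement hp hp𝒪 hpS hNS hPTS H
    (fun τ h => H202.trace_criterion H.ρ H.residual_absIrr τ h) q hq hqS

theorem result_of_S30_petersson (h30 : S30Statement)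
    (hPet : ∀ (N : ℕ) [NeZero N], Nonempty (PeterssonData N)) (hp : p.Prime)
    (hp𝒪 : (p : 𝒪) ∈ IsLocalRing.maximalIdeal 𝒪) (hpS : p ∈ S)
    (hNS : ∀ q : ℕ, q.Prime → q ∣ N → q ∈ S)
    (H : CuspForm.HeckeGaloisRepDatum N (↑S : Set ℕ) 𝒪 θ T)
    (q : ℕ) (hq : q.Prime) (hqS : q ∉ S) :
    H.ρ.IsUnramifiedAt q :=
  result_of_S30_SS h30 (ssStatement_of_petersson hPet) hp hp𝒪 hpS hNS H q hq hqS

end

end Fermat.Agent.S31.H22

end
-- ===== PACK-END S31/H22/Final.lean

-- ===== PACK-BEGIN S34/K789/Final.lean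
section
/-
Row S34 (helper789): the frozen statement S34 from the two remaining inputs

* `hU  : HasAdicEigenModulesU` — adic eigenmodules (row S30 mid layer) on which the inertia groups
  at the primes `q ≠ p`, `q ∥ N` act unipotently (cell A2);
* `hSS : SSStatement`          — the anemic Hecke algebra is reduced (row S31, piece SS).

Everything else is on main: CHEB Tier 1, S22, piece D of row S31 (`H262.pts_of_reduced`), the
extraction of helper990 and the top glue of helper733.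
-/



set_option autoImplicit false

namespace Fermat.Agent.S34.K789

open Fermat.Agent.S31

/-- **The frozen statement S34** (binders exactly as in the template) from the unipotent adic
eigenmodules and the reducedness of the anemic Hecke algebra. -/
theorem result_of_U_SS (hU : HasAdicEigenModulesU) (hSS : Fermat.Agent.S31.H22.SSStatement)
    {𝒪 : Type} [CommRing 𝒪] [IsDomain 𝒪] [IsDiscreteValuationRing 𝒪]
    [IsAdicComplete (IsLocalRing.maximalIdeal 𝒪) 𝒪] [Finite (IsLocalRing.ResidueField 𝒪)]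
    [CharZero 𝒪]
    {p : ℕ} (hp : p.Prime) (hp𝒪 : (p : 𝒪) ∈ IsLocalRing.maximalIdeal 𝒪)
    {N : ℕ} [NeZero N] {S : Finset ℕ} (hpS : p ∈ S) (hNS : ∀ q : ℕ, q.Prime → q ∣ N → q ∈ S)
    {θ : CuspForm.heckeAlgebra N 2 (↑S : Set ℕ) →+* IsLocalRing.ResidueField 𝒪}
    {T : Type} [CommRing T] [IsLocalRing T] [IsNoetherianRing T]
    [IsAdicComplete (IsLocalRing.maximalIdeal T) T] [Algebra 𝒪 T] [IsLocalHom (algebraMap 𝒪 T)]
    [Module.Finite 𝒪 T] [Module.Free 𝒪 T]
    (H : CuspForm.HeckeGaloisRepDatum N (↑S : Set ℕ) 𝒪 θ T)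
    (q : ℕ) (hq : q.Prime) (hqp : q ≠ p) (hqN : q ∣ N) (hq2 : ¬ q ^ 2 ∣ N) :
    H.ρ.IsUnipotentOnInertiaAt q := by
  have hfin : Module.Finite ℤ (CuspForm.heckeAlgebra N 2 (↑S : Set ℕ)) :=
    Fermat.Agent.S22.result N 2 (↑S : Set ℕ)
  have hred : IsReduced (CuspForm.heckeAlgebra N 2 (↑S : Set ℕ)) :=
    hSS N (↑S : Set ℕ) (fun q hq hqN => by simpa using hNS q hq hqN)
  have hPTS : PTS p (CuspForm.heckeAlgebra N 2 (↑S : Set ℕ)) :=
    H262.pts_of_reduced p hp _
  exact Fermat.Agent.S34.H733.unipotent_of_parts (s30U_of_hasAdicEigenModulesU hU)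
    Fermat.Agent.Lib.Cheb.H943.frobeniusDivisionStatement hp hp𝒪 hpS hNS hPTS H q hq hqp hqN hq2

/-- The same with SS replaced by its analytic core `PeterssonData`. -/
theorem result_of_U_petersson (hU : HasAdicEigenModulesU)
    (hPet : ∀ (N : ℕ) [NeZero N], Nonempty (Fermat.Agent.S31.H22.PeterssonData N))
    {𝒪 : Type} [CommRing 𝒪] [IsDomain 𝒪] [IsDiscreteValuationRing 𝒪]
    [IsAdicComplete (IsLocalRing.maximalIdeal 𝒪) 𝒪] [Finite (IsLocalRing.ResidueField 𝒪)]
    [CharZero 𝒪]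
    {p : ℕ} (hp : p.Prime) (hp𝒪 : (p : 𝒪) ∈ IsLocalRing.maximalIdeal 𝒪)
    {N : ℕ} [NeZero N] {S : Finset ℕ} (hpS : p ∈ S) (hNS : ∀ q : ℕ, q.Prime → q ∣ N → q ∈ S)
    {θ : CuspForm.heckeAlgebra N 2 (↑S : Set ℕ) →+* IsLocalRing.ResidueField 𝒪}
    {T : Type} [CommRing T] [IsLocalRing T] [IsNoetherianRing T]
    [IsAdicComplete (IsLocalRing.maximalIdeal T) T] [Algebra 𝒪 T] [IsLocalHom (algebraMap 𝒪 T)]
    [Module.Finite 𝒪 T] [Module.Free 𝒪 T]
    (H : CuspForm.HeckeGaloisRepDatum N (↑S : Set ℕ) 𝒪 θ T)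
    (q : ℕ) (hq : q.Prime) (hqp : q ≠ p) (hqN : q ∣ N) (hq2 : ¬ q ^ 2 ∣ N) :
    H.ρ.IsUnipotentOnInertiaAt q :=
  result_of_U_SS hU (Fermat.Agent.S31.H22.ssStatement_of_petersson hPet) hp hp𝒪 hpS hNS H q hq
    hqp hqN hq2

end Fermat.Agent.S34.K789

end
-- ===== PACK-END S34/K789/Final.lean

-- ===== PACK-BEGIN S34/K789/Inputs.lean
section
/-
Row S34 (helper789): the frozen statement S34 from the inputs of row S30 + wall A2 + SS.

`hasAdicEigenModulesU_of_inputs` is the analogue of `Fermat.Agent.S30.hasAdicFrobModule_of_inputs`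
(S30 skeleton of helper49) with unipotent inertia at `q ∥ N`: the hypotheses are the UNFOLDED
forms of the frozen `Prop`s of `Fermat/Agent/S30/Defs.lean`
(`FinStatement`, `SmoothStatement`, `GalHeckeCommStatement`, `RawUnramifiedStatement`,
`RawFrobeniusStatement`, `TateLatticeStatement` with the structure `TateLattice` unbundled),
so that proofs of those `Prop`s can be passed directly, plus

* `hA2` : the Kummer form of wall A2, `Fermat.Agent.A2.H129.A2Kummer N (p ^ n) σ` for every `σ` in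
  an inertia group at a prime `q ≠ p`, `q ∥ N`.

`result_of_inputs` : the frozen statement S34 from these and `SSStatement` (row S31).
-/




set_option autoImplicit false

namespace Fermat.Agent.S34.K789

open TensorProduct

/-- The Kummer form of wall A2 for all inertia groups at the primes `q ≠ p` exactly dividing the
level (deliverable of cell A2). -/
def A2KummerStatement : Prop :=
  ∀ (N p q : ℕ), p.Prime → q.Prime → q ≠ p → q ∣ N → ¬ q ^ 2 ∣ N →
    ∀ P : ValuationSubring (AlgebraicClosure ℚ), P.LiesOverPrime q →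
      ∀ σ ∈ P.inertiaSubgroupIn ℚ, ∀ n : ℕ, Fermat.Agent.A2.H129.A2Kummer N (p ^ n) σ

/-- **The unipotent adic eigenmodules from the inputs of row S30 and wall A2.** -/
theorem hasAdicEigenModulesU_of_inputs
    (hfin : ∀ (N p : ℕ) [NeZero N], p.Prime →
      Finite {x : ModularCurve.JZero N // (p : ℤ) • x = 0})
    (hsm : ∀ (N p : ℕ) [NeZero N], ∀ x : ModularCurve.JZero N,
      (∃ n : ℕ, ((p : ℤ) ^ n) • x = 0) →
        ∃ L : IntermediateField ℚ (AlgebraicClosure ℚ), FiniteDimensional ℚ L ∧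
          ∀ σ : GQ', (∀ y ∈ L, σ y = y) → σ • x = x)
    (hgeq : ∀ (N : ℕ) [NeZero N] (ℓ : Nat.Primes) (σ : GQ') (x : ModularCurve.JZero N),
      ModularCurve.heckeOperatorBar N ℓ (σ • x) = σ • ModularCurve.heckeOperatorBar N ℓ x)
    (hunr : ∀ (N p : ℕ) [NeZero N], ∀ q : ℕ, q.Prime → ¬ q ∣ N * p →
      ∀ A : ValuationSubring (AlgebraicClosure ℚ), A.LiesOverPrime q →
        ∀ σ ∈ A.inertiaSubgroupIn ℚ, ∀ x : ModularCurve.JZero N,
          (∃ n : ℕ, ((p : ℤ) ^ n) • x = 0) → σ • x = x)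
    (hes : ∀ (N p : ℕ) [NeZero N], ∀ (ℓ : ℕ) (hℓ : ℓ.Prime), ¬ ℓ ∣ N * p →
      ∀ A : ValuationSubring (AlgebraicClosure ℚ), A.LiesOverPrime ℓ →
        ∀ σ : GQ', A.IsFrobeniusAt σ ℓ → ∀ x : ModularCurve.JZero N,
          (∃ n : ℕ, ((p : ℤ) ^ n) • x = 0) →
            σ • σ • x - ModularCurve.heckeOperatorBar N ⟨ℓ, hℓ⟩ (σ • x) + (ℓ : ℤ) • x = 0)
    (hlat : ∀ (N p : ℕ) [NeZero N], p.Prime →
      ∃ (Λ : Type) (_ : AddCommGroup Λ) (_ : Module.Free ℤ Λ) (_ : Module.Finite ℤ Λ)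
        (TΛ : Nat.Primes → Λ →ₗ[ℤ] Λ) (κ : ℕ → Λ →ₗ[ℤ] ModularCurve.JZero N),
        (∀ (n : ℕ) (x : Λ), κ n x = 0 ↔ ∃ y : Λ, x = ((p : ℤ) ^ n) • y) ∧
        (∀ (n : ℕ) (x : Λ), (p : ℤ) • κ (n + 1) x = κ n x) ∧
        (∀ ℓ : Nat.Primes, ¬ (ℓ : ℕ) ∣ N * p → ∀ (n : ℕ) (x : Λ),
          κ n (TΛ ℓ x) = ModularCurve.heckeOperatorBar N ℓ (κ n x)) ∧
        (∀ (S : Set ℕ) (R : Type) [CommRing R] [IsDomain R] [CharZero R]
          (χ : CuspForm.heckeAlgebra N 2 S →+* R),
          ∃ v : R ⊗[ℤ] Λ, v ≠ 0 ∧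
            ∀ (ℓ : ℕ) (hℓ : ℓ.Prime) (hℓN : ¬ ℓ ∣ N) (hℓS : ℓ ∉ S),
              (TΛ ⟨ℓ, hℓ⟩).baseChange R v = χ (CuspForm.heckeAlgebra.T hℓ hℓN hℓS) • v))
    (hA2 : A2KummerStatement) :
    HasAdicEigenModulesU := by
  intro p _ N _ S hpS hNS 𝒪' _ _ _ _ _ _ hp𝒪' χ
  have hp : p.Prime := Fact.out
  obtain ⟨Λ, i1, i2, i3, TΛ, κ, hκ0, hκs, hκT, hocc⟩ := hlat N p hp
  obtain ⟨v, hv, hva⟩ := hocc (↑S : Set ℕ) 𝒪' χ
  have hNp : ∀ ℓ : ℕ, ℓ.Prime → ¬ ℓ ∣ N → ℓ ≠ p → ¬ ℓ ∣ N * p := by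
    intro ℓ hℓ hℓN hℓp h
    rcases (Nat.Prime.dvd_mul hℓ).1 h with h | h
    · exact hℓN h
    · exact hℓp ((Nat.prime_dvd_prime_iff_eq hℓ hp).1 h)
  have hιp : ∀ i : {ℓ : Nat.Primes // ¬ (ℓ : ℕ) ∣ N ∧ (ℓ : ℕ) ∉ (↑S : Set ℕ)},
      ((i.1 : Nat.Primes) : ℕ) ≠ p := by
    intro i h
    exact i.2.2 (by rw [h]; exact hpS)
  exact exists_adicEigenModuleU_of_lattice (𝒪 := 𝒪') hp hp𝒪' χ (J := ModularCurve.JZero N)
    (fun i => ModularCurve.heckeOperatorBar N i.1)
    (fun i σ x => hgeq N i.1 σ x) (hfin N p hp) (hsm N p)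
    (fun i => TΛ i.1) κ hκ0 hκs
    (fun i n x => hκT i.1 (hNp _ i.1.2 i.2.1 (hιp i)) n x) v hv
    (fun i => hva i.1 i.1.2 i.2.1 i.2.2)
    (fun q hq hqN hqp P hP σ hσ x hx => hunr N p q hq (hNp q hq hqN hqp) P hP σ hσ x hx)
    (fun i A hA σ hσ x hx =>
      hes N p i.1 i.1.2 (hNp _ i.1.2 i.2.1 (hιp i)) A hA σ hσ x hx)
    (fun q hq hqp hqN hq2 P hP σ hσ x hx =>
      jZero_unip_of_a2Kummer N p hp.ne_zero σ
        (fun n => hA2 N p q hp hq hqp hqN hq2 P hP σ hσ n) x hx)

/-- **The frozen statement S34** (binders as in the template) from the inputs of row S30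
(unfolded), the Kummer form of wall A2 and the reducedness of the anemic Hecke algebra. -/
theorem result_of_inputs
    (hfin : ∀ (N p : ℕ) [NeZero N], p.Prime →
      Finite {x : ModularCurve.JZero N // (p : ℤ) • x = 0})
    (hsm : ∀ (N p : ℕ) [NeZero N], ∀ x : ModularCurve.JZero N,
      (∃ n : ℕ, ((p : ℤ) ^ n) • x = 0) →
        ∃ L : IntermediateField ℚ (AlgebraicClosure ℚ), FiniteDimensional ℚ L ∧
          ∀ σ : GQ', (∀ y ∈ L, σ y = y) → σ • x = x)
    (hgeq : ∀ (N : ℕ) [NeZero N] (ℓ : Nat.Primes) (σ : GQ') (x : ModularCurve.JZero N),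
      ModularCurve.heckeOperatorBar N ℓ (σ • x) = σ • ModularCurve.heckeOperatorBar N ℓ x)
    (hunr : ∀ (N p : ℕ) [NeZero N], ∀ q : ℕ, q.Prime → ¬ q ∣ N * p →
      ∀ A : ValuationSubring (AlgebraicClosure ℚ), A.LiesOverPrime q →
        ∀ σ ∈ A.inertiaSubgroupIn ℚ, ∀ x : ModularCurve.JZero N,
          (∃ n : ℕ, ((p : ℤ) ^ n) • x = 0) → σ • x = x)
    (hes : ∀ (N p : ℕ) [NeZero N], ∀ (ℓ : ℕ) (hℓ : ℓ.Prime), ¬ ℓ ∣ N * p →
      ∀ A : ValuationSubring (AlgebraicClosure ℚ), A.LiesOverPrime ℓ →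
        ∀ σ : GQ', A.IsFrobeniusAt σ ℓ → ∀ x : ModularCurve.JZero N,
          (∃ n : ℕ, ((p : ℤ) ^ n) • x = 0) →
            σ • σ • x - ModularCurve.heckeOperatorBar N ⟨ℓ, hℓ⟩ (σ • x) + (ℓ : ℤ) • x = 0)
    (hlat : ∀ (N p : ℕ) [NeZero N], p.Prime →
      ∃ (Λ : Type) (_ : AddCommGroup Λ) (_ : Module.Free ℤ Λ) (_ : Module.Finite ℤ Λ)
        (TΛ : Nat.Primes → Λ →ₗ[ℤ] Λ) (κ : ℕ → Λ →ₗ[ℤ] ModularCurve.JZero N),
        (∀ (n : ℕ) (x : Λ), κ n x = 0 ↔ ∃ y : Λ, x = ((p : ℤ) ^ n) • y) ∧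
        (∀ (n : ℕ) (x : Λ), (p : ℤ) • κ (n + 1) x = κ n x) ∧
        (∀ ℓ : Nat.Primes, ¬ (ℓ : ℕ) ∣ N * p → ∀ (n : ℕ) (x : Λ),
          κ n (TΛ ℓ x) = ModularCurve.heckeOperatorBar N ℓ (κ n x)) ∧
        (∀ (S : Set ℕ) (R : Type) [CommRing R] [IsDomain R] [CharZero R]
          (χ : CuspForm.heckeAlgebra N 2 S →+* R),
          ∃ v : R ⊗[ℤ] Λ, v ≠ 0 ∧
            ∀ (ℓ : ℕ) (hℓ : ℓ.Prime) (hℓN : ¬ ℓ ∣ N) (hℓS : ℓ ∉ S),
              (TΛ ⟨ℓ, hℓ⟩).baseChange R v = χ (CuspForm.heckeAlgebra.T hℓ hℓN hℓS) • v))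
    (hA2 : A2KummerStatement) (hSS : Fermat.Agent.S31.H22.SSStatement)
    {𝒪 : Type} [CommRing 𝒪] [IsDomain 𝒪] [IsDiscreteValuationRing 𝒪]
    [IsAdicComplete (IsLocalRing.maximalIdeal 𝒪) 𝒪] [Finite (IsLocalRing.ResidueField 𝒪)]
    [CharZero 𝒪]
    {p : ℕ} (hp : p.Prime) (hp𝒪 : (p : 𝒪) ∈ IsLocalRing.maximalIdeal 𝒪)
    {N : ℕ} [NeZero N] {S : Finset ℕ} (hpS : p ∈ S) (hNS : ∀ q : ℕ, q.Prime → q ∣ N → q ∈ S)
    {θ : CuspForm.heckeAlgebra N 2 (↑S : Set ℕ) →+* IsLocalRing.ResidueField 𝒪}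
    {T : Type} [CommRing T] [IsLocalRing T] [IsNoetherianRing T]
    [IsAdicComplete (IsLocalRing.maximalIdeal T) T] [Algebra 𝒪 T] [IsLocalHom (algebraMap 𝒪 T)]
    [Module.Finite 𝒪 T] [Module.Free 𝒪 T]
    (H : CuspForm.HeckeGaloisRepDatum N (↑S : Set ℕ) 𝒪 θ T)
    (q : ℕ) (hq : q.Prime) (hqp : q ≠ p) (hqN : q ∣ N) (hq2 : ¬ q ^ 2 ∣ N) :
    H.ρ.IsUnipotentOnInertiaAt q :=
  result_of_U_SS (hasAdicEigenModulesU_of_inputs hfin hsm hgeq hunr hes hlat hA2) hSS hp hp𝒪
    hpS hNS H q hq hqp hqN hq2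

end Fermat.Agent.S34.K789

end
-- ===== PACK-END S34/K789/Inputs.lean

-- ===== PACK-BEGIN S31/H838/OfS30.lean
section



/-!
# Row S31 — everything except S30 (helper838)

* `petersonData N : H22.PeterssonData N` — the analytic core of piece SS in row-lead helper22's
  interface (`B` = Petersson product `H622.petC`).
* `ssStatement : H22.SSStatement`.
* `result_of_S30` : the frozen statement S31 from the single remaining input `S30Statement`.
-/

set_option autoImplicit false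

open UpperHalfPlane CongruenceSubgroup MeasureTheory
open scoped MatrixGroups ModularForm

namespace Fermat.Agent.S31.H838

open Fermat.Agent.S31 Fermat.Agent.S31.H622

/-- The Petersson product as a biadditive map. -/
noncomputable def petAdd (N : ℕ) [NeZero N] :
    CuspForm (Gamma0 N) 2 →+ CuspForm (Gamma0 N) 2 →+ ℂ :=
  AddMonoidHom.mk' (fun f => AddMonoidHom.mk' (fun g => petC N f g) (petC_add_right N f))
    (fun f₁ f₂ => by
      ext g
      exact petC_add_left N f₁ f₂ g)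

/-- The analytic core of piece SS, in the interface `H22.PeterssonData`. -/
noncomputable def petersonData (N : ℕ) [NeZero N] : H22.PeterssonData N where
  B := petAdd N
  definite f h := eq_zero_of_petC_self_eq_zero N f h
  symm_T ℓ hℓ hℓN f g := isPetSymm_heckeTLin N ℓ hℓ hℓN f g

theorem ssStatement : H22.SSStatement :=
  fun N _ S hNS => heckeAlgebra_isReduced N S hNS

section

variable {p : ℕ} {N : ℕ} [NeZero N] {S : Finset ℕ}
  {𝒪 : Type} [CommRing 𝒪] [IsDomain 𝒪] [IsDiscreteValuationRing 𝒪]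
  [IsAdicComplete (IsLocalRing.maximalIdeal 𝒪) 𝒪]
  {θ : CuspForm.heckeAlgebra N 2 (↑S : Set ℕ) →+* IsLocalRing.ResidueField 𝒪}
  {T : Type} [CommRing T] [IsLocalRing T] [IsNoetherianRing T]
  [IsAdicComplete (IsLocalRing.maximalIdeal T) T] [Algebra 𝒪 T] [IsLocalHom (algebraMap 𝒪 T)]
  [Module.Finite 𝒪 T] [Module.Free 𝒪 T]

/-- **S31 from S30 alone.**  The frozen statement S31, with the frozen statement S30 as the only
hypothesis. -/
theorem result_of_S30 (h30 : S30Statement) (hp : p.Prime)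
    (hp𝒪 : (p : 𝒪) ∈ IsLocalRing.maximalIdeal 𝒪) (hpS : p ∈ S)
    (hNS : ∀ q : ℕ, q.Prime → q ∣ N → q ∈ S)
    (H : CuspForm.HeckeGaloisRepDatum N (↑S : Set ℕ) 𝒪 θ T)
    (q : ℕ) (hq : q.Prime) (hqS : q ∉ S) :
    H.ρ.IsUnramifiedAt q :=
  H22.result_of_S30_SS h30 ssStatement hp hp𝒪 hpS hNS H q hq hqS

end

end Fermat.Agent.S31.H838

end
-- ===== PACK-END S31/H838/OfS30.lean

-- ===== PACK-BEGIN S24/Alg/Principal.lean
section





/-!
# S24 / ALG — principal divisors have degree zero (FF3), from the fundamental equality (FF1)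

helper984.  `deg div f = ∑_{zeros} ord_v f - ∑_{poles} ord_v f⁻¹ = [F:K(f)] - [F:K(f⁻¹)] = 0`.
-/

set_option autoImplicit false

noncomputable section

open AlgebraicCurve

namespace Fermat.Agent.S24

variable {K F : Type*} [Field K] [Field F] [Algebra K F]

theorem degree_eq_sum_of_deg_one' (hdeg : ∀ v : Place K F, v.deg = 1) (E : Divisor K F)
    (T : Finset (Place K F)) (hT : E.support ⊆ T) :
    Divisor.degree E = ∑ v ∈ T, E v := by
  have h1 : Divisor.degree E = E.sum fun v n => n * (v.deg : ℤ) := by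
    simp [Divisor.degree, Finsupp.liftAddHom_apply]
  rw [h1, Finsupp.sum_of_support_subset E hT _ (fun v _ => by simp)]
  refine Finset.sum_congr rfl fun v _ => ?_
  rw [hdeg v]; simp

variable [IsAlgClosed K] [CharZero K]

/-- FF1 in inequality form, for an arbitrary enumeration `s` of the zeros of `t`. -/
theorem fundamental_le (t : F) (ht : Transcendental K t)
    [FiniteDimensional ↥(IntermediateField.adjoin K {t}) F]
    (s : Finset (Place K F)) (hs : ∀ v : Place K F, v ∈ s ↔ 0 < v.ord t) :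
    (Module.finrank ↥(IntermediateField.adjoin K {t}) F : ℤ) ≤ ∑ v ∈ s, v.ord t := by
  obtain ⟨s', hs', hsum⟩ := open_fundamental_eq t ht
  have : s = s' := by
    ext v
    rw [hs, hs']
  rw [this, hsum]

/-- FF3: a principal divisor has degree zero. -/
theorem degree_principal (j : F) (hj : Transcendental K j)
    [FiniteDimensional ↥(IntermediateField.adjoin K {j}) F] (f : F) (hf : f ≠ 0)
    (D : Divisor K F) (hD : ∀ v : Place K F, D v = v.ord f) : Divisor.degree D = 0 := by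
  classical
  by_cases hfK : f ∈ (algebraMap K F).range
  · -- constants have no zeros or poles
    obtain ⟨c, rfl⟩ := hfK
    have : D = 0 := by
      ext v
      rw [hD, ord_algebraMap]
      rfl
    rw [this, map_zero]
  · have hft : Transcendental K f := FF.transcendental_of_not_mem_range hfK
    have hfit : Transcendental K f⁻¹ := by
      intro h
      exact hft (by simpa using h.inv)
    haveI : FiniteDimensional ↥(IntermediateField.adjoin K {f}) F :=
      FF.finiteDimensional_adjoin_of_transcendental hj hft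
    obtain ⟨hfd, hfr⟩ := finiteDimensional_and_finrank_of_eq (adjoin_inv K f)
    obtain ⟨Z, hZ, hZsum⟩ := open_fundamental_eq f hft
    obtain ⟨P, hP, hPsum⟩ := open_fundamental_eq f⁻¹ hfit
    have hdeg : ∀ v : Place K F, v.deg = 1 := fun v => FF.deg_eq_one v hj
    have hsupp : D.support ⊆ Z ∪ P := by
      intro v hv
      rw [Finsupp.mem_support_iff, hD] at hv
      rw [Finset.mem_union, hZ, hP, v.ord_inv]
      omega
    have hdisj : Disjoint Z P := by
      rw [Finset.disjoint_left]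
      intro v hvZ hvP
      rw [hZ] at hvZ
      rw [hP, v.ord_inv] at hvP
      omega
    rw [degree_eq_sum_of_deg_one' hdeg D _ hsupp, Finset.sum_union hdisj]
    have h1 : ∑ v ∈ Z, D v = ∑ v ∈ Z, v.ord f := Finset.sum_congr rfl fun v _ => hD v
    have h2 : ∑ v ∈ P, D v = -∑ v ∈ P, v.ord f⁻¹ := by
      rw [← Finset.sum_neg_distrib]
      refine Finset.sum_congr rfl fun v _ => ?_
      rw [hD, v.ord_inv, neg_neg]
    rw [h1, h2, hZsum, hPsum, hfr]
    ring

end Fermat.Agent.S24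

end
end
-- ===== PACK-END S24/Alg/Principal.lean

-- ===== PACK-BEGIN S24/Alg/Sub.lean
section






/-!
# S24 / ALG — sub-interface (statements needed by the global assembly in `Alg.lean`)

Adapters (helper984) from the FF layer (helper804), the KD layer (helper84) and the local
theorem (helper117) to the shapes used by the assembly.
-/

set_option autoImplicit false

noncomputable section

open AlgebraicCurve KaehlerDifferential

namespace Fermat.Agent.S24

variable {K F : Type*} [Field K] [Field F] [Algebra K F] [IsAlgClosed K] [CharZero K]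
variable {C : Type*} [Field C] [CharZero C] {X : Type*} [Finite X]

/-- The places of `F/K` at which `t` vanishes. -/
def zeroPlaces (K : Type*) {F : Type*} [Field K] [Field F] [Algebra K F] (t : F) :
    Set (Place K F) := {v | 0 < v.ord t}

/-! ### FF (function-field generalities) -/

omit [CharZero K] in
/-- FF2: all places have degree one. -/
theorem sub_deg_eq_one (j : F) (hj : Transcendental K j)
    [FiniteDimensional ↥(IntermediateField.adjoin K {j}) F] (v : Place K F) : v.deg = 1 :=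
  FF.deg_eq_one v hj

/-- FF3: a principal divisor has degree zero. -/
theorem sub_degree_principal (j : F) (hj : Transcendental K j)
    [FiniteDimensional ↥(IntermediateField.adjoin K {j}) F] (f : F) (hf : f ≠ 0)
    (D : Divisor K F) (hD : ∀ v : Place K F, D v = v.ord f) : Divisor.degree D = 0 :=
  degree_principal j hj f hf D hD

omit [CharZero K] in
/-- FF4: every place lies over a point of `ℙ¹_j`. -/
theorem sub_exists_point (j : F)
    [FiniteDimensional ↥(IntermediateField.adjoin K {j}) F] (v : Place K F) :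
    v.ord j < 0 ∨ ∃ a : K, 0 < v.ord (j - algebraMap K F a) := by
  rcases lt_or_ge (v.ord j) 0 with h | h
  · exact Or.inl h
  · haveI : Algebra.IsAlgebraic ↥(IntermediateField.adjoin K {j}) F :=
      Algebra.IsAlgebraic.of_finite _ _
    exact Or.inr (FF.exists_ord_sub_pos v j h)

/-! ### KD (Kähler differentials) -/

omit [IsAlgClosed K] in
/-- KD1: `Ω[F/K]` is spanned by `D j`. -/
theorem sub_exists_smul_D (j : F)
    [FiniteDimensional ↥(IntermediateField.adjoin K {j}) F] (ω : Ω[F⁄K]) :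
    ∃ f : F, ω = f • D K F j := by
  haveI : Algebra.IsAlgebraic ↥(IntermediateField.adjoin K {j}) F :=
    Algebra.IsAlgebraic.of_finite _ _
  have h : ω ∈ Submodule.span F {D K F j} := by
    rw [H84.span_D_eq_top j]; exact Submodule.mem_top
  obtain ⟨f, hf⟩ := Submodule.mem_span_singleton.mp h
  exact ⟨f, hf.symm⟩

/-- KD2: `ordDifferential` is additive in the coefficient. -/
theorem sub_ordDifferential_smul (j : F)
    [FiniteDimensional ↥(IntermediateField.adjoin K {j}) F] (v : Place K F)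
    (f : F) (hf : f ≠ 0) (ω : Ω[F⁄K]) (hω : ω ≠ 0) :
    v.ordDifferential (f • ω) = v.ord f + v.ordDifferential ω := by
  haveI : v.DCoordGenerates := H84.place_dCoordGenerates j v
  haveI : Nontrivial Ω[F⁄K] := ⟨⟨ω, 0, hω⟩⟩
  refine v.ordDifferential_smul hf ?_
  intro h0
  apply hω
  rw [← v.differentialCoeff_smul_dCoord ω, h0, zero_smul]

/-! ### LT (local theorem) -/

/-- LT: the places over the zero of `t` are finite in number, in bijection with the orbits of
`perm`, and the ramification indices add up to the degree. -/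
theorem sub_local_count (t : F)
    [FiniteDimensional ↥(IntermediateField.adjoin K {t}) F]
    (hrank : Module.finrank ↥(IntermediateField.adjoin K {t}) F = Nat.card X)
    (d : LocalData K F C X t) :
    (zeroPlaces K t).Finite ∧ Nat.card ↥(zeroPlaces K t) = numOrbits d.perm ∧
      ∑ᶠ v ∈ zeroPlaces K t, v.ord t = (Nat.card X : ℤ) := by
  classical
  have hfin : (zeroPlaces K t).Finite :=
    H117.finite_places_over d (IntermediateField.adjoin K {t}) le_rfl hrank
  have hs : ∀ v : Place K F, v ∈ hfin.toFinset ↔ 0 < v.ord t := fun v => by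
    simp [zeroPlaces]
  have ht : Transcendental K t := by
    have hpos : 0 < Nat.card X := hrank ▸ Module.finrank_pos
    obtain ⟨x⟩ := (Nat.card_pos_iff.mp hpos).1
    refine FF.transcendental_of_not_mem_range ?_
    rintro ⟨c, hc⟩
    have h1 := d.σ_t_order x
    have h3 : d.σ x t = HahnSeries.C (d.ι c) := by rw [← d.σ_const x c, hc]
    rw [h3] at h1
    have h2 : (HahnSeries.C (d.ι c) : LaurentSeries C).order = 0 := by
      rw [HahnSeries.C_apply]
      by_cases h0 : d.ι c = 0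
      · simp [h0]
      · exact HahnSeries.order_single h0
    rw [h2] at h1
    have := d.m_pos
    omega
  have hle : (Nat.card X : ℤ) ≤ ∑ v ∈ hfin.toFinset, v.ord t := by
    rw [← hrank]
    exact fundamental_le t ht hfin.toFinset hs
  obtain ⟨h1, -, h3⟩ :=
    H117.localThm d (IntermediateField.adjoin K {t}) le_rfl hrank hfin.toFinset hs hle
  refine ⟨hfin, ?_, ?_⟩
  · rw [Nat.card_coe_set_eq, Set.ncard_eq_toFinset_card _ hfin]
    exact h1
  · rw [finsum_mem_eq_finite_toFinset_sum _ hfin]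
    exact h3

/-- LT + KD4: order of `dt` at a zero of `t`. -/
theorem sub_ordDifferential_D (t : F)
    [FiniteDimensional ↥(IntermediateField.adjoin K {t}) F]
    (hrank : Module.finrank ↥(IntermediateField.adjoin K {t}) F = Nat.card X)
    (d : LocalData K F C X t) (v : Place K F) (hv : 0 < v.ord t) :
    v.ordDifferential (D K F t) = v.ord t - 1 := by
  obtain ⟨x, rfl⟩ :=
    H117.exists_placeOf_eq d (IntermediateField.adjoin K {t}) le_rfl hrank v hv
  haveI : (H117.placeOf d x).DCoordGenerates := H84.place_dCoordGenerates t _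
  exact H84.place_ordDifferential_D_of_ord_ne_zero (H117.placeOf d x) (d.σ x) d.ι (d.σ_const x)
    (H117.mult d x) (H117.mult_pos d x) (fun f _ => H117.order_eq d x f) t hv.ne'

end Fermat.Agent.S24

end
end
-- ===== PACK-END S24/Alg/Sub.lean

-- ===== PACK-BEGIN S24/Alg.lean
section





/-!
# S24 — algebraic side (Riemann–Hurwitz for `F / K(j)` from local embedding data)

Global assembly (helper984): the two frozen interface theorems
`exists_differential_ne_zero` and `degree_eq_of_localData`, proved from the sub-interface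
in `Alg/Sub.lean`.
-/

set_option autoImplicit false

noncomputable section

open AlgebraicCurve KaehlerDifferential

namespace Fermat.Agent.S24

variable {K F : Type*} [Field K] [Field F] [Algebra K F] [IsAlgClosed K] [CharZero K]
variable {C : Type*} [Field C] [CharZero C] {X : Type*} [Finite X]

omit [CharZero K] in
theorem exists_algebraMap_eq_of_isAlgebraic {x : F} (hx : IsAlgebraic K x) :
    ∃ c : K, algebraMap K F c = x := by
  have hint : IsIntegral K x := hx.isIntegral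
  refine ⟨-(minpoly K x).coeff 0, ?_⟩
  have hq : (minpoly K x).leadingCoeff = 1 := minpoly.monic hint
  have h : (minpoly K x).degree = 1 :=
    IsAlgClosed.degree_eq_one_of_irreducible K (minpoly.irreducible hint)
  have : Polynomial.aeval x (minpoly K x) = 0 := minpoly.aeval K x
  rw [Polynomial.eq_X_add_C_of_degree_eq_one h, hq, Polynomial.C_1, one_mul,
    Polynomial.aeval_add, Polynomial.aeval_X, Polynomial.aeval_C,
    add_eq_zero_iff_eq_neg] at this
  exact (map_neg (algebraMap K F) ((minpoly K x).coeff 0)).symm ▸ this.symm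

omit [IsAlgClosed K] [CharZero K] [CharZero C] [Finite X] in
theorem not_mem_range_of_localData {t : F} [Nonempty X] (d : LocalData K F C X t) (c : K) :
    t ≠ algebraMap K F c := by
  intro h
  obtain ⟨x⟩ := ‹Nonempty X›
  have h1 := d.σ_t_order x
  have h3 : d.σ x t = HahnSeries.C (d.ι c) := (congrArg (d.σ x) h).trans (d.σ_const x c)
  rw [h3] at h1
  have h2 : (HahnSeries.C (d.ι c) : LaurentSeries C).order = 0 := by
    rw [HahnSeries.C_apply]
    by_cases hc : d.ι c = 0
    · simp [hc]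
    · exact HahnSeries.order_single hc
  rw [h2] at h1
  have := d.m_pos
  omega

omit [CharZero K] [CharZero C] [Finite X] in
theorem transcendental_of_localData_inv (j : F) [Nonempty X]
    (dataInf : LocalData K F C X j⁻¹) : Transcendental K j := by
  intro halg
  obtain ⟨c, hc⟩ := exists_algebraMap_eq_of_isAlgebraic halg
  refine not_mem_range_of_localData dataInf c⁻¹ ?_
  rw [map_inv₀, hc]

omit [Finite X] in
theorem numOrbits_one : numOrbits (1 : Equiv.Perm X) = Nat.card X := by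
  unfold numOrbits
  refine Nat.card_congr (Equiv.ofBijective (Quotient.mk'' (s₁ := MulAction.orbitRel _ X)) ?_).symm
  constructor
  · intro x y hxy
    have h := Quotient.exact' hxy
    change x ∈ MulAction.orbit _ y at h
    obtain ⟨⟨g, hg⟩, hgx⟩ := h
    rw [Subgroup.zpowers_one_eq_bot, Subgroup.mem_bot] at hg
    subst hg
    simpa using hgx.symm
  · exact Quotient.mk''_surjective

end Fermat.Agent.S24

namespace Fermat.Agent.S24

variable {K F : Type*} [Field K] [Field F] [Algebra K F] [IsAlgClosed K] [CharZero K]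
variable {C : Type*} [Field C] [CharZero C] {X : Type*} [Finite X]

omit [IsAlgClosed K] [CharZero K] [Finite X] in
/-- `dt ≠ 0` if there is local data at `t` (helper240). -/
theorem D_ne_zero_of_localData {t : F} [Nonempty X] (d : LocalData K F C X t) :
    D K F t ≠ 0 := by
  obtain ⟨x⟩ := ‹Nonempty X›
  apply H240.exists_embDerivation (d.σ x) d.ι (d.σ_const x)
  apply H240.lsD_ne_zero_of_order_ne_zero
  rw [d.σ_t_order x]
  exact_mod_cast d.m_pos.ne'

omit [IsAlgClosed K] [CharZero K] [Finite X] in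
/-- If `F` admits local data at `j⁻¹`, then `Ω[F/K] ≠ 0` (helper240). -/
theorem exists_differential_ne_zero (j : F) [Nonempty X]
    (dataInf : LocalData K F C X j⁻¹) :
    ∃ ω : Ω[F⁄K], ω ≠ 0 :=
  ⟨D K F j⁻¹, D_ne_zero_of_localData dataInf⟩

section LocalConsequences

variable (t : F) [FiniteDimensional ↥(IntermediateField.adjoin K {t}) F]
  (hrank : Module.finrank ↥(IntermediateField.adjoin K {t}) F = Nat.card X)
  (d : LocalData K F C X t)

include hrank d in
theorem zeroPlaces_finite : (zeroPlaces K t).Finite := (sub_local_count t hrank d).1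

include hrank in
theorem card_zeroPlaces_toFinset :
    ((zeroPlaces_finite t hrank d).toFinset.card : ℤ) = numOrbits d.perm := by
  have h := (sub_local_count t hrank d).2.1
  rw [Nat.card_coe_set_eq, Set.ncard_eq_toFinset_card _ (zeroPlaces_finite t hrank d)] at h
  exact_mod_cast h

include hrank in
theorem sum_ord_zeroPlaces :
    ∑ v ∈ (zeroPlaces_finite t hrank d).toFinset, v.ord t = (Nat.card X : ℤ) := by
  have h := (sub_local_count t hrank d).2.2
  rwa [finsum_mem_eq_finite_toFinset_sum _ (zeroPlaces_finite t hrank d)] at h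

include hrank in
theorem sum_ord_sub_one_zeroPlaces :
    ∑ v ∈ (zeroPlaces_finite t hrank d).toFinset, (v.ord t - 1)
      = (Nat.card X : ℤ) - numOrbits d.perm := by
  rw [Finset.sum_sub_distrib, sum_ord_zeroPlaces t hrank d, Finset.sum_const,
    ← card_zeroPlaces_toFinset t hrank d]
  simp

include hrank in
theorem sum_neg_ord_sub_one_zeroPlaces :
    ∑ v ∈ (zeroPlaces_finite t hrank d).toFinset, (-(v.ord t) - 1)
      = -(Nat.card X : ℤ) - numOrbits d.perm := by
  rw [Finset.sum_sub_distrib, Finset.sum_neg_distrib, sum_ord_zeroPlaces t hrank d,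
    Finset.sum_const, ← card_zeroPlaces_toFinset t hrank d]
  simp

include hrank in
/-- If the monodromy is trivial, `t` is unramified: every zero of `t` is simple. -/
theorem ord_eq_one_of_perm_eq_one (hperm : d.perm = 1) (v : Place K F) (hv : 0 < v.ord t) :
    v.ord t = 1 := by
  have hsum := sum_ord_sub_one_zeroPlaces t hrank d
  rw [hperm, numOrbits_one, sub_self] at hsum
  have hnonneg : ∀ w ∈ (zeroPlaces_finite t hrank d).toFinset, 0 ≤ w.ord t - 1 := by
    intro w hw
    have : 0 < w.ord t := by simpa [zeroPlaces] using hw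
    omega
  have hz := (Finset.sum_eq_zero_iff_of_nonneg hnonneg).mp hsum v
    (by simpa [zeroPlaces] using hv)
  omega

end LocalConsequences

section Global

variable (j : F) [FiniteDimensional ↥(IntermediateField.adjoin K {j}) F]
  (hrank : Module.finrank ↥(IntermediateField.adjoin K {j}) F = Nat.card X)

include hrank in
/-- Local package at a finite point, with all instance transport done. -/
theorem local_fin (a : K) (d : LocalData K F C X (j - algebraMap K F a)) :
    ∃ Z : Finset (Place K F), (∀ v : Place K F, v ∈ Z ↔ 0 < v.ord (j - algebraMap K F a)) ∧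
      ∑ v ∈ Z, (v.ord (j - algebraMap K F a) - 1) = (Nat.card X : ℤ) - numOrbits d.perm ∧
      (∀ v : Place K F, 0 < v.ord (j - algebraMap K F a) →
        v.ordDifferential (D K F (j - algebraMap K F a)) = v.ord (j - algebraMap K F a) - 1) ∧
      (d.perm = 1 → ∀ v : Place K F, 0 < v.ord (j - algebraMap K F a) →
        v.ord (j - algebraMap K F a) = 1) := by
  obtain ⟨hfd, hfr⟩ := finiteDimensional_and_finrank_of_eq (adjoin_sub_algebraMap K j a)
  have hr := hfr.trans hrank
  refine ⟨(zeroPlaces_finite _ hr d).toFinset, fun v => by simp [zeroPlaces],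
    sum_ord_sub_one_zeroPlaces _ hr d, fun v hv => sub_ordDifferential_D _ hr d v hv,
    fun h v hv => ord_eq_one_of_perm_eq_one _ hr d h v hv⟩

include hrank in
/-- Local package at infinity, with all instance transport done. -/
theorem local_inf (d : LocalData K F C X j⁻¹) :
    ∃ Z : Finset (Place K F), (∀ v : Place K F, v ∈ Z ↔ 0 < v.ord j⁻¹) ∧
      ∑ v ∈ Z, (-(v.ord j⁻¹) - 1) = -(Nat.card X : ℤ) - numOrbits d.perm ∧
      (∀ v : Place K F, 0 < v.ord j⁻¹ → v.ordDifferential (D K F j⁻¹) = v.ord j⁻¹ - 1) := by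
  obtain ⟨hfd, hfr⟩ := finiteDimensional_and_finrank_of_eq (adjoin_inv K j)
  have hr := hfr.trans hrank
  exact ⟨(zeroPlaces_finite _ hr d).toFinset, fun v => by simp [zeroPlaces],
    sum_neg_ord_sub_one_zeroPlaces _ hr d, fun v hv => sub_ordDifferential_D _ hr d v hv⟩

omit [IsAlgClosed K] [CharZero K] in
theorem degree_eq_sum_of_deg_one (hdeg : ∀ v : Place K F, v.deg = 1) (E : Divisor K F)
    (T : Finset (Place K F)) (hT : E.support ⊆ T) :
    Divisor.degree E = ∑ v ∈ T, E v := by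
  have h1 : Divisor.degree E = E.sum fun v n => n * (v.deg : ℤ) := by
    simp [Divisor.degree, Finsupp.liftAddHom_apply]
  rw [h1, Finsupp.sum_of_support_subset E hT _ (fun v _ => by simp)]
  refine Finset.sum_congr rfl fun v _ => ?_
  rw [hdeg v]; simp

include hrank in
/-- **Riemann–Hurwitz from embeddings.**  Degree of the divisor of any nonzero differential. -/
theorem degree_eq_of_localData
    (dataFin : ∀ a : K, LocalData K F C X (j - algebraMap K F a))
    (dataInf : LocalData K F C X j⁻¹)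
    (S₀ : Finset K) (hgen : ∀ a : K, a ∉ S₀ → (dataFin a).perm = 1)
    (ω : Ω[F⁄K]) (hω : ω ≠ 0) (E : Divisor K F)
    (hE : ∀ v : Place K F, E v = v.ordDifferential ω) :
    Divisor.degree E =
      (∑ a ∈ S₀, ((Nat.card X : ℤ) - numOrbits (dataFin a).perm))
        - Nat.card X - numOrbits dataInf.perm := by
  classical
  have hpos : 0 < Nat.card X := hrank ▸ Module.finrank_pos
  have hne : Nonempty X := (Nat.card_pos_iff.mp hpos).1
  have hj : Transcendental K j := transcendental_of_localData_inv j dataInf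
  have hj0 : j ≠ 0 := fun h => hj (h ▸ isAlgebraic_zero)
  have hdeg : ∀ v : Place K F, v.deg = 1 := sub_deg_eq_one j hj
  -- `ω = f • dj`
  obtain ⟨f, rfl⟩ := sub_exists_smul_D j ω
  have hf : f ≠ 0 := by rintro rfl; simp at hω
  have hDinv : D K F j = (-(j ^ 2)) • D K F j⁻¹ := by
    have h := Derivation.leibniz_inv (D K F) (j⁻¹)
    rw [inv_inv] at h
    exact h
  have hDjinv : D K F j⁻¹ ≠ 0 := D_ne_zero_of_localData dataInf
  have hc : (-(j ^ 2)) ≠ 0 := neg_ne_zero.mpr (pow_ne_zero 2 hj0)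
  have hDj : D K F j ≠ 0 := by
    rw [hDinv]
    exact smul_ne_zero hc hDjinv
  -- local packages
  choose Zf hZf_mem hZf_sum hZf_ord hZf_unr using fun a => local_fin j hrank a (dataFin a)
  obtain ⟨Zi, hZi_mem, hZi_sum, hZi_ord⟩ := local_inf j hrank dataInf
  -- the ramification function
  set R : Place K F → ℤ := fun v => v.ordDifferential (D K F j) with hR
  have hDv : ∀ v : Place K F, E v = v.ord f + R v := fun v => by
    rw [hE, sub_ordDifferential_smul j v f hf _ hDj]
  have hRfin : ∀ (a : K) (v : Place K F), 0 < v.ord (j - algebraMap K F a) →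
      R v = v.ord (j - algebraMap K F a) - 1 := by
    intro a v hv
    have : D K F (j - algebraMap K F a) = D K F j := by simp
    rw [← hZf_ord a v hv, this]
  have hRinf : ∀ v : Place K F, 0 < v.ord j⁻¹ → R v = -(v.ord j⁻¹) - 1 := by
    intro v hv
    show v.ordDifferential (D K F j) = _
    rw [hDinv, sub_ordDifferential_smul j v _ hc _ hDjinv, hZi_ord v hv, ord_neg, pow_two,
      v.ord_mul hj0 hj0]
    have := v.ord_inv j
    omega
  -- the finite set of special places
  set T : Finset (Place K F) := S₀.biUnion Zf ∪ Zi with hT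
  have hRT : ∀ v : Place K F, R v ≠ 0 → v ∈ T := by
    intro v hv
    rcases sub_exists_point j v with h | ⟨a, ha⟩
    · refine Finset.mem_union_right _ ((hZi_mem v).mpr ?_)
      have := v.ord_inv j
      omega
    · by_cases haS : a ∈ S₀
      · exact Finset.mem_union_left _ (Finset.mem_biUnion.mpr ⟨a, haS, (hZf_mem a v).mpr ha⟩)
      · exfalso
        apply hv
        rw [hRfin a v ha, hZf_unr a (hgen a haS) v ha]
        simp
  let Rfs : Divisor K F := Finsupp.onFinset T R hRT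
  have hRfs : ∀ v : Place K F, Rfs v = R v := fun v => rfl
  have hprinc : Divisor.degree (E - Rfs) = 0 :=
    sub_degree_principal j hj f hf (E - Rfs) fun v => by
      rw [Finsupp.sub_apply, hRfs, hDv]; ring
  have hsplit : Divisor.degree E = Divisor.degree Rfs := by
    have := map_sub (Divisor.degree (K := K) (F := F)) E Rfs
    rw [hprinc] at this
    linarith
  rw [hsplit, degree_eq_sum_of_deg_one hdeg Rfs T Finsupp.support_onFinset_subset]
  simp only [hRfs]
  -- split the sum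
  have hdisj1 : Disjoint (S₀.biUnion Zf) Zi := by
    rw [Finset.disjoint_left]
    intro v hv hvi
    obtain ⟨a, -, hva⟩ := Finset.mem_biUnion.mp hv
    exact not_pos_ord_sub_of_pos_ord_inv v j a ((hZi_mem v).mp hvi) ((hZf_mem a v).mp hva)
  have hdisj2 : (S₀ : Set K).PairwiseDisjoint Zf := by
    intro a _ b _ hab
    rw [Function.onFun, Finset.disjoint_left]
    intro v hva hvb
    exact hab (point_unique v j ((hZf_mem a v).mp hva) ((hZf_mem b v).mp hvb))
  rw [hT, Finset.sum_union hdisj1, Finset.sum_biUnion hdisj2]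
  have h1 : ∀ a ∈ S₀, ∑ v ∈ Zf a, R v = (Nat.card X : ℤ) - numOrbits (dataFin a).perm := by
    intro a _
    rw [← hZf_sum a]
    exact Finset.sum_congr rfl fun v hv => hRfin a v ((hZf_mem a v).mp hv)
  have h2 : ∑ v ∈ Zi, R v = -(Nat.card X : ℤ) - numOrbits dataInf.perm := by
    rw [← hZi_sum]
    exact Finset.sum_congr rfl fun v hv => hRinf v ((hZi_mem v).mp hv)
  rw [Finset.sum_congr rfl h1, h2]
  ring

end Global

end Fermat.Agent.S24

end
end
-- ===== PACK-END S24/Alg.lean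

-- ===== PACK-BEGIN S30/H990/FromH330.lean
section
/-
S30 top glue (helper990): adapter from helper330's adic module layer
(`H330.HasAdicFrobModule O (N * p) (· ∉ S) (eigenvalue χ)`) to the input of the top glue, and the
frozen statement S30 from it.
-/



set_option autoImplicit false

namespace Fermat.Agent.S30.H990

open Polynomial

/-- helper330's output is an adic eigenmodule. -/
theorem nonempty_adicEigenModule_of_H330 {p N : ℕ} [NeZero N] (hp : p.Prime) {S : Finset ℕ}
    {𝒪 : Type} [CommRing 𝒪] [IsLocalRing 𝒪]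
    (χ : CuspForm.heckeAlgebra N 2 (↑S : Set ℕ) →+* 𝒪)
    (h : Fermat.Agent.S30.H330.HasAdicFrobModule 𝒪 (N * p) (fun ℓ => ℓ ∉ S)
      (Fermat.Agent.S30.H330.eigenvalue χ)) :
    Nonempty (AdicEigenModule p N S 𝒪 χ) := by
  obtain ⟨M, i1, i2, i3, i4, ρ, hnt, hcont, hunr, hfrob⟩ := h
  have hdvd : ∀ q : ℕ, q.Prime → ¬ q ∣ N → q ≠ p → ¬ q ∣ N * p := by
    intro q hq hqN hqp hdiv
    rcases (Nat.Prime.dvd_mul hq).1 hdiv with h1 | h1
    · exact hqN h1
    · exact hqp ((Nat.prime_dvd_prime_iff_eq hq hp).1 h1)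
  exact ⟨{
    M := M
    ρ := ρ
    cont := hcont
    unram := fun q hq hqN hqp P hP σ hσ => hunr q hq (hdvd q hq hqN hqp) P hP σ hσ
    frob := fun ℓ hℓ hℓN hℓS A hA σ hσ => by
      have h1 := hfrob ℓ hℓ (fun hmem => hℓS (Finset.mem_coe.mpr hmem)) A hA σ hσ
      have h2 : Fermat.Agent.S30.H330.eigenvalue χ ℓ
          = χ (CuspForm.heckeAlgebra.T hℓ hℓN hℓS) := by
        unfold Fermat.Agent.S30.H330.eigenvalue
        rw [dif_pos ⟨hℓ, hℓN, hℓS⟩]
      rw [h2] at h1
      exact h1 }⟩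

/-- The tower hypothesis of the top glue from helper330's adic module layer. -/
theorem hasAdicEigenModules_of_H330
    (h : ∀ (p : ℕ) [Fact p.Prime] (N : ℕ) [NeZero N] (S : Finset ℕ)
      (_hpS : p ∈ S) (_hNS : ∀ q : ℕ, q.Prime → q ∣ N → q ∈ S)
      (𝒪' : Type) [CommRing 𝒪'] [IsDomain 𝒪'] [IsDiscreteValuationRing 𝒪']
      [IsAdicComplete (IsLocalRing.maximalIdeal 𝒪') 𝒪'] [Finite (IsLocalRing.ResidueField 𝒪')]
      [CharZero 𝒪'] (_hp𝒪' : (p : 𝒪') ∈ IsLocalRing.maximalIdeal 𝒪')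
      (χ : CuspForm.heckeAlgebra N 2 (↑S : Set ℕ) →+* 𝒪'),
      Fermat.Agent.S30.H330.HasAdicFrobModule 𝒪' (N * p) (fun ℓ => ℓ ∉ S)
        (Fermat.Agent.S30.H330.eigenvalue χ)) :
    HasAdicEigenModules := by
  intro p _ N _ S hpS hNS 𝒪' _ _ _ _ _ _ hp𝒪' χ
  exact nonempty_adicEigenModule_of_H330 (Fact.out : p.Prime) χ (h p N S hpS hNS 𝒪' hp𝒪' χ)

end Fermat.Agent.S30.H990

end
-- ===== PACK-END S30/H990/FromH330.lean

-- ===== PACK-BEGIN Lib/FF398/Global.lean
section




/-!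
# Lib/FF398 — global consequences for function fields over an algebraically closed field

* `hasPrincipalDivisors` : a function field of one variable over an algebraically closed field
  of characteristic zero has principal divisors (finite support, degree zero)
  [repackaging of helper804's `S24.FF.degree_principal`];
* `sumRamificationInertia`, `fundamentalIdentity` : `∑_{w | v} e(w|v) f(w|v) = [F' : F]`;
* `pushforwardNormFormula` : `N_* div(g) = div(N g)`.
(helper398)
-/

set_option autoImplicit false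
set_option linter.unusedSectionVars false

open AlgebraicCurve IsDedekindDomain IntermediateField

namespace Fermat.Agent.Lib.FF398

section HPD

variable {K F : Type*} [Field K] [Field F] [Algebra K F] [IsAlgClosed K] [CharZero K]

/-- A function field of one variable over an algebraically closed field of characteristic zero
has principal divisors. -/
theorem hasPrincipalDivisors (j : F) (hj : Transcendental K j) [FiniteDimensional K⟮j⟯ F] :
    HasPrincipalDivisors K F where
  exists_divisor f hf := by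
    by_cases hfr : f ∈ (algebraMap K F).range
    · obtain ⟨a, rfl⟩ := hfr
      refine ⟨0, fun v => ?_, map_zero _⟩
      rw [Fermat.Agent.S24.FF.ord_algebraMap]
      rfl
    · have hft : Transcendental K f := Fermat.Agent.S24.FF.transcendental_of_not_mem_range hfr
      have hfin : FiniteDimensional K⟮f⟯ F :=
        Fermat.Agent.S24.FF.finiteDimensional_adjoin_of_transcendental hj hft
      have hfinite : {v : Place K F | v.ord f ≠ 0}.Finite :=
        Fermat.Agent.S24.FF.finite_setOf_ord_ne_zero hft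
      let D : Divisor K F := Finsupp.ofSupportFinite (fun v => v.ord f) hfinite
      have hD : ∀ v : Place K F, D v = v.ord f := fun v => rfl
      exact ⟨D, hD, Fermat.Agent.S24.FF.degree_principal j hj f D hD⟩

end HPD

section Relative

variable {K F F' : Type*} [Field K] [Field F] [Field F'] [Algebra K F] [Algebra K F']
  [Algebra F F'] [IsScalarTower K F F'] [FiniteDimensional F F'] [CharZero F]
  [HasPrincipalDivisors K F']

/-- **Fundamental identity** `∑_{w | v} e(w|v) f(w|v) = [F' : F]` when all places of `F'` have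
degree one. -/
theorem sumRamificationInertia (hdeg' : ∀ w : Place K F', w.deg = 1) :
    SumRamificationInertia K F F' where
  sum_ramificationIndex_mul_inertiaDeg v := by
    rw [← sum_ramificationIndex v hdeg' (v.fiber F') (fun w => Place.mem_fiber)]
    refine Finset.sum_congr rfl fun w _ => ?_
    rw [inertiaDeg_eq_one hdeg' w]
    simp

theorem fundamentalIdentity (hdeg' : ∀ w : Place K F', w.deg = 1) :
    FundamentalIdentity K F F' :=
  haveI := sumRamificationInertia (F := F) hdeg'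
  inferInstance

/-- **Norm formula** `N_* div(g) = div(N_{F'/F} g)` when all places of `F'` have degree one. -/
theorem pushforwardNormFormula (hdeg' : ∀ w : Place K F', w.deg = 1) :
    Divisor.PushforwardNormFormula K F F' := by
  classical
  intro g hg D hD v
  rw [Divisor.pushforward_apply, ← sum_ord_eq_ord_norm v hdeg' (v.fiber F')
    (fun w => Place.mem_fiber) g hg]
  rw [← Finset.sum_filter]
  refine Finset.sum_subset_zero_on_sdiff ?_ ?_ ?_
  · intro w hw
    rw [Finset.mem_filter] at hw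
    exact Place.mem_fiber.mpr hw.2
  · intro w hw
    rw [Finset.mem_sdiff, Finset.mem_filter, Place.mem_fiber] at hw
    have hnot : w ∉ D.support := fun h => hw.2 ⟨h, hw.1⟩
    rw [Finsupp.notMem_support_iff, hD] at hnot
    exact hnot
  · intro w hw
    rw [hD, inertiaDeg_eq_one hdeg' w]
    simp

end Relative

end Fermat.Agent.Lib.FF398

end
-- ===== PACK-END Lib/FF398/Global.lean

-- ===== PACK-BEGIN Lib/FF398/Hecke.lean
section




/-!
# Lib/FF398 — the Hecke correspondence `T_ℓ` on `J₀(N)` is the genuine one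

`ModularCurve.heckeOperatorAlong L N ℓ` is defined by `dite` on `HeckeInputsAlong L N ℓ`
(junk value `0` if the inputs fail).  We prove the inputs for `L = ℚ̄`:

* `heckeInputs_general` : for ANY two `K`-embeddings `α β : F → F'` of function fields of one
  variable over an algebraically closed field of characteristic zero, all six inputs hold;
* `heckeInputsAlong N ℓ : HeckeInputsAlong ℚ̄ N ℓ`;
* `heckeOperatorBar_eq` : `heckeOperatorBar N ℓ` is `Pic0.correspondence β α` (norm ∘ conorm).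
(helper398)
-/

set_option autoImplicit false
set_option linter.unusedSectionVars false

open AlgebraicCurve IsDedekindDomain IntermediateField ModularCurve

namespace Fermat.Agent.Lib.FF398

section General

variable {K F F' : Type*} [Field K] [Field F] [Field F'] [Algebra K F] [Algebra K F']
  [IsAlgClosed K] [CharZero K]

/-- A `K`-embedding of function fields of one variable is finite. -/
theorem finiteAlong_of_functionField (φ : F →ₐ[K] F') (j : F) (hj : Transcendental K j)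
    (j' : F') (hj' : Transcendental K j') [FiniteDimensional K⟮j'⟯ F'] :
    FiniteAlong K φ := by
  letI := algebraAlong φ
  show Module.Finite F F'
  have hy : Transcendental K (φ j) := by
    intro h
    exact hj ((isAlgebraic_algHom_iff φ φ.injective).mp h)
  haveI : FiniteDimensional K⟮φ j⟯ F' :=
    Fermat.Agent.S24.FF.finiteDimensional_adjoin_of_transcendental hj' hy
  obtain ⟨S, hS⟩ := (Module.finite_def (R := K⟮φ j⟯) (M := F')).mp inferInstance
  refine Module.finite_def.mpr ⟨S, ?_⟩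
  have hle : K⟮φ j⟯ ≤ φ.fieldRange := by
    rw [adjoin_le_iff]
    rintro _ rfl
    exact ⟨j, rfl⟩
  have key : ∀ x : F', x ∈ Submodule.span K⟮φ j⟯ (S : Set F') →
      x ∈ Submodule.span F (S : Set F') := by
    intro x hx
    induction hx using Submodule.span_induction with
    | mem x hx => exact Submodule.subset_span hx
    | zero => exact zero_mem _
    | add x y _ _ hx hy => exact add_mem hx hy
    | smul e x _ hx =>
      obtain ⟨f, hf⟩ := hle e.2
      have : e • x = f • x := by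
        rw [Algebra.smul_def, Algebra.smul_def]
        show (e : F') * x = φ f * x
        rw [← hf]
        rfl
      rw [this]
      exact Submodule.smul_mem _ _ hx
  rw [eq_top_iff]
  intro x _
  exact key x (by rw [hS]; trivial)

/-- **All six inputs of the Hecke correspondence** for two embeddings of function fields. -/
theorem heckeInputs_general (α β : F →ₐ[K] F') (j : F) (hj : Transcendental K j)
    (j' : F') (hj' : Transcendental K j') [FiniteDimensional K⟮j'⟯ F'] :
    ∃ (_ : α.toRingHom.IsIntegral) (hβ : β.toRingHom.IsIntegral)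
      (_ : HasPrincipalDivisors K F') (hfin : FiniteAlong K α),
      FundamentalIdentityAlong K β hβ ∧ NormFormulaAlong K α hfin := by
  haveI hP : HasPrincipalDivisors K F' := hasPrincipalDivisors j' hj'
  haveI : CharZero F := charZero_of_injective_algebraMap (algebraMap K F).injective
  have hdeg' : ∀ w : Place K F', w.deg = 1 := fun w => Fermat.Agent.S24.FF.deg_eq_one w hj'
  have hfinα : FiniteAlong K α := finiteAlong_of_functionField α j hj j' hj'
  have hfinβ : FiniteAlong K β := finiteAlong_of_functionField β j hj j' hj'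
  have hα : α.toRingHom.IsIntegral := by
    letI := algebraAlong α
    haveI : Module.Finite F F' := hfinα
    exact fun x => Algebra.IsIntegral.isIntegral (R := F) x
  have hβ : β.toRingHom.IsIntegral := by
    letI := algebraAlong β
    haveI : Module.Finite F F' := hfinβ
    exact fun x => Algebra.IsIntegral.isIntegral (R := F) x
  refine ⟨hα, hβ, hP, hfinα, ?_, ?_⟩
  · letI := algebraAlong β
    haveI := isScalarTower_along β
    haveI : Module.Finite F F' := hfinβ
    exact fundamentalIdentity (K := K) (F := F) (F' := F') hdeg'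
  · letI := algebraAlong α
    haveI := isScalarTower_along α
    haveI : Module.Finite F F' := hfinα
    exact pushforwardNormFormula (K := K) (F := F) (F' := F') hdeg'

end General

section Modular

open Fermat.Agent.S24

theorem transcendental_jF (N : ℕ) [NeZero N] : Transcendental Kbar (jF N) := by
  intro halg
  obtain ⟨p, hp0, hp⟩ := halg
  apply Deg457.aeval_JK_ne_zero Kbar hp0
  have h2 := congrArg (algebraMap (FF N) (LaurentSeries Kbar)) hp
  rw [← Polynomial.aeval_algebraMap_apply, map_zero] at h2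
  exact h2

instance finiteDimensional_FF (N : ℕ) [NeZero N] :
    FiniteDimensional ↥(IntermediateField.adjoin Kbar {jF N}) (FF N) :=
  (Deg457.degree_fields N).1

/-- The function field of `X₀(N)` over `ℚ̄` has principal divisors. -/
theorem hasPrincipalDivisors_FF (N : ℕ) [NeZero N] :
    HasPrincipalDivisors Kbar (FF N) :=
  hasPrincipalDivisors (jF N) (transcendental_jF N)

/-- Every place of the function field of `X₀(N)` over `ℚ̄` has degree one. -/
theorem deg_eq_one_FF (N : ℕ) [NeZero N] (v : Place Kbar (FF N)) : v.deg = 1 :=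
  Fermat.Agent.S24.FF.deg_eq_one v (transcendental_jF N)

/-- **The Hecke correspondence `T_ℓ` on `J₀(N)` over `ℚ̄` is the genuine one.** -/
theorem heckeInputsAlong (N ℓ : ℕ) [NeZero N] [NeZero ℓ] :
    HeckeInputsAlong (AlgebraicClosure ℚ) N ℓ :=
  heckeInputs_general (heckeAlphaBar (AlgebraicClosure ℚ) N ℓ)
    (heckeBetaBar (AlgebraicClosure ℚ) N ℓ) (jF N) (transcendental_jF N)
    (jF (N * ℓ)) (transcendental_jF (N * ℓ))

/-! ### Named components (for unfolding `T_ℓ`) -/

variable (N ℓ : ℕ) [NeZero N] [NeZero ℓ]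

/-- The function field of `X₀(M)` over `ℚ̄` has principal divisors (instance form). -/
instance instHasPrincipalDivisorsFF (M : ℕ) [NeZero M] :
    HasPrincipalDivisors (AlgebraicClosure ℚ)
      (laurentBaseChange (AlgebraicClosure ℚ) (modularFunctionFieldFull M)) :=
  hasPrincipalDivisors_FF M

theorem heckeAlphaBarIntegral : HeckeAlphaBarIntegral (AlgebraicClosure ℚ) N ℓ :=
  (heckeInputsAlong N ℓ).1

theorem heckeBetaBarIntegral : HeckeBetaBarIntegral (AlgebraicClosure ℚ) N ℓ :=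
  (heckeInputsAlong N ℓ).2.1

theorem finiteAlong_alpha : FiniteAlong (AlgebraicClosure ℚ) (heckeAlphaBar (AlgebraicClosure ℚ) N ℓ) :=
  finiteAlong_of_functionField _ (jF N) (transcendental_jF N) (jF (N * ℓ))
    (transcendental_jF (N * ℓ))

theorem finiteAlong_beta : FiniteAlong (AlgebraicClosure ℚ) (heckeBetaBar (AlgebraicClosure ℚ) N ℓ) :=
  finiteAlong_of_functionField _ (jF N) (transcendental_jF N) (jF (N * ℓ))
    (transcendental_jF (N * ℓ))

theorem fundamentalIdentityAlong_beta :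
    FundamentalIdentityAlong (AlgebraicClosure ℚ) (heckeBetaBar (AlgebraicClosure ℚ) N ℓ)
      (heckeBetaBarIntegral N ℓ) := by
  letI := algebraAlong (heckeBetaBar (AlgebraicClosure ℚ) N ℓ)
  haveI := isScalarTower_along (heckeBetaBar (AlgebraicClosure ℚ) N ℓ)
  haveI : Module.Finite (FF N) (FF (N * ℓ)) := finiteAlong_beta N ℓ
  haveI : CharZero (FF N) :=
    charZero_of_injective_algebraMap (algebraMap (AlgebraicClosure ℚ) (FF N)).injective
  exact fundamentalIdentity (K := AlgebraicClosure ℚ) (F := FF N) (F' := FF (N * ℓ))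
    (deg_eq_one_FF (N * ℓ))

theorem fundamentalIdentityAlong_alpha :
    FundamentalIdentityAlong (AlgebraicClosure ℚ) (heckeAlphaBar (AlgebraicClosure ℚ) N ℓ)
      (heckeAlphaBarIntegral N ℓ) := by
  letI := algebraAlong (heckeAlphaBar (AlgebraicClosure ℚ) N ℓ)
  haveI := isScalarTower_along (heckeAlphaBar (AlgebraicClosure ℚ) N ℓ)
  haveI : Module.Finite (FF N) (FF (N * ℓ)) := finiteAlong_alpha N ℓ
  haveI : CharZero (FF N) :=
    charZero_of_injective_algebraMap (algebraMap (AlgebraicClosure ℚ) (FF N)).injective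
  exact fundamentalIdentity (K := AlgebraicClosure ℚ) (F := FF N) (F' := FF (N * ℓ))
    (deg_eq_one_FF (N * ℓ))

theorem normFormulaAlong_alpha :
    NormFormulaAlong (AlgebraicClosure ℚ) (heckeAlphaBar (AlgebraicClosure ℚ) N ℓ)
      (finiteAlong_alpha N ℓ) := by
  letI := algebraAlong (heckeAlphaBar (AlgebraicClosure ℚ) N ℓ)
  haveI := isScalarTower_along (heckeAlphaBar (AlgebraicClosure ℚ) N ℓ)
  haveI : Module.Finite (FF N) (FF (N * ℓ)) := finiteAlong_alpha N ℓ
  haveI : CharZero (FF N) :=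
    charZero_of_injective_algebraMap (algebraMap (AlgebraicClosure ℚ) (FF N)).injective
  exact pushforwardNormFormula (K := AlgebraicClosure ℚ) (F := FF N) (F' := FF (N * ℓ))
    (deg_eq_one_FF (N * ℓ))

theorem normFormulaAlong_beta :
    NormFormulaAlong (AlgebraicClosure ℚ) (heckeBetaBar (AlgebraicClosure ℚ) N ℓ)
      (finiteAlong_beta N ℓ) := by
  letI := algebraAlong (heckeBetaBar (AlgebraicClosure ℚ) N ℓ)
  haveI := isScalarTower_along (heckeBetaBar (AlgebraicClosure ℚ) N ℓ)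
  haveI : Module.Finite (FF N) (FF (N * ℓ)) := finiteAlong_beta N ℓ
  haveI : CharZero (FF N) :=
    charZero_of_injective_algebraMap (algebraMap (AlgebraicClosure ℚ) (FF N)).injective
  exact pushforwardNormFormula (K := AlgebraicClosure ℚ) (F := FF N) (F' := FF (N * ℓ))
    (deg_eq_one_FF (N * ℓ))

/-- `T_ℓ` on `Pic⁰` is `α_* ∘ β^*` (norm ∘ conorm), not the junk value. -/
theorem heckeOperatorAlong_eq_heckePic0Bar :
    heckeOperatorAlong (AlgebraicClosure ℚ) N ℓ
      = heckePic0Bar (heckeAlphaBarIntegral N ℓ) (heckeBetaBarIntegral N ℓ)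
          (fundamentalIdentityAlong_beta N ℓ) (finiteAlong_alpha N ℓ)
          (normFormulaAlong_alpha N ℓ) :=
  heckeOperatorAlong_eq _ _ _ _ _

/-- `T_ℓ` on a divisor class: `T_ℓ [D] = [α_* β^* D]`. -/
theorem heckeOperatorAlong_mk
    (D : Divisor.degZero (K := AlgebraicClosure ℚ)
      (F := laurentBaseChange (AlgebraicClosure ℚ) (modularFunctionFieldFull N))) :
    heckeOperatorAlong (AlgebraicClosure ℚ) N ℓ (Pic0.mk D)
      = Pic0.mk (Pic0.degZeroCorrespondence (heckeBetaBar (AlgebraicClosure ℚ) N ℓ)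
          (heckeAlphaBar (AlgebraicClosure ℚ) N ℓ) (heckeBetaBarIntegral N ℓ)
          (heckeAlphaBarIntegral N ℓ) (fundamentalIdentityAlong_beta N ℓ) D) := by
  rw [heckeOperatorAlong_eq_heckePic0Bar]
  rfl

/-- `T_ℓ` (as `heckeOperatorBar`) on a divisor class. -/
theorem heckeOperatorBar_mk (p : Nat.Primes)
    (D : Divisor.degZero (K := AlgebraicClosure ℚ)
      (F := laurentBaseChange (AlgebraicClosure ℚ) (modularFunctionFieldFull N))) :
    haveI : NeZero (p : ℕ) := ⟨p.2.ne_zero⟩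
    heckeOperatorBar N p (Pic0.mk D)
      = Pic0.mk (Pic0.degZeroCorrespondence (heckeBetaBar (AlgebraicClosure ℚ) N p)
          (heckeAlphaBar (AlgebraicClosure ℚ) N p) (heckeBetaBarIntegral N p)
          (heckeAlphaBarIntegral N p) (fundamentalIdentityAlong_beta N p) D) := by
  haveI : NeZero (p : ℕ) := ⟨p.2.ne_zero⟩
  rw [heckeOperatorBar_apply]
  exact heckeOperatorAlong_mk N p D

end Modular

end Fermat.Agent.Lib.FF398

end
-- ===== PACK-END Lib/FF398/Hecke.lean

-- ===== PACK-BEGIN S37/H98/RawES.lean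
section





/-!
# S37 → S29 export (helper98): the raw Eichler–Shimura statement on torsion

Row S29 (helper269) consumes from rows S37/S18 exactly `Fermat.Agent.S29.RawESStatement`
(`Fermat/Agent/S29/Parts.lean`): for `ℓ ∤ N p`, `A` over `ℓ`, inertia at `A` fixes the
`p`-torsion of `JZero N` and every Frobenius `σ` at `A` satisfies
`σ² x - T_ℓ (σ x) + ℓ x = 0` on it.  This file derives it formally

* `rawES_of_redData`  : from reduction data `H99.RedData N A ℓ hℓ` for all `ℓ ∤ N`, `A`;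
* `rawES_of_pieces`   : from the two remaining pieces of the S37 row plan
  (`Core.result_of_pieces`): [S18] `Core.InjTorsionModL` and [PR] `Core.PlaceRed`
  ([HIA] is on main: `Lib.FF398.heckeInputsAlong`).

No Hecke-module structure, no `HeckeOperatorsCommuteBar`.  The pointwise versions
`rawES_at_of_redData`, `rawES_at_of_placeRed` hold for every `m` prime to `ℓ` (not only primes).
-/

set_option autoImplicit false
set_option synthInstance.maxHeartbeats 400000

noncomputable section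

namespace Fermat.Agent.S37.H98

open ModularCurve ValuationSubring AlgebraicCurve

section Abstract

variable {G J : Type*} [Group G] [AddCommGroup J] [DistribMulAction G J]

/-- Abstract core, inertia part: a map killing `τ x - x` and injective on `m`-torsion. -/
theorem smul_eq_of_red {Y : Type*} [AddCommGroup Y] (red : J →+ Y) {m : ℕ}
    (hinj : ∀ x : J, m • x = 0 → red x = 0 → x = 0) (τ : G)
    (hτ : ∀ x : J, red (τ • x) = red x) {x : J} (hx : (m : ℤ) • x = 0) :
    τ • x = x := by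
  have h1 : (m : ℤ) • (τ • x - x) = 0 := by
    rw [zsmul_sub, ← smul_comm τ (m : ℤ) x, hx, smul_zero, sub_zero]
  rw [natCast_zsmul] at h1
  have h2 : red (τ • x - x) = 0 := by rw [map_sub, hτ x, sub_self]
  exact sub_eq_zero.mp (hinj _ h1 h2)

/-- Abstract core, Frobenius part (`T` any additive endomorphism). -/
theorem relation_eq_zero_of_red {Y : Type*} [AddCommGroup Y] (red : J →+ Y) {m : ℕ}
    (hinj : ∀ x : J, m • x = 0 → red x = 0 → x = 0) (σ : G) (T : J →+ J) (ℓ : ℕ)
    (hσ : ∀ x : J, red (σ • σ • x - T (σ • x) + ℓ • x) = 0)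
    {x : J} (hx : (m : ℤ) • x = 0) :
    σ • σ • x - T (σ • x) + (ℓ : ℤ) • x = 0 := by
  rw [natCast_zsmul]
  refine hinj _ ?_ (hσ x)
  have h0 : (m : ℤ) • (σ • x) = 0 := by
    rw [← smul_comm σ (m : ℤ) x, hx, smul_zero]
  have h1 : (m : ℤ) • (σ • σ • x) = 0 := by
    rw [← smul_comm σ (m : ℤ) (σ • x), h0, smul_zero]
  have h2 : (m : ℤ) • T (σ • x) = 0 := by
    rw [← map_zsmul, h0, map_zero]
  have h3 : (m : ℤ) • (ℓ • x) = 0 := by
    rw [← natCast_zsmul x ℓ, smul_comm, hx, smul_zero]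
  have h4 : (m : ℤ) • (σ • σ • x - T (σ • x) + ℓ • x) = 0 := by
    rw [zsmul_add, zsmul_sub, h1, h2, h3, sub_zero, add_zero]
  rwa [natCast_zsmul] at h4

end Abstract

/-- Raw Eichler–Shimura at `(ℓ, A)` on `m`-torsion (`m` prime to `ℓ`), from reduction data. -/
theorem rawES_at_of_redData {N : ℕ} [NeZero N] {A : ValuationSubring (AlgebraicClosure ℚ)}
    {ℓ : ℕ} {hℓ : ℓ.Prime} (D : Fermat.Agent.S37.H99.RedData N A ℓ hℓ) (m : ℕ)
    (hm : m.Coprime ℓ) :
    (∀ σ ∈ A.inertiaSubgroupIn ℚ, ∀ x : JZero N, (m : ℤ) • x = 0 → σ • x = x) ∧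
    (∀ σ : AlgebraicClosure ℚ ≃ₐ[ℚ] AlgebraicClosure ℚ, A.IsFrobeniusAt σ ℓ →
      ∀ x : JZero N, (m : ℤ) • x = 0 →
        σ • σ • x - heckeOperatorBar N ⟨ℓ, hℓ⟩ (σ • x) + (ℓ : ℤ) • x = 0) := by
  have hinj : ∀ x : JZero N, m • x = 0 → D.red x = 0 → x = 0 :=
    fun x hx h0 => D.inj_torsion m x hm hx h0
  exact ⟨fun τ hτ x hx => smul_eq_of_red D.red hinj τ (D.inertia τ hτ) hx,
    fun σ hσ x hx => relation_eq_zero_of_red D.red hinj σ
      (heckeOperatorBar N ⟨ℓ, hℓ⟩).toAddMonoidHom ℓ (D.relation σ hσ) hx⟩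

/-- **`RawESStatement` from reduction data** (`H99.RedData` for all `ℓ ∤ N` and all `A`). -/
theorem rawES_of_redData
    (H : ∀ (N : ℕ) [NeZero N] (ℓ : ℕ) (hℓ : ℓ.Prime), ¬ ℓ ∣ N →
      ∀ A : ValuationSubring (AlgebraicClosure ℚ), A.LiesOverPrime ℓ →
        Nonempty (Fermat.Agent.S37.H99.RedData N A ℓ hℓ)) :
    Fermat.Agent.S29.RawESStatement := by
  intro N p _ hp ℓ hℓ hdvd A hA
  have hℓN : ¬ ℓ ∣ N := fun h => hdvd (Dvd.dvd.mul_right h p)
  have hℓp : ¬ ℓ ∣ p := fun h => hdvd (Dvd.dvd.mul_left h N)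
  obtain ⟨D⟩ := H N ℓ hℓ hℓN A hA
  exact rawES_at_of_redData D p
    (Nat.coprime_comm.mp ((Nat.Prime.coprime_iff_not_dvd hℓ).mpr hℓp))

open Fermat.Agent.S37.Core in
/-- Raw Eichler–Shimura for ONE Frobenius `σ₀` at `(ℓ, A)` on `m`-torsion (`ℓ ∤ m`), from a
`Core.PlaceRed` and the conclusion of S18. -/
theorem rawES_at_of_placeRed {N : ℕ} [NeZero N] {A : ValuationSubring (AlgebraicClosure ℚ)}
    {ℓ : ℕ} (hℓ : ℓ.Prime) {σ₀ : AlgebraicClosure ℚ ≃ₐ[ℚ] AlgebraicClosure ℚ}
    (D : haveI : NeZero ℓ := ⟨hℓ.ne_zero⟩; PlaceRed N A ℓ σ₀)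
    (hS18 : InjTorsionModL N ℓ A) (m : ℕ) (hm : ¬ ℓ ∣ m) :
    (∀ σ ∈ A.inertiaSubgroupIn ℚ, ∀ x : JZero N, (m : ℤ) • x = 0 → σ • x = x) ∧
    (∀ x : JZero N, (m : ℤ) • x = 0 →
        σ₀ • σ₀ • x - heckeOperatorBar N ⟨ℓ, hℓ⟩ (σ₀ • x) + (ℓ : ℤ) • x = 0) := by
  have : NeZero ℓ := ⟨hℓ.ne_zero⟩
  have hinj : ∀ x : JZero N, m • x = 0 → D.red x = 0 → x = 0 :=
    fun x hx h0 => D.red_inj_torsion hS18 hm hx h0
  exact ⟨fun τ hτ x hx => smul_eq_of_red D.red hinj τ (fun y => D.red_inertia hτ y) hx,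
    fun x hx => relation_eq_zero_of_red D.red hinj σ₀
      (heckeOperatorBar N ⟨ℓ, hℓ⟩).toAddMonoidHom ℓ
      (fun y => D.red_relation (Fermat.Agent.Lib.FF398.heckeInputsAlong N ℓ) y) hx⟩

open Fermat.Agent.S37.Core in
/-- **`RawESStatement` from the two open pieces of the S37 row plan**: [S18] and [PR]. -/
theorem rawES_of_pieces
    (hS18 : ∀ (N : ℕ) [NeZero N] (ℓ : ℕ), ℓ.Prime → ¬ ℓ ∣ N →
      ∀ A : ValuationSubring (AlgebraicClosure ℚ), A.LiesOverPrime ℓ → InjTorsionModL N ℓ A)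
    (hPR : ∀ (N : ℕ) [NeZero N] (ℓ : ℕ) (hℓ : ℓ.Prime), ¬ ℓ ∣ N →
      ∀ A : ValuationSubring (AlgebraicClosure ℚ), A.LiesOverPrime ℓ →
        ∀ σ₀ : AlgebraicClosure ℚ ≃ₐ[ℚ] AlgebraicClosure ℚ, A.IsFrobeniusAt σ₀ ℓ →
          haveI : NeZero ℓ := ⟨hℓ.ne_zero⟩; Nonempty (PlaceRed N A ℓ σ₀)) :
    Fermat.Agent.S29.RawESStatement := by
  intro N p _ hp ℓ hℓ hdvd A hA
  have hℓN : ¬ ℓ ∣ N := fun h => hdvd (Dvd.dvd.mul_right h p)
  have hℓp : ¬ ℓ ∣ p := fun h => hdvd (Dvd.dvd.mul_left h N)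
  refine ⟨?_, fun σ hσ x hx => ?_⟩
  · obtain ⟨σ₀, hσ₀⟩ := Fermat.Agent.S37.H99.exists_isFrobeniusAt ℓ hℓ A hA
    obtain ⟨D⟩ := hPR N ℓ hℓ hℓN A hA σ₀ hσ₀
    exact (rawES_at_of_placeRed hℓ D (hS18 N ℓ hℓ hℓN A hA) p hℓp).1
  · obtain ⟨D⟩ := hPR N ℓ hℓ hℓN A hA σ hσ
    exact (rawES_at_of_placeRed hℓ D (hS18 N ℓ hℓ hℓN A hA) p hℓp).2 x hx

end Fermat.Agent.S37.H98

end
end
-- ===== PACK-END S37/H98/RawES.lean

-- ===== PACK-BEGIN S29/H222/ESKNorm.lean
section
/-
S29 / helper222 — piece ESK, part 3: the Hecke correspondence on divisors of functions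
(`T_ℓ (div y) = div (Nm_α (β y))`, from the Prelude's `HeckeInputsAlong`), and the integral
Kronecker norm `K(U) = kronNorm ℓ (σ U)` with its reduction.
-/


set_option autoImplicit false
set_option linter.style.haveILetI false

noncomputable section

namespace Fermat.Agent.S29.H222

open ModularCurve AlgebraicCurve HahnSeries IsLocalRing
open Fermat.Agent.S18 (Qb IsInt toF CoreStatement)
open Fermat.Agent.S37.H400 (kronNorm)

variable {A : ValuationSubring Qb} {N : ℕ}

/-! ### Characteristic of the residue field -/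

theorem charP_residueField_of_liesOver {ℓ : ℕ} (hℓ : ℓ.Prime) (hA : A.LiesOverPrime ℓ) :
    CharP (ResidueField A) ℓ := by
  rw [CharP.charP_iff_prime_eq_zero hℓ]
  have h1 : ((ℓ : A) : Qb) ∈ A.nonunits := by
    have : ((ℓ : A) : Qb) = (ℓ : Qb) := by simp
    rw [this]; exact hA
  have h2 : (ℓ : A) ∈ maximalIdeal A := ValuationSubring.coe_mem_nonunits_iff.mp h1
  have h3 : residue A (ℓ : A) = 0 := (residue_eq_zero_iff _).mpr h2
  rw [← h3, map_natCast]

/-! ### The Hecke correspondence on divisors of functions -/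

section Hecke

variable [NeZero N] {ℓ : ℕ} [NeZero ℓ]

omit [NeZero N] in
/-- `β^* (div y) = div (β y)`. -/
theorem isDivOf_pullbackAlong_beta
    [HasPrincipalDivisors Qb (laurentBaseChange Qb (modularFunctionFieldFull (N * ℓ)))]
    (hβ : HeckeBetaBarIntegral Qb N ℓ)
    {y : modularFunctionFieldBar N} {E : Divisor Qb (modularFunctionFieldBar N)}
    (hE : IsDivOf y E) :
    IsDivOf (K := Qb) (heckeBetaBar Qb N ℓ y)
      (Divisor.pullbackAlong (heckeBetaBar Qb N ℓ) hβ E) := by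
  intro w
  letI := algebraAlong (heckeBetaBar Qb N ℓ)
  haveI := isScalarTower_along (heckeBetaBar Qb N ℓ)
  haveI := isIntegral_along (heckeBetaBar Qb N ℓ) hβ
  exact Divisor.pullback_apply_eq_ord hE w

/-- `α_* (div z) = div (Nm_α z)`. -/
theorem isDivOf_pushforwardAlong_alpha
    (hα : HeckeAlphaBarIntegral Qb N ℓ) (hfin : FiniteAlong Qb (heckeAlphaBar Qb N ℓ))
    (hN : NormFormulaAlong Qb (heckeAlphaBar Qb N ℓ) hfin)
    {z : laurentBaseChange Qb (modularFunctionFieldFull (N * ℓ))} (hz : z ≠ 0)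
    {E : Divisor Qb (laurentBaseChange Qb (modularFunctionFieldFull (N * ℓ)))}
    (hE : IsDivOf z E) :
    IsDivOf (K := Qb)
      (letI := algebraAlong (heckeAlphaBar Qb N ℓ)
       Algebra.norm (modularFunctionFieldBar N) z)
      (Divisor.pushforwardAlong (heckeAlphaBar Qb N ℓ) hα E) := by
  intro v
  letI := algebraAlong (heckeAlphaBar Qb N ℓ)
  haveI := isScalarTower_along (heckeAlphaBar Qb N ℓ)
  haveI := isIntegral_along (heckeAlphaBar Qb N ℓ) hα
  haveI : Module.Finite (modularFunctionFieldBar N)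
    (laurentBaseChange Qb (modularFunctionFieldFull (N * ℓ))) := hfin
  exact hN z hz E hE v

/-- `T_ℓ (div y) = div (heckeNorm y)` on divisors. -/
theorem isDivOf_heckeDivBar
    [HasPrincipalDivisors Qb (laurentBaseChange Qb (modularFunctionFieldFull (N * ℓ)))]
    (hα : HeckeAlphaBarIntegral Qb N ℓ) (hβ : HeckeBetaBarIntegral Qb N ℓ)
    (hfin : FiniteAlong Qb (heckeAlphaBar Qb N ℓ))
    (hN : NormFormulaAlong Qb (heckeAlphaBar Qb N ℓ) hfin)
    {y : modularFunctionFieldBar N} (hy : y ≠ 0) {E : Divisor Qb (modularFunctionFieldBar N)}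
    (hE : IsDivOf y E) :
    IsDivOf (K := Qb) (heckeNorm N ℓ y) (heckeDivBar hα hβ E) := by
  have hβy : heckeBetaBar Qb N ℓ y ≠ 0 := by
    intro h
    exact hy ((heckeBetaBar Qb N ℓ).toRingHom.injective (by simpa using h))
  exact isDivOf_pushforwardAlong_alpha hα hfin hN hβy (isDivOf_pullbackAlong_beta hβ hE)

end Hecke

end Fermat.Agent.S29.H222

end
end
-- ===== PACK-END S29/H222/ESKNorm.lean

-- ===== PACK-BEGIN S29/H222/ESKFrob.lean
section
/-
S29 / helper222 — piece ESK-F: every Frobenius element at `A` satisfies the Eichler–Shimura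
relation `σ² - T_ℓ σ + ℓ = 0` on `J₀(N)(ℚ̄)[m]`, from `S18.CoreStatement N A m`, the Prelude's
`PrincipalGeneratedByIntegral`, `HeckeInputsAlong` and NORM-ID.

Proof: `x = [D]`, `m D = div U₁ - div U₂` (`U₁, U₂` integral).  With `K(U) := kronNorm ℓ (σU)`
(`= Nm_α (β (σU))` by NORM-ID, reduction `Ū^ℓ · Φ²Ū` by the Kronecker congruence) put
`V₁ = σ²U₁ · U₁^ℓ · K(U₂)`, `V₂ = σ²U₂ · U₂^ℓ · K(U₁)`: same reduction, and
`div V₁ - div V₂ = m (σ²D - T_ℓ σD + ℓ D)`.  CORE gives `V₁ = c y^m V₂`.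
-/


set_option autoImplicit false
set_option linter.style.haveILetI false

noncomputable section

namespace Fermat.Agent.S29.H222

open ModularCurve AlgebraicCurve HahnSeries IsLocalRing
open Fermat.Agent.S18 (Qb IsInt toF CoreStatement)
open Fermat.Agent.S37.H400 (kronNorm)

variable {A : ValuationSubring Qb} {N : ℕ}

section Kron

variable [NeZero N] {ℓ : ℕ} [Fact ℓ.Prime] [NeZero ℓ] [CharP (ResidueField A) ℓ]

/-- Reduction of the Kronecker norm of `σU` for a Frobenius element `σ`. -/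
theorem coeffMap_residue_kronNorm_galA {g : A.decompositionSubgroup ℚ}
    (hgk : decK g = frobenius (ResidueField A) ℓ) (U : LaurentSeries A) :
    coeffMap (residue A) (kronNorm ℓ (galA g U))
      = coeffMap (residue A) U ^ ℓ
        * coeffMap (decK g) (coeffMap (decK g) (coeffMap (residue A) U)) := by
  have h1 := Fermat.Agent.S37.H400.coeffMap_kronNorm_char ℓ (residue A) (galA g U)
  have h2 := Fermat.Agent.S37.H400.laurent_pow_char ℓ (coeffMap (residue A) U)
  rw [coeffMap_residue_galA, ← hgk] at h1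
  rw [← hgk] at h2
  rw [h1, h2]

/-- The integral Kronecker norm `K(U) = kronNorm ℓ (σ U)`. -/
theorem isInt_kronNorm_galA (hnid : NormId N ℓ) {g : A.decompositionSubgroup ℚ}
    (hgk : decK g = frobenius (ResidueField A) ℓ) {U : LaurentSeries A} (hU : IsInt A N U) :
    IsInt A N (kronNorm ℓ (galA g U)) := by
  refine ⟨?_, ?_, ?_⟩
  · rw [Fermat.Agent.S37.H400.coeffMap_kronNorm]
    have := hnid (toF (isInt_galA g hU))
    rw [coe_toF] at this
    rw [← this]
    exact (heckeNorm N ℓ (toF (isInt_galA g hU))).2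
  · rw [coeffMap_residue_kronNorm_galA hgk]
    exact mul_mem (pow_mem hU.2.1 ℓ) (coeffMap_mem_fullC _ (coeffMap_mem_fullC _ hU.2.1))
  · rw [coeffMap_residue_kronNorm_galA hgk]
    exact mul_ne_zero (pow_ne_zero ℓ hU.2.2)
      (coeffMap_ne_zero_of_injective _ (decK_injective g)
        (coeffMap_ne_zero_of_injective _ (decK_injective g) hU.2.2))

theorem toF_kronNorm_galA (hnid : NormId N ℓ) {g : A.decompositionSubgroup ℚ}
    (hgk : decK g = frobenius (ResidueField A) ℓ) {U : LaurentSeries A} (hU : IsInt A N U) :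
    toF (isInt_kronNorm_galA hnid hgk hU) = heckeNorm N ℓ (toF (isInt_galA g hU)) := by
  apply Subtype.ext
  rw [coe_toF, Fermat.Agent.S37.H400.coeffMap_kronNorm, hnid (toF (isInt_galA g hU)), coe_toF]

end Kron

end Fermat.Agent.S29.H222

namespace Fermat.Agent.S29.H222

open ModularCurve AlgebraicCurve HahnSeries IsLocalRing
open Fermat.Agent.S18 (Qb IsInt toF CoreStatement)
open Fermat.Agent.S37.H400 (kronNorm)

variable {A : ValuationSubring Qb} {N : ℕ}

/-- A class is zero as soon as its divisor is the divisor of a function. -/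
theorem pic0_mk_eq_zero_of_isDivOf
    (D : Divisor.degZero (K := Qb) (F := modularFunctionFieldBar N))
    {y : modularFunctionFieldBar N} (hy : y ≠ 0)
    (h : IsDivOf (K := Qb) y (D : Divisor Qb (modularFunctionFieldBar N))) :
    (Pic0.mk D : JZero N) = 0 := by
  refine (QuotientAddGroup.eq_zero_iff _).mpr ?_
  rw [AddSubgroup.mem_addSubgroupOf]
  exact ⟨y, hy, h⟩

theorem galois_smul_mk (σ : Qb ≃ₐ[ℚ] Qb)
    (D : Divisor.degZero (K := Qb) (F := modularFunctionFieldBar N)) :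
    σ • (Pic0.mk D : JZero N)
      = Pic0.mk (SemilinearAut.degZeroSMulHom
          (arithmeticGalois (modularFunctionFieldFull N) σ) D) := by
  rw [galois_smul_pic0_def, SemilinearAut.pic0_smul_mk]

/-- **ESK-F.** -/
theorem esk_frob : ESKFrobStatement := by
  intro N _ ℓ hℓ m hm A hA hcore hpgi hHI hnid σ hσ x hx
  haveI : NeZero ℓ := ⟨hℓ.ne_zero⟩
  haveI : Fact ℓ.Prime := ⟨hℓ⟩
  haveI : CharP (ResidueField A) ℓ := charP_residueField_of_liesOver hℓ hA
  obtain ⟨hdec, hfrob⟩ := hσ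
  set g : A.decompositionSubgroup ℚ := ⟨σ, hdec⟩ with hg
  have hgk : decK g = frobenius (ResidueField A) ℓ := RingHom.ext fun x => hfrob x
  obtain ⟨hα, hβ, hP, hfin, hFI, hN⟩ := hHI
  haveI := hP
  obtain ⟨D, rfl⟩ := Pic0.mk_surjective x
  obtain ⟨U₁, U₂, h₁, h₂, D₁, D₂, hd₁, hd₂, hDD⟩ :=
    exists_isInt_of_principal hpgi (smul_mem_principal_of_torsion D hx)
  set G := arithmeticGalois (modularFunctionFieldFull N) σ with hG
  -- the integral series
  have hg₁ := isInt_galA g h₁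
  have hg₂ := isInt_galA g h₂
  have hgg₁ := isInt_galA g hg₁
  have hgg₂ := isInt_galA g hg₂
  have hK₁ := isInt_kronNorm_galA hnid hgk h₁
  have hK₂ := isInt_kronNorm_galA hnid hgk h₂
  have hV₁ : IsInt A N (galA g (galA g U₁) * U₁ ^ ℓ * kronNorm ℓ (galA g U₂)) :=
    isInt_mul (isInt_mul hgg₁ (isInt_pow h₁ ℓ)) hK₂
  have hV₂ : IsInt A N (galA g (galA g U₂) * U₂ ^ ℓ * kronNorm ℓ (galA g U₁)) :=
    isInt_mul (isInt_mul hgg₂ (isInt_pow h₂ ℓ)) hK₁
  -- equal reductions
  have hred : coeffMap (residue A) (galA g (galA g U₁) * U₁ ^ ℓ * kronNorm ℓ (galA g U₂))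
      = coeffMap (residue A) (galA g (galA g U₂) * U₂ ^ ℓ * kronNorm ℓ (galA g U₁)) := by
    simp only [map_mul, map_pow, coeffMap_residue_galA, coeffMap_residue_kronNorm_galA hgk]
    ring
  -- divisors
  have hσ₁ : IsDivOf (toF hg₁) (G • D₁) := by rw [toF_galA]; exact hd₁.smul G
  have hσ₂ : IsDivOf (toF hg₂) (G • D₂) := by rw [toF_galA]; exact hd₂.smul G
  have hσσ₁ : IsDivOf (toF hgg₁) (G • G • D₁) := by rw [toF_galA]; exact hσ₁.smul G
  have hσσ₂ : IsDivOf (toF hgg₂) (G • G • D₂) := by rw [toF_galA]; exact hσ₂.smul G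
  have hp₁ : IsDivOf (toF (isInt_pow h₁ ℓ)) ((ℓ : ℤ) • D₁) := by
    rw [toF_pow]; exact hd₁.pow ℓ
  have hp₂ : IsDivOf (toF (isInt_pow h₂ ℓ)) ((ℓ : ℤ) • D₂) := by
    rw [toF_pow]; exact hd₂.pow ℓ
  have hT₁ : IsDivOf (toF hK₁) (heckeDivBar hα hβ (G • D₁)) := by
    rw [toF_kronNorm_galA hnid hgk h₁]
    exact isDivOf_heckeDivBar hα hβ hfin hN (toF_ne_zero hg₁) hσ₁
  have hT₂ : IsDivOf (toF hK₂) (heckeDivBar hα hβ (G • D₂)) := by
    rw [toF_kronNorm_galA hnid hgk h₂]
    exact isDivOf_heckeDivBar hα hβ hfin hN (toF_ne_zero hg₂) hσ₂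
  have hdV₁ : IsDivOf (toF hV₁)
      (G • G • D₁ + (ℓ : ℤ) • D₁ + heckeDivBar hα hβ (G • D₂)) := by
    rw [toF_mul (isInt_mul hgg₁ (isInt_pow h₁ ℓ)) hK₂, toF_mul hgg₁ (isInt_pow h₁ ℓ)]
    exact ((hσσ₁.mul (toF_ne_zero _) (toF_ne_zero _) hp₁).mul
      (mul_ne_zero (toF_ne_zero _) (toF_ne_zero _)) (toF_ne_zero _) hT₂)
  have hdV₂ : IsDivOf (toF hV₂)
      (G • G • D₂ + (ℓ : ℤ) • D₂ + heckeDivBar hα hβ (G • D₁)) := by
    rw [toF_mul (isInt_mul hgg₂ (isInt_pow h₂ ℓ)) hK₁, toF_mul hgg₂ (isInt_pow h₂ ℓ)]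
    exact ((hσσ₂.mul (toF_ne_zero _) (toF_ne_zero _) hp₂).mul
      (mul_ne_zero (toF_ne_zero _) (toF_ne_zero _)) (toF_ne_zero _) hT₁)
  -- the divisor of the relation
  set Dv : Divisor Qb (modularFunctionFieldBar N) := (D : Divisor Qb (modularFunctionFieldBar N))
    with hDv
  set E : Divisor Qb (modularFunctionFieldBar N) :=
    G • G • Dv - heckeDivBar hα hβ (G • Dv) + (ℓ : ℤ) • Dv with hE
  have hGz : ∀ X : Divisor Qb (modularFunctionFieldBar N), G • ((m : ℤ) • X) = (m : ℤ) • (G • X) :=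
    fun X => map_zsmul (DistribSMul.toAddMonoidHom (Divisor Qb (modularFunctionFieldBar N)) G) m X
  have hmE : (m : ℤ) • E
      = (G • G • D₁ + (ℓ : ℤ) • D₁ + heckeDivBar hα hβ (G • D₂))
        - (G • G • D₂ + (ℓ : ℤ) • D₂ + heckeDivBar hα hβ (G • D₁)) := by
    have e1 : (m : ℤ) • E = G • G • ((m : ℤ) • Dv) - heckeDivBar hα hβ (G • ((m : ℤ) • Dv))
        + (ℓ : ℤ) • ((m : ℤ) • Dv) := by
      rw [hE, smul_add, smul_sub, hGz, hGz, map_zsmul, smul_comm (m : ℤ) (ℓ : ℤ) Dv]
    rw [e1, hDD, smul_sub, smul_sub, smul_sub, map_sub]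
    abel
  have hkey : ∀ v : Place Qb (modularFunctionFieldBar N),
      (m : ℤ) * E v = v.ord (toF hV₁) - v.ord (toF hV₂) := by
    intro v
    rw [← hdV₁ v, ← hdV₂ v, ← Finsupp.sub_apply, ← hmE, Finsupp.smul_apply, smul_eq_mul]
  have hord : ∀ v : Place Qb (modularFunctionFieldBar N),
      (m : ℤ) ∣ v.ord (toF hV₁) - v.ord (toF hV₂) := fun v => ⟨_, (hkey v).symm⟩
  obtain ⟨c, y, hc, hy, hcy⟩ := hcore _ _ hV₁ hV₂ hred hord
  have hEy : IsDivOf y E := isDivOf_of_eq_const_mul_pow hm hc hy (toF_ne_zero hV₂) hcy hkey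
  -- conclusion in `Pic0`
  have hT : heckeOperatorBar N ⟨ℓ, hℓ⟩
      = (heckePic0Bar hα hβ hFI hfin hN).toIntLinearMap := by
    unfold heckeOperatorBar
    rw [heckeOperatorAlong_eq hα hβ hFI hfin hN]
  rw [galois_smul_mk, galois_smul_mk, hT]
  show Pic0.mk _ - Pic0.correspondence _ _ hβ hα hFI hfin hN (Pic0.mk _) + (ℓ : ℤ) • Pic0.mk D = 0
  rw [Pic0.correspondence_mk]
  have hfinal : (Pic0.mk (SemilinearAut.degZeroSMulHom G (SemilinearAut.degZeroSMulHom G D))
      - Pic0.mk (Pic0.degZeroCorrespondence (heckeBetaBar Qb N ℓ) (heckeAlphaBar Qb N ℓ) hβ hα hFI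
          (SemilinearAut.degZeroSMulHom G D))
      + (ℓ : ℤ) • Pic0.mk D : JZero N)
      = Pic0.mk (SemilinearAut.degZeroSMulHom G (SemilinearAut.degZeroSMulHom G D)
          - Pic0.degZeroCorrespondence (heckeBetaBar Qb N ℓ) (heckeAlphaBar Qb N ℓ) hβ hα hFI
              (SemilinearAut.degZeroSMulHom G D)
          + (ℓ : ℤ) • D) := rfl
  rw [hfinal]
  exact pic0_mk_eq_zero_of_isDivOf _ hy hEy

end Fermat.Agent.S29.H222

end
end
-- ===== PACK-END S29/H222/ESKFrob.lean

-- ===== PACK-BEGIN S29/H222/ESKFamily.lean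
section
/-
S29 / helper222 — piece ESK, adapter: the Eichler–Shimura input of layer M in the exact shape of
`Fermat.Agent.S29.M.ESStatement` (deputy helper30's `M/Defs.lean`), from the four external inputs
stated as families:

* `CoreFamily`   : `S18.CoreStatement N A m` for `ℓ ∤ N`, `ℓ ∤ m`, `A` over `ℓ`     (row S18)
* `PGIFamily`    : Prelude `PrincipalGeneratedByIntegral A (residue A) N`            (S18/S37, M1-Gauss)
* `HIFamily`     : Prelude `HeckeInputsAlong ℚ̄ N ℓ`                                  (piece HI)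
* `NormIdFamily` : `NormId N ℓ`                                                      (piece NKI)
-/


set_option autoImplicit false
set_option linter.style.haveILetI false

noncomputable section

namespace Fermat.Agent.S29.H222

open ModularCurve AlgebraicCurve HahnSeries IsLocalRing
open Fermat.Agent.S18 (Qb IsInt toF CoreStatement)

/-- Row S18: the Kummer core for all `ℓ ∤ N m`. -/
def CoreFamily : Prop :=
  ∀ (N : ℕ) [NeZero N] (ℓ : ℕ), ℓ.Prime → ¬ ℓ ∣ N → ∀ m : ℕ, ¬ ℓ ∣ m →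
    ∀ A : ValuationSubring Qb, A.LiesOverPrime ℓ → CoreStatement N A m

/-- Principal divisors are generated by divisors of integral series (a theorem for `ℓ ∤ N`). -/
def PGIFamily : Prop :=
  ∀ (N : ℕ) [NeZero N] (ℓ : ℕ), ℓ.Prime → ¬ ℓ ∣ N →
    ∀ A : ValuationSubring Qb, A.LiesOverPrime ℓ →
      PrincipalGeneratedByIntegral A (IsLocalRing.residue A) N

/-- The six Prelude inputs of the Hecke correspondence `T_ℓ`, `ℓ ∤ N`. -/
def HIFamily : Prop :=
  ∀ (N : ℕ) [NeZero N] (ℓ : ℕ) [NeZero ℓ], ℓ.Prime → ¬ ℓ ∣ N → HeckeInputsAlong Qb N ℓ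

/-- NORM-ID for all `ℓ ∤ N`. -/
def NormIdFamily : Prop :=
  ∀ (N : ℕ) [NeZero N] (ℓ : ℕ) [NeZero ℓ], ℓ.Prime → ¬ ℓ ∣ N → NormId N ℓ

/-- **ES raw**, in the exact shape of the body of `Fermat.Agent.S29.M.ESStatement`. -/
theorem esRaw_of_families (hcore : CoreFamily) (hpgi : PGIFamily) (hHI : HIFamily)
    (hnid : NormIdFamily) :
    ∀ (N p : ℕ) [NeZero N] (ℓ : ℕ) (hℓ : ℓ.Prime), ¬ ℓ ∣ N * p →
      ∀ A : ValuationSubring Qb, A.LiesOverPrime ℓ →
        (∀ τ ∈ A.inertiaSubgroupIn ℚ, ∀ x : JZero N, (∃ n : ℕ, p ^ n • x = 0) → τ • x = x) ∧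
        (∀ σ : Qb ≃ₐ[ℚ] Qb, A.IsFrobeniusAt σ ℓ → ∀ x : JZero N, (∃ n : ℕ, p ^ n • x = 0) →
          σ • σ • x - heckeOperatorBar N ⟨ℓ, hℓ⟩ (σ • x) + ℓ • x = 0) := by
  intro N p _ ℓ hℓ hℓNp A hA
  haveI : NeZero ℓ := ⟨hℓ.ne_zero⟩
  have hℓN : ¬ ℓ ∣ N := fun h => hℓNp (Dvd.dvd.mul_right h p)
  have hℓp : ¬ ℓ ∣ p := fun h => hℓNp (Dvd.dvd.mul_left h N)
  have hp0 : p ≠ 0 := fun h => hℓp (h ▸ dvd_zero ℓ)
  have hℓpn : ∀ n : ℕ, ¬ ℓ ∣ p ^ n := fun n h => hℓp (hℓ.dvd_of_dvd_pow h)
  have hx' : ∀ (n : ℕ) (x : JZero N), p ^ n • x = 0 → ((p ^ n : ℕ) : ℤ) • x = 0 := by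
    intro n x hx
    rw [natCast_zsmul]
    exact hx
  refine ⟨?_, ?_⟩
  · rintro τ hτ x ⟨n, hx⟩
    exact esk_inertia N (p ^ n) (pow_ne_zero n hp0) A (hcore N ℓ hℓ hℓN (p ^ n) (hℓpn n) A hA)
      (hpgi N ℓ hℓ hℓN A hA) τ hτ x (hx' n x hx)
  · rintro σ hσ x ⟨n, hx⟩
    have h := esk_frob N ℓ hℓ (p ^ n) (pow_ne_zero n hp0) A hA
      (hcore N ℓ hℓ hℓN (p ^ n) (hℓpn n) A hA) (hpgi N ℓ hℓ hℓN A hA)
      (hHI N ℓ hℓ hℓN) (hnid N ℓ hℓ hℓN) σ hσ x (hx' n x hx)
    rw [natCast_zsmul] at h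
    exact h

end Fermat.Agent.S29.H222

end
end
-- ===== PACK-END S29/H222/ESKFamily.lean

-- ===== PACK-BEGIN A2/H729/GaussClosed.lean
section



/-!
# A2 (helper729): the canonical Gauss ring is integrally closed in `F`

* `mem_chart_of_isIntegral_chart` : the charts are integrally closed in `F`.
* `mem_gaussO_of_isIntegral` : the Gauss ring `gaussO hw x` is integrally closed in `F`.
* `inv_not_mem_gaussO` : `w⁻¹ ∉ gaussO`.
-/

set_option autoImplicit false
set_option linter.unusedSectionVars false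
set_option linter.style.haveILetI false

namespace Fermat.Agent.A2.H729

open Polynomial Fermat.Agent.S18.H138

variable {R : Type*} [CommRing R] {F : Type*} [Field F] [Algebra R F]

/-- An element integral over a chart lies in the chart. -/
theorem mem_chart_of_isIntegral_chart {S : Set F} {y : F} (hy : IsIntegral (chart R S) y) :
    y ∈ chart R S := by
  rw [mem_chart]
  have h1 : IsIntegral (integralClosure (Algebra.adjoin R S) F) y := hy
  exact isIntegral_trans (R := Algebra.adjoin R S) (A := integralClosure (Algebra.adjoin R S) F)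
    y h1

theorem IsGaussDenom.prod {w : R} (hw : Prime w) (x : F) {ι : Type*} (s : Finset ι)
    (g : ι → F) (h : ∀ i ∈ s, IsGaussDenom w x (g i)) : IsGaussDenom w x (∏ i ∈ s, g i) := by
  classical
  induction s using Finset.induction_on with
  | empty => simpa using isGaussDenom_one hw x
  | insert a s ha ih =>
    rw [Finset.prod_insert ha]
    exact (h a (Finset.mem_insert_self a s)).mul hw
      (ih fun i hi => h i (Finset.mem_insert_of_mem hi))

/-- The Gauss ring is integrally closed in `F`. -/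
theorem mem_gaussO_of_isIntegral {w : R} (hw : Prime w) {x f : F}
    (hf : IsIntegral (gaussO hw x) f) : f ∈ gaussO hw x := by
  classical
  obtain ⟨p, hpm, hp⟩ := hf
  have hden : ∀ i : ℕ, ∃ s, IsGaussDenom w x s ∧
      s * ((p.coeff i : gaussO hw x) : F) ∈ chart R ({x} : Set F) := fun i => (p.coeff i).2
  choose s hs hsc using hden
  have hS : IsGaussDenom w x (∏ i ∈ Finset.range p.natDegree, s i) :=
    IsGaussDenom.prod hw x _ _ (fun i _ => hs i)
  have hSch : (∏ i ∈ Finset.range p.natDegree, s i) ∈ chart R ({x} : Set F) :=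
    adjoin_le_chart _ hS.mem_adjoin
  have hSmem : (∏ i ∈ Finset.range p.natDegree, s i) ∈ gaussO hw x :=
    chart_fin_le_gaussO hw x hSch
  have hScoeff : ∀ i < p.natDegree,
      (∏ i ∈ Finset.range p.natDegree, s i) * ((p.coeff i : gaussO hw x) : F) ∈
        chart R ({x} : Set F) := by
    intro i hi
    have h1 : (∏ j ∈ Finset.range p.natDegree, s j) =
        s i * ∏ j ∈ (Finset.range p.natDegree).erase i, s j :=
      (Finset.mul_prod_erase _ _ (Finset.mem_range.2 hi)).symm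
    rw [h1, mul_right_comm]
    exact Subalgebra.mul_mem _ (hsc i)
      (Subalgebra.prod_mem _ fun j _ => adjoin_le_chart _ (hs j).mem_adjoin)
  generalize hSdef : (∏ i ∈ Finset.range p.natDegree, s i) = S at hS hSch hSmem hScoeff
  -- the scaled polynomial
  have hroot : eval₂ (algebraMap (gaussO hw x) F) (S * f)
      (scaleRoots p (⟨S, hSmem⟩ : gaussO hw x)) = 0 := by
    have h1 := scaleRoots_eval₂_mul (p := p) (algebraMap (gaussO hw x) F) f
      (⟨S, hSmem⟩ : gaussO hw x)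
    have h2 : algebraMap (gaussO hw x) F (⟨S, hSmem⟩ : gaussO hw x) = S := rfl
    rw [h2] at h1
    rw [h1, hp, mul_zero]
  have hlift : scaleRoots p (⟨S, hSmem⟩ : gaussO hw x) ∈
      lifts (Subalgebra.inclusion (chart_fin_le_gaussO hw x)).toRingHom := by
    rw [lifts_iff_coeff_lifts]
    intro i
    rw [coeff_scaleRoots]
    rcases lt_trichotomy i p.natDegree with hi | hi | hi
    · have h1 : ((p.coeff i : gaussO hw x) : F) * S ^ (p.natDegree - i) ∈
          chart R ({x} : Set F) := by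
        have h2 : S ^ (p.natDegree - i) = S * S ^ (p.natDegree - i - 1) := by
          rw [← pow_succ']; congr 1; omega
        have h3 : ((p.coeff i : gaussO hw x) : F) * S ^ (p.natDegree - i) =
            (S * ((p.coeff i : gaussO hw x) : F)) * S ^ (p.natDegree - i - 1) := by
          rw [h2]; ring
        rw [h3]
        exact Subalgebra.mul_mem _ (hScoeff i hi) (Subalgebra.pow_mem _ hSch _)
      exact ⟨⟨_, h1⟩, Subtype.ext rfl⟩
    · rw [hi, hpm.coeff_natDegree, Nat.sub_self, pow_zero, mul_one]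
      exact ⟨1, map_one _⟩
    · rw [coeff_eq_zero_of_natDegree_lt hi, zero_mul]
      exact ⟨0, map_zero _⟩
  obtain ⟨q, hq, -, hqm⟩ := lifts_and_degree_eq_and_monic hlift
    ((monic_scaleRoots_iff (⟨S, hSmem⟩ : gaussO hw x)).2 hpm)
  have hint : IsIntegral (chart R ({x} : Set F)) (S * f) := by
    refine ⟨q, hqm, ?_⟩
    have h1 : (algebraMap (gaussO hw x) F).comp
        (Subalgebra.inclusion (chart_fin_le_gaussO hw x)).toRingHom =
        algebraMap (chart R ({x} : Set F)) F := rfl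
    rw [← h1, ← eval₂_map, hq]
    exact hroot
  exact ⟨S, hS, mem_chart_of_isIntegral_chart hint⟩

section Dom

variable [IsDomain R] [IsIntegrallyClosed (Polynomial R)]

/-- `w` is not a unit of the Gauss ring. -/
theorem inv_not_mem_gaussO (hinjR : Function.Injective (algebraMap R F)) {w : R}
    (hw : Prime w) {x : F} (hx : Transcendental R x) :
    (algebraMap R F w)⁻¹ ∉ gaussO hw x := by
  intro h
  have hw0 : algebraMap R F w ≠ 0 := fun h0 => hw.ne_zero (hinjR (by rw [h0, map_zero]))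
  have h1 : InW (gaussO hw x) w (algebraMap R F 1) := by
    refine ⟨_, h, ?_⟩
    rw [map_one, mul_inv_cancel₀ hw0]
  obtain ⟨t, ht, htt⟩ := qep_fin hw hx _ (Subalgebra.algebraMap_mem _ (1 : R)) h1
  have h2 : w ∣ (1 : R) := dvd_of_algebraMap_eq_mul hinjR hx w 1 ht htt
  exact hw.not_isUnit (isUnit_of_dvd_one h2)

end Dom

end Fermat.Agent.A2.H729

end
-- ===== PACK-END A2/H729/GaussClosed.lean

-- ===== PACK-BEGIN A2/Mod/H216/Bridge.lean
section





/-!
# A2 / GOODRED (helper216): the BRIDGE between the `E`-level objects of `A2/Mod/Spec.lean`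
and the concrete objects of row S18 (`S18/Mod/Defs.lean`)

`F_{M,E} = FE E M ⊆ E((t))` (A2 language)  versus  `Fc M E ⊆ Ω = Om M ⊆ Q̄((t))` (S18 language).

* `bridge E M : FE E M →+* Om M` : coefficientwise embedding `E ⊆ Q̄`; injective, range `Fc M E`;
* `bridge_algebraMap`, `bridge_cE`, `bridge_jE` : constants and generators;
* `bridge_mem_VcSet_iff`  : `H708.IsGaussInt (RE P E) _ f ↔ bridge f ∈ VcSet M P E`
                            (so `IsVinf V` means `f ∈ V ↔ bridge f ∈ VcSet`);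
* `bridge_mem_chart_iff`  : `f ∈ Mod.chart P E M y ↔ bridge f ∈ S18.Alg.chart Fc R (bridge y)`.
-/

set_option autoImplicit false
set_option linter.unusedSectionVars false
set_option linter.style.haveILetI false
set_option synthInstance.maxHeartbeats 400000
set_option maxHeartbeats 1600000

noncomputable section

namespace Fermat.Agent.A2.Mod.H216

open ModularCurve HahnSeries Polynomial

variable (P : ValuationSubring _root_.Fermat.Agent.A2.Mod.Qb) (E : IntermediateField ℚ _root_.Fermat.Agent.A2.Mod.Qb) (M : ℕ)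

/-- The coefficientwise embedding `F_{M,E} → Ω = F_M`. -/
def bridge : _root_.Fermat.Agent.A2.Mod.FE E M →+* S18.Mod.Om M where
  toFun f := ⟨coeffMap (algebraMap E _root_.Fermat.Agent.A2.Mod.Qb) (f : LaurentSeries E),
    S18.H602.coeffMap_mem_laurentBaseChange _ _ f.2⟩
  map_one' := Subtype.ext (by simp)
  map_mul' x y := Subtype.ext (by simp)
  map_zero' := Subtype.ext (by simp)
  map_add' x y := Subtype.ext (by simp)

variable {E M}

theorem coe_bridge (f : _root_.Fermat.Agent.A2.Mod.FE E M) :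
    ((bridge E M f : S18.Mod.Om M) : LaurentSeries _root_.Fermat.Agent.A2.Mod.Qb) =
      coeffMap (algebraMap E _root_.Fermat.Agent.A2.Mod.Qb) (f : LaurentSeries E) := rfl

theorem bridge_injective : Function.Injective (bridge E M) := by
  intro x y h
  have h1 : coeffMap (algebraMap E _root_.Fermat.Agent.A2.Mod.Qb) (x : LaurentSeries E) =
      coeffMap (algebraMap E _root_.Fermat.Agent.A2.Mod.Qb) (y : LaurentSeries E) := congrArg Subtype.val h
  exact Subtype.ext (S18.H602.coeffMap_injective _ (algebraMap E _root_.Fermat.Agent.A2.Mod.Qb).injective h1)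

theorem bridge_mem_Fc (f : _root_.Fermat.Agent.A2.Mod.FE E M) : bridge E M f ∈ S18.Mod.Fc M E := by
  obtain ⟨g, hg, hgf⟩ := S18.H576.exists_mem_Fc_of_mem_FE (M := M) (E := E) f.2
  have : bridge E M f = g := Subtype.ext (by rw [coe_bridge, hgf])
  rw [this]
  exact hg

theorem exists_bridge_eq {g : S18.Mod.Om M} (hg : g ∈ S18.Mod.Fc M E) :
    ∃ f : _root_.Fermat.Agent.A2.Mod.FE E M, bridge E M f = g := by
  obtain ⟨y, hy, hyg⟩ := S18.H576.descendsTo_of_mem_Fc hg
  exact ⟨⟨y, hy⟩, Subtype.ext hyg⟩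

theorem bridge_algebraMap (e : E) :
    bridge E M (algebraMap E (_root_.Fermat.Agent.A2.Mod.FE E M) e) = algebraMap _root_.Fermat.Agent.A2.Mod.Qb (S18.Mod.Om M) (e : _root_.Fermat.Agent.A2.Mod.Qb) := by
  apply Subtype.ext
  rw [coe_bridge]
  exact S18.H602.coeffMap_algebraMap' (algebraMap E _root_.Fermat.Agent.A2.Mod.Qb) e

theorem bridge_cE (r : _root_.Fermat.Agent.A2.Mod.RE P E) :
    bridge E M (cE P E M r) = S18.H576.iotaR M P E r :=
  bridge_algebraMap (r : E)

theorem bridge_cE_mem_Rc (r : _root_.Fermat.Agent.A2.Mod.RE P E) : bridge E M (cE P E M r) ∈ S18.Mod.Rc M P E := by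
  rw [bridge_cE]
  exact S18.H576.mem_Rc_iff_exists_iotaR.2 ⟨r, rfl⟩

theorem bridge_jE (d : ℕ) [NeZero d] (hd : d ∣ M) :
    bridge E M (jE E M d hd) = S18.Mod.jd M d hd := by
  apply Subtype.ext
  rw [coe_bridge]
  exact S18.H602.coeffMap_coeffEmb' (algebraMap E _root_.Fermat.Agent.A2.Mod.Qb) _

/-! ### The Gauss valuation ring -/

theorem bridge_mem_VcSet_iff (f : _root_.Fermat.Agent.A2.Mod.FE E M) :
    bridge E M f ∈ S18.Mod.VcSet M P E ↔
      H708.IsGaussInt (_root_.Fermat.Agent.A2.Mod.RE P E) (modularFunctionFieldFull M) (f : LaurentSeries E) := by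
  constructor
  · intro hf
    obtain ⟨V₁, V₂, h2, h⟩ := S18.H576.exists_rep_of_mem_VcSet hf
    refine ⟨V₁.1, V₂.1, h2, V₂.2, ?_⟩
    apply S18.H602.coeffMap_injective _ (algebraMap E _root_.Fermat.Agent.A2.Mod.Qb).injective
    have h' := congrArg Subtype.val h
    rw [map_mul]
    exact h'
  · rintro ⟨U₁, U₂, h0, hm, he⟩
    have hm1 : coeffMap (_root_.Fermat.Agent.A2.Mod.RE P E).subtype U₁ ∈
        laurentBaseChange E (modularFunctionFieldFull M) := by
      have : H708.incl (_root_.Fermat.Agent.A2.Mod.RE P E) U₁ = (f : LaurentSeries E) * H708.incl (_root_.Fermat.Agent.A2.Mod.RE P E) U₂ := he.symm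
      show H708.incl (_root_.Fermat.Agent.A2.Mod.RE P E) U₁ ∈ _
      rw [this]
      exact mul_mem f.2 hm
    refine S18.H576.mem_VcSet_of_rep (M := M) (A := P) (E := E) ⟨U₁, hm1⟩ ⟨U₂, hm⟩ h0 ?_
    apply Subtype.ext
    show coeffMap (algebraMap E _root_.Fermat.Agent.A2.Mod.Qb) (f : LaurentSeries E) *
        coeffMap (algebraMap E _root_.Fermat.Agent.A2.Mod.Qb) (coeffMap (_root_.Fermat.Agent.A2.Mod.RE P E).subtype U₂) =
      coeffMap (algebraMap E _root_.Fermat.Agent.A2.Mod.Qb) (coeffMap (_root_.Fermat.Agent.A2.Mod.RE P E).subtype U₁)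
    rw [← map_mul]
    exact congrArg _ he

theorem mem_iff_bridge_mem_VcSet {V : ValuationSubring (_root_.Fermat.Agent.A2.Mod.FE E M)} (hV : IsVinf P E M V)
    (f : _root_.Fermat.Agent.A2.Mod.FE E M) : f ∈ V ↔ bridge E M f ∈ S18.Mod.VcSet M P E := by
  rw [bridge_mem_VcSet_iff]
  exact hV f

theorem mem_iff_bridge_mem_Vc {V : ValuationSubring (_root_.Fermat.Agent.A2.Mod.FE E M)} (hV : IsVinf P E M V)
    (f : _root_.Fermat.Agent.A2.Mod.FE E M) : f ∈ V ↔ bridge E M f ∈ S18.Mod.H216.Vc M P E := by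
  rw [mem_iff_bridge_mem_VcSet P hV]
  rw [← S18.Mod.H216.coe_Vc M P E]
  rfl

/-! ### The charts -/

section Chart

variable (y : _root_.Fermat.Agent.A2.Mod.FE E M)

/-- The structure map `R_E → F_{M,E}`. -/
abbrev c0 (P : ValuationSubring _root_.Fermat.Agent.A2.Mod.Qb) (E : IntermediateField ℚ _root_.Fermat.Agent.A2.Mod.Qb) (M : ℕ) : _root_.Fermat.Agent.A2.Mod.RE P E →+* _root_.Fermat.Agent.A2.Mod.FE E M :=
  (algebraMap E (_root_.Fermat.Agent.A2.Mod.FE E M)).comp (_root_.Fermat.Agent.A2.Mod.RE P E).subtype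

/-- `R_E → R = Rc M P E`. -/
def toRc (P : ValuationSubring _root_.Fermat.Agent.A2.Mod.Qb) (E : IntermediateField ℚ _root_.Fermat.Agent.A2.Mod.Qb) (M : ℕ) :
    _root_.Fermat.Agent.A2.Mod.RE P E →+* ↥(S18.Mod.Rc M P E) :=
  ((bridge E M).comp (c0 P E M)).codRestrict (S18.Mod.Rc M P E) (fun r => bridge_cE_mem_Rc P r)

theorem coe_toRc (r : _root_.Fermat.Agent.A2.Mod.RE P E) :
    ((toRc P E M r : ↥(S18.Mod.Rc M P E)) : S18.Mod.Om M) = bridge E M (c0 P E M r) := rfl

theorem toRc_surjective : Function.Surjective (toRc P E M) := by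
  rintro ⟨u, hu⟩
  obtain ⟨r, hr⟩ := S18.H576.mem_Rc_iff_exists_iotaR.1 hu
  have hr' : bridge E M (cE P E M (show _root_.Fermat.Agent.A2.Mod.RE P E from r)) = u := by
    rw [bridge_cE]
    exact hr
  exact ⟨(show _root_.Fermat.Agent.A2.Mod.RE P E from r), Subtype.ext hr'⟩

/-- `bridge (a(y)) = (ρ a)(bridge y)` for `a ∈ R_E[X]`. -/
theorem bridge_eval₂ (a : Polynomial (_root_.Fermat.Agent.A2.Mod.RE P E)) :
    bridge E M (a.eval₂ (c0 P E M) y) =
      S18.Mod.H216.evR (S18.Mod.Rc M P E) (bridge E M y) (a.map (toRc P E M)) := by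
  rw [S18.Mod.H216.evR_apply, Polynomial.eval₂_map, Polynomial.hom_eval₂]
  rfl

theorem bridge_eval₂_mem_polyRing (a : Polynomial (_root_.Fermat.Agent.A2.Mod.RE P E)) :
    bridge E M (a.eval₂ (c0 P E M) y) ∈
      S18.Alg.polyRing (S18.Mod.Rc M P E) (bridge E M y) := by
  rw [bridge_eval₂, S18.Mod.H216.mem_polyRing_iff]
  exact ⟨_, rfl⟩

/-- `R_E[X] → R[bridge y]`, `X ↦ bridge y`. -/
def toPolyRing : Polynomial (_root_.Fermat.Agent.A2.Mod.RE P E) →+*
    ↥(S18.Alg.polyRing (S18.Mod.Rc M P E) (bridge E M y)) :=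
  ((bridge E M).comp (Polynomial.eval₂RingHom (c0 P E M) y)).codRestrict _
    (fun a => bridge_eval₂_mem_polyRing P y a)

theorem coe_toPolyRing (a : Polynomial (_root_.Fermat.Agent.A2.Mod.RE P E)) :
    ((toPolyRing P y a : ↥(S18.Alg.polyRing (S18.Mod.Rc M P E) (bridge E M y))) :
      S18.Mod.Om M) = bridge E M (a.eval₂ (c0 P E M) y) := rfl

theorem toPolyRing_surjective : Function.Surjective (toPolyRing P y) := by
  rintro ⟨u, hu⟩
  obtain ⟨p, hp⟩ := (S18.Mod.H216.mem_polyRing_iff _ _).1 hu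
  obtain ⟨a, ha⟩ := Polynomial.map_surjective (toRc P E M) (toRc_surjective P) p
  refine ⟨a, Subtype.ext ?_⟩
  rw [coe_toPolyRing, bridge_eval₂, ha, hp]

theorem subtype_comp_toPolyRing :
    (S18.Alg.polyRing (S18.Mod.Rc M P E) (bridge E M y)).subtype.comp (toPolyRing P y) =
      (bridge E M).comp (Polynomial.eval₂RingHom (c0 P E M) y) :=
  RingHom.ext fun _ => rfl

/-- **The charts correspond.** -/
theorem bridge_mem_chart_iff (f : _root_.Fermat.Agent.A2.Mod.FE E M) :
    f ∈ chart P E M y ↔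
      bridge E M f ∈ S18.Alg.chart (S18.Mod.Fc M E) (S18.Mod.Rc M P E) (bridge E M y) := by
  constructor
  · rintro ⟨p, hpm, hp⟩
    refine ⟨bridge_mem_Fc f, p.map (toPolyRing P y), hpm.map _, ?_⟩
    rw [Polynomial.eval₂_map]
    have h1 : (algebraMap ↥(S18.Alg.polyRing (S18.Mod.Rc M P E) (bridge E M y))
        (S18.Mod.Om M)).comp (toPolyRing P y) =
        (bridge E M).comp (Polynomial.eval₂RingHom (c0 P E M) y) :=
      subtype_comp_toPolyRing P y
    rw [h1, ← Polynomial.hom_eval₂]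
    have hp' : p.eval₂ (Polynomial.eval₂RingHom (c0 P E M) y) f = 0 := hp
    rw [hp', map_zero]
  · rintro ⟨-, p, hpm, hp⟩
    have hl : p ∈ Polynomial.lifts (toPolyRing P y) := by
      rw [Polynomial.lifts_iff_coeff_lifts]
      intro i
      exact toPolyRing_surjective P y _
    obtain ⟨q, hq, -, hqm⟩ := Polynomial.lifts_and_natDegree_eq_and_monic hl hpm
    refine ⟨q, hqm, ?_⟩
    apply bridge_injective
    rw [map_zero, Polynomial.hom_eval₂]
    have h1 : (algebraMap ↥(S18.Alg.polyRing (S18.Mod.Rc M P E) (bridge E M y))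
        (S18.Mod.Om M)).comp (toPolyRing P y) =
        (bridge E M).comp (Polynomial.eval₂RingHom (c0 P E M) y) :=
      subtype_comp_toPolyRing P y
    rw [← h1, ← Polynomial.eval₂_map, hq]
    exact hp

end Chart

end Fermat.Agent.A2.Mod.H216

end
end
-- ===== PACK-END A2/Mod/H216/Bridge.lean

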