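import Fermat.Prelude.Thm_ModularCurve_coeffMap_qExpand
import Fermat.Agent.Pack.S34.G0E9L1
import Fermat.Agent.Pack.S34.G0E9L3
import Fermat.Agent.Pack.S34.G0E10L1
import Fermat.Agent.Pack.S34.G0E10L3
import Fermat.Agent.Pack.S34.G0E3L3
import Fermat.Agent.Pack.S34.G0E8L2
import Fermat.Agent.Pack.S34.G0E0L3
import Fermat.Agent.Pack.S34.G0E0L1
import Fermat.Agent.Pack.S34.G0E3L0
import Fermat.Agent.Pack.S34.G0E3L1
import Fermat.Agent.Pack.S34.G0E5L3
import Fermat.Agent.Pack.S34.G0E10L0
import Fermat.Agent.Pack.S34.G0E7L1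
import Fermat.Agent.Pack.S34.G0E8L1
import Fermat.Agent.Pack.S34.G0E8L3
import Fermat.Agent.Pack.S34.G0E9L0
import Fermat.Agent.Pack.S34.G0E2L0

-- ===== PACK-BEGIN S29/H882/MeroMain.lean
section




/-!
# S29 / MERO (helper882), part 3: good functions have `q`-expansions in the function field

Main result `qexpFun_mem_FC`: for `f` holomorphic on `ℍ`, `Γ₀(N)`-invariant, with all
`SL₂(ℤ)`-translates of at most exponential growth at `i∞` (i.e. `f ∈ S24.H648.goodRing N`), the
`q`-expansion of `f` lies in `laurentBaseChange ℂ (modularFunctionFieldFull N)`, the function field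
of `X₀(N)` over `ℂ` of the Prelude.

Proof: the field `MC N` generated by all such `q`-expansions has degree `≤ [SL₂(ℤ):Γ₀(N)]` over
`ℂ(j)` (conjugate product, landed S24), and contains `FC N`, which has degree `≥ [SL₂(ℤ):Γ₀(N)]`
(landed S24 over `ℚ̄`, transported to `ℂ` by descent of relations).
-/

set_option autoImplicit false

noncomputable section

open UpperHalfPlane ModularGroup CongruenceSubgroup Polynomial ModularCurve IntermediateField
open scoped MatrixGroups Manifold Modular Real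

namespace Fermat.Agent.S29.H882

open Fermat.Agent.S24 Fermat.Agent.S24.H648 Fermat.Agent.S24.H708 Fermat.Agent.S24.Deg457

section BaseChange

variable {K L : Type*} [Field K] [Algebra ℚ K] [Field L] [Algebra ℚ L]

/-- `coeffMap ι` maps the function field over `K` into the function field over `L`. -/
theorem coeffMap_mem_laurentBaseChange_of_mem (ι : K →+* L)
    (F₀ : IntermediateField ℚ (LaurentSeries ℚ)) {x : LaurentSeries K}
    (hx : x ∈ laurentBaseChange K F₀) : coeffMap ι x ∈ laurentBaseChange L F₀ := by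
  rw [mem_laurentBaseChange_iff] at hx
  induction hx using Subfield.closure_induction with
  | mem y hy =>
      rcases hy with ⟨a, rfl⟩ | ⟨z, hz, rfl⟩
      · rw [coeffMap_algebraMap']
        exact (laurentBaseChange L F₀).algebraMap_mem _
      · rw [coeffMap_coeffEmb']
        exact coeffEmb_mem_laurentBaseChange L hz
  | one => simp
  | add x y _ _ hx hy => simpa using add_mem hx hy
  | neg x _ hx => simpa using neg_mem hx
  | inv x _ hx => simpa using inv_mem hx
  | mul x y _ _ hx hy => simpa using mul_mem hx hy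

end BaseChange

variable (N : ℕ) [NeZero N]

/-- The function field of `X₀(N)` over `ℂ` (Prelude object). -/
abbrev FC : IntermediateField ℂ (LaurentSeries ℂ) :=
  laurentBaseChange ℂ (modularFunctionFieldFull N)

/-- The field generated by the `q`-expansions of good functions. -/
def MC : IntermediateField ℂ (LaurentSeries ℂ) :=
  IntermediateField.adjoin ℂ (goodQ N : Set (LaurentSeries ℂ))

theorem goodQ_le_MC {b : LaurentSeries ℂ} (hb : b ∈ goodQ N) : b ∈ MC N :=
  IntermediateField.subset_adjoin ℂ _ hb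

theorem JK_mem_FC : JK ℂ ∈ FC N :=
  coeffEmb_mem_laurentBaseChange ℂ (modularFunctionField_le_full N (jq_mem N))

theorem FC_le_MC : FC N ≤ MC N := by
  refine (laurentBaseChange_full_le (K := ℂ) N).trans ?_
  refine IntermediateField.adjoin.mono ℂ _ _ ?_
  intro b hb
  exact AK_le_goodQ N (Algebra.subset_adjoin hb)

/-- `j` as an element of `MC N`. -/
def jM : MC N := ⟨JK ℂ, goodQ_le_MC N (JK_mem_goodQ N)⟩

theorem aeval_jM_ne_zero {t : ℂ[X]} (ht : t ≠ 0) :
    aeval (AdjoinSimple.gen ℂ (jM N)) t ≠ 0 := by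
  intro h0
  apply aeval_JK_ne_zero ℂ ht
  have h1 := congrArg (algebraMap ↥(IntermediateField.adjoin ℂ {jM N}) (MC N)) h0
  rw [← aeval_algebraMap_apply, map_zero, AdjoinSimple.algebraMap_gen] at h1
  have h2 := congrArg (algebraMap (MC N) (LaurentSeries ℂ)) h1
  rw [← aeval_algebraMap_apply, map_zero] at h2
  exact h2

theorem algebraMap_comp_aeval_jM :
    (algebraMap (MC N) (LaurentSeries ℂ)).comp
      ((aeval (jM N) : ℂ[X] →ₐ[ℂ] MC N).toRingHom) = evJ (JK ℂ) := by
  refine Polynomial.ringHom_ext ?_ ?_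
  · intro c
    simp [evJ, ← IsScalarTower.algebraMap_apply]
  · simp [evJ]
    rfl

/-- **Degree bound**: `[MC N : ℂ(j)] ≤ [SL₂(ℤ) : Γ₀(N)]`. -/
theorem finiteDimensional_and_finrank_le_MC :
    FiniteDimensional ↥(IntermediateField.adjoin ℂ {jM N}) (MC N) ∧
      Module.finrank ↥(IntermediateField.adjoin ℂ {jM N}) (MC N) ≤ Nat.card (XX N) := by
  refine finiteDimensional_and_finrank_le_of_forall_natDegree_minpoly_le _ fun x => ?_
  obtain ⟨Q, hQ0, hQn, hQ⟩ := algDeg_of_mem_adjoin (goodQ N) (JK_mem_goodQ N)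
    (fun b hb => algDeg_of_mem_goodQ hb) x.2
  have hinc : Function.Injective (algebraMap (MC N) (LaurentSeries ℂ)) :=
    (algebraMap (MC N) (LaurentSeries ℂ)).injective
  refine isIntegral_and_natDegree_le_of_relation (K := ℂ)
    (AdjoinSimple.gen ℂ (jM N)) (fun t ht => aeval_jM_ne_zero N ht) x Q hQ0 _ hQn ?_
  apply hinc
  rw [map_zero, Polynomial.hom_eval₂, AdjoinSimple.algebraMap_gen, algebraMap_comp_aeval_jM]
  exact hQ

end Fermat.Agent.S29.H882

end
end
-- ===== PACK-END S29/H882/MeroMain.lean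

-- ===== PACK-BEGIN S29/H882/MeroPrim.lean
section


/-!
# S29 / MERO (helper882), part 4: `MC N = FC N`

A primitive element `θ` of the function field over `ℚ̄` stays of degree `[SL₂(ℤ):Γ₀(N)]` over
`ℂ(j)` after base change (descent of relations), hence generates `MC N` over `ℂ(j)`.
-/

set_option autoImplicit false

noncomputable section

open UpperHalfPlane ModularGroup CongruenceSubgroup Polynomial ModularCurve IntermediateField
open scoped MatrixGroups Manifold Modular Real

namespace Fermat.Agent.S29.H882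

open Fermat.Agent.S24 Fermat.Agent.S24.H648 Fermat.Agent.S24.H708 Fermat.Agent.S24.Deg457

variable (N : ℕ) [NeZero N]

/-- A primitive element of the function field over `ℚ̄(j)`. -/
theorem exists_theta (P : ModularPackage N) : ∃ θ : FF N,
    (minpoly ↥(IntermediateField.adjoin Kbar {jF N}) θ).natDegree = Nat.card (XX N) := by
  haveI := P.finiteDimensional
  obtain ⟨θ, hθ⟩ := Field.exists_primitive_element ↥(IntermediateField.adjoin Kbar {jF N}) (FF N)
  refine ⟨θ, ?_⟩
  rw [(Field.primitive_element_iff_minpoly_natDegree_eq _ θ).mp hθ, P.finrank_eq]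

/-- The base change of an element of the function field over `ℚ̄`, as a Laurent series over `ℂ`. -/
def ΘL (θ : FF N) : LaurentSeries ℂ := coeffMap iotaC (θ : LaurentSeries Kbar)

theorem ΘL_mem_FC (θ : FF N) : ΘL N θ ∈ FC N :=
  coeffMap_mem_laurentBaseChange_of_mem iotaC _ θ.2

/-- The same element in `MC N`. -/
def ΘM (θ : FF N) : MC N := ⟨ΘL N θ, FC_le_MC N (ΘL_mem_FC N θ)⟩

theorem aeval_jF_ne_zero {t : Kbar[X]} (ht : t ≠ 0) :
    aeval (AdjoinSimple.gen Kbar (jF N)) t ≠ 0 := by
  intro h0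
  apply aeval_JK_ne_zero Kbar ht
  have h1 := congrArg (algebraMap ↥(IntermediateField.adjoin Kbar {jF N}) (FF N)) h0
  rw [← aeval_algebraMap_apply, map_zero, AdjoinSimple.algebraMap_gen] at h1
  have h2 := congrArg (algebraMap (FF N) (LaurentSeries Kbar)) h1
  rw [← aeval_algebraMap_apply, map_zero] at h2
  exact h2

theorem algebraMap_comp_aeval_jF :
    (algebraMap (FF N) (LaurentSeries Kbar)).comp
      ((aeval (jF N) : Kbar[X] →ₐ[Kbar] FF N).toRingHom) = evJ (JK Kbar) := by
  refine Polynomial.ringHom_ext ?_ ?_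
  · intro c
    simp [evJ, ← IsScalarTower.algebraMap_apply]
  · simp [evJ]
    rfl

theorem card_le_natDegree_minpoly (θ : FF N)
    (hθ : (minpoly ↥(IntermediateField.adjoin Kbar {jF N}) θ).natDegree = Nat.card (XX N)) :
    Nat.card (XX N) ≤ (minpoly ↥(IntermediateField.adjoin ℂ {jM N}) (ΘM N θ)).natDegree := by
  haveI := (finiteDimensional_and_finrank_le_MC N).1
  by_contra hlt
  rw [not_le] at hlt
  have hint : IsIntegral ↥(IntermediateField.adjoin ℂ {jM N}) (ΘM N θ) := IsIntegral.of_finite _ _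
  have hp0 : minpoly ↥(IntermediateField.adjoin ℂ {jM N}) (ΘM N θ) ≠ 0 := minpoly.ne_zero hint
  obtain ⟨t, Q, ht, hQ⟩ := exists_clear_denominators (K := ℂ) (jM N)
    (minpoly ↥(IntermediateField.adjoin ℂ {jM N}) (ΘM N θ))
  have hφinj : Function.Injective
      ((aeval (AdjoinSimple.gen ℂ (jM N)) : ℂ[X] →ₐ[ℂ] ℂ⟮jM N⟯).toRingHom) := by
    rw [injective_iff_map_eq_zero]
    intro t ht0
    by_contra h
    exact aeval_jM_ne_zero N h ht0
  have hQ0 : Q ≠ 0 := by
    intro h
    rw [h, Polynomial.map_zero] at hQ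
    exact (mul_ne_zero (C_ne_zero.mpr ht) hp0) hQ.symm
  have hQd : Q.natDegree ≤
      (minpoly ↥(IntermediateField.adjoin ℂ {jM N}) (ΘM N θ)).natDegree := by
    rw [← Polynomial.natDegree_map_eq_of_injective hφinj Q, hQ, natDegree_C_mul ht]
  have hroot : Q.eval₂ (evJ (JK ℂ)) (ΘL N θ) = 0 := by
    have h1 : aeval (ΘM N θ)
        (Q.map ((aeval (AdjoinSimple.gen ℂ (jM N)) : ℂ[X] →ₐ[ℂ] ℂ⟮jM N⟯).toRingHom)) = 0 := by
      rw [hQ, map_mul, minpoly.aeval, mul_zero]
    have h2 := congrArg (algebraMap (MC N) (LaurentSeries ℂ)) h1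
    rw [map_zero, aeval_def, eval₂_map, Polynomial.hom_eval₂] at h2
    have hcomp : (algebraMap (MC N) (LaurentSeries ℂ)).comp
        ((algebraMap ↥(IntermediateField.adjoin ℂ {jM N}) (MC N)).comp
          ((aeval (AdjoinSimple.gen ℂ (jM N)) : ℂ[X] →ₐ[ℂ] ℂ⟮jM N⟯).toRingHom))
        = evJ (JK ℂ) := by
      refine Polynomial.ringHom_ext ?_ ?_
      · intro c
        simp [evJ, ← IsScalarTower.algebraMap_apply]
      · simp [evJ]
        rfl
    rw [hcomp] at h2
    exact h2
  obtain ⟨Q', hQ'0, hQ'd, hQ'⟩ := exists_relation_of_coeffMap_ne_zero iotaC (JK Kbar)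
    (θ : LaurentSeries Kbar) _ Q hQ0 hQd (by rw [coeffMap_JK]; exact hroot)
  have hinc : Function.Injective (algebraMap (FF N) (LaurentSeries Kbar)) :=
    (algebraMap (FF N) (LaurentSeries Kbar)).injective
  have key := isIntegral_and_natDegree_le_of_relation (K := Kbar)
    (AdjoinSimple.gen Kbar (jF N)) (fun t ht => aeval_jF_ne_zero N ht) θ Q' hQ'0 _ hQ'd (by
      apply hinc
      rw [map_zero, Polynomial.hom_eval₂, AdjoinSimple.algebraMap_gen, algebraMap_comp_aeval_jF]
      exact hQ')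
  have := key.2
  omega

/-- `ΘM` is a primitive element of `MC N` over `ℂ(j)`. -/
theorem adjoin_ΘM_eq_top (θ : FF N)
    (hθ : (minpoly ↥(IntermediateField.adjoin Kbar {jF N}) θ).natDegree = Nat.card (XX N)) :
    IntermediateField.adjoin ↥(IntermediateField.adjoin ℂ {jM N}) {ΘM N θ} = ⊤ := by
  haveI := (finiteDimensional_and_finrank_le_MC N).1
  rw [Field.primitive_element_iff_minpoly_natDegree_eq]
  have h1 := card_le_natDegree_minpoly N θ hθ
  have h2 := (finiteDimensional_and_finrank_le_MC N).2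
  have h3 : (minpoly ↥(IntermediateField.adjoin ℂ {jM N}) (ΘM N θ)).natDegree ≤
      Module.finrank ↥(IntermediateField.adjoin ℂ {jM N}) (MC N) := minpoly.natDegree_le _
  omega

theorem coe_mem_FC_of_mem_adjoin_jM (e : ↥(IntermediateField.adjoin ℂ {jM N})) :
    (((e : MC N)) : LaurentSeries ℂ) ∈ FC N := by
  obtain ⟨r, s, hrs⟩ := (IntermediateField.mem_adjoin_simple_iff ℂ (e : MC N)).mp e.2
  have hr : ((aeval (jM N) r : MC N) : LaurentSeries ℂ) = aeval (JK ℂ) r := by
    have := (aeval_algebraMap_apply (LaurentSeries ℂ) (jM N) r).symm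
    exact this
  have hs : ((aeval (jM N) s : MC N) : LaurentSeries ℂ) = aeval (JK ℂ) s := by
    have := (aeval_algebraMap_apply (LaurentSeries ℂ) (jM N) s).symm
    exact this
  have hmem : ∀ t : ℂ[X], aeval (JK ℂ) t ∈ FC N := by
    intro t
    have := (aeval_algebraMap_apply (LaurentSeries ℂ) (⟨JK ℂ, JK_mem_FC N⟩ : FC N) t)
    have h2 : (algebraMap (FC N) (LaurentSeries ℂ)) (⟨JK ℂ, JK_mem_FC N⟩ : FC N) = JK ℂ := rfl
    rw [h2] at this
    rw [this]
    exact (aeval (⟨JK ℂ, JK_mem_FC N⟩ : FC N) t).2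
  rw [hrs]
  have : (((aeval (jM N) r / aeval (jM N) s : MC N)) : LaurentSeries ℂ)
      = aeval (JK ℂ) r / aeval (JK ℂ) s := by
    rw [← hr, ← hs]
    rfl
  rw [this]
  exact div_mem (hmem r) (hmem s)

/-- **`MC N ≤ FC N`**: every `q`-expansion of a good function lies in the function field. -/
theorem MC_le_FC : MC N ≤ FC N := by
  obtain ⟨P⟩ := nonempty_modularPackage N
  obtain ⟨θ, hθ⟩ := exists_theta N P
  have htop := adjoin_ΘM_eq_top N θ hθ
  intro y hy
  have hy' : (⟨y, hy⟩ : MC N) ∈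
      IntermediateField.adjoin ↥(IntermediateField.adjoin ℂ {jM N}) {ΘM N θ} := by
    rw [htop]; exact IntermediateField.mem_top
  have key : ∀ z : MC N,
      z ∈ IntermediateField.adjoin ↥(IntermediateField.adjoin ℂ {jM N}) {ΘM N θ} →
      (z : LaurentSeries ℂ) ∈ FC N := by
    intro z hz
    refine IntermediateField.adjoin_induction ↥(IntermediateField.adjoin ℂ {jM N})
      (p := fun (z : MC N) _ => ((z : MC N) : LaurentSeries ℂ) ∈ FC N) ?_ ?_ ?_ ?_ ?_ hz
    · intro x hx
      rw [Set.mem_singleton_iff] at hx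
      subst hx
      exact ΘL_mem_FC N θ
    · intro e
      exact coe_mem_FC_of_mem_adjoin_jM N e
    · intro x y _ _ hx hy
      exact add_mem hx hy
    · intro x _ hx
      exact inv_mem hx
    · intro x y _ _ hx hy
      exact mul_mem hx hy
  exact key ⟨y, hy⟩ hy'

theorem MC_eq_FC : MC N = FC N := le_antisymm (MC_le_FC N) (FC_le_MC N)

variable {N}

/-- **MERO (A)**: the `q`-expansion of a good function of level `N` lies in the function field of
`X₀(N)` over `ℂ`. -/
theorem mem_FC_of_mem_goodQ {b : LaurentSeries ℂ} (hb : b ∈ goodQ N) :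
    b ∈ laurentBaseChange ℂ (modularFunctionFieldFull N) :=
  MC_le_FC N (goodQ_le_MC N hb)

/-- **MERO (A)**, function form. -/
theorem qexpFun_mem_FC {f : ℍ → ℂ} (hf : f ∈ goodRing N) :
    qexpFun 1 f ∈ laurentBaseChange ℂ (modularFunctionFieldFull N) :=
  mem_FC_of_mem_goodQ (qexpFun_mem_goodQ hf)

/-- **MERO (A)**, `HasQExp` form. -/
theorem mem_FC_of_hasQExp {f : ℍ → ℂ} {b : LaurentSeries ℂ} (hf : f ∈ goodRing N)
    (hb : HasQExp 1 f b) : b ∈ laurentBaseChange ℂ (modularFunctionFieldFull N) :=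
  mem_FC_of_mem_goodQ ⟨f, hf, hb⟩

end Fermat.Agent.S29.H882

end
end
-- ===== PACK-END S29/H882/MeroPrim.lean

-- ===== PACK-BEGIN Lib/RR/H804/Modular.lean
section




/-!
# RR library, bridge: `FF1` for the function field of `X₀(N)` over `ℚ̄`  (helper804)

Inputs: the modular package of S24 (`j` is transcendental and `F` is finite over `ℚ̄(j)`).
-/

set_option autoImplicit false

noncomputable section

open AlgebraicCurve IntermediateField ModularCurve

namespace Fermat.Agent.Lib.RR.H804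

open Fermat.Agent.S24

variable (N : ℕ) [NeZero N]

/-- `j` is transcendental over `ℚ̄` in the function field of `X₀(N)`. -/
theorem transcendental_jF : Transcendental Kbar (jF N) := by
  obtain ⟨P⟩ := nonempty_modularPackage N
  exact transcendental_of_localData_inv (jF N) P.dataInf

/-- The function field of `X₀(N)` is finite over `ℚ̄(j)`. -/
theorem finiteDimensional_jF : FiniteDimensional Kbar⟮jF N⟯ (FF N) :=
  (nonempty_modularPackage N).some.finiteDimensional

/-- `[ℚ̄(X₀(N)) : ℚ̄(j)] = [SL₂(ℤ) : Γ₀(N)]`. -/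
theorem finrank_jF : Module.finrank Kbar⟮jF N⟯ (FF N) = Nat.card (XX N) :=
  (nonempty_modularPackage N).some.finrank_eq

/-- **Bridge**: the standing hypotheses of the RR library hold for `ℚ̄(X₀(N))`. -/
instance ff1_modular : FF1 (AlgebraicClosure ℚ) ↥(modularFunctionFieldBar N) :=
  haveI := finiteDimensional_jF N
  ff1 (transcendental_jF N)

/-- Principal divisors of `ℚ̄(X₀(N))` exist and have degree zero. -/
instance hasPrincipalDivisors_modular :
    HasPrincipalDivisors (AlgebraicClosure ℚ) ↥(modularFunctionFieldBar N) :=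
  haveI := finiteDimensional_jF N
  hasPrincipalDivisors (transcendental_jF N)

/-- Every place of `ℚ̄(X₀(N))` has degree one. -/
theorem deg_eq_one_modular (v : Place (AlgebraicClosure ℚ) ↥(modularFunctionFieldBar N)) :
    v.deg = 1 :=
  haveI := finiteDimensional_jF N
  FF.deg_eq_one v (transcendental_jF N)

/-- Residue fields of places of `ℚ̄(X₀(N))` are finite over `ℚ̄`. -/
instance finite_residueField_modular
    (v : Place (AlgebraicClosure ℚ) ↥(modularFunctionFieldBar N)) :
    Module.Finite (AlgebraicClosure ℚ) v.ResidueField :=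
  haveI := finiteDimensional_jF N
  finite_residueField (transcendental_jF N) v

end Fermat.Agent.Lib.RR.H804

end
end
-- ===== PACK-END Lib/RR/H804/Modular.lean

-- ===== PACK-BEGIN S29/H126/M3.lean
section
/-
S29 row, piece `M3` (helper126): the Galois action on `J₀(N)(ℚ̄)` is smooth — every class is fixed
by an open subgroup `Gal(ℚ̄/L)`, `L/ℚ` finite.

Route: every element of the function field `ℚ̄(X₀(N))` (a subfield of `ℚ̄((q))` generated by `ℚ̄` and
series with rational coefficients) is fixed by an open subgroup; a place `v` is determined, among the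
finitely many zeros of a function `t` with `v(t) > 0`, by finitely many functions separating it from
the other zeros; a divisor has finite support.
-/




set_option autoImplicit false

noncomputable section

namespace Fermat.Agent.S29.H126

open ModularCurve AlgebraicCurve IntermediateField
open Fermat.Agent.S24 Fermat.Agent.Lib.RR.H804

/-- A property of Galois elements which holds on an open subgroup `Gal(ℚ̄/L)`, `L/ℚ` finite. -/
def M3OpenFixed (P : GQ → Prop) : Prop :=
  ∃ L : IntermediateField ℚ (AlgebraicClosure ℚ), FiniteDimensional ℚ L ∧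
    ∀ σ : GQ, (∀ y ∈ L, σ y = y) → P σ

theorem M3OpenFixed.mono {P Q : GQ → Prop} (h : M3OpenFixed P) (hPQ : ∀ σ, P σ → Q σ) :
    M3OpenFixed Q := by
  obtain ⟨L, hL, hP⟩ := h
  exact ⟨L, hL, fun σ hσ => hPQ σ (hP σ hσ)⟩

theorem M3OpenFixed.of_forall {P : GQ → Prop} (h : ∀ σ, P σ) : M3OpenFixed P :=
  ⟨⊥, inferInstance, fun σ _ => h σ⟩

theorem M3OpenFixed.and {P Q : GQ → Prop} (hP : M3OpenFixed P) (hQ : M3OpenFixed Q) :
    M3OpenFixed (fun σ => P σ ∧ Q σ) := by
  obtain ⟨L₁, hL₁, h₁⟩ := hP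
  obtain ⟨L₂, hL₂, h₂⟩ := hQ
  refine ⟨L₁ ⊔ L₂, inferInstance,
    fun σ hσ => ⟨h₁ σ fun y hy => hσ y ?_, h₂ σ fun y hy => hσ y ?_⟩⟩
  · exact (le_sup_left : L₁ ≤ L₁ ⊔ L₂) hy
  · exact (le_sup_right : L₂ ≤ L₁ ⊔ L₂) hy

theorem M3OpenFixed.finset {ι : Type*} (s : Finset ι) {P : ι → GQ → Prop}
    (h : ∀ i ∈ s, M3OpenFixed (P i)) : M3OpenFixed (fun σ => ∀ i ∈ s, P i σ) := by
  classical
  induction s using Finset.induction_on with
  | empty => exact .of_forall (fun σ i hi => absurd hi (Finset.notMem_empty i))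
  | insert a s ha ih =>
    have h1 := h a (Finset.mem_insert_self a s)
    have h2 := ih (fun i hi => h i (Finset.mem_insert_of_mem hi))
    refine (h1.and h2).mono fun σ hσ i hi => ?_
    rcases Finset.mem_insert.mp hi with rfl | hi
    · exact hσ.1
    · exact hσ.2 i hi

/-- Every element of the base-changed field is fixed (coefficientwise) by an open subgroup. -/
theorem M3_coeffMap_openFixed (F₀ : IntermediateField ℚ (LaurentSeries ℚ))
    {f : LaurentSeries (AlgebraicClosure ℚ)}
    (hf : f ∈ laurentBaseChange (AlgebraicClosure ℚ) F₀) :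
    M3OpenFixed (fun σ => coeffMap (σ : AlgebraicClosure ℚ →+* AlgebraicClosure ℚ) f = f) := by
  rw [mem_laurentBaseChange_iff] at hf
  induction hf using Subfield.closure_induction with
  | mem y hy =>
      rcases hy with ⟨a, rfl⟩ | ⟨z, hz, rfl⟩
      · have ha : IsIntegral ℚ a := ((AlgebraicClosure.isAlgebraic ℚ).isAlgebraic a).isIntegral
        refine ⟨ℚ⟮a⟯, adjoin.finiteDimensional ha, fun σ hσ => ?_⟩
        show coeffMap (σ : AlgebraicClosure ℚ →+* AlgebraicClosure ℚ) (algebraMap _ _ a) = _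
        rw [coeffMap_algebraMap]
        exact congrArg _ (hσ a (mem_adjoin_simple_self ℚ a))
      · exact .of_forall fun σ => coeffMap_coeffEmb σ z
  | one => exact .of_forall fun σ => map_one _
  | add x y _ _ hx hy => exact (hx.and hy).mono fun σ h => by rw [map_add, h.1, h.2]
  | neg x _ hx => exact hx.mono fun σ h => by rw [map_neg, h]
  | inv x _ hx => exact hx.mono fun σ h => by rw [map_inv₀, h]
  | mul x y _ _ hx hy => exact (hx.and hy).mono fun σ h => by rw [map_mul, h.1, h.2]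

/-- Two distinct places are separated by a function. -/
theorem M3_exists_mem_not_mem {K F : Type*} [Field K] [Field F] [Algebra K F] {v w : Place K F}
    (h : w ≠ v) : ∃ g : F, g ∈ v.toValuationSubring ∧ g ∉ w.toValuationSubring := by
  by_contra hcon
  have hle : v.toValuationSubring ≤ w.toValuationSubring := fun g hg =>
    by_contra fun hgw => hcon ⟨g, hg, hgw⟩
  exact h (Place.ext (ValuationSubring.eq_of_le_of_ne_top _ hle w.ne_top').symm)

variable (N : ℕ) [NeZero N]

omit [NeZero N] in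
/-- Every function in `ℚ̄(X₀(N))` is fixed by an open subgroup. -/
theorem M3_elt_openFixed (f : FF N) :
    M3OpenFixed (fun σ => arithmeticGalois (modularFunctionFieldFull N) σ • f = f) :=
  (M3_coeffMap_openFixed _ f.2).mono fun σ h =>
    Subtype.ext (by rw [coe_arithmeticGalois_smul]; exact h)

/-- Every place of `ℚ̄(X₀(N))` is fixed by an open subgroup. -/
theorem M3_place_openFixed (v : Place Kbar (FF N)) :
    M3OpenFixed (fun σ => arithmeticGalois (modularFunctionFieldFull N) σ • v = v) := by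
  classical
  obtain ⟨x, hx⟩ : ∃ x : FF N, x ∉ v.toValuationSubring := by
    by_contra h
    exact v.ne_top' (eq_top_iff.mpr fun x _ => by_contra fun hx => h ⟨x, hx⟩)
  have hx0 : x ≠ 0 := fun h0 => hx (h0 ▸ zero_mem _)
  set t : FF N := x⁻¹ with ht
  have htpos : 0 < v.ord t := by
    have h1 : ¬ 0 ≤ v.ord x := mt (FF.mem_of_ord_nonneg v) hx
    rw [ht, v.ord_inv]
    omega
  have htK : t ∉ (algebraMap Kbar (FF N)).range := by
    rintro ⟨a, ha⟩
    rw [← ha, FF.ord_algebraMap] at htpos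
    exact lt_irrefl _ htpos
  have htr : Transcendental Kbar t := FF.transcendental_of_not_mem_range htK
  have := finiteDimensional_jF N
  have : FiniteDimensional Kbar⟮t⟯ (FF N) :=
    FF.finiteDimensional_adjoin_of_transcendental (transcendental_jF N) htr
  have hZ : {w : Place Kbar (FF N) | 0 < w.ord t}.Finite := FF.finite_setOf_ord_pos htr
  have hQ : ∀ w ∈ hZ.toFinset, M3OpenFixed
      (fun σ => arithmeticGalois (modularFunctionFieldFull N) σ • v = w → w = v) := by
    intro w _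
    by_cases hwv : w = v
    · exact .of_forall fun σ _ => hwv
    · obtain ⟨g, hgv, hgw⟩ := M3_exists_mem_not_mem hwv
      refine (M3_elt_openFixed N g).mono fun σ hσ hσv => ?_
      exfalso
      apply hgw
      rw [← hσv, SemilinearAut.smul_toValuationSubring, ← hσ]
      exact ValuationSubring.smul_mem_pointwise_smul _ g _ hgv
  refine ((M3_elt_openFixed N t).and (M3OpenFixed.finset _ hQ)).mono fun σ hσ => ?_
  obtain ⟨hσt, hσQ⟩ := hσ
  have hmem : arithmeticGalois (modularFunctionFieldFull N) σ • v ∈ hZ.toFinset := by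
    rw [Set.Finite.mem_toFinset]
    show 0 < (arithmeticGalois (modularFunctionFieldFull N) σ • v).ord t
    have := SemilinearAut.ord_smul (arithmeticGalois (modularFunctionFieldFull N) σ) v t
    rw [hσt] at this
    rw [this]
    exact htpos
  exact hσQ _ hmem rfl

/-- Every divisor of `ℚ̄(X₀(N))` is fixed by an open subgroup. -/
theorem M3_divisor_openFixed (D : Divisor Kbar (FF N)) :
    M3OpenFixed (fun σ => arithmeticGalois (modularFunctionFieldFull N) σ • D = D) := by
  refine (M3OpenFixed.finset D.support (fun v _ => M3_place_openFixed N v)).mono fun σ hσ => ?_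
  rw [SemilinearAut.divisor_smul_def]
  conv_rhs => rw [← Finsupp.mapDomain_id (v := D)]
  exact Finsupp.mapDomain_congr fun v hv => hσ v hv

/-- PIECE `M3`: the Galois action on `J₀(N)(ℚ̄)` is smooth. -/
theorem M3_jZero_smooth (x : JZero N) :
    ∃ L : IntermediateField ℚ (AlgebraicClosure ℚ), FiniteDimensional ℚ L ∧
      ∀ σ : GQ, (∀ y ∈ L, σ y = y) → σ • x = x := by
  obtain ⟨D, rfl⟩ := Pic0.mk_surjective x
  refine (M3_divisor_openFixed N (D : Divisor Kbar (FF N))).mono fun σ hσ => ?_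
  rw [galois_smul_pic0_def, SemilinearAut.pic0_smul_mk]
  exact congrArg Pic0.mk (Subtype.ext (by rw [SemilinearAut.coe_degZeroSMulHom]; exact hσ))

end Fermat.Agent.S29.H126

end
end
-- ===== PACK-END S29/H126/M3.lean

-- ===== PACK-BEGIN S29/H332/Growth.lean
section




/-!
# S29 / M4b / K1 → K2 bridge: `holN N` ⊆ exponential growth, and `h ^ p ∈ goodRing N`

* `expGrowth_of_infExp` : a convergent Laurent expansion in `exp(2πiτ/N)` gives the S24 `ExpGrowth`
  bound on all of `im τ ≥ 1`;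
* `mem_goodRing_of_mem_holN` : a `Γ₀(N)`-invariant element of the S24 ring `holN N` lies in the S24
  ring `goodRing N` (the input of helper882's MERO);
* `kummerFun_pow_mem_goodRing`, `hasQExp_kummerFun_pow`.
-/

set_option autoImplicit false

noncomputable section

open UpperHalfPlane HahnSeries ModularCurve Complex
open scoped Real MatrixGroups Manifold

namespace Fermat.Agent.S29.H332

open Fermat.Agent.S24 Fermat.Agent.S24.H997 Fermat.Agent.S24.H624 Fermat.Agent.S24.H648

variable {N : ℕ} [NeZero N]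

omit [NeZero N] in
theorem norm_infZ_eq (τ : ℍ) : ‖infZ N τ‖ = Real.exp (-2 * π * τ.im / N) := by
  rw [infZ, Function.Periodic.norm_qParam]
  rfl

/-- A convergent power series in `z = exp (2πiτ/N)` is bounded on `‖z‖ ≤ r` for every `r < 1`. -/
theorem exists_bound_of_infPExp_of_lt {g : ℍ → ℂ} {ψ : PowerSeries ℂ} (h : InfPExp N g ψ)
    {r : ℝ} (hr0 : 0 < r) (hr1 : r < 1) :
    ∃ C : ℝ, ∀ τ : ℍ, ‖infZ N τ‖ ≤ r → ‖g τ‖ ≤ C := by
  obtain ⟨ρ, hrρ, hρ1⟩ : ∃ ρ, r < ρ ∧ ρ < 1 := exists_between hr1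
  have hρ0 : 0 < ρ := hr0.trans hrρ
  obtain ⟨τ₀, hτ₀⟩ := exists_infZ_eq N (z := ((ρ : ℝ) : ℂ))
    (by exact_mod_cast hρ0.ne')
    (by rw [Complex.norm_real, Real.norm_eq_abs, abs_of_pos hρ0]; exact hρ1)
  have h0 := h τ₀
  rw [hτ₀] at h0
  have hterm := h0.summable.tendsto_atTop_zero
  obtain ⟨B, hB⟩ := (Metric.isBounded_range_of_tendsto _ hterm).exists_norm_le
  have hB' : ∀ n : ℕ, ‖PowerSeries.coeff n ψ‖ * ρ ^ n ≤ B := by
    intro n
    have := hB _ ⟨n, rfl⟩
    rwa [norm_mul, norm_pow, Complex.norm_real, Real.norm_eq_abs, abs_of_pos hρ0] at this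
  have hB0 : 0 ≤ B := le_trans (by positivity) (hB' 0)
  have hq0 : 0 ≤ r / ρ := by positivity
  have hq1 : r / ρ < 1 := (div_lt_one hρ0).mpr hrρ
  refine ⟨B * (1 - r / ρ)⁻¹, fun τ hτ => ?_⟩
  have hgeo : HasSum (fun n : ℕ => B * (r / ρ) ^ n) (B * (1 - r / ρ)⁻¹) :=
    (hasSum_geometric_of_lt_one hq0 hq1).mul_left B
  rw [← (h τ).tsum_eq]
  refine tsum_of_norm_bounded hgeo fun n => ?_
  rw [norm_mul, norm_pow]
  have h1 : ‖infZ N τ‖ ^ n ≤ r ^ n := pow_le_pow_left₀ (norm_nonneg _) hτ n
  calc ‖PowerSeries.coeff n ψ‖ * ‖infZ N τ‖ ^ n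
      ≤ ‖PowerSeries.coeff n ψ‖ * r ^ n :=
        mul_le_mul_of_nonneg_left h1 (norm_nonneg _)
    _ = (‖PowerSeries.coeff n ψ‖ * ρ ^ n) * (r / ρ) ^ n := by
        have e : ρ * (r / ρ) = r := by field_simp
        rw [mul_assoc, ← mul_pow, e]
    _ ≤ B * (r / ρ) ^ n := mul_le_mul_of_nonneg_right (hB' n) (by positivity)

/-- A function with a convergent Laurent expansion in `exp (2πiτ/N)` satisfies the S24
`ExpGrowth` bound (on all of `im τ ≥ 1`). -/
theorem expGrowth_of_infExp {f : ℍ → ℂ} {φ : LaurentSeries ℂ} (h : InfExp N f φ) :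
    ExpGrowth f := by
  have hN : (0 : ℝ) < N := by exact_mod_cast Nat.pos_of_ne_zero (NeZero.ne N)
  have hN1 : (1 : ℝ) ≤ N := by exact_mod_cast Nat.one_le_iff_ne_zero.mpr (NeZero.ne N)
  set r : ℝ := Real.exp (-2 * π / N) with hr
  have hr0 : 0 < r := Real.exp_pos _
  have hr1 : r < 1 := by
    rw [hr, Real.exp_lt_one_iff]
    have : 0 < 2 * π / N := by positivity
    have e : -2 * π / N = -(2 * π / N) := by ring
    rw [e]
    linarith
  obtain ⟨C, hC⟩ := exists_bound_of_infPExp_of_lt h.powerSeriesPart hr0 hr1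
  refine ⟨C, (-φ.order).toNat, fun τ hτ => ?_⟩
  have hz0 : infZ N τ ≠ 0 := infZ_ne_zero N τ
  have hzpos : 0 < ‖infZ N τ‖ := norm_pos_iff.mpr hz0
  have hzle : ‖infZ N τ‖ ≤ r := by
    rw [norm_infZ_eq, hr]
    apply Real.exp_le_exp.mpr
    have hpi := Real.pi_pos
    rw [div_le_div_iff_of_pos_right hN]
    nlinarith
  have hg := hC τ hzle
  rw [norm_mul, norm_zpow] at hg
  have hf : ‖f τ‖ = ‖infZ N τ‖ ^ φ.order * (‖infZ N τ‖ ^ (-φ.order) * ‖f τ‖) := by
    rw [← mul_assoc, ← zpow_add₀ hzpos.ne', add_neg_cancel, zpow_zero, one_mul]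
  have hC0 : 0 ≤ C := le_trans (by positivity) hg
  have hpow : ‖infZ N τ‖ ^ φ.order ≤ Real.exp (2 * π * ((-φ.order).toNat : ℕ) * τ.im) := by
    have hz1 : ‖infZ N τ‖ ≤ 1 := hzle.trans hr1.le
    have hle : -(((-φ.order).toNat : ℕ) : ℤ) ≤ φ.order := by
      have := Int.self_le_toNat (-φ.order)
      omega
    have h1 : ‖infZ N τ‖ ^ φ.order ≤ ‖infZ N τ‖ ^ (-(((-φ.order).toNat : ℕ) : ℤ)) :=
      zpow_le_zpow_right_of_le_one₀ hzpos hz1 hle
    refine h1.trans ?_
    rw [zpow_neg, zpow_natCast, ← inv_pow, norm_infZ_eq, ← Real.exp_neg, ← Real.exp_nat_mul]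
    apply Real.exp_le_exp.mpr
    have him : 0 < τ.im := τ.im_pos
    have hm0 : (0 : ℝ) ≤ ((-φ.order).toNat : ℕ) := Nat.cast_nonneg _
    have hq : 2 * π * τ.im / N ≤ 2 * π * τ.im := by
      rw [div_le_iff₀ hN]
      have : 0 < 2 * π * τ.im := by positivity
      nlinarith
    have : -(-2 * π * τ.im / N) = 2 * π * τ.im / N := by ring
    rw [this]
    calc (((-φ.order).toNat : ℕ) : ℝ) * (2 * π * τ.im / N)
        ≤ (((-φ.order).toNat : ℕ) : ℝ) * (2 * π * τ.im) :=
          mul_le_mul_of_nonneg_left hq hm0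
      _ = 2 * π * ((-φ.order).toNat : ℕ) * τ.im := by ring
  rw [hf]
  calc ‖infZ N τ‖ ^ φ.order * (‖infZ N τ‖ ^ (-φ.order) * ‖f τ‖)
      ≤ Real.exp (2 * π * ((-φ.order).toNat : ℕ) * τ.im) * C :=
        mul_le_mul hpow hg (by positivity) (Real.exp_pos _).le
    _ = C * Real.exp (2 * π * ((-φ.order).toNat : ℕ) * τ.im) := mul_comm _ _

/-- A `Γ₀(N)`-invariant element of `holN N` lies in `goodRing N`. -/
theorem mem_goodRing_of_mem_holN {f : ℍ → ℂ} (hf : f ∈ holN N)
    (hinv : ∀ γ ∈ CongruenceSubgroup.Gamma0 N, ∀ τ : ℍ, f (γ • τ) = f τ) :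
    f ∈ goodRing N := by
  refine ⟨hf.1, hinv, fun g => ?_⟩
  obtain ⟨φ, hφ⟩ := hf.2 g
  exact expGrowth_of_infExp hφ

/-- **K1 → MERO**: the `p`-th power of the Kummer function is a good function of level `N`. -/
theorem kummerFun_pow_mem_goodRing {χ : CongruenceSubgroup.Gamma0 N →* ℂˣ} (hχ : ParTrivial χ)
    (hnorm : ∀ γ, ‖(χ γ : ℂ)‖ = 1) {p : ℕ} (hp : ∀ γ, χ γ ^ p = 1) :
    kummerFun N χ ^ p ∈ goodRing N := by
  refine mem_goodRing_of_mem_holN (pow_mem (kummerFun_mem_holN hχ hnorm) p) ?_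
  intro γ hγ τ
  exact (hasCharacter_kummerFun hχ).pow_invariant hp ⟨γ, hγ⟩ τ

/-- `InfExp` (S24 `Inf`) implies `HasQExp` (S24 `H708`) for holomorphic functions. -/
theorem hasQExp_of_infExp {f : ℍ → ℂ} {φ : LaurentSeries ℂ} (hol : MDiff f)
    (h : InfExp N f φ) : Fermat.Agent.S24.H708.HasQExp N f φ :=
  Fermat.Agent.S24.H708.HasQExp.of_hasSum hol h

omit [NeZero N] in
/-- The `q`-expansion of the Kummer function (S24 `H708` form). -/
theorem hasQExp_kummerFun {χ : CongruenceSubgroup.Gamma0 N →* ℂˣ} (hχ : ParTrivial χ)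
    (hnorm : ∀ γ, ‖(χ γ : ℂ)‖ = 1) :
    Fermat.Agent.S24.H708.HasQExp 1 (kummerFun N χ) (kummerExp N χ) :=
  hasQExp_of_infExp (mdiff_kummerFun hχ hnorm) (infExp_kummerFun hχ hnorm)

omit [NeZero N] in
/-- The `q`-expansion of the `p`-th power of the Kummer function. -/
theorem hasQExp_kummerFun_pow {χ : CongruenceSubgroup.Gamma0 N →* ℂˣ} (hχ : ParTrivial χ)
    (hnorm : ∀ γ, ‖(χ γ : ℂ)‖ = 1) (p : ℕ) :
    Fermat.Agent.S24.H708.HasQExp 1 (kummerFun N χ ^ p) (kummerExp N χ ^ p) :=
  (hasQExp_kummerFun hχ hnorm).pow p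

end Fermat.Agent.S29.H332

end
end
-- ===== PACK-END S29/H332/Growth.lean

-- ===== PACK-BEGIN S18/H264/SepConcrete.lean
section






/-!
# S18 / G-SEP at the concrete objects (helper264)

The field `separable` of `Alg.GoodModel` for the concrete objects of `Mod/Defs.lean`
(`Rc M A E`, `VcSet M A E`, coordinate `jOm M`), for every subring `V` with underlying set
`VcSet M A E` and every uniformiser `w` of `Rc M A E`.
-/

set_option autoImplicit false

noncomputable section

namespace Fermat.Agent.S18.H264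

open ModularCurve AlgebraicCurve Polynomial Fermat.Agent.S18 Fermat.Agent.S18.Mod
open Fermat.Agent.S28

/-! ### (C1) the residue field of a valuation ring of `Q̄` over `ℓ` is algebraic over `𝔽_ℓ` -/

section ResAlg

variable (A : ValuationSubring Qb) (ℓ : ℕ) [hℓ : Fact ℓ.Prime]
  [Algebra (ZMod ℓ) (IsLocalRing.ResidueField A)]

theorem isAlgebraic_residue_zmod (c : IsLocalRing.ResidueField A) : IsAlgebraic (ZMod ℓ) c := by
  obtain ⟨a, rfl⟩ := IsLocalRing.residue_surjective c
  have halgQ : IsAlgebraic ℚ (a : Qb) := (AlgebraicClosure.isAlgebraic ℚ).isAlgebraic _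
  have halgZ : IsAlgebraic ℤ (a : Qb) := (IsFractionRing.isAlgebraic_iff ℤ ℚ Qb).mpr halgQ
  obtain ⟨p, hp0, hpa⟩ := halgZ
  have hq0 : p.primPart ≠ 0 := primPart_ne_zero p
  have hqa : aeval (a : Qb) p.primPart = 0 := aeval_primPart_eq_zero hp0 hpa
  have hqA : Polynomial.eval₂ (Int.castRingHom A) a p.primPart = 0 := by
    apply Subtype.ext
    have h := Polynomial.hom_eval₂ p.primPart (Int.castRingHom A) A.subtype a
    rw [ZeroMemClass.coe_zero, ← hqa, aeval_def]
    have hc : (A.subtype).comp (Int.castRingHom A) = algebraMap ℤ Qb := RingHom.ext_int _ _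
    rw [← hc]
    exact h
  refine ⟨p.primPart.map (Int.castRingHom (ZMod ℓ)), ?_, ?_⟩
  · intro h0
    have hdvd : Polynomial.C (ℓ : ℤ) ∣ p.primPart := by
      rw [C_dvd_iff_dvd_coeff]
      intro i
      have := congrArg (fun r => r.coeff i) h0
      simp only [coeff_map, coeff_zero, eq_intCast] at this
      exact (ZMod.intCast_zmod_eq_zero_iff_dvd _ _).mp this
    have hu := (isPrimitive_iff_isUnit_of_C_dvd.mp (isPrimitive_primPart p)) _ hdvd
    have := Int.isUnit_iff.mp hu
    have h2 := hℓ.out.two_le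
    omega
  · rw [aeval_def, Polynomial.eval₂_map]
    have hc : (algebraMap (ZMod ℓ) (IsLocalRing.ResidueField A)).comp (Int.castRingHom (ZMod ℓ)) =
        (IsLocalRing.residue A).comp (Int.castRingHom A) := RingHom.ext_int _ _
    rw [hc, ← Polynomial.hom_eval₂, hqA, map_zero]

instance algebra_isAlgebraic_residue_zmod :
    Algebra.IsAlgebraic (ZMod ℓ) (IsLocalRing.ResidueField A) :=
  ⟨isAlgebraic_residue_zmod A ℓ⟩

end ResAlg

/-! ### (C2), (C3) the function field `F_k` is algebraic over `𝔽_ℓ(j̄)` -/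

section FullAlg

variable {k : Type} [Field k] (ℓ : ℕ) [hℓ : Fact ℓ.Prime]

theorem evalAt_eq_eval₂RingHom {B : Type*} [CommRing B] (y : LaurentSeries B) :
    evalAt y = Polynomial.eval₂RingHom (Int.castRingHom (LaurentSeries B)) y := by
  refine Polynomial.ringHom_ext (fun n => ?_) ?_
  · simp [evalAt]
  · simp [evalAt]

/-- Base change of the integrality equation of `j(q^d)` to `k((q))`. -/
theorem evalZZ_jd_eq_zero {N : ℕ} [NeZero N] (core : CoreData N k) (d : ℕ) [NeZero d]
    (hd : d ∣ N) :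
    ∃ P : Polynomial (Polynomial ℤ), P.Monic ∧
      evalZZ (jqModC k) (qExpand k d (jqModC k)) P = 0 := by
  obtain ⟨P, hP, h0⟩ := core.integral d hd
  refine ⟨P, hP, ?_⟩
  rw [evalAt_eq_eval₂RingHom, ← evalZZ_apply] at h0
  have h := map_evalZZ (coeffMap (Int.castRingHom k)) (jqModC ℤ) (qExpand ℤ d (jqModC ℤ)) P
  rw [h0, map_zero, coeffMap_qExpand, coeffMap_jqModC] at h
  exact h.symm

/-- `j(q^d)` is integral over `𝔽_ℓ(j̄)`. -/
theorem isIntegral_jd [Algebra (ZMod ℓ) (LaurentSeries k)] {N : ℕ} [NeZero N]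
    (core : CoreData N k) (d : ℕ) [NeZero d] (hd : d ∣ N) :
    IsIntegral (IntermediateField.adjoin (ZMod ℓ) {jqModC k}) (qExpand k d (jqModC k)) := by
  obtain ⟨P, hP, h0⟩ := evalZZ_jd_eq_zero core d hd
  set J := IntermediateField.adjoin (ZMod ℓ) {jqModC k} with hJ
  set ψ : Polynomial ℤ →+* J := Polynomial.eval₂RingHom (Int.castRingHom J)
    ⟨jqModC k, IntermediateField.mem_adjoin_simple_self _ _⟩ with hψ
  have hcomp : (algebraMap J (LaurentSeries k)).comp ψ =
      Polynomial.eval₂RingHom (Int.castRingHom (LaurentSeries k)) (jqModC k) := by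
    refine Polynomial.ringHom_ext (fun n => ?_) ?_
    · simp [hψ]
    · simp [hψ]
  refine ⟨P.map ψ, hP.map _, ?_⟩
  rw [Polynomial.eval₂_map, hcomp, ← evalZZ_apply]
  exact h0

/-- Every element of `F_k = k(j(q^d) : d ∣ N)` is algebraic over `𝔽_ℓ(j̄)`. -/
theorem isAlgebraic_of_mem_fullC [Algebra (ZMod ℓ) k] [Algebra.IsAlgebraic (ZMod ℓ) k]
    {N : ℕ} [NeZero N] (core : CoreData N k)
    {a : LaurentSeries k} (ha : a ∈ modularFunctionFieldFullC k N) :
    IsAlgebraic (IntermediateField.adjoin (ZMod ℓ) {jqModC k}) a := by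
  set J := IntermediateField.adjoin (ZMod ℓ) {jqModC k} with hJ
  rw [← mem_algebraicClosure_iff]
  have hle : (modularFunctionFieldFullC k N).toSubfield ≤ (algebraicClosure J (LaurentSeries k)).toSubfield := by
    rw [modularFunctionFieldFullC, IntermediateField.adjoin_toSubfield, Subfield.closure_le]
    rintro y (⟨c, rfl⟩ | ⟨d, hd0, hd, rfl⟩)
    · show algebraMap k (LaurentSeries k) c ∈ algebraicClosure J (LaurentSeries k)
      rw [mem_algebraicClosure_iff]
      obtain ⟨p, hp0, hpc⟩ := (Algebra.IsAlgebraic.isAlgebraic c : IsAlgebraic (ZMod ℓ) c)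
      refine ⟨p.map (algebraMap (ZMod ℓ) J), (Polynomial.map_ne_zero_iff
        (algebraMap (ZMod ℓ) J).injective).mpr hp0, ?_⟩
      rw [aeval_def, Polynomial.eval₂_map]
      have hc : (algebraMap J (LaurentSeries k)).comp (algebraMap (ZMod ℓ) J) =
          (algebraMap k (LaurentSeries k)).comp (algebraMap (ZMod ℓ) k) := RingHom.ext_zmod _ _
      rw [hc, ← Polynomial.hom_eval₂, ← aeval_def, hpc, map_zero]
    · show qExpand k d (jqModC k) ∈ algebraicClosure J (LaurentSeries k)
      rw [mem_algebraicClosure_iff']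
      have := hd0
      exact isIntegral_jd ℓ core d hd
  exact hle ha

end FullAlg

/-! ### (C4) the reduction relation on the Gauss valuation ring -/

section RedRel

variable (M : ℕ) (A : ValuationSubring Qb) (E : IntermediateField ℚ Qb)

/-- Reduction of series modulo the maximal ideal of `A`. -/
abbrev redS : LaurentSeries A →+* LaurentSeries (IsLocalRing.ResidueField A) :=
  coeffMap (IsLocalRing.residue A)

/-- Inclusion `A((q)) → Q̄((q))`. -/
abbrev inclS : LaurentSeries A →+* LaurentSeries Qb := coeffMap A.subtype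

/-- The coercion `Ω = F_M → Q̄((q))` as a ring homomorphism. -/
def omValH : Om M →+* LaurentSeries Qb := (modularFunctionFieldBar M).val.toRingHom

@[simp] theorem omValH_apply (f : Om M) : omValH M f = (f : LaurentSeries Qb) := rfl

/-- Series over `Q̄` all of whose coefficients lie in `E`. -/
def coeffsInE : Subring (LaurentSeries Qb) where
  carrier := {U | ∀ n : ℤ, U.coeff n ∈ E}
  zero_mem' := fun n => by simp
  one_mem' := fun n => by
    rw [HahnSeries.coeff_one]
    split_ifs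
    · exact one_mem _
    · exact zero_mem _
  add_mem' := fun {a b} ha hb n => by
    rw [HahnSeries.coeff_add]
    exact add_mem (ha n) (hb n)
  neg_mem' := fun {a} ha n => by
    rw [HahnSeries.coeff_neg]
    exact neg_mem (ha n)
  mul_mem' := fun {a b} ha hb n => by
    rw [HahnSeries.coeff_mul]
    exact sum_mem fun ij _ => mul_mem (ha _) (hb _)

/-- The subring of `A((q))` cut out by `IsIntE`. -/
def intESub : Subring (LaurentSeries A) :=
  (coeffsInE E).comap (inclS A) ⊓ ((Fc M E).toSubring.map (omValH M)).comap (inclS A)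

theorem mem_intESub {U : LaurentSeries A} : U ∈ intESub M A E ↔ IsIntE M A E U := by
  constructor
  · rintro ⟨h1, f, hf, hfU⟩
    exact ⟨fun n => h1 n, f, hf, hfU⟩
  · rintro ⟨h1, f, hf, hfU⟩
    exact ⟨fun n => h1 n, f, hf, hfU⟩

/-- The reduction relation: `(g, ḡ) ∈ redRel` iff `g = U₁/U₂` and `ḡ = Ū₁/Ū₂` for `E`-rational
integral series `U₁, U₂` in `Fc` with `Ū₂ ≠ 0`. -/
def redRel : Subring (Om M × LaurentSeries (IsLocalRing.ResidueField A)) where
  carrier := {z | z.1 ∈ Fc M E ∧ ∃ U₁ U₂ : LaurentSeries A, U₁ ∈ intESub M A E ∧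
    U₂ ∈ intESub M A E ∧ redS A U₂ ≠ 0 ∧
    (z.1 : LaurentSeries Qb) * inclS A U₂ = inclS A U₁ ∧ z.2 * redS A U₂ = redS A U₁}
  zero_mem' := by
    refine ⟨zero_mem _, 0, 1, zero_mem _, one_mem _, ?_, ?_, ?_⟩
    · rw [map_one]; exact one_ne_zero
    · simp
    · simp
  one_mem' := by
    refine ⟨one_mem _, 1, 1, one_mem _, one_mem _, ?_, ?_, ?_⟩
    · rw [map_one]; exact one_ne_zero
    · simp
    · simp
  add_mem' := by
    rintro ⟨f, a⟩ ⟨g, b⟩ ⟨hf, U₁, U₂, h₁, h₂, hne, heq, hred⟩ ⟨hg, W₁, W₂, k₁, k₂, kne, keq, kred⟩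
    refine ⟨add_mem hf hg, U₁ * W₂ + W₁ * U₂, U₂ * W₂, add_mem (mul_mem h₁ k₂) (mul_mem k₁ h₂),
      mul_mem h₂ k₂, ?_, ?_, ?_⟩
    · rw [map_mul]; exact mul_ne_zero hne kne
    · simp only [Prod.fst_add] at heq keq ⊢
      push_cast
      rw [map_add, map_mul, map_mul, map_mul, ← heq, ← keq]
      ring
    · simp only [Prod.snd_add] at hred kred ⊢
      rw [map_add, map_mul, map_mul, map_mul, ← hred, ← kred]
      ring
  neg_mem' := by
    rintro ⟨f, a⟩ ⟨hf, U₁, U₂, h₁, h₂, hne, heq, hred⟩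
    refine ⟨neg_mem hf, -U₁, U₂, neg_mem h₁, h₂, hne, ?_, ?_⟩
    · simp only [Prod.fst_neg] at heq ⊢
      push_cast
      rw [map_neg, ← heq]
      ring
    · simp only [Prod.snd_neg] at hred ⊢
      rw [map_neg, ← hred]
      ring
  mul_mem' := by
    rintro ⟨f, a⟩ ⟨g, b⟩ ⟨hf, U₁, U₂, h₁, h₂, hne, heq, hred⟩ ⟨hg, W₁, W₂, k₁, k₂, kne, keq, kred⟩
    refine ⟨mul_mem hf hg, U₁ * W₁, U₂ * W₂, mul_mem h₁ k₁, mul_mem h₂ k₂, ?_, ?_, ?_⟩
    · rw [map_mul]; exact mul_ne_zero hne kne
    · simp only [Prod.fst_mul] at heq keq ⊢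
      push_cast
      rw [map_mul, map_mul, ← heq, ← keq]
      ring
    · simp only [Prod.snd_mul] at hred kred ⊢
      rw [map_mul, map_mul, ← hred, ← kred]
      ring

theorem mem_redRel {g : Om M} {a : LaurentSeries (IsLocalRing.ResidueField A)} :
    (g, a) ∈ redRel M A E ↔ g ∈ Fc M E ∧ ∃ U₁ U₂ : LaurentSeries A, U₁ ∈ intESub M A E ∧
      U₂ ∈ intESub M A E ∧ redS A U₂ ≠ 0 ∧
      (g : LaurentSeries Qb) * inclS A U₂ = inclS A U₁ ∧ a * redS A U₂ = redS A U₁ := Iff.rfl

/-- (R2) every element of the Gauss valuation ring has a reduction. -/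
theorem exists_red_of_mem_VcSet {f : Om M} (hf : f ∈ VcSet M A E) :
    ∃ a, (f, a) ∈ redRel M A E := by
  obtain ⟨hfF, U₁, U₂, h₁, h₂, hne, heq⟩ := hf
  refine ⟨redS A U₁ * (redS A U₂)⁻¹, hfF, U₁, U₂, (mem_intESub M A E).mpr h₁,
    (mem_intESub M A E).mpr h₂, hne, heq, ?_⟩
  rw [mul_assoc, inv_mul_cancel₀ hne, mul_one]

theorem mem_VcSet_of_mem_redRel {g : Om M} {a : LaurentSeries (IsLocalRing.ResidueField A)}
    (h : (g, a) ∈ redRel M A E) : g ∈ VcSet M A E := by
  obtain ⟨hgF, U₁, U₂, h₁, h₂, hne, heq, -⟩ := h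
  exact ⟨hgF, U₁, U₂, (mem_intESub M A E).mp h₁, (mem_intESub M A E).mp h₂, hne, heq⟩

/-- (R4) an element with nonzero reduction is a unit of the Gauss valuation ring. -/
theorem inv_mem_VcSet_of_red_ne_zero {g : Om M}
    {a : LaurentSeries (IsLocalRing.ResidueField A)} (h : (g, a) ∈ redRel M A E) (ha : a ≠ 0) :
    g ≠ 0 ∧ g⁻¹ ∈ VcSet M A E := by
  obtain ⟨hgF, U₁, U₂, h₁, h₂, hne, heq, hred⟩ := h
  have hne₁ : redS A U₁ ≠ 0 := by
    rw [← hred]
    exact mul_ne_zero ha hne
  have hg0 : g ≠ 0 := by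
    rintro rfl
    apply hne₁
    have h0 : inclS A U₁ = 0 := by
      rw [← heq]
      simp
    have hU : U₁ = 0 := H516.incl_injective A (by rw [h0, map_zero])
    rw [hU, map_zero]
  refine ⟨hg0, inv_mem hgF, U₂, U₁, (mem_intESub M A E).mp h₂, (mem_intESub M A E).mp h₁,
    hne₁, ?_⟩
  have hg0' : (g : LaurentSeries Qb) ≠ 0 := fun h => hg0 (Subtype.ext h)
  push_cast
  rw [← heq, ← mul_assoc, inv_mul_cancel₀ hg0', one_mul]

/-- (C5) reductions lie in the function field `F_k`. -/
theorem red_mem_fullC [NeZero M] (core : CoreData M (IsLocalRing.ResidueField A)) {g : Om M}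
    {a : LaurentSeries (IsLocalRing.ResidueField A)} (h : (g, a) ∈ redRel M A E) :
    a ∈ modularFunctionFieldFullC (IsLocalRing.ResidueField A) M := by
  obtain ⟨-, U₁, U₂, h₁, h₂, hne, -, hred⟩ := h
  have key : ∀ U : LaurentSeries A, U ∈ intESub M A E →
      redS A U ∈ modularFunctionFieldFullC (IsLocalRing.ResidueField A) M := by
    intro U hU
    obtain ⟨-, f, -, hfU⟩ := (mem_intESub M A E).mp hU
    refine H516.red_mem_of_incl_mem A (IsLocalRing.residue A) M core ?_
    rw [← hfU]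
    exact f.2
  have ha : a = redS A U₁ * (redS A U₂)⁻¹ := by
    rw [← hred, mul_assoc, mul_inv_cancel₀ hne, mul_one]
  rw [ha]
  exact mul_mem (key U₁ h₁) (inv_mem (key U₂ h₂))

/-- (R5) the reduction of `j` is `j̄`. -/
theorem jOm_mem_redRel : (jOm M, jqModC (IsLocalRing.ResidueField A)) ∈ redRel M A E := by
  have hjF : jOm M ∈ Fc M E :=
    Subfield.subset_closure (Set.mem_union_right _ ⟨1, inferInstance, one_dvd M, rfl⟩)
  have hjval : (jOm M : LaurentSeries Qb) = inclS A (jqModC A) := by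
    show coeffEmb Qb (qExpand ℚ 1 jq) = coeffMap A.subtype (jqModC A)
    rw [qExpand_one_apply, H516.coeffEmb_jq, coeffMap_jqModC]
  have hjint : jqModC A ∈ intESub M A E := by
    refine ⟨fun n => ?_, jOm M, hjF, hjval⟩
    show ((coeffMap A.subtype (jqModC A)).coeff n) ∈ E
    rw [coeffMap_jqModC, coeff_jqModC_eq_intCast]
    exact intCast_mem E _
  refine ⟨hjF, jqModC A, 1, hjint, one_mem _, ?_, ?_, ?_⟩
  · rw [map_one]; exact one_ne_zero
  · rw [map_one, mul_one, hjval]
  · rw [map_one, mul_one]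
    exact (coeffMap_jqModC (IsLocalRing.residue A)).symm

/-- (R3) an element with zero reduction is divisible by the uniformiser `w`. -/
theorem mul_inv_mem_VcSet_of_red_eq_zero {w : Om M} (hw : w ∈ Rc M A E) (hw0 : w ≠ 0)
    (hgen : ∀ r ∈ Rc M A E, r⁻¹ ∉ Rc M A E → r * w⁻¹ ∈ Rc M A E) {g : Om M}
    (h : (g, (0 : LaurentSeries (IsLocalRing.ResidueField A))) ∈ redRel M A E) :
    g * w⁻¹ ∈ VcSet M A E := by
  obtain ⟨hgF, U₁, U₂, h₁, h₂, hne, heq, hred⟩ := h
  simp only [zero_mul] at hred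
  obtain ⟨aw, ⟨hawA, hawE⟩, rfl⟩ := hw
  have haw0 : aw ≠ 0 := by
    rintro rfl
    exact hw0 (map_zero _)
  obtain ⟨hU₁E, f₁, hf₁F, hf₁U⟩ := (mem_intESub M A E).mp h₁
  have hinj : Function.Injective (algebraMap Qb (Om M)) := (algebraMap Qb (Om M)).injective
  -- every coefficient of `U₁` is divisible by `aw` in `A`
  have hdiv : ∀ n : ℤ, ((U₁.coeff n : A) : Qb) * aw⁻¹ ∈ A := by
    intro n
    by_cases hc0 : ((U₁.coeff n : A) : Qb) = 0
    · rw [hc0, zero_mul]
      exact zero_mem _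
    have hcres : IsLocalRing.residue A (U₁.coeff n) = 0 := by
      have := congrArg (fun S : LaurentSeries (IsLocalRing.ResidueField A) => S.coeff n) hred
      simpa using this.symm
    have hr : algebraMap Qb (Om M) ((U₁.coeff n : A) : Qb) ∈ Rc M A E :=
      ⟨_, ⟨(U₁.coeff n).2, hU₁E n⟩, rfl⟩
    have hrinv : (algebraMap Qb (Om M) ((U₁.coeff n : A) : Qb))⁻¹ ∉ Rc M A E := by
      rintro ⟨b, ⟨hbA, -⟩, hb⟩
      have hb' : b = ((U₁.coeff n : A) : Qb)⁻¹ := hinj (by rw [hb, map_inv₀])
      have hunit : IsUnit (U₁.coeff n) := by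
        refine isUnit_iff_exists_inv.mpr ⟨⟨b, hbA⟩, Subtype.ext ?_⟩
        show ((U₁.coeff n : A) : Qb) * b = 1
        rw [hb', mul_inv_cancel₀ hc0]
      have hmem : U₁.coeff n ∈ IsLocalRing.maximalIdeal A :=
        (IsLocalRing.residue_eq_zero_iff _).mp hcres
      exact (IsLocalRing.mem_maximalIdeal _).mp hmem hunit
    obtain ⟨b, ⟨hbA, -⟩, hb⟩ := hgen _ hr hrinv
    have hb' : b = ((U₁.coeff n : A) : Qb) * aw⁻¹ := hinj (by rw [hb, map_mul, map_inv₀])
    rw [← hb']
    exact hbA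
  -- the divided series
  let U₁' : LaurentSeries A :=
    ⟨fun n => ⟨((U₁.coeff n : A) : Qb) * aw⁻¹, hdiv n⟩,
      U₁.isPWO_support.mono (fun n hn => by
        intro h0
        apply hn
        apply Subtype.ext
        show ((U₁.coeff n : A) : Qb) * aw⁻¹ = 0
        rw [h0]
        simp)⟩
  have hwval : algebraMap Qb (LaurentSeries Qb) aw = HahnSeries.single 0 aw :=
    algebraMap_laurentSeries_eq_single Qb aw
  have hwcoe : ((algebraMap Qb (Om M) aw : Om M) : LaurentSeries Qb) =
      algebraMap Qb (LaurentSeries Qb) aw := rfl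
  have hwne : algebraMap Qb (LaurentSeries Qb) aw ≠ 0 := by
    rw [← hwcoe]
    exact fun h => hw0 (Subtype.ext h)
  have hU' : inclS A U₁' * algebraMap Qb (LaurentSeries Qb) aw = inclS A U₁ := by
    rw [hwval]
    ext n
    rw [HahnSeries.coeff_mul_single_zero]
    show ((U₁.coeff n : A) : Qb) * aw⁻¹ * aw = ((U₁.coeff n : A) : Qb)
    rw [mul_assoc, inv_mul_cancel₀ haw0, mul_one]
  have hU'' : inclS A U₁' = inclS A U₁ * (algebraMap Qb (LaurentSeries Qb) aw)⁻¹ := by
    rw [← hU', mul_assoc, mul_inv_cancel₀ hwne, mul_one]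
  have hwF : algebraMap Qb (Om M) aw ∈ Fc M E :=
    Subfield.subset_closure (Set.mem_union_left _ ⟨aw, hawE, rfl⟩)
  have hU₁' : IsIntE M A E U₁' := by
    refine ⟨fun n => ?_, f₁ * (algebraMap Qb (Om M) aw)⁻¹, mul_mem hf₁F (inv_mem hwF), ?_⟩
    · show ((U₁.coeff n : A) : Qb) * aw⁻¹ ∈ E
      exact mul_mem (hU₁E n) (inv_mem hawE)
    · show (f₁ : LaurentSeries Qb) *
        (((algebraMap Qb (Om M) aw : Om M) : LaurentSeries Qb))⁻¹ = inclS A U₁'
      rw [hwcoe, hf₁U, hU'']
  refine ⟨mul_mem hgF (inv_mem hwF), U₁', U₂, hU₁', (mem_intESub M A E).mp h₂, hne, ?_⟩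
  show (g : LaurentSeries Qb) * (((algebraMap Qb (Om M) aw : Om M) : LaurentSeries Qb))⁻¹ *
    inclS A U₂ = inclS A U₁'
  rw [hwcoe, hU'', ← heq]
  ring

end RedRel

/-! ### (C6) the field `separable` at the concrete objects -/

section Main

variable (M : ℕ) [NeZero M] {ℓ : ℕ} [hℓ : Fact ℓ.Prime]

/-- **G-SEP at the concrete objects, coordinate `j`.**  For every subring `V` with underlying
set `VcSet M A E` and every `w ∈ Rc M A E`, `w ≠ 0`, generating the maximal ideal of `Rc M A E`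
(fields `w_mem`, `w_ne_zero`, `w_gen` of `PartR`): the field `separable` of `Alg.GoodModel`.
No hypothesis on `E`.  The polynomial even has coefficients in `ℤ[j]`. -/
theorem separable_jOm (hℓM : ¬ ℓ ∣ M) (A : ValuationSubring Qb) (hA : A.LiesOverPrime ℓ)
    (E : IntermediateField ℚ Qb) (V : Subring (Om M)) (hV : (V : Set (Om M)) = VcSet M A E)
    (w : Om M) (hw : w ∈ Rc M A E) (hw0 : w ≠ 0)
    (hgen : ∀ r ∈ Rc M A E, r⁻¹ ∉ Rc M A E → r * w⁻¹ ∈ Rc M A E) :
    ∀ f ∈ V, ∃ P : Polynomial (Om M), (∀ i, P.coeff i ∈ Alg.polyRing (Rc M A E) (jOm M)) ∧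
      P.eval f * w⁻¹ ∈ V ∧ (Polynomial.derivative P).eval f ≠ 0 ∧
      ((Polynomial.derivative P).eval f)⁻¹ ∈ V := by
  intro f hf
  have hmemV : ∀ g : Om M, g ∈ V ↔ g ∈ VcSet M A E := fun g => by
    rw [← hV]
    rfl
  have hchar : CharP (IsLocalRing.ResidueField A) ℓ := H516.charP_residue A hA
  let _ : Algebra (ZMod ℓ) (IsLocalRing.ResidueField A) := ZMod.algebra _ ℓ
  have core := H516.coreData_residue M hℓM A hA
  obtain ⟨a, ha⟩ := exists_red_of_mem_VcSet M A E ((hmemV f).mp hf)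
  have halg := isAlgebraic_of_mem_fullC ℓ core (red_mem_fullC M A E core ha)
  have hv : HahnSeries.addVal ℤ (IsLocalRing.ResidueField A)
      (jqModC (IsLocalRing.ResidueField A)) = ((-1 : ℤ) : WithTop ℤ) := by
    rw [HahnSeries.addVal_apply_of_ne (jqModC_ne_zero_of_nontrivial _), order_jqModC]
  exact exists_poly_of_graph_sep ℓ (HahnSeries.addVal ℤ _) (redRel M A E) V (Rc M A E) w
    (jOm M) f (jqModC _) a (jOm_mem_redRel M A E) ha
    (fun g hg => (hmemV _).mpr (mul_inv_mem_VcSet_of_red_eq_zero M A E hw hw0 hgen hg))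
    (fun g b hg hb => ⟨(inv_mem_VcSet_of_red_ne_zero M A E hg hb).1,
      (hmemV _).mpr (inv_mem_VcSet_of_red_ne_zero M A E hg hb).2⟩)
    (-1) hv (not_prime_dvd_neg_one ℓ hℓ.out) halg

end Main

end Fermat.Agent.S18.H264

end
end
-- ===== PACK-END S18/H264/SepConcrete.lean

-- ===== PACK-BEGIN S18/H804/ValPlaceModular.lean
section



/-!
# S18 / GLUE input for the modular function field `F_M = ℚ̄(j(q^d) : d ∣ M)`  (helper804)

* `exists_place_of_valuationSubring_modular` : every proper valuation subring of `F_M` containing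
  `ℚ̄` is the valuation ring of a `Place`.
* `exists_mul_pow_unit_modular` : Place-divisibility of the divisor of `u` by `m` gives the
  valuation-subring form used in `Alg.AlgMainStatement`.
-/

set_option autoImplicit false

namespace Fermat.Agent.S18.H804

open AlgebraicCurve ModularCurve Fermat.Agent.S24

variable (M : ℕ) [NeZero M]

theorem exists_place_of_valuationSubring_modular
    (O : ValuationSubring ↥(modularFunctionFieldBar M))
    (hK : ∀ a : AlgebraicClosure ℚ,
      algebraMap (AlgebraicClosure ℚ) ↥(modularFunctionFieldBar M) a ∈ O) (hO : O ≠ ⊤) :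
    ∃ v : Place (AlgebraicClosure ℚ) ↥(modularFunctionFieldBar M), v.toValuationSubring = O :=
  haveI := Fermat.Agent.Lib.RR.H804.finiteDimensional_jF M
  exists_place_of_valuationSubring (Fermat.Agent.Lib.RR.H804.transcendental_jF M) O hK hO

theorem exists_mul_pow_unit_modular (m : ℕ) (u : ↥(modularFunctionFieldBar M)) (hu : u ≠ 0)
    (hdiv : ∀ v : Place (AlgebraicClosure ℚ) ↥(modularFunctionFieldBar M), (m : ℤ) ∣ v.ord u)
    (O : ValuationSubring ↥(modularFunctionFieldBar M))
    (hK : ∀ a : AlgebraicClosure ℚ,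
      algebraMap (AlgebraicClosure ℚ) ↥(modularFunctionFieldBar M) a ∈ O) :
    ∃ t : ↥(modularFunctionFieldBar M), t ≠ 0 ∧ u * t ^ m ∈ O ∧ (u * t ^ m)⁻¹ ∈ O :=
  haveI := Fermat.Agent.Lib.RR.H804.finiteDimensional_jF M
  exists_mul_pow_unit (Fermat.Agent.Lib.RR.H804.transcendental_jF M) m u hu hdiv O hK

end Fermat.Agent.S18.H804

end
-- ===== PACK-END S18/H804/ValPlaceModular.lean

-- ===== PACK-BEGIN A2/H528/Fricke.lean
section


/-!
# A2 / W — the Fricke (Atkin–Lehner) involution `w_N` of the function field of `X₀(N)`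

* `fricke N τ = -1/(Nτ)` on `ℍ`, `Jd d ∘ fricke N = Jd (N/d)` for `d ∣ N`;
* `wR N : RN N →+* RN N`, the induced involution of `ℚ̄[j(q^d) : d ∣ N] ⊆ ℚ̄((q))`
  (`j(q^d) ↦ j(q^{N/d})`, identity on the constants);
* `wF N : FF N ≃ₐ[ℚ̄] FF N`, its extension to `FF N = modularFunctionFieldBar N`.
-/

set_option autoImplicit false

noncomputable section

open ModularCurve HahnSeries UpperHalfPlane
open scoped MatrixGroups

namespace Fermat.Agent.A2.H528

open Fermat.Agent.S24 Fermat.Agent.S24.H997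

variable (N : ℕ) [NeZero N]

/-- The Fricke map `τ ↦ -1/(Nτ)` of the upper half plane. -/
def fricke (τ : ℍ) : ℍ := ModularGroup.S • infAff N 0 1 τ

theorem fricke_coe (τ : ℍ) : (fricke N τ : ℂ) = -1 / ((N : ℂ) * τ) := by
  have hN : 0 < N := Nat.pos_of_ne_zero (NeZero.ne N)
  rw [fricke, UpperHalfPlane.modular_S_smul]
  show (-(infAff N 0 1 τ : ℂ))⁻¹ = _
  rw [infAff_coe hN one_pos]
  simp only [Int.cast_zero, add_zero, Nat.cast_one, div_one]
  rw [inv_neg, neg_div, one_div]

theorem fricke_fricke (τ : ℍ) : fricke N (fricke N τ) = τ := by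
  apply UpperHalfPlane.ext
  rw [fricke_coe, fricke_coe]
  have hN : (N : ℂ) ≠ 0 := by exact_mod_cast NeZero.ne N
  have hτ : (τ : ℂ) ≠ 0 := UpperHalfPlane.ne_zero τ
  field_simp

theorem Jd_fricke {d : ℕ} (hd : d ∣ N) (τ : ℍ) : Jd d (fricke N τ) = Jd (N / d) τ := by
  have hN : 0 < N := Nat.pos_of_ne_zero (NeZero.ne N)
  have hd0 : 0 < d := Nat.pos_of_dvd_of_pos hd hN
  have hd1 : 0 < N / d := Nat.div_pos (Nat.le_of_dvd hN hd) hd0
  have key : infAff d 0 1 (fricke N τ) = ModularGroup.S • infAff (N / d) 0 1 τ := by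
    apply UpperHalfPlane.ext
    rw [infAff_coe hd0 one_pos, fricke_coe, UpperHalfPlane.modular_S_smul]
    show _ = (-(infAff (N / d) 0 1 τ : ℂ))⁻¹
    rw [infAff_coe hd1 one_pos]
    have hNd : (N : ℂ) = (d : ℂ) * ((N / d : ℕ) : ℂ) := by
      rw [← Nat.cast_mul, Nat.mul_div_cancel' hd]
    have hdc : (d : ℂ) ≠ 0 := by exact_mod_cast hd0.ne'
    have hd1c : ((N / d : ℕ) : ℂ) ≠ 0 := by exact_mod_cast hd1.ne'
    have hτ : (τ : ℂ) ≠ 0 := UpperHalfPlane.ne_zero τ
    rw [hNd]
    simp only [Int.cast_zero, add_zero, Nat.cast_one, div_one]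
    field_simp
  unfold Jd
  rw [key, jFun_smul']

/-- Precomposition with the Fricke map, as a ring endomorphism of `ℍ → ℂ`. -/
def compW : (ℍ → ℂ) →+* (ℍ → ℂ) where
  toFun f := fun τ => f (fricke N τ)
  map_one' := rfl
  map_mul' _ _ := rfl
  map_zero' := rfl
  map_add' _ _ := rfl

omit [NeZero N] in
@[simp] theorem compW_apply (f : ℍ → ℂ) (τ : ℍ) : compW N f τ = f (fricke N τ) := rfl

theorem compW_compW (f : ℍ → ℂ) : compW N (compW N f) = f := by
  funext τ
  simp [fricke_fricke]

/-- The analytic realisation `R_N → (ℍ → ℂ)` of the polynomial ring. -/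
def toFun : RN N →+* (ℍ → ℂ) := (holBase N).Hol.subtype.comp (holBase N).bridge

theorem toFun_injective : Function.Injective (toFun N) := by
  intro r r' h
  exact (holBase N).bridge_injective (Subtype.ext h)

theorem toFun_jR (d : ℕ) [NeZero d] (hd : d ∣ N) : toFun N (jR N d hd) = Jd d := by
  show (((holBase N).bridge (jR N d hd) : (holBase N).Hol) : ℍ → ℂ) = _
  rw [(holBase N).bridge_jR d hd]
  rfl

theorem toFun_algebraMap (c : Kbar) :
    toFun N (algebraMap Kbar (RN N) c) = fun _ => ιK c := by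
  show (((holBase N).bridge (algebraMap Kbar (RN N) c) : (holBase N).Hol) : ℍ → ℂ) = _
  rw [(holBase N).bridge_algebraMap c]
  rfl

theorem neZero_div {d : ℕ} (hd : d ∣ N) : NeZero (N / d) := by
  have hN : 0 < N := Nat.pos_of_ne_zero (NeZero.ne N)
  have hd0 : 0 < d := Nat.pos_of_dvd_of_pos hd hN
  exact ⟨(Nat.div_pos (Nat.le_of_dvd hN hd) hd0).ne'⟩

theorem compW_toFun_mem (r : RN N) : compW N (toFun N r) ∈ (toFun N).range := by
  obtain ⟨r, hr⟩ := r
  induction hr using Algebra.adjoin_induction with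
  | mem x hx =>
      obtain ⟨y, ⟨d, hne, hd, rfl⟩, rfl⟩ := hx
      have := hne
      have := neZero_div N hd
      have h1 : (⟨coeffEmb Kbar (qExpand ℚ d jq), Algebra.subset_adjoin
          ⟨_, ⟨d, hne, hd, rfl⟩, rfl⟩⟩ : RN N) = jR N d hd := rfl
      rw [h1, toFun_jR]
      refine ⟨jR N (N / d) (Nat.div_dvd_of_dvd hd), ?_⟩
      rw [toFun_jR]
      funext τ
      exact (Jd_fricke N hd τ).symm
  | algebraMap c =>
      have h1 : (⟨algebraMap Kbar (LaurentSeries Kbar) c, Subalgebra.algebraMap_mem _ c⟩ : RN N)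
          = algebraMap Kbar (RN N) c := rfl
      rw [h1, toFun_algebraMap]
      exact ⟨algebraMap Kbar (RN N) c, toFun_algebraMap N c⟩
  | add x y hx hy ihx ihy =>
      have h1 : (⟨x + y, add_mem hx hy⟩ : RN N) = ⟨x, hx⟩ + ⟨y, hy⟩ := rfl
      rw [h1, map_add, map_add]
      exact add_mem ihx ihy
  | mul x y hx hy ihx ihy =>
      have h1 : (⟨x * y, mul_mem hx hy⟩ : RN N) = ⟨x, hx⟩ * ⟨y, hy⟩ := rfl
      rw [h1, map_mul, map_mul]
      exact mul_mem ihx ihy

/-- `R_N ≃ range toFun`. -/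
def toFunEquiv : RN N ≃+* (toFun N).range :=
  RingEquiv.ofBijective (toFun N).rangeRestrict
    ⟨fun x y h => by
      have h' : ((toFun N).rangeRestrict x : ℍ → ℂ) = ((toFun N).rangeRestrict y : ℍ → ℂ) := by
        rw [h]
      exact toFun_injective N h', (toFun N).rangeRestrict_surjective⟩

/-- **The Fricke involution on `R_N = ℚ̄[j(q^d) : d ∣ N]`.** -/
def wR : RN N →+* RN N :=
  ((toFunEquiv N).symm : (toFun N).range →+* RN N).comp
    (((compW N).comp (toFun N)).codRestrict (toFun N).range fun r => compW_toFun_mem N r)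

theorem toFun_wR (r : RN N) : toFun N (wR N r) = compW N (toFun N r) := by
  have h := (toFunEquiv N).apply_symm_apply
    ((((compW N).comp (toFun N)).codRestrict (toFun N).range
      fun r => compW_toFun_mem N r) r)
  exact congrArg Subtype.val h

theorem wR_wR (r : RN N) : wR N (wR N r) = r := by
  apply toFun_injective N
  rw [toFun_wR, toFun_wR, compW_compW]

theorem wR_injective : Function.Injective (wR N) :=
  Function.LeftInverse.injective (wR_wR N)

theorem wR_algebraMap (c : Kbar) : wR N (algebraMap Kbar (RN N) c) = algebraMap Kbar (RN N) c := by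
  apply toFun_injective N
  rw [toFun_wR, toFun_algebraMap]
  rfl

theorem wR_jR (d : ℕ) [NeZero d] (hd : d ∣ N) :
    haveI := neZero_div N hd
    wR N (jR N d hd) = jR N (N / d) (Nat.div_dvd_of_dvd hd) := by
  have := neZero_div N hd
  apply toFun_injective N
  rw [toFun_wR, toFun_jR, toFun_jR]
  funext τ
  exact Jd_fricke N hd τ

/-- The Fricke involution on `FF N`, as a ring homomorphism. -/
def wFHom : FF N →+* FF N :=
  liftF ((inclRN N).toRingHom.comp (wR N))
    ((inclRN_injective N).comp (wR_injective N))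

theorem wFHom_inclRN (r : RN N) : wFHom N (inclRN N r) = inclRN N (wR N r) :=
  liftF_inclRN _ _ r

theorem wFHom_wFHom (f : FF N) : wFHom N (wFHom N f) = f := by
  obtain ⟨r, t, -, rfl⟩ := exists_div_inclRN N f
  rw [map_div₀, map_div₀, wFHom_inclRN, wFHom_inclRN, wFHom_inclRN, wFHom_inclRN, wR_wR, wR_wR]

theorem wFHom_algebraMap (c : Kbar) :
    wFHom N (algebraMap Kbar (FF N) c) = algebraMap Kbar (FF N) c := by
  have h : algebraMap Kbar (FF N) c = inclRN N (algebraMap Kbar (RN N) c) :=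
    ((inclRN N).commutes c).symm
  rw [h, wFHom_inclRN, wR_algebraMap]

/-- **The Fricke involution `w_N` of the function field of `X₀(N)` over `ℚ̄`.** -/
def wF : FF N ≃ₐ[Kbar] FF N :=
  AlgEquiv.ofAlgHom
    { toRingHom := wFHom N, commutes' := wFHom_algebraMap N }
    { toRingHom := wFHom N, commutes' := wFHom_algebraMap N }
    (AlgHom.ext fun f => wFHom_wFHom N f)
    (AlgHom.ext fun f => wFHom_wFHom N f)

@[simp] theorem wF_apply (f : FF N) : wF N f = wFHom N f := rfl

theorem wF_wF (f : FF N) : wF N (wF N f) = f := wFHom_wFHom N f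

theorem wF_symm : (wF N).symm = wF N := by
  refine AlgEquiv.ext fun f => ?_
  apply (wF N).injective
  rw [AlgEquiv.apply_symm_apply, wF_wF]

/-- `j(q^d)` as an element of `FF N`. -/
def jFd (d : ℕ) [NeZero d] (hd : d ∣ N) : FF N := inclRN N (jR N d hd)

omit [NeZero N] in
@[simp] theorem coe_jFd (d : ℕ) [NeZero d] (hd : d ∣ N) :
    ((jFd N d hd : FF N) : LaurentSeries Kbar) = coeffEmb Kbar (qExpand ℚ d jq) := rfl

/-- `w_N (j(q^d)) = j(q^{N/d})`. -/
theorem wF_jFd (d : ℕ) [NeZero d] (hd : d ∣ N) :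
    haveI := neZero_div N hd
    wF N (jFd N d hd) = jFd N (N / d) (Nat.div_dvd_of_dvd hd) := by
  have := neZero_div N hd
  show wFHom N (inclRN N (jR N d hd)) = _
  rw [wFHom_inclRN, wR_jR]
  rfl

end Fermat.Agent.A2.H528

end
end
-- ===== PACK-END A2/H528/Fricke.lean

-- ===== PACK-BEGIN A2/Mod/H751/Fricke.lean
section




/-!
# A2 / MOD, leaves L4 (`FrickeExists`) and L5 (`FrickeCompat`)  (helper751)

* `FE_induction` : induction principle for the function field `F_{N,K} = K(j_d : d ∣ N)`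
  (any field `K ⊇ ℚ`): a predicate holding on the constants and on the generators `j_d`, stable
  under `+`, `*`, `⁻¹`, holds everywhere;
* `ringHom_ext_FE` : two ring homomorphisms out of `F_{N,K}` agreeing on constants and generators
  are equal;
* `frickeCompat : FrickeCompatStatement E M q`  (**L5**);
* `frickeExists : FrickeExistsStatement E`  (**L4**), by descent of `H528.wF` (the Fricke
  involution over `ℚ̄`) along the coefficientwise inclusion `ι : F_{N,E} → F_{N,ℚ̄}`;
  `frickeE`, `iotaE_frickeE : ι (W_E f) = w_N (ι f)`.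
-/

set_option autoImplicit false
set_option synthInstance.maxHeartbeats 400000
set_option maxHeartbeats 1600000

noncomputable section

namespace Fermat.Agent.A2.Mod.H751

open ModularCurve HahnSeries Polynomial

/-! ### Induction on the function field `K(j_d : d ∣ N)` -/

section Induction

variable {K : Type*} [Field K] [Algebra ℚ K] (N : ℕ)

/-- The generator `j_d = j(t^d)` of `F_{N,K}`. -/
def jK (K : Type*) [Field K] [Algebra ℚ K] (N d : ℕ) [NeZero d] (hd : d ∣ N) :
    ↥(laurentBaseChange K (modularFunctionFieldFull N)) :=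
  ⟨coeffEmb K (qExpand ℚ d jq), coeffEmb_mem_laurentBaseChange K (jqd_mem_full N hd)⟩

theorem coeffEmb_algebraMap (c : ℚ) :
    coeffEmb K (algebraMap ℚ (LaurentSeries ℚ) c)
      = algebraMap K (LaurentSeries K) (algebraMap ℚ K c) := by
  rw [algebraMap_apply_eq_single, algebraMap_laurentSeries_eq_single, coeffEmb, coeffMap_single]

/-- **Induction principle for `F_{N,K}`.** -/
theorem FE_induction
    (p : ↥(laurentBaseChange K (modularFunctionFieldFull N)) → Prop)
    (hc : ∀ e : K, p (algebraMap K _ e))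
    (hj : ∀ (d : ℕ) [NeZero d] (hd : d ∣ N), p (jK K N d hd))
    (hadd : ∀ x y, p x → p y → p (x + y))
    (hmul : ∀ x y, p x → p y → p (x * y))
    (hinv : ∀ x, p x → p x⁻¹) :
    ∀ x, p x := by
  -- step 1: the rational functions
  have key1 : ∀ y ∈ modularFunctionFieldFull N,
      ∀ h : coeffEmb K y ∈ laurentBaseChange K (modularFunctionFieldFull N),
        p ⟨coeffEmb K y, h⟩ := by
    intro y hy
    have hy0 : y ∈ IntermediateField.adjoin ℚ (divisorExpansions N) := hy
    induction hy0 using IntermediateField.adjoin_induction with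
    | mem z hz =>
        intro h
        obtain ⟨d, hne, hd, rfl⟩ := hz
        haveI := hne
        exact hj d hd
    | algebraMap c =>
        intro h
        have h1 : (⟨coeffEmb K (algebraMap ℚ (LaurentSeries ℚ) c), h⟩ :
            ↥(laurentBaseChange K (modularFunctionFieldFull N)))
            = algebraMap K _ (algebraMap ℚ K c) := Subtype.ext (coeffEmb_algebraMap c)
        rw [h1]
        exact hc _
    | add a b ha hb iha ihb =>
        intro h
        have ha' := coeffEmb_mem_laurentBaseChange K (F₀ := modularFunctionFieldFull N) ha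
        have hb' := coeffEmb_mem_laurentBaseChange K (F₀ := modularFunctionFieldFull N) hb
        have h1 : (⟨coeffEmb K (a + b), h⟩ :
            ↥(laurentBaseChange K (modularFunctionFieldFull N)))
            = ⟨coeffEmb K a, ha'⟩ + ⟨coeffEmb K b, hb'⟩ := Subtype.ext (map_add _ _ _)
        rw [h1]
        exact hadd _ _ (iha ha ha') (ihb hb hb')
    | inv a ha iha =>
        intro h
        have ha' := coeffEmb_mem_laurentBaseChange K (F₀ := modularFunctionFieldFull N) ha
        have h1 : (⟨coeffEmb K (a⁻¹), h⟩ :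
            ↥(laurentBaseChange K (modularFunctionFieldFull N)))
            = (⟨coeffEmb K a, ha'⟩ : ↥(laurentBaseChange K (modularFunctionFieldFull N)))⁻¹ :=
          Subtype.ext (map_inv₀ _ _)
        rw [h1]
        exact hinv _ (iha ha ha')
    | mul a b ha hb iha ihb =>
        intro h
        have ha' := coeffEmb_mem_laurentBaseChange K (F₀ := modularFunctionFieldFull N) ha
        have hb' := coeffEmb_mem_laurentBaseChange K (F₀ := modularFunctionFieldFull N) hb
        have h1 : (⟨coeffEmb K (a * b), h⟩ :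
            ↥(laurentBaseChange K (modularFunctionFieldFull N)))
            = ⟨coeffEmb K a, ha'⟩ * ⟨coeffEmb K b, hb'⟩ := Subtype.ext (map_mul _ _ _)
        rw [h1]
        exact hmul _ _ (iha ha ha') (ihb hb hb')
  -- step 2: the whole field
  have key2 : ∀ x (h : x ∈ laurentBaseChange K (modularFunctionFieldFull N)), p ⟨x, h⟩ := by
    intro x hx
    have hx0 : x ∈ IntermediateField.adjoin K
        (⇑(coeffEmb K) '' ((modularFunctionFieldFull N : IntermediateField ℚ (LaurentSeries ℚ)) :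
          Set (LaurentSeries ℚ))) := hx
    induction hx0 using IntermediateField.adjoin_induction with
    | mem z hz =>
        obtain ⟨y, hy, rfl⟩ := hz
        exact key1 y hy hx
    | algebraMap c =>
        have h1 : (⟨algebraMap K (LaurentSeries K) c, hx⟩ :
            ↥(laurentBaseChange K (modularFunctionFieldFull N))) = algebraMap K _ c := rfl
        rw [h1]
        exact hc c
    | add a b ha hb iha ihb =>
        have h1 : (⟨a + b, hx⟩ : ↥(laurentBaseChange K (modularFunctionFieldFull N)))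
            = ⟨a, ha⟩ + ⟨b, hb⟩ := rfl
        rw [h1]
        exact hadd ⟨a, ha⟩ ⟨b, hb⟩ (iha ha) (ihb hb)
    | inv a ha iha =>
        have h1 : (⟨a⁻¹, hx⟩ : ↥(laurentBaseChange K (modularFunctionFieldFull N)))
            = (⟨a, ha⟩ : ↥(laurentBaseChange K (modularFunctionFieldFull N)))⁻¹ := rfl
        rw [h1]
        exact hinv ⟨a, ha⟩ (iha ha)
    | mul a b ha hb iha ihb =>
        have h1 : (⟨a * b, hx⟩ : ↥(laurentBaseChange K (modularFunctionFieldFull N)))
            = ⟨a, ha⟩ * ⟨b, hb⟩ := rfl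
        rw [h1]
        exact hmul ⟨a, ha⟩ ⟨b, hb⟩ (iha ha) (ihb hb)
  intro x
  exact key2 x.1 x.2

/-- Two ring homomorphisms out of `F_{N,K}` which agree on the constants and on the generators
`j_d`, `d ∣ N`, are equal. -/
theorem ringHom_ext_FE {T : Type*} [DivisionRing T]
    (φ ψ : ↥(laurentBaseChange K (modularFunctionFieldFull N)) →+* T)
    (hc : ∀ e : K, φ (algebraMap K _ e) = ψ (algebraMap K _ e))
    (hj : ∀ (d : ℕ) [NeZero d] (hd : d ∣ N), φ (jK K N d hd) = ψ (jK K N d hd)) :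
    ∀ x, φ x = ψ x := by
  refine FE_induction N (fun x => φ x = ψ x) hc hj ?_ ?_ ?_
  · intro x y hx hy
    show φ (x + y) = ψ (x + y)
    rw [map_add, map_add, hx, hy]
  · intro x y hx hy
    show φ (x * y) = ψ (x * y)
    rw [map_mul, map_mul, hx, hy]
  · intro x hx
    show φ x⁻¹ = ψ x⁻¹
    rw [map_inv₀, map_inv₀, hx]

end Induction

/-! ### L5: compatibility of the Fricke involutions with `α`, `β` -/

section L5

variable (E : IntermediateField ℚ _root_.Fermat.Agent.A2.Mod.Qb) (M q : ℕ) [NeZero M] [NeZero q]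

theorem jE_eq_jK (N d : ℕ) [NeZero d] (hd : d ∣ N) : jE E N d hd = jK E N d hd := rfl

/-- `α j_d = j_d`. -/
theorem alpha_jE (d : ℕ) [NeZero d] (hd : d ∣ M) :
    αE E M q (jE E M d hd) = jE E (M * q) d (hd.trans (dvd_mul_right M q)) :=
  Subtype.ext (coe_heckeAlphaBar M q _)

/-- `β j_d = j_{qd}`. -/
theorem beta_jE (d : ℕ) [NeZero d] (hd : d ∣ M) :
    βE E M q (jE E M d hd)
      = jE E (M * q) (q * d) (by rw [mul_comm M q]; exact mul_dvd_mul_left q hd) := by
  apply Subtype.ext
  show qExpand E q (coeffEmb E (qExpand ℚ d jq)) = coeffEmb E (qExpand ℚ (q * d) jq)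
  rw [coeffEmb, ← ModularCurve.coeffMap_qExpand, qExpand_qExpand]

theorem jE_congr (N : ℕ) {d d' : ℕ} [NeZero d] [NeZero d'] (h : d = d') (hd : d ∣ N)
    (hd' : d' ∣ N) : jE E N d hd = jE E N d' hd' := by
  subst h
  rfl

/-- **L5** (`FrickeCompat`). -/
theorem frickeCompat : FrickeCompatStatement E M q := by
  intro WM WN hWM hWN
  have hM0 : 0 < M := Nat.pos_of_ne_zero (NeZero.ne M)
  have key1 : ∀ f : _root_.Fermat.Agent.A2.Mod.FE E M, WN (αE E M q f) = βE E M q (WM f) := by
    refine ringHom_ext_FE M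
      ((WN : _root_.Fermat.Agent.A2.Mod.FE E (M * q) →+* _root_.Fermat.Agent.A2.Mod.FE E (M * q)).comp (αE E M q : _root_.Fermat.Agent.A2.Mod.FE E M →+* _root_.Fermat.Agent.A2.Mod.FE E (M * q)))
      ((βE E M q : _root_.Fermat.Agent.A2.Mod.FE E M →+* _root_.Fermat.Agent.A2.Mod.FE E (M * q)).comp (WM : _root_.Fermat.Agent.A2.Mod.FE E M →+* _root_.Fermat.Agent.A2.Mod.FE E M)) ?_ ?_
    · intro e
      show WN (αE E M q (algebraMap E _ e)) = βE E M q (WM (algebraMap E _ e))
      rw [AlgHom.commutes, AlgEquiv.commutes, AlgEquiv.commutes, AlgHom.commutes]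
    · intro d _ hd
      show WN (αE E M q (jE E M d hd)) = βE E M q (WM (jE E M d hd))
      have hd0 : 0 < d := Nat.pos_of_dvd_of_pos hd hM0
      haveI : NeZero (M / d) := ⟨(Nat.div_pos (Nat.le_of_dvd hM0 hd) hd0).ne'⟩
      have h1 : WM (jE E M d hd) = jE E M (M / d) (Nat.div_dvd_of_dvd hd) :=
        hWM.1 d (M / d) hd (Nat.div_dvd_of_dvd hd) (Nat.mul_div_cancel' hd)
      have hdvd : q * (M / d) ∣ M * q := by
        rw [mul_comm M q]; exact mul_dvd_mul_left q (Nat.div_dvd_of_dvd hd)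
      have h2 : WN (jE E (M * q) d (hd.trans (dvd_mul_right M q)))
          = jE E (M * q) (q * (M / d)) hdvd :=
        hWN.1 d (q * (M / d)) _ hdvd (by
          rw [mul_left_comm, Nat.mul_div_cancel' hd, mul_comm])
      rw [alpha_jE, h2, h1, beta_jE]
  have key2 : ∀ f : _root_.Fermat.Agent.A2.Mod.FE E M, WN (βE E M q f) = αE E M q (WM f) := by
    refine ringHom_ext_FE M
      ((WN : _root_.Fermat.Agent.A2.Mod.FE E (M * q) →+* _root_.Fermat.Agent.A2.Mod.FE E (M * q)).comp (βE E M q : _root_.Fermat.Agent.A2.Mod.FE E M →+* _root_.Fermat.Agent.A2.Mod.FE E (M * q)))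
      ((αE E M q : _root_.Fermat.Agent.A2.Mod.FE E M →+* _root_.Fermat.Agent.A2.Mod.FE E (M * q)).comp (WM : _root_.Fermat.Agent.A2.Mod.FE E M →+* _root_.Fermat.Agent.A2.Mod.FE E M)) ?_ ?_
    · intro e
      show WN (βE E M q (algebraMap E _ e)) = αE E M q (WM (algebraMap E _ e))
      rw [AlgHom.commutes, AlgEquiv.commutes, AlgEquiv.commutes, AlgHom.commutes]
    · intro d _ hd
      show WN (βE E M q (jE E M d hd)) = αE E M q (WM (jE E M d hd))
      have hd0 : 0 < d := Nat.pos_of_dvd_of_pos hd hM0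
      haveI : NeZero (M / d) := ⟨(Nat.div_pos (Nat.le_of_dvd hM0 hd) hd0).ne'⟩
      have h1 : WM (jE E M d hd) = jE E M (M / d) (Nat.div_dvd_of_dvd hd) :=
        hWM.1 d (M / d) hd (Nat.div_dvd_of_dvd hd) (Nat.mul_div_cancel' hd)
      have hdvd : q * d ∣ M * q := by
        rw [mul_comm M q]; exact mul_dvd_mul_left q hd
      have hdvd' : M / d ∣ M * q := (Nat.div_dvd_of_dvd hd).trans (dvd_mul_right M q)
      have h2 : WN (jE E (M * q) (q * d) hdvd) = jE E (M * q) (M / d) hdvd' :=
        hWN.1 (q * d) (M / d) hdvd hdvd' (by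
          rw [mul_assoc, Nat.mul_div_cancel' hd, mul_comm])
      rw [beta_jE, h2, h1, alpha_jE]
  exact fun f => ⟨key1 f, key2 f⟩

end L5

/-! ### L4: the Fricke involution over `E`, by descent from `ℚ̄` -/

section L4

open Fermat.Agent.S24 Fermat.Agent.A2.H528

variable (E : IntermediateField ℚ _root_.Fermat.Agent.A2.Mod.Qb) (N : ℕ)

/-- The comparison map `ι : F_{N,E} → F_{N,ℚ̄}` (inclusion of the coefficients). -/
def iotaE : _root_.Fermat.Agent.A2.Mod.FE E N →+* FF N where
  toFun y := ⟨coeffMap (algebraMap E _root_.Fermat.Agent.A2.Mod.Qb) (y : LaurentSeries E),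
    Fermat.Agent.S18.H602.coeffMap_mem_laurentBaseChange _ (algebraMap E _root_.Fermat.Agent.A2.Mod.Qb) y.2⟩
  map_one' := Subtype.ext (map_one (coeffMap (algebraMap E _root_.Fermat.Agent.A2.Mod.Qb)))
  map_mul' _ _ := Subtype.ext (map_mul (coeffMap (algebraMap E _root_.Fermat.Agent.A2.Mod.Qb)) _ _)
  map_zero' := Subtype.ext (map_zero (coeffMap (algebraMap E _root_.Fermat.Agent.A2.Mod.Qb)))
  map_add' _ _ := Subtype.ext (map_add (coeffMap (algebraMap E _root_.Fermat.Agent.A2.Mod.Qb)) _ _)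

theorem coe_iotaE (y : _root_.Fermat.Agent.A2.Mod.FE E N) :
    ((iotaE E N y : FF N) : LaurentSeries Kbar)
      = coeffMap (algebraMap E _root_.Fermat.Agent.A2.Mod.Qb) (y : LaurentSeries E) := rfl

theorem iotaE_injective : Function.Injective (iotaE E N) := (iotaE E N).injective

theorem iotaE_algebraMap (e : E) :
    iotaE E N (algebraMap E (_root_.Fermat.Agent.A2.Mod.FE E N) e) = algebraMap Kbar (FF N) (e : _root_.Fermat.Agent.A2.Mod.Qb) := by
  apply Subtype.ext
  show coeffMap (algebraMap E _root_.Fermat.Agent.A2.Mod.Qb) (algebraMap E (LaurentSeries E) e) = _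
  rw [Fermat.Agent.S18.H602.coeffMap_algebraMap']
  rfl

theorem iotaE_jE (d : ℕ) [NeZero d] (hd : d ∣ N) : iotaE E N (jE E N d hd) = jFd N d hd := by
  apply Subtype.ext
  show coeffMap (algebraMap E _root_.Fermat.Agent.A2.Mod.Qb) (coeffEmb E (qExpand ℚ d jq)) = coeffEmb Kbar (qExpand ℚ d jq)
  exact Fermat.Agent.S18.H602.coeffMap_coeffEmb' _ _

variable [NeZero N]

/-- `w_N` preserves the `E`-rational functions. -/
theorem exists_iotaE_eq_wF (f : _root_.Fermat.Agent.A2.Mod.FE E N) : ∃ g : _root_.Fermat.Agent.A2.Mod.FE E N, iotaE E N g = wF N (iotaE E N f) := by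
  refine FE_induction N (fun f => ∃ g : _root_.Fermat.Agent.A2.Mod.FE E N, iotaE E N g = wF N (iotaE E N f)) ?_ ?_ ?_ ?_ ?_ f
  · intro e
    refine ⟨algebraMap E (_root_.Fermat.Agent.A2.Mod.FE E N) e, ?_⟩
    rw [iotaE_algebraMap, AlgEquiv.commutes]
  · intro d _ hd
    haveI := neZero_div N hd
    refine ⟨jE E N (N / d) (Nat.div_dvd_of_dvd hd), ?_⟩
    show iotaE E N (jE E N (N / d) (Nat.div_dvd_of_dvd hd)) = wF N (iotaE E N (jE E N d hd))
    rw [iotaE_jE, iotaE_jE, wF_jFd]
  · rintro x y ⟨a, ha⟩ ⟨b, hb⟩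
    exact ⟨a + b, by rw [map_add, map_add, map_add, ha, hb]⟩
  · rintro x y ⟨a, ha⟩ ⟨b, hb⟩
    exact ⟨a * b, by rw [map_mul, map_mul, map_mul, ha, hb]⟩
  · rintro x ⟨a, ha⟩
    exact ⟨a⁻¹, by rw [map_inv₀, map_inv₀, map_inv₀, ha]⟩

/-- The Fricke involution of `F_{N,E}`, as a function. -/
def frickeFun (f : _root_.Fermat.Agent.A2.Mod.FE E N) : _root_.Fermat.Agent.A2.Mod.FE E N := Classical.choose (exists_iotaE_eq_wF E N f)

theorem iotaE_frickeFun (f : _root_.Fermat.Agent.A2.Mod.FE E N) : iotaE E N (frickeFun E N f) = wF N (iotaE E N f) :=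
  Classical.choose_spec (exists_iotaE_eq_wF E N f)

/-- The Fricke involution of `F_{N,E}`, as an `E`-algebra homomorphism. -/
def frickeHom : _root_.Fermat.Agent.A2.Mod.FE E N →ₐ[E] _root_.Fermat.Agent.A2.Mod.FE E N where
  toFun := frickeFun E N
  map_one' := iotaE_injective E N (by rw [iotaE_frickeFun, map_one, map_one])
  map_mul' x y := iotaE_injective E N (by
    rw [iotaE_frickeFun, map_mul, map_mul, map_mul, iotaE_frickeFun, iotaE_frickeFun])
  map_zero' := iotaE_injective E N (by rw [iotaE_frickeFun, map_zero, map_zero])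
  map_add' x y := iotaE_injective E N (by
    rw [iotaE_frickeFun, map_add, map_add, map_add, iotaE_frickeFun, iotaE_frickeFun])
  commutes' e := iotaE_injective E N (by
    rw [iotaE_frickeFun, iotaE_algebraMap, AlgEquiv.commutes])

theorem iotaE_frickeHom (f : _root_.Fermat.Agent.A2.Mod.FE E N) : iotaE E N (frickeHom E N f) = wF N (iotaE E N f) :=
  iotaE_frickeFun E N f

theorem frickeHom_frickeHom (f : _root_.Fermat.Agent.A2.Mod.FE E N) : frickeHom E N (frickeHom E N f) = f :=
  iotaE_injective E N (by rw [iotaE_frickeHom, iotaE_frickeHom, wF_wF])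

/-- **The Fricke involution `W_E` of `F_{N,E}` over `E`.** -/
def frickeE : _root_.Fermat.Agent.A2.Mod.FE E N ≃ₐ[E] _root_.Fermat.Agent.A2.Mod.FE E N :=
  AlgEquiv.ofAlgHom (frickeHom E N) (frickeHom E N)
    (AlgHom.ext fun f => frickeHom_frickeHom E N f)
    (AlgHom.ext fun f => frickeHom_frickeHom E N f)

/-- `ι (W_E f) = w_N (ι f)`. -/
theorem iotaE_frickeE (f : _root_.Fermat.Agent.A2.Mod.FE E N) : iotaE E N (frickeE E N f) = wF N (iotaE E N f) :=
  iotaE_frickeFun E N f

theorem frickeE_frickeE (f : _root_.Fermat.Agent.A2.Mod.FE E N) : frickeE E N (frickeE E N f) = f :=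
  frickeHom_frickeHom E N f

theorem frickeE_jE (d : ℕ) [NeZero d] (hd : d ∣ N) :
    haveI := neZero_div N hd
    frickeE E N (jE E N d hd) = jE E N (N / d) (Nat.div_dvd_of_dvd hd) := by
  haveI := neZero_div N hd
  apply iotaE_injective E N
  rw [iotaE_frickeE, iotaE_jE, iotaE_jE, wF_jFd]

theorem isFricke_frickeE : IsFricke E N (frickeE E N) := by
  refine ⟨?_, frickeE_frickeE E N⟩
  intro d d' _ _ hd hd' hdd
  have hN : 0 < N := Nat.pos_of_ne_zero (NeZero.ne N)
  have hd0 : 0 < d := Nat.pos_of_dvd_of_pos hd hN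
  have h : N / d = d' := Nat.div_eq_of_eq_mul_right hd0 hdd.symm
  haveI := neZero_div N hd
  rw [frickeE_jE]
  exact jE_congr E N h _ _

end L4

/-- **L4** (`FrickeExists`). -/
theorem frickeExists (E : IntermediateField ℚ _root_.Fermat.Agent.A2.Mod.Qb) : FrickeExistsStatement E := by
  intro N hN
  haveI : NeZero N := ⟨hN⟩
  exact ⟨frickeE E N, isFricke_frickeE E N⟩

end Fermat.Agent.A2.Mod.H751

end
end
-- ===== PACK-END A2/Mod/H751/Fricke.lean

-- ===== PACK-BEGIN A2/Top/H994/ModTop.lean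
section





/-!
# WALL A2 / MOD — final assembly `ModSSGoodStatement` (deputy helper994, MOD architect)

`Mod.modSSData_of_parts` (helper13, `A2/Mod/Asm.lean`) produces `ModSSData P E (M * q)` from the
leaves L1, L4, L8, the sub-assemblies S1–S4, Sτ and the level-`M` hypothesis `GoodRedHyp`.
This file turns it into the statement consumed by the wall (`Top.H994.wall`,
`H562.wall_of_alg_if_mod`):

* `GoodRedStatement` : the EXACT target of the GOODRED owners (good reduction of `X₀(M)` at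
  `q ∤ M` over every good level `E`, in the two charts `j`, `1/j`; for `q = 3` only when `2 ∣ M`,
  for `q = 2` only when `3 ∣ M`);
* `modSSGood_of_parts` : L8 + S1–S4 + Sτ + GOODRED ⟹ `ModSSGoodStatement`
  (L1 = `H553.vinfExists`, L4 = `H751.frickeExists` are plugged in from main).
-/

set_option autoImplicit false
set_option linter.unusedSectionVars false
set_option synthInstance.maxHeartbeats 400000
set_option maxHeartbeats 1600000

noncomputable section

namespace Fermat.Agent.A2.Top.H994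

open ModularCurve Fermat.Agent.A2

/-- **GOODRED (target statement).**  Good reduction of `X₀(M)` at a prime `q ∤ M` over every good
level `E`, in the charts of `j` and `1/j` (`Mod.GoodRedHyp`), at the levels carrying the auxiliary
prime (`2 ∣ M` for `q = 3`, `3 ∣ M` for `q = 2`). -/
def GoodRedStatement : Prop :=
  ∀ (P : ValuationSubring Qb) (E : IntermediateField ℚ Qb) (M q : ℕ) [NeZero M] [NeZero q],
    q.Prime → ¬ q ∣ M → (q = 3 → 2 ∣ M) → (q = 2 → 3 ∣ M) → P.LiesOverPrime q →
    GoodField P E → Mod.GoodRedHyp P E M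

/-- **MOD, final assembly.** -/
theorem modSSGood_of_parts
    (hDeg : ∀ (E : IntermediateField ℚ Qb) (M q : ℕ) [NeZero M] [NeZero q],
      Mod.DegStatement E M q)
    (hS1 : ∀ (P : ValuationSubring Qb) (E : IntermediateField ℚ Qb) (M q : ℕ) [NeZero M]
      [NeZero q] (w : RE P E), Mod.S1Statement P E M q w)
    (hS2 : ∀ (P : ValuationSubring Qb) (E : IntermediateField ℚ Qb) (M q : ℕ) [NeZero M]
      [NeZero q] (w : RE P E), Mod.S2Statement P E M q w)
    (hS3 : ∀ (P : ValuationSubring Qb) (E : IntermediateField ℚ Qb) (M q : ℕ) [NeZero M]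
      [NeZero q] (w : RE P E), Mod.S3Statement P E M q w)
    (hS4 : ∀ (P : ValuationSubring Qb) (E : IntermediateField ℚ Qb) (M q : ℕ) [NeZero M]
      [NeZero q] (w : RE P E), Mod.S4Statement P E M q w)
    (hSτ : ∀ (P : ValuationSubring Qb) (E : IntermediateField ℚ Qb) (M q : ℕ) [NeZero M]
      [NeZero q] (w : RE P E), Mod.StauStatement P E M q w)
    (hGood : GoodRedStatement) :
    ModSSGoodStatement := by
  intro P E N q hq hqN hq2 hN h3 h2 hP hE
  obtain ⟨M, hM⟩ := hqN
  have hNM : N = M * q := by rw [hM, mul_comm]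
  subst hNM
  have hM0 : M ≠ 0 := fun h => hN (by rw [h, zero_mul])
  haveI : NeZero M := ⟨hM0⟩
  haveI : NeZero q := ⟨hq.ne_zero⟩
  have hqM : ¬ q ∣ M := by
    rintro ⟨c, hc⟩
    exact hq2 ⟨c, by rw [hc]; ring⟩
  have h3' : q = 3 → 2 ∣ M := by
    intro h
    have h2N := h3 h
    subst h
    exact (Nat.Coprime.dvd_mul_right (by norm_num : Nat.Coprime 2 3)).1 h2N
  have h2' : q = 2 → 3 ∣ M := by
    intro h
    have h3N := h2 h
    subst h
    exact (Nat.Coprime.dvd_mul_right (by norm_num : Nat.Coprime 3 2)).1 h3N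
  exact Mod.modSSData_of_parts P E M q hq hqM hP hE.dvr
    (Mod.H553.vinfExists P E M hM0 hE.dvr)
    (Mod.H553.vinfExists P E (M * q) hN hE.dvr)
    (Mod.H751.frickeExists E (M * q) hN)
    (hDeg E M q) (hS1 P E M q) (hS2 P E M q) (hS3 P E M q) (hS4 P E M q) (hSτ P E M q)
    (hGood P E M q hq hqM h3' h2' hP hE)

end Fermat.Agent.A2.Top.H994

end

end
-- ===== PACK-END A2/Top/H994/ModTop.lean

-- ===== PACK-BEGIN A2/Mod/H753/IndInf.lean
section






/-!
# A2 / MOD leaf L9 `IndInf` (helper753): residue independence on `C∞`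

Level `N = M q`, `q ∤ M`, `R = R_E` a DVR with uniformiser `w`, `k = R / w` (characteristic `q`).

* `exists_monomials` : `ψ(M)` integral monomials `Y i ∈ ℤ[j_d : d ∣ M]` whose reductions are
  polynomially independent over `k[j̄]` (row S28: `Good.exists_linearIndependent`);
* `red_eq_zero_of_inW` : an `R`-integral series lying in `w V∞` has zero reduction;
* `indInf_strong` : the family `g (a, i) = Y i · j^a ∈ F_M` (`0 ≤ a ≤ q`) consists of integral
  series (so it lies in EVERY Gauss ring of level `M`), and `b = α ∘ g` is `IndepMod` for the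
  coordinate `x = j j_q`  (`x̄ = j̄^(q+1)`, Frobenius congruence + base-`(q+1)` digits);
* `indInf : IndInfStatement P E M q w`;
* `eq_zero_of_sum_expand_mul_X_pow` : `∑_{a<n} p_a(X^n) X^a = 0 ⟹ p_a = 0` (Mathlib-only).
-/

set_option autoImplicit false
set_option synthInstance.maxHeartbeats 400000
set_option maxHeartbeats 1600000

noncomputable section

namespace Fermat.Agent.A2.Mod.H753

open ModularCurve HahnSeries Polynomial
open Fermat.Agent.S28 (intDivisorExpansions jField)
open Fermat.Agent.S28.H325 (castL PolyIndep)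

/-! ## 0. base-`n` digits of polynomials (Mathlib-only) -/


/-- coefficient of `∑_{a<n} p_a(X^n) X^a` at `n m + a₀` is the `m`-th coefficient of `p_{a₀}`. -/
theorem coeff_sum_expand_mul_X_pow {k : Type*} [CommSemiring k] {n : ℕ} (hn : 0 < n)
    (p : Fin n → k[X]) (a₀ : Fin n) (m : ℕ) :
    (∑ a : Fin n, expand k n (p a) * X ^ (a : ℕ)).coeff (n * m + a₀) = (p a₀).coeff m := by
  rw [Polynomial.finsetSum_coeff]
  rw [Finset.sum_eq_single a₀]
  · rw [coeff_mul_X_pow, coeff_expand_mul' hn]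
  · intro a _ hne
    rw [coeff_mul_X_pow']
    split_ifs with hle
    · rw [coeff_expand hn, if_neg]
      intro hdvd
      apply hne
      have h1 : (n : ℤ) ∣ ((a₀ : ℕ) : ℤ) - ((a : ℕ) : ℤ) := by
        have h2 : (n : ℤ) ∣ ((n * m + a₀ - a : ℕ) : ℤ) := by exact_mod_cast hdvd
        rw [Nat.cast_sub hle] at h2
        push_cast at h2
        have h3 : ((n : ℤ) * m + a₀ - a) = (a₀ - a) + n * m := by ring
        rw [h3] at h2
        exact (Int.dvd_add_left (Dvd.intro _ rfl)).mp h2
      have ha : ((a : ℕ) : ℤ) < n := by exact_mod_cast a.2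
      have ha₀ : ((a₀ : ℕ) : ℤ) < n := by exact_mod_cast a₀.2
      have h0a : (0 : ℤ) ≤ ((a : ℕ) : ℤ) := by positivity
      have h0a₀ : (0 : ℤ) ≤ ((a₀ : ℕ) : ℤ) := by positivity
      have h4 : ((a₀ : ℕ) : ℤ) - ((a : ℕ) : ℤ) = 0 := by
        apply Int.eq_zero_of_abs_lt_dvd h1
        rw [abs_lt]
        constructor <;> linarith
      apply Fin.ext
      have : ((a : ℕ) : ℤ) = ((a₀ : ℕ) : ℤ) := by linarith
      exact_mod_cast this
    · rfl
  · intro h
    exact absurd (Finset.mem_univ a₀) h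

/-- **Digits.**  `∑_{a<n} p_a(X^n) X^a = 0 ⟹ p_a = 0`. -/
theorem eq_zero_of_sum_expand_mul_X_pow {k : Type*} [CommSemiring k] {n : ℕ} (hn : 0 < n)
    (p : Fin n → k[X]) (h : ∑ a : Fin n, expand k n (p a) * X ^ (a : ℕ) = 0) (a₀ : Fin n) :
    p a₀ = 0 := by
  ext m
  rw [← coeff_sum_expand_mul_X_pow hn p a₀ m, h, Polynomial.coeff_zero, Polynomial.coeff_zero]

/-! ## 1. the residue field has characteristic `q` -/

section Char

variable (P : ValuationSubring _root_.Fermat.Agent.A2.Mod.Qb) (E : IntermediateField ℚ _root_.Fermat.Agent.A2.Mod.Qb)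

theorem natCast_mem_maximalIdeal {q : ℕ} (hP : P.LiesOverPrime q) :
    (q : _root_.Fermat.Agent.A2.Mod.RE P E) ∈ IsLocalRing.maximalIdeal (_root_.Fermat.Agent.A2.Mod.RE P E) := by
  rw [IsLocalRing.mem_maximalIdeal, mem_nonunits_iff]
  intro hu
  obtain ⟨u, hu⟩ := hu.exists_right_inv
  have h1 : ((q : _root_.Fermat.Agent.A2.Mod.RE P E) : E) * (u : E) = 1 := by
    have := congrArg (fun z : _root_.Fermat.Agent.A2.Mod.RE P E => (z : E)) hu
    simpa using this
  have h2 : (q : _root_.Fermat.Agent.A2.Mod.Qb) * algebraMap E _root_.Fermat.Agent.A2.Mod.Qb (u : E) = 1 := by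
    have := congrArg (algebraMap E _root_.Fermat.Agent.A2.Mod.Qb) h1
    simpa using this
  have hmem : algebraMap E _root_.Fermat.Agent.A2.Mod.Qb (u : E) ∈ P := u.2
  have hq : (q : _root_.Fermat.Agent.A2.Mod.Qb) ∈ P := natCast_mem P q
  have hunit : IsUnit (⟨(q : _root_.Fermat.Agent.A2.Mod.Qb), hq⟩ : P) := by
    refine IsUnit.of_mul_eq_one (⟨algebraMap E _root_.Fermat.Agent.A2.Mod.Qb (u : E), hmem⟩ : P) ?_
    exact Subtype.ext h2
  have h3 : ((⟨(q : _root_.Fermat.Agent.A2.Mod.Qb), hq⟩ : P) : _root_.Fermat.Agent.A2.Mod.Qb) ∈ P.nonunits := hP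
  rw [ValuationSubring.coe_mem_nonunits_iff, IsLocalRing.mem_maximalIdeal, mem_nonunits_iff] at h3
  exact h3 hunit

theorem charP_residueField {q : ℕ} (hq : q.Prime) (hP : P.LiesOverPrime q) :
    CharP (IsLocalRing.ResidueField (_root_.Fermat.Agent.A2.Mod.RE P E)) q := by
  refine (CharP.charP_iff_prime_eq_zero hq).mpr ?_
  have h3 := (IsLocalRing.residue_eq_zero_iff (q : _root_.Fermat.Agent.A2.Mod.RE P E)).mpr (natCast_mem_maximalIdeal P E hP)
  rwa [map_natCast] at h3

end Char

/-! ## 2. the monomials -/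

/-- `ψ(M)` integral monomials with polynomially independent reductions. -/
theorem exists_monomials (M q : ℕ) [NeZero M] (hq : q.Prime) (hqM : ¬ q ∣ M)
    (k : Type*) [Field k] [CharP k q] :
    ∃ Y : Fin (dedekindPsi M) → LaurentSeries ℤ,
      (∀ i, Y i ∈ Submonoid.closure (intDivisorExpansions M)) ∧
      PolyIndep (jqModC k) (fun i => castL k (Y i)) := by
  have hchar : ∀ p : ℕ, p.Prime → p ∣ M → (p : k) ≠ 0 := by
    intro p hp hpM h0
    have hdvd : q ∣ p := (CharP.cast_eq_zero_iff k q p).mp h0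
    have : q = p := (Nat.prime_dvd_prime_iff_eq hq hp).mp hdvd
    exact hqM (this ▸ hpM)
  have hΦ : ∀ p : ℕ, p.Prime → p ∣ M → ∀ [NeZero p], Nonempty (Fermat.Agent.S28.ModPolyData p) :=
    fun p hp _ _ => Fermat.Agent.S28.H807.nonempty_modPolyData p hp
  have hW : ∀ p : ℕ, p.Prime → p ∣ M → ∀ [NeZero p], Nonempty (Fermat.Agent.S28.UnitPolyData p) :=
    fun p hp _ _ => Fermat.Agent.S28.H807.nonempty_unitPolyData p hp
  have hgood : Fermat.Agent.S28.H867.Good k M :=
    Fermat.Agent.S28.H867.good_of_inputs k M (NeZero.ne M) hΦ hW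
      Fermat.Agent.S28.H25.theta_identity hchar
  obtain ⟨Y, hY, hli⟩ := Fermat.Agent.S28.H325.exists_monomials_linearIndependent k M
    (Fermat.Agent.S28.H867.coreData_integral M hΦ) (dedekindPsi M) hgood.exists_linearIndependent
  refine ⟨Y, hY, ?_⟩
  exact Fermat.Agent.S28.H325.polyIndep_of_linearIndependent
    (fun Q hQ => (Fermat.Agent.S28.H325.aeval_jqModC_eq_zero_iff k Q).mp hQ) hli

/-! ## 3. integral series in `w V∞` have zero reduction -/

section Red

variable (P : ValuationSubring _root_.Fermat.Agent.A2.Mod.Qb) (E : IntermediateField ℚ _root_.Fermat.Agent.A2.Mod.Qb) (N : ℕ)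

theorem coe_cE (r : _root_.Fermat.Agent.A2.Mod.RE P E) :
    ((cE P E N r : _root_.Fermat.Agent.A2.Mod.FE E N) : LaurentSeries E) = H708.cst ((r : E)) := rfl

variable {P E N}

theorem red_eq_zero_of_inW {V : ValuationSubring (_root_.Fermat.Agent.A2.Mod.FE E N)} (hV : IsVinf P E N V) {w : _root_.Fermat.Agent.A2.Mod.RE P E}
    (hw0 : w ≠ 0) (hw : w ∈ IsLocalRing.maximalIdeal (_root_.Fermat.Agent.A2.Mod.RE P E)) {f : _root_.Fermat.Agent.A2.Mod.FE E N}
    {S : LaurentSeries (_root_.Fermat.Agent.A2.Mod.RE P E)} (hS : (f : LaurentSeries E) = H708.incl (_root_.Fermat.Agent.A2.Mod.RE P E) S)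
    (h : InW P E N V w f) : H708.red (_root_.Fermat.Agent.A2.Mod.RE P E) S = 0 := by
  obtain ⟨U₁, U₂, hU₂, -, he⟩ := (hV _).mp h
  have hwE : ((w : E)) ≠ 0 := fun h0 => hw0 (Subtype.ext h0)
  have hc : H708.cst (w : E) ≠ 0 := H708.cst_ne_zero hwE
  have hcoe : (((f * (cE P E N w)⁻¹ : _root_.Fermat.Agent.A2.Mod.FE E N)) : LaurentSeries E)
      = (f : LaurentSeries E) * (H708.cst (w : E))⁻¹ := by
    rw [IntermediateField.coe_mul, IntermediateField.coe_inv]
    rfl
  have he' : (f : LaurentSeries E) * H708.incl (_root_.Fermat.Agent.A2.Mod.RE P E) U₂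
      = H708.cst (w : E) * H708.incl (_root_.Fermat.Agent.A2.Mod.RE P E) U₁ := by
    rw [← he, hcoe]
    field_simp
  have h2 : S * U₂ = H708.cstA (_root_.Fermat.Agent.A2.Mod.RE P E) w * U₁ := by
    apply H708.incl_injective (_root_.Fermat.Agent.A2.Mod.RE P E)
    rw [map_mul, map_mul, H708.incl_cstA, ← hS, he']
  have h3 := congrArg (H708.red (_root_.Fermat.Agent.A2.Mod.RE P E)) h2
  rw [map_mul, map_mul, H708.red_cstA, (IsLocalRing.residue_eq_zero_iff w).mpr hw,
    HahnSeries.single_eq_zero, zero_mul] at h3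
  rcases mul_eq_zero.mp h3 with h4 | h4
  · exact h4
  · exact absurd h4 hU₂

end Red

/-! ## 4. the family `Y i · j^a` -/

section Family

variable (M q : ℕ)

/-- the integral series `Y_i · j^a`, indexed by `Fin ((q+1) ψ(M)) ≃ Fin (q+1) × Fin ψ(M)`. -/
def monoZ (Y : Fin (dedekindPsi M) → LaurentSeries ℤ) (i : Fin ((q + 1) * dedekindPsi M)) :
    LaurentSeries ℤ :=
  Y (finProdFinEquiv.symm i).2 * jqModC ℤ ^ ((finProdFinEquiv.symm i).1 : ℕ)

/-- the integral series of the coordinate `x = j · j_q`. -/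
def xZ [NeZero q] : LaurentSeries ℤ := jqModC ℤ * qExpand ℤ q (jqModC ℤ)

theorem castQ_jqModC : H708.castQ (jqModC ℤ) = jq := by
  rw [H708.castQ, coeffMap_jqModC, jqModC_rat]

theorem castQ_mem_full_of_mem_closure [NeZero M] {y : LaurentSeries ℤ}
    (hy : y ∈ Submonoid.closure (intDivisorExpansions M)) :
    H708.castQ y ∈ modularFunctionFieldFull M := by
  have h1 : castL ℚ y ∈ castL ℚ ''
      ((Submonoid.closure (intDivisorExpansions M) : Submonoid (LaurentSeries ℤ)) :
        Set (LaurentSeries ℤ)) := ⟨y, hy, rfl⟩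
  rw [Fermat.Agent.S28.H325.castL_image_closure] at h1
  exact Fermat.Agent.S28.H325.monomials_subset_full ℚ M h1

theorem castQ_monoZ_mem [NeZero M] {Y : Fin (dedekindPsi M) → LaurentSeries ℤ}
    (hY : ∀ i, Y i ∈ Submonoid.closure (intDivisorExpansions M))
    (i : Fin ((q + 1) * dedekindPsi M)) :
    H708.castQ (monoZ M q Y i) ∈ modularFunctionFieldFull M := by
  rw [monoZ, map_mul, map_pow, castQ_jqModC]
  refine mul_mem (castQ_mem_full_of_mem_closure M (hY _)) (pow_mem ?_ _)
  have := jqd_mem_full M (one_dvd M)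
  rwa [qExpand_one_apply] at this

end Family

section Main

variable (P : ValuationSubring _root_.Fermat.Agent.A2.Mod.Qb) (E : IntermediateField ℚ _root_.Fermat.Agent.A2.Mod.Qb) (M q : ℕ) [NeZero M] [NeZero q]

/-- the elements `g i = Y i · j^a` of `F_M`. -/
def gFam {Y : Fin (dedekindPsi M) → LaurentSeries ℤ}
    (hY : ∀ i, Y i ∈ Submonoid.closure (intDivisorExpansions M))
    (i : Fin ((q + 1) * dedekindPsi M)) : _root_.Fermat.Agent.A2.Mod.FE E M :=
  ⟨coeffEmb E (H708.castQ (monoZ M q Y i)),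
    coeffEmb_mem_laurentBaseChange E (castQ_monoZ_mem M q hY i)⟩

omit [NeZero q] in
theorem coe_gFam {Y : Fin (dedekindPsi M) → LaurentSeries ℤ}
    (hY : ∀ i, Y i ∈ Submonoid.closure (intDivisorExpansions M))
    (i : Fin ((q + 1) * dedekindPsi M)) :
    ((gFam E M q hY i : _root_.Fermat.Agent.A2.Mod.FE E M) : LaurentSeries E)
      = H708.incl (_root_.Fermat.Agent.A2.Mod.RE P E) (H708.castA (_root_.Fermat.Agent.A2.Mod.RE P E) (monoZ M q Y i)) := by
  rw [H708.incl_castA]
  rfl

omit [NeZero q] in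
theorem gFam_mem {Y : Fin (dedekindPsi M) → LaurentSeries ℤ}
    (hY : ∀ i, Y i ∈ Submonoid.closure (intDivisorExpansions M))
    {VM : ValuationSubring (_root_.Fermat.Agent.A2.Mod.FE E M)} (hVM : IsVinf P E M VM)
    (i : Fin ((q + 1) * dedekindPsi M)) : gFam E M q hY i ∈ VM := by
  rw [hVM, coe_gFam P]
  exact H708.IsGaussInt.of_incl _

theorem alpha_gFam_mem {Y : Fin (dedekindPsi M) → LaurentSeries ℤ}
    (hY : ∀ i, Y i ∈ Submonoid.closure (intDivisorExpansions M))
    {V : ValuationSubring (_root_.Fermat.Agent.A2.Mod.FE E (M * q))} (hV : IsVinf P E (M * q) V)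
    (i : Fin ((q + 1) * dedekindPsi M)) : αE E M q (gFam E M q hY i) ∈ V := by
  rw [hV, coe_heckeAlphaBar, coe_gFam P]
  exact H708.IsGaussInt.of_incl _

omit [NeZero M] in
theorem coe_xE :
    ((xE E M q : _root_.Fermat.Agent.A2.Mod.FE E (M * q)) : LaurentSeries E)
      = H708.incl (_root_.Fermat.Agent.A2.Mod.RE P E) (H708.castA (_root_.Fermat.Agent.A2.Mod.RE P E) (xZ q)) := by
  rw [H708.incl_castA, xZ, map_mul, H708.castQ, coeffMap_qExpand, ← H708.castQ, castQ_jqModC,
    map_mul, xE, IntermediateField.coe_mul]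
  show coeffEmb E (qExpand ℚ 1 jq) * coeffEmb E (qExpand ℚ q jq) = _
  rw [qExpand_one_apply]

/-- the coercion of `ev x p` is the inclusion of the integral series `p(X)`. -/
theorem coe_ev {N : ℕ} (x : _root_.Fermat.Agent.A2.Mod.FE E N) (X : LaurentSeries (_root_.Fermat.Agent.A2.Mod.RE P E))
    (hx : (x : LaurentSeries E) = H708.incl (_root_.Fermat.Agent.A2.Mod.RE P E) X) (p : Polynomial (_root_.Fermat.Agent.A2.Mod.RE P E)) :
    ((ev P E N x p : _root_.Fermat.Agent.A2.Mod.FE E N) : LaurentSeries E) = H708.incl (_root_.Fermat.Agent.A2.Mod.RE P E) (aeval X p) := by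
  rw [H708.incl, Fermat.Agent.S28.H325.coeffMap_aeval, ← H708.incl, ← hx, aeval_def,
    Polynomial.eval₂_map, ev]
  exact Polynomial.hom_eval₂ p ((algebraMap E (_root_.Fermat.Agent.A2.Mod.FE E N)).comp (_root_.Fermat.Agent.A2.Mod.RE P E).subtype)
    (algebraMap (_root_.Fermat.Agent.A2.Mod.FE E N) (LaurentSeries E)) x

/-! ## 5. reductions -/

theorem red_castA (Z : LaurentSeries ℤ) :
    H708.red (_root_.Fermat.Agent.A2.Mod.RE P E) (H708.castA (_root_.Fermat.Agent.A2.Mod.RE P E) Z)
      = castL (IsLocalRing.ResidueField (_root_.Fermat.Agent.A2.Mod.RE P E)) Z := by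
  rw [H708.red, H708.castA, coeffMap_coeffMap]
  exact coeffMap_congr (RingHom.ext_int _ _) Z

/-- Frobenius: `j̄_q = j̄^q` in characteristic `q`. -/
theorem castL_qExpand_jqModC (hq : q.Prime) (k : Type*) [Field k] [CharP k q] :
    castL k (qExpand ℤ q (jqModC ℤ)) = jqModC k ^ q := by
  have : Fact q.Prime := ⟨hq⟩
  obtain ⟨g, hg⟩ := H528.exists_frobCong q (jqModC ℤ)
  have h1 : qExpand ℤ q (jqModC ℤ) = jqModC ℤ ^ q + HahnSeries.C (q : ℤ) * g := by
    rw [← hg]; ring
  have h2 : castL k (HahnSeries.C (q : ℤ)) = 0 := by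
    ext n
    rw [castL, coeffMap_coeff, HahnSeries.coeff_zero, HahnSeries.C_apply,
      HahnSeries.coeff_single]
    split_ifs
    · rw [eq_intCast, Int.cast_natCast, CharP.cast_eq_zero k q]
    · rw [map_zero]
  rw [h1, map_add, map_mul, h2, zero_mul, add_zero, map_pow,
    Fermat.Agent.S28.H325.castL_jqModC]

theorem castL_xZ (hq : q.Prime) (k : Type*) [Field k] [CharP k q] :
    castL k (xZ q) = jqModC k ^ (q + 1) := by
  rw [xZ, map_mul, castL_qExpand_jqModC q hq k, Fermat.Agent.S28.H325.castL_jqModC, pow_succ']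

omit [NeZero M] [NeZero q] in
theorem castL_monoZ (k : Type*) [Field k] (Y : Fin (dedekindPsi M) → LaurentSeries ℤ)
    (i : Fin ((q + 1) * dedekindPsi M)) :
    castL k (monoZ M q Y i)
      = castL k (Y (finProdFinEquiv.symm i).2) * jqModC k ^ ((finProdFinEquiv.symm i).1 : ℕ) := by
  rw [monoZ, map_mul, map_pow, Fermat.Agent.S28.H325.castL_jqModC]

/-- polynomial independence of the family `v i · J^a` over `k[J^(q+1)]`. -/
theorem polyIndep_tower {k : Type*} [Field k] {n : ℕ} (m : ℕ) (hm : 0 < m)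
    (J : LaurentSeries k) (v : Fin n → LaurentSeries k) (hv : PolyIndep J v)
    (p : Fin (m * n) → Polynomial k)
    (h : ∑ i, aeval (J ^ m) (p i) *
      (v (finProdFinEquiv.symm i).2 * J ^ ((finProdFinEquiv.symm i).1 : ℕ)) = 0)
    (i : Fin (m * n)) : p i = 0 := by
  have h1 : ∑ i' : Fin n, aeval J (∑ a : Fin m,
      expand k m (p (finProdFinEquiv (a, i'))) * X ^ (a : ℕ)) * v i' = 0 := by
    rw [← h]
    rw [Fintype.sum_equiv finProdFinEquiv.symm
      (fun i => aeval (J ^ m) (p i) *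
        (v (finProdFinEquiv.symm i).2 * J ^ ((finProdFinEquiv.symm i).1 : ℕ)))
      (fun z : Fin m × Fin n => aeval (J ^ m) (p (finProdFinEquiv z)) * (v z.2 * J ^ (z.1 : ℕ)))
      (fun i => by simp only [Equiv.apply_symm_apply])]
    rw [Fintype.sum_prod_type, Finset.sum_comm]
    refine Finset.sum_congr rfl fun i' _ => ?_
    rw [map_sum, Finset.sum_mul]
    refine Finset.sum_congr rfl fun a _ => ?_
    rw [map_mul, expand_aeval, map_pow, aeval_X]
    ring
  have h2 := hv _ h1 (finProdFinEquiv.symm i).2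
  have h3 : p (finProdFinEquiv ((finProdFinEquiv.symm i).1, (finProdFinEquiv.symm i).2)) = 0 :=
    eq_zero_of_sum_expand_mul_X_pow hm
      (fun a => p (finProdFinEquiv (a, (finProdFinEquiv.symm i).2))) h2 (finProdFinEquiv.symm i).1
  rwa [Prod.mk.eta, Equiv.apply_symm_apply] at h3

/-- `p̄ = 0 ⟹ w ∣ p`. -/
theorem C_dvd_of_map_residue_eq_zero {w : _root_.Fermat.Agent.A2.Mod.RE P E} (hdvr : IsDiscreteValuationRing (_root_.Fermat.Agent.A2.Mod.RE P E))
    (hw : Irreducible w) {p : Polynomial (_root_.Fermat.Agent.A2.Mod.RE P E)}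
    (hp : p.map (IsLocalRing.residue (_root_.Fermat.Agent.A2.Mod.RE P E)) = 0) : Polynomial.C w ∣ p := by
  rw [Polynomial.C_dvd_iff_dvd_coeff]
  intro n
  have h1 : IsLocalRing.residue (_root_.Fermat.Agent.A2.Mod.RE P E) (p.coeff n) = 0 := by
    have := congrArg (fun z => z.coeff n) hp
    simpa using this
  rw [IsLocalRing.residue_eq_zero_iff, hw.maximalIdeal_eq, Ideal.mem_span_singleton] at h1
  exact h1

/-! ## 6. the leaf -/

/-- **L9, strong form.**  There is a family `g` of `(q+1) ψ(M)` elements of `F_M`, integral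
series (hence in every Gauss ring of level `M`), such that `α ∘ g` lies in `V∞` (level `M q`) and
is independent modulo `w` over `R[x]`, `x = j j_q`. -/
theorem indInf_strong (w : _root_.Fermat.Agent.A2.Mod.RE P E) (hS : Setting P E M q w) :
    ∃ g : Fin ((q + 1) * dedekindPsi M) → _root_.Fermat.Agent.A2.Mod.FE E M,
      (∀ VM : ValuationSubring (_root_.Fermat.Agent.A2.Mod.FE E M), IsVinf P E M VM → ∀ i, g i ∈ VM) ∧
      ∀ V : ValuationSubring (_root_.Fermat.Agent.A2.Mod.FE E (M * q)), IsVinf P E (M * q) V →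
        (∀ i, αE E M q (g i) ∈ V) ∧
        IndepMod P E (M * q) V w (xE E M q) (fun i => αE E M q (g i)) := by
  have hdvr := hS.dvr
  have : CharP (IsLocalRing.ResidueField (_root_.Fermat.Agent.A2.Mod.RE P E)) q :=
    charP_residueField P E hS.q_prime hS.lies_over
  obtain ⟨Y, hY, hYi⟩ := exists_monomials M q hS.q_prime hS.q_not_dvd
    (IsLocalRing.ResidueField (_root_.Fermat.Agent.A2.Mod.RE P E))
  refine ⟨gFam E M q hY, fun VM hVM i => gFam_mem P E M q hY hVM i, fun V hV => ⟨fun i =>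
    alpha_gFam_mem P E M q hY hV i, ?_⟩⟩
  intro a ha i
  -- the integral series of the relation
  set S : LaurentSeries (_root_.Fermat.Agent.A2.Mod.RE P E) :=
    ∑ i, aeval (H708.castA (_root_.Fermat.Agent.A2.Mod.RE P E) (xZ q)) (a i) * H708.castA (_root_.Fermat.Agent.A2.Mod.RE P E) (monoZ M q Y i) with hSdef
  have hcoe : ((∑ i, ev P E (M * q) (xE E M q) (a i) * αE E M q (gFam E M q hY i) :
      _root_.Fermat.Agent.A2.Mod.FE E (M * q)) : LaurentSeries E) = H708.incl (_root_.Fermat.Agent.A2.Mod.RE P E) S := by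
    rw [hSdef, map_sum, IntermediateField.coe_sum]
    refine Finset.sum_congr rfl fun i _ => ?_
    rw [IntermediateField.coe_mul, coe_ev P E (xE E M q) _ (coe_xE P E M q) (a i),
      coe_heckeAlphaBar, coe_gFam P, map_mul]
  have hw0 : w ≠ 0 := hS.unif.ne_zero
  have hwm : w ∈ IsLocalRing.maximalIdeal (_root_.Fermat.Agent.A2.Mod.RE P E) := by
    rw [IsLocalRing.mem_maximalIdeal, mem_nonunits_iff]
    exact hS.unif.not_isUnit
  have hred := red_eq_zero_of_inW hV hw0 hwm hcoe ha
  rw [hSdef, map_sum] at hred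
  have hred' : ∑ i, aeval (jqModC (IsLocalRing.ResidueField (_root_.Fermat.Agent.A2.Mod.RE P E)) ^ (q + 1))
      ((a i).map (IsLocalRing.residue (_root_.Fermat.Agent.A2.Mod.RE P E))) *
      (castL (IsLocalRing.ResidueField (_root_.Fermat.Agent.A2.Mod.RE P E)) (Y (finProdFinEquiv.symm i).2) *
        jqModC (IsLocalRing.ResidueField (_root_.Fermat.Agent.A2.Mod.RE P E)) ^ ((finProdFinEquiv.symm i).1 : ℕ)) = 0 := by
    rw [← hred]
    refine Finset.sum_congr rfl fun i _ => ?_
    rw [map_mul, H708.red, Fermat.Agent.S28.H325.coeffMap_aeval, ← H708.red, red_castA, red_castA,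
      castL_xZ q hS.q_prime, castL_monoZ]
  have hzero := polyIndep_tower (q + 1) (Nat.succ_pos q) _ _ hYi
    (fun i => (a i).map (IsLocalRing.residue (_root_.Fermat.Agent.A2.Mod.RE P E))) hred' i
  exact C_dvd_of_map_residue_eq_zero P E hdvr hS.unif hzero

end Main

/-- **L9** `IndInf` (exact shape of `Spec.IndInfStatement`). -/
theorem indInf (P : ValuationSubring _root_.Fermat.Agent.A2.Mod.Qb) (E : IntermediateField ℚ _root_.Fermat.Agent.A2.Mod.Qb) (M q : ℕ) [NeZero q]
    (w : _root_.Fermat.Agent.A2.Mod.RE P E) : IndInfStatement P E M q w := by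
  intro hS V hV
  have : NeZero M := ⟨hS.M_ne_zero⟩
  obtain ⟨g, -, hg⟩ := indInf_strong P E M q w hS
  exact ⟨fun i => αE E M q (g i), (hg V hV).1, (hg V hV).2⟩

end Fermat.Agent.A2.Mod.H753

end

end
-- ===== PACK-END A2/Mod/H753/IndInf.lean

-- ===== PACK-BEGIN A2/Mod/H900/L7.lean
section



/-!
# A2 / MOD leaf L7 (helper900): `FrickeStableStatement`, verbatim

At a level `M` prime to `q` the Fricke involution `W` of `F_{M,E}` preserves the Gauss valuation
ring `V∞` (no discreteness of `R_E` is used; only `P ∣ q`, `q ∤ M`, `V∞` = Gauss-integral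
elements, `W j_d = j_{M/d}`).

Proof (`L7Core.lean`): by `S28.CoreData M k` every `f ∈ F_{M,E}` is
`c · (∑ᵢ Hᵢ(j) yᵢ) / G(j)` with `G, Hᵢ ∈ R[X]` primitive and `yᵢ ∈ ℤ[j_d]`, and `f ∈ V∞ ↔ c ∈ R`
(independence of the residues `ȳᵢ` over `k(j̄)`); then
`W f = c · (∑ᵢ Hᵢ(j_M) W yᵢ) / G(j_M)` with `G(j_M)` an integral series of nonzero reduction.
-/

set_option autoImplicit false
set_option synthInstance.maxHeartbeats 400000
set_option maxHeartbeats 1600000

noncomputable section

namespace Fermat.Agent.A2.Mod.H900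

open ModularCurve HahnSeries Polynomial IntermediateField Fermat.Agent.S28

/-- `R_E = P ∩ E` lies over `q` when `P` does. -/
theorem liesOverPrime_RE {P : ValuationSubring _root_.Fermat.Agent.A2.Mod.Qb} (E : IntermediateField ℚ _root_.Fermat.Agent.A2.Mod.Qb) {q : ℕ}
    (hP : P.LiesOverPrime q) : (_root_.Fermat.Agent.A2.Mod.RE P E).LiesOverPrime q := by
  have h1 : (q : _root_.Fermat.Agent.A2.Mod.Qb) ∈ P.nonunits := hP
  show (q : E) ∈ (_root_.Fermat.Agent.A2.Mod.RE P E).nonunits
  rw [ValuationSubring.mem_nonunits_iff_or] at h1 ⊢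
  rcases h1 with h1 | h1
  · left
    have : algebraMap E _root_.Fermat.Agent.A2.Mod.Qb (q : E) = 0 := by rw [map_natCast]; exact h1
    exact (map_eq_zero _).mp this
  · right
    intro h2
    apply h1
    have h3 : algebraMap E _root_.Fermat.Agent.A2.Mod.Qb ((q : E)⁻¹) ∈ P := h2
    rwa [map_inv₀, map_natCast] at h3

/-- S28 core data for the residue field of `R_E`, `q ∤ M`. -/
theorem coreData_RE {P : ValuationSubring _root_.Fermat.Agent.A2.Mod.Qb} (E : IntermediateField ℚ _root_.Fermat.Agent.A2.Mod.Qb) (M : ℕ) [NeZero M]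
    {q : ℕ} (hq : q.Prime) (hqM : ¬ q ∣ M) (hP : P.LiesOverPrime q) :
    CoreData M (IsLocalRing.ResidueField (_root_.Fermat.Agent.A2.Mod.RE P E)) := by
  haveI : Fact q.Prime := ⟨hq⟩
  haveI := S18.H516.charP_residue (_root_.Fermat.Agent.A2.Mod.RE P E) (liesOverPrime_RE E hP)
  exact S18.H516.coreData_of_charP M q hqM _

/-- **Leaf L7 (FrickeStable), verbatim.** -/
theorem frickeStable (P : ValuationSubring _root_.Fermat.Agent.A2.Mod.Qb) (E : IntermediateField ℚ _root_.Fermat.Agent.A2.Mod.Qb) (M q : ℕ)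
    [NeZero M] [NeZero q] (w : _root_.Fermat.Agent.A2.Mod.RE P E) : FrickeStableStatement P E M q w := by
  intro hS V W hV hW f hf
  have core := coreData_RE E M hS.q_prime hS.q_not_dvd hS.lies_over
  have hW' : FrickeOnGens M W := fun d d' _ _ hd hd' h => hW.1 d d' hd hd' h
  exact (hV (W f)).mpr (frickeStable_core (_root_.Fermat.Agent.A2.Mod.RE P E) core hW' f ((hV f).mp hf))

end Fermat.Agent.A2.Mod.H900

end
end
-- ===== PACK-END A2/Mod/H900/L7.lean

-- ===== PACK-BEGIN A2/H528/FrickeGalois.lean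
section


/-!
# A2 / W — the Fricke involution commutes with the arithmetic Galois action

* `wF_galois` : `w_N (σ • f) = σ • w_N f` for `σ ∈ Gal(ℚ̄/ℚ)` acting on the coefficients;
* `wSemi N : SemilinearAut ℚ̄ (FF N)` : `w_N` as a semilinear automorphism (so that it acts on
  places, divisors and on `JZero N = Pic0`), commuting with `arithmeticGalois`;
* `wF_rat` : `w_N` preserves the `ℚ`-rational functions `coeffEmb (modularFunctionFieldFull N)`;
* `comapW` : pull back of a valuation subring by `w_N` (`V₀ := comapW V∞`), with transfer of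
  "`σ`-stable" and "`σ` acts trivially on the residue field".
-/

set_option autoImplicit false
set_option synthInstance.maxHeartbeats 400000
set_option maxHeartbeats 1000000

noncomputable section

open ModularCurve HahnSeries AlgebraicCurve

namespace Fermat.Agent.A2.H528

open Fermat.Agent.S24 Fermat.Agent.S24.H997

variable (N : ℕ) [NeZero N]

/-- the Galois action on `FF N` through the coefficients -/
abbrev gal (σ : Kbar ≃ₐ[ℚ] Kbar) : FF N ≃+* FF N :=
  arithmeticRingAut (modularFunctionFieldFull N) σ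

omit [NeZero N] in
theorem gal_inclRN_jR (σ : Kbar ≃ₐ[ℚ] Kbar) (d : ℕ) [NeZero d] (hd : d ∣ N) :
    gal N σ (inclRN N (jR N d hd)) = inclRN N (jR N d hd) := by
  apply Subtype.ext
  show coeffMap (σ : Kbar →+* Kbar) (coeffEmb Kbar (qExpand ℚ d jq)) = _
  rw [coeffMap_coeffEmb]
  rfl

omit [NeZero N] in
theorem gal_algebraMap (σ : Kbar ≃ₐ[ℚ] Kbar) (c : Kbar) :
    gal N σ (algebraMap Kbar (FF N) c) = algebraMap Kbar (FF N) (σ c) :=
  arithmeticRingAut_algebraMap (modularFunctionFieldFull N) σ c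

theorem wFHom_gal_inclRN (σ : Kbar ≃ₐ[ℚ] Kbar) (r : RN N) :
    wFHom N (gal N σ (inclRN N r)) = gal N σ (wFHom N (inclRN N r)) := by
  obtain ⟨r, hr⟩ := r
  induction hr using Algebra.adjoin_induction with
  | mem x hx =>
      obtain ⟨y, ⟨d, hne, hd, rfl⟩, rfl⟩ := hx
      have := hne
      have := neZero_div N hd
      have h1 : (⟨coeffEmb Kbar (qExpand ℚ d jq), Algebra.subset_adjoin
          ⟨_, ⟨d, hne, hd, rfl⟩, rfl⟩⟩ : RN N) = jR N d hd := rfl
      rw [h1, gal_inclRN_jR, wFHom_inclRN, wR_jR, gal_inclRN_jR]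
  | algebraMap c =>
      have h1 : (⟨algebraMap Kbar (LaurentSeries Kbar) c, Subalgebra.algebraMap_mem _ c⟩ : RN N)
          = algebraMap Kbar (RN N) c := rfl
      have h2 : inclRN N (algebraMap Kbar (RN N) c) = algebraMap Kbar (FF N) c :=
        (inclRN N).commutes c
      rw [h1, h2, gal_algebraMap, wFHom_algebraMap, wFHom_algebraMap, gal_algebraMap]
  | add x y hx hy ihx ihy =>
      have h1 : (⟨x + y, add_mem hx hy⟩ : RN N) = ⟨x, hx⟩ + ⟨y, hy⟩ := rfl
      rw [h1, map_add, map_add, map_add, map_add, map_add, ihx, ihy]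
  | mul x y hx hy ihx ihy =>
      have h1 : (⟨x * y, mul_mem hx hy⟩ : RN N) = ⟨x, hx⟩ * ⟨y, hy⟩ := rfl
      rw [h1, map_mul, map_mul, map_mul, map_mul, map_mul, ihx, ihy]

/-- **`w_N` commutes with the Galois action on the coefficients.** -/
theorem wF_gal (σ : Kbar ≃ₐ[ℚ] Kbar) (f : FF N) :
    wF N (gal N σ f) = gal N σ (wF N f) := by
  obtain ⟨r, t, -, rfl⟩ := exists_div_inclRN N f
  show wFHom N (gal N σ (inclRN N r / inclRN N t)) = gal N σ (wFHom N (inclRN N r / inclRN N t))
  rw [map_div₀, map_div₀, map_div₀, map_div₀, wFHom_gal_inclRN, wFHom_gal_inclRN]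

/-- `w_N` as a semilinear automorphism of `FF N / ℚ̄` (trivial on the constants). -/
def wSemi : SemilinearAut Kbar (FF N) := SemilinearAut.ofAlgAut (wF N)

@[simp] theorem wSemi_smul (f : FF N) : wSemi N • f = wF N f := rfl

theorem wSemi_mul_self : wSemi N * wSemi N = 1 := by
  rw [wSemi, ← map_mul]
  have h : wF N * wF N = 1 := AlgEquiv.ext fun f => wF_wF N f
  rw [h, map_one]

theorem wSemi_inv : (wSemi N)⁻¹ = wSemi N :=
  inv_eq_of_mul_eq_one_left (wSemi_mul_self N)

/-- **`w_N` commutes with `arithmeticGalois` inside `SemilinearAut`**; hence the actions on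
places, divisors and on `JZero N` commute. -/
theorem wSemi_comm (σ : Kbar ≃ₐ[ℚ] Kbar) :
    wSemi N * arithmeticGalois (modularFunctionFieldFull N) σ
      = arithmeticGalois (modularFunctionFieldFull N) σ * wSemi N := by
  refine Subtype.ext (Prod.ext (RingEquiv.ext fun f => ?_) ?_)
  · exact wF_gal N σ f
  · show (1 : RingAut Kbar) * σ.toRingEquiv = σ.toRingEquiv * 1
    rw [one_mul, mul_one]

/-- The actions of `w_N` and of the Galois group on `JZero N` commute. -/
theorem wSemi_smul_galois_smul (σ : Kbar ≃ₐ[ℚ] Kbar) (x : JZero N) :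
    wSemi N • (σ • x) = σ • (wSemi N • x) := by
  rw [galois_smul_pic0_def, galois_smul_pic0_def, ← mul_smul, ← mul_smul, wSemi_comm]

/-- `w_N` preserves the `ℚ`-rational functions. -/
theorem wF_rat {x : LaurentSeries ℚ} (hx : x ∈ modularFunctionFieldFull N) :
    ∃ y ∈ modularFunctionFieldFull N,
      ((wF N ⟨coeffEmb Kbar x, coeffEmb_mem_laurentBaseChange Kbar hx⟩ : FF N) :
        LaurentSeries Kbar) = coeffEmb Kbar y := by
  have key : ∀ x ∈ modularFunctionFieldFull N, ∀ hx' : coeffEmb Kbar x ∈ modularFunctionFieldBar N,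
      ∃ y ∈ modularFunctionFieldFull N,
        ((wF N ⟨coeffEmb Kbar x, hx'⟩ : FF N) : LaurentSeries Kbar) = coeffEmb Kbar y := by
    intro x hx
    have hx0 : x ∈ IntermediateField.adjoin ℚ (divisorExpansions N) := hx
    induction hx0 using IntermediateField.adjoin_induction with
    | mem y hy =>
        intro hx'
        obtain ⟨d, hne, hd, rfl⟩ := hy
        have := hne
        have := neZero_div N hd
        refine ⟨qExpand ℚ (N / d) jq, jqd_mem_full N (Nat.div_dvd_of_dvd hd), ?_⟩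
        have h1 : (⟨coeffEmb Kbar (qExpand ℚ d jq), hx'⟩ : FF N) = jFd N d hd := rfl
        rw [h1, wF_jFd]
        rfl
    | algebraMap c =>
        intro hx'
        refine ⟨algebraMap ℚ (LaurentSeries ℚ) c, IntermediateField.algebraMap_mem _ c, ?_⟩
        have h0 : coeffEmb Kbar (algebraMap ℚ (LaurentSeries ℚ) c)
            = algebraMap Kbar (LaurentSeries Kbar) (algebraMap ℚ Kbar c) := by
          rw [algebraMap_apply_eq_single, algebraMap_laurentSeries_eq_single, coeffEmb,
            coeffMap_single]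
        have h1 : (⟨coeffEmb Kbar (algebraMap ℚ (LaurentSeries ℚ) c), hx'⟩ : FF N)
            = algebraMap Kbar (FF N) (algebraMap ℚ Kbar c) := Subtype.ext h0
        rw [h1]
        show ((wFHom N (algebraMap Kbar (FF N) (algebraMap ℚ Kbar c)) : FF N) :
          LaurentSeries Kbar) = _
        rw [wFHom_algebraMap, h0]
        rfl
    | add y z hy hz ihy ihz =>
        intro hx'
        have hy' := coeffEmb_mem_laurentBaseChange Kbar (F₀ := modularFunctionFieldFull N) hy
        have hz' := coeffEmb_mem_laurentBaseChange Kbar (F₀ := modularFunctionFieldFull N) hz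
        obtain ⟨a, ha, ha'⟩ := ihy hy hy'
        obtain ⟨b, hb, hb'⟩ := ihz hz hz'
        refine ⟨a + b, add_mem ha hb, ?_⟩
        have h1 : (⟨coeffEmb Kbar (y + z), hx'⟩ : FF N)
            = ⟨coeffEmb Kbar y, hy'⟩ + ⟨coeffEmb Kbar z, hz'⟩ := Subtype.ext (map_add _ _ _)
        rw [h1, map_add, map_add]
        show ((wF N ⟨coeffEmb Kbar y, hy'⟩ : FF N) : LaurentSeries Kbar)
          + ((wF N ⟨coeffEmb Kbar z, hz'⟩ : FF N) : LaurentSeries Kbar) = _
        rw [ha', hb']
    | inv y hy ihy =>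
        intro hx'
        have hy' := coeffEmb_mem_laurentBaseChange Kbar (F₀ := modularFunctionFieldFull N) hy
        obtain ⟨a, ha, ha'⟩ := ihy hy hy'
        refine ⟨a⁻¹, inv_mem ha, ?_⟩
        have h1 : (⟨coeffEmb Kbar (y⁻¹), hx'⟩ : FF N)
            = (⟨coeffEmb Kbar y, hy'⟩ : FF N)⁻¹ := Subtype.ext (map_inv₀ _ _)
        rw [h1, map_inv₀, map_inv₀]
        show ((wF N ⟨coeffEmb Kbar y, hy'⟩ : FF N) : LaurentSeries Kbar)⁻¹ = _
        rw [ha']
    | mul y z hy hz ihy ihz =>
        intro hx'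
        have hy' := coeffEmb_mem_laurentBaseChange Kbar (F₀ := modularFunctionFieldFull N) hy
        have hz' := coeffEmb_mem_laurentBaseChange Kbar (F₀ := modularFunctionFieldFull N) hz
        obtain ⟨a, ha, ha'⟩ := ihy hy hy'
        obtain ⟨b, hb, hb'⟩ := ihz hz hz'
        refine ⟨a * b, mul_mem ha hb, ?_⟩
        have h1 : (⟨coeffEmb Kbar (y * z), hx'⟩ : FF N)
            = ⟨coeffEmb Kbar y, hy'⟩ * ⟨coeffEmb Kbar z, hz'⟩ := Subtype.ext (map_mul _ _ _)
        rw [h1, map_mul, map_mul]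
        show ((wF N ⟨coeffEmb Kbar y, hy'⟩ : FF N) : LaurentSeries Kbar)
          * ((wF N ⟨coeffEmb Kbar z, hz'⟩ : FF N) : LaurentSeries Kbar) = _
        rw [ha', hb']
  exact key x hx _

/-! ### Pull back of valuation subrings by `w_N` -/

/-- The pull back `V ∘ w_N` of a valuation subring of `FF N`. (`V₀ := comapW N V∞`.) -/
def comapW (V : ValuationSubring (FF N)) : ValuationSubring (FF N) :=
  V.comap (wF N : FF N ≃+* FF N).toRingHom

theorem mem_comapW {V : ValuationSubring (FF N)} {f : FF N} :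
    f ∈ comapW N V ↔ wF N f ∈ V := Iff.rfl

theorem comapW_comapW (V : ValuationSubring (FF N)) : comapW N (comapW N V) = V := by
  ext f
  rw [mem_comapW, mem_comapW, wF_wF]

/-- the constants of `V ∘ w_N` are the constants of `V` -/
theorem algebraMap_mem_comapW {V : ValuationSubring (FF N)} {c : Kbar} :
    algebraMap Kbar (FF N) c ∈ comapW N V ↔ algebraMap Kbar (FF N) c ∈ V := by
  rw [mem_comapW]
  show wFHom N (algebraMap Kbar (FF N) c) ∈ V ↔ _
  rw [wFHom_algebraMap]

/-- if `σ` stabilises `V`, it stabilises `V ∘ w_N` -/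
theorem gal_mem_comapW {V : ValuationSubring (FF N)} (σ : Kbar ≃ₐ[ℚ] Kbar)
    (h : ∀ f : FF N, f ∈ V → gal N σ f ∈ V) (f : FF N) (hf : f ∈ comapW N V) :
    gal N σ f ∈ comapW N V := by
  rw [mem_comapW] at hf ⊢
  rw [wF_gal]
  exact h _ hf

/-- if `σ` acts trivially on the residue field of `V`, it does so on that of `V ∘ w_N`:
`σ f - f` is a non-unit of `V ∘ w_N` for every `f ∈ V ∘ w_N`. -/
theorem gal_sub_mem_comapW {V : ValuationSubring (FF N)} (σ : Kbar ≃ₐ[ℚ] Kbar)
    (h : ∀ f : FF N, f ∈ V → V.valuation (gal N σ f - f) < 1) (f : FF N)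
    (hf : f ∈ comapW N V) :
    V.valuation (wF N (gal N σ f - f)) < 1 := by
  rw [mem_comapW] at hf
  rw [map_sub, wF_gal]
  exact h _ hf

end Fermat.Agent.A2.H528

end
end
-- ===== PACK-END A2/H528/FrickeGalois.lean

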