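import Fermat.Prelude.Def_FLTPrelim_Ramification
import Mathlib
import Fermat.Prelude.Def_AlgebraicCurve_Correspondence
import Fermat.Agent.Pack.S34.G0E9L0
import Fermat.Agent.Pack.S34.G0E10L1
import Fermat.Agent.Pack.S34.G0E7L2
import Fermat.Agent.Pack.S34.G0E10L0
import Fermat.Agent.Pack.S34.G0E8L3
import Fermat.Agent.Pack.S34.G0E3L1
import Fermat.Agent.Pack.S34.G0E1L2
import Fermat.Agent.Pack.S34.G0E1L3
import Fermat.Agent.Pack.S34.G0E9L2
import Fermat.Agent.Pack.S34.G0E10L3
import Fermat.Agent.Pack.S34.G0E9L1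
import Fermat.Agent.Pack.S34.G0E10L2
import Fermat.Agent.Pack.S34.G0E2L2
import Fermat.Agent.Pack.S34.G0E8L1
import Fermat.Agent.Pack.S34.G0E5L3
import Fermat.Agent.Pack.S34.G0E4L1
import Fermat.Agent.Pack.S34.G0E8L0
import Fermat.Agent.Pack.S34.G0E6L1
import Fermat.Agent.Pack.S34.G0E7L3
import Fermat.Agent.Pack.S34.G0E4L3

-- ===== PACK-BEGIN Lib/RR/H864/FF1Modular.lean
section



/-!
# RR library, bridge: `FF1` for the function field of `X₀(N)` over `ℚ̄`
-/

set_option autoImplicit false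

noncomputable section

open AlgebraicCurve ModularCurve IntermediateField

namespace Fermat.Agent.Lib.RR.H864

open Fermat.Agent.S24 in
theorem jF_not_mem_range (N : ℕ) [NeZero N] :
    jF N ∉ (algebraMap Kbar (FF N)).range := by
  rintro ⟨c, hc⟩
  have h1 : ((algebraMap Kbar (FF N) c : FF N) : LaurentSeries Kbar).coeff (-1)
      = ((jF N : FF N) : LaurentSeries Kbar).coeff (-1) := by rw [hc]
  have h2 : ((algebraMap Kbar (FF N) c : FF N) : LaurentSeries Kbar)
      = algebraMap Kbar (LaurentSeries Kbar) c := rfl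
  rw [h2, algebraMap_laurentSeries_eq_single] at h1
  have h3 : ((jF N : FF N) : LaurentSeries Kbar) = coeffEmb Kbar jq := rfl
  rw [h3, coeffEmb_coeff, coeff_jq_neg_one, map_one,
    HahnSeries.coeff_single_of_ne (by norm_num)] at h1
  exact zero_ne_one h1

open Fermat.Agent.S24 in
theorem transcendental_jF (N : ℕ) [NeZero N] : Transcendental Kbar (jF N) :=
  FF.transcendental_of_not_mem_range (jF_not_mem_range N)

open Fermat.Agent.S24 in
/-- **`FF1` for the modular function field** `ℚ̄(j(q^d) : d ∣ N)`. -/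
theorem ff1_modularFunctionFieldBar (N : ℕ) [NeZero N] :
    FF1 (AlgebraicClosure ℚ) ↥(modularFunctionFieldBar N) := by
  obtain ⟨P⟩ := nonempty_modularPackage N
  haveI := P.finiteDimensional
  exact ff1 (jF N) (transcendental_jF N)

/-- The modular function field has principal divisors. -/
theorem hasPrincipalDivisors_modularFunctionFieldBar (N : ℕ) [NeZero N] :
    HasPrincipalDivisors (AlgebraicClosure ℚ) ↥(modularFunctionFieldBar N) :=
  (ff1_modularFunctionFieldBar N).hpd

end Fermat.Agent.Lib.RR.H864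

end
end
-- ===== PACK-END Lib/RR/H864/FF1Modular.lean

-- ===== PACK-BEGIN S37/H98/Gen.lean
section






/-!
# S37, piece R-f [GEN] (helper98): `PrincipalGeneratedByIntegral` unconditionally

`gen N ℓ hℓ hℓN A hA : PrincipalGeneratedByIntegral A (IsLocalRing.residue A) N`
for every valuation subring `A` of `ℚ̄` over a prime `ℓ ∤ N`: the field `gen` of
`Core.PlaceRed` / `Core.GeoRed` (second half of the Prelude `ReductionInputsModL A N`).

Assembly of landed pieces only:
* `H700.pgi` (helper700): PGI from `S28.CoreData N k` and `HasPrincipalDivisors ℚ̄ F̄_N`;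
* `S28.H867.coreData_of_inputs` + `H807` + `H25` (row S28): `CoreData N k` for every field `k`
  of characteristic `ℓ ∤ N`;
* `Lib.RR.H864.hasPrincipalDivisors_modularFunctionFieldBar` (from row S24).
Also exported: `charP_residueField` (the residue field of `A` has characteristic `ℓ`),
`coreData_residueField`, and `reduction_mem` (hypothesis `hyk` of the Prelude property (ii) is
automatic).
-/

set_option autoImplicit false
set_option synthInstance.maxHeartbeats 400000

noncomputable section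

namespace Fermat.Agent.S37.H98

open ModularCurve ValuationSubring AlgebraicCurve HahnSeries

/-- The residue field of a valuation subring over the prime `ℓ` has characteristic `ℓ`. -/
theorem charP_residueField {L : Type*} [Field L] (A : ValuationSubring L) (ℓ : ℕ)
    (hℓ : ℓ.Prime) (hA : A.LiesOverPrime ℓ) : CharP (IsLocalRing.ResidueField A) ℓ := by
  have hℓm : ((ℓ : ℕ) : A) ∈ IsLocalRing.maximalIdeal A := by
    obtain ⟨ha, hm⟩ := (ValuationSubring.mem_nonunits_iff_exists_mem_maximalIdeal).mp hA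
    have : (⟨(ℓ : L), ha⟩ : A) = ((ℓ : ℕ) : A) := by
      apply Subtype.ext; simp
    rwa [this] at hm
  have h0 : ((ℓ : ℕ) : IsLocalRing.ResidueField A) = 0 := by
    have := (IsLocalRing.residue_eq_zero_iff ((ℓ : ℕ) : A)).mpr hℓm
    rwa [map_natCast] at this
  have : Fact ℓ.Prime := ⟨hℓ⟩
  exact (CharP.charP_iff_prime_eq_zero hℓ).mpr h0

/-- `S28.CoreData` over the residue field of a valuation subring of `ℚ̄` over `ℓ ∤ N`. -/
theorem coreData_residueField (N : ℕ) [NeZero N] (ℓ : ℕ) (hℓ : ℓ.Prime) (hℓN : ¬ ℓ ∣ N)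
    (A : ValuationSubring (AlgebraicClosure ℚ)) (hA : A.LiesOverPrime ℓ) :
    Fermat.Agent.S28.CoreData N (IsLocalRing.ResidueField A) := by
  have : Fact ℓ.Prime := ⟨hℓ⟩
  have : CharP (IsLocalRing.ResidueField A) ℓ := charP_residueField A ℓ hℓ hA
  exact Fermat.Agent.S28.H867.coreData_of_inputs N ℓ hℓN (IsLocalRing.ResidueField A)
    (fun p hp _ _ => Fermat.Agent.S28.H807.nonempty_modPolyData p hp)
    (fun p hp _ _ => Fermat.Agent.S28.H807.nonempty_unitPolyData p hp)
    Fermat.Agent.S28.H25.theta_identity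

/-- **R-f [GEN]**: every principal divisor of `ℚ̄(X₀(N))` is generated by divisors of
Gauss-integral functions with nonzero reduction (Prelude `PrincipalGeneratedByIntegral`), for
every valuation subring `A` of `ℚ̄` over a prime `ℓ ∤ N`. -/
theorem gen (N : ℕ) [NeZero N] (ℓ : ℕ) (hℓ : ℓ.Prime) (hℓN : ¬ ℓ ∣ N)
    (A : ValuationSubring (AlgebraicClosure ℚ)) (hA : A.LiesOverPrime ℓ) :
    PrincipalGeneratedByIntegral A (IsLocalRing.residue A) N := by
  have := Fermat.Agent.Lib.RR.H864.hasPrincipalDivisors_modularFunctionFieldBar N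
  exact Fermat.Agent.S37.H700.pgi (coreData_residueField N ℓ hℓ hℓN A hA)

/-- Reductions of Gauss-integral elements of `ℚ̄(X₀(N))` lie in the function field of the
special fibre: the hypothesis `hyk` of the Prelude property (ii) is automatic. -/
theorem reduction_mem (N : ℕ) [NeZero N] (ℓ : ℕ) (hℓ : ℓ.Prime) (hℓN : ¬ ℓ ∣ N)
    (A : ValuationSubring (AlgebraicClosure ℚ)) (hA : A.LiesOverPrime ℓ)
    (u : LaurentSeries A) (hu : coeffMap A.subtype u ∈ modularFunctionFieldBar N) :
    coeffMap (IsLocalRing.residue A) u ∈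
      modularFunctionFieldFullC (IsLocalRing.ResidueField A) N :=
  Fermat.Agent.S37.H700.reduction_mem (coreData_residueField N ℓ hℓ hℓN A hA) u hu

end Fermat.Agent.S37.H98

end
end
-- ===== PACK-END S37/H98/Gen.lean

-- ===== PACK-BEGIN S18/H965/GlueLemmas.lean
section





/-!
# S18 / GLUE (helper965): lemmas for `node_glue`

Interface-independent lemmas about the concrete objects of `Mod/Defs.lean`:

* `coeff_mem_of_mem_Fc`      : elements of `Fc M E` have `q`-expansion coefficients in `E`;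
* `exists_finset_mem_Fc`     : every `f ∈ Ω = F_M` lies in `Fc M E` as soon as `E` contains a
                               finite set `T` of constants (descent to a number field);
* `natCast_inv_mem_Rc`       : `ℓ ∤ m` ⟹ `m⁻¹ ∈ Rc M A E`;
* `exists_unit_twist`        : the divisor hypothesis of `CoreStatement` in the valuation-subring
                               form required by `Alg.AlgMainStatement`;
* `sub_one_mul_inv_mem_VcSet`: `u = U₁/U₂`, `Ū₁ = Ū₂` ⟹ `(u - 1)/w ∈ VcSet M A E`.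
-/

set_option autoImplicit false

noncomputable section

namespace Fermat.Agent.S18.H965

open ModularCurve AlgebraicCurve HahnSeries Fermat.Agent.S18 Fermat.Agent.S18.Mod

variable (M : ℕ) (E : IntermediateField ℚ Qb)

/-- The subfield of `Ω = F_M` of series all of whose coefficients lie in `E`. -/
def coeffField : Subfield (Om M) :=
  ((coeffMap (algebraMap (↥E) Qb)).fieldRange).comap
    (algebraMap (Om M) (LaurentSeries Qb))

variable {M E}

theorem coeff_mem_of_mem_coeffField {f : Om M} (hf : f ∈ coeffField M E) (n : ℤ) :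
    ((f : LaurentSeries Qb)).coeff n ∈ E := by
  obtain ⟨y, hy⟩ := hf
  have h : (f : LaurentSeries Qb) = coeffMap (algebraMap (↥E) Qb) y := hy.symm
  rw [h, coeffMap_coeff]
  exact (y.coeff n).2

theorem Ec_le_coeffField : Ec M E ≤ coeffField M E := by
  rintro y ⟨a, ha, rfl⟩
  refine ⟨HahnSeries.single 0 ⟨a, ha⟩, ?_⟩
  rw [coeffMap_single]
  change _ = algebraMap Qb (LaurentSeries Qb) a
  rw [algebraMap_laurentSeries_eq_single]
  rfl

theorem gens_subset_coeffField : gens M ⊆ (coeffField M E : Set (Om M)) := by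
  rintro y ⟨d, hd, hdM, rfl⟩
  refine ⟨coeffMap (algebraMap ℚ (↥E)) (qExpand ℚ d jq), ?_⟩
  rw [coeffMap_coeffMap]
  change _ = coeffEmb Qb (qExpand ℚ d jq)
  unfold coeffEmb
  exact coeffMap_congr (RingHom.ext fun c => rfl) _

theorem Fc_le_coeffField : Fc M E ≤ coeffField M E := by
  unfold Fc
  rw [Subfield.closure_le]
  rintro y (hy | hy)
  · exact Ec_le_coeffField hy
  · exact gens_subset_coeffField hy

/-- Elements of `Fc M E` have all their `q`-expansion coefficients in `E`. -/
theorem coeff_mem_of_mem_Fc {f : Om M} (hf : f ∈ Fc M E) (n : ℤ) :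
    ((f : LaurentSeries Qb)).coeff n ∈ E :=
  coeff_mem_of_mem_coeffField (Fc_le_coeffField hf) n


/-! ### Descent to a number field -/

theorem Ec_le_Fc : Ec M E ≤ Fc M E := fun _ hy =>
  Subfield.subset_closure (Or.inl hy)

theorem algebraMap_mem_Ec {a : Qb} (ha : a ∈ E) : algebraMap Qb (Om M) a ∈ Ec M E :=
  ⟨a, ha, rfl⟩

theorem algebraMap_mem_Fc {a : Qb} (ha : a ∈ E) : algebraMap Qb (Om M) a ∈ Fc M E :=
  Ec_le_Fc (algebraMap_mem_Ec ha)

/-- The image of `ℚ(j_d : d ∣ M)` lies in `Fc M E` for every `E`. -/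
theorem exists_mem_Fc_of_mem_full {z : LaurentSeries ℚ} (hz : z ∈ modularFunctionFieldFull M) :
    ∃ f ∈ Fc M E, (f : LaurentSeries Qb) = coeffEmb Qb z := by
  unfold modularFunctionFieldFull at hz
  induction hz using IntermediateField.adjoin_induction with
  | mem y hy =>
      obtain ⟨d, hd, hdM, rfl⟩ := hy
      exact ⟨jd M d hdM, Subfield.subset_closure (Or.inr ⟨d, hd, hdM, rfl⟩), rfl⟩
  | algebraMap r =>
      refine ⟨algebraMap Qb (Om M) (algebraMap ℚ Qb r),
        algebraMap_mem_Fc (E.algebraMap_mem r), ?_⟩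
      change algebraMap Qb (LaurentSeries Qb) (algebraMap ℚ Qb r) = _
      rw [algebraMap_laurentSeries_eq_single, algebraMap_laurentSeries_eq_single]
      unfold coeffEmb
      rw [coeffMap_single]
  | add x y _ _ hx hy =>
      obtain ⟨f, hf, hfx⟩ := hx
      obtain ⟨g, hg, hgy⟩ := hy
      exact ⟨f + g, add_mem hf hg, by rw [map_add, ← hfx, ← hgy]; rfl⟩
  | inv x _ hx =>
      obtain ⟨f, hf, hfx⟩ := hx
      exact ⟨f⁻¹, inv_mem hf, by rw [map_inv₀, ← hfx]; rfl⟩
  | mul x y _ _ hx hy =>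
      obtain ⟨f, hf, hfx⟩ := hx
      obtain ⟨g, hg, hgy⟩ := hy
      exact ⟨f * g, mul_mem hf hg, by rw [map_mul, ← hfx, ← hgy]; rfl⟩

variable (M) in
/-- **Descent.**  Every element of `Ω = F_M` lies in `Fc M E` as soon as the number field `E`
contains a certain finite set of constants. -/
theorem exists_finset_series (x : LaurentSeries Qb) (hx : x ∈ modularFunctionFieldBar M) :
    ∃ T : Finset Qb, ∀ E : IntermediateField ℚ Qb, (∀ a ∈ T, a ∈ E) →
      ∃ f ∈ Fc M E, (f : LaurentSeries Qb) = x := by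
  classical
  rw [mem_laurentBaseChange_iff] at hx
  induction hx using Subfield.closure_induction with
  | mem y hy =>
      rcases hy with ⟨a, rfl⟩ | ⟨z, hz, rfl⟩
      · refine ⟨{a}, fun E hE => ⟨algebraMap Qb (Om M) a, algebraMap_mem_Fc (hE a (by simp)), rfl⟩⟩
      · exact ⟨∅, fun E _ => exists_mem_Fc_of_mem_full hz⟩
  | one => exact ⟨∅, fun E _ => ⟨1, one_mem _, rfl⟩⟩
  | add x y _ _ hx hy =>
      obtain ⟨T₁, h₁⟩ := hx
      obtain ⟨T₂, h₂⟩ := hy
      refine ⟨T₁ ∪ T₂, fun E hE => ?_⟩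
      obtain ⟨f, hf, hfx⟩ := h₁ E (fun a ha => hE a (Finset.mem_union_left _ ha))
      obtain ⟨g, hg, hgy⟩ := h₂ E (fun a ha => hE a (Finset.mem_union_right _ ha))
      exact ⟨f + g, add_mem hf hg, by rw [← hfx, ← hgy]; rfl⟩
  | neg x _ hx =>
      obtain ⟨T₁, h₁⟩ := hx
      refine ⟨T₁, fun E hE => ?_⟩
      obtain ⟨f, hf, hfx⟩ := h₁ E hE
      exact ⟨-f, neg_mem hf, by rw [← hfx]; rfl⟩
  | inv x _ hx =>
      obtain ⟨T₁, h₁⟩ := hx
      refine ⟨T₁, fun E hE => ?_⟩
      obtain ⟨f, hf, hfx⟩ := h₁ E hE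
      exact ⟨f⁻¹, inv_mem hf, by rw [← hfx]; rfl⟩
  | mul x y _ _ hx hy =>
      obtain ⟨T₁, h₁⟩ := hx
      obtain ⟨T₂, h₂⟩ := hy
      refine ⟨T₁ ∪ T₂, fun E hE => ?_⟩
      obtain ⟨f, hf, hfx⟩ := h₁ E (fun a ha => hE a (Finset.mem_union_left _ ha))
      obtain ⟨g, hg, hgy⟩ := h₂ E (fun a ha => hE a (Finset.mem_union_right _ ha))
      exact ⟨f * g, mul_mem hf hg, by rw [← hfx, ← hgy]; rfl⟩

variable (M) in
/-- **Descent**, elementwise form. -/
theorem exists_finset_mem_Fc (f : Om M) :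
    ∃ T : Finset Qb, ∀ E : IntermediateField ℚ Qb, (∀ a ∈ T, a ∈ E) → f ∈ Fc M E := by
  obtain ⟨T, hT⟩ := exists_finset_series M (f : LaurentSeries Qb) f.2
  refine ⟨T, fun E hE => ?_⟩
  obtain ⟨g, hg, hgf⟩ := hT E hE
  have : g = f := Subtype.ext hgf
  exact this ▸ hg


/-! ### `m` is a unit of `A ∩ E` -/

theorem natCast_inv_mem_valuationSubring {ℓ : ℕ} (hℓ : ℓ.Prime) (A : ValuationSubring Qb)
    (hA : A.LiesOverPrime ℓ) {m : ℕ} (hm : ¬ ℓ ∣ m) : ((m : Qb))⁻¹ ∈ A := by
  have hcop : IsCoprime (ℓ : ℤ) (m : ℤ) :=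
    Nat.isCoprime_iff_coprime.mpr ((Nat.Prime.coprime_iff_not_dvd hℓ).mpr hm)
  obtain ⟨a, b, hab⟩ := hcop
  have habQ : (a : Qb) * (ℓ : Qb) + (b : Qb) * (m : Qb) = 1 := by exact_mod_cast hab
  have hℓv : A.valuation (ℓ : Qb) < 1 := (A.mem_nonunits_iff).mp hA
  have hint : ∀ c : ℤ, A.valuation (c : Qb) ≤ 1 := fun c =>
    (A.valuation_le_one_iff _).mpr (intCast_mem A c)
  have hmle : A.valuation (m : Qb) ≤ 1 := (A.valuation_le_one_iff _).mpr (natCast_mem A m)
  have hmge : ¬ A.valuation (m : Qb) < 1 := by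
    intro hlt
    have h1 : A.valuation ((a : Qb) * (ℓ : Qb)) < 1 := by
      rw [map_mul]
      calc A.valuation (a : Qb) * A.valuation (ℓ : Qb) ≤ 1 * A.valuation (ℓ : Qb) :=
            mul_le_mul' (hint a) le_rfl
        _ = A.valuation (ℓ : Qb) := one_mul _
        _ < 1 := hℓv
    have h2 : A.valuation ((b : Qb) * (m : Qb)) < 1 := by
      rw [map_mul]
      calc A.valuation (b : Qb) * A.valuation (m : Qb) ≤ 1 * A.valuation (m : Qb) :=
            mul_le_mul' (hint b) le_rfl
        _ = A.valuation (m : Qb) := one_mul _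
        _ < 1 := hlt
    have h3 : A.valuation ((a : Qb) * (ℓ : Qb) + (b : Qb) * (m : Qb)) < 1 :=
      Valuation.map_add_lt _ h1 h2
    rw [habQ, map_one] at h3
    exact lt_irrefl _ h3
  have hm1 : A.valuation (m : Qb) = 1 := le_antisymm hmle (not_lt.mp hmge)
  rw [← A.valuation_le_one_iff, map_inv₀, hm1, inv_one]

theorem mem_Rc_iff {A : ValuationSubring Qb} {y : Om M} :
    y ∈ Rc M A E ↔ ∃ a : Qb, a ∈ A ∧ a ∈ E ∧ algebraMap Qb (Om M) a = y := by
  constructor
  · rintro ⟨a, ⟨haA, haE⟩, rfl⟩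
    exact ⟨a, haA, haE, rfl⟩
  · rintro ⟨a, haA, haE, rfl⟩
    exact ⟨a, ⟨haA, haE⟩, rfl⟩

theorem natCast_inv_mem_Rc {ℓ : ℕ} (hℓ : ℓ.Prime) (A : ValuationSubring Qb)
    (hA : A.LiesOverPrime ℓ) {m : ℕ} (hm : ¬ ℓ ∣ m) : ((m : Om M))⁻¹ ∈ Rc M A E := by
  rw [mem_Rc_iff]
  refine ⟨((m : Qb))⁻¹, natCast_inv_mem_valuationSubring hℓ A hA hm,
    inv_mem (natCast_mem E m), ?_⟩
  rw [map_inv₀, map_natCast]

theorem Rc_le_Ec {A : ValuationSubring Qb} {y : Om M} (hy : y ∈ Rc M A E) : y ∈ Ec M E := by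
  obtain ⟨a, -, haE, rfl⟩ := mem_Rc_iff.mp hy
  exact algebraMap_mem_Ec haE

/-! ### The divisor hypothesis in valuation-subring form -/

theorem exists_unit_twist [NeZero M] {m : ℕ} {f g : Om M} (hf : f ≠ 0) (hg : g ≠ 0)
    (hdiv : ∀ v : Place Qb (modularFunctionFieldBar M), (m : ℤ) ∣ v.ord f - v.ord g)
    (O : ValuationSubring (Om M)) (hO : ∀ a ∈ Lc M, a ∈ O) :
    ∃ t : Om M, t ≠ 0 ∧ (f / g) * t ^ m ∈ O ∧ ((f / g) * t ^ m)⁻¹ ∈ O := by
  by_cases hO' : O = ⊤
  · subst hO'
    exact ⟨1, one_ne_zero, ValuationSubring.mem_top _, ValuationSubring.mem_top _⟩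
  obtain ⟨P⟩ := Fermat.Agent.S24.nonempty_modularPackage M
  have := P.finiteDimensional
  obtain ⟨v, hv⟩ := Fermat.Agent.Lib.RR.H443.exists_place_eq O
    (fun a => hO _ ⟨a, rfl⟩) hO' (Fermat.Agent.Lib.RR.H864.transcendental_jF M)
  obtain ⟨k, hk⟩ := hdiv v
  obtain ⟨π, hπ⟩ := Fermat.Agent.Lib.RR.exists_ord_eq_one v
  have hπ0 : π ≠ 0 := Fermat.Agent.Lib.RR.ne_zero_of_ord_ne_zero v (by rw [hπ]; exact one_ne_zero)
  have ht0 : π ^ (-k) ≠ 0 := zpow_ne_zero _ hπ0
  have hfg : f / g ≠ 0 := div_ne_zero hf hg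
  have hord : v.ord ((f / g) * (π ^ (-k)) ^ m) = 0 := by
    rw [v.ord_mul hfg (pow_ne_zero _ ht0), div_eq_mul_inv, v.ord_mul hf (inv_ne_zero hg),
      v.ord_inv, Fermat.Agent.Lib.RR.ord_pow, v.ord_zpow, hπ]
    have : v.ord f = v.ord g + m * k := by linarith
    rw [this]
    ring
  refine ⟨π ^ (-k), ht0, ?_, ?_⟩
  · rw [← hv]
    exact Fermat.Agent.Lib.RR.mem_of_ord_nonneg v (by rw [hord])
  · rw [← hv]
    exact Fermat.Agent.Lib.RR.mem_of_ord_nonneg v (by rw [v.ord_inv, hord, neg_zero])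


/-! ### `u ≡ 1` modulo the uniformiser -/

/-- A series over `Q̄` with coefficients in `A` comes from a series over `A`. -/
theorem exists_series_of_coeff_mem (A : ValuationSubring Qb) (x : LaurentSeries Qb)
    (hx : ∀ n, x.coeff n ∈ A) : ∃ U : LaurentSeries A, coeffMap A.subtype U = x := by
  refine ⟨⟨fun n => ⟨x.coeff n, hx n⟩, x.isPWO_support.mono ?_⟩, ?_⟩
  · intro n hn
    rw [HahnSeries.mem_support]
    intro h0
    exact hn (Subtype.ext h0)
  · ext n
    rfl

theorem toF_ne_zero {A : ValuationSubring Qb} {U : LaurentSeries A} (hU : IsInt A M U) :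
    toF hU ≠ 0 := by
  intro h0
  apply hU.2.2
  have h1 : coeffMap A.subtype U = 0 := congrArg Subtype.val h0
  have h2 : U = 0 := by
    ext n
    have := congrArg (fun x => x.coeff n) h1
    simpa using this
  rw [h2, map_zero]

theorem coe_toF {A : ValuationSubring Qb} {U : LaurentSeries A} (hU : IsInt A M U) :
    ((toF hU : Om M) : LaurentSeries Qb) = coeffMap A.subtype U := rfl

/-- **`u ≡ 1 mod w`.**  If `U₁, U₂` are integral with the same reduction and `toF U_i ∈ Fc M E`,
then `(U₁/U₂ - 1)/w` lies in the Gauss valuation ring `VcSet M A E`, for any `w` generating the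
maximal ideal of `Rc M A E`. -/
theorem sub_one_mul_inv_mem_VcSet (A : ValuationSubring Qb) {U₁ U₂ : LaurentSeries A}
    (h₁ : IsInt A M U₁) (h₂ : IsInt A M U₂)
    (hred : coeffMap (IsLocalRing.residue A) U₁ = coeffMap (IsLocalRing.residue A) U₂)
    (hf₁ : toF h₁ ∈ Fc M E) (hf₂ : toF h₂ ∈ Fc M E)
    {w : Om M} (hw : w ∈ Rc M A E)
    (hgen : ∀ r ∈ Rc M A E, r⁻¹ ∉ Rc M A E → r * w⁻¹ ∈ Rc M A E) :
    (toF h₁ / toF h₂ - 1) * w⁻¹ ∈ VcSet M A E := by
  obtain ⟨w', hw'A, hw'E, rfl⟩ := mem_Rc_iff.mp hw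
  have hg0 : toF h₂ ≠ 0 := toF_ne_zero h₂
  have hwF : algebraMap Qb (Om M) w' ∈ Fc M E := algebraMap_mem_Fc hw'E
  set f : Om M := (toF h₁ - toF h₂) * (algebraMap Qb (Om M) w')⁻¹ with hf
  have hfF : f ∈ Fc M E := mul_mem (sub_mem hf₁ hf₂) (inv_mem hwF)
  have huF : (toF h₁ / toF h₂ - 1) * (algebraMap Qb (Om M) w')⁻¹ ∈ Fc M E :=
    mul_mem (sub_mem (div_mem hf₁ hf₂) (one_mem _)) (inv_mem hwF)
  -- coefficients of `f`
  have hcoeff : ∀ n : ℤ, (f : LaurentSeries Qb).coeff n
      = ((U₁.coeff n : Qb) - (U₂.coeff n : Qb)) * w'⁻¹ := by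
    intro n
    have e1 : (f : LaurentSeries Qb) = (coeffMap A.subtype U₁ - coeffMap A.subtype U₂)
        * (algebraMap Qb (LaurentSeries Qb) w')⁻¹ := rfl
    rw [e1, ← map_inv₀, algebraMap_laurentSeries_eq_single, HahnSeries.coeff_mul_single_zero,
      HahnSeries.coeff_sub, coeffMap_coeff, coeffMap_coeff]
    rfl
  have hcoeffE : ∀ (U : LaurentSeries A) (hU : IsInt A M U), toF hU ∈ Fc M E →
      ∀ n : ℤ, ((U.coeff n : A) : Qb) ∈ E := by
    intro U hU hUF n
    have := coeff_mem_of_mem_Fc hUF n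
    rwa [coe_toF, coeffMap_coeff] at this
  have hcoeffA : ∀ n : ℤ, (f : LaurentSeries Qb).coeff n ∈ A := by
    intro n
    rw [hcoeff]
    set d : A := U₁.coeff n - U₂.coeff n with hd
    have hdval : ((U₁.coeff n : Qb) - (U₂.coeff n : Qb)) = (d : Qb) := rfl
    rw [hdval]
    have hdE : (d : Qb) ∈ E := sub_mem (hcoeffE U₁ h₁ hf₁ n) (hcoeffE U₂ h₂ hf₂ n)
    have hres : IsLocalRing.residue A d = 0 := by
      have := congrArg (fun x => x.coeff n) hred
      simp only [coeffMap_coeff] at this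
      rw [hd, map_sub, this, sub_self]
    have hnu : ¬ IsUnit d := by
      rw [IsLocalRing.residue_eq_zero_iff] at hres
      exact (IsLocalRing.mem_maximalIdeal _).mp hres
    by_cases hd0 : (d : Qb) = 0
    · rw [hd0, zero_mul]
      exact A.zero_mem
    have hr : algebraMap Qb (Om M) (d : Qb) ∈ Rc M A E := mem_Rc_iff.mpr ⟨d, d.2, hdE, rfl⟩
    have hr' : (algebraMap Qb (Om M) (d : Qb))⁻¹ ∉ Rc M A E := by
      intro hmem
      obtain ⟨b, hbA, -, hb⟩ := mem_Rc_iff.mp hmem
      rw [← map_inv₀] at hb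
      have hb' : b = (d : Qb)⁻¹ := (algebraMap Qb (Om M)).injective hb
      apply hnu
      refine IsUnit.of_mul_eq_one (⟨b, hbA⟩ : A) (Subtype.ext ?_)
      change (d : Qb) * b = 1
      rw [hb', mul_inv_cancel₀ hd0]
    obtain ⟨c, hcA, -, hc⟩ := mem_Rc_iff.mp (hgen _ hr hr')
    rw [← map_inv₀, ← map_mul] at hc
    have hc' : c = (d : Qb) * w'⁻¹ := (algebraMap Qb (Om M)).injective hc
    rw [← hc']
    exact hcA
  obtain ⟨W₁, hW₁⟩ := exists_series_of_coeff_mem A (f : LaurentSeries Qb) hcoeffA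
  refine ⟨huF, W₁, U₂, ⟨?_, f, hfF, hW₁.symm⟩, ⟨hcoeffE U₂ h₂ hf₂, toF h₂, hf₂, rfl⟩,
    h₂.2.2, ?_⟩
  · intro n
    have := coeff_mem_of_mem_Fc hfF n
    rwa [← hW₁, coeffMap_coeff] at this
  · rw [hW₁, ← coe_toF h₂]
    have : (toF h₁ / toF h₂ - 1) * (algebraMap Qb (Om M) w')⁻¹ * toF h₂ = f := by
      rw [hf]
      field_simp
    rw [← this]
    rfl

end Fermat.Agent.S18.H965

end
end
-- ===== PACK-END S18/H965/GlueLemmas.lean

-- ===== PACK-BEGIN S18/H568/D2.lean
section






/-!
# S18 / node D2 (helper568): transfer `CORE(M) → CORE(N)`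

EXACT node statement of `origin/helper18:Fermat/Agent/S18/Integ/Skeleton.lean` (`node_d2`), with
`levelM N ℓ` unfolded (`levelM` lives in the skeleton file, which contains `sorry`):

    theorem node_d2 (N : ℕ) [NeZero N] {ℓ : ℕ} [Fact ℓ.Prime] (hℓN : ¬ ℓ ∣ N)
        (A : ValuationSubring Qb) (hA : A.LiesOverPrime ℓ) (m : ℕ) (hm : ¬ ℓ ∣ m) :
        CoreStatement (if ℓ = 3 then Nat.lcm N 2 else if ℓ = 2 then Nat.lcm N 3 else N) A m →
          CoreStatement N A m

General form: `coreStatement_of_dvd` (any `N ∣ M` with `[F_M : F_N]` nonzero and prime to `m`).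

Proof: (1) `IsInt A N U → IsInt A M U` (monotonicity of the function fields);
(2) for a place `w` of `F_M`, `ord_w(f) = e(w) · ord_{w|F_N}(f)` for `f ∈ F_N` (Prelude
`Place.ord_restrictAlong`), so `m ∣ div` is inherited; (3) norm trick
(`exists_pow_of_norm_coprime`); (4) degree `[F_{Np} : F_N] = p + 1` for `p ∤ N`
(helper988, `relfinrank_bar_mul_prime`, on main).
-/

set_option autoImplicit false

noncomputable section

namespace Fermat.Agent.S18.H568

open ModularCurve AlgebraicCurve HahnSeries IntermediateField Module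

section Generic

variable {K Ω : Type*} [Field K] [Field Ω] [Algebra K Ω] {E F : IntermediateField K Ω}

/-- `extendScalars h` and `F` (with the `E`-algebra structure along the inclusion) are the same
`E`-vector space. -/
def extendScalarsLinearEquiv568 (hEF : E ≤ F) :
    letI := (IntermediateField.inclusion hEF).toRingHom.toAlgebra
    ↥(extendScalars hEF) ≃ₗ[E] F :=
  letI := (IntermediateField.inclusion hEF).toRingHom.toAlgebra
  { toFun := fun x => ⟨x.1, (mem_extendScalars hEF).mp x.2⟩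
    invFun := fun x => ⟨x.1, (mem_extendScalars hEF).mpr x.2⟩
    map_add' := fun _ _ => rfl
    map_smul' := fun _ _ => rfl
    left_inv := fun _ => rfl
    right_inv := fun _ => rfl }

theorem finrank_inclusion_eq_relfinrank (hEF : E ≤ F) :
    letI := (IntermediateField.inclusion hEF).toRingHom.toAlgebra
    finrank E F = E.relfinrank F := by
  letI := (IntermediateField.inclusion hEF).toRingHom.toAlgebra
  rw [relfinrank_eq_finrank_of_le hEF]
  exact (extendScalarsLinearEquiv568 hEF).finrank_eq.symm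

theorem finiteDimensional_inclusion (hEF : E ≤ F) (h0 : E.relfinrank F ≠ 0) :
    letI := (IntermediateField.inclusion hEF).toRingHom.toAlgebra
    FiniteDimensional E F := by
  letI := (IntermediateField.inclusion hEF).toRingHom.toAlgebra
  apply FiniteDimensional.of_finrank_pos
  rw [finrank_inclusion_eq_relfinrank hEF]
  exact Nat.pos_of_ne_zero h0

end Generic

/-- Monotonicity of `ℚ̄(X₀(N))` in the level. -/
theorem bar_le_of_dvd {N M : ℕ} [NeZero N] [NeZero M] (h : N ∣ M) :
    modularFunctionFieldBar N ≤ modularFunctionFieldBar M := by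
  rw [Fermat.Agent.S28.H988.modularFunctionFieldBar_eq_fullC,
    Fermat.Agent.S28.H988.modularFunctionFieldBar_eq_fullC]
  exact full_degeneracyC_le _ h

theorem isInt_of_dvd {N M : ℕ} [NeZero N] [NeZero M] (h : N ∣ M) {A : ValuationSubring Qb}
    {U : LaurentSeries A} (hU : IsInt A N U) : IsInt A M U :=
  ⟨bar_le_of_dvd h hU.1, full_degeneracyC_le _ h hU.2.1, hU.2.2⟩

theorem toF_ne_zero {N : ℕ} {A : ValuationSubring Qb} {U : LaurentSeries A}
    (hU : IsInt A N U) : toF hU ≠ 0 := by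
  intro h0
  have h1 : coeffMap A.subtype U = 0 := congrArg Subtype.val h0
  have h2 : U = 0 := by
    ext n
    have := congrArg (fun f : LaurentSeries Qb => f.coeff n) h1
    simpa [coeffMap_coeff] using this
  exact hU.2.2 (by rw [h2]; exact map_zero _)

/-- **General transfer**: `CORE(M) → CORE(N)` for `N ∣ M` when `[F_M : F_N]` is finite and prime
to `m`. -/
theorem coreStatement_of_dvd (N M : ℕ) [NeZero N] [NeZero M] (hNM : N ∣ M)
    (A : ValuationSubring Qb) (m : ℕ)
    (hd0 : (modularFunctionFieldBar N).relfinrank (modularFunctionFieldBar M) ≠ 0)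
    (hcop : Nat.Coprime ((modularFunctionFieldBar N).relfinrank (modularFunctionFieldBar M)) m) :
    CoreStatement M A m → CoreStatement N A m := by
  intro hM U₁ U₂ h₁ h₂ hred hord
  have hle := bar_le_of_dvd hNM
  set φ : modularFunctionFieldBar N →ₐ[Qb] modularFunctionFieldBar M :=
    IntermediateField.inclusion hle with hφdef
  letI : Algebra (modularFunctionFieldBar N) (modularFunctionFieldBar M) := algebraAlong φ
  haveI : IsScalarTower Qb (modularFunctionFieldBar N) (modularFunctionFieldBar M) :=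
    isScalarTower_along φ
  haveI hfd : FiniteDimensional (modularFunctionFieldBar N) (modularFunctionFieldBar M) :=
    finiteDimensional_inclusion hle hd0
  have hfr : finrank (modularFunctionFieldBar N) (modularFunctionFieldBar M) =
      (modularFunctionFieldBar N).relfinrank (modularFunctionFieldBar M) :=
    finrank_inclusion_eq_relfinrank hle
  have hφint : φ.toRingHom.IsIntegral := fun x =>
    (Algebra.IsIntegral.of_finite (modularFunctionFieldBar N) (modularFunctionFieldBar M)).isIntegral x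
  have h₁' : IsInt A M U₁ := isInt_of_dvd hNM h₁
  have h₂' : IsInt A M U₂ := isInt_of_dvd hNM h₂
  have e₁ : toF h₁' = φ (toF h₁) := rfl
  have e₂ : toF h₂' = φ (toF h₂) := rfl
  obtain ⟨c, y, hc, hy, hcy⟩ := hM U₁ U₂ h₁' h₂' hred (fun w => by
    rw [e₁, e₂, Place.ord_restrictAlong φ hφint w, Place.ord_restrictAlong φ hφint w, ← mul_sub]
    exact Dvd.dvd.mul_left (hord _) _)
  have hn₁ := toF_ne_zero h₁
  have hn₂ := toF_ne_zero h₂
  -- descend `u = toF h₁ / toF h₂`
  have hu : toF h₁ / toF h₂ ≠ 0 := div_ne_zero hn₁ hn₂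
  have hkey : algebraMap (modularFunctionFieldBar N) (modularFunctionFieldBar M)
      (toF h₁ / toF h₂) = algebraMap Qb (modularFunctionFieldBar M) c * y ^ m := by
    have hn₂' : toF h₂' ≠ 0 := toF_ne_zero h₂'
    show φ (toF h₁ / toF h₂) = _
    rw [map_div₀, ← e₁, ← e₂, hcy, mul_div_assoc, div_self hn₂', mul_one]
  obtain ⟨c', y', hc', hy', hfin⟩ :=
    exists_pow_of_norm_coprime m (by rw [hfr]; exact hcop) (toF h₁ / toF h₂) hu c hc y hy hkey
  refine ⟨c', y', hc', hy', ?_⟩
  rw [← hfin, div_mul_cancel₀ _ hn₂]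

/-- Transfer along `N ∣ N * p`, `p` prime not dividing `N`, when `p + 1` is prime to `m`. -/
theorem coreStatement_of_mul_prime (N p : ℕ) [NeZero N] (hp : p.Prime) (hpN : ¬ p ∣ N)
    (A : ValuationSubring Qb) (m : ℕ) (h2 : Nat.Coprime (p + 1) m) :
    CoreStatement (N * p) A m → CoreStatement N A m := by
  haveI : NeZero (N * p) := ⟨Nat.mul_ne_zero (NeZero.ne N) hp.ne_zero⟩
  have hdeg := Fermat.Agent.S28.H988.relfinrank_bar_mul_prime N p (NeZero.ne N) hp
  rw [if_neg hpN] at hdeg
  refine coreStatement_of_dvd N (N * p) (Dvd.intro p rfl) A m ?_ ?_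
  · rw [hdeg]; exact Nat.succ_ne_zero p
  · rw [hdeg]; exact h2

/-- **NODE D2** (statement of `Integ/Skeleton.lean`, `levelM N ℓ` unfolded). -/
theorem node_d2 (N : ℕ) [NeZero N] {ℓ : ℕ} [Fact ℓ.Prime] (_hℓN : ¬ ℓ ∣ N)
    (A : ValuationSubring Qb) (_hA : A.LiesOverPrime ℓ) (m : ℕ) (hm : ¬ ℓ ∣ m) :
    CoreStatement (if ℓ = 3 then Nat.lcm N 2 else if ℓ = 2 then Nat.lcm N 3 else N) A m →
      CoreStatement N A m := by
  split_ifs with h3 h2
  · -- ℓ = 3, M = lcm N 2
    subst h3
    by_cases h : 2 ∣ N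
    · rw [Nat.lcm_eq_left h]; exact id
    · have hc : Nat.Coprime N 2 :=
        (Nat.coprime_comm.mp ((Nat.Prime.coprime_iff_not_dvd Nat.prime_two).mpr h))
      rw [hc.lcm_eq_mul]
      have hm3 : Nat.Coprime 3 m := (Nat.Prime.coprime_iff_not_dvd Nat.prime_three).mpr hm
      exact coreStatement_of_mul_prime N 2 Nat.prime_two h A m hm3
  · -- ℓ = 2, M = lcm N 3
    subst h2
    by_cases h : 3 ∣ N
    · rw [Nat.lcm_eq_left h]; exact id
    · have hc : Nat.Coprime N 3 :=
        (Nat.coprime_comm.mp ((Nat.Prime.coprime_iff_not_dvd Nat.prime_three).mpr h))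
      rw [hc.lcm_eq_mul]
      have hm2 : Nat.Coprime 2 m := (Nat.Prime.coprime_iff_not_dvd Nat.prime_two).mpr hm
      have hm4 : Nat.Coprime (3 + 1) m := by
        have : (3 + 1 : ℕ) = 2 ^ 2 := by norm_num
        rw [this]
        exact Nat.Coprime.pow_left 2 hm2
      exact coreStatement_of_mul_prime N 3 Nat.prime_three h A m hm4
  · exact id

end Fermat.Agent.S18.H568

end

end
-- ===== PACK-END S18/H568/D2.lean

-- ===== PACK-BEGIN A2/H729/LocalFact.lean
section



/-!
# A2 (helper729): from local factorisations on the base charts to local models of the Kummer root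

`F₀ ⊆ F`, `y ∈ F`, `y ^ m = u ∈ F₀`.  A *local factorisation* of `u` at a closed point `𝔫₀ ∋ w`
of the chart of `F₀` is `u = ε * h ^ m` with `h ≡ 1 mod w O₀` and `ε` regular at `𝔫₀`
(`s * ε ∈ chart` for some `s ∉ 𝔫₀`).  Then `y₁ := y / h` satisfies `y₁ ≡ y mod w O` and
`s * y₁ ∈ chart_F`: this is the local hypothesis of `kummer_trivial_of_local`.
-/

set_option autoImplicit false
set_option linter.unusedSectionVars false

namespace Fermat.Agent.A2.H729

open Polynomial Fermat.Agent.S18.H138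

variable {R : Type*} [CommRing R] [IsDomain R] [IsIntegrallyClosed (Polynomial R)]
  {F₀ : Type*} [Field F₀] [Algebra R F₀]
  {F : Type*} [Field F] [Algebra R F] [Algebra F₀ F] [IsScalarTower R F₀ F]

theorem gaussO_inv_le {w : R} (hw : Prime w) {x : F} (hx0 : x ≠ 0) :
    gaussO hw x ≤ gaussO hw x⁻¹ := fun _ ht =>
  exists_denom_inv_of_mem_gaussO hw hx0 ht

theorem gaussO_inv {w : R} (hw : Prime w) {x : F} (hx0 : x ≠ 0) :
    gaussO hw x⁻¹ = gaussO hw x := by
  apply le_antisymm
  · have := gaussO_inv_le hw (inv_ne_zero hx0)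
    rwa [inv_inv] at this
  · exact gaussO_inv_le hw hx0

/-- The local hypothesis of `kummer_trivial_of_local` from local factorisations on the base. -/
theorem hloc_of_localFactorisation {w : R} (hw : Prime w) {x₀ : F₀}
    (hx : Transcendental R (algebraMap F₀ F x₀)) {m : ℕ} (hm : 0 < m) {u : F₀} {y : F}
    (hyu : y ^ m = algebraMap F₀ F u) (hyO : y ∈ gaussO hw (algebraMap F₀ F x₀))
    (hLF : ∀ 𝔫₀ : Ideal (chart R ({x₀} : Set F₀)), 𝔫₀.IsMaximal →
      algebraMap R (chart R ({x₀} : Set F₀)) w ∈ 𝔫₀ →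
      ∃ s : chart R ({x₀} : Set F₀), s ∉ 𝔫₀ ∧ ∃ h ε : F₀,
        InW (gaussO hw x₀) w (h - 1) ∧ u = ε * h ^ m ∧ (s : F₀) * ε ∈ chart R ({x₀} : Set F₀)) :
    ∀ 𝔫 : Ideal (chart R ({algebraMap F₀ F x₀} : Set F)), 𝔫.IsMaximal →
      algebraMap R (chart R ({algebraMap F₀ F x₀} : Set F)) w ∈ 𝔫 →
      ∃ s : chart R ({algebraMap F₀ F x₀} : Set F), s ∉ 𝔫 ∧
        ∃ y₁ : F, InW (gaussO hw (algebraMap F₀ F x₀)) w (y - y₁) ∧
          (s : F) * y₁ ∈ chart R ({algebraMap F₀ F x₀} : Set F) := by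
  intro 𝔫 h𝔫 hw𝔫
  have := h𝔫
  have hmax := isMaximal_comap_chartMap (R := R) (F := F) x₀ 𝔫
  have hw₀ : algebraMap R (chart R ({x₀} : Set F₀)) w ∈
      Ideal.comap (chartMap (R := R) (F := F) x₀) 𝔫 := by
    rw [Ideal.mem_comap, chartMap_algebraMap]
    exact hw𝔫
  obtain ⟨s₀, hs₀, h, ε, hh, huε, hsε⟩ := hLF _ hmax hw₀
  have hhF : InW (gaussO hw (algebraMap F₀ F x₀)) w (algebraMap F₀ F h - 1) := by
    have := InW.map (F := F) hw hh
    rwa [map_sub, map_one] at this
  obtain ⟨hne, hinv, hinv1⟩ := inW_inv_sub_one hw hx hhF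
  have hh0 : h ≠ 0 := fun h0 => hne (by rw [h0, map_zero])
  refine ⟨chartMap (R := R) (F := F) x₀ s₀, fun hs => hs₀ (Ideal.mem_comap.2 hs),
    y * (algebraMap F₀ F h)⁻¹, ?_, ?_⟩
  · have : y - y * (algebraMap F₀ F h)⁻¹ = -(y * ((algebraMap F₀ F h)⁻¹ - 1)) := by ring
    rw [this]
    exact (hinv1.mul_left hyO).neg
  · refine mem_chart_of_pow_mem hm ?_
    have hε : ε = u * (h ^ m)⁻¹ := by
      rw [huε, mul_assoc, mul_inv_cancel₀ (pow_ne_zero _ hh0), mul_one]
    have : ((chartMap (R := R) (F := F) x₀ s₀ : chart R ({algebraMap F₀ F x₀} : Set F)) : F)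
        = algebraMap F₀ F s₀ := rfl
    rw [this]
    have key : (algebraMap F₀ F s₀ * (y * (algebraMap F₀ F h)⁻¹)) ^ m =
        algebraMap F₀ F ((s₀ : F₀) ^ (m - 1) * ((s₀ : F₀) * ε)) := by
      rw [mul_pow, mul_pow, hyu, hε, inv_pow, ← map_pow, ← map_pow, ← map_inv₀, ← map_mul,
        ← map_mul]
      congr 1
      have : (s₀ : F₀) ^ m = (s₀ : F₀) ^ (m - 1) * s₀ := by
        rw [← pow_succ]; congr 1; omega
      rw [this]
      ring
    rw [key]
    exact algebraMap_mem_chart_singleton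
      (Subalgebra.mul_mem _ (Subalgebra.pow_mem _ s₀.2 _) hsε)

end Fermat.Agent.A2.H729

end
-- ===== PACK-END A2/H729/LocalFact.lean

-- ===== PACK-BEGIN A2/H729/H348Adapter.lean
section




/-!
# A2 (helper729): the canonical Gauss ring as input of `H348.exists_pow_eq_of_local_factorisation`

`V := gaussO hw x` satisfies all the fields of `H348.GaussData` and `H348.ChartData`
(for both charts) except the two which carry information: `u ≡ 1 mod w V` and the local
factorisations.  Hence `exists_pow_eq_gaussO`: the route-S theorem with `V` eliminated.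
-/

set_option autoImplicit false
set_option linter.unusedSectionVars false
set_option linter.style.haveILetI false

namespace Fermat.Agent.A2.H729

open Polynomial Fermat.Agent.S18.H138

variable {R : Type*} [CommRing R] [IsDomain R] [IsIntegrallyClosed (Polynomial R)]
  {F : Type*} [Field F] [Algebra R F]

theorem gaussData_gaussO (hinjR : Function.Injective (algebraMap R F)) {w : R} (hw : Prime w)
    {x : F} (hx : Transcendental R x) {mi : R} {m : ℕ} (hmi : (m : R) * mi = 1) {u : F}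
    (hu : InW (gaussO hw x) w (u - 1)) : H348.GaussData w m u (gaussO hw x) where
  closed := fun _ hf => mem_gaussO_of_isIntegral hw hf
  ϖ_inv_notMem := inv_not_mem_gaussO hinjR hw hx
  rad := fun _ ht => inv_one_add_mem_gaussO hw hx ht
  m_ne := by
    intro h0
    have h1 := congrArg (algebraMap R F) hmi
    rw [map_mul, map_natCast, h0, zero_mul, map_one] at h1
    exact zero_ne_one h1
  m_inv := by
    have h1 := congrArg (algebraMap R F) hmi
    rw [map_mul, map_natCast, map_one] at h1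
    have h2 : ((m : F))⁻¹ = algebraMap R F mi := inv_eq_of_mul_eq_one_right h1
    rw [h2]
    exact Subalgebra.algebraMap_mem _ mi
  u_one := by
    obtain ⟨t, ht, htt⟩ := hu
    exact ⟨t, ht, by rw [← htt]; ring⟩

theorem chartData_fin (hinjR : Function.Injective (algebraMap R F)) {w : R} (hw : Prime w)
    {x : F} (hx : Transcendental R x) {m : ℕ} {u : F}
    (hloc : ∀ 𝔪 : Ideal (chart R ({x} : Set F)), 𝔪.IsMaximal →
      algebraMap R (chart R ({x} : Set F)) w ∈ 𝔪 →
      ∃ h : F, (∃ t ∈ gaussO hw x, h = 1 + algebraMap R F w * t) ∧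
        ∃ s a : chart R ({x} : Set F), s ∉ 𝔪 ∧
          u * (s : F) = h ^ m * ((s : F) + algebraMap R F w * (a : F))) :
    H348.ChartData w m u (chart R ({x} : Set F)) (gaussO hw x) where
  le_V := chart_fin_le_gaussO hw x
  closed := fun _ hf => mem_chart_of_isIntegral_chart hf
  qep := by
    intro b hb t ht hbt
    have hw0 : algebraMap R F w ≠ 0 := fun h0 => hw.ne_zero (hinjR (by rw [h0, map_zero]))
    obtain ⟨t', ht', hbt'⟩ := qep_fin hw hx b hb ⟨t, ht, hbt⟩
    have : t = t' := mul_left_cancel₀ hw0 (hbt.symm.trans hbt')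
    rw [this]
    exact ht'
  loc := hloc

theorem chartData_inf (hinjR : Function.Injective (algebraMap R F)) {w : R} (hw : Prime w)
    {x : F} (hx : Transcendental R x) {m : ℕ} {u : F}
    (hloc : ∀ 𝔪 : Ideal (chart R ({x⁻¹} : Set F)), 𝔪.IsMaximal →
      algebraMap R (chart R ({x⁻¹} : Set F)) w ∈ 𝔪 →
      ∃ h : F, (∃ t ∈ gaussO hw x, h = 1 + algebraMap R F w * t) ∧
        ∃ s a : chart R ({x⁻¹} : Set F), s ∉ 𝔪 ∧
          u * (s : F) = h ^ m * ((s : F) + algebraMap R F w * (a : F))) :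
    H348.ChartData w m u (chart R ({x⁻¹} : Set F)) (gaussO hw x) where
  le_V := chart_inf_le_gaussO hw (ne_zero_of_transcendental hx)
  closed := fun _ hf => mem_chart_of_isIntegral_chart hf
  qep := by
    intro b hb t ht hbt
    have hw0 : algebraMap R F w ≠ 0 := fun h0 => hw.ne_zero (hinjR (by rw [h0, map_zero]))
    obtain ⟨t', ht', hbt'⟩ := qep_inf hw hx b hb ⟨t, ht, hbt⟩
    have : t = t' := mul_left_cancel₀ hw0 (hbt.symm.trans hbt')
    rw [this]
    exact ht'
  loc := hloc

/-- **Route S with the canonical Gauss ring.** -/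
theorem exists_pow_eq_gaussO [IsNoetherianRing R] [CharZero F]
    (hinjR : Function.Injective (algebraMap R F))
    {x : F} (hx : Transcendental R x) [FiniteDimensional (baseField R x) F]
    {w : R} (hw : Prime w) {mi : R} {m : ℕ} (hmi : (m : R) * mi = 1) {u : F}
    (hu : InW (gaussO hw x) w (u - 1))
    (hloc_fin : ∀ 𝔪 : Ideal (chart R ({x} : Set F)), 𝔪.IsMaximal →
      algebraMap R (chart R ({x} : Set F)) w ∈ 𝔪 →
      ∃ h : F, (∃ t ∈ gaussO hw x, h = 1 + algebraMap R F w * t) ∧
        ∃ s a : chart R ({x} : Set F), s ∉ 𝔪 ∧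
          u * (s : F) = h ^ m * ((s : F) + algebraMap R F w * (a : F)))
    (hloc_inf : ∀ 𝔪 : Ideal (chart R ({x⁻¹} : Set F)), 𝔪.IsMaximal →
      algebraMap R (chart R ({x⁻¹} : Set F)) w ∈ 𝔪 →
      ∃ h : F, (∃ t ∈ gaussO hw x, h = 1 + algebraMap R F w * t) ∧
        ∃ s a : chart R ({x⁻¹} : Set F), s ∉ 𝔪 ∧
          u * (s : F) = h ^ m * ((s : F) + algebraMap R F w * (a : F)))
    (hconst : ∀ 𝔫 : Ideal (AdjoinRoot (X ^ m - C u)), 𝔫.IsMaximal →
      ∀ y : AdjoinRoot (X ^ m - C u) ⧸ 𝔫, IsIntegral R y →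
        y ∈ Set.range (algebraMap R (AdjoinRoot (X ^ m - C u) ⧸ 𝔫))) :
    ∃ y : F, y ^ m = u ∧ InW (gaussO hw x) w (y - 1) := by
  obtain ⟨y, hy, t, ht, hyt⟩ := H348.exists_pow_eq_of_local_factorisation hinjR hx w hw
    (gaussData_gaussO hinjR hw hx hmi hu) (chartData_fin hinjR hw hx hloc_fin)
    (chartData_inf hinjR hw hx hloc_inf) hconst
  exact ⟨y, hy, t, ht, by rw [hyt]; ring⟩

end Fermat.Agent.A2.H729

end
-- ===== PACK-END A2/H729/H348Adapter.lean

-- ===== PACK-BEGIN A2/Alg/H729/Glue.lean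
section




/-!
# WALL A2 / ALG — leaf GLUE modulo constants (helper729)

`glue_of_hconst` is the leaf `glue` of `Fermat/Agent/A2/Alg/Skel.lean` (architect helper34),
VERBATIM, with ONE extra hypothesis `hconst`: the constants do not grow in the residue fields of
the Kummer algebra `F[X]/(X ^ m - u)` (exact form of
`H348.exists_pow_eq_of_local_factorisation`).

Proof: `V := H729.gaussO` (canonical Gauss ring; closedness, Jacobson radical, q-expansion
principle on both charts are theorems), bridge `OneAt p₁ ∧ OneAt p₂ ⇒ 1 + w V`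
(`H729.inW_sub_one_of_oneAt`, going-up), and `H348.exists_pow_eq_of_local_factorisation`.
-/

set_option autoImplicit false
set_option linter.unusedSectionVars false
set_option linter.style.haveILetI false
set_option linter.unusedVariables false

namespace Fermat.Agent.A2.Alg.H729

open Fermat.Agent.A2 Fermat.Agent.A2.Alg Fermat.Agent.A2.H729
open Fermat.Agent.S18.H138 (chart baseField)
open Polynomial

section OneAtLemmas

variable {R F : Type*} [CommRing R] [Field F] [Algebra R F]

theorem oneAt_one {B : Subalgebra R F} {p : Ideal B} (hp : p.IsPrime) : OneAt B p 1 :=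
  ⟨1, 1, fun h => hp.ne_top ((Ideal.eq_top_iff_one p).2 h), by simp, by simp⟩

theorem oneAt_mul {B : Subalgebra R F} {p : Ideal B} (hp : p.IsPrime) {g g' : F}
    (h : OneAt B p g) (h' : OneAt B p g') : OneAt B p (g * g') := by
  obtain ⟨a, b, hb, hab, e⟩ := h
  obtain ⟨a', b', hb', hab', e'⟩ := h'
  refine ⟨a * a', b * b', fun hmem => ?_, ?_, ?_⟩
  · rcases hp.mem_or_mem hmem with h1 | h1
    · exact hb h1
    · exact hb' h1
  · have : a * a' - b * b' = a * (a' - b') + (a - b) * b' := by ring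
    rw [this]
    exact p.add_mem (p.mul_mem_left _ hab') (p.mul_mem_right _ hab)
  · push_cast
    rw [← e, ← e']
    ring

theorem oneAt_pow {B : Subalgebra R F} {p : Ideal B} (hp : p.IsPrime) {g : F}
    (h : OneAt B p g) (n : ℕ) : OneAt B p (g ^ n) := by
  induction n with
  | zero => rw [pow_zero]; exact oneAt_one hp
  | succ n ih => rw [pow_succ]; exact oneAt_mul hp ih h

theorem oneAt_inv {B : Subalgebra R F} {p : Ideal B} {g : F}
    (h : OneAt B p g) : OneAt B p g⁻¹ := by
  obtain ⟨a, b, hb, hab, e⟩ := h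
  have ha : a ∉ p := by
    intro ha
    apply hb
    have : b = a - (a - b) := by ring
    rw [this]
    exact p.sub_mem ha hab
  have hg : g ≠ 0 := by
    rintro rfl
    rw [zero_mul] at e
    apply ha
    have : a = 0 := Subtype.ext e.symm
    rw [this]
    exact p.zero_mem
  refine ⟨b, a, ha, ?_, ?_⟩
  · have : b - a = -(a - b) := by ring
    rw [this]
    exact p.neg_mem hab
  · rw [← e, ← mul_assoc, inv_mul_cancel₀ hg, one_mul]

theorem oneAt_of_locOne {B : Subalgebra R F} {n I p : Ideal B} (hpn : p ≤ n) (hIp : I ≤ p)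
    {g : F} (h : LocOne B n I g) : OneAt B p g := by
  obtain ⟨a, b, hb, hab, e⟩ := h
  exact ⟨a, b, fun hmem => hb (hpn hmem), hIp hab, e⟩

end OneAtLemmas

section Glue

variable {R E F : Type*} [CommRing R] [IsDomain R] [IsDiscreteValuationRing R]
  [HenselianLocalRing R] [IsAlgClosed (IsLocalRing.ResidueField R)]
  [Field E] [CharZero E] [Algebra R E] [IsFractionRing R E]
  [Field F] [Algebra E F] [Algebra R F] [IsScalarTower R E F]

/-- `m` is invertible in `R`. -/
theorem exists_inv_natCast (q m : ℕ) (hq : q.Prime)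
    (hqR : (q : R) ∈ IsLocalRing.maximalIdeal R) (hqm : ¬ q ∣ m) :
    ∃ mi : R, (m : R) * mi = 1 := by
  have hmR : (m : R) ∉ IsLocalRing.maximalIdeal R := by
    intro hmem
    have hcop : Nat.Coprime m q := ((Nat.Prime.coprime_iff_not_dvd hq).2 hqm).symm
    obtain ⟨a, b, hab⟩ := Nat.isCoprime_iff_coprime.2 hcop
    have h1 : ((a * (m : ℤ) + b * (q : ℤ) : ℤ) : R) = 1 := by rw [hab]; simp
    have h2 : (1 : R) ∈ IsLocalRing.maximalIdeal R := by
      rw [← h1]
      push_cast
      exact Ideal.add_mem _ (Ideal.mul_mem_left _ _ hmem) (Ideal.mul_mem_left _ _ hqR)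
    exact (IsLocalRing.maximalIdeal.isMaximal R).ne_top ((Ideal.eq_top_iff_one _).2 h2)
  exact (IsLocalRing.notMem_maximalIdeal.1 hmR).exists_right_inv

/-- Local factorisations on one chart, in the form of `H729.exists_pow_eq_gaussO`. -/
theorem loc_of_locallyFactored {w : R} (hw : Prime w) {x : F} (hx : Transcendental R x)
    (c : SSChart w (chart R ({x} : Set F))) (hc : Incomparable c) {m : ℕ} {u : F}
    (hf : LocallyFactored (chart R ({x} : Set F)) c m u) :
    ∀ 𝔪 : Ideal (chart R ({x} : Set F)), 𝔪.IsMaximal →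
      algebraMap R (chart R ({x} : Set F)) w ∈ 𝔪 →
      ∃ h : F, (∃ t ∈ gaussO hw x, h = 1 + algebraMap R F w * t) ∧
        ∃ s a : chart R ({x} : Set F), s ∉ 𝔪 ∧
          u * (s : F) = h ^ m * ((s : F) + algebraMap R F w * (a : F)) := by
  intro 𝔪 h𝔪 hw𝔪
  obtain ⟨h, hh0, ⟨a, b, hb, hab, e⟩, h1, h2⟩ := hf 𝔪 h𝔪 hw𝔪
  have hInW : InW (gaussO hw x) w (h - 1) :=
    inW_sub_one_of_oneAt hw hx c.prime₁ c.prime₂ c.inf_eq hc.1 hc.2 h1 h2
  obtain ⟨-, -, t, ht, htt⟩ := inW_inv_sub_one hw hx hInW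
  obtain ⟨d, hd⟩ := Ideal.mem_span_singleton'.1 hab
  refine ⟨h⁻¹, ⟨t, ht, by rw [← htt]; ring⟩, b, d, hb, ?_⟩
  have hdF : (d : F) * algebraMap R F w = (a : F) - (b : F) :=
    congrArg (fun t : chart R ({x} : Set F) => (t : F)) hd
  have e1 : (b : F) + algebraMap R F w * (d : F) = (a : F) := by
    rw [mul_comm, hdF]; ring
  rw [e1, ← e, inv_pow]
  field_simp

/-- `u ≡ 1 mod w · gaussO` from local factorisations at one closed point on each component. -/
theorem inW_of_locallyFactored {w : R} (hw : Prime w) {x : F} (hx : Transcendental R x)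
    (c : SSChart w (chart R ({x} : Set F))) (hc : Incomparable c) {m : ℕ} {u : F}
    (hf : LocallyFactored (chart R ({x} : Set F)) c m u) :
    InW (gaussO hw x) w (u - 1) := by
  have hw₁₂ : algebraMap R (chart R ({x} : Set F)) w ∈ c.p₁ ⊓ c.p₂ := by
    rw [c.inf_eq]; exact Ideal.mem_span_singleton_self _
  have hspan₁ : Ideal.span {algebraMap R (chart R ({x} : Set F)) w} ≤ c.p₁ := by
    rw [← c.inf_eq]; exact inf_le_left
  have hspan₂ : Ideal.span {algebraMap R (chart R ({x} : Set F)) w} ≤ c.p₂ := by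
    rw [← c.inf_eq]; exact inf_le_right
  have key : ∀ p : Ideal (chart R ({x} : Set F)), p.IsPrime →
      Ideal.span {algebraMap R (chart R ({x} : Set F)) w} ≤ p →
      (∀ h : F, OneAt (chart R ({x} : Set F)) c.p₁ h → OneAt (chart R ({x} : Set F)) c.p₂ h →
        OneAt (chart R ({x} : Set F)) p h) →
      OneAt (chart R ({x} : Set F)) p u := by
    intro p hp hwp hsel
    obtain ⟨𝔪, h𝔪, hp𝔪⟩ := Ideal.exists_le_maximal p hp.ne_top
    have hw𝔪 : algebraMap R (chart R ({x} : Set F)) w ∈ 𝔪 :=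
      hp𝔪 (hwp (Ideal.mem_span_singleton_self _))
    obtain ⟨h, hh0, hloc, h1, h2⟩ := hf 𝔪 h𝔪 hw𝔪
    have hA : OneAt (chart R ({x} : Set F)) p (u * h ^ m) := oneAt_of_locOne hp𝔪 hwp hloc
    have hB : OneAt (chart R ({x} : Set F)) p (h ^ m)⁻¹ :=
      oneAt_inv (oneAt_pow hp (hsel h h1 h2) m)
    have := oneAt_mul hp hA hB
    rwa [mul_assoc, mul_inv_cancel₀ (pow_ne_zero _ hh0), mul_one] at this
  exact inW_sub_one_of_oneAt hw hx c.prime₁ c.prime₂ c.inf_eq hc.1 hc.2
    (key c.p₁ c.prime₁ hspan₁ fun _ h1 _ => h1)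
    (key c.p₂ c.prime₂ hspan₂ fun _ _ h2 => h2)

/-- **GLUE modulo constants** (leaf `glue` of `Alg/Skel.lean` + `hconst`). -/
theorem glue_of_hconst (q m : ℕ) (hq : q.Prime) (hqR : (q : R) ∈ IsLocalRing.maximalIdeal R)
    (hm : 0 < m) (hqm : ¬ q ∣ m)
    (w : R) (x : F) (Bf Bi : Subalgebra R F)
    (hBf : ChartCtx E w x Bf) (hBi : ChartCtx E w x⁻¹ Bi)
    (cf : SSChart w Bf) (ci : SSChart w Bi) (hcf : Incomparable cf) (hci : Incomparable ci)
    (u : F) (hu : u ≠ 0) (hdiv : DivisibleDiv E m u)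
    (hf : LocallyFactored Bf cf m u) (hi : LocallyFactored Bi ci m u)
    (hconst : ∀ 𝔫 : Ideal (AdjoinRoot (X ^ m - C u)), 𝔫.IsMaximal →
      ∀ y : AdjoinRoot (X ^ m - C u) ⧸ 𝔫, IsIntegral R y →
        y ∈ Set.range (algebraMap R (AdjoinRoot (X ^ m - C u) ⧸ 𝔫))) :
    ∃ y : F, y ≠ 0 ∧ u = y ^ m := by
  obtain rfl := H34.chart_eq x Bf hBf.hB
  obtain rfl := H34.chart_eq x⁻¹ Bi hBi.hB
  haveI : CharZero F := H34.charZero_of_field (E := E)
  haveI := H34.finiteDimensional_baseField (R := R) x hBf.hfin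
  have hinjR : Function.Injective (algebraMap R F) := H34.algebraMap_RF_injective E
  have hx : Transcendental R x := H34.transcendental_of_field hBf.hx
  have hx0 : x ≠ 0 := Fermat.Agent.S18.H138.ne_zero_of_transcendental hx
  have hxi : Transcendental R x⁻¹ := Fermat.Agent.S18.H138.transcendental_inv hx
  have hw : Prime w := hBf.hw.prime
  obtain ⟨mi, hmi⟩ := exists_inv_natCast (R := R) q m hq hqR hqm
  have hu1 : InW (gaussO hw x) w (u - 1) := inW_of_locallyFactored hw hx cf hcf hf
  have hloc_fin := loc_of_locallyFactored hw hx cf hcf hf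
  have hloc_inf := loc_of_locallyFactored hw hxi ci hci hi
  rw [gaussO_inv hw hx0] at hloc_inf
  obtain ⟨y, hy, -⟩ := exists_pow_eq_gaussO hinjR hx hw hmi hu1 hloc_fin hloc_inf hconst
  refine ⟨y, ?_, hy.symm⟩
  rintro rfl
  rw [zero_pow hm.ne'] at hy
  exact hu hy.symm

end Glue

end Fermat.Agent.A2.Alg.H729

end
-- ===== PACK-END A2/Alg/H729/Glue.lean

-- ===== PACK-BEGIN A2/Mod/H31/DegField.lean
section



/-!
# A2 / MOD leaf L8 (helper31) — part 2: `[k(j(t^d) : d ∣ M q) : k(j · j_q)] = 2 (q+1) ψ(M)`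

`k` any field in which the primes dividing `M q` are invertible, `q ∤ M` prime.
Inputs: helper988's degree formula `[F_N : k(j)] = ψ(N)`, the modular polynomial `Φ_q`
(`S28.ModPolyData`, both vanishing properties), and the bivariate degree lemma of `Biv.lean`.
-/

set_option autoImplicit false

noncomputable section

namespace Fermat.Agent.A2.Mod.H31

open ModularCurve HahnSeries Polynomial IntermediateField
open scoped Polynomial.Bivariate

/-! ### Algebraic Laurent series are constant -/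

section LaurentConst

variable {K : Type*} [Field K]

/-- A Laurent series over a field `K` which is algebraic over `K` is constant. -/
theorem laurent_const_of_isAlgebraic (f : LaurentSeries K) (hf : IsAlgebraic K f) :
    ∃ c : K, f = algebraMap K (LaurentSeries K) c := by
  have key : ∀ g : LaurentSeries K, IsAlgebraic K g →
      ∃ y : PowerSeries K, algebraMap (PowerSeries K) (LaurentSeries K) y = g := by
    intro g hg
    obtain ⟨p, hpm, hp⟩ := hg.isIntegral
    have h2 : IsIntegral (PowerSeries K) g := by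
      refine ⟨p.map (PowerSeries.C (R := K)), hpm.map _, ?_⟩
      rw [Polynomial.eval₂_map]
      exact hp
    exact IsIntegrallyClosed.isIntegral_iff.mp h2
  obtain ⟨y, hy⟩ := key f hf
  set c₀ := PowerSeries.constantCoeff y with hc₀
  by_cases hg : y - PowerSeries.C c₀ = 0
  · refine ⟨c₀, ?_⟩
    rw [← hy, sub_eq_zero.mp hg]
    rfl
  · exfalso
    have hg' : algebraMap (PowerSeries K) (LaurentSeries K) (y - PowerSeries.C c₀) ≠ 0 := by
      intro h
      exact hg ((injective_iff_map_eq_zero _).1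
        (IsFractionRing.injective (PowerSeries K) (LaurentSeries K)) _ h)
    have halg : IsAlgebraic K (algebraMap (PowerSeries K) (LaurentSeries K)
        (y - PowerSeries.C c₀)) := by
      rw [map_sub, hy]
      refine hf.sub ?_
      have : algebraMap (PowerSeries K) (LaurentSeries K) (PowerSeries.C c₀) =
          algebraMap K (LaurentSeries K) c₀ := rfl
      rw [this]
      exact isAlgebraic_algebraMap c₀
    obtain ⟨z, hz⟩ := key _ halg.inv
    have h1 : algebraMap (PowerSeries K) (LaurentSeries K) ((y - PowerSeries.C c₀) * z) =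
        algebraMap (PowerSeries K) (LaurentSeries K) 1 := by
      rw [map_mul, hz, map_one, mul_inv_cancel₀ hg']
    have h2 := IsFractionRing.injective (PowerSeries K) (LaurentSeries K) h1
    have h3 := congrArg (PowerSeries.constantCoeff (R := K)) h2
    rw [map_mul, map_sub, PowerSeries.constantCoeff_C, ← hc₀, sub_self, zero_mul, map_one] at h3
    exact zero_ne_one h3

/-- A Laurent series with a pole is transcendental over the constants. -/
theorem transcendental_of_order_neg {f : LaurentSeries K} (hf : f.order < 0) :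
    Transcendental K f := by
  intro halg
  obtain ⟨c, hc⟩ := laurent_const_of_isAlgebraic f halg
  rw [hc, algebraMap_laurentSeries_eq_single, ← HahnSeries.C_apply, HahnSeries.order_C] at hf
  exact lt_irrefl _ hf

end LaurentConst

/-! ### The generators `j`, `j_q` and the coordinate `x = j j_q` over a field -/

section Main

variable (k : Type*) [Field k]

theorem order_qExpand_jqModC_neg (d : ℕ) [NeZero d] : (qExpand k d (jqModC k)).order < 0 := by
  have h1 : (qExpand k d (jqModC k)).coeff (-(d : ℤ)) = 1 := by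
    rw [show (-(d : ℤ)) = (d : ℤ) * (-1) by ring, qExpand_coeff_mul, coeff_jqModC_neg_one]
  have h2 : (qExpand k d (jqModC k)).coeff (-(d : ℤ)) ≠ 0 := by
    rw [h1]
    exact one_ne_zero
  have h3 := HahnSeries.order_le_of_coeff_ne_zero h2
  have h4 : (0 : ℤ) < d := by exact_mod_cast Nat.pos_of_ne_zero (NeZero.ne d)
  omega

theorem order_jqModC_neg : (jqModC k).order < 0 := by
  have := order_qExpand_jqModC_neg k 1
  rwa [qExpand_one_apply] at this

theorem transcendental_jqModC : Transcendental k (jqModC k) :=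
  transcendental_of_order_neg (order_jqModC_neg k)

theorem order_x_neg (q : ℕ) [NeZero q] : (jqModC k * qExpand k q (jqModC k)).order < 0 := by
  have h1 := order_jqModC_neg k
  have h2 := order_qExpand_jqModC_neg k q
  have hj : jqModC k ≠ 0 := by
    intro h
    rw [h] at h1
    simp at h1
  have hjq : qExpand k q (jqModC k) ≠ 0 := by
    intro h
    rw [h] at h2
    simp at h2
  rw [HahnSeries.order_mul hj hjq]
  omega

theorem transcendental_x (q : ℕ) [NeZero q] :
    Transcendental k (jqModC k * qExpand k q (jqModC k)) :=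
  transcendental_of_order_neg (order_x_neg k q)

/-! ### The modular polynomial over `k` -/

/-- The modular polynomial `Φ_q` with coefficients in `k`. -/
def modPolyK (q : ℕ) [NeZero q] (D : S28.ModPolyData q) : k[X][Y] :=
  D.Φ.map (mapRingHom (Int.castRingHom k))

theorem modPolyK_monic (q : ℕ) [NeZero q] (D : S28.ModPolyData q) : (modPolyK k q D).Monic :=
  D.monic.map _

theorem natDegree_modPolyK (q : ℕ) [NeZero q] (D : S28.ModPolyData q) :
    (modPolyK k q D).natDegree = q + 1 := by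
  rw [modPolyK, D.monic.natDegree_map, D.natDegree_eq]

theorem aeval_comp_mapRingHom (y : LaurentSeries k) :
    (aeval (R := k) y).toRingHom.comp (mapRingHom (Int.castRingHom k)) = S28.evalAt y := by
  refine Polynomial.ringHom_ext' (Subsingleton.elim _ _) ?_
  simp [S28.evalAt]

theorem coeffMap_comp_evalAt (y : LaurentSeries ℤ) :
    (coeffMap (Int.castRingHom k)).comp (S28.evalAt y)
      = S28.evalAt (coeffMap (Int.castRingHom k) y) := by
  refine Polynomial.ringHom_ext' (Subsingleton.elim _ _) ?_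
  simp [S28.evalAt]

theorem aevalAeval_modPolyK (q : ℕ) [NeZero q] (D : S28.ModPolyData q) :
    aevalAeval (jqModC k) (qExpand k q (jqModC k)) (modPolyK k q D) = 0 := by
  rw [aevalAeval_eq_eval₂, modPolyK, eval₂_map, aeval_comp_mapRingHom]
  have h := congrArg (coeffMap (Int.castRingHom k)) D.eval_jp
  rw [Polynomial.hom_eval₂, map_zero, coeffMap_comp_evalAt, coeffMap_qExpand,
    coeffMap_jqModC] at h
  exact h

theorem aevalAeval_modPolyK' (q : ℕ) [NeZero q] (D : S28.ModPolyData q) :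
    aevalAeval (qExpand k q (jqModC k)) (jqModC k) (modPolyK k q D) = 0 := by
  rw [aevalAeval_eq_eval₂, modPolyK, eval₂_map, aeval_comp_mapRingHom]
  have h := congrArg (coeffMap (Int.castRingHom k)) D.eval_j
  rw [Polynomial.hom_eval₂, map_zero, coeffMap_comp_evalAt, coeffMap_qExpand,
    coeffMap_jqModC] at h
  exact h

/-! ### Degrees -/

theorem divisorExpansionsC_prime {q : ℕ} [NeZero q] (hq : q.Prime) :
    divisorExpansionsC k q = {jqModC k, qExpand k q (jqModC k)} := by
  ext x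
  constructor
  · rintro ⟨d, hd, hdq, rfl⟩
    rcases (Nat.dvd_prime hq).mp hdq with h | h
    · subst h
      left
      exact qExpand_one_apply _
    · subst h
      right
      rfl
  · rintro (rfl | rfl)
    · exact ⟨1, inferInstance, one_dvd _, (qExpand_one_apply _).symm⟩
    · exact ⟨q, inferInstance, dvd_rfl, rfl⟩

theorem fullC_prime_eq {q : ℕ} [NeZero q] (hq : q.Prime) :
    modularFunctionFieldFullC k q = adjoin k {jqModC k, qExpand k q (jqModC k)} := by
  rw [modularFunctionFieldFullC, divisorExpansionsC_prime k hq]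

theorem fullC_mono {N N' : ℕ} (h : N ∣ N') :
    modularFunctionFieldFullC k N ≤ modularFunctionFieldFullC k N' := by
  apply IntermediateField.adjoin.mono
  rintro x ⟨d, hd, hdN, rfl⟩
  exact ⟨d, hd, hdN.trans h, rfl⟩

theorem dedekindPsi_prime {q : ℕ} (hq : q.Prime) : dedekindPsi q = q + 1 := by
  have h := S28.H626.psi_mul_prime_of_not_dvd (N := 1) one_ne_zero hq
    (fun h => hq.one_lt.ne' (Nat.dvd_one.mp h))
  rwa [one_mul, dedekindPsi_one, mul_one] at h

theorem relfinrank_j_fullC (N : ℕ) (hN : N ≠ 0)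
    (hchar : ∀ p : ℕ, p.Prime → p ∣ N → (p : k) ≠ 0) :
    (k⟮jqModC k⟯).relfinrank (modularFunctionFieldFullC k N) = dedekindPsi N :=
  S28.H988.relfinrank_jField_full_eq k N hN hchar

theorem jField_le_fullC (N : ℕ) : k⟮jqModC k⟯ ≤ modularFunctionFieldFullC k N := by
  rw [adjoin_le_iff]
  rintro x hx
  rw [Set.mem_singleton_iff] at hx
  subst hx
  exact IntermediateField.subset_adjoin k _ ⟨1, inferInstance, one_dvd _, (qExpand_one_apply _).symm⟩

/-- `[k(j, j_q) : k(j)] = q + 1`, in the form needed by `finrank_adjoin_mul`. -/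
theorem finrank_adjoin_jq {q : ℕ} [NeZero q] (hq : q.Prime) (hchar : (q : k) ≠ 0) :
    Module.finrank k⟮jqModC k⟯ (k⟮jqModC k⟯)⟮qExpand k q (jqModC k)⟯ = q + 1 := by
  have h1 := relfinrank_j_fullC k q hq.ne_zero (fun p hp hpq => by
    rw [(Nat.prime_dvd_prime_iff_eq hp hq).mp hpq]
    exact hchar)
  rw [dedekindPsi_prime hq, relfinrank_eq_finrank_of_le (jField_le_fullC k q)] at h1
  have hext : extendScalars (jField_le_fullC k q)
      = (k⟮jqModC k⟯)⟮qExpand k q (jqModC k)⟯ := by
    apply restrictScalars_injective k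
    rw [extendScalars_restrictScalars, adjoin_adjoin_left, fullC_prime_eq k hq,
      Set.singleton_union]
  rw [← h1]
  exact (congrArg (fun F : IntermediateField (k⟮jqModC k⟯) (LaurentSeries k) =>
    Module.finrank k⟮jqModC k⟯ F) hext).symm

/-- `[k(j, j_q) : k(j j_q)] = 2 (q + 1)`. -/
theorem relfinrank_x_fullC_prime {q : ℕ} [NeZero q] (hq : q.Prime) (hchar : (q : k) ≠ 0) :
    (k⟮jqModC k * qExpand k q (jqModC k)⟯).relfinrank (modularFunctionFieldFullC k q)
      = 2 * (q + 1) := by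
  obtain ⟨D⟩ := S28.H807.nonempty_modPolyData q hq
  have hmain := finrank_adjoin_mul (transcendental_jqModC k) (transcendental_x k q)
    (modPolyK_monic k q D) (aevalAeval_modPolyK k q D) (aevalAeval_modPolyK' k q D)
    (by rw [natDegree_modPolyK]; exact finrank_adjoin_jq k hq hchar)
  rw [natDegree_modPolyK] at hmain
  have hj0 : jqModC k ≠ 0 := by
    intro h
    have := order_jqModC_neg k
    rw [h] at this
    simp at this
  have hset : adjoin k ({jqModC k * qExpand k q (jqModC k)} ∪ {jqModC k})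
      = modularFunctionFieldFullC k q := by
    rw [fullC_prime_eq k hq]
    apply le_antisymm
    · rw [adjoin_le_iff]
      rintro x (hx | hx)
      · rw [Set.mem_singleton_iff] at hx
        subst hx
        exact mul_mem (subset_adjoin k _ (Set.mem_insert _ _))
          (subset_adjoin k _ (Set.mem_insert_of_mem _ rfl))
      · rw [Set.mem_singleton_iff] at hx
        subst hx
        exact subset_adjoin k _ (Set.mem_insert _ _)
    · rw [adjoin_le_iff]
      rintro x (hx | hx)
      · subst hx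
        exact subset_adjoin k _ (Or.inr rfl)
      · rw [Set.mem_singleton_iff] at hx
        subst hx
        have h1 : (jqModC k)⁻¹ * (jqModC k * qExpand k q (jqModC k))
            = qExpand k q (jqModC k) := by
          rw [← mul_assoc, inv_mul_cancel₀ hj0, one_mul]
        have h2 : (jqModC k)⁻¹ * (jqModC k * qExpand k q (jqModC k)) ∈
            adjoin k ({jqModC k * qExpand k q (jqModC k)} ∪ {jqModC k}) :=
          mul_mem (inv_mem (subset_adjoin k _ (Or.inr rfl))) (subset_adjoin k _ (Or.inl rfl))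
        rwa [h1] at h2
  have hle : k⟮jqModC k * qExpand k q (jqModC k)⟯ ≤ modularFunctionFieldFullC k q := by
    rw [← hset]
    exact IntermediateField.adjoin.mono k _ _ Set.subset_union_left
  rw [relfinrank_eq_finrank_of_le hle]
  have hext : extendScalars hle
      = (k⟮jqModC k * qExpand k q (jqModC k)⟯)⟮jqModC k⟯ := by
    apply restrictScalars_injective k
    rw [extendScalars_restrictScalars, adjoin_adjoin_left, hset]
  rw [← hmain]
  exact congrArg (fun F : IntermediateField (k⟮jqModC k * qExpand k q (jqModC k)⟯)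
    (LaurentSeries k) => Module.finrank k⟮jqModC k * qExpand k q (jqModC k)⟯ F) hext

/-- **Degree over `k(x)`, `x = j j_q`, at level `M q`.** -/
theorem relfinrank_x_fullC (M : ℕ) {q : ℕ} [NeZero q] (hq : q.Prime) (hqM : ¬ q ∣ M)
    (hchar : ∀ p : ℕ, p.Prime → p ∣ M * q → (p : k) ≠ 0) :
    (k⟮jqModC k * qExpand k q (jqModC k)⟯).relfinrank (modularFunctionFieldFullC k (M * q))
      = 2 * ((q + 1) * dedekindPsi M) := by
  have hM : M ≠ 0 := by
    rintro rfl
    exact hqM (dvd_zero q)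
  have hqk : (q : k) ≠ 0 := hchar q hq (dvd_mul_left q M)
  have hqdvd : q ∣ M * q := dvd_mul_left q M
  have h1 := relfinrank_j_fullC k q hq.ne_zero (fun p hp hpq =>
    hchar p hp (hpq.trans hqdvd))
  have h2 := relfinrank_j_fullC k (M * q) (Nat.mul_ne_zero hM hq.ne_zero) hchar
  rw [dedekindPsi_prime hq] at h1
  rw [S28.H626.psi_mul_prime_of_not_dvd hM hq hqM] at h2
  have h3 := relfinrank_mul_relfinrank (jField_le_fullC k q) (fullC_mono k hqdvd)
  rw [h1, h2] at h3
  have h4 : (modularFunctionFieldFullC k q).relfinrank (modularFunctionFieldFullC k (M * q))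
      = dedekindPsi M := Nat.eq_of_mul_eq_mul_left (Nat.succ_pos q) h3
  have h5 := relfinrank_x_fullC_prime k hq hqk
  have hle : k⟮jqModC k * qExpand k q (jqModC k)⟯ ≤ modularFunctionFieldFullC k q := by
    rw [adjoin_simple_le_iff, fullC_prime_eq k hq]
    exact mul_mem (subset_adjoin k _ (Set.mem_insert _ _))
      (subset_adjoin k _ (Set.mem_insert_of_mem _ rfl))
  have h6 := relfinrank_mul_relfinrank hle (fullC_mono k hqdvd)
  rw [h5, h4] at h6
  rw [← h6]
  ring

end Main

end Fermat.Agent.A2.Mod.H31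

end

end
-- ===== PACK-END A2/Mod/H31/DegField.lean

-- ===== PACK-BEGIN A2/Mod/H96/L12.lean
section




/-!
# A2 / MOD leaf L12 (helper96): the Kronecker congruence, semilinear form

`kron : KronStatement P E M q w` (`Mod/Spec.lean`, verbatim):
for `a ∈ V∞_M` there is `a' ∈ V∞_M` with `β a ≡ (α a')^q mod w V∞` at level `M q`.

Proof.  `a = U₁/U₂` with `U₁, U₂ ∈ R((t)) ∩ F_M`, `Ū₂ ≠ 0`.  By `S28.CoreData M k` (good reduction
at level `M`, via `S18.H516.red_mem_of_incl_mem`) the residues `Ū₁, Ū₂` lie in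
`F_k = k(j̄_d : d ∣ M)`.  `F_k` is stable under the inverse Frobenius twist of the coefficients
(`exists_frob_root_of_mem_fullC`: `k` is perfect, the generators have coefficients in `𝔽_q`): there
is `r' ∈ F_k` with `r'^q = (Ū₁/Ū₂)(t^q)`.  Lift `r' = W̄₁/W̄₂` (`exists_lift_of_mem_fullC`) and put
`a' := W₁/W₂`.  Then `β a − (α a')^q = (U₁(t^q) W₂^q − W₁^q U₂(t^q)) / (U₂(t^q) W₂^q)`, the
denominator is primitive and the numerator reduces to `0`, hence is divisible by `w`.
-/

set_option autoImplicit false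
set_option linter.unusedSectionVars false
set_option linter.style.haveILetI false
set_option synthInstance.maxHeartbeats 400000
set_option maxHeartbeats 1600000

noncomputable section

namespace Fermat.Agent.A2.Mod.H96

open ModularCurve HahnSeries Fermat.Agent.S28

section Residue

variable (P : ValuationSubring _root_.Fermat.Agent.A2.Mod.Qb) (E : IntermediateField ℚ _root_.Fermat.Agent.A2.Mod.Qb)

/-- `R_E` lies over `q` if `P` does. -/
theorem liesOver_RE {q : ℕ} (hP : P.LiesOverPrime q) : (_root_.Fermat.Agent.A2.Mod.RE P E).LiesOverPrime q := by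
  have h1 : P.valuation ((q : ℕ) : _root_.Fermat.Agent.A2.Mod.Qb) < 1 := (ValuationSubring.mem_nonunits_iff _).mp hP
  show ((q : ℕ) : E) ∈ (_root_.Fermat.Agent.A2.Mod.RE P E).nonunits
  rw [ValuationSubring.mem_nonunits_iff_exists_mem_maximalIdeal]
  have hmem : ((q : ℕ) : E) ∈ _root_.Fermat.Agent.A2.Mod.RE P E := by
    show algebraMap E _root_.Fermat.Agent.A2.Mod.Qb ((q : ℕ) : E) ∈ P
    rw [map_natCast]
    exact natCast_mem P q
  refine ⟨hmem, ?_⟩
  rw [IsLocalRing.mem_maximalIdeal, mem_nonunits_iff]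
  intro hu
  obtain ⟨s, hs⟩ := isUnit_iff_exists_inv.mp hu
  have h2 : ((q : ℕ) : _root_.Fermat.Agent.A2.Mod.Qb) * algebraMap E _root_.Fermat.Agent.A2.Mod.Qb (s : E) = 1 := by
    have := congrArg (fun z : _root_.Fermat.Agent.A2.Mod.RE P E => algebraMap E _root_.Fermat.Agent.A2.Mod.Qb (z : E)) hs
    simpa using this
  have h3 : P.valuation (algebraMap E _root_.Fermat.Agent.A2.Mod.Qb (s : E)) ≤ 1 :=
    (P.valuation_le_one_iff _).mpr s.2
  have h4 := congrArg P.valuation h2
  rw [map_mul, map_one] at h4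
  have h5 : P.valuation ((q : ℕ) : _root_.Fermat.Agent.A2.Mod.Qb) * P.valuation (algebraMap E _root_.Fermat.Agent.A2.Mod.Qb (s : E)) < 1 :=
    calc P.valuation ((q : ℕ) : _root_.Fermat.Agent.A2.Mod.Qb) * P.valuation (algebraMap E _root_.Fermat.Agent.A2.Mod.Qb (s : E))
        ≤ P.valuation ((q : ℕ) : _root_.Fermat.Agent.A2.Mod.Qb) * 1 := mul_le_mul_right h3 _
      _ = P.valuation ((q : ℕ) : _root_.Fermat.Agent.A2.Mod.Qb) := mul_one _
      _ < 1 := h1
  exact absurd h4 h5.ne

/-- Every element of `R_E` is a root of an integer polynomial which is nonzero modulo `q`. -/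
theorem exists_intPoly_residue (r : _root_.Fermat.Agent.A2.Mod.RE P E) {q : ℕ} (hq : q.Prime) :
    ∃ G : Polynomial ℤ, G.map (Int.castRingHom (ZMod q)) ≠ 0 ∧
      Polynomial.eval₂ (Int.castRingHom (_root_.Fermat.Agent.A2.Mod.RE P E)) r G = 0 := by
  haveI : Fact q.Prime := ⟨hq⟩
  have halgQ : IsAlgebraic ℚ ((r : E) : _root_.Fermat.Agent.A2.Mod.Qb) := (AlgebraicClosure.isAlgebraic ℚ).isAlgebraic _
  have halgZ : IsAlgebraic ℤ ((r : E) : _root_.Fermat.Agent.A2.Mod.Qb) := (IsFractionRing.isAlgebraic_iff ℤ ℚ _root_.Fermat.Agent.A2.Mod.Qb).mpr halgQ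
  obtain ⟨G, hG0, hG⟩ := halgZ
  have hprim : G.primPart.IsPrimitive := Polynomial.isPrimitive_primPart G
  have hev : Polynomial.aeval ((r : E) : _root_.Fermat.Agent.A2.Mod.Qb) G.primPart = 0 := by
    have h1 := G.eq_C_content_mul_primPart
    rw [h1, map_mul, Polynomial.aeval_C] at hG
    rcases mul_eq_zero.mp hG with h | h
    · exfalso
      have : (G.content : _root_.Fermat.Agent.A2.Mod.Qb) = 0 := by simpa using h
      have h2 : G.content = 0 := by exact_mod_cast this
      exact hG0 (Polynomial.content_eq_zero_iff.mp h2)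
    · exact h
  refine ⟨G.primPart, ?_, ?_⟩
  · intro h0
    have hdvd : Polynomial.C (q : ℤ) ∣ G.primPart := by
      rw [Polynomial.C_dvd_iff_dvd_coeff]
      intro i
      have := congrArg (fun Q : Polynomial (ZMod q) => Q.coeff i) h0
      simp only [Polynomial.coeff_map, Polynomial.coeff_zero, eq_intCast] at this
      exact (ZMod.intCast_zmod_eq_zero_iff_dvd _ _).mp this
    have hu := hprim _ hdvd
    have : IsUnit (q : ℤ) := hu
    rw [Int.isUnit_iff] at this
    have hq2 := hq.two_le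
    omega
  · have hinj : Function.Injective ((algebraMap E _root_.Fermat.Agent.A2.Mod.Qb).comp (_root_.Fermat.Agent.A2.Mod.RE P E).subtype) := by
      intro a b h
      exact Subtype.ext (Subtype.ext h)
    apply hinj
    rw [map_zero, Polynomial.hom_eval₂]
    have : (((algebraMap E _root_.Fermat.Agent.A2.Mod.Qb).comp (_root_.Fermat.Agent.A2.Mod.RE P E).subtype).comp (Int.castRingHom (_root_.Fermat.Agent.A2.Mod.RE P E))) =
        algebraMap ℤ _root_.Fermat.Agent.A2.Mod.Qb := RingHom.ext_int _ _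
    rw [this]
    exact hev

/-- The residue field of `R_E` is perfect: Frobenius is surjective. -/
theorem exists_pow_eq_residue {q : ℕ} (hq : q.Prime) (hP : P.LiesOverPrime q)
    (c : IsLocalRing.ResidueField (_root_.Fermat.Agent.A2.Mod.RE P E)) :
    ∃ c' : IsLocalRing.ResidueField (_root_.Fermat.Agent.A2.Mod.RE P E), c' ^ q = c := by
  haveI : Fact q.Prime := ⟨hq⟩
  haveI : CharP (IsLocalRing.ResidueField (_root_.Fermat.Agent.A2.Mod.RE P E)) q :=
    Fermat.Agent.S18.H516.charP_residue (_root_.Fermat.Agent.A2.Mod.RE P E) (liesOver_RE P E hP)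
  letI : Algebra (ZMod q) (IsLocalRing.ResidueField (_root_.Fermat.Agent.A2.Mod.RE P E)) := ZMod.algebra _ q
  haveI : Algebra.IsAlgebraic (ZMod q) (IsLocalRing.ResidueField (_root_.Fermat.Agent.A2.Mod.RE P E)) := by
    refine ⟨fun x => ?_⟩
    obtain ⟨r', rfl⟩ := IsLocalRing.residue_surjective x
    obtain ⟨G, hG0, hG⟩ := exists_intPoly_residue P E r' hq
    refine ⟨G.map (Int.castRingHom (ZMod q)), hG0, ?_⟩
    rw [Polynomial.aeval_def, Polynomial.eval₂_map]
    have h1 : (algebraMap (ZMod q) (IsLocalRing.ResidueField (_root_.Fermat.Agent.A2.Mod.RE P E))).comp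
        (Int.castRingHom (ZMod q)) =
        (IsLocalRing.residue (_root_.Fermat.Agent.A2.Mod.RE P E)).comp (Int.castRingHom (_root_.Fermat.Agent.A2.Mod.RE P E)) := RingHom.ext_int _ _
    rw [h1, ← Polynomial.hom_eval₂, hG, map_zero]
  haveI : PerfectField (IsLocalRing.ResidueField (_root_.Fermat.Agent.A2.Mod.RE P E)) :=
    Algebra.IsAlgebraic.perfectField (ZMod q)
  haveI : ExpChar (IsLocalRing.ResidueField (_root_.Fermat.Agent.A2.Mod.RE P E)) q := ExpChar.prime hq
  obtain ⟨y, hy⟩ := surjective_frobenius (IsLocalRing.ResidueField (_root_.Fermat.Agent.A2.Mod.RE P E)) q c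
  exact ⟨y, hy⟩

end Residue

section Divide

variable {L : Type*} [Field L] (A : ValuationSubring L)

/-- An integral series with zero reduction is divisible by a uniformiser. -/
theorem exists_incl_eq_inv_mul [IsDiscreteValuationRing A] {w : A} (hw : Irreducible w)
    {U : LaurentSeries A} (hU : H708.red A U = 0) :
    ∃ U' : LaurentSeries A, H708.incl A U' = H708.cst ((w : L))⁻¹ * H708.incl A U := by
  apply H708.exists_incl_eq
  intro n
  rw [H708.coeff_cst_mul, H708.coeff_incl]
  have h1 : A.valuation ((U.coeff n : A) : L) < 1 := (H708.red_eq_zero_iff A U).mp hU n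
  have h2 : U.coeff n ∈ IsLocalRing.maximalIdeal A := (A.valuation_lt_one_iff _).mpr h1
  rw [hw.maximalIdeal_eq, Ideal.mem_span_singleton'] at h2
  obtain ⟨y, hy⟩ := h2
  have hw0 : (w : L) ≠ 0 := by
    intro h
    exact hw.ne_zero (Subtype.ext h)
  have h3 : ((U.coeff n : A) : L) = (y : L) * (w : L) := by
    rw [← hy]; rfl
  rw [h3, mul_comm (y : L), ← mul_assoc, inv_mul_cancel₀ hw0, one_mul]
  exact y.2

end Divide

section Main

variable (P : ValuationSubring _root_.Fermat.Agent.A2.Mod.Qb) (E : IntermediateField ℚ _root_.Fermat.Agent.A2.Mod.Qb) (M q : ℕ) [NeZero M] [NeZero q]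
  (w : _root_.Fermat.Agent.A2.Mod.RE P E)

/-- **L12 (Kronecker, semilinear form).** -/
theorem kron : KronStatement P E M q w := by
  intro hS VM V hVM hV a ha
  have hq := hS.q_prime
  haveI : Fact q.Prime := ⟨hq⟩
  haveI := hS.dvr
  have hAq : (_root_.Fermat.Agent.A2.Mod.RE P E).LiesOverPrime q := liesOver_RE P E hS.lies_over
  haveI : CharP (IsLocalRing.ResidueField (_root_.Fermat.Agent.A2.Mod.RE P E)) q :=
    Fermat.Agent.S18.H516.charP_residue (_root_.Fermat.Agent.A2.Mod.RE P E) hAq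
  have core : CoreData M (IsLocalRing.ResidueField (_root_.Fermat.Agent.A2.Mod.RE P E)) :=
    Fermat.Agent.S18.H516.coreData_of_charP M q hS.q_not_dvd _
  -- a representation of `a`
  obtain ⟨U₁, U₂, hU₂, hU₂F, hU⟩ := (hVM a).mp ha
  have hU₁F : H708.incl (_root_.Fermat.Agent.A2.Mod.RE P E) U₁ ∈ _root_.Fermat.Agent.A2.Mod.FE E M := by
    rw [← hU]; exact mul_mem a.2 hU₂F
  -- the residues lie in `F_k`
  have hr₁ : H708.red (_root_.Fermat.Agent.A2.Mod.RE P E) U₁ ∈ modularFunctionFieldFullC _ M :=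
    Fermat.Agent.S18.H516.red_mem_of_incl_mem (_root_.Fermat.Agent.A2.Mod.RE P E) (IsLocalRing.residue _) M core hU₁F
  have hr₂ : H708.red (_root_.Fermat.Agent.A2.Mod.RE P E) U₂ ∈ modularFunctionFieldFullC _ M :=
    Fermat.Agent.S18.H516.red_mem_of_incl_mem (_root_.Fermat.Agent.A2.Mod.RE P E) (IsLocalRing.residue _) M core hU₂F
  -- the Frobenius twist of the residue of `a`
  obtain ⟨r', hr', hr'e⟩ := exists_frob_root_of_mem_fullC _ q M hq
    (exists_pow_eq_residue P E hq hS.lies_over) (mul_mem hr₁ (inv_mem hr₂))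
  -- lift it
  obtain ⟨W₁, W₂, hW₁F, hW₂F, hW₂, hW⟩ := exists_lift_of_mem_fullC (_root_.Fermat.Agent.A2.Mod.RE P E) M hr'
  have hW₂0 : H708.incl (_root_.Fermat.Agent.A2.Mod.RE P E) W₂ ≠ 0 :=
    H708.incl_ne_zero _ (H708.ne_zero_of_red_ne_zero _ hW₂)
  have hU₂0 : H708.incl (_root_.Fermat.Agent.A2.Mod.RE P E) U₂ ≠ 0 :=
    H708.incl_ne_zero _ (H708.ne_zero_of_red_ne_zero _ hU₂)
  set a' : _root_.Fermat.Agent.A2.Mod.FE E M := ⟨H708.incl (_root_.Fermat.Agent.A2.Mod.RE P E) W₁, hW₁F⟩ * (⟨H708.incl (_root_.Fermat.Agent.A2.Mod.RE P E) W₂, hW₂F⟩)⁻¹ with ha'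
  have ha'c : (a' : LaurentSeries E) = H708.incl (_root_.Fermat.Agent.A2.Mod.RE P E) W₁ * (H708.incl (_root_.Fermat.Agent.A2.Mod.RE P E) W₂)⁻¹ := by
    rw [ha', IntermediateField.coe_mul, IntermediateField.coe_inv]
  have ha'V : a' ∈ VM := by
    rw [hVM]
    refine ⟨W₁, W₂, hW₂, hW₂F, ?_⟩
    rw [ha'c, mul_assoc, inv_mul_cancel₀ hW₂0, mul_one]
  refine ⟨a', ha'V, ?_⟩
  -- the numerator
  set Wn : LaurentSeries (_root_.Fermat.Agent.A2.Mod.RE P E) :=
    qExpand _ q U₁ * W₂ ^ q - W₁ ^ q * qExpand _ q U₂ with hWn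
  have hρ₂ : qExpand _ q (H708.red (_root_.Fermat.Agent.A2.Mod.RE P E) U₂) ≠ 0 := by
    rw [Ne, map_eq_zero_iff _ (RingHom.injective _)]
    exact hU₂
  have hred : H708.red (_root_.Fermat.Agent.A2.Mod.RE P E) Wn = 0 := by
    rw [hWn, map_sub, map_mul, map_mul, map_pow, map_pow]
    show coeffMap _ (qExpand _ q U₁) * _ - _ * coeffMap _ (qExpand _ q U₂) = 0
    rw [coeffMap_qExpand, coeffMap_qExpand]
    show qExpand _ q (H708.red (_root_.Fermat.Agent.A2.Mod.RE P E) U₁) * _ - _ * qExpand _ q (H708.red (_root_.Fermat.Agent.A2.Mod.RE P E) U₂) = 0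
    rw [hW, mul_pow, hr'e, map_mul, map_inv₀]
    field_simp
    ring
  obtain ⟨W', hW'⟩ := exists_incl_eq_inv_mul (_root_.Fermat.Agent.A2.Mod.RE P E) hS.unif hred
  -- conclusion
  show (βE E M q a - (αE E M q a') ^ q) * (cE P E (M * q) w)⁻¹ ∈ V
  rw [hV]
  refine ⟨W', qExpand _ q U₂ * W₂ ^ q, ?_, ?_, ?_⟩
  · rw [map_mul, map_pow]
    show coeffMap _ (qExpand _ q U₂) * _ ≠ 0
    rw [coeffMap_qExpand]
    exact mul_ne_zero hρ₂ (pow_ne_zero _ hW₂)
  · rw [map_mul, map_pow]
    show coeffMap _ (qExpand _ q U₂) * _ ∈ _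
    rw [coeffMap_qExpand]
    exact mul_mem (βE E M q ⟨H708.incl (_root_.Fermat.Agent.A2.Mod.RE P E) U₂, hU₂F⟩).2
      (pow_mem (αE E M q ⟨H708.incl (_root_.Fermat.Agent.A2.Mod.RE P E) W₂, hW₂F⟩).2 _)
  · rw [hW']
    have hc : (((βE E M q a - (αE E M q a') ^ q) * (cE P E (M * q) w)⁻¹ : _root_.Fermat.Agent.A2.Mod.FE E (M * q)) :
        LaurentSeries E) =
        (qExpand E q (a : LaurentSeries E) - (a' : LaurentSeries E) ^ q) *
          (H708.cst ((w : E)))⁻¹ := rfl
    have hcst : H708.cst ((w : E))⁻¹ = (H708.cst ((w : E)))⁻¹ := map_inv₀ _ _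
    have hq1 : H708.incl (_root_.Fermat.Agent.A2.Mod.RE P E) (qExpand _ q U₁) = qExpand E q (H708.incl (_root_.Fermat.Agent.A2.Mod.RE P E) U₁) :=
      coeffMap_qExpand _ q U₁
    have hq2 : H708.incl (_root_.Fermat.Agent.A2.Mod.RE P E) (qExpand _ q U₂) = qExpand E q (H708.incl (_root_.Fermat.Agent.A2.Mod.RE P E) U₂) :=
      coeffMap_qExpand _ q U₂
    have hpow : (a' : LaurentSeries E) ^ q * (H708.incl (_root_.Fermat.Agent.A2.Mod.RE P E) W₂) ^ q =
        (H708.incl (_root_.Fermat.Agent.A2.Mod.RE P E) W₁) ^ q := by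
      rw [ha'c, ← mul_pow, mul_assoc, inv_mul_cancel₀ hW₂0, mul_one]
    rw [hc, hcst, hWn, map_sub, map_mul, map_mul, map_mul, map_pow, map_pow, hq1, hq2,
      ← hU, map_mul, ← hpow]
    ring

end Main

end Fermat.Agent.A2.Mod.H96

end
end
-- ===== PACK-END A2/Mod/H96/L12.lean

-- ===== PACK-BEGIN S37/Rim/H383/NormalLift.lean
section




/-!
# S37 / RIM-NORMAL (helper383), part 1: the normality lift over a DVR, inside a field

Typed, Mathlib-only consumer of b2 (`Fermat.Agent.S18.B12.H638.b2NormalDom`) and HSEP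
(`Fermat.Agent.S18.H425.hsep_poly`).

Setting: `F` a field of characteristic `0`, `R : Subring F` a discrete valuation ring with
uniformiser `w`, `z : F` transcendental over `R`, `B := integralClosure R[z] F` (the chart),
finite over `R[z]` with fraction field `F`; `V : ValuationSubring F` the Gauss valuation ring:
`R ⊆ V`, `z ∈ V`, `𝔪_V = w V`, and

* `qep`  : `b ∈ B`, `b / w ∈ V` ⟹ `b / w ∈ B`                      (`q`-expansion principle),
* `sepB` : every `f ∈ B` is a simple root mod `w` of a polynomial over `R[z]`,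
* `S`, `hS` : branch values, pairwise distinct mod `w`,
* `hNC`  : for a prime `π ∈ R[X]` not associated to `w`, `X - c` (`c ∈ S`): `π(z) B` is radical
           (elementwise form).

**Theorem `exists_chart_lift`**: every `v ∈ V` which is integral over `B` modulo `w`
(`Q(v) ∈ w V` for a monic `Q` with coefficients in `B`) is congruent modulo `w V` to an element
of `B`.  (Normality of the special fibre `B / w B`.)
-/

set_option autoImplicit false
set_option linter.style.haveILetI false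
set_option linter.unusedSectionVars false

noncomputable section

namespace Fermat.Agent.S37.Rim.H383

open Polynomial

variable {F : Type*} [Field F] (R : Subring F) (z : F)

/-- The chart `B`: the integral closure of `R[z]` in `F`. -/
abbrev chartB : Subalgebra (Algebra.adjoin R ({z} : Set F)) F :=
  integralClosure (Algebra.adjoin R ({z} : Set F)) F

/-- The structure map `R[X] → B`, `X ↦ z`. -/
def polyToChart : Polynomial R →+* chartB R z :=
  (algebraMap (Algebra.adjoin R ({z} : Set F)) (chartB R z)).comp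
    ((aeval (⟨z, Algebra.self_mem_adjoin_singleton R z⟩ : Algebra.adjoin R ({z} : Set F)) :
      Polynomial R →ₐ[R] Algebra.adjoin R ({z} : Set F)) : Polynomial R →+*
        Algebra.adjoin R ({z} : Set F))

theorem coe_aeval_adjoin (p : Polynomial R) :
    ((aeval (⟨z, Algebra.self_mem_adjoin_singleton R z⟩ : Algebra.adjoin R ({z} : Set F)) p :
      Algebra.adjoin R ({z} : Set F)) : F) = aeval z p := by
  have : (aeval (⟨z, Algebra.self_mem_adjoin_singleton R z⟩ :
      Algebra.adjoin R ({z} : Set F)) p : F) =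
      (Algebra.adjoin R ({z} : Set F)).val (aeval (⟨z, Algebra.self_mem_adjoin_singleton R z⟩ :
        Algebra.adjoin R ({z} : Set F)) p) := rfl
  rw [this, ← aeval_algHom_apply]
  rfl

@[simp] theorem coe_polyToChart (p : Polynomial R) :
    ((polyToChart R z p : chartB R z) : F) = aeval z p :=
  coe_aeval_adjoin R z p

theorem aeval_surjective_adjoin :
    Function.Surjective (aeval (⟨z, Algebra.self_mem_adjoin_singleton R z⟩ :
      Algebra.adjoin R ({z} : Set F)) : Polynomial R → Algebra.adjoin R ({z} : Set F)) := by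
  rintro ⟨a, ha⟩
  obtain ⟨p, hp⟩ := Algebra.adjoin_mem_exists_aeval R z ha
  exact ⟨p, Subtype.ext (by rw [coe_aeval_adjoin, hp])⟩

theorem polyToChart_injective (hz : Transcendental R z) :
    Function.Injective (polyToChart R z) := by
  intro p q hpq
  have h : aeval z p = aeval z q := by
    rw [← coe_polyToChart, ← coe_polyToChart, hpq]
  exact (transcendental_iff_injective.mp hz) h


/-! ### The Gauss valuation ring and the chart -/

section Gauss

variable {R z}
variable (V : ValuationSubring F) {w : F} (hwR : w ∈ R)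

/-- `R[z] ⊆ V`. -/
theorem adjoin_le_V (hRV : ∀ r ∈ R, r ∈ V) (hzV : z ∈ V) {f : F}
    (hf : f ∈ Algebra.adjoin R ({z} : Set F)) : f ∈ V := by
  obtain ⟨P, rfl⟩ := Algebra.adjoin_mem_exists_aeval R z hf
  rw [aeval_eq_sum_range]
  refine V.toSubring.sum_mem fun i _ => ?_
  rw [Algebra.smul_def]
  exact mul_mem (hRV _ (P.coeff i).2) (pow_mem hzV i)

/-- `B ⊆ V`: valuation rings are integrally closed. -/
theorem chart_le_V (hRV : ∀ r ∈ R, r ∈ V) (hzV : z ∈ V) {f : F} (hf : f ∈ chartB R z) :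
    f ∈ V := by
  let i : Algebra.adjoin R ({z} : Set F) →+* V :=
    (algebraMap (Algebra.adjoin R ({z} : Set F)) F).codRestrict V.toSubring
      (fun a => adjoin_le_V V hRV hzV a.2)
  have hi : (algebraMap V F).comp i = algebraMap (Algebra.adjoin R ({z} : Set F)) F := by
    ext a; rfl
  have hint : IsIntegral V f := by
    obtain ⟨p, hp, hpf⟩ := hf
    refine ⟨p.map i, hp.map i, ?_⟩
    rw [eval₂_map, hi]
    exact hpf
  obtain ⟨y, hy⟩ := (IsIntegrallyClosed.isIntegral_iff (R := V) (K := F)).1 hint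
  rw [← hy]
  exact y.2

/-- the uniformiser as an element of the chart -/
def wB : chartB R z := polyToChart R z (C ⟨w, hwR⟩)

@[simp] theorem coe_wB : ((wB (z := z) hwR : chartB R z) : F) = w := by
  unfold wB
  rw [coe_polyToChart, aeval_C]
  rfl

/-- divisibility by `w` in the chart, elementwise -/
theorem wB_dvd_iff (hw0 : w ≠ 0) (b : chartB R z) :
    wB (z := z) hwR ∣ b ↔ (b : F) * w⁻¹ ∈ chartB R z := by
  constructor
  · rintro ⟨c, rfl⟩
    have : ((wB (z := z) hwR * c : chartB R z) : F) * w⁻¹ = (c : F) := by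
      rw [MulMemClass.coe_mul, coe_wB]
      field_simp
    rw [this]
    exact c.2
  · intro h
    refine ⟨⟨(b : F) * w⁻¹, h⟩, Subtype.ext ?_⟩
    rw [MulMemClass.coe_mul, coe_wB]
    field_simp

/-- divisibility by `π(z)` in the chart, elementwise -/
theorem polyToChart_dvd_iff (π : Polynomial R) (hπ : aeval z π ≠ 0) (b : chartB R z) :
    polyToChart R z π ∣ b ↔ (b : F) * (aeval z π)⁻¹ ∈ chartB R z := by
  constructor
  · rintro ⟨c, rfl⟩
    have : ((polyToChart R z π * c : chartB R z) : F) * (aeval z π)⁻¹ = (c : F) := by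
      rw [MulMemClass.coe_mul, coe_polyToChart]
      field_simp
    rw [this]
    exact c.2
  · intro h
    refine ⟨⟨(b : F) * (aeval z π)⁻¹, h⟩, Subtype.ext ?_⟩
    rw [MulMemClass.coe_mul, coe_polyToChart]
    field_simp

section Prime

variable (hw0 : w ≠ 0) (hRV : ∀ r ∈ R, r ∈ V) (hzV : z ∈ V)
  (hwV : w⁻¹ ∉ V) (hVgen : ∀ f ∈ V, f⁻¹ ∉ V → f * w⁻¹ ∈ V)
  (qep : ∀ b ∈ chartB R z, b * w⁻¹ ∈ V → b * w⁻¹ ∈ chartB R z)

include hVgen in
/-- In `V`, if `a * b ∈ w V` then `a ∈ w V` or `b ∈ w V`. -/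
theorem mem_wV_of_mul_mem {a b : F} (hab : a * b * w⁻¹ ∈ V) (ha : a ∈ V) :
    a * w⁻¹ ∈ V ∨ b * w⁻¹ ∈ V := by
  by_cases ha0 : a = 0
  · left; rw [ha0, zero_mul]; exact V.zero_mem
  by_cases hau : a⁻¹ ∈ V
  · right
    have : b * w⁻¹ = a⁻¹ * (a * b * w⁻¹) := by field_simp
    rw [this]
    exact mul_mem hau hab
  · left
    exact hVgen a ha hau

include hw0 hRV hzV hwV hVgen qep in
/-- **`w` is a prime element of the chart.** -/
theorem prime_wB : Prime (wB (z := z) hwR) := by
  refine ⟨?_, ?_, ?_⟩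
  · intro h
    apply hw0
    have := congrArg (Subtype.val : chartB R z → F) h
    simpa using this
  · rintro ⟨⟨u, v, huv, hvu⟩, hu⟩
    have hv : (v : F) = w⁻¹ := by
      have h1 : (u : F) * (v : F) = 1 := congrArg Subtype.val huv
      have h2 : (u : F) = w := by
        have h3 : u = wB (z := z) hwR := hu
        rw [h3]; exact coe_wB hwR
      rw [h2] at h1
      exact eq_inv_of_mul_eq_one_right h1
    exact hwV (hv ▸ chart_le_V V hRV hzV v.2)
  · intro a b hab
    rw [wB_dvd_iff hwR hw0] at hab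
    have haV := chart_le_V V hRV hzV a.2
    have habV : (a : F) * (b : F) * w⁻¹ ∈ V := by
      have := chart_le_V V hRV hzV hab
      simpa using this
    rcases mem_wV_of_mul_mem V hVgen habV haV with h | h
    · left
      rw [wB_dvd_iff hwR hw0]
      exact qep _ a.2 h
    · right
      rw [wB_dvd_iff hwR hw0]
      exact qep _ b.2 h

include hwR hw0 hRV qep in
/-- stripping powers of `w`: if `w ^ n * y ∈ B` and `y ∈ V` then `y ∈ B`. -/
theorem mem_chart_of_pow_mul_mem {y : F} (hy : y ∈ V) (n : ℕ)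
    (h : w ^ n * y ∈ chartB R z) : y ∈ chartB R z := by
  induction n with
  | zero => simpa using h
  | succ n ih =>
    apply ih
    have h1 : w ^ (n + 1) * y * w⁻¹ = w ^ n * y := by
      rw [pow_succ]; field_simp
    have hwV' : w ∈ V := hRV w hwR
    have h2 : w ^ (n + 1) * y * w⁻¹ ∈ V := by
      rw [h1]
      exact mul_mem (pow_mem hwV' n) hy
    have := qep _ h h2
    rwa [h1] at this

end Prime

end Gauss

/-! ### The chart as an `R[X]`-algebra -/

section Typed

variable {R z}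

/-- the `R[X]`-algebra structure of the chart (`X ↦ z`) -/
@[reducible] def polyAlgebra (R : Subring F) (z : F) : Algebra (Polynomial R) (chartB R z) :=
  (polyToChart R z).toAlgebra

theorem coe_eval₂_chart (b : chartB R z) (P : Polynomial (Polynomial R)) :
    ((eval₂ (polyToChart R z) b P : chartB R z) : F) =
      (P.map ((aeval z : Polynomial R →ₐ[R] F) : Polynomial R →+* F)).eval (b : F) := by
  have h1 : ((eval₂ (polyToChart R z) b P : chartB R z) : F) =
      (chartB R z).val.toRingHom (eval₂ (polyToChart R z) b P) := rfl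
  rw [h1, hom_eval₂, eval_map]
  congr 1
  ext p
  · simp
  · simp

theorem finite_poly [Module.Finite (Algebra.adjoin R ({z} : Set F)) (chartB R z)] :
    @Module.Finite (Polynomial R) (chartB R z) _ _ (polyAlgebra R z).toModule := by
  letI : Algebra (Polynomial R) (chartB R z) := polyAlgebra R z
  letI : Algebra (Polynomial R) (Algebra.adjoin R ({z} : Set F)) :=
    ((aeval (⟨z, Algebra.self_mem_adjoin_singleton R z⟩ : Algebra.adjoin R ({z} : Set F)) :
      Polynomial R →ₐ[R] Algebra.adjoin R ({z} : Set F)) : Polynomial R →+*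
        Algebra.adjoin R ({z} : Set F)).toAlgebra
  haveI : IsScalarTower (Polynomial R) (Algebra.adjoin R ({z} : Set F)) (chartB R z) :=
    IsScalarTower.of_algebraMap_eq (fun _ => rfl)
  haveI : Module.Finite (Polynomial R) (Algebra.adjoin R ({z} : Set F)) :=
    Module.Finite.of_surjective (Algebra.linearMap (Polynomial R) (Algebra.adjoin R ({z} : Set F)))
      (aeval_surjective_adjoin R z)
  exact Module.Finite.trans (Algebra.adjoin R ({z} : Set F)) (chartB R z)

theorem torsionFree_poly (hz : Transcendental R z) :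
    @Module.IsTorsionFree (Polynomial R) (chartB R z) _ _ (polyAlgebra R z).toModule := by
  letI : Algebra (Polynomial R) (chartB R z) := polyAlgebra R z
  rw [Module.isTorsionFree_iff_algebraMap_injective (R := Polynomial R) (A := chartB R z)]
  exact polyToChart_injective R z hz

end Typed

/-! ### The hypotheses of b2 -/

section Hyps

variable {R z}
variable (V : ValuationSubring F) {w : F} (hwR : w ∈ R)

/-- lifting a polynomial with coefficients in `R[z]` to `R[X][X]` -/
theorem exists_lift_poly (P : Polynomial F)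
    (hP : ∀ i, P.coeff i ∈ Algebra.adjoin R ({z} : Set F)) :
    ∃ P' : Polynomial (Polynomial R),
      P'.map ((aeval z : Polynomial R →ₐ[R] F) : Polynomial R →+* F) = P := by
  have : P ∈ Polynomial.lifts ((aeval z : Polynomial R →ₐ[R] F) : Polynomial R →+* F) := by
    rw [Polynomial.lifts_iff_coeff_lifts]
    intro n
    obtain ⟨p, hp⟩ := Algebra.adjoin_mem_exists_aeval R z (hP n)
    exact ⟨p, hp⟩
  exact (Polynomial.mem_lifts _).mp this

variable (hw0 : w ≠ 0) (hRV : ∀ r ∈ R, r ∈ V) (hzV : z ∈ V) (hwV : w⁻¹ ∉ V)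
  (qep : ∀ b ∈ chartB R z, b * w⁻¹ ∈ V → b * w⁻¹ ∈ chartB R z)

include hw0 hRV hzV hwV qep in
/-- the elementwise separability hypothesis of HSEP, from `sepB` -/
theorem hel_of_sepB
    (sepB : ∀ f ∈ chartB R z, ∃ P : Polynomial F,
      (∀ i, P.coeff i ∈ Algebra.adjoin R ({z} : Set F)) ∧
      P.eval f * w⁻¹ ∈ V ∧ (derivative P).eval f ≠ 0 ∧ ((derivative P).eval f)⁻¹ ∈ V)
    (b : chartB R z) :
    ∃ P : Polynomial (Polynomial R), wB (z := z) hwR ∣ eval₂ (polyToChart R z) b P ∧
      ¬ wB (z := z) hwR ∣ eval₂ (polyToChart R z) b (derivative P) := by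
  obtain ⟨P₀, hP₀c, hP₀v, hP₀d, hP₀u⟩ := sepB b b.2
  obtain ⟨P, hP⟩ := exists_lift_poly P₀ hP₀c
  refine ⟨P, ?_, ?_⟩
  · rw [wB_dvd_iff hwR hw0]
    have h1 : ((eval₂ (polyToChart R z) b P : chartB R z) : F) = P₀.eval (b : F) := by
      rw [coe_eval₂_chart, hP]
    apply qep _ (Subtype.mem _)
    rw [h1]
    exact hP₀v
  · rw [wB_dvd_iff hwR hw0]
    have h1 : ((eval₂ (polyToChart R z) b (derivative P) : chartB R z) : F) =
        (derivative P₀).eval (b : F) := by
      rw [coe_eval₂_chart, ← hP, derivative_map]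
    rw [h1]
    intro hmem
    apply hwV
    have hV := chart_le_V V hRV hzV hmem
    have : w⁻¹ = ((derivative P₀).eval (b : F))⁻¹ * ((derivative P₀).eval (b : F) * w⁻¹) := by
      field_simp
    rw [this]
    exact mul_mem hP₀u hV

/-- the radical hypothesis `hNC` of b2 from its elementwise form -/
theorem isRadical_of_elementwise (hz : Transcendental R z) (π : Polynomial R) (hπ0 : π ≠ 0)
    (h : ∀ f ∈ chartB R z, ∀ n : ℕ, f ^ n * (aeval z π)⁻¹ ∈ chartB R z →
        f * (aeval z π)⁻¹ ∈ chartB R z) :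
    (Ideal.span {polyToChart R z π}).IsRadical := by
  have hπz : aeval z π ≠ 0 := by
    intro h0
    apply hπ0
    apply transcendental_iff_injective.mp hz
    rw [h0, map_zero]
  intro f hf
  obtain ⟨n, hn⟩ := hf
  rw [Ideal.mem_span_singleton] at hn ⊢
  rw [polyToChart_dvd_iff π hπz] at hn ⊢
  have := h f f.2 n (by simpa using hn)
  exact this

end Hyps

/-! ### The normality lift -/

section Main

variable {R z}
variable [CharZero F] [IsDiscreteValuationRing R]
variable [IsIntegrallyClosed (chartB R z)]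
  [Module.Finite (Algebra.adjoin R ({z} : Set F)) (chartB R z)]

/-- **Normality of the special fibre, elementwise (RIM-NORMAL over a DVR).**
Every `v ∈ V` which is integral over the chart `B` modulo `w` is congruent modulo `w V` to an
element of `B`. -/
theorem exists_chart_lift (hz : Transcendental R z)
    (halg : ∀ f : F, IsAlgebraic (Algebra.adjoin R ({z} : Set F)) f)
    (V : ValuationSubring F) {w : F} (hwR : w ∈ R) (hirr : Irreducible (⟨w, hwR⟩ : R))
    (hRV : ∀ r ∈ R, r ∈ V) (hzV : z ∈ V) (hwV : w⁻¹ ∉ V)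
    (hVgen : ∀ f ∈ V, f⁻¹ ∉ V → f * w⁻¹ ∈ V)
    (qep : ∀ b ∈ chartB R z, b * w⁻¹ ∈ V → b * w⁻¹ ∈ chartB R z)
    (sepB : ∀ f ∈ chartB R z, ∃ P : Polynomial F,
      (∀ i, P.coeff i ∈ Algebra.adjoin R ({z} : Set F)) ∧
      P.eval f * w⁻¹ ∈ V ∧ (derivative P).eval f ≠ 0 ∧ ((derivative P).eval f)⁻¹ ∈ V)
    (S : Finset R) (hS : ∀ c ∈ S, ∀ c' ∈ S, c ≠ c' → IsUnit (c - c'))
    (hNC : ∀ π : Polynomial R, Prime π → ¬ Associated π (C ⟨w, hwR⟩) →
      (∀ c ∈ S, ¬ Associated π (X - C c)) →
      ∀ f ∈ chartB R z, ∀ n : ℕ, f ^ n * (aeval z π)⁻¹ ∈ chartB R z →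
        f * (aeval z π)⁻¹ ∈ chartB R z)
    {v : F} (hv : v ∈ V) (Q : Polynomial F) (hQ : Q.Monic)
    (hQc : ∀ i, Q.coeff i ∈ chartB R z) (hQv : Q.eval v * w⁻¹ ∈ V) :
    ∃ b ∈ chartB R z, (v - b) * w⁻¹ ∈ V := by
  classical
  have hw0 : w ≠ 0 := fun h => hirr.ne_zero (Subtype.ext h)
  have hwVmem : w ∈ V := hRV w hwR
  letI : Algebra (Polynomial R) (chartB R z) := polyAlgebra R z
  haveI : Module.Finite (Polynomial R) (chartB R z) := finite_poly
  haveI : Module.IsTorsionFree (Polynomial R) (chartB R z) := torsionFree_poly hz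
  haveI : CharZero R := RingHom.charZero R.subtype
  have hdom : Prime (algebraMap (Polynomial R) (chartB R z) (C ⟨w, hwR⟩)) :=
    prime_wB V hwR hw0 hRV hzV hwV hVgen qep
  have hel : ∀ b : chartB R z, ∃ P : Polynomial (Polynomial R),
      algebraMap (Polynomial R) (chartB R z) (C ⟨w, hwR⟩) ∣ aeval b P ∧
      ¬ algebraMap (Polynomial R) (chartB R z) (C ⟨w, hwR⟩) ∣ aeval b (derivative P) :=
    fun b => hel_of_sepB V hwR hw0 hRV hzV hwV qep sepB b
  have hsep := Fermat.Agent.S18.H425.hsep_poly R ⟨w, hwR⟩ hirr (chartB R z) hdom hel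
  have hNC' : ∀ π : Polynomial R, Prime π → ¬ Associated π (C ⟨w, hwR⟩) →
      (∀ c ∈ S, ¬ Associated π (X - C c)) →
      (Ideal.span {algebraMap (Polynomial R) (chartB R z) π}).IsRadical :=
    fun π hπ h1 h2 => isRadical_of_elementwise hz π hπ.ne_zero (hNC π hπ h1 h2)
  -- a denominator `g ∈ R[X]`, `w ∤ g`, with `g(z) v ∈ B`
  obtain ⟨g₀, hg₀, hint⟩ := (halg v).exists_integral_multiple
  obtain ⟨G, hG⟩ := aeval_surjective_adjoin R z g₀
  have hG0 : G ≠ 0 := by
    rintro rfl
    apply hg₀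
    rw [← hG, map_zero]
  have hCw : Prime (C (⟨w, hwR⟩ : R) : Polynomial R) := Polynomial.prime_C_iff.mpr hirr.prime
  obtain ⟨n, g, hng, hGeq⟩ := WfDvdMonoid.max_power_factor hG0 hCw.irreducible
  have hgz : aeval z G = w ^ n * aeval z g := by
    rw [hGeq, map_mul, map_pow, aeval_C]
    rfl
  have hgV : aeval z g ∈ V :=
    adjoin_le_V V hRV hzV (by
      rw [← coe_aeval_adjoin]; exact Subtype.mem _)
  have hgvV : aeval z g * v ∈ V := mul_mem hgV hv
  have hbB : aeval z g * v ∈ chartB R z := by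
    apply mem_chart_of_pow_mul_mem V hwR hw0 hRV qep hgvV n
    have : w ^ n * (aeval z g * v) = g₀ • v := by
      rw [← mul_assoc, ← hgz, ← coe_aeval_adjoin, hG]
      rfl
    rw [this]
    exact hint
  -- `g(z)` is a unit of `V`
  have hgunit : (aeval z g)⁻¹ ∈ V := by
    by_contra hcon
    have h1 : aeval z g * w⁻¹ ∈ V := hVgen _ hgV hcon
    have h2 : aeval z g * w⁻¹ ∈ chartB R z := by
      have hmem : aeval z g ∈ chartB R z := by
        rw [← coe_polyToChart]; exact Subtype.mem _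
      exact qep _ hmem h1
    have h3 : algebraMap (Polynomial R) (chartB R z) (C ⟨w, hwR⟩) ∣
        algebraMap (Polynomial R) (chartB R z) g := by
      have := (wB_dvd_iff (z := z) hwR hw0 (polyToChart R z g)).mpr (by simpa using h2)
      exact this
    haveI : Algebra.IsIntegral (Polynomial R) (chartB R z) := Algebra.IsIntegral.of_finite _ _
    haveI hic : IsIntegrallyClosed (Polynomial R) := inferInstance
    have h7 : (C (⟨w, hwR⟩ : R) : Polynomial R) ∣ g :=
      Fermat.Agent.S18.B12.H638.dvd_of_algebraMap_dvd (P := Polynomial R) (B := chartB R z)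
        (C ⟨w, hwR⟩) g hCw.ne_zero h3
    exact hng h7
  -- the integrality relation
  set d := Q.natDegree with hd
  let a : Fin d → chartB R z := fun i => ⟨Q.coeff i, hQc i⟩
  let b : chartB R z := ⟨aeval z g * v, hbB⟩
  have hrel : b ^ d + ∑ i : Fin d, a i * b ^ (i : ℕ) *
      algebraMap (Polynomial R) (chartB R z) g ^ (d - (i : ℕ)) ∈
        Ideal.span {algebraMap (Polynomial R) (chartB R z) (C ⟨w, hwR⟩)} := by
    rw [Ideal.mem_span_singleton]
    have hval : ((b ^ d + ∑ i : Fin d, a i * b ^ (i : ℕ) *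
        algebraMap (Polynomial R) (chartB R z) g ^ (d - (i : ℕ)) : chartB R z) : F) =
        aeval z g ^ d * Q.eval v := by
      have hQsum : Q.eval v = v ^ d + ∑ i : Fin d, Q.coeff i * v ^ (i : ℕ) := by
        conv_lhs => rw [hQ.as_sum]
        rw [eval_add, eval_pow, eval_X, eval_finsetSum, Finset.sum_range]
        congr 1
        refine Finset.sum_congr rfl fun i _ => ?_
        rw [eval_mul, eval_C, eval_pow, eval_X]
      rw [hQsum, mul_add, Finset.mul_sum]
      push_cast
      congr 1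
      · show (aeval z g * v) ^ d = _
        rw [mul_pow]
      · refine Finset.sum_congr rfl fun i _ => ?_
        show Q.coeff i * (aeval z g * v) ^ (i : ℕ) *
          ((polyToChart R z g : chartB R z) : F) ^ (d - (i : ℕ)) = _
        rw [coe_polyToChart, mul_pow]
        have hi : (i : ℕ) + (d - (i : ℕ)) = d := by
          have := i.2
          omega
        calc Q.coeff i * (aeval z g ^ (i : ℕ) * v ^ (i : ℕ)) * aeval z g ^ (d - (i : ℕ))
            = aeval z g ^ ((i : ℕ) + (d - (i : ℕ))) * (Q.coeff i * v ^ (i : ℕ)) := by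
              rw [pow_add]; ring
          _ = aeval z g ^ d * (Q.coeff i * v ^ (i : ℕ)) := by rw [hi]
    apply (wB_dvd_iff (z := z) hwR hw0 _).mpr
    apply qep _ (Subtype.mem _)
    rw [hval, mul_assoc]
    exact mul_mem (pow_mem hgV d) hQv
  obtain ⟨b₀, hb₀⟩ := Fermat.Agent.S18.B12.H638.b2NormalDom R ⟨w, hwR⟩ hirr (chartB R z) hdom
    hsep S hS hNC' b g hng ⟨d, a, hrel⟩
  refine ⟨b₀, b₀.2, ?_⟩
  rw [Ideal.mem_span_singleton] at hb₀
  have h4 := (wB_dvd_iff (z := z) hwR hw0 _).mp hb₀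
  have h5 : ((b - algebraMap (Polynomial R) (chartB R z) g * b₀ : chartB R z) : F) =
      aeval z g * (v - b₀) := by
    push_cast
    show aeval z g * v - ((polyToChart R z g : chartB R z) : F) * (b₀ : F) = _
    rw [coe_polyToChart]
    ring
  rw [h5] at h4
  have h6 := chart_le_V V hRV hzV h4
  have hg0 : aeval z g ≠ 0 := by
    intro h0
    apply hng
    have : g = 0 := by
      apply transcendental_iff_injective.mp hz
      rw [h0, map_zero]
    rw [this]
    exact dvd_zero _
  have : (v - b₀) * w⁻¹ = (aeval z g)⁻¹ * (aeval z g * (v - b₀) * w⁻¹) := by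
    field_simp
  rw [this]
  exact mul_mem hgunit h6

end Main

end Fermat.Agent.S37.Rim.H383

end
end
-- ===== PACK-END S37/Rim/H383/NormalLift.lean

-- ===== PACK-BEGIN S37/Rim/H383/NormalAbs.lean
section






/-!
# S37 board v3, leaf D2 (helper383): normality of the special fibre of a good model

`normalAbs` : for `G : Alg.GoodModel Lc Ec Fc R V w x S` (frozen interface of row S18), an element
`f ∈ V` which is a root modulo `w` of a monic polynomial over `R[x]` is congruent modulo `w` to an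
element of the chart `B = {b ∈ Fc integral over R[x]}`:

    ∀ f ∈ V, ∀ P : Polynomial Ω, P.Monic → (∀ i, P.coeff i ∈ Alg.polyRing R x) →
      P.eval f * w⁻¹ ∈ V → ∃ b ∈ Alg.chart Fc R x, (f - b) * w⁻¹ ∈ V

This is `NormalAbsStatement` of helper37's `Core/Skeleton4.lean` (board v3), universe-polymorphic.
Proof: `exists_chart_lift` (`NormalLift.lean`) applied inside the field `Fc`, with the hypotheses
supplied by helper438's front (`S18/H438/Front`), helper754's `hNC_typed` and the field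
`separable` of `GoodModel`.  `normalAbs_inv` is the same statement on the chart at infinity.
-/

set_option autoImplicit false
set_option linter.style.haveILetI false
set_option linter.unusedSectionVars false

noncomputable section

namespace Fermat.Agent.S37.Rim.H383

open Polynomial Fermat.Agent.S18 Fermat.Agent.S18.Alg Fermat.Agent.S18.H438
open Fermat.Agent.S18.H438.GoodModelFront

variable {Ω : Type*} [Field Ω] {Lc Ec Fc : Subfield Ω} {R V : Subring Ω} {w x : Ω}
  {S : Finset Ω}

/-! ### Polynomials over `Ω` with coefficients in `R[z]` come from `Fc` -/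

/-- A polynomial over `Ω` with coefficients in `polyRing R z` is the image of a polynomial over
`Fc` with coefficients in `R[z]`. -/
theorem exists_poly_Fc (hR : ∀ r ∈ R, r ∈ Fc) (z : Fc) (P : Polynomial Ω)
    (hP : ∀ i, P.coeff i ∈ polyRing R (z : Ω)) :
    ∃ Q : Polynomial Fc, Q.map Fc.subtype = P ∧
      ∀ i, Q.coeff i ∈ Algebra.adjoin (Rf Fc R) ({z} : Set Fc) := by
  have hl : P ∈ Polynomial.lifts Fc.subtype := by
    rw [Polynomial.lifts_iff_coeff_lifts]
    intro i
    obtain ⟨a, -, ha⟩ := exists_mem_baseRing_of_mem_polyRing Fc R z hR (hP i)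
    exact ⟨a, ha⟩
  obtain ⟨Q, hQ⟩ := (Polynomial.mem_lifts P).1 hl
  refine ⟨Q, hQ, fun i => ?_⟩
  have h1 : ((Q.coeff i : Fc) : Ω) = P.coeff i := by
    rw [← hQ, coeff_map]
    rfl
  have h2 : Q.coeff i ∈ baseRing (Rf Fc R) z := by
    rw [mem_baseRing_iff Fc R z hR, h1]
    exact hP i
  exact h2

theorem coe_eval_Fc (Q : Polynomial Fc) (f : Fc) :
    ((Q.eval f : Fc) : Ω) = (Q.map Fc.subtype).eval (f : Ω) := by
  rw [eval_map]
  exact (Polynomial.hom_eval₂ Q (RingHom.id Fc) Fc.subtype f)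

/-! ### Generic lemmas (abstract field `F`, no good model) -/

section Generic

attribute [local instance] FractionRing.liftAlgebra

/-- elements of a finite extension of the fraction field of `A` are algebraic over `A` -/
theorem isAlgebraic_of_finite_fractionRing {A F : Type*} [CommRing A] [IsDomain A] [Field F]
    [Algebra A F] [FaithfulSMul A F] [FiniteDimensional (FractionRing A) F] (f : F) :
    IsAlgebraic A f := by
  have h : IsAlgebraic (FractionRing A) f := IsAlgebraic.of_finite _ f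
  exact (IsFractionRing.isAlgebraic_iff A (FractionRing A) F).2 h

variable {F : Type*} [Field F] {R : Subring F} {z : F}

/-- the elementwise form of `hNC` from the radical form -/
theorem elementwise_of_isRadical (hz : Transcendental R z) (π : Polynomial R) (hπ0 : π ≠ 0)
    (h : (Ideal.span {polyToChart R z π}).IsRadical) :
    ∀ f ∈ chartB R z, ∀ n : ℕ, f ^ n * (aeval z π)⁻¹ ∈ chartB R z →
        f * (aeval z π)⁻¹ ∈ chartB R z := by
  have hπz : aeval z π ≠ 0 := by
    intro h0
    apply hπ0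
    apply transcendental_iff_injective.mp hz
    rw [h0, map_zero]
  intro f hf n hn
  have h1 : polyToChart R z π ∣ (⟨f, hf⟩ : chartB R z) ^ n := by
    rw [polyToChart_dvd_iff π hπz]
    simpa using hn
  have h2 : (⟨f, hf⟩ : chartB R z) ∈ (Ideal.span {polyToChart R z π}).radical :=
    ⟨n, Ideal.mem_span_singleton.2 h1⟩
  have h3 := Ideal.mem_span_singleton.1 (h h2)
  rw [polyToChart_dvd_iff π hπz] at h3
  exact h3

/-- an element algebraic over a field `K` is a root of a nonzero polynomial over any valuation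
subring of `K` -/
theorem exists_poly_valuationSubring {K L : Type*} [Field K] [Field L] [Algebra K L]
    (A : ValuationSubring K) {a : L} (ha : IsAlgebraic K a) :
    ∃ p : Polynomial A, p ≠ 0 ∧ eval₂ ((algebraMap K L).comp A.subtype) a p = 0 := by
  letI : Algebra A L := ((algebraMap K L).comp A.subtype).toAlgebra
  haveI : IsScalarTower A K L := IsScalarTower.of_algebraMap_eq (fun _ => rfl)
  obtain ⟨p, hp0, hp⟩ := (IsFractionRing.isAlgebraic_iff A K L).2 ha
  exact ⟨p, hp0, hp⟩

variable {Ω : Type*} [Field Ω]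

/-- **`hNC` from "unramified outside `S`"** (helper754's `hNC_typed` on the chart `B ⊆ F`,
`F` embedded in `Ω`), elementwise form. -/
theorem hNC_of_unramified [CharZero F] [IsDiscreteValuationRing R]
    [IsIntegrallyClosed (chartB R z)]
    [Module.Finite (Algebra.adjoin R ({z} : Set F)) (chartB R z)]
    (hz : Transcendental R z) (ι : F →+* Ω)
    {w : F} (hwR : w ∈ R) (hirr : Irreducible (⟨w, hwR⟩ : R))
    (hwB : Prime (wB (z := z) hwR))
    (Lc : Subfield Ω) (hLcl : IsAlgClosed Lc)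
    (hRL : ∀ r : R, ι (r : F) ∈ Lc)
    (hLalg : ∀ a ∈ Lc, ∃ p : Polynomial R, p ≠ 0 ∧ eval₂ (ι.comp R.subtype) a p = 0)
    (S : Finset R) (SΩ : Finset Ω) (hS : ∀ c ∈ SΩ, ∃ s ∈ S, ι (s : F) = c)
    (hunr : ∀ O : ValuationSubring Ω, (∀ a ∈ Lc, a ∈ O) → ∀ c ∈ Lc, c ∉ SΩ →
        ι z - c ∈ O → (ι z - c)⁻¹ ∉ O → ∀ t ∈ O, t⁻¹ ∉ O → t * (ι z - c)⁻¹ ∈ O) :
    ∀ π : Polynomial R, Prime π → ¬ Associated π (C ⟨w, hwR⟩) →
      (∀ c ∈ S, ¬ Associated π (X - C c)) →
      ∀ f ∈ chartB R z, ∀ n : ℕ, f ^ n * (aeval z π)⁻¹ ∈ chartB R z →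
        f * (aeval z π)⁻¹ ∈ chartB R z := by
  letI : Algebra (Polynomial R) (chartB R z) := polyAlgebra R z
  haveI : Module.Finite (Polynomial R) (chartB R z) := finite_poly
  haveI : Module.IsTorsionFree (Polynomial R) (chartB R z) := torsionFree_poly hz
  haveI : CharZero R := RingHom.charZero R.subtype
  letI : Algebra (chartB R z) Ω := (ι.comp (algebraMap (chartB R z) F)).toAlgebra
  haveI : FaithfulSMul (chartB R z) Ω :=
    (faithfulSMul_iff_algebraMap_injective (chartB R z) Ω).2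
      (ι.injective.comp Subtype.val_injective)
  have hC : ∀ r : R, algebraMap (chartB R z) Ω (algebraMap (Polynomial R) (chartB R z) (C r)) =
      ι (r : F) := by
    intro r
    show ι ((polyToChart R z (C r) : chartB R z) : F) = _
    rw [coe_polyToChart, aeval_C]
    rfl
  have hX : algebraMap (chartB R z) Ω (algebraMap (Polynomial R) (chartB R z) X) = ι z := by
    show ι ((polyToChart R z X : chartB R z) : F) = _
    rw [coe_polyToChart, aeval_X]
  have hcomp : (algebraMap (chartB R z) Ω).comp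
      ((algebraMap (Polynomial R) (chartB R z)).comp C) = ι.comp R.subtype := by
    ext r
    exact hC r
  intro π hπ hπw hπS
  have hrad := Fermat.Agent.S18.H754.hNC_typed R (chartB R z) ⟨w, hwR⟩ hirr hwB Lc hLcl
    (fun r => by rw [hC]; exact hRL r)
    (fun a ha => by rw [hcomp]; exact hLalg a ha) S SΩ
    (fun c hc => by
      obtain ⟨s, hs, hsc⟩ := hS c hc
      exact ⟨s, hs, by rw [hC]; exact hsc⟩)
    (by rw [hX]; exact hunr) π hπ hπw hπS
  exact elementwise_of_isRadical hz π hπ.ne_zero hrad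

end Generic

/-! ### The hypotheses of `exists_chart_lift` from a good model -/

section Hyp

variable (G : GoodModel Lc Ec Fc R V w x S)

/-- the branch values as elements of `R ⊆ Fc` -/
def Sf : Finset (Rf Fc R) :=
  S.attach.map
    ⟨fun s => (⟨⟨s.1, R_le_Fc G (G.S_mem s.1 s.2)⟩, G.S_mem s.1 s.2⟩ : Rf Fc R),
      fun _ _ h => Subtype.ext (congrArg (fun c : Rf Fc R => ((c : Fc) : Ω)) h)⟩

theorem coe_mem_of_mem_Sf {c : Rf Fc R} (hc : c ∈ Sf G) : ((c : Fc) : Ω) ∈ S := by
  unfold Sf at hc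
  obtain ⟨s, -, rfl⟩ := Finset.mem_map.1 hc
  exact s.2

theorem exists_mem_Sf {c : Ω} (hc : c ∈ S) : ∃ s ∈ Sf G, (((s : Rf Fc R) : Fc) : Ω) = c := by
  refine ⟨⟨⟨c, R_le_Fc G (G.S_mem c hc)⟩, G.S_mem c hc⟩, ?_, rfl⟩
  unfold Sf
  exact Finset.mem_map.2 ⟨⟨c, hc⟩, Finset.mem_attach _ _, rfl⟩

include G in
theorem isUnit_sub_Sf : ∀ c ∈ Sf G, ∀ c' ∈ Sf G, c ≠ c' → IsUnit (c - c') := by
  intro c hc c' hc' hne
  rw [isUnit_subring_iff]
  have hne' : ((c : Fc) : Ω) ≠ ((c' : Fc) : Ω) := fun h => hne (Subtype.ext (Subtype.ext h))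
  refine ⟨fun h => hne (sub_eq_zero.1 (Subtype.ext h)), ?_⟩
  have := G.S_distinct _ (coe_mem_of_mem_Sf G hc) _ (coe_mem_of_mem_Sf G hc') hne'
  exact this

section Alg

attribute [local instance] FractionRing.liftAlgebra

include G in
/-- every element of `Fc` is algebraic over `R[x]` -/
theorem isAlgebraic_adjoin_of_goodModel (f : Fc) :
    IsAlgebraic (Algebra.adjoin (Rf Fc R) ({xf G} : Set Fc)) f := by
  haveI := finiteDimensional_fractionRing G
  exact isAlgebraic_of_finite_fractionRing (A := baseRing (Rf Fc R) (xf G)) f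

end Alg

include G in
/-- elementwise separability of the special fibre, inside `Fc` -/
theorem sepB_of_goodModel : ∀ f ∈ chartB (Rf Fc R) (xf G), ∃ P : Polynomial Fc,
    (∀ i, P.coeff i ∈ Algebra.adjoin (Rf Fc R) ({xf G} : Set Fc)) ∧
    P.eval f * (wf G)⁻¹ ∈ Vf G ∧ (derivative P).eval f ≠ 0 ∧
    ((derivative P).eval f)⁻¹ ∈ Vf G := by
  intro f hf
  have hfV : f ∈ Vf G := chart_le_V (Vf G) (Rf_le_Vf G) (xf_mem_Vf G) hf
  obtain ⟨P, hPc, hP1, hP2, hP3⟩ := G.separable (f : Ω) hfV
  obtain ⟨Q, hQ, hQc⟩ := exists_poly_Fc (fun r hr => R_le_Fc G hr) (xf G) P hPc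
  have e1 : ((Q.eval f : Fc) : Ω) = P.eval (f : Ω) := by rw [_root_.Fermat.Agent.S37.Rim.H383.coe_eval_Fc, hQ]
  have e2 : (((derivative Q).eval f : Fc) : Ω) = (derivative P).eval (f : Ω) := by
    rw [_root_.Fermat.Agent.S37.Rim.H383.coe_eval_Fc, ← derivative_map, hQ]
  refine ⟨Q, hQc, ?_, ?_, ?_⟩
  · show ((Q.eval f * (wf G)⁻¹ : Fc) : Ω) ∈ V
    rw [Subfield.coe_mul, Subfield.coe_inv, e1]
    exact hP1
  · intro h0
    apply hP2
    rw [← e2, h0]
    rfl
  · show ((((derivative Q).eval f)⁻¹ : Fc) : Ω) ∈ V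
    rw [Subfield.coe_inv, e2]
    exact hP3

/-- the comparison `R ⊆ Ec` to `R ⊆ Fc` -/
def reToRf : Re G →+* Rf Fc R where
  toFun e := ⟨⟨((e : Ec) : Ω), G.E_le_F (e : Ec).2⟩, e.2⟩
  map_one' := rfl
  map_mul' _ _ := rfl
  map_zero' := rfl
  map_add' _ _ := rfl

theorem reToRf_injective : Function.Injective (reToRf G) := by
  intro a b h
  apply Subtype.ext
  apply Subtype.ext
  exact congrArg (fun c : Rf Fc R => ((c : Fc) : Ω)) h

include G in
/-- the constants are algebraic over `R` -/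
theorem hLalg_of_goodModel : ∀ a ∈ Lc, ∃ p : Polynomial (Rf Fc R), p ≠ 0 ∧
    eval₂ (Fc.subtype.comp (Rf Fc R).subtype) a p = 0 := by
  intro a ha
  obtain ⟨p, hp0, hp⟩ := exists_poly_valuationSubring (Re G) (G.L_algebraic a ha)
  refine ⟨p.map (reToRf G), (Polynomial.map_ne_zero_iff (reToRf_injective G)).2 hp0, ?_⟩
  rw [eval₂_map]
  exact hp

section Inst

attribute [local instance] FractionRing.liftAlgebra

include G in
theorem isIntegrallyClosed_chartB : IsIntegrallyClosed (chartB (Rf Fc R) (xf G)) := by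
  haveI := finiteDimensional_fractionRing G
  haveI := charZero_Fc G
  exact chartRing_isIntegrallyClosed (Rf Fc R) (xf G)

include G in
theorem finite_chartB :
    Module.Finite (Algebra.adjoin (Rf Fc R) ({xf G} : Set Fc)) (chartB (Rf Fc R) (xf G)) := by
  haveI := finiteDimensional_fractionRing G
  haveI := charZero_Fc G
  haveI := isDiscreteValuationRing_Rf G
  exact chartRing_finite (Rf Fc R) (xf G) (transcendental_xf G)

end Inst

include G in
/-- `w` is a prime element of the chart -/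
theorem prime_wB_of_goodModel : Prime (wB (z := xf G) (wf_mem_Rf G)) :=
  prime_wB (Vf G) (wf_mem_Rf G) (wf_ne_zero G) (Rf_le_Vf G) (xf_mem_Vf G)
    (wf_inv_not_mem_Vf G) (Vf_gen G) (qep_fin' G)

include G in
/-- `hNC` for the chart of a good model, elementwise form -/
theorem hNC_of_goodModel :
    ∀ π : Polynomial (Rf Fc R), Prime π → ¬ Associated π (C ⟨wf G, wf_mem_Rf G⟩) →
      (∀ c ∈ Sf G, ¬ Associated π (X - C c)) →
      ∀ f ∈ chartB (Rf Fc R) (xf G), ∀ n : ℕ,
        f ^ n * (aeval (xf G) π)⁻¹ ∈ chartB (Rf Fc R) (xf G) →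
        f * (aeval (xf G) π)⁻¹ ∈ chartB (Rf Fc R) (xf G) := by
  haveI := charZero_Fc G
  haveI := isDiscreteValuationRing_Rf G
  haveI := isIntegrallyClosed_chartB G
  haveI := finite_chartB G
  exact hNC_of_unramified (transcendental_xf G) Fc.subtype (wf_mem_Rf G) (irreducible_wf G)
    (prime_wB_of_goodModel G) Lc G.L_algClosed (fun r => G.E_le_L (G.R_le r.2))
    (hLalg_of_goodModel G) (Sf G) S (fun c hc => exists_mem_Sf G hc) G.unramified

end Hyp

/-! ### D2 -/

/-- **Leaf D2 (board v3): normality of the special fibre of a good model.**  An element `f ∈ V`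
which is a root modulo `w` of a monic polynomial over `R[x]` is congruent modulo `w` to an
element of the chart. -/
theorem normalAbs (G : GoodModel Lc Ec Fc R V w x S) :
    ∀ f ∈ V, ∀ P : Polynomial Ω, P.Monic → (∀ i, P.coeff i ∈ polyRing R x) →
      P.eval f * w⁻¹ ∈ V → ∃ b ∈ chart Fc R x, (f - b) * w⁻¹ ∈ V := by
  intro f hf P hPm hPc hPv
  haveI := charZero_Fc G
  haveI := isDiscreteValuationRing_Rf G
  haveI := isIntegrallyClosed_chartB G
  haveI := finite_chartB G
  have hR : ∀ r ∈ R, r ∈ Fc := fun r hr => R_le_Fc G hr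
  obtain ⟨Q, hQ, hQc⟩ := exists_poly_Fc hR (xf G) P hPc
  have hQm : Q.Monic := by
    rw [← hQ] at hPm
    exact Polynomial.monic_of_injective Fc.subtype_injective hPm
  have hv : (⟨f, G.V_le hf⟩ : Fc) ∈ Vf G := hf
  have hQv : Q.eval (⟨f, G.V_le hf⟩ : Fc) * (wf G)⁻¹ ∈ Vf G := by
    show ((Q.eval (⟨f, G.V_le hf⟩ : Fc) * (wf G)⁻¹ : Fc) : Ω) ∈ V
    rw [Subfield.coe_mul, Subfield.coe_inv, _root_.Fermat.Agent.S37.Rim.H383.coe_eval_Fc, hQ]
    exact hPv
  obtain ⟨b, hb, hbv⟩ := exists_chart_lift (transcendental_xf G)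
    (isAlgebraic_adjoin_of_goodModel G) (Vf G) (wf_mem_Rf G) (irreducible_wf G) (Rf_le_Vf G)
    (xf_mem_Vf G) (wf_inv_not_mem_Vf G) (Vf_gen G) (qep_fin' G) (sepB_of_goodModel G) (Sf G)
    (isUnit_sub_Sf G) (hNC_of_goodModel G) hv Q hQm
    (fun i => (chartB (Rf Fc R) (xf G)).algebraMap_mem ⟨Q.coeff i, hQc i⟩) hQv
  exact ⟨(b : Ω), (mem_chartRing_iff Fc R (xf G) hR).1 hb, hbv⟩

/-- The same on the chart at infinity. -/
theorem normalAbs_inv (G : GoodModel Lc Ec Fc R V w x S) :
    ∀ f ∈ V, ∀ P : Polynomial Ω, P.Monic → (∀ i, P.coeff i ∈ polyRing R x⁻¹) →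
      P.eval f * w⁻¹ ∈ V → ∃ b ∈ chart Fc R x⁻¹, (f - b) * w⁻¹ ∈ V := by
  classical
  exact normalAbs (Fermat.Agent.S18.H425.goodModel_inv G)

/-- `NormalAbsStatement` of board v3 (`Core/Skeleton4.lean`), verbatim. -/
theorem normalAbsStatement :
    ∀ (Ω : Type) [Field Ω] (Lc Ec Fc : Subfield Ω) (R V : Subring Ω) (w x : Ω) (S : Finset Ω),
      Alg.GoodModel Lc Ec Fc R V w x S →
      ∀ f ∈ V, ∀ P : Polynomial Ω, P.Monic → (∀ i, P.coeff i ∈ Alg.polyRing R x) →
        P.eval f * w⁻¹ ∈ V →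
        ∃ b ∈ Alg.chart Fc R x, (f - b) * w⁻¹ ∈ V :=
  fun _ _ _ _ _ _ _ _ _ _ G => normalAbs G

end Fermat.Agent.S37.Rim.H383

end
end
-- ===== PACK-END S37/Rim/H383/NormalAbs.lean

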