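import Fermat.Prelude.Def_AlgebraicCurve_Correspondence
import Fermat.Prelude.Def_FLTPrelim_Ramification
import Fermat.Agent.Pack.S34.G0E10L1
import Fermat.Agent.Pack.S34.G0E7L0
import Fermat.Agent.Pack.S34.G0E10L3
import Fermat.Agent.Pack.S34.G0E8L2
import Fermat.Agent.Pack.S34.G0E10L2
import Fermat.Agent.Pack.S34.G0E8L1
import Fermat.Agent.Pack.S34.G0E9L3
import Fermat.Agent.Pack.S34.G0E7L3
import Fermat.Agent.Pack.S34.G0E3L1
import Fermat.Agent.Pack.S34.G0E1L1
import Fermat.Agent.Pack.S34.G0E3L2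
import Fermat.Agent.Pack.S34.G0E4L1
import Fermat.Agent.Pack.S34.G0E9L1
import Fermat.Agent.Pack.S34.G0E4L3
import Fermat.Agent.Pack.S34.G0E7L1
import Fermat.Agent.Pack.S34.G0E10L0
import Fermat.Agent.Pack.S34.G0E8L3
import Fermat.Agent.Pack.S34.G0E2L0
import Fermat.Agent.Pack.S34.G0E6L3

-- ===== PACK-BEGIN S29/H332/Rot.lean
section



/-!
# S29 / M4b / K2 (analytic part): local orders of a function with character

In the S24 framework (`HolBase`, `Expansion`, `RotData`): if `f ∈ Hol` is invariant under `ε ^ k`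
then `R.m ∣ k * ord (X.E f)`.  For a function `h` with a character `χ` of `Γ₀(N)` and the coset
`x = g Γ₀(N)`, `h ∘ g⁻¹` is invariant under `ε ^ k` as soon as `ε ^ k x = x` and `χ` is trivial on
`g⁻¹ ε ^ k g` (automatic if `χ` kills parabolic and finite-order elements).  Hence the order of
the expansion `σ_x` of `h ^ p` is divisible by `p * (m / k)`: the divisor of `h ^ p` is divisible
by `p` at every place.
-/

set_option autoImplicit false
set_option linter.unusedSectionVars false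

noncomputable section

open UpperHalfPlane HahnSeries ModularCurve
open scoped MatrixGroups

namespace Fermat.Agent.S29.H332

open Fermat.Agent.S24 Fermat.Agent.S24.H997

variable {N : ℕ} [NeZero N]

section Abstract

variable (B : HolBase N) (X : Expansion B) {ε : SL(2, ℤ)} (R : RotData B X ε)

/-- Iterating the rotation relation. -/
theorem rotRel_pow (k : ℕ) (f : B.Hol) :
    RotRel (R.ζ ^ k) (X.E f) (X.E (B.compH (ε ^ k) f)) := by
  induction k with
  | zero =>
    rw [pow_zero, pow_zero, HolBase.compH_one]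
    exact ⟨rfl, by simp⟩
  | succ k ih =>
    have h1 := R.rot (B.compH (ε ^ k) f)
    rw [← HolBase.compH_mul, ← pow_succ] at h1
    refine ⟨h1.1.trans ih.1, ?_⟩
    rw [h1.2, ih.1, ih.2, ← mul_assoc, pow_succ, mul_zpow, mul_comm (R.ζ ^ (X.E f).order)]

/-- If `f ≠ 0` is invariant under `ε ^ k`, then `m ∣ k * ord (E f)`. -/
theorem dvd_mul_order_of_compH_pow_eq (k : ℕ) {f : B.Hol} (hf : f ≠ 0)
    (hinv : B.compH (ε ^ k) f = f) : (R.m : ℤ) ∣ (k : ℤ) * (X.E f).order := by
  have h := rotRel_pow B X R k f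
  rw [hinv] at h
  have hE : X.E f ≠ 0 := fun h0 => hf (X.inj (by rw [h0, map_zero]))
  have hlc : (X.E f).leadingCoeff ≠ 0 := leadingCoeff_ne_zero.mpr hE
  have h2 := h.2
  have h3 : (R.ζ ^ k) ^ (X.E f).order = 1 := by
    have : (R.ζ ^ k) ^ (X.E f).order * (X.E f).leadingCoeff = 1 * (X.E f).leadingCoeff := by
      rw [one_mul]
      exact h2.symm
    exact mul_right_cancel₀ hlc this
  rw [← zpow_natCast, ← zpow_mul] at h3
  exact (R.hζ.zpow_eq_one_iff_dvd _).mp h3

end Abstract

section Character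

variable {χ : CongruenceSubgroup.Gamma0 N →* ℂˣ} {h : ℍ → ℂ}

omit [NeZero N] in
/-- `h ∘ g` is invariant under `δ` if `g δ g⁻¹ ∈ Γ₀(N)` and `χ (g δ g⁻¹) = 1`. -/
theorem HasCharacter.compSL_compSL (hh : HasCharacter χ h) (g δ : SL(2, ℤ))
    (hδ : g * δ * g⁻¹ ∈ CongruenceSubgroup.Gamma0 N) (hχ : χ ⟨_, hδ⟩ = 1) :
    compSL δ (compSL g h) = compSL g h := by
  funext τ
  simp only [compSL_apply]
  have h1 : g • (δ • τ) = (g * δ * g⁻¹) • (g • τ) := by
    rw [← mul_smul, ← mul_smul, mul_assoc, mul_assoc, inv_mul_cancel, mul_one]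
  have h2 := hh ⟨_, hδ⟩ (g • τ)
  rw [hχ, Units.val_one, one_mul] at h2
  rw [h1, h2]

/-- `χ` is trivial on the elements of finite order. -/
def EllTrivial (χ : CongruenceSubgroup.Gamma0 N →* ℂˣ) : Prop :=
  ∀ (γ : CongruenceSubgroup.Gamma0 N) (n : ℕ), 0 < n → γ ^ n = 1 → χ γ = 1

/-- **Local divisibility.**  Let `h ∈ holN N` be nonzero with character `χ`, `X` an expansion with
rotation data for `ε`, `g ∈ SL(2,ℤ)` and `k` with `g ε^k g⁻¹ ∈ Γ₀(N)`, `χ(g ε^k g⁻¹) = 1`.  Then
`m ∣ k * ord (E (h ∘ g))`. -/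
theorem HasCharacter.dvd_mul_order (hh : HasCharacter χ h) (hmem : h ∈ holN N) (h0 : h ≠ 0)
    (X : Expansion (holBase N)) {ε : SL(2, ℤ)} (R : RotData (holBase N) X ε)
    (g : SL(2, ℤ)) (k : ℕ) (hk : g * ε ^ k * g⁻¹ ∈ CongruenceSubgroup.Gamma0 N)
    (hχ : χ ⟨_, hk⟩ = 1) :
    (R.m : ℤ) ∣ (k : ℤ) * (X.E ((holBase N).compH g ⟨h, hmem⟩)).order := by
  refine dvd_mul_order_of_compH_pow_eq (holBase N) X R k ?_ ?_
  · intro hz
    apply h0
    have := (holBase N).compH_injective g (hz.trans (map_zero _).symm)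
    exact congrArg Subtype.val this
  · apply Subtype.ext
    exact hh.compSL_compSL g (ε ^ k) hk hχ

omit [NeZero N] in
/-- Conjugates of elements of finite order have finite order. -/
theorem EllTrivial.conj (hχ : EllTrivial χ) {ε : SL(2, ℤ)} {n : ℕ} (hn : 0 < n) (hε : ε ^ n = 1)
    (g : SL(2, ℤ)) (k : ℕ) (hk : g * ε ^ k * g⁻¹ ∈ CongruenceSubgroup.Gamma0 N) :
    χ ⟨_, hk⟩ = 1 := by
  refine hχ _ n hn ?_
  apply Subtype.ext
  rw [SubgroupClass.coe_pow, Subgroup.coe_mk, OneMemClass.coe_one]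
  have : (g * ε ^ k * g⁻¹) ^ n = g * (ε ^ k) ^ n * g⁻¹ := conj_pow
  rw [this, ← pow_mul, mul_comm, pow_mul, hε, one_pow, mul_one, mul_inv_cancel]

omit [NeZero N] in
/-- Conjugates of powers of `T` are parabolic. -/
theorem ParTrivial.conj_T (hχ : ParTrivial χ) (g : SL(2, ℤ)) (k : ℕ)
    (hk : g * ModularGroup.T ^ k * g⁻¹ ∈ CongruenceSubgroup.Gamma0 N) :
    χ ⟨_, hk⟩ = 1 := by
  apply hχ
  left
  have := trace_conj_T_zpow g (k : ℤ)
  rwa [zpow_natCast] at this

/-- Local divisibility at a point with finite-order rotation `ε` (elliptic points: `ε = S`,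
`ε = S * T`; generic points: `ε = 1`). -/
theorem HasCharacter.dvd_mul_order_of_finite_order (hh : HasCharacter χ h) (hmem : h ∈ holN N)
    (h0 : h ≠ 0) (hχ : EllTrivial χ)
    (X : Expansion (holBase N)) {ε : SL(2, ℤ)} (R : RotData (holBase N) X ε)
    {n : ℕ} (hn : 0 < n) (hε : ε ^ n = 1)
    (g : SL(2, ℤ)) (k : ℕ) (hk : g * ε ^ k * g⁻¹ ∈ CongruenceSubgroup.Gamma0 N) :
    (R.m : ℤ) ∣ (k : ℤ) * (X.E ((holBase N).compH g ⟨h, hmem⟩)).order :=
  hh.dvd_mul_order hmem h0 X R g k hk (hχ.conj hn hε g k hk)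

/-- Local divisibility at the cusps (`ε = T`). -/
theorem HasCharacter.dvd_mul_order_T (hh : HasCharacter χ h) (hmem : h ∈ holN N)
    (h0 : h ≠ 0) (hχ : ParTrivial χ)
    (X : Expansion (holBase N)) (R : RotData (holBase N) X ModularGroup.T)
    (g : SL(2, ℤ)) (k : ℕ)
    (hk : g * ModularGroup.T ^ k * g⁻¹ ∈ CongruenceSubgroup.Gamma0 N) :
    (R.m : ℤ) ∣ (k : ℤ) * (X.E ((holBase N).compH g ⟨h, hmem⟩)).order :=
  hh.dvd_mul_order hmem h0 X R g k hk (hχ.conj_T g k hk)

end Character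

end Fermat.Agent.S29.H332

end
end
-- ===== PACK-END S29/H332/Rot.lean

-- ===== PACK-BEGIN S18/H564/ConstF.lean
section




/-!
# S18 / T2 (helper564): `CONST_F` — a function without zeros is constant (char 0)

* `exists_const_of_forall_ord_eq_zero` : generic form, for any function field `F/K`
  (`K` algebraically closed of characteristic `0`) having a coordinate `t`
  (`t` transcendental, `F/K(t)` finite): `u ≠ const ⇒ u` has a zero.  From the fundamental
  identity `∑_{v(u) > 0} ord_v u = [F : K(u)]` (S24, `FF.sum_ord_pos_eq_finrank`, on main).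
* `constOfOrdZero_modularFunctionFieldBar N` : the instance `F = ℚ̄(j(q^d) : d ∣ N)`; its
  statement is (defeq to) helper94's `ConstOfOrdZero (AlgebraicClosure ℚ) (modularFunctionFieldBar N)`.
-/

set_option autoImplicit false

noncomputable section

open AlgebraicCurve ModularCurve IntermediateField

namespace Fermat.Agent.S18.H564

section Generic

variable {K F : Type*} [Field K] [Field F] [Algebra K F] [IsAlgClosed K] [CharZero K]

/-- A non-constant function has a zero. -/
theorem exists_ord_pos_of_transcendental (t : F) (ht : Transcendental K t)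
    [FiniteDimensional K⟮t⟯ F] {u : F} (hu : Transcendental K u) :
    ∃ v : Place K F, 0 < v.ord u := by
  have hcoord0 : Fermat.Agent.S24.FF.IsCoord K t := ⟨ht, inferInstance⟩
  have hcoord : Fermat.Agent.S24.FF.IsCoord K u :=
    Fermat.Agent.S24.FF.IsCoord.of_transcendental (x := t) hu
  have : FiniteDimensional K⟮u⟯ F := hcoord.finite
  have hsum := Fermat.Agent.S24.FF.sum_ord_pos_eq_finrank (K := K) (F := F) hu
  by_contra hne
  have hempty : (Fermat.Agent.S24.FF.finite_setOf_ord_pos (K := K) (F := F) hu).toFinset = ∅ := by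
    rw [Finset.eq_empty_iff_forall_notMem]
    intro v hv
    rw [Set.Finite.mem_toFinset] at hv
    exact hne ⟨v, hv⟩
  rw [hempty, Finset.sum_empty] at hsum
  have hpos : 0 < Module.finrank K⟮u⟯ F := Module.finrank_pos
  omega

/-- **CONST_F, generic form.** -/
theorem exists_const_of_forall_ord_eq_zero (t : F) (ht : Transcendental K t)
    [FiniteDimensional K⟮t⟯ F] (u : F) (hu : ∀ v : Place K F, v.ord u = 0) :
    ∃ c : K, u = algebraMap K F c := by
  by_contra hne
  have hu_tr : Transcendental K u := by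
    intro halg
    obtain ⟨c, hc⟩ := Fermat.Agent.S24.exists_algebraMap_eq_of_isAlgebraic halg
    exact hne ⟨c, hc.symm⟩
  obtain ⟨v, hv⟩ := exists_ord_pos_of_transcendental t ht hu_tr
  rw [hu v] at hv
  exact lt_irrefl _ hv

end Generic

/-- `j` is a coordinate of the function field of `X₀(N)` over `ℚ̄`. -/
theorem transcendental_jF (N : ℕ) [NeZero N] :
    Transcendental (AlgebraicClosure ℚ) (Fermat.Agent.S24.jF N) := by
  obtain ⟨P⟩ := Fermat.Agent.S24.nonempty_modularPackage N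
  have : Nonempty (Fermat.Agent.S24.XX N) := ⟨((1 : Matrix.SpecialLinearGroup (Fin 2) ℤ) :
    Fermat.Agent.S24.XX N)⟩
  exact Fermat.Agent.S24.transcendental_of_localData_inv (Fermat.Agent.S24.jF N) P.dataInf

theorem finiteDimensional_jF (N : ℕ) [NeZero N] :
    FiniteDimensional (AlgebraicClosure ℚ)⟮Fermat.Agent.S24.jF N⟯
      ↥(modularFunctionFieldBar N) := by
  obtain ⟨P⟩ := Fermat.Agent.S24.nonempty_modularPackage N
  exact P.finiteDimensional

/-- **T2 = CONST_F** for `F = modularFunctionFieldBar N`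
(= helper94's `ConstOfOrdZero (AlgebraicClosure ℚ) (modularFunctionFieldBar N)`, unfolded). -/
theorem constOfOrdZero_modularFunctionFieldBar (N : ℕ) [NeZero N] :
    ∀ u : ↥(modularFunctionFieldBar N), u ≠ 0 →
      (∀ v : Place (AlgebraicClosure ℚ) ↥(modularFunctionFieldBar N), v.ord u = 0) →
      ∃ c : AlgebraicClosure ℚ,
        u = algebraMap (AlgebraicClosure ℚ) ↥(modularFunctionFieldBar N) c := by
  intro u _ hu
  have := finiteDimensional_jF N
  exact exists_const_of_forall_ord_eq_zero (Fermat.Agent.S24.jF N) (transcendental_jF N) u hu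

/-- A non-constant modular function has a zero (and, applied to `u⁻¹`, a pole). -/
theorem exists_ord_pos_modularFunctionFieldBar (N : ℕ) [NeZero N]
    {u : ↥(modularFunctionFieldBar N)} (hu : Transcendental (AlgebraicClosure ℚ) u) :
    ∃ v : Place (AlgebraicClosure ℚ) ↥(modularFunctionFieldBar N), 0 < v.ord u := by
  have := finiteDimensional_jF N
  exact exists_ord_pos_of_transcendental (Fermat.Agent.S24.jF N) (transcendental_jF N) hu

end Fermat.Agent.S18.H564

end
end
-- ===== PACK-END S18/H564/ConstF.lean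

-- ===== PACK-BEGIN S29/H812/NormFormula.lean
section


/-!
# S29 / H812 — the norm formula and the Prelude classes `SumRamificationInertia`,
`FundamentalIdentity`, `PushforwardNormFormula` for finite extensions of function fields over an
algebraically closed field of characteristic zero.
-/

set_option autoImplicit false

noncomputable section

open AlgebraicCurve IntermediateField

namespace Fermat.Agent.S29.H812

open Fermat.Agent.S24

variable {K F F' : Type*} [Field K] [Field F] [Field F']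
  [Algebra K F] [Algebra K F'] [Algebra F F'] [IsScalarTower K F F']
  [Algebra.IsIntegral F F'] [HasPrincipalDivisors K F']
  [IsAlgClosed K] [CharZero K] [Module.Finite F F']

variable (hF : ∃ x : F, Transcendental K x ∧ FiniteDimensional K⟮x⟯ F)

include hF in
omit [HasPrincipalDivisors K F'] [CharZero K] in
theorem inertiaDeg_eq_one (w : Place K F') : w.inertiaDeg F = 1 := by
  obtain ⟨x, hx, hxfin⟩ := hF
  haveI := finiteDimensional_adjoin_algebraMap (K := K) (F' := F') x
  have h := w.deg_restrict_mul_inertiaDeg (F := F)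
  rw [FF.deg_eq_one (w.restrict F) hx,
    FF.deg_eq_one w (transcendental_algebraMap_of (F' := F') hx), one_mul] at h
  exact h

include hF in
/-- **Norm formula**: `ord_v (N f) = ∑_{w | v} ord_w f`. -/
theorem ord_norm_eq_sum (v : Place K F) {f : F'} (hf : f ≠ 0) :
    v.ord (Algebra.norm F f) = ∑ w ∈ v.fiber F', w.ord f := by
  classical
  have hϖ : ∀ w : Place K F', ∃ ϖ : F', ϖ ≠ 0 ∧ w.ord ϖ = 1 ∧
      ∀ w' ∈ (v.fiber F').erase w, w'.ord ϖ = 0 := fun w =>
    exists_ord_eq_one_and_zero w _ (Finset.notMem_erase _ _)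
  choose ϖ hϖ0 hϖ1 hϖ2 using hϖ
  set c : Place K F' → ℤ := fun w => v.ord (Algebra.norm F (ϖ w)) with hc
  have hpne : ∀ k : Place K F' → ℕ, ∏ w ∈ v.fiber F', ϖ w ^ k w ≠ 0 := fun k =>
    Finset.prod_ne_zero_iff.mpr fun w _ => pow_ne_zero _ (hϖ0 w)
  have hprod : ∀ (k : Place K F' → ℕ), ∀ w' ∈ v.fiber F',
      w'.ord (∏ w ∈ v.fiber F', ϖ w ^ k w) = k w' := by
    intro k w' hw'
    rw [ord_prod w' _ _ fun w _ => pow_ne_zero _ (hϖ0 w)]
    simp_rw [H117.ord_pow]
    rw [Finset.sum_eq_single w']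
    · rw [hϖ1 w']; ring
    · intro w _ hne
      rw [hϖ2 w w' (Finset.mem_erase.mpr ⟨fun h => hne h.symm, hw'⟩)]; ring
    · intro h; exact absurd hw' h
  have hnorm : ∀ k : Place K F' → ℕ,
      v.ord (Algebra.norm F (∏ w ∈ v.fiber F', ϖ w ^ k w)) = ∑ w ∈ v.fiber F', (k w : ℤ) * c w := by
    intro k
    rw [map_prod, ord_prod v _ _ fun w _ =>
      Algebra.norm_ne_zero_iff.mpr (pow_ne_zero _ (hϖ0 w))]
    refine Finset.sum_congr rfl fun w _ => ?_
    rw [map_pow, H117.ord_pow]
  have hstar : ∀ f : F', f ≠ 0 →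
      v.ord (Algebra.norm F f) = ∑ w ∈ v.fiber F', w.ord f * c w := by
    intro f hf
    set p : Place K F' → ℕ := fun w => (w.ord f).toNat with hp
    set n : Place K F' → ℕ := fun w => (-(w.ord f)).toNat with hn
    have hpn : ∀ w : Place K F', w.ord f = (p w : ℤ) - (n w : ℤ) := by
      intro w
      simp only [hp, hn]
      omega
    have hcong := ord_norm_congr hF v (g := f * ∏ w ∈ v.fiber F', ϖ w ^ n w)
      (h := ∏ w ∈ v.fiber F', ϖ w ^ p w) (mul_ne_zero hf (hpne n)) (hpne p) (by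
        intro w' hw'
        rw [w'.ord_mul hf (hpne n), hprod n w' hw', hprod p w' hw', hpn w']
        ring)
    rw [map_mul, v.ord_mul (Algebra.norm_ne_zero_iff.mpr hf)
      (Algebra.norm_ne_zero_iff.mpr (hpne n)), hnorm, hnorm] at hcong
    have : ∑ w ∈ v.fiber F', w.ord f * c w
        = ∑ w ∈ v.fiber F', (p w : ℤ) * c w - ∑ w ∈ v.fiber F', (n w : ℤ) * c w := by
      rw [← Finset.sum_sub_distrib]
      refine Finset.sum_congr rfl fun w _ => ?_
      rw [hpn w]; ring
    rw [this]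
    linarith
  -- the constants `c w` are all `1`
  obtain ⟨π, hπ0, hπ1⟩ := H117.exists_ord_eq_one v
  have hπ' : algebraMap F F' π ≠ 0 := by simpa using hπ0
  have h1 := hstar (algebraMap F F' π) hπ'
  rw [Algebra.norm_algebraMap, H117.ord_pow, hπ1, mul_one] at h1
  have h2 : ∀ w ∈ v.fiber F', w.ord (algebraMap F F' π) = (w.ramificationIndex F : ℤ) := by
    intro w hw
    rw [w.ord_restrict, Place.mem_fiber.mp hw, hπ1, mul_one]
  have h3 : ((∑ w ∈ v.fiber F', w.ramificationIndex F : ℕ) : ℤ) = (Module.finrank F F' : ℤ) := by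
    exact_mod_cast sum_ramificationIndex_eq_finrank hF v
  have hcpos : ∀ w ∈ v.fiber F', 1 ≤ c w := by
    intro w hw
    have hin : InFib v (ϖ w) := inFib_iff_ord.mpr fun w' hw' => by
      by_cases h : w' = w
      · rw [h, hϖ1]; norm_num
      · rw [hϖ2 w w' (Finset.mem_erase.mpr ⟨h, hw'⟩)]
    have := ord_norm_pos_of_ord_pos hF v (hϖ0 w) hin hw (by rw [hϖ1]; norm_num)
    exact this
  have h4 : ∑ w ∈ v.fiber F', (w.ramificationIndex F : ℤ) * (c w - 1) = 0 := by
    have : ∑ w ∈ v.fiber F', (w.ramificationIndex F : ℤ) * (c w - 1)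
        = ∑ w ∈ v.fiber F', w.ord (algebraMap F F' π) * c w
          - ∑ w ∈ v.fiber F', (w.ramificationIndex F : ℤ) := by
      rw [← Finset.sum_sub_distrib]
      refine Finset.sum_congr rfl fun w hw => ?_
      rw [h2 w hw]; ring
    rw [this, ← h1]
    push_cast at h3
    rw [h3]; ring
  have h5 := (Finset.sum_eq_zero_iff_of_nonneg (fun w hw => by
    have he : (0 : ℤ) ≤ (w.ramificationIndex F : ℤ) := Int.natCast_nonneg _
    have := hcpos w hw
    exact mul_nonneg he (by omega))).mp h4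
  have hc1 : ∀ w ∈ v.fiber F', c w = 1 := by
    intro w hw
    have h6 := h5 w hw
    have he : (0 : ℤ) < (w.ramificationIndex F : ℤ) := by
      exact_mod_cast w.ramificationIndex_pos (F := F)
    rcases mul_eq_zero.mp h6 with h7 | h7
    · omega
    · omega
  rw [hstar f hf]
  refine Finset.sum_congr rfl fun w hw => ?_
  rw [hc1 w hw, mul_one]

include hF in
/-- The Prelude's `PushforwardNormFormula`. -/
theorem pushforwardNormFormula : Divisor.PushforwardNormFormula K F F' := by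
  classical
  intro f hf D hD v
  rw [Divisor.pushforward_apply, ord_norm_eq_sum hF v hf]
  have h1 : ∀ w ∈ D.support,
      (if w.restrict F = v then D w * (w.inertiaDeg F : ℤ) else 0)
        = if w.restrict F = v then w.ord f else 0 := by
    intro w _
    rw [inertiaDeg_eq_one hF w, hD w]
    simp
  rw [Finset.sum_congr rfl h1, ← Finset.sum_filter]
  refine Finset.sum_subset ?_ ?_
  · intro w hw
    exact Place.mem_fiber.mpr (Finset.mem_filter.mp hw).2
  · intro w hw hnot
    have : w ∉ D.support := fun h => hnot (Finset.mem_filter.mpr ⟨h, Place.mem_fiber.mp hw⟩)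
    rw [Finsupp.notMem_support_iff] at this
    rw [← hD w, this]

include hF in
/-- The Prelude's `SumRamificationInertia`. -/
theorem sumRamificationInertia : SumRamificationInertia K F F' where
  sum_ramificationIndex_mul_inertiaDeg v := by
    have h := sum_ramificationIndex_eq_finrank (F' := F') hF v
    rw [← h]
    push_cast
    refine Finset.sum_congr rfl fun w _ => ?_
    rw [inertiaDeg_eq_one hF w]
    simp

include hF in
/-- The Prelude's `FundamentalIdentity`. -/
theorem fundamentalIdentity : FundamentalIdentity K F F' :=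
  haveI := sumRamificationInertia (F' := F') hF
  inferInstance

end Fermat.Agent.S29.H812

end
end
-- ===== PACK-END S29/H812/NormFormula.lean

-- ===== PACK-BEGIN S29/H812/Along.lean
section



/-!
# S29 / H812 — the Prelude's `…Along` predicates for an arbitrary `K`-algebra homomorphism between
function fields of one variable over an algebraically closed field of characteristic zero.
-/

set_option autoImplicit false

noncomputable section

open AlgebraicCurve IntermediateField

namespace Fermat.Agent.S29.H812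

open Fermat.Agent.S24

variable {K F F' : Type*} [Field K] [Field F] [Field F'] [Algebra K F] [Algebra K F']
  [IsAlgClosed K] [CharZero K]

/-- A `K`-algebra homomorphism of function fields of one variable is finite. -/
theorem finiteAlong (hF : ∃ x : F, Transcendental K x ∧ FiniteDimensional K⟮x⟯ F)
    (hF' : ∃ x : F', Transcendental K x ∧ FiniteDimensional K⟮x⟯ F') (φ : F →ₐ[K] F') :
    FiniteAlong K φ := by
  letI := algebraAlong φ
  haveI := isScalarTower_along φ
  obtain ⟨x, hx, -⟩ := hF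
  obtain ⟨x', hx', hx'fin⟩ := hF'
  have hφx : Transcendental K (algebraMap F F' x) := transcendental_algebraMap_of hx
  haveI : FiniteDimensional K⟮algebraMap F F' x⟯ F' :=
    FF.finiteDimensional_adjoin_of_transcendental hx' hφx
  exact finite_of_finite_adjoin_algebraMap (K := K) x

theorem isIntegral_of_finiteAlong {φ : F →ₐ[K] F'} (h : FiniteAlong K φ) :
    φ.toRingHom.IsIntegral := by
  letI := algebraAlong φ
  haveI : Module.Finite F F' := h
  exact (Algebra.IsIntegral.of_finite F F').isIntegral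

theorem fundamentalIdentityAlong (hF : ∃ x : F, Transcendental K x ∧ FiniteDimensional K⟮x⟯ F)
    [HasPrincipalDivisors K F'] (φ : F →ₐ[K] F') (hfin : FiniteAlong K φ)
    (hφ : φ.toRingHom.IsIntegral) : FundamentalIdentityAlong K φ hφ := by
  letI := algebraAlong φ
  haveI := isScalarTower_along φ
  haveI := isIntegral_along φ hφ
  haveI : Module.Finite F F' := hfin
  exact fundamentalIdentity (F' := F') hF

theorem normFormulaAlong (hF : ∃ x : F, Transcendental K x ∧ FiniteDimensional K⟮x⟯ F)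
    [HasPrincipalDivisors K F'] (φ : F →ₐ[K] F') (hfin : FiniteAlong K φ) :
    NormFormulaAlong K φ hfin := by
  letI := algebraAlong φ
  haveI := isScalarTower_along φ
  haveI : Module.Finite F F' := hfin
  exact pushforwardNormFormula (F' := F') hF

end Fermat.Agent.S29.H812

end
end
-- ===== PACK-END S29/H812/Along.lean

-- ===== PACK-BEGIN S18/H558/BranchJ.lean
section



/-!
# S18 / MOD M2 (part 1): char-0 ramification of `F_M / ℚ̄(j)` in Prelude `Place` language

From the landed S24 analytic core (`H997.analyticCore`, `H117` local theorem), for every level `N`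
(`FF N = modularFunctionFieldBar N`, `jF N` the `j`-function, `Kbar = ℚ̄`):

* `ord_j_sub_eq_one`   : `a ≠ 0`, `a ≠ 1728`, `0 < v.ord (j - a)` ⟹ `v.ord (j - a) = 1`;
* `ord_j_dvd_three`    : `0 < v.ord j` ⟹ `v.ord j ∣ 3`;
* `ord_j_sub_1728_dvd_two` : `0 < v.ord (j - 1728)` ⟹ `v.ord (j - 1728) ∣ 2`;
* `finrank_jF`         : `[FF N : ℚ̄(j)] = #(SL₂(ℤ)/Γ₀(N))`.
-/

set_option autoImplicit false

noncomputable section

open AlgebraicCurve ModularCurve
open scoped MatrixGroups

namespace Fermat.Agent.S18.H558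

open Fermat.Agent.S24

variable (N : ℕ) [NeZero N]

/-- `-1` acts trivially on `SL₂(ℤ) / Γ₀(N)`. -/
theorem permOf_neg_one : permOf N (-1 : SL(2, ℤ)) = 1 := by
  ext x
  obtain ⟨g, rfl⟩ := QuotientGroup.mk_surjective x
  show ((-1 : SL(2, ℤ)) • (g : XX N)) = (g : XX N)
  rw [MulAction.Quotient.smul_mk, smul_eq_mul]
  apply QuotientGroup.eq.mpr
  have hinv : ((-1 : SL(2, ℤ)))⁻¹ = -1 := by
    rw [inv_eq_iff_eq_inv, eq_comm, inv_eq_iff_mul_eq_one, neg_mul_neg, one_mul]
  have h : (-1 * g)⁻¹ * g = (-1 : SL(2, ℤ)) := by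
    rw [neg_one_mul, ← mul_neg_one, mul_inv_rev, mul_assoc, inv_mul_cancel, mul_one, hinv]
  rw [h, CongruenceSubgroup.Gamma0_mem]
  simp

omit [NeZero N] in
theorem permOf_mul (g h : SL(2, ℤ)) : permOf N (g * h) = permOf N g * permOf N h := by
  ext x
  simp [permOf, mul_smul]

theorem permOf_pow (g : SL(2, ℤ)) (n : ℕ) : permOf N (g ^ n) = permOf N g ^ n := by
  induction n with
  | zero => simp [H997.permOf_one]
  | succ n ih => rw [pow_succ, pow_succ, permOf_mul, ih]

theorem S_sq : ModularGroup.S ^ 2 = (-1 : SL(2, ℤ)) := by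
  apply Subtype.ext
  rw [pow_two, Matrix.SpecialLinearGroup.coe_mul, ModularGroup.coe_S,
    Matrix.SpecialLinearGroup.coe_neg, Matrix.SpecialLinearGroup.coe_one]
  ext i j
  fin_cases i <;> fin_cases j <;> simp [Matrix.mul_apply, Fin.sum_univ_two]

theorem ST_cube : (ModularGroup.S * ModularGroup.T) ^ 3 = (-1 : SL(2, ℤ)) := by
  apply Subtype.ext
  rw [pow_succ, pow_two, Matrix.SpecialLinearGroup.coe_mul, Matrix.SpecialLinearGroup.coe_mul,
    Matrix.SpecialLinearGroup.coe_mul, ModularGroup.coe_S, ModularGroup.coe_T,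
    Matrix.SpecialLinearGroup.coe_neg, Matrix.SpecialLinearGroup.coe_one]
  ext i j
  fin_cases i <;> fin_cases j <;> simp [Matrix.mul_apply, Fin.sum_univ_two]

theorem permOf_inv_pow_eq_one (g : SL(2, ℤ)) (n : ℕ) (hg : g ^ n = -1) :
    (permOf N g⁻¹) ^ n = 1 := by
  rw [H997.permOf_inv, inv_pow, ← permOf_pow, hg, permOf_neg_one, inv_one]

/-- The degree of `F_N` over `ℚ̄(j)`. -/
theorem finrank_jF :
    FiniteDimensional ↥(IntermediateField.adjoin Kbar {jF N}) (FF N) ∧
      Module.finrank ↥(IntermediateField.adjoin Kbar {jF N}) (FF N) = Nat.card (XX N) := by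
  obtain ⟨hfd, hle⟩ := Deg457.degree_fields N
  exact ⟨hfd, le_antisymm hle (H997.analyticCore N).card_le_finrank⟩

/-- Generic values of `j` are unramified. -/
theorem ord_j_sub_eq_one (a : Kbar) (h0 : a ≠ 0) (h1 : a ≠ 1728) (v : Place Kbar (FF N))
    (hv : 0 < v.ord (jF N - algebraMap Kbar (FF N) a)) :
    v.ord (jF N - algebraMap Kbar (FF N) a) = 1 := by
  obtain ⟨hfd, hrank⟩ := finrank_jF N
  obtain ⟨Z, -, -, -, h⟩ := local_fin (jF N) hrank a ((H997.analyticCore N).dataFin a)
  exact h ((H997.analyticCore N).dataFin_perm_generic a h0 h1) v hv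

/-- General divisibility: if the `n`-th power of the monodromy at `a` is trivial, every zero of
`j - a` has order dividing `n`. -/
theorem ord_j_sub_dvd (a : Kbar) (n : ℕ)
    (hperm : ((H997.analyticCore N).dataFin a).perm ^ n = 1) (v : Place Kbar (FF N))
    (hv : 0 < v.ord (jF N - algebraMap Kbar (FF N) a)) :
    v.ord (jF N - algebraMap Kbar (FF N) a) ∣ (n : ℤ) := by
  obtain ⟨hfd, hrank⟩ := finrank_jF N
  set L := (H997.analyticCore N).dataFin a with hL
  have hE : IntermediateField.adjoin Kbar {jF N} ≤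
      IntermediateField.adjoin Kbar {jF N - algebraMap Kbar (FF N) a} :=
    (adjoin_sub_algebraMap Kbar (jF N) a).ge
  obtain ⟨x, rfl⟩ := H117.exists_placeOf_eq L _ hE hrank v hv
  exact H117.ord_t_dvd_of_pow_apply_eq L x n (by rw [hperm]; rfl)

theorem dataFin_zero_perm_eq :
    ((H997.analyticCore N).dataFin 0).perm = permOf N (ModularGroup.S * ModularGroup.T)⁻¹ := by
  unfold H997.AnalyticCore.dataFin
  rw [dif_pos rfl]
  rfl

theorem dataFin_1728_perm_eq :
    ((H997.analyticCore N).dataFin 1728).perm = permOf N (ModularGroup.S)⁻¹ := by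
  have h0 : (1728 : Kbar) ≠ 0 := by norm_num
  unfold H997.AnalyticCore.dataFin
  rw [dif_neg h0, dif_pos rfl]
  rfl

/-- Zeros of `j` have order `1` or `3`. -/
theorem ord_j_dvd_three (v : Place Kbar (FF N)) (hv : 0 < v.ord (jF N)) :
    v.ord (jF N) ∣ 3 := by
  have h := ord_j_sub_dvd N 0 3
    (by rw [dataFin_zero_perm_eq]; exact permOf_inv_pow_eq_one N _ 3 ST_cube) v
    (by rwa [map_zero, sub_zero])
  rw [map_zero, sub_zero] at h
  exact_mod_cast h

/-- Zeros of `j - 1728` have order `1` or `2`. -/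
theorem ord_j_sub_1728_dvd_two (v : Place Kbar (FF N))
    (hv : 0 < v.ord (jF N - algebraMap Kbar (FF N) 1728)) :
    v.ord (jF N - algebraMap Kbar (FF N) 1728) ∣ 2 := by
  have h := ord_j_sub_dvd N 1728 2
    (by rw [dataFin_1728_perm_eq]; exact permOf_inv_pow_eq_one N _ 2 S_sq) v hv
  exact_mod_cast h

end Fermat.Agent.S18.H558

end
end
-- ===== PACK-END S18/H558/BranchJ.lean

-- ===== PACK-BEGIN S18/H558/BranchT2.lean
section


/-!
# S18 / MOD M2 (part 2): ramification of `F_M / ℚ̄(t)` for the Hauptmodul `t = t₂` of `X₀(2)`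

Hypothesis (proved elsewhere, piece c3-i): `t ∈ FF M` with `j * t ^ 2 = (t + 256) ^ 3`.
Then `F_M / ℚ̄(t)` is unramified outside `t ∈ {0, -64, ∞}`:

* `ord_t2_sub_eq_one` : `c ≠ 0`, `c ≠ -64`, `0 < v.ord (t - c)` ⟹ `v.ord (t - c) = 1`;
* `ord_t2_add_64_dvd_two` : `0 < v.ord (t + 64)` ⟹ `v.ord (t + 64) ∣ 2`;
* `ord_t2_inv_sub_eq_one` : the same in the coordinate `1/t` (chart at infinity).
-/

set_option autoImplicit false

noncomputable section

open AlgebraicCurve ModularCurve

namespace Fermat.Agent.S18.H558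

open Fermat.Agent.S24

section Generic

variable {K F : Type*} [Field K] [Field F] [Algebra K F] (v : Place K F)

/-- A nonzero constant plus an element of positive order has order `0`. -/
theorem ord_const_add {g : K} (hg : g ≠ 0) {z : F} (hz : 0 < v.ord z) :
    v.ord (algebraMap K F g + z) = 0 := by
  have hg' : algebraMap K F g ≠ 0 := (map_ne_zero _).2 hg
  have h0 : v.ord (algebraMap K F g) = 0 := H117.ord_algebraMap v g
  rw [H117.ord_add_eq_of_lt v (by rw [h0]; exact hz) hg', h0]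

/-- A nonzero constant plus `T * y` with `0 < ord T`, `y` integral, has order `0`. -/
theorem ord_const_add_mul {g : K} (hg : g ≠ 0) {T y : F} (hT : 0 < v.ord T)
    (hy : y ∈ v.toValuationSubring) : v.ord (algebraMap K F g + T * y) = 0 := by
  rcases eq_or_ne y 0 with rfl | hy0
  · rw [mul_zero, add_zero]; exact H117.ord_algebraMap v g
  · have hT0 : T ≠ 0 := H117.ne_zero_of_ord_ne_zero v hT.ne'
    refine ord_const_add v hg ?_
    rw [v.ord_mul hT0 hy0]
    have := H117.ord_nonneg_of_mem v hy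
    omega

/-- If `0 < ord (t - c)` then `t` is integral at `v`. -/
theorem mem_of_ord_sub_pos {t : F} {c : K} (h : 0 < v.ord (t - algebraMap K F c)) :
    t ∈ v.toValuationSubring := by
  have h1 : t - algebraMap K F c ∈ v.toValuationSubring := H117.mem_of_ord_nonneg v h.le
  have h2 : algebraMap K F c ∈ v.toValuationSubring := v.algebraMap_mem' c
  have := add_mem h1 h2
  rwa [sub_add_cancel] at this

/-- If `0 < ord (t - c)` and `c ≠ 0` then `ord t = 0`. -/
theorem ord_eq_zero_of_ord_sub_pos {t : F} {c : K} (hc : c ≠ 0)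
    (h : 0 < v.ord (t - algebraMap K F c)) : v.ord t = 0 := by
  have := ord_const_add v hc h
  rwa [add_sub_cancel] at this

/-- Nonvanishing version of `ord_const_add_mul`. -/
theorem const_add_mul_ne_zero {g : K} (hg : g ≠ 0) {T y : F} (hT : 0 < v.ord T)
    (hy : y ∈ v.toValuationSubring) : algebraMap K F g + T * y ≠ 0 := by
  intro h
  rcases eq_or_ne y 0 with rfl | hy0
  · rw [mul_zero, add_zero] at h
    exact hg ((map_eq_zero _).1 h)
  · have hT0 : T ≠ 0 := H117.ne_zero_of_ord_ne_zero v hT.ne'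
    have h1 : T * y = algebraMap K F (-g) := by
      rw [map_neg, eq_neg_iff_add_eq_zero, add_comm]; exact h
    have h2 := congrArg v.ord h1
    rw [v.ord_mul hT0 hy0, H117.ord_algebraMap] at h2
    have := H117.ord_nonneg_of_mem v hy
    omega

/-- **Tower lemma.**  If `J * D = T ^ k * U` with `D`, `U` units at `v`, then
`ord J = k * ord T`. -/
theorem ord_eq_of_key {J D T U : F} (k : ℕ) (hkey : J * D = T ^ k * U)
    (hD0 : D ≠ 0) (hD : v.ord D = 0) (hU0 : U ≠ 0) (hU : v.ord U = 0) (hT0 : T ≠ 0) :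
    J ≠ 0 ∧ v.ord J = k * v.ord T := by
  have hJ0 : J ≠ 0 := by
    intro h
    rw [h, zero_mul] at hkey
    exact (mul_ne_zero (pow_ne_zero k hT0) hU0) hkey.symm
  refine ⟨hJ0, ?_⟩
  have h1 := congrArg v.ord hkey
  rw [v.ord_mul hJ0 hD0, v.ord_mul (pow_ne_zero k hT0) hU0, H117.ord_pow, hD, hU] at h1
  simpa using h1

/-- A positive integer `e` with `k * e ∣ k` (`k > 0`) is `1`. -/
theorem eq_one_of_mul_dvd {k : ℕ} (hk : 0 < k) {e : ℤ} (he : 0 < e) (h : (k : ℤ) * e ∣ (k : ℤ)) :
    e = 1 := by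
  have hk' : (k : ℤ) ≠ 0 := by exact_mod_cast hk.ne'
  have h1 : (k : ℤ) * e ∣ (k : ℤ) * 1 := by rwa [mul_one]
  have h2 : e ∣ 1 := (mul_dvd_mul_iff_left hk').mp h1
  exact Int.eq_one_of_dvd_one he.le h2

end Generic

section T2

variable (M : ℕ) [NeZero M] (t : FF M) (hid : jF M * t ^ 2 = (t + 256) ^ 3)

include hid

theorem t2_ne_zero : t ≠ 0 := by
  rintro rfl
  norm_num at hid

/-- Places over `t = -64`: ramification index `1` or `2`. -/
theorem ord_t2_add_64_dvd_two (v : Place Kbar (FF M))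
    (hv : 0 < v.ord (t - algebraMap Kbar (FF M) (-64))) :
    v.ord (t - algebraMap Kbar (FF M) (-64)) ∣ 2 := by
  set T := t - algebraMap Kbar (FF M) (-64) with hT
  have ht0 : t ≠ 0 := t2_ne_zero M t hid
  have hT0 : T ≠ 0 := H117.ne_zero_of_ord_ne_zero v hv.ne'
  have htv : v.ord t = 0 := ord_eq_zero_of_ord_sub_pos v (by norm_num) hv
  have htmem : t ∈ v.toValuationSubring := mem_of_ord_sub_pos v hv
  have hTmem : T ∈ v.toValuationSubring := H117.mem_of_ord_nonneg v hv.le
  -- (j - 1728) t^2 = (t + 64) (t - 512)^2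
  have key : (jF M - algebraMap Kbar (FF M) 1728) * t ^ 2
      = T * (algebraMap Kbar (FF M) (-576) + T * 1) ^ 2 := by
    have e1 : algebraMap Kbar (FF M) (-64) = -64 := by rw [map_neg, map_ofNat]
    have e2 : algebraMap Kbar (FF M) 1728 = 1728 := map_ofNat _ _
    have e3 : algebraMap Kbar (FF M) (-576) = -576 := by rw [map_neg, map_ofNat]
    rw [hT, e1, e2, e3]
    linear_combination hid
  have hU : v.ord (algebraMap Kbar (FF M) (-576) + T * 1) = 0 :=
    ord_const_add_mul v (by norm_num) hv (one_mem _)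
  have hU0 : algebraMap Kbar (FF M) (-576) + T * 1 ≠ 0 := by
    intro h
    have h2 : t ^ 2 ≠ 0 := pow_ne_zero 2 ht0
    rw [h] at key
    simp only [ne_eq, OfNat.ofNat_ne_zero, not_false_eq_true, zero_pow, mul_zero, mul_eq_zero,
      h2, or_false] at key
    -- j = 1728, so `j` would be constant; contradiction with hid? use orders instead
    have hj : jF M = algebraMap Kbar (FF M) 1728 := sub_eq_zero.mp key
    have ht512 : t = algebraMap Kbar (FF M) 512 := by
      have : t = algebraMap Kbar (FF M) (-64) + T := by rw [hT]; ring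
      have hT' : T = algebraMap Kbar (FF M) 576 := by
        have : T * 1 = -algebraMap Kbar (FF M) (-576) := by
          rw [eq_neg_iff_add_eq_zero, add_comm]; exact h
        rw [mul_one] at this
        rw [this, ← map_neg]; norm_num
      rw [this, hT', ← map_add]; norm_num
    have : v.ord T = 0 := by
      have hT' : T = algebraMap Kbar (FF M) 576 := by
        rw [hT, ht512, ← map_sub]; norm_num
      rw [hT']; exact H117.ord_algebraMap v _
    omega
  have hj0 : jF M - algebraMap Kbar (FF M) 1728 ≠ 0 := by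
    intro h
    rw [h, zero_mul] at key
    have := mul_ne_zero hT0 (pow_ne_zero 2 hU0)
    exact this key.symm
  have hord : v.ord (jF M - algebraMap Kbar (FF M) 1728) = v.ord T := by
    have h1 := congrArg v.ord key
    rw [v.ord_mul hj0 (pow_ne_zero 2 ht0), v.ord_mul hT0 (pow_ne_zero 2 hU0),
      H117.ord_pow, H117.ord_pow, htv, hU] at h1
    simpa using h1
  have hpos : 0 < v.ord (jF M - algebraMap Kbar (FF M) 1728) := by rw [hord]; exact hv
  have := ord_j_sub_1728_dvd_two M v hpos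
  rwa [hord] at this

end T2

end Fermat.Agent.S18.H558

namespace Fermat.Agent.S18.H558

open Fermat.Agent.S24

section T2main

variable (M : ℕ) [NeZero M] (t : FF M) (hid : jF M * t ^ 2 = (t + 256) ^ 3)

include hid

/-- **`F_M / ℚ̄(t₂)` is unramified outside `t₂ ∈ {0, -64, ∞}`.** -/
theorem ord_t2_sub_eq_one (c : Kbar) (hc0 : c ≠ 0) (hc64 : c ≠ -64) (v : Place Kbar (FF M))
    (hv : 0 < v.ord (t - algebraMap Kbar (FF M) c)) :
    v.ord (t - algebraMap Kbar (FF M) c) = 1 := by
  set C : FF M := algebraMap Kbar (FF M) c with hC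
  set T := t - C with hT
  have ht0 : t ≠ 0 := t2_ne_zero M t hid
  have hT0 : T ≠ 0 := H117.ne_zero_of_ord_ne_zero v hv.ne'
  have htv : v.ord t = 0 := ord_eq_zero_of_ord_sub_pos v hc0 hv
  have htmem : t ∈ v.toValuationSubring := mem_of_ord_sub_pos v hv
  have hCmem : C ∈ v.toValuationSubring := v.algebraMap_mem' c
  have hC0 : C ≠ 0 := (map_ne_zero _).2 hc0
  have hCv : v.ord C = 0 := H117.ord_algebraMap v c
  have ht2 : v.ord (t ^ 2) = 0 := by rw [H117.ord_pow, htv]; simp
  by_cases h256 : c = -256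
  · -- `j t² = (t + 256)³`
    have hCe : C = -256 := by rw [hC, h256, map_neg, map_ofNat]
    have key : jF M * t ^ 2 = T ^ 3 * 1 := by
      rw [hT, hCe]; linear_combination hid
    obtain ⟨hJ0, hJ⟩ := ord_eq_of_key v 3 key (pow_ne_zero 2 ht0) ht2 one_ne_zero v.ord_one hT0
    have hpos : 0 < v.ord (jF M) := by rw [hJ]; positivity
    have h3 := ord_j_dvd_three M v hpos
    rw [hJ] at h3
    exact eq_one_of_mul_dvd (k := 3) (by norm_num) hv (by exact_mod_cast h3)
  by_cases h512 : c = 512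
  · -- `(j - 1728) t² = (t - 512)² (t + 64)`
    have hCe : C = 512 := by rw [hC, h512, map_ofNat]
    have e2 : algebraMap Kbar (FF M) 1728 = 1728 := map_ofNat _ _
    have e3 : algebraMap Kbar (FF M) 576 = 576 := map_ofNat _ _
    have key : (jF M - algebraMap Kbar (FF M) 1728) * t ^ 2
        = T ^ 2 * (algebraMap Kbar (FF M) 576 + T * 1) := by
      rw [hT, hCe, e2, e3]; linear_combination hid
    obtain ⟨hJ0, hJ⟩ := ord_eq_of_key v 2 key (pow_ne_zero 2 ht0) ht2
      (const_add_mul_ne_zero v (by norm_num) hv (one_mem _))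
      (ord_const_add_mul v (by norm_num) hv (one_mem _)) hT0
    have hpos : 0 < v.ord (jF M - algebraMap Kbar (FF M) 1728) := by rw [hJ]; positivity
    have h2 := ord_j_sub_1728_dvd_two M v hpos
    rw [hJ] at h2
    exact eq_one_of_mul_dvd (k := 2) (by norm_num) hv (by exact_mod_cast h2)
  · -- generic case
    set a : Kbar := (c + 256) ^ 3 / c ^ 2 with ha
    have hc2 : c ^ 2 ≠ 0 := pow_ne_zero 2 hc0
    have hac : a * c ^ 2 = (c + 256) ^ 3 := by rw [ha]; field_simp
    have ha0 : a ≠ 0 := by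
      rw [ha]
      refine div_ne_zero (pow_ne_zero 3 ?_) hc2
      intro h
      exact h256 (eq_neg_of_add_eq_zero_left h)
    have ha1728 : a ≠ 1728 := by
      intro h
      rw [h] at hac
      have : (c + 64) * (c - 512) ^ 2 = 0 := by linear_combination -hac
      rcases mul_eq_zero.mp this with h1 | h1
      · exact hc64 (eq_neg_of_add_eq_zero_left h1)
      · exact h512 (sub_eq_zero.mp (pow_eq_zero_iff (by norm_num) |>.mp h1))
    set q : Kbar := c * (c + 256) ^ 2 * (c - 512) with hq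
    have hq0 : q ≠ 0 := by
      rw [hq]
      refine mul_ne_zero (mul_ne_zero hc0 (pow_ne_zero 2 ?_)) (sub_ne_zero.mpr h512)
      intro h
      exact h256 (eq_neg_of_add_eq_zero_left h)
    have hA : algebraMap Kbar (FF M) a * C ^ 2 = (C + 256) ^ 3 := by
      have := congrArg (algebraMap Kbar (FF M)) hac
      simpa [map_mul, map_pow, map_add, map_ofNat] using this
    have hQ : algebraMap Kbar (FF M) q = C * (C + 256) ^ 2 * (C - 512) := by
      rw [hq]; simp [map_mul, map_pow, map_add, map_sub, map_ofNat, hC]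
    set W : FF M := t * C ^ 2 + C ^ 3 - 196608 * C - 16777216 with hW
    have hWmem : W ∈ v.toValuationSubring := by
      have h1 : (196608 : FF M) ∈ v.toValuationSubring := by
        have := v.algebraMap_mem' (196608 : Kbar); rwa [map_ofNat] at this
      have h2 : (16777216 : FF M) ∈ v.toValuationSubring := by
        have := v.algebraMap_mem' (16777216 : Kbar); rwa [map_ofNat] at this
      exact sub_mem (sub_mem (add_mem (mul_mem htmem (pow_mem hCmem 2)) (pow_mem hCmem 3))
        (mul_mem h1 hCmem)) h2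
    have key : (jF M - algebraMap Kbar (FF M) a) * (t ^ 2 * C ^ 2)
        = T ^ 1 * (algebraMap Kbar (FF M) q + T * W) := by
      rw [hQ, hW, hT]
      linear_combination C ^ 2 * hid - t ^ 2 * hA
    have hD0 : t ^ 2 * C ^ 2 ≠ 0 := mul_ne_zero (pow_ne_zero 2 ht0) (pow_ne_zero 2 hC0)
    have hD : v.ord (t ^ 2 * C ^ 2) = 0 := by
      rw [v.ord_mul (pow_ne_zero 2 ht0) (pow_ne_zero 2 hC0), ht2, H117.ord_pow, hCv]; simp
    obtain ⟨hJ0, hJ⟩ := ord_eq_of_key v 1 key hD0 hD
      (const_add_mul_ne_zero v hq0 hv hWmem) (ord_const_add_mul v hq0 hv hWmem) hT0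
    have hJ' : v.ord (jF M - algebraMap Kbar (FF M) a) = v.ord T := by simpa using hJ
    have hpos : 0 < v.ord (jF M - algebraMap Kbar (FF M) a) := by rw [hJ']; exact hv
    rw [← hJ']
    exact ord_j_sub_eq_one M a ha0 ha1728 v hpos

/-- The same statement in the coordinate `s = 1/t` (chart at infinity): unramified outside
`s ∈ {0, -1/64}`. -/
theorem ord_t2_inv_sub_eq_one (s : Kbar) (hs0 : s ≠ 0) (hs64 : s ≠ -(1 / 64))
    (v : Place Kbar (FF M)) (hv : 0 < v.ord (t⁻¹ - algebraMap Kbar (FF M) s)) :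
    v.ord (t⁻¹ - algebraMap Kbar (FF M) s) = 1 := by
  have ht0 : t ≠ 0 := t2_ne_zero M t hid
  have hti : v.ord t⁻¹ = 0 := ord_eq_zero_of_ord_sub_pos v hs0 hv
  have htv : v.ord t = 0 := by rw [v.ord_inv] at hti; omega
  set S : FF M := algebraMap Kbar (FF M) s with hS
  have hS0 : S ≠ 0 := (map_ne_zero _).2 hs0
  have hSv : v.ord S = 0 := H117.ord_algebraMap v s
  -- `t⁻¹ - s = -(s / t) (t - 1/s)`
  have hrel : t⁻¹ - S = (-(S * t⁻¹)) * (t - algebraMap Kbar (FF M) s⁻¹) := by
    rw [map_inv₀, ← hS]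
    have h1 : S * S⁻¹ = 1 := mul_inv_cancel₀ hS0
    have h2 : t * t⁻¹ = 1 := mul_inv_cancel₀ ht0
    linear_combination (-t⁻¹) * h1 + S * h2
  have hne1 : -(S * t⁻¹) ≠ 0 := neg_ne_zero.mpr (mul_ne_zero hS0 (inv_ne_zero ht0))
  have hord1 : v.ord (-(S * t⁻¹)) = 0 := by
    rw [H117.ord_neg, v.ord_mul hS0 (inv_ne_zero ht0), hSv, hti]; rfl
  have hne2 : t - algebraMap Kbar (FF M) s⁻¹ ≠ 0 := by
    intro h
    rw [h, mul_zero] at hrel
    rw [hrel, v.ord_zero] at hv
    exact lt_irrefl _ hv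
  have hord : v.ord (t⁻¹ - S) = v.ord (t - algebraMap Kbar (FF M) s⁻¹) := by
    rw [hrel, v.ord_mul hne1 hne2, hord1, zero_add]
  rw [hord] at hv ⊢
  refine ord_t2_sub_eq_one M t hid s⁻¹ (inv_ne_zero hs0) ?_ v hv
  intro h
  apply hs64
  have : s = (s⁻¹)⁻¹ := (inv_inv s).symm
  rw [this, h]
  norm_num

end T2main

end Fermat.Agent.S18.H558

namespace Fermat.Agent.S18.H558

open Fermat.Agent.S24

/-- `j`-line, chart at infinity: in the coordinate `s = 1/j`, `F_N / ℚ̄(j)` is unramified outside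
`s ∈ {0, 1/1728}`. -/
theorem ord_j_inv_sub_eq_one (N : ℕ) [NeZero N] (s : Kbar) (hs0 : s ≠ 0) (hs : s ≠ 1 / 1728)
    (v : Place Kbar (FF N)) (hv : 0 < v.ord ((jF N)⁻¹ - algebraMap Kbar (FF N) s)) :
    v.ord ((jF N)⁻¹ - algebraMap Kbar (FF N) s) = 1 := by
  have hti : v.ord (jF N)⁻¹ = 0 := ord_eq_zero_of_ord_sub_pos v hs0 hv
  have ht0 : jF N ≠ 0 := by
    intro h
    rw [h, inv_zero, zero_sub, H117.ord_neg, H117.ord_algebraMap] at hv
    exact lt_irrefl _ hv
  set S : FF N := algebraMap Kbar (FF N) s with hS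
  have hS0 : S ≠ 0 := (map_ne_zero _).2 hs0
  have hSv : v.ord S = 0 := H117.ord_algebraMap v s
  have hrel : (jF N)⁻¹ - S = (-(S * (jF N)⁻¹)) * (jF N - algebraMap Kbar (FF N) s⁻¹) := by
    rw [map_inv₀, ← hS]
    have h1 : S * S⁻¹ = 1 := mul_inv_cancel₀ hS0
    have h2 : jF N * (jF N)⁻¹ = 1 := mul_inv_cancel₀ ht0
    linear_combination (-(jF N)⁻¹) * h1 + S * h2
  have hne1 : -(S * (jF N)⁻¹) ≠ 0 := neg_ne_zero.mpr (mul_ne_zero hS0 (inv_ne_zero ht0))
  have hord1 : v.ord (-(S * (jF N)⁻¹)) = 0 := by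
    rw [H117.ord_neg, v.ord_mul hS0 (inv_ne_zero ht0), hSv, hti]; rfl
  have hne2 : jF N - algebraMap Kbar (FF N) s⁻¹ ≠ 0 := by
    intro h
    rw [h, mul_zero] at hrel
    rw [hrel, v.ord_zero] at hv
    exact lt_irrefl _ hv
  have hord : v.ord ((jF N)⁻¹ - S) = v.ord (jF N - algebraMap Kbar (FF N) s⁻¹) := by
    rw [hrel, v.ord_mul hne1 hne2, hord1, zero_add]
  rw [hord] at hv ⊢
  refine ord_j_sub_eq_one N s⁻¹ (inv_ne_zero hs0) ?_ v hv
  intro h
  apply hs
  have : s = (s⁻¹)⁻¹ := (inv_inv s).symm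
  rw [this, h]
  norm_num

end Fermat.Agent.S18.H558

end
end
-- ===== PACK-END S18/H558/BranchT2.lean

-- ===== PACK-BEGIN S18/H24/Branch.lean
section






/-!
# S18 / MOD (M2) — ramification of `F_N / ℚ̄(j)` in `Place` language  (helper24)

`F_N = modularFunctionFieldBar N = ℚ̄(j(q^d) : d ∣ N)`, `j = jF N`.  For a place `v` of `F_N/ℚ̄`:

* `ord_sub_eq_one`     : `a ≠ 0, 1728`, `0 < v.ord (j - a)`  ⟹  `v.ord (j - a) = 1`   (unramified);
* `ord_zero_dvd`       : `0 < v.ord j`                      ⟹  `v.ord j ∣ 3`;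
* `ord_1728_dvd`       : `0 < v.ord (j - 1728)`             ⟹  `v.ord (j - 1728) ∣ 2`;
* `ord_inv_dvd`        : `0 < v.ord j⁻¹`                    ⟹  `v.ord j⁻¹ ∣ N`;
* `finrank_eq_psi`     : `[F_N : ℚ̄(j)] = ψ(N)`.

So `F_N/ℚ̄(j)` is tamely ramified, with branch values in `{0, 1728, ∞}` and ramification indices
dividing `3`, `2`, `N` respectively.  Source: the `LocalData` of the S24 modular package
(`H997.analyticCore`), helper117's local theorem and the relations `S² = (ST)³ = -1`,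
`T^N ∈ Γ(N)`.
-/

set_option autoImplicit false

noncomputable section

open AlgebraicCurve ModularCurve IntermediateField
open scoped MatrixGroups

namespace Fermat.Agent.S18.H24

open Fermat.Agent.S24

variable (N : ℕ) [NeZero N]

/-- `[F_N : ℚ̄(j)]` is finite. -/
instance finiteDimensional_FF :
    FiniteDimensional ↥(IntermediateField.adjoin Kbar {jF N}) (FF N) :=
  (Deg457.degree_fields N).1

theorem finrank_eq_card :
    Module.finrank ↥(IntermediateField.adjoin Kbar {jF N}) (FF N) = Nat.card (XX N) := by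
  obtain ⟨hfd, hle⟩ := Deg457.degree_fields N
  obtain ⟨_, _, h1, -⟩ := (H997.analyticCore N).modularPackage_fields hfd hle
  exact h1

/-- `[F_N : ℚ̄(j)] = ψ(N)`. -/
theorem finrank_eq_psi :
    Module.finrank ↥(IntermediateField.adjoin Kbar {jF N}) (FF N) = dedekindPsi N := by
  rw [finrank_eq_card, card_XX]

instance finite_XX : Finite (XX N) := by
  apply Nat.finite_of_card_ne_zero
  rw [← finrank_eq_card]
  exact Module.finrank_pos.ne'

section Generic

variable {N}
variable {t : FF N} (L : LocalData Kbar (FF N) ℂ (XX N) t)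

/-- General principle: if `perm ^ k = 1` then every ramification index over `t = 0`
divides `k`. -/
theorem ord_dvd_of_perm_pow (hE : IntermediateField.adjoin Kbar {jF N} ≤ Kbar⟮t⟯) (k : ℕ)
    (hk : L.perm ^ k = 1) (v : Place Kbar (FF N)) (hv : 0 < v.ord t) : v.ord t ∣ (k : ℤ) := by
  obtain ⟨x, rfl⟩ := H117.exists_placeOf_eq L (IntermediateField.adjoin Kbar {jF N}) hE
    (finrank_eq_card N) v hv
  exact H117.ord_t_dvd_of_pow_apply_eq L x k (by rw [hk]; rfl)

end Generic

theorem adjoin_le_sub (a : Kbar) :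
    IntermediateField.adjoin Kbar {jF N} ≤ Kbar⟮jF N - algebraMap Kbar (FF N) a⟯ := by
  rw [IntermediateField.adjoin_simple_le_iff]
  have h1 : jF N - algebraMap Kbar (FF N) a ∈ Kbar⟮jF N - algebraMap Kbar (FF N) a⟯ :=
    IntermediateField.mem_adjoin_simple_self _ _
  have h2 : algebraMap Kbar (FF N) a ∈ Kbar⟮jF N - algebraMap Kbar (FF N) a⟯ :=
    IntermediateField.algebraMap_mem _ a
  have := add_mem h1 h2
  rwa [sub_add_cancel] at this

theorem adjoin_le_inv : IntermediateField.adjoin Kbar {jF N} ≤ Kbar⟮(jF N)⁻¹⟯ := by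
  rw [IntermediateField.adjoin_simple_le_iff]
  have h1 : (jF N)⁻¹ ∈ Kbar⟮(jF N)⁻¹⟯ := IntermediateField.mem_adjoin_simple_self _ _
  have := inv_mem h1
  rwa [inv_inv] at this

/-! ### the permutations of the concrete local data -/

theorem permOf_pow (g : SL(2, ℤ)) (k : ℕ) : (permOf N g) ^ k = permOf N (g ^ k) :=
  (map_pow (MulAction.toPermHom SL(2, ℤ) (XX N)) g k).symm

theorem permOf_neg_one : permOf N (-1) = 1 := by
  ext x
  exact Fermat.Agent.S20.Comb.neg_one_smul_quotient N x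

theorem permOf_one' : permOf N 1 = 1 := by
  ext x
  simp [permOf]

theorem dataFin_perm_zero :
    ((H997.analyticCore N).dataFin 0).perm = permOf N (ModularGroup.S * ModularGroup.T)⁻¹ := by
  unfold H997.AnalyticCore.dataFin
  rw [dif_pos rfl]
  rfl

theorem dataFin_perm_1728 :
    ((H997.analyticCore N).dataFin 1728).perm = permOf N ModularGroup.S⁻¹ := by
  have h0 : (1728 : Kbar) ≠ 0 := by norm_num
  unfold H997.AnalyticCore.dataFin
  rw [dif_neg h0, dif_pos rfl]
  rfl

theorem dataInf_perm : (H997.analyticCore N).dataInf.perm = permOf N ModularGroup.T⁻¹ := rfl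

theorem perm_zero_pow : ((H997.analyticCore N).dataFin 0).perm ^ 3 = 1 := by
  rw [dataFin_perm_zero, permOf_pow, inv_pow, Fermat.Agent.S20.Comb.ST_pow_three]
  have : ((-1 : SL(2, ℤ)))⁻¹ = -1 := by
    rw [inv_eq_iff_eq_inv, eq_inv_iff_mul_eq_one]
    simp
  rw [this, permOf_neg_one]

theorem perm_1728_pow : ((H997.analyticCore N).dataFin 1728).perm ^ 2 = 1 := by
  rw [dataFin_perm_1728, permOf_pow, inv_pow, Fermat.Agent.S20.Comb.S_pow_two]
  have : ((-1 : SL(2, ℤ)))⁻¹ = -1 := by
    rw [inv_eq_iff_eq_inv, eq_inv_iff_mul_eq_one]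
    simp
  rw [this, permOf_neg_one]

/-- `T ^ N` acts trivially on `SL₂(ℤ)/Γ₀(N)`. -/
theorem permOf_T_pow : permOf N (ModularGroup.T ^ N) = 1 := by
  ext x
  obtain ⟨g, rfl⟩ := QuotientGroup.mk_surjective x
  show (ModularGroup.T ^ N) • (QuotientGroup.mk g : SL(2, ℤ) ⧸ CongruenceSubgroup.Gamma0 N) = _
  rw [Equiv.Perm.one_apply, Fermat.Agent.S20.Comb.smul_mk_eq_mk_iff]
  have hT : ((ModularGroup.T ^ N : SL(2, ℤ)) : Matrix (Fin 2) (Fin 2) ℤ) = !![1, (N : ℤ); 0, 1] := by
    have := ModularGroup.coe_T_zpow (N : ℤ)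
    rw [zpow_natCast] at this
    exact this
  have h00 : ((ModularGroup.T ^ N * g : SL(2, ℤ)) 0 0 : ℤ) = g 0 0 + N * g 1 0 := by
    rw [Matrix.SpecialLinearGroup.coe_mul, hT, Matrix.mul_apply, Fin.sum_univ_two]
    simp
  have h10 : ((ModularGroup.T ^ N * g : SL(2, ℤ)) 1 0 : ℤ) = g 1 0 := by
    rw [Matrix.SpecialLinearGroup.coe_mul, hT, Matrix.mul_apply, Fin.sum_univ_two]
    simp
  rw [h00, h10]
  push_cast
  simp
  ring

theorem perm_inf_pow : (H997.analyticCore N).dataInf.perm ^ N = 1 := by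
  rw [dataInf_perm, permOf_pow, inv_pow, ← permOf_one' N]
  have h : permOf N ((ModularGroup.T ^ N)⁻¹) = (permOf N (ModularGroup.T ^ N))⁻¹ := by
    ext x
    simp [permOf]
  rw [h, permOf_T_pow, inv_one, permOf_one']

/-! ### the ramification statements -/

/-- **Unramified outside `0, 1728, ∞`.** -/
theorem ord_sub_eq_one (a : Kbar) (h0 : a ≠ 0) (h1 : a ≠ 1728) (v : Place Kbar (FF N))
    (hv : 0 < v.ord (jF N - algebraMap Kbar (FF N) a)) :
    v.ord (jF N - algebraMap Kbar (FF N) a) = 1 := by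
  have hperm : ((H997.analyticCore N).dataFin a).perm ^ 1 = 1 := by
    rw [pow_one]
    exact (H997.analyticCore N).dataFin_perm_generic a h0 h1
  have h := ord_dvd_of_perm_pow ((H997.analyticCore N).dataFin a) (adjoin_le_sub N a) 1 hperm v hv
  have h2 : v.ord (jF N - algebraMap Kbar (FF N) a) ≤ 1 := Int.le_of_dvd one_pos (by simpa using h)
  omega

/-- Over `j = 0` the ramification indices divide `3`. -/
theorem ord_zero_dvd (v : Place Kbar (FF N)) (hv : 0 < v.ord (jF N)) : v.ord (jF N) ∣ 3 := by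
  have hv' : 0 < v.ord (jF N - algebraMap Kbar (FF N) 0) := by rwa [map_zero, sub_zero]
  have h := ord_dvd_of_perm_pow ((H997.analyticCore N).dataFin 0) (adjoin_le_sub N 0) 3
    (perm_zero_pow N) v hv'
  rw [map_zero, sub_zero] at h
  exact_mod_cast h

/-- Over `j = 1728` the ramification indices divide `2`. -/
theorem ord_1728_dvd (v : Place Kbar (FF N))
    (hv : 0 < v.ord (jF N - algebraMap Kbar (FF N) 1728)) :
    v.ord (jF N - algebraMap Kbar (FF N) 1728) ∣ 2 := by
  have h := ord_dvd_of_perm_pow ((H997.analyticCore N).dataFin 1728) (adjoin_le_sub N 1728) 2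
    (perm_1728_pow N) v hv
  exact_mod_cast h

/-- Over `j = ∞` the ramification indices divide `N`. -/
theorem ord_inv_dvd (v : Place Kbar (FF N)) (hv : 0 < v.ord (jF N)⁻¹) :
    v.ord (jF N)⁻¹ ∣ (N : ℤ) :=
  ord_dvd_of_perm_pow (H997.analyticCore N).dataInf (adjoin_le_inv N) N (perm_inf_pow N) v hv

end Fermat.Agent.S18.H24

end
end
-- ===== PACK-END S18/H24/Branch.lean

-- ===== PACK-BEGIN S18/H107/BranchConcrete.lean
section







/-!
# helper107 — S18 / node_mod, G-BR : the branch data of the `j`-line at the CONCRETE objects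

`branchJ_concrete107 M : BranchJ107 (Mod.Lc M) (Mod.jOm M)` — in valuation-subring language over
`Ω = Om M = F_M`:  `F_M / ℚ̄(j)` is unramified outside `0, 1728, ∞`, with `ord ≤ 3` over `0` and
`ord ≤ 2` over `1728`.

Adapter from the `Place`-language results on main (`H24.ord_sub_eq_one`, `ord_zero_dvd`,
`ord_1728_dvd`) via `H504.placeOfValuationSubring` (a valuation subring of `F_M` containing `ℚ̄`
with a nonzero non-unit is a `Place`).

Consequences: `unramified_j_concrete107` (= field `unramified` of `Alg.GoodModel` for `x = j`,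
`S = {0, 1728}`), and, through `unramified_t2_107` / `unramified_t3_107`, the field `unramified`
for the Hauptmodul coordinates.
-/

set_option autoImplicit false

noncomputable section

namespace Fermat.Agent.S18.H107

open AlgebraicCurve ModularCurve IntermediateField HahnSeries
open Fermat.Agent.S18 Fermat.Agent.S18.Mod Fermat.Agent.S24 Fermat.Agent.Lib.RR

variable (M : ℕ) [NeZero M]

theorem jOm_eq_jF107 : jOm M = jF M := by
  apply Subtype.ext
  show coeffEmb Qb (qExpand ℚ 1 jq) = coeffEmb Kbar jq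
  rw [qExpand_one_apply]

variable {M}

omit [NeZero M] in
theorem algebraMap_mem_of_Lc107 {O : ValuationSubring (Om M)} (hL : ∀ a ∈ Lc M, a ∈ O)
    (a : Qb) : algebraMap Qb (Om M) a ∈ O :=
  hL _ ⟨a, rfl⟩

omit [NeZero M] in
/-- A bound on `ord` at the place defined by `O` gives `OrdLe107`. -/
theorem ordLe_of_place107 (v : Place Qb (Om M)) {y : Om M} (hy0 : y ≠ 0) (k : ℕ)
    (hk : v.ord y ≤ k) : OrdLe107 v.toValuationSubring y k := by
  intro s hs hs'
  have hs0 : s ≠ 0 := by
    rintro rfl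
    exact hs' (by rw [inv_zero]; exact v.toValuationSubring.zero_mem)
  have h1 : 0 ≤ v.ord s := ord_nonneg_of_mem v hs
  have h2 : ¬ 0 ≤ v.ord s⁻¹ := fun h => hs' (mem_of_ord_nonneg v h)
  rw [v.ord_inv] at h2
  have h3 : 1 ≤ v.ord s := by omega
  apply mem_of_ord_nonneg v
  rw [v.ord_mul (pow_ne_zero _ hs0) (inv_ne_zero hy0), ord_pow, v.ord_inv]
  have h4 : (k : ℤ) * 1 ≤ (k : ℤ) * v.ord s := by
    apply mul_le_mul_of_nonneg_left h3
    exact_mod_cast Nat.zero_le k
  omega

omit [NeZero M] in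
/-- positivity of `ord` at the place of a valuation ring, for a non-unit. -/
theorem ord_pos_of_nonunit107 (v : Place Qb (Om M)) {y : Om M} (hy : y ∈ v.toValuationSubring)
    (hy' : y⁻¹ ∉ v.toValuationSubring) : 0 < v.ord y := by
  have h1 : 0 ≤ v.ord y := ord_nonneg_of_mem v hy
  have h2 : ¬ 0 ≤ v.ord y⁻¹ := fun h => hy' (mem_of_ord_nonneg v h)
  rw [v.ord_inv] at h2
  omega

omit [NeZero M] in
theorem ne_zero_of_inv_not_mem107 {O : ValuationSubring (Om M)} {y : Om M} (hy' : y⁻¹ ∉ O) :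
    y ≠ 0 := by
  rintro rfl
  exact hy' (by rw [inv_zero]; exact O.zero_mem)

variable (M)

/-- **G-BR, branch data of the `j`-line** at the concrete objects. -/
theorem branchJ_concrete107 : BranchJ107 (Lc M) (jOm M) := by
  haveI : FiniteDimensional Kbar⟮jF M⟯ (FF M) := H24.finiteDimensional_FF M
  refine ⟨?_, ?_, ?_⟩
  · rintro O hL _ ⟨a, rfl⟩ ha0 ha1728 hz hz'
    have ha0' : a ≠ 0 := fun h => ha0 (by rw [h, map_zero])
    have ha1728' : a ≠ 1728 := fun h => ha1728 (by rw [h, map_ofNat])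
    rw [jOm_eq_jF107] at hz hz' ⊢
    haveI : FiniteDimensional Kbar⟮jF M - algebraMap Kbar (FF M) a⟯ (FF M) :=
      FF.finiteDimensional_adjoin_sub_const (jF M) a
    set v : Place Kbar (FF M) :=
      H504.placeOfValuationSubring O (algebraMap_mem_of_Lc107 hL) hz hz' with hv
    have hpos : 0 < v.ord (jF M - algebraMap Kbar (FF M) a) := ord_pos_of_nonunit107 v hz hz'
    have h1 := H24.ord_sub_eq_one M a ha0' ha1728' v hpos
    exact ordLe_of_place107 v (ne_zero_of_inv_not_mem107 hz') 1 (by rw [h1]; norm_num)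
  · intro O hL hz hz'
    rw [jOm_eq_jF107] at hz hz' ⊢
    set v : Place Kbar (FF M) :=
      H504.placeOfValuationSubring O (algebraMap_mem_of_Lc107 hL) hz hz' with hv
    have hpos : 0 < v.ord (jF M) := ord_pos_of_nonunit107 v hz hz'
    have h1 := H24.ord_zero_dvd M v hpos
    exact ordLe_of_place107 v (ne_zero_of_inv_not_mem107 hz') 3
      (Int.le_of_dvd (by norm_num) h1)
  · intro O hL hz hz'
    rw [jOm_eq_jF107] at hz hz' ⊢
    have e : (1728 : FF M) = algebraMap Kbar (FF M) 1728 := by rw [map_ofNat]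
    rw [e] at hz hz' ⊢
    haveI : FiniteDimensional Kbar⟮jF M - algebraMap Kbar (FF M) 1728⟯ (FF M) :=
      FF.finiteDimensional_adjoin_sub_const (jF M) 1728
    set v : Place Kbar (FF M) :=
      H504.placeOfValuationSubring O (algebraMap_mem_of_Lc107 hL) hz hz' with hv
    have hpos : 0 < v.ord (jF M - algebraMap Kbar (FF M) 1728) :=
      ord_pos_of_nonunit107 v hz hz'
    have h1 := H24.ord_1728_dvd M v hpos
    exact ordLe_of_place107 v (ne_zero_of_inv_not_mem107 hz') 2
      (Int.le_of_dvd (by norm_num) h1)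

/-- The field `unramified` of `Alg.GoodModel` for `x = j`, `S = {0, 1728}`. -/
theorem unramified_j_concrete107 (S : Finset (Om M)) (hS : ∀ s, s ∈ S ↔ s = 0 ∨ s = 1728) :
    ∀ O : ValuationSubring (Om M), (∀ a ∈ Lc M, a ∈ O) → ∀ c ∈ Lc M, c ∉ S →
      jOm M - c ∈ O → (jOm M - c)⁻¹ ∉ O → ∀ t ∈ O, t⁻¹ ∉ O → t * (jOm M - c)⁻¹ ∈ O := by
  intro O hL c hc hcS hz hz'
  rw [← OrdLe107.one_iff]
  exact (branchJ_concrete107 M).generic O hL c hc (fun h => hcS ((hS c).2 (Or.inl h)))
    (fun h => hcS ((hS c).2 (Or.inr h))) hz hz'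

end Fermat.Agent.S18.H107

end
end
-- ===== PACK-END S18/H107/BranchConcrete.lean

-- ===== PACK-BEGIN S18/H107/M3T.lean
section






/-!
# helper107 — S18 / node_mod, piece M3-T at the CONCRETE objects of `Mod/Defs.lean`

`goodModel_of_isCoordinate107` : for `ℓ ∈ {2, 3}` (`¬ 5 ≤ ℓ`), every admissible coordinate `x`
(`Mod.IsCoordinate M ℓ x S`), every intermediate field `E` and every `V`, `w`:

    BaseModel107 (Lc M) (Ec M E) (Fc M E) (Rc M A E) V w (jOm M)      -- the j-model minus S-fields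
    + x ∈ Fc M E + x ∈ V + gauss for x
    ⟹  Alg.GoodModel (Lc M) (Ec M E) (Fc M E) (Rc M A E) V w x S.

The branch data (`branchJ_concrete107`) and the units `2⁻¹` resp. `3⁻¹ ∈ Rc M A E` are proved here.
-/

set_option autoImplicit false

noncomputable section

namespace Fermat.Agent.S18.H107

open AlgebraicCurve ModularCurve IntermediateField HahnSeries
open Fermat.Agent.S18 Fermat.Agent.S18.Mod Fermat.Agent.S18.Alg

/-- If `A` lies over `ℓ` and `n ≡ 1 mod ℓ`-like: `n = ℓ * k + 1` then `n` is a unit of `A`.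
We only need: `ℓ ∈ 𝔪_A`, `n - 1 ∈ ℓ ℤ` ⟹ `n⁻¹ ∈ A`. -/
theorem inv_natCast_mem_of_liesOver107 {L : Type*} [Field L] (A : ValuationSubring L) {ℓ : ℕ}
    (hA : A.LiesOverPrime ℓ) (n k : ℕ) (hn : n = ℓ * k + 1) : ((n : L))⁻¹ ∈ A := by
  have hℓ : A.valuation (ℓ : L) < 1 := by
    have h : (ℓ : L) ∈ A.nonunits := hA
    exact (A.mem_nonunits_iff).1 h
  have hk : A.valuation ((ℓ : L) * (k : L)) < 1 := by
    rw [map_mul]
    calc A.valuation (ℓ : L) * A.valuation (k : L) ≤ A.valuation (ℓ : L) * 1 := by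
          gcongr
          exact (A.valuation_le_one_iff _).2 (_root_.natCast_mem A k)
      _ = A.valuation (ℓ : L) := mul_one _
      _ < 1 := hℓ
  have hval : A.valuation (n : L) = 1 := by
    have e : (n : L) = 1 + (ℓ : L) * (k : L) := by
      rw [hn]
      push_cast
      ring
    rw [e, ← map_one A.valuation]
    exact Valuation.map_add_eq_of_lt_left _ (by rw [map_one]; exact hk)
  refine (A.valuation_le_one_iff _).1 ?_
  rw [map_inv₀, hval, inv_one]

variable (M : ℕ)

theorem inv_natCast_mem_Rc107 (A : ValuationSubring Qb) (E : IntermediateField ℚ Qb) {ℓ : ℕ}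
    (hA : A.LiesOverPrime ℓ) (n k : ℕ) (hn : n = ℓ * k + 1) :
    ((n : Om M))⁻¹ ∈ Rc M A E := by
  refine ⟨((n : Qb))⁻¹, ⟨inv_natCast_mem_of_liesOver107 A hA n k hn, ?_⟩, ?_⟩
  · exact E.toSubfield.inv_mem (_root_.natCast_mem E.toSubfield n)
  · rw [map_inv₀, map_natCast]

variable [NeZero M]

/-- **M3-T, concrete form.** -/
theorem goodModel_of_isCoordinate107 {ℓ : ℕ} (A : ValuationSubring Qb) (hA : A.LiesOverPrime ℓ)
    (h5 : ¬ 5 ≤ ℓ) {x : Om M} {S : Finset (Om M)} (hx : IsCoordinate M ℓ x S)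
    (E : IntermediateField ℚ Qb) {V : Subring (Om M)} {w : Om M}
    (hb : BaseModel107 (Lc M) (Ec M E) (Fc M E) (Rc M A E) V w (jOm M))
    (hxF : x ∈ Fc M E) (hxV : x ∈ V)
    (hgauss : ∀ P : Polynomial (Om M), (∀ i, P.coeff i ∈ Rc M A E) →
      (∃ i, P.coeff i ≠ 0 ∧ (P.coeff i)⁻¹ ∈ Rc M A E) → (P.eval x)⁻¹ ∈ V) :
    GoodModel (Lc M) (Ec M E) (Fc M E) (Rc M A E) V w x S := by
  rcases hx with ⟨h, -⟩ | ⟨h | h, -⟩
  · exact absurd h h5
  · obtain ⟨hℓ, hrel, hS⟩ := h
    subst hℓ
    have h2 : (2 : Om M)⁻¹ ∈ Rc M A E := by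
      have h4 := inv_natCast_mem_Rc107 M A E hA 4 1 (by norm_num)
      have e : (2 : Om M)⁻¹ = 2 * ((4 : ℕ) : Om M)⁻¹ := by
        push_cast
        norm_num
      rw [e]
      exact (Rc M A E).mul_mem (ofNat_mem _ 2) h4
    exact goodModel_t2_107 hb (branchJ_concrete107 M) hrel hxF hxV h2 hgauss hS
  · obtain ⟨hℓ, hrel, hS⟩ := h
    subst hℓ
    have h3 : (3 : Om M)⁻¹ ∈ Rc M A E := by
      have := inv_natCast_mem_Rc107 M A E hA 3 1 (by norm_num)
      simpa using this
    exact goodModel_t3_107 hb (branchJ_concrete107 M) hrel hxF hxV h3 hgauss hS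

end Fermat.Agent.S18.H107

end
end
-- ===== PACK-END S18/H107/M3T.lean

-- ===== PACK-BEGIN S18/H438/Front/Regular.lean
section




/-!
# S18 / ALG-FRONT (helper438), part 10: `H754.RegularAlong` on the chart of a good model

For `G : Alg.GoodModel Lc Ec Fc R V w x S`, `B := H138.chart (Rf Fc R) {xf G}`:

* `GoodModelFront.hsep_chart`  : elementwise separability (field form of
  `B12.H33.regularAlong_chart_field`), from `G.separable` and the `q`-expansion principle;
* `GoodModelFront.hNC_chart`   : `(span {π(x)}).IsRadical` for the primes `π` of `R[X]` not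
  associated to `w`, `X - c` (`c ∈ S`), from `G.unramified` via `H754.hNC_typed`;
* `GoodModelFront.regularAlong_chart` : `H754.RegularAlong (algebraMap R B w)`  (b2 on the chart).
-/

set_option autoImplicit false
set_option linter.style.haveILetI false
set_option linter.unusedSectionVars false

noncomputable section

namespace Fermat.Agent.S18.H438

open Alg Polynomial

variable {Ω : Type*} [Field Ω] {Lc Ec Fc : Subfield Ω} {R V : Subring Ω} {w x : Ω}
  {S : Finset Ω}

namespace GoodModelFront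

/-- the branch values, as a finite subset of the ring `R` -/
def SR (Fc : Subfield Ω) (R : Subring Ω) (S : Finset Ω) : Finset (Rf Fc R) :=
  S.preimage (fun r : Rf Fc R => ((r : Fc) : Ω))
    (fun _ _ _ _ h => Subtype.ext (Subtype.ext h))

theorem mem_SR {c : Rf Fc R} : c ∈ SR Fc R S ↔ ((c : Fc) : Ω) ∈ S := Finset.mem_preimage

variable (G : GoodModel Lc Ec Fc R V w x S)

include G in
theorem SR_isUnit_sub :
    ∀ c ∈ SR Fc R S, ∀ c' ∈ SR Fc R S, c ≠ c' → IsUnit (c - c') := by
  intro c hc c' hc' hne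
  rw [isUnit_subring_iff]
  have h1 : ((c : Fc) : Ω) ≠ ((c' : Fc) : Ω) := fun h => hne (Subtype.ext (Subtype.ext h))
  refine ⟨fun h => hne (sub_eq_zero.1 (Subtype.ext h)), ?_⟩
  exact G.S_distinct _ (mem_SR.1 hc) _ (mem_SR.1 hc') h1

/-- evaluation of polynomials over `Fc`, seen in `Ω` -/
theorem coe_eval_Fc (Q : Polynomial Fc) (b : Fc) :
    ((Q.eval b : Fc) : Ω) = (Q.map Fc.subtype).eval (b : Ω) := by
  rw [Polynomial.eval_map]
  exact (Polynomial.eval₂_at_apply Fc.subtype b).symm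

include G in
/-- **Elementwise separability of the special fibre of the chart** (field form). -/
theorem hsep_chart : ∀ b ∈ H138.chart (Rf Fc R) ({xf G} : Set Fc), ∃ P : Polynomial Fc,
    (∀ i, P.coeff i ∈ Algebra.adjoin (Rf Fc R) ({xf G} : Set Fc)) ∧
    (∃ t ∈ H138.chart (Rf Fc R) ({xf G} : Set Fc),
      P.eval b = algebraMap (Rf Fc R) Fc (wR G) * t) ∧
    ¬ ∃ t ∈ H138.chart (Rf Fc R) ({xf G} : Set Fc),
      (derivative P).eval b = algebraMap (Rf Fc R) Fc (wR G) * t := by
  intro b hb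
  have hb' : b ∈ chartRing (Rf Fc R) (xf G) := hb
  have hbV : b ∈ Vf G :=
    chartRing_le_valuationSubring (Rf Fc R) (xf G) (Vf G) (Rf_le_Vf G) (xf_mem_Vf G) hb'
  obtain ⟨P₀, hc, h1, h2, h3⟩ := G.separable (b : Ω) hbV
  have hRF : ∀ r ∈ R, r ∈ Fc := fun r hr => R_le_Fc G hr
  -- lift `P₀` to `Fc[X]`
  have hlift : P₀ ∈ Polynomial.lifts Fc.subtype := by
    rw [Polynomial.lifts_iff_coeff_lifts]
    intro n
    obtain ⟨a, -, h⟩ := exists_mem_baseRing_of_mem_polyRing Fc R (xf G) hRF (hc n)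
    exact ⟨a, h⟩
  obtain ⟨P, hP⟩ := (Polynomial.mem_lifts _).1 hlift
  have hcoe : ∀ i, ((P.coeff i : Fc) : Ω) = P₀.coeff i := fun i => by
    rw [← hP, Polynomial.coeff_map]; rfl
  have hcoeff : ∀ i, P.coeff i ∈ baseRing (Rf Fc R) (xf G) := fun i =>
    (mem_baseRing_iff Fc R (xf G) hRF).2 (by rw [hcoe]; exact hc i)
  have hw0 : wf G ≠ 0 := wf_ne_zero G
  -- values of polynomials with coefficients in `R[x]` at `b` lie in the chart
  have hmem : ∀ Q : Polynomial Fc, (∀ i, Q.coeff i ∈ baseRing (Rf Fc R) (xf G)) →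
      Q.eval b ∈ chartRing (Rf Fc R) (xf G) := by
    intro Q hQ
    rw [Polynomial.eval_eq_sum_range]
    refine Subalgebra.sum_mem _ fun i _ => ?_
    exact Subalgebra.mul_mem _
      ((chartRing (Rf Fc R) (xf G)).algebraMap_mem ⟨Q.coeff i, hQ i⟩)
      (Subalgebra.pow_mem _ hb' i)
  refine ⟨P, hcoeff, ?_, ?_⟩
  · refine ⟨P.eval b * (wf G)⁻¹, ?_, ?_⟩
    · refine qep_fin' G _ (hmem P hcoeff) ?_
      show ((P.eval b : Fc) : Ω) * w⁻¹ ∈ V
      rw [coe_eval_Fc, hP]
      exact h1
    · show P.eval b = wf G * (P.eval b * (wf G)⁻¹)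
      field_simp
  · rintro ⟨t, ht, h⟩
    have htV : t ∈ Vf G :=
      chartRing_le_valuationSubring (Rf Fc R) (xf G) (Vf G) (Rf_le_Vf G) (xf_mem_Vf G) ht
    have hd : (((derivative P).eval b : Fc) : Ω) = (derivative P₀).eval (b : Ω) := by
      rw [coe_eval_Fc, ← Polynomial.derivative_map, hP]
    have h' : (derivative P₀).eval (b : Ω) = w * (t : Ω) := by
      rw [← hd, h]; rfl
    have hw0' : w ≠ 0 := G.w_ne_zero
    have ht0 : (t : Ω) ≠ 0 := by
      intro ht0
      rw [ht0, mul_zero] at h'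
      exact h2 h'
    apply G.w_inv_not_mem_V
    have : w⁻¹ = (t : Ω) * ((derivative P₀).eval (b : Ω))⁻¹ := by
      rw [h']
      field_simp
    rw [this]
    exact V.mul_mem htV h3

include G in
/-- every element of `Lc` is algebraic over the ring `R` -/
theorem exists_poly_of_mem_Lc (a : Ω) (ha : a ∈ Lc) :
    ∃ p : Polynomial (Rf Fc R), p ≠ 0 ∧
      Polynomial.eval₂ (Fc.subtype.comp (Rf Fc R).subtype) a p = 0 := by
  have halg : IsAlgebraic Ec a := G.L_algebraic a ha
  letI : Algebra (Re G) Ω := ((algebraMap Ec Ω).comp (algebraMap (Re G) Ec)).toAlgebra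
  haveI : IsScalarTower (Re G) Ec Ω := IsScalarTower.of_algebraMap_eq (fun _ => rfl)
  obtain ⟨q, hq0, hq⟩ := (IsFractionRing.isAlgebraic_iff (Re G) Ec Ω).2 halg
  let j : Re G →+* Rf Fc R :=
    { toFun := fun e => ⟨⟨((e : Ec) : Ω), G.E_le_F (e : Ec).2⟩, e.2⟩
      map_one' := rfl
      map_mul' := fun _ _ => rfl
      map_zero' := rfl
      map_add' := fun _ _ => rfl }
  have hj : Function.Injective j := fun a b h =>
    Subtype.ext (Subtype.ext (congrArg (fun t : Rf Fc R => ((t : Fc) : Ω)) h))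
  refine ⟨q.map j, (Polynomial.map_ne_zero_iff hj).2 hq0, ?_⟩
  rw [Polynomial.eval₂_map]
  rw [Polynomial.aeval_def] at hq
  exact hq

include G in
/-- **hNC on the chart**: for every prime `π` of `R[X]` not associated to `w` or to `X - c`,
`c ∈ S`, the ideal `π(x) B` is radical. -/
theorem hNC_chart :
    ∀ π : Polynomial (Rf Fc R), Prime π → ¬ Associated π (C (wR G)) →
      (∀ c ∈ SR Fc R S, ¬ Associated π (X - C c)) →
      (Ideal.span {(B12.H33.chartPolyHom (Rf Fc R) (xf G) π :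
        H138.chart (Rf Fc R) ({xf G} : Set Fc))}).IsRadical := by
  haveI := charZero_Fc G
  haveI := isDiscreteValuationRing_Rf G
  haveI := finiteDimensional_baseField G
  haveI : CharZero (Rf Fc R) := RingHom.charZero (Rf Fc R).subtype
  have hx := transcendental_xf G
  obtain ⟨hic, hfin⟩ := B12.H33.chart_package (R := Rf Fc R) hx
  letI := B12.H33.chartAlgebra (Rf Fc R) (xf G)
  haveI := hic
  haveI := hfin
  haveI : Module.IsTorsionFree (Polynomial (Rf Fc R)) (H138.chart (Rf Fc R) ({xf G} : Set Fc)) :=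
    Module.isTorsionFree_iff_algebraMap_injective.2 (B12.H33.chartPolyHom_injective hx)
  haveI : FaithfulSMul (H138.chart (Rf Fc R) ({xf G} : Set Fc)) Ω :=
    (faithfulSMul_iff_algebraMap_injective (H138.chart (Rf Fc R) ({xf G} : Set Fc)) Ω).2
      (fun a b h => Subtype.ext (Subtype.ext h))
  have hC : ∀ r : Rf Fc R,
      algebraMap (H138.chart (Rf Fc R) ({xf G} : Set Fc)) Ω
        (algebraMap (Polynomial (Rf Fc R)) (H138.chart (Rf Fc R) ({xf G} : Set Fc)) (C r)) =
        ((r : Fc) : Ω) := by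
    intro r
    show ((B12.H33.chartPolyHom (Rf Fc R) (xf G) (C r) : H138.chart (Rf Fc R) ({xf G} : Set Fc)) :
      Fc).1 = _
    rw [B12.H33.coe_chartPolyHom, Polynomial.aeval_C]
    rfl
  have hX : algebraMap (H138.chart (Rf Fc R) ({xf G} : Set Fc)) Ω
        (algebraMap (Polynomial (Rf Fc R)) (H138.chart (Rf Fc R) ({xf G} : Set Fc)) X) = x := by
    show ((B12.H33.chartPolyHom (Rf Fc R) (xf G) X : H138.chart (Rf Fc R) ({xf G} : Set Fc)) :
      Fc).1 = _
    rw [B12.H33.coe_chartPolyHom, Polynomial.aeval_X]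
    rfl
  have hwB : Prime (algebraMap (Polynomial (Rf Fc R)) (H138.chart (Rf Fc R) ({xf G} : Set Fc))
      (C (wR G))) := by
    show Prime (B12.H33.chartPolyHom (Rf Fc R) (xf G) (C (wR G)))
    rw [B12.H33.chartPolyHom_C]
    exact prime_chart G
  refine H754.hNC_typed (Rf Fc R) (H138.chart (Rf Fc R) ({xf G} : Set Fc)) (Ω := Ω) (wR G)
    (irreducible_wf G) hwB Lc G.L_algClosed ?_ ?_ (SR Fc R S) S ?_ ?_
  · intro r
    rw [hC]
    exact G.E_le_L (G.R_le r.2)
  · intro a ha
    obtain ⟨p, hp0, hp⟩ := exists_poly_of_mem_Lc G a ha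
    refine ⟨p, hp0, ?_⟩
    have hhom : ((algebraMap (H138.chart (Rf Fc R) ({xf G} : Set Fc)) Ω).comp
        ((algebraMap (Polynomial (Rf Fc R)) (H138.chart (Rf Fc R) ({xf G} : Set Fc))).comp C)) =
        Fc.subtype.comp (Rf Fc R).subtype := RingHom.ext fun r => hC r
    rw [hhom]
    exact hp
  · intro c hc
    refine ⟨⟨⟨c, R_le_Fc G (G.S_mem c hc)⟩, G.S_mem c hc⟩, mem_SR.2 hc, ?_⟩
    rw [hC]
  · rw [hX]
    exact G.unramified

include G in
/-- **b2 on the chart of a good model**: the chart is regular along `w`. -/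
theorem regularAlong_chart :
    H754.RegularAlong
      (algebraMap (Rf Fc R) (H138.chart (Rf Fc R) ({xf G} : Set Fc)) (wR G)) := by
  haveI := charZero_Fc G
  haveI := isDiscreteValuationRing_Rf G
  haveI := finiteDimensional_baseField G
  refine B12.H33.regularAlong_chart_field (transcendental_xf G) (wR G) (irreducible_wf G)
    (prime_chart G) (hsep_chart G) (SR Fc R S) (SR_isUnit_sub G) ?_
  intro π hπ hπw hπS b hb hb2
  have hrad := hNC_chart G π hπ hπw hπS
  have h1 : (⟨b, hb⟩ : H138.chart (Rf Fc R) ({xf G} : Set Fc)) ^ 2 ∈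
      Ideal.span {(B12.H33.chartPolyHom (Rf Fc R) (xf G) π :
        H138.chart (Rf Fc R) ({xf G} : Set Fc))} := by
    rw [Ideal.mem_span_singleton, B12.H33.chartPolyHom_dvd_chart_iff]
    obtain ⟨t, ht, h⟩ := hb2
    exact ⟨t, ht, h⟩
  have h2 := hrad (Ideal.mem_radical_iff.2 ⟨2, h1⟩)
  rw [Ideal.mem_span_singleton, B12.H33.chartPolyHom_dvd_chart_iff] at h2
  exact h2

end GoodModelFront

end Fermat.Agent.S18.H438

end
end
-- ===== PACK-END S18/H438/Front/Regular.lean

-- ===== PACK-BEGIN S18/H438/Front/AlgMain.lean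
section




/-!
# S18 / node_alg (helper438): `Alg.AlgMainStatement` (v4, prime `m`)

    theorem algMain (Lc x S 𝓕) : Alg.AlgMainStatement Lc x S 𝓕

Wiring: for a member `(Ec, Fc, R, V, w)` of the good family, `G : Alg.GoodModel …`,
`R' := Rf Fc R`, `x' := xf G`, charts `B₀ = H138.chart R' {x'}`, `B₁ = H138.chart R' {x'⁻¹}`:

* `H394.kummer_charts_of_regular` (typed core: LE + graded Kummer algebra + b5) needs on both
  charts: `Prime w`, `H754.RegularAlong w`, `H754.OneModPi w u`, `H754.DivisibleDivisor B m u`;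
* these are `GoodModelFront.prime_chart`, `regularAlong_chart` (b2 = `B12.H33`, hNC = `H754`),
  `oneModPi_chart`, `divisibleDivisor_chart` (places = `H845`), applied to `G` and to
  `H425.goodModel_inv G`.
-/

set_option autoImplicit false
set_option linter.style.haveILetI false
set_option linter.unusedSectionVars false

noncomputable section

namespace Fermat.Agent.S18.H438

open Alg Polynomial

variable {Ω : Type*} [Field Ω] {Lc Ec Fc : Subfield Ω} {R V : Subring Ω} {w x : Ω}
  {S : Finset Ω}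

namespace GoodModelFront

/-- **node_alg for one good model** (no enlargement of constants is needed). -/
theorem algMain_of_goodModel (G : GoodModel Lc Ec Fc R V w x S)
    (m : ℕ) (hm : m.Prime) (hmR : ((m : Ω))⁻¹ ∈ R)
    (u : Ω) (huF : u ∈ Fc) (hu0 : u ≠ 0) (hu1 : (u - 1) * w⁻¹ ∈ V)
    (hdiv : ∀ O : ValuationSubring Ω, (∀ a ∈ Lc, a ∈ O) →
      ∃ t : Ω, t ≠ 0 ∧ u * t ^ m ∈ O ∧ (u * t ^ m)⁻¹ ∈ O) :
    ∃ y : Ω, ∃ c ∈ Lc, c ≠ 0 ∧ u = c * y ^ m := by
  classical
  haveI := G.charZero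
  haveI := charZero_Fc G
  haveI := isDiscreteValuationRing_Rf G
  haveI := finiteDimensional_baseField G
  have G' := H425.goodModel_inv G
  have hxinv : xf G' = (xf G)⁻¹ := rfl
  have hwR : wR G' = wR G := rfl
  -- the data in `Fc`
  set u' : Fc := ⟨u, huF⟩ with hu'
  have hu'0 : u' ≠ 0 := fun h => hu0 (congrArg Subtype.val h)
  have hm0 : (m : Ω) ≠ 0 := Nat.cast_ne_zero.2 hm.ne_zero
  let ν : Rf Fc R := ⟨⟨(m : Ω)⁻¹, R_le_Fc G hmR⟩, hmR⟩
  have hν : ν * (m : Rf Fc R) = 1 := by
    apply Subtype.ext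
    apply Subtype.ext
    show (m : Ω)⁻¹ * (((m : Rf Fc R) : Fc) : Ω) = 1
    have : ((((m : Rf Fc R) : Fc) : Ω)) = (m : Ω) := by
      simp
    rw [this, inv_mul_cancel₀ hm0]
  have hinjR : Function.Injective (algebraMap (Rf Fc R) Fc) := Subtype.val_injective
  -- both charts
  have hw₁ : Prime (algebraMap (Rf Fc R) (H138.chart (Rf Fc R) ({(xf G)⁻¹} : Set Fc)) (wR G)) :=
    prime_chart G'
  have hreg₁ : H754.RegularAlong
      (algebraMap (Rf Fc R) (H138.chart (Rf Fc R) ({(xf G)⁻¹} : Set Fc)) (wR G)) :=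
    regularAlong_chart G'
  have hu₁ : H754.OneModPi
      (algebraMap (Rf Fc R) (H138.chart (Rf Fc R) ({(xf G)⁻¹} : Set Fc)) (wR G)) u' :=
    oneModPi_chart G' hu1
  have hdiv₁ : H754.DivisibleDivisor (H138.chart (Rf Fc R) ({(xf G)⁻¹} : Set Fc)) m u' :=
    divisibleDivisor_chart G' hu1 hdiv
  obtain ⟨r, a, y, hr, h⟩ := H394.kummer_charts_of_regular hinjR (isIntegral_Rf_mem_range G)
    (transcendental_xf G) (wR G) m hm ν hν u' hu'0
    (prime_chart G) hw₁ (regularAlong_chart G) hreg₁ (oneModPi_chart G hu1) hu₁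
    (divisibleDivisor_chart G hu1 hdiv) hdiv₁
  have hrΩ : ((r : Fc) : Ω) ≠ 0 := fun h0 => hr (Subtype.ext (Subtype.ext h0))
  refine ⟨(y : Ω), ((r : Fc) : Ω) ^ a, ?_, zpow_ne_zero _ hrΩ, ?_⟩
  · exact Lc.zpow_mem (G.E_le_L (G.R_le r.2)) a
  · have h2 : u = ((algebraMap (Rf Fc R) Fc r ^ a * y ^ m : Fc) : Ω) :=
      congrArg (fun t : Fc => (t : Ω)) h
    have h3 : ((algebraMap (Rf Fc R) Fc r ^ a * y ^ m : Fc) : Ω) =
        ((r : Fc) : Ω) ^ a * (y : Ω) ^ m := by
      have h4 : Fc.subtype (algebraMap (Rf Fc R) Fc r ^ a) = ((r : Fc) : Ω) ^ a :=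
        map_zpow₀ Fc.subtype _ a
      show Fc.subtype (algebraMap (Rf Fc R) Fc r ^ a * y ^ m) = _
      rw [map_mul, map_pow, h4]
      rfl
    exact h2.trans h3

end GoodModelFront

/-- **node_alg**: the ALG main statement (v4, prime `m`), for every good family. -/
theorem algMain (Lc : Subfield Ω) (x : Ω) (S : Finset Ω) (𝓕 : Set (Model Ω)) :
    AlgMainStatement Lc x S 𝓕 := by
  intro hfam p hp m hm hmR u huF hu0 hu1 hdiv
  exact GoodModelFront.algMain_of_goodModel (hfam.good p hp) m hm hmR u huF hu0 hu1 hdiv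

end Fermat.Agent.S18.H438

end
end
-- ===== PACK-END S18/H438/Front/AlgMain.lean

-- ===== PACK-BEGIN S18/H438/NodeAlg.lean
section



/-!
# S18 / NODE ALG (helper438): `Mod.AlgStatement M`

Exact type of `Integ.node_alg` (skeleton v4 of row-lead helper18):

    theorem node_alg (M : ℕ) : Mod.AlgStatement M

It is the instance `Ω = Om M` of `H438.algMain : Alg.AlgMainStatement Lc x S 𝓕`
(`Front/AlgMain.lean`), which holds for every field `Ω` and every good family.
-/

set_option autoImplicit false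

namespace Fermat.Agent.S18.H438

/-- **NODE ALG.** -/
theorem node_alg (M : ℕ) : Mod.AlgStatement M :=
  fun Lc x S 𝓕 => algMain Lc x S 𝓕

end Fermat.Agent.S18.H438

end
-- ===== PACK-END S18/H438/NodeAlg.lean

-- ===== PACK-BEGIN A2/Mod/H873/L13.lean
section



/-!
# A2 / MOD — leaf L13 `ChartCompatStatement` (helper873)

`x = j · j_q`.  Then `j, j_q` are integral over `R_E[x]` and `1/j, 1/j_q` are integral over
`R_E[1/x]`.

Proof (valuative criterion, `iInf_valuationSubring_superset`): let `V` be a valuation subring of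
`F_N` containing `x`.  If `j ∉ V` then `1/j ∈ V`, so `j_q = x / j ∈ V`; but `j` is integral over
`ℤ[j_q]` (`Φ_q(j, j_q) = 0`, `Φ_q` monic), hence `j ∈ V`.  Chart at infinity: if `1/x ∈ V` and
`1/j ∉ V` then `j ∈ V`, so `j_q ∈ V` (integral over `ℤ[j]`), and `1/j = j_q · (1/x) ∈ V`.
Only the monicity of `Φ_q` in the outer variable and the two vanishing properties of
`S28.ModPolyData` are used.

Main results:
* `chartCompat_of_modPolyData (D : S28.ModPolyData q) : ChartCompatStatement P E M q`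
* `chartCompat : ChartCompatStatement P E M q`   (exact frozen leaf of `Mod/Spec.lean`)
-/

set_option autoImplicit false
set_option synthInstance.maxHeartbeats 400000
set_option maxHeartbeats 1600000

noncomputable section

namespace Fermat.Agent.A2.Mod.H873

open ModularCurve HahnSeries Polynomial

/-! ## Abstract part (Mathlib only) -/

section Abstract

variable {K : Type*} [Field K]

/-- valuative criterion, one element: `a` lies in every valuation subring containing `x`
implies `a` is integral over `ℤ[x]`. -/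
theorem isIntegral_closure_of_forall_valuationSubring {x a : K}
    (h : ∀ V : ValuationSubring K, x ∈ V → a ∈ V) :
    IsIntegral (Subring.closure ({x} : Set K)) a := by
  have key := iInf_valuationSubring_superset (K := K) (s := ({x} : Set K))
  have hmem : a ∈ (integralClosure (Subring.closure ({x} : Set K)) K).toSubring := by
    rw [← key]
    rw [Subring.mem_iInf]
    rintro ⟨V, hV⟩
    exact h V (hV (Set.mem_singleton x))
  exact hmem

/-- an element integral over `ℤ[b]` lies in every valuation subring containing `b` -/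
theorem mem_valuationSubring_of_monic_eval {a b : K} (Φ : Polynomial (Polynomial ℤ))
    (hΦ : Φ.Monic) (h : Φ.eval₂ (Polynomial.aeval (R := ℤ) b).toRingHom a = 0)
    (V : ValuationSubring K) (hb : b ∈ V) : a ∈ V := by
  have hint : IsIntegral V a := by
    refine ⟨Φ.map (Polynomial.aeval (R := ℤ) (⟨b, hb⟩ : V)).toRingHom, hΦ.map _, ?_⟩
    rw [Polynomial.eval₂_map]
    rw [← h]
    congr 1
    apply Polynomial.ringHom_ext
    · intro n
      simp
    · simp
  have := IsIntegrallyClosed.isIntegral_iff (R := V) (K := K) |>.mp hint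
  obtain ⟨y, hy⟩ := this
  rw [← hy]
  exact y.2

/-- **core of L13, finite chart**: `Φ(X = a; Y = b) = 0`, `Φ` monic in `X` ⟹ `a` integral over
`ℤ[a b]`. -/
theorem isIntegral_closure_mul {a b : K} (Φ : Polynomial (Polynomial ℤ))
    (hΦ : Φ.Monic) (h : Φ.eval₂ (Polynomial.aeval (R := ℤ) b).toRingHom a = 0) :
    IsIntegral (Subring.closure ({a * b} : Set K)) a := by
  refine isIntegral_closure_of_forall_valuationSubring fun V hx => ?_
  by_contra ha
  have ha0 : a ≠ 0 := fun h0 => ha (h0 ▸ V.zero_mem)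
  have hinv : a⁻¹ ∈ V := (V.mem_or_inv_mem a).resolve_left ha
  have hb : b ∈ V := by
    have : b = a * b * a⁻¹ := by field_simp
    rw [this]
    exact V.mul_mem _ _ hx hinv
  exact ha (mem_valuationSubring_of_monic_eval Φ hΦ h V hb)

/-- **core of L13, chart at infinity**: `Φ(X = b; Y = a) = 0`, `Φ` monic in `X`, `b ≠ 0`
⟹ `a⁻¹` integral over `ℤ[(a b)⁻¹]`. -/
theorem isIntegral_closure_inv_mul {a b : K} (hb0 : b ≠ 0) (Φ : Polynomial (Polynomial ℤ))
    (hΦ : Φ.Monic) (h : Φ.eval₂ (Polynomial.aeval (R := ℤ) a).toRingHom b = 0) :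
    IsIntegral (Subring.closure ({(a * b)⁻¹} : Set K)) a⁻¹ := by
  refine isIntegral_closure_of_forall_valuationSubring fun V hx => ?_
  by_contra ha
  have ha0 : a ≠ 0 := fun h0 => ha (by rw [h0, inv_zero]; exact V.zero_mem)
  have haV : a ∈ V := by
    have := (V.mem_or_inv_mem a⁻¹).resolve_left ha
    rwa [inv_inv] at this
  have hb : b ∈ V := mem_valuationSubring_of_monic_eval Φ hΦ h V haV
  have : a⁻¹ = b * (a * b)⁻¹ := by field_simp
  exact ha (this ▸ V.mul_mem _ _ hb hx)

/-- from integrality over `ℤ[x]` to integrality along `R[X] → K`, `X ↦ x`. -/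
theorem isIntegralElem_of_isIntegral_closure {R : Type*} [CommRing R] (φ : R →+* K) {x a : K}
    (h : IsIntegral (Subring.closure ({x} : Set K)) a) :
    ∃ p : Polynomial (Polynomial R), p.Monic ∧ p.eval₂ (Polynomial.eval₂RingHom φ x) a = 0 := by
  obtain ⟨p, hp, hpa⟩ := h
  set ψ : Polynomial R →+* K := Polynomial.eval₂RingHom φ x with hψ
  have hle : Subring.closure ({x} : Set K) ≤ ψ.range := by
    rw [Subring.closure_le]
    rintro y hy
    rw [Set.mem_singleton_iff] at hy
    subst hy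
    exact ⟨Polynomial.X, by simp [hψ]⟩
  set incl : Subring.closure ({x} : Set K) →+* ψ.range := Subring.inclusion hle with hincl
  have hlift : p.map incl ∈ Polynomial.lifts ψ.rangeRestrict := by
    rw [Polynomial.lifts_iff_coeff_lifts]
    intro n
    exact ψ.rangeRestrict_surjective _
  obtain ⟨q, hq, -, hqm⟩ := Polynomial.lifts_and_natDegree_eq_and_monic hlift (hp.map incl)
  refine ⟨q, hqm, ?_⟩
  have h1 : q.eval₂ ψ a = (q.map ψ.rangeRestrict).eval₂ ψ.range.subtype a := by
    rw [Polynomial.eval₂_map]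
    rfl
  rw [h1, hq, Polynomial.eval₂_map]
  exact hpa

end Abstract

/-! ## Concrete part -/

section Concrete

variable (P : ValuationSubring _root_.Fermat.Agent.A2.Mod.Qb) (E : IntermediateField ℚ _root_.Fermat.Agent.A2.Mod.Qb) (M q : ℕ) [NeZero M] [NeZero q]

/-- the underlying series of `j_d` is `j(t^d)` over `E` -/
theorem coe_jE (N d : ℕ) [NeZero d] (hd : d ∣ N) :
    ((jE E N d hd : _root_.Fermat.Agent.A2.Mod.FE E N) : LaurentSeries E) = qExpand E d (jqModC E) := by
  show coeffEmb E (qExpand ℚ d jq) = _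
  rw [coeffEmb, coeffMap_qExpand, ← jqModC_rat, coeffMap_jqModC]

/-- the underlying series of `j_d` is the image of the integral series `j(t^d)` -/
theorem coe_jE_int (N d : ℕ) [NeZero d] (hd : d ∣ N) :
    ((jE E N d hd : _root_.Fermat.Agent.A2.Mod.FE E N) : LaurentSeries E) =
      coeffMap (Int.castRingHom E) (qExpand ℤ d (jqModC ℤ)) := by
  rw [coe_jE, coeffMap_qExpand, coeffMap_jqModC]

theorem coe_jE_one (N : ℕ) :
    ((jE E N 1 (one_dvd N) : _root_.Fermat.Agent.A2.Mod.FE E N) : LaurentSeries E) =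
      coeffMap (Int.castRingHom E) (jqModC ℤ) := by
  rw [coe_jE_int, qExpand_one_apply]

/-- evaluation of a two-variable integral polynomial commutes with the coercion
`F_N → E((t))` -/
theorem coe_eval₂_aeval (N : ℕ) (Φ : Polynomial (Polynomial ℤ)) (a b : _root_.Fermat.Agent.A2.Mod.FE E N) :
    ((Φ.eval₂ (Polynomial.aeval (R := ℤ) b).toRingHom a : _root_.Fermat.Agent.A2.Mod.FE E N) : LaurentSeries E) =
      Φ.eval₂ (Polynomial.aeval (R := ℤ) (b : LaurentSeries E)).toRingHom
        (a : LaurentSeries E) := by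
  have h := Polynomial.hom_eval₂ Φ (Polynomial.aeval (R := ℤ) b).toRingHom
    (_root_.Fermat.Agent.A2.Mod.FE E N).val.toRingHom a
  have hcomp : ((_root_.Fermat.Agent.A2.Mod.FE E N).val.toRingHom).comp (Polynomial.aeval (R := ℤ) b).toRingHom =
      (Polynomial.aeval (R := ℤ) (b : LaurentSeries E)).toRingHom := by
    apply Polynomial.ringHom_ext
    · intro n
      simp
    · simp
  rw [hcomp] at h
  exact h

/-- transfer of a vanishing statement from `ℤ((t))` to `F_N` -/
theorem eval₂_eq_zero_of_int (N : ℕ) (Φ : Polynomial (Polynomial ℤ)) (a b : _root_.Fermat.Agent.A2.Mod.FE E N)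
    (A B : LaurentSeries ℤ) (ha : (a : LaurentSeries E) = coeffMap (Int.castRingHom E) A)
    (hb : (b : LaurentSeries E) = coeffMap (Int.castRingHom E) B)
    (h : Φ.eval₂ (S28.evalAt B) A = 0) :
    Φ.eval₂ (Polynomial.aeval (R := ℤ) b).toRingHom a = 0 := by
  apply Subtype.ext
  rw [coe_eval₂_aeval, ha, hb]
  have h2 := Polynomial.hom_eval₂ Φ (S28.evalAt B) (coeffMap (Int.castRingHom E)) A
  have hcomp : (coeffMap (Int.castRingHom E)).comp (S28.evalAt B) =
      (Polynomial.aeval (R := ℤ) (coeffMap (Int.castRingHom E) B)).toRingHom := by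
    apply Polynomial.ringHom_ext
    · intro n
      simp [S28.evalAt]
    · simp [S28.evalAt]
  rw [hcomp, h, map_zero] at h2
  rw [← h2]
  rfl

theorem jE_ne_zero (N d : ℕ) [NeZero d] (hd : d ∣ N) : jE E N d hd ≠ 0 := by
  intro h
  have h1 : ((jE E N d hd : _root_.Fermat.Agent.A2.Mod.FE E N) : LaurentSeries E) = 0 := by rw [h]; rfl
  rw [coe_jE] at h1
  have h2 : jqModC E = 0 := by
    have hinj : Function.Injective (qExpand E d) := by
      intro x y hxy
      ext n
      have := congrArg (fun z => z.coeff ((d : ℤ) * n)) hxy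
      simpa [qExpand_coeff_mul] using this
    exact hinj (by rw [h1, map_zero])
  exact jqModC_ne_zero_of_nontrivial E h2

/-- **L13 from the modular polynomial.** -/
theorem chartCompat_of_modPolyData (D : S28.ModPolyData q) : ChartCompatStatement P E M q := by
  intro _
  -- the two vanishing statements in `F_N`
  have hj : D.Φ.eval₂ (Polynomial.aeval (R := ℤ)
      (jE E (M * q) q (dvd_mul_left q M))).toRingHom (jE E (M * q) 1 (one_dvd _)) = 0 :=
    eval₂_eq_zero_of_int E (M * q) D.Φ _ _ _ _ (coe_jE_one E (M * q))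
      (coe_jE_int E (M * q) q (dvd_mul_left q M)) D.eval_j
  have hjq : D.Φ.eval₂ (Polynomial.aeval (R := ℤ)
      (jE E (M * q) 1 (one_dvd _))).toRingHom (jE E (M * q) q (dvd_mul_left q M)) = 0 :=
    eval₂_eq_zero_of_int E (M * q) D.Φ _ _ _ _ (coe_jE_int E (M * q) q (dvd_mul_left q M))
      (coe_jE_one E (M * q)) D.eval_jp
  refine ⟨?_, ?_, ?_, ?_⟩
  · exact isIntegralElem_of_isIntegral_closure _ (isIntegral_closure_mul D.Φ D.monic hj)
  · have h := isIntegral_closure_mul D.Φ D.monic hjq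
    rw [mul_comm (jE E (M * q) q (dvd_mul_left q M)) (jE E (M * q) 1 (one_dvd _))] at h
    exact isIntegralElem_of_isIntegral_closure _ h
  · exact isIntegralElem_of_isIntegral_closure _
      (isIntegral_closure_inv_mul (jE_ne_zero E (M * q) q (dvd_mul_left q M)) D.Φ D.monic hjq)
  · have h := isIntegral_closure_inv_mul (jE_ne_zero E (M * q) 1 (one_dvd _)) D.Φ D.monic hj
    rw [mul_comm (jE E (M * q) q (dvd_mul_left q M)) (jE E (M * q) 1 (one_dvd _))] at h
    exact isIntegralElem_of_isIntegral_closure _ h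

/-- **L13** (exact frozen leaf of `Mod/Spec.lean`). -/
theorem chartCompat : ChartCompatStatement P E M q := fun hq =>
  chartCompat_of_modPolyData P E M q (S28.H807.nonempty_modPolyData q hq).some hq

end Concrete

end Fermat.Agent.A2.Mod.H873

end

end
-- ===== PACK-END A2/Mod/H873/L13.lean

-- ===== PACK-BEGIN A2/Mod/H372/S3Base.lean
section







/-!
# A2 / MODASM S3, concrete base (helper372)

Mod/Spec language (`FE E N`, `IsVinf`, `InW`, `chartAlg`, `αE`, `βE`).

* `alpha_mem`, `alpha_jE`, `beta_jE`, `alpha_cE`, `beta_cE` : the degeneracy maps on generators,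
  constants and the Gauss valuation rings;
* `inW_jE_sub_pow` : **Kronecker congruence for the generators** `j_{dq} ≡ j_d ^ q mod w V∞`
  (`H528.exists_frobCong`);
* `mem_chartAlg_iff` : `chartAlg` (helper13 `Asm.lean`) = `chart` (helper994 `Spec.lean`)
  = integrality along `R_E[X] → F`, `X ↦ y`;
* `isIntegralElem_trans`, `mem_of_alpha_mem`, `isUnif_comap`, ...
-/

set_option autoImplicit false
set_option synthInstance.maxHeartbeats 400000
set_option maxHeartbeats 1600000
set_option linter.unusedSectionVars false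
set_option linter.style.haveILetI false

noncomputable section

namespace Fermat.Agent.A2.Mod.H372

open ModularCurve HahnSeries Polynomial

/-! ## Generalities -/

section General

variable {F : Type*} [Field F]

/-- elements integral over `R[y]`, `R, y ⊆ V`, lie in the valuation ring `V`. -/
theorem mem_of_isIntegralElem (V : ValuationSubring F) {R : Type*} [CommRing R] (c : R →+* F)
    (y : F) (hcV : ∀ r, c r ∈ V) (hyV : y ∈ V) {b : F}
    (hb : (Polynomial.eval₂RingHom c y).IsIntegralElem b) : b ∈ V := by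
  set cV : R →+* V := c.codRestrict V hcV with hcV'
  set yV : V := ⟨y, hyV⟩ with hyV'
  have hcomp : (V.subtype).comp (Polynomial.eval₂RingHom cV yV) = Polynomial.eval₂RingHom c y := by
    apply Polynomial.ringHom_ext
    · intro r
      simp [cV]
    · simp [yV]
  have hint : IsIntegral V b := by
    obtain ⟨p, hp, hpb⟩ := hb
    refine ⟨p.map (Polynomial.eval₂RingHom cV yV), hp.map _, ?_⟩
    rw [Polynomial.eval₂_map]
    have : (algebraMap V F).comp (Polynomial.eval₂RingHom cV yV) =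
        Polynomial.eval₂RingHom c y := hcomp
    rw [this]
    exact hpb
  obtain ⟨v, hv⟩ := (IsIntegrallyClosed.isIntegral_iff (R := V) (K := F)).mp hint
  rw [← hv]
  exact v.2

/-- transitivity of integrality over `R[y]`. -/
theorem isIntegralElem_trans {R : Type*} [CommRing R] (c : R →+* F) {y z b : F}
    (hz : (Polynomial.eval₂RingHom c y).IsIntegralElem z)
    (hb : (Polynomial.eval₂RingHom c z).IsIntegralElem b) :
    (Polynomial.eval₂RingHom c y).IsIntegralElem b := by
  letI : Algebra (Polynomial R) F := (Polynomial.eval₂RingHom c y).toAlgebra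
  have hzT : z ∈ integralClosure (Polynomial R) F := hz
  have hcT : ∀ r, c r ∈ integralClosure (Polynomial R) F := by
    intro r
    have : c r = algebraMap (Polynomial R) F (Polynomial.C r) := by
      show c r = Polynomial.eval₂RingHom c y (Polynomial.C r)
      simp
    rw [this]
    exact Subalgebra.algebraMap_mem _ _
  have h1 : IsIntegral (integralClosure (Polynomial R) F) b := by
    refine isIntegralElem_of_forall_exists (Polynomial.eval₂RingHom c z) _ (fun p => ?_) hb
    refine ⟨⟨Polynomial.eval₂ c z p, ?_⟩, rfl⟩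
    rw [Polynomial.eval₂_eq_sum_range]
    refine Subalgebra.sum_mem _ (fun i _ => ?_)
    exact Subalgebra.mul_mem _ (hcT _) (Subalgebra.pow_mem _ hzT _)
  exact isIntegral_trans (R := Polynomial R) (A := integralClosure (Polynomial R) F) b h1

/-- `a - b ∈ ϖ V` with `a, b` units of `V` ⟹ `a⁻¹ - b⁻¹ ∈ ϖ V`. -/
theorem inv_sub_inv_mul_mem (V : ValuationSubring F) {ϖ a b : F} (ha0 : a ≠ 0) (hb0 : b ≠ 0)
    (ha : a⁻¹ ∈ V) (hb : b⁻¹ ∈ V) (h : (a - b) * ϖ⁻¹ ∈ V) : (a⁻¹ - b⁻¹) * ϖ⁻¹ ∈ V := by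
  have : (a⁻¹ - b⁻¹) * ϖ⁻¹ = -((a - b) * ϖ⁻¹ * a⁻¹ * b⁻¹) := by
    field_simp
    ring
  rw [this]
  exact V.neg_mem _ (V.mul_mem _ _ (V.mul_mem _ _ h ha) hb)

/-- transport of a uniformiser along an automorphism fixing it. -/
theorem isUnif_comap {V : ValuationSubring F} {ϖ : F} (hu : H48.IsUnif V ϖ) (W : F →+* F)
    (hW : W ϖ = ϖ) : H48.IsUnif (V.comap W) ϖ where
  mem := by
    rw [ValuationSubring.mem_comap, hW]
    exact hu.mem
  inv_not_mem := by
    rw [ValuationSubring.mem_comap, map_inv₀, hW]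
    exact hu.inv_not_mem
  gen := by
    intro f hf hfinv
    rw [ValuationSubring.mem_comap] at hf hfinv ⊢
    rw [map_mul, map_inv₀, hW]
    rw [map_inv₀] at hfinv
    exact hu.gen _ hf hfinv

end General

/-! ## Levels -/

section Levels

variable (P : ValuationSubring _root_.Fermat.Agent.A2.Mod.Qb) (E : IntermediateField ℚ _root_.Fermat.Agent.A2.Mod.Qb) (M q : ℕ) [NeZero M] [NeZero q]
  (w : _root_.Fermat.Agent.A2.Mod.RE P E)

theorem alpha_cE (r : _root_.Fermat.Agent.A2.Mod.RE P E) : αE E M q (cE P E M r) = cE P E (M * q) r :=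
  (αE E M q).commutes (r : E)

theorem beta_cE (r : _root_.Fermat.Agent.A2.Mod.RE P E) : βE E M q (cE P E M r) = cE P E (M * q) r :=
  (βE E M q).commutes (r : E)

variable {P E M q}

/-- `α` maps `V∞_M` into `V∞_{Mq}`. -/
theorem alpha_mem {VM : ValuationSubring (_root_.Fermat.Agent.A2.Mod.FE E M)} {V : ValuationSubring (_root_.Fermat.Agent.A2.Mod.FE E (M * q))}
    (hVM : IsVinf P E M VM) (hV : IsVinf P E (M * q) V) {f : _root_.Fermat.Agent.A2.Mod.FE E M} (hf : f ∈ VM) :
    αE E M q f ∈ V := by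
  rw [hV, coe_heckeAlphaBar]
  obtain ⟨U₁, U₂, hred, hmem, he⟩ := (hVM f).mp hf
  refine ⟨U₁, U₂, hred, ?_, he⟩
  have h := (αE E M q ⟨_, hmem⟩).2
  rwa [coe_heckeAlphaBar] at h

theorem alpha_jE (d : ℕ) [NeZero d] (hd : d ∣ M) :
    αE E M q (jE E M d hd) = jE E (M * q) d (hd.mul_right q) := by
  apply Subtype.ext
  rw [coe_heckeAlphaBar]
  rfl

theorem beta_jE (d : ℕ) [NeZero d] (hd : d ∣ M) :
    βE E M q (jE E M d hd) = jE E (M * q) (d * q) (mul_dvd_mul_right hd q) := by
  apply Subtype.ext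
  rw [coe_heckeBetaBar]
  show qExpand E q (coeffEmb E (qExpand ℚ d jq)) = coeffEmb E (qExpand ℚ (d * q) jq)
  rw [coeffEmb, ← coeffMap_qExpand, qExpand_qExpand, qExpand_congr (mul_comm q d)]

/-- `q = w r` in `R_E`. -/
theorem exists_q_eq (hS : Setting P E M q w) : ∃ r : _root_.Fermat.Agent.A2.Mod.RE P E, (q : _root_.Fermat.Agent.A2.Mod.RE P E) = w * r := by
  have hnu : ¬ IsUnit ((q : ℕ) : _root_.Fermat.Agent.A2.Mod.RE P E) := by
    intro hu
    obtain ⟨s, hs⟩ := isUnit_iff_exists_inv.mp hu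
    have h1 : ((q : ℕ) : _root_.Fermat.Agent.A2.Mod.Qb) * ((s : E) : _root_.Fermat.Agent.A2.Mod.Qb) = 1 := by
      have := congrArg (fun t : _root_.Fermat.Agent.A2.Mod.RE P E => ((t : E) : _root_.Fermat.Agent.A2.Mod.Qb)) hs
      simpa using this
    have hq : ((q : ℕ) : _root_.Fermat.Agent.A2.Mod.Qb) ∈ P.nonunits := hS.lies_over
    rw [ValuationSubring.mem_nonunits_iff] at hq
    have hs' : ((s : E) : _root_.Fermat.Agent.A2.Mod.Qb) ∈ P := s.2
    have hv : P.valuation ((s : E) : _root_.Fermat.Agent.A2.Mod.Qb) ≤ 1 := (P.valuation_le_one_iff _).mpr hs'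
    have h2 := congrArg P.valuation h1
    rw [map_mul, map_one] at h2
    have h3 : P.valuation ((q : ℕ) : _root_.Fermat.Agent.A2.Mod.Qb) * P.valuation ((s : E) : _root_.Fermat.Agent.A2.Mod.Qb) < 1 :=
      lt_of_le_of_lt (mul_le_of_le_one_right' hv) hq
    exact absurd h2 (ne_of_lt h3)
  have := hS.dvr
  have hmem : ((q : ℕ) : _root_.Fermat.Agent.A2.Mod.RE P E) ∈ IsLocalRing.maximalIdeal (_root_.Fermat.Agent.A2.Mod.RE P E) :=
    (IsLocalRing.mem_maximalIdeal _).mpr hnu
  rw [hS.unif.maximalIdeal_eq, Ideal.mem_span_singleton'] at hmem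
  obtain ⟨r, hr⟩ := hmem
  exact ⟨r, by rw [← hr, mul_comm]⟩

theorem cE_mem (hS : Setting P E M q w) {N : ℕ} {V : ValuationSubring (_root_.Fermat.Agent.A2.Mod.FE E N)}
    (hV : IsVinf P E N V) (r : _root_.Fermat.Agent.A2.Mod.RE P E) : cE P E N r ∈ V := by
  have := hS.dvr
  exact (H553.algebraMap_mem_iff P E hV _).mpr r.2

theorem cE_ne_zero (hS : Setting P E M q w) (N : ℕ) : cE P E N w ≠ 0 := by
  have hw0 : (w : E) ≠ 0 := fun h0 => hS.unif.ne_zero (Subtype.ext h0)
  exact (map_ne_zero_iff _ (algebraMap E (_root_.Fermat.Agent.A2.Mod.FE E N)).injective).mpr hw0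

/-- **Kronecker congruence for the generators**: `j_{dq} ≡ j_d ^ q mod w V∞`. -/
theorem inW_jE_sub_pow (hS : Setting P E M q w) {V : ValuationSubring (_root_.Fermat.Agent.A2.Mod.FE E (M * q))}
    (hV : IsVinf P E (M * q) V) (d : ℕ) [NeZero d] (hd : d ∣ M) :
    InW P E (M * q) V w (jE E (M * q) (d * q) (mul_dvd_mul_right hd q) -
      (jE E (M * q) d (hd.mul_right q)) ^ q) := by
  haveI : Fact q.Prime := ⟨hS.q_prime⟩
  obtain ⟨g, hg⟩ := H528.exists_frobCong q (H708.jInt d)
  have hj : H708.jInt (d * q) = qExpand ℤ q (H708.jInt d) := by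
    unfold H708.jInt jqNModC
    rw [qExpand_qExpand, qExpand_congr (mul_comm q d)]
  obtain ⟨r, hr⟩ := exists_q_eq w hS
  set D : _root_.Fermat.Agent.A2.Mod.FE E (M * q) := jE E (M * q) (d * q) (mul_dvd_mul_right hd q) -
      (jE E (M * q) d (hd.mul_right q)) ^ q with hD
  have hqC : HahnSeries.C ((q : ℕ) : ℤ) = ((q : ℕ) : LaurentSeries ℤ) := map_natCast _ q
  have hcoe : (D : LaurentSeries E) = ((q : ℕ) : LaurentSeries E) * coeffEmb E (H708.castQ g) := by
    have h1 : (D : LaurentSeries E) = coeffEmb E (H708.castQ (H708.jInt (d * q))) -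
        (coeffEmb E (H708.castQ (H708.jInt d))) ^ q := by
      rw [← H553.coe_jE (E := E) (M * q) (d * q) (mul_dvd_mul_right hd q),
        ← H553.coe_jE (E := E) (M * q) d (hd.mul_right q)]
      rfl
    rw [h1, hj, ← map_pow, ← map_pow, ← map_sub, ← map_sub, hg, hqC, map_mul, map_mul,
      map_natCast, map_natCast]
  have hq0 : ((q : ℕ) : _root_.Fermat.Agent.A2.Mod.FE E (M * q)) ≠ 0 := by
    exact_mod_cast hS.q_prime.ne_zero
  set G : _root_.Fermat.Agent.A2.Mod.FE E (M * q) := D * ((q : ℕ) : _root_.Fermat.Agent.A2.Mod.FE E (M * q))⁻¹ with hG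
  have hGcoe : (G : LaurentSeries E) = coeffEmb E (H708.castQ g) := by
    have hqcoe : (((q : ℕ) : _root_.Fermat.Agent.A2.Mod.FE E (M * q)) : LaurentSeries E) = ((q : ℕ) : LaurentSeries E) :=
      rfl
    have hq0' : ((q : ℕ) : LaurentSeries E) ≠ 0 := by
      rw [← hqcoe]
      exact fun h => hq0 (Subtype.ext h)
    have h2 : (G : LaurentSeries E) = (D : LaurentSeries E) * ((q : ℕ) : LaurentSeries E)⁻¹ := by
      rw [hG, IntermediateField.coe_mul, IntermediateField.coe_inv, hqcoe]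
    rw [h2, hcoe, mul_comm, ← mul_assoc, inv_mul_cancel₀ hq0', one_mul]
  have hGV : G ∈ V := H553.mem_of_int hV hGcoe
  have hqF : ((q : ℕ) : _root_.Fermat.Agent.A2.Mod.FE E (M * q)) = cE P E (M * q) w * cE P E (M * q) r := by
    have := congrArg (algebraMap (_root_.Fermat.Agent.A2.Mod.RE P E) (_root_.Fermat.Agent.A2.Mod.FE E (M * q))) hr
    rw [map_natCast, map_mul] at this
    exact this
  have hfin : D * (cE P E (M * q) w)⁻¹ = G * cE P E (M * q) r := by
    have hw0 := cE_ne_zero w hS (M * q)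
    have hDG : D = G * ((q : ℕ) : _root_.Fermat.Agent.A2.Mod.FE E (M * q)) := by
      rw [hG, mul_assoc, inv_mul_cancel₀ hq0, mul_one]
    rw [hDG, hqF]
    field_simp
  show D * (cE P E (M * q) w)⁻¹ ∈ V
  rw [hfin]
  exact V.mul_mem _ _ hGV (cE_mem w hS hV r)


/-- `w` is a uniformiser of `V∞` (leaf L2, `H553.vinfBasic`). -/
theorem unifE (hS : Setting P E M q w) {N : ℕ} (hN : N ≠ 0) {V : ValuationSubring (_root_.Fermat.Agent.A2.Mod.FE E N)}
    (hV : IsVinf P E N V) : H48.IsUnif V (cE P E N w) :=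
  (H553.vinfBasic P E w N hN hS.dvr hS.unif V hV).1

theorem jE_mem (hS : Setting P E M q w) {N : ℕ} (hN : N ≠ 0) {V : ValuationSubring (_root_.Fermat.Agent.A2.Mod.FE E N)}
    (hV : IsVinf P E N V) (d : ℕ) [NeZero d] (hd : d ∣ N) : jE E N d hd ∈ V :=
  ((H553.vinfBasic P E w N hN hS.dvr hS.unif V hV).2.2 d hd).1

theorem jE_inv_mem (hS : Setting P E M q w) {N : ℕ} (hN : N ≠ 0) {V : ValuationSubring (_root_.Fermat.Agent.A2.Mod.FE E N)}
    (hV : IsVinf P E N V) (d : ℕ) [NeZero d] (hd : d ∣ N) : (jE E N d hd)⁻¹ ∈ V :=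
  ((H553.vinfBasic P E w N hN hS.dvr hS.unif V hV).2.2 d hd).2

theorem jE_congr {N d d' : ℕ} [NeZero d] [NeZero d'] (h : d = d') (hd : d ∣ N) (hd' : d' ∣ N) :
    jE E N d hd = jE E N d' hd' := by
  subst h
  rfl

theorem level_ne_zero (hS : Setting P E M q w) : M * q ≠ 0 :=
  mul_ne_zero hS.M_ne_zero hS.q_prime.ne_zero

/-- `q ∈ w V∞`. -/
theorem q_mul_inv_mem (hS : Setting P E M q w) {V : ValuationSubring (_root_.Fermat.Agent.A2.Mod.FE E (M * q))}
    (hV : IsVinf P E (M * q) V) :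
    ((q : ℕ) : _root_.Fermat.Agent.A2.Mod.FE E (M * q)) * (cE P E (M * q) w)⁻¹ ∈ V := by
  obtain ⟨r, hr⟩ := exists_q_eq w hS
  have hqF : ((q : ℕ) : _root_.Fermat.Agent.A2.Mod.FE E (M * q)) = cE P E (M * q) w * cE P E (M * q) r := by
    have := congrArg (algebraMap (_root_.Fermat.Agent.A2.Mod.RE P E) (_root_.Fermat.Agent.A2.Mod.FE E (M * q))) hr
    rw [map_natCast, map_mul] at this
    exact this
  have hw0 := cE_ne_zero w hS (M * q)
  have : ((q : ℕ) : _root_.Fermat.Agent.A2.Mod.FE E (M * q)) * (cE P E (M * q) w)⁻¹ = cE P E (M * q) r := by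
    rw [hqF]
    field_simp
  rw [this]
  exact cE_mem w hS hV r

/-- `α` reflects membership in the Gauss valuation rings: `V∞_{Mq} ∩ F_M = V∞_M`. -/
theorem mem_of_alpha_mem (hS : Setting P E M q w) {VM : ValuationSubring (_root_.Fermat.Agent.A2.Mod.FE E M)}
    {V : ValuationSubring (_root_.Fermat.Agent.A2.Mod.FE E (M * q))} (hVM : IsVinf P E M VM) (hV : IsVinf P E (M * q) V)
    {x : _root_.Fermat.Agent.A2.Mod.FE E M} (hx : αE E M q x ∈ V) : x ∈ VM := by
  by_contra hxV
  have hx0 : x ≠ 0 := fun h0 => hxV (h0 ▸ VM.zero_mem)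
  have hinv : x⁻¹ ∈ VM := (VM.mem_or_inv_mem x).resolve_left hxV
  have huM := unifE w hS hS.M_ne_zero hVM
  have huN := unifE w hS (level_ne_zero w hS) hV
  have h1 : x⁻¹ * (cE P E M w)⁻¹ ∈ VM := huM.gen _ hinv (by rwa [inv_inv])
  have h2 := alpha_mem hVM hV h1
  rw [map_mul, map_inv₀, map_inv₀, alpha_cE] at h2
  apply huN.inv_not_mem
  have hαx0 : αE E M q x ≠ 0 := (map_ne_zero_iff _ (αE E M q).toRingHom.injective).mpr hx0
  have : (cE P E (M * q) w)⁻¹ = αE E M q x * ((αE E M q x)⁻¹ * (cE P E (M * q) w)⁻¹) := by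
    rw [← mul_assoc, mul_inv_cancel₀ hαx0, one_mul]
  rw [this]
  exact V.mul_mem _ _ hx h2

/-- `chartAlg` in terms of integrality along `R_E[X] → F`, `X ↦ y` (= `chart` of `Spec.lean`). -/
theorem mem_chartAlg_iff {N : ℕ} {y f : _root_.Fermat.Agent.A2.Mod.FE E N} :
    f ∈ chartAlg P E N y ↔
      (Polynomial.eval₂RingHom (algebraMap (_root_.Fermat.Agent.A2.Mod.RE P E) (_root_.Fermat.Agent.A2.Mod.FE E N)) y).IsIntegralElem f := by
  rw [mem_chartAlg]
  constructor
  · intro h
    refine isIntegralElem_of_forall_exists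
      (algebraMap (Algebra.adjoin (_root_.Fermat.Agent.A2.Mod.RE P E) ({y} : Set (_root_.Fermat.Agent.A2.Mod.FE E N))) (_root_.Fermat.Agent.A2.Mod.FE E N)) _ (fun c => ?_) h
    obtain ⟨p, hp⟩ := Algebra.adjoin_mem_exists_aeval (_root_.Fermat.Agent.A2.Mod.RE P E) y c.2
    exact ⟨p, hp⟩
  · intro h
    refine isIntegralElem_of_forall_exists _
      (algebraMap (Algebra.adjoin (_root_.Fermat.Agent.A2.Mod.RE P E) ({y} : Set (_root_.Fermat.Agent.A2.Mod.FE E N))) (_root_.Fermat.Agent.A2.Mod.FE E N)) (fun p => ?_) h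
    exact ⟨⟨Polynomial.aeval y p, Polynomial.aeval_mem_adjoin_singleton (_root_.Fermat.Agent.A2.Mod.RE P E) y⟩, rfl⟩

theorem mem_chart_iff {N : ℕ} {y f : _root_.Fermat.Agent.A2.Mod.FE E N} : f ∈ chart P E N y ↔ f ∈ chartAlg P E N y :=
  mem_chartAlg_iff.symm

end Levels

end Fermat.Agent.A2.Mod.H372

end
end
-- ===== PACK-END A2/Mod/H372/S3Base.lean

-- ===== PACK-BEGIN A2/Mod/H189/GoodRedT.lean
section






/-!
# Cell A2 / MOD, GOODRED part G3 (helper189): `GoodRedAt` for `j`, `1/j` from the Hauptmodul charts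

The level-`M` hypothesis `Mod.GoodRedAt P E M w VM y` of MODASM (`A2/Mod/Spec.lean`) is needed for
`y = j` and `y = j⁻¹`.  Row S18 proves good reduction in the coordinate `j` only for residue
characteristic `≥ 5`; for `q = 3` (`2 ∣ M`) and `q = 2` (`3 ∣ M`) it works with the Hauptmodul
`t = t₂` (`j t² = (t + 256)³`) resp. `t = t₃` (`j t³ = (t + 27)(t + 243)³`).  Here:

* `mem_chart_iff`       : the frozen `Mod.chart` is the integral closure of `R_E[y]`;
* `goodRedAt_iff_goodOn`: `Mod.GoodRedAt` is `H189.GoodOn` (the Mathlib-only form);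
* `goodRedAt_j_of_t2`, `goodRedAt_j_of_t3` : `GoodRedAt` at `t`, `t⁻¹` ⟹ `GoodRedAt` at `j`, `j⁻¹`
  (unit conditions as hypotheses);
* `goodRedAt_j_of_t2_polar`, `goodRedAt_j_of_t3_polar` : the same, with the unit conditions
  discharged by L3 (`H816.vinfGauss`) and L2 (`H708.vinfBasic`) for a polar `t = t⁻¹·(unit + …)`.
-/

set_option autoImplicit false
set_option synthInstance.maxHeartbeats 400000
set_option maxHeartbeats 1600000

noncomputable section

namespace Fermat.Agent.A2.Mod.H189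

open ModularCurve HahnSeries Polynomial Fermat.Agent.A2 Fermat.Agent.A2.Mod

section Chart

variable (P : ValuationSubring _root_.Fermat.Agent.A2.Mod.Qb) (E : IntermediateField ℚ _root_.Fermat.Agent.A2.Mod.Qb) (N : ℕ)

/-- `R_E[X] → R_E[y] ⊆ F`. -/
def evAdjoin (y : _root_.Fermat.Agent.A2.Mod.FE E N) :
    Polynomial (_root_.Fermat.Agent.A2.Mod.RE P E) →+* Algebra.adjoin (_root_.Fermat.Agent.A2.Mod.RE P E) ({y} : Set (_root_.Fermat.Agent.A2.Mod.FE E N)) :=
  ((Polynomial.aeval (R := _root_.Fermat.Agent.A2.Mod.RE P E) y).codRestrict (Algebra.adjoin (_root_.Fermat.Agent.A2.Mod.RE P E) ({y} : Set (_root_.Fermat.Agent.A2.Mod.FE E N)))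
    (fun p => by
      rw [Algebra.adjoin_singleton_eq_range_aeval]
      exact ⟨p, rfl⟩)).toRingHom

theorem evAdjoin_surjective (y : _root_.Fermat.Agent.A2.Mod.FE E N) : Function.Surjective (evAdjoin P E N y) := by
  rintro ⟨a, ha⟩
  rw [Algebra.adjoin_singleton_eq_range_aeval] at ha
  obtain ⟨p, hp⟩ := ha
  exact ⟨p, Subtype.ext hp⟩

theorem algebraMap_comp_evAdjoin (y : _root_.Fermat.Agent.A2.Mod.FE E N) :
    (algebraMap (Algebra.adjoin (_root_.Fermat.Agent.A2.Mod.RE P E) ({y} : Set (_root_.Fermat.Agent.A2.Mod.FE E N))) (_root_.Fermat.Agent.A2.Mod.FE E N)).comp (evAdjoin P E N y)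
      = Polynomial.eval₂RingHom ((algebraMap E (_root_.Fermat.Agent.A2.Mod.FE E N)).comp (_root_.Fermat.Agent.A2.Mod.RE P E).subtype) y := by
  refine Polynomial.ringHom_ext (fun a => ?_) ?_
  · show (Polynomial.aeval (R := _root_.Fermat.Agent.A2.Mod.RE P E) y) (C a) = _
    rw [Polynomial.aeval_C, Polynomial.coe_eval₂RingHom, Polynomial.eval₂_C]
    rfl
  · show (Polynomial.aeval (R := _root_.Fermat.Agent.A2.Mod.RE P E) y) X = _
    rw [Polynomial.aeval_X, Polynomial.coe_eval₂RingHom, Polynomial.eval₂_X]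

/-- The frozen chart of `Mod/Spec.lean` is the integral closure of `R_E[y]`. -/
theorem mem_chart_iff {y f : _root_.Fermat.Agent.A2.Mod.FE E N} :
    f ∈ chart P E N y ↔ IsIntegral (Algebra.adjoin (_root_.Fermat.Agent.A2.Mod.RE P E) ({y} : Set (_root_.Fermat.Agent.A2.Mod.FE E N))) f := by
  constructor
  · rintro ⟨p, hp, hpf⟩
    refine ⟨p.map (evAdjoin P E N y), hp.map _, ?_⟩
    rw [eval₂_map, algebraMap_comp_evAdjoin]
    exact hpf
  · rintro ⟨q, hq, hqf⟩
    have hl : q ∈ lifts (evAdjoin P E N y) := by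
      rw [lifts_iff_coeff_lifts]
      intro n
      exact evAdjoin_surjective P E N y _
    obtain ⟨p, hpq, -, hp⟩ := lifts_and_degree_eq_and_monic hl hq
    refine ⟨p, hp, ?_⟩
    rw [← algebraMap_comp_evAdjoin, ← eval₂_map, hpq]
    exact hqf

variable {N} in
/-- `Mod.GoodRedAt` in Mathlib-only form. -/
theorem goodRedAt_iff_goodOn (w : _root_.Fermat.Agent.A2.Mod.RE P E) (VM : ValuationSubring (_root_.Fermat.Agent.A2.Mod.FE E N)) (y : _root_.Fermat.Agent.A2.Mod.FE E N) :
    GoodRedAt P E N w VM y ↔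
      GoodOn VM.toSubring (cE P E N w) (Algebra.adjoin (_root_.Fermat.Agent.A2.Mod.RE P E) ({y} : Set (_root_.Fermat.Agent.A2.Mod.FE E N))) := by
  constructor
  · intro h
    refine ⟨fun b hb hbw => ?_, fun f hf hint => ?_⟩
    · exact (mem_chart_iff P E N).1 (h.qep b ((mem_chart_iff P E N).2 hb) hbw)
    · obtain ⟨n, c, hc, hcw⟩ := hint
      obtain ⟨b, hb, hbw⟩ := h.normal f hf ⟨n, c, fun i => (mem_chart_iff P E N).2 (hc i), hcw⟩
      exact ⟨b, (mem_chart_iff P E N).1 hb, hbw⟩
  · rintro ⟨hq, hn⟩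
    refine ⟨fun b hb hbw => ?_, fun f hf hint => ?_⟩
    · exact (mem_chart_iff P E N).2 (hq b ((mem_chart_iff P E N).1 hb) hbw)
    · obtain ⟨n, c, hc, hcw⟩ := hint
      obtain ⟨b, hb, hbw⟩ := hn f hf ⟨n, c, fun i => (mem_chart_iff P E N).1 (hc i), hcw⟩
      exact ⟨b, (mem_chart_iff P E N).2 hb, hbw⟩

end Chart

section Main

variable (P : ValuationSubring _root_.Fermat.Agent.A2.Mod.Qb) (E : IntermediateField ℚ _root_.Fermat.Agent.A2.Mod.Qb) (M : ℕ) (w : _root_.Fermat.Agent.A2.Mod.RE P E)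

/-- `n ≡ 1 mod q` is a unit of `R_E` when `P` lies over `q`. -/
theorem exists_inv_of_liesOver {q : ℕ} (hP : P.LiesOverPrime q) (n k : ℕ) (hn : n = q * k + 1) :
    ∃ i : _root_.Fermat.Agent.A2.Mod.RE P E, (n : _root_.Fermat.Agent.A2.Mod.RE P E) * i = 1 := by
  have hq : P.valuation (q : _root_.Fermat.Agent.A2.Mod.Qb) < 1 := by
    have h : (q : _root_.Fermat.Agent.A2.Mod.Qb) ∈ P.nonunits := hP
    exact (P.mem_nonunits_iff).1 h
  have hk : P.valuation ((q : _root_.Fermat.Agent.A2.Mod.Qb) * (k : _root_.Fermat.Agent.A2.Mod.Qb)) < 1 := by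
    calc P.valuation ((q : _root_.Fermat.Agent.A2.Mod.Qb) * (k : _root_.Fermat.Agent.A2.Mod.Qb)) = P.valuation (q : _root_.Fermat.Agent.A2.Mod.Qb) * P.valuation (k : _root_.Fermat.Agent.A2.Mod.Qb) :=
          map_mul _ _ _
      _ ≤ P.valuation (q : _root_.Fermat.Agent.A2.Mod.Qb) * 1 := by
          gcongr
          exact (P.valuation_le_one_iff _).2 (natCast_mem P k)
      _ = P.valuation (q : _root_.Fermat.Agent.A2.Mod.Qb) := mul_one _
      _ < 1 := hq
  have hval : P.valuation (n : _root_.Fermat.Agent.A2.Mod.Qb) = 1 := by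
    have e : (n : _root_.Fermat.Agent.A2.Mod.Qb) = 1 + (q : _root_.Fermat.Agent.A2.Mod.Qb) * (k : _root_.Fermat.Agent.A2.Mod.Qb) := by
      rw [hn]
      push_cast
      ring
    rw [e, ← map_one P.valuation]
    exact Valuation.map_add_eq_of_lt_left _ (by rw [map_one]; exact hk)
  have hinv : ((n : _root_.Fermat.Agent.A2.Mod.Qb))⁻¹ ∈ P := by
    refine (P.valuation_le_one_iff _).1 ?_
    rw [map_inv₀, hval, inv_one]
  have hn0 : (n : E) ≠ 0 := by
    have : n ≠ 0 := by omega
    exact_mod_cast this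
  refine ⟨⟨((n : E))⁻¹, ?_⟩, Subtype.ext ?_⟩
  · show algebraMap E _root_.Fermat.Agent.A2.Mod.Qb ((n : E))⁻¹ ∈ P
    rw [map_inv₀, map_natCast]
    exact hinv
  · show ((n : _root_.Fermat.Agent.A2.Mod.RE P E) : E) * ((n : E))⁻¹ = 1
    have : ((n : _root_.Fermat.Agent.A2.Mod.RE P E) : E) = (n : E) := by simp
    rw [this, mul_inv_cancel₀ hn0]

/-- **`t₂ → j`** (`q = 3`, `2 ∣ M`): good reduction in the charts of the Hauptmodul `t` of `X₀(2)`
gives good reduction in the charts of `j`. -/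
theorem goodRedAt_j_of_t2 (i : _root_.Fermat.Agent.A2.Mod.RE P E) (hi : (256 : _root_.Fermat.Agent.A2.Mod.RE P E) * i = 1)
    (VM : ValuationSubring (_root_.Fermat.Agent.A2.Mod.FE E M))
    (hRV : ∀ r : _root_.Fermat.Agent.A2.Mod.RE P E, algebraMap (_root_.Fermat.Agent.A2.Mod.RE P E) (_root_.Fermat.Agent.A2.Mod.FE E M) r ∈ VM)
    (t : _root_.Fermat.Agent.A2.Mod.FE E M) (hrel : jE E M 1 (one_dvd _) * t ^ 2 = (t + 256) ^ 3)
    (htV : t ∈ VM) (htV' : t⁻¹ ∈ VM) (huV : (t + 256)⁻¹ ∈ VM)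
    (hg : GoodRedAt P E M w VM t) (hg' : GoodRedAt P E M w VM t⁻¹) :
    GoodRedAt P E M w VM (jE E M 1 (one_dvd _)) ∧
      GoodRedAt P E M w VM (jE E M 1 (one_dvd _))⁻¹ := by
  rw [goodRedAt_iff_goodOn] at hg hg' ⊢
  rw [goodRedAt_iff_goodOn]
  have hj := H873.jE_ne_zero E M 1 (one_dvd _)
  exact ⟨goodOn_j_of_t2 i hi hj hrel htV htV' hg,
    goodOn_jinv_of_t2 i hi hj hrel hRV htV htV' huV hg hg'⟩

/-- **`t₃ → j`** (`q = 2`, `3 ∣ M`): good reduction in the charts of the Hauptmodul `t` of `X₀(3)`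
gives good reduction in the charts of `j`. -/
theorem goodRedAt_j_of_t3 (i : _root_.Fermat.Agent.A2.Mod.RE P E) (hi : (3 : _root_.Fermat.Agent.A2.Mod.RE P E) * i = 1)
    (VM : ValuationSubring (_root_.Fermat.Agent.A2.Mod.FE E M))
    (hRV : ∀ r : _root_.Fermat.Agent.A2.Mod.RE P E, algebraMap (_root_.Fermat.Agent.A2.Mod.RE P E) (_root_.Fermat.Agent.A2.Mod.FE E M) r ∈ VM)
    (t : _root_.Fermat.Agent.A2.Mod.FE E M) (hrel : jE E M 1 (one_dvd _) * t ^ 3 = (t + 27) * (t + 243) ^ 3)
    (htV : t ∈ VM) (htV' : t⁻¹ ∈ VM) (hu₁V : (t + 27)⁻¹ ∈ VM) (hu₂V : (t + 243)⁻¹ ∈ VM)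
    (hg : GoodRedAt P E M w VM t) (hg' : GoodRedAt P E M w VM t⁻¹) :
    GoodRedAt P E M w VM (jE E M 1 (one_dvd _)) ∧
      GoodRedAt P E M w VM (jE E M 1 (one_dvd _))⁻¹ := by
  rw [goodRedAt_iff_goodOn] at hg hg' ⊢
  rw [goodRedAt_iff_goodOn]
  have hj := H873.jE_ne_zero E M 1 (one_dvd _)
  exact ⟨goodOn_j_of_t3 i hi hj hrel htV htV' hg,
    goodOn_jinv_of_t3 i hi hj hrel hRV htV htV' hu₁V hu₂V hg hg'⟩

/-! ### Unit conditions from L2 and L3 -/

theorem not_C_dvd_X_add_C {w : _root_.Fermat.Agent.A2.Mod.RE P E} (hw : Irreducible w) (c : _root_.Fermat.Agent.A2.Mod.RE P E) :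
    ¬ (Polynomial.C w : Polynomial (_root_.Fermat.Agent.A2.Mod.RE P E)) ∣ Polynomial.X + Polynomial.C c := by
  intro h
  rw [Polynomial.C_dvd_iff_dvd_coeff] at h
  have h1 := h 1
  rw [Polynomial.coeff_add, Polynomial.coeff_X_one, Polynomial.coeff_C] at h1
  simp only [one_ne_zero, if_false, add_zero] at h1
  exact hw.not_isUnit (isUnit_of_dvd_one h1)

theorem ev_X_add_C (t : _root_.Fermat.Agent.A2.Mod.FE E M) (c : _root_.Fermat.Agent.A2.Mod.RE P E) :
    ev P E M t (Polynomial.X + Polynomial.C c) = t + algebraMap (_root_.Fermat.Agent.A2.Mod.RE P E) (_root_.Fermat.Agent.A2.Mod.FE E M) c := by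
  unfold ev
  rw [Polynomial.eval₂_add, Polynomial.eval₂_X, Polynomial.eval₂_C]
  rfl

/-- For a polar `t = t⁻¹ · (unit + …)` all `t + c`, `c ∈ R_E`, are units of `V∞` (L3). -/
theorem add_const_unit_of_polar (hM : M ≠ 0) (hdvr : IsDiscreteValuationRing (_root_.Fermat.Agent.A2.Mod.RE P E))
    (hw : Irreducible w) (VM : ValuationSubring (_root_.Fermat.Agent.A2.Mod.FE E M)) (hVM : IsVinf P E M VM)
    (t : _root_.Fermat.Agent.A2.Mod.FE E M) (U : LaurentSeries (_root_.Fermat.Agent.A2.Mod.RE P E))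
    (hU : (t : LaurentSeries E) = H708.incl (_root_.Fermat.Agent.A2.Mod.RE P E) U)
    (hlow : ∀ n : ℤ, n < -1 → U.coeff n = 0) (htop : IsUnit (U.coeff (-1))) (c : _root_.Fermat.Agent.A2.Mod.RE P E) :
    t + algebraMap (_root_.Fermat.Agent.A2.Mod.RE P E) (_root_.Fermat.Agent.A2.Mod.FE E M) c ∈ VM ∧ (t + algebraMap (_root_.Fermat.Agent.A2.Mod.RE P E) (_root_.Fermat.Agent.A2.Mod.FE E M) c)⁻¹ ∈ VM := by
  have h := H816.vinfGauss P E w M hM hdvr hw VM hVM t U 1 one_pos hU
    (by simpa using hlow) (by simpa using htop) (Polynomial.X + Polynomial.C c)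
    (not_C_dvd_X_add_C P E hw c)
  rwa [ev_X_add_C] at h

theorem const_mem_of_isVinf (hM : M ≠ 0) (hdvr : IsDiscreteValuationRing (_root_.Fermat.Agent.A2.Mod.RE P E))
    (hw : Irreducible w) (VM : ValuationSubring (_root_.Fermat.Agent.A2.Mod.FE E M)) (hVM : IsVinf P E M VM)
    (r : _root_.Fermat.Agent.A2.Mod.RE P E) : algebraMap (_root_.Fermat.Agent.A2.Mod.RE P E) (_root_.Fermat.Agent.A2.Mod.FE E M) r ∈ VM :=
  ((H708.vinfBasic P E w M hM hdvr hw VM hVM).2.1 (r : E)).2 r.2

/-- **`t₂ → j`**, polar form: `P` over `3`, `t` the image of an integral series `t⁻¹(unit + …)`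
with `j t² = (t + 256)³`. -/
theorem goodRedAt_j_of_t2_polar (hP : P.LiesOverPrime 3) (hM : M ≠ 0)
    (hdvr : IsDiscreteValuationRing (_root_.Fermat.Agent.A2.Mod.RE P E)) (hw : Irreducible w)
    (VM : ValuationSubring (_root_.Fermat.Agent.A2.Mod.FE E M)) (hVM : IsVinf P E M VM)
    (t : _root_.Fermat.Agent.A2.Mod.FE E M) (U : LaurentSeries (_root_.Fermat.Agent.A2.Mod.RE P E))
    (hU : (t : LaurentSeries E) = H708.incl (_root_.Fermat.Agent.A2.Mod.RE P E) U)
    (hlow : ∀ n : ℤ, n < -1 → U.coeff n = 0) (htop : IsUnit (U.coeff (-1)))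
    (hrel : jE E M 1 (one_dvd _) * t ^ 2 = (t + 256) ^ 3)
    (hg : GoodRedAt P E M w VM t) (hg' : GoodRedAt P E M w VM t⁻¹) :
    GoodRedAt P E M w VM (jE E M 1 (one_dvd _)) ∧
      GoodRedAt P E M w VM (jE E M 1 (one_dvd _))⁻¹ := by
  obtain ⟨i, hi⟩ := exists_inv_of_liesOver P E hP 256 85 (by norm_num)
  have hi' : (256 : _root_.Fermat.Agent.A2.Mod.RE P E) * i = 1 := by
    rw [← hi]
    norm_num
  have h0 := add_const_unit_of_polar P E M w hM hdvr hw VM hVM t U hU hlow htop 0
  rw [map_zero, add_zero] at h0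
  have h256 := add_const_unit_of_polar P E M w hM hdvr hw VM hVM t U hU hlow htop 256
  rw [map_ofNat] at h256
  exact goodRedAt_j_of_t2 P E M w i hi' VM
    (const_mem_of_isVinf P E M w hM hdvr hw VM hVM) t hrel h0.1 h0.2 h256.2 hg hg'

/-- **`t₃ → j`**, polar form: `P` over `2`, `t` the image of an integral series `t⁻¹(unit + …)`
with `j t³ = (t + 27)(t + 243)³`. -/
theorem goodRedAt_j_of_t3_polar (hP : P.LiesOverPrime 2) (hM : M ≠ 0)
    (hdvr : IsDiscreteValuationRing (_root_.Fermat.Agent.A2.Mod.RE P E)) (hw : Irreducible w)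
    (VM : ValuationSubring (_root_.Fermat.Agent.A2.Mod.FE E M)) (hVM : IsVinf P E M VM)
    (t : _root_.Fermat.Agent.A2.Mod.FE E M) (U : LaurentSeries (_root_.Fermat.Agent.A2.Mod.RE P E))
    (hU : (t : LaurentSeries E) = H708.incl (_root_.Fermat.Agent.A2.Mod.RE P E) U)
    (hlow : ∀ n : ℤ, n < -1 → U.coeff n = 0) (htop : IsUnit (U.coeff (-1)))
    (hrel : jE E M 1 (one_dvd _) * t ^ 3 = (t + 27) * (t + 243) ^ 3)
    (hg : GoodRedAt P E M w VM t) (hg' : GoodRedAt P E M w VM t⁻¹) :
    GoodRedAt P E M w VM (jE E M 1 (one_dvd _)) ∧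
      GoodRedAt P E M w VM (jE E M 1 (one_dvd _))⁻¹ := by
  obtain ⟨i, hi⟩ := exists_inv_of_liesOver P E hP 3 1 (by norm_num)
  have hi' : (3 : _root_.Fermat.Agent.A2.Mod.RE P E) * i = 1 := by
    rw [← hi]
    norm_num
  have h0 := add_const_unit_of_polar P E M w hM hdvr hw VM hVM t U hU hlow htop 0
  rw [map_zero, add_zero] at h0
  have h27 := add_const_unit_of_polar P E M w hM hdvr hw VM hVM t U hU hlow htop 27
  rw [map_ofNat] at h27
  have h243 := add_const_unit_of_polar P E M w hM hdvr hw VM hVM t U hU hlow htop 243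
  rw [map_ofNat] at h243
  exact goodRedAt_j_of_t3 P E M w i hi' VM
    (const_mem_of_isVinf P E M w hM hdvr hw VM hVM) t hrel h0.1 h0.2 h27.2 h243.2 hg hg'

end Main

end Fermat.Agent.A2.Mod.H189

end
end
-- ===== PACK-END A2/Mod/H189/GoodRedT.lean

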