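import Fermat.Prelude.Def_ModularCurve_HeckeModule
import Fermat.Prelude.Thm_ModularCurve_coeffMap_qExpand
import Fermat.Agent.Pack.S34.G0E10L3
import Fermat.Agent.Pack.S34.G0E6L0
import Fermat.Agent.Pack.S34.G0E7L0
import Fermat.Agent.Pack.S34.G0E4L0
import Fermat.Agent.Pack.S34.G0E10L0
import Fermat.Agent.Pack.S34.G0E10L1
import Fermat.Agent.Pack.S34.G0E10L2
import Fermat.Agent.Pack.S34.G0E9L1
import Fermat.Agent.Pack.S34.G0E9L3
import Fermat.Agent.Pack.S34.G0E5L1
import Fermat.Agent.Pack.S34.G0E0L1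
import Fermat.Agent.Pack.S34.G0E2L1

-- ===== PACK-BEGIN S34/K789/Gate.lean
section
/-
Row S34 (helper789): the frozen statement S34, gated on the OPEN inputs only.

Everything which is already on main is discharged here:
* SS (reducedness of the anemic Hecke algebra, Petersson): `Fermat.Agent.S31.H838.ssStatement`;
* CHEB Tier 1, S22, PTS, the S30 top extraction, the S34 top glue, T0 (`A2.T0.H669`).

Remaining hypotheses of `result_of_tower_wall`:
* the six inputs of the S30 skeleton (FIN, SMOOTH, GEQ, UNR, ES, LAT), in unfolded form;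
* `hwall` : the wall A2 in the form `KummerTarget N q m` of `A2/Spec.lean` (row-lead helper13),
  UNFOLDED, for `q ‖ N`, `0 < m`, `q ∤ m`.
The final `Fermat/Agent/S34.lean` is `result_of_tower_wall` applied to the six S30 inputs and to
`Fermat.Agent.A2.kummerTarget_of_parts` (Skel T1) as soon as they are on main.
-/




set_option autoImplicit false

namespace Fermat.Agent.S34.K789

open TensorProduct ModularCurve AlgebraicCurve

/-- The wall A2 (Kummer form of `A2/Spec.lean`, unfolded) gives `A2KummerStatement`. -/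
theorem a2KummerStatement_of_kummerTarget
    (hwall : ∀ (N q m : ℕ), q.Prime → q ∣ N → ¬ q ^ 2 ∣ N → N ≠ 0 → 0 < m → ¬ q ∣ m →
      ∀ P : ValuationSubring (AlgebraicClosure ℚ), P.LiesOverPrime q →
        ∀ τ ∈ P.inertiaSubgroupIn ℚ, ∀ f : modularFunctionFieldBar N, f ≠ 0 →
          (∀ v : Place (AlgebraicClosure ℚ) (modularFunctionFieldBar N), (m : ℤ) ∣ v.ord f) →
          ∃ h : modularFunctionFieldBar N, h ≠ 0 ∧
            arithmeticRingAut (modularFunctionFieldFull N) τ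
                (arithmeticRingAut (modularFunctionFieldFull N) τ f) * f =
              h ^ m * (arithmeticRingAut (modularFunctionFieldFull N) τ f) ^ 2) :
    A2KummerStatement := by
  intro N p q hp hq hqp hqN hq2 P hP σ hσ n
  have hN : N ≠ 0 := by
    rintro rfl
    exact hq2 (dvd_zero _)
  have hqm : ¬ q ∣ p ^ n := by
    intro h
    exact hqp ((Nat.prime_dvd_prime_iff_eq hq hp).1 (hq.dvd_of_dvd_pow h))
  exact Fermat.Agent.A2.T0.H669.a2Kummer_of_kummerTarget N q (p ^ n)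
    (hwall N q (p ^ n) hq hqN hq2 hN (pow_pos hp.pos n) hqm) P hP σ hσ

/-- **The frozen statement S34** (binders as in the template) from the six inputs of the S30
skeleton and the wall A2; SS and all glue are discharged from main. -/
theorem result_of_tower_wall
    (hfin : ∀ (N p : ℕ) [NeZero N], p.Prime →
      Finite {x : ModularCurve.JZero N // (p : ℤ) • x = 0})
    (hsm : ∀ (N p : ℕ) [NeZero N], ∀ x : ModularCurve.JZero N,
      (∃ n : ℕ, ((p : ℤ) ^ n) • x = 0) →
        ∃ L : IntermediateField ℚ (AlgebraicClosure ℚ), FiniteDimensional ℚ L ∧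
          ∀ σ : GQ', (∀ y ∈ L, σ y = y) → σ • x = x)
    (hgeq : ∀ (N : ℕ) [NeZero N] (ℓ : Nat.Primes) (σ : GQ') (x : ModularCurve.JZero N),
      ModularCurve.heckeOperatorBar N ℓ (σ • x) = σ • ModularCurve.heckeOperatorBar N ℓ x)
    (hunr : ∀ (N p : ℕ) [NeZero N], ∀ q : ℕ, q.Prime → ¬ q ∣ N * p →
      ∀ A : ValuationSubring (AlgebraicClosure ℚ), A.LiesOverPrime q →
        ∀ σ ∈ A.inertiaSubgroupIn ℚ, ∀ x : ModularCurve.JZero N,
          (∃ n : ℕ, ((p : ℤ) ^ n) • x = 0) → σ • x = x)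
    (hes : ∀ (N p : ℕ) [NeZero N], ∀ (ℓ : ℕ) (hℓ : ℓ.Prime), ¬ ℓ ∣ N * p →
      ∀ A : ValuationSubring (AlgebraicClosure ℚ), A.LiesOverPrime ℓ →
        ∀ σ : GQ', A.IsFrobeniusAt σ ℓ → ∀ x : ModularCurve.JZero N,
          (∃ n : ℕ, ((p : ℤ) ^ n) • x = 0) →
            σ • σ • x - ModularCurve.heckeOperatorBar N ⟨ℓ, hℓ⟩ (σ • x) + (ℓ : ℤ) • x = 0)
    (hlat : ∀ (N p : ℕ) [NeZero N], p.Prime →
      ∃ (Λ : Type) (_ : AddCommGroup Λ) (_ : Module.Free ℤ Λ) (_ : Module.Finite ℤ Λ)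
        (TΛ : Nat.Primes → Λ →ₗ[ℤ] Λ) (κ : ℕ → Λ →ₗ[ℤ] ModularCurve.JZero N),
        (∀ (n : ℕ) (x : Λ), κ n x = 0 ↔ ∃ y : Λ, x = ((p : ℤ) ^ n) • y) ∧
        (∀ (n : ℕ) (x : Λ), (p : ℤ) • κ (n + 1) x = κ n x) ∧
        (∀ ℓ : Nat.Primes, ¬ (ℓ : ℕ) ∣ N * p → ∀ (n : ℕ) (x : Λ),
          κ n (TΛ ℓ x) = ModularCurve.heckeOperatorBar N ℓ (κ n x)) ∧
        (∀ (S : Set ℕ) (R : Type) [CommRing R] [IsDomain R] [CharZero R]
          (χ : CuspForm.heckeAlgebra N 2 S →+* R),
          ∃ v : R ⊗[ℤ] Λ, v ≠ 0 ∧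
            ∀ (ℓ : ℕ) (hℓ : ℓ.Prime) (hℓN : ¬ ℓ ∣ N) (hℓS : ℓ ∉ S),
              (TΛ ⟨ℓ, hℓ⟩).baseChange R v = χ (CuspForm.heckeAlgebra.T hℓ hℓN hℓS) • v))
    (hwall : ∀ (N q m : ℕ), q.Prime → q ∣ N → ¬ q ^ 2 ∣ N → N ≠ 0 → 0 < m → ¬ q ∣ m →
      ∀ P : ValuationSubring (AlgebraicClosure ℚ), P.LiesOverPrime q →
        ∀ τ ∈ P.inertiaSubgroupIn ℚ, ∀ f : modularFunctionFieldBar N, f ≠ 0 →
          (∀ v : Place (AlgebraicClosure ℚ) (modularFunctionFieldBar N), (m : ℤ) ∣ v.ord f) →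
          ∃ h : modularFunctionFieldBar N, h ≠ 0 ∧
            arithmeticRingAut (modularFunctionFieldFull N) τ
                (arithmeticRingAut (modularFunctionFieldFull N) τ f) * f =
              h ^ m * (arithmeticRingAut (modularFunctionFieldFull N) τ f) ^ 2)
    {𝒪 : Type} [CommRing 𝒪] [IsDomain 𝒪] [IsDiscreteValuationRing 𝒪]
    [IsAdicComplete (IsLocalRing.maximalIdeal 𝒪) 𝒪] [Finite (IsLocalRing.ResidueField 𝒪)]
    [CharZero 𝒪]
    {p : ℕ} (hp : p.Prime) (hp𝒪 : (p : 𝒪) ∈ IsLocalRing.maximalIdeal 𝒪)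
    {N : ℕ} [NeZero N] {S : Finset ℕ} (hpS : p ∈ S) (hNS : ∀ q : ℕ, q.Prime → q ∣ N → q ∈ S)
    {θ : CuspForm.heckeAlgebra N 2 (↑S : Set ℕ) →+* IsLocalRing.ResidueField 𝒪}
    {T : Type} [CommRing T] [IsLocalRing T] [IsNoetherianRing T]
    [IsAdicComplete (IsLocalRing.maximalIdeal T) T] [Algebra 𝒪 T] [IsLocalHom (algebraMap 𝒪 T)]
    [Module.Finite 𝒪 T] [Module.Free 𝒪 T]
    (H : CuspForm.HeckeGaloisRepDatum N (↑S : Set ℕ) 𝒪 θ T)
    (q : ℕ) (hq : q.Prime) (hqp : q ≠ p) (hqN : q ∣ N) (hq2 : ¬ q ^ 2 ∣ N) :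
    H.ρ.IsUnipotentOnInertiaAt q :=
  result_of_inputs hfin hsm hgeq hunr hes hlat (a2KummerStatement_of_kummerTarget hwall)
    Fermat.Agent.S31.H838.ssStatement hp hp𝒪 hpS hNS H q hq hqp hqN hq2

end Fermat.Agent.S34.K789

end
-- ===== PACK-END S34/K789/Gate.lean

-- ===== PACK-BEGIN S34/K789/GateParts.lean
section
/-
Row S34 (helper789): the frozen statement S34 gated on the THREE open interface statements of the
wall A2 (`A2/Spec.lean`, `A2/ModDefs.lean`, row-lead helper13) and the six inputs of the S30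
skeleton.

Discharged here from main: T1 + T2 (`A2.T1.H669.t1`), T0 (`A2.T0.H669`), SS (`S31.H838`), the S30
Tate piece with unipotency transfer, the S34 top glue.

The final `Fermat/Agent/S34.lean` is ONE application of `result_of_tower_parts` to
* the six S30 inputs FIN, SMOOTH, GEQ, UNR, ES, LAT (unfolded helper49 `S30/Defs`), and
* proofs of `A2.AlgSSStatement`, `A2.IFStatement`, `A2.ModSSStatement`.
-/



set_option autoImplicit false

namespace Fermat.Agent.S34.K789

open TensorProduct ModularCurve AlgebraicCurve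

/-- The wall in Kummer form from the three interface statements (T1 of helper669). -/
theorem kummerTarget_of_parts789 (hALG : Fermat.Agent.A2.AlgSSStatement)
    (hIF : Fermat.Agent.A2.IFStatement) (hMOD : Fermat.Agent.A2.ModSSStatement)
    (N q m : ℕ) (hq : q.Prime) (hqN : q ∣ N) (hq2 : ¬ q ^ 2 ∣ N) (hN : N ≠ 0) (hm : 0 < m)
    (hqm : ¬ q ∣ m) : Fermat.Agent.A2.KummerTarget N q m :=
  Fermat.Agent.A2.T1.H669.t1 hALG hIF hMOD N q m hq hqN hq2 hN hm hqm

/-- The wall A2 in Prelude language (`A2.Target`) from the three interface statements. -/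
theorem target_of_parts789 (hALG : Fermat.Agent.A2.AlgSSStatement)
    (hIF : Fermat.Agent.A2.IFStatement) (hMOD : Fermat.Agent.A2.ModSSStatement)
    (N q m : ℕ) (hq : q.Prime) (hqN : q ∣ N) (hq2 : ¬ q ^ 2 ∣ N) (hN : N ≠ 0) (hm : 0 < m)
    (hqm : ¬ q ∣ m) : Fermat.Agent.A2.Target N q m := by
  intro P hP τ hτ x hx
  exact Fermat.Agent.A2.T0.H669.target_of_kummerTarget N q m hm
    (kummerTarget_of_parts789 hALG hIF hMOD N q m hq hqN hq2 hN hm hqm) P hP τ hτ x hx

/-- **The frozen statement S34** (binders as in the template) from the six inputs of the S30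
skeleton and the three interface statements ALG, IF, MOD of the wall A2. -/
theorem result_of_tower_parts
    (hfin : ∀ (N p : ℕ) [NeZero N], p.Prime →
      Finite {x : ModularCurve.JZero N // (p : ℤ) • x = 0})
    (hsm : ∀ (N p : ℕ) [NeZero N], ∀ x : ModularCurve.JZero N,
      (∃ n : ℕ, ((p : ℤ) ^ n) • x = 0) →
        ∃ L : IntermediateField ℚ (AlgebraicClosure ℚ), FiniteDimensional ℚ L ∧
          ∀ σ : GQ', (∀ y ∈ L, σ y = y) → σ • x = x)
    (hgeq : ∀ (N : ℕ) [NeZero N] (ℓ : Nat.Primes) (σ : GQ') (x : ModularCurve.JZero N),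
      ModularCurve.heckeOperatorBar N ℓ (σ • x) = σ • ModularCurve.heckeOperatorBar N ℓ x)
    (hunr : ∀ (N p : ℕ) [NeZero N], ∀ q : ℕ, q.Prime → ¬ q ∣ N * p →
      ∀ A : ValuationSubring (AlgebraicClosure ℚ), A.LiesOverPrime q →
        ∀ σ ∈ A.inertiaSubgroupIn ℚ, ∀ x : ModularCurve.JZero N,
          (∃ n : ℕ, ((p : ℤ) ^ n) • x = 0) → σ • x = x)
    (hes : ∀ (N p : ℕ) [NeZero N], ∀ (ℓ : ℕ) (hℓ : ℓ.Prime), ¬ ℓ ∣ N * p →
      ∀ A : ValuationSubring (AlgebraicClosure ℚ), A.LiesOverPrime ℓ →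
        ∀ σ : GQ', A.IsFrobeniusAt σ ℓ → ∀ x : ModularCurve.JZero N,
          (∃ n : ℕ, ((p : ℤ) ^ n) • x = 0) →
            σ • σ • x - ModularCurve.heckeOperatorBar N ⟨ℓ, hℓ⟩ (σ • x) + (ℓ : ℤ) • x = 0)
    (hlat : ∀ (N p : ℕ) [NeZero N], p.Prime →
      ∃ (Λ : Type) (_ : AddCommGroup Λ) (_ : Module.Free ℤ Λ) (_ : Module.Finite ℤ Λ)
        (TΛ : Nat.Primes → Λ →ₗ[ℤ] Λ) (κ : ℕ → Λ →ₗ[ℤ] ModularCurve.JZero N),
        (∀ (n : ℕ) (x : Λ), κ n x = 0 ↔ ∃ y : Λ, x = ((p : ℤ) ^ n) • y) ∧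
        (∀ (n : ℕ) (x : Λ), (p : ℤ) • κ (n + 1) x = κ n x) ∧
        (∀ ℓ : Nat.Primes, ¬ (ℓ : ℕ) ∣ N * p → ∀ (n : ℕ) (x : Λ),
          κ n (TΛ ℓ x) = ModularCurve.heckeOperatorBar N ℓ (κ n x)) ∧
        (∀ (S : Set ℕ) (R : Type) [CommRing R] [IsDomain R] [CharZero R]
          (χ : CuspForm.heckeAlgebra N 2 S →+* R),
          ∃ v : R ⊗[ℤ] Λ, v ≠ 0 ∧
            ∀ (ℓ : ℕ) (hℓ : ℓ.Prime) (hℓN : ¬ ℓ ∣ N) (hℓS : ℓ ∉ S),
              (TΛ ⟨ℓ, hℓ⟩).baseChange R v = χ (CuspForm.heckeAlgebra.T hℓ hℓN hℓS) • v))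
    (hALG : Fermat.Agent.A2.AlgSSStatement)
    (hIF : Fermat.Agent.A2.IFStatement) (hMOD : Fermat.Agent.A2.ModSSStatement)
    {𝒪 : Type} [CommRing 𝒪] [IsDomain 𝒪] [IsDiscreteValuationRing 𝒪]
    [IsAdicComplete (IsLocalRing.maximalIdeal 𝒪) 𝒪] [Finite (IsLocalRing.ResidueField 𝒪)]
    [CharZero 𝒪]
    {p : ℕ} (hp : p.Prime) (hp𝒪 : (p : 𝒪) ∈ IsLocalRing.maximalIdeal 𝒪)
    {N : ℕ} [NeZero N] {S : Finset ℕ} (hpS : p ∈ S) (hNS : ∀ q : ℕ, q.Prime → q ∣ N → q ∈ S)
    {θ : CuspForm.heckeAlgebra N 2 (↑S : Set ℕ) →+* IsLocalRing.ResidueField 𝒪}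
    {T : Type} [CommRing T] [IsLocalRing T] [IsNoetherianRing T]
    [IsAdicComplete (IsLocalRing.maximalIdeal T) T] [Algebra 𝒪 T] [IsLocalHom (algebraMap 𝒪 T)]
    [Module.Finite 𝒪 T] [Module.Free 𝒪 T]
    (H : CuspForm.HeckeGaloisRepDatum N (↑S : Set ℕ) 𝒪 θ T)
    (q : ℕ) (hq : q.Prime) (hqp : q ≠ p) (hqN : q ∣ N) (hq2 : ¬ q ^ 2 ∣ N) :
    H.ρ.IsUnipotentOnInertiaAt q :=
  result_of_tower_wall hfin hsm hgeq hunr hes hlat
    (fun N q m hq hqN hq2 hN hm hqm =>
      kummerTarget_of_parts789 hALG hIF hMOD N q m hq hqN hq2 hN hm hqm)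
    hp hp𝒪 hpS hNS H q hq hqp hqN hq2

end Fermat.Agent.S34.K789

end
-- ===== PACK-END S34/K789/GateParts.lean

-- ===== PACK-BEGIN S30/H330/AdicTorsionRel.lean
section
/-
S30 -- ADIC MODULE LAYER, input (T) from the interfaces of the S37 row (helper330).

`TorsionRelations N p` (inertia at `ℓ ∤ N p` acts trivially on `J₀(N)(ℚ̄)[p^∞]`, every Frobenius
at `ℓ` satisfies `σ² - T_ℓ σ + ℓ = 0` on it) from each of the interfaces of the S37 row:
* `torsionRelations_of_redData`     : reduction data `H99.RedData`;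
* `torsionRelations_of_pieces`      : [S18] `Core.InjTorsionModL` + [PR] `Core.PlaceRed`;
* `torsionRelations_of_weakRedData` : `Core.WeakRedData` + `Core.PullData` (final interface);
* `torsionRelations_of_rawAll`      : an abstract raw Eichler–Shimura statement on the
  `m`-torsion for all `m` prime to `ℓ`.
The pointwise lemmas of helper98 / helper999 hold for every modulus prime to `ℓ`; they are applied
to the moduli `p ^ n`.
-/




set_option autoImplicit false

noncomputable section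

namespace Fermat.Agent.S30.H330

open Fermat.Agent.S29 ModularCurve ValuationSubring

theorem not_dvd_pow_of_not_dvd_mul {ℓ N p : ℕ} (hℓ : ℓ.Prime) (h : ¬ ℓ ∣ N * p) (n : ℕ) :
    ¬ ℓ ∣ p ^ n := fun hd => h (Dvd.dvd.mul_left (hℓ.dvd_of_dvd_pow hd) N)

/-- The raw Eichler–Shimura statement at the level `N` on the `m`-torsion, for all `m` prime to
the prime `ℓ ∤ N`. -/
def RawESAll (N : ℕ) [NeZero N] : Prop :=
  ∀ (ℓ : ℕ) (hℓ : ℓ.Prime), ¬ ℓ ∣ N → ∀ A : VQ, A.LiesOverPrime ℓ → ∀ m : ℕ, ¬ ℓ ∣ m →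
    (∀ σ ∈ A.inertiaSubgroupIn ℚ, ∀ x : JZero N, m • x = 0 → σ • x = x) ∧
    (∀ σ : GQ, A.IsFrobeniusAt σ ℓ → ∀ x : JZero N, m • x = 0 →
      σ • σ • x - heckeOperatorBar N ⟨ℓ, hℓ⟩ (σ • x) + ℓ • x = 0)

/-- (T) from the raw Eichler–Shimura statement on all prime-to-`ℓ` torsion. -/
theorem torsionRelations_of_rawAll {N : ℕ} [NeZero N] (p : ℕ) (h : RawESAll N) :
    TorsionRelations N p := by
  intro ℓ hℓ hdvd A hA
  have hℓN : ¬ ℓ ∣ N := fun h => hdvd (Dvd.dvd.mul_right h p)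
  refine ⟨fun σ hσ x hx => ?_, fun σ hσ x hx => ?_⟩
  · obtain ⟨n, hn⟩ := hx
    exact (h ℓ hℓ hℓN A hA (p ^ n) (not_dvd_pow_of_not_dvd_mul hℓ hdvd n)).1 σ hσ x hn
  · obtain ⟨n, hn⟩ := hx
    exact (h ℓ hℓ hℓN A hA (p ^ n) (not_dvd_pow_of_not_dvd_mul hℓ hdvd n)).2 σ hσ x hn

/-- Raw Eichler–Shimura on all prime-to-`ℓ` torsion, from reduction data. -/
theorem rawESAll_of_redData {N : ℕ} [NeZero N]
    (H : ∀ (ℓ : ℕ) (hℓ : ℓ.Prime), ¬ ℓ ∣ N →
      ∀ A : ValuationSubring (AlgebraicClosure ℚ), A.LiesOverPrime ℓ →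
        Nonempty (Fermat.Agent.S37.H99.RedData N A ℓ hℓ)) :
    RawESAll N := by
  intro ℓ hℓ hℓN A hA m hm
  obtain ⟨D⟩ := H ℓ hℓ hℓN A hA
  have h := Fermat.Agent.S37.H98.rawES_at_of_redData D m
    (Nat.coprime_comm.mp ((Nat.Prime.coprime_iff_not_dvd hℓ).mpr hm))
  refine ⟨fun σ hσ x hx => h.1 σ hσ x (by rw [natCast_zsmul]; exact hx),
    fun σ hσ x hx => ?_⟩
  have := h.2 σ hσ x (by rw [natCast_zsmul]; exact hx)
  rwa [natCast_zsmul] at this

/-- (T) from reduction data. -/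
theorem torsionRelations_of_redData {N : ℕ} [NeZero N] (p : ℕ)
    (H : ∀ (ℓ : ℕ) (hℓ : ℓ.Prime), ¬ ℓ ∣ N →
      ∀ A : ValuationSubring (AlgebraicClosure ℚ), A.LiesOverPrime ℓ →
        Nonempty (Fermat.Agent.S37.H99.RedData N A ℓ hℓ)) :
    TorsionRelations N p :=
  torsionRelations_of_rawAll p (rawESAll_of_redData H)

open Fermat.Agent.S37.Core in
/-- Raw Eichler–Shimura on all prime-to-`ℓ` torsion, from the pieces [S18] and [PR]. -/
theorem rawESAll_of_pieces {N : ℕ} [NeZero N]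
    (hS18 : ∀ (ℓ : ℕ), ℓ.Prime → ¬ ℓ ∣ N →
      ∀ A : ValuationSubring (AlgebraicClosure ℚ), A.LiesOverPrime ℓ → InjTorsionModL N ℓ A)
    (hPR : ∀ (ℓ : ℕ) (hℓ : ℓ.Prime), ¬ ℓ ∣ N →
      ∀ A : ValuationSubring (AlgebraicClosure ℚ), A.LiesOverPrime ℓ →
        ∀ σ₀ : AlgebraicClosure ℚ ≃ₐ[ℚ] AlgebraicClosure ℚ, A.IsFrobeniusAt σ₀ ℓ →
          haveI : NeZero ℓ := ⟨hℓ.ne_zero⟩; Nonempty (PlaceRed N A ℓ σ₀)) :
    RawESAll N := by
  intro ℓ hℓ hℓN A hA m hm
  refine ⟨fun σ hσ x hx => ?_, fun σ hσ x hx => ?_⟩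
  · obtain ⟨σ₀, hσ₀⟩ := Fermat.Agent.S37.H99.exists_isFrobeniusAt ℓ hℓ A hA
    obtain ⟨D⟩ := hPR ℓ hℓ hℓN A hA σ₀ hσ₀
    exact (Fermat.Agent.S37.H98.rawES_at_of_placeRed hℓ D (hS18 ℓ hℓ hℓN A hA) m hm).1 σ hσ x
      (by rw [natCast_zsmul]; exact hx)
  · obtain ⟨D⟩ := hPR ℓ hℓ hℓN A hA σ hσ
    have := (Fermat.Agent.S37.H98.rawES_at_of_placeRed hℓ D (hS18 ℓ hℓ hℓN A hA) m hm).2 x
      (by rw [natCast_zsmul]; exact hx)
    rwa [natCast_zsmul] at this

open Fermat.Agent.S37.Core in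
/-- (T) from the pieces [S18] and [PR] of the S37 row plan. -/
theorem torsionRelations_of_pieces {N : ℕ} [NeZero N] (p : ℕ)
    (hS18 : ∀ (ℓ : ℕ), ℓ.Prime → ¬ ℓ ∣ N →
      ∀ A : ValuationSubring (AlgebraicClosure ℚ), A.LiesOverPrime ℓ → InjTorsionModL N ℓ A)
    (hPR : ∀ (ℓ : ℕ) (hℓ : ℓ.Prime), ¬ ℓ ∣ N →
      ∀ A : ValuationSubring (AlgebraicClosure ℚ), A.LiesOverPrime ℓ →
        ∀ σ₀ : AlgebraicClosure ℚ ≃ₐ[ℚ] AlgebraicClosure ℚ, A.IsFrobeniusAt σ₀ ℓ →
          haveI : NeZero ℓ := ⟨hℓ.ne_zero⟩; Nonempty (PlaceRed N A ℓ σ₀)) :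
    TorsionRelations N p :=
  torsionRelations_of_rawAll p (rawESAll_of_pieces hS18 hPR)

open Fermat.Agent.S37.Core Fermat.Agent.S37.H99 in
/-- Raw Eichler–Shimura on all prime-to-`ℓ` torsion, from the final interface of the S37 row. -/
theorem rawESAll_of_weakRedData {N : ℕ} [NeZero N]
    (H : ∀ (ℓ : ℕ) (hℓ : ℓ.Prime), ¬ ℓ ∣ N →
      ∀ A : ValuationSubring (AlgebraicClosure ℚ), A.LiesOverPrime ℓ →
        ∀ σ₀ : AlgebraicClosure ℚ ≃ₐ[ℚ] AlgebraicClosure ℚ, A.IsFrobeniusAt σ₀ ℓ →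
          haveI : NeZero ℓ := ⟨hℓ.ne_zero⟩
          ∃ (M : ℕ) (_ : NeZero M), Nonempty (WeakRedData M A ℓ σ₀) ∧
            Nonempty (PullData N M ℓ)) :
    RawESAll N := by
  intro ℓ hℓ hℓN A hA m hm
  have : NeZero ℓ := ⟨hℓ.ne_zero⟩
  refine ⟨fun σ hσ x hx => ?_, fun σ hσ x hx => ?_⟩
  · obtain ⟨σ₀, hσ₀⟩ := exists_isFrobeniusAt ℓ hℓ A hA
    obtain ⟨M, hM, ⟨W⟩, ⟨Pd⟩⟩ := H ℓ hℓ hℓN A hA σ₀ hσ₀
    exact Fermat.Agent.S37.H999.inertia_smul_eq_of_weakRedData W Pd hm hσ hx
  · obtain ⟨M, hM, ⟨W⟩, ⟨Pd⟩⟩ := H ℓ hℓ hℓN A hA σ hσ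
    exact Fermat.Agent.S37.H999.frobenius_relation_of_weakRedData W Pd hm hx

open Fermat.Agent.S37.Core in
/-- (T) from the final interface of the S37 row. -/
theorem torsionRelations_of_weakRedData {N : ℕ} [NeZero N] (p : ℕ)
    (H : ∀ (ℓ : ℕ) (hℓ : ℓ.Prime), ¬ ℓ ∣ N →
      ∀ A : ValuationSubring (AlgebraicClosure ℚ), A.LiesOverPrime ℓ →
        ∀ σ₀ : AlgebraicClosure ℚ ≃ₐ[ℚ] AlgebraicClosure ℚ, A.IsFrobeniusAt σ₀ ℓ →
          haveI : NeZero ℓ := ⟨hℓ.ne_zero⟩
          ∃ (M : ℕ) (_ : NeZero M), Nonempty (WeakRedData M A ℓ σ₀) ∧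
            Nonempty (PullData N M ℓ)) :
    TorsionRelations N p :=
  torsionRelations_of_rawAll p (rawESAll_of_weakRedData H)

end Fermat.Agent.S30.H330

end
end
-- ===== PACK-END S30/H330/AdicTorsionRel.lean

-- ===== PACK-BEGIN S37/H819/Gamma.lean
section


/-!
# S37 / NORM (helper819) — matrix lemmas for the cosets of `Γ₀(Nℓ)` in `Γ₀(N)`

For a prime `ℓ ∤ N` and `h ∈ Γ₀(N)`:
* either `ℓ ∣ h₁₀` (then `h ∈ Γ₀(Nℓ)`), or there is `b` with `ℓ ∣ h₁₁ - b h₁₀`;
* in the second case `diag(dℓ,1)·h = γ'·[[d, d b],[0, ℓ]]` for every `d ∣ N`, i.e.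
  `j(dℓ·hτ) = j(d(τ+b)/ℓ)`;
* every residue `b` occurs.
-/

set_option autoImplicit false

noncomputable section

open UpperHalfPlane
open scoped MatrixGroups

namespace Fermat.Agent.S37.H819

open Fermat.Agent.S24 Fermat.Agent.S24.H997

theorem gamma0_mem_iff_dvd (N : ℕ) (g : SL(2, ℤ)) :
    g ∈ CongruenceSubgroup.Gamma0 N ↔ (N : ℤ) ∣ g 1 0 := by
  rw [CongruenceSubgroup.Gamma0_mem, ZMod.intCast_zmod_eq_zero_iff_dvd]

/-- If `ℓ ∣ h₁₀` and `h ∈ Γ₀(N)` with `gcd(N,ℓ) = 1`, then `h ∈ Γ₀(Nℓ)`. -/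
theorem mem_gamma0_mul {N ℓ : ℕ} (hcop : Nat.Coprime N ℓ) {h : SL(2, ℤ)}
    (hN : h ∈ CongruenceSubgroup.Gamma0 N) (hℓ : (ℓ : ℤ) ∣ h 1 0) :
    h ∈ CongruenceSubgroup.Gamma0 (N * ℓ) := by
  rw [gamma0_mem_iff_dvd] at hN ⊢
  have hc : IsCoprime (N : ℤ) (ℓ : ℤ) := Nat.isCoprime_iff_coprime.mpr hcop
  push_cast
  exact hc.mul_dvd hN hℓ

/-- For `ℓ` prime, either `ℓ ∣ h₁₀` or `h₁₁ ≡ b h₁₀ mod ℓ` for some `b`. -/
theorem dvd_or_exists_b {ℓ : ℕ} (hℓ : ℓ.Prime) (h : SL(2, ℤ)) :
    (ℓ : ℤ) ∣ h 1 0 ∨ ∃ b : ℤ, (ℓ : ℤ) ∣ h 1 1 - b * h 1 0 := by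
  by_cases hd : (ℓ : ℤ) ∣ h 1 0
  · exact Or.inl hd
  · right
    have hp : Prime (ℓ : ℤ) := Nat.prime_iff_prime_int.mp hℓ
    have hc : IsCoprime (ℓ : ℤ) (h 1 0) := (Prime.coprime_iff_not_dvd hp).mpr hd
    obtain ⟨s, t, hst⟩ := hc
    refine ⟨h 1 1 * t, ⟨h 1 1 * s, ?_⟩⟩
    linear_combination (-(h 1 1)) * hst

/-- `ℓ ∣ h₁₁ - b h₁₀` excludes `ℓ ∣ h₁₀`. -/
theorem not_dvd_of_twist {ℓ : ℕ} (hℓ : ℓ.Prime) {h : SL(2, ℤ)} {b : ℤ}
    (hb : (ℓ : ℤ) ∣ h 1 1 - b * h 1 0) : ¬ (ℓ : ℤ) ∣ h 1 0 := by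
  intro hd
  have h11 : (ℓ : ℤ) ∣ h 1 1 := by
    have := dvd_add hb (Dvd.dvd.mul_left hd b)
    simpa using this
  have hdet := inf_sl_det h
  have h1 : (ℓ : ℤ) ∣ 1 := by
    rw [← hdet]
    exact dvd_sub (Dvd.dvd.mul_left h11 _) (Dvd.dvd.mul_left hd _)
  have hp : Prime (ℓ : ℤ) := Nat.prime_iff_prime_int.mp hℓ
  exact hp.not_dvd_one h1

/-- The Hermite normal form `diag(dℓ,1)·h = γ'·[[d, d b],[0, ℓ]]`. -/
theorem exists_hnf_twist (d ℓ : ℕ) (b : ℤ) (h : SL(2, ℤ)) (hd : (d : ℤ) ∣ h 1 0)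
    (hb : (ℓ : ℤ) ∣ h 1 1 - b * h 1 0) :
    ∃ γ' : SL(2, ℤ), ((d * ℓ : ℕ) : ℤ) * h 0 0 = γ' 0 0 * (d : ℕ) ∧
      ((d * ℓ : ℕ) : ℤ) * h 0 1 = γ' 0 0 * ((d : ℤ) * b) + γ' 0 1 * (ℓ : ℕ) ∧
      h 1 0 = γ' 1 0 * (d : ℕ) ∧ h 1 1 = γ' 1 0 * ((d : ℤ) * b) + γ' 1 1 * (ℓ : ℕ) := by
  obtain ⟨c, hc⟩ := hd
  obtain ⟨e, he⟩ := hb
  have hdet := inf_sl_det h
  refine ⟨⟨!![(ℓ : ℤ) * h 0 0, (d : ℤ) * h 0 1 - (d : ℤ) * b * h 0 0; c, e], ?_⟩, ?_, ?_, ?_, ?_⟩
  · rw [Matrix.det_fin_two_of]
    have h11 : h 1 1 = (ℓ : ℤ) * e + b * h 1 0 := by linarith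
    rw [h11, hc] at hdet
    linear_combination hdet
  · simp; ring
  · simp; ring
  · simp [hc]; ring
  · simp
    have h11 : h 1 1 = (ℓ : ℤ) * e + b * h 1 0 := by linarith
    rw [h11, hc]; ring

/-- Every residue class `b` is realised by some `h ∈ Γ₀(N)`. -/
theorem exists_rep {N ℓ : ℕ} (hcop : Nat.Coprime N ℓ) (b : ℤ) :
    ∃ h : SL(2, ℤ), h ∈ CongruenceSubgroup.Gamma0 N ∧ (ℓ : ℤ) ∣ h 1 1 - b * h 1 0 := by
  have hc : IsCoprime (b * N + ℓ : ℤ) (N : ℤ) := by
    have h0 : IsCoprime (ℓ : ℤ) (N : ℤ) := (Nat.isCoprime_iff_coprime.mpr hcop).symm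
    have := h0.add_mul_right_left b
    simpa [add_comm] using this
  obtain ⟨s, t, hst⟩ := hc
  have hdet : (!![s, -t; (N : ℤ), b * N + ℓ] : Matrix (Fin 2) (Fin 2) ℤ).det = 1 := by
    rw [Matrix.det_fin_two_of]
    linear_combination hst
  let g : SL(2, ℤ) := ⟨!![s, -t; (N : ℤ), b * N + ℓ], hdet⟩
  have g10 : g 1 0 = (N : ℤ) := by simp [g]
  have g11 : g 1 1 = b * N + ℓ := by simp [g]
  refine ⟨g, ?_, ?_⟩
  · rw [gamma0_mem_iff_dvd, g10]
  · rw [g10, g11]
    exact ⟨1, by ring⟩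

end Fermat.Agent.S37.H819

end
end
-- ===== PACK-END S37/H819/Gamma.lean

-- ===== PACK-BEGIN S37/H819/Emb.lean
section




/-!
# S37 / NORM (helper819) — the embeddings `σ_g` of `ℚ̄(X₀(Nℓ))` for `g ∈ Γ₀(N)`

`M = N ℓ`, `σ_g := sigmaG (holBase M) qexp g : FF M →+* ℂ((z))`, `z = q^{1/M}`
(S24, helper997).  For `h ∈ Γ₀(N)`:
* `σ_{h⁻¹} ∘ α = Φ_M` on `FF N`                                  (`sig_alpha`)
* `σ_{h⁻¹} ∘ β = (y ↦ y(ζ^b q^{1/ℓ}))` if `ℓ ∣ h₁₁ - b h₁₀`       (`sig_beta`)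
* `σ_1 = Φ_M`                                                      (`sig_one`)
where `α, β : FF N → FF M` are the Prelude degeneracy maps `heckeAlphaBar`, `heckeBetaBar`.
-/

set_option autoImplicit false

noncomputable section

open ModularCurve HahnSeries UpperHalfPlane AlgebraicCurve
open scoped MatrixGroups

namespace Fermat.Agent.S37.H819

open Fermat.Agent.S24 Fermat.Agent.S24.H997

/-! ### Formal lemmas on `infTwist`, `qExpand`, `coeffMap` -/

section Formal

variable {R : Type*} [CommRing R]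

theorem infTwist_qExpand (u : Rˣ) (d : ℕ) [NeZero d] (x : LaurentSeries R) :
    infTwist u (qExpand R d x) = qExpand R d (infTwist (u ^ d) x) := by
  ext k
  rw [infTwist_coeff]
  by_cases hk : (d : ℤ) ∣ k
  · obtain ⟨m, rfl⟩ := hk
    rw [qExpand_coeff_mul, qExpand_coeff_mul, infTwist_coeff]
    congr 2
    rw [zpow_mul, zpow_natCast]
  · rw [qExpand_coeff_of_not_dvd d _ hk, qExpand_coeff_of_not_dvd d _ hk, zero_mul]

theorem coeffMap_infTwist {S : Type*} [CommRing S] (f : R →+* S) (u : Rˣ)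
    (x : LaurentSeries R) :
    coeffMap f (infTwist u x) = infTwist (Units.map (f : R →* S) u) (coeffMap f x) := by
  ext k
  rw [coeffMap_coeff, infTwist_coeff, infTwist_coeff, coeffMap_coeff, map_mul]
  congr 1
  rw [← map_zpow]
  rfl

theorem coeffMap_C' {S : Type*} [CommRing S] (f : R →+* S) (r : R) :
    coeffMap f (HahnSeries.C r) = HahnSeries.C (f r) := by
  rw [C_apply, coeffMap_single, C_apply]

end Formal

theorem coeffMap_ιK_coeffEmb (s : LaurentSeries ℚ) :
    coeffMap ιK (coeffEmb Kbar s) = coeffEmb ℂ s := by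
  rw [coeffEmb, coeffMap_coeffMap, coeffEmb]
  refine coeffMap_congr (RingHom.ext fun c => ?_) s
  rw [RingHom.comp_apply, ιK_algebraMap]
  simp

theorem infRoot_pow (b : ℤ) (n d : ℕ) : (infRoot b n) ^ d = infRoot ((d : ℤ) * b) n := by
  apply Units.ext
  rw [Units.val_pow_eq_pow_val, infRoot_coe, infRoot_coe, ← Complex.exp_nat_mul]
  congr 1
  push_cast
  ring

/-- the expansion of `j(d(τ+b)/ℓ)` is `j_d(ζ^b q^{1/ℓ})`, in the variable `z = q^{1/(Nℓ)}` -/
theorem infGenExp_eq_twist (N ℓ d : ℕ) [NeZero N] [NeZero d] (b : ℤ) :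
    haveI : NeZero (d * N) := ⟨Nat.mul_ne_zero (NeZero.ne d) (NeZero.ne N)⟩
    infGenExp (d * N) ((d : ℤ) * b) ℓ
      = qExpand ℂ N (infTwist (infRoot b ℓ) (coeffMap ιK (coeffEmb Kbar (qExpand ℚ d jq)))) := by
  have : NeZero (d * N) := ⟨Nat.mul_ne_zero (NeZero.ne d) (NeZero.ne N)⟩
  rw [coeffMap_ιK_coeffEmb, coeffEmb, coeffMap_qExpand, infTwist_qExpand, qExpand_qExpand,
    infRoot_pow, infGenExp]
  have : coeffMap (algebraMap ℚ ℂ) jq = infJq := rfl
  rw [this]
  exact qExpand_congr (Nat.mul_comm d N) _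

variable (N ℓ : ℕ) [NeZero N] [NeZero ℓ]

/-- the embedding `σ_g` at level `N ℓ` -/
def sig (g : SL(2, ℤ)) : FF (N * ℓ) →+* LaurentSeries ℂ :=
  (holBase (N * ℓ)).sigmaG (holBase (N * ℓ)).qexpExpansion g

theorem sig_inclRN (g : SL(2, ℤ)) (r : RN (N * ℓ)) :
    sig N ℓ g (inclRN (N * ℓ) r)
      = (holBase (N * ℓ)).qexp ((holBase (N * ℓ)).compH g⁻¹ ((holBase (N * ℓ)).bridge r)) :=
  (holBase (N * ℓ)).sigmaG_inclRN _ g r

theorem sig_algebraMap (g : SL(2, ℤ)) (c : Kbar) :
    sig N ℓ g (algebraMap Kbar (FF (N * ℓ)) c) = HahnSeries.C (ιK c) :=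
  (holBase (N * ℓ)).sigmaG_algebraMap _ g c

/-- the value of `qexp` from a convergent expansion -/
theorem qexp_eq_of_infExp {M : ℕ} [NeZero M] (h : (holBase M).Hol) {φ : LaurentSeries ℂ}
    (hφ : InfExp M (h : ℍ → ℂ) φ) : (holBase M).qexp h = φ :=
  (expInf_spec (holToExp M h)).unique hφ

/-- `σ_1` is the formal comparison map `Φ_M`. -/
theorem sig_one (x : FF (N * ℓ)) :
    sig N ℓ 1 x = HolBase.Φ (N * ℓ) (x : LaurentSeries Kbar) := by
  obtain ⟨r, t, -, rfl⟩ := exists_div_inclRN (N * ℓ) x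
  rw [map_div₀, sig_inclRN, sig_inclRN, inv_one, HolBase.compH_one, HolBase.compH_one,
    HolBase.qexp_bridge, HolBase.qexp_bridge]
  rw [IntermediateField.coe_div, map_div₀]
  rfl

/-- Two ring homs out of `FF N` into a field agree if they agree on constants and on the
generators `j(q^d)`, `d ∣ N`. -/
theorem ringHom_ext_FF {E : Type*} [Field E] (f g : FF N →+* E)
    (hc : ∀ c : Kbar, f (algebraMap Kbar (FF N) c) = g (algebraMap Kbar (FF N) c))
    (hgen : ∀ (d : ℕ) [NeZero d] (hd : d ∣ N),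
      f (inclRN N (jR N d hd)) = g (inclRN N (jR N d hd))) : f = g := by
  let f' : RN N →+* E := f.comp (inclRN N).toRingHom
  let g' : RN N →+* E := g.comp (inclRN N).toRingHom
  have key' : ∀ r : RN N, f' r = g' r := by
    rintro ⟨r, hr⟩
    induction hr using Algebra.adjoin_induction with
    | mem x hx =>
        obtain ⟨y, ⟨d, hne, hd, rfl⟩, rfl⟩ := hx
        have : (⟨coeffEmb Kbar (qExpand ℚ d jq), Algebra.subset_adjoin
            ⟨_, ⟨d, hne, hd, rfl⟩, rfl⟩⟩ : RN N) = jR N d hd := rfl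
        rw [this]
        exact hgen d hd
    | algebraMap c =>
        have : (⟨algebraMap Kbar (LaurentSeries Kbar) c, Subalgebra.algebraMap_mem _ c⟩ : RN N)
            = algebraMap Kbar (RN N) c := rfl
        rw [this]
        show f (inclRN N (algebraMap Kbar (RN N) c)) = g (inclRN N (algebraMap Kbar (RN N) c))
        have e : inclRN N (algebraMap Kbar (RN N) c) = algebraMap Kbar (FF N) c := rfl
        rw [e]
        exact hc c
    | add x y hx hy ihx ihy =>
        have : (⟨x + y, add_mem hx hy⟩ : RN N) = ⟨x, hx⟩ + ⟨y, hy⟩ := rfl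
        rw [this, map_add, map_add, ihx, ihy]
    | mul x y hx hy ihx ihy =>
        have : (⟨x * y, mul_mem hx hy⟩ : RN N) = ⟨x, hx⟩ * ⟨y, hy⟩ := rfl
        rw [this, map_mul, map_mul, ihx, ihy]
  have key : ∀ r : RN N, f (inclRN N r) = g (inclRN N r) := key'
  ext x
  obtain ⟨r, t, -, rfl⟩ := exists_div_inclRN N x
  rw [map_div₀, map_div₀, key, key]

/-- the coercion `FF N → ℚ̄((q))` as a ring hom -/
def coeHom : FF N →+* LaurentSeries Kbar where
  toFun x := (x : LaurentSeries Kbar)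
  map_one' := rfl
  map_mul' _ _ := rfl
  map_zero' := rfl
  map_add' _ _ := rfl

@[simp] theorem coeHom_apply (x : FF N) : coeHom N x = (x : LaurentSeries Kbar) := rfl

theorem coe_inclRN_jR (d : ℕ) [NeZero d] (hd : d ∣ N) :
    ((inclRN N (jR N d hd) : FF N) : LaurentSeries Kbar) = coeffEmb Kbar (qExpand ℚ d jq) := rfl

theorem coe_algebraMap_FF (c : Kbar) :
    ((algebraMap Kbar (FF N) c : FF N) : LaurentSeries Kbar)
      = algebraMap Kbar (LaurentSeries Kbar) c := rfl

theorem alpha_inclRN_jR (d : ℕ) [NeZero d] (hd : d ∣ N) (hd' : d ∣ N * ℓ) :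
    heckeAlphaBar Kbar N ℓ (inclRN N (jR N d hd)) = inclRN (N * ℓ) (jR (N * ℓ) d hd') := by
  apply Subtype.ext
  rw [coe_heckeAlphaBar, coe_inclRN_jR, coe_inclRN_jR]

theorem beta_inclRN_jR (d : ℕ) [NeZero d] (hd : d ∣ N) [NeZero (d * ℓ)]
    (hdℓ : d * ℓ ∣ N * ℓ) :
    heckeBetaBar Kbar N ℓ (inclRN N (jR N d hd)) = inclRN (N * ℓ) (jR (N * ℓ) (d * ℓ) hdℓ) := by
  apply Subtype.ext
  rw [coe_heckeBetaBar, coe_inclRN_jR, coe_inclRN_jR, coeffEmb, ← coeffMap_qExpand,
    qExpand_qExpand]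
  congr 1
  exact qExpand_congr (Nat.mul_comm ℓ d) _

theorem compH_JH_of_mem_gamma0 {h : SL(2, ℤ)} (hh : h ∈ CongruenceSubgroup.Gamma0 N)
    (d : ℕ) (hd : d ∣ N) (hd' : d ∣ N * ℓ) :
    (holBase (N * ℓ)).compH h ((holBase (N * ℓ)).JH d hd') = (holBase (N * ℓ)).JH d hd' := by
  apply Subtype.ext
  funext τ
  exact Jd_inv N d hd h hh τ

/-- For `h ∈ Γ₀(N)` the embedding `σ_{h⁻¹}` restricts to `Φ_M` on `α(FF N)`. -/
theorem sig_alpha {h : SL(2, ℤ)} (hh : h ∈ CongruenceSubgroup.Gamma0 N) (y : FF N) :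
    sig N ℓ h⁻¹ (heckeAlphaBar Kbar N ℓ y) = HolBase.Φ (N * ℓ) (y : LaurentSeries Kbar) := by
  have key := ringHom_ext_FF N ((sig N ℓ h⁻¹).comp (heckeAlphaBar Kbar N ℓ).toRingHom)
    ((HolBase.Φ (N * ℓ)).comp (coeHom N)) ?_ ?_
  · exact RingHom.congr_fun key y
  · intro c
    rw [RingHom.comp_apply, RingHom.comp_apply, coeHom_apply, coe_algebraMap_FF,
      HolBase.Φ_algebraMap]
    have e : (heckeAlphaBar Kbar N ℓ).toRingHom (algebraMap Kbar (FF N) c)
        = algebraMap Kbar (FF (N * ℓ)) c := (heckeAlphaBar Kbar N ℓ).commutes c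
    rw [e, sig_algebraMap]
  · intro d _ hd
    have hd' : d ∣ N * ℓ := Dvd.dvd.mul_right hd ℓ
    rw [RingHom.comp_apply, RingHom.comp_apply, coeHom_apply, coe_inclRN_jR]
    have e : (heckeAlphaBar Kbar N ℓ).toRingHom (inclRN N (jR N d hd))
        = inclRN (N * ℓ) (jR (N * ℓ) d hd') := alpha_inclRN_jR N ℓ d hd hd'
    rw [e, sig_inclRN, HolBase.bridge_jR, inv_inv, (holBase (N * ℓ)).Φ_gen d hd',
      compH_JH_of_mem_gamma0 N ℓ hh d hd hd']

/-- For `h ∈ Γ₀(N)` with `h₁₁ ≡ b h₁₀ mod ℓ`, the embedding `σ_{h⁻¹}` is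
`y ↦ y(ζ_ℓ^b q^{1/ℓ})` on `β(FF N)`. -/
theorem sig_beta {h : SL(2, ℤ)} (hh : h ∈ CongruenceSubgroup.Gamma0 N) {b : ℤ}
    (hb : (ℓ : ℤ) ∣ h 1 1 - b * h 1 0) (y : FF N) :
    sig N ℓ h⁻¹ (heckeBetaBar Kbar N ℓ y)
      = qExpand ℂ N (infTwist (infRoot b ℓ) (coeffMap ιK (y : LaurentSeries Kbar))) := by
  have key := ringHom_ext_FF N ((sig N ℓ h⁻¹).comp (heckeBetaBar Kbar N ℓ).toRingHom)
    (((qExpand ℂ N).comp (infTwist (infRoot b ℓ))).comp ((coeffMap ιK).comp (coeHom N))) ?_ ?_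
  · exact RingHom.congr_fun key y
  · intro c
    rw [RingHom.comp_apply, RingHom.comp_apply, RingHom.comp_apply, RingHom.comp_apply,
      coeHom_apply, coe_algebraMap_FF]
    have e : (heckeBetaBar Kbar N ℓ).toRingHom (algebraMap Kbar (FF N) c)
        = algebraMap Kbar (FF (N * ℓ)) c := (heckeBetaBar Kbar N ℓ).commutes c
    rw [e, sig_algebraMap, algebraMap_laurentSeries_eq_single, coeffMap_single,
      infTwist_single, qExpand_single]
    simp [HahnSeries.C_apply]
  · intro d _ hd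
    have hN0 : 0 < N := Nat.pos_of_ne_zero (NeZero.ne N)
    have hℓ0 : 0 < ℓ := Nat.pos_of_ne_zero (NeZero.ne ℓ)
    have hd0 : 0 < d := Nat.pos_of_dvd_of_pos hd hN0
    have hdℓ : d * ℓ ∣ N * ℓ := Nat.mul_dvd_mul_right hd ℓ
    haveI hne1 : NeZero (d * ℓ) := ⟨Nat.mul_ne_zero (NeZero.ne d) (NeZero.ne ℓ)⟩
    haveI hne2 : NeZero (d * N) := ⟨Nat.mul_ne_zero (NeZero.ne d) (NeZero.ne N)⟩
    rw [RingHom.comp_apply, RingHom.comp_apply, RingHom.comp_apply, RingHom.comp_apply,
      coeHom_apply, coe_inclRN_jR]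
    have e : (heckeBetaBar Kbar N ℓ).toRingHom (inclRN N (jR N d hd))
        = inclRN (N * ℓ) (jR (N * ℓ) (d * ℓ) hdℓ) := beta_inclRN_jR N ℓ d hd hdℓ
    rw [e, sig_inclRN, HolBase.bridge_jR, inv_inv, ← infGenExp_eq_twist N ℓ d b]
    have hdvd : ((d : ℕ) : ℤ) ∣ h 1 0 := by
      rw [gamma0_mem_iff_dvd] at hh
      exact dvd_trans (by exact_mod_cast hd) hh
    obtain ⟨γ', h00, h01, h10, h11⟩ := exists_hnf_twist d ℓ b h hdvd hb
    have hexp : InfExp (N * ℓ) (fun τ => Fermat.Agent.S20.L1.jFun (infAff d ((d : ℤ) * b) ℓ τ))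
        (infGenExp (d * N) ((d : ℤ) * b) ℓ) :=
      inf_J_infAff_exp infExp_jFun (e := d * N) (N := N * ℓ) ((d : ℤ) * b) hd0 hℓ0
        (Nat.mul_pos hN0 hℓ0) (by ring)
    refine qexp_eq_of_infExp _ (hexp.congr fun τ => ?_)
    have hJ : (((holBase (N * ℓ)).compH h ((holBase (N * ℓ)).JH (d * ℓ) hdℓ) :
        (holBase (N * ℓ)).Hol) : ℍ → ℂ) τ = Jd (d * ℓ) (h • τ) := rfl
    rw [hJ]
    unfold Jd
    rw [inf_aff_smul_eq (Nat.mul_pos hd0 hℓ0) hd0 hℓ0 h γ' h00 h01 h10 h11 τ, jFun_smul']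

end Fermat.Agent.S37.H819

end
end
-- ===== PACK-END S37/H819/Emb.lean

-- ===== PACK-BEGIN S29/H282/FracK.lean
section


/-!
# S29 / M4b-K2 (helper282) — the function field of `X₀(N)` over an arbitrary field `K ⊇ ℚ`

Port of `Fermat/Agent/S24/Mod/H997Frac.lean` from `ℚ̄` to an arbitrary field `K` of
characteristic zero:

* `FFK K N`    : the function field `laurentBaseChange K (modularFunctionFieldFull N)`;
* `RNK K N`    : the `K`-subalgebra of `K((q))` generated by the `j(q^d)`, `d ∣ N`;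
* `inclRNK`    : the inclusion `RNK K N → FFK K N`;
* `liftFK`     : every injective ring hom `RNK K N →+* L` into a field extends to `FFK K N`.
-/

set_option autoImplicit false

noncomputable section

open ModularCurve HahnSeries IntermediateField

namespace Fermat.Agent.S29.H282

open Fermat.Agent.S24 Fermat.Agent.S24.Deg457

variable (K : Type*) [Field K] [Algebra ℚ K] (N : ℕ)

/-- The function field of `X₀(N)` over `K` (as a type). -/
abbrev FFK : Type _ := ↥(laurentBaseChange K (modularFunctionFieldFull N))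

/-- The function field of `X₀(N)` over `K` is generated over `K` by the `j(q^d)`, `d ∣ N`. -/
theorem ffK_eq_adjoin :
    laurentBaseChange K (modularFunctionFieldFull N) = IntermediateField.adjoin K (gens K N) := by
  apply le_antisymm
  · exact laurentBaseChange_full_le N
  · rw [laurentBaseChange]
    exact IntermediateField.adjoin.mono _ _ _
      (Set.image_mono (IntermediateField.subset_adjoin ℚ _))

/-- The polynomial ring `K[j(q^d) : d ∣ N] ⊆ K((q))`. -/
abbrev RNK : Subalgebra K (LaurentSeries K) := AK K N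

theorem RNK_le : RNK K N ≤ (laurentBaseChange K (modularFunctionFieldFull N)).toSubalgebra := by
  rw [ffK_eq_adjoin]
  exact IntermediateField.algebra_adjoin_le_adjoin K (gens K N)

/-- The inclusion `R_N → FFK K N`. -/
def inclRNK : RNK K N →ₐ[K] FFK K N := Subalgebra.inclusion (RNK_le K N)

@[simp] theorem coe_inclRNK (r : RNK K N) :
    ((inclRNK K N r : FFK K N) : LaurentSeries K) = r := rfl

theorem inclRNK_injective : Function.Injective (inclRNK K N) :=
  Subalgebra.inclusion_injective (RNK_le K N)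

theorem exists_div_inclRNK (f : FFK K N) :
    ∃ r t : RNK K N, t ≠ 0 ∧ f = inclRNK K N r / inclRNK K N t := by
  have hf : (f : LaurentSeries K) ∈ IntermediateField.adjoin K (gens K N) := by
    rw [← ffK_eq_adjoin]; exact f.2
  obtain ⟨r, hr, s, hs, h⟩ := IntermediateField.mem_adjoin_iff_div.mp hf
  by_cases hs0 : s = 0
  · refine ⟨0, 1, one_ne_zero, ?_⟩
    apply Subtype.ext
    rw [h, hs0, div_zero]
    simp
  · refine ⟨⟨r, hr⟩, ⟨s, hs⟩, fun h0 => hs0 (congrArg Subtype.val h0), ?_⟩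
    apply Subtype.ext
    rw [h]
    simp

/-- The generator `j(q^d)` as an element of `R_N`. -/
def jRK (d : ℕ) [NeZero d] (hd : d ∣ N) : RNK K N :=
  ⟨coeffEmb K (qExpand ℚ d jq),
    Algebra.subset_adjoin ⟨_, mem_divisorExpansions N hd, rfl⟩⟩

/-- The `j`-function as an element of the function field of `X₀(N)` over `K`. -/
def jFK [NeZero N] : FFK K N :=
  ⟨coeffEmb K jq,
    coeffEmb_mem_laurentBaseChange K (modularFunctionField_le_full N (jq_mem N))⟩

theorem inclRNK_jRK_one [NeZero N] : inclRNK K N (jRK K N 1 (one_dvd N)) = jFK K N := by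
  apply Subtype.ext
  simp [jRK, jFK, qExpand_one_apply]

theorem jFK_Kbar [NeZero N] : jFK Kbar N = jF N := rfl

section Lift

variable {K N}
variable {L : Type*} [Field L]

/-- Extension of an injective ring hom `R_N →+* L` to the fraction field `FFK K N`. -/
def liftFK (s : RNK K N →+* L) (hs : Function.Injective s) : FFK K N →+* L :=
  letI : Algebra (RNK K N) (FFK K N) := (inclRNK K N).toRingHom.toAlgebra
  haveI : FaithfulSMul (RNK K N) (FFK K N) :=
    (faithfulSMul_iff_algebraMap_injective _ _).mpr (inclRNK_injective K N)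
  haveI : IsFractionRing (RNK K N) (FFK K N) :=
    IsFractionRing.of_field _ _ fun z => by
      obtain ⟨r, t, -, h⟩ := exists_div_inclRNK K N z
      exact ⟨r, t, h⟩
  IsFractionRing.lift hs

theorem liftFK_inclRNK (s : RNK K N →+* L) (hs : Function.Injective s) (r : RNK K N) :
    liftFK s hs (inclRNK K N r) = s r := by
  let _ : Algebra (RNK K N) (FFK K N) := (inclRNK K N).toRingHom.toAlgebra
  have : FaithfulSMul (RNK K N) (FFK K N) :=
    (faithfulSMul_iff_algebraMap_injective _ _).mpr (inclRNK_injective K N)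
  have : IsFractionRing (RNK K N) (FFK K N) :=
    IsFractionRing.of_field _ _ fun z => by
      obtain ⟨r, t, -, h⟩ := exists_div_inclRNK K N z
      exact ⟨r, t, h⟩
  exact IsFractionRing.lift_algebraMap hs r

theorem liftFK_div (s : RNK K N →+* L) (hs : Function.Injective s) (r t : RNK K N) :
    liftFK s hs (inclRNK K N r / inclRNK K N t) = s r / s t := by
  rw [map_div₀, liftFK_inclRNK, liftFK_inclRNK]

theorem liftFK_algebraMap (s : RNK K N →+* L) (hs : Function.Injective s) (c : K) :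
    liftFK s hs (algebraMap K (FFK K N) c) = s (algebraMap K (RNK K N) c) := by
  rw [← liftFK_inclRNK s hs]
  congr 1

end Lift

end Fermat.Agent.S29.H282

end
end
-- ===== PACK-END S29/H282/FracK.lean

-- ===== PACK-BEGIN S29/H282/BridgeK.lean
section


/-!
# S29 / M4b-K2 (helper282) — the bridge `R_N(K) → Hol` for an arbitrary coefficient field `K ⊆ ℂ`

Port of the second half of `Fermat/Agent/S24/Mod/H997Bridge.lean` from `(ℚ̄, ιK)` to an arbitrary
field `K` with a ring hom `ι : K →+* ℂ`.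
-/

set_option autoImplicit false

noncomputable section

open ModularCurve HahnSeries UpperHalfPlane
open scoped MatrixGroups

namespace Fermat.Agent.S29.H282

open Fermat.Agent.S24 Fermat.Agent.S24.H997 Fermat.Agent.S24.Deg457

variable {K : Type*} [Field K] [Algebra ℚ K] (ι : K →+* ℂ)
variable {N : ℕ} [NeZero N] (B : HolBase N)

theorem ι_algebraMap (c : ℚ) : ι (algebraMap ℚ K c) = (c : ℂ) := by
  have h : ι.comp (algebraMap ℚ K) = algebraMap ℚ ℂ := Subsingleton.elim _ _
  have := congrArg (fun f : ℚ →+* ℂ => f c) h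
  simpa using this

/-- The formal comparison map `K((q)) → ℂ((z))`, `q ↦ z^N`, coefficients via `ι`. -/
def ΦK (N : ℕ) [NeZero N] : LaurentSeries K →+* LaurentSeries ℂ :=
  (qExpand ℂ N).comp (coeffMap ι)

theorem ΦK_injective : Function.Injective (ΦK ι N) := by
  intro x y h
  have h1 : coeffMap ι x = coeffMap ι y := qExpand_injective N h
  ext k
  apply ι.injective
  have := congrArg (fun s => s.coeff k) h1
  simpa using this

theorem ΦK_coeff (x : LaurentSeries K) (k : ℤ) :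
    (ΦK ι N x).coeff k = if (N : ℤ) ∣ k then ι (x.coeff (k / N)) else 0 := by
  split_ifs with h
  · obtain ⟨m, rfl⟩ := h
    have hN : (N : ℤ) ≠ 0 := by exact_mod_cast NeZero.ne N
    rw [Int.mul_ediv_cancel_left _ hN]
    show (qExpand ℂ N (coeffMap ι x)).coeff (N * m) = _
    rw [qExpand_coeff_mul]; rfl
  · exact qExpand_coeff_of_not_dvd N _ h

theorem ΦK_algebraMap (c : K) :
    ΦK ι N (algebraMap K (LaurentSeries K) c) = HahnSeries.C (ι c) := by
  rw [algebraMap_laurentSeries_eq_single]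
  show qExpand ℂ N (coeffMap ι (HahnSeries.single 0 c)) = _
  rw [coeffMap_single, qExpand_single, mul_zero]; rfl

theorem ΦK_gen (d : ℕ) [NeZero d] (hd : d ∣ N) :
    ΦK ι N (coeffEmb K (qExpand ℚ d jq)) = B.qexp (B.JH d hd) := by
  ext k
  rw [ΦK_coeff]
  show _ = (B.qexp ⟨B.J d, B.J_mem d hd⟩).coeff k
  rw [B.qexp_J d hd k]
  have hN : (N : ℤ) ≠ 0 := by exact_mod_cast NeZero.ne N
  have hd0 : (d : ℤ) ≠ 0 := by exact_mod_cast NeZero.ne d
  by_cases h1 : (N : ℤ) ∣ k
  · obtain ⟨m, rfl⟩ := h1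
    rw [if_pos (dvd_mul_right _ _), Int.mul_ediv_cancel_left _ hN, coeffEmb_coeff, ι_algebraMap]
    by_cases h2 : (d : ℤ) ∣ m
    · obtain ⟨l, rfl⟩ := h2
      have h3 : ((N * d : ℕ) : ℤ) ∣ (N : ℤ) * (d * l) := ⟨l, by push_cast; ring⟩
      rw [if_pos h3, qExpand_coeff_mul]
      have : (N : ℤ) * (d * l) / ((N * d : ℕ) : ℤ) = l := by
        have h4 : (N : ℤ) * (d * l) = ((N * d : ℕ) : ℤ) * l := by push_cast; ring
        rw [h4, Int.mul_ediv_cancel_left]
        exact_mod_cast (Nat.mul_ne_zero (NeZero.ne N) (NeZero.ne d))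
      rw [this]
    · have h3 : ¬ ((N * d : ℕ) : ℤ) ∣ (N : ℤ) * m := by
        rintro ⟨l, hl⟩
        apply h2
        refine ⟨l, ?_⟩
        have : (N : ℤ) * m = N * (d * l) := by rw [hl]; push_cast; ring
        exact mul_left_cancel₀ hN this
      rw [if_neg h3, qExpand_coeff_of_not_dvd d _ h2]
      simp
  · have h3 : ¬ ((N * d : ℕ) : ℤ) ∣ k := by
      intro h; apply h1
      exact dvd_trans ⟨(d : ℤ), by push_cast; ring⟩ h
    rw [if_neg h1, if_neg h3]

theorem ΦK_mem_range {r : LaurentSeries K} (hr : r ∈ RNK K N) : ΦK ι N r ∈ B.qexp.range := by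
  induction hr using Algebra.adjoin_induction with
  | mem x hx =>
      obtain ⟨y, ⟨d, hne, hd, rfl⟩, rfl⟩ := hx
      exact ⟨B.JH d hd, (ΦK_gen ι B d hd).symm⟩
  | algebraMap c =>
      exact ⟨B.constH (ι c), by rw [ΦK_algebraMap]; exact B.qexp_const _⟩
  | add _ _ _ _ hx hy => rw [map_add]; exact add_mem hx hy
  | mul _ _ _ _ hx hy => rw [map_mul]; exact mul_mem hx hy

/-- The bridge `e : R_N(K) →+* Hol`. -/
def bridgeK : RNK K N →+* B.Hol :=
  (B.qexpEquiv.symm : B.qexp.range →+* B.Hol).comp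
    (((ΦK ι N).comp (RNK K N).val.toRingHom).codRestrict B.qexp.range
      fun r => ΦK_mem_range ι B r.2)

theorem qexp_bridgeK (r : RNK K N) :
    B.qexp (bridgeK ι B r) = ΦK ι N (r : LaurentSeries K) := by
  have h := B.qexpEquiv.apply_symm_apply
    ((((ΦK ι N).comp (RNK K N).val.toRingHom).codRestrict B.qexp.range
      fun r => ΦK_mem_range ι B r.2) r)
  exact congrArg Subtype.val h

theorem bridgeK_injective : Function.Injective (bridgeK ι B) := by
  intro r r' h
  apply Subtype.ext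
  apply ΦK_injective ι (N := N)
  rw [← qexp_bridgeK, ← qexp_bridgeK, h]

theorem bridgeK_algebraMap (c : K) :
    bridgeK ι B (algebraMap K (RNK K N) c) = B.constH (ι c) := by
  apply B.qexp_injective
  rw [qexp_bridgeK]
  show ΦK ι N (algebraMap K (LaurentSeries K) c) = _
  rw [ΦK_algebraMap]
  exact (B.qexp_const _).symm

theorem bridgeK_jRK (d : ℕ) [NeZero d] (hd : d ∣ N) :
    bridgeK ι B (jRK K N d hd) = B.JH d hd := by
  apply B.qexp_injective
  rw [qexp_bridgeK]
  exact ΦK_gen ι B d hd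

/-- Every `e r` is `Γ₀(N)`-invariant. -/
theorem compH_bridgeK_of_mem {g : SL(2, ℤ)} (hg : g ∈ CongruenceSubgroup.Gamma0 N)
    (r : RNK K N) : B.compH g (bridgeK ι B r) = bridgeK ι B r := by
  obtain ⟨r, hr⟩ := r
  induction hr using Algebra.adjoin_induction with
  | mem x hx =>
      obtain ⟨y, ⟨d, hne, hd, rfl⟩, rfl⟩ := hx
      have : (⟨coeffEmb K (qExpand ℚ d jq), Algebra.subset_adjoin
          ⟨_, ⟨d, hne, hd, rfl⟩, rfl⟩⟩ : RNK K N) = jRK K N d hd := rfl
      rw [this, bridgeK_jRK]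
      exact B.compH_JH_of_mem d hd hg
  | algebraMap c =>
      have : (⟨algebraMap K (LaurentSeries K) c, Subalgebra.algebraMap_mem _ c⟩ : RNK K N)
          = algebraMap K (RNK K N) c := rfl
      rw [this, bridgeK_algebraMap]
      rfl
  | add x y hx hy ihx ihy =>
      have : (⟨x + y, add_mem hx hy⟩ : RNK K N) = ⟨x, hx⟩ + ⟨y, hy⟩ := rfl
      rw [this, map_add, map_add, ihx, ihy]
  | mul x y hx hy ihx ihy =>
      have : (⟨x * y, mul_mem hx hy⟩ : RNK K N) = ⟨x, hx⟩ * ⟨y, hy⟩ := rfl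
      rw [this, map_mul, map_mul, ihx, ihy]

end Fermat.Agent.S29.H282

end
end
-- ===== PACK-END S29/H282/BridgeK.lean

-- ===== PACK-BEGIN A2/H609/ChartPrep.lean
section



/-!
# Node purity, part 12: preparations on a chart

`B` a domain with fraction field `F`, `u ∈ Fˣ` with constant unit residues on the components
`p₁`, `p₂` (elementwise: `u b = a`, `b ∉ p`, `a - c b ∈ p`, `c` a unit).

* `exists_common_denominator` : one denominator `b ∉ p₁ ∪ p₂` for both components.
* the local ring `locAt F n = B_n ⊆ F` (from `A2.H849`) is an integrally closed domain with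
  fraction field `F`.
-/

set_option autoImplicit false

namespace Fermat.Agent.A2.H609

open Fermat.Agent.A2.H849

section Denominator

variable {B : Type*} [CommRing B]
variable {F : Type*} [Field F] [Algebra B F]

/-- Independence of the representation: if `u b₁ = a₁` with `b₁ ∉ p`, `a₁ - c b₁ ∈ p`, then
`a - c b ∈ p` for every representation `u b = a`. -/
theorem sub_mul_mem_of_eq [IsDomain B] [IsFractionRing B F] {p : Ideal B} [p.IsPrime] {u : F}
    {c a₁ b₁ a b : B} (hb₁ : b₁ ∉ p) (h₁ : a₁ - c * b₁ ∈ p)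
    (hu₁ : u * algebraMap B F b₁ = algebraMap B F a₁)
    (hu : u * algebraMap B F b = algebraMap B F a) : a - c * b ∈ p := by
  have hinj : Function.Injective (algebraMap B F) := IsFractionRing.injective B F
  have h1 : a * b₁ = a₁ * b := by
    apply hinj
    rw [map_mul, map_mul, ← hu, ← hu₁]
    ring
  have h2 : b₁ * (a - c * b) = (a₁ - c * b₁) * b := by
    linear_combination h1
  have h3 : b₁ * (a - c * b) ∈ p := by
    rw [h2]
    exact p.mul_mem_right _ h₁
  exact (Ideal.IsPrime.mem_or_mem inferInstance h3).resolve_left hb₁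

/-- A common denominator outside `p₁ ∪ p₂`. -/
theorem exists_common_denominator {p₁ p₂ : Ideal B} [p₁.IsPrime] [p₂.IsPrime] {u : F}
    (hs₁ : ∃ a b : B, b ∉ p₁ ∧ u * algebraMap B F b = algebraMap B F a)
    (hs₂ : ∃ a b : B, b ∉ p₂ ∧ u * algebraMap B F b = algebraMap B F a) :
    ∃ a b : B, b ∉ p₁ ∧ b ∉ p₂ ∧ u * algebraMap B F b = algebraMap B F a := by
  obtain ⟨a₁, b₁, hb₁, h₁⟩ := hs₁
  obtain ⟨a₂, b₂, hb₂, h₂⟩ := hs₂
  by_cases h12 : b₁ ∈ p₂
  · by_cases h21 : b₂ ∈ p₁
    · refine ⟨a₁ + a₂, b₁ + b₂, ?_, ?_, ?_⟩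
      · intro h
        apply hb₁
        have : b₁ = (b₁ + b₂) - b₂ := by ring
        rw [this]
        exact p₁.sub_mem h h21
      · intro h
        apply hb₂
        have : b₂ = (b₁ + b₂) - b₁ := by ring
        rw [this]
        exact p₂.sub_mem h h12
      · rw [map_add, map_add, mul_add, h₁, h₂]
    · exact ⟨a₂, b₂, h21, hb₂, h₂⟩
  · exact ⟨a₁, b₁, hb₁, h12, h₁⟩

end Denominator

section LocAt

variable {B : Type*} [CommRing B] [IsDomain B]
variable {F : Type*} [Field F] [Algebra B F] [IsFractionRing B F]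

instance locAt_isFractionRing (n : Ideal B) [n.IsPrime] : IsFractionRing (locAt F n) F :=
  IsFractionRing.isFractionRing_of_isDomain_of_isLocalization n.primeCompl (locAt F n) F

instance locAt_isIntegrallyClosed [IsIntegrallyClosed B] (n : Ideal B) [n.IsPrime] :
    IsIntegrallyClosed (locAt F n) :=
  isIntegrallyClosed_of_isLocalization (locAt F n) n.primeCompl n.primeCompl_le_nonZeroDivisors

theorem coe_algebraMap_locAt (n : Ideal B) [n.IsPrime] (b : B) :
    ((algebraMap B (locAt F n) b : locAt F n) : F) = algebraMap B F b := rfl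

theorem algebraMap_locAt_apply (n : Ideal B) [n.IsPrime] (z : locAt F n) :
    algebraMap (locAt F n) F z = (z : F) := rfl

/-- `algebraMap b ∈ p B_n ↔ b ∈ p` for a prime `p ≤ n`. -/
theorem algebraMap_mem_map_iff {p n : Ideal B} [p.IsPrime] [n.IsPrime] (hpn : p ≤ n) (b : B) :
    algebraMap B (locAt F n) b ∈ p.map (algebraMap B (locAt F n)) ↔ b ∈ p := by
  have hd : Disjoint (n.primeCompl : Set B) (p : Set B) :=
    Set.disjoint_left.mpr fun y hy hyp => hy (hpn hyp)
  have h := IsLocalization.under_map_of_isPrime_disjoint n.primeCompl (locAt F n)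
    (inferInstance : p.IsPrime) hd
  constructor
  · intro hb
    have : b ∈ (p.map (algebraMap B (locAt F n))).under B := hb
    rwa [h] at this
  · exact fun hb => Ideal.mem_map_of_mem _ hb

/-- A unit of `B_n` is a quotient of two elements of `B ∖ n`. -/
theorem exists_frac_of_isUnit_locAt (n : Ideal B) [n.IsPrime] {z : locAt F n} (hz : IsUnit z) :
    ∃ a s : B, a ∉ n ∧ s ∉ n ∧ (z : F) * algebraMap B F s = algebraMap B F a := by
  obtain ⟨a, s, hs, hzas⟩ := (mem_locAt_iff n (z : F)).1 z.2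
  have hinj : Function.Injective (algebraMap B F) := IsFractionRing.injective B F
  have hsF : algebraMap B F s ≠ 0 := by
    intro h0
    apply hs
    rw [hinj (by rw [h0, map_zero] : algebraMap B F s = algebraMap B F 0)]
    exact n.zero_mem
  have hzs : (z : F) * algebraMap B F s = algebraMap B F a := by
    rw [hzas]
    field_simp
  refine ⟨a, s, ?_, hs, hzs⟩
  have hunit : IsUnit (algebraMap B (locAt F n) a) := by
    have h1 : algebraMap B (locAt F n) a = z * algebraMap B (locAt F n) s := by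
      apply Subtype.ext
      exact hzs.symm
    rw [h1]
    exact hz.mul ((IsLocalization.AtPrime.isUnit_to_map_iff (locAt F n) n s).2 hs)
  exact (IsLocalization.AtPrime.isUnit_to_map_iff (locAt F n) n a).1 hunit

/-- An element of `B_n` outside `p B_n` (`p ≤ n` prime) is a quotient `φ / s` with `φ ∉ p`,
`s ∉ n`. -/
theorem exists_frac_of_notMem_map {p n : Ideal B} [p.IsPrime] [n.IsPrime]
    {z : locAt F n} (hz : z ∉ p.map (algebraMap B (locAt F n))) :
    ∃ φ s : B, φ ∉ p ∧ s ∉ n ∧ (z : F) * algebraMap B F s = algebraMap B F φ := by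
  obtain ⟨φ, s, hs, hzas⟩ := (mem_locAt_iff n (z : F)).1 z.2
  have hinj : Function.Injective (algebraMap B F) := IsFractionRing.injective B F
  have hsF : algebraMap B F s ≠ 0 := by
    intro h0
    apply hs
    rw [hinj (by rw [h0, map_zero] : algebraMap B F s = algebraMap B F 0)]
    exact n.zero_mem
  have hzs : (z : F) * algebraMap B F s = algebraMap B F φ := by
    rw [hzas]
    field_simp
  refine ⟨φ, s, ?_, hs, hzs⟩
  intro hφ
  apply hz
  have hsu : IsUnit (algebraMap B (locAt F n) s) :=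
    (IsLocalization.AtPrime.isUnit_to_map_iff (locAt F n) n s).2 hs
  have h1 : z * algebraMap B (locAt F n) s = algebraMap B (locAt F n) φ := by
    apply Subtype.ext
    exact hzs
  have h2 : z * algebraMap B (locAt F n) s ∈ p.map (algebraMap B (locAt F n)) := by
    rw [h1]
    exact Ideal.mem_map_of_mem _ hφ
  obtain ⟨t, ht⟩ := hsu.exists_right_inv
  have h3 : z = z * algebraMap B (locAt F n) s * t := by
    rw [mul_assoc, ht, mul_one]
  rw [h3]
  exact Ideal.mul_mem_right _ _ h2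

end LocAt

end Fermat.Agent.A2.H609

end
-- ===== PACK-END A2/H609/ChartPrep.lean

-- ===== PACK-BEGIN A2/H609/ChartNode.lean
section


/-!
# Node purity, part 13: purity at a crossing point of a semistable chart

`B` a noetherian integrally closed domain with fraction field `F` (a chart of the model),
`p₁ p₂` the two components of the special fibre (`p₁ ⊓ p₂ = (w)`, `B ⧸ pᵢ` Dedekind,
`p₁ ⊔ p₂` radical), `n ⊇ p₁ + p₂` a crossing point.  If `u ∈ Fˣ`

* is locally `unit × m`-th power at every discrete valuation ring `V ⊇ B[1/w]` of `F`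
  (`m ∣ ord_V u` at the horizontal valuations), and
* has constant unit residues on both components (`u b = a`, `b ∉ pᵢ`, `a - c b ∈ pᵢ`, `c ∈ Bˣ`),

then there is `d ∈ Fˣ` with `u d ^ m ∈ (B_n)ˣ` and `d` a unit on both components
(`exists_pureAt_node`).  No `δ`-count, no separating coordinate, no hypothesis on the thickness
of the node.  Mathlib + `A2.H849` + `A2.H372`.
-/

set_option autoImplicit false

namespace Fermat.Agent.A2.H609

open Fermat.Agent.A2.H849

variable {B : Type*} [CommRing B] [IsDomain B] [IsNoetherianRing B] [IsIntegrallyClosed B]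
variable {F : Type*} [Field F] [Algebra B F] [IsFractionRing B F]

omit [IsDomain B] [IsNoetherianRing B] [IsIntegrallyClosed B] [IsFractionRing B F] in
/-- The data of the normalised element `u' = a b ^ (m - 1) = u b ^ m ∈ B`. -/
theorem normalised_element {p : Ideal B} [p.IsPrime] {u : F} {m : ℕ} (hm : m ≠ 0)
    {a b c : B} (hc : IsUnit c) (hb : b ∉ p) (hab : a - c * b ∈ p)
    (hu : u * algebraMap B F b = algebraMap B F a) :
    algebraMap B F (a * b ^ (m - 1)) = u * algebraMap B F b ^ m ∧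
      a * b ^ (m - 1) - c * b ^ m ∈ p ∧ a * b ^ (m - 1) ∉ p := by
  obtain ⟨k, rfl⟩ := Nat.exists_eq_succ_of_ne_zero hm
  rw [Nat.succ_sub_one, Nat.succ_eq_add_one]
  have h2 : a * b ^ k - c * b ^ (k + 1) ∈ p := by
    have : a * b ^ k - c * b ^ (k + 1) = (a - c * b) * b ^ k := by ring
    rw [this]
    exact p.mul_mem_right _ hab
  refine ⟨?_, h2, ?_⟩
  · rw [map_mul, map_pow, ← hu]
    ring
  · intro h
    have h3 : c * b ^ (k + 1) ∈ p := by
      have : c * b ^ (k + 1) = a * b ^ k - (a * b ^ k - c * b ^ (k + 1)) := by ring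
      rw [this]
      exact p.sub_mem h h2
    rcases Ideal.IsPrime.mem_or_mem inferInstance h3 with h4 | h4
    · exact (Ideal.IsPrime.ne_top inferInstance) (Ideal.eq_top_of_isUnit_mem p h4 hc)
    · exact hb (Ideal.IsPrime.mem_of_pow_mem inferInstance _ h4)

omit [IsNoetherianRing B] [IsIntegrallyClosed B] in
/-- (H2) for the normalised element on a branch. -/
theorem exists_associated_pow_mk {p n : Ideal B} [p.IsPrime] [n.IsPrime]
    {m : ℕ} {u' b c : B} (hc : IsUnit c) (h : u' - c * b ^ m ∈ p) :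
    ∃ v : locAt F n ⧸ p.map (algebraMap B (locAt F n)),
      Associated (v ^ m) (Ideal.Quotient.mk (p.map (algebraMap B (locAt F n)))
        (algebraMap B (locAt F n) u')) := by
  refine ⟨Ideal.Quotient.mk _ (algebraMap B (locAt F n) b), ?_⟩
  have hcu : IsUnit (Ideal.Quotient.mk (p.map (algebraMap B (locAt F n)))
      (algebraMap B (locAt F n) c)) := (hc.map _).map _
  obtain ⟨ε, hε⟩ := hcu
  refine ⟨ε, ?_⟩
  rw [hε, ← map_pow, ← map_pow, ← map_mul, ← map_mul, eq_comm, Ideal.Quotient.eq]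
  rw [← map_sub]
  have : u' - b ^ m * c = u' - c * b ^ m := by ring
  rw [this]
  exact Ideal.mem_map_of_mem _ h

/-- **Purity at a crossing point of a semistable chart.** -/
theorem exists_pureAt_node {w : B} {m : ℕ} (hm : m ≠ 0)
    (p₁ p₂ n : Ideal B) [p₁.IsPrime] [p₂.IsPrime] [n.IsPrime]
    [IsDedekindDomain (B ⧸ p₁)] [IsDedekindDomain (B ⧸ p₂)]
    (hinf : p₁ ⊓ p₂ = Ideal.span {w}) (h₁₂ : ¬ p₁ ≤ p₂) (h₂₁ : ¬ p₂ ≤ p₁)
    (htr : (p₁ ⊔ p₂).IsRadical) (h₁ : p₁ ≤ n) (h₂ : p₂ ≤ n)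
    (u : F)
    (hdiv : ∀ V : ValuationSubring F, IsDiscreteValuationRing V →
      (∀ b : B, algebraMap B F b ∈ V) → (algebraMap B F w)⁻¹ ∈ V →
      ∃ h u₀ : F, u₀ ∈ V ∧ u₀⁻¹ ∈ V ∧ u = u₀ * h ^ m)
    (hs₁ : ∃ c a b : B, IsUnit c ∧ b ∉ p₁ ∧ a - c * b ∈ p₁ ∧
      u * algebraMap B F b = algebraMap B F a)
    (hs₂ : ∃ c a b : B, IsUnit c ∧ b ∉ p₂ ∧ a - c * b ∈ p₂ ∧
      u * algebraMap B F b = algebraMap B F a) :
    ∃ d : F, d ≠ 0 ∧
      (∃ a b : B, a ∉ n ∧ b ∉ n ∧ u * d ^ m * algebraMap B F b = algebraMap B F a) ∧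
      (∃ a b : B, a ∉ p₁ ∧ b ∉ p₁ ∧ d * algebraMap B F b = algebraMap B F a) ∧
      (∃ a b : B, a ∉ p₂ ∧ b ∉ p₂ ∧ d * algebraMap B F b = algebraMap B F a) := by
  have hinj : Function.Injective (algebraMap B F) := IsFractionRing.injective B F
  obtain ⟨c₁, a₁, b₁, hc₁, hb₁, hab₁, hu₁⟩ := hs₁
  obtain ⟨c₂, a₂, b₂, hc₂, hb₂, hab₂, hu₂⟩ := hs₂
  -- common denominator
  obtain ⟨a, b, hbp₁, hbp₂, hub⟩ := exists_common_denominator (p₁ := p₁) (p₂ := p₂)
    ⟨a₁, b₁, hb₁, hu₁⟩ ⟨a₂, b₂, hb₂, hu₂⟩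
  have hab₁' : a - c₁ * b ∈ p₁ := sub_mul_mem_of_eq hb₁ hab₁ hu₁ hub
  have hab₂' : a - c₂ * b ∈ p₂ := sub_mul_mem_of_eq hb₂ hab₂ hu₂ hub
  obtain ⟨hu'F, hu'₁, hu'n₁⟩ := normalised_element (p := p₁) hm hc₁ hbp₁ hab₁' hub
  obtain ⟨-, hu'₂, hu'n₂⟩ := normalised_element (p := p₂) hm hc₂ hbp₂ hab₂' hub
  set u' : B := a * b ^ (m - 1) with hu'def
  have hbF : algebraMap B F b ≠ 0 := by
    intro h0
    apply hbp₁
    rw [hinj (by rw [h0, map_zero] : algebraMap B F b = algebraMap B F 0)]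
    exact p₁.zero_mem
  -- the local ring
  obtain ⟨hP₁, hP₂, hinf', hsup', hdvr₁, hdvr₂⟩ :=
    Fermat.Agent.A2.H372.node_local_data (locAt F n) hinf h₁₂ h₂₁ htr h₁ h₂
  rw [IsLocalization.AtPrime.map_eq_maximalIdeal n (locAt F n)] at hsup'
  set U : locAt F n := algebraMap B (locAt F n) u' with hUdef
  have hUF : (U : F) = u * algebraMap B F b ^ m := hu'F
  have hU₁ : U ∉ p₁.map (algebraMap B (locAt F n)) := fun h =>
    hu'n₁ ((algebraMap_mem_map_iff h₁ u').1 h)
  have hU₂ : U ∉ p₂.map (algebraMap B (locAt F n)) := fun h =>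
    hu'n₂ ((algebraMap_mem_map_iff h₂ u').1 h)
  have hU0 : U ≠ 0 := by
    intro h0
    apply hU₁
    rw [h0]
    exact Ideal.zero_mem _
  -- (H1)
  have H1 : ∀ 𝔓 ∈ (Ideal.span {U}).minimalPrimes, algebraMap B (locAt F n) w ∉ 𝔓 →
      ∃ f r : locAt F n, r ∉ 𝔓 ∧ f ^ m = U * r := by
    intro 𝔓 h𝔓 hw𝔓
    refine exists_pow_eq_mul_of_divisible (K := F) hU0 hm h𝔓 ?_
    intro V hV hle hinv
    obtain ⟨h, u₀, hu₀, hu₀', huh⟩ := hdiv V hV
      (fun b => hle (algebraMap B (locAt F n) b)) (hinv _ hw𝔓)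
    refine ⟨h * algebraMap B F b, u₀, hu₀, hu₀', ?_⟩
    rw [algebraMap_locAt_apply, hUF, huh]
    ring
  -- (H2)
  have H2₁ := exists_associated_pow_mk (F := F) (p := p₁) (n := n) (m := m) hc₁ hu'₁
  have H2₂ := exists_associated_pow_mk (F := F) (p := p₂) (n := n) (m := m) hc₂ hu'₂
  -- purity in the local ring
  obtain ⟨f, ε, hfε⟩ := exists_unit_mul_pow_of_node_min (R := locAt F n) hm
    (p₁.map (algebraMap B (locAt F n))) (p₂.map (algebraMap B (locAt F n)))
    hinf' hsup' hU₁ hU₂ H1 H2₁ H2₂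
  have hf0 : f ≠ 0 := by
    rintro rfl
    rw [zero_pow hm, mul_zero] at hfε
    exact hU0 hfε
  have hfF : (f : F) ≠ 0 := fun h => hf0 (Subtype.ext h)
  have hf₁ : f ∉ p₁.map (algebraMap B (locAt F n)) := by
    intro h
    apply hU₁
    rw [hfε]
    exact Ideal.mul_mem_left _ _ (Ideal.pow_mem_of_mem _ h m (Nat.pos_of_ne_zero hm))
  have hf₂ : f ∉ p₂.map (algebraMap B (locAt F n)) := by
    intro h
    apply hU₂
    rw [hfε]
    exact Ideal.mul_mem_left _ _ (Ideal.pow_mem_of_mem _ h m (Nat.pos_of_ne_zero hm))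
  have hfεF : u * algebraMap B F b ^ m = ((ε : locAt F n) : F) * (f : F) ^ m := by
    rw [← hUF, hfε]
    rfl
  refine ⟨algebraMap B F b / (f : F), div_ne_zero hbF hfF, ?_, ?_, ?_⟩
  · obtain ⟨a', s', ha', hs', h'⟩ := exists_frac_of_isUnit_locAt (F := F) n ε.isUnit
    refine ⟨a', s', ha', hs', ?_⟩
    rw [← h', div_pow, ← mul_div_assoc, hfεF]
    field_simp
  · obtain ⟨φ, s, hφ, hs, h'⟩ := exists_frac_of_notMem_map (F := F) (p := p₁) (n := n) hf₁
    refine ⟨b * s, φ, ?_, hφ, ?_⟩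
    · intro h
      rcases Ideal.IsPrime.mem_or_mem inferInstance h with h3 | h3
      · exact hbp₁ h3
      · exact hs (h₁ h3)
    · rw [← h', map_mul]
      field_simp
  · obtain ⟨φ, s, hφ, hs, h'⟩ := exists_frac_of_notMem_map (F := F) (p := p₂) (n := n) hf₂
    refine ⟨b * s, φ, ?_, hφ, ?_⟩
    · intro h
      rcases Ideal.IsPrime.mem_or_mem inferInstance h with h3 | h3
      · exact hbp₂ h3
      · exact hs (h₂ h3)
    · rw [← h', map_mul]
      field_simp

end Fermat.Agent.A2.H609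

end
-- ===== PACK-END A2/H609/ChartNode.lean

-- ===== PACK-BEGIN A2/Alg/H609/PurityNode.lean
section




/-!
# WALL A2 / ALG — leaf P-N `purity_node` (helper609)

`purityNodeLeaf : Alg.H34.PurityNodeLeaf`, VERBATIM the leaf of the assembly
`Alg.H34.algSS_of_leaves`.

Proof: node purity `A2.H609.exists_pureAt_node` (length count in the local ring `B_n`; no
`δ`-count, the hypothesis `SepCoord` is not used, no hypothesis on the thickness of the node),
with
* `B` noetherian, integrally closed, `Frac B = F` (`Alg.H34.chart_instances'`),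
* `B ⧸ pᵢ` Dedekind (`isDedekindDomain_quotient_chart`),
* (H1) from `DivisibleDiv` (`algebraMap_field_mem`), (H2) from `IsSplit`.
-/

set_option autoImplicit false

namespace Fermat.Agent.A2.Alg.H609

open Fermat.Agent.A2 Fermat.Agent.A2.Alg

section Node

variable {R E F : Type*} [CommRing R] [IsDomain R] [IsDiscreteValuationRing R]
  [Field E] [CharZero E] [Algebra R E] [IsFractionRing R E]
  [Field F] [Algebra E F] [Algebra R F] [IsScalarTower R E F]

omit [CharZero E] in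
/-- The hypothesis `hdiv` of the core purity theorems from `DivisibleDiv`. -/
theorem hdiv_of_divisibleDiv (w : R) (hw : Irreducible w) (B : Subalgebra R F) (m : ℕ) (u : F)
    (hdiv : DivisibleDiv E m u) :
    ∀ V : ValuationSubring F, IsDiscreteValuationRing V →
      (∀ b : B, algebraMap B F b ∈ V) → (algebraMap B F (algebraMap R B w))⁻¹ ∈ V →
      ∃ h u₀ : F, u₀ ∈ V ∧ u₀⁻¹ ∈ V ∧ u = u₀ * h ^ m := by
  intro V hV hB hwV
  have hR : ∀ r : R, algebraMap R F r ∈ V := fun r => hB (algebraMap R B r)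
  obtain ⟨h, u₀, -, hu₀, hu₀', huh⟩ := hdiv V hV (algebraMap_field_mem hw V hR hwV)
  exact ⟨h, u₀, hu₀, hu₀', huh⟩

omit [IsDomain R] [IsDiscreteValuationRing R] [Field E] [CharZero E] [Algebra R E]
  [IsFractionRing R E] [Algebra E F] [IsScalarTower R E F] in
/-- The hypothesis `hs` of the core purity theorems from `ConstAt`. -/
theorem hs_of_constAt (B : Subalgebra R F) (p : Ideal B) (u : F) (h : ConstAt B p u) :
    ∃ c a b : B, IsUnit c ∧ b ∉ p ∧ a - c * b ∈ p ∧ u * algebraMap B F b = algebraMap B F a := by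
  obtain ⟨c, hc, a, b, hb, hab, hu⟩ := h
  exact ⟨algebraMap R B c, a, b, hc.map _, hb, hab, hu⟩

/-- **Leaf P-N**, universe polymorphic. -/
theorem purity_node (m : ℕ) (hm : 0 < m)
    (w : R) (x : F) (B : Subalgebra R F) (hB : ChartCtx E w x B)
    (c : SSChart w B)
    (u : F) (hdiv : DivisibleDiv E m u) (hs : IsSplit B c u)
    (n : Ideal B) (hn : n.IsPrime)
    (h1 : c.p₁ ≤ n) (h2 : c.p₂ ≤ n) : PureAt B c m u n := by
  obtain ⟨hnoeth, hic, hfrac⟩ := H34.chart_instances' w x B hB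
  have hp₁ : c.p₁.IsPrime := c.prime₁
  have hp₂ : c.p₂.IsPrime := c.prime₂
  have hn₁ : IsIntegrallyClosed (B ⧸ c.p₁) := c.normal₁
  have hn₂ : IsIntegrallyClosed (B ⧸ c.p₂) := c.normal₂
  have hw : algebraMap R B w ∈ c.p₁ ⊓ c.p₂ := by
    rw [c.inf_eq]
    exact Ideal.mem_span_singleton_self _
  have hd₁ : IsDedekindDomain (B ⧸ c.p₁) := isDedekindDomain_quotient_chart w x B hB c.p₁ hw.1
  have hd₂ : IsDedekindDomain (B ⧸ c.p₂) := isDedekindDomain_quotient_chart w x B hB c.p₂ hw.2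
  exact Fermat.Agent.A2.H609.exists_pureAt_node (B := B) (F := F) hm.ne' c.p₁ c.p₂ n c.inf_eq
    c.not_le₁₂ c.not_le₂₁ c.transversal h1 h2 u
    (hdiv_of_divisibleDiv w hB.hw B m u hdiv)
    (hs_of_constAt B c.p₁ u hs.1) (hs_of_constAt B c.p₂ u hs.2)

end Node

/-- **Leaf P-N** `purity_node`, VERBATIM (`Alg.H34.PurityNodeLeaf`). -/
theorem purityNodeLeaf : H34.PurityNodeLeaf := by
  intro R E F _ _ _ _ _ _ _ _ _ _ _ _ _ q m _ _ hm _ w x B hB c _ _ u _ hdiv hs n hn _ h1 h2
  exact purity_node m hm w x B hB c u hdiv hs n hn.isPrime h1 h2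

end Fermat.Agent.A2.Alg.H609

end
-- ===== PACK-END A2/Alg/H609/PurityNode.lean

-- ===== PACK-BEGIN S18/H876/Degree.lean
section





/-!
# S18 / d2 : the degree `[F_M : F_N] = ψ(M) / ψ(N)` and the hypothesis-free transfer

* `psi_mul_finrank : ψ(N) * [F_M : F_N] = ψ(M)` for `N ∣ M` (from landed S24:
  `ModularPackage.finrank_eq`, `card_XX`).
* `core_descend_prime` : `p` prime, `p ∤ N`, `gcd(p + 1, m) = 1`
    ⟹ `CoreStatement (p * N) A m → CoreStatement N A m`.
* `node_d2` : the node D2 of the row skeleton, for `levelM N ℓ`.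
-/

set_option autoImplicit false

noncomputable section

namespace Fermat.Agent.S18.H876

open ModularCurve AlgebraicCurve HahnSeries Fermat.Agent.S24

section Degree

variable {N M : ℕ} [NeZero N] [NeZero M]

theorem coe_jF' : ((jF N : FF N) : LaurentSeries Qb) = coeffEmb Qb jq := rfl

theorem barIncl_jF (h : N ∣ M) : barIncl h (jF N) = jF M := by
  apply Subtype.ext
  rw [coe_barIncl, coe_jF', coe_jF']

/-- `Q̄(j) ⊆ F_N`. -/
abbrev jSub (N : ℕ) [NeZero N] : IntermediateField Kbar (FF N) :=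
  IntermediateField.adjoin Kbar {jF N}

theorem jSub_map (h : N ∣ M) : (jSub N).map (barIncl h) = jSub M := by
  rw [jSub, IntermediateField.adjoin_map, Set.image_singleton, barIncl_jF]

set_option synthInstance.maxHeartbeats 400000 in
/-- The isomorphism `Q̄(j) ⊆ F_N` with `Q̄(j) ⊆ F_M`. -/
def jSubEquiv (h : N ∣ M) : jSub N ≃ₐ[Kbar] jSub M :=
  ((jSub N).equivMap (barIncl h)).trans (IntermediateField.equivOfEq (jSub_map h))

set_option synthInstance.maxHeartbeats 400000 in
theorem coe_jSubEquiv (h : N ∣ M) (a : jSub N) :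
    ((jSubEquiv h a : jSub M) : FF M) = barIncl h (a : FF N) := by
  rw [jSubEquiv, AlgEquiv.trans_apply, IntermediateField.equivOfEq_apply]
  exact IntermediateField.coe_equivMap_apply _ _ _

set_option synthInstance.maxHeartbeats 400000 in
/-- `ψ(N) · [F_M : F_N] = ψ(M)`. -/
theorem psi_mul_finrank (h : N ∣ M) :
    dedekindPsi N * @Module.finrank (FF N) (FF M) _ _ (barAlgebra h).toModule
      = dedekindPsi M := by
  obtain ⟨PN⟩ := nonempty_modularPackage N
  obtain ⟨PM⟩ := nonempty_modularPackage M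
  letI := barAlgebra h
  letI algJ : Algebra (jSub N) (FF M) :=
    ((algebraMap (FF N) (FF M)).comp (algebraMap (jSub N) (FF N))).toAlgebra
  haveI : IsScalarTower (jSub N) (FF N) (FF M) :=
    IsScalarTower.of_algebraMap_eq fun _ => rfl
  have h1 : Module.finrank (jSub N) (FF N) = dedekindPsi N := by
    rw [← card_XX N]; exact PN.finrank_eq
  have h2 : Module.finrank (jSub M) (FF M) = dedekindPsi M := by
    rw [← card_XX M]; exact PM.finrank_eq
  have h3 : Module.finrank (jSub N) (FF M) = Module.finrank (jSub M) (FF M) := by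
    refine Algebra.finrank_eq_of_equiv_equiv (jSubEquiv h).toRingEquiv (RingEquiv.refl (FF M)) ?_
    refine RingHom.ext fun a => ?_
    exact coe_jSubEquiv h a
  haveI : Module.Free (jSub N) (FF N) := Module.Free.of_divisionRing _ _
  haveI : Module.Free (FF N) (FF M) := Module.Free.of_divisionRing _ _
  rw [← h1, ← h2, ← h3]
  exact Module.finrank_mul_finrank (jSub N) (FF N) (FF M)

theorem dedekindPsi_pos' (n : ℕ) (hn : n ≠ 0) : 0 < dedekindPsi n := by
  unfold dedekindPsi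
  have h1 : (1 : ℕ) ∈ n.divisors.filter Squarefree :=
    Finset.mem_filter.2 ⟨Nat.one_mem_divisors.2 hn, squarefree_one⟩
  calc 0 < n / 1 := by rw [Nat.div_one]; exact Nat.pos_of_ne_zero hn
    _ ≤ ∑ d ∈ n.divisors.filter Squarefree, n / d :=
        Finset.single_le_sum (f := fun d => n / d) (fun _ _ => Nat.zero_le _) h1

set_option synthInstance.maxHeartbeats 400000 in
theorem finrank_bar_pos (h : N ∣ M) :
    0 < @Module.finrank (FF N) (FF M) _ _ (barAlgebra h).toModule := by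
  have h1 := psi_mul_finrank h
  have h2 := dedekindPsi_pos' M (NeZero.ne M)
  rcases Nat.eq_zero_or_pos (@Module.finrank (FF N) (FF M) _ _ (barAlgebra h).toModule)
    with h0 | hpos
  · rw [h0, mul_zero] at h1
    omega
  · exact hpos

set_option synthInstance.maxHeartbeats 400000 in
theorem finite_bar (h : N ∣ M) :
    @Module.Finite (FF N) (FF M) _ _ (barAlgebra h).toModule := by
  letI := barAlgebra h
  haveI : Module.Free (FF N) (FF M) := Module.Free.of_divisionRing _ _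
  exact Module.finite_of_finrank_pos (finrank_bar_pos h)

end Degree

/-! ### Hypothesis-free transfer -/

/-- **d2, general form**: `N ∣ M` and `ψ(M) = d · ψ(N)` with `gcd(d, m) = 1`. -/
theorem core_descend_of_psi {N M : ℕ} [NeZero N] [NeZero M] (h : N ∣ M)
    (A : ValuationSubring Qb) (m d : ℕ) (hd : dedekindPsi M = d * dedekindPsi N)
    (hcop : d.Coprime m) (hM : CoreStatement M A m) : CoreStatement N A m := by
  refine core_descend_of_coprime h A m (finite_bar h) ?_ hM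
  have h1 := psi_mul_finrank h
  have h2 := dedekindPsi_pos' N (NeZero.ne N)
  have h3 : @Module.finrank (FF N) (FF M) _ _ (barAlgebra h).toModule = d := by
    rw [hd, mul_comm] at h1
    exact Nat.eq_of_mul_eq_mul_right h2 h1
  rw [show @Module.finrank (modularFunctionFieldBar N) (modularFunctionFieldBar M) _ _
    (barAlgebra h).toModule = d from h3]
  exact hcop

/-- **d2, prime form**: `p ∤ N` prime, `gcd(p + 1, m) = 1`. -/
theorem core_descend_prime {N : ℕ} [NeZero N] (p : ℕ) (hp : p.Prime) (hpN : ¬ p ∣ N)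
    (A : ValuationSubring Qb) (m : ℕ) (hcop : (p + 1).Coprime m)
    (hM : CoreStatement (p * N) A m) : CoreStatement N A m := by
  haveI : NeZero (p * N) := ⟨mul_ne_zero hp.ne_zero (NeZero.ne N)⟩
  exact core_descend_of_psi (Dvd.intro_left p rfl) A m (p + 1)
    (Fermat.Agent.S20.Comb694.dedekindPsi_prime_mul_of_not_dvd p N hp (NeZero.ne N) hpN) hcop hM

/-- **NODE D2** of the row skeleton (`levelM N ℓ` unfolded). -/
theorem node_d2 (N : ℕ) [NeZero N] {ℓ : ℕ} [Fact ℓ.Prime] (_hℓN : ¬ ℓ ∣ N)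
    (A : ValuationSubring Qb) (m : ℕ) (hm : ¬ ℓ ∣ m) :
    CoreStatement (if ℓ = 3 then Nat.lcm N 2 else if ℓ = 2 then Nat.lcm N 3 else N) A m →
      CoreStatement N A m := by
  split_ifs with h3 h2
  · subst h3
    by_cases h : 2 ∣ N
    · rw [Nat.lcm_eq_left h]
      exact id
    · have hcop : Nat.Coprime N 2 :=
        (Nat.coprime_comm.1 ((Nat.Prime.coprime_iff_not_dvd Nat.prime_two).2 h))
      rw [hcop.lcm_eq_mul, mul_comm]
      refine core_descend_prime 2 Nat.prime_two h A m ?_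
      exact (Nat.Prime.coprime_iff_not_dvd Nat.prime_three).2 hm
  · subst h2
    by_cases h : 3 ∣ N
    · rw [Nat.lcm_eq_left h]
      exact id
    · have hcop : Nat.Coprime N 3 :=
        (Nat.coprime_comm.1 ((Nat.Prime.coprime_iff_not_dvd Nat.prime_three).2 h))
      rw [hcop.lcm_eq_mul, mul_comm]
      refine core_descend_prime 3 Nat.prime_three h A m ?_
      have h2m : Nat.Coprime 2 m := (Nat.Prime.coprime_iff_not_dvd Nat.prime_two).2 hm
      exact Nat.Coprime.pow_left 2 h2m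
  · exact id

end Fermat.Agent.S18.H876

end
end
-- ===== PACK-END S18/H876/Degree.lean

-- ===== PACK-BEGIN A2/H876/D2.lean
section




/-!
# A2 / D2 : auxiliary-level descent of the Kummer form of the wall (helper876)

For `N ∣ M` with `[F̄_M : F̄_N]` prime to `m` the Kummer form of wall A2 descends from level `M`
to level `N`:

* `kummerTarget_descend_of_coprime`, `kummerTarget_descend_of_psi`, `kummerTarget_descend_prime`
  for `Spec.KummerTarget`;
* `a2Kummer_descend_of_coprime`, `a2Kummer_descend_of_psi`, `a2Kummer_descend_prime`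
  for `H129.A2Kummer` (one `σ`).

Consequence (`auxLevel`): for `q ∈ {2, 3}` the MODEL may assume that the good-reduction level
`N / q` is divisible by `3` resp. `2` (existence of the S18 coordinates `t₃`, `t₂`):

* `kummerTarget_aux`, `a2Kummer_aux` : level `auxLevel N q` ⟹ level `N` (`q ∤ m`);
* `kummerTarget_of_ready` : `KummerTarget` at all *ready* levels ⟹ `KummerTarget` everywhere.

Ingredients: restriction of places (`Place.ord_restrict`), the norm trick over the algebraically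
closed constant field (`S18.H876.exists_algebraMap_eq_of_pow_eq`), and the degree
`ψ(N) · [F̄_M : F̄_N] = ψ(M)` (`S18.H876.psi_mul_finrank`, from landed S24).
-/

set_option autoImplicit false
set_option linter.style.haveILetI false

noncomputable section

namespace Fermat.Agent.A2.H876

open ModularCurve AlgebraicCurve HahnSeries
open Fermat.Agent.S18.H876 (barIncl coe_barIncl barIncl_injective barAlgebra
  barAlgebra_isScalarTower exists_algebraMap_eq_of_pow_eq psi_mul_finrank finite_bar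
  dedekindPsi_pos')

/-! ### The tower `F̄_N ⊆ F̄_M` -/

section Tower

variable {N M : ℕ} [NeZero N] [NeZero M]

/-- The arithmetic Galois action commutes with the inclusion `F̄_N ⊆ F̄_M`. -/
theorem act_barIncl (h : N ∣ M) (τ : AlgebraicClosure ℚ ≃ₐ[ℚ] AlgebraicClosure ℚ)
    (f : modularFunctionFieldBar N) :
    arithmeticRingAut (modularFunctionFieldFull M) τ (barIncl h f) =
      barIncl h (arithmeticRingAut (modularFunctionFieldFull N) τ f) := by
  apply Subtype.ext
  rw [coe_barIncl, coe_arithmeticRingAut_apply, coe_arithmeticRingAut_apply, coe_barIncl]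

/-- `m ∣ div f` passes from `F̄_N` to `F̄_M`. -/
theorem dvd_ord_barIncl (h : N ∣ M) (m : ℤ) (f : modularFunctionFieldBar N)
    (hdiv : ∀ v : Place (AlgebraicClosure ℚ) (modularFunctionFieldBar N), m ∣ v.ord f)
    (w : Place (AlgebraicClosure ℚ) (modularFunctionFieldBar M)) :
    m ∣ w.ord (barIncl h f) := by
  letI := barAlgebra h
  haveI := barAlgebra_isScalarTower h
  haveI : FiniteDimensional (modularFunctionFieldBar N) (modularFunctionFieldBar M) :=
    finite_bar h
  haveI : Algebra.IsIntegral (modularFunctionFieldBar N) (modularFunctionFieldBar M) :=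
    Algebra.IsIntegral.of_finite _ _
  have h1 : w.ord (algebraMap (modularFunctionFieldBar N) (modularFunctionFieldBar M) f)
      = _ := w.ord_restrict f
  have h2 : algebraMap (modularFunctionFieldBar N) (modularFunctionFieldBar M) f = barIncl h f :=
    rfl
  rw [← h2, h1]
  exact Dvd.dvd.mul_left (hdiv (w.restrict (modularFunctionFieldBar N))) _

/-- Kummer descent along `F̄_N ⊆ F̄_M`: an element of `F̄_M` whose `m`-th power lies in `F̄_N`
lies in `F̄_N`, if `[F̄_M : F̄_N]` is prime to `m`. -/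
theorem exists_barIncl_eq_of_pow_eq (h : N ∣ M) (m : ℕ) (hm : 0 < m)
    (hcop : (@Module.finrank (modularFunctionFieldBar N) (modularFunctionFieldBar M) _ _
      (barAlgebra h).toModule).Coprime m)
    (y : modularFunctionFieldBar M) (e : modularFunctionFieldBar N)
    (hy : y ^ m = barIncl h e) : ∃ x : modularFunctionFieldBar N, barIncl h x = y := by
  letI := barAlgebra h
  haveI := barAlgebra_isScalarTower h
  haveI : FiniteDimensional (modularFunctionFieldBar N) (modularFunctionFieldBar M) :=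
    finite_bar h
  exact exists_algebraMap_eq_of_pow_eq (K := AlgebraicClosure ℚ) m hm hcop y e hy

end Tower

/-! ### Descent of `KummerTarget` -/

/-- **D2 for `KummerTarget`, degree as hypothesis.** -/
theorem kummerTarget_descend_of_coprime {N M : ℕ} [NeZero N] [NeZero M] (h : N ∣ M) (q m : ℕ)
    (hcop : (@Module.finrank (modularFunctionFieldBar N) (modularFunctionFieldBar M) _ _
      (barAlgebra h).toModule).Coprime m)
    (hM : KummerTarget M q m) : KummerTarget N q m := by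
  intro P hP τ hτ f hf hdiv
  have hinj := barIncl_injective h
  have hf' : barIncl h f ≠ 0 := fun h0 => hf (hinj (by rw [h0, map_zero]))
  obtain ⟨y, hy0, hy⟩ := hM P hP τ hτ (barIncl h f) hf'
    (fun w => dvd_ord_barIncl h (m : ℤ) f hdiv w)
  rw [act, act_barIncl, act_barIncl] at hy
  set g : modularFunctionFieldBar N := arithmeticRingAut (modularFunctionFieldFull N) τ f with hg
  set g2 : modularFunctionFieldBar N :=
    arithmeticRingAut (modularFunctionFieldFull N) τ g with hg2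
  have hg0 : g ≠ 0 := fun h0 => hf ((arithmeticRingAut (modularFunctionFieldFull N) τ).injective
    (by rw [← hg, h0, map_zero]))
  have hg0' : barIncl h g ≠ 0 := fun h0 => hg0 (hinj (by rw [h0, map_zero]))
  rcases Nat.eq_zero_or_pos m with hm0 | hmpos
  · subst hm0
    refine ⟨1, one_ne_zero, ?_⟩
    apply hinj
    rw [pow_zero, one_mul] at hy ⊢
    rw [map_mul, map_pow]
    exact hy
  · have hym : y ^ m = barIncl h (g2 * f / g ^ 2) := by
      rw [map_div₀, map_mul, map_pow, hy]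
      field_simp
    obtain ⟨x, hx⟩ := exists_barIncl_eq_of_pow_eq h m hmpos hcop y _ hym
    refine ⟨x, ?_, ?_⟩
    · rintro rfl
      exact hy0 (by rw [← hx, map_zero])
    · apply hinj
      rw [map_mul, map_mul, map_pow, map_pow, hx]
      exact hy

/-- The degree `[F̄_M : F̄_N]` from `ψ(M) = d · ψ(N)`. -/
theorem finrank_bar_eq_of_psi {N M : ℕ} [NeZero N] [NeZero M] (h : N ∣ M) (d : ℕ)
    (hd : dedekindPsi M = d * dedekindPsi N) :
    @Module.finrank (modularFunctionFieldBar N) (modularFunctionFieldBar M) _ _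
      (barAlgebra h).toModule = d := by
  have h1 := psi_mul_finrank h
  have h2 := dedekindPsi_pos' N (NeZero.ne N)
  rw [hd, mul_comm] at h1
  exact Nat.eq_of_mul_eq_mul_right h2 h1

/-- **D2 for `KummerTarget`, general form**: `N ∣ M`, `ψ(M) = d · ψ(N)`, `gcd(d, m) = 1`. -/
theorem kummerTarget_descend_of_psi {N M : ℕ} [NeZero N] [NeZero M] (h : N ∣ M) (q m d : ℕ)
    (hd : dedekindPsi M = d * dedekindPsi N) (hcop : d.Coprime m)
    (hM : KummerTarget M q m) : KummerTarget N q m := by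
  refine kummerTarget_descend_of_coprime h q m ?_ hM
  rw [finrank_bar_eq_of_psi h d hd]
  exact hcop

/-- **D2 for `KummerTarget`, prime form**: `r ∤ N` prime, `gcd(r + 1, m) = 1`. -/
theorem kummerTarget_descend_prime {N : ℕ} [NeZero N] (r : ℕ) (hr : r.Prime) (hrN : ¬ r ∣ N)
    (q m : ℕ) (hcop : (r + 1).Coprime m) (hM : KummerTarget (r * N) q m) :
    KummerTarget N q m := by
  haveI : NeZero (r * N) := ⟨mul_ne_zero hr.ne_zero (NeZero.ne N)⟩
  exact kummerTarget_descend_of_psi (Dvd.intro_left r rfl) q m (r + 1)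
    (Fermat.Agent.S20.Comb694.dedekindPsi_prime_mul_of_not_dvd r N hr (NeZero.ne N) hrN) hcop hM

/-! ### Descent of `H129.A2Kummer` -/

/-- `tauSubOne` commutes with the inclusion `F̄_N ⊆ F̄_M`. -/
theorem tauSubOne_barIncl {N M : ℕ} [NeZero N] [NeZero M] (h : N ∣ M)
    (σ : AlgebraicClosure ℚ ≃ₐ[ℚ] AlgebraicClosure ℚ) (f : modularFunctionFieldBar N) :
    H129.tauSubOne (arithmeticRingAut (modularFunctionFieldFull M) σ) (barIncl h f) =
      barIncl h (H129.tauSubOne (arithmeticRingAut (modularFunctionFieldFull N) σ) f) := by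
  unfold H129.tauSubOne
  rw [act_barIncl, map_mul, map_inv₀]

/-- **D2 for `A2Kummer`, degree as hypothesis.** -/
theorem a2Kummer_descend_of_coprime {N M : ℕ} [NeZero N] [NeZero M] (h : N ∣ M) (m : ℕ)
    (hm : 0 < m) (σ : AlgebraicClosure ℚ ≃ₐ[ℚ] AlgebraicClosure ℚ)
    (hcop : (@Module.finrank (modularFunctionFieldBar N) (modularFunctionFieldBar M) _ _
      (barAlgebra h).toModule).Coprime m)
    (hM : H129.A2Kummer M m σ) : H129.A2Kummer N m σ := by
  intro f hf hdiv
  have hinj := barIncl_injective h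
  have hf' : barIncl h f ≠ 0 := fun h0 => hf (hinj (by rw [h0, map_zero]))
  obtain ⟨y, c, hc, hy⟩ := hM (barIncl h f) hf' (fun w => dvd_ord_barIncl h (m : ℤ) f hdiv w)
  rw [toRingAut_arithmeticGalois, tauSubOne_barIncl, tauSubOne_barIncl] at hy
  rw [toRingAut_arithmeticGalois]
  set u : modularFunctionFieldBar N :=
    H129.tauSubOne (arithmeticRingAut (modularFunctionFieldFull N) σ)
      (H129.tauSubOne (arithmeticRingAut (modularFunctionFieldFull N) σ) f) with hu
  have hc' : algebraMap (AlgebraicClosure ℚ) (modularFunctionFieldBar M) c ≠ 0 := by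
    simpa using hc
  have hym : y ^ m =
      barIncl h (u / algebraMap (AlgebraicClosure ℚ) (modularFunctionFieldBar N) c) := by
    rw [map_div₀, AlgHom.commutes, hy]
    field_simp
  obtain ⟨x, hx⟩ := exists_barIncl_eq_of_pow_eq h m hm hcop y _ hym
  refine ⟨x, c, hc, ?_⟩
  apply hinj
  rw [map_mul, map_pow, hx, AlgHom.commutes]
  exact hy

/-- **D2 for `A2Kummer`, general form.** -/
theorem a2Kummer_descend_of_psi {N M : ℕ} [NeZero N] [NeZero M] (h : N ∣ M) (m d : ℕ)
    (hm : 0 < m) (σ : AlgebraicClosure ℚ ≃ₐ[ℚ] AlgebraicClosure ℚ)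
    (hd : dedekindPsi M = d * dedekindPsi N) (hcop : d.Coprime m)
    (hM : H129.A2Kummer M m σ) : H129.A2Kummer N m σ := by
  refine a2Kummer_descend_of_coprime h m hm σ ?_ hM
  rw [finrank_bar_eq_of_psi h d hd]
  exact hcop

/-- **D2 for `A2Kummer`, prime form.** -/
theorem a2Kummer_descend_prime {N : ℕ} [NeZero N] (r : ℕ) (hr : r.Prime) (hrN : ¬ r ∣ N)
    (m : ℕ) (hm : 0 < m) (σ : AlgebraicClosure ℚ ≃ₐ[ℚ] AlgebraicClosure ℚ)
    (hcop : (r + 1).Coprime m) (hM : H129.A2Kummer (r * N) m σ) : H129.A2Kummer N m σ := by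
  haveI : NeZero (r * N) := ⟨mul_ne_zero hr.ne_zero (NeZero.ne N)⟩
  exact a2Kummer_descend_of_psi (Dvd.intro_left r rfl) m (r + 1) hm σ
    (Fermat.Agent.S20.Comb694.dedekindPsi_prime_mul_of_not_dvd r N hr (NeZero.ne N) hrN) hcop hM

/-! ### The auxiliary level -/

/-- The auxiliary level: `lcm N 2` for `q = 3`, `lcm N 3` for `q = 2`, `N` otherwise. -/
def auxLevel (N q : ℕ) : ℕ :=
  if q = 3 then Nat.lcm N 2 else if q = 2 then Nat.lcm N 3 else N

/-- A level is *ready* for `q`: the S18 coordinate exists on the good-reduction level `N / q`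
(`q ≥ 5`: `j`; `q = 3`: `t₂`, needs `2 ∣ N`; `q = 2`: `t₃`, needs `3 ∣ N`). -/
def Ready (N q : ℕ) : Prop :=
  (q ≠ 2 ∧ q ≠ 3) ∨ (q = 3 ∧ 2 ∣ N) ∨ (q = 2 ∧ 3 ∣ N)

theorem dvd_auxLevel (N q : ℕ) : N ∣ auxLevel N q := by
  unfold auxLevel
  split_ifs
  · exact Nat.dvd_lcm_left N 2
  · exact Nat.dvd_lcm_left N 3
  · exact dvd_rfl

theorem auxLevel_ne_zero {N : ℕ} (hN : N ≠ 0) (q : ℕ) : auxLevel N q ≠ 0 := by
  unfold auxLevel
  split_ifs
  · exact Nat.lcm_ne_zero hN (by norm_num)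
  · exact Nat.lcm_ne_zero hN (by norm_num)
  · exact hN

theorem ready_auxLevel (N q : ℕ) : Ready (auxLevel N q) q := by
  unfold auxLevel Ready
  split_ifs with h3 h2
  · exact Or.inr (Or.inl ⟨h3, Nat.dvd_lcm_right N 2⟩)
  · exact Or.inr (Or.inr ⟨h2, Nat.dvd_lcm_right N 3⟩)
  · exact Or.inl ⟨h2, h3⟩

theorem auxLevel_of_ready {N q : ℕ} (h : Ready N q) : auxLevel N q = N := by
  unfold auxLevel
  rcases h with ⟨h2, h3⟩ | ⟨h3, hd⟩ | ⟨h2, hd⟩
  · rw [if_neg h3, if_neg h2]
  · rw [if_pos h3, Nat.lcm_eq_left hd]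
  · subst h2
    rw [if_neg (by norm_num), if_pos rfl, Nat.lcm_eq_left hd]

theorem dvd_auxLevel_of_dvd {N q : ℕ} (h : q ∣ N) : q ∣ auxLevel N q :=
  h.trans (dvd_auxLevel N q)

/-- `q ‖ N` is preserved by passing to the auxiliary level. -/
theorem not_sq_dvd_auxLevel {N q : ℕ} (hq : q.Prime) (h : ¬ q ^ 2 ∣ N) :
    ¬ q ^ 2 ∣ auxLevel N q := by
  unfold auxLevel
  split_ifs with h3 h2
  · subst h3
    intro hd
    have h1 : Nat.lcm N 2 ∣ N * 2 := Nat.lcm_dvd_mul N 2
    have h4 : (3 ^ 2).Coprime 2 := by norm_num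
    exact h (h4.dvd_of_dvd_mul_right (hd.trans h1))
  · subst h2
    intro hd
    have h1 : Nat.lcm N 3 ∣ N * 3 := Nat.lcm_dvd_mul N 3
    have h4 : (2 ^ 2).Coprime 3 := by norm_num
    exact h (h4.dvd_of_dvd_mul_right (hd.trans h1))
  · exact h

/-- **D2, node form for `KummerTarget`.** -/
theorem kummerTarget_aux (N : ℕ) [NeZero N] (q m : ℕ) (hm : ¬ q ∣ m) :
    KummerTarget (auxLevel N q) q m → KummerTarget N q m := by
  unfold auxLevel
  split_ifs with h3 h2
  · subst h3
    by_cases h : 2 ∣ N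
    · rw [Nat.lcm_eq_left h]
      exact id
    · have hcop : Nat.Coprime N 2 :=
        (Nat.coprime_comm.1 ((Nat.Prime.coprime_iff_not_dvd Nat.prime_two).2 h))
      rw [hcop.lcm_eq_mul, mul_comm]
      refine kummerTarget_descend_prime 2 Nat.prime_two h 3 m ?_
      exact (Nat.Prime.coprime_iff_not_dvd Nat.prime_three).2 hm
  · subst h2
    by_cases h : 3 ∣ N
    · rw [Nat.lcm_eq_left h]
      exact id
    · have hcop : Nat.Coprime N 3 :=
        (Nat.coprime_comm.1 ((Nat.Prime.coprime_iff_not_dvd Nat.prime_three).2 h))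
      rw [hcop.lcm_eq_mul, mul_comm]
      refine kummerTarget_descend_prime 3 Nat.prime_three h 2 m ?_
      have h2m : Nat.Coprime 2 m := (Nat.Prime.coprime_iff_not_dvd Nat.prime_two).2 hm
      exact Nat.Coprime.pow_left 2 h2m
  · exact id

/-- **D2, node form for `A2Kummer`.** -/
theorem a2Kummer_aux (N : ℕ) [NeZero N] (q m : ℕ) (hm0 : 0 < m) (hm : ¬ q ∣ m)
    (σ : AlgebraicClosure ℚ ≃ₐ[ℚ] AlgebraicClosure ℚ) :
    H129.A2Kummer (auxLevel N q) m σ → H129.A2Kummer N m σ := by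
  unfold auxLevel
  split_ifs with h3 h2
  · subst h3
    by_cases h : 2 ∣ N
    · rw [Nat.lcm_eq_left h]
      exact id
    · have hcop : Nat.Coprime N 2 :=
        (Nat.coprime_comm.1 ((Nat.Prime.coprime_iff_not_dvd Nat.prime_two).2 h))
      rw [hcop.lcm_eq_mul, mul_comm]
      refine a2Kummer_descend_prime 2 Nat.prime_two h m hm0 σ ?_
      exact (Nat.Prime.coprime_iff_not_dvd Nat.prime_three).2 hm
  · subst h2
    by_cases h : 3 ∣ N
    · rw [Nat.lcm_eq_left h]
      exact id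
    · have hcop : Nat.Coprime N 3 :=
        (Nat.coprime_comm.1 ((Nat.Prime.coprime_iff_not_dvd Nat.prime_three).2 h))
      rw [hcop.lcm_eq_mul, mul_comm]
      refine a2Kummer_descend_prime 3 Nat.prime_three h m hm0 σ ?_
      have h2m : Nat.Coprime 2 m := (Nat.Prime.coprime_iff_not_dvd Nat.prime_two).2 hm
      exact Nat.Coprime.pow_left 2 h2m
  · exact id

/-- **Reduction to ready levels.**  If the Kummer form of the wall holds at all levels `N'` with
`q ‖ N'` that are ready for `q`, it holds at all levels `N` with `q ‖ N`. -/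
theorem kummerTarget_of_ready (q m : ℕ) (hq : q.Prime) (hm : ¬ q ∣ m)
    (hready : ∀ N' : ℕ, q ∣ N' → ¬ q ^ 2 ∣ N' → N' ≠ 0 → Ready N' q → KummerTarget N' q m)
    (N : ℕ) (hqN : q ∣ N) (hq2 : ¬ q ^ 2 ∣ N) (hN : N ≠ 0) : KummerTarget N q m := by
  haveI : NeZero N := ⟨hN⟩
  exact kummerTarget_aux N q m hm
    (hready (auxLevel N q) (dvd_auxLevel_of_dvd hqN) (not_sq_dvd_auxLevel hq hq2)
      (auxLevel_ne_zero hN q) (ready_auxLevel N q))

/-- **Reduction to ready levels**, `A2Kummer` form (all inertia groups at `q`). -/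
theorem a2Kummer_of_ready (q m : ℕ) (hq : q.Prime) (hm0 : 0 < m) (hm : ¬ q ∣ m)
    (hready : ∀ N' : ℕ, q ∣ N' → ¬ q ^ 2 ∣ N' → N' ≠ 0 → Ready N' q →
      ∀ P : ValuationSubring (AlgebraicClosure ℚ), P.LiesOverPrime q →
        ∀ σ ∈ P.inertiaSubgroupIn ℚ, H129.A2Kummer N' m σ)
    (N : ℕ) (hqN : q ∣ N) (hq2 : ¬ q ^ 2 ∣ N) (hN : N ≠ 0)
    (P : ValuationSubring (AlgebraicClosure ℚ)) (hP : P.LiesOverPrime q)
    (σ : AlgebraicClosure ℚ ≃ₐ[ℚ] AlgebraicClosure ℚ) (hσ : σ ∈ P.inertiaSubgroupIn ℚ) :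
    H129.A2Kummer N m σ := by
  haveI : NeZero N := ⟨hN⟩
  exact a2Kummer_aux N q m hm0 hm σ
    (hready (auxLevel N q) (dvd_auxLevel_of_dvd hqN) (not_sq_dvd_auxLevel hq hq2)
      (auxLevel_ne_zero hN q) (ready_auxLevel N q) P hP σ hσ)

end Fermat.Agent.A2.H876

end
end
-- ===== PACK-END A2/H876/D2.lean

-- ===== PACK-BEGIN A2/IF/H429/Level.lean
section


/-!
# A2 / IF (helper429): levels `E ⊇ ℚ̄^{I_P}`

For an intermediate field `E` containing the inertia field of `P`, the valuation ring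
`R_E = P ∩ E = P.comap (algebraMap E ℚ̄)` is henselian with algebraically closed residue field.
-/

set_option autoImplicit false
set_option linter.style.haveILetI false
set_option linter.unusedSectionVars false

open scoped Pointwise
open Polynomial

namespace Fermat.Agent.A2.IF.H429

open Fermat.Agent.S55.Bridge Fermat.Agent.S55.Bridge.H594

attribute [local instance] isAlgebraic_Qbar isGalois_Qbar

local notation "Qb" => AlgebraicClosure ℚ

variable (P : ValuationSubring Qb) (E : IntermediateField ℚ Qb)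

/-- The inclusion `R_E → P`. -/
noncomputable def inclRE : (P.comap (algebraMap E Qb)) →+* P where
  toFun x := ⟨algebraMap E Qb (x : E), x.2⟩
  map_one' := Subtype.ext (by simp)
  map_mul' x y := Subtype.ext (by simp)
  map_zero' := Subtype.ext (by simp)
  map_add' x y := Subtype.ext (by simp)

theorem inclRE_coe (x : P.comap (algebraMap E Qb)) :
    ((inclRE P E x : P) : Qb) = ((x : E) : Qb) := rfl

theorem mem_maximalIdeal_RE_iff (x : P.comap (algebraMap E Qb)) :
    x ∈ IsLocalRing.maximalIdeal (P.comap (algebraMap E Qb)) ↔ ((x : E) : Qb) ∈ P.nonunits := by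
  rw [← ValuationSubring.coe_mem_nonunits_iff, mem_nonunits_comap_iff]
  rfl

/-- An element of `ℚ̄` fixed by every automorphism fixing `E` lies in `E`. -/
theorem mem_of_fixed (x : Qb) (hx : ∀ σ : Qb ≃ₐ[ℚ] Qb, (∀ e ∈ E, σ e = e) → σ x = x) :
    x ∈ E := by
  have h1 : x ∈ IntermediateField.fixedField E.fixingSubgroup := by
    rw [IntermediateField.mem_fixedField_iff]
    intro σ hσ
    exact hx σ (fun e he => (IntermediateField.mem_fixingSubgroup_iff E σ).mp hσ e he)
  rwa [InfiniteGalois.fixedField_fixingSubgroup] at h1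

/-- An automorphism fixing `E ⊇ E_I` pointwise preserves the non-units of `P`. -/
theorem map_mem_nonunits_of_fixes (hE : inertiaField P ≤ E) (σ : Qb ≃ₐ[ℚ] Qb)
    (hσ : ∀ e ∈ E, σ e = e) {x : Qb} (hx : x ∈ P.nonunits) : σ x ∈ P.nonunits := by
  obtain ⟨τ, hτ, h⟩ := exists_inertia_apply_eq P σ (fun e he => hσ e (hE he)) x
  rw [h]
  exact mem_nonunits_of_mem_decomp P (decomp_of_inertia P hτ) hx

/-- An automorphism fixing `E ⊇ E_I` pointwise preserves the valuation of `P`. -/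
theorem valuation_map_eq_of_fixes (hE : inertiaField P ≤ E) (σ : Qb ≃ₐ[ℚ] Qb)
    (hσ : ∀ e ∈ E, σ e = e) (x : Qb) : P.valuation (σ x) = P.valuation x := by
  obtain ⟨τ, hτ, h⟩ := exists_inertia_apply_eq P σ (fun e he => hσ e (hE he)) x
  rw [h]
  exact valuation_map_eq P (decomp_of_inertia P hτ) x

/-- **Galois-fixed simple roots.**  Let `f` be a monic polynomial over `R_E`, `E ⊇ E_I`, and
`a₀ ∈ R_E` with `f(a₀) ≡ 0` and `f'(a₀)` a unit.  Then `f` has a root `≡ a₀` in `R_E`. -/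
theorem exists_root_RE (hE : inertiaField P ≤ E) (f : (P.comap (algebraMap E Qb) : Type)[X])
    (hf : f.Monic) (a₀ : P.comap (algebraMap E Qb))
    (h₁ : f.eval a₀ ∈ IsLocalRing.maximalIdeal (P.comap (algebraMap E Qb)))
    (h₂ : IsUnit (f.derivative.eval a₀)) :
    ∃ a : P.comap (algebraMap E Qb), f.IsRoot a ∧
      a - a₀ ∈ IsLocalRing.maximalIdeal (P.comap (algebraMap E Qb)) := by
  let ι := inclRE P E
  let g : (P : Type)[X] := f.map ι
  have hg : g.Monic := hf.map ι
  let φ : (P.comap (algebraMap E Qb)) →+* Qb := P.subtype.comp ι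
  have hFg : g.map P.subtype = f.map φ := by
    rw [Polynomial.map_map]
  have hroots : ∀ r ∈ (f.map φ).roots, r ∈ P := fun r hr =>
    mem_of_isRoot_map P g hg r (by rw [hFg]; exact isRoot_of_mem_roots hr)
  have ha₀P : ((a₀ : E) : Qb) ∈ P := a₀.2
  have heval : (f.map φ).eval ((a₀ : E) : Qb) ∈ P.nonunits := by
    have h3 : (f.map φ).eval (φ a₀) = φ (f.eval a₀) := eval_map_apply φ a₀
    have h4 : φ a₀ = ((a₀ : E) : Qb) := rfl
    rw [h4] at h3
    rw [h3]
    exact (mem_maximalIdeal_RE_iff P E _).mp h₁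
  obtain ⟨α, hα, hαa⟩ := exists_root_sub_mem_nonunits P _ (hf.map φ) hroots _ ha₀P heval
  have hαP : α ∈ P := hroots α hα
  have hαroot : (f.map φ).eval α = 0 := isRoot_of_mem_roots hα
  have hgα : g.IsRoot (⟨α, hαP⟩ : P) := by
    show g.eval _ = 0
    apply Subtype.ext
    have h3 : (g.map P.subtype).eval (P.subtype ⟨α, hαP⟩) = P.subtype (g.eval ⟨α, hαP⟩) :=
      eval_map_apply P.subtype _
    rw [hFg] at h3
    have h4 : P.subtype ⟨α, hαP⟩ = α := rfl
    rw [h4, hαroot] at h3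
    exact h3.symm
  have hder : g.derivative.eval (ι a₀) ∉ IsLocalRing.maximalIdeal P := by
    have h3 : g.derivative.eval (ι a₀) = ι (f.derivative.eval a₀) := by
      show (f.map ι).derivative.eval (ι a₀) = _
      rw [derivative_map, eval_map_apply]
    rw [h3]
    intro hmem
    exact (IsLocalRing.mem_maximalIdeal _).mp hmem (h₂.map ι)
  have hαa' : (⟨α, hαP⟩ : P) - ι a₀ ∈ IsLocalRing.maximalIdeal P := by
    rw [← ValuationSubring.coe_mem_nonunits_iff]
    have h3 : (((⟨α, hαP⟩ : P) - ι a₀ : P) : Qb) = -(((a₀ : E) : Qb) - α) := by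
      show α - ((a₀ : E) : Qb) = _
      ring
    rw [h3]
    exact neg_mem hαa
  -- `α` is fixed by every automorphism fixing `E`
  have hfix : ∀ σ : Qb ≃ₐ[ℚ] Qb, (∀ e ∈ E, σ e = e) → σ α = α := by
    intro σ hσ
    have hσφ : (σ : Qb →+* Qb).comp φ = φ := by
      ext x
      exact hσ _ (x : E).2
    have hσroot : (f.map φ).eval (σ α) = 0 := by
      have h3 : ((f.map φ).map (σ : Qb →+* Qb)).eval ((σ : Qb →+* Qb) α) =
          (σ : Qb →+* Qb) ((f.map φ).eval α) := eval_map_apply (σ : Qb →+* Qb) α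
      rw [Polynomial.map_map, hσφ, hαroot, map_zero] at h3
      exact h3
    have hσαP : σ α ∈ P := by
      apply hroots
      rw [mem_roots (hf.map φ).ne_zero]
      exact hσroot
    have hgσ : g.IsRoot (⟨σ α, hσαP⟩ : P) := by
      show g.eval _ = 0
      apply Subtype.ext
      have h3 : (g.map P.subtype).eval (P.subtype ⟨σ α, hσαP⟩) =
          P.subtype (g.eval ⟨σ α, hσαP⟩) := eval_map_apply P.subtype _
      rw [hFg] at h3
      have h4 : P.subtype ⟨σ α, hσαP⟩ = σ α := rfl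
      rw [h4, hσroot] at h3
      exact h3.symm
    have hσa : (⟨σ α, hσαP⟩ : P) - ι a₀ ∈ IsLocalRing.maximalIdeal P := by
      rw [← ValuationSubring.coe_mem_nonunits_iff]
      have h3 : (((⟨σ α, hσαP⟩ : P) - ι a₀ : P) : Qb) = σ (-(((a₀ : E) : Qb) - α)) := by
        show σ α - ((a₀ : E) : Qb) = _
        rw [map_neg, map_sub, hσ _ (a₀ : E).2]
        ring
      rw [h3]
      exact map_mem_nonunits_of_fixes P E hE σ hσ (neg_mem hαa)
    have key := root_unique_of_derivative_notMem (IsLocalRing.maximalIdeal P) g (ι a₀)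
      ⟨α, hαP⟩ ⟨σ α, hσαP⟩ hgα hgσ hder hαa' hσa
    exact (congrArg Subtype.val key).symm
  have hαE : α ∈ E := mem_of_fixed E α hfix
  refine ⟨⟨⟨α, hαE⟩, hαP⟩, ?_, ?_⟩
  · show f.eval _ = 0
    have hφinj : Function.Injective φ := by
      intro x y hxy
      apply Subtype.ext
      apply Subtype.ext
      exact hxy
    apply hφinj
    rw [map_zero, ← eval_map_apply φ]
    exact hαroot
  · rw [mem_maximalIdeal_RE_iff]
    have h3 : ((((⟨⟨α, hαE⟩, hαP⟩ : P.comap (algebraMap E Qb)) - a₀ :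
        P.comap (algebraMap E Qb)) : E) : Qb) = -(((a₀ : E) : Qb) - α) := by
      show α - ((a₀ : E) : Qb) = _
      ring
    rw [h3]
    exact neg_mem hαa

/-- `R_E` is henselian for `E ⊇ E_I`. -/
theorem henselian_RE (hE : inertiaField P ≤ E) :
    HenselianLocalRing (P.comap (algebraMap E Qb)) where
  is_henselian f hf a₀ h₁ h₂ := exists_root_RE P E hE f hf a₀ h₁ h₂

/-- The residue field of `R_E` is algebraically closed for `E ⊇ E_I`. -/
theorem isAlgClosed_residueField_RE (q : ℕ) (hq : q.Prime) (hP : P.LiesOverPrime q)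
    (hE : inertiaField P ≤ E) :
    IsAlgClosed (IsLocalRing.ResidueField (P.comap (algebraMap E Qb))) := by
  apply IsAlgClosed.of_exists_root
  intro p hpm hpi
  obtain ⟨f, hfp, hfdeg, hfm⟩ := Polynomial.lifts_and_natDegree_eq_and_monic
    ((Polynomial.mem_lifts p).mpr
      (Polynomial.map_surjective _ IsLocalRing.residue_surjective p)) hpm
  let ι := inclRE P E
  let g : (P : Type)[X] := f.map ι
  have hg : g.Monic := hfm.map ι
  have hgdeg : (g.map P.subtype).degree ≠ 0 := by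
    have h1 : (g.map P.subtype).Monic := hg.map _
    have h2 : (g.map P.subtype).natDegree = p.natDegree := by
      rw [hg.natDegree_map P.subtype, hfm.natDegree_map ι, hfdeg]
    have h3 : 0 < p.natDegree := hpi.natDegree_pos
    intro h0
    have := natDegree_eq_zero_iff_degree_le_zero.mpr h0.le
    omega
  obtain ⟨α, hα⟩ := IsAlgClosed.exists_root (g.map P.subtype) hgdeg
  have hαP : α ∈ P := mem_of_isRoot_map P g hg α hα
  obtain ⟨z, hzP, hzI, hαz⟩ := exists_teichmuller P q hq hP α hαP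
  have hzE : z ∈ E := hE hzI
  let zR : P.comap (algebraMap E Qb) := ⟨⟨z, hzE⟩, hzP⟩
  refine ⟨IsLocalRing.residue _ zR, ?_⟩
  rw [← hfp, eval_map_apply, IsLocalRing.residue_eq_zero_iff, mem_maximalIdeal_RE_iff]
  have hgα : g.eval (⟨α, hαP⟩ : P) = 0 := by
    apply Subtype.ext
    have h3 : (g.map P.subtype).eval (P.subtype ⟨α, hαP⟩) = P.subtype (g.eval ⟨α, hαP⟩) :=
      eval_map_apply P.subtype _
    have h4 : (g.map P.subtype).eval α = 0 := hα
    have h5 : P.subtype ⟨α, hαP⟩ = α := rfl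
    rw [h5, h4] at h3
    exact h3.symm
  have h6 : (⟨z, hzP⟩ : P) - ⟨α, hαP⟩ ∣ g.eval (⟨z, hzP⟩ : P) - g.eval (⟨α, hαP⟩ : P) :=
    sub_dvd_eval_sub _ _ g
  rw [hgα, sub_zero] at h6
  obtain ⟨c, hc⟩ := h6
  have h7 : g.eval (⟨z, hzP⟩ : P) ∈ IsLocalRing.maximalIdeal P := by
    rw [hc]
    apply Ideal.mul_mem_right
    rw [← ValuationSubring.coe_mem_nonunits_iff]
    have h8 : (((⟨z, hzP⟩ : P) - ⟨α, hαP⟩ : P) : Qb) = -(α - z) := by
      show z - α = _
      ring
    rw [h8]
    exact neg_mem hαz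
  rw [← ValuationSubring.coe_mem_nonunits_iff] at h7
  have h9 : ((g.eval (⟨z, hzP⟩ : P) : P) : Qb) = (((f.eval zR : P.comap (algebraMap E Qb)) : E) : Qb) := by
    have h10 : g.eval (ι zR) = ι (f.eval zR) := eval_map_apply ι zR
    have h11 : ι zR = ⟨z, hzP⟩ := rfl
    rw [h11] at h10
    rw [h10]
    rfl
  rw [← h9]
  exact h7


end Fermat.Agent.A2.IF.H429

end
-- ===== PACK-END A2/IF/H429/Level.lean

-- ===== PACK-BEGIN A2/IF/H429/Good.lean
section



/-!
# A2 / IF (helper429): finite levels over the inertia field are discretely valued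

`E₁` a finite extension of the inertia field `E_I = ℚ̄^{I_P}` inside `ℚ̄`.  Then
`P ∩ E₁` is a discrete valuation ring.  The level `level P S = E_I(conjugates of S)` is stable
under the inertia group.
-/

set_option autoImplicit false
set_option linter.style.haveILetI false
set_option linter.unusedSectionVars false

open scoped Pointwise
open Polynomial

namespace Fermat.Agent.A2.IF.H429

open Fermat.Agent.S55.Bridge Fermat.Agent.S55.Bridge.H594

attribute [local instance] isAlgebraic_Qbar isGalois_Qbar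

local notation "Qb" => AlgebraicClosure ℚ

variable (P : ValuationSubring Qb)

theorem valuation_natCast_lt_one (q : ℕ) (hP : P.LiesOverPrime q) :
    P.valuation (q : Qb) < 1 := by
  have h : (q : Qb) ∈ P.nonunits := hP
  rwa [ValuationSubring.mem_nonunits_iff] at h

theorem valuation_natCast_ne_zero (q : ℕ) (hq : q.Prime) : P.valuation (q : Qb) ≠ 0 := by
  rw [Valuation.ne_zero_iff]
  exact_mod_cast hq.ne_zero

/-- Conjugates over the inertia field have the same valuation. -/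
theorem valuation_eq_of_root_minpoly (x r : Qb)
    (hr : aeval r (minpoly (inertiaField P) x) = 0) : P.valuation r = P.valuation x := by
  haveI : IsGalois (inertiaField P) Qb := IsGalois.tower_top_of_isGalois ℚ (inertiaField P) Qb
  haveI : Normal (inertiaField P) Qb := IsGalois.to_normal
  have hx : IsAlgebraic (inertiaField P) x := Algebra.IsAlgebraic.isAlgebraic x
  obtain ⟨σ, hσ⟩ := minpoly.exists_algEquiv_of_root hx hr
  have h1 := valuation_map_eq_of_fixes P (inertiaField P) le_rfl (σ.restrictScalars ℚ)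
    (fun e he => σ.commutes ⟨e, he⟩) r
  rw [← hσ]
  exact h1.symm

/-- For `x` in a finite extension `E₁` of the inertia field, `x ^ [E₁ : E_I]!` has the value of a
power of `q`. -/
theorem exists_pow_valuation_eq (q : ℕ) (hq : q.Prime) (hP : P.LiesOverPrime q)
    (E₁ : IntermediateField (inertiaField P) Qb) [FiniteDimensional (inertiaField P) E₁]
    (x : Qb) (hx : x ∈ E₁) (hx0 : x ≠ 0) :
    ∃ k : ℤ, P.valuation (x ^ (Module.finrank (inertiaField P) E₁).factorial) =
      P.valuation (q : Qb) ^ k := by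
  have hxint : IsIntegral (inertiaField P) x := Algebra.IsIntegral.isIntegral x
  set p := minpoly (inertiaField P) x with hp
  have hd0 : 0 < p.natDegree := minpoly.natDegree_pos hxint
  have hd : p.natDegree ≤ Module.finrank (inertiaField P) E₁ := by
    have h1 := minpoly.natDegree_le (A := inertiaField P) (⟨x, hx⟩ : E₁)
    rw [IntermediateField.minpoly_eq] at h1
    exact h1
  have hpm : p.Monic := minpoly.monic hxint
  have hc0 : p.coeff 0 ≠ 0 := minpoly.coeff_zero_ne_zero hxint hx0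
  -- the value of the constant coefficient
  have hval : P.valuation ((p.coeff 0 : inertiaField P) : Qb) = P.valuation x ^ p.natDegree := by
    have hsplit : (p.map (algebraMap (inertiaField P) Qb)).Splits := IsAlgClosed.splits _
    have h1 := hsplit.coeff_zero_eq_prod_roots_of_monic (hpm.map _)
    rw [coeff_map] at h1
    have h2 : algebraMap (inertiaField P) Qb (p.coeff 0) = ((p.coeff 0 : inertiaField P) : Qb) :=
      rfl
    rw [h2] at h1
    rw [h1, map_mul, map_pow, Valuation.map_neg, map_one, one_pow, one_mul, map_multiset_prod]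
    have h3 : (p.map (algebraMap (inertiaField P) Qb)).roots.map P.valuation =
        Multiset.replicate (p.map (algebraMap (inertiaField P) Qb)).roots.card
          (P.valuation x) := by
      rw [Multiset.eq_replicate]
      refine ⟨Multiset.card_map _ _, fun b hb => ?_⟩
      obtain ⟨r, hr, rfl⟩ := Multiset.mem_map.mp hb
      apply valuation_eq_of_root_minpoly P x r
      have h4 := isRoot_of_mem_roots hr
      rw [IsRoot, eval_map, ← aeval_def] at h4
      exact h4
    rw [h3, Multiset.prod_replicate, ← hsplit.natDegree_eq_card_roots, hpm.natDegree_map]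
  obtain ⟨k, hk⟩ := exists_zpow_of_mem_inertiaField P q hq hP
    ((p.coeff 0 : inertiaField P) : Qb) (p.coeff 0).2
    (fun h => hc0 (Subtype.ext h))
  rw [map_div₀, map_zpow₀] at hk
  have hqv : P.valuation (q : Qb) ^ k ≠ 0 :=
    zpow_ne_zero k (valuation_natCast_ne_zero P q hq)
  have hk' : P.valuation ((p.coeff 0 : inertiaField P) : Qb) = P.valuation (q : Qb) ^ k :=
    (div_eq_one_iff_eq hqv).mp hk
  obtain ⟨e, he⟩ := Nat.dvd_factorial hd0 hd
  refine ⟨k * e, ?_⟩
  rw [he, map_pow, pow_mul, ← hval, hk', zpow_mul, zpow_natCast]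

/-- `P ∩ E` is a discrete valuation ring when every element of `E` has, after raising to a fixed
power `N`, the value of a power of `q`. -/
theorem isDiscreteValuationRing_RE_of_pow (q : ℕ) (hq : q.Prime) (hP : P.LiesOverPrime q)
    (E : IntermediateField ℚ Qb) (N : ℕ) (hN : 0 < N)
    (h : ∀ x : Qb, x ∈ E → x ≠ 0 → ∃ k : ℤ, P.valuation (x ^ N) = P.valuation (q : Qb) ^ k) :
    IsDiscreteValuationRing (P.comap (algebraMap E Qb)) := by
  have hqlt := valuation_natCast_lt_one P q hP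
  have hq0 := valuation_natCast_ne_zero P q hq
  have hqpos : 0 < P.valuation (q : Qb) := zero_lt_iff.mpr hq0
  have hcoe : ∀ n : ℕ, ((((n : ℕ) : P.comap (algebraMap E Qb)) : E) : Qb) = (n : Qb) := by
    intro n
    simp
  refine isDiscreteValuationRing_of_pow_associated
    ((q : ℕ) : P.comap (algebraMap E Qb)) ?_ ?_ N hN ?_
  · intro h0
    have h1 := hcoe q
    rw [h0] at h1
    have h2 : (q : Qb) = 0 := by
      rw [← h1]; rfl
    exact hq.ne_zero (by exact_mod_cast h2)
  · intro hu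
    have h1 : ((q : ℕ) : P.comap (algebraMap E Qb)) ∈
        IsLocalRing.maximalIdeal (P.comap (algebraMap E Qb)) := by
      rw [mem_maximalIdeal_RE_iff, hcoe]
      exact hP
    exact (IsLocalRing.mem_maximalIdeal _).mp h1 hu
  · intro x hx
    have hxE : ((x : E) : Qb) ∈ E := (x : E).2
    have hx0 : ((x : E) : Qb) ≠ 0 := by
      intro h0
      apply hx
      apply Subtype.ext
      apply Subtype.ext
      exact h0
    have hxP : ((x : E) : Qb) ∈ P := x.2
    obtain ⟨k, hk⟩ := h _ hxE hx0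
    -- `k ≥ 0`
    have hle : P.valuation (((x : E) : Qb) ^ N) ≤ 1 :=
      (P.valuation_le_one_iff _).mpr (pow_mem hxP N)
    have hk0 : 0 ≤ k := by
      by_contra hneg
      rw [not_le] at hneg
      have h1 : 1 < P.valuation (q : Qb) ^ k := by
        obtain ⟨m, hm⟩ : ∃ m : ℕ, k = -((m : ℤ) + 1) := ⟨(-k - 1).toNat, by omega⟩
        rw [hm, zpow_neg]
        have h2 : P.valuation (q : Qb) ^ ((m : ℤ) + 1) < 1 := by
          have : P.valuation (q : Qb) ^ ((m : ℤ) + 1) = P.valuation (q : Qb) ^ (m + 1) := by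
            exact_mod_cast zpow_natCast (P.valuation (q : Qb)) (m + 1)
          rw [this]
          exact pow_lt_one₀ zero_le hqlt (Nat.succ_ne_zero m)
        have h3 : 0 < P.valuation (q : Qb) ^ ((m : ℤ) + 1) := zpow_pos hqpos _
        exact (one_lt_inv₀ h3).mpr h2
      rw [← hk] at h1
      exact absurd hle (not_le.mpr h1)
    obtain ⟨n, rfl⟩ := Int.eq_ofNat_of_zero_le hk0
    rw [zpow_natCast] at hk
    refine ⟨n, ?_⟩
    -- the unit
    let u : Qb := ((x : E) : Qb) ^ N / (q : Qb) ^ n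
    have huv : P.valuation u = 1 := by
      show P.valuation (((x : E) : Qb) ^ N / (q : Qb) ^ n) = 1
      rw [map_div₀, hk, map_pow]
      exact div_self (pow_ne_zero n hq0)
    have huE : u ∈ E := div_mem (pow_mem hxE N) (pow_mem (natCast_mem E q) n)
    have huP : u ∈ P := (P.valuation_le_one_iff _).mp huv.le
    let uR : P.comap (algebraMap E Qb) := ⟨⟨u, huE⟩, huP⟩
    have huR : IsUnit uR := by
      rw [← IsLocalRing.notMem_maximalIdeal, mem_maximalIdeal_RE_iff,
        ValuationSubring.mem_nonunits_iff]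
      show ¬ P.valuation u < 1
      rw [huv]
      exact lt_irrefl _
    have heq : x ^ N = ((q : ℕ) : P.comap (algebraMap E Qb)) ^ n * uR := by
      apply Subtype.ext
      apply Subtype.ext
      show ((x : E) : Qb) ^ N = ((((q : ℕ) : P.comap (algebraMap E Qb)) : E) : Qb) ^ n * u
      rw [hcoe]
      have hqn : (q : Qb) ^ n ≠ 0 := pow_ne_zero n (by exact_mod_cast hq.ne_zero)
      show ((x : E) : Qb) ^ N = (q : Qb) ^ n * (((x : E) : Qb) ^ N / (q : Qb) ^ n)
      field_simp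
    rw [heq]
    exact associated_mul_unit_left _ uR huR


/-- All conjugates over `ℚ` of the elements of a finite set. -/
noncomputable def conjSet (S : Finset Qb) : Set Qb := (∏ s ∈ S, minpoly ℚ s).rootSet Qb

theorem conjSet_prod_ne_zero (S : Finset Qb) : (∏ s ∈ S, minpoly ℚ s) ≠ 0 :=
  Finset.prod_ne_zero_iff.mpr fun s _ => minpoly.ne_zero (Algebra.IsIntegral.isIntegral s)

theorem conjSet_finite (S : Finset Qb) : (conjSet S).Finite := Polynomial.rootSet_finite _ _

theorem mem_conjSet_iff (S : Finset Qb) (x : Qb) :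
    x ∈ conjSet S ↔ aeval x (∏ s ∈ S, minpoly ℚ s) = 0 := by
  unfold conjSet
  rw [Polynomial.mem_rootSet]
  exact ⟨fun h => h.2, fun h => ⟨conjSet_prod_ne_zero S, h⟩⟩

theorem mem_conjSet (S : Finset Qb) {s : Qb} (hs : s ∈ S) : s ∈ conjSet S := by
  rw [mem_conjSet_iff, map_prod]
  exact Finset.prod_eq_zero hs (minpoly.aeval ℚ s)

theorem map_mem_conjSet (S : Finset Qb) (σ : Qb ≃ₐ[ℚ] Qb) {x : Qb} (hx : x ∈ conjSet S) :
    σ x ∈ conjSet S := by
  rw [mem_conjSet_iff] at hx ⊢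
  have := Polynomial.aeval_algHom_apply (σ : Qb →ₐ[ℚ] Qb) x (∏ s ∈ S, minpoly ℚ s)
  rw [hx, map_zero] at this
  exact this

/-- The level: the inertia field with all conjugates of `S` adjoined, over the inertia field. -/
noncomputable def level₁ (S : Finset Qb) : IntermediateField (inertiaField P) Qb :=
  IntermediateField.adjoin (inertiaField P) (conjSet S)

instance level₁_finiteDimensional (S : Finset Qb) :
    FiniteDimensional (inertiaField P) (level₁ P S) := by
  haveI : Finite (conjSet S) := (conjSet_finite S).to_subtype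
  exact IntermediateField.finiteDimensional_adjoin
    (fun x _ => Algebra.IsIntegral.isIntegral x)

/-- The level as an intermediate field of `ℚ̄/ℚ`. -/
noncomputable def level (S : Finset Qb) : IntermediateField ℚ Qb :=
  (level₁ P S).restrictScalars ℚ

theorem mem_level_iff (S : Finset Qb) (x : Qb) : x ∈ level P S ↔ x ∈ level₁ P S := Iff.rfl

theorem inertiaField_le_level (S : Finset Qb) : inertiaField P ≤ level P S := by
  intro x hx
  rw [mem_level_iff]
  exact (level₁ P S).algebraMap_mem ⟨x, hx⟩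

theorem mem_level_of_mem (S : Finset Qb) {s : Qb} (hs : s ∈ S) : s ∈ level P S := by
  rw [mem_level_iff]
  exact IntermediateField.subset_adjoin _ _ (mem_conjSet S hs)

/-- The level is stable under every automorphism fixing the inertia field pointwise. -/
theorem level_stable (S : Finset Qb) (τ : Qb ≃ₐ[ℚ] Qb)
    (hτ : ∀ e ∈ inertiaField P, τ e = e) {x : Qb} (hx : x ∈ level P S) : τ x ∈ level P S := by
  let τK : Qb ≃ₐ[inertiaField P] Qb :=
    { τ.toRingEquiv with commutes' := fun e => hτ (e : Qb) e.2 }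
  have hτK : ∀ y : Qb, τK y = τ y := fun _ => rfl
  have h1 : (level₁ P S).map (τK : Qb →ₐ[inertiaField P] Qb) ≤ level₁ P S := by
    unfold level₁
    rw [IntermediateField.adjoin_map]
    apply IntermediateField.adjoin.mono
    rintro _ ⟨y, hy, rfl⟩
    exact map_mem_conjSet S τ hy
  rw [mem_level_iff] at hx ⊢
  apply h1
  rw [IntermediateField.mem_map]
  exact ⟨x, hx, rfl⟩

theorem level_stable_inertia (S : Finset Qb) {τ : Qb ≃ₐ[ℚ] Qb}
    (hτ : τ ∈ P.inertiaSubgroupIn ℚ) {x : Qb} (hx : x ∈ level P S) : τ x ∈ level P S :=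
  level_stable P S τ (fun e he => (mem_inertiaField_iff P).mp he τ hτ) hx

/-- The level is discretely valued. -/
theorem isDiscreteValuationRing_level (q : ℕ) (hq : q.Prime) (hP : P.LiesOverPrime q)
    (S : Finset Qb) : IsDiscreteValuationRing (P.comap (algebraMap (level P S) Qb)) :=
  isDiscreteValuationRing_RE_of_pow P q hq hP (level P S)
    (Module.finrank (inertiaField P) (level₁ P S)).factorial (Nat.factorial_pos _)
    (fun x hx hx0 => exists_pow_valuation_eq P q hq hP (level₁ P S) x hx hx0)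


theorem iterate_eq_pow_apply (σ : Qb ≃ₐ[ℚ] Qb) (r : ℕ) (x : Qb) : (⇑σ)^[r] x = (σ ^ r) x := by
  induction r with
  | zero => rfl
  | succ n ih =>
    rw [Function.iterate_succ_apply', ih, pow_succ']
    rfl

theorem pow_mul_apply_eq (σ : Qb ≃ₐ[ℚ] Qb) (a b : ℕ) (x : Qb) (h : (σ ^ a) x = x) :
    (σ ^ (a * b)) x = x := by
  induction b with
  | zero => simp
  | succ n ih =>
    rw [Nat.mul_succ, pow_add]
    show (σ ^ (a * n)) ((σ ^ a) x) = x
    rw [h, ih]

/-- Some positive power of `σ` fixes every element of a finite set. -/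
theorem exists_pow_fixes_finset (σ : Qb ≃ₐ[ℚ] Qb) (T : Finset Qb) :
    ∃ r : ℕ, 0 < r ∧ ∀ x ∈ T, (σ ^ r) x = x := by
  classical
  induction T using Finset.induction_on with
  | empty => exact ⟨1, one_pos, fun x hx => absurd hx (Finset.notMem_empty x)⟩
  | insert a T _ ih =>
    obtain ⟨r, hr, hT⟩ := ih
    obtain ⟨k, hk⟩ := exists_pow_apply_eq σ a
    refine ⟨(k + 1) * r, Nat.mul_pos (Nat.succ_pos k) hr, fun x hx => ?_⟩
    rcases Finset.mem_insert.mp hx with rfl | hx
    · exact pow_mul_apply_eq σ (k + 1) r x hk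
    · rw [mul_comm]
      exact pow_mul_apply_eq σ r (k + 1) x (hT x hx)

/-- An automorphism fixing the inertia field and the conjugates of `S` fixes the level. -/
theorem level_fixed (S : Finset Qb) (ρ : Qb ≃ₐ[ℚ] Qb)
    (hρ : ∀ e ∈ inertiaField P, ρ e = e) (hS : ∀ x ∈ conjSet S, ρ x = x)
    {x : Qb} (hx : x ∈ level P S) : ρ x = x := by
  rw [mem_level_iff] at hx
  unfold level₁ at hx
  induction hx using IntermediateField.adjoin_induction with
  | mem x hx => exact hS x hx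
  | algebraMap x => exact hρ _ x.2
  | add x y _ _ hx hy => rw [map_add, hx, hy]
  | inv x _ hx => rw [map_inv₀, hx]
  | mul x y _ _ hx hy => rw [map_mul, hx, hy]

/-- Every element of the inertia group has finite order on the level. -/
theorem level_finite_order (S : Finset Qb) {τ : Qb ≃ₐ[ℚ] Qb}
    (hτ : τ ∈ P.inertiaSubgroupIn ℚ) :
    ∃ r : ℕ, 0 < r ∧ ∀ e : Qb, e ∈ level P S → (⇑τ)^[r] e = e := by
  obtain ⟨r, hr, hT⟩ := exists_pow_fixes_finset τ (conjSet_finite S).toFinset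
  refine ⟨r, hr, fun e he => ?_⟩
  rw [iterate_eq_pow_apply]
  apply level_fixed P S (τ ^ r) _ _ he
  · intro e he
    exact (mem_inertiaField_iff P).mp he (τ ^ r) (Subgroup.pow_mem _ hτ r)
  · intro x hx
    exact hT x ((conjSet_finite S).mem_toFinset.mpr hx)


end Fermat.Agent.A2.IF.H429

end
-- ===== PACK-END A2/IF/H429/Good.lean

-- ===== PACK-BEGIN A2/IF/H429/IF.lean
section



/-!
# A2 / IF (helper429): good levels exist

`ifStatement : IFStatement` is the interface IF of `Fermat/Agent/A2/Spec.lean` (v2, row-lead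
helper13); `exists_goodField` is the same statement with explicit binders (Skel form).
The good level is `level P S = ℚ̄^{I_P}(all ℚ-conjugates of S)`:

* stable under `I_P` (`level_stable_inertia`);
* `P ∩ E` is a discrete valuation ring (`isDiscreteValuationRing_level`: the inertia field is
  unramified — Hilbert theory at finite level, `Hilbert.lean` — and `[E : E_I] < ∞`);
* henselian (`henselian_RE`: a simple root is fixed by `Gal(ℚ̄/E)`);
* algebraically closed residue field (`isAlgClosed_residueField_RE`: Teichmüller lifts);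
* inertia acts trivially modulo the maximal ideal (definition of inertia);
* every inertia element has finite order on `E` (`level_finite_order`).
-/

set_option autoImplicit false

namespace Fermat.Agent.A2.IF.H429

open Fermat.Agent.A2

theorem goodField_level (q : ℕ) (hq : q.Prime) (P : ValuationSubring Qb)
    (hP : P.LiesOverPrime q) (S : Finset Qb) : GoodField P (level P S) where
  stable := fun _ hτ _ he => level_stable_inertia P S hτ he
  dvr := isDiscreteValuationRing_level P q hq hP S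
  henselian := henselian_RE P (level P S) (inertiaField_le_level P S)
  algClosed := isAlgClosed_residueField_RE P (level P S) q hq hP (inertiaField_le_level P S)
  trivial_mod := fun _ hτ _ _ heP => sub_mem_nonunits_of_inertia P hτ heP
  finite_order := fun _ hτ => level_finite_order P S hτ

/-- **IF** (Skel form).  Every finite set of algebraic numbers lies in a good level for `P`. -/
theorem exists_goodField (q : ℕ) (hq : q.Prime) (P : ValuationSubring Qb)
    (hP : P.LiesOverPrime q) (S : Finset Qb) :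
    ∃ E : IntermediateField ℚ Qb, (∀ s ∈ S, s ∈ E) ∧ GoodField P E :=
  ⟨level P S, fun _ hs => mem_level_of_mem P S hs, goodField_level q hq P hP S⟩

/-- **IF** (interface statement of `Spec.lean`). -/
theorem ifStatement : IFStatement :=
  fun q hq P hP S => exists_goodField q hq P hP S

end Fermat.Agent.A2.IF.H429

end
-- ===== PACK-END A2/IF/H429/IF.lean

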