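import Fermat.Agent.Pack.S34.G0E3L3
import Fermat.Agent.Pack.S34.G0E0L3
import Fermat.Agent.Pack.S34.G0E11L0
import Fermat.Agent.Pack.S34.G0E5L0
import Fermat.Agent.Pack.S34.G0E11L2
import Fermat.Agent.Pack.S34.G0E9L1
import Fermat.Agent.Pack.S34.G0E3L0
import Fermat.Agent.Pack.S34.G0E5L2
import Fermat.Agent.Pack.S34.G0E8L1
import Fermat.Agent.Pack.S34.G0E3L1
import Fermat.Agent.Pack.S34.G0E9L2
import Fermat.Agent.Pack.S34.G0E1L3

-- ===== PACK-BEGIN S29/M4b/Defs.lean
section
/-
S29 row, LAYER M, SUB-LAYER M4b (the Kummer map) — FROZEN interface definitions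
(sub-architect: deputy helper822).  Namespace `Fermat.Agent.S29.M4b`.
Do not edit; propose changes via a note kind='question' stmt='S29'.

The relation `IsKum N p c x` ("`x` is the Kummer class of the character `c`"):
`x = [D]`, `p • D = div f` (landed `H455.IsKummerClass`), and after clearing poles by a `p`-th power
`t ^ p` the function `f * t ^ p` is the `p`-th power of a holomorphic `U : ℍ → ℂ` which transforms
under `Γ₀(N)` by the character `γ ↦ ζ_p ^ c(γ)`.

"Analytic realisation" = equality of `q`-expansions at `i∞` (landed S24 / H882 language):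
`G` realises `u ∈ FF N` iff `G ∈ S24.H648.goodRing N` (holomorphic, `Γ₀(N)`-invariant, all
`SL₂(ℤ)`-translates of at most exponential growth) and `qexpFun 1 G = coeffMap iotaC u`.
-/




set_option autoImplicit false

noncomputable section

open ModularCurve AlgebraicCurve CongruenceSubgroup UpperHalfPlane
open scoped MatrixGroups Manifold

namespace Fermat.Agent.S29.M4b

open Fermat.Agent.S24 Fermat.Agent.S29

/-- The fixed primitive `p`-th root of unity `exp(2πi/p)`. -/
def zetaP (p : ℕ) : ℂ := Complex.exp (2 * Real.pi * Complex.I / p)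

/-- `G : ℍ → ℂ` realises `u ∈ FF N = ℚ̄(j(q^d) : d ∣ N)`: `G` is a "good" function (holomorphic on
`ℍ`, `Γ₀(N)`-invariant, exponential growth at all cusps) whose `q`-expansion at `i∞` is `u`, the
coefficients being embedded by the fixed `Deg457.iotaC : ℚ̄ → ℂ`. -/
def Realises (N : ℕ) [NeZero N] (u : FF N) (G : ℍ → ℂ) : Prop :=
  G ∈ H648.goodRing N ∧
    H708.qexpFun 1 G = coeffMap Deg457.iotaC ((u : FF N) : LaurentSeries Kbar)

/-- `U` transforms under `Γ₀(N)` by the character `γ ↦ ζ_p ^ c(γ)`. -/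
def HasChar (N p : ℕ) (c : G0 N → ZMod p) (U : ℍ → ℂ) : Prop :=
  ∀ (γ : G0 N) (τ : ℍ), U ((γ : SL(2, ℤ)) • τ) = zetaP p ^ (c γ).val * U τ

/-- `U` is a twisted function of character `c`: holomorphic on `ℍ`, not identically zero, of
character `c`, with `U ^ p` good (i.e. `U` has at most exponential growth at every cusp). -/
structure IsTwisted (N p : ℕ) (c : G0 N → ZMod p) (U : ℍ → ℂ) : Prop where
  mdiff : MDifferentiable 𝓘(ℂ) 𝓘(ℂ) U
  ne_zero : ∃ τ : ℍ, U τ ≠ 0
  hasChar : HasChar N p c U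
  pow_mem : (fun τ => U τ ^ p) ∈ H648.goodRing N

/-- **The Kummer relation.**  `x ∈ J₀(N)(ℚ̄)` is the Kummer class of the character `c`. -/
def IsKum (N p : ℕ) [NeZero N] (c : G0 N → ZMod p) (x : JZero N) : Prop :=
  ∃ (f t : FF N) (U : ℍ → ℂ), t ≠ 0 ∧ H455.IsKummerClass (p : ℤ) f x ∧
    IsTwisted N p c U ∧ Realises N (f * t ^ p) (fun τ => U τ ^ p)

/-- `c'` is the transfer (= Hecke image `T_ℓ c`) of `c`: `c'(γ) = ∑ᵢ c(δᵢ)` for EVERY
factorisation `αᵢ γ = δᵢ α_{π i}` (`αᵢ = heckeRep ℓ i` of `DefsM`).  For `ℓ ∤ N` prime the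
factorisation exists and is unique (piece `HCoh`), so `c' = heckeCoh N ℓ c`. -/
def IsTransfer (N ℓ : ℕ) {A : Type*} [AddCommMonoid A] (c c' : G0 N → A) : Prop :=
  ∀ (γ : G0 N) (π : Option (Fin ℓ) → Option (Fin ℓ)) (δ : Option (Fin ℓ) → G0 N),
    (∀ i, IsHeckeFactor ℓ γ i (π i, δ i)) → c' γ = ∑ i, c (δ i)

end Fermat.Agent.S29.M4b

end
end
-- ===== PACK-END S29/M4b/Defs.lean

-- ===== PACK-BEGIN S30/H450/KumCompat.lean
section
/-
S30 (p-adic version), helper450: the Kummer relation of S29 sub-layer M4b (`M4b.IsKum`, frozen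
definitions of helper822, general modulus) is compatible with change of modulus.

* `isKum_red`  : REDUCTION.  `IsKum N (m * d) c x → IsKum N m (c mod m) (d • x)`
  (data `(f, t, U) ↦ (f, t ^ d, U ^ d)`).
* `isKum_infl` : INFLATION.  `IsKum N m c x → IsKum N (m * d) (d * c) x`
  (data `(f, t, U) ↦ (f ^ d, t, U)`).

Everything here is formal: no analysis beyond `ζ_{md} ^ d = ζ_m`.
-/


set_option autoImplicit false

noncomputable section

open ModularCurve AlgebraicCurve CongruenceSubgroup UpperHalfPlane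
open scoped MatrixGroups Manifold

namespace Fermat.Agent.S30.H450

open Fermat.Agent.S24 Fermat.Agent.S29 Fermat.Agent.S29.M4b

/-! ### Roots of unity -/

theorem zetaP_pow_self (m : ℕ) (hm : m ≠ 0) : zetaP m ^ m = 1 := by
  unfold zetaP
  rw [← Complex.exp_nat_mul]
  have hm' : (m : ℂ) ≠ 0 := by exact_mod_cast hm
  have : (m : ℂ) * (2 * Real.pi * Complex.I / m) = 2 * Real.pi * Complex.I := by
    field_simp
  rw [this, Complex.exp_two_pi_mul_I]

theorem zetaP_mul_pow (m d : ℕ) (hd : d ≠ 0) : zetaP (m * d) ^ d = zetaP m := by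
  unfold zetaP
  rw [← Complex.exp_nat_mul]
  congr 1
  have hd' : (d : ℂ) ≠ 0 := by exact_mod_cast hd
  by_cases hm : m = 0
  · subst hm
    simp
  have hm' : (m : ℂ) ≠ 0 := by exact_mod_cast hm
  push_cast
  field_simp

theorem zetaP_pow_mod (m : ℕ) (hm : m ≠ 0) (a : ℕ) : zetaP m ^ (a % m) = zetaP m ^ a := by
  conv_rhs => rw [← Nat.mod_add_div a m]
  rw [pow_add, pow_mul, zetaP_pow_self m hm, one_pow, mul_one]

/-! ### Reduction and inflation of characters -/

/-- Reduction of a character modulo a divisor of the modulus. -/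
def redChar {N m m' : ℕ} (h : m ∣ m') (c : G0 N → ZMod m') : G0 N → ZMod m :=
  fun γ => ZMod.castHom h (ZMod m) (c γ)

/-- Inflation of a character: `ZMod m → ZMod (m * d)`, `a ↦ d * a` (on representatives). -/
def inflChar {N : ℕ} (m d : ℕ) (c : G0 N → ZMod m) : G0 N → ZMod (m * d) :=
  fun γ => ((d * (c γ).val : ℕ) : ZMod (m * d))

theorem isParHom_redChar {N m m' : ℕ} (h : m ∣ m') {c : G0 N → ZMod m'} (hc : IsParHom c) :
    IsParHom (redChar h c) where
  map_mul γ γ' := by
    simp only [redChar, hc.map_mul, map_add]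
  parabolic γ hγ := by
    simp only [redChar, hc.parabolic γ hγ, map_zero]
  elliptic γ n hn hγ := by
    simp only [redChar, hc.elliptic γ n hn hγ, map_zero]

theorem redChar_add {N m m' : ℕ} (h : m ∣ m') (c c' : G0 N → ZMod m') :
    redChar h (c + c') = redChar h c + redChar h c' := by
  funext γ
  simp only [redChar, Pi.add_apply, map_add]

theorem val_redChar {N m m' : ℕ} [NeZero m'] (h : m ∣ m') (c : G0 N → ZMod m') (γ : G0 N) :
    (redChar h c γ).val = (c γ).val % m := by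
  unfold redChar
  have h1 : ZMod.castHom h (ZMod m) (c γ) = (((c γ).val : ℕ) : ZMod m) := by
    conv_lhs => rw [← ZMod.natCast_zmod_val (c γ)]
    rw [map_natCast]
  rw [h1, ZMod.val_natCast]

/-! ### Kummer classes under change of modulus (Prelude language) -/

section Alg

variable {K F : Type*} [Field K] [Field F] [Algebra K F]

theorem isKummerClass_red {m d : ℕ} {f : F} {x : Pic0 K F}
    (h : H455.IsKummerClass ((m * d : ℕ) : ℤ) f x) :
    H455.IsKummerClass (m : ℤ) f (d • x) := by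
  obtain ⟨hf, D, rfl, hD⟩ := h
  refine ⟨hf, d • D, rfl, fun v => ?_⟩
  rw [← hD v]
  simp only [AddSubmonoidClass.coe_nsmul, Finsupp.smul_apply, nsmul_eq_mul]
  push_cast
  ring

theorem isKummerClass_infl {m d : ℕ} {f : F} {x : Pic0 K F}
    (h : H455.IsKummerClass (m : ℤ) f x) :
    H455.IsKummerClass ((m * d : ℕ) : ℤ) (f ^ d) x := by
  obtain ⟨hf, D, rfl, hD⟩ := h
  refine ⟨pow_ne_zero d hf, D, rfl, fun v => ?_⟩
  rw [← zpow_natCast, Place.ord_zpow, ← hD v]
  push_cast
  ring

end Alg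

/-! ### The analytic part -/

section An

variable {N : ℕ}

theorem isTwisted_red {m d : ℕ} [NeZero m] [NeZero d] {c : G0 N → ZMod (m * d)} {U : ℍ → ℂ}
    (hU : IsTwisted N (m * d) c U) :
    IsTwisted N m (redChar (Dvd.intro d rfl) c) (fun τ => U τ ^ d) where
  mdiff := hU.mdiff.pow d
  ne_zero := by
    obtain ⟨τ, hτ⟩ := hU.ne_zero
    exact ⟨τ, pow_ne_zero d hτ⟩
  hasChar := by
    intro γ τ
    have : NeZero (m * d) := ⟨Nat.mul_ne_zero (NeZero.ne m) (NeZero.ne d)⟩
    beta_reduce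
    rw [hU.hasChar γ τ, mul_pow, ← pow_mul, mul_comm (c γ).val d, pow_mul,
      zetaP_mul_pow m d (NeZero.ne d), val_redChar, zetaP_pow_mod m (NeZero.ne m)]
  pow_mem := by
    have h := hU.pow_mem
    have e : (fun τ => (U τ ^ d) ^ m) = fun τ => U τ ^ (m * d) := by
      funext τ
      rw [← pow_mul, mul_comm]
    rw [e]
    exact h

variable [NeZero N]

theorem realises_red {m d : ℕ} {f t : FF N} {U : ℍ → ℂ}
    (h : Realises N (f * t ^ (m * d)) (fun τ => U τ ^ (m * d))) :
    Realises N (f * (t ^ d) ^ m) (fun τ => (U τ ^ d) ^ m) := by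
  have e : (fun τ => (U τ ^ d) ^ m) = fun τ => U τ ^ (m * d) := by
    funext τ
    rw [← pow_mul, mul_comm]
  have e' : f * (t ^ d) ^ m = f * t ^ (m * d) := by
    rw [← pow_mul, mul_comm d m]
  rw [e, e']
  exact h

/-- **REDUCTION.**  If `x` is the Kummer class of `c` for the modulus `m * d`, then `d • x` is the
Kummer class of `c mod m` for the modulus `m`. -/
theorem isKum_red {m d : ℕ} [NeZero m] [NeZero d] {c : G0 N → ZMod (m * d)} {x : JZero N}
    (h : IsKum N (m * d) c x) :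
    IsKum N m (redChar (Dvd.intro d rfl) c) (d • x) := by
  obtain ⟨f, t, U, ht, hx, hU, hR⟩ := h
  exact ⟨f, t ^ d, fun τ => U τ ^ d, pow_ne_zero d ht, isKummerClass_red hx, isTwisted_red hU,
    realises_red hR⟩

/-- Variant of `isKum_red` with a propositional equality of moduli (e.g. `p ^ (n+1) = p ^ n * p`). -/
theorem isKum_red' {m m' d : ℕ} [NeZero m] [NeZero d] (hm : m' = m * d) (hdvd : m ∣ m')
    {c : G0 N → ZMod m'} {x : JZero N} (h : IsKum N m' c x) :
    IsKum N m (redChar hdvd c) (d • x) := by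
  subst hm
  exact isKum_red h

theorem realises_pow {u : FF N} {G : ℍ → ℂ} (h : Realises N u G) (d : ℕ) :
    Realises N (u ^ d) (fun τ => G τ ^ d) := by
  obtain ⟨h1, h2⟩ := h
  have hq : H708.HasQExp 1 G (coeffMap Deg457.iotaC ((u : FF N) : LaurentSeries Kbar)) :=
    h2 ▸ H882.hasQExp_of_mem_goodRing h1
  have hG : (fun τ => G τ ^ d) = G ^ d := rfl
  refine ⟨hG ▸ (H648.goodRing N).pow_mem h1 d, ?_⟩
  rw [hG, (hq.pow d).qexpFun_eq]
  rw [IntermediateField.coe_pow, map_pow]

omit [NeZero N] in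
theorem zetaP_pow_val_inflChar {m d : ℕ} [NeZero m] [NeZero d] (c : G0 N → ZMod m) (γ : G0 N) :
    zetaP (m * d) ^ (inflChar m d c γ).val = zetaP m ^ (c γ).val := by
  have hmd : m * d ≠ 0 := Nat.mul_ne_zero (NeZero.ne m) (NeZero.ne d)
  have : NeZero (m * d) := ⟨hmd⟩
  unfold inflChar
  rw [ZMod.val_natCast, zetaP_pow_mod (m * d) hmd, pow_mul, zetaP_mul_pow m d (NeZero.ne d)]

/-- **INFLATION.**  If `x` is the Kummer class of `c` for the modulus `m`, then `x` is the Kummer
class of `d * c` for the modulus `m * d`. -/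
theorem isKum_infl {m d : ℕ} [NeZero m] [NeZero d] {c : G0 N → ZMod m} {x : JZero N}
    (h : IsKum N m c x) : IsKum N (m * d) (inflChar m d c) x := by
  obtain ⟨f, t, U, ht, hx, hU, hR⟩ := h
  have e : (fun τ => U τ ^ (m * d)) = fun τ => (U τ ^ m) ^ d := by
    funext τ
    rw [pow_mul]
  refine ⟨f ^ d, t, U, ht, isKummerClass_infl hx, ⟨hU.mdiff, hU.ne_zero, fun γ τ => ?_, ?_⟩, ?_⟩
  · rw [zetaP_pow_val_inflChar]
    exact hU.hasChar γ τ
  · rw [e]
    exact (realises_pow hR d).1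
  · have e' : f ^ d * t ^ (m * d) = (f * t ^ m) ^ d := by
      rw [mul_pow, pow_mul]
    rw [e, e']
    exact realises_pow hR d

end An

end Fermat.Agent.S30.H450

end
end
-- ===== PACK-END S30/H450/KumCompat.lean

-- ===== PACK-BEGIN S30/H450/KumTower.lean
section
/-
S30 (p-adic version), helper450: the KUMMER TOWER from the pieces of S29 sub-layer M4b.

* `KumPackage N m` : the pieces of helper822's `M4b/Skeleton.lean` at the modulus `m`
  (existence, uniqueness, injectivity, additivity, Hecke-equivariance of `M4b.IsKum N m`).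
* `KumPackage.of_skeleton` : the package from statements in the EXACT shapes of the M4b skeleton
  (the Hecke piece is converted with the landed `HCoh` facts of helper149).
* `exists_kummerTower_of` : the conclusion of helper49's `SkeletonLat.exists_kummerTower`
  (maps `κ n` on characters mod `p ^ n`, additive, injective, `p • κ (n+1) c = κ n (c mod p ^ n)`,
  Hecke-equivariant), from `KumPackage N (p ^ n)` for all `n`; the tower compatibility is
  `isKum_red` of `KumCompat.lean`.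
-/



set_option autoImplicit false

noncomputable section

open ModularCurve AlgebraicCurve CongruenceSubgroup UpperHalfPlane
open scoped MatrixGroups Manifold

namespace Fermat.Agent.S30.H450

open Fermat.Agent.S24 Fermat.Agent.S29 Fermat.Agent.S29.M4b

/-- The pieces of S29 sub-layer M4b at the modulus `m`. -/
structure KumPackage (N m : ℕ) [NeZero N] : Prop where
  ex : ∀ c : G0 N → ZMod m, IsParHom c → ∃ x : JZero N, IsKum N m c x
  uniq : ∀ (c : G0 N → ZMod m) (x x' : JZero N), IsKum N m c x → IsKum N m c x' → x = x'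
  inj : ∀ c : G0 N → ZMod m, IsKum N m c (0 : JZero N) → c = 0
  add : ∀ (c c' : G0 N → ZMod m) (x x' : JZero N),
    IsKum N m c x → IsKum N m c' x' → IsKum N m (c + c') (x + x')
  hecke : ∀ ℓ : Nat.Primes, ¬ (ℓ : ℕ) ∣ N * m → ∀ (c : G0 N → ZMod m) (x : JZero N),
    IsParHom c → IsKum N m c x → IsKum N m (heckeCoh N ℓ c) (heckeOperatorBar N ℓ x)

section Skeleton

variable {N : ℕ} [NeZero N]

omit [NeZero N] in
/-- The transfer of `c` is `heckeCoh N ℓ c` (for `ℓ ∤ N` prime; landed `HCoh`). -/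
theorem isTransfer_heckeCoh_h450 {ℓ : ℕ} (hℓ : ℓ.Prime) (hℓN : ¬ ℓ ∣ N) {A : Type*}
    [AddCommMonoid A] (c : G0 N → A) : IsTransfer N ℓ c (heckeCoh N ℓ c) := by
  intro γ π δ hfac
  unfold heckeCoh
  refine Finset.sum_congr rfl fun i _ => ?_
  rw [H149.HCoh_heckeFac_unique hℓ hℓN (hfac i)]

omit [NeZero N] in
/-- Existence of the Hecke factorisation with a permutation of the indices (landed `HCoh`). -/
theorem exists_perm_factor_h450 {ℓ : ℕ} (hℓ : ℓ.Prime) (hℓN : ¬ ℓ ∣ N) (γ : G0 N) :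
    ∃ (π : Equiv.Perm (Option (Fin ℓ))) (δ : Option (Fin ℓ) → G0 N),
      ∀ i, IsHeckeFactor ℓ γ i (π i, δ i) :=
  ⟨H149.HCoh_perm (H149.HCoh_isFactorSystem hℓ hℓN) γ, fun i => (heckeFac N ℓ γ i).2,
    fun i => H149.HCoh_heckeFac_spec hℓ hℓN γ i⟩

/-- The package at the modulus `m` from statements in the EXACT shapes of
`Fermat/Agent/S29/M4b/Skeleton.lean` (`isKum_exists`, `isKum_unique`, `isKum_zero_right`,
`isKum_add`, `isKum_hecke`). -/
theorem KumPackage.of_skeleton {m : ℕ}
    (hex : ∀ {c : G0 N → ZMod m}, IsParHom c → ∃ x : JZero N, IsKum N m c x)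
    (huniq : ∀ {c : G0 N → ZMod m} {x x' : JZero N}, IsKum N m c x → IsKum N m c x' → x = x')
    (hinj : ∀ {c : G0 N → ZMod m}, IsKum N m c (0 : JZero N) → c = 0)
    (hadd : ∀ {c c' : G0 N → ZMod m} {x x' : JZero N},
      IsKum N m c x → IsKum N m c' x' → IsKum N m (c + c') (x + x'))
    (hhecke : ∀ (ℓ : Nat.Primes), ¬ (ℓ : ℕ) ∣ N * m →
      (∀ γ : G0 N, ∃ (π : Equiv.Perm (Option (Fin (ℓ : ℕ)))) (δ : Option (Fin (ℓ : ℕ)) → G0 N),
        ∀ i, IsHeckeFactor (ℓ : ℕ) γ i (π i, δ i)) →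
      ∀ {c c' : G0 N → ZMod m}, IsParHom c → IsTransfer N (ℓ : ℕ) c c' →
      ∀ {x : JZero N}, IsKum N m c x → IsKum N m c' (heckeOperatorBar N ℓ x)) :
    KumPackage N m where
  ex _ hc := hex hc
  uniq _ _ _ h h' := huniq h h'
  inj _ h := hinj h
  add _ _ _ _ h h' := hadd h h'
  hecke ℓ hℓ c x hc h := by
    have hℓN : ¬ (ℓ : ℕ) ∣ N := fun hd => hℓ (Dvd.dvd.mul_right hd m)
    exact hhecke ℓ hℓ (exists_perm_factor_h450 ℓ.2 hℓN) hc
      (isTransfer_heckeCoh_h450 ℓ.2 hℓN c) h

end Skeleton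

section Tower

variable (N : ℕ) [NeZero N] (p : ℕ)

open Classical in
/-- The Kummer tower: `kumTower N p n c` is THE Kummer class of the character `c` mod `p ^ n`
(and `0` if there is none). -/
def kumTower (n : ℕ) (c : G0 N → ZMod (p ^ n)) : JZero N :=
  if h : ∃ x : JZero N, IsKum N (p ^ n) c x then h.choose else 0

variable {N p}

theorem isKum_kumTower (H : ∀ n, KumPackage N (p ^ n)) {n : ℕ} {c : G0 N → ZMod (p ^ n)}
    (hc : IsParHom c) : IsKum N (p ^ n) c (kumTower N p n c) := by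
  have h := (H n).ex c hc
  rw [kumTower, dif_pos h]
  exact h.choose_spec

theorem kumTower_eq (H : ∀ n, KumPackage N (p ^ n)) {n : ℕ} {c : G0 N → ZMod (p ^ n)}
    {x : JZero N} (h : IsKum N (p ^ n) c x) : kumTower N p n c = x := by
  have h' : ∃ x : JZero N, IsKum N (p ^ n) c x := ⟨x, h⟩
  rw [kumTower, dif_pos h']
  exact (H n).uniq c _ _ h'.choose_spec h

theorem not_dvd_mul_pow {ℓ : ℕ} (hℓ : ℓ.Prime) {N p : ℕ} (h : ¬ ℓ ∣ N * p) (n : ℕ) :
    ¬ ℓ ∣ N * p ^ n := by
  intro hd
  rcases (Nat.Prime.dvd_mul hℓ).1 hd with h1 | h1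
  · exact h (Dvd.dvd.mul_right h1 p)
  · exact h (Dvd.dvd.mul_left (hℓ.dvd_of_dvd_pow h1) N)

/-- **The Kummer tower** (conclusion of helper49's `SkeletonLat.exists_kummerTower`, with the
extra information that `κ n c` IS the Kummer class of `c`), from the M4b pieces at all moduli
`p ^ n`. -/
theorem exists_kummerTower_isKum_of [NeZero p] (H : ∀ n, KumPackage N (p ^ n)) :
    ∃ κ : (n : ℕ) → (G0 N → ZMod (p ^ n)) → JZero N,
      (∀ n c, IsParHom c → IsKum N (p ^ n) c (κ n c)) ∧
      (∀ n c c', IsParHom c → IsParHom c' → κ n (c + c') = κ n c + κ n c') ∧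
      (∀ n c, IsParHom c → κ n c = 0 → c = 0) ∧
      (∀ (n : ℕ) (c : G0 N → ZMod (p ^ (n + 1))), IsParHom c →
        (p : ℤ) • κ (n + 1) c =
          κ n (fun γ => ZMod.castHom (pow_dvd_pow p (Nat.le_succ n)) (ZMod (p ^ n)) (c γ))) ∧
      (∀ ℓ : Nat.Primes, ¬ (ℓ : ℕ) ∣ N * p → ∀ n c, IsParHom c →
        κ n (heckeCoh N ℓ c) = heckeOperatorBar N ℓ (κ n c)) := by
  refine ⟨kumTower N p, fun n c hc => isKum_kumTower H hc, fun n c c' hc hc' => ?_,
    fun n c hc h0 => ?_, fun n c hc => ?_, fun ℓ hℓ n c hc => ?_⟩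
  · exact kumTower_eq H ((H n).add c c' _ _ (isKum_kumTower H hc) (isKum_kumTower H hc'))
  · have h := isKum_kumTower H hc
    rw [h0] at h
    exact (H n).inj c h
  · have h := isKum_kumTower H hc
    have h1 := isKum_red' (m := p ^ n) (d := p) (pow_succ p n)
      (pow_dvd_pow p (Nat.le_succ n)) h
    rw [natCast_zsmul]
    exact (kumTower_eq H h1).symm
  · exact kumTower_eq H ((H n).hecke ℓ (not_dvd_mul_pow ℓ.2 hℓ n) c _ hc (isKum_kumTower H hc))

/-- **The Kummer tower**, EXACT conclusion of helper49's `SkeletonLat.exists_kummerTower`. -/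
theorem exists_kummerTower_of [NeZero p] (H : ∀ n, KumPackage N (p ^ n)) :
    ∃ κ : (n : ℕ) → (G0 N → ZMod (p ^ n)) → JZero N,
      (∀ n c c', IsParHom c → IsParHom c' → κ n (c + c') = κ n c + κ n c') ∧
      (∀ n c, IsParHom c → κ n c = 0 → c = 0) ∧
      (∀ (n : ℕ) (c : G0 N → ZMod (p ^ (n + 1))), IsParHom c →
        (p : ℤ) • κ (n + 1) c =
          κ n (fun γ => ZMod.castHom (pow_dvd_pow p (Nat.le_succ n)) (ZMod (p ^ n)) (c γ))) ∧
      (∀ ℓ : Nat.Primes, ¬ (ℓ : ℕ) ∣ N * p → ∀ n c, IsParHom c →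
        κ n (heckeCoh N ℓ c) = heckeOperatorBar N ℓ (κ n c)) := by
  obtain ⟨κ, -, h1, h2, h3, h4⟩ := exists_kummerTower_isKum_of H
  exact ⟨κ, h1, h2, h3, h4⟩

end Tower

end Fermat.Agent.S30.H450

end
end
-- ===== PACK-END S30/H450/KumTower.lean

-- ===== PACK-BEGIN S30/Fin/Count.lean
section
/-
S30 row, piece FIN (helper49): finiteness of the `m`-torsion of `J₀(N)(ℚ̄)` from the Kummer
relation `IsKum` of `Fermat.Agent.S29.M4b.Defs`.

`finite_torsion_of` : if every `m`-torsion class is the Kummer class of SOME function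
`c : Γ₀(N) → ℤ/m` (piece `ONTO`), and Kummer classes are unique (piece `K4-UNIQ` of S29/M4b), then
`J₀(N)(ℚ̄)[m]` is finite.  Reason: the character of a twisted function is additive, `Γ₀(N)` is
finitely generated, so there are only finitely many characters.
-/


set_option autoImplicit false

noncomputable section

open ModularCurve AlgebraicCurve CongruenceSubgroup UpperHalfPlane
open scoped MatrixGroups Manifold

namespace Fermat.Agent.S30.Fin

open Fermat.Agent.S29 Fermat.Agent.S29.M4b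

/-- `SL(2, ℤ)` is finitely generated. -/
theorem fin_fg_SL2Z : Group.FG SL(2, ℤ) :=
  Group.fg_iff.mpr ⟨{ModularGroup.S, ModularGroup.T}, SpecialLinearGroup.SL2Z_generators,
    Set.toFinite _⟩

/-- `Γ₀(N)` is finitely generated (Schreier). -/
theorem fin_fg_Gamma0 (N : ℕ) [NeZero N] : Group.FG (G0 N) := by
  have := fin_fg_SL2Z
  exact Subgroup.fg_of_index_ne_zero (Gamma0 N)

theorem fin_zetaP_isPrimitiveRoot (m : ℕ) [NeZero m] : IsPrimitiveRoot (zetaP m) m :=
  Complex.isPrimitiveRoot_exp m (NeZero.ne m)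

/-- `ζ_m ^ a = ζ_m ^ b` forces `a = b` in `ℤ/m`. -/
theorem fin_natCast_eq_of_zetaP_pow_eq (m : ℕ) [NeZero m] {a b : ℕ}
    (h : zetaP m ^ a = zetaP m ^ b) : (a : ZMod m) = (b : ZMod m) := by
  have hζ := fin_zetaP_isPrimitiveRoot m
  have hne : zetaP m ≠ 0 := hζ.ne_zero (NeZero.ne m)
  have key : ∀ a b : ℕ, a ≤ b → zetaP m ^ a = zetaP m ^ b → (a : ZMod m) = (b : ZMod m) := by
    intro a b hab h
    obtain ⟨d, rfl⟩ := Nat.exists_eq_add_of_le hab
    rw [pow_add] at h
    have h1 : zetaP m ^ d = 1 := by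
      have h2 : zetaP m ^ a * 1 = zetaP m ^ a * zetaP m ^ d := by rw [mul_one]; exact h
      exact (mul_left_cancel₀ (pow_ne_zero a hne) h2).symm
    have h3 : m ∣ d := (hζ.pow_eq_one_iff_dvd d).mp h1
    rw [Nat.cast_add, (ZMod.natCast_eq_zero_iff d m).mpr h3, add_zero]
  rcases le_total a b with hab | hab
  · exact key a b hab h
  · exact (key b a hab h.symm).symm

/-- The character of a twisted function is additive. -/
theorem fin_isTwisted_map_mul {N m : ℕ} [NeZero m] {c : G0 N → ZMod m} {U : ℍ → ℂ}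
    (h : IsTwisted N m c U) (γ γ' : G0 N) : c (γ * γ') = c γ + c γ' := by
  obtain ⟨τ₀, hτ₀⟩ := h.ne_zero
  have h1 := h.hasChar (γ * γ') τ₀
  have h2 := h.hasChar γ (((γ' : G0 N) : SL(2, ℤ)) • τ₀)
  have h3 := h.hasChar γ' τ₀
  have hsmul : (((γ * γ' : G0 N) : SL(2, ℤ))) • τ₀
      = ((γ : G0 N) : SL(2, ℤ)) • ((γ' : G0 N) : SL(2, ℤ)) • τ₀ := by
    rw [← mul_smul]
    rfl
  rw [hsmul, h2, h3, ← mul_assoc, ← pow_add] at h1
  have h4 : zetaP m ^ ((c γ).val + (c γ').val) = zetaP m ^ (c (γ * γ')).val :=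
    mul_right_cancel₀ hτ₀ h1
  have h5 := fin_natCast_eq_of_zetaP_pow_eq m h4
  rw [Nat.cast_add, ZMod.natCast_zmod_val, ZMod.natCast_zmod_val, ZMod.natCast_zmod_val] at h5
  exact h5.symm

/-- The character of a Kummer class is additive. -/
theorem fin_isKum_map_mul {N m : ℕ} [NeZero N] [NeZero m] {c : G0 N → ZMod m} {x : JZero N}
    (h : IsKum N m c x) (γ γ' : G0 N) : c (γ * γ') = c γ + c γ' := by
  obtain ⟨f, t, U, -, -, hU, -⟩ := h
  exact fin_isTwisted_map_mul hU γ γ'

/-- **FIN from ONTO and UNIQ.** -/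
theorem finite_torsion_of (N : ℕ) [NeZero N] (m : ℕ) [NeZero m]
    (hex : ∀ x : JZero N, (m : ℤ) • x = 0 → ∃ c : G0 N → ZMod m, IsKum N m c x)
    (huniq : ∀ (c : G0 N → ZMod m) (x x' : JZero N), IsKum N m c x → IsKum N m c x' → x = x') :
    {x : JZero N | (m : ℤ) • x = 0}.Finite := by
  classical
  obtain ⟨S, hS, hSfin⟩ := Group.fg_iff.mp (fin_fg_Gamma0 N)
  have : Finite S := hSfin.to_subtype
  choose! c hc using hex
  -- the character of `x` as a monoid homomorphism
  have hone : ∀ x : JZero N, (m : ℤ) • x = 0 → c x 1 = 0 := by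
    intro x hx
    have h := fin_isKum_map_mul (hc x hx) 1 1
    rw [mul_one] at h
    exact left_eq_add.mp h
  let φ : {x : JZero N // (m : ℤ) • x = 0} → (S → ZMod m) := fun x s => c x.1 s.1
  have hinj : Function.Injective φ := by
    rintro ⟨x, hx⟩ ⟨x', hx'⟩ h
    let f : G0 N →* Multiplicative (ZMod m) :=
      { toFun := fun γ => Multiplicative.ofAdd (c x γ)
        map_one' := by
          show Multiplicative.ofAdd (c x 1) = 1
          rw [hone x hx]; rfl
        map_mul' := fun γ γ' => by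
          show Multiplicative.ofAdd (c x (γ * γ')) = _
          rw [fin_isKum_map_mul (hc x hx) γ γ']; rfl }
    let f' : G0 N →* Multiplicative (ZMod m) :=
      { toFun := fun γ => Multiplicative.ofAdd (c x' γ)
        map_one' := by
          show Multiplicative.ofAdd (c x' 1) = 1
          rw [hone x' hx']; rfl
        map_mul' := fun γ γ' => by
          show Multiplicative.ofAdd (c x' (γ * γ')) = _
          rw [fin_isKum_map_mul (hc x' hx') γ γ']; rfl }
    have hff' : f = f' := by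
      refine MonoidHom.eq_of_eqOn_dense hS ?_
      intro s hs
      show Multiplicative.ofAdd (c x s) = Multiplicative.ofAdd (c x' s)
      have := congrFun h ⟨s, hs⟩
      exact congrArg Multiplicative.ofAdd this
    have hcc : c x = c x' := by
      funext γ
      have := DFunLike.congr_fun hff' γ
      exact Multiplicative.ofAdd.injective this
    apply Subtype.ext
    have h1 := hc x hx
    rw [hcc] at h1
    exact huniq (c x') x x' h1 (hc x' hx')
  have hfin : Finite {x : JZero N // (m : ℤ) • x = 0} := Finite.of_injective φ hinj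
  exact Set.finite_coe_iff.mp hfin

end Fermat.Agent.S30.Fin

end
end
-- ===== PACK-END S30/Fin/Count.lean

-- ===== PACK-BEGIN S29/H332/KummerChar.lean
section




/-!
# S29 / M4b / K1 — Kummer functions of additive characters `Γ₀(N) → ℤ/m`

For an additive map `c : Γ₀(N) → ZMod m` vanishing on all elements of trace `±2` we package the
character `χ_c(γ) = exp(2πi c(γ)/m)` and the Kummer function `h_c = E^{χ_c}₁₂ / (2Δ)`:

* `h_c ∈ holN N`, `h_c(γτ) = χ_c(γ) h_c(τ)`;
* `h_c ^ m ∈ goodRing N` and its `q`-expansion `kummerExp ^ m` lies in the function field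
  `laurentBaseChange ℂ (modularFunctionFieldFull N)` (via helper882's MERO);
* `q`-expansion of `h_c` has order `-1` and leading coefficient `1`.

The modulus `m ≥ 1` is arbitrary (rows S29: `m = p`; S30: `m = p ^ n`).
-/

set_option autoImplicit false
set_option linter.unusedSectionVars false

noncomputable section

open UpperHalfPlane HahnSeries ModularCurve Complex AlgebraicCurve
open scoped Real MatrixGroups Manifold

namespace Fermat.Agent.S29.H332

open Fermat.Agent.S24 Fermat.Agent.S24.H997 Fermat.Agent.S24.H624 Fermat.Agent.S24.H648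

variable {N m : ℕ} [NeZero m]

/-- An additive character `Γ₀(N) → ℤ/m` vanishing on the elements of trace `±2`. -/
structure IsParAdd (c : CongruenceSubgroup.Gamma0 N → ZMod m) : Prop where
  map_mul : ∀ γ γ' : CongruenceSubgroup.Gamma0 N, c (γ * γ') = c γ + c γ'
  parabolic : ∀ γ : CongruenceSubgroup.Gamma0 N,
    ((γ : SL(2, ℤ)).1.trace = 2 ∨ (γ : SL(2, ℤ)).1.trace = -2) → c γ = 0

namespace IsParAdd

variable {c c' : CongruenceSubgroup.Gamma0 N → ZMod m}

theorem map_one (hc : IsParAdd c) : c 1 = 0 := by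
  have h := hc.map_mul 1 1
  rw [mul_one] at h
  exact left_eq_add.mp h

/-- The multiplicative character `γ ↦ exp(2πi c(γ)/m)`. -/
def char (hc : IsParAdd c) : CongruenceSubgroup.Gamma0 N →* ℂˣ :=
  MonoidHom.toHomUnits
    { toFun := fun γ => ZMod.stdAddChar (c γ)
      map_one' := by rw [hc.map_one, AddChar.map_zero_eq_one]
      map_mul' := fun γ γ' => by rw [hc.map_mul, AddChar.map_add_eq_mul] }

@[simp]
theorem char_apply (hc : IsParAdd c) (γ : CongruenceSubgroup.Gamma0 N) :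
    (hc.char γ : ℂ) = ZMod.stdAddChar (c γ) := rfl

theorem norm_char (hc : IsParAdd c) (γ : CongruenceSubgroup.Gamma0 N) :
    ‖(hc.char γ : ℂ)‖ = 1 := by
  rw [char_apply, ZMod.stdAddChar_apply]
  exact Circle.norm_coe _

theorem char_pow (hc : IsParAdd c) (γ : CongruenceSubgroup.Gamma0 N) : hc.char γ ^ m = 1 := by
  apply Units.ext
  rw [Units.val_pow_eq_pow_val, char_apply, ← AddChar.map_nsmul_eq_pow, Units.val_one]
  have : m • c γ = 0 := by
    rw [nsmul_eq_mul]
    simp
  rw [this, AddChar.map_zero_eq_one]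

theorem char_eq_one_iff (hc : IsParAdd c) (γ : CongruenceSubgroup.Gamma0 N) :
    hc.char γ = 1 ↔ c γ = 0 := by
  constructor
  · intro h
    have h1 : (hc.char γ : ℂ) = 1 := by rw [h, Units.val_one]
    rw [char_apply, ← AddChar.map_zero_eq_one (ZMod.stdAddChar (N := m))] at h1
    exact ZMod.injective_stdAddChar h1
  · intro h
    apply Units.ext
    rw [char_apply, h, AddChar.map_zero_eq_one, Units.val_one]

theorem parTrivial (hc : IsParAdd c) : ParTrivial hc.char := by
  intro γ hγ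
  rw [char_eq_one_iff]
  exact hc.parabolic γ hγ

theorem ellTrivial (hc : IsParAdd c)
    (hell : ∀ (γ : CongruenceSubgroup.Gamma0 N) (n : ℕ), 0 < n → γ ^ n = 1 → c γ = 0) :
    EllTrivial hc.char := by
  intro γ n hn hγ
  rw [char_eq_one_iff]
  exact hell γ n hn hγ

theorem add (hc : IsParAdd c) (hc' : IsParAdd c') : IsParAdd (c + c') where
  map_mul γ γ' := by
    simp only [Pi.add_apply, hc.map_mul, hc'.map_mul]
    abel
  parabolic γ hγ := by
    simp only [Pi.add_apply, hc.parabolic γ hγ, hc'.parabolic γ hγ, add_zero]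

theorem char_add (hc : IsParAdd c) (hc' : IsParAdd c') :
    (hc.add hc').char = hc.char * hc'.char := by
  ext γ
  simp [AddChar.map_add_eq_mul]

variable [NeZero N]

variable (N) in
/-- The Kummer function of an additive parabolic character. -/
def kfun (hc : IsParAdd c) : ℍ → ℂ := kummerFun N hc.char

variable (N) in
/-- Its `q`-expansion at `i∞`. -/
def kexp (hc : IsParAdd c) : LaurentSeries ℂ := kummerExp N hc.char

theorem kfun_mem_holN (hc : IsParAdd c) : hc.kfun N ∈ holN N :=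
  kummerFun_mem_holN hc.parTrivial hc.norm_char

theorem kfun_smul (hc : IsParAdd c) (γ : CongruenceSubgroup.Gamma0 N) (τ : ℍ) :
    hc.kfun N ((γ : SL(2, ℤ)) • τ) = ZMod.stdAddChar (c γ) * hc.kfun N τ :=
  hasCharacter_kummerFun hc.parTrivial γ τ

theorem kfun_pow_mem_goodRing (hc : IsParAdd c) : hc.kfun N ^ m ∈ goodRing N :=
  kummerFun_pow_mem_goodRing hc.parTrivial hc.norm_char hc.char_pow

theorem hasQExp_kfun (hc : IsParAdd c) :
    Fermat.Agent.S24.H708.HasQExp 1 (hc.kfun N) (hc.kexp N) :=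
  hasQExp_kummerFun hc.parTrivial hc.norm_char

theorem kexp_order (hc : IsParAdd c) : (hc.kexp N).order = -1 :=
  (kummerExp_eq hc.parTrivial hc.norm_char).1

theorem kexp_leadingCoeff (hc : IsParAdd c) : (hc.kexp N).leadingCoeff = 1 :=
  (kummerExp_eq hc.parTrivial hc.norm_char).2

theorem kexp_ne_zero (hc : IsParAdd c) : hc.kexp N ≠ 0 :=
  kummerExp_ne_zero hc.parTrivial hc.norm_char

theorem kfun_ne_zero (hc : IsParAdd c) : hc.kfun N ≠ 0 :=
  kummerFun_ne_zero hc.parTrivial hc.norm_char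

theorem hasCharacter_kfun (hc : IsParAdd c) : HasCharacter hc.char (hc.kfun N) :=
  hasCharacter_kummerFun hc.parTrivial

/-- **K2 (analytic part)**: local divisibility of the orders of the Kummer function, at a point
with rotation `ε` of finite order (`ε = 1`, `S`, `S * T`), for the coset `g⁻¹ Γ₀(N)` of
`ε`-period `k`. -/
theorem kfun_dvd_mul_order_of_finite_order (hc : IsParAdd c)
    (hell : ∀ (γ : CongruenceSubgroup.Gamma0 N) (n : ℕ), 0 < n → γ ^ n = 1 → c γ = 0)
    (X : Expansion (holBase N)) {ε : SL(2, ℤ)} (R : RotData (holBase N) X ε)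
    {n : ℕ} (hn : 0 < n) (hε : ε ^ n = 1)
    (g : SL(2, ℤ)) (k : ℕ) (hk : g * ε ^ k * g⁻¹ ∈ CongruenceSubgroup.Gamma0 N) :
    (R.m : ℤ) ∣ (k : ℤ) * (X.E ((holBase N).compH g ⟨hc.kfun N, hc.kfun_mem_holN⟩)).order :=
  hc.hasCharacter_kfun.dvd_mul_order_of_finite_order hc.kfun_mem_holN hc.kfun_ne_zero
    (hc.ellTrivial hell) X R hn hε g k hk

/-- **K2 (analytic part)** at the cusps (`ε = T`). -/
theorem kfun_dvd_mul_order_T (hc : IsParAdd c)
    (X : Expansion (holBase N)) (R : RotData (holBase N) X ModularGroup.T)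
    (g : SL(2, ℤ)) (k : ℕ)
    (hk : g * ModularGroup.T ^ k * g⁻¹ ∈ CongruenceSubgroup.Gamma0 N) :
    (R.m : ℤ) ∣ (k : ℤ) * (X.E ((holBase N).compH g ⟨hc.kfun N, hc.kfun_mem_holN⟩)).order :=
  hc.hasCharacter_kfun.dvd_mul_order_T hc.kfun_mem_holN hc.kfun_ne_zero hc.parTrivial X R g k hk

/-- **K1 + MERO**: the `q`-expansion of `h_c ^ m` lies in the function field of `X₀(N)` over `ℂ`. -/
theorem kexp_pow_mem_FC (hc : IsParAdd c) :
    hc.kexp N ^ m ∈ laurentBaseChange ℂ (modularFunctionFieldFull N) :=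
  Fermat.Agent.S29.H882.mem_FC_of_hasQExp hc.kfun_pow_mem_goodRing
    ((hc.hasQExp_kfun).pow m)

end IsParAdd

end Fermat.Agent.S29.H332

end
end
-- ===== PACK-END S29/H332/KummerChar.lean

-- ===== PACK-BEGIN S29/H332/K1.lean
section



/-!
# S29 / M4b — PIECE `K1` (exact skeleton type)

`exists_isTwisted` : for a parabolic character `c : Γ₀(N) → ℤ/p` (any modulus `p ≥ 1`) there is a
twisted function `U` of character `c`; `U = E^χ₁₂ / (2Δ)`, `χ = ζ_p ^ c`.
-/

set_option autoImplicit false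
set_option linter.unusedSectionVars false

noncomputable section

open ModularCurve AlgebraicCurve CongruenceSubgroup UpperHalfPlane
open scoped MatrixGroups Manifold

namespace Fermat.Agent.S29.H332

open Fermat.Agent.S24 Fermat.Agent.S29 Fermat.Agent.S29.M4b

variable {N : ℕ} {p : ℕ} [NeZero p]

/-- `ζ_p ^ (a.val) = stdAddChar a`. -/
theorem zetaP_pow_val (a : ZMod p) : zetaP p ^ a.val = ZMod.stdAddChar a := by
  have h := ZMod.stdAddChar_coe (N := p) (a.val : ℤ)
  rw [Int.cast_natCast, ZMod.natCast_zmod_val] at h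
  rw [h, zetaP, ← Complex.exp_nat_mul]
  congr 1
  push_cast
  ring

/-- A parabolic character in the sense of `DefsM` is one in the sense of `H332`. -/
theorem isParAdd_of_isParHom {c : G0 N → ZMod p} (hc : IsParHom c) : IsParAdd c where
  map_mul := hc.map_mul
  parabolic := hc.parabolic

variable (N p) in
/-- **PIECE `K1`** of the M4b skeleton (exact type). -/
theorem exists_isTwisted [NeZero N] {c : G0 N → ZMod p} (hc : IsParHom c) :
    ∃ U : ℍ → ℂ, IsTwisted N p c U := by
  have hc' : IsParAdd c := isParAdd_of_isParHom hc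
  refine ⟨hc'.kfun N, ?_, ?_, ?_, ?_⟩
  · exact (hc'.kfun_mem_holN).1
  · by_contra hne
    exact hc'.kfun_ne_zero (funext fun τ => by_contra fun h => hne ⟨τ, h⟩)
  · intro γ τ
    rw [zetaP_pow_val]
    exact hc'.kfun_smul γ τ
  · exact hc'.kfun_pow_mem_goodRing

end Fermat.Agent.S29.H332

end
end
-- ===== PACK-END S29/H332/K1.lean

-- ===== PACK-BEGIN S29/M4b/H822/Basic.lean
section
/-
S29 / M4b (helper822): basic API for the frozen definitions of `M4b/Defs.lean`
(roots of unity, characters, realisations).  Sorry-free.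
-/


set_option autoImplicit false

noncomputable section

open ModularCurve AlgebraicCurve CongruenceSubgroup UpperHalfPlane
open scoped MatrixGroups Manifold

namespace Fermat.Agent.S29.M4b.H822

open Fermat.Agent.S24 Fermat.Agent.S29 Fermat.Agent.S29.M4b

/-! ### The root of unity `zetaP p` -/

theorem isPrimitiveRoot_zetaP (p : ℕ) [NeZero p] : IsPrimitiveRoot (zetaP p) p := by
  unfold zetaP
  exact Complex.isPrimitiveRoot_exp p (NeZero.ne p)

theorem zetaP_pow_self (p : ℕ) [NeZero p] : zetaP p ^ p = 1 :=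
  (isPrimitiveRoot_zetaP p).pow_eq_one

theorem zetaP_ne_zero (p : ℕ) [NeZero p] : zetaP p ≠ 0 := by
  unfold zetaP
  exact Complex.exp_ne_zero _

theorem zetaP_pow_val_add (p : ℕ) [NeZero p] (a b : ZMod p) :
    zetaP p ^ (a + b).val = zetaP p ^ a.val * zetaP p ^ b.val := by
  rw [ZMod.val_add, ← pow_add, ← pow_eq_pow_mod _ (zetaP_pow_self p)]

theorem zetaP_pow_val_eq_one_iff (p : ℕ) [NeZero p] (a : ZMod p) :
    zetaP p ^ a.val = 1 ↔ a = 0 := by
  rw [(isPrimitiveRoot_zetaP p).pow_eq_one_iff_dvd]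
  constructor
  · intro h
    have h1 : a.val = 0 := Nat.eq_zero_of_dvd_of_lt h (ZMod.val_lt a)
    exact (ZMod.val_eq_zero a).mp h1
  · rintro rfl
    simp

theorem zetaP_pow_val_zero (p : ℕ) [NeZero p] : zetaP p ^ (0 : ZMod p).val = 1 := by
  simp

/-! ### Characters -/

theorem hasChar_mul {N p : ℕ} [NeZero p] {c c' : G0 N → ZMod p} {U U' : ℍ → ℂ}
    (h : HasChar N p c U) (h' : HasChar N p c' U') :
    HasChar N p (c + c') (fun τ => U τ * U' τ) := by
  intro γ τ
  show U _ * U' _ = _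
  rw [h γ τ, h' γ τ, Pi.add_apply, zetaP_pow_val_add]
  ring

theorem hasChar_pow_invariant {N p : ℕ} [NeZero p] {c : G0 N → ZMod p} {U : ℍ → ℂ}
    (h : HasChar N p c U) (γ : G0 N) (τ : ℍ) :
    U ((γ : SL(2, ℤ)) • τ) ^ p = U τ ^ p := by
  rw [h γ τ, mul_pow, ← pow_mul, mul_comm (c γ).val p, pow_mul, zetaP_pow_self, one_pow, one_mul]

/-! ### Realisations -/

section Realises

variable {N : ℕ} [NeZero N]

theorem realises_mem {u : FF N} {G : ℍ → ℂ} (h : Realises N u G) : G ∈ H648.goodRing N := h.1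

theorem realises_isMerInf {u : FF N} {G : ℍ → ℂ} (h : Realises N u G) : H708.IsMerInf 1 G :=
  H882.isMerInf_of_mem_goodRing h.1

theorem realises_hasQExp {u : FF N} {G : ℍ → ℂ} (h : Realises N u G) :
    H708.HasQExp 1 G (coeffMap Deg457.iotaC ((u : FF N) : LaurentSeries Kbar)) :=
  ⟨realises_isMerInf h, h.2⟩

theorem realises_of_hasQExp {u : FF N} {G : ℍ → ℂ} (hG : G ∈ H648.goodRing N)
    (h : H708.HasQExp 1 G (coeffMap Deg457.iotaC ((u : FF N) : LaurentSeries Kbar))) :
    Realises N u G :=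
  ⟨hG, h.2⟩

theorem realises_mul {u v : FF N} {G H : ℍ → ℂ} (hu : Realises N u G) (hv : Realises N v H) :
    Realises N (u * v) (G * H) := by
  refine realises_of_hasQExp ((H648.goodRing N).mul_mem hu.1 hv.1) ?_
  have := (realises_hasQExp hu).mul (realises_hasQExp hv)
  simpa using this

theorem realises_pow {u : FF N} {G : ℍ → ℂ} (hu : Realises N u G) (n : ℕ) :
    Realises N (u ^ n) (G ^ n) := by
  refine realises_of_hasQExp ((H648.goodRing N).pow_mem hu.1 n) ?_
  have := (realises_hasQExp hu).pow n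
  simpa using this

theorem coeffMap_iotaC_injective :
    Function.Injective (coeffMap Deg457.iotaC : LaurentSeries Kbar → LaurentSeries ℂ) := by
  intro x y h
  ext n
  have h1 := congrArg (fun z : LaurentSeries ℂ => z.coeff n) h
  simp only [coeffMap] at h1
  exact Deg457.iotaC.injective (by simpa using h1)

/-- A realisation of a nonzero element is not the zero function. -/
theorem realises_ne_zero {u : FF N} {G : ℍ → ℂ} (h : Realises N u G) (hu : u ≠ 0) : G ≠ 0 := by
  intro hG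
  have h1 := ((realises_hasQExp h).eq_zero_iff).mpr hG
  have h2 : ((u : FF N) : LaurentSeries Kbar) = 0 :=
    coeffMap_iotaC_injective (by rw [h1, map_zero])
  exact hu (Subtype.ext h2)

/-- The realised element is determined by the function. -/
theorem realises_unique_left {u v : FF N} {G : ℍ → ℂ} (hu : Realises N u G)
    (hv : Realises N v G) : u = v := by
  apply Subtype.ext
  apply coeffMap_iotaC_injective
  rw [← hu.2, ← hv.2]

/-- The function is determined by the realised element. -/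
theorem realises_unique_right {u : FF N} {G H : ℍ → ℂ} (hG : Realises N u G)
    (hH : Realises N u H) : G = H :=
  (realises_hasQExp hG).eq_of_eq (realises_hasQExp hH)

/-- Every element of the polynomial ring `ℚ̄[j(q^d) : d ∣ N]` is realised by a good function. -/
theorem exists_realises_of_mem_AK {a : FF N}
    (ha : ((a : FF N) : LaurentSeries Kbar) ∈ Deg457.AK Kbar N) :
    ∃ G : ℍ → ℂ, Realises N a G := by
  have h1 := Deg457.coeffMap_mem_AK Deg457.iotaC ha
  obtain ⟨G, hG, hq⟩ := H882.AK_le_goodQ N h1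
  exact ⟨G, hG, hq.2⟩

end Realises

end Fermat.Agent.S29.M4b.H822

end
end
-- ===== PACK-END S29/M4b/H822/Basic.lean

-- ===== PACK-BEGIN S29/H150/K2Hol.lean
section
/-
S29 / M4b / piece K2 (helper150), part 1: analytic preparation.

* `k2Char hc` : the multiplicative character `γ ↦ ζ_p ^ c(γ)` of a parabolic hom `c`;
* `mem_holN_of_isTwisted` : a twisted function (M4b `IsTwisted`) lies in the S24 ring `holN N`;
* `qexp_eq_qExpand` : the S24 expansion in `q^{1/N}` of a function with `q`-expansion `φ`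
  is `φ(z^N)`;
* `sigmaG_eq_of_qexp` : the S24 embedding `σ_g` of `u ∈ FF N` is the expansion of `G ∘ g⁻¹`
  for every `G ∈ holN N` with the `q`-expansion of `u`.
-/







set_option autoImplicit false
set_option linter.unusedSectionVars false

noncomputable section

open ModularCurve AlgebraicCurve CongruenceSubgroup UpperHalfPlane HahnSeries
open scoped MatrixGroups Manifold

namespace Fermat.Agent.S29.H150

open Fermat.Agent.S24 Fermat.Agent.S24.H997 Fermat.Agent.S29 Fermat.Agent.S29.M4b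

local notation "Δ" => ModularForm.discriminant

variable {N : ℕ} [NeZero N] {p : ℕ} [NeZero p]

/-! ### The character `ζ_p ^ c` -/

theorem k2_map_one {c : G0 N → ZMod p} (hc : IsParHom c) : c 1 = 0 := by
  have h := hc.map_mul 1 1
  rw [mul_one] at h
  have h2 : c 1 + 0 = c 1 + c 1 := by rw [add_zero]; exact h
  exact (add_left_cancel h2).symm

/-- The multiplicative character `γ ↦ ζ_p ^ c(γ)`. -/
def k2Char {c : G0 N → ZMod p} (hc : IsParHom c) : Gamma0 N →* ℂˣ where
  toFun γ := Units.mk0 (zetaP p ^ (c γ).val) (pow_ne_zero _ (H822.zetaP_ne_zero p))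
  map_one' := by
    apply Units.ext
    show zetaP p ^ (c 1).val = 1
    rw [k2_map_one hc, ZMod.val_zero, pow_zero]
  map_mul' γ γ' := by
    apply Units.ext
    show zetaP p ^ (c (γ * γ')).val = zetaP p ^ (c γ).val * zetaP p ^ (c γ').val
    rw [hc.map_mul, H822.zetaP_pow_val_add]

theorem k2Char_coe {c : G0 N → ZMod p} (hc : IsParHom c) (γ : Gamma0 N) :
    ((k2Char hc γ : ℂˣ) : ℂ) = zetaP p ^ (c γ).val := rfl

theorem k2Char_eq_one_of {c : G0 N → ZMod p} (hc : IsParHom c) {γ : Gamma0 N} (h : c γ = 0) :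
    k2Char hc γ = 1 := by
  apply Units.ext
  rw [k2Char_coe, h, ZMod.val_zero, pow_zero, Units.val_one]

theorem k2Char_parTrivial {c : G0 N → ZMod p} (hc : IsParHom c) :
    H332.ParTrivial (k2Char hc) := fun γ hγ => k2Char_eq_one_of hc (hc.parabolic γ hγ)

theorem k2Char_ellTrivial {c : G0 N → ZMod p} (hc : IsParHom c) :
    H332.EllTrivial (k2Char hc) := fun γ n hn hγ => k2Char_eq_one_of hc (hc.elliptic γ n hn hγ)

theorem hasCharacter_of_hasChar {c : G0 N → ZMod p} (hc : IsParHom c) {U : ℍ → ℂ}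
    (hU : HasChar N p c U) : H332.HasCharacter (k2Char hc) U := fun γ τ => by
  rw [k2Char_coe]
  exact hU γ τ

/-! ### Twisted functions lie in `holN N` -/

omit [NeZero N] in
theorem norm_le_one_add_norm_pow (x : ℂ) : ‖x‖ ≤ 1 + ‖x ^ p‖ := by
  rw [norm_pow]
  rcases le_or_gt ‖x‖ 1 with h | h
  · have : 0 ≤ ‖x‖ ^ p := pow_nonneg (norm_nonneg x) p
    linarith
  · have h1 : ‖x‖ ≤ ‖x‖ ^ p := le_self_pow₀ h.le (NeZero.ne p)
    linarith

omit [NeZero N] in
theorem exists_bdd_of_expGrowth_pow {U : ℍ → ℂ} (g : SL(2, ℤ))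
    (h : H648.ExpGrowth (fun τ => U (g • τ) ^ p)) :
    ∃ m : ℕ, IsBoundedAtImInfty (fun τ => Δ τ ^ m * compSL g U τ) := by
  obtain ⟨C, m, hC⟩ := h
  refine ⟨m, ?_⟩
  have hb : IsBoundedAtImInfty (fun τ => compSL g U τ * Δ τ ^ m) := by
    apply H108.isBoundedAtImInfty_mul_discriminant_pow_of_exp_growth
    refine ⟨1 + |C|, 1, fun τ hτ => ?_⟩
    have h1 := hC τ hτ
    have h2 := norm_le_one_add_norm_pow (p := p) (U (g • τ))
    have he : 1 ≤ Real.exp (2 * Real.pi * m * τ.im) := by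
      apply Real.one_le_exp
      have := τ.im_pos
      have := Real.pi_pos
      positivity
    have h3 : C * Real.exp (2 * Real.pi * m * τ.im) ≤ |C| * Real.exp (2 * Real.pi * m * τ.im) :=
      mul_le_mul_of_nonneg_right (le_abs_self C) (Real.exp_pos _).le
    show ‖U (g • τ)‖ ≤ _
    calc ‖U (g • τ)‖ ≤ 1 + ‖U (g • τ) ^ p‖ := h2
      _ ≤ 1 + |C| * Real.exp (2 * Real.pi * m * τ.im) := by linarith
      _ ≤ Real.exp (2 * Real.pi * m * τ.im) + |C| * Real.exp (2 * Real.pi * m * τ.im) := by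
          linarith
      _ = (1 + |C|) * Real.exp (2 * Real.pi * m * τ.im) := by ring
  have : (fun τ => Δ τ ^ m * compSL g U τ) = fun τ => compSL g U τ * Δ τ ^ m := by
    funext τ; ring
  rw [this]
  exact hb

/-- A twisted function lies in the S24 ring `holN N`. -/
theorem mem_holN_of_isTwisted {c : G0 N → ZMod p} (hc : IsParHom c) {U : ℍ → ℂ}
    (hU : IsTwisted N p c U) : U ∈ holN N := by
  refine ⟨hU.mdiff, fun g => ?_⟩
  obtain ⟨m, hm⟩ := exists_bdd_of_expGrowth_pow (p := p) g (hU.pow_mem.2.2 g)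
  exact (hasCharacter_of_hasChar hc hU.hasChar).compSL_mem_expRing (k2Char_parTrivial hc)
    hU.mdiff m g hm

omit [NeZero N] [NeZero p] in
theorem ne_zero_of_isTwisted {c : G0 N → ZMod p} {U : ℍ → ℂ}
    (hU : IsTwisted N p c U) : U ≠ 0 := by
  obtain ⟨τ, hτ⟩ := hU.ne_zero
  intro h
  exact hτ (by rw [h]; rfl)

/-! ### Comparison of expansions -/

omit [NeZero N] in
theorem infExp_one_of_hasQExp {f : ℍ → ℂ} {φ : LaurentSeries ℂ} (h : H708.HasQExp 1 f φ) :
    InfExp 1 f φ := fun τ => by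
  have := h.hasSum τ
  exact this

theorem infExp_of_hasQExp_one {f : ℍ → ℂ} {φ : LaurentSeries ℂ} (h : H708.HasQExp 1 f φ) :
    InfExp N f (qExpand ℂ N φ) := by
  have h1 : InfExp 1 f φ := infExp_one_of_hasQExp h
  have h2 := h1.subst (N := N) (fun τ => τ) 1 N (fun τ => by
    rw [Units.val_one, one_mul, infZ_def, infZ_def, ← Complex.exp_nat_mul]
    congr 1
    have hN : (N : ℂ) ≠ 0 := by exact_mod_cast NeZero.ne N
    push_cast
    field_simp)
  rwa [infTwist_one] at h2

/-- The S24 expansion (in `q^{1/N}`) of an element of `holN N` with `q`-expansion `φ`. -/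
theorem qexp_eq_qExpand {f : ℍ → ℂ} (hf : f ∈ holN N) {φ : LaurentSeries ℂ}
    (h : H708.HasQExp 1 f φ) :
    (holBase N).qexp ⟨f, hf⟩ = qExpand ℂ N φ :=
  (expInf_spec (holToExp N ⟨f, hf⟩)).unique (infExp_of_hasQExp_one h)

/-- The S24 expansion of an analytic realisation of `u ∈ FF N`. -/
theorem qexp_eq_Φ_of_realises {u : FF N} {G : ℍ → ℂ} (hG : G ∈ holN N)
    (hu : Realises N u G) :
    (holBase N).qexp ⟨G, hG⟩ = HolBase.Φ N ((u : FF N) : LaurentSeries Kbar) :=
  qexp_eq_qExpand hG (H822.realises_hasQExp hu)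

/-! ### The embeddings `σ_g` on realised elements -/

/-- If `G ∈ holN N` has the `q`-expansion of `u ∈ FF N`, then `σ_g u` is the expansion of
`G ∘ g⁻¹`, for every S24 expansion `X` and every `g ∈ SL₂(ℤ)`. -/
theorem sigmaG_eq_of_qexp (X : Expansion (holBase N)) (g : SL(2, ℤ)) {u : FF N} {G : ℍ → ℂ}
    (hG : G ∈ holN N)
    (hq : (holBase N).qexp ⟨G, hG⟩ = HolBase.Φ N ((u : FF N) : LaurentSeries Kbar)) :
    (holBase N).sigmaG X g u = X.E ((holBase N).compH g⁻¹ ⟨G, hG⟩) := by
  obtain ⟨r, t, ht, rfl⟩ := exists_div_inclRN N u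
  have ht' : (holBase N).bridge t ≠ 0 := fun h0 =>
    ht ((holBase N).bridge_injective (h0.trans (map_zero _).symm))
  have key : (⟨G, hG⟩ : (holBase N).Hol) * (holBase N).bridge t = (holBase N).bridge r := by
    apply (holBase N).qexp_injective
    rw [map_mul, hq, HolBase.qexp_bridge, HolBase.qexp_bridge]
    have h1 : (((inclRN N r / inclRN N t : FF N) : FF N) : LaurentSeries Kbar)
        = (r : LaurentSeries Kbar) / (t : LaurentSeries Kbar) := rfl
    rw [h1, map_div₀]
    have h2 : HolBase.Φ N (t : LaurentSeries Kbar) ≠ 0 := by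
      rw [← HolBase.qexp_bridge (holBase N)]
      intro h0
      exact ht' ((holBase N).qexp_injective (h0.trans (map_zero _).symm))
    exact div_mul_cancel₀ _ h2
  have hE : X.E ((holBase N).compH g⁻¹ ((holBase N).bridge t)) ≠ 0 := by
    intro h0
    have h1 := X.inj (h0.trans (map_zero _).symm)
    exact ht' ((holBase N).compH_injective g⁻¹ (h1.trans (map_zero _).symm))
  rw [map_div₀, HolBase.sigmaG_inclRN, HolBase.sigmaG_inclRN, ← key, map_mul, map_mul,
    mul_div_assoc, div_self hE, mul_one]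

end Fermat.Agent.S29.H150

end
end
-- ===== PACK-END S29/H150/K2Hol.lean

-- ===== PACK-BEGIN S29/M4b/Top.lean
section
/-
S29 row, LAYER M, SUB-LAYER M4b (the Kummer map) — TOP ASSEMBLY over the seven pieces of
helper822's sub-skeleton (`origin/helper822:Fermat/Agent/S29/M4b/Skeleton.lean`), with the pieces
as `Prop`s (row-lead helper269; the assembly proof is helper822's `exists_kummerMap_of`).

A piece is DONE when it proves one of the `Prop`s `PieceK1 N p`, ..., `PieceHecke N p` below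
(they are the EXACT statements of the skeleton, for a fixed level `N` and modulus `p`).

`M4b_of_pieces` : the seven pieces for `(N, p)`, `p` prime ⟹ the Kummer bridge for `(N, p)`;
`M4bStatement_of_pieces` : the seven pieces for all `N` and all primes `p` ⟹ `M4bStatement`
(the `Prop` of `Fermat/Agent/S29/Parts.lean` consumed by `Main.S29_of_parts`).
The two group-theoretic facts about Hecke factorisations come from the landed `H149/HCoh.lean`.
-/




set_option autoImplicit false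

noncomputable section

open ModularCurve AlgebraicCurve CongruenceSubgroup UpperHalfPlane
open scoped MatrixGroups Manifold

namespace Fermat.Agent.S29.M4b

open Fermat.Agent.S24 Fermat.Agent.S29

section Pieces

variable (N : ℕ) [NeZero N] (p : ℕ)

/-- PIECE `K1` (twisted Eisenstein series). -/
def PieceK1 : Prop :=
  ∀ {c : G0 N → ZMod p}, IsParHom c → ∃ U : ℍ → ℂ, IsTwisted N p c U

/-- PIECE `K3` (descent `ℂ → ℚ̄`). -/
def PieceK3 : Prop :=
  ∀ {c : G0 N → ZMod p}, IsParHom c → ∀ {U : ℍ → ℂ}, IsTwisted N p c U →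
    ∃ (U' : ℍ → ℂ) (u : FF N), IsTwisted N p c U' ∧ Realises N u (fun τ => U' τ ^ p)

/-- PIECE `K2` (dictionary over `ℚ̄`). -/
def PieceK2 : Prop :=
  ∀ {c : G0 N → ZMod p}, IsParHom c → ∀ {U : ℍ → ℂ} {u : FF N}, IsTwisted N p c U →
    Realises N u (fun τ => U τ ^ p) → ∃ x : JZero N, H455.IsKummerClass (p : ℤ) u x

/-- PIECE `K4-UNIQ`. -/
def PieceUniq : Prop :=
  ∀ {c : G0 N → ZMod p} {x x' : JZero N}, IsKum N p c x → IsKum N p c x' → x = x'

/-- PIECE `K4-INJ`. -/
def PieceInj : Prop :=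
  ∀ {c : G0 N → ZMod p}, IsKum N p c (0 : JZero N) → c = 0

/-- PIECE `K4-ADD`. -/
def PieceAdd : Prop :=
  ∀ {c c' : G0 N → ZMod p} {x x' : JZero N},
    IsKum N p c x → IsKum N p c' x' → IsKum N p (c + c') (x + x')

/-- PIECE `K4-HECKE`. -/
def PieceHecke : Prop :=
  ∀ (ℓ : Nat.Primes), ¬ (ℓ : ℕ) ∣ N * p →
    (∀ γ : G0 N, ∃ (π : Equiv.Perm (Option (Fin (ℓ : ℕ)))) (δ : Option (Fin (ℓ : ℕ)) → G0 N),
      ∀ i, IsHeckeFactor (ℓ : ℕ) γ i (π i, δ i)) →
    ∀ {c c' : G0 N → ZMod p}, IsParHom c → IsTransfer N (ℓ : ℕ) c c' →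
      ∀ {x : JZero N}, IsKum N p c x → IsKum N p c' (heckeOperatorBar N ℓ x)

end Pieces

section Assembly

variable {N : ℕ} [NeZero N] {p : ℕ}

theorem top_isKum_exists (h1 : PieceK1 N p) (h3 : PieceK3 N p) (h2 : PieceK2 N p)
    {c : G0 N → ZMod p} (hc : IsParHom c) : ∃ x : JZero N, IsKum N p c x := by
  obtain ⟨U, hU⟩ := h1 hc
  obtain ⟨U', u, hU', hu⟩ := h3 hc hU
  obtain ⟨x, hx⟩ := h2 hc hU' hu
  refine ⟨x, u, 1, U', one_ne_zero, hx, hU', ?_⟩
  simpa using hu

theorem top_isKum_mem_Jp {c : G0 N → ZMod p} {x : JZero N} (h : IsKum N p c x) :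
    x ∈ Jp N p := by
  obtain ⟨f, t, U, -, hx, -, -⟩ := h
  rw [Submodule.mem_torsionBy_iff]
  exact hx.zsmul_eq_zero

open Classical in
/-- The Kummer map: `κ c` is THE Kummer class of `c` (and `0` if there is none). -/
def topKummerMap (N : ℕ) [NeZero N] (p : ℕ) (c : G0 N → ZMod p) : Jp N p :=
  if h : ∃ x : JZero N, IsKum N p c x then ⟨h.choose, top_isKum_mem_Jp h.choose_spec⟩ else 0

theorem top_isKum_kummerMap (h1 : PieceK1 N p) (h3 : PieceK3 N p) (h2 : PieceK2 N p)
    {c : G0 N → ZMod p} (hc : IsParHom c) :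
    IsKum N p c (topKummerMap N p c : JZero N) := by
  have h := top_isKum_exists h1 h3 h2 hc
  rw [topKummerMap, dif_pos h]
  exact h.choose_spec

theorem top_kummerMap_eq (hu : PieceUniq N p) {c : G0 N → ZMod p} {x : JZero N}
    (h : IsKum N p c x) : (topKummerMap N p c : JZero N) = x := by
  have h' : ∃ x : JZero N, IsKum N p c x := ⟨x, h⟩
  rw [topKummerMap, dif_pos h']
  exact hu h'.choose_spec h

/-- The transfer of `c` is `heckeCoh N ℓ c` (`ℓ ∤ N` prime). -/
theorem top_isTransfer_heckeCoh {ℓ : ℕ} (hℓ : ℓ.Prime) (hℓN : ¬ ℓ ∣ N) (c : G0 N → ZMod p) :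
    IsTransfer N ℓ c (heckeCoh N ℓ c) := by
  intro γ π δ hfac
  unfold heckeCoh
  refine Finset.sum_congr rfl fun i _ => ?_
  rw [H149.HCoh_heckeFac_unique hℓ hℓN (hfac i)]

/-- Existence of the Hecke factorisation, with the index map a permutation. -/
theorem top_exists_factor {ℓ : ℕ} (hℓ : ℓ.Prime) (hℓN : ¬ ℓ ∣ N) (γ : G0 N) :
    ∃ (π : Equiv.Perm (Option (Fin ℓ))) (δ : Option (Fin ℓ) → G0 N),
      ∀ i, IsHeckeFactor ℓ γ i (π i, δ i) :=
  ⟨H149.HCoh_perm (H149.HCoh_isFactorSystem hℓ hℓN) γ, fun i => (heckeFac N ℓ γ i).2,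
    fun i => H149.HCoh_heckeFac_spec hℓ hℓN γ i⟩

/-- **Output of sub-layer M4b** for a fixed level and modulus, from the seven pieces. -/
theorem M4b_of_pieces (N : ℕ) [NeZero N] (p : ℕ)
    (h1 : PieceK1 N p) (h3 : PieceK3 N p) (h2 : PieceK2 N p) (hu : PieceUniq N p)
    (hi : PieceInj N p) (ha : PieceAdd N p) (hh : PieceHecke N p) :
    ∃ κ : (G0 N → ZMod p) → Jp N p,
      (∀ c c', IsParHom c → IsParHom c' → κ (c + c') = κ c + κ c') ∧
      (∀ c, IsParHom c → κ c = 0 → c = 0) ∧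
      (∀ ℓ : Nat.Primes, ¬ (ℓ : ℕ) ∣ N * p → ∀ c, IsParHom c →
        κ (heckeCoh N ℓ c) = heckeJp N p ℓ (κ c)) := by
  refine ⟨topKummerMap N p, fun c c' hc hc' => ?_, fun c hc h0 => ?_, fun ℓ hℓ c hc => ?_⟩
  · apply Subtype.ext
    rw [Submodule.coe_add]
    exact top_kummerMap_eq hu
      (ha (top_isKum_kummerMap h1 h3 h2 hc) (top_isKum_kummerMap h1 h3 h2 hc'))
  · have h := top_isKum_kummerMap h1 h3 h2 hc
    rw [h0] at h
    exact hi h
  · apply Subtype.ext
    rw [coe_heckeJp]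
    have hℓN : ¬ (ℓ : ℕ) ∣ N := fun h => hℓ (Dvd.dvd.mul_right h p)
    exact top_kummerMap_eq hu (hh ℓ hℓ (top_exists_factor ℓ.2 hℓN) hc
      (top_isTransfer_heckeCoh ℓ.2 hℓN c) (top_isKum_kummerMap h1 h3 h2 hc))

/-- The seven pieces for all levels and all PRIME moduli give `M4bStatement`. -/
theorem M4bStatement_of_pieces
    (h1 : ∀ (N : ℕ) [NeZero N] (p : ℕ), p.Prime → PieceK1 N p)
    (h3 : ∀ (N : ℕ) [NeZero N] (p : ℕ), p.Prime → PieceK3 N p)
    (h2 : ∀ (N : ℕ) [NeZero N] (p : ℕ), p.Prime → PieceK2 N p)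
    (hu : ∀ (N : ℕ) [NeZero N] (p : ℕ), p.Prime → PieceUniq N p)
    (hi : ∀ (N : ℕ) [NeZero N] (p : ℕ), p.Prime → PieceInj N p)
    (ha : ∀ (N : ℕ) [NeZero N] (p : ℕ), p.Prime → PieceAdd N p)
    (hh : ∀ (N : ℕ) [NeZero N] (p : ℕ), p.Prime → PieceHecke N p) :
    M4bStatement := by
  intro N _ p hp
  exact M4b_of_pieces N p (h1 N p hp.out) (h3 N p hp.out) (h2 N p hp.out) (hu N p hp.out)
    (hi N p hp.out) (ha N p hp.out) (hh N p hp.out)

end Assembly

end Fermat.Agent.S29.M4b

end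
end
-- ===== PACK-END S29/M4b/Top.lean

-- ===== PACK-BEGIN S29/M4b/K3/Defs.lean
section
/-
S29 row, LAYER M, SUB-LAYER M4b, PIECE K3 (descent `ℂ → ℚ̄`) — interface definitions of the
K3 sub-skeleton (helper42, squad-lead S29/S42).  Namespace `Fermat.Agent.S29.M4b.K3`.

K3 (`exists_realised_isTwisted` of `M4b/Skeleton.lean`) is PROVED in `M4b/K3/Top.lean` from
* `H152.desc_main` (helper152; places-free descent of Kummer classes),
* the landed ROOT lemma `H751.exists_pow_eq_UHP`, MERO `H882`, and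
* the two `Prop`s below: `DegStatement` (bounded degree of `F_ℂ` over `ℂ(j)`) and `FinStatement`
  (finiteness of the `Aut(ℂ/ℚ̄)`-orbit of the Kummer class of a twisted function).
-/


set_option autoImplicit false

noncomputable section

open ModularCurve AlgebraicCurve CongruenceSubgroup UpperHalfPlane
open scoped MatrixGroups Manifold

namespace Fermat.Agent.S29.M4b.K3

open Fermat.Agent.S24 Fermat.Agent.S24.H648 Fermat.Agent.S24.H708 Fermat.Agent.S24.Deg457
open Fermat.Agent.S29 Fermat.Agent.S29.M4b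

/-- `ℂ` as an algebra over `ℚ̄` along the fixed embedding `Deg457.iotaC`.  (A `def`, not an
instance: use `letI := algKC`.) -/
@[reducible] def algKC : Algebra Kbar ℂ := iotaC.toAlgebra

/-- The function field of `X₀(N)` over `ℂ` inside `ℂ((q))` (Prelude object). -/
abbrev FC (N : ℕ) : IntermediateField ℂ (LaurentSeries ℂ) :=
  laurentBaseChange ℂ (modularFunctionFieldFull N)

/-- SUB-PIECE `K3-DEG`: the function field `F_ℂ = ℂ(j(q^d) : d ∣ N)` has bounded degree over
`ℂ(j)` (every element is a root of a polynomial of degree `≤ n` over `ℂ(j)`).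
Exactly the hypothesis `hdeg` of `H152.desc_main`. -/
def DegStatement (N : ℕ) : Prop :=
  ∃ n : ℕ, ∀ u ∈ FC N,
    IsIntegral (IntermediateField.adjoin ℂ {coeffEmb ℂ jq}) u ∧
      (minpoly (IntermediateField.adjoin ℂ {coeffEmb ℂ jq}) u).natDegree ≤ n

/-- SUB-PIECE `K3-FIN` (the arithmetic heart of K3): for a twisted function `U` of a parabolic
character, the `Aut(ℂ/ℚ̄)`-orbit of the class of `f = qexp (U ^ p)` in `F_ℂˣ / (F_ℂˣ) ^ p` is
finite.  Exactly the hypothesis `horb` of `H152.desc_main`.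

Why true: `p ∣ ord_w f` at every place `w` of `F_ℂ/ℂ` (K2 over `ℂ`); `σ` permutes the places, so
the same holds for `σ f`, which is again the `q`-expansion of a good function `G_σ` (`σ f` is
integral over `ℂ[j]`); by the easy half of the dictionary `p ∣ ord_τ G_σ` for all `τ ∈ ℍ`, so
`G_σ = U_σ ^ p` (ROOT) and `U_σ` has a character `χ_σ : Γ₀(N) → μ_p`
(`H751.exists_character_of_pow_eq`); there are finitely many characters (`Γ₀(N)` is finitely
generated), and `χ_σ = χ_σ'` implies `σ f / σ' f = (U_σ U_σ' ^ (p-1) / G_σ') ^ p ∈ (F_ℂˣ) ^ p`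
(MERO applied to the good invariant function `U_σ U_σ' ^ (p-1)`). -/
def FinStatement (N p : ℕ) : Prop :=
  letI := algKC
  ∀ (c : G0 N → ZMod p), IsParHom c → ∀ U : ℍ → ℂ, IsTwisted N p c U →
    ∃ T : Set (LaurentSeries ℂ), T.Finite ∧ ∀ σ : ℂ ≃ₐ[Kbar] ℂ, ∃ t ∈ T,
      ∃ u ∈ FC N, u ≠ 0 ∧
        coeffMap (σ : ℂ →+* ℂ) (qexpFun 1 (fun τ => U τ ^ p)) = t * u ^ p

end Fermat.Agent.S29.M4b.K3

end
end
-- ===== PACK-END S29/M4b/K3/Defs.lean

-- ===== PACK-BEGIN S29/M4b/K3/Basic.lean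
section
/-
S29 row, M4b, piece K3 — basic lemmas for the top assembly (helper42).

* `isMerInf_of_isTwisted` : a twisted function of a parabolic character has a `q`-expansion at `i∞`.
* `exists_div_AK`, `exists_div_goodQ` : elements of the function fields over `ℚ̄` / `ℂ` are
  quotients of polynomials in the `j(q^d)` / of `q`-expansions of good functions.
* `hasChar_of_mul_eq` : transport of the character along `U' * B = ζ * U * A`.
-/



set_option autoImplicit false

noncomputable section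

open ModularCurve AlgebraicCurve CongruenceSubgroup UpperHalfPlane
open scoped MatrixGroups Manifold

namespace Fermat.Agent.S29.M4b.K3

open Fermat.Agent.S24 Fermat.Agent.S24.H648 Fermat.Agent.S24.H708 Fermat.Agent.S24.Deg457
open Fermat.Agent.S24.H624
open Fermat.Agent.S29 Fermat.Agent.S29.M4b

variable {N : ℕ} [NeZero N] {p : ℕ} [NeZero p]

/-- The translation `T` as an element of `Γ₀(N)`. -/
def TG (N : ℕ) : G0 N := ⟨ModularGroup.T, H882.T_mem_Gamma0 N⟩

omit [NeZero N] in
theorem trace_TG : (TG N).mat.trace = 2 := by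
  simp [TG, G0.mat, ModularGroup.T, Matrix.trace_fin_two]

omit [NeZero N] [NeZero p] in
/-- A twisted function of a parabolic character is `1`-periodic. -/
theorem periodic_of_isTwisted {c : G0 N → ZMod p} (hc : IsParHom c) {U : ℍ → ℂ}
    (hU : HasChar N p c U) : Function.Periodic (U ∘ ofComplex) (1 : ℝ) := by
  have hT : ∀ τ : ℍ, U (ModularGroup.T • τ) = U τ := by
    intro τ
    have h := hU (TG N) τ
    rw [hc.parabolic (TG N) (Or.inl trace_TG)] at h
    simpa [TG] using h
  intro w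
  by_cases hw : 0 < Complex.im w
  · have hw' : 0 < Complex.im (w + ((1 : ℝ) : ℂ)) := by simpa using hw
    simp only [Function.comp_apply, ofComplex_apply_of_im_pos hw', ofComplex_apply_of_im_pos hw]
    rw [← hT ⟨w, hw⟩]
    congr 1
    apply UpperHalfPlane.ext
    rw [UpperHalfPlane.modular_T_smul, UpperHalfPlane.coe_vadd]
    simp [add_comm]
  · have hw0 : Complex.im w ≤ 0 := not_lt.mp hw
    have hw' : Complex.im (w + ((1 : ℝ) : ℂ)) ≤ 0 := by simpa using hw0
    simp only [Function.comp_apply]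
    rw [ofComplex_apply_of_im_nonpos hw', ofComplex_apply_of_im_nonpos hw0]

omit [NeZero N] in
/-- If `U ^ p` has at most exponential growth, so has `U`. -/
theorem expGrowth_of_pow {U : ℍ → ℂ} (h : ExpGrowth (fun τ => U τ ^ p)) : ExpGrowth U := by
  obtain ⟨C, m, hC⟩ := h
  refine ⟨1 + |C|, m, fun τ hτ => ?_⟩
  have h1 := hC τ hτ
  rw [norm_pow] at h1
  have hp : p ≠ 0 := NeZero.ne p
  have hexp : (1 : ℝ) ≤ Real.exp (2 * Real.pi * m * τ.im) := by
    apply Real.one_le_exp
    have := Real.pi_pos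
    have := τ.im_pos
    positivity
  by_cases hle : ‖U τ‖ ≤ 1
  · calc ‖U τ‖ ≤ 1 := hle
      _ ≤ (1 + |C|) * 1 := by have := abs_nonneg C; linarith
      _ ≤ (1 + |C|) * Real.exp (2 * Real.pi * m * τ.im) := by
          apply mul_le_mul_of_nonneg_left hexp
          have := abs_nonneg C; linarith
  · have hgt : 1 ≤ ‖U τ‖ := (not_le.mp hle).le
    have h2 : ‖U τ‖ ≤ ‖U τ‖ ^ p := le_self_pow₀ hgt hp
    calc ‖U τ‖ ≤ ‖U τ‖ ^ p := h2
      _ ≤ C * Real.exp (2 * Real.pi * m * τ.im) := h1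
      _ ≤ (1 + |C|) * Real.exp (2 * Real.pi * m * τ.im) := by
          apply mul_le_mul_of_nonneg_right _ (Real.exp_pos _).le
          have := le_abs_self C; linarith

omit [NeZero N] in
/-- **K3a**: a twisted function of a parabolic character is meromorphic at `i∞` in `q`. -/
theorem isMerInf_of_isTwisted {c : G0 N → ZMod p} (hc : IsParHom c) {U : ℍ → ℂ}
    (hU : IsTwisted N p c U) : IsMerInf 1 U := by
  refine ⟨hU.mdiff, ?_, ?_⟩
  · have := periodic_of_isTwisted hc hU.hasChar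
    simpa using this
  · obtain ⟨-, -, h3⟩ := hU.pow_mem
    have h := h3 1
    simp only [one_smul] at h
    exact H882.isBounded_mul_qh_pow_of_expGrowth (expGrowth_of_pow h)

/-! ### Quotient presentations -/

section Quot

variable (K : Type*) [Field K] [Algebra ℚ K]

omit [NeZero N] in
/-- The polynomials in the `j(q^d)` lie in the function field. -/
theorem AK_le_laurentBaseChange (N : ℕ) :
    AK K N ≤ (laurentBaseChange K (modularFunctionFieldFull N)).toSubalgebra := by
  refine Algebra.adjoin_le ?_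
  rintro _ ⟨y, hy, rfl⟩
  exact coeffEmb_mem_laurentBaseChange K (IntermediateField.subset_adjoin ℚ _ hy)

omit [NeZero N] in
/-- Every element of the function field is a quotient of two polynomials in the `j(q^d)`. -/
theorem exists_div_AK (N : ℕ) {x : LaurentSeries K}
    (hx : x ∈ laurentBaseChange K (modularFunctionFieldFull N)) :
    ∃ r ∈ AK K N, ∃ s ∈ AK K N, s ≠ 0 ∧ x = r / s := by
  have h := laurentBaseChange_full_le (K := K) N hx
  rw [IntermediateField.mem_adjoin_iff_div] at h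
  obtain ⟨r, hr, s, hs, rfl⟩ := h
  by_cases hs0 : s = 0
  · refine ⟨0, zero_mem _, 1, one_mem _, one_ne_zero, ?_⟩
    rw [hs0, div_zero, zero_div]
  · exact ⟨r, hr, s, hs, hs0, rfl⟩

end Quot

/-- Every element of `F_ℂ` is a quotient of `q`-expansions of good functions. -/
theorem exists_div_goodQ {x : LaurentSeries ℂ} (hx : x ∈ FC N) :
    ∃ a ∈ H882.goodQ N, ∃ b ∈ H882.goodQ N, b ≠ 0 ∧ x = a / b := by
  obtain ⟨r, hr, s, hs, hs0, h⟩ := exists_div_AK ℂ N hx
  exact ⟨r, H882.AK_le_goodQ N hr, s, H882.AK_le_goodQ N hs, hs0, h⟩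

/-! ### Transport of the character -/

omit [NeZero N] [NeZero p] in
/-- If `U' * B = ζ * (U * A)` with `A`, `B` invariant under `Γ₀(N)`, `B ≠ 0`, all functions
holomorphic, and `U` has character `c`, then `U'` has character `c`. -/
theorem hasChar_of_mul_eq {c : G0 N → ZMod p} {U U' A B : ℍ → ℂ} (ζ : ℂ)
    (hU' : MDifferentiable 𝓘(ℂ) 𝓘(ℂ) U') (hB : MDifferentiable 𝓘(ℂ) 𝓘(ℂ) B) (hB0 : B ≠ 0)
    (hAinv : ∀ γ ∈ Gamma0 N, ∀ τ : ℍ, A (γ • τ) = A τ)
    (hBinv : ∀ γ ∈ Gamma0 N, ∀ τ : ℍ, B (γ • τ) = B τ)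
    (hU : HasChar N p c U) (h : ∀ τ, U' τ * B τ = ζ * (U τ * A τ)) : HasChar N p c U' := by
  intro γ τ₀
  -- the holomorphic function `D τ = U' (γ τ) - χ U' τ`
  set χ : ℂ := zetaP p ^ (c γ).val with hχ
  set D : ℍ → ℂ := fun τ => U' ((γ : SL(2, ℤ)) • τ) - χ * U' τ with hD
  have hDm : MDifferentiable 𝓘(ℂ) 𝓘(ℂ) D := by
    have h1 : MDifferentiable 𝓘(ℂ) 𝓘(ℂ) (fun τ : ℍ => U' ((γ : SL(2, ℤ)) • τ)) :=
      (precompSL (γ : SL(2, ℤ)) ⟨U', hU'⟩).2
    have h2 : MDifferentiable 𝓘(ℂ) 𝓘(ℂ) (fun τ : ℍ => χ * U' τ) :=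
      (mdifferentiable_const (c := χ)).mul hU'
    exact h1.sub h2
  have hDB : D * B = 0 := by
    funext τ
    simp only [Pi.mul_apply, Pi.zero_apply, hD]
    have e1 := h ((γ : SL(2, ℤ)) • τ)
    rw [hBinv _ γ.2 τ, hAinv _ γ.2 τ, hU γ τ] at e1
    have e2 := h τ
    calc (U' ((γ : SL(2, ℤ)) • τ) - χ * U' τ) * B τ
        = U' ((γ : SL(2, ℤ)) • τ) * B τ - χ * (U' τ * B τ) := by ring
      _ = ζ * (zetaP p ^ (c γ).val * U τ * A τ) - χ * (ζ * (U τ * A τ)) := by rw [e1, e2]
      _ = 0 := by rw [hχ]; ring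
  rcases mul_eq_zero_of_mdiff hDm hB hDB with h0 | h0
  · have := congrFun h0 τ₀
    simp only [hD, Pi.zero_apply] at this
    exact sub_eq_zero.mp this
  · exact absurd h0 hB0

end Fermat.Agent.S29.M4b.K3

end
end
-- ===== PACK-END S29/M4b/K3/Basic.lean

-- ===== PACK-BEGIN S29/M4b/K3/Deg.lean
section
/-
S29 row, M4b, piece K3 — sub-piece `K3-DEG` (helper42): bounded degree of `F_ℂ` over `ℂ(j)`.

`degStatement N : DegStatement N` (= hypothesis `hdeg` of `H152.desc_main` for `Ω = ℂ`), with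
`n = [SL₂(ℤ) : Γ₀(N)]`.  From the landed S24 degree theory (`Deg457.algDeg_of_mem_field`) and
`H882.exists_monic_of_mem_goodQ`.
-/



set_option autoImplicit false

noncomputable section

open ModularCurve AlgebraicCurve CongruenceSubgroup UpperHalfPlane Polynomial
open scoped MatrixGroups Manifold

namespace Fermat.Agent.S29.M4b.K3

open Fermat.Agent.S24 Fermat.Agent.S24.H648 Fermat.Agent.S24.H708 Fermat.Agent.S24.Deg457
open Fermat.Agent.S29 Fermat.Agent.S29.M4b

/-- The interface hypothesis of the S24 degree theory over `ℂ`. -/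
theorem hyp_complex (N : ℕ) [NeZero N] : Hyp ℂ N (Nat.card (XX N)) := by
  intro b hb
  obtain ⟨P, hPm, hPn, hP⟩ := H882.exists_monic_of_mem_goodQ (H882.AK_le_goodQ N hb)
  exact ⟨P, hPm, hPn, hP⟩

/-- **K3-DEG**. -/
theorem degStatement (N : ℕ) [NeZero N] : DegStatement N := by
  refine ⟨Nat.card (XX N), fun u hu => ?_⟩
  obtain ⟨Q, hQ0, hQn, hQ⟩ := algDeg_of_mem_field (RingHom.id ℂ) (_root_.Fermat.Agent.S29.M4b.K3.hyp_complex N) hu
  have hj : ∀ t : ℂ[X], t ≠ 0 →
      aeval (IntermediateField.AdjoinSimple.gen ℂ (coeffEmb ℂ jq)) t ≠ 0 := by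
    intro t ht h0
    apply aeval_JK_ne_zero ℂ ht
    have h1 := congrArg (algebraMap ↥(IntermediateField.adjoin ℂ {coeffEmb ℂ jq})
      (LaurentSeries ℂ)) h0
    rw [← aeval_algebraMap_apply, map_zero, IntermediateField.AdjoinSimple.algebraMap_gen] at h1
    exact h1
  refine isIntegral_and_natDegree_le_of_relation (K := ℂ)
    (IntermediateField.AdjoinSimple.gen ℂ (coeffEmb ℂ jq)) hj u Q hQ0 _ hQn ?_
  rw [IntermediateField.AdjoinSimple.algebraMap_gen]
  exact hQ

end Fermat.Agent.S29.M4b.K3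

end
end
-- ===== PACK-END S29/M4b/K3/Deg.lean

-- ===== PACK-BEGIN S29/M4b/H822/K4Basic.lean
section
/-
S29 / M4b (helper822): PIECES `K4-ADD` (`isKum_add`) and `K4-INJ` (`isKum_zero_right`) of
`M4b/Skeleton.lean`, exact statements.  Sorry-free.
-/




set_option autoImplicit false

noncomputable section

open ModularCurve AlgebraicCurve CongruenceSubgroup UpperHalfPlane
open scoped MatrixGroups Manifold

namespace Fermat.Agent.S29.M4b.H822

open Fermat.Agent.S24 Fermat.Agent.S29 Fermat.Agent.S29.M4b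

variable (N : ℕ) [NeZero N] (p : ℕ) [NeZero p]

/-- A function which is not the zero function has a point of non-vanishing. -/
theorem exists_ne_zero_of_ne_zero {G : ℍ → ℂ} (h : G ≠ 0) : ∃ τ : ℍ, G τ ≠ 0 := by
  by_contra hh
  exact h (funext fun τ => not_not.mp fun hτ => hh ⟨τ, hτ⟩)

/-- PIECE `K4-ADD`: additivity of the Kummer relation. -/
theorem isKum_add {c c' : G0 N → ZMod p} {x x' : JZero N}
    (h : IsKum N p c x) (h' : IsKum N p c' x') : IsKum N p (c + c') (x + x') := by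
  obtain ⟨f, t, U, ht, hx, hU, hr⟩ := h
  obtain ⟨f', t', U', ht', hx', hU', hr'⟩ := h'
  have hfun : (fun τ => (U τ * U' τ) ^ p) = (fun τ => U τ ^ p) * (fun τ => U' τ ^ p) := by
    funext τ
    simp [mul_pow]
  have hreal : Realises N (f * f' * (t * t') ^ p) (fun τ => (U τ * U' τ) ^ p) := by
    have h1 := realises_mul hr hr'
    rw [hfun]
    have h2 : f * f' * (t * t') ^ p = f * t ^ p * (f' * t' ^ p) := by ring
    rw [h2]
    exact h1
  refine ⟨f * f', t * t', fun τ => U τ * U' τ, mul_ne_zero ht ht', hx.add hx', ?_, hreal⟩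
  refine ⟨hU.mdiff.mul hU'.mdiff, ?_, hasChar_mul hU.hasChar hU'.hasChar, hreal.1⟩
  have hne : f * f' * (t * t') ^ p ≠ 0 :=
    mul_ne_zero (mul_ne_zero hx.ne_zero hx'.ne_zero) (pow_ne_zero _ (mul_ne_zero ht ht'))
  obtain ⟨τ, hτ⟩ := exists_ne_zero_of_ne_zero (realises_ne_zero hreal hne)
  refine ⟨τ, fun h0 => hτ ?_⟩
  show (U τ * U' τ) ^ p = 0
  rw [h0, zero_pow (NeZero.ne p)]

/-- PIECE `K4-INJ`: only the trivial character has Kummer class `0`. -/
theorem isKum_zero_right {c : G0 N → ZMod p} (h : IsKum N p c (0 : JZero N)) : c = 0 := by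
  obtain ⟨f, t, U, ht, hx, hU, hr⟩ := h
  have hp0 : (p : ℤ) ≠ 0 := by exact_mod_cast NeZero.ne p
  have hpn : p ≠ 0 := NeZero.ne p
  obtain ⟨g, hg, hfg⟩ := (hx.eq_zero_iff hp0).mp rfl
  have hf0 := hx.ne_zero
  -- `f / g ^ p` is a constant
  have hu : ∀ v : Place Kbar (FF N), v.ord (f / g ^ p) = 0 := by
    intro v
    have hpow : v.ord (g ^ p) = (p : ℤ) * v.ord g := by
      rw [← zpow_natCast, Place.ord_zpow]
    rw [div_eq_mul_inv, Place.ord_mul v hf0 (inv_ne_zero (pow_ne_zero _ hg)), Place.ord_inv,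
      hpow, hfg v]
    ring
  obtain ⟨a0, ha0⟩ := Fermat.Agent.S18.H564.constOfOrdZero_modularFunctionFieldBar N (f / g ^ p)
    (div_ne_zero hf0 (pow_ne_zero _ hg)) hu
  obtain ⟨b0, hb0⟩ := IsAlgClosed.exists_pow_nat_eq a0 (Nat.pos_of_ne_zero hpn)
  -- `f * t ^ p = v ^ p`
  set v : FF N := algebraMap Kbar (FF N) b0 * g * t with hv
  have hvp : v ^ p = f * t ^ p := by
    have h1 : f = algebraMap Kbar (FF N) a0 * g ^ p := by
      rw [← ha0, div_mul_cancel₀ _ (pow_ne_zero _ hg)]
    rw [hv, mul_pow, mul_pow, ← map_pow, hb0, ← h1]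
  have hv0 : v ≠ 0 := by
    intro h0
    have : f * t ^ p = 0 := by rw [← hvp, h0, zero_pow hpn]
    exact (mul_ne_zero hf0 (pow_ne_zero _ ht)) this
  -- `v = A / B` with `A, B` polynomials in the `j(q^d)`
  obtain ⟨A, B, hB0, hvAB⟩ := H997.exists_div_inclRN N v
  have hB0' : H997.inclRN N B ≠ 0 := fun h0 =>
    hB0 (H997.inclRN_injective N (by rw [h0, map_zero]))
  have hA0' : H997.inclRN N A ≠ 0 := by
    intro h0
    rw [h0, zero_div] at hvAB
    exact hv0 hvAB
  obtain ⟨GA, hGA⟩ := exists_realises_of_mem_AK (a := H997.inclRN N A) A.2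
  obtain ⟨GB, hGB⟩ := exists_realises_of_mem_AK (a := H997.inclRN N B) B.2
  have h3 : f * t ^ p * (H997.inclRN N B) ^ p = (H997.inclRN N A) ^ p := by
    rw [← hvp, ← mul_pow, hvAB, div_mul_cancel₀ _ hB0']
  have h1 : Realises N ((H997.inclRN N A) ^ p) ((fun τ => U τ ^ p) * GB ^ p) := by
    have := realises_mul hr (realises_pow hGB p)
    rwa [h3] at this
  have h4 : (fun τ => U τ ^ p) * GB ^ p = GA ^ p := realises_unique_right h1 (realises_pow hGA p)
  have h5 : ∀ τ : ℍ, (U τ * GB τ) ^ p = GA τ ^ p := by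
    intro τ
    have := congrFun h4 τ
    simp only [Pi.mul_apply, Pi.pow_apply] at this
    rw [mul_pow]
    exact this
  obtain ⟨τ₀, hτ₀⟩ := exists_ne_zero_of_ne_zero (realises_ne_zero hGA hA0')
  have hUB0 : U τ₀ * GB τ₀ ≠ 0 := by
    intro h0
    have := h5 τ₀
    rw [h0, zero_pow hpn] at this
    exact hτ₀ (pow_eq_zero_iff hpn |>.mp this.symm)
  set z : ℂ := U τ₀ * GB τ₀ / GA τ₀ with hz
  have hzp : z ^ p = 1 := by
    rw [hz, div_pow, h5 τ₀, div_self (pow_ne_zero _ hτ₀)]
  have hGAmd : MDifferentiable 𝓘(ℂ) 𝓘(ℂ) GA := hGA.1.1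
  have hGBmd : MDifferentiable 𝓘(ℂ) 𝓘(ℂ) GB := hGB.1.1
  have hEq : (fun τ => U τ * GB τ) = fun τ => z * GA τ := by
    refine H751.eq_of_pow_eq_UHP (hU.mdiff.mul hGBmd) (mdifferentiable_const.mul hGAmd) hpn
      (fun τ => ?_) (τ₀ := τ₀) ?_ hUB0
    · show (U τ * GB τ) ^ p = (z * GA τ) ^ p
      rw [mul_pow z, hzp, one_mul, h5 τ]
    · show U τ₀ * GB τ₀ = z * GA τ₀
      rw [hz, div_mul_cancel₀ _ hτ₀]
  funext γ
  have hinvA : GA ((γ : SL(2, ℤ)) • τ₀) = GA τ₀ := hGA.1.2.1 _ γ.2 τ₀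
  have hinvB : GB ((γ : SL(2, ℤ)) • τ₀) = GB τ₀ := hGB.1.2.1 _ γ.2 τ₀
  have e1 := congrFun hEq ((γ : SL(2, ℤ)) • τ₀)
  have e2 := congrFun hEq τ₀
  rw [hinvA, hinvB, ← e2, hU.hasChar γ τ₀] at e1
  have e3 : (zetaP p ^ (c γ).val - 1) * (U τ₀ * GB τ₀) = 0 := by
    linear_combination e1
  rcases mul_eq_zero.mp e3 with h | h
  · exact (zetaP_pow_val_eq_one_iff p (c γ)).mp (sub_eq_zero.mp h)
  · exact absurd h hUB0

end Fermat.Agent.S29.M4b.H822

end
end
-- ===== PACK-END S29/M4b/H822/K4Basic.lean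

-- ===== PACK-BEGIN S30/H810/Real.lean
section
/-
S30 / piece FIN-ONTO (helper810), part 1: analytic realisation of `R_N = ℚ̄[j(q^d) : d ∣ N]`
by good functions, and the Taylor embeddings `σ_τ : FF N → ℂ((z))`.

* `realRN N : RN N →+* goodRing N` : the good function with `q`-expansion `ι r`;
* `sigmaTau N τ : FF N →+* LaurentSeries ℂ` : Taylor expansion at `τ` of the realisation;
* `sigmaTau_of_realises` : if `G` realises `u` (M4b `Realises`), then
  `sigmaTau N τ u = taylorLaurent τ G`.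
-/





set_option autoImplicit false
set_option linter.unusedSectionVars false

noncomputable section

open ModularCurve AlgebraicCurve CongruenceSubgroup UpperHalfPlane HahnSeries
open scoped MatrixGroups Manifold

namespace Fermat.Agent.S30.H810

open Fermat.Agent.S24 Fermat.Agent.S24.H648 Fermat.Agent.S24.H708 Fermat.Agent.S24.Deg457
open Fermat.Agent.S24.H624 Fermat.Agent.S24.H997 Fermat.Agent.S29 Fermat.Agent.S29.M4b
open Fermat.Agent.S29.H882

variable (N : ℕ) [NeZero N]

/-- every element of `R_N` is the `q`-expansion of a good function -/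
theorem exists_good_of_RN (r : RN N) :
    ∃ f : ℍ → ℂ, f ∈ goodRing N ∧ HasQExp 1 f (coeffMap iotaC (r : LaurentSeries Kbar)) := by
  have h1 : (r : LaurentSeries Kbar) ∈ AK Kbar N := r.2
  have h2 : coeffMap iotaC (r : LaurentSeries Kbar) ∈ AK ℂ N := coeffMap_mem_AK iotaC h1
  exact AK_le_goodQ N h2

/-- the good function realising `r ∈ R_N` -/
def realFun (r : RN N) : ℍ → ℂ := (exists_good_of_RN N r).choose

theorem realFun_mem (r : RN N) : realFun N r ∈ goodRing N :=
  (exists_good_of_RN N r).choose_spec.1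

theorem realFun_hasQExp (r : RN N) :
    HasQExp 1 (realFun N r) (coeffMap iotaC (r : LaurentSeries Kbar)) :=
  (exists_good_of_RN N r).choose_spec.2

/-- the realisation `R_N → goodRing N` as a ring hom -/
def realRN : RN N →+* goodRing N where
  toFun r := ⟨realFun N r, realFun_mem N r⟩
  map_one' := by
    apply Subtype.ext
    have h := realFun_hasQExp N (1 : RN N)
    have h1 : coeffMap iotaC ((1 : RN N) : LaurentSeries Kbar) = 1 := by
      rw [OneMemClass.coe_one, map_one]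
    rw [h1] at h
    exact h.eq_of_eq (HasQExp.one 1)
  map_mul' a b := by
    apply Subtype.ext
    have h := realFun_hasQExp N (a * b)
    have h1 : coeffMap iotaC ((a * b : RN N) : LaurentSeries Kbar)
        = coeffMap iotaC (a : LaurentSeries Kbar) * coeffMap iotaC (b : LaurentSeries Kbar) := by
      rw [MulMemClass.coe_mul, map_mul]
    rw [h1] at h
    exact h.eq_of_eq ((realFun_hasQExp N a).mul (realFun_hasQExp N b))
  map_zero' := by
    apply Subtype.ext
    have h := realFun_hasQExp N (0 : RN N)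
    have h1 : coeffMap iotaC ((0 : RN N) : LaurentSeries Kbar) = 0 := by
      rw [ZeroMemClass.coe_zero, map_zero]
    rw [h1] at h
    exact h.eq_of_eq (HasQExp.zero 1)
  map_add' a b := by
    apply Subtype.ext
    have h := realFun_hasQExp N (a + b)
    have h1 : coeffMap iotaC ((a + b : RN N) : LaurentSeries Kbar)
        = coeffMap iotaC (a : LaurentSeries Kbar) + coeffMap iotaC (b : LaurentSeries Kbar) := by
      rw [AddMemClass.coe_add, map_add]
    rw [h1] at h
    exact h.eq_of_eq ((realFun_hasQExp N a).add (realFun_hasQExp N b))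

@[simp] theorem coe_realRN (r : RN N) : ((realRN N r : goodRing N) : ℍ → ℂ) = realFun N r := rfl

theorem iotaC_injective : Function.Injective iotaC := iotaC.injective

theorem coeffMap_iotaC_injective :
    Function.Injective (coeffMap iotaC : LaurentSeries Kbar → LaurentSeries ℂ) := by
  intro x y h
  ext k
  apply iotaC_injective
  have := congrArg (fun s : LaurentSeries ℂ => s.coeff k) h
  simpa using this

theorem realRN_injective : Function.Injective (realRN N) := by
  intro a b h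
  apply Subtype.ext
  apply coeffMap_iotaC_injective
  have ha := realFun_hasQExp N a
  have hb := realFun_hasQExp N b
  have h' : realFun N a = realFun N b := congrArg Subtype.val h
  rw [h'] at ha
  exact ha.unique hb

/-- good functions are holomorphic -/
theorem goodRing_le_holoRing : goodRing N ≤ holoRing := fun _ hf => hf.1

/-- the inclusion `goodRing N → holoRing` -/
def goodToHolo : goodRing N →+* holoRing :=
  (Subalgebra.inclusion (goodRing_le_holoRing N)).toRingHom

@[simp] theorem coe_goodToHolo (f : goodRing N) :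
    ((goodToHolo N f : holoRing) : ℍ → ℂ) = (f : ℍ → ℂ) := rfl

theorem goodToHolo_injective : Function.Injective (goodToHolo N) :=
  Subalgebra.inclusion_injective (goodRing_le_holoRing N)

/-- Taylor expansion at `τ` of the realisation of `r ∈ R_N` -/
def sTau (τ : ℍ) : RN N →+* LaurentSeries ℂ :=
  (taylorLaurent τ).comp ((goodToHolo N).comp (realRN N))

theorem sTau_injective (τ : ℍ) : Function.Injective (sTau N τ) :=
  (taylorLaurent_injective τ).comp ((goodToHolo_injective N).comp (realRN_injective N))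

/-- **The Taylor embedding** `σ_τ : FF N → ℂ((z))`. -/
def sigmaTau (τ : ℍ) : FF N →+* LaurentSeries ℂ := liftF (sTau N τ) (sTau_injective N τ)

theorem sigmaTau_inclRN (τ : ℍ) (r : RN N) :
    sigmaTau N τ (inclRN N r) = taylorLaurent τ (goodToHolo N (realRN N r)) :=
  liftF_inclRN _ _ r

theorem algebraMap_laurent_eq_C (c : ℂ) :
    algebraMap ℂ (LaurentSeries ℂ) c = HahnSeries.C c := by
  rw [algebraMap_laurentSeries_eq_single]; rfl

theorem realFun_algebraMap (c : Kbar) :
    realFun N (algebraMap Kbar (RN N) c) = fun _ => iotaC c := by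
  have h := realFun_hasQExp N (algebraMap Kbar (RN N) c)
  have h1 : ((algebraMap Kbar (RN N) c : RN N) : LaurentSeries Kbar)
      = algebraMap Kbar (LaurentSeries Kbar) c := rfl
  rw [h1, coeffMap_algebraMap', algebraMap_laurent_eq_C] at h
  exact h.eq_of_eq (HasQExp.const 1 (iotaC c))

theorem taylorLaurent_const (τ : ℍ) (c : ℂ) (f : holoRing) (hf : (f : ℍ → ℂ) = fun _ => c) :
    taylorLaurent τ f = HahnSeries.C c := by
  have : f = algebraMap ℂ holoRing c := Subtype.ext hf
  rw [this, taylorLaurent_apply, AlgHom.commutes, PowerSeries.algebraMap_apply,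
    Algebra.algebraMap_self, RingHom.id_apply, HahnSeries.ofPowerSeries_C]

theorem sigmaTau_algebraMap (τ : ℍ) (c : Kbar) :
    sigmaTau N τ (algebraMap Kbar (FF N) c) = HahnSeries.C (iotaC c) := by
  rw [sigmaTau, liftF_algebraMap]
  exact taylorLaurent_const τ (iotaC c) _ (realFun_algebraMap N c)

variable {N}

theorem Realises.hasQExp {u : FF N} {G : ℍ → ℂ} (hG : Realises N u G) :
    HasQExp 1 G (coeffMap iotaC ((u : FF N) : LaurentSeries Kbar)) := by
  have h := hasQExp_of_mem_goodRing hG.1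
  rwa [hG.2] at h

/-- **Compatibility**: if `G` realises `u`, then `σ_τ u` is the Taylor expansion of `G` at `τ`. -/
theorem sigmaTau_of_realises {u : FF N} {G : ℍ → ℂ} (hG : Realises N u G)
    (hmd : G ∈ holoRing) (τ : ℍ) :
    sigmaTau N τ u = taylorLaurent τ ⟨G, hmd⟩ := by
  obtain ⟨r, t, ht, hu⟩ := exists_div_inclRN N u
  have ht' : inclRN N t ≠ 0 := fun h => ht (inclRN_injective N (by rw [h, map_zero]))
  have hmul : u * inclRN N t = inclRN N r := by
    rw [hu, div_mul_cancel₀ _ ht']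
  have hcoe : ((u : FF N) : LaurentSeries Kbar) * (t : LaurentSeries Kbar)
      = (r : LaurentSeries Kbar) := by
    have := congrArg (fun x : FF N => (x : LaurentSeries Kbar)) hmul
    simpa using this
  have hq : HasQExp 1 (G * realFun N t) (coeffMap iotaC (r : LaurentSeries Kbar)) := by
    have := (Realises.hasQExp hG).mul (realFun_hasQExp N t)
    rwa [← map_mul, hcoe] at this
  have hfun : G * realFun N t = realFun N r := hq.eq_of_eq (realFun_hasQExp N r)
  have hholo : (⟨G, hmd⟩ : holoRing) * goodToHolo N (realRN N t)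
      = goodToHolo N (realRN N r) := Subtype.ext hfun
  have hT0 : taylorLaurent τ (goodToHolo N (realRN N t)) ≠ 0 := by
    intro h
    exact ht (sTau_injective N τ (by rw [map_zero]; exact h))
  rw [hu, map_div₀, sigmaTau_inclRN, sigmaTau_inclRN, ← hholo, map_mul, mul_div_assoc,
    div_self hT0, mul_one]

end Fermat.Agent.S30.H810

end
end
-- ===== PACK-END S30/H810/Real.lean

-- ===== PACK-BEGIN S30/H109/Onto.lean
section



/-!
# S30 / adic layer, piece ONTO (helper109): every torsion class is a Kummer class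

`exists_isKum_of_torsion` : if `m • x = 0` in `J₀(N)(ℚ̄)` then `x` is the Kummer class
(`M4b.IsKum`) of an additive character `c : Γ₀(N) → ℤ/m`.

Input (hypothesis `DCStatement`, the converse direction of the dictionary DICT): a function
`f ∈ FF N` all of whose orders at the places of `FF N / ℚ̄` are divisible by `m` has, after
multiplication by an `m`-th power, a holomorphic realisation all of whose analytic orders of
vanishing are divisible by `m`.  Then ROOT (landed `H751`) gives the `m`-th root `U`, which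
transforms by a character of `Γ₀(N)`.
-/

set_option autoImplicit false

noncomputable section

open ModularCurve AlgebraicCurve CongruenceSubgroup UpperHalfPlane
open scoped MatrixGroups Manifold

namespace Fermat.Agent.S30.H109

open Fermat.Agent.S24 Fermat.Agent.S29 Fermat.Agent.S29.M4b

/-- The converse dictionary: divisibility of all algebraic orders by `m` gives a holomorphic
realisation (up to an `m`-th power) with all analytic orders divisible by `m`. -/
def DCStatement (N m : ℕ) [NeZero N] : Prop :=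
  ∀ f : FF N, f ≠ 0 → (∀ v : Place Kbar (FF N), (m : ℤ) ∣ v.ord f) →
    ∃ (t : FF N) (G : ℍ → ℂ), t ≠ 0 ∧ Realises N (f * t ^ m) G ∧
      ∀ τ : ℍ, ∃ k : ℕ, analyticOrderAt (G ∘ ofComplex) (τ : ℂ) = ((m * k : ℕ) : ℕ∞)

section roots

variable (m : ℕ) [NeZero m]

lemma zetaP_isPrimitiveRoot : IsPrimitiveRoot (zetaP m) m :=
  Complex.isPrimitiveRoot_exp m (NeZero.ne m)

lemma zetaP_pow_val_add (a b : ZMod m) :
    zetaP m ^ (a + b).val = zetaP m ^ a.val * zetaP m ^ b.val := by
  rw [← pow_add]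
  have h1 : (a + b).val = (a.val + b.val) % m := ZMod.val_add a b
  rw [h1]
  exact (pow_mod_orderOf_aux m).symm
where
  pow_mod_orderOf_aux (m : ℕ) [NeZero m] {n : ℕ} :
      zetaP m ^ n = zetaP m ^ (n % m) := by
    conv_lhs => rw [← Nat.div_add_mod n m, pow_add, pow_mul,
      (zetaP_isPrimitiveRoot m).pow_eq_one, one_pow, one_mul]

lemma zetaP_pow_val_injective {a b : ZMod m}
    (h : zetaP m ^ a.val = zetaP m ^ b.val) : a = b := by
  apply ZMod.val_injective m
  exact (zetaP_isPrimitiveRoot m).pow_inj (ZMod.val_lt a) (ZMod.val_lt b) h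

lemma exists_zmod_of_pow_eq_one {z : ℂ} (hz : z ^ m = 1) :
    ∃ c : ZMod m, zetaP m ^ c.val = z := by
  obtain ⟨i, hi, hiz⟩ := (zetaP_isPrimitiveRoot m).eq_pow_of_pow_eq_one hz
  refine ⟨(i : ZMod m), ?_⟩
  rw [ZMod.val_natCast_of_lt hi, hiz]

end roots

section onto

variable (N : ℕ) [NeZero N] (m : ℕ) [NeZero m]

/-- The character of an `m`-th root of a `Γ₀(N)`-invariant function. -/
theorem exists_hom_hasChar {U : ℍ → ℂ} (hU : MDifferentiable 𝓘(ℂ) 𝓘(ℂ) U)
    (hne : ∃ τ, U τ ≠ 0)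
    (hinv : ∀ γ ∈ Gamma0 N, ∀ τ : ℍ, U (γ • τ) ^ m = U τ ^ m) :
    ∃ c : G0 N → ZMod m, (∀ γ γ' : G0 N, c (γ * γ') = c γ + c γ') ∧ HasChar N m c U := by
  have hm : m ≠ 0 := NeZero.ne m
  obtain ⟨τ₁, hτ₁⟩ := hne
  -- the constant attached to `γ`
  have key : ∀ γ : G0 N, ∃ c : ZMod m, ∀ τ : ℍ,
      U ((γ : SL(2, ℤ)) • τ) = zetaP m ^ c.val * U τ := by
    intro γ
    have hA1 : U ((γ : SL(2, ℤ)) • τ₁) ≠ 0 := by
      intro h0
      have := hinv γ γ.2 τ₁
      rw [h0, zero_pow hm] at this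
      exact pow_ne_zero m hτ₁ this.symm
    set z : ℂ := U ((γ : SL(2, ℤ)) • τ₁) / U τ₁ with hz
    have hzm : z ^ m = 1 := by
      rw [hz, div_pow, hinv γ γ.2 τ₁, div_self (pow_ne_zero m hτ₁)]
    obtain ⟨c, hc⟩ := exists_zmod_of_pow_eq_one m hzm
    refine ⟨c, fun τ => ?_⟩
    have hdet : 0 < ((Matrix.SpecialLinearGroup.mapGL ℝ (γ : SL(2, ℤ))).det : ℝ) := by
      simp
    have hAd : MDifferentiable 𝓘(ℂ) 𝓘(ℂ) (fun τ : ℍ => U ((γ : SL(2, ℤ)) • τ)) :=
      hU.comp (UpperHalfPlane.mdifferentiable_smul hdet)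
    have hBd : MDifferentiable 𝓘(ℂ) 𝓘(ℂ) (fun τ : ℍ => zetaP m ^ c.val * U τ) :=
      (mdifferentiable_const (c := zetaP m ^ c.val)).mul hU
    have := H751.eq_of_pow_eq_UHP hAd hBd hm (fun τ => by
      rw [hinv γ γ.2 τ, mul_pow, hc, hzm, one_mul]) (τ₀ := τ₁)
      (by
        simp only [hc, hz]
        field_simp) hA1
    exact congrFun this τ
  choose c hc using key
  refine ⟨c, fun γ γ' => ?_, fun γ τ => hc γ τ⟩
  apply zetaP_pow_val_injective m
  rw [zetaP_pow_val_add]
  have h1 := hc (γ * γ') τ₁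
  have h2 := hc γ ((γ' : SL(2, ℤ)) • τ₁)
  have h3 := hc γ' τ₁
  have hsm : ((γ * γ' : G0 N) : SL(2, ℤ)) • τ₁ = (γ : SL(2, ℤ)) • ((γ' : SL(2, ℤ)) • τ₁) := by
    rw [Subgroup.coe_mul, mul_smul]
  rw [hsm, h2, h3] at h1
  have h5 : zetaP m ^ (c γ).val * zetaP m ^ (c γ').val * U τ₁ =
      zetaP m ^ (c (γ * γ')).val * U τ₁ := by
    linear_combination h1
  exact (mul_right_cancel₀ hτ₁ h5).symm

/-- **ONTO.**  Every `m`-torsion class of `J₀(N)(ℚ̄)` is the Kummer class of an additive
character of `Γ₀(N)` with values in `ℤ/m`. -/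
theorem exists_isKum_of_torsion (hDC : DCStatement N m) {x : JZero N}
    (hx : (m : ℤ) • x = 0) :
    ∃ c : G0 N → ZMod m, (∀ γ γ' : G0 N, c (γ * γ') = c γ + c γ') ∧ IsKum N m c x := by
  have hm : m ≠ 0 := NeZero.ne m
  obtain ⟨f, hf⟩ := H455.exists_isKummerClass_of_zsmul_eq_zero hx
  have hdvd : ∀ v : Place Kbar (FF N), (m : ℤ) ∣ v.ord f := by
    obtain ⟨-, D, -, hD⟩ := hf
    exact fun v => ⟨_, (hD v).symm⟩
  obtain ⟨t, G, ht, hG, hord⟩ := hDC f hf.ne_zero hdvd
  have hGgood := hG.1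
  obtain ⟨U, hUd, hUG⟩ := H751.exists_pow_eq_UHP hGgood.1 m hm hord
  have hpowfun : (fun τ => U τ ^ m) = G := funext hUG
  -- `G` is not identically zero
  have hGne : G ≠ 0 := by
    intro h0
    have hq := hG.2
    have hmer := (H882.hasQExp_of_mem_goodRing hGgood).isMerInf
    rw [(H708.qexpFun_eq_zero_iff hmer).2 h0] at hq
    have hne : (f * t ^ m : FF N) ≠ 0 := mul_ne_zero hf.ne_zero (pow_ne_zero m ht)
    have hne' : ((f * t ^ m : FF N) : LaurentSeries Kbar) ≠ 0 := by
      intro h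
      exact hne (Subtype.ext h)
    exact hne' ((map_eq_zero_iff _ (coeffMap Deg457.iotaC).injective).1 hq.symm)
  have hUne : ∃ τ, U τ ≠ 0 := by
    by_contra hcon
    simp only [not_exists, not_not] at hcon
    apply hGne
    funext τ
    rw [← hUG τ, hcon τ, zero_pow hm]
    rfl
  obtain ⟨c, hcmul, hchar⟩ := exists_hom_hasChar N m hUd hUne (fun γ hγ τ => by
    rw [hUG, hUG, hGgood.2.1 γ hγ τ])
  refine ⟨c, hcmul, f, t, U, ht, hf, ⟨hUd, hUne, hchar, ?_⟩, ?_⟩
  · rw [hpowfun]
    exact hGgood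
  · rw [hpowfun]
    exact hG

/-- The set of additive characters `Γ₀(N) → ℤ/m` is finite (`Γ₀(N)` is finitely generated). -/
theorem finite_hom_set :
    {c : G0 N → ZMod m | ∀ γ γ' : G0 N, c (γ * γ') = c γ + c γ'}.Finite := by
  haveI : Group.FG SL(2, ℤ) := Group.fg_iff.mpr ⟨{ModularGroup.S, ModularGroup.T},
    SpecialLinearGroup.SL2Z_generators, by simp⟩
  haveI : Group.FG (G0 N) := inferInstance
  obtain ⟨s, hs⟩ := Group.fg_def.mp (inferInstance : Group.FG (G0 N))
  let T := {c : G0 N → ZMod m | ∀ γ γ' : G0 N, c (γ * γ') = c γ + c γ'}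
  let r : T → (s → ZMod m) := fun c x => c.1 x
  have hr : Function.Injective r := by
    intro c d hcd
    have hc := c.2
    have hd := d.2
    have hc1 : c.1 1 = 0 := by
      have := hc 1 1
      rw [mul_one] at this
      exact left_eq_add.mp this
    have hd1 : d.1 1 = 0 := by
      have := hd 1 1
      rw [mul_one] at this
      exact left_eq_add.mp this
    have hcinv : ∀ γ, c.1 γ⁻¹ = -c.1 γ := fun γ => by
      have := hc γ γ⁻¹
      rw [mul_inv_cancel, hc1] at this
      exact eq_neg_of_add_eq_zero_right this.symm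
    have hdinv : ∀ γ, d.1 γ⁻¹ = -d.1 γ := fun γ => by
      have := hd γ γ⁻¹
      rw [mul_inv_cancel, hd1] at this
      exact eq_neg_of_add_eq_zero_right this.symm
    apply Subtype.ext
    funext γ
    have hγ : γ ∈ Subgroup.closure (s : Set (G0 N)) := by rw [hs]; trivial
    induction hγ using Subgroup.closure_induction with
    | mem x hx => exact congrFun hcd ⟨x, hx⟩
    | one => rw [hc1, hd1]
    | mul x y _ _ hx hy => rw [hc, hd, hx, hy]
    | inv x _ hx => rw [hcinv, hdinv, hx]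
  haveI : Finite T := Finite.of_injective r hr
  exact Set.toFinite T

/-- **FIN.**  `J₀(N)(ℚ̄)[m]` is finite, given the converse dictionary and the uniqueness of
Kummer classes (piece `K4-UNIQ` of sub-layer M4b). -/
theorem finite_torsion (hDC : DCStatement N m)
    (huniq : ∀ (c : G0 N → ZMod m) (x x' : JZero N),
      IsKum N m c x → IsKum N m c x' → x = x') :
    {x : JZero N | m • x = 0}.Finite := by
  have key : ∀ x : {x : JZero N | m • x = 0}, ∃ c : G0 N → ZMod m,
      (∀ γ γ' : G0 N, c (γ * γ') = c γ + c γ') ∧ IsKum N m c x.1 := fun x =>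
    exists_isKum_of_torsion N m hDC (by rw [natCast_zsmul]; exact x.2)
  choose c hc1 hc2 using key
  let T := {c : G0 N → ZMod m | ∀ γ γ' : G0 N, c (γ * γ') = c γ + c γ'}
  haveI : Finite T := (finite_hom_set N m).to_subtype
  let φ : {x : JZero N | m • x = 0} → T := fun x => ⟨c x, hc1 x⟩
  have hinj : Function.Injective φ := by
    intro x y h
    have hxy : c x = c y := congrArg Subtype.val h
    apply Subtype.ext
    exact huniq (c x) x.1 y.1 (hc2 x) (hxy ▸ hc2 y)
  haveI : Finite {x : JZero N | m • x = 0} := Finite.of_injective φ hinj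
  exact Set.toFinite _

end onto

end Fermat.Agent.S30.H109

end
end
-- ===== PACK-END S30/H109/Onto.lean

-- ===== PACK-BEGIN S29/H102/KBasic.lean
section
/-
S29 / M4b / K4 (helper102) — basic lemmas shared by the K4 pieces.

* `KBasic_zetaP_pow`            : `zetaP p ^ p = 1`;
* `KBasic_expGrowth_of_pow`     : `ExpGrowth (F ^ p) → ExpGrowth F` (`p ≠ 0`);
* `KBasic_mem_goodRing_of_pow`  : a holomorphic `Γ₀(N)`-invariant `V` with `V ^ p` good is good;
* `KBasic_realises_hasQExp`     : `Realises N u G → HasQExp 1 G (coeffMap iotaC u)`;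
* `KBasic_exists_root`          : a good function `V` whose `p`-th power realises `w ∈ FF N`
                                  realises a `p`-th root `v ∈ FF N` of `w`
                                  (MERO + root descent + `F_ℂ ∩ ℚ̄((q)) = FF N`).
-/




set_option autoImplicit false

noncomputable section

open ModularCurve AlgebraicCurve CongruenceSubgroup UpperHalfPlane
open scoped MatrixGroups Manifold

namespace Fermat.Agent.S29.H102

open Fermat.Agent.S24 Fermat.Agent.S29 Fermat.Agent.S29.M4b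
open Fermat.Agent.S24.H648 Fermat.Agent.S24.H708

theorem KBasic_zetaP_pow (p : ℕ) [NeZero p] : zetaP p ^ p = 1 := by
  have hp : (p : ℂ) ≠ 0 := Nat.cast_ne_zero.mpr (NeZero.ne p)
  rw [zetaP, ← Complex.exp_nat_mul, mul_div_cancel₀ _ hp]
  exact Complex.exp_two_pi_mul_I

theorem KBasic_zetaP_ne_zero (p : ℕ) : zetaP p ≠ 0 := Complex.exp_ne_zero _

/-- `ζ_p ^ a = 1` iff `p ∣ a`. -/
theorem KBasic_zetaP_pow_eq_one_iff (p : ℕ) [NeZero p] (a : ℕ) : zetaP p ^ a = 1 ↔ p ∣ a := by
  have h : IsPrimitiveRoot (zetaP p) p := by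
    have := Complex.isPrimitiveRoot_exp p (NeZero.ne p)
    simpa [zetaP] using this
  exact h.pow_eq_one_iff_dvd a

/-- The character value only depends on the class mod `p`. -/
theorem KBasic_zetaP_pow_val_add (p : ℕ) [NeZero p] (a b : ZMod p) :
    zetaP p ^ (a + b).val = zetaP p ^ a.val * zetaP p ^ b.val := by
  rw [← pow_add, ZMod.val_add]
  conv_rhs => rw [← Nat.mod_add_div (a.val + b.val) p]
  rw [pow_add, pow_mul, KBasic_zetaP_pow, one_pow, mul_one]

theorem KBasic_expGrowth_of_pow {F : ℍ → ℂ} {p : ℕ} (hp : p ≠ 0)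
    (h : ExpGrowth (fun τ => F τ ^ p)) : ExpGrowth F := by
  obtain ⟨C, m, hC⟩ := h
  refine ⟨max C 1, m, fun τ hτ => ?_⟩
  have hexp : (1 : ℝ) ≤ Real.exp (2 * Real.pi * m * τ.im) := by
    apply Real.one_le_exp
    have := Real.pi_pos
    have := τ.im_pos
    positivity
  have hmax1 : (1 : ℝ) ≤ max C 1 := le_max_right _ _
  by_cases h1 : ‖F τ‖ ≤ 1
  · calc ‖F τ‖ ≤ 1 := h1
      _ = 1 * 1 := (one_mul 1).symm
      _ ≤ max C 1 * Real.exp (2 * Real.pi * m * τ.im) :=
          mul_le_mul hmax1 hexp zero_le_one (le_trans zero_le_one hmax1)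
  · have h1' : 1 ≤ ‖F τ‖ := le_of_lt (not_le.mp h1)
    have h2 : ‖F τ‖ ≤ ‖F τ‖ ^ p := le_self_pow₀ h1' hp
    have h3 : ‖F τ‖ ^ p ≤ C * Real.exp (2 * Real.pi * m * τ.im) := by
      have := hC τ hτ
      rwa [norm_pow] at this
    calc ‖F τ‖ ≤ ‖F τ‖ ^ p := h2
      _ ≤ C * Real.exp (2 * Real.pi * m * τ.im) := h3
      _ ≤ max C 1 * Real.exp (2 * Real.pi * m * τ.im) :=
          mul_le_mul_of_nonneg_right (le_max_left _ _) (Real.exp_pos _).le

theorem KBasic_mem_goodRing_of_pow {N : ℕ} {V : ℍ → ℂ} {p : ℕ} (hp : p ≠ 0)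
    (hV : MDifferentiable 𝓘(ℂ) 𝓘(ℂ) V)
    (hinv : ∀ γ ∈ Gamma0 N, ∀ τ : ℍ, V (γ • τ) = V τ)
    (hpow : (fun τ => V τ ^ p) ∈ goodRing N) : V ∈ goodRing N := by
  refine ⟨hV, hinv, fun g => ?_⟩
  exact KBasic_expGrowth_of_pow hp (hpow.2.2 g)

variable {N : ℕ} [NeZero N]

theorem KBasic_realises_hasQExp {u : FF N} {G : ℍ → ℂ} (h : Realises N u G) :
    HasQExp 1 G (coeffMap Deg457.iotaC ((u : FF N) : LaurentSeries Kbar)) :=
  ⟨H882.isMerInf_of_mem_goodRing h.1, h.2⟩

theorem KBasic_coeffMap_iotaC_injective :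
    Function.Injective (coeffMap Deg457.iotaC : LaurentSeries Kbar → LaurentSeries ℂ) := by
  intro x y h
  ext k
  have := congrArg (fun z : LaurentSeries ℂ => z.coeff k) h
  simp only [coeffMap_coeff] at this
  exact Deg457.iotaC.injective this

/-- **Analytic `p`-th roots are algebraic.**  If `V` is good of level `N` and `V ^ p` realises
`w ∈ FF N`, then `V` realises some `v ∈ FF N` with `v ^ p = w`. -/
theorem KBasic_exists_root {p : ℕ} (hp : p ≠ 0) {V : ℍ → ℂ} (hV : V ∈ goodRing N) {w : FF N}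
    (hw : Realises N w (fun τ => V τ ^ p)) :
    ∃ v : FF N, v ^ p = w ∧ Realises N v V := by
  have hVq : HasQExp 1 V (qexpFun 1 V) := H882.hasQExp_of_mem_goodRing hV
  have hVp : HasQExp 1 (fun τ => V τ ^ p) (qexpFun 1 V ^ p) := hVq.pow p
  have hwq := KBasic_realises_hasQExp hw
  have heq : qexpFun 1 V ^ p = coeffMap Deg457.iotaC ((w : FF N) : LaurentSeries Kbar) :=
    hVp.unique hwq
  obtain ⟨v₀, hv₀⟩ := RootDesc_laurent Deg457.iotaC hp (qexpFun 1 V)
    ((w : FF N) : LaurentSeries Kbar) heq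
  have hmem : v₀ ∈ modularFunctionFieldBar N := by
    apply H882.mem_laurentBaseChange_of_coeffMap_mem Deg457.iotaC (modularFunctionFieldFull N)
    rw [hv₀]
    exact H882.qexpFun_mem_FC hV
  refine ⟨⟨v₀, hmem⟩, ?_, hV, hv₀.symm⟩
  apply Subtype.ext
  apply KBasic_coeffMap_iotaC_injective
  show coeffMap Deg457.iotaC (v₀ ^ p) = _
  rw [map_pow, hv₀, heq]

end Fermat.Agent.S29.H102

end
end
-- ===== PACK-END S29/H102/KBasic.lean

-- ===== PACK-BEGIN S29/H942/SameChar.lean
section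


/-!
# S29 / M4b / K3 (DESC), sub-piece (B) "FINITE" (helper942)

Two twisted functions of the SAME character have `p`-th powers whose `q`-expansions differ by a
`p`-th power of the function field `F_ℂ = laurentBaseChange ℂ (modularFunctionFieldFull N)`.

* `expGrowth_of_pow` : root of a growth bound.
* `mem_goodRing_of_pow_mem` : a holomorphic `Γ₀(N)`-invariant function with a good power is good.
* `mul_pow_pred_mem_goodRing` : `U * V ^ (p - 1)` is good for `U`, `V` twisted of the same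
  character.
* `exists_pow_mul_eq_of_isTwisted` : `qexp (U ^ p) = g ^ p * qexp (V ^ p)` with `g ∈ F_ℂ`, `g ≠ 0`.
* `exists_pow_mul_eq_of_realised` : the same for data `(f, t, U)` with `qexp (U ^ p) = f * t ^ p`
  (the shape used in `IsKum`).
-/

set_option autoImplicit false

noncomputable section

open ModularCurve AlgebraicCurve CongruenceSubgroup UpperHalfPlane
open scoped MatrixGroups Manifold

namespace Fermat.Agent.S29.H942

open Fermat.Agent.S24 Fermat.Agent.S29 Fermat.Agent.S29.M4b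

/-- Root of a growth bound: if `f ^ p` (`p ≠ 0`) has at most exponential growth, so has `f`. -/
theorem expGrowth_of_pow {f : ℍ → ℂ} {p : ℕ} (hp : p ≠ 0)
    (h : H648.ExpGrowth (fun τ => f τ ^ p)) : H648.ExpGrowth f := by
  obtain ⟨C, m, hC⟩ := h
  refine ⟨max C 1, m, fun τ hτ => ?_⟩
  have hexp : (1 : ℝ) ≤ Real.exp (2 * Real.pi * m * τ.im) := by
    apply Real.one_le_exp
    have := Real.pi_pos
    have := τ.im_pos
    positivity
  have hpow := hC τ hτ
  rw [norm_pow] at hpow
  rcases le_total ‖f τ‖ 1 with h1 | h1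
  · calc ‖f τ‖ ≤ 1 := h1
      _ = 1 * 1 := (one_mul 1).symm
      _ ≤ max C 1 * Real.exp (2 * Real.pi * m * τ.im) :=
          mul_le_mul (le_max_right _ _) hexp zero_le_one (le_trans zero_le_one (le_max_right _ _))
  · calc ‖f τ‖ ≤ ‖f τ‖ ^ p := le_self_pow₀ h1 hp
      _ ≤ C * Real.exp (2 * Real.pi * m * τ.im) := hpow
      _ ≤ max C 1 * Real.exp (2 * Real.pi * m * τ.im) := by
          gcongr
          exact le_max_left _ _

/-- A holomorphic `Γ₀(N)`-invariant function one of whose powers is good is good. -/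
theorem mem_goodRing_of_pow_mem (N : ℕ) {W : ℍ → ℂ} {p : ℕ} (hp : p ≠ 0)
    (hW : MDifferentiable 𝓘(ℂ) 𝓘(ℂ) W)
    (hinv : ∀ γ ∈ Gamma0 N, ∀ τ : ℍ, W (γ • τ) = W τ)
    (hpow : (fun τ => W τ ^ p) ∈ H648.goodRing N) : W ∈ H648.goodRing N := by
  refine ⟨hW, hinv, fun g => ?_⟩
  exact expGrowth_of_pow hp (hpow.2.2 g)

/-- `ζ_p ^ p = 1`. -/
theorem zetaP_pow_self' (p : ℕ) [NeZero p] : zetaP p ^ p = 1 := by
  unfold zetaP
  rw [← Complex.exp_nat_mul]
  have hp : (p : ℂ) ≠ 0 := Nat.cast_ne_zero.mpr (NeZero.ne p)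
  rw [mul_div_cancel₀ _ hp]
  exact Complex.exp_two_pi_mul_I

variable (N : ℕ) [NeZero N] (p : ℕ) [NeZero p]

/-- For `U`, `V` of the same character, `U * V ^ (p - 1)` is `Γ₀(N)`-invariant. -/
theorem mul_pow_pred_invariant {c : G0 N → ZMod p} {U V : ℍ → ℂ}
    (hU : HasChar N p c U) (hV : HasChar N p c V) (γ : SL(2, ℤ)) (hγ : γ ∈ Gamma0 N) (τ : ℍ) :
    U (γ • τ) * V (γ • τ) ^ (p - 1) = U τ * V τ ^ (p - 1) := by
  have h1 := hU ⟨γ, hγ⟩ τ
  have h2 := hV ⟨γ, hγ⟩ τ
  simp only at h1 h2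
  rw [h1, h2, mul_pow, ← pow_mul]
  have hp1 : 1 ≤ p := Nat.one_le_iff_ne_zero.mpr (NeZero.ne p)
  have hz : zetaP p ^ (c ⟨γ, hγ⟩).val * zetaP p ^ ((c ⟨γ, hγ⟩).val * (p - 1)) = 1 := by
    rw [← pow_add]
    have : (c ⟨γ, hγ⟩).val + (c ⟨γ, hγ⟩).val * (p - 1) = p * (c ⟨γ, hγ⟩).val := by
      have hpp : p - 1 + 1 = p := Nat.sub_add_cancel hp1
      calc (c ⟨γ, hγ⟩).val + (c ⟨γ, hγ⟩).val * (p - 1)
          = (c ⟨γ, hγ⟩).val * (p - 1 + 1) := by ring
        _ = p * (c ⟨γ, hγ⟩).val := by rw [hpp, mul_comm]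
    rw [this, pow_mul, zetaP_pow_self', one_pow]
  calc zetaP p ^ (c ⟨γ, hγ⟩).val * U τ * (zetaP p ^ ((c ⟨γ, hγ⟩).val * (p - 1)) * V τ ^ (p - 1))
      = (zetaP p ^ (c ⟨γ, hγ⟩).val * zetaP p ^ ((c ⟨γ, hγ⟩).val * (p - 1))) *
          (U τ * V τ ^ (p - 1)) := by ring
    _ = U τ * V τ ^ (p - 1) := by rw [hz, one_mul]

/-- For `U`, `V` twisted of the same character, `U * V ^ (p - 1)` is good. -/
theorem mul_pow_pred_mem_goodRing {c : G0 N → ZMod p} {U V : ℍ → ℂ}
    (hU : IsTwisted N p c U) (hV : IsTwisted N p c V) :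
    (fun τ => U τ * V τ ^ (p - 1)) ∈ H648.goodRing N := by
  refine mem_goodRing_of_pow_mem N (NeZero.ne p) (hU.mdiff.mul (hV.mdiff.pow (p - 1)))
    (fun γ hγ τ => mul_pow_pred_invariant N p hU.hasChar hV.hasChar γ hγ τ) ?_
  have h : (fun τ => (U τ * V τ ^ (p - 1)) ^ p)
      = (fun τ => U τ ^ p) * (fun τ => V τ ^ p) ^ (p - 1) := by
    funext τ
    simp only [Pi.mul_apply, Pi.pow_apply]
    rw [mul_pow, ← pow_mul, ← pow_mul, mul_comm (p - 1) p]
  rw [h]
  exact (H648.goodRing N).mul_mem hU.pow_mem ((H648.goodRing N).pow_mem hV.pow_mem _)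

/-- `qexpFun` commutes with powers of functions meromorphic at `i∞`. -/
theorem qexpFun_pow' {f : ℍ → ℂ} (hf : H708.IsMerInf 1 f) (n : ℕ) :
    H708.qexpFun 1 (f ^ n) = H708.qexpFun 1 f ^ n := by
  induction n with
  | zero =>
      rw [pow_zero, pow_zero]
      have h1 : (1 : ℍ → ℂ) = fun _ => (1 : ℂ) := rfl
      rw [h1, H708.qexpFun_const]
      simp
  | succ n ih => rw [pow_succ, H708.qexpFun_mul (hf.pow n) hf, ih, pow_succ]

omit [NeZero N] [NeZero p] in
/-- A twisted function has a nonzero `p`-th power. -/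
theorem pow_ne_zero_of_isTwisted {c : G0 N → ZMod p} {U : ℍ → ℂ} (hU : IsTwisted N p c U) :
    (fun τ => U τ ^ p) ≠ 0 := by
  obtain ⟨τ, hτ⟩ := hU.ne_zero
  intro h0
  exact pow_ne_zero p hτ (congrFun h0 τ)

/-- The `q`-expansion of the `p`-th power of a twisted function is a nonzero element of `F_ℂ`. -/
theorem qexpFun_pow_ne_zero_of_isTwisted {c : G0 N → ZMod p} {U : ℍ → ℂ}
    (hU : IsTwisted N p c U) : H708.qexpFun 1 (fun τ => U τ ^ p) ≠ 0 := by
  intro h0
  exact pow_ne_zero_of_isTwisted N p hU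
    ((H708.qexpFun_eq_zero_iff (H882.isMerInf_of_mem_goodRing hU.pow_mem)).mp h0)

/-- **Sub-piece (B) of K3.**  If `U` and `V` are twisted functions of the same character `c`, then
the `q`-expansions of `U ^ p` and `V ^ p` differ by the `p`-th power of a nonzero element of the
function field `F_ℂ` of `X₀(N)` over `ℂ`. -/
theorem exists_pow_mul_eq_of_isTwisted {c : G0 N → ZMod p} {U V : ℍ → ℂ}
    (hU : IsTwisted N p c U) (hV : IsTwisted N p c V) :
    ∃ g : LaurentSeries ℂ, g ∈ H882.FC N ∧ g ≠ 0 ∧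
      H708.qexpFun 1 (fun τ => U τ ^ p) = g ^ p * H708.qexpFun 1 (fun τ => V τ ^ p) := by
  set W : ℍ → ℂ := fun τ => U τ * V τ ^ (p - 1) with hWdef
  have hW : W ∈ H648.goodRing N := mul_pow_pred_mem_goodRing N p hU hV
  have hWm := H882.isMerInf_of_mem_goodRing hW
  have hUm := H882.isMerInf_of_mem_goodRing hU.pow_mem
  have hVm := H882.isMerInf_of_mem_goodRing hV.pow_mem
  set w := H708.qexpFun 1 W with hw
  set a := H708.qexpFun 1 (fun τ => U τ ^ p) with ha
  set b := H708.qexpFun 1 (fun τ => V τ ^ p) with hb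
  have hwFC : w ∈ H882.FC N := H882.qexpFun_mem_FC hW
  have hbFC : b ∈ H882.FC N := H882.qexpFun_mem_FC hV.pow_mem
  have hb0 : b ≠ 0 := qexpFun_pow_ne_zero_of_isTwisted N p hV
  have ha0 : a ≠ 0 := qexpFun_pow_ne_zero_of_isTwisted N p hU
  -- `w ^ p = a * b ^ (p - 1)`
  have hfun : W ^ p = (fun τ => U τ ^ p) * (fun τ => V τ ^ p) ^ (p - 1) := by
    funext τ
    simp only [hWdef, Pi.mul_apply, Pi.pow_apply]
    rw [mul_pow, ← pow_mul, ← pow_mul, mul_comm (p - 1) p]
  have hwp : w ^ p = a * b ^ (p - 1) := by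
    rw [hw, ← qexpFun_pow' hWm p, hfun, H708.qexpFun_mul hUm (hVm.pow (p - 1)),
      qexpFun_pow' hVm (p - 1)]
  have hp1 : p - 1 + 1 = p := Nat.sub_add_cancel (Nat.one_le_iff_ne_zero.mpr (NeZero.ne p))
  refine ⟨w * b⁻¹, mul_mem hwFC (inv_mem hbFC), ?_, ?_⟩
  · refine mul_ne_zero ?_ (inv_ne_zero hb0)
    intro h0
    rw [h0, zero_pow (NeZero.ne p)] at hwp
    exact mul_ne_zero ha0 (pow_ne_zero _ hb0) hwp.symm
  · rw [mul_pow, hwp, inv_pow]
    have hbp : b ^ p = b ^ (p - 1) * b := by rw [← pow_succ, hp1]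
    rw [hbp, mul_inv]
    field_simp

/-- Variant of (B) for data in the shape of `IsKum`: if `qexp (U ^ p) = f * t ^ p` and
`qexp (V ^ p) = f' * t' ^ p` with `U`, `V` twisted of the same character, `t, t' ≠ 0`, then
`f = g ^ p * f'` for some nonzero `g ∈ F_ℂ` (provided `t, t' ∈ F_ℂ`). -/
theorem exists_pow_mul_eq_of_realised {c : G0 N → ZMod p} {U V : ℍ → ℂ}
    (hU : IsTwisted N p c U) (hV : IsTwisted N p c V) {f t f' t' : LaurentSeries ℂ}
    (ht : t ∈ H882.FC N) (ht0 : t ≠ 0) (ht' : t' ∈ H882.FC N) (ht0' : t' ≠ 0)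
    (hf : H708.qexpFun 1 (fun τ => U τ ^ p) = f * t ^ p)
    (hf' : H708.qexpFun 1 (fun τ => V τ ^ p) = f' * t' ^ p) :
    ∃ g : LaurentSeries ℂ, g ∈ H882.FC N ∧ g ≠ 0 ∧ f = g ^ p * f' := by
  obtain ⟨g, hg, hg0, h⟩ := exists_pow_mul_eq_of_isTwisted N p hU hV
  refine ⟨g * t' * t⁻¹, mul_mem (mul_mem hg ht') (inv_mem ht),
    mul_ne_zero (mul_ne_zero hg0 ht0') (inv_ne_zero ht0), ?_⟩
  rw [hf, hf'] at h
  have htp : t ^ p ≠ 0 := pow_ne_zero _ ht0
  rw [mul_pow, mul_pow, inv_pow]
  field_simp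
  rw [h]
  ring

end Fermat.Agent.S29.H942

end
end
-- ===== PACK-END S29/H942/SameChar.lean

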