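import Fermat.Prelude.Def_ModularCurve_HeckeOperatorTotal
import Fermat.Agent.Pack.S34.G0E11L2
import Fermat.Agent.Pack.S34.G0E11L1
import Fermat.Agent.Pack.S34.G0E3L3
import Fermat.Agent.Pack.S34.G0E11L3
import Fermat.Agent.Pack.S34.G0E10L3
import Fermat.Agent.Pack.S34.G0E3L1
import Fermat.Agent.Pack.S34.G0E8L1
import Fermat.Agent.Pack.S34.G0E8L3
import Fermat.Agent.Pack.S34.G0E11L0
import Fermat.Agent.Pack.S34.G0E9L1
import Fermat.Agent.Pack.S34.G0E9L2

-- ===== PACK-BEGIN S29/H812/HeckeInputs.lean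
section




/-!
# S29 / H812 — the Prelude Hecke operator on `J₀(N)(ℚ̄)` is the genuine correspondence

All six inputs of `ModularCurve.HeckeInputsAlong (AlgebraicClosure ℚ) N ℓ` hold, for every `N ≠ 0`
and every `ℓ ≠ 0` (prime or not, dividing `N` or not); consequently
`heckeOperatorAlong = heckePic0Bar …` (Prelude `heckeOperatorAlong_eq`).

Generic part (`Fermat/Agent/S29/H812/*.lean`): for a finite extension `F'/F` of function fields of
one variable over an algebraically closed field of characteristic zero,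
`∑_{w | v} e(w | v) = [F' : F]` and `ord_v (N_{F'/F} f) = ∑_{w | v} ord_w f`.
-/

set_option autoImplicit false

noncomputable section

namespace Fermat.Agent.S29.H812

open ModularCurve AlgebraicCurve IntermediateField

/-- The modular function field has a coordinate. -/
theorem exists_coord_modular (M : ℕ) [NeZero M] :
    ∃ x : ↥(modularFunctionFieldBar M), Transcendental (AlgebraicClosure ℚ) x ∧
      FiniteDimensional (AlgebraicClosure ℚ)⟮x⟯ ↥(modularFunctionFieldBar M) :=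
  (Fermat.Agent.Lib.RR.H864.ff1_modularFunctionFieldBar M).exists_finite

/-- The degeneracy map `α` (inclusion) is finite. -/
theorem finiteAlong_heckeAlphaBar (N : ℕ) [NeZero N] (ℓ : ℕ) [NeZero ℓ] :
    FiniteAlong (AlgebraicClosure ℚ) (heckeAlphaBar (AlgebraicClosure ℚ) N ℓ) := by
  haveI : NeZero (N * ℓ) := ⟨Nat.mul_ne_zero (NeZero.ne N) (NeZero.ne ℓ)⟩
  exact finiteAlong (exists_coord_modular N) (exists_coord_modular (N * ℓ)) _

/-- The degeneracy map `β` (`q ↦ q^ℓ`) is finite. -/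
theorem finiteAlong_heckeBetaBar (N : ℕ) [NeZero N] (ℓ : ℕ) [NeZero ℓ] :
    FiniteAlong (AlgebraicClosure ℚ) (heckeBetaBar (AlgebraicClosure ℚ) N ℓ) := by
  haveI : NeZero (N * ℓ) := ⟨Nat.mul_ne_zero (NeZero.ne N) (NeZero.ne ℓ)⟩
  exact finiteAlong (exists_coord_modular N) (exists_coord_modular (N * ℓ)) _

/-- `HeckeInputsAlong` for every `ℓ ≠ 0`. -/
theorem heckeInputsAlong (N : ℕ) [NeZero N] (ℓ : ℕ) [NeZero ℓ] :
    HeckeInputsAlong (AlgebraicClosure ℚ) N ℓ := by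
  haveI : NeZero (N * ℓ) := ⟨Nat.mul_ne_zero (NeZero.ne N) (NeZero.ne ℓ)⟩
  haveI hP : HasPrincipalDivisors (AlgebraicClosure ℚ)
      (laurentBaseChange (AlgebraicClosure ℚ) (modularFunctionFieldFull (N * ℓ))) :=
    Fermat.Agent.Lib.RR.H864.hasPrincipalDivisors_modularFunctionFieldBar (N * ℓ)
  have hF := exists_coord_modular N
  have hfinα := finiteAlong_heckeAlphaBar N ℓ
  have hfinβ := finiteAlong_heckeBetaBar N ℓ
  have hα : HeckeAlphaBarIntegral (AlgebraicClosure ℚ) N ℓ := isIntegral_of_finiteAlong hfinα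
  have hβ : HeckeBetaBarIntegral (AlgebraicClosure ℚ) N ℓ := isIntegral_of_finiteAlong hfinβ
  exact heckeInputsAlong_intro hα hβ
    (fundamentalIdentityAlong hF (heckeBetaBar (AlgebraicClosure ℚ) N ℓ) hfinβ hβ)
    hfinα
    (normFormulaAlong hF (heckeAlphaBar (AlgebraicClosure ℚ) N ℓ) hfinα)

end Fermat.Agent.S29.H812

end
end
-- ===== PACK-END S29/H812/HeckeInputs.lean

-- ===== PACK-BEGIN S29/HI.lean
section



/-!
# S29, layer M, piece `HI` (helper812): exact `SkeletonM` statement.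
Proof in `Fermat/Agent/S29/H812/HeckeInputs.lean` (holds for every `ℓ ≠ 0`).
-/

set_option autoImplicit false

noncomputable section

namespace Fermat.Agent.S29

open ModularCurve AlgebraicCurve

variable (N : ℕ) [NeZero N]

/-- PIECE `HI`: the Prelude Hecke operator is the genuine correspondence (all six inputs hold). -/
theorem heckeInputsAlong_bar (ℓ : ℕ) [NeZero ℓ] (_hℓ : ℓ.Prime) :
    HeckeInputsAlong (AlgebraicClosure ℚ) N ℓ :=
  H812.heckeInputsAlong N ℓ

end Fermat.Agent.S29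

end
end
-- ===== PACK-END S29/HI.lean

-- ===== PACK-BEGIN S37/H819/Enum.lean
section


/-!
# S37 / NORM (helper819) — enumeration of the `FF N`-embeddings of `FF (N ℓ)` and the norm
-/

set_option autoImplicit false

noncomputable section

open ModularCurve HahnSeries UpperHalfPlane AlgebraicCurve
open scoped MatrixGroups

namespace Fermat.Agent.S37.H819

open Fermat.Agent.S24 Fermat.Agent.S24.H997

variable (N ℓ : ℕ) [NeZero N] [NeZero ℓ]

/-- `α (j) = j` -/
theorem alpha_jF : heckeAlphaBar Kbar N ℓ (jF N) = jF (N * ℓ) := by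
  apply Subtype.ext
  rw [coe_heckeAlphaBar]
  rfl

/-- every element of `ℚ̄(j) ⊆ FF (N ℓ)` lies in the image of `α` -/
theorem exists_alpha_eq_of_mem_adjoin {c : FF (N * ℓ)}
    (hc : c ∈ IntermediateField.adjoin Kbar {jF (N * ℓ)}) :
    ∃ c' : FF N, heckeAlphaBar Kbar N ℓ c' = c := by
  induction hc using IntermediateField.adjoin_induction with
  | mem z hz =>
      rw [Set.mem_singleton_iff] at hz
      subst hz
      exact ⟨jF N, alpha_jF N ℓ⟩
  | algebraMap a => exact ⟨algebraMap Kbar (FF N) a, (heckeAlphaBar Kbar N ℓ).commutes a⟩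
  | add z w _ _ hz hw =>
      obtain ⟨z', rfl⟩ := hz
      obtain ⟨w', rfl⟩ := hw
      exact ⟨z' + w', map_add _ _ _⟩
  | inv z _ hz =>
      obtain ⟨z', rfl⟩ := hz
      exact ⟨z'⁻¹, map_inv₀ _ _⟩
  | mul z w _ _ hz hw =>
      obtain ⟨z', rfl⟩ := hz
      obtain ⟨w', rfl⟩ := hw
      exact ⟨z' * w', map_mul _ _ _⟩

/-- `FF (N ℓ)` is finite over `FF N` (along `α`). -/
theorem finite_alpha :
    letI := algebraAlong (heckeAlphaBar Kbar N ℓ)
    Module.Finite (FF N) (FF (N * ℓ)) := by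
  letI := algebraAlong (heckeAlphaBar Kbar N ℓ)
  haveI hfd := (Deg457.degree_fields (N * ℓ)).1
  obtain ⟨s, hs⟩ := (Module.Finite.fg_top :
    (⊤ : Submodule ↥(IntermediateField.adjoin Kbar {jF (N * ℓ)}) (FF (N * ℓ))).FG)
  refine ⟨⟨s, ?_⟩⟩
  rw [eq_top_iff]
  intro x hxt
  have hx : x ∈ Submodule.span ↥(IntermediateField.adjoin Kbar {jF (N * ℓ)})
      (s : Set (FF (N * ℓ))) := by rw [hs]; trivial
  revert hxt
  induction hx using Submodule.span_induction with
  | mem y hy => exact fun _ => Submodule.subset_span hy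
  | zero => exact fun _ => zero_mem _
  | add y z _ _ hy hz => exact fun _ => add_mem (hy trivial) (hz trivial)
  | smul c y _ hy =>
      obtain ⟨c', hc'⟩ := exists_alpha_eq_of_mem_adjoin N ℓ c.2
      have e : c • y = c' • y := by
        show (c : FF (N * ℓ)) * y = heckeAlphaBar Kbar N ℓ c' * y
        rw [hc']
      rw [e]
      exact fun _ => Submodule.smul_mem _ c' (hy trivial)

/-! ### The target field and the algebra structures -/

/-- An algebraic closure of `ℂ((z))` (type synonym carrying `N`, `ℓ`). -/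
def Om (_N _ℓ : ℕ) : Type := AlgebraicClosure (LaurentSeries ℂ)

instance : Field (Om N ℓ) := inferInstanceAs (Field (AlgebraicClosure (LaurentSeries ℂ)))

instance : IsAlgClosed (Om N ℓ) :=
  inferInstanceAs (IsAlgClosed (AlgebraicClosure (LaurentSeries ℂ)))

/-- the inclusion `ℂ((z)) → Ω` -/
def incOm : LaurentSeries ℂ →+* Om N ℓ :=
  algebraMap (LaurentSeries ℂ) (AlgebraicClosure (LaurentSeries ℂ))

theorem incOm_injective : Function.Injective (incOm N ℓ) :=
  (algebraMap (LaurentSeries ℂ) (AlgebraicClosure (LaurentSeries ℂ))).injective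

/-- `FF (N ℓ)` as an `FF N`-algebra along `α` (the Prelude's `algebraAlong`) -/
local instance instAlgAlpha : Algebra (FF N) (FF (N * ℓ)) :=
  algebraAlong (heckeAlphaBar Kbar N ℓ)

/-- `Ω` as an `FF N`-algebra through `σ₁ ∘ α` -/
local instance instAlgOm : Algebra (FF N) (Om N ℓ) :=
  (((incOm N ℓ).comp (sig N ℓ 1)).comp (heckeAlphaBar Kbar N ℓ).toRingHom).toAlgebra

theorem algebraMap_alpha (y : FF N) :
    algebraMap (FF N) (FF (N * ℓ)) y = heckeAlphaBar Kbar N ℓ y := rfl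

theorem algebraMap_Om (y : FF N) :
    algebraMap (FF N) (Om N ℓ) y = incOm N ℓ (sig N ℓ 1 (heckeAlphaBar Kbar N ℓ y)) := rfl

local instance instFiniteAlpha : Module.Finite (FF N) (FF (N * ℓ)) := finite_alpha N ℓ

example : Algebra.IsSeparable (FF N) (FF (N * ℓ)) := inferInstance

/-- the `FF N`-embedding `σ_{h⁻¹}` for `h ∈ Γ₀(N)` -/
def embOf (h : SL(2, ℤ)) (hh : h ∈ CongruenceSubgroup.Gamma0 N) :
    FF (N * ℓ) →ₐ[FF N] Om N ℓ :=
  { (incOm N ℓ).comp (sig N ℓ h⁻¹) with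
    commutes' := fun y => by
      show incOm N ℓ (sig N ℓ h⁻¹ (heckeAlphaBar Kbar N ℓ y))
        = incOm N ℓ (sig N ℓ 1 (heckeAlphaBar Kbar N ℓ y))
      rw [sig_alpha N ℓ hh, sig_one, coe_heckeAlphaBar] }

theorem embOf_apply (h : SL(2, ℤ)) (hh : h ∈ CongruenceSubgroup.Gamma0 N) (x : FF (N * ℓ)) :
    embOf N ℓ h hh x = incOm N ℓ (sig N ℓ h⁻¹ x) := rfl

/-! ### Every `FF N`-embedding is some `σ_g` -/

/-- all the `σ_g` agree with `σ₁` on `ℚ̄(j)` -/
theorem sig_eq_on_adjoin (g : SL(2, ℤ)) {f : FF (N * ℓ)}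
    (hf : f ∈ IntermediateField.adjoin Kbar {jF (N * ℓ)}) : sig N ℓ g f = sig N ℓ 1 f := by
  induction hf using IntermediateField.adjoin_induction with
  | mem z hz =>
      rw [Set.mem_singleton_iff] at hz
      subst hz
      unfold sig
      rw [HolBase.sigmaG_jF, HolBase.sigmaG_jF]
  | algebraMap c => rw [sig_algebraMap, sig_algebraMap]
  | add z w _ _ hz hw => rw [map_add, map_add, hz, hw]
  | inv z _ hz => rw [map_inv₀, map_inv₀, hz]
  | mul z w _ _ hz hw => rw [map_mul, map_mul, hz, hw]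

/-- `ℚ̄(j)` inside `FF (N ℓ)` -/
abbrev Kj : Type := ↥(IntermediateField.adjoin Kbar {jF (N * ℓ)})

/-- `Ω` as a `ℚ̄(j)`-algebra through `σ₁` -/
local instance instAlgKjOm : Algebra (Kj N ℓ) (Om N ℓ) :=
  (((incOm N ℓ).comp (sig N ℓ 1)).comp (algebraMap (Kj N ℓ) (FF (N * ℓ)))).toAlgebra

/-- the `ℚ̄(j)`-embedding attached to a coset -/
def embK (x : XX (N * ℓ)) : FF (N * ℓ) →ₐ[Kj N ℓ] Om N ℓ :=
  { (incOm N ℓ).comp ((holBase (N * ℓ)).sigmaX (holBase (N * ℓ)).qexpExpansion x) with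
    commutes' := fun c => by
      show incOm N ℓ (sig N ℓ (Quotient.out x) (c : FF (N * ℓ)))
        = incOm N ℓ (sig N ℓ 1 (c : FF (N * ℓ)))
      rw [sig_eq_on_adjoin N ℓ _ c.2] }

theorem embK_apply (x : XX (N * ℓ)) (f : FF (N * ℓ)) :
    embK N ℓ x f = incOm N ℓ ((holBase (N * ℓ)).sigmaX (holBase (N * ℓ)).qexpExpansion x f) :=
  rfl

theorem embK_injective : Function.Injective (embK N ℓ) := by
  intro x y hxy
  apply (holBase (N * ℓ)).sigmaX_injective (holBase (N * ℓ)).qexpExpansion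
  refine RingHom.ext fun f => ?_
  apply incOm_injective N ℓ
  have := congrArg (fun φ : FF (N * ℓ) →ₐ[Kj N ℓ] Om N ℓ => φ f) hxy
  simpa only [embK_apply] using this

theorem embK_bijective : Function.Bijective (embK N ℓ) := by
  haveI hfd := (Deg457.degree_fields (N * ℓ)).1
  haveI : Module.Finite (Kj N ℓ) (FF (N * ℓ)) := hfd
  haveI : Module.Free (Kj N ℓ) (FF (N * ℓ)) := Module.Free.of_divisionRing _ _
  haveI : Finite (FF (N * ℓ) →ₐ[Kj N ℓ] Om N ℓ) := Finite.algHom _ _ _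
  refine (embK_injective N ℓ).bijective_of_nat_card_le ?_
  calc Nat.card (FF (N * ℓ) →ₐ[Kj N ℓ] Om N ℓ)
      ≤ Module.finrank (Kj N ℓ) (FF (N * ℓ)) := card_algHom_le_finrank _ _ _
    _ ≤ Nat.card (XX (N * ℓ)) := (Deg457.degree_fields (N * ℓ)).2

/-- an `FF N`-embedding agrees with `σ₁` on `ℚ̄(j)` -/
theorem algHom_eq_on_adjoin (τ : FF (N * ℓ) →ₐ[FF N] Om N ℓ) {f : FF (N * ℓ)}
    (hf : f ∈ IntermediateField.adjoin Kbar {jF (N * ℓ)}) :
    τ f = incOm N ℓ (sig N ℓ 1 f) := by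
  obtain ⟨c', rfl⟩ := exists_alpha_eq_of_mem_adjoin N ℓ hf
  exact τ.commutes c'

/-- **Classification.** Every `FF N`-embedding of `FF (N ℓ)` into `Ω` is `σ_{h⁻¹}` for some
`h ∈ Γ₀(N)`. -/
theorem exists_embOf_eq (τ : FF (N * ℓ) →ₐ[FF N] Om N ℓ) :
    ∃ (h : SL(2, ℤ)) (hh : h ∈ CongruenceSubgroup.Gamma0 N), τ = embOf N ℓ h hh := by
  -- view `τ` as a `ℚ̄(j)`-embedding
  let τK : FF (N * ℓ) →ₐ[Kj N ℓ] Om N ℓ :=
    { τ.toRingHom with
      commutes' := fun c => algHom_eq_on_adjoin N ℓ τ c.2 }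
  obtain ⟨x, hx⟩ := (embK_bijective N ℓ).2 τK
  obtain ⟨g, rfl⟩ := QuotientGroup.mk_surjective x
  have hτ : ∀ f : FF (N * ℓ), τ f = incOm N ℓ (sig N ℓ g f) := by
    intro f
    have h1 : τK f = τ f := rfl
    rw [← h1, ← hx, embK_apply, HolBase.sigmaX_mk]
    rfl
  -- `g⁻¹ ∈ Γ₀(N)`
  have hg : g⁻¹ ∈ CongruenceSubgroup.Gamma0 N := by
    have hNN : N ∣ N * ℓ := Dvd.intro ℓ rfl
    have h2 := hτ (heckeAlphaBar Kbar N ℓ (inclRN N (jR N N dvd_rfl)))
    have h3 : τ (heckeAlphaBar Kbar N ℓ (inclRN N (jR N N dvd_rfl)))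
        = incOm N ℓ (sig N ℓ 1 (heckeAlphaBar Kbar N ℓ (inclRN N (jR N N dvd_rfl)))) :=
      τ.commutes _
    rw [h3] at h2
    have h4 := incOm_injective N ℓ h2
    rw [alpha_inclRN_jR N ℓ N dvd_rfl hNN, sig_inclRN, sig_inclRN, HolBase.bridge_jR, inv_one,
      HolBase.compH_one] at h4
    have h5 := (holBase (N * ℓ)).qexp_injective h4
    apply Jd_distinct N
    intro t
    have h6 := congrArg (fun f : (holBase (N * ℓ)).Hol => (f : ℍ → ℂ) t) h5
    exact h6.symm
  refine ⟨g⁻¹, hg, ?_⟩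
  apply AlgHom.ext
  intro f
  rw [hτ f, embOf_apply, inv_inv]

/-! ### Generation of `FF (N ℓ)` by `α(FF N)` and `β(FF N)` -/

omit [NeZero ℓ] in
theorem dvd_cases {ℓ : ℕ} (hℓ : ℓ.Prime) {N d : ℕ} (hd : d ∣ N * ℓ) :
    d ∣ N ∨ ∃ d', d' ∣ N ∧ d = d' * ℓ := by
  by_cases hℓd : ℓ ∣ d
  · right
    obtain ⟨d', rfl⟩ := hℓd
    refine ⟨d', ?_, Nat.mul_comm _ _⟩
    rw [Nat.mul_comm N ℓ] at hd
    exact Nat.dvd_of_mul_dvd_mul_left hℓ.pos hd
  · left
    have hc : Nat.Coprime d ℓ := (Nat.coprime_comm.mp ((Nat.Prime.coprime_iff_not_dvd hℓ).mpr hℓd))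
    exact hc.dvd_of_dvd_mul_right hd

/-- Two ring homs out of `FF (N ℓ)` agreeing on `α(FF N)` and on `β(FF N)` are equal. -/
theorem ringHom_ext_alpha_beta (hℓ : ℓ.Prime) {E : Type*} [Field E]
    (f g : FF (N * ℓ) →+* E)
    (hα : ∀ y : FF N, f (heckeAlphaBar Kbar N ℓ y) = g (heckeAlphaBar Kbar N ℓ y))
    (hβ : ∀ y : FF N, f (heckeBetaBar Kbar N ℓ y) = g (heckeBetaBar Kbar N ℓ y)) : f = g := by
  apply ringHom_ext_FF (N * ℓ) f g
  · intro c
    have := hα (algebraMap Kbar (FF N) c)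
    rwa [AlgHom.commutes] at this
  · intro d hne hd
    rcases dvd_cases hℓ hd with hdN | ⟨d', hd', rfl⟩
    · rw [← alpha_inclRN_jR N ℓ d hdN hd]
      exact hα _
    · haveI : NeZero d' := ⟨fun h0 => hne.out (by rw [h0, Nat.zero_mul])⟩
      rw [← beta_inclRN_jR N ℓ d' hd' hd]
      exact hβ _

/-! ### The `ℓ + 1` embeddings -/

section Reps

variable (hℓ : ℓ.Prime) (hℓN : ¬ ℓ ∣ N)

include hℓ hℓN in
theorem coprime_N_ℓ : Nat.Coprime N ℓ :=
  Nat.coprime_comm.mp ((Nat.Prime.coprime_iff_not_dvd hℓ).mpr hℓN)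

/-- a representative `h_b ∈ Γ₀(N)` with `(h_b)₁₁ ≡ b (h_b)₁₀ mod ℓ` -/
def hrep (b : ℤ) : SL(2, ℤ) := Classical.choose (exists_rep (coprime_N_ℓ N ℓ hℓ hℓN) b)

theorem hrep_mem (b : ℤ) : hrep N ℓ hℓ hℓN b ∈ CongruenceSubgroup.Gamma0 N :=
  (Classical.choose_spec (exists_rep (coprime_N_ℓ N ℓ hℓ hℓN) b)).1

theorem hrep_dvd (b : ℤ) :
    (ℓ : ℤ) ∣ (hrep N ℓ hℓ hℓN b) 1 1 - b * (hrep N ℓ hℓ hℓN b) 1 0 :=
  (Classical.choose_spec (exists_rep (coprime_N_ℓ N ℓ hℓ hℓN) b)).2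

/-- the `ℓ + 1` embeddings: `none ↦ σ₁`, `some b ↦ σ_{h_b⁻¹}` -/
def embList : Option (Fin ℓ) → (FF (N * ℓ) →ₐ[FF N] Om N ℓ)
  | none => embOf N ℓ 1 (one_mem _)
  | some b => embOf N ℓ (hrep N ℓ hℓ hℓN (b : ℕ)) (hrep_mem N ℓ hℓ hℓN _)

theorem embList_none_beta (y : FF N) :
    embList N ℓ hℓ hℓN none (heckeBetaBar Kbar N ℓ y)
      = incOm N ℓ (HolBase.Φ (N * ℓ) (qExpand Kbar ℓ (y : LaurentSeries Kbar))) := by
  show incOm N ℓ (sig N ℓ 1⁻¹ (heckeBetaBar Kbar N ℓ y)) = _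
  rw [inv_one, sig_one, coe_heckeBetaBar]

theorem embList_some_beta (b : Fin ℓ) (y : FF N) :
    embList N ℓ hℓ hℓN (some b) (heckeBetaBar Kbar N ℓ y)
      = incOm N ℓ (qExpand ℂ N (infTwist (infRoot (b : ℕ) ℓ)
          (coeffMap ιK (y : LaurentSeries Kbar)))) := by
  show incOm N ℓ (sig N ℓ (hrep N ℓ hℓ hℓN (b : ℕ))⁻¹ (heckeBetaBar Kbar N ℓ y)) = _
  rw [sig_beta N ℓ (hrep_mem N ℓ hℓ hℓN _) (hrep_dvd N ℓ hℓ hℓN _)]

/-- the test element `j ∈ FF N` -/
def jTest : FF N := inclRN N (jR N 1 (one_dvd N))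

theorem coe_jTest : ((jTest N : FF N) : LaurentSeries Kbar) = coeffEmb Kbar (qExpand ℚ 1 jq) :=
  rfl

theorem phi_beta_jTest_order :
    (HolBase.Φ (N * ℓ) (qExpand Kbar ℓ ((jTest N : FF N) : LaurentSeries Kbar))).order
      = -(((N * ℓ * ℓ : ℕ)) : ℤ) := by
  rw [coe_jTest]
  show (qExpand ℂ (N * ℓ) (coeffMap ιK (qExpand Kbar ℓ
    (coeffEmb Kbar (qExpand ℚ 1 jq))))).order = _
  rw [coeffMap_qExpand, coeffMap_ιK_coeffEmb, coeffEmb, coeffMap_qExpand, inf_qExpand_order,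
    inf_qExpand_order, inf_qExpand_order]
  have : coeffMap (algebraMap ℚ ℂ) jq = infJq := rfl
  rw [this, infJq_order]
  push_cast
  ring

theorem twist_jTest_eq (b : ℤ) :
    haveI : NeZero (1 * N) := ⟨by rw [one_mul]; exact NeZero.ne N⟩
    qExpand ℂ N (infTwist (infRoot b ℓ) (coeffMap ιK ((jTest N : FF N) : LaurentSeries Kbar)))
      = infGenExp (1 * N) (((1 : ℕ) : ℤ) * b) ℓ := by
  rw [coe_jTest]
  exact (infGenExp_eq_twist N ℓ 1 b).symm

include hℓ in
theorem embList_injective : Function.Injective (embList N ℓ hℓ hℓN) := by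
  haveI : NeZero (1 * N) := ⟨by rw [one_mul]; exact NeZero.ne N⟩
  have hℓ2 : 2 ≤ ℓ := hℓ.two_le
  have hN1 : 1 ≤ N := Nat.pos_of_ne_zero (NeZero.ne N)
  have key_ns : ∀ b : Fin ℓ, embList N ℓ hℓ hℓN none ≠ embList N ℓ hℓ hℓN (some b) := by
    intro b hEq
    have h1 := congrArg (fun φ : FF (N * ℓ) →ₐ[FF N] Om N ℓ =>
      φ (heckeBetaBar Kbar N ℓ (jTest N))) hEq
    simp only [embList_none_beta, embList_some_beta] at h1
    have h2 := incOm_injective N ℓ h1
    have h3 := congrArg HahnSeries.order h2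
    rw [phi_beta_jTest_order, twist_jTest_eq, infGenExp_order] at h3
    have h4 : N * ℓ * ℓ = 1 * N := by
      have : ((N * ℓ * ℓ : ℕ) : ℤ) = ((1 * N : ℕ) : ℤ) := by linarith
      exact_mod_cast this
    have h5 : N * 4 ≤ N * ℓ * ℓ := by
      rw [Nat.mul_assoc]
      exact Nat.mul_le_mul_left N (Nat.mul_le_mul hℓ2 hℓ2)
    omega
  have key_ss : ∀ b b' : Fin ℓ, embList N ℓ hℓ hℓN (some b) = embList N ℓ hℓ hℓN (some b') →
      b = b' := by
    intro b b' hEq
    have h1 := congrArg (fun φ : FF (N * ℓ) →ₐ[FF N] Om N ℓ =>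
      φ (heckeBetaBar Kbar N ℓ (jTest N))) hEq
    simp only [embList_some_beta] at h1
    have h2 := incOm_injective N ℓ h1
    rw [twist_jTest_eq, twist_jTest_eq] at h2
    have h3 := congrArg HahnSeries.leadingCoeff h2
    rw [infGenExp_leadingCoeff, infGenExp_leadingCoeff] at h3
    have h4 : infRoot (((1 : ℕ) : ℤ) * ((b : ℕ) : ℤ)) ℓ = infRoot (((1 : ℕ) : ℤ) * ((b' : ℕ) : ℤ)) ℓ :=
      inv_injective (Units.val_inj.mp h3)
    obtain ⟨k, hk⟩ := (infRoot_eq_iff hℓ.pos).mp h4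
    have hb := b.2
    have hb' := b'.2
    apply Fin.ext
    have h5 : ((b : ℕ) : ℤ) - ((b' : ℕ) : ℤ) = ℓ * k := by
      simp only [Nat.cast_one, one_mul] at hk
      exact hk
    have hk0 : k = 0 := by
      by_contra hne
      rcases lt_or_gt_of_ne hne with hlt | hgt
      · have : (ℓ : ℤ) * k ≤ ℓ * (-1) :=
          mul_le_mul_of_nonneg_left (by omega) (by positivity)
        have h6 : ((b : ℕ) : ℤ) < ℓ := by exact_mod_cast hb
        have h7 : (0 : ℤ) ≤ ((b : ℕ) : ℤ) := by positivity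
        have h8 : ((b' : ℕ) : ℤ) < ℓ := by exact_mod_cast hb'
        linarith
      · have : (ℓ : ℤ) * 1 ≤ ℓ * k :=
          mul_le_mul_of_nonneg_left (by omega) (by positivity)
        have h6 : ((b : ℕ) : ℤ) < ℓ := by exact_mod_cast hb
        have h7 : (0 : ℤ) ≤ ((b' : ℕ) : ℤ) := by positivity
        linarith
    rw [hk0, mul_zero] at h5
    have : ((b : ℕ) : ℤ) = ((b' : ℕ) : ℤ) := by linarith
    exact_mod_cast this
  intro o o' hEq
  rcases o with _ | b <;> rcases o' with _ | b'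
  · rfl
  · exact absurd hEq (key_ns b')
  · exact absurd hEq.symm (key_ns b)
  · rw [key_ss b b' hEq]

include hℓ in
theorem embList_surjective : Function.Surjective (embList N ℓ hℓ hℓN) := by
  intro τ
  obtain ⟨h, hh, rfl⟩ := exists_embOf_eq N ℓ τ
  rcases dvd_or_exists_b hℓ h with hd | ⟨b, hb⟩
  · -- `h ∈ Γ₀(N ℓ)`, so `σ_{h⁻¹} = σ₁`
    refine ⟨none, ?_⟩
    have hM : h ∈ CongruenceSubgroup.Gamma0 (N * ℓ) :=
      mem_gamma0_mul (coprime_N_ℓ N ℓ hℓ hℓN) hh hd
    have e : sig N ℓ h⁻¹ = sig N ℓ (1 : SL(2, ℤ))⁻¹ := by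
      have := (holBase (N * ℓ)).sigmaG_mul_of_mem (holBase (N * ℓ)).qexpExpansion 1
        (inv_mem hM)
      rw [one_mul] at this
      rw [inv_one]
      exact this
    apply AlgHom.ext
    intro f
    show incOm N ℓ (sig N ℓ (1 : SL(2, ℤ))⁻¹ f) = incOm N ℓ (sig N ℓ h⁻¹ f)
    rw [e]
  · -- `σ_{h⁻¹} = σ_{h_{b₀}⁻¹}` with `b₀ = b mod ℓ`
    have hℓpos : (0 : ℤ) < ℓ := by exact_mod_cast hℓ.pos
    have hb0 : 0 ≤ b % (ℓ : ℤ) := Int.emod_nonneg b hℓpos.ne'
    have hb1 : b % (ℓ : ℤ) < ℓ := Int.emod_lt_of_pos b hℓpos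
    let b₀ : Fin ℓ := ⟨(b % (ℓ : ℤ)).toNat, by
      have := hb1
      omega⟩
    have hb₀ : ((b₀ : ℕ) : ℤ) = b % (ℓ : ℤ) := Int.toNat_of_nonneg hb0
    refine ⟨some b₀, ?_⟩
    have e : sig N ℓ (hrep N ℓ hℓ hℓN ((b₀ : ℕ) : ℤ))⁻¹ = sig N ℓ h⁻¹ := by
      apply ringHom_ext_alpha_beta N ℓ hℓ
      · intro y
        rw [sig_alpha N ℓ (hrep_mem N ℓ hℓ hℓN _), sig_alpha N ℓ hh]
      · intro y
        rw [sig_beta N ℓ (hrep_mem N ℓ hℓ hℓN _) (hrep_dvd N ℓ hℓ hℓN _), sig_beta N ℓ hh hb]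
        have : infRoot ((b₀ : ℕ) : ℤ) ℓ = infRoot b ℓ := by
          rw [infRoot_eq_iff hℓ.pos, hb₀]
          exact ⟨-(b / (ℓ : ℤ)), by linarith [Int.emod_add_mul_ediv b ℓ]⟩
        rw [this]
    apply AlgHom.ext
    intro f
    show incOm N ℓ (sig N ℓ (hrep N ℓ hℓ hℓN ((b₀ : ℕ) : ℤ))⁻¹ f) = incOm N ℓ (sig N ℓ h⁻¹ f)
    rw [e]

include hℓ in
theorem embList_bijective : Function.Bijective (embList N ℓ hℓ hℓN) :=
  ⟨embList_injective N ℓ hℓ hℓN, embList_surjective N ℓ hℓ hℓN⟩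

end Reps

end Fermat.Agent.S37.H819

end
end
-- ===== PACK-END S37/H819/Enum.lean

-- ===== PACK-BEGIN S37/H819/Norm.lean
section


/-!
# S37 / NORM (helper819) — the norm of `β y` over `α(FF N)` is the Kronecker product

Main results (`K = ℚ̄`, `ℓ` prime, `ℓ ∤ N`, `α = heckeAlphaBar`, `β = heckeBetaBar`,
`FF N = ℚ̄(j(q^d) : d ∣ N) ⊆ ℚ̄((q))`, the norm is taken for the Prelude algebra structure
`algebraAlong α` on `FF (N ℓ)`):

* `norm_heckeBeta` :
  `V_ℓ (Nm_α (β y)) = V_{ℓ²} y * ∏_{b < ℓ} y(ζ^b u)`   in `ℚ̄((u))`, `u = q^{1/ℓ}`,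
  i.e. `Nm_α(β y)(q) = y(q^ℓ) ∏_b y(ζ^b q^{1/ℓ})`, for any primitive `ℓ`-th root of unity `ζ`.
-/

set_option autoImplicit false

noncomputable section

open ModularCurve HahnSeries UpperHalfPlane AlgebraicCurve
open scoped MatrixGroups

namespace Fermat.Agent.S37.H819

open Fermat.Agent.S24 Fermat.Agent.S24.H997

variable (N ℓ : ℕ) [NeZero N] [NeZero ℓ]

section Internal

attribute [local instance] instAlgAlpha instAlgOm instFiniteAlpha

/-- The norm formula over `ℂ((z))`, `z = q^{1/(N ℓ)}`. -/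
theorem norm_complex (hℓ : ℓ.Prime) (hℓN : ¬ ℓ ∣ N) (y : FF N) :
    HolBase.Φ (N * ℓ)
        ((Algebra.norm (FF N) (heckeBetaBar Kbar N ℓ y) : FF N) : LaurentSeries Kbar)
      = HolBase.Φ (N * ℓ) (qExpand Kbar ℓ (y : LaurentSeries Kbar))
        * ∏ b : Fin ℓ, qExpand ℂ N (infTwist (infRoot ((b : ℕ) : ℤ) ℓ)
            (coeffMap ιK (y : LaurentSeries Kbar))) := by
  have h := Algebra.norm_eq_prod_embeddings (FF N) (Om N ℓ) (heckeBetaBar Kbar N ℓ y)
  rw [algebraMap_Om, sig_one, coe_heckeAlphaBar] at h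
  have he := embList_bijective N ℓ hℓ hℓN
  rw [← he.prod_comp (fun σ : FF (N * ℓ) →ₐ[FF N] Om N ℓ => σ (heckeBetaBar Kbar N ℓ y)),
    Fintype.prod_option, embList_none_beta] at h
  simp only [embList_some_beta] at h
  rw [← map_prod, ← map_mul] at h
  exact incOm_injective N ℓ h

/-- Products over the powers of a primitive root do not depend on the primitive root. -/
theorem prod_range_pow_primitive {R M : Type*} [CommRing R] [IsDomain R] [CommMonoid M] {n : ℕ}
    {ω ε : R} (hω : IsPrimitiveRoot ω n) (hε : IsPrimitiveRoot ε n) (T : R → M) :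
    ∏ b ∈ Finset.range n, T (ω ^ b) = ∏ b ∈ Finset.range n, T (ε ^ b) := by
  classical
  rcases Nat.eq_zero_or_pos n with rfl | hn
  · simp
  have key : ∀ {ξ : R}, IsPrimitiveRoot ξ n →
      ∏ b ∈ Finset.range n, T (ξ ^ b) = ∏ u ∈ Polynomial.nthRootsFinset n (1 : R), T u := by
    intro ξ hξ
    have himg : (Finset.range n).image (fun b => ξ ^ b) = Polynomial.nthRootsFinset n (1 : R) := by
      apply Finset.eq_of_subset_of_card_le
      · intro u hu
        obtain ⟨b, -, rfl⟩ := Finset.mem_image.mp hu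
        rw [Polynomial.mem_nthRootsFinset hn, ← pow_mul, mul_comm, pow_mul, hξ.pow_eq_one, one_pow]
      · rw [hξ.card_nthRootsFinset, Finset.card_image_of_injOn hξ.injOn_pow, Finset.card_range]
    rw [← himg, Finset.prod_image]
    intro a ha b hb hab
    exact hξ.injOn_pow ha hb hab
  rw [key hω, key hε]

omit [NeZero N] in
theorem coe_infRoot_one_isPrimitiveRoot : IsPrimitiveRoot ((infRoot 1 ℓ : ℂˣ) : ℂ) ℓ := by
  have h := Complex.isPrimitiveRoot_exp ℓ (NeZero.ne ℓ)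
  have e : ((infRoot 1 ℓ : ℂˣ) : ℂ) = Complex.exp (2 * Real.pi * Complex.I / ℓ) := by
    rw [infRoot_coe]
    congr 1
    push_cast
    ring
  rw [e]
  exact h

/-- `Φ_N ∘ V_ℓ = Φ_{N ℓ}` -/
theorem Φ_qExpand (x : LaurentSeries Kbar) :
    HolBase.Φ N (qExpand Kbar ℓ x) = HolBase.Φ (N * ℓ) x := by
  show qExpand ℂ N (coeffMap ιK (qExpand Kbar ℓ x)) = qExpand ℂ (N * ℓ) (coeffMap ιK x)
  rw [coeffMap_qExpand, qExpand_qExpand]

/-- **The norm of `β y` over `α(FF N)`** (Kronecker product formula): for `ℓ ∤ N` prime and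
any primitive `ℓ`-th root of unity `ζ ∈ ℚ̄`,
`Nm(β y)(u^ℓ) = y(u^{ℓ²}) · ∏_{b<ℓ} y(ζ^b u)`. -/
theorem norm_heckeBeta_aux (hℓ : ℓ.Prime) (hℓN : ¬ ℓ ∣ N) (ζ : Kbarˣ)
    (hζ : IsPrimitiveRoot (ζ : Kbar) ℓ) (y : FF N) :
    qExpand Kbar ℓ
        ((Algebra.norm (FF N) (heckeBetaBar Kbar N ℓ y) : FF N) : LaurentSeries Kbar)
      = qExpand Kbar (ℓ * ℓ) (y : LaurentSeries Kbar)
        * ∏ b ∈ Finset.range ℓ, infTwist (ζ ^ b) (y : LaurentSeries Kbar) := by
  apply HolBase.Φ_injective (N := N)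
  have e2 : HolBase.Φ N (qExpand Kbar (ℓ * ℓ) (y : LaurentSeries Kbar))
      = HolBase.Φ (N * ℓ) (qExpand Kbar ℓ (y : LaurentSeries Kbar)) := by
    rw [← Φ_qExpand, qExpand_qExpand]
  rw [map_mul, map_prod, Φ_qExpand, norm_complex N ℓ hℓ hℓN y, e2]
  congr 1
  rw [Fin.prod_univ_eq_prod_range (fun b : ℕ => qExpand ℂ N (infTwist (infRoot ((b : ℕ) : ℤ) ℓ)
    (coeffMap ιK (y : LaurentSeries Kbar)))) ℓ]
  -- both sides are products of `T (ξ ^ b)`
  let T : ℂ → LaurentSeries ℂ := fun u =>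
    if h : u = 0 then 1
    else qExpand ℂ N (infTwist (Units.mk0 u h) (coeffMap ιK (y : LaurentSeries Kbar)))
  have hT : ∀ v : ℂˣ, T (v : ℂ)
      = qExpand ℂ N (infTwist v (coeffMap ιK (y : LaurentSeries Kbar))) := by
    intro v
    simp only [T]
    rw [dif_neg v.ne_zero]
    congr 3
    exact Units.ext rfl
  have hε := coe_infRoot_one_isPrimitiveRoot ℓ
  have hω : IsPrimitiveRoot (ιK (ζ : Kbar)) ℓ := hζ.map_of_injective ιK_injective
  have hL : ∀ b ∈ Finset.range ℓ,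
      qExpand ℂ N (infTwist (infRoot ((b : ℕ) : ℤ) ℓ) (coeffMap ιK (y : LaurentSeries Kbar)))
        = T (((infRoot 1 ℓ : ℂˣ) : ℂ) ^ b) := by
    intro b _
    rw [← Units.val_pow_eq_pow_val, hT, infRoot_pow, mul_one]
  have hR : ∀ b ∈ Finset.range ℓ,
      HolBase.Φ N (infTwist (ζ ^ b) (y : LaurentSeries Kbar)) = T ((ιK (ζ : Kbar)) ^ b) := by
    intro b _
    have e : (ιK (ζ : Kbar)) ^ b = ((Units.map (ιK : Kbar →* ℂ) (ζ ^ b) : ℂˣ) : ℂ) := by
      simp
    rw [e, hT]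
    show qExpand ℂ N (coeffMap ιK (infTwist (ζ ^ b) (y : LaurentSeries Kbar))) = _
    rw [coeffMap_infTwist]
  rw [Finset.prod_congr rfl hL, Finset.prod_congr rfl hR]
  exact prod_range_pow_primitive hε hω T

/-- the degree of `FF (N ℓ)` over `α(FF N)` is `ℓ + 1` -/
theorem finrank_alpha_aux (hℓ : ℓ.Prime) (hℓN : ¬ ℓ ∣ N) :
    Module.finrank (FF N) (FF (N * ℓ)) = ℓ + 1 := by
  rw [← AlgHom.card (FF N) (FF (N * ℓ)) (Om N ℓ),
    ← Fintype.card_of_bijective (embList_bijective N ℓ hℓ hℓN)]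
  simp

omit [NeZero N] in
theorem coe_sub_FF (a b : FF N) :
    ((a - b : FF N) : LaurentSeries Kbar) = (a : LaurentSeries Kbar) - (b : LaurentSeries Kbar) :=
  rfl

set_option maxHeartbeats 1000000 in
set_option synthInstance.maxHeartbeats 200000 in
/-- the characteristic polynomial of `β y` over `α(FF N)` is the Kronecker polynomial -/
theorem charpoly_heckeBeta_aux (hℓ : ℓ.Prime) (hℓN : ¬ ℓ ∣ N) (ζ : Kbarˣ)
    (hζ : IsPrimitiveRoot (ζ : Kbar) ℓ) (y : FF N) :
    (((Algebra.lmul (FF N) (FF (N * ℓ)) (heckeBetaBar Kbar N ℓ y)).charpoly.map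
        (coeHom N)).map (qExpand Kbar ℓ))
      = (Polynomial.X - Polynomial.C (qExpand Kbar (ℓ * ℓ) (y : LaurentSeries Kbar)))
        * ∏ b ∈ Finset.range ℓ,
            (Polynomial.X - Polynomial.C (infTwist (ζ ^ b) (y : LaurentSeries Kbar))) := by
  apply Polynomial.eq_of_infinite_eval_eq
  refine Set.infinite_of_injective_forall_mem
    (f := fun c : Kbar => algebraMap Kbar (LaurentSeries Kbar) c)
    (algebraMap Kbar (LaurentSeries Kbar)).injective ?_
  intro c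
  show Polynomial.eval _ _ = Polynomial.eval _ _
  -- the constant `c` as an element of `FF N`
  set t : FF N := algebraMap Kbar (FF N) c with ht
  have hc : algebraMap Kbar (LaurentSeries Kbar) c = qExpand Kbar ℓ (coeHom N t) := by
    rw [coeHom_apply, ht, coe_algebraMap_FF, algebraMap_laurentSeries_eq_single, qExpand_single,
      mul_zero]
  -- left side
  have hL : Polynomial.eval (algebraMap Kbar (LaurentSeries Kbar) c)
      (((Algebra.lmul (FF N) (FF (N * ℓ)) (heckeBetaBar Kbar N ℓ y)).charpoly.map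
        (coeHom N)).map (qExpand Kbar ℓ))
      = qExpand Kbar ℓ ((Algebra.norm (FF N)
          (heckeBetaBar Kbar N ℓ (t - y)) : FF N) : LaurentSeries Kbar) := by
    rw [hc, Polynomial.eval_map, Polynomial.eval₂_hom, Polynomial.eval_map,
      Polynomial.eval₂_hom, LinearMap.eval_charpoly, coeHom_apply]
    congr 2
    rw [Algebra.norm_apply]
    congr 1
    rw [map_sub, map_sub]
    congr 1
    refine LinearMap.ext fun z => ?_
    show heckeAlphaBar Kbar N ℓ t * z = heckeBetaBar Kbar N ℓ t * z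
    rw [ht, AlgHom.commutes, AlgHom.commutes]
  rw [hL, norm_heckeBeta_aux N ℓ hℓ hℓN ζ hζ (t - y)]
  have hsub : ((t - y : FF N) : LaurentSeries Kbar)
      = algebraMap Kbar (LaurentSeries Kbar) c - (y : LaurentSeries Kbar) := by
    rw [coe_sub_FF, ht, coe_algebraMap_FF]
  have hV : ∀ (n : ℕ) [NeZero n], qExpand Kbar n (algebraMap Kbar (LaurentSeries Kbar) c)
      = algebraMap Kbar (LaurentSeries Kbar) c := by
    intro n _
    rw [algebraMap_laurentSeries_eq_single, qExpand_single, mul_zero]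
  have hT : ∀ u : Kbarˣ, infTwist u (algebraMap Kbar (LaurentSeries Kbar) c)
      = algebraMap Kbar (LaurentSeries Kbar) c := by
    intro u
    rw [algebraMap_laurentSeries_eq_single, infTwist_single]
    simp
  rw [hsub, map_sub, hV, Polynomial.eval_mul, Polynomial.eval_sub, Polynomial.eval_X,
    Polynomial.eval_C, Polynomial.eval_prod]
  congr 1
  refine Finset.prod_congr rfl fun b _ => ?_
  rw [map_sub, hT, Polynomial.eval_sub, Polynomial.eval_X, Polynomial.eval_C]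

end Internal

/-! ### Public statements (with the Prelude's `algebraAlong`) -/

/-- `FF (N ℓ)` is a finite extension of `α(FF N)`: the Prelude's `FiniteAlong`. -/
theorem finiteAlong_heckeAlphaBar :
    FiniteAlong Kbar (heckeAlphaBar Kbar N ℓ) :=
  finite_alpha N ℓ

/-- `[FF (N ℓ) : α(FF N)] = ℓ + 1` for a prime `ℓ ∤ N`. -/
theorem finrankAlong_heckeAlphaBar (hℓ : ℓ.Prime) (hℓN : ¬ ℓ ∣ N) :
    finrankAlong Kbar (heckeAlphaBar Kbar N ℓ) = ℓ + 1 :=
  finrank_alpha_aux N ℓ hℓ hℓN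

/-- **NORM.** For a prime `ℓ ∤ N`, a primitive `ℓ`-th root of unity `ζ ∈ ℚ̄` and `y ∈ FF N`:
`Nm_{FF(Nℓ)/α(FF N)}(β y)(u^ℓ) = y(u^{ℓ²}) · ∏_{b<ℓ} y(ζ^b u)` in `ℚ̄((u))`. -/
theorem norm_heckeBeta (hℓ : ℓ.Prime) (hℓN : ¬ ℓ ∣ N) (ζ : Kbarˣ)
    (hζ : IsPrimitiveRoot (ζ : Kbar) ℓ) (y : FF N) :
    letI := algebraAlong (heckeAlphaBar Kbar N ℓ)
    qExpand Kbar ℓ
        ((Algebra.norm (FF N) (heckeBetaBar Kbar N ℓ y) : FF N) : LaurentSeries Kbar)
      = qExpand Kbar (ℓ * ℓ) (y : LaurentSeries Kbar)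
        * ∏ b ∈ Finset.range ℓ, infTwist (ζ ^ b) (y : LaurentSeries Kbar) :=
  norm_heckeBeta_aux N ℓ hℓ hℓN ζ hζ y

set_option maxHeartbeats 1000000 in
set_option synthInstance.maxHeartbeats 200000 in
/-- **CHARPOLY.** The characteristic polynomial of `β y` over `α(FF N)` is the Kronecker
polynomial `(X - y(q^ℓ)) ∏_b (X - y(ζ^b q^{1/ℓ}))` (written in `u = q^{1/ℓ}`). -/
theorem charpoly_heckeBeta (hℓ : ℓ.Prime) (hℓN : ¬ ℓ ∣ N) (ζ : Kbarˣ)
    (hζ : IsPrimitiveRoot (ζ : Kbar) ℓ) (y : FF N) :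
    letI := algebraAlong (heckeAlphaBar Kbar N ℓ)
    haveI : Module.Finite (FF N) (FF (N * ℓ)) := finiteAlong_heckeAlphaBar N ℓ
    (((Algebra.lmul (FF N) (FF (N * ℓ)) (heckeBetaBar Kbar N ℓ y)).charpoly.map
        (coeHom N)).map (qExpand Kbar ℓ))
      = (Polynomial.X - Polynomial.C (qExpand Kbar (ℓ * ℓ) (y : LaurentSeries Kbar)))
        * ∏ b ∈ Finset.range ℓ,
            (Polynomial.X - Polynomial.C (infTwist (ζ ^ b) (y : LaurentSeries Kbar))) :=
  charpoly_heckeBeta_aux N ℓ hℓ hℓN ζ hζ y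

end Fermat.Agent.S37.H819

end
end
-- ===== PACK-END S37/H819/Norm.lean

-- ===== PACK-BEGIN S29/H222/ESKAdapterM.lean
section
/-
S29 / helper222 — piece ESK, adapter to layer M: `Fermat.Agent.S29.M.ESStatement` (the
Eichler–Shimura input of deputy helper30's layer M, `M/Defs.lean`) from the external inputs
of `ESKFamily.lean`:

* `CoreFamily`   : `S18.CoreStatement N A m` for `ℓ ∤ N`, `ℓ ∤ m`, `A` over `ℓ`     (row S18)
* `PGIFamily`    : Prelude `PrincipalGeneratedByIntegral A (residue A) N`            (S18/S37, M1-Gauss)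
* `NormIdFamily` : `NormId N ℓ`                                                      (piece NKI)

(`HIFamily`, the fourth input, is discharged here from helper812's piece HI.)
-/




set_option autoImplicit false
set_option linter.style.haveILetI false

noncomputable section

namespace Fermat.Agent.S29.H222

/-- **ES for layer M**: the exact `M.ESStatement`, from the four families. -/
theorem esStatement_of_families (hcore : CoreFamily) (hpgi : PGIFamily) (hHI : HIFamily)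
    (hnid : NormIdFamily) : Fermat.Agent.S29.M.ESStatement :=
  esRaw_of_families hcore hpgi hHI hnid

/-- Piece HI (helper812) in family form. -/
theorem hiFamily : HIFamily :=
  fun N _ ℓ _ _ _ => Fermat.Agent.S29.H812.heckeInputsAlong N ℓ

/-- **ES for layer M** from the three remaining external inputs. -/
theorem esStatement_of_core_pgi_normId (hcore : CoreFamily) (hpgi : PGIFamily)
    (hnid : NormIdFamily) : Fermat.Agent.S29.M.ESStatement :=
  esStatement_of_families hcore hpgi hiFamily hnid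

end Fermat.Agent.S29.H222

end
end
-- ===== PACK-END S29/H222/ESKAdapterM.lean

-- ===== PACK-BEGIN A2/Mod/H751/Stau.lean
section





/-!
# A2 / MODASM, sub-assembly `Sτ` (helper751)

`stau_of_s1 : S1Statement P E M q w → StauStatement P E M q w` — inertia fixes the coordinate
`x = j · j_q` and acts trivially modulo `w` on both charts.  All leaves are taken from main
(L1, L2: `H553`; L4: `H751`; L14: `H549`); the only hypothesis is the sub-assembly `S1`.

Abstract lemmas (Mathlib only):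

* `mem_valuationSubring_of_isIntegral_adjoin` : a valuation ring containing `R` and `y` contains
  the integral closure of `R[y]`;
* `isIntegral_adjoin_map` : a ring endomorphism `σ` of `F` with `σ ∘ algebraMap = algebraMap ∘ ρ`
  and `σ y = y` preserves the integral closure of `R[y]`;
* `exists_eq_mul_of_mem_inf` : `p₁ ⊓ p₂ = (w)` read elementwise.
-/

set_option autoImplicit false
set_option linter.unusedSectionVars false
set_option synthInstance.maxHeartbeats 400000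
set_option maxHeartbeats 1600000

noncomputable section

namespace Fermat.Agent.A2.Mod.H751

open ModularCurve HahnSeries Polynomial

/-! ### Abstract lemmas -/

section Abstract

variable {R F : Type*} [CommRing R] [Field F] [Algebra R F]

/-- A valuation subring of `F` containing the image of `R` and `y` contains every element
integral over `R[y]`. -/
theorem mem_valuationSubring_of_isIntegral_adjoin (V : ValuationSubring F)
    (hR : ∀ r : R, algebraMap R F r ∈ V) {y : F} (hy : y ∈ V) {b : F}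
    (hb : IsIntegral (Algebra.adjoin R ({y} : Set F)) b) : b ∈ V := by
  have hle : ∀ a ∈ Algebra.adjoin R ({y} : Set F), a ∈ V := by
    intro a ha
    induction ha using Algebra.adjoin_induction with
    | mem z hz =>
        rw [Set.mem_singleton_iff] at hz
        rw [hz]; exact hy
    | algebraMap r => exact hR r
    | add a c _ _ ha hc => exact V.add_mem _ _ ha hc
    | mul a c _ _ ha hc => exact V.mul_mem _ _ ha hc
  let φ : ↥(Algebra.adjoin R ({y} : Set F)) →+* ↥V :=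
    { toFun := fun a => ⟨(a : F), hle a a.2⟩
      map_one' := rfl
      map_mul' := fun _ _ => rfl
      map_zero' := rfl
      map_add' := fun _ _ => rfl }
  have h1 : IsIntegral ↥V ((RingHom.id F) b) :=
    IsIntegral.map_of_comp_eq φ (RingHom.id F) (RingHom.ext fun _ => rfl) hb
  have h2 : IsIntegral ↥V b := h1
  obtain ⟨v, hv⟩ := (IsIntegrallyClosed.isIntegral_iff (R := ↥V) (K := F)).mp h2
  rw [← hv]
  exact v.2

/-- A ring endomorphism `σ` of `F`, semilinear over `ρ : R →+* R` and fixing `y`, preserves the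
integral closure of `R[y]`. -/
theorem isIntegral_adjoin_map (σ : F →+* F) (ρ : R →+* R)
    (hσ : ∀ r : R, σ (algebraMap R F r) = algebraMap R F (ρ r)) {y : F} (hy : σ y = y) {b : F}
    (hb : IsIntegral (Algebra.adjoin R ({y} : Set F)) b) :
    IsIntegral (Algebra.adjoin R ({y} : Set F)) (σ b) := by
  have hle : ∀ a ∈ Algebra.adjoin R ({y} : Set F), σ a ∈ Algebra.adjoin R ({y} : Set F) := by
    intro a ha
    induction ha using Algebra.adjoin_induction with
    | mem z hz =>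
        rw [Set.mem_singleton_iff] at hz
        rw [hz, hy]
        exact Algebra.subset_adjoin (Set.mem_singleton y)
    | algebraMap r =>
        rw [hσ]
        exact Subalgebra.algebraMap_mem _ _
    | add a c _ _ ha hc =>
        rw [map_add]
        exact add_mem ha hc
    | mul a c _ _ ha hc =>
        rw [map_mul]
        exact mul_mem ha hc
  let φ : ↥(Algebra.adjoin R ({y} : Set F)) →+* ↥(Algebra.adjoin R ({y} : Set F)) :=
    { toFun := fun a => ⟨σ (a : F), hle a a.2⟩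
      map_one' := Subtype.ext (map_one σ)
      map_mul' := fun a c => Subtype.ext (map_mul σ (a : F) (c : F))
      map_zero' := Subtype.ext (map_zero σ)
      map_add' := fun a c => Subtype.ext (map_add σ (a : F) (c : F)) }
  exact IsIntegral.map_of_comp_eq φ σ (RingHom.ext fun _ => rfl) hb

/-- `p₁ ⊓ p₂ = (w)`, elementwise. -/
theorem exists_eq_mul_of_mem_inf (B : Subalgebra R F) (w : R) (p₁ p₂ : Ideal B)
    (hinf : p₁ ⊓ p₂ = Ideal.span {algebraMap R B w}) {d : F} (hd : d ∈ B)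
    (h₁ : (⟨d, hd⟩ : B) ∈ p₁) (h₂ : (⟨d, hd⟩ : B) ∈ p₂) :
    ∃ c ∈ B, d = algebraMap R F w * c := by
  have h : (⟨d, hd⟩ : B) ∈ p₁ ⊓ p₂ := ⟨h₁, h₂⟩
  rw [hinf, Ideal.mem_span_singleton] at h
  obtain ⟨c, hc⟩ := h
  refine ⟨(c : F), c.2, ?_⟩
  have := congrArg (fun z : B => (z : F)) hc
  simpa using this

end Abstract

/-! ### The sub-assembly `Sτ` -/

section Concrete

variable (P : ValuationSubring _root_.Fermat.Agent.A2.Mod.Qb) (E : IntermediateField ℚ _root_.Fermat.Agent.A2.Mod.Qb) (M q : ℕ) [NeZero M] [NeZero q]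
  (w : _root_.Fermat.Agent.A2.Mod.RE P E)

/-- `τ j_d = j_d`. -/
theorem arith_jE (N d : ℕ) [NeZero d] (hd : d ∣ N) (τE : E ≃ₐ[ℚ] E) :
    arithmeticRingAut (modularFunctionFieldFull N) τE (jE E N d hd) = jE E N d hd :=
  Subtype.ext (coeffMap_coeffEmb τE _)

/-- `τ x = x`. -/
theorem arith_xE (τE : E ≃ₐ[ℚ] E) :
    arithmeticRingAut (modularFunctionFieldFull (M * q)) τE (xE E M q) = xE E M q := by
  unfold xE
  rw [map_mul, arith_jE, arith_jE]

/-- An automorphism in the inertia group whose restriction to `E` is `τE` preserves `R_E`. -/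
theorem resE_mem_RE {τ : _root_.Fermat.Agent.A2.Mod.Qb ≃ₐ[ℚ] _root_.Fermat.Agent.A2.Mod.Qb} {τE : E ≃ₐ[ℚ] E} (hτ : τ ∈ P.inertiaSubgroupIn ℚ)
    (hτE : ∀ e : E, ((τE e : E) : _root_.Fermat.Agent.A2.Mod.Qb) = τ (e : _root_.Fermat.Agent.A2.Mod.Qb)) : ∀ a ∈ _root_.Fermat.Agent.A2.Mod.RE P E, τE a ∈ _root_.Fermat.Agent.A2.Mod.RE P E := by
  intro a ha
  have hτD := Fermat.Agent.A2.H708.mem_decomposition_of_mem_inertiaIn P hτ
  rw [ValuationSubring.mem_comap] at ha ⊢
  have e : algebraMap ↥E _root_.Fermat.Agent.A2.Mod.Qb (τE a) = τ (algebraMap ↥E _root_.Fermat.Agent.A2.Mod.Qb a) := hτE a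
  rw [e]
  exact Fermat.Agent.A2.H708.apply_mem_of_mem_decomposition P hτD ha

/-- **Sub-assembly `Sτ`** from `S1` (all leaves from main). -/
theorem stau_of_s1 (hS1 : S1Statement P E M q w) : StauStatement P E M q w := by
  intro hS τ τE hτ hτE
  refine ⟨arith_xE E M q τE, ?_⟩
  intro y hy b hb
  have hN : M * q ≠ 0 := mul_ne_zero hS.M_ne_zero hS.q_prime.ne_zero
  haveI : NeZero (M * q) := ⟨hN⟩
  obtain ⟨V, hV⟩ := H553.vinfExists P E (M * q) hN hS.dvr
  have hW : IsFricke E (M * q) (frickeE E (M * q)) := isFricke_frickeE E (M * q)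
  obtain ⟨p₁, p₂, hc₁, hc₂, -, -, -, -, hinf⟩ := hS1 hS V (frickeE E (M * q)) hV hW y hy
  obtain ⟨-, hconst, hj⟩ := H553.vinfBasic P E w (M * q) hN hS.dvr hS.unif V hV
  obtain ⟨hcomm, hin⟩ := H549.inertia_core P E w (M * q) hN hS.dvr hS.unif V
    (frickeE E (M * q)) hV hW.1 τ τE hτE hτ
  -- notation
  set W := frickeE E (M * q) with hWdef
  set j1 := jE E (M * q) 1 (one_dvd _) with hj1
  set jq' := jE E (M * q) q (dvd_mul_left q M) with hjq
  have hx : xE E M q = j1 * jq' := rfl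
  -- (a) constants
  have hRV : ∀ r : _root_.Fermat.Agent.A2.Mod.RE P E, algebraMap (_root_.Fermat.Agent.A2.Mod.RE P E) (_root_.Fermat.Agent.A2.Mod.FE E (M * q)) r ∈ V := fun r =>
    (hconst (r : E)).mpr r.2
  have hRV0 : ∀ r : _root_.Fermat.Agent.A2.Mod.RE P E, algebraMap (_root_.Fermat.Agent.A2.Mod.RE P E) (_root_.Fermat.Agent.A2.Mod.FE E (M * q)) r ∈
      V.comap (W : _root_.Fermat.Agent.A2.Mod.FE E (M * q) →+* _root_.Fermat.Agent.A2.Mod.FE E (M * q)) := by
    intro r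
    rw [ValuationSubring.mem_comap]
    have h1 : (W : _root_.Fermat.Agent.A2.Mod.FE E (M * q) →+* _root_.Fermat.Agent.A2.Mod.FE E (M * q)) (algebraMap (_root_.Fermat.Agent.A2.Mod.RE P E) (_root_.Fermat.Agent.A2.Mod.FE E (M * q)) r)
        = algebraMap (_root_.Fermat.Agent.A2.Mod.RE P E) (_root_.Fermat.Agent.A2.Mod.FE E (M * q)) r := W.commutes (r : E)
    rw [h1]
    exact hRV r
  -- (b) the coordinate and its inverse
  have hxV : xE E M q ∈ V := by
    rw [hx]; exact V.mul_mem _ _ (hj 1 (one_dvd _)).1 (hj q (dvd_mul_left q M)).1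
  have hxV' : (xE E M q)⁻¹ ∈ V := by
    rw [hx, mul_inv]; exact V.mul_mem _ _ (hj 1 (one_dvd _)).2 (hj q (dvd_mul_left q M)).2
  have hW1 : W j1 = jE E (M * q) (M * q) dvd_rfl :=
    hW.1 1 (M * q) (one_dvd _) dvd_rfl (one_mul _)
  have hWq : W jq' = jE E (M * q) M (dvd_mul_right M q) :=
    hW.1 q M (dvd_mul_left q M) (dvd_mul_right M q) (mul_comm q M)
  have hWx : W (xE E M q) = jE E (M * q) (M * q) dvd_rfl * jE E (M * q) M (dvd_mul_right M q) := by
    rw [hx, map_mul, hW1, hWq]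
  have hxV0 : xE E M q ∈ V.comap (W : _root_.Fermat.Agent.A2.Mod.FE E (M * q) →+* _root_.Fermat.Agent.A2.Mod.FE E (M * q)) := by
    rw [ValuationSubring.mem_comap]
    show W (xE E M q) ∈ V
    rw [hWx]
    exact V.mul_mem _ _ (hj (M * q) dvd_rfl).1 (hj M (dvd_mul_right M q)).1
  have hxV0' : (xE E M q)⁻¹ ∈ V.comap (W : _root_.Fermat.Agent.A2.Mod.FE E (M * q) →+* _root_.Fermat.Agent.A2.Mod.FE E (M * q)) := by
    rw [ValuationSubring.mem_comap]
    show W (xE E M q)⁻¹ ∈ V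
    rw [map_inv₀, hWx, mul_inv]
    exact V.mul_mem _ _ (hj (M * q) dvd_rfl).2 (hj M (dvd_mul_right M q)).2
  have hyV : y ∈ V := by
    rcases hy with rfl | rfl
    · exact hxV
    · exact hxV'
  have hyV0 : y ∈ V.comap (W : _root_.Fermat.Agent.A2.Mod.FE E (M * q) →+* _root_.Fermat.Agent.A2.Mod.FE E (M * q)) := by
    rcases hy with rfl | rfl
    · exact hxV0
    · exact hxV0'
  -- (c) `b ∈ V ∩ V₀`
  have hbI : IsIntegral (Algebra.adjoin (_root_.Fermat.Agent.A2.Mod.RE P E) ({y} : Set (_root_.Fermat.Agent.A2.Mod.FE E (M * q)))) b := hb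
  have hbV : b ∈ V := mem_valuationSubring_of_isIntegral_adjoin V hRV hyV hbI
  have hbV0 : W b ∈ V := by
    have := mem_valuationSubring_of_isIntegral_adjoin
      (V.comap (W : _root_.Fermat.Agent.A2.Mod.FE E (M * q) →+* _root_.Fermat.Agent.A2.Mod.FE E (M * q))) hRV0 hyV0 hbI
    rwa [ValuationSubring.mem_comap] at this
  -- (d) `τ b ∈ B`
  have hσA := resE_mem_RE P E hτ hτE
  have hτy : arithmeticRingAut (modularFunctionFieldFull (M * q)) τE y = y := by
    rcases hy with rfl | rfl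
    · exact arith_xE E M q τE
    · rw [map_inv₀, arith_xE]
  have hτb : arithmeticRingAut (modularFunctionFieldFull (M * q)) τE b ∈
      chartAlg P E (M * q) y := by
    have h1 := isIntegral_adjoin_map (R := _root_.Fermat.Agent.A2.Mod.RE P E) (F := _root_.Fermat.Agent.A2.Mod.FE E (M * q))
      ((arithmeticRingAut (modularFunctionFieldFull (M * q)) τE :
        _root_.Fermat.Agent.A2.Mod.FE E (M * q) ≃+* _root_.Fermat.Agent.A2.Mod.FE E (M * q)) : _root_.Fermat.Agent.A2.Mod.FE E (M * q) →+* _root_.Fermat.Agent.A2.Mod.FE E (M * q))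
      (H549.resA (_root_.Fermat.Agent.A2.Mod.RE P E) τE hσA)
      (fun r => arithmeticRingAut_algebraMap (modularFunctionFieldFull (M * q)) τE (r : E))
      hτy hbI
    exact h1
  have hd : arithmeticRingAut (modularFunctionFieldFull (M * q)) τE b - b ∈
      chartAlg P E (M * q) y := sub_mem hτb hb
  -- (e) `τ b - b ∈ w V ∩ w V₀`
  have h₁ : InW P E (M * q) V w
      (arithmeticRingAut (modularFunctionFieldFull (M * q)) τE b - b) := hin b hbV
  have h₂ : InW P E (M * q) (V.comap (W : _root_.Fermat.Agent.A2.Mod.FE E (M * q) →+* _root_.Fermat.Agent.A2.Mod.FE E (M * q))) w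
      (arithmeticRingAut (modularFunctionFieldFull (M * q)) τE b - b) := by
    have h3 := hin (W b) hbV0
    show (arithmeticRingAut (modularFunctionFieldFull (M * q)) τE b - b) * (cE P E (M * q) w)⁻¹
      ∈ V.comap (W : _root_.Fermat.Agent.A2.Mod.FE E (M * q) →+* _root_.Fermat.Agent.A2.Mod.FE E (M * q))
    rw [ValuationSubring.mem_comap]
    show W ((arithmeticRingAut (modularFunctionFieldFull (M * q)) τE b - b)
      * (cE P E (M * q) w)⁻¹) ∈ V
    have hWc : W (cE P E (M * q) w) = cE P E (M * q) w := W.commutes (w : E)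
    rw [map_mul, map_sub, map_inv₀, hWc, ← hcomm b]
    exact h3
  -- (f) conclusion
  exact exists_eq_mul_of_mem_inf (chartAlg P E (M * q) y) w p₁ p₂ hinf hd
    ((hc₁ ⟨_, hd⟩).mpr h₁) ((hc₂ ⟨_, hd⟩).mpr h₂)

end Concrete

end Fermat.Agent.A2.Mod.H751

end
end
-- ===== PACK-END A2/Mod/H751/Stau.lean

-- ===== PACK-BEGIN A2/Mod/H142/S2.lean
section




/-!
# A2 / MODASM sub-assembly S2 (components normal) (helper142)

`s2_of_leaves : FrickeStableStatement P E M q w → ResInfStatement P E M q w → S2Statement P E M q w`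

The leaves L2 (H553), L4/L5 (H751), L13 (H873) are taken from main; L7 and L11 are hypotheses
(VERBATIM `Mod/Spec.lean` statements).

Route: `normal_side` (`S2Side.lean`) with `(V', γ) = (V∞, α)` for `p₁` and
`(V', γ) = (V₀ = V∞ ∘ W, β)` for `p₂`; the coordinate congruences
`x ≡ α(j)^(q+1) mod w V∞`, `W x ≡ α(j_M)^(q+1) mod w V∞` are Frobenius congruences of integer
series (`frobCong`).
-/

set_option autoImplicit false
set_option synthInstance.maxHeartbeats 400000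
set_option maxHeartbeats 1600000
set_option linter.unusedSectionVars false
set_option linter.style.haveILetI false

noncomputable section

namespace Fermat.Agent.A2.Mod.H142

open ModularCurve HahnSeries Polynomial

variable (P : ValuationSubring _root_.Fermat.Agent.A2.Mod.Qb) (E : IntermediateField ℚ _root_.Fermat.Agent.A2.Mod.Qb)
variable (M q : ℕ) [NeZero M] [NeZero q] (w : _root_.Fermat.Agent.A2.Mod.RE P E)

/-- `α` maps `V∞` of level `M` into `V∞` of level `M q`. -/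
theorem alpha_mem {VM : ValuationSubring (_root_.Fermat.Agent.A2.Mod.FE E M)} {V : ValuationSubring (_root_.Fermat.Agent.A2.Mod.FE E (M * q))}
    (hVM : IsVinf P E M VM) (hV : IsVinf P E (M * q) V) {g : _root_.Fermat.Agent.A2.Mod.FE E M} (hg : g ∈ VM) :
    αE E M q g ∈ V := by
  obtain ⟨U₁, U₂, h0, hm, he⟩ := (hVM g).1 hg
  refine (hV _).2 ⟨U₁, U₂, h0, ?_, ?_⟩
  · have h := (αE E M q ⟨_, hm⟩).2
    rwa [coe_heckeAlphaBar] at h
  · rw [coe_heckeAlphaBar]
    exact he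

/-- The frame of the two coordinates. -/
theorem xE_eq : xE E M q = jE E (M * q) 1 (one_dvd _) * jE E (M * q) q (dvd_mul_left q M) := rfl

/-- **S2 on `C∞`.** -/
theorem normal_inf (hL11 : ResInfStatement P E M q w) (hS : Setting P E M q w)
    (VM : ValuationSubring (_root_.Fermat.Agent.A2.Mod.FE E M)) (V : ValuationSubring (_root_.Fermat.Agent.A2.Mod.FE E (M * q)))
    (hVM : IsVinf P E M VM) (hV : IsVinf P E (M * q) V)
    (yM : _root_.Fermat.Agent.A2.Mod.FE E M) (y : _root_.Fermat.Agent.A2.Mod.FE E (M * q)) (hy : IsCoordPair E M q yM y)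
    (hgood : GoodRedAt P E M w VM yM)
    (p : Ideal (chartAlg P E (M * q) y))
    (hp : IsCut P E (M * q) w V (chartAlg P E (M * q) y) p) :
    IsIntegrallyClosed (chartAlg P E (M * q) y ⧸ p) := by
  have hN : M * q ≠ 0 := Nat.mul_ne_zero hS.M_ne_zero hS.q_prime.ne_zero
  haveI : NeZero (M * q) := ⟨hN⟩
  haveI : NeZero (1 * q) := ⟨by rw [one_mul]; exact hS.q_prime.ne_zero⟩
  have hL2 := H553.vinfBasic P E w (M * q) hN hS.dvr hS.unif V hV
  have hL2M := H553.vinfBasic P E w M hS.M_ne_zero hS.dvr hS.unif VM hVM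
  have hL13 := H873.chartCompat P E M q hS.q_prime
  have hRV : ∀ r : _root_.Fermat.Agent.A2.Mod.RE P E, algebraMap (_root_.Fermat.Agent.A2.Mod.RE P E) (_root_.Fermat.Agent.A2.Mod.FE E (M * q)) r ∈ V := fun r =>
    (hL2.2.1 (r : E)).mpr r.2
  -- notation
  obtain ⟨j, hj⟩ : ∃ j : _root_.Fermat.Agent.A2.Mod.FE E (M * q), j = jE E (M * q) 1 (one_dvd _) := ⟨_, rfl⟩
  obtain ⟨jq, hjq⟩ : ∃ jq : _root_.Fermat.Agent.A2.Mod.FE E (M * q), jq = jE E (M * q) q (dvd_mul_left q M) := ⟨_, rfl⟩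
  have hjV : j ∈ V ∧ j⁻¹ ∈ V := hj ▸ hL2.2.2 1 (one_dvd _)
  have hjqV : jq ∈ V ∧ jq⁻¹ ∈ V := hjq ▸ hL2.2.2 q (dvd_mul_left q M)
  have hx : xE E M q = j * jq := by rw [hj, hjq]; rfl
  have hαj : αE E M q (jE E M 1 (one_dvd _)) = j := by
    rw [hj]
    exact H751.alpha_jE E M q 1 (one_dvd M)
  have hfrob : InW P E (M * q) V w (jq - j ^ q) := by
    have h := frobCong (P := P) (E := E) (w := w) hS.q_prime hS.dvr hS.unif hS.lies_over hN hV 1
      (one_dvd _) (by rw [one_mul]; exact dvd_mul_left q M)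
    rw [hj, hjq]
    have h1 : jE E (M * q) (1 * q) (by rw [one_mul]; exact dvd_mul_left q M) =
        jE E (M * q) q (dvd_mul_left q M) := H751.jE_congr E (M * q) (one_mul q) _ _
    rwa [h1] at h
  have hj0 : j ≠ 0 := hj ▸ H873.jE_ne_zero E (M * q) 1 (one_dvd _)
  have hjq0 : jq ≠ 0 := hjq ▸ H873.jE_ne_zero E (M * q) q (dvd_mul_left q M)
  have hcinv : (j * jq)⁻¹ - j⁻¹ ^ (q + 1) = -(jq - j ^ q) * (j⁻¹ * jq⁻¹ * j⁻¹ ^ q) := by
    have hjqb : jq * jq⁻¹ = 1 := mul_inv_cancel₀ hjq0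
    have hpow : j ^ q * j⁻¹ ^ q = 1 := by rw [← mul_pow, mul_inv_cancel₀ hj0, one_pow]
    have h1 : -(jq - j ^ q) * (j⁻¹ * jq⁻¹ * j⁻¹ ^ q) =
        (j ^ q * j⁻¹ ^ q) * (j⁻¹ * jq⁻¹) - (jq * jq⁻¹) * j⁻¹ ^ (q + 1) := by ring
    rw [h1, hpow, hjqb, mul_inv]
    ring
  rcases hy with ⟨rfl, rfl⟩ | ⟨rfl, rfl⟩
  · -- finite chart
    refine normal_side P E M q w hS VM hVM V hL2.1 hRV (αE E M q)
      (fun g hg => alpha_mem P E M q hVM hV hg) (hL11 hS VM V hVM hV) _ _
      (hL2M.2.2 1 (one_dvd M)).1 ?_ ?_ ?_ hgood p hp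
    · rw [hx]
      exact V.mul_mem _ _ hjV.1 hjqV.1
    · rw [map_pow, hαj, hx]
      have : j * jq - j ^ (q + 1) = (jq - j ^ q) * j := by ring
      rw [this]
      exact inW_mul_right hfrob hjV.1
    · rw [hαj, hj]
      exact (mem_chart_iff P E (M * q) _ _).1 hL13.1
  · -- chart at infinity
    refine normal_side P E M q w hS VM hVM V hL2.1 hRV (αE E M q)
      (fun g hg => alpha_mem P E M q hVM hV hg) (hL11 hS VM V hVM hV) _ _
      (hL2M.2.2 1 (one_dvd M)).2 ?_ ?_ ?_ hgood p hp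
    · rw [hx, mul_inv]
      exact V.mul_mem _ _ hjV.2 hjqV.2
    · rw [map_pow, map_inv₀, hαj, hx]
      rw [hcinv]
      exact inW_mul_right (inW_neg hfrob)
        (V.mul_mem _ _ (V.mul_mem _ _ hjV.2 hjqV.2) (pow_mem hjV.2 q))
    · rw [map_inv₀, hαj, hj]
      exact (mem_chart_iff P E (M * q) _ _).1 hL13.2.2.1

section Comap

variable {P E} {N : ℕ} {V : ValuationSubring (_root_.Fermat.Agent.A2.Mod.FE E N)} {w}

theorem isUnif_comap (W : _root_.Fermat.Agent.A2.Mod.FE E N ≃ₐ[E] _root_.Fermat.Agent.A2.Mod.FE E N) (hU : H48.IsUnif V (cE P E N w)) :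
    H48.IsUnif (V.comap (W : _root_.Fermat.Agent.A2.Mod.FE E N →+* _root_.Fermat.Agent.A2.Mod.FE E N)) (cE P E N w) := by
  have hWc : W (cE P E N w) = cE P E N w := W.commutes _
  refine ⟨?_, ?_, ?_⟩
  · rw [ValuationSubring.mem_comap]
    show W (cE P E N w) ∈ V
    rw [hWc]
    exact hU.mem
  · rw [ValuationSubring.mem_comap]
    show ¬ W (cE P E N w)⁻¹ ∈ V
    rw [map_inv₀, hWc]
    exact hU.inv_not_mem
  · intro f hf hfinv
    rw [ValuationSubring.mem_comap] at hf hfinv ⊢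
    show W (f * (cE P E N w)⁻¹) ∈ V
    rw [map_mul, map_inv₀, hWc]
    refine hU.gen _ hf ?_
    have : (W f)⁻¹ = W f⁻¹ := (map_inv₀ W f).symm
    rw [this]
    exact hfinv

theorem inW_comap_iff (W : _root_.Fermat.Agent.A2.Mod.FE E N ≃ₐ[E] _root_.Fermat.Agent.A2.Mod.FE E N) (f : _root_.Fermat.Agent.A2.Mod.FE E N) :
    InW P E N (V.comap (W : _root_.Fermat.Agent.A2.Mod.FE E N →+* _root_.Fermat.Agent.A2.Mod.FE E N)) w f ↔ InW P E N V w (W f) := by
  have hWc : W (cE P E N w) = cE P E N w := W.commutes _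
  unfold InW
  rw [ValuationSubring.mem_comap]
  show W (f * (cE P E N w)⁻¹) ∈ V ↔ _
  rw [map_mul, map_inv₀, hWc]

end Comap

/-- **S2 on `C₀`.** -/
theorem normal_zero (hL7 : FrickeStableStatement P E M q w) (hL11 : ResInfStatement P E M q w)
    (hS : Setting P E M q w)
    (VM : ValuationSubring (_root_.Fermat.Agent.A2.Mod.FE E M)) (V : ValuationSubring (_root_.Fermat.Agent.A2.Mod.FE E (M * q)))
    (W : _root_.Fermat.Agent.A2.Mod.FE E (M * q) ≃ₐ[E] _root_.Fermat.Agent.A2.Mod.FE E (M * q))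
    (hVM : IsVinf P E M VM) (hV : IsVinf P E (M * q) V) (hW : IsFricke E (M * q) W)
    (yM : _root_.Fermat.Agent.A2.Mod.FE E M) (y : _root_.Fermat.Agent.A2.Mod.FE E (M * q)) (hy : IsCoordPair E M q yM y)
    (hgood : GoodRedAt P E M w VM yM)
    (p : Ideal (chartAlg P E (M * q) y))
    (hp : IsCut P E (M * q) w (V.comap (W : _root_.Fermat.Agent.A2.Mod.FE E (M * q) →+* _root_.Fermat.Agent.A2.Mod.FE E (M * q)))
      (chartAlg P E (M * q) y) p) :
    IsIntegrallyClosed (chartAlg P E (M * q) y ⧸ p) := by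
  have hN : M * q ≠ 0 := Nat.mul_ne_zero hS.M_ne_zero hS.q_prime.ne_zero
  haveI : NeZero (M * q) := ⟨hN⟩
  have hL2 := H553.vinfBasic P E w (M * q) hN hS.dvr hS.unif V hV
  have hL2M := H553.vinfBasic P E w M hS.M_ne_zero hS.dvr hS.unif VM hVM
  have hL13 := H873.chartCompat P E M q hS.q_prime
  have hU0 := isUnif_comap W hL2.1
  have hWM := H751.isFricke_frickeE E M
  have hL5 := H751.frickeCompat E M q (H751.frickeE E M) W hWM hW
  have hRV0 : ∀ r : _root_.Fermat.Agent.A2.Mod.RE P E, algebraMap (_root_.Fermat.Agent.A2.Mod.RE P E) (_root_.Fermat.Agent.A2.Mod.FE E (M * q)) r ∈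
      V.comap (W : _root_.Fermat.Agent.A2.Mod.FE E (M * q) →+* _root_.Fermat.Agent.A2.Mod.FE E (M * q)) := fun r => by
    rw [ValuationSubring.mem_comap]
    show W (algebraMap E (_root_.Fermat.Agent.A2.Mod.FE E (M * q)) (r : E)) ∈ V
    rw [W.commutes]
    exact (hL2.2.1 (r : E)).mpr r.2
  -- notation
  obtain ⟨j, hj⟩ : ∃ j : _root_.Fermat.Agent.A2.Mod.FE E (M * q), j = jE E (M * q) 1 (one_dvd _) := ⟨_, rfl⟩
  obtain ⟨jq, hjq⟩ : ∃ jq : _root_.Fermat.Agent.A2.Mod.FE E (M * q), jq = jE E (M * q) q (dvd_mul_left q M) := ⟨_, rfl⟩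
  obtain ⟨jM, hjM⟩ : ∃ jM : _root_.Fermat.Agent.A2.Mod.FE E (M * q), jM = jE E (M * q) M (dvd_mul_right M q) := ⟨_, rfl⟩
  obtain ⟨jN, hjN⟩ : ∃ jN : _root_.Fermat.Agent.A2.Mod.FE E (M * q), jN = jE E (M * q) (M * q) dvd_rfl := ⟨_, rfl⟩
  have hjMV : jM ∈ V ∧ jM⁻¹ ∈ V := hjM ▸ hL2.2.2 M (dvd_mul_right M q)
  have hjNV : jN ∈ V ∧ jN⁻¹ ∈ V := hjN ▸ hL2.2.2 (M * q) dvd_rfl
  have hx : xE E M q = j * jq := by rw [hj, hjq]; rfl
  have hWj : W j = jN := by
    rw [hj, hjN]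
    exact hW.1 1 (M * q) (one_dvd _) dvd_rfl (one_mul _)
  have hWjq : W jq = jM := by
    rw [hjq, hjM]
    exact hW.1 q M (dvd_mul_left q M) (dvd_mul_right M q) (mul_comm q M)
  have hWx : W (xE E M q) = jN * jM := by rw [hx, map_mul, hWj, hWjq]
  have hβj : βE E M q (jE E M 1 (one_dvd _)) = jq := by
    rw [hjq, H751.beta_jE E M q 1 (one_dvd M)]
    exact H751.jE_congr E (M * q) (mul_one q) _ _
  have hWβj : W (βE E M q (jE E M 1 (one_dvd _))) = jM := by rw [hβj, hWjq]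
  have hfrob : InW P E (M * q) V w (jN - jM ^ q) := by
    have h := frobCong (P := P) (E := E) (w := w) hS.q_prime hS.dvr hS.unif hS.lies_over hN hV M
      (dvd_mul_right M q) dvd_rfl
    rw [hjN, hjM]
    exact h
  have hjM0 : jM ≠ 0 := hjM ▸ H873.jE_ne_zero E (M * q) M (dvd_mul_right M q)
  have hjN0 : jN ≠ 0 := hjN ▸ H873.jE_ne_zero E (M * q) (M * q) dvd_rfl
  have hcinv : (jN * jM)⁻¹ - jM⁻¹ ^ (q + 1) = -(jN - jM ^ q) * (jM⁻¹ * jN⁻¹ * jM⁻¹ ^ q) := by
    have hb : jN * jN⁻¹ = 1 := mul_inv_cancel₀ hjN0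
    have hpow : jM ^ q * jM⁻¹ ^ q = 1 := by rw [← mul_pow, mul_inv_cancel₀ hjM0, one_pow]
    have h1 : -(jN - jM ^ q) * (jM⁻¹ * jN⁻¹ * jM⁻¹ ^ q) =
        (jM ^ q * jM⁻¹ ^ q) * (jM⁻¹ * jN⁻¹) - (jN * jN⁻¹) * jM⁻¹ ^ (q + 1) := by ring
    rw [h1, hpow, hb, mul_inv]
    ring
  -- `β` maps `V∞_M` into `V₀`
  have hβV : ∀ g ∈ VM, βE E M q g ∈ V.comap (W : _root_.Fermat.Agent.A2.Mod.FE E (M * q) →+* _root_.Fermat.Agent.A2.Mod.FE E (M * q)) := by
    intro g hg
    rw [ValuationSubring.mem_comap]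
    show W (βE E M q g) ∈ V
    rw [(hL5 g).2]
    exact alpha_mem P E M q hVM hV (hL7 hS VM (H751.frickeE E M) hVM hWM g hg)
  -- residue degree one on `C₀`
  have hres : ∀ f ∈ V.comap (W : _root_.Fermat.Agent.A2.Mod.FE E (M * q) →+* _root_.Fermat.Agent.A2.Mod.FE E (M * q)), ∃ g ∈ VM,
      InW P E (M * q) (V.comap (W : _root_.Fermat.Agent.A2.Mod.FE E (M * q) →+* _root_.Fermat.Agent.A2.Mod.FE E (M * q))) w (f - βE E M q g) := by
    intro f hf
    rw [ValuationSubring.mem_comap] at hf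
    obtain ⟨g', hg', h⟩ := hL11 hS VM V hVM hV (W f) hf
    refine ⟨H751.frickeE E M g', hL7 hS VM (H751.frickeE E M) hVM hWM g' hg', ?_⟩
    rw [inW_comap_iff, map_sub, (hL5 _).2, hWM.2]
    exact h
  rcases hy with ⟨rfl, rfl⟩ | ⟨rfl, rfl⟩
  · -- finite chart
    refine normal_side P E M q w hS VM hVM _ hU0 hRV0 (βE E M q) hβV hres _ _
      (hL2M.2.2 1 (one_dvd M)).1 ?_ ?_ ?_ hgood p hp
    · rw [ValuationSubring.mem_comap]
      show W (xE E M q) ∈ V
      rw [hWx]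
      exact V.mul_mem _ _ hjNV.1 hjMV.1
    · rw [inW_comap_iff, map_sub, hWx, map_pow, map_pow, hWβj]
      have : jN * jM - jM ^ (q + 1) = (jN - jM ^ q) * jM := by ring
      rw [this]
      exact inW_mul_right hfrob hjMV.1
    · rw [hβj, hjq]
      exact (mem_chart_iff P E (M * q) _ _).1 hL13.2.1
  · -- chart at infinity
    refine normal_side P E M q w hS VM hVM _ hU0 hRV0 (βE E M q) hβV hres _ _
      (hL2M.2.2 1 (one_dvd M)).2 ?_ ?_ ?_ hgood p hp
    · rw [ValuationSubring.mem_comap]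
      show W (xE E M q)⁻¹ ∈ V
      rw [map_inv₀, hWx, mul_inv]
      exact V.mul_mem _ _ hjNV.2 hjMV.2
    · rw [inW_comap_iff, map_sub, map_inv₀, hWx, map_pow, map_pow, map_inv₀, map_inv₀, hWβj, hcinv]
      exact inW_mul_right (inW_neg hfrob)
        (V.mul_mem _ _ (V.mul_mem _ _ hjMV.2 hjNV.2) (pow_mem hjMV.2 q))
    · rw [map_inv₀, hβj, hjq]
      exact (mem_chart_iff P E (M * q) _ _).1 hL13.2.2.2

/-- **MODASM sub-assembly S2** from the leaves L7 (`FrickeStable`) and L11 (`ResInf`);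
the leaves L2, L4, L5, L13 are taken from main (H553, H751, H873). -/
theorem s2_of_leaves (hL7 : FrickeStableStatement P E M q w)
    (hL11 : ResInfStatement P E M q w) : S2Statement P E M q w := by
  intro hS VM V W hVM hV hW yM y hy hgood p₁ p₂ hc₁ hc₂
  exact ⟨normal_inf P E M q w hL11 hS VM V hVM hV yM y hy hgood p₁ hc₁,
    normal_zero P E M q w hL7 hL11 hS VM V W hVM hV hW yM y hy hgood p₂ hc₂⟩

end Fermat.Agent.A2.Mod.H142

end
end
-- ===== PACK-END A2/Mod/H142/S2.lean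

-- ===== PACK-BEGIN A2/Mod/H142/S2Final.lean
section




/-!
# A2 / MODASM sub-assembly S2 (components normal), unconditional (helper142)

`s2 : S2Statement P E M q w` (VERBATIM `A2/Mod/Asm.lean`), from `s2_of_leaves` with the leaves
L7 (`H900.frickeStable`) and L11 (`H378.resInf`) taken from main.
-/

set_option autoImplicit false
set_option synthInstance.maxHeartbeats 400000
set_option maxHeartbeats 1600000

namespace Fermat.Agent.A2.Mod.H142

/-- **MODASM sub-assembly S2** (components of the special fibre are normal). -/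
theorem s2 (P : ValuationSubring _root_.Fermat.Agent.A2.Mod.Qb) (E : IntermediateField ℚ _root_.Fermat.Agent.A2.Mod.Qb) (M q : ℕ) [NeZero M]
    [NeZero q] (w : _root_.Fermat.Agent.A2.Mod.RE P E) : S2Statement P E M q w :=
  s2_of_leaves P E M q w (H900.frickeStable P E M q w) (H378.resInf P E M q w)

end Fermat.Agent.A2.Mod.H142

end
-- ===== PACK-END A2/Mod/H142/S2Final.lean

-- ===== PACK-BEGIN A2/Mod/H216/NormalChart.lean
section


/-!
# A2 / GOODRED (helper216): normality of the special fibre of a good model, CHART coefficients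

`normalAbs_chart` : for `G : Alg.GoodModel Lc Ec Fc R V w x S`, an element `f ∈ V` which is a
root modulo `w` of a monic polynomial with coefficients in the CHART `B = Alg.chart Fc R x`
(not only in `R[x]`) is congruent modulo `w` to an element of `B`.

Same proof as `S37.Rim.H383.normalAbs` (helper383): `H383.exists_chart_lift` already allows
coefficients in the chart.
-/

set_option autoImplicit false
set_option linter.style.haveILetI false
set_option linter.unusedSectionVars false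

noncomputable section

namespace Fermat.Agent.A2.Mod.H216

open Polynomial Fermat.Agent.S18 Fermat.Agent.S18.Alg Fermat.Agent.S18.H438
open Fermat.Agent.S18.H438.GoodModelFront Fermat.Agent.S37.Rim.H383

variable {Ω : Type*} [Field Ω] {Lc Ec Fc : Subfield Ω} {R V : Subring Ω} {w x : Ω}
  {S : Finset Ω}

/-- A polynomial over `Ω` with coefficients in the chart is the image of a polynomial over `Fc`
with coefficients in the typed chart. -/
theorem exists_poly_Fc_chart (hR : ∀ r ∈ R, r ∈ Fc) (z : Fc) (P : Polynomial Ω)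
    (hP : ∀ i, P.coeff i ∈ _root_.Fermat.Agent.S18.Alg.chart Fc R (z : Ω)) :
    ∃ Q : Polynomial Fc, Q.map Fc.subtype = P ∧
      ∀ i, Q.coeff i ∈ chartB (Rf Fc R) z := by
  have hl : P ∈ Polynomial.lifts Fc.subtype := by
    rw [Polynomial.lifts_iff_coeff_lifts]
    intro i
    exact ⟨⟨P.coeff i, (hP i).1⟩, rfl⟩
  obtain ⟨Q, hQ⟩ := (Polynomial.mem_lifts P).1 hl
  refine ⟨Q, hQ, fun i => ?_⟩
  have h1 : ((Q.coeff i : Fc) : Ω) = P.coeff i := by
    rw [← hQ, coeff_map]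
    rfl
  have h2 : Q.coeff i ∈ chartRing (Rf Fc R) z := by
    rw [mem_chartRing_iff Fc R z hR, h1]
    exact hP i
  exact h2

/-- **Normality of the special fibre of a good model, chart coefficients.** -/
theorem normalAbs_chart (G : GoodModel Lc Ec Fc R V w x S) :
    ∀ f ∈ V, ∀ P : Polynomial Ω, P.Monic → (∀ i, P.coeff i ∈ _root_.Fermat.Agent.S18.Alg.chart Fc R x) →
      P.eval f * w⁻¹ ∈ V → ∃ b ∈ _root_.Fermat.Agent.S18.Alg.chart Fc R x, (f - b) * w⁻¹ ∈ V := by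
  intro f hf P hPm hPc hPv
  haveI := charZero_Fc G
  haveI := isDiscreteValuationRing_Rf G
  haveI := isIntegrallyClosed_chartB G
  haveI := finite_chartB G
  have hR : ∀ r ∈ R, r ∈ Fc := fun r hr => R_le_Fc G hr
  obtain ⟨Q, hQ, hQc⟩ := exists_poly_Fc_chart hR (xf G) P hPc
  have hQm : Q.Monic := by
    rw [← hQ] at hPm
    exact Polynomial.monic_of_injective Fc.subtype_injective hPm
  have hv : (⟨f, G.V_le hf⟩ : Fc) ∈ Vf G := hf
  have hQv : Q.eval (⟨f, G.V_le hf⟩ : Fc) * (wf G)⁻¹ ∈ Vf G := by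
    show ((Q.eval (⟨f, G.V_le hf⟩ : Fc) * (wf G)⁻¹ : Fc) : Ω) ∈ V
    rw [Subfield.coe_mul, Subfield.coe_inv, _root_.Fermat.Agent.S37.Rim.H383.coe_eval_Fc, hQ]
    exact hPv
  obtain ⟨b, hb, hbv⟩ := exists_chart_lift (transcendental_xf G)
    (isAlgebraic_adjoin_of_goodModel G) (Vf G) (wf_mem_Rf G) (irreducible_wf G) (Rf_le_Vf G)
    (xf_mem_Vf G) (wf_inv_not_mem_Vf G) (Vf_gen G) (qep_fin' G) (sepB_of_goodModel G) (Sf G)
    (isUnit_sub_Sf G) (hNC_of_goodModel G) hv Q hQm hQc hQv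
  exact ⟨(b : Ω), (mem_chartRing_iff Fc R (xf G) hR).1 hb, hbv⟩

/-- The same on the chart at infinity. -/
theorem normalAbs_chart_inv (G : GoodModel Lc Ec Fc R V w x S) :
    ∀ f ∈ V, ∀ P : Polynomial Ω, P.Monic → (∀ i, P.coeff i ∈ _root_.Fermat.Agent.S18.Alg.chart Fc R x⁻¹) →
      P.eval f * w⁻¹ ∈ V → ∃ b ∈ _root_.Fermat.Agent.S18.Alg.chart Fc R x⁻¹, (f - b) * w⁻¹ ∈ V := by
  classical
  exact normalAbs_chart (Fermat.Agent.S18.H425.goodModel_inv G)

end Fermat.Agent.A2.Mod.H216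

end
end
-- ===== PACK-END A2/Mod/H216/NormalChart.lean

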