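import Fermat.Prelude.Thm_ModularCurve_coeff_jqModC_pow_self
import Fermat.Prelude.Thm_ModularCurve_coeff_jqModC_pow_of_lt
import Fermat.Agent.Pack.S34.G0E3L3
import Fermat.Agent.Pack.S34.G0E11L0
import Fermat.Agent.Pack.S34.G0E6L3
import Fermat.Agent.Pack.S34.G0E10L3
import Fermat.Agent.Pack.S34.G0E11L1
import Fermat.Agent.Pack.S34.G0E10L0
import Fermat.Agent.Pack.S34.G0E11L3
import Fermat.Agent.Pack.S34.G0E9L0
import Fermat.Agent.Pack.S34.G0E2L0
import Fermat.Agent.Pack.S34.G0E8L3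
import Fermat.Agent.Pack.S34.G0E11L2
import Fermat.Agent.Pack.S34.G0E8L1

-- ===== PACK-BEGIN S29/M3.lean
section
/-
S29 row, PIECE `M3` (helper126): the Galois action on `J₀(N)(ℚ̄)` is smooth.
Statement exactly as in `SkeletonM.lean`; proof in `Fermat/Agent/S29/H126/M3.lean`.
-/



set_option autoImplicit false

noncomputable section

namespace Fermat.Agent.S29

open ModularCurve AlgebraicCurve

variable (N : ℕ) [NeZero N]

/-- PIECE `M3`: the Galois action on `J₀(N)(ℚ̄)` is smooth. -/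
theorem jZero_smooth (x : JZero N) :
    ∃ L : IntermediateField ℚ (AlgebraicClosure ℚ), FiniteDimensional ℚ L ∧
      ∀ σ : GQ, (∀ y ∈ L, σ y = y) → σ • x = x :=
  H126.M3_jZero_smooth N x

end Fermat.Agent.S29

end
end
-- ===== PACK-END S29/M3.lean

-- ===== PACK-BEGIN S30/H990/FromInputs.lean
section
/-
S30 top glue (helper990): the frozen statement S30 from the three open inputs of the adic module
layer of helper330: (K) Kummer map onto torsion, (P) eigen parabolic character, (T) torsion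
relations.  The inputs (Sm) and (GH) are discharged from main (S29 pieces M3 and M2).
-/





set_option autoImplicit false

namespace Fermat.Agent.S30.H990

open Polynomial

/-- Input (Sm) of the adic module layer holds (S29 piece M3, helper126). -/
theorem smoothStatement (N : ℕ) [NeZero N] : Fermat.Agent.S30.H330.SmoothStatement N :=
  fun x => Fermat.Agent.S29.jZero_smooth N x

/-- Input (GH) of the adic module layer holds (S29 piece M2, helper571). -/
theorem galoisHeckeStatement (N : ℕ) [NeZero N] :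
    Fermat.Agent.S30.H330.GaloisHeckeStatement N :=
  fun σ ℓ x => (Fermat.Agent.S29.H571.heckeOperatorBar_smul N ℓ σ x).symm

/-- **S30 from the inputs (K), (P), (T).** -/
theorem result_of_inputs
    (hK : ∀ (N : ℕ) [NeZero N] (p : ℕ) [Fact p.Prime],
      Fermat.Agent.S30.H330.KummerStatement N p)
    (hT : ∀ (N : ℕ) [NeZero N] (p : ℕ) [Fact p.Prime],
      Fermat.Agent.S30.H330.TorsionRelations N p)
    (hP : ∀ (p : ℕ) [Fact p.Prime] (N : ℕ) [NeZero N] (S : Finset ℕ)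
      (_hpS : p ∈ S) (_hNS : ∀ q : ℕ, q.Prime → q ∣ N → q ∈ S)
      (𝒪' : Type) [CommRing 𝒪'] [IsDomain 𝒪'] [IsDiscreteValuationRing 𝒪']
      [IsAdicComplete (IsLocalRing.maximalIdeal 𝒪') 𝒪'] [Finite (IsLocalRing.ResidueField 𝒪')]
      [CharZero 𝒪'] (_hp𝒪' : (p : 𝒪') ∈ IsLocalRing.maximalIdeal 𝒪')
      (χ : CuspForm.heckeAlgebra N 2 (↑S : Set ℕ) →+* 𝒪'),
      Fermat.Agent.S30.H330.ParEigenStatement N S 𝒪' χ) :
    ∀ (p : ℕ) [Fact p.Prime] (N : ℕ) [NeZero N] (S : Finset ℕ)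
      (_hpS : p ∈ S) (_hNS : ∀ q : ℕ, q.Prime → q ∣ N → q ∈ S)
      (𝒪' : Type) [CommRing 𝒪'] [IsDomain 𝒪'] [IsDiscreteValuationRing 𝒪']
      [IsAdicComplete (IsLocalRing.maximalIdeal 𝒪') 𝒪'] [Finite (IsLocalRing.ResidueField 𝒪')]
      [CharZero 𝒪'] (_hp𝒪' : (p : 𝒪') ∈ IsLocalRing.maximalIdeal 𝒪')
      (χ : CuspForm.heckeAlgebra N 2 (↑S : Set ℕ) →+* 𝒪'),
      ∃ (𝒪'' : Type) (_ : CommRing 𝒪'') (_ : IsDomain 𝒪'') (_ : IsDiscreteValuationRing 𝒪'')
        (_ : IsAdicComplete (IsLocalRing.maximalIdeal 𝒪'') 𝒪'')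
        (_ : Finite (IsLocalRing.ResidueField 𝒪'')) (_ : CharZero 𝒪'')
        (_ : Algebra 𝒪' 𝒪'') (_ : Module.Finite 𝒪' 𝒪'') (_ : IsLocalHom (algebraMap 𝒪' 𝒪'')),
      Function.Injective (algebraMap 𝒪' 𝒪'') ∧
      ∃ ρ : GaloisRepAdic 𝒪'',
        (∀ (ℓ : ℕ) (hℓ : ℓ.Prime) (hℓN : ¬ ℓ ∣ N) (hℓS : ℓ ∉ (↑S : Set ℕ)),
          ∀ A : ValuationSubring (AlgebraicClosure ℚ), A.LiesOverPrime ℓ →
            ∀ σ : AlgebraicClosure ℚ ≃ₐ[ℚ] AlgebraicClosure ℚ, A.IsFrobeniusAt σ ℓ →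
              LinearMap.charpoly (ρ.ρ σ) =
                X ^ 2 - C (algebraMap 𝒪' 𝒪'' (χ (CuspForm.heckeAlgebra.T hℓ hℓN hℓS))) * X
                  + C ((ℓ : 𝒪''))) ∧
        (∀ q : ℕ, q.Prime → ¬ q ∣ N → q ≠ p → ρ.IsUnramifiedAt q) :=
  result_of_hasAdicEigenModules (hasAdicEigenModules_of_H330
    (fun p _ N _ S hpS hNS 𝒪' _ _ _ _ _ _ hp𝒪' χ =>
      Fermat.Agent.S30.H330.hasAdicFrobModule_of_inputs hpS hNS hp𝒪' χ (hK N p)
        (hP p N S hpS hNS 𝒪' hp𝒪' χ) (hT N p) (smoothStatement N) (galoisHeckeStatement N)))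

end Fermat.Agent.S30.H990

end
-- ===== PACK-END S30/H990/FromInputs.lean

-- ===== PACK-BEGIN S18/H965/Glue.lean
section


/-!
# S18 / NODE GLUE (helper965)

`node_glue : Mod.GlueStatement M ℓ A m` (for PRIME `m`) — exactly the type of `node_glue` in
`Fermat/Agent/S18/Integ/Skeleton.lean` (interfaces v4 = FINAL, on main b6b9cd58):

    CoordinateStatement M ℓ → GoodModelStatement M ℓ A → AlgStatement M → CoreStatement M A m.

Proof: given integral `U₁, U₂` with the same reduction, put `u = U₁/U₂ ∈ Ω`.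
* descent: `U₁, U₂ ∈ Fc M E` as soon as `E ⊇ T` (`exists_finset_mem_Fc`); MOD supplies a member
  `p = (Ec M E, Fc M E, Rc M A E, V, w)` of the good family with `E ⊇ T`;
* `m⁻¹ ∈ Rc M A E` since `ℓ ∤ m` (`natCast_inv_mem_Rc`);
* `(u - 1)/w ∈ V = VcSet M A E` (`sub_one_mul_inv_mem_VcSet`, uses only `w_mem`, `w_gen`);
* every valuation subring `O ⊇ Q̄` of `Ω` is `⊤` or a place (`H443.exists_place_eq`), whence the
  divisor hypothesis in the form required by ALG (`exists_unit_twist`);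
* ALG gives `u = c y^m`.
-/

set_option autoImplicit false

noncomputable section

namespace Fermat.Agent.S18.H965

open ModularCurve AlgebraicCurve HahnSeries Fermat.Agent.S18 Fermat.Agent.S18.Mod

/-- **NODE GLUE (d1).** -/
theorem node_glue (M : ℕ) [NeZero M] {ℓ : ℕ} [Fact ℓ.Prime] (_hℓM : ¬ ℓ ∣ M)
    (A : ValuationSubring Qb) (hA : A.LiesOverPrime ℓ) (m : ℕ) (hmp : m.Prime) (hm : ¬ ℓ ∣ m) :
    Mod.GlueStatement M ℓ A m := by
  classical
  intro hcoord hmod halg U₁ U₂ h₁ h₂ hred hdiv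
  obtain ⟨x, S, hxS⟩ := hcoord
  obtain ⟨𝓕, -, hfam, hT⟩ := hmod x S hxS
  obtain ⟨T₁, hT₁⟩ := exists_finset_mem_Fc M (toF h₁)
  obtain ⟨T₂, hT₂⟩ := exists_finset_mem_Fc M (toF h₂)
  obtain ⟨E, V, w, -, hTE, hV, hp⟩ := hT (T₁ ∪ T₂)
  have hf₁ : toF h₁ ∈ Fc M E := hT₁ E (fun a ha => hTE a (Finset.mem_union_left _ ha))
  have hf₂ : toF h₂ ∈ Fc M E := hT₂ E (fun a ha => hTE a (Finset.mem_union_right _ ha))
  have hgood : Alg.GoodModel (Lc M) (Ec M E) (Fc M E) (Rc M A E) V w x S := hfam.good _ hp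
  have hm0 : m ≠ 0 := hmp.ne_zero
  have hu0 : toF h₁ / toF h₂ ≠ 0 := div_ne_zero (toF_ne_zero h₁) (toF_ne_zero h₂)
  have huV : (toF h₁ / toF h₂ - 1) * w⁻¹ ∈ V := by
    have h := sub_one_mul_inv_mem_VcSet A h₁ h₂ hred hf₁ hf₂ hgood.w_mem hgood.w_gen
    rw [← hV] at h
    exact h
  obtain ⟨y, c, hcL, hc0, huy⟩ := halg (Lc M) x S 𝓕 hfam _ hp m
    hmp (natCast_inv_mem_Rc Fact.out A hA hm) (toF h₁ / toF h₂) (div_mem hf₁ hf₂) hu0 huV
    (exists_unit_twist (toF_ne_zero h₁) (toF_ne_zero h₂) hdiv)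
  obtain ⟨c', rfl⟩ := hcL
  refine ⟨c', y, ?_, ?_, ?_⟩
  · rintro rfl
    exact hc0 (map_zero _)
  · rintro rfl
    rw [zero_pow hm0, mul_zero] at huy
    exact hu0 huy
  · rw [← huy, div_mul_cancel₀ _ (toF_ne_zero h₂)]

end Fermat.Agent.S18.H965

end
end
-- ===== PACK-END S18/H965/Glue.lean

-- ===== PACK-BEGIN S18/H694/CoreFamilyOfNodes.lean
section





/-!
# S18 / helper694 — the hub for ALL `m` from the two open nodes (`node_mod`, `node_alg`)

The S18 skeleton (interfaces v4) produces the hub `CoreStatement N A p` only for PRIME `p ≠ ℓ`.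
Row S29 (`S29/H222/ESKFamily.lean`, `CoreFamily`; `esStatement_of_core`) needs it for all `m`
prime to `ℓ`.  This file wires the closed nodes on main (`H333.node_coord`, `H965.node_glue`,
`H568.node_d2`) with `H694.coreStatement_of_prime`:

* `coreStatement_of_nodes` : `CoreStatement N A m` for all `m` with `ℓ ∤ m`, from `node_mod` at the
  level `M = levelM N ℓ` and `node_alg`;
* `coreFamily_of_nodes` : the exact body of `S29.H222.CoreFamily` from the two node statements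
  (in the exact shapes of `Integ/Skeleton.lean`).

When `node_mod` and `node_alg` are on main, `CoreFamily` is `coreFamily_of_nodes node_mod node_alg`.
-/

set_option autoImplicit false

noncomputable section

namespace Fermat.Agent.S18.H694

open ModularCurve AlgebraicCurve

/-- The level at which good reduction is proved (same as `Integ.levelM` of the skeleton). -/
def levelAux (N ℓ : ℕ) : ℕ := if ℓ = 3 then Nat.lcm N 2 else if ℓ = 2 then Nat.lcm N 3 else N

theorem levelAux_ne_zero (N ℓ : ℕ) [NeZero N] : levelAux N ℓ ≠ 0 := by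
  unfold levelAux
  split_ifs <;> simp [NeZero.ne N]

theorem not_dvd_levelAux (N : ℕ) {ℓ : ℕ} [Fact ℓ.Prime] (hℓN : ¬ ℓ ∣ N) :
    ¬ ℓ ∣ levelAux N ℓ := by
  unfold levelAux
  split_ifs with h3 h2
  · subst h3
    intro h
    have := (Nat.Prime.dvd_mul (by norm_num : Nat.Prime 3)).mp (h.trans (Nat.lcm_dvd_mul N 2))
    rcases this with h | h
    · exact hℓN h
    · omega
  · subst h2
    intro h
    have := (Nat.Prime.dvd_mul (by norm_num : Nat.Prime 2)).mp (h.trans (Nat.lcm_dvd_mul N 3))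
    rcases this with h | h
    · exact hℓN h
    · omega
  · exact hℓN

/-- The hub at level `N` for all `m` prime to `ℓ`, from `node_mod` at level `levelAux N ℓ` and
`node_alg`. -/
theorem coreStatement_of_nodes (N : ℕ) [NeZero N] {ℓ : ℕ} [Fact ℓ.Prime] (hℓN : ¬ ℓ ∣ N)
    (A : ValuationSubring Qb) (hA : A.LiesOverPrime ℓ)
    (hmod : Mod.GoodModelStatement (levelAux N ℓ) ℓ A)
    (halg : Mod.AlgStatement (levelAux N ℓ)) :
    ∀ m : ℕ, ¬ ℓ ∣ m → CoreStatement N A m := by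
  have : NeZero (levelAux N ℓ) := ⟨levelAux_ne_zero N ℓ⟩
  have hℓM := not_dvd_levelAux N hℓN
  have h3 : ℓ = 3 → 2 ∣ levelAux N ℓ := fun h => by
    unfold levelAux; rw [if_pos h]; exact Nat.dvd_lcm_right N 2
  have h2 : ℓ = 2 → 3 ∣ levelAux N ℓ := fun h => by
    unfold levelAux
    rw [if_neg (by omega), if_pos h]; exact Nat.dvd_lcm_right N 3
  refine coreStatement_of_prime hℓN hA (fun p hp hℓp => ?_)
  have hcoreM : CoreStatement (levelAux N ℓ) A p :=
    H965.node_glue (levelAux N ℓ) hℓM A hA p hp hℓp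
      (H333.node_coord (levelAux N ℓ) hℓM h3 h2) hmod halg
  exact H568.node_d2 N hℓN A hA p hℓp hcoreM

/-- **The S18 hub family needed by row S29** (exact body of `Fermat.Agent.S29.H222.CoreFamily`),
from the two open nodes of the S18 skeleton in their exact shapes. -/
theorem coreFamily_of_nodes
    (node_mod : ∀ (M : ℕ) [NeZero M] {ℓ : ℕ} [Fact ℓ.Prime], ¬ ℓ ∣ M →
      ∀ A : ValuationSubring Qb, A.LiesOverPrime ℓ → Mod.GoodModelStatement M ℓ A)
    (node_alg : ∀ M : ℕ, Mod.AlgStatement M) :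
    ∀ (N : ℕ) [NeZero N] (ℓ : ℕ), ℓ.Prime → ¬ ℓ ∣ N → ∀ m : ℕ, ¬ ℓ ∣ m →
      ∀ A : ValuationSubring Qb, A.LiesOverPrime ℓ → CoreStatement N A m := by
  intro N _ ℓ hℓ hℓN m hm A hA
  have : Fact ℓ.Prime := ⟨hℓ⟩
  have : NeZero (levelAux N ℓ) := ⟨levelAux_ne_zero N ℓ⟩
  exact coreStatement_of_nodes N hℓN A hA
    (node_mod (levelAux N ℓ) (not_dvd_levelAux N hℓN) A hA) (node_alg (levelAux N ℓ)) m hm

end Fermat.Agent.S18.H694

end
end
-- ===== PACK-END S18/H694/CoreFamilyOfNodes.lean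

-- ===== PACK-BEGIN A2/Alg/H348/GlueLeaf.lean
section



/-!
# WALL A2 / ALG — leaf GLUE (`glue` of `Alg/Skel.lean`, architect helper34), VERBATIM

`glue` = `Alg.H729.glue_of_hconst` (helper729: Gauss ring, bridge `SSChart` ↔ Gauss ring, local
factorisations, `H348.exists_pow_eq_of_local_factorisation`) + `hconst_of_locallyFactored`
(helper348: `B_{p₁}` is a discrete valuation ring with uniformiser `w`, unramified in the Kummer
cover, hence the constants do not grow: Chevalley + `H93.CoverSplit` + `H313.hens_integral`).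
-/

set_option autoImplicit false

namespace Fermat.Agent.A2.Alg.H348

open Fermat.Agent.A2 Fermat.Agent.A2.Alg

variable {R E F : Type*} [CommRing R] [IsDomain R] [IsDiscreteValuationRing R]
  [HenselianLocalRing R] [IsAlgClosed (IsLocalRing.ResidueField R)]
  [Field E] [CharZero E] [Algebra R E] [IsFractionRing R E]
  [Field F] [Algebra E F] [Algebra R F] [IsScalarTower R E F]

/-- **GLUE.**  A Kummer class which is locally factored at every closed point of the special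
fibre of both charts is trivial. -/
theorem glue (q m : ℕ) (hq : q.Prime) (hqR : (q : R) ∈ IsLocalRing.maximalIdeal R)
    (hm : 0 < m) (hqm : ¬ q ∣ m)
    (w : R) (x : F) (Bf Bi : Subalgebra R F)
    (hBf : ChartCtx E w x Bf) (hBi : ChartCtx E w x⁻¹ Bi)
    (cf : SSChart w Bf) (ci : SSChart w Bi) (hcf : Incomparable cf) (hci : Incomparable ci)
    (u : F) (hu : u ≠ 0) (hdiv : DivisibleDiv E m u)
    (hf : LocallyFactored Bf cf m u) (hi : LocallyFactored Bi ci m u) :
    ∃ y : F, y ≠ 0 ∧ u = y ^ m :=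
  Fermat.Agent.A2.Alg.H729.glue_of_hconst q m hq hqR hm hqm w x Bf Bi hBf hBi cf ci hcf hci u hu
    hdiv hf hi (hconst_of_locallyFactored q m hq hqR hm hqm w x Bf hBf cf u hf)

end Fermat.Agent.A2.Alg.H348

end
-- ===== PACK-END A2/Alg/H348/GlueLeaf.lean

-- ===== PACK-BEGIN A2/Top/H96/AlgNoSep.lean
section





/-!
# WALL A2 / ALG without `SepCoord` (helper96; insurance against MODASM S4)

The frozen interface `AlgSSStatement` (`A2/Spec.lean`) carries the two hypotheses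
`SepCoord R E x Bf`, `SepCoord R E x⁻¹ Bi`.  Route S of ALG does not use them:

* leaf P-S : `Alg.H754.puritySmoothLeaf` (no `SepCoord` in the statement),
* leaf P-N : `Alg.H609.purity_node` (universe polymorphic, no `SepCoord`),
* leaf GLUE: `Alg.H348.glue` (no `SepCoord`).

`algSS_noSep` is `AlgSSStatement` with the two `SepCoord` hypotheses (and the unused `τ x = x`,
finite order of `τ`) removed; it is UNCONDITIONAL.  Same proof as `Alg.H34.algSS_of_leaves`.
-/

set_option autoImplicit false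

namespace Fermat.Agent.A2.Top.H96

open Fermat.Agent.A2 Fermat.Agent.A2.Alg

section Asm

variable {R E F : Type} [CommRing R] [IsDomain R] [IsDiscreteValuationRing R]
  [HenselianLocalRing R] [IsAlgClosed (IsLocalRing.ResidueField R)]
  [Field E] [CharZero E] [Algebra R E] [IsFractionRing R E]
  [Field F] [Algebra E F] [Algebra R F] [IsScalarTower R E F]

/-- Purity at every closed point of the special fibre (no separating coordinate needed). -/
theorem purity_noSep
    (q m : ℕ) (hq : q.Prime) (hqR : (q : R) ∈ IsLocalRing.maximalIdeal R)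
    (hm : 0 < m) (hqm : ¬ q ∣ m)
    (w : R) (x : F) (B : Subalgebra R F) (hB : ChartCtx E w x B)
    (c : SSChart w B)
    (u : F) (hu : u ≠ 0) (hdiv : DivisibleDiv E m u) (hs : IsSplit B c u)
    (n : Ideal B) (hn : n.IsMaximal) (hwn : algebraMap R B w ∈ n) : PureAt B c m u n := by
  by_cases h1 : c.p₁ ≤ n ∧ c.p₂ ≤ n
  · exact Alg.H609.purity_node m hm w x B hB c u hdiv hs n hn.isPrime h1.1 h1.2
  · exact Alg.H754.puritySmoothLeaf q m hq hqR hm hqm w x B hB c
      (H34.incomparable_of_ssChart c) u hu hdiv hs n hn hwn h1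

/-- **Step II** without `SepCoord`: a split Kummer class is fixed by `τ`. -/
theorem stepII_noSep
    (q m : ℕ) (hq : q.Prime) (hqR : (q : R) ∈ IsLocalRing.maximalIdeal R)
    (hm : 0 < m) (hqm : ¬ q ∣ m)
    (w : R) (x : F) (Bf Bi : Subalgebra R F)
    (hBf : ChartCtx E w x Bf) (hBi : ChartCtx E w x⁻¹ Bi)
    (cf : SSChart w Bf) (ci : SSChart w Bi)
    (τ : F ≃+* F) (τE : E ≃+* E) (τR : R ≃+* R)
    (hτf : TauCtx w Bf τ τE τR) (hτi : TauCtx w Bi τ τE τR)
    (u : F) (hu : u ≠ 0) (hdiv : DivisibleDiv E m u)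
    (hsf : IsSplit Bf cf u) (hsi : IsSplit Bi ci u) :
    ∃ h : F, h ≠ 0 ∧ τ u = h ^ m * u := by
  have hτu : τ u ≠ 0 := (map_ne_zero τ).2 hu
  have hu' : τ u * u⁻¹ ≠ 0 := mul_ne_zero hτu (inv_ne_zero hu)
  have hdiv' : DivisibleDiv E m (τ u * u⁻¹) :=
    H34.divisibleDiv_mul_inv m _ _ (H34.divisibleDiv_tau τ τE hτf.hτE m u hdiv) hdiv
  have hf : LocallyFactored Bf cf m (τ u * u⁻¹) := fun n hn hwn =>
    H34.localFactor_of_pureAt w Bf cf τ τE τR hτf m u hu n hn.isPrime hwn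
      (purity_noSep q m hq hqR hm hqm w x Bf hBf cf u hu hdiv hsf n hn hwn)
  have hi : LocallyFactored Bi ci m (τ u * u⁻¹) := fun n hn hwn =>
    H34.localFactor_of_pureAt w Bi ci τ τE τR hτi m u hu n hn.isPrime hwn
      (purity_noSep q m hq hqR hm hqm w x⁻¹ Bi hBi ci u hu hdiv hsi n hn hwn)
  obtain ⟨y, hy, hyu⟩ := Alg.H348.glue q m hq hqR hm hqm w x Bf Bi hBf hBi cf ci
    (H34.incomparable_of_ssChart cf) (H34.incomparable_of_ssChart ci) _ hu' hdiv' hf hi
  refine ⟨y, hy, ?_⟩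
  rw [← hyu, mul_assoc, inv_mul_cancel₀ hu, mul_one]

/-- **ALG without `SepCoord`** (unconditional): the conclusion of the frozen interface
`AlgSSStatement` from its hypotheses minus `SepCoord` (both charts), `τ x = x` and the finite
order of `τ`. -/
theorem algSS_noSep
    (w : R) (hw : Irreducible w) (q m : ℕ) (hq : q.Prime)
    (hqR : (q : R) ∈ IsLocalRing.maximalIdeal R) (hm : 0 < m) (hqm : ¬ q ∣ m)
    (x : F) (hx : Transcendental E x)
    (hfin : FiniteDimensional (IntermediateField.adjoin E ({x} : Set F)) F)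
    (hconst : ∀ f : F, IsAlgebraic E f → f ∈ (algebraMap E F).range)
    (Bf Bi : Subalgebra R F)
    (hBf : ∀ f : F, f ∈ Bf ↔ IsIntegral (Algebra.adjoin R ({x} : Set F)) f)
    (hBi : ∀ f : F, f ∈ Bi ↔ IsIntegral (Algebra.adjoin R ({x⁻¹} : Set F)) f)
    (cf : SSChart w Bf) (ci : SSChart w Bi)
    (τ : F ≃+* F) (τE : E ≃+* E) (τR : R ≃+* R)
    (hτE : ∀ e : E, τ (algebraMap E F e) = algebraMap E F (τE e))
    (hτR : ∀ r : R, τE (algebraMap R E r) = algebraMap R E (τR r))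
    (hτf : ∀ b ∈ Bf, ∃ c ∈ Bf, τ b - b = algebraMap R F w * c)
    (hτi : ∀ b ∈ Bi, ∃ c ∈ Bi, τ b - b = algebraMap R F w * c) :
    AlgSSConclusion E m τ := by
  have hCf : ChartCtx E w x Bf := ⟨hw, hx, hfin, hconst, hBf⟩
  have hCi : ChartCtx E w x⁻¹ Bi := H34.chartCtx_inv w hw x hx hfin hconst Bi hBi
  have hTf : TauCtx w Bf τ τE τR := ⟨hτE, hτR, hτf⟩
  have hTi : TauCtx w Bi τ τE τR := ⟨hτE, hτR, hτi⟩
  intro f hf hdiv
  have hτf0 : τ f ≠ 0 := (map_ne_zero τ).2 hf
  have hu : τ f * f⁻¹ ≠ 0 := mul_ne_zero hτf0 (inv_ne_zero hf)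
  have hdivu : DivisibleDiv E m (τ f * f⁻¹) :=
    H34.divisibleDiv_mul_inv m _ _ (H34.divisibleDiv_tau τ τE hτE m f hdiv) hdiv
  obtain ⟨h, hh, hh2⟩ := stepII_noSep q m hq hqR hm hqm w x Bf Bi hCf hCi cf ci
    τ τE τR hTf hTi (τ f * f⁻¹) hu hdivu
    (H34.stepI w x Bf hCf cf (H34.incomparable_of_ssChart cf) τ τE τR hTf f hf)
    (H34.stepI w x⁻¹ Bi hCi ci (H34.incomparable_of_ssChart ci) τ τE τR hTi f hf)
  refine ⟨h, hh, ?_⟩
  rw [map_mul, map_inv₀] at hh2
  have h3 : τ (τ f) = h ^ m * (τ f * f⁻¹) * τ f := by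
    rw [← hh2, mul_assoc, inv_mul_cancel₀ hτf0, mul_one]
  rw [h3]
  field_simp

end Asm

end Fermat.Agent.A2.Top.H96

end
-- ===== PACK-END A2/Top/H96/AlgNoSep.lean

-- ===== PACK-BEGIN A2/H876/D2Wall.lean
section



/-!
# A2 / D2 in the exact shape of `Top.H994.Wall` (helper876)

* `d2Statement : Top.H994.D2Statement` (verbatim; discharges the hypothesis `hD2` of
  `Top.H994.kummerTarget_all` and `Top.H994.wall`);
* `kummerTarget_all`, `wall` : the same theorems with `hD2` removed: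
  `AlgSSStatement → IFStatement → ModSSGoodStatement → Target N q m` for all `q ‖ N`, `q ∤ m`.
-/

set_option autoImplicit false
set_option linter.style.haveILetI false

noncomputable section

namespace Fermat.Agent.A2.H876

open Fermat.Agent.A2 Fermat.Agent.A2.Top.H994

/-- **D2**, verbatim statement of `Top.H994.Wall`. -/
theorem d2Statement : D2Statement := by
  intro N q m _hq _hqN _hq2 hN _hm hqm h
  haveI : NeZero N := ⟨hN⟩
  exact kummerTarget_aux N q m hqm h

/-- The Kummer form of the wall for all `q`, from ALG, IF and MOD at the ready levels. -/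
theorem kummerTarget_all (hALG : AlgSSStatement) (hIF : IFStatement)
    (hMOD : ModSSGoodStatement)
    (N q m : ℕ) (hq : q.Prime) (hqN : q ∣ N) (hq2 : ¬ q ^ 2 ∣ N) (hN : N ≠ 0) (hm : 0 < m)
    (hqm : ¬ q ∣ m) : KummerTarget N q m :=
  Top.H994.kummerTarget_all hALG hIF hMOD d2Statement N q m hq hqN hq2 hN hm hqm

/-- **The wall A2 for all `q`**, from ALG, IF and MOD at the ready levels. -/
theorem wall (hALG : AlgSSStatement) (hIF : IFStatement) (hMOD : ModSSGoodStatement)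
    (N q m : ℕ) (hq : q.Prime) (hqN : q ∣ N) (hq2 : ¬ q ^ 2 ∣ N) (hN : N ≠ 0) (hm : 0 < m)
    (hqm : ¬ q ∣ m) : Target N q m :=
  Top.H994.wall hALG hIF hMOD d2Statement N q m hq hqN hq2 hN hm hqm

end Fermat.Agent.A2.H876

end
end
-- ===== PACK-END A2/H876/D2Wall.lean

-- ===== PACK-BEGIN A2/H528/FrickeDistinct.lean
section





/-!
# A2 / W — the element separating the two Gauss valuations `V∞` and `V₀ = V∞ ∘ w_N`

For a prime `ℓ ∣ N` put `u := j(q^ℓ) - j(q)^ℓ ∈ FF N` (`frobElt`).  Then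

* `coe_frobElt`    : `u = ℓ · g` with `g ∈ ℤ((q))`          (so `u` is a non-unit at `V∞`);
* `wF_frobElt`     : `w_N u = j(q^{N/ℓ}) - j(q^N)^ℓ`;
* `coe_wF_frobElt` : `w_N u ∈ ℤ((q))` with coefficient `-1` at `q^{-Nℓ}`
                                                           (so `w_N u` is a unit at `V∞`).
-/

set_option autoImplicit false
set_option synthInstance.maxHeartbeats 400000
set_option maxHeartbeats 1000000

noncomputable section

open ModularCurve HahnSeries AlgebraicCurve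

namespace Fermat.Agent.A2.H528

open Fermat.Agent.S24 Fermat.Agent.S24.H997

/-- integral Laurent series, viewed in `ℚ̄((q))` -/
def intEmb : LaurentSeries ℤ →+* LaurentSeries Kbar := coeffMap (Int.castRingHom Kbar)

@[simp] theorem intEmb_coeff (x : LaurentSeries ℤ) (k : ℤ) :
    (intEmb x).coeff k = ((x.coeff k : ℤ) : Kbar) := rfl

theorem intEmb_injective : Function.Injective intEmb := by
  intro x y h
  ext k
  have h1 := congrArg (fun s => s.coeff k) h
  simpa using h1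

/-- `j(q^d)` over `ℤ` -/
def jZ (d : ℕ) [NeZero d] : LaurentSeries ℤ := qExpand ℤ d (jqModC ℤ)

theorem coeffEmb_jqd (d : ℕ) [NeZero d] :
    coeffEmb Kbar (qExpand ℚ d jq) = intEmb (jZ d) := by
  have h1 : jq = coeffMap (Int.castRingHom ℚ) (jqModC ℤ) := by
    rw [← jqModC_rat]
    exact (map_jqModC (Int.castRingHom ℚ)).symm
  rw [h1, jZ, intEmb, coeffMap_qExpand, coeffEmb, coeffMap_qExpand, coeffMap_coeffMap]
  congr 1

variable (N : ℕ) [NeZero N] (ℓ : ℕ) [hℓ : Fact ℓ.Prime]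

omit [NeZero N] in
theorem coe_jFd_int (d : ℕ) [NeZero d] (hd : d ∣ N) :
    ((jFd N d hd : FF N) : LaurentSeries Kbar) = intEmb (jZ d) := by
  rw [coe_jFd, coeffEmb_jqd]

/-- **The Frobenius element** `u = j(q^ℓ) - j(q)^ℓ` of `FF N`, `ℓ ∣ N`. -/
def frobElt (h : ℓ ∣ N) : FF N := jFd N ℓ h - jFd N 1 (one_dvd N) ^ ℓ

omit [NeZero N] in
theorem coe_frobElt_eq (h : ℓ ∣ N) :
    ((frobElt N ℓ h : FF N) : LaurentSeries Kbar) = intEmb (jZ ℓ - jZ 1 ^ ℓ) := by
  show ((jFd N ℓ h : FF N) : LaurentSeries Kbar)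
    - ((jFd N 1 (one_dvd N) : FF N) : LaurentSeries Kbar) ^ ℓ = _
  rw [coe_jFd_int, coe_jFd_int, map_sub, map_pow]

omit [NeZero N] in
/-- `u = ℓ · g` with `g ∈ ℤ((q))`: the Frobenius element is divisible by `ℓ`. -/
theorem coe_frobElt (h : ℓ ∣ N) :
    ∃ g : LaurentSeries ℤ, ((frobElt N ℓ h : FF N) : LaurentSeries Kbar)
      = HahnSeries.C (ℓ : Kbar) * intEmb g := by
  obtain ⟨g, hg⟩ := exists_frobCong ℓ (jqModC ℤ)
  refine ⟨g, ?_⟩
  rw [coe_frobElt_eq]
  have h1 : jZ 1 = jqModC ℤ := qExpand_one_apply _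
  rw [h1, jZ, hg, map_mul]
  congr 1
  show coeffMap (Int.castRingHom Kbar) (HahnSeries.single 0 (ℓ : ℤ)) = HahnSeries.single 0 (ℓ : Kbar)
  rw [coeffMap_single]
  simp

/-- `u = ℓ · g'` with `g' ∈ FF N` having integral `q`-expansion. -/
theorem exists_frobElt_eq_mul (h : ℓ ∣ N) :
    ∃ (g : LaurentSeries ℤ) (g' : FF N), ((g' : FF N) : LaurentSeries Kbar) = intEmb g ∧
      frobElt N ℓ h = algebraMap Kbar (FF N) (ℓ : Kbar) * g' := by
  obtain ⟨g, hg⟩ := coe_frobElt N ℓ h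
  have hℓ0 : (ℓ : Kbar) ≠ 0 := by exact_mod_cast hℓ.out.ne_zero
  have hc : algebraMap Kbar (FF N) (ℓ : Kbar) ≠ 0 := by
    rw [Ne, map_eq_zero_iff _ (algebraMap Kbar (FF N)).injective]
    exact hℓ0
  refine ⟨g, (algebraMap Kbar (FF N) (ℓ : Kbar))⁻¹ * frobElt N ℓ h, ?_, ?_⟩
  · have hC : ((algebraMap Kbar (FF N) (ℓ : Kbar) : FF N) : LaurentSeries Kbar)
        = HahnSeries.C (ℓ : Kbar) := by
      show algebraMap Kbar (LaurentSeries Kbar) (ℓ : Kbar) = _
      rw [algebraMap_laurentSeries_eq_single]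
      rfl
    have hC0 : (HahnSeries.C (ℓ : Kbar) : LaurentSeries Kbar) ≠ 0 := by
      rw [← hC]
      exact fun h0 => hc (Subtype.ext h0)
    show ((algebraMap Kbar (FF N) (ℓ : Kbar) : FF N) : LaurentSeries Kbar)⁻¹
      * ((frobElt N ℓ h : FF N) : LaurentSeries Kbar) = _
    rw [hC, hg, ← mul_assoc, inv_mul_cancel₀ hC0, one_mul]
  · rw [← mul_assoc, mul_inv_cancel₀ hc, one_mul]

omit [NeZero N] in
theorem jFd_congr {d d' : ℕ} [NeZero d] [NeZero d'] (hd : d ∣ N) (hd' : d' ∣ N) (h : d = d') :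
    jFd N d hd = jFd N d' hd' := by
  subst h
  rfl

/-- `w_N u = j(q^{N/ℓ}) - j(q^N)^ℓ`. -/
theorem wF_frobElt (h : ℓ ∣ N) :
    haveI := neZero_div N h
    wF N (frobElt N ℓ h) = jFd N (N / ℓ) (Nat.div_dvd_of_dvd h) - jFd N N dvd_rfl ^ ℓ := by
  have := neZero_div N h
  have := neZero_div N (one_dvd N)
  rw [frobElt, map_sub, map_pow, wF_jFd, wF_jFd]
  congr 2
  exact jFd_congr N _ _ (Nat.div_one N)

theorem coeff_jZ_pow_top (d n : ℕ) [NeZero d] :
    ((jZ d) ^ n).coeff (-((d * n : ℕ) : ℤ)) = 1 := by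
  rw [jZ, ← map_pow,
    show (-((d * n : ℕ) : ℤ)) = (d : ℤ) * (-(n : ℤ)) by push_cast; ring, qExpand_coeff_mul]
  exact coeff_jqModC_pow_self ℤ n

theorem coeff_jZ_of_lt (d : ℕ) [NeZero d] {k : ℤ} (hk : k < -(d : ℤ)) :
    (jZ d).coeff k = 0 := by
  rw [jZ]
  by_cases hdk : (d : ℤ) ∣ k
  · obtain ⟨m, rfl⟩ := hdk
    rw [qExpand_coeff_mul]
    have hd0 : 0 < (d : ℤ) := by exact_mod_cast Nat.pos_of_ne_zero (NeZero.ne d)
    have hm : m < -((1 : ℕ) : ℤ) := by
      have : (d : ℤ) * m < (d : ℤ) * (-1) := by linarith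
      have := lt_of_mul_lt_mul_left this hd0.le
      simpa using this
    have h1 := coeff_jqModC_pow_of_lt ℤ (b := 1) (m := m) hm
    simpa using h1
  · exact qExpand_coeff_of_not_dvd d _ hdk

/-- `w_N u` has an integral `q`-expansion with coefficient `-1` at `q^{-Nℓ}`. -/
theorem coe_wF_frobElt (h : ℓ ∣ N) :
    ∃ g : LaurentSeries ℤ, ((wF N (frobElt N ℓ h) : FF N) : LaurentSeries Kbar) = intEmb g ∧
      g.coeff (-((N * ℓ : ℕ) : ℤ)) = -1 := by
  have := neZero_div N h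
  have hN : 0 < N := Nat.pos_of_ne_zero (NeZero.ne N)
  have hℓ1 : 1 < ℓ := hℓ.out.one_lt
  refine ⟨jZ (N / ℓ) - jZ N ^ ℓ, ?_, ?_⟩
  · rw [wF_frobElt]
    show ((jFd N (N / ℓ) (Nat.div_dvd_of_dvd h) : FF N) : LaurentSeries Kbar)
      - ((jFd N N dvd_rfl : FF N) : LaurentSeries Kbar) ^ ℓ = _
    rw [coe_jFd_int, coe_jFd_int, map_sub, map_pow]
  · rw [HahnSeries.coeff_sub, coeff_jZ_pow_top, coeff_jZ_of_lt, zero_sub]
    have h1 : N / ℓ ≤ N := Nat.div_le_self N ℓ
    have h2 : N < N * ℓ := by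
      calc N = N * 1 := (mul_one N).symm
        _ < N * ℓ := (Nat.mul_lt_mul_left hN).mpr hℓ1
    have h3 : ((N / ℓ : ℕ) : ℤ) < ((N * ℓ : ℕ) : ℤ) := by exact_mod_cast lt_of_le_of_lt h1 h2
    linarith

/-- **`V∞ ≠ V₀`.**  Let `V` be a valuation subring of `FF N` which contains the functions with
integral `q`-expansion, in which those with a coefficient `±1` are units, and in which the prime
`ℓ ∣ N` is not a unit (e.g. the Gauss valuation ring above `ℓ` of the expansion at `∞`).  Then the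
Frobenius element `u = j(q^ℓ) - j^ℓ` is a non-unit of `V` and a unit of `V ∘ w_N`; in particular
`V ∘ w_N ≠ V`. -/
theorem frobElt_separates (h : ℓ ∣ N) (V : ValuationSubring (FF N))
    (hint : ∀ (f : FF N) (g : LaurentSeries ℤ), ((f : FF N) : LaurentSeries Kbar) = intEmb g → f ∈ V)
    (hunit : ∀ (f : FF N) (g : LaurentSeries ℤ) (k : ℤ),
      ((f : FF N) : LaurentSeries Kbar) = intEmb g → g.coeff k = -1 → f⁻¹ ∈ V)
    (hℓV : (algebraMap Kbar (FF N) (ℓ : Kbar))⁻¹ ∉ V) :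
    (frobElt N ℓ h)⁻¹ ∉ V ∧ (frobElt N ℓ h)⁻¹ ∈ comapW N V := by
  constructor
  · intro hu
    obtain ⟨g, g', hg', hmul⟩ := exists_frobElt_eq_mul N ℓ h
    have hg'V : g' ∈ V := hint g' g hg'
    have hℓ0 : (ℓ : Kbar) ≠ 0 := by exact_mod_cast hℓ.out.ne_zero
    have hc : algebraMap Kbar (FF N) (ℓ : Kbar) ≠ 0 := by
      rw [Ne, map_eq_zero_iff _ (algebraMap Kbar (FF N)).injective]
      exact hℓ0
    have hu0 : frobElt N ℓ h ≠ 0 := by
      intro h0
      obtain ⟨g2, hg2, hcoef⟩ := coe_wF_frobElt N ℓ h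
      rw [h0, map_zero] at hg2
      have : g2 = 0 := intEmb_injective (by rw [← hg2, map_zero]; rfl)
      rw [this] at hcoef
      simp at hcoef
    have hkey : (algebraMap Kbar (FF N) (ℓ : Kbar))⁻¹ = g' * (frobElt N ℓ h)⁻¹ := by
      rw [eq_mul_inv_iff_mul_eq₀ hu0, hmul, ← mul_assoc, inv_mul_cancel₀ hc, one_mul]
    exact hℓV (hkey ▸ V.mul_mem _ _ hg'V hu)
  · rw [mem_comapW, map_inv₀]
    obtain ⟨g2, hg2, hcoef⟩ := coe_wF_frobElt N ℓ h
    exact hunit _ g2 _ hg2 hcoef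

theorem comapW_ne (h : ℓ ∣ N) (V : ValuationSubring (FF N))
    (hint : ∀ (f : FF N) (g : LaurentSeries ℤ), ((f : FF N) : LaurentSeries Kbar) = intEmb g → f ∈ V)
    (hunit : ∀ (f : FF N) (g : LaurentSeries ℤ) (k : ℤ),
      ((f : FF N) : LaurentSeries Kbar) = intEmb g → g.coeff k = -1 → f⁻¹ ∈ V)
    (hℓV : (algebraMap Kbar (FF N) (ℓ : Kbar))⁻¹ ∉ V) :
    comapW N V ≠ V := by
  intro heq
  obtain ⟨h1, h2⟩ := frobElt_separates N ℓ h V hint hunit hℓV
  rw [heq] at h2
  exact h1 h2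

end Fermat.Agent.A2.H528

end
end
-- ===== PACK-END A2/H528/FrickeDistinct.lean

-- ===== PACK-BEGIN A2/Mod/H553/VzeroNe.lean
section



/-!
# A2 / MOD leaf L6 `VzeroNe` (helper553)

`V₀ := V∞ ∘ W ≠ V∞` at level `Mq` over `E`: the Frobenius element `u = j_q - j^q` is a non-unit
of `V∞` (`u = q · g`, `g` integral) while `W u = j_M - j_{Mq}^q` has an integral `t`-expansion
with a coefficient `-1`, hence is a unit of `V∞`.

* `frobE` : the element `u`;
* `inv_frobE_not_mem`, `inv_W_frobE_mem`;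
* `vzeroNe : VzeroNeStatement P E M q w`  (L6).
-/

set_option autoImplicit false
set_option synthInstance.maxHeartbeats 400000
set_option maxHeartbeats 1600000
set_option linter.unusedSectionVars false
set_option linter.style.haveILetI false

noncomputable section

namespace Fermat.Agent.A2.Mod.H553

open ModularCurve HahnSeries Polynomial
open Fermat.Agent.A2 Fermat.Agent.A2.Mod

variable (P : ValuationSubring _root_.Fermat.Agent.A2.Mod.Qb) (E : IntermediateField ℚ _root_.Fermat.Agent.A2.Mod.Qb) (M q : ℕ) [NeZero M] [NeZero q]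

/-- The Frobenius element `u = j_q - j^q` of `F_{Mq,E}`. -/
def frobE : ↥(_root_.Fermat.Agent.A2.Mod.FE E (M * q)) :=
  jE E (M * q) q (dvd_mul_left q M) - jE E (M * q) 1 (one_dvd _) ^ q

/-- its integral `t`-expansion -/
theorem coe_frobE :
    ((frobE E M q : ↥(_root_.Fermat.Agent.A2.Mod.FE E (M * q))) : LaurentSeries ↥E) =
      coeffEmb (↥E) (H708.castQ (H708.jInt q - H708.jInt 1 ^ q)) := by
  rw [map_sub, map_sub, map_pow, map_pow, ← coe_jE (E := E) (M * q) q (dvd_mul_left q M),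
    ← coe_jE (E := E) (M * q) 1 (one_dvd _)]
  rfl

theorem jInt_eq_qExpand (d : ℕ) [NeZero d] : H708.jInt d = qExpand ℤ d (H708.jInt 1) := by
  show qExpand ℤ d (jqModC ℤ) = qExpand ℤ d (qExpand ℤ 1 (jqModC ℤ))
  rw [qExpand_one_apply]

/-- `u = q · g` with `g` integral. -/
theorem exists_frobE_eq [Fact q.Prime] :
    ∃ g : LaurentSeries ℤ,
      ((frobE E M q : ↥(_root_.Fermat.Agent.A2.Mod.FE E (M * q))) : LaurentSeries ↥E) =
        algebraMap (↥E) (LaurentSeries ↥E) (q : ↥E) * coeffEmb (↥E) (H708.castQ g) := by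
  obtain ⟨g, hg⟩ := H528.exists_frobCong q (H708.jInt 1)
  refine ⟨g, ?_⟩
  rw [coe_frobE, jInt_eq_qExpand q, hg, map_mul, map_mul]
  congr 1
  ext n
  simp [coeffEmb, H708.castQ, HahnSeries.coeff_single, algebraMap_laurentSeries_eq_single]

variable {P E M q}

/-- the Frobenius element is not a unit of `V∞` -/
theorem inv_frobE_not_mem [Fact q.Prime] [IsNoetherianRing ↥(_root_.Fermat.Agent.A2.Mod.RE P E)]
    (hP : P.LiesOverPrime q) {V : ValuationSubring ↥(_root_.Fermat.Agent.A2.Mod.FE E (M * q))}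
    (hV : IsVinf P E (M * q) V) (hu0 : frobE E M q ≠ 0) : (frobE E M q)⁻¹ ∉ V := by
  intro hmem
  obtain ⟨g, hg⟩ := exists_frobE_eq E M q
  have hq0 : (q : ↥E) ≠ 0 := by exact_mod_cast NeZero.ne q
  have hqF : algebraMap ↥E ↥(_root_.Fermat.Agent.A2.Mod.FE E (M * q)) (q : ↥E) ≠ 0 :=
    (map_ne_zero_iff _ (algebraMap ↥E ↥(_root_.Fermat.Agent.A2.Mod.FE E (M * q))).injective).mpr hq0
  -- `g' := u / q` has integral expansion `g`
  set g' : ↥(_root_.Fermat.Agent.A2.Mod.FE E (M * q)) := (algebraMap ↥E ↥(_root_.Fermat.Agent.A2.Mod.FE E (M * q)) (q : ↥E))⁻¹ * frobE E M q with hg'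
  have hcoe : ((g' : ↥(_root_.Fermat.Agent.A2.Mod.FE E (M * q))) : LaurentSeries ↥E) = coeffEmb (↥E) (H708.castQ g) := by
    have hqS : algebraMap (↥E) (LaurentSeries ↥E) (q : ↥E) ≠ 0 :=
      (map_ne_zero_iff _ (algebraMap (↥E) (LaurentSeries ↥E)).injective).mpr hq0
    have h1 : ((g' : ↥(_root_.Fermat.Agent.A2.Mod.FE E (M * q))) : LaurentSeries ↥E) =
        (algebraMap (↥E) (LaurentSeries ↥E) (q : ↥E))⁻¹ *
          ((frobE E M q : ↥(_root_.Fermat.Agent.A2.Mod.FE E (M * q))) : LaurentSeries ↥E) := by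
      rw [hg', IntermediateField.coe_mul, IntermediateField.coe_inv]
      rfl
    rw [h1, hg, ← mul_assoc, inv_mul_cancel₀ hqS, one_mul]
  have hg'V : g' ∈ V := mem_of_int hV hcoe
  have hkey : (algebraMap ↥E ↥(_root_.Fermat.Agent.A2.Mod.FE E (M * q)) (q : ↥E))⁻¹ = g' * (frobE E M q)⁻¹ := by
    rw [hg', mul_assoc, mul_inv_cancel₀ hu0, mul_one]
  have h2 : (algebraMap ↥E ↥(_root_.Fermat.Agent.A2.Mod.FE E (M * q)) (q : ↥E))⁻¹ ∈ V := by
    rw [hkey]
    exact V.mul_mem _ _ hg'V hmem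
  have h3 : (algebraMap ↥E ↥(_root_.Fermat.Agent.A2.Mod.FE E (M * q)) (q : ↥E))⁻¹ =
      algebraMap ↥E ↥(_root_.Fermat.Agent.A2.Mod.FE E (M * q)) ((q : ↥E)⁻¹) := (map_inv₀ _ _).symm
  rw [h3] at h2
  have h4 : ((q : ↥E)⁻¹) ∈ _root_.Fermat.Agent.A2.Mod.RE P E := (algebraMap_mem_iff P E hV _).mp h2
  have h5 : ((q : _root_.Fermat.Agent.A2.Mod.Qb)⁻¹) ∈ P := by
    have : (((q : ↥E)⁻¹ : ↥E) : _root_.Fermat.Agent.A2.Mod.Qb) ∈ P := h4
    simpa using this
  have h6 : (q : _root_.Fermat.Agent.A2.Mod.Qb) ∈ P.nonunits := hP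
  rw [ValuationSubring.mem_nonunits_iff] at h6
  have h7 : P.valuation ((q : _root_.Fermat.Agent.A2.Mod.Qb)⁻¹) ≤ 1 := (P.valuation_le_one_iff _).mpr h5
  rw [map_inv₀] at h7
  have hq0' : P.valuation (q : _root_.Fermat.Agent.A2.Mod.Qb) ≠ 0 := by
    rw [Valuation.ne_zero_iff]
    exact_mod_cast NeZero.ne q
  have h8 : 1 ≤ P.valuation (q : _root_.Fermat.Agent.A2.Mod.Qb) := (inv_le_one₀ (zero_lt_iff.mpr hq0')).mp h7
  exact absurd h6 (not_lt.mpr h8)

/-- the expansion of `W u = j_M - j_{Mq}^q` -/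
theorem coe_W_frobE {W : ↥(_root_.Fermat.Agent.A2.Mod.FE E (M * q)) ≃ₐ[↥E] ↥(_root_.Fermat.Agent.A2.Mod.FE E (M * q))}
    (hW : IsFricke E (M * q) W) :
    haveI : NeZero (M * q) := ⟨mul_ne_zero (NeZero.ne M) (NeZero.ne q)⟩
    ((W (frobE E M q) : ↥(_root_.Fermat.Agent.A2.Mod.FE E (M * q))) : LaurentSeries ↥E) =
      coeffEmb (↥E) (H708.castQ (H708.jInt M - H708.jInt (M * q) ^ q)) := by
  haveI : NeZero (M * q) := ⟨mul_ne_zero (NeZero.ne M) (NeZero.ne q)⟩
  have h1 : W (frobE E M q) =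
      jE E (M * q) M (dvd_mul_right M q) - jE E (M * q) (M * q) dvd_rfl ^ q := by
    rw [frobE, map_sub, map_pow,
      hW.1 q M (dvd_mul_left q M) (dvd_mul_right M q) (mul_comm q M),
      hW.1 1 (M * q) (one_dvd _) dvd_rfl (one_mul _)]
  rw [h1, map_sub, map_sub, map_pow, map_pow, ← coe_jE (E := E) (M * q) M (dvd_mul_right M q),
    ← coe_jE (E := E) (M * q) (M * q) dvd_rfl]
  rfl

theorem coeff_W_frob [Fact q.Prime] :
    haveI : NeZero (M * q) := ⟨mul_ne_zero (NeZero.ne M) (NeZero.ne q)⟩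
    (H708.jInt M - H708.jInt (M * q) ^ q).coeff (-((M * q * q : ℕ) : ℤ)) = -1 := by
  haveI : NeZero (M * q) := ⟨mul_ne_zero (NeZero.ne M) (NeZero.ne q)⟩
  have hM : 0 < M := Nat.pos_of_ne_zero (NeZero.ne M)
  have hq1 : 1 < q := (Fact.out : q.Prime).one_lt
  have e1 : H708.jInt M = H528.jZ M := rfl
  have e2 : H708.jInt (M * q) = H528.jZ (M * q) := rfl
  rw [HahnSeries.coeff_sub, e1, e2, H528.coeff_jZ_pow_top, H528.coeff_jZ_of_lt, zero_sub]
  have h2 : M < M * q * q := by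
    calc M = M * 1 * 1 := by ring
      _ < M * q * q := by
        have : 1 * 1 < q * q := Nat.mul_lt_mul'' hq1 hq1
        nlinarith
  have h3 : ((M : ℕ) : ℤ) < ((M * q * q : ℕ) : ℤ) := by exact_mod_cast h2
  linarith

/-- `W u` is a unit of `V∞` -/
theorem inv_W_frobE_mem [Fact q.Prime] {V : ValuationSubring ↥(_root_.Fermat.Agent.A2.Mod.FE E (M * q))}
    (hV : IsVinf P E (M * q) V) {W : ↥(_root_.Fermat.Agent.A2.Mod.FE E (M * q)) ≃ₐ[↥E] ↥(_root_.Fermat.Agent.A2.Mod.FE E (M * q))}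
    (hW : IsFricke E (M * q) W) : (W (frobE E M q))⁻¹ ∈ V :=
  inv_mem_of_int hV (coe_W_frobE hW) (Or.inr coeff_W_frob)

theorem coeff_coeffEmb_castQ (x : LaurentSeries ℤ) (k : ℤ) :
    (coeffEmb (↥E) (H708.castQ x)).coeff k = ((x.coeff k : ℤ) : ↥E) := by
  show algebraMap ℚ (↥E) ((Int.castRingHom ℚ) (x.coeff k)) = _
  simp

theorem W_frobE_ne_zero [Fact q.Prime] {W : ↥(_root_.Fermat.Agent.A2.Mod.FE E (M * q)) ≃ₐ[↥E] ↥(_root_.Fermat.Agent.A2.Mod.FE E (M * q))}
    (hW : IsFricke E (M * q) W) : W (frobE E M q) ≠ 0 := by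
  haveI : NeZero (M * q) := ⟨mul_ne_zero (NeZero.ne M) (NeZero.ne q)⟩
  intro h0
  have h1 := coe_W_frobE (E := E) (M := M) (q := q) hW
  rw [h0] at h1
  have h2 := congrArg (fun s : LaurentSeries ↥E => s.coeff (-((M * q * q : ℕ) : ℤ))) h1
  simp only [ZeroMemClass.coe_zero, HahnSeries.coeff_zero] at h2
  rw [coeff_coeffEmb_castQ, coeff_W_frob] at h2
  have : ((-1 : ℤ) : ↥E) ≠ 0 := by simp
  exact this h2.symm

variable (P E M q)

/-- **L6.** -/
theorem vzeroNe (w : _root_.Fermat.Agent.A2.Mod.RE P E) : VzeroNeStatement P E M q w := by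
  intro hS V W hV hW heq
  haveI : Fact q.Prime := ⟨hS.q_prime⟩
  haveI := hS.dvr
  have hWu0 : W (frobE E M q) ≠ 0 := W_frobE_ne_zero hW
  have hu0 : frobE E M q ≠ 0 := fun h0 => hWu0 (by rw [h0, map_zero])
  have h1 : (frobE E M q)⁻¹ ∈ V.comap (W : ↥(_root_.Fermat.Agent.A2.Mod.FE E (M * q)) →+* ↥(_root_.Fermat.Agent.A2.Mod.FE E (M * q))) := by
    show W ((frobE E M q)⁻¹) ∈ V
    rw [map_inv₀]
    exact inv_W_frobE_mem hV hW
  rw [heq] at h1
  exact inv_frobE_not_mem hS.lies_over hV hu0 h1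

end Fermat.Agent.A2.Mod.H553

end
end
-- ===== PACK-END A2/Mod/H553/VzeroNe.lean

-- ===== PACK-BEGIN A2/Mod/H372/S3Coord.lean
section


/-!
# A2 / MODASM S3, the coordinate facts (helper372)

For the two coordinate pairs `(j, x)` and `(j⁻¹, x⁻¹)`, `x = j · j_q`:
`y = α(y_M) · β(y_M)`, `β y_M ≡ (α y_M)^q mod w V∞`, `α y_M ≡ (β y_M)^q mod w V₀`,
`α y_M, β y_M ∈ chart(y)` (leaf L13).
-/

set_option autoImplicit false
set_option synthInstance.maxHeartbeats 400000
set_option maxHeartbeats 1600000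
set_option linter.unusedSectionVars false
set_option linter.style.haveILetI false

noncomputable section

namespace Fermat.Agent.A2.Mod.H372

open ModularCurve HahnSeries Polynomial

variable {P : ValuationSubring _root_.Fermat.Agent.A2.Mod.Qb} {E : IntermediateField ℚ _root_.Fermat.Agent.A2.Mod.Qb} {M q : ℕ} [NeZero M] [NeZero q]
  (w : _root_.Fermat.Agent.A2.Mod.RE P E)

/-- `f ∈ w V₀ ↔ W f ∈ w V∞`. -/
theorem inW_comap_iff {N : ℕ} (V : ValuationSubring (_root_.Fermat.Agent.A2.Mod.FE E N)) (W : _root_.Fermat.Agent.A2.Mod.FE E N ≃ₐ[E] _root_.Fermat.Agent.A2.Mod.FE E N)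
    (f : _root_.Fermat.Agent.A2.Mod.FE E N) :
    InW P E N (V.comap (W : _root_.Fermat.Agent.A2.Mod.FE E N →+* _root_.Fermat.Agent.A2.Mod.FE E N)) w f ↔ InW P E N V w (W f) := by
  have hWc : W (cE P E N w) = cE P E N w := W.commutes (w : E)
  show W (f * (cE P E N w)⁻¹) ∈ V ↔ W f * (cE P E N w)⁻¹ ∈ V
  rw [map_mul, map_inv₀, hWc]

/-- The facts about a coordinate pair used by S3. -/
structure CoordFacts (VM : ValuationSubring (_root_.Fermat.Agent.A2.Mod.FE E M)) (V : ValuationSubring (_root_.Fermat.Agent.A2.Mod.FE E (M * q)))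
    (W : _root_.Fermat.Agent.A2.Mod.FE E (M * q) ≃ₐ[E] _root_.Fermat.Agent.A2.Mod.FE E (M * q)) (yM : _root_.Fermat.Agent.A2.Mod.FE E M) (y : _root_.Fermat.Agent.A2.Mod.FE E (M * q)) : Prop where
  mem : yM ∈ VM
  eq_mul : y = αE E M q yM * βE E M q yM
  beta_mem : βE E M q yM ∈ V
  alpha_mem₀ : W (αE E M q yM) ∈ V
  beta_mem₀ : W (βE E M q yM) ∈ V
  cong₁ : InW P E (M * q) V w (βE E M q yM - (αE E M q yM) ^ q)
  cong₂ : InW P E (M * q) V w (W (αE E M q yM) - (W (βE E M q yM)) ^ q)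
  alpha_chart : αE E M q yM ∈ chartAlg P E (M * q) y
  beta_chart : βE E M q yM ∈ chartAlg P E (M * q) y

theorem beta_jE_one : βE E M q (jE E M 1 (one_dvd _)) = jE E (M * q) q (dvd_mul_left q M) := by
  rw [beta_jE 1 (one_dvd M)]
  exact jE_congr (one_mul q) _ _

theorem alpha_jE_one : αE E M q (jE E M 1 (one_dvd _)) = jE E (M * q) 1 (one_dvd _) :=
  alpha_jE 1 (one_dvd M)

theorem fricke_jE_one {W : _root_.Fermat.Agent.A2.Mod.FE E (M * q) ≃ₐ[E] _root_.Fermat.Agent.A2.Mod.FE E (M * q)} (hW : IsFricke E (M * q) W) :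
    W (jE E (M * q) 1 (one_dvd _)) = jE E (M * q) (M * q) (dvd_refl _) :=
  hW.1 1 (M * q) (one_dvd _) (dvd_refl _) (one_mul _)

theorem fricke_jE_q {W : _root_.Fermat.Agent.A2.Mod.FE E (M * q) ≃ₐ[E] _root_.Fermat.Agent.A2.Mod.FE E (M * q)} (hW : IsFricke E (M * q) W) :
    W (jE E (M * q) q (dvd_mul_left q M)) = jE E (M * q) M (dvd_mul_right M q) :=
  hW.1 q M (dvd_mul_left q M) (dvd_mul_right M q) (mul_comm q M)

theorem coordFacts_fin (hS : Setting P E M q w) {VM : ValuationSubring (_root_.Fermat.Agent.A2.Mod.FE E M)}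
    {V : ValuationSubring (_root_.Fermat.Agent.A2.Mod.FE E (M * q))} {W : _root_.Fermat.Agent.A2.Mod.FE E (M * q) ≃ₐ[E] _root_.Fermat.Agent.A2.Mod.FE E (M * q)}
    (hVM : IsVinf P E M VM) (hV : IsVinf P E (M * q) V) (hW : IsFricke E (M * q) W) :
    CoordFacts w VM V W (jE E M 1 (one_dvd _)) (xE E M q) := by
  have hN := level_ne_zero w hS
  obtain ⟨h1, h2, -, -⟩ := H873.chartCompat P E M q hS.q_prime
  refine ⟨jE_mem w hS hS.M_ne_zero hVM 1 (one_dvd _), ?_, ?_, ?_, ?_, ?_, ?_, ?_, ?_⟩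
  · rw [alpha_jE_one, beta_jE_one]; rfl
  · rw [beta_jE_one]; exact jE_mem w hS hN hV _ _
  · rw [alpha_jE_one, fricke_jE_one hW]; exact jE_mem w hS hN hV _ _
  · rw [beta_jE_one, fricke_jE_q hW]; exact jE_mem w hS hN hV _ _
  · rw [alpha_jE_one, beta_jE_one]
    have := inW_jE_sub_pow w hS hV 1 (one_dvd M)
    rwa [jE_congr (one_mul q) _ (dvd_mul_left q M)] at this
  · rw [alpha_jE_one, beta_jE_one, fricke_jE_one hW, fricke_jE_q hW]
    exact inW_jE_sub_pow w hS hV M (dvd_refl M)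
  · rw [alpha_jE_one]; exact mem_chart_iff.mp h1
  · rw [beta_jE_one]; exact mem_chart_iff.mp h2

theorem coordFacts_inf (hS : Setting P E M q w) {VM : ValuationSubring (_root_.Fermat.Agent.A2.Mod.FE E M)}
    {V : ValuationSubring (_root_.Fermat.Agent.A2.Mod.FE E (M * q))} {W : _root_.Fermat.Agent.A2.Mod.FE E (M * q) ≃ₐ[E] _root_.Fermat.Agent.A2.Mod.FE E (M * q)}
    (hVM : IsVinf P E M VM) (hV : IsVinf P E (M * q) V) (hW : IsFricke E (M * q) W) :
    CoordFacts w VM V W (jE E M 1 (one_dvd _))⁻¹ (xE E M q)⁻¹ := by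
  have hN := level_ne_zero w hS
  obtain ⟨-, -, h3, h4⟩ := H873.chartCompat P E M q hS.q_prime
  have hu := unifE w hS hN hV
  refine ⟨jE_inv_mem w hS hS.M_ne_zero hVM 1 (one_dvd _), ?_, ?_, ?_, ?_, ?_, ?_, ?_, ?_⟩
  · rw [map_inv₀, map_inv₀, alpha_jE_one, beta_jE_one, ← mul_inv]; rfl
  · rw [map_inv₀, beta_jE_one]; exact jE_inv_mem w hS hN hV _ _
  · rw [map_inv₀, map_inv₀, alpha_jE_one, fricke_jE_one hW]; exact jE_inv_mem w hS hN hV _ _
  · rw [map_inv₀, map_inv₀, beta_jE_one, fricke_jE_q hW]; exact jE_inv_mem w hS hN hV _ _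
  · rw [map_inv₀, map_inv₀, alpha_jE_one, beta_jE_one, inv_pow]
    have := inW_jE_sub_pow w hS hV 1 (one_dvd M)
    rw [jE_congr (one_mul q) _ (dvd_mul_left q M)] at this
    refine inv_sub_inv_mul_mem V (H873.jE_ne_zero _ _ _ _) (pow_ne_zero _ (H873.jE_ne_zero _ _ _ _))
      (jE_inv_mem w hS hN hV _ _) ?_ this
    rw [← inv_pow]
    exact V.pow_mem (jE_inv_mem w hS hN hV _ _) _
  · rw [map_inv₀, map_inv₀, map_inv₀, map_inv₀, alpha_jE_one, beta_jE_one, fricke_jE_one hW,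
      fricke_jE_q hW, inv_pow]
    have := inW_jE_sub_pow w hS hV M (dvd_refl M)
    refine inv_sub_inv_mul_mem V (H873.jE_ne_zero _ _ _ _) (pow_ne_zero _ (H873.jE_ne_zero _ _ _ _))
      (jE_inv_mem w hS hN hV _ _) ?_ this
    rw [← inv_pow]
    exact V.pow_mem (jE_inv_mem w hS hN hV _ _) _
  · rw [map_inv₀, alpha_jE_one]; exact mem_chart_iff.mp h3
  · rw [map_inv₀, beta_jE_one]; exact mem_chart_iff.mp h4

theorem coordFacts_of_isCoordPair (hS : Setting P E M q w) {VM : ValuationSubring (_root_.Fermat.Agent.A2.Mod.FE E M)}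
    {V : ValuationSubring (_root_.Fermat.Agent.A2.Mod.FE E (M * q))} {W : _root_.Fermat.Agent.A2.Mod.FE E (M * q) ≃ₐ[E] _root_.Fermat.Agent.A2.Mod.FE E (M * q)}
    (hVM : IsVinf P E M VM) (hV : IsVinf P E (M * q) V) (hW : IsFricke E (M * q) W)
    {yM : _root_.Fermat.Agent.A2.Mod.FE E M} {y : _root_.Fermat.Agent.A2.Mod.FE E (M * q)} (hy : IsCoordPair E M q yM y) :
    CoordFacts w VM V W yM y := by
  rcases hy with ⟨rfl, rfl⟩ | ⟨rfl, rfl⟩
  · exact coordFacts_fin w hS hVM hV hW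
  · exact coordFacts_inf w hS hVM hV hW

end Fermat.Agent.A2.Mod.H372

end
end
-- ===== PACK-END A2/Mod/H372/S3Coord.lean

-- ===== PACK-BEGIN A2/Mod/H372/S3Sides.lean
section



/-!
# A2 / MODASM sub-assembly S3 (helper372): the two sides on the charts

`s3_of_leaves : (leaves L4, L5, L7, L8, L11, L12 + sub-assembly S2) → S3Statement P E M q w`
(`Fermat/Agent/A2/Mod/Asm.lean`, VERBATIM).  The leaves L2 (`H553.vinfBasic`) and L13
(`H873.chartCompat`) are used directly (on main).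

Proof: `H372.KronCong.sup_isRadical` applied to the restrictions `α, β : B_M → B` of the two
degeneracy maps to the charts (`B_M` = chart of `j^{±1}` at level `M`, `B` = chart of `x^{±1}`
at level `Mq`):

* `KronCong` : L12 gives the Kronecker twist `a'` only in `V∞_M`; `GoodRedAt.normal` brings it
  back into the chart (`SideData.cong`); on `C₀` one transports by the Fricke involutions
  (L4, L5, L7);
* `α` is onto `B ⧸ p∞` : L11 + `GoodRedAt.normal` (`SideData.surj`);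
* the branch `B ⧸ p∞` is a Dedekind domain : S2 (normal), `B` noetherian (L8), dimension one.
-/

set_option autoImplicit false
set_option synthInstance.maxHeartbeats 400000
set_option maxHeartbeats 1600000
set_option linter.unusedSectionVars false
set_option linter.style.haveILetI false

noncomputable section

namespace Fermat.Agent.A2.Mod.H372

open ModularCurve HahnSeries Polynomial

variable {P : ValuationSubring _root_.Fermat.Agent.A2.Mod.Qb} {E : IntermediateField ℚ _root_.Fermat.Agent.A2.Mod.Qb} {M q : ℕ} [NeZero M] [NeZero q]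
  (w : _root_.Fermat.Agent.A2.Mod.RE P E)

section Sides

variable (hS : Setting P E M q w) {VM : ValuationSubring (_root_.Fermat.Agent.A2.Mod.FE E M)}
  {V : ValuationSubring (_root_.Fermat.Agent.A2.Mod.FE E (M * q))} {W : _root_.Fermat.Agent.A2.Mod.FE E (M * q) ≃ₐ[E] _root_.Fermat.Agent.A2.Mod.FE E (M * q)}
  (hVM : IsVinf P E M VM) (hV : IsVinf P E (M * q) V) (hW : IsFricke E (M * q) W)
  {yM : _root_.Fermat.Agent.A2.Mod.FE E M} {y : _root_.Fermat.Agent.A2.Mod.FE E (M * q)}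

include hS hVM in
theorem chartM_le (hyM : yM ∈ VM) {a : _root_.Fermat.Agent.A2.Mod.FE E M} (ha : a ∈ chartAlg P E M yM) : a ∈ VM :=
  mem_of_isIntegralElem VM (algebraMap (_root_.Fermat.Agent.A2.Mod.RE P E) (_root_.Fermat.Agent.A2.Mod.FE E M)) yM (fun r => cE_mem w hS hVM r) hyM
    (mem_chartAlg_iff.mp ha)

theorem self_mem_chartAlg (N : ℕ) (y : _root_.Fermat.Agent.A2.Mod.FE E N) : y ∈ chartAlg P E N y := by
  rw [mem_chartAlg_iff]
  have := (Polynomial.eval₂RingHom (algebraMap (_root_.Fermat.Agent.A2.Mod.RE P E) (_root_.Fermat.Agent.A2.Mod.FE E N)) y).isIntegralElem_map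
    (x := Polynomial.X)
  simpa using this

include hS hVM hV in
/-- `β` maps `V∞_M` into `V∞_{Mq}` (consequence of L12). -/
theorem beta_mem (hL12 : KronStatement P E M q w) {a : _root_.Fermat.Agent.A2.Mod.FE E M} (ha : a ∈ VM) :
    βE E M q a ∈ V := by
  obtain ⟨a', ha', h⟩ := hL12 hS VM V hVM hV a ha
  have h1 := mem_of_mul_inv_mem (unifE w hS (level_ne_zero w hS) hV) h
  have h2 : (αE E M q a') ^ q ∈ V := V.pow_mem (alpha_mem hVM hV ha') q
  have := V.add_mem _ _ h1 h2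
  simpa using this

include hS hVM hV in
/-- The side `C∞`. -/
theorem side₁ (hyM : yM ∈ VM) (hgood : GoodRedAt P E M w VM yM) :
    SideData VM V (cE P E M w) (cE P E (M * q) w) (αE E M q : _root_.Fermat.Agent.A2.Mod.FE E M →+* _root_.Fermat.Agent.A2.Mod.FE E (M * q)) q
      (chartAlg P E M yM).toSubring where
  unif₁ := unifE w hS hS.M_ne_zero hVM
  unif₂ := unifE w hS (level_ne_zero w hS) hV
  map_mem := fun x hx => alpha_mem hVM hV hx
  map_unif := alpha_cE P E M q w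
  refl := fun x hx => mem_of_alpha_mem w hS hVM hV hx
  prime := hS.q_prime
  q_mem := q_mul_inv_mem w hS hV
  le := fun a ha => chartM_le w hS hVM hyM ha
  normal := by
    rintro f hf ⟨n, c, hc, hrel⟩
    obtain ⟨b, hb, hfb⟩ := hgood.normal f hf ⟨n, c, fun i => mem_chart_iff.mpr (hc i), hrel⟩
    exact ⟨b, mem_chart_iff.mp hb, hfb⟩

include hS hVM hV hW in
/-- The side `C₀`. -/
theorem side₂ (hL5 : FrickeCompatStatement E M q) (hL7 : FrickeStableStatement P E M q w)
    {WM : _root_.Fermat.Agent.A2.Mod.FE E M ≃ₐ[E] _root_.Fermat.Agent.A2.Mod.FE E M} (hWM : IsFricke E M WM)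
    (hyM : yM ∈ VM) (hgood : GoodRedAt P E M w VM yM) :
    SideData VM (V.comap (W : _root_.Fermat.Agent.A2.Mod.FE E (M * q) →+* _root_.Fermat.Agent.A2.Mod.FE E (M * q))) (cE P E M w) (cE P E (M * q) w)
      (βE E M q : _root_.Fermat.Agent.A2.Mod.FE E M →+* _root_.Fermat.Agent.A2.Mod.FE E (M * q)) q (chartAlg P E M yM).toSubring where
  unif₁ := unifE w hS hS.M_ne_zero hVM
  unif₂ := isUnif_comap (unifE w hS (level_ne_zero w hS) hV) _ (W.commutes (w : E))
  map_mem := fun x hx => by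
    rw [ValuationSubring.mem_comap]
    show W (βE E M q x) ∈ V
    rw [(hL5 WM W hWM hW x).2]
    exact alpha_mem hVM hV (hL7 hS VM WM hVM hWM x hx)
  map_unif := beta_cE P E M q w
  refl := fun x hx => by
    rw [ValuationSubring.mem_comap] at hx
    have hx' : W (βE E M q x) ∈ V := hx
    rw [(hL5 WM W hWM hW x).2] at hx'
    have h1 := mem_of_alpha_mem w hS hVM hV hx'
    have h2 := hL7 hS VM WM hVM hWM _ h1
    rwa [hWM.2] at h2
  prime := hS.q_prime
  q_mem := by
    rw [ValuationSubring.mem_comap]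
    show W (((q : ℕ) : _root_.Fermat.Agent.A2.Mod.FE E (M * q)) * (cE P E (M * q) w)⁻¹) ∈ V
    have hWc : W (cE P E (M * q) w) = cE P E (M * q) w := W.commutes (w : E)
    rw [map_mul, map_inv₀, map_natCast, hWc]
    exact q_mul_inv_mem w hS hV
  le := fun a ha => chartM_le w hS hVM hyM ha
  normal := by
    rintro f hf ⟨n, c, hc, hrel⟩
    obtain ⟨b, hb, hfb⟩ := hgood.normal f hf ⟨n, c, fun i => mem_chart_iff.mpr (hc i), hrel⟩
    exact ⟨b, mem_chart_iff.mp hb, hfb⟩

end Sides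

section Congruences

variable (hS : Setting P E M q w) {VM : ValuationSubring (_root_.Fermat.Agent.A2.Mod.FE E M)}
  {V : ValuationSubring (_root_.Fermat.Agent.A2.Mod.FE E (M * q))} {W : _root_.Fermat.Agent.A2.Mod.FE E (M * q) ≃ₐ[E] _root_.Fermat.Agent.A2.Mod.FE E (M * q)}
  (hVM : IsVinf P E M VM) (hV : IsVinf P E (M * q) V) (hW : IsFricke E (M * q) W)
  {yM : _root_.Fermat.Agent.A2.Mod.FE E M} {y : _root_.Fermat.Agent.A2.Mod.FE E (M * q)} (hC : CoordFacts w VM V W yM y)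
  (hgood : GoodRedAt P E M w VM yM)

include hS hVM hV hC hgood in
/-- **Kronecker congruence on `C∞` inside the charts.** -/
theorem chart_cong₁ (hL12 : KronStatement P E M q w) :
    ∀ a ∈ chartAlg P E M yM, ∃ a' ∈ chartAlg P E M yM,
      InW P E (M * q) V w (βE E M q a - (αE E M q a') ^ q) :=
  (side₁ w hS hVM hV hC.mem hgood).cong (βE E M q : _root_.Fermat.Agent.A2.Mod.FE E M →+* _root_.Fermat.Agent.A2.Mod.FE E (M * q))
    (fun _ hx => beta_mem w hS hVM hV hL12 hx)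
    (fun a ha => hL12 hS VM V hVM hV a ha)
    (algebraMap (_root_.Fermat.Agent.A2.Mod.RE P E) (_root_.Fermat.Agent.A2.Mod.FE E M)) yM
    (fun _ ha => mem_chartAlg_iff.mp ha)
    (fun r => (chartAlg P E M yM).algebraMap_mem r)
    (self_mem_chartAlg M yM)
    (fun r => by
      show βE E M q (cE P E M r) = αE E M q (cE P E M r)
      rw [beta_cE, alpha_cE])
    hC.cong₁

include hS hVM hV hW hC hgood in
/-- **Kronecker congruence on `C₀` inside the charts.** -/
theorem chart_cong₂ (hL5 : FrickeCompatStatement E M q) (hL7 : FrickeStableStatement P E M q w)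
    (hL12 : KronStatement P E M q w) {WM : _root_.Fermat.Agent.A2.Mod.FE E M ≃ₐ[E] _root_.Fermat.Agent.A2.Mod.FE E M} (hWM : IsFricke E M WM) :
    ∀ a ∈ chartAlg P E M yM, ∃ a' ∈ chartAlg P E M yM,
      InW P E (M * q) (V.comap (W : _root_.Fermat.Agent.A2.Mod.FE E (M * q) →+* _root_.Fermat.Agent.A2.Mod.FE E (M * q))) w
        (αE E M q a - (βE E M q a') ^ q) := by
  refine (side₂ w hS hVM hV hW hL5 hL7 hWM hC.mem hgood).cong
    (αE E M q : _root_.Fermat.Agent.A2.Mod.FE E M →+* _root_.Fermat.Agent.A2.Mod.FE E (M * q)) ?_ ?_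
    (algebraMap (_root_.Fermat.Agent.A2.Mod.RE P E) (_root_.Fermat.Agent.A2.Mod.FE E M)) yM
    (fun _ ha => mem_chartAlg_iff.mp ha)
    (fun r => (chartAlg P E M yM).algebraMap_mem r)
    (self_mem_chartAlg M yM)
    (fun r => by
      show αE E M q (cE P E M r) = βE E M q (cE P E M r)
      rw [beta_cE, alpha_cE]) ?_
  · intro x hx
    rw [ValuationSubring.mem_comap]
    show W (αE E M q x) ∈ V
    rw [(hL5 WM W hWM hW x).1]
    exact beta_mem w hS hVM hV hL12 (hL7 hS VM WM hVM hWM x hx)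
  · intro a ha
    obtain ⟨c, hc, hac⟩ := hL12 hS VM V hVM hV (WM a) (hL7 hS VM WM hVM hWM a ha)
    refine ⟨WM c, hL7 hS VM WM hVM hWM c hc, ?_⟩
    show InW P E (M * q) (V.comap (W : _root_.Fermat.Agent.A2.Mod.FE E (M * q) →+* _root_.Fermat.Agent.A2.Mod.FE E (M * q))) w
      (αE E M q a - (βE E M q (WM c)) ^ q)
    rw [inW_comap_iff, map_sub, map_pow, (hL5 WM W hWM hW a).1, (hL5 WM W hWM hW (WM c)).2,
      hWM.2]
    exact hac
  · show InW P E (M * q) (V.comap (W : _root_.Fermat.Agent.A2.Mod.FE E (M * q) →+* _root_.Fermat.Agent.A2.Mod.FE E (M * q))) w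
      (αE E M q yM - (βE E M q yM) ^ q)
    rw [inW_comap_iff, map_sub, map_pow]
    exact hC.cong₂

include hS hVM hV hC hgood in
/-- **`α` is onto the branch `C∞`.** -/
theorem chart_surj (hL11 : ResInfStatement P E M q w) :
    ∀ b ∈ chartAlg P E (M * q) y, b ∈ V ∧ ∃ a ∈ chartAlg P E M yM,
      InW P E (M * q) V w (b - αE E M q a) := by
  have hyV : y ∈ V := by
    rw [hC.eq_mul]
    exact V.mul_mem _ _ (alpha_mem hVM hV hC.mem) hC.beta_mem
  have h := (side₁ w hS hVM hV hC.mem hgood).surj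
    (fun b hb => hL11 hS VM V hVM hV b hb)
    (algebraMap (_root_.Fermat.Agent.A2.Mod.RE P E) (_root_.Fermat.Agent.A2.Mod.FE E (M * q))) y
    (fun r => cE_mem w hS hV r) hyV
    (fun r => ⟨cE P E M r, (chartAlg P E M yM).algebraMap_mem r, by
      show (cE P E (M * q) r - αE E M q (cE P E M r)) * (cE P E (M * q) w)⁻¹ ∈ V
      rw [alpha_cE, sub_self, zero_mul]
      exact V.zero_mem⟩)
    ⟨yM ^ (q + 1), Subalgebra.pow_mem _ (self_mem_chartAlg M yM) _, by
      have e : y - αE E M q (yM ^ (q + 1)) =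
          αE E M q yM * (βE E M q yM - (αE E M q yM) ^ q) := by
        rw [hC.eq_mul, map_pow]
        ring
      show (y - αE E M q (yM ^ (q + 1))) * (cE P E (M * q) w)⁻¹ ∈ V
      rw [e, mul_assoc]
      exact V.mul_mem _ _ (alpha_mem hVM hV hC.mem) hC.cong₁⟩
  intro b hb
  exact h b (mem_chartAlg_iff.mp hb)

end Congruences

section Charts

variable (hS : Setting P E M q w) {VM : ValuationSubring (_root_.Fermat.Agent.A2.Mod.FE E M)}
  {V : ValuationSubring (_root_.Fermat.Agent.A2.Mod.FE E (M * q))} {W : _root_.Fermat.Agent.A2.Mod.FE E (M * q) ≃ₐ[E] _root_.Fermat.Agent.A2.Mod.FE E (M * q)}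
  {yM : _root_.Fermat.Agent.A2.Mod.FE E M} {y : _root_.Fermat.Agent.A2.Mod.FE E (M * q)} (hC : CoordFacts w VM V W yM y)

include hC in
/-- `α` maps the level-`M` chart into the level-`Mq` chart. -/
theorem alpha_chart_mem {a : _root_.Fermat.Agent.A2.Mod.FE E M} (ha : a ∈ chartAlg P E M yM) :
    αE E M q a ∈ chartAlg P E (M * q) y := by
  rw [mem_chartAlg_iff]
  have h1 := isIntegralElem_map _ (αE E M q : _root_.Fermat.Agent.A2.Mod.FE E M →+* _root_.Fermat.Agent.A2.Mod.FE E (M * q)) (mem_chartAlg_iff.mp ha)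
  have hcomp : (αE E M q : _root_.Fermat.Agent.A2.Mod.FE E M →+* _root_.Fermat.Agent.A2.Mod.FE E (M * q)).comp
      (Polynomial.eval₂RingHom (algebraMap (_root_.Fermat.Agent.A2.Mod.RE P E) (_root_.Fermat.Agent.A2.Mod.FE E M)) yM) =
      Polynomial.eval₂RingHom (algebraMap (_root_.Fermat.Agent.A2.Mod.RE P E) (_root_.Fermat.Agent.A2.Mod.FE E (M * q))) (αE E M q yM) := by
    apply Polynomial.ringHom_ext
    · intro r
      simp only [RingHom.comp_apply, Polynomial.coe_eval₂RingHom, Polynomial.eval₂_C]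
      exact alpha_cE P E M q r
    · simp
  rw [hcomp] at h1
  exact isIntegralElem_trans _ (mem_chartAlg_iff.mp hC.alpha_chart) h1

include hC in
/-- `β` maps the level-`M` chart into the level-`Mq` chart. -/
theorem beta_chart_mem {a : _root_.Fermat.Agent.A2.Mod.FE E M} (ha : a ∈ chartAlg P E M yM) :
    βE E M q a ∈ chartAlg P E (M * q) y := by
  rw [mem_chartAlg_iff]
  have h1 := isIntegralElem_map _ (βE E M q : _root_.Fermat.Agent.A2.Mod.FE E M →+* _root_.Fermat.Agent.A2.Mod.FE E (M * q)) (mem_chartAlg_iff.mp ha)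
  have hcomp : (βE E M q : _root_.Fermat.Agent.A2.Mod.FE E M →+* _root_.Fermat.Agent.A2.Mod.FE E (M * q)).comp
      (Polynomial.eval₂RingHom (algebraMap (_root_.Fermat.Agent.A2.Mod.RE P E) (_root_.Fermat.Agent.A2.Mod.FE E M)) yM) =
      Polynomial.eval₂RingHom (algebraMap (_root_.Fermat.Agent.A2.Mod.RE P E) (_root_.Fermat.Agent.A2.Mod.FE E (M * q))) (βE E M q yM) := by
    apply Polynomial.ringHom_ext
    · intro r
      simp only [RingHom.comp_apply, Polynomial.coe_eval₂RingHom, Polynomial.eval₂_C]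
      exact beta_cE P E M q r
    · simp
  rw [hcomp] at h1
  exact isIntegralElem_trans _ (mem_chartAlg_iff.mp hC.beta_chart) h1

/-- A cut of a chart contained in the valuation ring is a prime ideal. -/
theorem isPrime_of_isCut {N : ℕ} {V : ValuationSubring (_root_.Fermat.Agent.A2.Mod.FE E N)}
    (hu : H48.IsUnif V (cE P E N w)) (B : Subalgebra (_root_.Fermat.Agent.A2.Mod.RE P E) (_root_.Fermat.Agent.A2.Mod.FE E N))
    (hBV : ∀ b ∈ B, b ∈ V) (p : Ideal B) (hp : IsCut P E N w V B p) : p.IsPrime := by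
  let incB : B →+* V := ((B.val : B →ₐ[_root_.Fermat.Agent.A2.Mod.RE P E] _root_.Fermat.Agent.A2.Mod.FE E N) : B →+* _root_.Fermat.Agent.A2.Mod.FE E N).codRestrict V
    (fun b => hBV b b.2)
  let ρ : B →+* IsLocalRing.ResidueField V := (IsLocalRing.residue V).comp incB
  have hker : p = RingHom.ker ρ := by
    ext b
    rw [hp b, RingHom.mem_ker]
    show _ ↔ IsLocalRing.residue V (incB b) = 0
    rw [residue_eq_zero_iff hu]
    rfl
  rw [hker]
  exact RingHom.ker_isPrime ρ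

end Charts

end Fermat.Agent.A2.Mod.H372

end
end
-- ===== PACK-END A2/Mod/H372/S3Sides.lean

-- ===== PACK-BEGIN A2/Mod/H372/S3Noeth.lean
section



/-!
# A2 / MODASM S3 (helper372): the charts of level `Mq` are noetherian

From leaf L8 (`DegStatement`: `x` transcendental over `E`, `[F_{Mq} : E(x)] < ∞`) and
`S18.H394.chart_instances`.
-/

set_option autoImplicit false
set_option synthInstance.maxHeartbeats 400000
set_option maxHeartbeats 1600000
set_option linter.unusedSectionVars false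
set_option linter.style.haveILetI false

noncomputable section

namespace Fermat.Agent.A2.Mod.H372

open ModularCurve HahnSeries Polynomial
open Fermat.Agent.S18

variable {P : ValuationSubring _root_.Fermat.Agent.A2.Mod.Qb} {E : IntermediateField ℚ _root_.Fermat.Agent.A2.Mod.Qb}

/-- `E(x) ⊆ R_E(x)` inside `F`. -/
theorem adjoin_le_baseField {N : ℕ} (x : _root_.Fermat.Agent.A2.Mod.FE E N) {f : _root_.Fermat.Agent.A2.Mod.FE E N}
    (hf : f ∈ IntermediateField.adjoin E ({x} : Set (_root_.Fermat.Agent.A2.Mod.FE E N))) :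
    f ∈ H138.baseField (_root_.Fermat.Agent.A2.Mod.RE P E) x := by
  have hf' : f ∈ Subfield.closure (Set.range (algebraMap E (_root_.Fermat.Agent.A2.Mod.FE E N)) ∪ ({x} : Set (_root_.Fermat.Agent.A2.Mod.FE E N))) := hf
  refine (Subfield.closure_le (t := H138.baseField (_root_.Fermat.Agent.A2.Mod.RE P E) x)).mpr ?_ hf'
  rintro z (⟨e, rfl⟩ | hz)
  · rcases (_root_.Fermat.Agent.A2.Mod.RE P E).mem_or_inv_mem e with he | he
    · exact Subfield.subset_closure (Or.inl ⟨⟨e, he⟩, rfl⟩)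
    · have h1 : algebraMap E (_root_.Fermat.Agent.A2.Mod.FE E N) e⁻¹ ∈ H138.baseField (_root_.Fermat.Agent.A2.Mod.RE P E) x :=
        Subfield.subset_closure (Or.inl ⟨⟨e⁻¹, he⟩, rfl⟩)
      have h2 := (H138.baseField (_root_.Fermat.Agent.A2.Mod.RE P E) x).inv_mem h1
      rwa [map_inv₀, inv_inv] at h2
  · exact Subfield.subset_closure (Or.inr hz)

/-- finiteness over `E(x)` implies finiteness over `R_E(x)`. -/
theorem finiteDimensional_baseField {N : ℕ} (x : _root_.Fermat.Agent.A2.Mod.FE E N)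
    [FiniteDimensional (IntermediateField.adjoin E ({x} : Set (_root_.Fermat.Agent.A2.Mod.FE E N))) (_root_.Fermat.Agent.A2.Mod.FE E N)] :
    FiniteDimensional (H138.baseField (_root_.Fermat.Agent.A2.Mod.RE P E) x) (_root_.Fermat.Agent.A2.Mod.FE E N) := by
  let ι : IntermediateField.adjoin E ({x} : Set (_root_.Fermat.Agent.A2.Mod.FE E N)) →+* H138.baseField (_root_.Fermat.Agent.A2.Mod.RE P E) x :=
    { toFun := fun a => ⟨a, adjoin_le_baseField x a.2⟩
      map_one' := rfl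
      map_mul' := fun _ _ => rfl
      map_zero' := rfl
      map_add' := fun _ _ => rfl }
  letI : Algebra (IntermediateField.adjoin E ({x} : Set (_root_.Fermat.Agent.A2.Mod.FE E N))) (H138.baseField (_root_.Fermat.Agent.A2.Mod.RE P E) x) :=
    ι.toAlgebra
  haveI : IsScalarTower (IntermediateField.adjoin E ({x} : Set (_root_.Fermat.Agent.A2.Mod.FE E N)))
      (H138.baseField (_root_.Fermat.Agent.A2.Mod.RE P E) x) (_root_.Fermat.Agent.A2.Mod.FE E N) := IsScalarTower.of_algebraMap_eq (fun _ => rfl)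
  exact Module.Finite.of_restrictScalars_finite
    (IntermediateField.adjoin E ({x} : Set (_root_.Fermat.Agent.A2.Mod.FE E N))) (H138.baseField (_root_.Fermat.Agent.A2.Mod.RE P E) x) (_root_.Fermat.Agent.A2.Mod.FE E N)

/-- **The charts are noetherian.** -/
theorem isNoetherianRing_chartAlg_of_transcendental {N : ℕ}
    (hdvr : IsDiscreteValuationRing (_root_.Fermat.Agent.A2.Mod.RE P E)) (x : _root_.Fermat.Agent.A2.Mod.FE E N) (hx : Transcendental E x)
    [FiniteDimensional (IntermediateField.adjoin E ({x} : Set (_root_.Fermat.Agent.A2.Mod.FE E N))) (_root_.Fermat.Agent.A2.Mod.FE E N)] :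
    IsNoetherianRing (chartAlg P E N x) ∧ IsNoetherianRing (chartAlg P E N x⁻¹) := by
  haveI := hdvr
  have hinj : Function.Injective (algebraMap (_root_.Fermat.Agent.A2.Mod.RE P E) E) := Subtype.val_injective
  have hxR : Transcendental (_root_.Fermat.Agent.A2.Mod.RE P E) x := hx.restrictScalars hinj
  have hxi : Transcendental E x⁻¹ := fun h => hx (IsAlgebraic.inv_iff.mp h)
  have hxiR : Transcendental (_root_.Fermat.Agent.A2.Mod.RE P E) x⁻¹ := hxi.restrictScalars hinj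
  haveI h1 : FiniteDimensional (H138.baseField (_root_.Fermat.Agent.A2.Mod.RE P E) x) (_root_.Fermat.Agent.A2.Mod.FE E N) :=
    finiteDimensional_baseField x
  haveI h2 : FiniteDimensional (H138.baseField (_root_.Fermat.Agent.A2.Mod.RE P E) x⁻¹) (_root_.Fermat.Agent.A2.Mod.FE E N) := by
    rw [H138.baseField_inv]
    exact h1
  exact ⟨(H394.chart_instances hxR).1, (H394.chart_instances hxiR).1⟩

end Fermat.Agent.A2.Mod.H372

end
end
-- ===== PACK-END A2/Mod/H372/S3Noeth.lean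

-- ===== PACK-BEGIN A2/Mod/H372/S3.lean
section



/-!
# A2 / MODASM sub-assembly S3 (helper372): ordinary double points

`s3_of_leaves : (leaves L4, L5, L7, L8, L11, L12 + sub-assembly S2) → S3Statement P E M q w`
(`Fermat/Agent/A2/Mod/Asm.lean`, VERBATIM).  The leaves L2 (`H553.vinfBasic`) and L13
(`H873.chartCompat`) are used directly (on main).

Proof: `H372.KronCong.sup_isRadical` applied to the restrictions `α, β : B_M → B` of the two
degeneracy maps to the charts (`B_M` = chart of `j^{±1}` at level `M`, `B` = chart of `x^{±1}`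
at level `Mq`):

* `KronCong` : L12 gives the Kronecker twist `a'` only in `V∞_M`; `GoodRedAt.normal` brings it
  back into the chart (`SideData.cong`); on `C₀` one transports by the Fricke involutions
  (L4, L5, L7);
* `α` is onto `B ⧸ p∞` : L11 + `GoodRedAt.normal` (`SideData.surj`);
* the branch `B ⧸ p∞` is a Dedekind domain : S2 (normal), `B` noetherian (L8), dimension one.
-/

set_option autoImplicit false
set_option synthInstance.maxHeartbeats 400000
set_option maxHeartbeats 1600000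
set_option linter.unusedSectionVars false
set_option linter.style.haveILetI false

noncomputable section

namespace Fermat.Agent.A2.Mod.H372

open ModularCurve HahnSeries Polynomial

variable (P : ValuationSubring _root_.Fermat.Agent.A2.Mod.Qb) (E : IntermediateField ℚ _root_.Fermat.Agent.A2.Mod.Qb) (M q : ℕ) [NeZero M] [NeZero q]
  (w : _root_.Fermat.Agent.A2.Mod.RE P E)

/-- **S3 (ordinary double points)** from the leaves and S2. -/
theorem s3_of_leaves (hL4 : FrickeExistsStatement E) (hL5 : FrickeCompatStatement E M q)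
    (hL7 : FrickeStableStatement P E M q w) (hL8 : DegStatement E M q)
    (hL11 : ResInfStatement P E M q w) (hL12 : KronStatement P E M q w)
    (hS2 : S2Statement P E M q w) : S3Statement P E M q w := by
  intro hS VM V W hVM hV hW yM y hy hgood p₁ p₂ hc₁ hc₂
  have hC := coordFacts_of_isCoordPair w hS hVM hV hW hy
  obtain ⟨WM, hWM⟩ := hL4 M hS.M_ne_zero
  have hN := level_ne_zero w hS
  have hu := unifE w hS hN hV
  -- the restrictions of `α`, `β` to the charts
  let α' : chartAlg P E M yM →+* chartAlg P E (M * q) y :=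
    ((αE E M q : _root_.Fermat.Agent.A2.Mod.FE E M →+* _root_.Fermat.Agent.A2.Mod.FE E (M * q)).comp
      ((chartAlg P E M yM).val : chartAlg P E M yM →+* _root_.Fermat.Agent.A2.Mod.FE E M)).codRestrict
      (chartAlg P E (M * q) y) (fun a => alpha_chart_mem w hC a.2)
  let β' : chartAlg P E M yM →+* chartAlg P E (M * q) y :=
    ((βE E M q : _root_.Fermat.Agent.A2.Mod.FE E M →+* _root_.Fermat.Agent.A2.Mod.FE E (M * q)).comp
      ((chartAlg P E M yM).val : chartAlg P E M yM →+* _root_.Fermat.Agent.A2.Mod.FE E M)).codRestrict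
      (chartAlg P E (M * q) y) (fun a => beta_chart_mem w hC a.2)
  have hKC : Fermat.Agent.A2.H372.KronCong q α' β' p₁ p₂ := by
    refine ⟨fun a => ?_, fun a => ?_⟩
    · obtain ⟨a', ha', h⟩ := chart_cong₁ w hS hVM hV hC hgood hL12 a a.2
      exact ⟨⟨a', ha'⟩, (hc₁ _).mpr h⟩
    · obtain ⟨a', ha', h⟩ := chart_cong₂ w hS hVM hV hW hC hgood hL5 hL7 hL12 hWM a a.2
      exact ⟨⟨a', ha'⟩, (hc₂ _).mpr h⟩
  have hsurj := chart_surj w hS hVM hV hC hgood hL11
  have hα : ∀ b : chartAlg P E (M * q) y, ∃ a : chartAlg P E M yM, b - α' a ∈ p₁ := by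
    intro b
    obtain ⟨-, a, ha, h⟩ := hsurj b b.2
    exact ⟨⟨a, ha⟩, (hc₁ _).mpr h⟩
  -- the branch is Dedekind
  haveI hp₁ : p₁.IsPrime :=
    isPrime_of_isCut w hu (chartAlg P E (M * q) y) (fun b hb => (hsurj b hb).1) p₁ hc₁
  obtain ⟨hx, hfr, -⟩ := hL8 hS.q_prime hS.q_not_dvd
  have hpos : 0 < Module.finrank (IntermediateField.adjoin E ({xE E M q} : Set (_root_.Fermat.Agent.A2.Mod.FE E (M * q))))
      (_root_.Fermat.Agent.A2.Mod.FE E (M * q)) := by
    rw [hfr]
    have h1 := dedekindPsi_pos_of_ne_zero M hS.M_ne_zero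
    positivity
  haveI hfin : FiniteDimensional (IntermediateField.adjoin E ({xE E M q} : Set (_root_.Fermat.Agent.A2.Mod.FE E (M * q))))
      (_root_.Fermat.Agent.A2.Mod.FE E (M * q)) := Module.finite_of_finrank_pos hpos
  obtain ⟨hn₁, hn₂⟩ := isNoetherianRing_chartAlg_of_transcendental (P := P) hS.dvr (xE E M q) hx
  haveI hnoeth : IsNoetherianRing (chartAlg P E (M * q) y) := by
    rcases hy with ⟨-, rfl⟩ | ⟨-, rfl⟩
    · exact hn₁
    · exact hn₂
  haveI hic : IsIntegrallyClosed (chartAlg P E (M * q) y ⧸ p₁) :=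
    (hS2 hS VM V W hVM hV hW yM y hy hgood p₁ p₂ hc₁ hc₂).1
  haveI := hS.dvr
  have hint : ∀ b : chartAlg P E (M * q) y,
      (Polynomial.eval₂RingHom (algebraMap (_root_.Fermat.Agent.A2.Mod.RE P E) (chartAlg P E (M * q) y))
        (⟨y, self_mem_chartAlg (M * q) y⟩ : chartAlg P E (M * q) y)).IsIntegralElem b := by
    intro b
    obtain ⟨p, hp, hpb⟩ := mem_chartAlg_iff.mp b.2
    refine ⟨p, hp, Subtype.ext ?_⟩
    have hcomp : ((chartAlg P E (M * q) y).val : chartAlg P E (M * q) y →+* _root_.Fermat.Agent.A2.Mod.FE E (M * q)).comp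
        (Polynomial.eval₂RingHom (algebraMap (_root_.Fermat.Agent.A2.Mod.RE P E) (chartAlg P E (M * q) y))
          (⟨y, self_mem_chartAlg (M * q) y⟩ : chartAlg P E (M * q) y)) =
        Polynomial.eval₂RingHom (algebraMap (_root_.Fermat.Agent.A2.Mod.RE P E) (_root_.Fermat.Agent.A2.Mod.FE E (M * q))) y := by
      apply Polynomial.ringHom_ext
      · intro r
        simp only [RingHom.comp_apply, Polynomial.coe_eval₂RingHom, Polynomial.eval₂_C]
        rfl
      · simp
    have := Polynomial.hom_eval₂ p (Polynomial.eval₂RingHom (algebraMap (_root_.Fermat.Agent.A2.Mod.RE P E)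
      (chartAlg P E (M * q) y)) (⟨y, self_mem_chartAlg (M * q) y⟩ : chartAlg P E (M * q) y))
      ((chartAlg P E (M * q) y).val : chartAlg P E (M * q) y →+* _root_.Fermat.Agent.A2.Mod.FE E (M * q)) b
    rw [hcomp] at this
    rw [ZeroMemClass.coe_zero, ← hpb]
    exact this
  have hpR : ∀ r ∈ IsLocalRing.maximalIdeal (_root_.Fermat.Agent.A2.Mod.RE P E),
      algebraMap (_root_.Fermat.Agent.A2.Mod.RE P E) (chartAlg P E (M * q) y) r ∈ p₁ := by
    intro r hr
    rw [hS.unif.maximalIdeal_eq, Ideal.mem_span_singleton'] at hr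
    obtain ⟨s, rfl⟩ := hr
    rw [hc₁]
    show cE P E (M * q) (s * w) * (cE P E (M * q) w)⁻¹ ∈ V
    have hw0 := cE_ne_zero w hS (M * q)
    have e : cE P E (M * q) (s * w) * (cE P E (M * q) w)⁻¹ = cE P E (M * q) s := by
      have : cE P E (M * q) (s * w) = cE P E (M * q) s * cE P E (M * q) w :=
        map_mul (algebraMap (_root_.Fermat.Agent.A2.Mod.RE P E) (_root_.Fermat.Agent.A2.Mod.FE E (M * q))) s w
      rw [this, mul_assoc, mul_inv_cancel₀ hw0, mul_one]
    rw [e]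
    exact cE_mem w hS hV s
  haveI : IsDedekindDomain (chartAlg P E (M * q) y ⧸ p₁) :=
    isDedekindDomain_quotient_of_integral _ _ hint p₁ hpR
  exact sup_isRadical_of_quotient hS.q_prime.two_le hKC hα

end Fermat.Agent.A2.Mod.H372

end
end
-- ===== PACK-END A2/Mod/H372/S3.lean

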