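import Fermat.Prelude.Def_FLTPrelim_Ramification
import Fermat.Agent.Pack.S34.G0E11L3
import Fermat.Agent.Pack.S34.G0E11L2
import Fermat.Agent.Pack.S34.G0E3L1
import Fermat.Agent.Pack.S34.G0E11L0
import Fermat.Agent.Pack.S34.G0E7L1
import Fermat.Agent.Pack.S34.G0E11L1
import Fermat.Agent.Pack.S34.G0E8L3
import Fermat.Agent.Pack.S34.G0E10L0

-- ===== PACK-BEGIN S29/H282/LocalK.lean
section


/-!
# S29 / M4b-K2 (helper282) — `LocalData` for the function field over `K` from an expansion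

Port of `Fermat/Agent/S24/Mod/H997Local.lean` (namespace `HolBase`) and of the first half of
`H997Core.lean` from `(ℚ̄, ιK)` to an arbitrary field `K` with `ι : K →+* ℂ`.
-/

set_option autoImplicit false

noncomputable section

open ModularCurve HahnSeries UpperHalfPlane
open scoped MatrixGroups

namespace Fermat.Agent.S29.H282

open Fermat.Agent.S24 Fermat.Agent.S24.H997 Fermat.Agent.S24.Deg457

variable {K : Type*} [Field K] [Algebra ℚ K] (ι : K →+* ℂ)
variable {N : ℕ} [NeZero N] (B : HolBase N) (X : Expansion B)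

/-- the ring hom `R_N(K) → ℂ((z))`, `r ↦ E (e r ∘ g⁻¹)` -/
def sGK (g : SL(2, ℤ)) : RNK K N →+* LaurentSeries ℂ :=
  X.E.comp ((B.compH g⁻¹).comp (bridgeK ι B))

theorem sGK_apply (g : SL(2, ℤ)) (r : RNK K N) :
    sGK ι B X g r = X.E (B.compH g⁻¹ (bridgeK ι B r)) := rfl

theorem sGK_injective (g : SL(2, ℤ)) : Function.Injective (sGK ι B X g) :=
  X.inj.comp ((B.compH_injective g⁻¹).comp (bridgeK_injective ι B))

/-- the embedding `FFK K N → ℂ((z))` attached to `g` -/
def sigmaGK (g : SL(2, ℤ)) : FFK K N →+* LaurentSeries ℂ :=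
  liftFK (sGK ι B X g) (sGK_injective ι B X g)

theorem sigmaGK_inclRNK (g : SL(2, ℤ)) (r : RNK K N) :
    sigmaGK ι B X g (inclRNK K N r) = X.E (B.compH g⁻¹ (bridgeK ι B r)) :=
  liftFK_inclRNK _ _ r

theorem sigmaGK_algebraMap (g : SL(2, ℤ)) (c : K) :
    sigmaGK ι B X g (algebraMap K (FFK K N) c) = HahnSeries.C (ι c) := by
  rw [sigmaGK, liftFK_algebraMap, sGK_apply, bridgeK_algebraMap, HolBase.compH_constH, X.const]

theorem sigmaGK_jFK (g : SL(2, ℤ)) :
    sigmaGK ι B X g (jFK K N) = X.E (B.JH 1 (one_dvd N)) := by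
  rw [← inclRNK_jRK_one, sigmaGK_inclRNK, bridgeK_jRK, HolBase.compH_JH_one]

theorem sGK_mul_of_mem (g : SL(2, ℤ)) {δ : SL(2, ℤ)} (hδ : δ ∈ CongruenceSubgroup.Gamma0 N) :
    sGK ι B X (g * δ) = sGK ι B X g := by
  ext1 r
  rw [sGK_apply, sGK_apply, mul_inv_rev, HolBase.compH_mul,
    compH_bridgeK_of_mem ι B (inv_mem hδ)]

theorem sigmaGK_mul_of_mem (g : SL(2, ℤ)) {δ : SL(2, ℤ)}
    (hδ : δ ∈ CongruenceSubgroup.Gamma0 N) : sigmaGK ι B X (g * δ) = sigmaGK ι B X g := by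
  unfold sigmaGK
  congr 1
  exact sGK_mul_of_mem ι B X g hδ

theorem sigmaGK_eq_of_mk_eq {g g' : SL(2, ℤ)}
    (h : (g : XX N) = (g' : XX N)) : sigmaGK ι B X g = sigmaGK ι B X g' := by
  have hmem : g⁻¹ * g' ∈ CongruenceSubgroup.Gamma0 N := QuotientGroup.eq.mp h
  have := sigmaGK_mul_of_mem ι B X g hmem
  rw [mul_inv_cancel_left] at this
  exact this.symm

/-- the embedding attached to a coset -/
def sigmaXK (x : XX N) : FFK K N →+* LaurentSeries ℂ := sigmaGK ι B X (Quotient.out x)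

theorem sigmaXK_mk (g : SL(2, ℤ)) : sigmaXK ι B X (g : XX N) = sigmaGK ι B X g :=
  sigmaGK_eq_of_mk_eq ι B X (QuotientGroup.out_eq' _)

theorem sigmaXK_injective : Function.Injective (sigmaXK (K := K) ι B X) := by
  intro x y hxy
  obtain ⟨g, rfl⟩ := QuotientGroup.mk_surjective x
  obtain ⟨g', rfl⟩ := QuotientGroup.mk_surjective y
  rw [sigmaXK_mk, sigmaXK_mk] at hxy
  have h1 := congrArg (fun s => s (inclRNK K N (jRK K N N dvd_rfl))) hxy
  simp only [sigmaGK_inclRNK, bridgeK_jRK] at h1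
  have h2 := X.inj h1
  apply QuotientGroup.eq.mpr
  apply B.J_distinct
  intro τ
  have h3 := congrArg (fun h : B.Hol => (h : ℍ → ℂ) (g' • τ)) h2
  simp only [HolBase.compH_apply] at h3
  rw [← mul_smul, ← mul_smul, inv_mul_cancel, one_smul] at h3
  exact h3

theorem rotRel_sigmaGK (ε : SL(2, ℤ)) (R : RotData B X ε) (g : SL(2, ℤ)) (f : FFK K N) :
    RotRel R.ζ (sigmaGK ι B X g f) (sigmaGK ι B X (ε⁻¹ * g) f) := by
  have hζ : R.ζ ≠ 0 := R.hζ.ne_zero R.m_pos.ne'
  obtain ⟨r, t, -, rfl⟩ := exists_div_inclRNK K N f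
  rw [map_div₀, map_div₀]
  have key : ∀ r : RNK K N, RotRel R.ζ (sigmaGK ι B X g (inclRNK K N r))
      (sigmaGK ι B X (ε⁻¹ * g) (inclRNK K N r)) := by
    intro r
    rw [sigmaGK_inclRNK, sigmaGK_inclRNK, mul_inv_rev, inv_inv, HolBase.compH_mul]
    exact R.rot _
  exact (key r).div hζ (key t)

/-- `LocalData` from an expansion with rotation data. -/
def mkLocalDataK (ε : SL(2, ℤ)) (R : RotData B X ε) (t : FFK K N) (u : LaurentSeries ℂ)
    (ht : ∀ g : SL(2, ℤ), sigmaGK ι B X g t = u) (hu : u.order = (R.m : ℤ)) :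
    LocalData K (FFK K N) ℂ (XX N) t where
  m := R.m
  m_pos := R.m_pos
  ζ := R.ζ
  hζ := R.hζ
  ι := ι
  perm := permOf N ε⁻¹
  σ := sigmaXK ι B X
  σ_inj := sigmaXK_injective ι B X
  σ_const x c := sigmaGK_algebraMap ι B X _ c
  σ_t_eq x y := by
    show sigmaGK ι B X _ t = sigmaGK ι B X _ t
    rw [ht, ht]
  σ_t_order x := by
    show (sigmaGK ι B X _ t).order = _
    rw [ht, hu]
  σ_perm_order x f := by
    obtain ⟨g, rfl⟩ := QuotientGroup.mk_surjective x
    have h : permOf N ε⁻¹ (g : XX N) = ((ε⁻¹ * g : SL(2, ℤ)) : XX N) := rfl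
    rw [h, sigmaXK_mk, sigmaXK_mk]
    exact (rotRel_sigmaGK ι B X ε R g f).1
  σ_perm_leadingCoeff x f := by
    obtain ⟨g, rfl⟩ := QuotientGroup.mk_surjective x
    have h : permOf N ε⁻¹ (g : XX N) = ((ε⁻¹ * g : SL(2, ℤ)) : XX N) := rfl
    rw [h, sigmaXK_mk, sigmaXK_mk]
    exact (rotRel_sigmaGK ι B X ε R g f).2

@[simp] theorem mkLocalDataK_perm (ε : SL(2, ℤ)) (R : RotData B X ε) (t : FFK K N)
    (u : LaurentSeries ℂ) (ht : ∀ g : SL(2, ℤ), sigmaGK ι B X g t = u)
    (hu : u.order = (R.m : ℤ)) :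
    (mkLocalDataK ι B X ε R t u ht hu).perm = permOf N ε⁻¹ := rfl

@[simp] theorem mkLocalDataK_σ (ε : SL(2, ℤ)) (R : RotData B X ε) (t : FFK K N)
    (u : LaurentSeries ℂ) (ht : ∀ g : SL(2, ℤ), sigmaGK ι B X g t = u)
    (hu : u.order = (R.m : ℤ)) :
    (mkLocalDataK ι B X ε R t u ht hu).σ = sigmaXK ι B X := rfl

@[simp] theorem mkLocalDataK_m (ε : SL(2, ℤ)) (R : RotData B X ε) (t : FFK K N)
    (u : LaurentSeries ℂ) (ht : ∀ g : SL(2, ℤ), sigmaGK ι B X g t = u)
    (hu : u.order = (R.m : ℤ)) :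
    (mkLocalDataK ι B X ε R t u ht hu).m = R.m := rfl

@[simp] theorem mkLocalDataK_ζ (ε : SL(2, ℤ)) (R : RotData B X ε) (t : FFK K N)
    (u : LaurentSeries ℂ) (ht : ∀ g : SL(2, ℤ), sigmaGK ι B X g t = u)
    (hu : u.order = (R.m : ℤ)) :
    (mkLocalDataK ι B X ε R t u ht hu).ζ = R.ζ := rfl

end Fermat.Agent.S29.H282

end
end
-- ===== PACK-END S29/H282/LocalK.lean

-- ===== PACK-BEGIN S29/H282/CoreK.lean
section


/-!
# S29 / M4b-K2 (helper282) — the local data of the function field over `K` at every point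

Port of the second half of `Fermat/Agent/S24/Mod/H997Core.lean` from `(ℚ̄, ιK)` to an arbitrary
field `K` with `ι : K →+* ℂ`.
-/

set_option autoImplicit false

noncomputable section

open ModularCurve HahnSeries UpperHalfPlane
open scoped MatrixGroups

namespace Fermat.Agent.S29.H282

open Fermat.Agent.S24 Fermat.Agent.S24.H997 Fermat.Agent.S24.Deg457

variable {K : Type*} [Field K] [Algebra ℚ K] (ι : K →+* ℂ)
variable {N : ℕ} [NeZero N] (A : AnalyticCore N)

/-- the local data at `∞` -/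
def dataInfK : LocalData K (FFK K N) ℂ (XX N) (jFK K N)⁻¹ :=
  mkLocalDataK ι A.toHolBase A.toHolBase.qexpExpansion ModularGroup.T A.infRot (jFK K N)⁻¹
    (A.qexp (A.toHolBase.JH 1 (one_dvd N)))⁻¹
    (fun g => by rw [map_inv₀, sigmaGK_jFK]; rfl)
    (by
      rw [RotRel.order_inv' A.toHolBase.qexp_J_one_ne_zero, A.toHolBase.order_qexp_J_one, neg_neg]
      rfl)

theorem sigmaGK_sub {a : K} {ε : SL(2, ℤ)} (P : PointData A.toHolBase (ι a) ε)
    (g : SL(2, ℤ)) :
    sigmaGK ι A.toHolBase P.X g (jFK K N - algebraMap K (FFK K N) a)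
      = P.X.E (A.toHolBase.JH 1 (one_dvd N) - A.toHolBase.constH (ι a)) := by
  rw [map_sub, sigmaGK_jFK, sigmaGK_algebraMap, map_sub, P.X.const]

/-- the local data attached to point data over `a` -/
def dataOfPointK {a : K} {ε : SL(2, ℤ)} (P : PointData A.toHolBase (ι a) ε) :
    LocalData K (FFK K N) ℂ (XX N) (jFK K N - algebraMap K (FFK K N) a) :=
  mkLocalDataK ι A.toHolBase P.X ε P.R _ _ (fun g => sigmaGK_sub ι A P g) P.order_J

/-- all the embeddings `σ_x` agree on `K(j)` -/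
theorem sigmaXK_eq_on_adjoin (X : Expansion A.toHolBase) (x y : XX N) {f : FFK K N}
    (hf : f ∈ IntermediateField.adjoin K {jFK K N}) :
    sigmaXK ι A.toHolBase X x f = sigmaXK ι A.toHolBase X y f := by
  induction hf using IntermediateField.adjoin_induction with
  | mem z hz =>
      rw [Set.mem_singleton_iff] at hz
      subst hz
      show sigmaGK ι A.toHolBase X _ (jFK K N) = sigmaGK ι A.toHolBase X _ (jFK K N)
      rw [sigmaGK_jFK, sigmaGK_jFK]
  | algebraMap c =>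
      show sigmaGK ι A.toHolBase X _ _ = sigmaGK ι A.toHolBase X _ _
      rw [sigmaGK_algebraMap, sigmaGK_algebraMap]
  | add z w _ _ hz hw => rw [map_add, map_add, hz, hw]
  | inv z _ hz => rw [map_inv₀, map_inv₀, hz]
  | mul z w _ _ hz hw => rw [map_mul, map_mul, hz, hw]

include ι A in
/-- lower bound for the degree: `|SL₂(ℤ)/Γ₀(N)| ≤ [FFK K N : K(j)]`. -/
theorem card_le_finrankK
    [FiniteDimensional ↥(IntermediateField.adjoin K {jFK K N}) (FFK K N)] :
    Nat.card (XX N) ≤ Module.finrank ↥(IntermediateField.adjoin K {jFK K N}) (FFK K N) := by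
  classical
  set E := IntermediateField.adjoin K {jFK K N} with hE
  let X := A.toHolBase.qexpExpansion
  let x0 : XX N := ((1 : SL(2, ℤ)) : XX N)
  let ψ : ↥E →+* LaurentSeries ℂ := (sigmaXK ι A.toHolBase X x0).comp (algebraMap ↥E (FFK K N))
  letI : Algebra ↥E (LaurentSeries ℂ) := ψ.toAlgebra
  let a : XX N → (FFK K N →ₐ[↥E] LaurentSeries ℂ) := fun x =>
    { sigmaXK ι A.toHolBase X x with
      commutes' := fun y => sigmaXK_eq_on_adjoin ι A X x x0 y.2 }
  have ha : Function.Injective a := by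
    intro x y hxy
    apply sigmaXK_injective ι A.toHolBase X
    refine RingHom.ext fun f => ?_
    exact congrArg (fun φ : FFK K N →ₐ[↥E] LaurentSeries ℂ => φ f) hxy
  haveI : Module.Free ↥E (FFK K N) := Module.Free.of_divisionRing ↥E (FFK K N)
  haveI : Module.Finite ↥E (FFK K N) := ‹FiniteDimensional ↥E (FFK K N)›
  haveI : Finite (FFK K N →ₐ[↥E] LaurentSeries ℂ) :=
    Finite.algHom ↥E (FFK K N) (LaurentSeries ℂ)
  calc Nat.card (XX N) ≤ Nat.card (FFK K N →ₐ[↥E] LaurentSeries ℂ) :=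
        Nat.card_le_card_of_injective a ha
    _ ≤ Module.finrank ↥E (FFK K N) := card_algHom_le_finrank ↥E (FFK K N) (LaurentSeries ℂ)

/-- the stabiliser generator used over the point `a` -/
def epsAt (a : K) : SL(2, ℤ) :=
  letI := Classical.propDecidable
  if ι a = 0 then ModularGroup.S * ModularGroup.T
  else if ι a = 1728 then ModularGroup.S else 1

/-- the point data over the point `a` -/
def pointAt (a : K) : PointData A.toHolBase (ι a) (epsAt ι a) :=
  letI := Classical.propDecidable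
  if h0 : ι a = 0 then by
    rw [epsAt, if_pos h0, h0]; exact A.at0
  else if h1 : ι a = 1728 then by
    rw [epsAt, if_neg h0, if_pos h1, h1]; exact A.at1728
  else by
    rw [epsAt, if_neg h0, if_neg h1]; exact A.generic (ι a) h0 h1

/-- the local data over a finite point `a : K` -/
def dataFinK (a : K) : LocalData K (FFK K N) ℂ (XX N) (jFK K N - algebraMap K (FFK K N) a) :=
  dataOfPointK ι A (pointAt ι A a)

theorem dataFinK_perm (a : K) : (dataFinK ι A a).perm = permOf N (epsAt ι a)⁻¹ := rfl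

theorem dataFinK_σ (a : K) :
    (dataFinK ι A a).σ = sigmaXK ι A.toHolBase (pointAt ι A a).X := rfl

theorem dataFinK_m (a : K) : (dataFinK ι A a).m = (pointAt ι A a).R.m := rfl

theorem dataFinK_ζ (a : K) : (dataFinK ι A a).ζ = (pointAt ι A a).R.ζ := rfl

theorem dataInfK_perm : (dataInfK (K := K) ι A).perm = permOf N ModularGroup.T⁻¹ := rfl

theorem dataInfK_σ :
    (dataInfK (K := K) ι A).σ = sigmaXK ι A.toHolBase A.toHolBase.qexpExpansion := rfl

theorem dataInfK_m : (dataInfK (K := K) ι A).m = N := rfl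

end Fermat.Agent.S29.H282

end
end
-- ===== PACK-END S29/H282/CoreK.lean

-- ===== PACK-BEGIN S18/H558/BranchT3.lean
section


/-!
# S18 / MOD M2 (part 3): ramification of `F_M / ℚ̄(t)` for the Hauptmodul `t = t₃` of `X₀(3)`

Hypothesis (proved elsewhere, piece c3-i): `t ∈ FF M` with `j * t ^ 3 = (t + 27) * (t + 243) ^ 3`.
Then `F_M / ℚ̄(t)` is unramified outside `t ∈ {0, -27, ∞}`:

* `ord_t3_sub_eq_one` : `c ≠ 0`, `c ≠ -27`, `0 < v.ord (t - c)` ⟹ `v.ord (t - c) = 1`;
* `ord_t3_add_27_dvd_three` : `0 < v.ord (t + 27)` ⟹ `v.ord (t + 27) ∣ 3`;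
* `ord_t3_inv_sub_eq_one` : the same in the coordinate `1/t` (chart at infinity).
-/

set_option autoImplicit false

noncomputable section

open AlgebraicCurve ModularCurve

namespace Fermat.Agent.S18.H558

open Fermat.Agent.S24

section T3

variable (M : ℕ) [NeZero M] (t : FF M) (hid : jF M * t ^ 3 = (t + 27) * (t + 243) ^ 3)

include hid

theorem t3_ne_zero : t ≠ 0 := by
  rintro rfl
  norm_num at hid

/-- Places over `t = -27`: ramification index `1` or `3`. -/
theorem ord_t3_add_27_dvd_three (v : Place Kbar (FF M))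
    (hv : 0 < v.ord (t - algebraMap Kbar (FF M) (-27))) :
    v.ord (t - algebraMap Kbar (FF M) (-27)) ∣ 3 := by
  set T := t - algebraMap Kbar (FF M) (-27) with hT
  have ht0 : t ≠ 0 := t3_ne_zero M t hid
  have hT0 : T ≠ 0 := H117.ne_zero_of_ord_ne_zero v hv.ne'
  have htv : v.ord t = 0 := ord_eq_zero_of_ord_sub_pos v (by norm_num) hv
  have ht3 : v.ord (t ^ 3) = 0 := by rw [H117.ord_pow, htv]; simp
  have e1 : algebraMap Kbar (FF M) (-27) = -27 := by rw [map_neg, map_ofNat]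
  have e3 : algebraMap Kbar (FF M) 216 = 216 := map_ofNat _ _
  have key : jF M * t ^ 3 = T ^ 1 * (algebraMap Kbar (FF M) 216 + T * 1) ^ 3 := by
    rw [hT, e1, e3]; linear_combination hid
  have hU0 := const_add_mul_ne_zero v (g := (216 : Kbar)) (by norm_num) hv (one_mem _)
  have hU := ord_const_add_mul v (g := (216 : Kbar)) (by norm_num) hv (one_mem _)
  obtain ⟨hJ0, hJ⟩ := ord_eq_of_key v 1 key (pow_ne_zero 3 ht0) ht3 (pow_ne_zero 3 hU0)
    (by rw [H117.ord_pow, hU]; simp) hT0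
  have hJ' : v.ord (jF M) = v.ord T := by simpa using hJ
  have hpos : 0 < v.ord (jF M) := by rw [hJ']; exact hv
  have := ord_j_dvd_three M v hpos
  rwa [hJ'] at this

/-- **`F_M / ℚ̄(t₃)` is unramified outside `t₃ ∈ {0, -27, ∞}`.** -/
theorem ord_t3_sub_eq_one (c : Kbar) (hc0 : c ≠ 0) (hc27 : c ≠ -27) (v : Place Kbar (FF M))
    (hv : 0 < v.ord (t - algebraMap Kbar (FF M) c)) :
    v.ord (t - algebraMap Kbar (FF M) c) = 1 := by
  set C : FF M := algebraMap Kbar (FF M) c with hC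
  set T := t - C with hT
  have ht0 : t ≠ 0 := t3_ne_zero M t hid
  have hT0 : T ≠ 0 := H117.ne_zero_of_ord_ne_zero v hv.ne'
  have htv : v.ord t = 0 := ord_eq_zero_of_ord_sub_pos v hc0 hv
  have htmem : t ∈ v.toValuationSubring := mem_of_ord_sub_pos v hv
  have hCmem : C ∈ v.toValuationSubring := v.algebraMap_mem' c
  have hC0 : C ≠ 0 := (map_ne_zero _).2 hc0
  have hCv : v.ord C = 0 := H117.ord_algebraMap v c
  have ht3 : v.ord (t ^ 3) = 0 := by rw [H117.ord_pow, htv]; simp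
  by_cases h243 : c = -243
  · -- `j t³ = (t + 243)³ (t + 27)`
    have hCe : C = -243 := by rw [hC, h243, map_neg, map_ofNat]
    have e3 : algebraMap Kbar (FF M) (-216) = -216 := by rw [map_neg, map_ofNat]
    have key : jF M * t ^ 3 = T ^ 3 * (algebraMap Kbar (FF M) (-216) + T * 1) := by
      rw [hT, hCe, e3]; linear_combination hid
    obtain ⟨hJ0, hJ⟩ := ord_eq_of_key v 3 key (pow_ne_zero 3 ht0) ht3
      (const_add_mul_ne_zero v (by norm_num) hv (one_mem _))
      (ord_const_add_mul v (by norm_num) hv (one_mem _)) hT0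
    have hpos : 0 < v.ord (jF M) := by rw [hJ]; positivity
    have h3 := ord_j_dvd_three M v hpos
    rw [hJ] at h3
    exact eq_one_of_mul_dvd (k := 3) (by norm_num) hv (by exact_mod_cast h3)
  by_cases hquad : c ^ 2 - 486 * c - 19683 = 0
  · -- `(j - 1728) t³ = (t² - 486 t - 19683)² = (t - c)² (t - c')²`
    have e2 : algebraMap Kbar (FF M) 1728 = 1728 := map_ofNat _ _
    have hg : (2 * c - 486 : Kbar) ≠ 0 := by
      intro h
      have hc : c = 243 := by linear_combination h / 2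
      rw [hc] at hquad
      norm_num at hquad
    have hG : algebraMap Kbar (FF M) (2 * c - 486) = 2 * C - 486 := by
      simp [map_sub, map_mul, map_ofNat, hC]
    have hquad' : C ^ 2 - 486 * C - 19683 = 0 := by
      have := congrArg (algebraMap Kbar (FF M)) hquad
      simpa [map_sub, map_mul, map_pow, map_ofNat, hC] using this
    have key : (jF M - algebraMap Kbar (FF M) 1728) * t ^ 3
        = T ^ 2 * (algebraMap Kbar (FF M) (2 * c - 486) + T * 1) ^ 2 := by
      rw [hG, hT, e2]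
      linear_combination hid + (2 * t ^ 2 - 972 * t - 39366 - (C ^ 2 - 486 * C - 19683)) * hquad'
    have hU0 := const_add_mul_ne_zero v hg hv (one_mem _)
    have hU := ord_const_add_mul v hg hv (one_mem _)
    obtain ⟨hJ0, hJ⟩ := ord_eq_of_key v 2 key (pow_ne_zero 3 ht0) ht3 (pow_ne_zero 2 hU0)
      (by rw [H117.ord_pow, hU]; simp) hT0
    have hpos : 0 < v.ord (jF M - algebraMap Kbar (FF M) 1728) := by rw [hJ]; positivity
    have h2 := ord_j_sub_1728_dvd_two M v hpos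
    rw [hJ] at h2
    exact eq_one_of_mul_dvd (k := 2) (by norm_num) hv (by exact_mod_cast h2)
  · -- generic case
    set a : Kbar := (c + 27) * (c + 243) ^ 3 / c ^ 3 with ha
    have hc3 : c ^ 3 ≠ 0 := pow_ne_zero 3 hc0
    have h27' : c + 27 ≠ 0 := fun h => hc27 (eq_neg_of_add_eq_zero_left h)
    have h243' : c + 243 ≠ 0 := fun h => h243 (eq_neg_of_add_eq_zero_left h)
    have hac : a * c ^ 3 = (c + 27) * (c + 243) ^ 3 := by rw [ha]; field_simp
    have ha0 : a ≠ 0 := by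
      rw [ha]
      exact div_ne_zero (mul_ne_zero h27' (pow_ne_zero 3 h243')) hc3
    have ha1728 : a ≠ 1728 := by
      intro h
      rw [h] at hac
      have : (c ^ 2 - 486 * c - 19683) ^ 2 = 0 := by linear_combination -hac
      exact hquad (pow_eq_zero_iff (by norm_num) |>.mp this)
    set q : Kbar := c ^ 2 * (c + 243) ^ 2 * (c ^ 2 - 486 * c - 19683) with hq
    have hq0 : q ≠ 0 := by
      rw [hq]
      exact mul_ne_zero (mul_ne_zero (pow_ne_zero 2 hc0) (pow_ne_zero 2 h243')) hquad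
    have hA : algebraMap Kbar (FF M) a * C ^ 3 = (C + 27) * (C + 243) ^ 3 := by
      have := congrArg (algebraMap Kbar (FF M)) hac
      simpa [map_mul, map_pow, map_add, map_ofNat] using this
    have hQ : algebraMap Kbar (FF M) q = C ^ 2 * (C + 243) ^ 2 * (C ^ 2 - 486 * C - 19683) := by
      rw [hq]; simp [map_mul, map_pow, map_add, map_sub, map_ofNat, hC]
    set W : FF M := t ^ 2 * C ^ 3 + t * C ^ 4 - 196830 * (t * C ^ 2) - 19131876 * (t * C)
      - 387420489 * t + C ^ 5 - 196830 * C ^ 3 - 38263752 * C ^ 2 - 774840978 * C with hW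
    have hnum : ∀ n : ℕ, (n : FF M) ∈ v.toValuationSubring := fun n => natCast_mem _ n
    have hWmem : W ∈ v.toValuationSubring := by
      have h1 : (196830 : FF M) ∈ v.toValuationSubring := by exact_mod_cast hnum 196830
      have h2 : (19131876 : FF M) ∈ v.toValuationSubring := by exact_mod_cast hnum 19131876
      have h3 : (387420489 : FF M) ∈ v.toValuationSubring := by exact_mod_cast hnum 387420489
      have h4 : (38263752 : FF M) ∈ v.toValuationSubring := by exact_mod_cast hnum 38263752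
      have h5 : (774840978 : FF M) ∈ v.toValuationSubring := by exact_mod_cast hnum 774840978
      refine sub_mem (sub_mem (sub_mem (add_mem (sub_mem (sub_mem (sub_mem (add_mem ?_ ?_) ?_) ?_)
        ?_) ?_) ?_) ?_) ?_
      · exact mul_mem (pow_mem htmem 2) (pow_mem hCmem 3)
      · exact mul_mem htmem (pow_mem hCmem 4)
      · exact mul_mem h1 (mul_mem htmem (pow_mem hCmem 2))
      · exact mul_mem h2 (mul_mem htmem hCmem)
      · exact mul_mem h3 htmem
      · exact pow_mem hCmem 5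
      · exact mul_mem h1 (pow_mem hCmem 3)
      · exact mul_mem h4 (pow_mem hCmem 2)
      · exact mul_mem h5 hCmem
    have key : (jF M - algebraMap Kbar (FF M) a) * (t ^ 3 * C ^ 3)
        = T ^ 1 * (algebraMap Kbar (FF M) q + T * W) := by
      rw [hQ, hW, hT]
      linear_combination C ^ 3 * hid - t ^ 3 * hA
    have hD0 : t ^ 3 * C ^ 3 ≠ 0 := mul_ne_zero (pow_ne_zero 3 ht0) (pow_ne_zero 3 hC0)
    have hD : v.ord (t ^ 3 * C ^ 3) = 0 := by
      rw [v.ord_mul (pow_ne_zero 3 ht0) (pow_ne_zero 3 hC0), ht3, H117.ord_pow, hCv]; simp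
    obtain ⟨hJ0, hJ⟩ := ord_eq_of_key v 1 key hD0 hD
      (const_add_mul_ne_zero v hq0 hv hWmem) (ord_const_add_mul v hq0 hv hWmem) hT0
    have hJ' : v.ord (jF M - algebraMap Kbar (FF M) a) = v.ord T := by simpa using hJ
    have hpos : 0 < v.ord (jF M - algebraMap Kbar (FF M) a) := by rw [hJ']; exact hv
    rw [← hJ']
    exact ord_j_sub_eq_one M a ha0 ha1728 v hpos

/-- The same statement in the coordinate `s = 1/t` (chart at infinity): unramified outside
`s ∈ {0, -1/27}`. -/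
theorem ord_t3_inv_sub_eq_one (s : Kbar) (hs0 : s ≠ 0) (hs27 : s ≠ -(1 / 27))
    (v : Place Kbar (FF M)) (hv : 0 < v.ord (t⁻¹ - algebraMap Kbar (FF M) s)) :
    v.ord (t⁻¹ - algebraMap Kbar (FF M) s) = 1 := by
  have ht0 : t ≠ 0 := t3_ne_zero M t hid
  have hti : v.ord t⁻¹ = 0 := ord_eq_zero_of_ord_sub_pos v hs0 hv
  have htv : v.ord t = 0 := by rw [v.ord_inv] at hti; omega
  set S : FF M := algebraMap Kbar (FF M) s with hS
  have hS0 : S ≠ 0 := (map_ne_zero _).2 hs0
  have hSv : v.ord S = 0 := H117.ord_algebraMap v s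
  have hrel : t⁻¹ - S = (-(S * t⁻¹)) * (t - algebraMap Kbar (FF M) s⁻¹) := by
    rw [map_inv₀, ← hS]
    have h1 : S * S⁻¹ = 1 := mul_inv_cancel₀ hS0
    have h2 : t * t⁻¹ = 1 := mul_inv_cancel₀ ht0
    linear_combination (-t⁻¹) * h1 + S * h2
  have hne1 : -(S * t⁻¹) ≠ 0 := neg_ne_zero.mpr (mul_ne_zero hS0 (inv_ne_zero ht0))
  have hord1 : v.ord (-(S * t⁻¹)) = 0 := by
    rw [H117.ord_neg, v.ord_mul hS0 (inv_ne_zero ht0), hSv, hti]; rfl
  have hne2 : t - algebraMap Kbar (FF M) s⁻¹ ≠ 0 := by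
    intro h
    rw [h, mul_zero] at hrel
    rw [hrel, v.ord_zero] at hv
    exact lt_irrefl _ hv
  have hord : v.ord (t⁻¹ - S) = v.ord (t - algebraMap Kbar (FF M) s⁻¹) := by
    rw [hrel, v.ord_mul hne1 hne2, hord1, zero_add]
  rw [hord] at hv ⊢
  refine ord_t3_sub_eq_one M t hid s⁻¹ (inv_ne_zero hs0) ?_ v hv
  intro h
  apply hs27
  have : s = (s⁻¹)⁻¹ := (inv_inv s).symm
  rw [this, h]
  norm_num

end T3

end Fermat.Agent.S18.H558

end
end
-- ===== PACK-END S18/H558/BranchT3.lean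

-- ===== PACK-BEGIN S18/H558/PartBr.lean
section






/-!
# S18 / MOD / G-BR (helper558): the branch-value fields of `Alg.GoodModel` at the concrete objects

Target: the four fields `S_mem`, `S_distinct`, `S_unit`, `unramified` of `Alg.GoodModel`
(= the structure `PartBr (Lc M) (Rc M A E) x S` of MOD-ASM helper216) for

* `x = jOm M`, `S = {0, 1728}`, `ℓ ≥ 5`                       (`brJ_*`),
* `x` with `jOm M * x ^ 2 = (x + 256) ^ 3`, `S = {0, -64}`, `ℓ = 3`   (`brT2_*`),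
* `x` with `jOm M * x ^ 3 = (x + 27) * (x + 243) ^ 3`, `S = {0, -27}`, `ℓ = 2` (`brT3_*`),

for EVERY intermediate field `E` of `Q̄/ℚ` (no finiteness needed) and every valuation subring `A`
of `Q̄` lying over `ℓ`.  The bundled forms `brJ`, `brT2`, `brT3` are conjunctions of the four
fields in the order of the structure, so `PartBr` is `⟨h.1, h.2.1, h.2.2.1, h.2.2.2⟩`.

Inputs: M2 (`H558/Branch*.lean`, Place language) and `H804.exists_place_of_valuationSubring_modular`
(every proper valuation subring of `F_M` containing `Q̄` is a `Place`).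
-/

set_option autoImplicit false

noncomputable section

namespace Fermat.Agent.S18.H558

open AlgebraicCurve ModularCurve Fermat.Agent.S24 Fermat.Agent.S18 Fermat.Agent.S18.Mod

variable (M : ℕ) [NeZero M]

/-- The frozen coordinate `jOm M` is the `j`-function `jF M` of the S24 library. -/
theorem jOm_eq_jF : jOm M = jF M := by
  apply Subtype.ext
  show coeffEmb Qb (qExpand ℚ 1 jq) = coeffEmb Kbar jq
  rw [qExpand_one_apply]

/-! ### Integers in `Rc` -/

section Consts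

variable (A : ValuationSubring Qb) (E : IntermediateField ℚ Qb)

theorem algebraMap_mem_Rc {a : Qb} (hA : a ∈ A) (hE : a ∈ E) :
    algebraMap Qb (Om M) a ∈ Rc M A E :=
  Subring.mem_map.2 ⟨a, ⟨hA, hE⟩, rfl⟩

theorem intCast_mem_Rc (n : ℤ) : ((n : ℤ) : Om M) ∈ Rc M A E := by
  have h : ((n : ℤ) : Om M) = algebraMap Qb (Om M) (n : Qb) := (map_intCast _ n).symm
  rw [h]
  exact algebraMap_mem_Rc M A E (intCast_mem A n) (intCast_mem E n)

theorem inv_intCast_mem_Rc (n : ℤ) (hn : ((n : ℤ) : Qb)⁻¹ ∈ A) :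
    (((n : ℤ) : Om M))⁻¹ ∈ Rc M A E := by
  have h : (((n : ℤ) : Om M))⁻¹ = algebraMap Qb (Om M) ((n : Qb)⁻¹) := by
    rw [map_inv₀, map_intCast]
  rw [h]
  exact algebraMap_mem_Rc M A E hn (inv_mem (intCast_mem E n))

/-- An integer prime to the residue characteristic is a unit of `A`. -/
theorem inv_intCast_mem_of_coprime {ℓ : ℕ} (hA : A.LiesOverPrime ℓ) (n : ℤ)
    (hn : IsCoprime n (ℓ : ℤ)) : ((n : ℤ) : Qb)⁻¹ ∈ A := by
  obtain ⟨a, b, hab⟩ := hn
  have hℓ : A.valuation (ℓ : Qb) < 1 := (A.mem_nonunits_iff).1 hA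
  have hb : A.valuation (b : Qb) ≤ 1 := (A.valuation_le_one_iff _).2 (intCast_mem A b)
  have ha : A.valuation (a : Qb) ≤ 1 := (A.valuation_le_one_iff _).2 (intCast_mem A a)
  have hnv : A.valuation (n : Qb) ≤ 1 := (A.valuation_le_one_iff _).2 (intCast_mem A n)
  have hbℓ : A.valuation ((b : Qb) * (ℓ : Qb)) < 1 := by
    rw [map_mul]
    calc A.valuation (b : Qb) * A.valuation (ℓ : Qb) ≤ 1 * A.valuation (ℓ : Qb) :=
          mul_le_mul' hb le_rfl
      _ = A.valuation (ℓ : Qb) := one_mul _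
      _ < 1 := hℓ
  have hone : (a : Qb) * (n : Qb) = 1 - (b : Qb) * (ℓ : Qb) := by
    have h := congrArg (Int.cast : ℤ → Qb) hab
    push_cast at h
    linear_combination h
  have h1 : A.valuation (1 - (b : Qb) * (ℓ : Qb)) = 1 := Valuation.map_one_sub_of_lt _ hbℓ
  have h2 : A.valuation (a : Qb) * A.valuation (n : Qb) = 1 := by
    rw [← map_mul, hone, h1]
  have h3 : A.valuation (n : Qb) = 1 := by
    apply le_antisymm hnv
    calc (1 : _) = A.valuation (a : Qb) * A.valuation (n : Qb) := h2.symm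
      _ ≤ 1 * A.valuation (n : Qb) := mul_le_mul' ha le_rfl
      _ = A.valuation (n : Qb) := one_mul _
  rw [← A.valuation_le_one_iff, map_inv₀, h3, inv_one]

end Consts

/-! ### From the Place statement to the valuation-subring statement -/

/-- If `x - c` has order `1` at every place where it vanishes (for the constants `c ∉ S`), then
`x` satisfies the field `unramified` of `Alg.GoodModel`. -/
theorem unramified_of_ord (x : Om M) (S : Finset (Om M))
    (h : ∀ c : Qb, algebraMap Qb (Om M) c ∉ S → ∀ v : Place Qb (Om M),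
      0 < v.ord (x - algebraMap Qb (Om M) c) → v.ord (x - algebraMap Qb (Om M) c) = 1) :
    ∀ O : ValuationSubring (Om M), (∀ a ∈ Lc M, a ∈ O) → ∀ c ∈ Lc M, c ∉ S →
      x - c ∈ O → (x - c)⁻¹ ∉ O → ∀ t ∈ O, t⁻¹ ∉ O → t * (x - c)⁻¹ ∈ O := by
  intro O hL c hc hcS hxO hxinv t ht htinv
  obtain ⟨c₀, rfl⟩ := hc
  have hK : ∀ a : Qb, algebraMap Qb (Om M) a ∈ O := fun a => hL _ ⟨a, rfl⟩
  have hO : O ≠ ⊤ := by
    intro htop
    exact hxinv (htop ▸ ValuationSubring.mem_top _)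
  obtain ⟨v, rfl⟩ := H804.exists_place_of_valuationSubring_modular M O hK hO
  have hx0 : x - algebraMap Qb (Om M) c₀ ≠ 0 := by
    intro h0
    rw [h0, inv_zero] at hxinv
    exact hxinv (zero_mem _)
  have ht0 : t ≠ 0 := by
    intro h0
    rw [h0, inv_zero] at htinv
    exact htinv (zero_mem _)
  have h1 : 0 ≤ v.ord (x - algebraMap Qb (Om M) c₀) := H117.ord_nonneg_of_mem v hxO
  have h2 : ¬ 0 ≤ v.ord (x - algebraMap Qb (Om M) c₀)⁻¹ := fun hh =>
    hxinv (H117.mem_of_ord_nonneg v hh)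
  rw [v.ord_inv] at h2
  have h3 : 0 ≤ v.ord t := H117.ord_nonneg_of_mem v ht
  have h4 : ¬ 0 ≤ v.ord t⁻¹ := fun hh => htinv (H117.mem_of_ord_nonneg v hh)
  rw [v.ord_inv] at h4
  have h5 := h c₀ hcS v (by omega)
  apply H117.mem_of_ord_nonneg v
  rw [v.ord_mul ht0 (inv_ne_zero hx0), v.ord_inv, h5]
  omega

/-! ### The coordinate `j`, `ℓ ≥ 5` -/

section J

variable (A : ValuationSubring Qb) (E : IntermediateField ℚ Qb) {ℓ : ℕ}

theorem inv_1728_mem (hℓ : ℓ.Prime) (h5 : 5 ≤ ℓ) (hA : A.LiesOverPrime ℓ) :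
    ((1728 : ℤ) : Qb)⁻¹ ∈ A := by
  apply inv_intCast_mem_of_coprime A hA
  have hcop : Nat.Coprime 1728 ℓ := by
    rw [Nat.coprime_comm, Nat.Prime.coprime_iff_not_dvd hℓ]
    intro hdvd
    have h1728 : (1728 : ℕ) = 2 ^ 6 * 3 ^ 3 := by norm_num
    rw [h1728] at hdvd
    rcases (Nat.Prime.dvd_mul hℓ).1 hdvd with h | h
    · have := Nat.le_of_dvd (by norm_num) (hℓ.dvd_of_dvd_pow h)
      omega
    · have := Nat.le_of_dvd (by norm_num) (hℓ.dvd_of_dvd_pow h)
      omega
  exact_mod_cast (Nat.isCoprime_iff_coprime.2 hcop)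

theorem brJ_unramified (S : Finset (Om M)) (hS : ∀ s, s ∈ S ↔ s = 0 ∨ s = 1728) :
    ∀ O : ValuationSubring (Om M), (∀ a ∈ Lc M, a ∈ O) → ∀ c ∈ Lc M, c ∉ S →
      jOm M - c ∈ O → (jOm M - c)⁻¹ ∉ O → ∀ t ∈ O, t⁻¹ ∉ O → t * (jOm M - c)⁻¹ ∈ O := by
  apply unramified_of_ord
  intro c hcS v hv
  rw [jOm_eq_jF] at hv ⊢
  have h0 : c ≠ 0 := by
    rintro rfl
    exact hcS ((hS _).2 (Or.inl (map_zero _)))
  have h1 : c ≠ 1728 := by
    rintro rfl
    exact hcS ((hS _).2 (Or.inr (map_ofNat _ 1728)))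
  exact ord_j_sub_eq_one M c h0 h1 v hv

/-- **G-BR for `x = j`, `ℓ ≥ 5`**: the four fields `S_mem`, `S_distinct`, `S_unit`, `unramified`. -/
theorem brJ (hℓ : ℓ.Prime) (h5 : 5 ≤ ℓ) (hA : A.LiesOverPrime ℓ) (S : Finset (Om M))
    (hS : ∀ s, s ∈ S ↔ s = 0 ∨ s = 1728) :
    (∀ s ∈ S, s ∈ Rc M A E) ∧
    (∀ s ∈ S, ∀ t ∈ S, s ≠ t → (s - t)⁻¹ ∈ Rc M A E) ∧
    (∀ s ∈ S, s ≠ 0 → s⁻¹ ∈ Rc M A E) ∧
    (∀ O : ValuationSubring (Om M), (∀ a ∈ Lc M, a ∈ O) → ∀ c ∈ Lc M, c ∉ S →
      jOm M - c ∈ O → (jOm M - c)⁻¹ ∉ O → ∀ t ∈ O, t⁻¹ ∉ O → t * (jOm M - c)⁻¹ ∈ O) := by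
  have hu : ((1728 : ℤ) : Om M)⁻¹ ∈ Rc M A E :=
    inv_intCast_mem_Rc M A E 1728 (inv_1728_mem A hℓ h5 hA)
  have hcast : ((1728 : ℤ) : Om M) = 1728 := by norm_num
  rw [hcast] at hu
  refine ⟨?_, ?_, ?_, brJ_unramified M S hS⟩
  · intro s hs
    rcases (hS s).1 hs with rfl | rfl
    · exact zero_mem _
    · have := intCast_mem_Rc M A E 1728
      rwa [hcast] at this
  · intro s hs t ht hst
    rcases (hS s).1 hs with rfl | rfl <;> rcases (hS t).1 ht with rfl | rfl
    · exact absurd rfl hst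
    · rw [zero_sub, inv_neg]
      exact neg_mem hu
    · rwa [sub_zero]
    · exact absurd rfl hst
  · intro s hs hs0
    rcases (hS s).1 hs with rfl | rfl
    · exact absurd rfl hs0
    · exact hu

end J

/-! ### The Hauptmodul `t₂`, `ℓ = 3` -/

section T2

variable (A : ValuationSubring Qb) (E : IntermediateField ℚ Qb)

theorem inv_64_mem (hA : A.LiesOverPrime 3) : ((64 : ℤ) : Qb)⁻¹ ∈ A := by
  apply inv_intCast_mem_of_coprime A hA
  have hcop : Nat.Coprime 64 3 := by norm_num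
  exact_mod_cast (Nat.isCoprime_iff_coprime.2 hcop)

theorem brT2_unramified (x : Om M) (hx : jOm M * x ^ 2 = (x + 256) ^ 3) (S : Finset (Om M))
    (hS : ∀ s, s ∈ S ↔ s = 0 ∨ s = -64) :
    ∀ O : ValuationSubring (Om M), (∀ a ∈ Lc M, a ∈ O) → ∀ c ∈ Lc M, c ∉ S →
      x - c ∈ O → (x - c)⁻¹ ∉ O → ∀ t ∈ O, t⁻¹ ∉ O → t * (x - c)⁻¹ ∈ O := by
  apply unramified_of_ord
  intro c hcS v hv
  rw [jOm_eq_jF] at hx
  have h0 : c ≠ 0 := by
    rintro rfl
    exact hcS ((hS _).2 (Or.inl (map_zero _)))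
  have h1 : c ≠ -64 := by
    rintro rfl
    exact hcS ((hS _).2 (Or.inr (by rw [map_neg, map_ofNat])))
  exact ord_t2_sub_eq_one M x hx c h0 h1 v hv

/-- **G-BR for `x = t₂`, `ℓ = 3`**. -/
theorem brT2 (hA : A.LiesOverPrime 3) (x : Om M) (hx : jOm M * x ^ 2 = (x + 256) ^ 3)
    (S : Finset (Om M)) (hS : ∀ s, s ∈ S ↔ s = 0 ∨ s = -64) :
    (∀ s ∈ S, s ∈ Rc M A E) ∧
    (∀ s ∈ S, ∀ t ∈ S, s ≠ t → (s - t)⁻¹ ∈ Rc M A E) ∧
    (∀ s ∈ S, s ≠ 0 → s⁻¹ ∈ Rc M A E) ∧
    (∀ O : ValuationSubring (Om M), (∀ a ∈ Lc M, a ∈ O) → ∀ c ∈ Lc M, c ∉ S →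
      x - c ∈ O → (x - c)⁻¹ ∉ O → ∀ t ∈ O, t⁻¹ ∉ O → t * (x - c)⁻¹ ∈ O) := by
  have hu : ((64 : ℤ) : Om M)⁻¹ ∈ Rc M A E :=
    inv_intCast_mem_Rc M A E 64 (inv_64_mem A hA)
  have hcast : ((64 : ℤ) : Om M) = 64 := by norm_num
  rw [hcast] at hu
  refine ⟨?_, ?_, ?_, brT2_unramified M x hx S hS⟩
  · intro s hs
    rcases (hS s).1 hs with rfl | rfl
    · exact zero_mem _
    · have := intCast_mem_Rc M A E 64
      rw [hcast] at this
      exact neg_mem this
  · intro s hs t ht hst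
    rcases (hS s).1 hs with rfl | rfl <;> rcases (hS t).1 ht with rfl | rfl
    · exact absurd rfl hst
    · rwa [zero_sub, neg_neg]
    · rw [sub_zero, inv_neg]
      exact neg_mem hu
    · exact absurd rfl hst
  · intro s hs hs0
    rcases (hS s).1 hs with rfl | rfl
    · exact absurd rfl hs0
    · rw [inv_neg]
      exact neg_mem hu

end T2

/-! ### The Hauptmodul `t₃`, `ℓ = 2` -/

section T3

variable (A : ValuationSubring Qb) (E : IntermediateField ℚ Qb)

theorem inv_27_mem (hA : A.LiesOverPrime 2) : ((27 : ℤ) : Qb)⁻¹ ∈ A := by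
  apply inv_intCast_mem_of_coprime A hA
  have hcop : Nat.Coprime 27 2 := by norm_num
  exact_mod_cast (Nat.isCoprime_iff_coprime.2 hcop)

theorem brT3_unramified (x : Om M) (hx : jOm M * x ^ 3 = (x + 27) * (x + 243) ^ 3)
    (S : Finset (Om M)) (hS : ∀ s, s ∈ S ↔ s = 0 ∨ s = -27) :
    ∀ O : ValuationSubring (Om M), (∀ a ∈ Lc M, a ∈ O) → ∀ c ∈ Lc M, c ∉ S →
      x - c ∈ O → (x - c)⁻¹ ∉ O → ∀ t ∈ O, t⁻¹ ∉ O → t * (x - c)⁻¹ ∈ O := by
  apply unramified_of_ord
  intro c hcS v hv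
  rw [jOm_eq_jF] at hx
  have h0 : c ≠ 0 := by
    rintro rfl
    exact hcS ((hS _).2 (Or.inl (map_zero _)))
  have h1 : c ≠ -27 := by
    rintro rfl
    exact hcS ((hS _).2 (Or.inr (by rw [map_neg, map_ofNat])))
  exact ord_t3_sub_eq_one M x hx c h0 h1 v hv

/-- **G-BR for `x = t₃`, `ℓ = 2`**. -/
theorem brT3 (hA : A.LiesOverPrime 2) (x : Om M)
    (hx : jOm M * x ^ 3 = (x + 27) * (x + 243) ^ 3)
    (S : Finset (Om M)) (hS : ∀ s, s ∈ S ↔ s = 0 ∨ s = -27) :
    (∀ s ∈ S, s ∈ Rc M A E) ∧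
    (∀ s ∈ S, ∀ t ∈ S, s ≠ t → (s - t)⁻¹ ∈ Rc M A E) ∧
    (∀ s ∈ S, s ≠ 0 → s⁻¹ ∈ Rc M A E) ∧
    (∀ O : ValuationSubring (Om M), (∀ a ∈ Lc M, a ∈ O) → ∀ c ∈ Lc M, c ∉ S →
      x - c ∈ O → (x - c)⁻¹ ∉ O → ∀ t ∈ O, t⁻¹ ∉ O → t * (x - c)⁻¹ ∈ O) := by
  have hu : ((27 : ℤ) : Om M)⁻¹ ∈ Rc M A E :=
    inv_intCast_mem_Rc M A E 27 (inv_27_mem A hA)
  have hcast : ((27 : ℤ) : Om M) = 27 := by norm_num
  rw [hcast] at hu
  refine ⟨?_, ?_, ?_, brT3_unramified M x hx S hS⟩
  · intro s hs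
    rcases (hS s).1 hs with rfl | rfl
    · exact zero_mem _
    · have := intCast_mem_Rc M A E 27
      rw [hcast] at this
      exact neg_mem this
  · intro s hs t ht hst
    rcases (hS s).1 hs with rfl | rfl <;> rcases (hS t).1 ht with rfl | rfl
    · exact absurd rfl hst
    · rwa [zero_sub, neg_neg]
    · rw [sub_zero, inv_neg]
      exact neg_mem hu
    · exact absurd rfl hst
  · intro s hs hs0
    rcases (hS s).1 hs with rfl | rfl
    · exact absurd rfl hs0
    · rw [inv_neg]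
      exact neg_mem hu

end T3

/-- **G-BR, all admissible coordinates at once**: for every coordinate `x` with branch set `S`
in the sense of `Mod.IsCoordinate`, the four branch fields of `Alg.GoodModel` hold at the concrete
objects, for every intermediate field `E`. -/
theorem br_of_isCoordinate {ℓ : ℕ} [Fact ℓ.Prime] (A : ValuationSubring Qb)
    (hA : A.LiesOverPrime ℓ) (E : IntermediateField ℚ Qb) (x : Om M) (S : Finset (Om M))
    (hx : IsCoordinate M ℓ x S) :
    (∀ s ∈ S, s ∈ Rc M A E) ∧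
    (∀ s ∈ S, ∀ t ∈ S, s ≠ t → (s - t)⁻¹ ∈ Rc M A E) ∧
    (∀ s ∈ S, s ≠ 0 → s⁻¹ ∈ Rc M A E) ∧
    (∀ O : ValuationSubring (Om M), (∀ a ∈ Lc M, a ∈ O) → ∀ c ∈ Lc M, c ∉ S →
      x - c ∈ O → (x - c)⁻¹ ∉ O → ∀ t ∈ O, t⁻¹ ∉ O → t * (x - c)⁻¹ ∈ O) := by
  rcases hx with ⟨h5, rfl, hS⟩ | ⟨⟨h3, hid, hS⟩ | ⟨h2, hid, hS⟩, -⟩
  · exact brJ M A E Fact.out h5 hA S hS
  · subst h3
    exact brT2 M A E hA x hid S hS
  · subst h2
    exact brT3 M A E hA x hid S hS

end Fermat.Agent.S18.H558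

end

end
-- ===== PACK-END S18/H558/PartBr.lean

-- ===== PACK-BEGIN A2/Mod/H31/Deg.lean
section



/-!
# A2 / MOD leaf L8 (helper31): `DegStatement`

`[F_{Mq} : E(x)] = 2 (q+1) ψ(M)` for `x = j · j_q`, `x` transcendental over `E`, and `E` is
algebraically closed in `F_{Mq}`.  Statement VERBATIM from `Fermat/Agent/A2/Mod/Spec.lean`.
-/

set_option autoImplicit false
set_option synthInstance.maxHeartbeats 400000
set_option maxHeartbeats 1600000

noncomputable section

namespace Fermat.Agent.A2.Mod.H31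

open ModularCurve HahnSeries Polynomial IntermediateField

variable (E : IntermediateField ℚ _root_.Fermat.Agent.A2.Mod.Qb)

theorem FE_eq_fullC (N : ℕ) : _root_.Fermat.Agent.A2.Mod.FE E N = modularFunctionFieldFullC E N :=
  S28.H988.laurentBaseChange_full_eq_fullC E N

theorem coe_jE (N d : ℕ) [NeZero d] (hd : d ∣ N) :
    ((jE E N d hd : _root_.Fermat.Agent.A2.Mod.FE E N) : LaurentSeries E) = qExpand E d (jqModC E) := by
  show coeffEmb E (qExpand ℚ d jq) = _
  rw [coeffEmb, ← jqModC_rat, coeffMap_qExpand, coeffMap_jqModC]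

theorem coe_xE (M q : ℕ) [NeZero q] :
    ((xE E M q : _root_.Fermat.Agent.A2.Mod.FE E (M * q)) : LaurentSeries E) = jqModC E * qExpand E q (jqModC E) := by
  rw [xE, MulMemClass.coe_mul, coe_jE, coe_jE, qExpand_one_apply]

/-- **Leaf L8.** -/
theorem deg (M q : ℕ) [NeZero q] : DegStatement E M q := by
  intro hq hqM
  have hchar : ∀ p : ℕ, p.Prime → p ∣ M * q → ((p : ℕ) : E) ≠ 0 :=
    fun p hp _ => Nat.cast_ne_zero.mpr hp.ne_zero
  refine ⟨?_, ?_, ?_⟩
  · intro h
    have h2 : IsAlgebraic E ((xE E M q : _root_.Fermat.Agent.A2.Mod.FE E (M * q)) : LaurentSeries E) :=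
      (isAlgebraic_algHom_iff (_root_.Fermat.Agent.A2.Mod.FE E (M * q)).val Subtype.val_injective).mpr h
    rw [coe_xE] at h2
    exact transcendental_x E q h2
  · have h1 : adjoin E {xE E M q}
        = (adjoin E {((xE E M q : _root_.Fermat.Agent.A2.Mod.FE E (M * q)) : LaurentSeries E)}).comap
            (_root_.Fermat.Agent.A2.Mod.FE E (M * q)).val := by
      have h0 : (adjoin E {xE E M q}).map (_root_.Fermat.Agent.A2.Mod.FE E (M * q)).val
          = adjoin E {((xE E M q : _root_.Fermat.Agent.A2.Mod.FE E (M * q)) : LaurentSeries E)} := by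
        rw [adjoin_map, Set.image_singleton]
        rfl
      rw [← h0, comap_map]
    rw [h1, finrank_comap, fieldRange_val, coe_xE, FE_eq_fullC]
    exact relfinrank_x_fullC E M hq hqM hchar
  · intro f hf
    have h2 : IsAlgebraic E ((f : _root_.Fermat.Agent.A2.Mod.FE E (M * q)) : LaurentSeries E) :=
      (isAlgebraic_algHom_iff (_root_.Fermat.Agent.A2.Mod.FE E (M * q)).val Subtype.val_injective).mpr hf
    obtain ⟨c, hc⟩ := laurent_const_of_isAlgebraic _ h2
    exact ⟨c, Subtype.ext hc.symm⟩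

end Fermat.Agent.A2.Mod.H31

end

end
-- ===== PACK-END A2/Mod/H31/Deg.lean

-- ===== PACK-BEGIN A2/Mod/H753/IndZero.lean
section






/-!
# A2 / MOD leaf L10 `IndZero` (helper753): residue independence on `C₀`

`V₀ = V∞ ∘ W` at level `N = M q`.  With `W x = j_M · j_{Mq}` (`x = j j_q`), reduction
`J^(q+1)`, `J = j̄(t^M)`, the family `d (a, i) = α(Z i · j_M^a)` (`Z i` = Fricke dual at level `M`
of the S28 monomial `Y i`, `0 ≤ a ≤ q`) lies in `V∞` and is independent modulo `w` over `R[W x]`;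
`c := W ∘ d`.

* `inW_of_red_eq_zero` : converse of `red_eq_zero_of_inW`;
* `map_ev`, `inW_comap_iff` : transport along an `E`-automorphism;
* `polyIndep_dual` : `PolyIndep J (Z̄ i)` from `PolyIndep j̄ (Ȳ i)` and L7 (level `M`);
* `indZero_of`, `indZero : IndZeroStatement P E M q w`;
* `indepMod_inv` : `IndepMod` for the coordinate `x⁻¹` from `IndepMod` for `x` (`x` a unit of `V`).
-/

set_option autoImplicit false
set_option synthInstance.maxHeartbeats 400000
set_option maxHeartbeats 1600000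

noncomputable section

namespace Fermat.Agent.A2.Mod.H753

open ModularCurve HahnSeries Polynomial
open Fermat.Agent.S28 (intDivisorExpansions jField)
open Fermat.Agent.S28.H325 (castL PolyIndep)

section Gen

variable (P : ValuationSubring _root_.Fermat.Agent.A2.Mod.Qb) (E : IntermediateField ℚ _root_.Fermat.Agent.A2.Mod.Qb)

/-- an integral series with zero reduction lies in `w V∞`. -/
theorem inW_of_red_eq_zero {N : ℕ} {V : ValuationSubring (_root_.Fermat.Agent.A2.Mod.FE E N)} (hV : IsVinf P E N V)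
    {w : _root_.Fermat.Agent.A2.Mod.RE P E} (hdvr : IsDiscreteValuationRing (_root_.Fermat.Agent.A2.Mod.RE P E)) (hw : Irreducible w) {f : _root_.Fermat.Agent.A2.Mod.FE E N}
    {S : LaurentSeries (_root_.Fermat.Agent.A2.Mod.RE P E)} (hS : (f : LaurentSeries E) = H708.incl (_root_.Fermat.Agent.A2.Mod.RE P E) S)
    (hred : H708.red (_root_.Fermat.Agent.A2.Mod.RE P E) S = 0) : InW P E N V w f := by
  have hw0 : w ≠ 0 := hw.ne_zero
  have hdiv : ∀ n, w ∣ S.coeff n := by
    intro n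
    have h1 : IsLocalRing.residue (_root_.Fermat.Agent.A2.Mod.RE P E) (S.coeff n) = 0 := by
      have := congrArg (fun z => z.coeff n) hred
      simpa using this
    rw [IsLocalRing.residue_eq_zero_iff, hw.maximalIdeal_eq, Ideal.mem_span_singleton] at h1
    exact h1
  obtain ⟨U', hU'⟩ := H549.exists_cstA_mul_eq w hw0 S hdiv
  have hwE : ((w : E)) ≠ 0 := fun h0 => hw0 (Subtype.ext h0)
  have hc : H708.cst (w : E) ≠ 0 := H708.cst_ne_zero hwE
  have hcoe : (((f * (cE P E N w)⁻¹ : _root_.Fermat.Agent.A2.Mod.FE E N)) : LaurentSeries E) = H708.incl (_root_.Fermat.Agent.A2.Mod.RE P E) U' := by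
    rw [IntermediateField.coe_mul, IntermediateField.coe_inv, hS, ← hU', map_mul, H708.incl_cstA]
    show H708.cst (w : E) * _ * (H708.cst (w : E))⁻¹ = _
    field_simp
  show f * (cE P E N w)⁻¹ ∈ V
  rw [hV, hcoe]
  exact H708.IsGaussInt.of_incl _

variable {P E}

theorem map_ev {N : ℕ} (W : _root_.Fermat.Agent.A2.Mod.FE E N ≃ₐ[E] _root_.Fermat.Agent.A2.Mod.FE E N) (x : _root_.Fermat.Agent.A2.Mod.FE E N) (p : Polynomial (_root_.Fermat.Agent.A2.Mod.RE P E)) :
    W (ev P E N x p) = ev P E N (W x) p := by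
  have h := Polynomial.hom_eval₂ p ((algebraMap E (_root_.Fermat.Agent.A2.Mod.FE E N)).comp (_root_.Fermat.Agent.A2.Mod.RE P E).subtype)
    (W : _root_.Fermat.Agent.A2.Mod.FE E N →+* _root_.Fermat.Agent.A2.Mod.FE E N) x
  have h2 : ((W : _root_.Fermat.Agent.A2.Mod.FE E N →+* _root_.Fermat.Agent.A2.Mod.FE E N).comp ((algebraMap E (_root_.Fermat.Agent.A2.Mod.FE E N)).comp (_root_.Fermat.Agent.A2.Mod.RE P E).subtype))
      = (algebraMap E (_root_.Fermat.Agent.A2.Mod.FE E N)).comp (_root_.Fermat.Agent.A2.Mod.RE P E).subtype :=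
    RingHom.ext fun r => W.commutes _
  rw [h2] at h
  exact h

theorem inW_comap_iff {N : ℕ} (V : ValuationSubring (_root_.Fermat.Agent.A2.Mod.FE E N)) (W : _root_.Fermat.Agent.A2.Mod.FE E N ≃ₐ[E] _root_.Fermat.Agent.A2.Mod.FE E N)
    (w : _root_.Fermat.Agent.A2.Mod.RE P E) (f : _root_.Fermat.Agent.A2.Mod.FE E N) :
    InW P E N (V.comap (W : _root_.Fermat.Agent.A2.Mod.FE E N →+* _root_.Fermat.Agent.A2.Mod.FE E N)) w f ↔ InW P E N V w (W f) := by
  have h1 : W (f * (cE P E N w)⁻¹) = W f * (cE P E N w)⁻¹ := by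
    rw [map_mul, map_inv₀]
    congr 2
    exact W.commutes _
  show (W : _root_.Fermat.Agent.A2.Mod.FE E N →+* _root_.Fermat.Agent.A2.Mod.FE E N) (f * (cE P E N w)⁻¹) ∈ V ↔ W f * (cE P E N w)⁻¹ ∈ V
  rw [← h1]
  rfl

theorem coe_jE_incl (N d : ℕ) [NeZero d] (hd : d ∣ N) :
    ((jE E N d hd : _root_.Fermat.Agent.A2.Mod.FE E N) : LaurentSeries E)
      = H708.incl (_root_.Fermat.Agent.A2.Mod.RE P E) (H708.castA (_root_.Fermat.Agent.A2.Mod.RE P E) (qExpand ℤ d (jqModC ℤ))) := by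
  rw [H708.incl_castA, H708.castQ, coeffMap_qExpand, ← H708.castQ, castQ_jqModC]
  rfl

end Gen

/-! ## relations of integral series and their reductions -/

section Rel

variable (P : ValuationSubring _root_.Fermat.Agent.A2.Mod.Qb) (E : IntermediateField ℚ _root_.Fermat.Agent.A2.Mod.Qb)

/-- the series of `∑ aᵢ(u) hᵢ` for integer series `u`, `hᵢ`. -/
theorem coe_sum_ev {N n : ℕ} (u : _root_.Fermat.Agent.A2.Mod.FE E N) (U : LaurentSeries ℤ)
    (hu : (u : LaurentSeries E) = H708.incl (_root_.Fermat.Agent.A2.Mod.RE P E) (H708.castA (_root_.Fermat.Agent.A2.Mod.RE P E) U))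
    (h : Fin n → _root_.Fermat.Agent.A2.Mod.FE E N) (Z : Fin n → LaurentSeries ℤ)
    (hh : ∀ i, (h i : LaurentSeries E) = H708.incl (_root_.Fermat.Agent.A2.Mod.RE P E) (H708.castA (_root_.Fermat.Agent.A2.Mod.RE P E) (Z i)))
    (a : Fin n → Polynomial (_root_.Fermat.Agent.A2.Mod.RE P E)) :
    ((∑ i, ev P E N u (a i) * h i : _root_.Fermat.Agent.A2.Mod.FE E N) : LaurentSeries E)
      = H708.incl (_root_.Fermat.Agent.A2.Mod.RE P E)
        (∑ i, aeval (H708.castA (_root_.Fermat.Agent.A2.Mod.RE P E) U) (a i) * H708.castA (_root_.Fermat.Agent.A2.Mod.RE P E) (Z i)) := by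
  rw [map_sum, IntermediateField.coe_sum]
  refine Finset.sum_congr rfl fun i _ => ?_
  rw [IntermediateField.coe_mul, coe_ev P E u _ hu (a i), hh i, map_mul]

theorem red_sum_aeval {n : ℕ} (U : LaurentSeries ℤ) (Z : Fin n → LaurentSeries ℤ)
    (a : Fin n → Polynomial (_root_.Fermat.Agent.A2.Mod.RE P E)) :
    H708.red (_root_.Fermat.Agent.A2.Mod.RE P E)
        (∑ i, aeval (H708.castA (_root_.Fermat.Agent.A2.Mod.RE P E) U) (a i) * H708.castA (_root_.Fermat.Agent.A2.Mod.RE P E) (Z i))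
      = ∑ i, aeval (castL (IsLocalRing.ResidueField (_root_.Fermat.Agent.A2.Mod.RE P E)) U)
          ((a i).map (IsLocalRing.residue (_root_.Fermat.Agent.A2.Mod.RE P E))) *
          castL (IsLocalRing.ResidueField (_root_.Fermat.Agent.A2.Mod.RE P E)) (Z i) := by
  rw [map_sum]
  refine Finset.sum_congr rfl fun i _ => ?_
  rw [map_mul, H708.red, Fermat.Agent.S28.H325.coeffMap_aeval, ← H708.red, red_castA, red_castA]

/-- a relation in `w V∞` between integer series reduces to a relation over `k`. -/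
theorem relation_red {N n : ℕ} {V : ValuationSubring (_root_.Fermat.Agent.A2.Mod.FE E N)} (hV : IsVinf P E N V)
    {w : _root_.Fermat.Agent.A2.Mod.RE P E} (hw : Irreducible w)
    (u : _root_.Fermat.Agent.A2.Mod.FE E N) (U : LaurentSeries ℤ)
    (hu : (u : LaurentSeries E) = H708.incl (_root_.Fermat.Agent.A2.Mod.RE P E) (H708.castA (_root_.Fermat.Agent.A2.Mod.RE P E) U))
    (h : Fin n → _root_.Fermat.Agent.A2.Mod.FE E N) (Z : Fin n → LaurentSeries ℤ)
    (hh : ∀ i, (h i : LaurentSeries E) = H708.incl (_root_.Fermat.Agent.A2.Mod.RE P E) (H708.castA (_root_.Fermat.Agent.A2.Mod.RE P E) (Z i)))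
    (a : Fin n → Polynomial (_root_.Fermat.Agent.A2.Mod.RE P E))
    (hin : InW P E N V w (∑ i, ev P E N u (a i) * h i)) :
    ∑ i, aeval (castL (IsLocalRing.ResidueField (_root_.Fermat.Agent.A2.Mod.RE P E)) U)
        ((a i).map (IsLocalRing.residue (_root_.Fermat.Agent.A2.Mod.RE P E))) *
        castL (IsLocalRing.ResidueField (_root_.Fermat.Agent.A2.Mod.RE P E)) (Z i) = 0 := by
  have hwm : w ∈ IsLocalRing.maximalIdeal (_root_.Fermat.Agent.A2.Mod.RE P E) := by
    rw [IsLocalRing.mem_maximalIdeal, mem_nonunits_iff]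
    exact hw.not_isUnit
  rw [← red_sum_aeval]
  exact red_eq_zero_of_inW hV hw.ne_zero hwm (coe_sum_ev P E u U hu h Z hh a) hin

/-- a relation over `k` between reductions of integer series lifts to a relation in `w V∞`. -/
theorem relation_inW {N n : ℕ} {V : ValuationSubring (_root_.Fermat.Agent.A2.Mod.FE E N)} (hV : IsVinf P E N V)
    {w : _root_.Fermat.Agent.A2.Mod.RE P E} (hdvr : IsDiscreteValuationRing (_root_.Fermat.Agent.A2.Mod.RE P E)) (hw : Irreducible w)
    (u : _root_.Fermat.Agent.A2.Mod.FE E N) (U : LaurentSeries ℤ)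
    (hu : (u : LaurentSeries E) = H708.incl (_root_.Fermat.Agent.A2.Mod.RE P E) (H708.castA (_root_.Fermat.Agent.A2.Mod.RE P E) U))
    (h : Fin n → _root_.Fermat.Agent.A2.Mod.FE E N) (Z : Fin n → LaurentSeries ℤ)
    (hh : ∀ i, (h i : LaurentSeries E) = H708.incl (_root_.Fermat.Agent.A2.Mod.RE P E) (H708.castA (_root_.Fermat.Agent.A2.Mod.RE P E) (Z i)))
    (a : Fin n → Polynomial (_root_.Fermat.Agent.A2.Mod.RE P E))
    (hrel : ∑ i, aeval (castL (IsLocalRing.ResidueField (_root_.Fermat.Agent.A2.Mod.RE P E)) U)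
        ((a i).map (IsLocalRing.residue (_root_.Fermat.Agent.A2.Mod.RE P E))) *
        castL (IsLocalRing.ResidueField (_root_.Fermat.Agent.A2.Mod.RE P E)) (Z i) = 0) :
    InW P E N V w (∑ i, ev P E N u (a i) * h i) := by
  rw [← red_sum_aeval] at hrel
  exact inW_of_red_eq_zero P E hV hdvr hw (coe_sum_ev P E u U hu h Z hh a) hrel

end Rel

/-! ## the Fricke-dual family at level `M` -/

section Dual

variable (P : ValuationSubring _root_.Fermat.Agent.A2.Mod.Qb) (E : IntermediateField ℚ _root_.Fermat.Agent.A2.Mod.Qb) (M q : ℕ) [NeZero M] [NeZero q]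

/-- **dual independence.**  If `W_M hᵢ = gᵢ` (integer series `Zᵢ`, `Yᵢ`) and the `Ȳᵢ` are
polynomially independent over `k[j̄]`, then the `Z̄ᵢ` are polynomially independent over
`k[j̄_M]`. -/
theorem polyIndep_dual (w : _root_.Fermat.Agent.A2.Mod.RE P E) (hS : Setting P E M q w)
    (WM : _root_.Fermat.Agent.A2.Mod.FE E M ≃ₐ[E] _root_.Fermat.Agent.A2.Mod.FE E M) (hWM : IsFricke E M WM)
    (VM : ValuationSubring (_root_.Fermat.Agent.A2.Mod.FE E M)) (hVM : IsVinf P E M VM)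
    {n : ℕ} (g h : Fin n → _root_.Fermat.Agent.A2.Mod.FE E M) (Y Z : Fin n → LaurentSeries ℤ)
    (hg : ∀ i, (g i : LaurentSeries E) = H708.incl (_root_.Fermat.Agent.A2.Mod.RE P E) (H708.castA (_root_.Fermat.Agent.A2.Mod.RE P E) (Y i)))
    (hh : ∀ i, (h i : LaurentSeries E) = H708.incl (_root_.Fermat.Agent.A2.Mod.RE P E) (H708.castA (_root_.Fermat.Agent.A2.Mod.RE P E) (Z i)))
    (hgh : ∀ i, WM (h i) = g i)
    (hY : PolyIndep (jqModC (IsLocalRing.ResidueField (_root_.Fermat.Agent.A2.Mod.RE P E)))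
      (fun i => castL (IsLocalRing.ResidueField (_root_.Fermat.Agent.A2.Mod.RE P E)) (Y i))) :
    PolyIndep (castL (IsLocalRing.ResidueField (_root_.Fermat.Agent.A2.Mod.RE P E)) (qExpand ℤ M (jqModC ℤ)))
      (fun i => castL (IsLocalRing.ResidueField (_root_.Fermat.Agent.A2.Mod.RE P E)) (Z i)) := by
  intro Pb hPb
  have hsurj : ∀ i, ∃ p : Polynomial (_root_.Fermat.Agent.A2.Mod.RE P E), p.map (IsLocalRing.residue (_root_.Fermat.Agent.A2.Mod.RE P E)) = Pb i :=
    fun i => Polynomial.map_surjective _ IsLocalRing.residue_surjective (Pb i)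
  choose p hp using hsurj
  have hrel : ∑ i, aeval (castL (IsLocalRing.ResidueField (_root_.Fermat.Agent.A2.Mod.RE P E)) (qExpand ℤ M (jqModC ℤ)))
      ((p i).map (IsLocalRing.residue (_root_.Fermat.Agent.A2.Mod.RE P E))) *
      castL (IsLocalRing.ResidueField (_root_.Fermat.Agent.A2.Mod.RE P E)) (Z i) = 0 := by
    rw [← hPb]
    exact Finset.sum_congr rfl fun i _ => by rw [hp i]
  have h1 := relation_inW P E hVM hS.dvr hS.unif (jE E M M dvd_rfl) _
    (coe_jE_incl M M dvd_rfl) h Z hh p hrel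
  have h2 : InW P E M VM w (WM (∑ i, ev P E M (jE E M M dvd_rfl) (p i) * h i)) := by
    rw [← inW_comap_iff]
    exact H900.frickeStable P E M q w hS VM WM hVM hWM _ h1
  have h3 : WM (∑ i, ev P E M (jE E M M dvd_rfl) (p i) * h i)
      = ∑ i, ev P E M (jE E M 1 (one_dvd M)) (p i) * g i := by
    rw [map_sum]
    refine Finset.sum_congr rfl fun i _ => ?_
    rw [map_mul, map_ev, hgh i, hWM.1 M 1 dvd_rfl (one_dvd M) (mul_one M)]
  rw [h3] at h2
  have h4 := relation_red P E hVM hS.unif (jE E M 1 (one_dvd M)) _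
    (coe_jE_incl M 1 (one_dvd M)) g Y hg p h2
  rw [qExpand_one_apply, Fermat.Agent.S28.H325.castL_jqModC] at h4
  intro i
  rw [← hp i]
  exact hY _ h4 i

end Dual

/-! ## the leaf L10 -/

section MainZero

variable (P : ValuationSubring _root_.Fermat.Agent.A2.Mod.Qb) (E : IntermediateField ℚ _root_.Fermat.Agent.A2.Mod.Qb) (M q : ℕ) [NeZero q]

theorem incl_castA_eq (y : LaurentSeries ℤ) :
    H708.incl (_root_.Fermat.Agent.A2.Mod.RE P E) (H708.castA (_root_.Fermat.Agent.A2.Mod.RE P E) y) = coeffMap (Int.castRingHom E) y := by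
  rw [H708.incl, H708.castA, coeffMap_coeffMap]
  exact coeffMap_congr (RingHom.ext_int _ _) y

/-- Frobenius for an arbitrary integer series: `x̄(t^q) = x̄(t)^q` in characteristic `q`. -/
theorem castL_qExpand_pow (hq : q.Prime) (k : Type*) [Field k] [CharP k q]
    (x : LaurentSeries ℤ) : castL k (qExpand ℤ q x) = castL k x ^ q := by
  have : Fact q.Prime := ⟨hq⟩
  obtain ⟨g, hg⟩ := H528.exists_frobCong q x
  have h1 : qExpand ℤ q x = x ^ q + HahnSeries.C (q : ℤ) * g := by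
    rw [← hg]; ring
  have h2 : castL k (HahnSeries.C (q : ℤ)) = 0 := by
    ext n
    rw [castL, coeffMap_coeff, HahnSeries.coeff_zero, HahnSeries.C_apply,
      HahnSeries.coeff_single]
    split_ifs
    · rw [eq_intCast, Int.cast_natCast, CharP.cast_eq_zero k q]
    · rw [map_zero]
  rw [h1, map_add, map_mul, h2, zero_mul, add_zero, map_pow]

/-- **L10, strong form**: the family `d` lies in `V∞`, is independent modulo `w` over `R[W x]`,
and `c = W ∘ d`. -/
theorem indZero_strong (w : _root_.Fermat.Agent.A2.Mod.RE P E) (hS : Setting P E M q w)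
    (V : ValuationSubring (_root_.Fermat.Agent.A2.Mod.FE E (M * q))) (W : _root_.Fermat.Agent.A2.Mod.FE E (M * q) ≃ₐ[E] _root_.Fermat.Agent.A2.Mod.FE E (M * q))
    (hV : IsVinf P E (M * q) V) (hW : IsFricke E (M * q) W) :
    ∃ d : Fin ((q + 1) * dedekindPsi M) → _root_.Fermat.Agent.A2.Mod.FE E (M * q),
      (∀ i, d i ∈ V) ∧ IndepMod P E (M * q) V w (W (xE E M q)) d ∧
      IndepMod P E (M * q) (V.comap (W : _root_.Fermat.Agent.A2.Mod.FE E (M * q) →+* _root_.Fermat.Agent.A2.Mod.FE E (M * q))) w (xE E M q)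
        (fun i => W (d i)) := by
  have hM : NeZero M := ⟨hS.M_ne_zero⟩
  have hMq : NeZero (M * q) := ⟨mul_ne_zero hS.M_ne_zero (NeZero.ne q)⟩
  have hchar : CharP (IsLocalRing.ResidueField (_root_.Fermat.Agent.A2.Mod.RE P E)) q :=
    charP_residueField P E hS.q_prime hS.lies_over
  obtain ⟨Y, hY, hYi⟩ := exists_monomials M q hS.q_prime hS.q_not_dvd
    (IsLocalRing.ResidueField (_root_.Fermat.Agent.A2.Mod.RE P E))
  obtain ⟨VM, hVM⟩ := H553.vinfExists P E M hS.M_ne_zero hS.dvr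
  obtain ⟨WM, hWM⟩ := H751.frickeExists E M hS.M_ne_zero
  have hW' : H900.FrickeOnGens M WM := fun d d' _ _ hd hd' h => hWM.1 d d' hd hd' h
  have hsub : Submonoid.closure (intDivisorExpansions M) ≤
      (Subring.closure (intDivisorExpansions M)).toSubmonoid := by
    rw [Submonoid.closure_le]
    exact Subring.subset_closure
  have hex : ∀ i, ∃ (g : _root_.Fermat.Agent.A2.Mod.FE E M) (Z : LaurentSeries ℤ),
      (g : LaurentSeries E) = H900.castL E (Y i) ∧
      ((WM g : _root_.Fermat.Agent.A2.Mod.FE E M) : LaurentSeries E) = H900.castL E Z :=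
    fun i => H900.exists_int_of_closure hW' (hsub (hY i))
  choose g Z hg hZ using hex
  have hgi : ∀ i, (g i : LaurentSeries E)
      = H708.incl (_root_.Fermat.Agent.A2.Mod.RE P E) (H708.castA (_root_.Fermat.Agent.A2.Mod.RE P E) (Y i)) := fun i => by
    rw [incl_castA_eq]; exact hg i
  have hhi : ∀ i, ((WM (g i) : _root_.Fermat.Agent.A2.Mod.FE E M) : LaurentSeries E)
      = H708.incl (_root_.Fermat.Agent.A2.Mod.RE P E) (H708.castA (_root_.Fermat.Agent.A2.Mod.RE P E) (Z i)) := fun i => by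
    rw [incl_castA_eq]; exact hZ i
  have hdual := polyIndep_dual P E M q w hS WM hWM VM hVM g (fun i => WM (g i)) Y Z hgi hhi
    (fun i => hWM.2 (g i)) hYi
  -- the family at level `M q`
  set d : Fin ((q + 1) * dedekindPsi M) → _root_.Fermat.Agent.A2.Mod.FE E (M * q) := fun i =>
    αE E M q (WM (g (finProdFinEquiv.symm i).2) *
      (jE E M M dvd_rfl) ^ ((finProdFinEquiv.symm i).1 : ℕ)) with hd
  have hdcoe : ∀ i, (d i : LaurentSeries E) = H708.incl (_root_.Fermat.Agent.A2.Mod.RE P E) (H708.castA (_root_.Fermat.Agent.A2.Mod.RE P E)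
      (Z (finProdFinEquiv.symm i).2 *
        (qExpand ℤ M (jqModC ℤ)) ^ ((finProdFinEquiv.symm i).1 : ℕ))) := fun i => by
    rw [hd, coe_heckeAlphaBar, IntermediateField.coe_mul, IntermediateField.coe_pow, hhi,
      coe_jE_incl (P := P) M M dvd_rfl, map_mul, map_mul, map_pow, map_pow]
  have hdV : ∀ i, d i ∈ V := fun i => by
    rw [hV, hdcoe]
    exact H708.IsGaussInt.of_incl _
  have hWx : W (xE E M q) = jE E (M * q) (M * q) dvd_rfl * jE E (M * q) M (dvd_mul_right M q) := by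
    rw [xE, map_mul, hW.1 1 (M * q) (one_dvd _) dvd_rfl (one_mul _),
      hW.1 q M (dvd_mul_left q M) (dvd_mul_right M q) (mul_comm q M)]
  have hWxcoe : ((W (xE E M q) : _root_.Fermat.Agent.A2.Mod.FE E (M * q)) : LaurentSeries E)
      = H708.incl (_root_.Fermat.Agent.A2.Mod.RE P E) (H708.castA (_root_.Fermat.Agent.A2.Mod.RE P E)
        (qExpand ℤ (M * q) (jqModC ℤ) * qExpand ℤ M (jqModC ℤ))) := by
    rw [hWx, IntermediateField.coe_mul, coe_jE_incl (P := P) (M * q) (M * q) dvd_rfl,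
      coe_jE_incl (P := P) (M * q) M (dvd_mul_right M q), map_mul, map_mul]
  have hXW : castL (IsLocalRing.ResidueField (_root_.Fermat.Agent.A2.Mod.RE P E))
      (qExpand ℤ (M * q) (jqModC ℤ) * qExpand ℤ M (jqModC ℤ))
      = castL (IsLocalRing.ResidueField (_root_.Fermat.Agent.A2.Mod.RE P E)) (qExpand ℤ M (jqModC ℤ)) ^ (q + 1) := by
    have h1 : qExpand ℤ (M * q) (jqModC ℤ) = qExpand ℤ q (qExpand ℤ M (jqModC ℤ)) := by
      rw [qExpand_qExpand]
      exact qExpand_congr (mul_comm M q) _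
    rw [map_mul, h1, castL_qExpand_pow q hS.q_prime, pow_succ]
  have hind : IndepMod P E (M * q) V w (W (xE E M q)) d := by
    intro a ha i
    have h1 := relation_red P E hV hS.unif (W (xE E M q)) _ hWxcoe d _ hdcoe a ha
    rw [hXW] at h1
    have h2 : ∑ i, aeval (castL (IsLocalRing.ResidueField (_root_.Fermat.Agent.A2.Mod.RE P E))
          (qExpand ℤ M (jqModC ℤ)) ^ (q + 1))
        ((a i).map (IsLocalRing.residue (_root_.Fermat.Agent.A2.Mod.RE P E))) *
        (castL (IsLocalRing.ResidueField (_root_.Fermat.Agent.A2.Mod.RE P E)) (Z (finProdFinEquiv.symm i).2) *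
          castL (IsLocalRing.ResidueField (_root_.Fermat.Agent.A2.Mod.RE P E)) (qExpand ℤ M (jqModC ℤ))
            ^ ((finProdFinEquiv.symm i).1 : ℕ)) = 0 := by
      rw [← h1]
      refine Finset.sum_congr rfl fun i _ => ?_
      rw [map_mul, map_pow]
    have hzero := polyIndep_tower (q + 1) (Nat.succ_pos q) _ _ hdual
      (fun i => (a i).map (IsLocalRing.residue (_root_.Fermat.Agent.A2.Mod.RE P E))) h2 i
    exact C_dvd_of_map_residue_eq_zero P E hS.dvr hS.unif hzero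
  refine ⟨d, hdV, hind, ?_⟩
  intro a ha i
  rw [inW_comap_iff] at ha
  have h3 : W (∑ i, ev P E (M * q) (xE E M q) (a i) * W (d i))
      = ∑ i, ev P E (M * q) (W (xE E M q)) (a i) * d i := by
    rw [map_sum]
    refine Finset.sum_congr rfl fun i _ => ?_
    rw [map_mul, map_ev, hW.2]
  rw [h3] at ha
  exact hind a ha i

/-- **L10** `IndZero` (exact shape of `Spec.IndZeroStatement`). -/
theorem indZero (w : _root_.Fermat.Agent.A2.Mod.RE P E) : IndZeroStatement P E M q w := by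
  intro hS V W hV hW
  obtain ⟨d, hdV, -, hc⟩ := indZero_strong P E M q w hS V W hV hW
  refine ⟨fun i => W (d i), fun i => ?_, hc⟩
  rw [hW.2]
  exact hdV i

end MainZero

/-! ## the coordinate `x⁻¹` (chart at infinity): the reverse trick -/

section Inv

variable (P : ValuationSubring _root_.Fermat.Agent.A2.Mod.Qb) (E : IntermediateField ℚ _root_.Fermat.Agent.A2.Mod.Qb)

theorem ev_reflect {N : ℕ} (x : _root_.Fermat.Agent.A2.Mod.FE E N) (hx : x ≠ 0) (D : ℕ) (p : Polynomial (_root_.Fermat.Agent.A2.Mod.RE P E))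
    (hp : p.natDegree ≤ D) :
    ev P E N x (p.reflect D) = ev P E N x⁻¹ p * x ^ D := by
  letI : Invertible (x⁻¹) := ⟨x, mul_inv_cancel₀ hx, inv_mul_cancel₀ hx⟩
  have h := Polynomial.eval₂_reflect_mul_pow
    ((algebraMap E (_root_.Fermat.Agent.A2.Mod.FE E N)).comp (_root_.Fermat.Agent.A2.Mod.RE P E).subtype) (x⁻¹) D p hp
  have h2 : ⅟(x⁻¹) = x := rfl
  rw [h2] at h
  have h3 : ev P E N x (p.reflect D) * (x⁻¹) ^ D * x ^ D = ev P E N x⁻¹ p * x ^ D := by
    rw [ev, ev, h]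
  rw [← h3, mul_assoc, ← mul_pow, inv_mul_cancel₀ hx, one_pow, mul_one]

theorem C_dvd_of_C_dvd_reflect {w : _root_.Fermat.Agent.A2.Mod.RE P E} {D : ℕ} {p : Polynomial (_root_.Fermat.Agent.A2.Mod.RE P E)}
    (h : Polynomial.C w ∣ p.reflect D) : Polynomial.C w ∣ p := by
  rw [Polynomial.C_dvd_iff_dvd_coeff] at h ⊢
  intro j
  have := h (Polynomial.revAt D j)
  rwa [Polynomial.coeff_reflect, Polynomial.revAt_invol] at this

/-- **reverse trick.**  Independence modulo `w` over `R[x]` implies independence modulo `w` over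
`R[x⁻¹]`, for `x ∈ V`. -/
theorem indepMod_inv {N n : ℕ} (V : ValuationSubring (_root_.Fermat.Agent.A2.Mod.FE E N)) (w : _root_.Fermat.Agent.A2.Mod.RE P E) (x : _root_.Fermat.Agent.A2.Mod.FE E N)
    (hx : x ∈ V) (b : Fin n → _root_.Fermat.Agent.A2.Mod.FE E N) (h : IndepMod P E N V w x b) :
    IndepMod P E N V w x⁻¹ b := by
  by_cases hx0 : x = 0
  · rw [hx0, inv_zero]
    rw [hx0] at h
    exact h
  intro a ha i
  set D : ℕ := Finset.univ.sup (fun i => (a i).natDegree) with hD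
  have hdeg : ∀ i, (a i).natDegree ≤ D := fun i =>
    Finset.le_sup (f := fun i => (a i).natDegree) (Finset.mem_univ i)
  have h1 : ∑ i, ev P E N x ((a i).reflect D) * b i
      = (∑ i, ev P E N x⁻¹ (a i) * b i) * x ^ D := by
    rw [Finset.sum_mul]
    refine Finset.sum_congr rfl fun i _ => ?_
    rw [ev_reflect P E x hx0 D (a i) (hdeg i)]
    ring
  have h2 : InW P E N V w (∑ i, ev P E N x ((a i).reflect D) * b i) := by
    rw [h1]
    show (∑ i, ev P E N x⁻¹ (a i) * b i) * x ^ D * (cE P E N w)⁻¹ ∈ V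
    have h3 : (∑ i, ev P E N x⁻¹ (a i) * b i) * x ^ D * (cE P E N w)⁻¹
        = ((∑ i, ev P E N x⁻¹ (a i) * b i) * (cE P E N w)⁻¹) * x ^ D := by ring
    rw [h3]
    exact mul_mem ha (pow_mem hx D)
  exact C_dvd_of_C_dvd_reflect P E (h _ h2 i)

end Inv

end Fermat.Agent.A2.Mod.H753

end

end
-- ===== PACK-END A2/Mod/H753/IndZero.lean

-- ===== PACK-BEGIN A2/Mod/H189/GoodRedCoord.lean
section



/-!
# Cell A2 / MOD, GOODRED part G3 (helper189): the Hauptmoduln `t₂`, `t₃` at a level `E`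

`t2E E M`, `t3E E M : FE E M` are the images of the integral series `S18.H333.t2Z`, `t3Z`
(`2 ∣ M` resp. `3 ∣ M`); they satisfy `j t₂² = (t₂ + 256)³`, `j t₃³ = (t₃ + 27)(t₃ + 243)³` and are
polar (`t⁻¹ + …`).  Hence (`GoodRedT.lean`):

* `goodRedHyp_of_t2` : `P` over `3`, `2 ∣ M`: `GoodRedAt` at `t₂`, `t₂⁻¹` (for all `w`, `VM`)
  ⟹ `Mod.GoodRedHyp P E M`;
* `goodRedHyp_of_t3` : `P` over `2`, `3 ∣ M`: `GoodRedAt` at `t₃`, `t₃⁻¹` ⟹ `Mod.GoodRedHyp P E M`.

So a producer of good reduction only has to work in the coordinate of row S18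
(`j` for `q ≥ 5`, `t₂` for `q = 3`, `t₃` for `q = 2`).
-/

set_option autoImplicit false
set_option synthInstance.maxHeartbeats 400000
set_option maxHeartbeats 1600000

noncomputable section

namespace Fermat.Agent.A2.Mod.H189

open ModularCurve HahnSeries Polynomial Fermat.Agent.A2 Fermat.Agent.A2.Mod
open Fermat.Agent.S18.H333 (t2Z t3Z)

variable (P : ValuationSubring _root_.Fermat.Agent.A2.Mod.Qb) (E : IntermediateField ℚ _root_.Fermat.Agent.A2.Mod.Qb) (M : ℕ)

theorem coeffEmb_castQ_eq (X : LaurentSeries ℤ) :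
    coeffEmb E (H708.castQ X) = coeffMap (Int.castRingHom E) X := by
  rw [coeffEmb, H708.castQ, coeffMap_coeffMap]
  exact coeffMap_congr (RingHom.ext_int _ _) X

theorem coe_jE_one : ((jE E M 1 (one_dvd _) : _root_.Fermat.Agent.A2.Mod.FE E M) : LaurentSeries E) = jqModC E := by
  show coeffEmb E (qExpand ℚ 1 jq) = jqModC E
  rw [qExpand_one_apply, ← jqModC_rat, coeffEmb, coeffMap_jqModC]

/-- The element of `F_{M,E}` given by an integral series lying in `ℚ(j_d : d ∣ M)`. -/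
def feOf (X : LaurentSeries ℤ) (hX : H708.castQ X ∈ modularFunctionFieldFull M) : _root_.Fermat.Agent.A2.Mod.FE E M :=
  ⟨coeffEmb E (H708.castQ X), coeffEmb_mem_laurentBaseChange E hX⟩

theorem coe_feOf (X : LaurentSeries ℤ) (hX : H708.castQ X ∈ modularFunctionFieldFull M) :
    ((feOf E M X hX : _root_.Fermat.Agent.A2.Mod.FE E M) : LaurentSeries E) = coeffMap (Int.castRingHom E) X :=
  coeffEmb_castQ_eq E X

theorem coe_feOf_incl (X : LaurentSeries ℤ) (hX : H708.castQ X ∈ modularFunctionFieldFull M) :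
    ((feOf E M X hX : _root_.Fermat.Agent.A2.Mod.FE E M) : LaurentSeries E) =
      H708.incl (_root_.Fermat.Agent.A2.Mod.RE P E) (H708.castA (_root_.Fermat.Agent.A2.Mod.RE P E) X) :=
  (H708.incl_castA (_root_.Fermat.Agent.A2.Mod.RE P E) X).symm

/-- `t₂ ∈ F_{M,E}` (`2 ∣ M`). -/
def t2E (hM : 2 ∣ M) : _root_.Fermat.Agent.A2.Mod.FE E M := feOf E M t2Z (Fermat.Agent.S18.H333.t2Q_mem M hM)

/-- `t₃ ∈ F_{M,E}` (`3 ∣ M`). -/
def t3E (hM : 3 ∣ M) : _root_.Fermat.Agent.A2.Mod.FE E M := feOf E M t3Z (Fermat.Agent.S18.H333.t3Q_mem M hM)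

theorem t2E_rel (hM : 2 ∣ M) :
    jE E M 1 (one_dvd _) * t2E E M hM ^ 2 = (t2E E M hM + 256) ^ 3 := by
  apply Subtype.ext
  have h := Fermat.Agent.S18.H333.t2_rel_a E
  have hx : ((t2E E M hM : _root_.Fermat.Agent.A2.Mod.FE E M) : LaurentSeries E) = Fermat.Agent.S18.H333.t2 E :=
    coe_feOf E M t2Z _
  push_cast
  rw [coe_jE_one, hx]
  exact h

theorem t3E_rel (hM : 3 ∣ M) :
    jE E M 1 (one_dvd _) * t3E E M hM ^ 3 = (t3E E M hM + 27) * (t3E E M hM + 243) ^ 3 := by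
  apply Subtype.ext
  have h := Fermat.Agent.S18.H333.t3_rel_a E
  have hx : ((t3E E M hM : _root_.Fermat.Agent.A2.Mod.FE E M) : LaurentSeries E) = Fermat.Agent.S18.H333.t3 E :=
    coe_feOf E M t3Z _
  push_cast
  rw [coe_jE_one, hx]
  exact h

theorem castA_coeff (X : LaurentSeries ℤ) (k : ℤ) :
    (H708.castA (_root_.Fermat.Agent.A2.Mod.RE P E) X).coeff k = ((X.coeff k : ℤ) : _root_.Fermat.Agent.A2.Mod.RE P E) := rfl

/-- **GOODRED for `q = 3`** from good reduction in the charts of `t₂`. -/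
theorem goodRedHyp_of_t2 (hP : P.LiesOverPrime 3) (hM0 : M ≠ 0) (hM : 2 ∣ M)
    (hdvr : IsDiscreteValuationRing (_root_.Fermat.Agent.A2.Mod.RE P E))
    (h : ∀ (w : _root_.Fermat.Agent.A2.Mod.RE P E) (VM : ValuationSubring (_root_.Fermat.Agent.A2.Mod.FE E M)), Irreducible w → IsVinf P E M VM →
      GoodRedAt P E M w VM (t2E E M hM) ∧ GoodRedAt P E M w VM (t2E E M hM)⁻¹) :
    GoodRedHyp P E M := by
  intro w VM hw hVM
  obtain ⟨hg, hg'⟩ := h w VM hw hVM
  refine goodRedAt_j_of_t2_polar P E M w hP hM0 hdvr hw VM hVM (t2E E M hM)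
    (H708.castA (_root_.Fermat.Agent.A2.Mod.RE P E) t2Z) (coe_feOf_incl P E M t2Z _) ?_ ?_ (t2E_rel E M hM) hg hg'
  · intro n hn
    rw [castA_coeff, Fermat.Agent.S18.H333.t2Z_coeff_of_lt hn, Int.cast_zero]
  · rw [castA_coeff, Fermat.Agent.S18.H333.t2Z_coeff_neg_one, Int.cast_one]
    exact isUnit_one

/-- **GOODRED for `q = 2`** from good reduction in the charts of `t₃`. -/
theorem goodRedHyp_of_t3 (hP : P.LiesOverPrime 2) (hM0 : M ≠ 0) (hM : 3 ∣ M)
    (hdvr : IsDiscreteValuationRing (_root_.Fermat.Agent.A2.Mod.RE P E))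
    (h : ∀ (w : _root_.Fermat.Agent.A2.Mod.RE P E) (VM : ValuationSubring (_root_.Fermat.Agent.A2.Mod.FE E M)), Irreducible w → IsVinf P E M VM →
      GoodRedAt P E M w VM (t3E E M hM) ∧ GoodRedAt P E M w VM (t3E E M hM)⁻¹) :
    GoodRedHyp P E M := by
  intro w VM hw hVM
  obtain ⟨hg, hg'⟩ := h w VM hw hVM
  refine goodRedAt_j_of_t3_polar P E M w hP hM0 hdvr hw VM hVM (t3E E M hM)
    (H708.castA (_root_.Fermat.Agent.A2.Mod.RE P E) t3Z) (coe_feOf_incl P E M t3Z _) ?_ ?_ (t3E_rel E M hM) hg hg'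
  · intro n hn
    rw [castA_coeff, Fermat.Agent.S18.H333.t3Z_coeff_of_lt hn, Int.cast_zero]
  · rw [castA_coeff, Fermat.Agent.S18.H333.t3Z_coeff_neg_one, Int.cast_one]
    exact isUnit_one

end Fermat.Agent.A2.Mod.H189

end
end
-- ===== PACK-END A2/Mod/H189/GoodRedCoord.lean

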