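import Fermat.Agent.Pack.S34.G0E6L3
import Fermat.Agent.Pack.S34.G0E12L0
import Fermat.Agent.Pack.S34.G0E12L2
import Fermat.Agent.Pack.S34.G0E9L3
import Fermat.Agent.Pack.S34.G0E10L1
import Fermat.Agent.Pack.S34.G0E10L3
import Fermat.Agent.Pack.S34.G0E11L1
import Fermat.Agent.Pack.S34.G0E5L1
import Fermat.Agent.Pack.S34.G0E5L0
import Fermat.Agent.Pack.S34.G0E1L0
import Fermat.Agent.Pack.S34.G0E5L2
import Fermat.Agent.Pack.S34.G0E6L0
import Fermat.Agent.Pack.S34.G0E12L1
import Fermat.Agent.Pack.S34.G0E8L0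
import Fermat.Agent.Pack.S34.G0E5L3
import Fermat.Agent.Pack.S34.G0E3L0
import Fermat.Agent.Pack.S34.G0E11L3

-- ===== PACK-BEGIN S30/H330/KumQZ.lean
section
/-
S30 -- ADIC MODULE LAYER, input (K) from the pieces of S29 sub-layer M4b (helper330).

The Kummer relation `M4b.IsKum N m c x` of helper822 is stated for `ℤ/m`-valued characters; the
adic module layer uses `ℚ/ℤ`-valued characters.  This file provides the dictionary:

* `zmodToQZ m : ZMod m →+ ℚ/ℤ`, `a ↦ a/m` (injective, onto the `m`-torsion);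
* `IsKumQZ N m c x` : `x` is the Kummer class of the `ℚ/ℤ`-valued character `c`, at modulus `m`;
  it is insensitive to the modulus (`IsKumQZ.mul_right`, inflation of helper450);
* `kummerInjStatement_of_packages` : the Kummer packages `H450.KumPackage N (p ^ n)` for all `n`
  (= the seven pieces of M4b at the moduli `p ^ n`) give a Kummer map on the `p`-primary
  parabolic characters with values in `ℚ/ℤ`: additive, injective, Hecke-equivariant
  (`KummerInjStatement N p`).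

Only characters of `p`-power order are used, because piece `K4-HECKE` at the modulus `m` is only
available for the primes `ℓ ∤ N m`.
-/



set_option autoImplicit false

noncomputable section

namespace Fermat.Agent.S30.H330

open Fermat.Agent.S29 Fermat.Agent.S29.M4b ModularCurve Fermat.Agent.S30.H450

/-! ### The embedding `ℤ/m → ℚ/ℤ` -/

/-- `1/m` in `ℚ/ℤ`. -/
def invQZ (m : ℕ) : QZ := (((m : ℚ)⁻¹ : ℚ) : QZ)

theorem nsmul_invQZ (m : ℕ) : m • invQZ m = 0 := by
  rcases Nat.eq_zero_or_pos m with h | h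
  · subst h; simp
  · unfold invQZ
    rw [← AddCircle.coe_nsmul, nsmul_eq_mul, mul_inv_cancel₀ (by positivity)]
    exact AddCircle.coe_period 1

theorem nsmul_invQZ_mul (m d : ℕ) (hd : d ≠ 0) : d • invQZ (m * d) = invQZ m := by
  unfold invQZ
  rw [← AddCircle.coe_nsmul, nsmul_eq_mul]
  congr 1
  have hd' : (d : ℚ) ≠ 0 := by exact_mod_cast hd
  push_cast
  rw [mul_inv, mul_comm (m : ℚ)⁻¹, ← mul_assoc, mul_inv_cancel₀ hd', one_mul]

/-- The embedding `ℤ/m → ℚ/ℤ`, `a ↦ a/m`. -/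
def zmodToQZ (m : ℕ) : ZMod m →+ QZ :=
  ZMod.lift m ⟨zmultiplesHom QZ (invQZ m), by
    rw [zmultiplesHom_apply, natCast_zsmul]
    exact nsmul_invQZ m⟩

theorem zmodToQZ_intCast (m : ℕ) (k : ℤ) : zmodToQZ m (k : ZMod m) = k • invQZ m := by
  unfold zmodToQZ
  rw [ZMod.lift_coe]
  rfl

theorem zmodToQZ_natCast (m : ℕ) (k : ℕ) : zmodToQZ m (k : ZMod m) = k • invQZ m := by
  have := zmodToQZ_intCast m (k : ℤ)
  rwa [Int.cast_natCast, natCast_zsmul] at this

theorem zmodToQZ_eq_val (m : ℕ) [NeZero m] (a : ZMod m) : zmodToQZ m a = a.val • invQZ m := by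
  conv_lhs => rw [← ZMod.natCast_zmod_val a]
  exact zmodToQZ_natCast m _

theorem zmodToQZ_injective (m : ℕ) [NeZero m] : Function.Injective (zmodToQZ m) := by
  rw [injective_iff_map_eq_zero]
  intro a ha
  rw [zmodToQZ_eq_val] at ha
  have hm : (m : ℚ) ≠ 0 := by exact_mod_cast NeZero.ne m
  have hmpos : (0 : ℚ) < m := by exact_mod_cast Nat.pos_of_ne_zero (NeZero.ne m)
  unfold invQZ at ha
  rw [← AddCircle.coe_nsmul, nsmul_eq_mul, AddCircle.coe_eq_zero_iff] at ha
  obtain ⟨n, hn⟩ := ha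
  rw [zsmul_eq_mul, mul_one] at hn
  have h1 : (a.val : ℚ) = n * m := by
    field_simp at hn
    linarith
  have h2 : (a.val : ℤ) = n * m := by exact_mod_cast h1
  have hlt : (a.val : ℤ) < m := by exact_mod_cast ZMod.val_lt a
  have hnn : (0 : ℤ) ≤ a.val := by positivity
  have hmz : (0 : ℤ) < m := by exact_mod_cast Nat.pos_of_ne_zero (NeZero.ne m)
  have hn0 : n = 0 := by
    by_contra hne
    rcases lt_or_gt_of_ne hne with h | h
    · have : n * (m : ℤ) < 0 := mul_neg_of_neg_of_pos h hmz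
      omega
    · have : (m : ℤ) ≤ n * m := by nlinarith
      omega
  rw [hn0, zero_mul] at h2
  have h3 : a.val = 0 := by exact_mod_cast h2
  exact (ZMod.val_eq_zero a).mp h3

theorem exists_zmodToQZ_eq (m : ℕ) [NeZero m] {y : QZ} (hy : m • y = 0) :
    ∃ a : ZMod m, zmodToQZ m a = y := by
  obtain ⟨q, rfl⟩ := QuotientAddGroup.mk_surjective y
  have hm : (m : ℚ) ≠ 0 := by exact_mod_cast NeZero.ne m
  change m • ((q : ℚ) : QZ) = 0 at hy
  rw [← AddCircle.coe_nsmul, nsmul_eq_mul, AddCircle.coe_eq_zero_iff] at hy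
  obtain ⟨k, hk⟩ := hy
  rw [zsmul_eq_mul, mul_one] at hk
  refine ⟨(k : ZMod m), ?_⟩
  rw [zmodToQZ_intCast]
  unfold invQZ
  rw [← AddCircle.coe_zsmul, zsmul_eq_mul]
  congr 1
  rw [hk]
  field_simp

theorem nsmul_zmodToQZ (m : ℕ) (a : ZMod m) : m • zmodToQZ m a = 0 := by
  rw [← map_nsmul]
  have : m • a = 0 := by
    rw [nsmul_eq_mul, ZMod.natCast_self, zero_mul]
  rw [this, map_zero]

/-! ### Characters with values in `ℤ/m` and in `ℚ/ℤ` -/

section Char

variable {N : ℕ}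

/-- A `ℤ/m`-valued function is a parabolic character as soon as its image in `ℚ/ℤ` is one. -/
theorem isParHom_of_zmodToQZ {m : ℕ} [NeZero m] {cm : G0 N → ZMod m} {c : G0 N → QZ}
    (hc : IsParHom c) (h : ∀ γ, zmodToQZ m (cm γ) = c γ) : IsParHom cm where
  map_mul γ γ' := by
    apply zmodToQZ_injective m
    rw [map_add, h, h, h, hc.map_mul]
  parabolic γ hγ := by
    apply zmodToQZ_injective m
    rw [h, map_zero, hc.parabolic γ hγ]
  elliptic γ n hn hγ := by
    apply zmodToQZ_injective m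
    rw [h, map_zero, hc.elliptic γ n hn hγ]

/-- A `ℚ/ℤ`-valued function killed by `m` factors through `ℤ/m`. -/
theorem exists_zmod_char {m : ℕ} [NeZero m] {c : G0 N → QZ} (hm : m • c = 0) :
    ∃ cm : G0 N → ZMod m, ∀ γ, zmodToQZ m (cm γ) = c γ := by
  have h : ∀ γ, ∃ a : ZMod m, zmodToQZ m a = c γ := fun γ =>
    exists_zmodToQZ_eq m (by simpa using congrFun hm γ)
  exact ⟨fun γ => (h γ).choose, fun γ => (h γ).choose_spec⟩

theorem zmodToQZ_inflChar {m d : ℕ} [NeZero m] [NeZero d] (cm : G0 N → ZMod m) (γ : G0 N) :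
    zmodToQZ (m * d) (inflChar m d cm γ) = zmodToQZ m (cm γ) := by
  unfold inflChar
  rw [zmodToQZ_natCast, zmodToQZ_eq_val, mul_comm d, mul_nsmul',
    nsmul_invQZ_mul m d (NeZero.ne d)]

end Char

/-! ### The Kummer relation for `ℚ/ℤ`-valued characters -/

section Rel

variable {N : ℕ} [NeZero N]

/-- `x` is the Kummer class of the `ℚ/ℤ`-valued character `c`, at the modulus `m`. -/
def IsKumQZ (N : ℕ) [NeZero N] (m : ℕ) (c : G0 N → QZ) (x : JZero N) : Prop :=
  ∃ cm : G0 N → ZMod m, (∀ γ, zmodToQZ m (cm γ) = c γ) ∧ IsKum N m cm x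

/-- The modulus can be multiplied (inflation, helper450). -/
theorem IsKumQZ.mul_right {m : ℕ} [NeZero m] {c : G0 N → QZ} {x : JZero N}
    (h : IsKumQZ N m c x) (d : ℕ) [NeZero d] : IsKumQZ N (m * d) c x := by
  obtain ⟨cm, hcm, hk⟩ := h
  exact ⟨inflChar m d cm, fun γ => by rw [zmodToQZ_inflChar, hcm], isKum_infl hk⟩

/-- The level of a Kummer class in the `p`-power tower can be raised. -/
theorem IsKumQZ.pow_le {p : ℕ} [NeZero p] {n n' : ℕ} (hn : n ≤ n') {c : G0 N → QZ}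
    {x : JZero N} (h : IsKumQZ N (p ^ n) c x) : IsKumQZ N (p ^ n') c x := by
  obtain ⟨k, rfl⟩ := Nat.exists_eq_add_of_le hn
  have := h.mul_right (p ^ k)
  rwa [← pow_add] at this

theorem IsKumQZ.unique {m : ℕ} [NeZero m] (H : KumPackage N m) {c : G0 N → QZ}
    {x x' : JZero N} (h : IsKumQZ N m c x) (h' : IsKumQZ N m c x') : x = x' := by
  obtain ⟨cm, hcm, hk⟩ := h
  obtain ⟨cm', hcm', hk'⟩ := h'
  have : cm = cm' := funext fun γ => zmodToQZ_injective m (by rw [hcm, hcm'])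
  subst this
  exact H.uniq cm x x' hk hk'

theorem IsKumQZ.add {m : ℕ} (H : KumPackage N m) {c c' : G0 N → QZ}
    {x x' : JZero N} (h : IsKumQZ N m c x) (h' : IsKumQZ N m c' x') :
    IsKumQZ N m (c + c') (x + x') := by
  obtain ⟨cm, hcm, hk⟩ := h
  obtain ⟨cm', hcm', hk'⟩ := h'
  exact ⟨cm + cm', fun γ => by rw [Pi.add_apply, map_add, hcm, hcm', Pi.add_apply],
    H.add cm cm' x x' hk hk'⟩

theorem IsKumQZ.eq_zero {m : ℕ} (H : KumPackage N m) {c : G0 N → QZ}
    (h : IsKumQZ N m c (0 : JZero N)) : c = 0 := by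
  obtain ⟨cm, hcm, hk⟩ := h
  have h0 := H.inj cm hk
  funext γ
  rw [← hcm, h0, Pi.zero_apply, map_zero, Pi.zero_apply]

theorem IsKumQZ.hecke {m : ℕ} [NeZero m] (H : KumPackage N m) (ℓ : Nat.Primes)
    (hℓ : ¬ (ℓ : ℕ) ∣ N * m) {c : G0 N → QZ} (hc : IsParHom c) {x : JZero N}
    (h : IsKumQZ N m c x) : IsKumQZ N m (heckeCoh N ℓ c) (heckeOperatorBar N ℓ x) := by
  obtain ⟨cm, hcm, hk⟩ := h
  refine ⟨heckeCoh N ℓ cm, fun γ => ?_, H.hecke ℓ hℓ cm x (isParHom_of_zmodToQZ hc hcm) hk⟩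
  have h1 := congrFun (heckeCoh_comp (N := N) (ℓ : ℕ) cm (zmodToQZ m)) γ
  rw [← h1]
  congr 1
  funext γ'
  exact hcm γ'

theorem IsKumQZ.exists {m : ℕ} [NeZero m] (H : KumPackage N m) {c : G0 N → QZ}
    (hc : IsParHom c) (hm : m • c = 0) : ∃ x : JZero N, IsKumQZ N m c x := by
  obtain ⟨cm, hcm⟩ := exists_zmod_char hm
  obtain ⟨x, hx⟩ := H.ex cm (isParHom_of_zmodToQZ hc hcm)
  exact ⟨x, cm, hcm, hx⟩

end Rel

/-! ### The `p`-primary Kummer map -/

/-- INPUT (K'), the `p`-primary form of `KummerStatement` without surjectivity: a Kummer map on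
the parabolic characters of `p`-power order with values in `ℚ/ℤ`, additive, injective and
Hecke-equivariant. -/
def KummerInjStatement (N : ℕ) [NeZero N] (p : ℕ) : Prop :=
  ∃ κ : (G0 N → QZ) → JZero N,
    (∀ c c', IsParHom c → IsParHom c' → (∃ n : ℕ, p ^ n • c = 0) → (∃ n : ℕ, p ^ n • c' = 0) →
      κ (c + c') = κ c + κ c') ∧
    (∀ c, IsParHom c → (∃ n : ℕ, p ^ n • c = 0) → κ c = 0 → c = 0) ∧
    (∀ ℓ : Nat.Primes, ¬ (ℓ : ℕ) ∣ N * p → ∀ c, IsParHom c → (∃ n : ℕ, p ^ n • c = 0) →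
      κ (heckeCoh N ℓ c) = heckeOperatorBar N ℓ (κ c))

/-- INPUT (F): finiteness of the `p`-torsion of `J₀(N)(ℚ̄)`. -/
def FinStatement (N : ℕ) [NeZero N] (p : ℕ) : Prop :=
  {x : JZero N | p • x = 0}.Finite

section Tower

variable {N : ℕ} [NeZero N] {p : ℕ}

open Classical in
/-- The Kummer map on `ℚ/ℤ`-valued characters: THE Kummer class at some level of the `p`-power
tower (and `0` if there is none). -/
def kumQZ (N : ℕ) [NeZero N] (p : ℕ) (c : G0 N → QZ) : JZero N :=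
  if h : ∃ x : JZero N, ∃ n : ℕ, IsKumQZ N (p ^ n) c x then h.choose else 0

theorem kumQZ_eq [NeZero p] (H : ∀ n, KumPackage N (p ^ n)) {c : G0 N → QZ} {x : JZero N}
    {n : ℕ} (h : IsKumQZ N (p ^ n) c x) : kumQZ N p c = x := by
  have h' : ∃ x : JZero N, ∃ n : ℕ, IsKumQZ N (p ^ n) c x := ⟨x, n, h⟩
  rw [kumQZ, dif_pos h']
  obtain ⟨n', hn'⟩ := h'.choose_spec
  exact IsKumQZ.unique (H (max n n')) (hn'.pow_le (le_max_right n n'))
    (h.pow_le (le_max_left n n'))

theorem isKumQZ_kumQZ [NeZero p] (H : ∀ n, KumPackage N (p ^ n)) {c : G0 N → QZ}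
    (hc : IsParHom c) {n : ℕ} (hn : p ^ n • c = 0) : IsKumQZ N (p ^ n) c (kumQZ N p c) := by
  obtain ⟨x, hx⟩ := IsKumQZ.exists (H n) hc hn
  rw [kumQZ_eq H hx]
  exact hx

theorem nsmul_eq_zero_of_le {A : Type*} [AddCommMonoid A] {p n n' : ℕ} (h : n ≤ n') {c : A}
    (hc : p ^ n • c = 0) : p ^ n' • c = 0 := by
  obtain ⟨k, rfl⟩ := Nat.exists_eq_add_of_le h
  rw [pow_add, mul_comm, mul_nsmul', hc, nsmul_zero]

/-- **Input (K') from the pieces of M4b** at the moduli `p ^ n`. -/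
theorem kummerInjStatement_of_packages [NeZero p] (H : ∀ n, KumPackage N (p ^ n)) :
    KummerInjStatement N p := by
  refine ⟨kumQZ N p, ?_, ?_, ?_⟩
  · rintro c c' hc hc' ⟨n, hn⟩ ⟨n', hn'⟩
    have h1 := isKumQZ_kumQZ H hc (nsmul_eq_zero_of_le (le_max_left n n') hn)
    have h2 := isKumQZ_kumQZ H hc' (nsmul_eq_zero_of_le (le_max_right n n') hn')
    exact kumQZ_eq H (IsKumQZ.add (H _) h1 h2)
  · rintro c hc ⟨n, hn⟩ h0
    have h1 := isKumQZ_kumQZ H hc hn
    rw [h0] at h1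
    exact IsKumQZ.eq_zero (H n) h1
  · rintro ℓ hℓ c hc ⟨n, hn⟩
    have h1 := isKumQZ_kumQZ H hc hn
    exact kumQZ_eq H (IsKumQZ.hecke (H n) ℓ (not_dvd_mul_pow ℓ.2 hℓ n) hc h1)

end Tower

end Fermat.Agent.S30.H330

end
end
-- ===== PACK-END S30/H330/KumQZ.lean

-- ===== PACK-BEGIN S30/H330/AdicInputs.lean
section
/-
S30 -- ADIC MODULE LAYER, assembly from the `p`-PRIMARY inputs (helper330).

`hasAdicFrobModule_of_inj` : (K') + (F) + (P) + (T) + (Sm) + (GH)  ⟹  `HasAdicFrobModule`, where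
  (K') `KummerInjStatement N p` : Kummer map on the parabolic characters of `p`-power order
       (additive, injective, Hecke-equivariant; NO surjectivity);
  (F)  `FinStatement N p` : `J₀(N)(ℚ̄)[p]` is finite.
This is the form of `hasAdicFrobModule_of_inputs` which is fed by the pieces of S29 sub-layer M4b
(`kummerInjStatement_of_packages`) and by piece FIN of the S30 row.
-/


set_option autoImplicit false

noncomputable section

namespace Fermat.Agent.S30.H330

open Fermat.Agent.S29 ModularCurve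
open scoped MatrixGroups

/-- `KummerStatement` (all characters, with surjectivity) implies the `p`-primary form. -/
theorem kummerInjStatement_of_kummerStatement {N : ℕ} [NeZero N] {p : ℕ}
    (h : KummerStatement N p) : KummerInjStatement N p := by
  obtain ⟨κ, hadd, hinj, -, hhecke⟩ := h
  exact ⟨κ, fun c c' hc hc' _ _ => hadd c c' hc hc', fun c hc _ h0 => hinj c hc h0,
    fun ℓ hℓ c hc _ => hhecke ℓ hℓ c hc⟩

/-- `KummerStatement` implies the finiteness of the `p`-torsion. -/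
theorem finStatement_of_kummerStatement {N : ℕ} [NeZero N] {p : ℕ} [Fact p.Prime]
    (h : KummerStatement N p) : FinStatement N p :=
  finite_torsion h

/-- The eigenvector `f(x) = κ(γ ↦ ϑ(c(γ) x))`, from the `p`-primary Kummer map. -/
theorem exists_eigenHom_of_inj {p : ℕ} [Fact p.Prime] {N : ℕ} [NeZero N] {S : Finset ℕ}
    (hpS : p ∈ S) (hNS : ∀ q : ℕ, q.Prime → q ∣ N → q ∈ S)
    {O : Type} [CommRing O] [IsDomain O] [IsDiscreteValuationRing O]
    (hpO : (p : O) ∈ IsLocalRing.maximalIdeal O)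
    (χ : CuspForm.heckeAlgebra N 2 (↑S : Set ℕ) →+* O)
    (hK : KummerInjStatement N p) (hP : ParEigenStatement N S O χ) :
    ∃ f : FractionRing O →+ JZero N,
      (∀ r : O, f (algebraMap O (FractionRing O) r) = 0) ∧ f ≠ 0 ∧
      ∀ (ℓ : Nat.Primes), (ℓ : ℕ) ∉ S → ∀ x,
        heckeOperatorBar N ℓ (f x) =
          f (algebraMap O (FractionRing O) (eigenvalue χ ℓ) * x) := by
  classical
  obtain ⟨κ, hadd, hinj, hhecke⟩ := hK
  obtain ⟨c, hc, hc0, hceig⟩ := hP
  obtain ⟨ϖ, hϖ⟩ := IsDiscreteValuationRing.exists_irreducible O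
  obtain ⟨ϑ, hϑ0, hϑ1⟩ := exists_character hϖ
  have hϖ0 : algebraMap O (FractionRing O) ϖ ≠ 0 := algebraMap_irreducible_ne_zero hϖ
  -- the additive map `r ↦ ϑ (r x)`
  let φ : FractionRing O → (O →+ QZ) := fun x =>
    ϑ.comp ((AddMonoidHom.mulRight x).comp (algebraMap O (FractionRing O)).toAddMonoidHom)
  have hφ : ∀ x r, φ x r = ϑ (algebraMap O (FractionRing O) r * x) := fun x r => rfl
  let cx : FractionRing O → (G0 N → QZ) := fun x γ => φ x (c γ)
  have hcx : ∀ x, IsParHom (cx x) := fun x => isParHom_comp hc (φ x)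
  have hcx_add : ∀ x y, cx (x + y) = cx x + cx y := by
    intro x y
    funext γ
    show φ (x + y) (c γ) = φ x (c γ) + φ y (c γ)
    rw [hφ, hφ, hφ, mul_add, map_add]
  -- the characters `cx x` have `p`-power order
  have hcx_pow : ∀ x, ∃ n : ℕ, p ^ n • cx x = 0 := by
    intro x
    obtain ⟨n, y, rfl⟩ := exists_eq_div_pow hϖ x
    obtain ⟨b, hb⟩ : ∃ b : O, b * ϖ = (p : O) := by
      have h := hpO
      rw [hϖ.maximalIdeal_eq, Ideal.mem_span_singleton'] at h
      exact h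
    refine ⟨n, ?_⟩
    funext γ
    show p ^ n • φ _ (c γ) = 0
    rw [hφ, ← map_nsmul]
    have : p ^ n • (algebraMap O (FractionRing O) (c γ) *
        (algebraMap O (FractionRing O) y / algebraMap O (FractionRing O) ϖ ^ n)) =
        algebraMap O (FractionRing O) (c γ * (b ^ n * y)) := by
      rw [nsmul_eq_mul]
      have hp : ((p ^ n : ℕ) : FractionRing O) = algebraMap O (FractionRing O) ((b * ϖ) ^ n) := by
        rw [hb]; simp
      rw [hp, mul_pow]
      simp only [map_mul, map_pow]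
      field_simp
    rw [this]
    exact hϑ0 _
  have hκ0 : κ 0 = 0 := by
    have := hadd 0 0 isParHom_zero isParHom_zero ⟨0, by simp⟩ ⟨0, by simp⟩
    rw [add_zero] at this
    exact left_eq_add.mp this
  let f : FractionRing O →+ JZero N := AddMonoidHom.mk' (fun x => κ (cx x)) (fun x y => by
    show κ (cx (x + y)) = κ (cx x) + κ (cx y)
    rw [hcx_add, hadd _ _ (hcx x) (hcx y) (hcx_pow x) (hcx_pow y)])
  have hf : ∀ x, f x = κ (cx x) := fun x => rfl
  refine ⟨f, fun r => ?_, ?_, fun ℓ hℓS x => ?_⟩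
  · rw [hf]
    have : cx (algebraMap O (FractionRing O) r) = 0 := by
      funext γ
      show φ _ (c γ) = 0
      rw [hφ, ← map_mul]
      exact hϑ0 _
    rw [this]
    exact hκ0
  · intro hf0
    obtain ⟨γ₀, hγ₀⟩ : ∃ γ₀, c γ₀ ≠ 0 := by
      by_contra h
      push Not at h
      exact hc0 (funext h)
    have hcγ : algebraMap O (FractionRing O) (c γ₀) ≠ 0 := by
      simpa using hγ₀
    set x₀ : FractionRing O :=
      (algebraMap O (FractionRing O) (c γ₀))⁻¹ * (algebraMap O (FractionRing O) ϖ)⁻¹ with hx₀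
    have h1 : κ (cx x₀) = 0 := by
      rw [← hf, hf0]
      rfl
    have h2 := hinj _ (hcx x₀) (hcx_pow x₀) h1
    have h3 : cx x₀ γ₀ = 0 := by rw [h2]; rfl
    apply hϑ1
    have h4 : cx x₀ γ₀ = ϑ ((algebraMap O (FractionRing O) ϖ)⁻¹) := by
      show φ x₀ (c γ₀) = _
      rw [hφ, hx₀, mul_inv_cancel_left₀ hcγ]
    rw [← h4, h3]
  · have hℓ : (ℓ : ℕ).Prime := ℓ.2
    have hℓN : ¬ (ℓ : ℕ) ∣ N := fun h => hℓS (hNS _ hℓ h)
    have hℓS' : (ℓ : ℕ) ∉ (↑S : Set ℕ) := by simpa using hℓS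
    have hℓNp : ¬ (ℓ : ℕ) ∣ N * p := by
      intro h
      rcases (Nat.Prime.dvd_mul hℓ).mp h with h | h
      · exact hℓN h
      · have : (ℓ : ℕ) = p := (Nat.prime_dvd_prime_iff_eq hℓ (Fact.out : p.Prime)).mp h
        exact hℓS (this ▸ hpS)
    rw [hf, hf, ← hhecke ℓ hℓNp _ (hcx x) (hcx_pow x)]
    congr 1
    rw [show cx x = fun γ => φ x (c γ) from rfl, heckeCoh_comp]
    funext γ
    show φ x (heckeCoh N ℓ c γ) = φ _ (c γ)
    rw [hφ, hφ, hceig ℓ hℓ hℓN hℓS' γ, eigenvalue_eq χ hℓ hℓN hℓS']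
    congr 1
    rw [map_mul (algebraMap O (FractionRing O))]
    ring

/-- ASSEMBLY of the adic module layer from the `p`-primary inputs:
(K') + (F) + (P) + (T) + (Sm) + (GH) ⟹ `HasAdicFrobModule`. -/
theorem hasAdicFrobModule_of_inj {p : ℕ} [Fact p.Prime] {N : ℕ} [NeZero N] {S : Finset ℕ}
    (hpS : p ∈ S) (hNS : ∀ q : ℕ, q.Prime → q ∣ N → q ∈ S)
    {O : Type} [CommRing O] [IsDomain O] [IsDiscreteValuationRing O]
    [IsAdicComplete (IsLocalRing.maximalIdeal O) O] [Finite (IsLocalRing.ResidueField O)]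
    [CharZero O] (hpO : (p : O) ∈ IsLocalRing.maximalIdeal O)
    (χ : CuspForm.heckeAlgebra N 2 (↑S : Set ℕ) →+* O)
    (hK : KummerInjStatement N p) (hF : FinStatement N p) (hP : ParEigenStatement N S O χ)
    (hT : TorsionRelations N p) (hSm : SmoothStatement N) (hGH : GaloisHeckeStatement N) :
    HasAdicFrobModule O (N * p) (fun ℓ => ℓ ∉ S) (eigenvalue χ) := by
  classical
  obtain ⟨f, hf0, hf, hfe⟩ := exists_eigenHom_of_inj hpS hNS hpO χ hK hP
  -- index set of Hecke operators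
  let t : {ℓ : Nat.Primes // (ℓ : ℕ) ∉ S} → JZero N →+ JZero N := fun i =>
    (heckeOperatorBar N i.1).toAddMonoidHom
  let a : {ℓ : Nat.Primes // (ℓ : ℕ) ∉ S} → O := fun i => eigenvalue χ (i.1 : ℕ)
  have ht : ∀ i (σ : GQ) (x : JZero N), σ • t i x = t i (σ • x) := fun i σ x => hGH σ i.1 x
  obtain ⟨M, i1, i2, i3, i4, ρ, hnt, hcont, hunr, hquad⟩ :=
    adicModule_of_torsion (J := JZero N) (Fact.out : p.Prime) hpO (fun x => hSm x) hF t ht a f
      hf0 hf (fun i x => hfe i.1 i.2 x)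
  refine ⟨M, i1, i2, i3, i4, ρ, hnt, hcont, ?_, ?_⟩
  · intro ℓ hℓ hℓNp A hA σ hσ
    exact hunr σ fun x hx => (hT ℓ hℓ hℓNp A hA).1 σ hσ x hx
  · intro ℓ hℓ hℓS A hA σ hσ
    have hℓN : ¬ ℓ ∣ N := fun h => hℓS (hNS _ hℓ h)
    have hℓNp : ¬ ℓ ∣ N * p := by
      intro h
      rcases (Nat.Prime.dvd_mul hℓ).mp h with h | h
      · exact hℓN h
      · have : ℓ = p := (Nat.prime_dvd_prime_iff_eq hℓ (Fact.out : p.Prime)).mp h
        exact hℓS (this ▸ hpS)
    exact hquad ⟨⟨ℓ, hℓ⟩, hℓS⟩ ℓ σ fun x hx => (hT ℓ hℓ hℓNp A hA).2 σ hσ x hx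

end Fermat.Agent.S30.H330

end
end
-- ===== PACK-END S30/H330/AdicInputs.lean

-- ===== PACK-BEGIN S30/H330/AdicFinal.lean
section
/-
S30 -- the frozen statement S30 from the OPEN PIECES (helper330).

Chain:  pieces of S29 sub-layer M4b at the moduli `p ^ n` (`H450.KumPackage N (p ^ n)`)
        + piece ONTO at the modulus `p` (every `p`-torsion class is a Kummer class)
        + (T) torsion relations (rows S37/S18)
   ⟹  (K') + (F) + (T)                         [`KumQZ.lean`, `Fin/Count.lean`]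
   ⟹  `HasAdicFrobModule`                       [`AdicInputs.lean`; (P) = helper709, (Sm) = S29 M3,
                                                   (GH) = helper571]
   ⟹  `H990.HasAdicEigenModules` ⟹ frozen S30   [top glue of helper990].

* `result_of_inj`      : S30 from (K'), (F), (T);
* `result_of_packages` : S30 from the Kummer packages, ONTO and (T).
-/





set_option autoImplicit false
set_option linter.overlappingInstances false

noncomputable section

namespace Fermat.Agent.S30.H330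

open Fermat.Agent.S29 Fermat.Agent.S29.M4b ModularCurve Fermat.Agent.S30.H450 Polynomial

/-- Input (P) of the adic module layer holds (helper709, unconditional). -/
theorem parEigenStatement {N : ℕ} [NeZero N] {S : Finset ℕ}
    (hNS : ∀ q : ℕ, q.Prime → q ∣ N → q ∈ S) {O : Type} [CommRing O] [IsDomain O]
    (χ : CuspForm.heckeAlgebra N 2 (↑S : Set ℕ) →+* O) : ParEigenStatement N S O χ :=
  Fermat.Agent.S30.H709.exists_parEigen
    (fun q hq hqN => Finset.mem_coe.mpr (hNS q hq hqN)) χ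

/-- Input (F) from ONTO and UNIQ at the modulus `p`. -/
theorem finStatement_of_onto {N : ℕ} [NeZero N] {p : ℕ} [NeZero p]
    (huniq : ∀ (c : G0 N → ZMod p) (x x' : JZero N), IsKum N p c x → IsKum N p c x' → x = x')
    (honto : ∀ x : JZero N, (p : ℤ) • x = 0 → ∃ c : G0 N → ZMod p, IsKum N p c x) :
    FinStatement N p := by
  have h := Fermat.Agent.S30.Fin.finite_torsion_of N p honto huniq
  refine h.subset ?_
  intro x hx
  show (p : ℤ) • x = 0
  rw [natCast_zsmul]
  exact hx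

/-- The Kummer package at the modulus `p` from the tower. -/
theorem kumPackage_one {N : ℕ} [NeZero N] {p : ℕ} (H : ∀ n, KumPackage N (p ^ n)) :
    KumPackage N p := by
  have := H 1
  rwa [pow_one] at this

/-- **S30 from (K'), (F), (T).** -/
theorem result_of_inj
    (hK : ∀ (N : ℕ) [NeZero N] (p : ℕ) [Fact p.Prime], KummerInjStatement N p)
    (hF : ∀ (N : ℕ) [NeZero N] (p : ℕ) [Fact p.Prime], FinStatement N p)
    (hT : ∀ (N : ℕ) [NeZero N] (p : ℕ) [Fact p.Prime], TorsionRelations N p) :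
    ∀ (p : ℕ) [Fact p.Prime] (N : ℕ) [NeZero N] (S : Finset ℕ)
      (_hpS : p ∈ S) (_hNS : ∀ q : ℕ, q.Prime → q ∣ N → q ∈ S)
      (𝒪' : Type) [CommRing 𝒪'] [IsDomain 𝒪'] [IsDiscreteValuationRing 𝒪']
      [IsAdicComplete (IsLocalRing.maximalIdeal 𝒪') 𝒪'] [Finite (IsLocalRing.ResidueField 𝒪')]
      [CharZero 𝒪'] (_hp𝒪' : (p : 𝒪') ∈ IsLocalRing.maximalIdeal 𝒪')
      (χ : CuspForm.heckeAlgebra N 2 (↑S : Set ℕ) →+* 𝒪'),
      ∃ (𝒪'' : Type) (_ : CommRing 𝒪'') (_ : IsDomain 𝒪'') (_ : IsDiscreteValuationRing 𝒪'')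
        (_ : IsAdicComplete (IsLocalRing.maximalIdeal 𝒪'') 𝒪'')
        (_ : Finite (IsLocalRing.ResidueField 𝒪'')) (_ : CharZero 𝒪'')
        (_ : Algebra 𝒪' 𝒪'') (_ : Module.Finite 𝒪' 𝒪'') (_ : IsLocalHom (algebraMap 𝒪' 𝒪'')),
      Function.Injective (algebraMap 𝒪' 𝒪'') ∧
      ∃ ρ : GaloisRepAdic 𝒪'',
        (∀ (ℓ : ℕ) (hℓ : ℓ.Prime) (hℓN : ¬ ℓ ∣ N) (hℓS : ℓ ∉ (↑S : Set ℕ)),
          ∀ A : ValuationSubring (AlgebraicClosure ℚ), A.LiesOverPrime ℓ →
            ∀ σ : AlgebraicClosure ℚ ≃ₐ[ℚ] AlgebraicClosure ℚ, A.IsFrobeniusAt σ ℓ →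
              LinearMap.charpoly (ρ.ρ σ) =
                X ^ 2 - C (algebraMap 𝒪' 𝒪'' (χ (CuspForm.heckeAlgebra.T hℓ hℓN hℓS))) * X
                  + C ((ℓ : 𝒪''))) ∧
        (∀ q : ℕ, q.Prime → ¬ q ∣ N → q ≠ p → ρ.IsUnramifiedAt q) :=
  Fermat.Agent.S30.H990.result_of_hasAdicEigenModules
    (Fermat.Agent.S30.H990.hasAdicEigenModules_of_H330
      (fun p _ N _ _ hpS hNS _ _ _ _ _ _ _ hp𝒪' χ =>
        hasAdicFrobModule_of_inj hpS hNS hp𝒪' χ (hK N p) (hF N p) (parEigenStatement hNS χ)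
          (hT N p) (Fermat.Agent.S30.H990.smoothStatement N)
          (Fermat.Agent.S30.H990.galoisHeckeStatement N)))

/-- **S30 from the open pieces**: the Kummer packages at the moduli `p ^ n` (the seven pieces of
S29 sub-layer M4b, see `H450.KumPackage.of_skeleton`), piece ONTO at the modulus `p`, and the
torsion relations (T). -/
theorem result_of_packages
    (hpk : ∀ (N : ℕ) [NeZero N] (p : ℕ) [Fact p.Prime] (n : ℕ), KumPackage N (p ^ n))
    (honto : ∀ (N : ℕ) [NeZero N] (p : ℕ) [Fact p.Prime] (x : JZero N), (p : ℤ) • x = 0 →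
      ∃ c : G0 N → ZMod p, IsKum N p c x)
    (hT : ∀ (N : ℕ) [NeZero N] (p : ℕ) [Fact p.Prime], TorsionRelations N p) :
    ∀ (p : ℕ) [Fact p.Prime] (N : ℕ) [NeZero N] (S : Finset ℕ)
      (_hpS : p ∈ S) (_hNS : ∀ q : ℕ, q.Prime → q ∣ N → q ∈ S)
      (𝒪' : Type) [CommRing 𝒪'] [IsDomain 𝒪'] [IsDiscreteValuationRing 𝒪']
      [IsAdicComplete (IsLocalRing.maximalIdeal 𝒪') 𝒪'] [Finite (IsLocalRing.ResidueField 𝒪')]
      [CharZero 𝒪'] (_hp𝒪' : (p : 𝒪') ∈ IsLocalRing.maximalIdeal 𝒪')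
      (χ : CuspForm.heckeAlgebra N 2 (↑S : Set ℕ) →+* 𝒪'),
      ∃ (𝒪'' : Type) (_ : CommRing 𝒪'') (_ : IsDomain 𝒪'') (_ : IsDiscreteValuationRing 𝒪'')
        (_ : IsAdicComplete (IsLocalRing.maximalIdeal 𝒪'') 𝒪'')
        (_ : Finite (IsLocalRing.ResidueField 𝒪'')) (_ : CharZero 𝒪'')
        (_ : Algebra 𝒪' 𝒪'') (_ : Module.Finite 𝒪' 𝒪'') (_ : IsLocalHom (algebraMap 𝒪' 𝒪'')),
      Function.Injective (algebraMap 𝒪' 𝒪'') ∧
      ∃ ρ : GaloisRepAdic 𝒪'',
        (∀ (ℓ : ℕ) (hℓ : ℓ.Prime) (hℓN : ¬ ℓ ∣ N) (hℓS : ℓ ∉ (↑S : Set ℕ)),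
          ∀ A : ValuationSubring (AlgebraicClosure ℚ), A.LiesOverPrime ℓ →
            ∀ σ : AlgebraicClosure ℚ ≃ₐ[ℚ] AlgebraicClosure ℚ, A.IsFrobeniusAt σ ℓ →
              LinearMap.charpoly (ρ.ρ σ) =
                X ^ 2 - C (algebraMap 𝒪' 𝒪'' (χ (CuspForm.heckeAlgebra.T hℓ hℓN hℓS))) * X
                  + C ((ℓ : 𝒪''))) ∧
        (∀ q : ℕ, q.Prime → ¬ q ∣ N → q ≠ p → ρ.IsUnramifiedAt q) :=
  result_of_inj
    (fun N _ p hp =>
      haveI : NeZero p := ⟨hp.out.ne_zero⟩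
      kummerInjStatement_of_packages (fun n => hpk N p n))
    (fun N _ p hp =>
      haveI : NeZero p := ⟨hp.out.ne_zero⟩
      finStatement_of_onto (kumPackage_one (fun n => hpk N p n)).uniq (honto N p))
    hT

end Fermat.Agent.S30.H330

end
end
-- ===== PACK-END S30/H330/AdicFinal.lean

-- ===== PACK-BEGIN S29/H150/K2Local.lean
section
/-
S29 / M4b / piece K2 (helper150), part 2: local divisibility at every place.

For the S24 local data `mkLocalData X ε R t` at the zero of `t` (`t = j - a` or `t = 1/j`):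
if `u ∈ FF N` is realised by `U ^ p`, `U ∈ holN N` with a character killing all conjugates of
powers of `ε` lying in `Γ₀(N)`, then `p ∣ ord_v u` at every place `v` with `ord_v t > 0`.
-/




set_option autoImplicit false
set_option linter.unusedSectionVars false
set_option linter.style.haveILetI false
set_option linter.unusedTactic false

noncomputable section

open ModularCurve AlgebraicCurve CongruenceSubgroup UpperHalfPlane HahnSeries
open scoped MatrixGroups Manifold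

namespace Fermat.Agent.S29.H150

open Fermat.Agent.S24 Fermat.Agent.S24.H997 Fermat.Agent.S29 Fermat.Agent.S29.M4b

/-! ### Orbits of the monodromy permutation -/

section Orbit

variable {K F : Type*} [Field K] [Field F] [Algebra K F] [IsAlgClosed K] [CharZero K]
variable {C : Type*} [Field C] [CharZero C] {X : Type*} [Finite X]

/-- The ramification index of the place induced by `x` is the length of the cycle of `x`. -/
theorem orbit_card_eq_ord (t : F) [FiniteDimensional ↥(IntermediateField.adjoin K {t}) F]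
    (hrank : Module.finrank ↥(IntermediateField.adjoin K {t}) F = Nat.card X)
    (d : LocalData K F C X t) (x : X) :
    (Nat.card (MulAction.orbit (Subgroup.zpowers d.perm) x) : ℤ) = (H117.placeOf d x).ord t := by
  classical
  have hfin : (zeroPlaces K t).Finite := (sub_local_count t hrank d).1
  have hs : ∀ v : Place K F, v ∈ hfin.toFinset ↔ 0 < v.ord t := fun v => by simp [zeroPlaces]
  have hsum := (sub_local_count t hrank d).2.2
  rw [finsum_mem_eq_finite_toFinset_sum _ hfin] at hsum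
  exact (H117.localThm d (IntermediateField.adjoin K {t}) le_rfl hrank hfin.toFinset hs
    hsum.ge).2.1 x

omit [Finite X] in
theorem perm_pow_orbit_card [Finite X] (π : Equiv.Perm X) (x : X) :
    (π ^ Nat.card (MulAction.orbit (Subgroup.zpowers π) x)) x = x := by
  classical
  haveI : Fintype (MulAction.orbit (Subgroup.zpowers π) x) := Fintype.ofFinite _
  have h := Function.isPeriodicPt_minimalPeriod (fun y : X => π • y) x
  rw [MulAction.minimalPeriod_eq_card, ← Nat.card_eq_fintype_card] at h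
  have h2 : (fun y : X => π • y)^[Nat.card (MulAction.orbit (Subgroup.zpowers π) x)] x = x := h
  rw [smul_iterate] at h2
  exact h2

end Orbit

variable {N : ℕ} [NeZero N] {p : ℕ} [NeZero p]

/-! ### The key local statement -/

theorem permOf_pow_apply (ε : SL(2, ℤ)) (k : ℕ) (g : SL(2, ℤ)) :
    (permOf N ε ^ k) (g : XX N) = ((ε ^ k * g : SL(2, ℤ)) : XX N) := by
  induction k with
  | zero => simp
  | succ k ih =>
    rw [pow_succ', Equiv.Perm.mul_apply, ih, pow_succ', mul_assoc]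
    rfl

/-- **Local divisibility.** -/
theorem dvd_ord_of_mkLocalData (X : Expansion (holBase N)) (ε : SL(2, ℤ))
    (R : RotData (holBase N) X ε) (t : FF N) (s : LaurentSeries ℂ)
    (ht : ∀ g : SL(2, ℤ), (holBase N).sigmaG X g t = s) (hs : s.order = (R.m : ℤ))
    [FiniteDimensional ↥(IntermediateField.adjoin Kbar {t}) (FF N)]
    (hrank : Module.finrank ↥(IntermediateField.adjoin Kbar {t}) (FF N) = Nat.card (XX N))
    {χ : Gamma0 N →* ℂˣ}
    (hχε : ∀ (g : SL(2, ℤ)) (k : ℕ) (hk : g * ε ^ k * g⁻¹ ∈ Gamma0 N), χ ⟨_, hk⟩ = 1)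
    {U : ℍ → ℂ} (hchar : H332.HasCharacter χ U) (hmem : U ∈ holN N) (hU0 : U ≠ 0)
    {u : FF N}
    (hq : (holBase N).qexp (⟨U, hmem⟩ ^ p)
      = HolBase.Φ N ((u : FF N) : LaurentSeries Kbar))
    (v : Place Kbar (FF N)) (hv : 0 < v.ord t) : (p : ℤ) ∣ v.ord u := by
  classical
  haveI : Finite (XX N) := inferInstance
  set d : LocalData Kbar (FF N) ℂ (XX N) t := (holBase N).mkLocalData X ε R t s ht hs with hd
  obtain ⟨x, hx⟩ := H117.exists_placeOf_eq d (IntermediateField.adjoin Kbar {t}) le_rfl hrank v hv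
  -- the cycle length
  set k : ℕ := Nat.card (MulAction.orbit (Subgroup.zpowers d.perm) x) with hk
  have hke : (k : ℤ) = (H117.placeOf d x).ord t := orbit_card_eq_ord t hrank d x
  have hkpos : (0 : ℤ) < k := by rw [hke, hx]; exact hv
  have hper : (d.perm ^ k) x = x := perm_pow_orbit_card d.perm x
  -- representative
  set g : SL(2, ℤ) := Quotient.out x with hg
  have hxg : ((g : SL(2, ℤ)) : XX N) = x := QuotientGroup.out_eq' x
  have hmemΓ : g⁻¹ * ε ^ k * g⁻¹⁻¹ ∈ Gamma0 N := by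
    have h1 : (permOf N ε⁻¹ ^ k) (g : XX N) = (g : XX N) := by
      rw [hxg]; exact hper
    rw [permOf_pow_apply] at h1
    have h2 := QuotientGroup.eq.mp h1
    have h3 : (ε⁻¹ ^ k * g)⁻¹ * g = g⁻¹ * ε ^ k * g⁻¹⁻¹ := by
      rw [mul_inv_rev, inv_pow, inv_inv, inv_inv]
    rwa [h3] at h2
  -- rotation argument
  have hdiv := hchar.dvd_mul_order hmem hU0 X R g⁻¹ k hmemΓ (hχε _ _ hmemΓ)
  set n : ℤ := (X.E ((holBase N).compH g⁻¹ ⟨U, hmem⟩)).order with hn
  -- `m = mult * e`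
  have hm : (H117.mult d x : ℤ) * (H117.placeOf d x).ord t = (R.m : ℤ) := H117.mult_mul_ord_t d x
  rw [← hke] at hm
  have hmult : (H117.mult d x : ℤ) ∣ n := by
    rw [← hm] at hdiv
    have h4 : (H117.mult d x : ℤ) * k ∣ n * k := by rwa [mul_comm n k]
    exact (mul_dvd_mul_iff_right hkpos.ne').mp h4
  -- the order of `σ_x u`
  have hσ : d.σ x u = X.E ((holBase N).compH g⁻¹ ⟨U, hmem⟩) ^ p := by
    show (holBase N).sigmaG X g u = _
    have hG : (fun τ => U τ ^ p) ∈ holN N := (holN N).pow_mem hmem p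
    have := sigmaG_eq_of_qexp X g (u := u) (G := fun τ => U τ ^ p) hG hq
    rw [this, ← map_pow, ← map_pow]
    rfl
  have hord := H117.order_eq d x u
  rw [hσ, HahnSeries.order_pow, hx, nsmul_eq_mul, ← hn] at hord
  obtain ⟨n', hn'⟩ := hmult
  have hmpos : (H117.mult d x : ℤ) ≠ 0 := by
    exact_mod_cast (H117.mult_pos d x).ne'
  refine ⟨n', ?_⟩
  have h5 : (H117.mult d x : ℤ) * v.ord u = (H117.mult d x : ℤ) * ((p : ℤ) * n') := by
    rw [← hord, hn']; push_cast; ring
  exact mul_left_cancel₀ hmpos h5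

end Fermat.Agent.S29.H150

end
end
-- ===== PACK-END S29/H150/K2Local.lean

-- ===== PACK-BEGIN S29/H150/K2.lean
section
/-
S29 / M4b / PIECE K2 (helper150): `pieceK2 : PieceK2 N p` for every modulus `p ≠ 0`
(EXACT `Prop` of `Fermat/Agent/S29/M4b/Top.lean`, = `exists_isKummerClass_of_realised` of
helper822's skeleton), DIRECTLY over `ℚ̄` on top of the landed S24 dictionary
(`H997.analyticCore`, `H117.exists_placeOf_eq`, `H117.order_eq`, `H117.localThm`) and the
rotation lemma `H332.HasCharacter.dvd_mul_order`.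

If `u ∈ FF N` is realised by `U ^ p`, `U` twisted of a character killing parabolic and
finite-order elements, then `p ∣ ord_v u` at EVERY place `v` of `FF N / ℚ̄`; the divisor
`(1/p) div u` has degree `0` and its class is the Kummer class of `u`.
-/




set_option autoImplicit false
set_option linter.unusedSectionVars false
set_option linter.style.haveILetI false

noncomputable section

open ModularCurve AlgebraicCurve CongruenceSubgroup UpperHalfPlane HahnSeries
open scoped MatrixGroups Manifold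

namespace Fermat.Agent.S29.H150

open Fermat.Agent.S24 Fermat.Agent.S24.H997 Fermat.Agent.S29 Fermat.Agent.S29.M4b

variable {N : ℕ} [NeZero N] {p : ℕ} [NeZero p]

/-! ### Finite order of the rotations `1`, `S`, `S * T` -/

theorem k2_S_pow : (ModularGroup.S : SL(2, ℤ)) ^ 12 = 1 := by
  have h4 : (ModularGroup.S : SL(2, ℤ)) ^ 4 = 1 := by
    ext i j
    fin_cases i <;> fin_cases j <;>
      simp [pow_succ, ModularGroup.S, Matrix.mul_apply, Fin.sum_univ_two]
  have : (ModularGroup.S : SL(2, ℤ)) ^ 12 = (ModularGroup.S ^ 4) ^ 3 := by rw [← pow_mul]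
  rw [this, h4, one_pow]

theorem k2_ST_pow : (ModularGroup.S * ModularGroup.T : SL(2, ℤ)) ^ 12 = 1 := by
  have h6 : (ModularGroup.S * ModularGroup.T : SL(2, ℤ)) ^ 6 = 1 := by
    ext i j
    fin_cases i <;> fin_cases j <;>
      simp [pow_succ, ModularGroup.S, ModularGroup.T, Matrix.mul_apply, Fin.sum_univ_two]
  have : (ModularGroup.S * ModularGroup.T : SL(2, ℤ)) ^ 12
      = ((ModularGroup.S * ModularGroup.T) ^ 6) ^ 2 := by rw [← pow_mul]
  rw [this, h6, one_pow]

/-- Point data over every finite point `a ∈ ℚ̄`, with a rotation of finite order. -/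
theorem exists_pointData (a : Kbar) :
    ∃ (ε : SL(2, ℤ)) (_ : PointData (holBase N) (ιK a) ε), ε ^ 12 = 1 := by
  by_cases h0 : a = 0
  · refine ⟨ModularGroup.S * ModularGroup.T, ?_, k2_ST_pow⟩
    rw [h0, map_zero]
    exact (analyticCore N).at0
  · by_cases h1 : a = 1728
    · refine ⟨ModularGroup.S, ?_, k2_S_pow⟩
      have : ιK a = 1728 := by rw [h1]; exact map_ofNat ιK 1728
      rw [this]
      exact (analyticCore N).at1728
    · refine ⟨1, ?_, one_pow 12⟩
      exact (analyticCore N).generic (ιK a)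
        (fun h => h0 (ιK_injective (by rw [h, map_zero])))
        (fun h => h1 (ιK_injective (by rw [h]; exact (map_ofNat ιK 1728).symm)))

/-! ### Divisibility at every place -/

/-- **DICT (hard direction) over `ℚ̄`**: `p ∣ ord_v u` at every place. -/
theorem dvd_ord_of_realised {c : G0 N → ZMod p} (hc : IsParHom c) {U : ℍ → ℂ} {u : FF N}
    (hU : IsTwisted N p c U) (hu : Realises N u (fun τ => U τ ^ p))
    (v : Place Kbar (FF N)) : (p : ℤ) ∣ v.ord u := by
  classical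
  have hmem : U ∈ holN N := mem_holN_of_isTwisted hc hU
  have hU0 : U ≠ 0 := ne_zero_of_isTwisted hU
  have hchar := hasCharacter_of_hasChar hc hU.hasChar
  have hG : (fun τ => U τ ^ p) ∈ holN N := (holN N).pow_mem hmem p
  have hq : (holBase N).qexp (⟨U, hmem⟩ ^ p)
      = HolBase.Φ N ((u : FF N) : LaurentSeries Kbar) :=
    qexp_eq_Φ_of_realises hG hu
  obtain ⟨hfd, hle⟩ := Deg457.degree_fields N
  haveI := hfd
  have hrank : Module.finrank ↥(IntermediateField.adjoin Kbar {jF N}) (FF N) = Nat.card (XX N) :=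
    le_antisymm hle (analyticCore N).card_le_finrank
  rcases sub_exists_point (jF N) v with h | ⟨a, ha⟩
  · -- the cusps
    have hv : 0 < v.ord (jF N)⁻¹ := by rw [v.ord_inv]; omega
    obtain ⟨hfd', hfr'⟩ := finiteDimensional_and_finrank_of_eq (adjoin_inv Kbar (jF N))
    haveI := hfd'
    refine dvd_ord_of_mkLocalData (holBase N).qexpExpansion ModularGroup.T
      (analyticCore N).infRot (jF N)⁻¹ ((holBase N).qexp ((holBase N).JH 1 (one_dvd N)))⁻¹
      (fun g => by rw [map_inv₀, HolBase.sigmaG_jF]; rfl)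
      (by
        rw [RotRel.order_inv' (holBase N).qexp_J_one_ne_zero, (holBase N).order_qexp_J_one,
          neg_neg]
        rfl)
      (hfr'.trans hrank)
      (fun g k hk => (k2Char_parTrivial hc).conj_T g k hk) hchar hmem hU0 hq v hv
  · -- finite points
    obtain ⟨ε, P, hε⟩ := exists_pointData (N := N) a
    obtain ⟨hfd', hfr'⟩ := finiteDimensional_and_finrank_of_eq (adjoin_sub_algebraMap Kbar (jF N) a)
    haveI := hfd'
    exact dvd_ord_of_mkLocalData P.X ε P.R (jF N - algebraMap Kbar (FF N) a)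
      (P.X.E ((holBase N).JH 1 (one_dvd N) - (holBase N).constH (ιK a)))
      (fun g => (analyticCore N).sigmaG_sub P g) P.order_J (hfr'.trans hrank)
      (fun g k hk => (k2Char_ellTrivial hc).conj (by norm_num) hε g k hk) hchar hmem hU0 hq v ha

omit [NeZero p] in
theorem ne_zero_of_realised {c : G0 N → ZMod p} {U : ℍ → ℂ} {u : FF N}
    (hU : IsTwisted N p c U) (hu : Realises N u (fun τ => U τ ^ p)) : u ≠ 0 := by
  rintro rfl
  have h1 := H822.realises_hasQExp hu
  have h2 : (fun τ => U τ ^ p) = 0 := by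
    have := h1.eq_zero_iff.mp (by simp)
    exact this
  obtain ⟨τ, hτ⟩ := hU.ne_zero
  have h3 : U τ ^ p = 0 := congrFun h2 τ
  have hp0 : p ≠ 0 := by
    intro hp0
    rw [hp0, pow_zero] at h3
    exact one_ne_zero h3
  exact hτ ((pow_eq_zero_iff hp0).mp h3)

/-! ### The Kummer class -/

/-- **PIECE K2**, exact statement of helper822's skeleton. -/
theorem exists_isKummerClass_of_realised {c : G0 N → ZMod p} (hc : IsParHom c) {U : ℍ → ℂ}
    {u : FF N} (hU : IsTwisted N p c U) (hu : Realises N u (fun τ => U τ ^ p)) :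
    ∃ x : JZero N, H455.IsKummerClass (p : ℤ) u x := by
  classical
  have hu0 : u ≠ 0 := ne_zero_of_realised hU hu
  have hdvd := dvd_ord_of_realised hc hU hu
  haveI := Fermat.Agent.Lib.RR.H864.hasPrincipalDivisors_modularFunctionFieldBar N
  obtain ⟨E, hE, hdeg⟩ := HasPrincipalDivisors.exists_divisor (K := Kbar) (F := FF N) u hu0
  have hp0 : (p : ℤ) ≠ 0 := by exact_mod_cast NeZero.ne p
  -- `D = E / p`
  let D : Divisor Kbar (FF N) := E.mapRange (fun n => n / (p : ℤ)) (by simp)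
  have hD : ∀ w : Place Kbar (FF N), (p : ℤ) * D w = w.ord u := by
    intro w
    show (p : ℤ) * (E.mapRange (fun n => n / (p : ℤ)) (by simp)) w = _
    rw [Finsupp.mapRange_apply, hE w]
    exact Int.mul_ediv_cancel' (hdvd w)
  have hpD : (p : ℤ) • D = E := by
    ext w
    rw [Finsupp.smul_apply, smul_eq_mul, hD w, hE w]
  have hdegD : Divisor.degree D = 0 := by
    have h1 : Divisor.degree ((p : ℤ) • D) = 0 := by rw [hpD]; exact hdeg
    rw [map_zsmul, smul_eq_mul] at h1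
    exact (mul_eq_zero.mp h1).resolve_left hp0
  exact ⟨Pic0.mk ⟨D, hdegD⟩, hu0, ⟨D, hdegD⟩, rfl, hD⟩

/-- **PIECE K2** as the `Prop` of `M4b/Top.lean`. -/
theorem pieceK2 (N : ℕ) [NeZero N] (p : ℕ) [NeZero p] : PieceK2 N p :=
  fun hc _ _ hU hu => exists_isKummerClass_of_realised hc hU hu

/-- **PIECE K2** for prime moduli, in the shape consumed by `M4bStatement_of_pieces`. -/
theorem pieceK2_prime (N : ℕ) [NeZero N] (p : ℕ) (hp : p.Prime) : PieceK2 N p :=
  haveI : NeZero p := ⟨hp.ne_zero⟩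
  pieceK2 N p

end Fermat.Agent.S29.H150

end
end
-- ===== PACK-END S29/H150/K2.lean

-- ===== PACK-BEGIN S29/M4b/K3/Top.lean
section
/-
S29 row, LAYER M, SUB-LAYER M4b, PIECE K3 (descent `ℂ → ℚ̄`) — TOP ASSEMBLY (helper42).

`exists_realised_isTwisted_of` = the EXACT statement of piece `K3` of helper822's
`M4b/Skeleton.lean` (`exists_realised_isTwisted`), PROVED from
* `DegStatement N`   (sub-piece K3-DEG),
* `FinStatement N p` (sub-piece K3-FIN),
* `H152.desc_main` (helper152, places-free descent), ROOT `H751`, MERO `H882`.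

Proof.  `f = qexp (U^p) ∈ F_ℂ` (MERO), `h = qexp U`, `h^p = f`.  By `desc_main` there are
`g ∈ F_ℂˣ`, `f' ∈ FF N` with `f g^p = ι f'`.  Write `f' = r / s` with `r, s` polynomials in the
`j(q^d)` over `ℚ̄`; `u := r s^(p-1) = f' s^p` is realised by a good function `G'`
(`AK ⊆ goodQ`).  Write `g ι(s) = a / b` with `a = qexp A`, `b = qexp B`, `A B` good.  Then
`G' B^p = (U A)^p`, so all orders of `G'` are divisible by `p`, `G' = U'^p` (ROOT), and
`U' B = ζ U A`, whence `U'` has the character of `U`.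
-/




set_option autoImplicit false
set_option linter.style.haveILetI false

noncomputable section

open ModularCurve AlgebraicCurve CongruenceSubgroup UpperHalfPlane
open scoped MatrixGroups Manifold

namespace Fermat.Agent.S29.M4b.K3

open Fermat.Agent.S24 Fermat.Agent.S24.H648 Fermat.Agent.S24.H708 Fermat.Agent.S24.Deg457
open Fermat.Agent.S24.H624
open Fermat.Agent.S29 Fermat.Agent.S29.M4b

theorem order_jq : jq.order = -1 := by
  have hne : jq ≠ 0 := by
    intro h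
    have h1 := coeff_jq_neg_one
    rw [h, HahnSeries.coeff_zero] at h1
    exact zero_ne_one h1
  refine le_antisymm (HahnSeries.order_le_of_coeff_ne_zero ?_) ?_
  · rw [coeff_jq_neg_one]
    exact one_ne_zero
  · by_contra hlt
    rw [not_le] at hlt
    refine HahnSeries.coeff_order_eq_zero.not.mpr hne ?_
    exact coeff_jq_of_lt hlt

/-- ROOT with divisibility read off from an identity `G * B ^ p = V ^ p`. -/
theorem exists_root_of_mul_pow_eq {p : ℕ} (hp : p ≠ 0) {G B V : ℍ → ℂ}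
    (hG : MDifferentiable 𝓘(ℂ) 𝓘(ℂ) G) (hB : MDifferentiable 𝓘(ℂ) 𝓘(ℂ) B)
    (hV : MDifferentiable 𝓘(ℂ) 𝓘(ℂ) V) (hB0 : B ≠ 0) (hV0 : V ≠ 0)
    (h : ∀ τ, G τ * B τ ^ p = V τ ^ p) :
    ∃ U' : ℍ → ℂ, MDifferentiable 𝓘(ℂ) 𝓘(ℂ) U' ∧ ∀ τ : ℍ, U' τ ^ p = G τ := by
  refine H751.exists_pow_eq_UHP hG p hp fun τ => ?_
  have hfun : G * B ^ p = V ^ p := funext h
  have h1 : ordAt τ (G * B ^ p) = ordAt τ G + p • ordAt τ B := by
    rw [ordAt_mul hG (hB.pow p)]
    congr 1
    rw [ordAt_def, ordAt_def]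
    have : (B ^ p) ∘ ofComplex = (B ∘ ofComplex) ^ p := rfl
    rw [this, analyticOrderAt_pow (analyticAt_of_mdiff hB τ)]
  have h2 : ordAt τ (V ^ p) = p • ordAt τ V := by
    rw [ordAt_def, ordAt_def]
    have : (V ^ p) ∘ ofComplex = (V ∘ ofComplex) ^ p := rfl
    rw [this, analyticOrderAt_pow (analyticAt_of_mdiff hV τ)]
  rw [hfun, h2] at h1
  obtain ⟨b, hb⟩ := ENat.ne_top_iff_exists.mp (ordAt_ne_top hB hB0 τ)
  obtain ⟨v, hv⟩ := ENat.ne_top_iff_exists.mp (ordAt_ne_top hV hV0 τ)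
  have hGne : ordAt τ G ≠ ⊤ := by
    intro htop
    rw [htop, top_add, ← hv] at h1
    have h4 : ((p * v : ℕ) : ℕ∞) = ⊤ := by
      rw [← h1]; push_cast; simp [nsmul_eq_mul]
    exact ENat.natCast_ne_top _ h4
  obtain ⟨g, hg⟩ := ENat.ne_top_iff_exists.mp hGne
  rw [← hb, ← hv, ← hg] at h1
  have h3 : p * v = g + p * b := by
    have : ((p * v : ℕ) : ℕ∞) = ((g + p * b : ℕ) : ℕ∞) := by
      push_cast
      simpa [nsmul_eq_mul] using h1
    exact_mod_cast this
  refine ⟨v - b, ?_⟩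
  rw [← ordAt_def, ← hg]
  have hbv : b ≤ v := by
    by_contra hlt
    rw [not_le] at hlt
    have : p * v < p * b := Nat.mul_lt_mul_of_pos_left hlt (Nat.pos_of_ne_zero hp)
    omega
  have : g = p * (v - b) := by
    rw [Nat.mul_sub]
    omega
  rw [this]

/-- **PIECE K3** (exact statement of `exists_realised_isTwisted` in `M4b/Skeleton.lean`), from
the sub-pieces `K3-DEG` and `K3-FIN`. -/
theorem exists_realised_isTwisted_of (N : ℕ) [NeZero N] (p : ℕ) [NeZero p]
    (hdeg : DegStatement N) (hfin : FinStatement N p)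
    {c : G0 N → ZMod p} (hc : IsParHom c) {U : ℍ → ℂ} (hU : IsTwisted N p c U) :
    ∃ (U' : ℍ → ℂ) (u : FF N), IsTwisted N p c U' ∧ Realises N u (fun τ => U' τ ^ p) := by
  classical
  letI : Algebra Kbar ℂ := algKC
  have hp : p ≠ 0 := NeZero.ne p
  -- `q`-expansions of `U` and `U ^ p`
  have hqU : HasQExp 1 U (qexpFun 1 U) := HasQExp.of_isMerInf (isMerInf_of_isTwisted hc hU)
  have hqG : HasQExp 1 (fun τ => U τ ^ p) (qexpFun 1 U ^ p) := hqU.pow p
  have hfFC : qexpFun 1 (fun τ => U τ ^ p) ∈ FC N := H882.qexpFun_mem_FC hU.pow_mem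
  have hUne : U ≠ 0 := by
    obtain ⟨τ, hτ⟩ := hU.ne_zero
    intro h0
    exact hτ (by rw [h0]; rfl)
  have hGne : (fun τ => U τ ^ p) ≠ 0 := by
    obtain ⟨τ, hτ⟩ := hU.ne_zero
    intro h0
    exact pow_ne_zero p hτ (congrFun h0 τ)
  have hf0 : qexpFun 1 (fun τ => U τ ^ p) ≠ 0 := by
    rw [hqG.qexpFun_eq]
    exact fun h0 => hGne (hqG.eq_zero_iff.mp h0)
  -- descent
  obtain ⟨n, hn⟩ := hdeg
  obtain ⟨T, hT, horb⟩ := hfin c hc U hU
  obtain ⟨g, hgF, hg0, -, -, -, f', hf', hfg⟩ := H152.desc_main (K := Kbar) (Ω := ℂ)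
    (modularFunctionFieldFull N) jq (modularFunctionField_le_full N (jq_mem N)) order_jq n hn
    p (Nat.pos_of_ne_zero hp) (qexpFun 1 (fun τ => U τ ^ p)) (qexpFun 1 U) hfFC hf0
    hqG.qexpFun_eq.symm T hT horb
  -- clear the denominator of `f'` by a `p`-th power
  obtain ⟨r, hr, s, hs, hs0, hrs⟩ := exists_div_AK Kbar N hf'
  have hιinj : Function.Injective (coeffMap iotaC) := by
    intro x y hxy
    ext k
    have := congrArg (fun z : LaurentSeries ℂ => z.coeff k) hxy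
    simp only [coeffMap_coeff] at this
    exact iotaC.injective this
  have hιs0 : coeffMap iotaC s ≠ 0 := fun h0 => hs0 (hιinj (by rw [h0, map_zero]))
  set u₀ : LaurentSeries Kbar := r * s ^ (p - 1) with hu₀
  have hu₀AK : u₀ ∈ AK Kbar N := mul_mem hr (pow_mem hs _)
  have hu₀F : u₀ ∈ modularFunctionFieldBar N := AK_le_laurentBaseChange Kbar N hu₀AK
  have hu₀eq : u₀ = f' * s ^ p := by
    rw [hu₀, hrs]
    have : s ^ p = s ^ (p - 1) * s := by
      rw [← pow_succ, Nat.sub_add_cancel (Nat.pos_of_ne_zero hp)]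
    rw [this]
    field_simp
  -- `ι u₀ = f * φ ^ p` with `φ = g * ι s ∈ F_ℂ`
  set φ : LaurentSeries ℂ := g * coeffMap iotaC s with hφ
  have hφF : φ ∈ FC N :=
    mul_mem hgF (AK_le_laurentBaseChange ℂ N (coeffMap_mem_AK iotaC hs))
  have hφ0 : φ ≠ 0 := mul_ne_zero hg0 hιs0
  have hιu : coeffMap iotaC u₀ = qexpFun 1 (fun τ => U τ ^ p) * φ ^ p := by
    rw [hu₀eq, map_mul, map_pow, hφ, mul_pow, ← mul_assoc, hfg]
    rfl
  -- the good function realising `u₀`
  obtain ⟨G', hG'good, hG'q⟩ := H882.AK_le_goodQ N (coeffMap_mem_AK iotaC hu₀AK)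
  -- `φ = a / b`, quotient of `q`-expansions of good functions
  obtain ⟨a, ⟨A, hAgood, hAq⟩, b, ⟨B, hBgood, hBq⟩, hb0, hab⟩ := exists_div_goodQ hφF
  have ha0 : a ≠ 0 := by
    rintro rfl
    rw [zero_div] at hab
    exact hφ0 hab
  have hA0 : A ≠ 0 := fun h0 => ha0 (hAq.eq_zero_iff.mpr h0)
  have hB0 : B ≠ 0 := fun h0 => hb0 (hBq.eq_zero_iff.mpr h0)
  -- `G' * B ^ p = (U * A) ^ p`
  have hser : coeffMap iotaC u₀ * b ^ p = (qexpFun 1 U * a) ^ p := by
    rw [hιu, hab, mul_pow, hqG.qexpFun_eq, mul_assoc, div_pow,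
      div_mul_cancel₀ _ (pow_ne_zero p hb0)]
  have hfunc : G' * B ^ p = (U * A) ^ p :=
    HasQExp.eq_of_eq (hser ▸ hG'q.mul (hBq.pow p)) ((hqU.mul hAq).pow p)
  have hpt : ∀ τ, G' τ * B τ ^ p = (U * A) τ ^ p := fun τ => congrFun hfunc τ
  have hG'm : MDifferentiable 𝓘(ℂ) 𝓘(ℂ) G' := hG'good.1
  have hAm : MDifferentiable 𝓘(ℂ) 𝓘(ℂ) A := hAgood.1
  have hBm : MDifferentiable 𝓘(ℂ) 𝓘(ℂ) B := hBgood.1
  have hUAm : MDifferentiable 𝓘(ℂ) 𝓘(ℂ) (U * A) := hU.mdiff.mul hAm
  have hUA0 : U * A ≠ 0 := by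
    intro h0
    rcases mul_eq_zero_of_mdiff hU.mdiff hAm h0 with h1 | h1
    · exact hUne h1
    · exact hA0 h1
  -- the root
  obtain ⟨U', hU'm, hU'p⟩ := exists_root_of_mul_pow_eq hp hG'm hBm hUAm hB0 hUA0 hpt
  -- `U' * B = ζ * (U * A)`
  obtain ⟨τ₀, hτ₀⟩ : ∃ τ₀, (U * A) τ₀ ≠ 0 := by
    by_contra hcon
    push Not at hcon
    exact hUA0 (funext hcon)
  have hpow : ∀ τ, (U' τ * B τ) ^ p = (U * A) τ ^ p := fun τ => by
    rw [mul_pow, hU'p, hpt]
  set ζ : ℂ := U' τ₀ * B τ₀ / (U * A) τ₀ with hζ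
  have hζp : ζ ^ p = 1 := by
    rw [hζ, div_pow, hpow, div_self (pow_ne_zero p hτ₀)]
  have hζ0 : ζ ≠ 0 := fun h0 => by
    rw [h0, zero_pow hp] at hζp
    exact zero_ne_one hζp
  have hmul : (fun τ => U' τ * B τ) = fun τ => ζ * (U * A) τ := by
    refine H751.eq_of_pow_eq_UHP (hU'm.mul hBm) ((mdifferentiable_const (c := ζ)).mul hUAm) hp
      (fun τ => ?_) (τ₀ := τ₀) ?_ ?_
    · rw [hpow, mul_pow, hζp, one_mul]
    · rw [hζ]
      field_simp
    · intro h0
      have h1 := hpow τ₀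
      rw [h0, zero_pow hp] at h1
      exact pow_ne_zero p hτ₀ h1.symm
  have hchar : HasChar N p c U' :=
    hasChar_of_mul_eq ζ hU'm hBm hB0 hAgood.2.1 hBgood.2.1 hU.hasChar
      (fun τ => congrFun hmul τ)
  have hG'eq : (fun τ => U' τ ^ p) = G' := funext hU'p
  have hG'0 : G' ≠ 0 := by
    intro h0
    have := hpt τ₀
    rw [h0] at this
    simp only [Pi.zero_apply, zero_mul] at this
    exact pow_ne_zero p hτ₀ this.symm
  refine ⟨U', ⟨u₀, hu₀F⟩, ⟨hU'm, ?_, hchar, ?_⟩, ?_, ?_⟩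
  · by_contra hcon
    push Not at hcon
    apply hG'0
    funext τ
    rw [← hU'p, hcon, zero_pow hp]
    rfl
  · rw [hG'eq]; exact hG'good
  · rw [hG'eq]; exact hG'good
  · rw [hG'eq]; exact hG'q.qexpFun_eq

end Fermat.Agent.S29.M4b.K3

end
end
-- ===== PACK-END S29/M4b/K3/Top.lean

-- ===== PACK-BEGIN S29/M4b/K3/Main.lean
section
/-
S29 row, M4b, piece K3 — `PieceK3 N p` from the single remaining sub-piece `K3-FIN` (helper42).
-/




set_option autoImplicit false

noncomputable section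

open ModularCurve AlgebraicCurve CongruenceSubgroup UpperHalfPlane
open scoped MatrixGroups Manifold

namespace Fermat.Agent.S29.M4b.K3

open Fermat.Agent.S24 Fermat.Agent.S29 Fermat.Agent.S29.M4b

/-- **PIECE K3** in the `Prop` form of `M4b/Top.lean`, from `K3-FIN`. -/
theorem pieceK3_of_fin (N : ℕ) [NeZero N] (p : ℕ) [NeZero p] (hfin : FinStatement N p) :
    PieceK3 N p :=
  fun hc _ hU => exists_realised_isTwisted_of N p (degStatement N) hfin hc hU

end Fermat.Agent.S29.M4b.K3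

end
end
-- ===== PACK-END S29/M4b/K3/Main.lean

-- ===== PACK-BEGIN S29/M4b/H822/K4Uniq.lean
section
/-
S29 / M4b (helper822): PIECE `K4-UNIQ` (`isKum_unique`) of `M4b/Skeleton.lean`, exact statement.
Sorry-free.  Inputs (all on main): MERO `H882.qexpFun_mem_FC`, `H32.mem_range_of_finite_orbit`,
`H32.exists_of_coeff_mem_range`, `H455.IsKummerClass` API.
-/




set_option autoImplicit false

noncomputable section

open ModularCurve AlgebraicCurve CongruenceSubgroup UpperHalfPlane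
open scoped MatrixGroups Manifold

namespace Fermat.Agent.S29.M4b.H822

open Fermat.Agent.S24 Fermat.Agent.S29 Fermat.Agent.S29.M4b

/-! ### Growth of roots -/

theorem expGrowth_of_pow {F : ℍ → ℂ} {p : ℕ} (hp : p ≠ 0)
    (h : H648.ExpGrowth (fun τ => F τ ^ p)) : H648.ExpGrowth F := by
  obtain ⟨C, m, hC⟩ := h
  refine ⟨1 + |C|, m, fun τ hτ => ?_⟩
  have h1 := hC τ hτ
  rw [norm_pow] at h1
  have hE : (1 : ℝ) ≤ Real.exp (2 * Real.pi * m * τ.im) := by
    apply Real.one_le_exp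
    have : (0 : ℝ) ≤ τ.im := τ.im_pos.le
    positivity
  have h2 : ‖F τ‖ ≤ 1 + ‖F τ‖ ^ p := by
    rcases le_or_gt ‖F τ‖ 1 with h | h
    · have : (0 : ℝ) ≤ ‖F τ‖ ^ p := by positivity
      linarith
    · have : ‖F τ‖ ≤ ‖F τ‖ ^ p := le_self_pow₀ h.le hp
      linarith
  have h3 : C * Real.exp (2 * Real.pi * m * τ.im) ≤ |C| * Real.exp (2 * Real.pi * m * τ.im) :=
    mul_le_mul_of_nonneg_right (le_abs_self C) (Real.exp_pos _).le
  calc ‖F τ‖ ≤ 1 + ‖F τ‖ ^ p := h2
    _ ≤ 1 + |C| * Real.exp (2 * Real.pi * m * τ.im) := by linarith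
    _ ≤ Real.exp (2 * Real.pi * m * τ.im) + |C| * Real.exp (2 * Real.pi * m * τ.im) := by
        linarith
    _ = (1 + |C|) * Real.exp (2 * Real.pi * m * τ.im) := by ring

/-- A holomorphic `Γ₀(N)`-invariant function whose `p`-th power is good is good. -/
theorem mem_goodRing_of_pow_mem {N : ℕ} {V : ℍ → ℂ} {p : ℕ} (hp : p ≠ 0)
    (hV : MDifferentiable 𝓘(ℂ) 𝓘(ℂ) V)
    (hinv : ∀ γ ∈ Gamma0 N, ∀ τ : ℍ, V (γ • τ) = V τ)
    (hpow : (fun τ => V τ ^ p) ∈ H648.goodRing N) : V ∈ H648.goodRing N :=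
  ⟨hV, hinv, fun g => expGrowth_of_pow hp (hpow.2.2 g)⟩

/-! ### Algebraicity of the coefficients of a `p`-th root -/

/-- The algebra structure `ℚ̄ → ℂ` given by the fixed embedding `iotaC`. -/
abbrev algKbarC : Algebra Kbar ℂ := Deg457.iotaC.toAlgebra

theorem isScalarTower_algKbarC :
    letI := algKbarC
    IsScalarTower ℚ Kbar ℂ := by
  letI := algKbarC
  refine IsScalarTower.of_algebraMap_eq fun q => ?_
  show (algebraMap ℚ ℂ) q = Deg457.iotaC (algebraMap ℚ Kbar q)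
  unfold Deg457.iotaC
  simp

/-- If `s ^ p` has coefficients in `ℚ̄`, so has `s` (`p ≥ 1`). -/
theorem coeff_mem_range_of_pow_eq {p : ℕ} [NeZero p] {s : LaurentSeries ℂ}
    {w : LaurentSeries Kbar} (hs : s ^ p = coeffMap Deg457.iotaC w) (n : ℤ) :
    s.coeff n ∈ Set.range Deg457.iotaC := by
  letI := algKbarC
  have hpn : p ≠ 0 := NeZero.ne p
  show s.coeff n ∈ Set.range (algebraMap Kbar ℂ)
  apply H32.mem_range_of_finite_orbit
  rcases eq_or_ne s 0 with rfl | hs0
  · refine (Set.finite_singleton (0 : ℂ)).subset ?_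
    rintro _ ⟨σ, rfl⟩
    simp
  -- the conjugates are among the `ζ ^ i * s_n`
  refine (Set.finite_range fun i : Fin p => zetaP p ^ (i : ℕ) * s.coeff n).subset ?_
  rintro _ ⟨σ, rfl⟩
  set s' : LaurentSeries ℂ := coeffMap (σ : ℂ →+* ℂ) s with hs'
  have h1 : s' ^ p = s ^ p := by
    rw [hs', ← map_pow, hs, coeffMap_coeffMap]
    apply coeffMap_congr
    ext c
    exact σ.commutes c
  have h2 : (s' / s) ^ p = 1 := by
    rw [div_pow, h1, div_self (pow_ne_zero _ hs0)]
  have hprim : IsPrimitiveRoot (algebraMap ℂ (LaurentSeries ℂ) (zetaP p)) p :=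
    (isPrimitiveRoot_zetaP p).map_of_injective (algebraMap ℂ (LaurentSeries ℂ)).injective
  obtain ⟨i, hi, hi2⟩ := hprim.eq_pow_of_pow_eq_one h2
  have h3 : s' = algebraMap ℂ (LaurentSeries ℂ) (zetaP p ^ i) * s := by
    rw [map_pow, hi2, div_mul_cancel₀ _ hs0]
  refine ⟨⟨i, hi⟩, ?_⟩
  show zetaP p ^ i * s.coeff n = σ (s.coeff n)
  have h4 : s'.coeff n = σ (s.coeff n) := rfl
  rw [← h4, h3, H32.coeff_algebraMap_mul]

/-! ### Powers of Kummer classes -/

theorem isKummerClass_pow {K F : Type*} [Field K] [Field F] [Algebra K F] {n : ℤ} {f : F}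
    {x : Pic0 K F} (h : H455.IsKummerClass n f x) (k : ℕ) :
    H455.IsKummerClass n (f ^ k) (k • x) := by
  induction k with
  | zero => simpa using (H455.IsKummerClass.zero (n := n) (K := K) (F := F))
  | succ k ih =>
    rw [pow_succ, succ_nsmul]
    exact ih.add h

/-! ### The piece -/

variable (N : ℕ) [NeZero N] (p : ℕ) [NeZero p]

/-- PIECE `K4-UNIQ`: the Kummer class of a character is unique. -/
theorem isKum_unique {c : G0 N → ZMod p} {x x' : JZero N}
    (h : IsKum N p c x) (h' : IsKum N p c x') : x = x' := by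
  obtain ⟨f, t, U, ht, hx, hU, hr⟩ := h
  obtain ⟨f', t', U', ht', hx', hU', hr'⟩ := h'
  have hpn : p ≠ 0 := NeZero.ne p
  have hp0 : (p : ℤ) ≠ 0 := by exact_mod_cast hpn
  have hp1 : p - 1 + 1 = p := Nat.sub_add_cancel (Nat.pos_of_ne_zero hpn)
  -- the invariant function `V = U * U' ^ (p - 1)`
  set V : ℍ → ℂ := fun τ => U τ * U' τ ^ (p - 1) with hVdef
  set w : FF N := f * t ^ p * (f' * t' ^ p) ^ (p - 1) with hw
  have hVpow : (fun τ => V τ ^ p) = (fun τ => U τ ^ p) * (fun τ => U' τ ^ p) ^ (p - 1) := by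
    funext τ
    simp only [hVdef, Pi.mul_apply, Pi.pow_apply, mul_pow]
    rw [← pow_mul, ← pow_mul, mul_comm (p - 1) p]
  have hWreal : Realises N w (fun τ => V τ ^ p) := by
    rw [hVpow]
    exact realises_mul hr (realises_pow hr' (p - 1))
  have hVmd : MDifferentiable 𝓘(ℂ) 𝓘(ℂ) V := hU.mdiff.mul (hU'.mdiff.pow (p - 1))
  have hVinv : ∀ γ ∈ Gamma0 N, ∀ τ : ℍ, V (γ • τ) = V τ := by
    intro γ hγ τ
    have e1 := hU.hasChar ⟨γ, hγ⟩ τ
    have e2 := hU'.hasChar ⟨γ, hγ⟩ τ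
    simp only at e1 e2
    show U (γ • τ) * U' (γ • τ) ^ (p - 1) = U τ * U' τ ^ (p - 1)
    rw [e1, e2, mul_pow]
    have e3 : zetaP p ^ (c ⟨γ, hγ⟩).val * (zetaP p ^ (c ⟨γ, hγ⟩).val) ^ (p - 1) = 1 := by
      rw [← pow_succ', hp1, ← pow_mul, mul_comm, pow_mul, zetaP_pow_self, one_pow]
    linear_combination (U τ * U' τ ^ (p - 1)) * e3
  have hVgood : V ∈ H648.goodRing N := mem_goodRing_of_pow_mem hpn hVmd hVinv hWreal.1
  -- its `q`-expansion `s`
  set s : LaurentSeries ℂ := H708.qexpFun 1 V with hsdef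
  have hsQ : H708.HasQExp 1 V s := H882.hasQExp_of_mem_goodRing hVgood
  have hsFC : s ∈ laurentBaseChange ℂ (modularFunctionFieldFull N) := H882.qexpFun_mem_FC (N := N) hVgood
  have hsp : s ^ p = coeffMap Deg457.iotaC ((w : FF N) : LaurentSeries Kbar) := by
    have h1 := hsQ.pow p
    have h2 : V ^ p = fun τ => V τ ^ p := rfl
    rw [h2] at h1
    exact h1.unique (realises_hasQExp hWreal)
  -- descent of `s` to `ℚ̄`
  let _ : Algebra Kbar ℂ := algKbarC
  have _ : IsScalarTower ℚ Kbar ℂ := isScalarTower_algKbarC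
  obtain ⟨y, hy, hys⟩ := H32.exists_of_coeff_mem_range (k := Kbar) (Ω := ℂ)
    (modularFunctionFieldFull N) hsFC (fun n => coeff_mem_range_of_pow_eq hsp n)
  set vv : FF N := ⟨y, hy⟩ with hvv
  have hvvp : vv ^ p = w := by
    apply Subtype.ext
    apply coeffMap_iotaC_injective
    show coeffMap Deg457.iotaC (((vv ^ p : FF N) : FF N) : LaurentSeries Kbar) = _
    rw [← hsp, ← hys]
    simp only [SubmonoidClass.coe_pow, map_pow]
    rfl
  -- `f * f' ^ (p - 1)` is a `p`-th power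
  have hf0 := hx.ne_zero
  have hf0' := hx'.ne_zero
  have hd0 : t * t' ^ (p - 1) ≠ 0 := mul_ne_zero ht (pow_ne_zero _ ht')
  set g : FF N := vv / (t * t' ^ (p - 1)) with hg
  have hgp : g ^ p = f * f' ^ (p - 1) := by
    rw [hg, div_pow, hvvp, hw]
    rw [div_eq_iff (pow_ne_zero _ hd0)]
    have e1 : (t' ^ p) ^ (p - 1) = (t' ^ (p - 1)) ^ p := by
      rw [← pow_mul, ← pow_mul, mul_comm]
    rw [mul_pow, mul_pow, e1]
    ring
  have hg0 : g ≠ 0 := by
    intro h0
    rw [h0, zero_pow hpn] at hgp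
    exact (mul_ne_zero hf0 (pow_ne_zero _ hf0')) hgp.symm
  have hsum : H455.IsKummerClass (p : ℤ) (f * f' ^ (p - 1)) (x + (p - 1) • x') :=
    hx.add (isKummerClass_pow hx' (p - 1))
  have hzero : x + (p - 1) • x' = 0 := by
    refine (hsum.eq_zero_iff hp0).mpr ⟨g, hg0, fun v => ?_⟩
    rw [← hgp, ← zpow_natCast, Place.ord_zpow]
  have hpx' : (p : ℤ) • x' = 0 := hx'.zsmul_eq_zero
  have h5 : (p - 1) • x' + x' = 0 := by
    rw [← succ_nsmul, hp1, ← natCast_zsmul]
    exact hpx'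
  have h6 : x - x' = 0 := by
    have : x - x' = (x + (p - 1) • x') - ((p - 1) • x' + x') := by abel
    rw [this, hzero, h5, sub_zero]
  exact sub_eq_zero.mp h6

end Fermat.Agent.S29.M4b.H822

end
end
-- ===== PACK-END S29/M4b/H822/K4Uniq.lean

-- ===== PACK-BEGIN S29/M4b/H822/K4.lean
section
/-
S29 / M4b (helper822): the pieces `K4-UNIQ`, `K4-INJ`, `K4-ADD` of the Kummer map, in the EXACT
shape of the `Prop`s `PieceUniq`, `PieceInj`, `PieceAdd` of `M4b/Top.lean` (for every modulus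
`p ≠ 0`, in particular for `p` prime).  Sorry-free.
-/




set_option autoImplicit false

namespace Fermat.Agent.S29.M4b.H822

open Fermat.Agent.S24 Fermat.Agent.S29 Fermat.Agent.S29.M4b

/-- PIECE `K4-UNIQ`, exact `Prop` of `M4b/Top.lean`. -/
theorem pieceUniq (N : ℕ) [NeZero N] (p : ℕ) (hp : p ≠ 0) : PieceUniq N p := by
  haveI : NeZero p := ⟨hp⟩
  intro c x x' h h'
  exact isKum_unique N p h h'

/-- PIECE `K4-INJ`, exact `Prop` of `M4b/Top.lean`. -/
theorem pieceInj (N : ℕ) [NeZero N] (p : ℕ) (hp : p ≠ 0) : PieceInj N p := by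
  haveI : NeZero p := ⟨hp⟩
  intro c h
  exact isKum_zero_right N p h

/-- PIECE `K4-ADD`, exact `Prop` of `M4b/Top.lean`. -/
theorem pieceAdd (N : ℕ) [NeZero N] (p : ℕ) (hp : p ≠ 0) : PieceAdd N p := by
  haveI : NeZero p := ⟨hp⟩
  intro c c' x x' h h'
  exact isKum_add N p h h'

/-- The Kummer bridge `M4bStatement` from the FOUR remaining pieces (`K1`, `K3`, `K2`,
`K4-HECKE`), for all levels and prime moduli. -/
theorem m4bStatement_of_four
    (h1 : ∀ (N : ℕ) [NeZero N] (p : ℕ), p.Prime → PieceK1 N p)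
    (h3 : ∀ (N : ℕ) [NeZero N] (p : ℕ), p.Prime → PieceK3 N p)
    (h2 : ∀ (N : ℕ) [NeZero N] (p : ℕ), p.Prime → PieceK2 N p)
    (hh : ∀ (N : ℕ) [NeZero N] (p : ℕ), p.Prime → PieceHecke N p) :
    M4bStatement :=
  M4bStatement_of_pieces h1 h3 h2 (fun N _ p hp => pieceUniq N p hp.ne_zero)
    (fun N _ p hp => pieceInj N p hp.ne_zero) (fun N _ p hp => pieceAdd N p hp.ne_zero) hh

end Fermat.Agent.S29.M4b.H822

end
-- ===== PACK-END S29/M4b/H822/K4.lean

-- ===== PACK-BEGIN S29/H395/K4Hecke.lean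
section
/-
S29 / layer M / sub-layer M4b, PIECE `K4-HECKE` — helper395.

`isKum_hecke_of_normId` : the exact conclusion of `M4b.isKum_hecke` (helper822's skeleton),
from ONE external input, the `q`-expansion form of the norm identity
`H222.NormId N ℓ : (Nm_α (β y) : ℚ̄((q))) = kronNorm ℓ y` (row S37, NORM-ID / NKI).

Everything else is proved: Hecke inputs (landed `HI`), the correspondence on Kummer classes
(landed `H455`), the transfer formula for products (`ProdChar`), the analytic Kronecker norm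
(`AnalyticKron`), stability of good functions under `heckeProd` (`GoodProd`), and the comparison
of the two index conventions (landed `M4a/Fac`).
-/






set_option autoImplicit false
set_option linter.style.haveILetI false

noncomputable section

open ModularCurve AlgebraicCurve CongruenceSubgroup UpperHalfPlane
open scoped MatrixGroups Manifold Real

namespace Fermat.Agent.S29.H395

open Fermat.Agent.S24 Fermat.Agent.S29 Fermat.Agent.S29.M4b Fermat.Agent.S37.H400

/-! ### Roots of unity bookkeeping -/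

theorem zetaP_pow_self (p : ℕ) [NeZero p] : zetaP p ^ p = 1 :=
  (Complex.isPrimitiveRoot_exp p (NeZero.ne p)).pow_eq_one

theorem zetaP_pow_eq_of_natCast_eq (p : ℕ) [NeZero p] {a b : ℕ}
    (h : (a : ZMod p) = (b : ZMod p)) : zetaP p ^ a = zetaP p ^ b := by
  have hab : a ≡ b [MOD p] := (ZMod.natCast_eq_natCast_iff a b p).mp h
  rw [← Nat.div_add_mod a p, ← Nat.div_add_mod b p, pow_add, pow_add, pow_mul, pow_mul,
    zetaP_pow_self, one_pow, one_pow, one_mul, one_mul, hab]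

/-! ### The character of `heckeProd ℓ U` -/

theorem hasChar_heckeProd (N p : ℕ) [NeZero N] [NeZero p] {ℓ : ℕ} [Fact ℓ.Prime] (hℓN : ¬ ℓ ∣ N)
    {c c' : G0 N → ZMod p} (hcc' : IsTransfer N ℓ c c') {U : ℍ → ℂ} (hU : HasChar N p c U) :
    HasChar N p c' (heckeProd ℓ U) := by
  intro γ τ
  rw [heckeProd_smul hℓN (h := U) (c := fun γ => zetaP p ^ (c γ).val) hU γ τ]
  congr 1
  rw [Finset.prod_pow_eq_pow_sum]
  apply zetaP_pow_eq_of_natCast_eq
  have h1 := hcc' γ (M4aTop_perm γ) (fun i => H201.trf hℓN γ (M4aTop_idx ℓ i))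
    (fun i => M4aTop_isHeckeFactor_trf hℓN γ i)
  rw [ZMod.natCast_zmod_val, h1, Nat.cast_sum]
  simp only [ZMod.natCast_zmod_val]
  exact (Equiv.sum_comp (M4aTop_idx ℓ) (fun x => c (H201.trf hℓN γ x))).symm

/-! ### `q`-expansions: `InfExp` versus `HasQExp` -/

theorem infExp_of_hasQExp {f : ℍ → ℂ} {φ : LaurentSeries ℂ} (h : H708.HasQExp 1 f φ) :
    InfExp 1 f φ := fun τ => h.hasSum τ

theorem hasQExp_of_infExp {f : ℍ → ℂ} {φ : LaurentSeries ℂ}
    (hol : MDifferentiable 𝓘(ℂ) 𝓘(ℂ) f) (h : InfExp 1 f φ) : H708.HasQExp 1 f φ :=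
  H708.HasQExp.of_hasSum hol fun τ => h τ

/-- The `q`-expansion of `heckeProd ℓ G` for a good function `G`. -/
theorem qexpFun_heckeProd {N : ℕ} [NeZero N] {ℓ : ℕ} [Fact ℓ.Prime] (hℓN : ¬ ℓ ∣ N) {G : ℍ → ℂ}
    (hG : G ∈ H648.goodRing N) :
    H708.qexpFun 1 (heckeProd ℓ G) = kronNorm ℓ (H708.qexpFun 1 G) := by
  have h1 := infExp_of_hasQExp (H882.hasQExp_of_mem_goodRing hG)
  have h2 := infExp_heckeProd (ℓ := ℓ) h1
  exact (hasQExp_of_infExp (heckeProd_mem_goodRing hℓN hG).1 h2).qexpFun_eq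

/-! ### The main theorem -/

section Main

variable (N : ℕ) [NeZero N] (p : ℕ) [NeZero p]

omit [NeZero p] in
theorem heckeProd_pow_fun (ℓ : ℕ) [Fact ℓ.Prime] (U : ℍ → ℂ) :
    heckeProd ℓ (fun τ => U τ ^ p) = fun τ => heckeProd ℓ U τ ^ p := by
  have := heckeProd_pow (p := ℓ) U p
  exact this

/-- **PIECE `K4-HECKE`**, from the norm identity `NormId N ℓ`. -/
theorem isKum_hecke_of_normId (ℓ : Nat.Primes) (hℓ : ¬ (ℓ : ℕ) ∣ N * p)
    (hnorm : haveI : NeZero (ℓ : ℕ) := ⟨ℓ.2.ne_zero⟩; H222.NormId N (ℓ : ℕ))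
    {c c' : G0 N → ZMod p} (hcc' : IsTransfer N (ℓ : ℕ) c c')
    {x : JZero N} (h : IsKum N p c x) : IsKum N p c' (heckeOperatorBar N ℓ x) := by
  haveI : NeZero (ℓ : ℕ) := ⟨ℓ.2.ne_zero⟩
  haveI : Fact (ℓ : ℕ).Prime := ⟨ℓ.2⟩
  have hℓN : ¬ (ℓ : ℕ) ∣ N := fun h' => hℓ (Dvd.dvd.mul_right h' p)
  obtain ⟨f, t, U, ht, hx, hU, hR⟩ := h
  obtain ⟨hα, hβ, hP, hfin, hFI, hN⟩ := heckeInputsAlong_bar N (ℓ : ℕ) ℓ.2
  haveI := hP
  -- the new data
  set α := heckeAlphaBar (AlgebraicClosure ℚ) N (ℓ : ℕ) with hαdef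
  set β := heckeBetaBar (AlgebraicClosure ℚ) N (ℓ : ℕ) with hβdef
  have hT : heckeOperatorBar N ℓ x = Pic0.correspondence β α hβ hα hFI hfin hN x := by
    rw [heckeOperatorBar_apply, heckeOperatorAlong_eq hα hβ hFI hfin hN]
    rfl
  have hx' := hx.correspondence β α hβ hα hFI hfin hN
  rw [← hT] at hx'
  have ht' : H455.normAlong α (β t) ≠ 0 :=
    H455.normAlong_ne_zero α hfin ((map_ne_zero β).mpr ht)
  have hmul : H455.normAlong α (β f) * H455.normAlong α (β t) ^ p
      = H222.heckeNorm N (ℓ : ℕ) (f * t ^ p) := by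
    rw [← H455.normAlong_pow, ← H455.normAlong_mul, ← map_pow, ← map_mul]
    rfl
  -- the analytic side
  have hgood : (fun τ => heckeProd (ℓ : ℕ) U τ ^ p) ∈ H648.goodRing N := by
    rw [← heckeProd_pow_fun]
    exact heckeProd_mem_goodRing hℓN hR.1
  have hq : H708.qexpFun 1 (fun τ => heckeProd (ℓ : ℕ) U τ ^ p)
      = coeffMap Deg457.iotaC
          ((((H455.normAlong α (β f) * H455.normAlong α (β t) ^ p : FF N)) : FF N) :
            LaurentSeries Kbar) := by
    rw [← heckeProd_pow_fun, qexpFun_heckeProd hℓN hR.1, hR.2, ← coeffMap_kronNorm, hmul]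
    exact congrArg _ (hnorm (f * t ^ p)).symm
  have hne : (H455.normAlong α (β f) * H455.normAlong α (β t) ^ p : FF N) ≠ 0 :=
    mul_ne_zero hx'.ne_zero (pow_ne_zero _ ht')
  refine ⟨H455.normAlong α (β f), H455.normAlong α (β t), heckeProd (ℓ : ℕ) U, ht', hx',
    ⟨mdiff_heckeProd hU.mdiff, ?_, hasChar_heckeProd N p hℓN hcc' hU.hasChar, hgood⟩,
    ⟨hgood, hq⟩⟩
  -- non-vanishing
  by_contra hzero
  push Not at hzero
  have hp0 : p ≠ 0 := NeZero.ne p
  have h0 : (fun τ => heckeProd (ℓ : ℕ) U τ ^ p) = 0 := by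
    funext τ
    rw [hzero τ]
    simp [hp0]
  have h1 := (H882.hasQExp_of_mem_goodRing hgood)
  have h2 : H708.qexpFun 1 (fun τ => heckeProd (ℓ : ℕ) U τ ^ p) = 0 :=
    h1.eq_zero_iff.mpr h0
  rw [hq] at h2
  have hinj : Function.Injective (coeffMap Deg457.iotaC) :=
    inf_coeffMap_injective Deg457.iotaC.injective
  have h3 : (((H455.normAlong α (β f) * H455.normAlong α (β t) ^ p : FF N)) :
      LaurentSeries Kbar) = 0 := hinj (by rw [h2, map_zero])
  exact hne (by exact_mod_cast h3)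

end Main

end Fermat.Agent.S29.H395

end

end
-- ===== PACK-END S29/H395/K4Hecke.lean

-- ===== PACK-BEGIN S37/H819/NormId.lean
section




/-!
# S37 / node NORMID (helper819)

`normId` : for a prime `ℓ ∤ M` and `f ∈ ℚ̄(X₀(M)) = modularFunctionFieldBar M`, the `q`-expansion of
the norm of `β f` over `α(F_M)` (Prelude algebra structure `algebraAlong (heckeAlphaBar ℚ̄ M ℓ)`)
is the formal Kronecker norm `H400.kronNorm ℓ f = V_ℓ f · det (secMat ℓ f)`.
This is exactly `Board.NormIdStatement M ℓ` of `origin/helper37:Fermat/Agent/S37/Core/Skeleton3.lean`.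
-/

set_option autoImplicit false

noncomputable section

open ModularCurve HahnSeries AlgebraicCurve

namespace Fermat.Agent.S37.H819

open Fermat.Agent.S24

/-- H400's section matrix is H340's Kronecker matrix. -/
theorem secMat_eq_kronMat {R : Type*} [CommRing R] (p : ℕ) [NeZero p] (f : LaurentSeries R) :
    Fermat.Agent.S37.H400.secMat p f = Fermat.Agent.S37.H340.kronMat p f := by
  ext i j n
  rw [Fermat.Agent.S37.H400.secMat_apply', Fermat.Agent.S37.H340.kronMat_apply,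
    Fermat.Agent.S37.H400.secL_coeff, Fermat.Agent.S37.H340.sect_coeff]

/-- H340's twist by an `ℓ`-th root of unity is the S24 twist. -/
theorem tw_eq_infTwist {R : Type*} [CommRing R] (ℓ : ℕ) [NeZero ℓ] (u : Rˣ)
    (hu : (u : R) ^ ℓ = 1) (f : LaurentSeries R) :
    Fermat.Agent.S37.H340.tw ℓ (u : R) f = infTwist u f := by
  ext n
  rw [Fermat.Agent.S37.H340.tw_coeff, infTwist_coeff, mul_comm]
  congr 1
  have hℓ : (ℓ : ℤ) ≠ 0 := by exact_mod_cast NeZero.ne ℓ
  have hu' : u ^ ℓ = 1 := Units.ext (by rw [Units.val_pow_eq_pow_val, hu, Units.val_one])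
  unfold Fermat.Agent.S37.H340.zpw
  have h1 : n = n % (ℓ : ℤ) + (ℓ : ℤ) * (n / (ℓ : ℤ)) := (Int.emod_add_mul_ediv n ℓ).symm
  have h0 : 0 ≤ n % (ℓ : ℤ) := Int.emod_nonneg n hℓ
  have h2 : ((n % (ℓ : ℤ)).toNat : ℤ) = n % (ℓ : ℤ) := Int.toNat_of_nonneg h0
  have h3 : u ^ n = u ^ (n % (ℓ : ℤ)).toNat := by
    conv_lhs => rw [h1, zpow_add, zpow_mul, zpow_natCast, hu', one_zpow, mul_one, ← h2,
      zpow_natCast]
  rw [← Units.val_pow_eq_pow_val, ← h3]

/-- `V_ℓ (det (secMat ℓ f)) = ∏_{b<ℓ} f(ζ^b q)` -/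
theorem qExpand_det_secMat {R : Type*} [CommRing R] [IsDomain R] (ℓ : ℕ) [NeZero ℓ] (ζ : Rˣ)
    (hζ : IsPrimitiveRoot (ζ : R) ℓ) (f : LaurentSeries R) :
    qExpand R ℓ (Fermat.Agent.S37.H400.secMat ℓ f).det
      = ∏ b ∈ Finset.range ℓ, infTwist (ζ ^ b) f := by
  have h := Fermat.Agent.S37.H340.kron_map_qExpand_eq_prod hζ f
  rw [Fermat.Agent.S37.H340.kron, ← secMat_eq_kronMat, ← Matrix.charpoly_map] at h
  have hdet : qExpand R ℓ (Fermat.Agent.S37.H400.secMat ℓ f).det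
      = ((Fermat.Agent.S37.H400.secMat ℓ f).map (qExpand R ℓ)).det := by
    rw [RingHom.map_det, RingHom.mapMatrix_apply]
  rw [hdet, Matrix.det_eq_sign_charpoly_coeff, h, Fintype.card_fin,
    Polynomial.coeff_zero_eq_eval_zero, Polynomial.eval_prod]
  simp only [Polynomial.eval_sub, Polynomial.eval_X, Polynomial.eval_C, zero_sub]
  rw [Finset.prod_neg, Finset.card_univ, Fintype.card_fin, ← mul_assoc, ← mul_pow]
  simp only [mul_neg, mul_one, neg_neg, one_pow, one_mul]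
  rw [← Fin.prod_univ_eq_prod_range (fun b : ℕ => infTwist (ζ ^ b) f) ℓ]
  refine Finset.prod_congr rfl fun b _ => ?_
  rw [← Units.val_pow_eq_pow_val, tw_eq_infTwist]
  rw [Units.val_pow_eq_pow_val, ← pow_mul, mul_comm, pow_mul, hζ.pow_eq_one, one_pow]

/-- **Node NORMID** (`Board.NormIdStatement M ℓ`, unfolded): for a prime `ℓ ∤ M` the
`q`-expansion of `Nm_{F_{Mℓ}/α F_M}(β f)` is the formal Kronecker norm `kronNorm ℓ f`. -/
theorem normId (M ℓ : ℕ) [NeZero M] [NeZero ℓ] (hℓ : ℓ.Prime) (hℓM : ¬ ℓ ∣ M) :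
    ∀ f : modularFunctionFieldBar M,
      (((letI := algebraAlong (heckeAlphaBar (AlgebraicClosure ℚ) M ℓ)
         Algebra.norm (modularFunctionFieldBar M) (heckeBetaBar (AlgebraicClosure ℚ) M ℓ f)) :
          modularFunctionFieldBar M) : LaurentSeries (AlgebraicClosure ℚ)) =
        Fermat.Agent.S37.H400.kronNorm ℓ (f : LaurentSeries (AlgebraicClosure ℚ)) := by
  intro f
  have : NeZero ((ℓ : ℕ) : AlgebraicClosure ℚ) := ⟨by exact_mod_cast NeZero.ne ℓ⟩
  obtain ⟨ζ₀, hζ₀⟩ := HasEnoughRootsOfUnity.exists_primitiveRoot (AlgebraicClosure ℚ) ℓ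
  obtain ⟨ζ, rfl⟩ := hζ₀.isUnit (NeZero.ne ℓ)
  apply qExpand_injective (R := AlgebraicClosure ℚ) (N := ℓ)
  have h := norm_heckeBeta M ℓ hℓ hℓM ζ hζ₀ f
  rw [Fermat.Agent.S37.H400.kronNorm, map_mul, qExpand_qExpand, qExpand_det_secMat ℓ ζ hζ₀]
  exact h

end Fermat.Agent.S37.H819

end
end
-- ===== PACK-END S37/H819/NormId.lean

-- ===== PACK-BEGIN S29/M4b/H395/Hecke.lean
section
/-
S29 row, LAYER M, SUB-LAYER M4b — PIECE `K4-HECKE` (helper395): DONE, unconditional.

`pieceHecke N p hp : M4b.PieceHecke N p` for every level `N` and every prime `p`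
(the exact `Prop` of `Fermat/Agent/S29/M4b/Top.lean`), and `isKum_hecke` (the exact statement
of helper822's sub-skeleton, with its hypotheses `hfac`, `hc`, which are not needed).

Proof: `Fermat.Agent.S29.H395.isKum_hecke_of_normId` (the Hecke product
`V(τ) = ∏ᵢ U(αᵢ τ)` over the `ℓ + 1` Hecke representatives is twisted of character the
transfer of `c`; its `p`-th power realises `heckeNorm (f · t ^ p)`; `T_ℓ` of a Kummer class is
the Kummer class of the norm), fed with the landed NORM-ID `Fermat.Agent.S37.H819.normId`.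
-/




set_option autoImplicit false

noncomputable section

open ModularCurve AlgebraicCurve CongruenceSubgroup UpperHalfPlane
open scoped MatrixGroups Manifold

namespace Fermat.Agent.S29.M4b.H395

open Fermat.Agent.S24 Fermat.Agent.S29 Fermat.Agent.S29.M4b

/-- The landed NORM-ID (`S37.H819.normId`) in the packaging of `H222.NormId`. -/
theorem normId_H222 (N ℓ : ℕ) [NeZero N] [NeZero ℓ] (hℓ : ℓ.Prime) (hℓN : ¬ ℓ ∣ N) :
    Fermat.Agent.S29.H222.NormId N ℓ :=
  fun y => Fermat.Agent.S37.H819.normId N ℓ hℓ hℓN y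

/-- **PIECE `K4-HECKE`**, exact statement of the sub-skeleton
(`origin/helper822:Fermat/Agent/S29/M4b/Skeleton.lean`, `isKum_hecke`). -/
theorem isKum_hecke (N : ℕ) [NeZero N] (p : ℕ) [NeZero p]
    (ℓ : Nat.Primes) (hℓ : ¬ (ℓ : ℕ) ∣ N * p)
    (_hfac : ∀ γ : G0 N, ∃ (π : Equiv.Perm (Option (Fin (ℓ : ℕ))))
      (δ : Option (Fin (ℓ : ℕ)) → G0 N), ∀ i, IsHeckeFactor (ℓ : ℕ) γ i (π i, δ i))
    {c c' : G0 N → ZMod p} (_hc : IsParHom c) (hcc' : IsTransfer N (ℓ : ℕ) c c')
    {x : JZero N} (h : IsKum N p c x) : IsKum N p c' (heckeOperatorBar N ℓ x) := by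
  have : NeZero (ℓ : ℕ) := ⟨ℓ.2.ne_zero⟩
  have hℓN : ¬ (ℓ : ℕ) ∣ N := fun hd => hℓ (Dvd.dvd.mul_right hd p)
  exact Fermat.Agent.S29.H395.isKum_hecke_of_normId N p ℓ hℓ
    (normId_H222 N (ℓ : ℕ) ℓ.2 hℓN) hcc' h

/-- **PIECE `K4-HECKE`** in the form of `M4b/Top.lean`. -/
theorem pieceHecke (N : ℕ) [NeZero N] (p : ℕ) (hp : p.Prime) : PieceHecke N p := by
  have : NeZero p := ⟨hp.ne_zero⟩
  intro ℓ hℓ hfac c c' hc hcc' x h
  exact isKum_hecke N p ℓ hℓ hfac hc hcc' h

end Fermat.Agent.S29.M4b.H395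

end
end
-- ===== PACK-END S29/M4b/H395/Hecke.lean

-- ===== PACK-BEGIN S30/H810/RevDict.lean
section
/-
S30 / piece FIN-ONTO (helper810), part 2: the REVERSE DICTIONARY.

If `u ∈ FF N` is realised by the good function `G` and `p ∣ ord_v u` at every place `v` of
`FF N / ℚ̄`, then `p ∣ ord_τ G` at EVERY point `τ ∈ ℍ`.

Proof: the Taylor embedding `σ_τ : FF N → ℂ((z))` either is trivial (all orders `0`; this is the
case of transcendental `j(τ)`) or defines a place `v_τ` with `ord ∘ σ_τ = k * ord_{v_τ}`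
(`S24.H117.exists_mult`).
-/


set_option autoImplicit false
set_option linter.unusedSectionVars false

noncomputable section

open ModularCurve AlgebraicCurve CongruenceSubgroup UpperHalfPlane HahnSeries
open scoped MatrixGroups Manifold

namespace Fermat.Agent.S30.H810

open Fermat.Agent.S24 Fermat.Agent.S24.H648 Fermat.Agent.S24.H708 Fermat.Agent.S24.Deg457
open Fermat.Agent.S24.H624 Fermat.Agent.S24.H997 Fermat.Agent.S29 Fermat.Agent.S29.M4b
open Fermat.Agent.S29.H882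

variable {N : ℕ} [NeZero N]

theorem eord_sigmaTau_algebraMap (τ : ℍ) (c : Kbar) :
    H117.eord (sigmaTau N τ) (algebraMap Kbar (FF N) c) = 0 := by
  rw [H117.eord, sigmaTau_algebraMap, HahnSeries.order_C]

/-- the order of the Taylor embedding of a realised element is the analytic order -/
theorem eord_sigmaTau_of_realises {u : FF N} {G : ℍ → ℂ} (hG : Realises N u G)
    (τ : ℍ) {n : ℕ} (hn : ordAt τ G = (n : ℕ∞)) :
    H117.eord (sigmaTau N τ) u = (n : ℤ) := by
  have hmd : G ∈ holoRing := hG.1.1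
  rw [H117.eord, sigmaTau_of_realises hG hmd τ, taylorLaurent_apply]
  apply order_ofPowerSeries
  rw [order_taylorAt]
  exact hn

theorem realises_ne_zero {u : FF N} {G : ℍ → ℂ} (hG : Realises N u G) (hu : u ≠ 0) : G ≠ 0 := by
  intro h0
  have h := Realises.hasQExp hG
  have h1 : coeffMap iotaC ((u : FF N) : LaurentSeries Kbar) = 0 := (h.eq_zero_iff).mpr h0
  apply hu
  apply Subtype.ext
  apply coeffMap_iotaC_injective
  rw [h1]
  simp

/-- **REVERSE DICTIONARY.** -/
theorem exists_analyticOrderAt_eq_mul {u : FF N} {G : ℍ → ℂ} (hG : Realises N u G) (hu : u ≠ 0)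
    (p : ℕ) (hp : p ≠ 0) (hdiv : ∀ v : Place Kbar (FF N), (p : ℤ) ∣ v.ord u) (τ : ℍ) :
    ∃ m : ℕ, analyticOrderAt (G ∘ ofComplex) (τ : ℂ) = ((p * m : ℕ) : ℕ∞) := by
  have hmd : MDiff G := hG.1.1
  have hG0 : G ≠ 0 := realises_ne_zero hG hu
  have htop : ordAt τ G ≠ ⊤ := ordAt_ne_top hmd hG0 τ
  obtain ⟨n, hn⟩ := ENat.ne_top_iff_exists.mp htop
  have hord : H117.eord (sigmaTau N τ) u = (n : ℤ) := eord_sigmaTau_of_realises hG τ hn.symm
  rw [← ordAt_def, ← hn]
  by_cases hnt : ∃ t : FF N, H117.eord (sigmaTau N τ) t ≠ 0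
  · obtain ⟨k, hk, h⟩ := H117.exists_mult (K := Kbar) (sigmaTau N τ)
      (fun c => (eord_sigmaTau_algebraMap τ c).ge) hnt
    obtain ⟨j, hj⟩ := hdiv (H117.placeOfEmb (sigmaTau N τ)
      (fun c => (eord_sigmaTau_algebraMap τ c).ge) hnt)
    have h1 := h u
    rw [hord, hj] at h1
    have hk' : (0 : ℤ) < k := by exact_mod_cast hk
    have hp' : (0 : ℤ) < p := by exact_mod_cast Nat.pos_of_ne_zero hp
    have hj0 : 0 ≤ j := by
      by_contra hneg
      push Not at hneg
      have : (k : ℤ) * (p * j) < 0 :=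
        mul_neg_of_pos_of_neg hk' (mul_neg_of_pos_of_neg hp' hneg)
      omega
    refine ⟨k * j.toNat, ?_⟩
    have h2 : (n : ℤ) = ((p * (k * j.toNat) : ℕ) : ℤ) := by
      push_cast
      rw [Int.toNat_of_nonneg hj0, h1]
      ring
    have h3 : n = p * (k * j.toNat) := by exact_mod_cast h2
    rw [h3]
  · push Not at hnt
    have h1 := hnt u
    rw [hord] at h1
    have h3 : n = 0 := by exact_mod_cast h1
    exact ⟨0, by rw [h3]; simp⟩

end Fermat.Agent.S30.H810

end
end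
-- ===== PACK-END S30/H810/RevDict.lean

-- ===== PACK-BEGIN S29/H102/KUniq.lean
section
/-
S29 / M4b / PIECE `K4-UNIQ` (helper102): the Kummer class of a character is unique.

EXACT statement of `origin/helper822:Fermat/Agent/S29/M4b/Skeleton.lean` (`isKum_unique`):

    theorem isKum_unique (N : ℕ) [NeZero N] (p : ℕ) [NeZero p] {c : G0 N → ZMod p}
        {x x' : JZero N} (h : IsKum N p c x) (h' : IsKum N p c x') : x = x'

Proof.  Data `(f, t, U)`, `(f', t', U')`.  `V := U * U' ^ (p-1)` has trivial character and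
`V ^ p = U ^ p * (U' ^ p) ^ (p-1)` is good, so `V` is good and realises a `p`-th root `v ∈ FF N`
of `w := (f t^p) (f' t'^p)^(p-1)` (`KBasic_exists_root`: MERO + root descent + coefficient
descent).  Hence `f * f' ^ (p-1) = (v / (t * t' ^ (p-1))) ^ p`, so `x + (p-1) • x' = 0`; as
`p • x' = 0` we get `x = x'`.
-/


set_option autoImplicit false

noncomputable section

open ModularCurve AlgebraicCurve CongruenceSubgroup UpperHalfPlane
open scoped MatrixGroups Manifold

namespace Fermat.Agent.S29.H102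

open Fermat.Agent.S24 Fermat.Agent.S29 Fermat.Agent.S29.M4b
open Fermat.Agent.S24.H648 Fermat.Agent.S24.H708

section Algebra

variable {K F : Type*} [Field K] [Field F] [Algebra K F]

/-- Kummer classes of powers. -/
theorem KUniq_isKummerClass_pow {n : ℤ} {g : F} {y : Pic0 K F}
    (h : H455.IsKummerClass n g y) (k : ℕ) : H455.IsKummerClass n (g ^ k) (k • y) := by
  induction k with
  | zero =>
    rw [pow_zero, zero_nsmul]
    exact H455.IsKummerClass.zero
  | succ k ih =>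
    rw [pow_succ, succ_nsmul]
    exact ih.add h

/-- The Kummer class of an `n`-th power is trivial. -/
theorem KUniq_eq_zero_of_pow {p : ℕ} (hp : p ≠ 0) {g : F} (hg : g ≠ 0) {y : Pic0 K F}
    (h : H455.IsKummerClass (p : ℤ) (g ^ p) y) : y = 0 := by
  have hn : (p : ℤ) ≠ 0 := Int.natCast_ne_zero.mpr hp
  rw [h.eq_zero_iff hn]
  refine ⟨g, hg, fun v => ?_⟩
  rw [← zpow_natCast, Place.ord_zpow]

end Algebra

variable (N : ℕ) [NeZero N] (p : ℕ) [NeZero p]

omit [NeZero N] in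
/-- The product `U * U' ^ (p-1)` of two twisted functions of the same character is
`Γ₀(N)`-invariant. -/
theorem KUniq_invariant {c : G0 N → ZMod p} {U U' : ℍ → ℂ} (hU : HasChar N p c U)
    (hU' : HasChar N p c U') (γ : SL(2, ℤ)) (hγ : γ ∈ Gamma0 N) (τ : ℍ) :
    U (γ • τ) * U' (γ • τ) ^ (p - 1) = U τ * U' τ ^ (p - 1) := by
  have h1 := hU ⟨γ, hγ⟩ τ
  have h2 := hU' ⟨γ, hγ⟩ τ
  simp only at h1 h2
  rw [h1, h2, mul_pow]
  have hp : p - 1 + 1 = p := Nat.sub_add_cancel (Nat.one_le_iff_ne_zero.mpr (NeZero.ne p))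
  have h3 : zetaP p ^ (c ⟨γ, hγ⟩).val * (zetaP p ^ (c ⟨γ, hγ⟩).val) ^ (p - 1) = 1 := by
    rw [← pow_succ', hp, ← pow_mul, mul_comm, pow_mul, KBasic_zetaP_pow, one_pow]
  calc zetaP p ^ (c ⟨γ, hγ⟩).val * U τ * ((zetaP p ^ (c ⟨γ, hγ⟩).val) ^ (p - 1) * U' τ ^ (p - 1))
      = (zetaP p ^ (c ⟨γ, hγ⟩).val * (zetaP p ^ (c ⟨γ, hγ⟩).val) ^ (p - 1))
          * (U τ * U' τ ^ (p - 1)) := by ring
    _ = U τ * U' τ ^ (p - 1) := by rw [h3, one_mul]

/-- **PIECE `K4-UNIQ`.** -/
theorem isKum_unique {c : G0 N → ZMod p} {x x' : JZero N}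
    (h : IsKum N p c x) (h' : IsKum N p c x') : x = x' := by
  obtain ⟨f, t, U, ht, hx, hU, hR⟩ := h
  obtain ⟨f', t', U', ht', hx', hU', hR'⟩ := h'
  have hp : p ≠ 0 := NeZero.ne p
  have hp1 : p - 1 + 1 = p := Nat.sub_add_cancel (Nat.one_le_iff_ne_zero.mpr hp)
  -- the invariant function
  set V : ℍ → ℂ := fun τ => U τ * U' τ ^ (p - 1) with hVdef
  have hVmd : MDifferentiable 𝓘(ℂ) 𝓘(ℂ) V := hU.mdiff.mul (hU'.mdiff.pow (p - 1))
  have hVinv : ∀ γ ∈ Gamma0 N, ∀ τ : ℍ, V (γ • τ) = V τ := fun γ hγ τ =>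
    KUniq_invariant N p hU.hasChar hU'.hasChar γ hγ τ
  have hVfun : (fun τ => V τ ^ p)
      = (fun τ => U τ ^ p) * (fun τ => U' τ ^ p) ^ (p - 1) := by
    funext τ
    simp only [hVdef, Pi.mul_apply, Pi.pow_apply]
    rw [mul_pow, ← pow_mul, ← pow_mul, mul_comm (p - 1) p]
  have hVpow : (fun τ => V τ ^ p) ∈ goodRing N := by
    rw [hVfun]
    exact (goodRing N).mul_mem hR.1 ((goodRing N).pow_mem hR'.1 _)
  have hVgood : V ∈ goodRing N := KBasic_mem_goodRing_of_pow hp hVmd hVinv hVpow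
  -- the algebraic function realised by `V ^ p`
  set w : FF N := (f * t ^ p) * (f' * t' ^ p) ^ (p - 1) with hwdef
  have hw : Realises N w (fun τ => V τ ^ p) := by
    refine ⟨hVpow, ?_⟩
    have h1 := (KBasic_realises_hasQExp hR).mul ((KBasic_realises_hasQExp hR').pow (p - 1))
    rw [← hVfun] at h1
    rw [h1.qexpFun_eq, hwdef]
    simp only [MulMemClass.coe_mul, SubmonoidClass.coe_pow, map_mul, map_pow]
  obtain ⟨v, hvp, -⟩ := KBasic_exists_root hp hVgood hw
  -- `f * f' ^ (p-1)` is a `p`-th power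
  have hf0 : f ≠ 0 := hx.ne_zero
  have hf0' : f' ≠ 0 := hx'.ne_zero
  have hd0 : t * t' ^ (p - 1) ≠ 0 := mul_ne_zero ht (pow_ne_zero _ ht')
  have hv0 : v ≠ 0 := by
    intro h0
    have : w = 0 := by rw [← hvp, h0, zero_pow hp]
    rw [hwdef] at this
    exact (mul_ne_zero (mul_ne_zero hf0 (pow_ne_zero _ ht))
      (pow_ne_zero _ (mul_ne_zero hf0' (pow_ne_zero _ ht')))) this
  have hg0 : v / (t * t' ^ (p - 1)) ≠ 0 := div_ne_zero hv0 hd0
  have hpow : f * f' ^ (p - 1) = (v / (t * t' ^ (p - 1))) ^ p := by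
    rw [div_pow, hvp, hwdef, eq_div_iff (pow_ne_zero _ hd0)]
    ring
  have hcl : H455.IsKummerClass (p : ℤ) (f * f' ^ (p - 1)) (x + (p - 1) • x') :=
    hx.add (KUniq_isKummerClass_pow hx' (p - 1))
  rw [hpow] at hcl
  have hzero : x + (p - 1) • x' = 0 := KUniq_eq_zero_of_pow hp hg0 hcl
  have hpx' : p • x' = 0 := by
    have := hx'.zsmul_eq_zero
    rwa [natCast_zsmul] at this
  have h2 : (p - 1) • x' + x' = 0 := by
    rw [← succ_nsmul, hp1]
    exact hpx'
  have h3 : (p - 1) • x' = -x' := eq_neg_of_add_eq_zero_left h2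
  rw [h3] at hzero
  exact eq_of_sub_eq_zero (by rw [sub_eq_add_neg]; exact hzero)

end Fermat.Agent.S29.H102

end
end
-- ===== PACK-END S29/H102/KUniq.lean

-- ===== PACK-BEGIN S30/H810/Fin.lean
section
/-
S30 / piece FIN (helper810): `J₀(N)(ℚ̄)[m]` is FINITE, unconditionally, for every `m ≥ 1`.

* `dcStatement N m : H109.DCStatement N m` — the converse dictionary in helper109's shape,
  from the reverse dictionary `exists_analyticOrderAt_eq_mul` (`RevDict.lean`);
* `torsion_finite N m : {x : JZero N | m • x = 0}.Finite` — via helper109's `finite_torsion`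
  and the landed M4b piece K4-UNIQ (`H102.isKum_unique`);
* `exists_hom_isKum_of_torsion` — ONTO with an additive character.
-/




set_option autoImplicit false
set_option linter.unusedSectionVars false

noncomputable section

open ModularCurve AlgebraicCurve CongruenceSubgroup UpperHalfPlane HahnSeries
open scoped MatrixGroups Manifold

namespace Fermat.Agent.S30.H810

open Fermat.Agent.S24 Fermat.Agent.S24.H648 Fermat.Agent.S24.H708 Fermat.Agent.S24.Deg457
open Fermat.Agent.S24.H624 Fermat.Agent.S24.H997 Fermat.Agent.S29 Fermat.Agent.S29.M4b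
open Fermat.Agent.S29.H882

variable (N : ℕ) [NeZero N]

/-- Clearing poles: every `f ∈ FF N` times a suitable `m`-th power is realised by a good
function. -/
theorem exists_realises_mul_pow (m : ℕ) (hm : m ≠ 0) (f : FF N) :
    ∃ (t : FF N) (G : ℍ → ℂ), t ≠ 0 ∧ Realises N (f * t ^ m) G := by
  obtain ⟨r, t, ht, hft⟩ := exists_div_inclRN N f
  have ht' : inclRN N t ≠ 0 := fun h => ht (inclRN_injective N (by rw [h, map_zero]))
  obtain ⟨q, hq⟩ : ∃ q : ℕ, m = q + 1 := ⟨m - 1, by have := Nat.pos_of_ne_zero hm; omega⟩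
  have hur : f * inclRN N t ^ m = inclRN N (r * t ^ q) := by
    rw [hft, hq, map_mul, map_pow, pow_succ]
    field_simp
  refine ⟨inclRN N t, realFun N (r * t ^ q), ht', realFun_mem N _, ?_⟩
  rw [(realFun_hasQExp N (r * t ^ q)).qexpFun_eq, hur]
  rfl

/-- **The converse dictionary** in helper109's shape. -/
theorem dcStatement (m : ℕ) [NeZero m] : H109.DCStatement N m := by
  intro f hf hdiv
  have hm : m ≠ 0 := NeZero.ne m
  obtain ⟨t, G, ht, hG⟩ := exists_realises_mul_pow N m hm f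
  refine ⟨t, G, ht, hG, fun τ => ?_⟩
  refine exists_analyticOrderAt_eq_mul hG (mul_ne_zero hf (pow_ne_zero _ ht)) m hm ?_ τ
  intro v
  rw [Place.ord_mul v hf (pow_ne_zero _ ht), H117.ord_pow]
  exact dvd_add (hdiv v) (dvd_mul_right _ _)

/-- **FIN**: the `m`-torsion of `J₀(N)(ℚ̄)` is finite. -/
theorem torsion_finite (m : ℕ) [NeZero m] : {x : JZero N | m • x = 0}.Finite :=
  H109.finite_torsion N m (dcStatement N m)
    (fun _ _ _ h h' => H102.isKum_unique N m h h')

/-- **ONTO** with an additive character. -/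
theorem exists_hom_isKum_of_torsion (m : ℕ) [NeZero m] {x : JZero N} (hx : (m : ℤ) • x = 0) :
    ∃ c : G0 N → ZMod m, (∀ γ γ' : G0 N, c (γ * γ') = c γ + c γ') ∧ IsKum N m c x :=
  H109.exists_isKum_of_torsion N m (dcStatement N m) hx

end Fermat.Agent.S30.H810

end
end
-- ===== PACK-END S30/H810/Fin.lean

-- ===== PACK-BEGIN S30/H330/AdicChain.lean
section
/-
S30 -- the frozen statement S30 from the TWO remaining open inputs (helper330).

Everything else of the chain is on main and is wired here: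
  K1 (helper332), K2 (helper150), K4-UNIQ/INJ/ADD (helper822), K4-HECKE (helper395),
  K3 from K3-FIN (helper42), FIN (helper810), (P) (helper709), (Sm) (helper126), (GH) (helper571),
  adic module layer (helper330), top glue (helper990), CHEB Tier 1.

* `kumPackage_of_k3fin` : `K3.FinStatement N m` ⟹ `H450.KumPackage N m` (any modulus `m ≠ 0`);
* `result_of_k3fin` : S30 from `K3-FIN` at the moduli `p ^ n` and the torsion relations (T);
* `result_of_k3fin_rawESAll` : S30 from `K3-FIN` and the raw Eichler–Shimura statement on all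
  prime-to-`ℓ` torsion (`RawESAll`, see `AdicTorsionRel.lean` for its derivation from each of the
  interfaces of the S37 row).
-/









set_option autoImplicit false
set_option linter.overlappingInstances false

noncomputable section

namespace Fermat.Agent.S30.H330

open Fermat.Agent.S29 Fermat.Agent.S29.M4b ModularCurve Fermat.Agent.S30.H450 Polynomial

/-- The Kummer package at the modulus `m ≠ 0` from the single open sub-piece `K3-FIN`. -/
theorem kumPackage_of_k3fin (N : ℕ) [NeZero N] (m : ℕ) [NeZero m]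
    (hfin : Fermat.Agent.S29.M4b.K3.FinStatement N m) : KumPackage N m :=
  KumPackage.of_skeleton
    (fun hc => top_isKum_exists (fun hc' => Fermat.Agent.S29.H332.exists_isTwisted N m hc')
      (Fermat.Agent.S29.M4b.K3.pieceK3_of_fin N m hfin) (Fermat.Agent.S29.H150.pieceK2 N m) hc)
    (fun h h' => Fermat.Agent.S29.M4b.H822.pieceUniq N m (NeZero.ne m) h h')
    (fun h => Fermat.Agent.S29.M4b.H822.pieceInj N m (NeZero.ne m) h)
    (fun h h' => Fermat.Agent.S29.M4b.H822.pieceAdd N m (NeZero.ne m) h h')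
    (fun ℓ hℓ hfac _ _ hc hcc' _ h =>
      Fermat.Agent.S29.M4b.H395.isKum_hecke N m ℓ hℓ hfac hc hcc' h)

/-- Input (F) holds (helper810, unconditional). -/
theorem finStatement (N : ℕ) [NeZero N] (p : ℕ) [NeZero p] : FinStatement N p :=
  Fermat.Agent.S30.H810.torsion_finite N p

/-- Input (K') from `K3-FIN` at the moduli `p ^ n`. -/
theorem kummerInjStatement_of_k3fin (N : ℕ) [NeZero N] (p : ℕ) [NeZero p]
    (hfin : ∀ n : ℕ, Fermat.Agent.S29.M4b.K3.FinStatement N (p ^ n)) :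
    KummerInjStatement N p :=
  kummerInjStatement_of_packages (fun n => kumPackage_of_k3fin N (p ^ n) (hfin n))

/-- **S30 from `K3-FIN` and (T).** -/
theorem result_of_k3fin
    (hfin : ∀ (N : ℕ) [NeZero N] (p : ℕ) [Fact p.Prime] (n : ℕ),
      Fermat.Agent.S29.M4b.K3.FinStatement N (p ^ n))
    (hT : ∀ (N : ℕ) [NeZero N] (p : ℕ) [Fact p.Prime], TorsionRelations N p) :
    ∀ (p : ℕ) [Fact p.Prime] (N : ℕ) [NeZero N] (S : Finset ℕ)
      (_hpS : p ∈ S) (_hNS : ∀ q : ℕ, q.Prime → q ∣ N → q ∈ S)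
      (𝒪' : Type) [CommRing 𝒪'] [IsDomain 𝒪'] [IsDiscreteValuationRing 𝒪']
      [IsAdicComplete (IsLocalRing.maximalIdeal 𝒪') 𝒪'] [Finite (IsLocalRing.ResidueField 𝒪')]
      [CharZero 𝒪'] (_hp𝒪' : (p : 𝒪') ∈ IsLocalRing.maximalIdeal 𝒪')
      (χ : CuspForm.heckeAlgebra N 2 (↑S : Set ℕ) →+* 𝒪'),
      ∃ (𝒪'' : Type) (_ : CommRing 𝒪'') (_ : IsDomain 𝒪'') (_ : IsDiscreteValuationRing 𝒪'')
        (_ : IsAdicComplete (IsLocalRing.maximalIdeal 𝒪'') 𝒪'')
        (_ : Finite (IsLocalRing.ResidueField 𝒪'')) (_ : CharZero 𝒪'')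
        (_ : Algebra 𝒪' 𝒪'') (_ : Module.Finite 𝒪' 𝒪'') (_ : IsLocalHom (algebraMap 𝒪' 𝒪'')),
      Function.Injective (algebraMap 𝒪' 𝒪'') ∧
      ∃ ρ : GaloisRepAdic 𝒪'',
        (∀ (ℓ : ℕ) (hℓ : ℓ.Prime) (hℓN : ¬ ℓ ∣ N) (hℓS : ℓ ∉ (↑S : Set ℕ)),
          ∀ A : ValuationSubring (AlgebraicClosure ℚ), A.LiesOverPrime ℓ →
            ∀ σ : AlgebraicClosure ℚ ≃ₐ[ℚ] AlgebraicClosure ℚ, A.IsFrobeniusAt σ ℓ →
              LinearMap.charpoly (ρ.ρ σ) =
                X ^ 2 - C (algebraMap 𝒪' 𝒪'' (χ (CuspForm.heckeAlgebra.T hℓ hℓN hℓS))) * X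
                  + C ((ℓ : 𝒪''))) ∧
        (∀ q : ℕ, q.Prime → ¬ q ∣ N → q ≠ p → ρ.IsUnramifiedAt q) :=
  result_of_inj
    (fun N _ p hp =>
      haveI : NeZero p := ⟨hp.out.ne_zero⟩
      kummerInjStatement_of_k3fin N p (fun n => hfin N p n))
    (fun N _ p hp =>
      haveI : NeZero p := ⟨hp.out.ne_zero⟩
      finStatement N p)
    hT

/-- **S30 from `K3-FIN` and the raw Eichler–Shimura statement.** -/
theorem result_of_k3fin_rawESAll
    (hfin : ∀ (N : ℕ) [NeZero N] (p : ℕ) [Fact p.Prime] (n : ℕ),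
      Fermat.Agent.S29.M4b.K3.FinStatement N (p ^ n))
    (hES : ∀ (N : ℕ) [NeZero N], RawESAll N) :
    ∀ (p : ℕ) [Fact p.Prime] (N : ℕ) [NeZero N] (S : Finset ℕ)
      (_hpS : p ∈ S) (_hNS : ∀ q : ℕ, q.Prime → q ∣ N → q ∈ S)
      (𝒪' : Type) [CommRing 𝒪'] [IsDomain 𝒪'] [IsDiscreteValuationRing 𝒪']
      [IsAdicComplete (IsLocalRing.maximalIdeal 𝒪') 𝒪'] [Finite (IsLocalRing.ResidueField 𝒪')]
      [CharZero 𝒪'] (_hp𝒪' : (p : 𝒪') ∈ IsLocalRing.maximalIdeal 𝒪')
      (χ : CuspForm.heckeAlgebra N 2 (↑S : Set ℕ) →+* 𝒪'),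
      ∃ (𝒪'' : Type) (_ : CommRing 𝒪'') (_ : IsDomain 𝒪'') (_ : IsDiscreteValuationRing 𝒪'')
        (_ : IsAdicComplete (IsLocalRing.maximalIdeal 𝒪'') 𝒪'')
        (_ : Finite (IsLocalRing.ResidueField 𝒪'')) (_ : CharZero 𝒪'')
        (_ : Algebra 𝒪' 𝒪'') (_ : Module.Finite 𝒪' 𝒪'') (_ : IsLocalHom (algebraMap 𝒪' 𝒪'')),
      Function.Injective (algebraMap 𝒪' 𝒪'') ∧
      ∃ ρ : GaloisRepAdic 𝒪'',
        (∀ (ℓ : ℕ) (hℓ : ℓ.Prime) (hℓN : ¬ ℓ ∣ N) (hℓS : ℓ ∉ (↑S : Set ℕ)),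
          ∀ A : ValuationSubring (AlgebraicClosure ℚ), A.LiesOverPrime ℓ →
            ∀ σ : AlgebraicClosure ℚ ≃ₐ[ℚ] AlgebraicClosure ℚ, A.IsFrobeniusAt σ ℓ →
              LinearMap.charpoly (ρ.ρ σ) =
                X ^ 2 - C (algebraMap 𝒪' 𝒪'' (χ (CuspForm.heckeAlgebra.T hℓ hℓN hℓS))) * X
                  + C ((ℓ : 𝒪''))) ∧
        (∀ q : ℕ, q.Prime → ¬ q ∣ N → q ≠ p → ρ.IsUnramifiedAt q) :=
  result_of_k3fin hfin (fun N _ p _ => torsionRelations_of_rawAll p (hES N))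

end Fermat.Agent.S30.H330

end
end
-- ===== PACK-END S30/H330/AdicChain.lean

-- ===== PACK-BEGIN S29/H222/ESKAdapterNormId.lean
section
/-
S29 / helper222 — piece ESK, adapter: `NormIdFamily` is discharged from the landed NORM-ID
(helper819, `Fermat.Agent.S37.H819.normId`; independent copies: helper157 `node_normid`,
helper748 `norm_heckeBetaBar_eq_kronNorm`).  Hence the Eichler–Shimura input of layer M,
`Fermat.Agent.S29.M.ESStatement`, follows from the two remaining external inputs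

* `CoreFamily` : `S18.CoreStatement N A m` for `ℓ ∤ N`, `ℓ ∤ m`, `A` over `ℓ`      (row S18)
* `PGIFamily`  : Prelude `PrincipalGeneratedByIntegral A (residue A) N`             (M1-Gauss)
-/



set_option autoImplicit false
set_option linter.style.haveILetI false

noncomputable section

namespace Fermat.Agent.S29.H222

/-- Piece NKI (helper819) in family form. -/
theorem normIdFamily : NormIdFamily :=
  fun N _ ℓ _ hℓ hℓN y => Fermat.Agent.S37.H819.normId N ℓ hℓ hℓN y

/-- **ES for layer M** from the two remaining external inputs (S18 core + PGI). -/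
theorem esStatement_of_core_pgi (hcore : CoreFamily) (hpgi : PGIFamily) :
    Fermat.Agent.S29.M.ESStatement :=
  esStatement_of_core_pgi_normId hcore hpgi normIdFamily

end Fermat.Agent.S29.H222

end
end
-- ===== PACK-END S29/H222/ESKAdapterNormId.lean

-- ===== PACK-BEGIN S29/H222/ESKAdapterPGI.lean
section
/-
S29 / helper222 — piece ESK, adapter: `PGIFamily` is discharged from the landed piece GEN
(helper98, `Fermat.Agent.S37.H98.gen`; independent copy: helper448).  Hence the Eichler–Shimura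
input of layer M, `Fermat.Agent.S29.M.ESStatement`, follows from the S18 hub ALONE:

* `CoreFamily` : `S18.CoreStatement N A m` for `ℓ ∤ N`, `ℓ ∤ m`, `A` over `ℓ`      (row S18)
-/



set_option autoImplicit false
set_option linter.style.haveILetI false

noncomputable section

namespace Fermat.Agent.S29.H222

/-- Piece GEN (helper98) in family form. -/
theorem pgiFamily : PGIFamily :=
  fun N _ ℓ hℓ hℓN A hA => Fermat.Agent.S37.H98.gen N ℓ hℓ hℓN A hA

/-- **ES for layer M** from the S18 hub alone. -/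
theorem esStatement_of_core (hcore : CoreFamily) : Fermat.Agent.S29.M.ESStatement :=
  esStatement_of_core_pgi hcore pgiFamily

end Fermat.Agent.S29.H222

end
end
-- ===== PACK-END S29/H222/ESKAdapterPGI.lean

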