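import Fermat.Agent.Pack.S34.G0E12L0
import Fermat.Agent.Pack.S34.G0E9L1
import Fermat.Agent.Pack.S34.G0E12L3
import Fermat.Agent.Pack.S34.G0E1L0
import Fermat.Agent.Pack.S34.G0E8L0
import Fermat.Agent.Pack.S34.G0E10L3
import Fermat.Agent.Pack.S34.G0E5L0
import Fermat.Agent.Pack.S34.G0E9L3

-- ===== PACK-BEGIN S29/H282/K2Ana.lean
section




/-!
# S29 / M4b-K2 (helper282) — analytic adapter: twisted functions lie in `holN N`

* `expGrowth_of_pow` : `f ^ p` of exponential growth (`p ≥ 1`) ⟹ `f` of exponential growth;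
* `mem_holN_of_isTwisted` : a twisted function (M4b `IsTwisted`) of a parabolic character lies in
  the S24 ring `holN N`;
* `infExp_level_of_hasQExp` : a `q`-expansion (`H708.HasQExp 1`) gives the `q^{1/N}`-expansion.
-/

set_option autoImplicit false

noncomputable section

open ModularCurve AlgebraicCurve CongruenceSubgroup UpperHalfPlane
open scoped MatrixGroups Manifold Real

namespace Fermat.Agent.S29.H282

open Fermat.Agent.S24 Fermat.Agent.S24.H997 Fermat.Agent.S24.H648 Fermat.Agent.S24.H708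
open Fermat.Agent.S24.H624
open Fermat.Agent.S29 Fermat.Agent.S29.M4b Fermat.Agent.S29.H332

/-- root extraction for growth bounds -/
theorem expGrowth_of_pow {f : ℍ → ℂ} {p : ℕ} (hp : p ≠ 0)
    (h : ExpGrowth (fun τ => f τ ^ p)) : ExpGrowth f := by
  obtain ⟨C, m, hb⟩ := h
  refine ⟨1 + |C|, m, fun τ hτ => ?_⟩
  have h1 := hb τ hτ
  rw [norm_pow] at h1
  have hexp : (1 : ℝ) ≤ Real.exp (2 * π * m * τ.im) := by
    apply Real.one_le_exp
    have := Real.pi_pos
    have := τ.im_pos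
    positivity
  have hC : C * Real.exp (2 * π * m * τ.im) ≤ |C| * Real.exp (2 * π * m * τ.im) :=
    mul_le_mul_of_nonneg_right (le_abs_self C) (Real.exp_pos _).le
  rcases le_or_gt ‖f τ‖ 1 with h0 | h0
  · calc ‖f τ‖ ≤ 1 := h0
      _ ≤ Real.exp (2 * π * m * τ.im) := hexp
      _ ≤ (1 + |C|) * Real.exp (2 * π * m * τ.im) := by
        have : 0 ≤ |C| * Real.exp (2 * π * m * τ.im) :=
          mul_nonneg (abs_nonneg C) (Real.exp_pos _).le
        linarith
  · have h2 : ‖f τ‖ ≤ ‖f τ‖ ^ p := le_self_pow₀ h0.le hp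
    calc ‖f τ‖ ≤ ‖f τ‖ ^ p := h2
      _ ≤ C * Real.exp (2 * π * m * τ.im) := h1
      _ ≤ |C| * Real.exp (2 * π * m * τ.im) := hC
      _ ≤ (1 + |C|) * Real.exp (2 * π * m * τ.im) := by
        have : 0 ≤ Real.exp (2 * π * m * τ.im) := (Real.exp_pos _).le
        linarith

theorem qh_one_eq_qh_pow (N : ℕ) [NeZero N] (τ : ℍ) : qh 1 τ = qh N τ ^ N := by
  have hN : (N : ℂ) ≠ 0 := by exact_mod_cast NeZero.ne N
  rw [qh_apply, qh_apply, Function.Periodic.qParam, Function.Periodic.qParam,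
    ← Complex.exp_nat_mul]
  congr 1
  push_cast
  field_simp

/-- exponential growth gives a pole of finite order in the variable `q^{1/N}` -/
theorem isBounded_mul_qh_pow_level (N : ℕ) [NeZero N] {f : ℍ → ℂ} (hf : ExpGrowth f) :
    ∃ M : ℕ, IsBoundedAtImInfty (f * qh N ^ M) := by
  obtain ⟨M, hM⟩ := Fermat.Agent.S29.H882.isBounded_mul_qh_pow_of_expGrowth hf
  refine ⟨N * M, ?_⟩
  have : f * qh N ^ (N * M) = f * qh 1 ^ M := by
    funext τ
    simp only [Pi.mul_apply, Pi.pow_apply]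
    rw [qh_one_eq_qh_pow N τ, ← pow_mul]
  rw [this]
  exact hM

variable {N : ℕ} [NeZero N] {p : ℕ} [NeZero p]

/-- the multiplicative character of a twisted function -/
theorem hasCharacter_of_hasChar {c : G0 N → ZMod p} (hc : IsParHom c) {U : ℍ → ℂ}
    (hU : HasChar N p c U) : HasCharacter (isParAdd_of_isParHom hc).char U := by
  intro γ τ
  rw [hU γ τ, IsParAdd.char_apply, zetaP_pow_val]

/-- **A twisted function of a parabolic character lies in `holN N`.** -/
theorem mem_holN_of_isTwisted {c : G0 N → ZMod p} (hc : IsParHom c) {U : ℍ → ℂ}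
    (hU : IsTwisted N p c U) : U ∈ holN N := by
  have hc' : IsParAdd c := isParAdd_of_isParHom hc
  have hh : HasCharacter hc'.char U := hasCharacter_of_hasChar hc hU.hasChar
  have hχ : ParTrivial hc'.char := hc'.parTrivial
  refine ⟨hU.mdiff, fun g => ?_⟩
  have hhol : MDiff (compSL g U) := (precompSL g ⟨U, hU.mdiff⟩).2
  have hper : Function.Periodic (compSL g U ∘ ofComplex) (N : ℝ) :=
    hh.periodic hχ g N (by simpa using conj_T_zpow_mem_Gamma0 N g 1)
  have hgr : ExpGrowth (compSL g U) :=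
    expGrowth_of_pow (NeZero.ne p) (hU.pow_mem.2.2 g)
  have hmer : IsMerInf N (compSL g U) := ⟨hhol, hper, isBounded_mul_qh_pow_level N hgr⟩
  have hq := HasQExp.of_isMerInf hmer
  have hinf : InfExp N (compSL g U) (qexpFun N (compSL g U)) := fun τ => hq.hasSum τ
  exact hinf.mem_expRing

/-- from the `q`-expansion to the `q^{1/N}`-expansion -/
theorem infExp_level_of_hasQExp {G : ℍ → ℂ} {φ : LaurentSeries ℂ} (h : HasQExp 1 G φ) :
    InfExp N G (qExpand ℂ N φ) := by
  have hN : (N : ℂ) ≠ 0 := by exact_mod_cast NeZero.ne N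
  have h1 : InfExp 1 G φ := fun τ => h.hasSum τ
  have h2 := h1.subst (N := N) (fun τ => τ) 1 N (fun τ => by
    rw [infZ_def, infZ_def, Units.val_one, one_mul, ← Complex.exp_nat_mul]
    congr 1
    push_cast
    field_simp)
  rwa [infTwist_one] at h2

end Fermat.Agent.S29.H282

end
end
-- ===== PACK-END S29/H282/K2Ana.lean

-- ===== PACK-BEGIN S29/H282/DegK.lean
section


/-!
# S29 / M4b-K2 (helper282) — the degree of the function field over `K`

For every field `K` with an embedding `ι : K →+* ℂ`: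
`[FFK K N : K(j)] = [SL₂(ℤ) : Γ₀(N)]`.
Port of `Fermat/Agent/S24/Deg/H457_Main.lean` (upper bound) and `H997Core` (lower bound).
-/

set_option autoImplicit false

noncomputable section

open Polynomial ModularCurve IntermediateField

namespace Fermat.Agent.S29.H282

open Fermat.Agent.S24 Fermat.Agent.S24.H997 Fermat.Agent.S24.Deg457

variable {K : Type*} [Field K] [Algebra ℚ K] (ι : K →+* ℂ)
variable (N : ℕ) [NeZero N]

theorem coe_jFK : ((jFK K N : FFK K N) : LaurentSeries K) = JK K := rfl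

include ι in
/-- **Degree bound**: `[FFK K N : K(j)] ≤ [SL₂(ℤ) : Γ₀(N)]`. -/
theorem finiteDimensional_and_finrank_leK :
    FiniteDimensional ↥(IntermediateField.adjoin K {jFK K N}) (FFK K N) ∧
      Module.finrank ↥(IntermediateField.adjoin K {jFK K N}) (FFK K N) ≤ Nat.card (XX N) := by
  haveI : CharZero K := algebraRat.charZero K
  refine finiteDimensional_and_finrank_le_of_forall_natDegree_minpoly_le _ fun x => ?_
  obtain ⟨Q, hQ0, hQn, hQ⟩ := algDeg_of_mem_field ι (hyp_complex_card N) x.2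
  have hinc : Function.Injective (algebraMap (FFK K N) (LaurentSeries K)) :=
    (algebraMap (FFK K N) (LaurentSeries K)).injective
  refine isIntegral_and_natDegree_le_of_relation (K := K)
    (AdjoinSimple.gen K (jFK K N)) ?_ x Q hQ0 _ hQn ?_
  · intro t ht h0
    apply aeval_JK_ne_zero K ht
    have h1 := congrArg (algebraMap ↥(IntermediateField.adjoin K {jFK K N}) (FFK K N)) h0
    rw [← aeval_algebraMap_apply, map_zero, AdjoinSimple.algebraMap_gen] at h1
    have h2 := congrArg (algebraMap (FFK K N) (LaurentSeries K)) h1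
    rw [← aeval_algebraMap_apply, map_zero] at h2
    exact h2
  · apply hinc
    rw [map_zero, Polynomial.hom_eval₂, AdjoinSimple.algebraMap_gen]
    have hcomp : (algebraMap (FFK K N) (LaurentSeries K)).comp
        ((aeval (jFK K N) : K[X] →ₐ[K] FFK K N).toRingHom) = evJ (JK K) := by
      refine Polynomial.ringHom_ext ?_ ?_
      · intro c
        simp [evJ, ← IsScalarTower.algebraMap_apply]
      · simp [evJ]
        rfl
    rw [hcomp]
    exact hQ

include ι in
theorem finiteDimensional_adjoin_jFK :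
    FiniteDimensional ↥(IntermediateField.adjoin K {jFK K N}) (FFK K N) :=
  (finiteDimensional_and_finrank_leK ι N).1

include ι in
/-- **The degree**: `[FFK K N : K(j)] = [SL₂(ℤ) : Γ₀(N)]`. -/
theorem finrank_adjoin_jFK :
    Module.finrank ↥(IntermediateField.adjoin K {jFK K N}) (FFK K N) = Nat.card (XX N) := by
  haveI := finiteDimensional_adjoin_jFK ι N
  exact le_antisymm (finiteDimensional_and_finrank_leK ι N).2
    (card_le_finrankK ι (analyticCore N))

end Fermat.Agent.S29.H282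

end
end
-- ===== PACK-END S29/H282/DegK.lean

-- ===== PACK-BEGIN S29/H282/Rot.lean
section


/-!
# S29 / M4b-K2 (helper282) — iterating the rotation relation

For an expansion `X` with rotation data `R` for `ε` (a primitive `m`-th root of unity `ζ`):
if `H ∘ ε ^ e = H` then `m ∣ e * ord (E H)`.
-/

set_option autoImplicit false

noncomputable section

open ModularCurve HahnSeries UpperHalfPlane
open scoped MatrixGroups

namespace Fermat.Agent.S29.H282

open Fermat.Agent.S24 Fermat.Agent.S24.H997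

variable {N : ℕ} [NeZero N] (B : HolBase N) (X : Expansion B)

theorem compH_pow_succ (ε : SL(2, ℤ)) (i : ℕ) (H : B.Hol) :
    B.compH (ε ^ (i + 1)) H = B.compH ε (B.compH (ε ^ i) H) := by
  rw [pow_succ, HolBase.compH_mul]

/-- iterating the rotation relation -/
theorem rot_iterate (ε : SL(2, ℤ)) (R : RotData B X ε) (H : B.Hol) (i : ℕ) :
    (X.E (B.compH (ε ^ i) H)).order = (X.E H).order ∧
      (X.E (B.compH (ε ^ i) H)).leadingCoeff
        = (R.ζ ^ (X.E H).order) ^ i * (X.E H).leadingCoeff := by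
  induction i with
  | zero => simp [HolBase.compH_one]
  | succ n ih =>
    have h := R.rot (B.compH (ε ^ n) H)
    rw [compH_pow_succ]
    refine ⟨by rw [h.1, ih.1], ?_⟩
    rw [h.2, ih.1, ih.2, pow_succ]
    ring

/-- **Key divisibility.**  If `H` is invariant under `ε ^ e`, then the order `m` of the rotation
divides `e * ord (E H)`. -/
theorem rot_dvd_of_compH_pow_eq (ε : SL(2, ℤ)) (R : RotData B X ε) (H : B.Hol) (e : ℕ)
    (hH : B.compH (ε ^ e) H = H) : (R.m : ℤ) ∣ (e : ℤ) * (X.E H).order := by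
  by_cases h0 : X.E H = 0
  · rw [h0, order_zero, mul_zero]
    exact dvd_zero _
  · have hlc : (X.E H).leadingCoeff ≠ 0 := leadingCoeff_ne_zero.mpr h0
    have h := (rot_iterate B X ε R H e).2
    rw [hH] at h
    have h1 : (R.ζ ^ (X.E H).order) ^ e = 1 := by
      have : (R.ζ ^ (X.E H).order) ^ e * (X.E H).leadingCoeff = 1 * (X.E H).leadingCoeff := by
        rw [one_mul]; exact h.symm
      exact mul_right_cancel₀ hlc this
    have h2 : R.ζ ^ ((X.E H).order * (e : ℤ)) = 1 := by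
      rw [zpow_mul, zpow_natCast]
      exact h1
    have h3 := (R.hζ.zpow_eq_one_iff_dvd _).mp h2
    rwa [mul_comm] at h3

end Fermat.Agent.S29.H282

end
end
-- ===== PACK-END S29/H282/Rot.lean

-- ===== PACK-BEGIN S29/H282/Dict.lean
section





/-!
# S29 / M4b-K2 (helper282) — the places dictionary (DICT-hard)

`K` algebraically closed with an embedding `ι : K →+* ℂ` (main cases: `K = ℂ`, `K = ℚ̄`).

* `exists_placeOf_eqK` : every place of `FFK K N / K` is induced by one of the embeddings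
  `σ_x` of the local data `dataInfK` (cusps) or `dataFinK a` (points over `j = a`);
* `IsAvatar`           : `h : Hol` is an analytic avatar of `f : FFK K N`
  (`qexp h = ΦK ι N f`, i.e. the expansion of `h` at `i∞` is the Laurent series `f`);
* `IsAvatar.sigmaGK_eq`: then `σ_g f = E (h ∘ g⁻¹)` for every expansion;
* `dvd_ord_of_isAvatar_pow` (**DICT-hard**): if `f` has the avatar `h ^ M` and `h` is invariant
  under the special elements (finite order or trace `2`) of `Γ₀(N)`, then `M ∣ w.ord f` for every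
  place `w` of `FFK K N / K`.
-/

set_option autoImplicit false

noncomputable section

open ModularCurve HahnSeries UpperHalfPlane AlgebraicCurve IntermediateField
open scoped MatrixGroups

namespace Fermat.Agent.S29.H282

open Fermat.Agent.S24 Fermat.Agent.S24.H997 Fermat.Agent.S24.Deg457

/-! ### Generic: the orbit of `x` under `perm` has `ord_v t` elements -/

section Generic

variable {K F : Type*} [Field K] [Field F] [Algebra K F] [IsAlgClosed K] [CharZero K]
variable {C : Type*} [Field C] [CharZero C] {X : Type*} [Finite X]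
variable {t : F} (L : LocalData K F C X t)
variable (E : IntermediateField K F) (hE : E ≤ K⟮t⟯) [FiniteDimensional E F]
  (hrank : Module.finrank E F = Nat.card X)

include hE hrank in
/-- the cardinality of the `perm`-orbit of `x` is the ramification index `ord_v t` -/
theorem card_orbit_eq_ord_t (x : X) :
    (Nat.card (MulAction.orbit (Subgroup.zpowers L.perm) x) : ℤ) = (H117.placeOf L x).ord t := by
  classical
  haveI := H504.isAlgebraic_adjoin_of_le (t := t) E hE
  have hfin : {v : Place K F | 0 < v.ord t}.Finite := H117.finite_places_over L E hE hrank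
  have hs : ∀ v : Place K F, v ∈ hfin.toFinset ↔ 0 < v.ord t := fun v => by simp
  exact (H117.localThm L E hE hrank hfin.toFinset hs
    (H504.LocalData.card_le_sum_ord L hfin.toFinset hs)).2.1 x

include hE hrank in
/-- `perm ^ e` fixes `x`, where `e = ord_v t` is the ramification index of the place of `x` -/
theorem perm_pow_ord_t_apply (x : X) :
    (L.perm ^ ((H117.placeOf L x).ord t).toNat) x = x := by
  classical
  have h := card_orbit_eq_ord_t L E hE hrank x
  haveI : Fintype (MulAction.orbit (Subgroup.zpowers L.perm) x) := Fintype.ofFinite _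
  have h1 : Function.minimalPeriod (L.perm • ·) x
      = Nat.card (MulAction.orbit (Subgroup.zpowers L.perm) x) := by
    rw [MulAction.minimalPeriod_eq_card, Nat.card_eq_fintype_card]
  have h2 : ((H117.placeOf L x).ord t).toNat
      = Nat.card (MulAction.orbit (Subgroup.zpowers L.perm) x) := by
    rw [← h]; simp
  have h3 : (L.perm ^ ((H117.placeOf L x).ord t).toNat) • x = x := by
    rw [MulAction.pow_smul_eq_iff_minimalPeriod_dvd, h1, h2]
  exact h3

end Generic

/-! ### Avatars -/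

section Avatar

variable {K : Type*} [Field K] [Algebra ℚ K] (ι : K →+* ℂ)
variable {N : ℕ} [NeZero N] (B : HolBase N)

/-- `h : Hol` is an analytic avatar of `f : FFK K N`: the expansion of `h` at `i∞` (in the
variable `q^{1/N}`) is the Laurent series `f` (coefficients mapped by `ι`). -/
def IsAvatar (f : FFK K N) (h : B.Hol) : Prop := B.qexp h = ΦK ι N (f : LaurentSeries K)

variable {ι B}

theorem isAvatar_inclRNK (r : RNK K N) : IsAvatar ι B (inclRNK K N r) (bridgeK ι B r) :=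
  qexp_bridgeK ι B r

theorem IsAvatar.unique {f : FFK K N} {h h' : B.Hol} (hav : IsAvatar ι B f h)
    (hav' : IsAvatar ι B f h') : h = h' :=
  B.qexp_injective (hav.trans hav'.symm)

theorem IsAvatar.injective {f f' : FFK K N} {h : B.Hol} (hav : IsAvatar ι B f h)
    (hav' : IsAvatar ι B f' h) : f = f' :=
  Subtype.ext (ΦK_injective ι (hav.symm.trans hav'))

theorem isAvatar_zero : IsAvatar ι B (0 : FFK K N) 0 := by
  show B.qexp 0 = ΦK ι N ((0 : FFK K N) : LaurentSeries K)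
  simp

theorem isAvatar_one : IsAvatar ι B (1 : FFK K N) 1 := by
  show B.qexp 1 = ΦK ι N ((1 : FFK K N) : LaurentSeries K)
  simp

theorem IsAvatar.mul {f f' : FFK K N} {h h' : B.Hol} (hav : IsAvatar ι B f h)
    (hav' : IsAvatar ι B f' h') : IsAvatar ι B (f * f') (h * h') := by
  show B.qexp (h * h') = ΦK ι N ((f * f' : FFK K N) : LaurentSeries K)
  rw [map_mul, hav, hav', ← map_mul]
  rfl

theorem IsAvatar.add {f f' : FFK K N} {h h' : B.Hol} (hav : IsAvatar ι B f h)
    (hav' : IsAvatar ι B f' h') : IsAvatar ι B (f + f') (h + h') := by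
  show B.qexp (h + h') = ΦK ι N ((f + f' : FFK K N) : LaurentSeries K)
  rw [map_add, hav, hav', ← map_add]
  rfl

theorem IsAvatar.pow {f : FFK K N} {h : B.Hol} (hav : IsAvatar ι B f h) (n : ℕ) :
    IsAvatar ι B (f ^ n) (h ^ n) := by
  induction n with
  | zero => simpa using isAvatar_one
  | succ n ih => rw [pow_succ, pow_succ]; exact ih.mul hav

theorem IsAvatar.eq_zero_iff {f : FFK K N} {h : B.Hol} (hav : IsAvatar ι B f h) :
    h = 0 ↔ f = 0 :=
  ⟨fun h0 => hav.injective (h0 ▸ isAvatar_zero), fun f0 => hav.unique (f0 ▸ isAvatar_zero)⟩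

/-- clearing denominators: `h * e(t) = e(r)` when `f = r / t` -/
theorem IsAvatar.mul_bridgeK {f : FFK K N} {h : B.Hol} (hav : IsAvatar ι B f h)
    {r t : RNK K N} (ht : t ≠ 0) (hf : f = inclRNK K N r / inclRNK K N t) :
    h * bridgeK ι B t = bridgeK ι B r := by
  have ht' : inclRNK K N t ≠ 0 := fun h0 =>
    ht (inclRNK_injective K N (h0.trans (map_zero _).symm))
  have h1 : f * inclRNK K N t = inclRNK K N r := by
    rw [hf, div_mul_cancel₀ _ ht']
  exact (hav.mul (isAvatar_inclRNK t)).unique (h1 ▸ isAvatar_inclRNK r)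

/-- **The embeddings in terms of the avatar**: `σ_g f = E (h ∘ g⁻¹)`. -/
theorem IsAvatar.sigmaGK_eq {f : FFK K N} {h : B.Hol} (hav : IsAvatar ι B f h)
    (X : Expansion B) (g : SL(2, ℤ)) : sigmaGK ι B X g f = X.E (B.compH g⁻¹ h) := by
  obtain ⟨r, t, ht, hf⟩ := exists_div_inclRNK K N f
  have hmul := hav.mul_bridgeK ht hf
  have ht' : X.E (B.compH g⁻¹ (bridgeK ι B t)) ≠ 0 := by
    intro h0
    apply ht
    apply sGK_injective ι B X g
    rw [sGK_apply, h0, map_zero]
  rw [hf, map_div₀, sigmaGK_inclRNK, sigmaGK_inclRNK, ← hmul, map_mul, map_mul,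
    mul_div_assoc, div_self ht', mul_one]

theorem IsAvatar.sigmaXK_mk_eq {f : FFK K N} {h : B.Hol} (hav : IsAvatar ι B f h)
    (X : Expansion B) (g : SL(2, ℤ)) :
    sigmaXK ι B X (g : XX N) f = X.E (B.compH g⁻¹ h) := by
  rw [sigmaXK_mk]
  exact hav.sigmaGK_eq X g

end Avatar

/-! ### The dictionary -/

section Dict

variable {K : Type*} [Field K] [Algebra ℚ K] (ι : K →+* ℂ)
variable {N : ℕ} [NeZero N]

omit [NeZero N] in
theorem permOf_pow_apply (γ : SL(2, ℤ)) (e : ℕ) (g : SL(2, ℤ)) :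
    (permOf N γ ^ e) (g : XX N) = ((γ ^ e * g : SL(2, ℤ)) : XX N) := by
  induction e with
  | zero => simp
  | succ n ih =>
    rw [pow_succ', Equiv.Perm.mul_apply, ih, pow_succ', mul_assoc]
    rfl

omit [NeZero N] in
/-- if `perm_{ε⁻¹} ^ e` fixes the coset of `g` then `g⁻¹ ε ^ e g ∈ Γ₀(N)` -/
theorem conj_mem_of_permOf_pow_apply_eq {ε g : SL(2, ℤ)} {e : ℕ}
    (h : (permOf N ε⁻¹ ^ e) (g : XX N) = (g : XX N)) :
    g⁻¹ * ε ^ e * g ∈ CongruenceSubgroup.Gamma0 N := by
  rw [permOf_pow_apply] at h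
  have h1 := QuotientGroup.eq.mp h
  have h2 : ((ε⁻¹) ^ e * g)⁻¹ * g = g⁻¹ * ε ^ e * g := by
    rw [mul_inv_rev, inv_pow, inv_inv]
  rwa [h2] at h1

variable (B : HolBase N)

/-- `h` is invariant under the special elements of `Γ₀(N)` -/
def IsUnramified (h : B.Hol) : Prop :=
  ∀ γ : SL(2, ℤ), γ ∈ CongruenceSubgroup.Gamma0 N → IsSpecialElt γ → B.compH γ h = h

variable {B}

theorem IsUnramified.compH_pow_eq {h : B.Hol} (hinv : IsUnramified B h) {ε g : SL(2, ℤ)} {e : ℕ}
    (hε : IsSpecialElt (ε ^ e)) (hmem : g⁻¹ * ε ^ e * g ∈ CongruenceSubgroup.Gamma0 N) :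
    B.compH (ε ^ e) (B.compH g⁻¹ h) = B.compH g⁻¹ h := by
  have h1 := hinv _ hmem (hε.conj g)
  rw [← HolBase.compH_mul]
  have h2 : g⁻¹ * ε ^ e = (g⁻¹ * ε ^ e * g) * g⁻¹ := by group
  rw [h2, HolBase.compH_mul, h1]

variable [IsAlgClosed K]

/-- **DICT-hard, local form**: for local data constructed from an expansion with rotation data for
`ε` (all of whose powers are special), the order at every place `placeOf x` of a function with
avatar `h ^ M`, `h` unramified, is divisible by `M`. -/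
theorem dvd_ord_placeOf_mkLocalDataK (X : Expansion B) (ε : SL(2, ℤ)) (R : RotData B X ε)
    (t : FFK K N) (u : LaurentSeries ℂ) (ht : ∀ g : SL(2, ℤ), sigmaGK ι B X g t = u)
    (hu : u.order = (R.m : ℤ))
    (E : IntermediateField K (FFK K N)) (hE : E ≤ K⟮t⟯) [FiniteDimensional E (FFK K N)]
    (hrank : Module.finrank E (FFK K N) = Nat.card (XX N))
    (hε : ∀ e : ℕ, IsSpecialElt (ε ^ e))
    {h : B.Hol} (hinv : IsUnramified B h) {f : FFK K N} {M : ℕ}
    (hav : IsAvatar ι B f (h ^ M)) (x : XX N) :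
    (M : ℤ) ∣ (H117.placeOf (mkLocalDataK ι B X ε R t u ht hu) x).ord f := by
  haveI : CharZero K := algebraRat.charZero K
  set L := mkLocalDataK ι B X ε R t u ht hu with hL
  obtain ⟨g, rfl⟩ := QuotientGroup.mk_surjective x
  set w := H117.placeOf L (g : XX N) with hw
  set e : ℕ := (w.ord t).toNat with he
  have hpos : 0 < w.ord t := H117.ord_t_pos L _
  have hecast : (e : ℤ) = w.ord t := Int.toNat_of_nonneg hpos.le
  have he0 : (e : ℤ) ≠ 0 := by rw [hecast]; exact hpos.ne'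
  -- the orbit
  have hfix : (permOf N ε⁻¹ ^ e) (g : XX N) = (g : XX N) :=
    perm_pow_ord_t_apply L E hE hrank (g : XX N)
  have hmem := conj_mem_of_permOf_pow_apply_eq hfix
  -- the rotation
  set H : B.Hol := B.compH g⁻¹ h with hH
  have hHinv : B.compH (ε ^ e) H = H := hinv.compH_pow_eq (hε e) hmem
  have hdvd : (R.m : ℤ) ∣ (e : ℤ) * (X.E H).order := rot_dvd_of_compH_pow_eq B X ε R H e hHinv
  -- the multiplicity
  have hmult : (H117.mult L (g : XX N) : ℤ) * w.ord t = (R.m : ℤ) := H117.mult_mul_ord_t L _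
  have hk0 : (H117.mult L (g : XX N) : ℤ) ≠ 0 := by
    exact_mod_cast (H117.mult_pos L (g : XX N)).ne'
  have hdvd2 : (H117.mult L (g : XX N) : ℤ) ∣ (X.E H).order := by
    rw [← hmult, ← hecast, mul_comm] at hdvd
    exact (mul_dvd_mul_iff_left he0).mp hdvd
  obtain ⟨k, hk⟩ := hdvd2
  -- the order of `f`
  have hσ : L.σ (g : XX N) f = X.E H ^ M := by
    show sigmaXK ι B X (g : XX N) f = _
    rw [hav.sigmaXK_mk_eq X g, map_pow, map_pow]
  have hord : (L.σ (g : XX N) f).order = (M : ℤ) * (X.E H).order := by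
    rw [hσ, HahnSeries.order_pow, nsmul_eq_mul]
  have h1 := H117.order_eq L (g : XX N) f
  rw [hord, hk] at h1
  refine ⟨k, ?_⟩
  have h2 : (H117.mult L (g : XX N) : ℤ) * w.ord f = (H117.mult L (g : XX N) : ℤ) * (M * k) := by
    rw [← h1]; ring
  exact mul_left_cancel₀ hk0 h2

omit [IsAlgClosed K] in
theorem adjoin_jFK_le_sub (a : K) :
    K⟮jFK K N⟯ ≤ K⟮jFK K N - algebraMap K (FFK K N) a⟯ := by
  rw [IntermediateField.adjoin_le_iff, Set.singleton_subset_iff]
  have h := add_mem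
    (IntermediateField.mem_adjoin_simple_self K (jFK K N - algebraMap K (FFK K N) a))
    (IntermediateField.algebraMap_mem K⟮jFK K N - algebraMap K (FFK K N) a⟯ a)
  rwa [sub_add_cancel] at h

omit [IsAlgClosed K] in
theorem adjoin_jFK_le_inv : K⟮jFK K N⟯ ≤ K⟮(jFK K N)⁻¹⟯ := by
  rw [IntermediateField.adjoin_le_iff, Set.singleton_subset_iff]
  have h := inv_mem (IntermediateField.mem_adjoin_simple_self K (jFK K N)⁻¹)
  rwa [inv_inv] at h

variable (A : AnalyticCore N)

/-- **Every place of `FFK K N / K` is analytic**: it is induced by an embedding `σ_x` of the local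
data at `∞` or over a finite point `a`. -/
theorem exists_placeOf_eqK (w : Place K (FFK K N)) :
    (∃ x : XX N, H117.placeOf (dataInfK ι A) x = w) ∨
      ∃ (a : K) (x : XX N), H117.placeOf (dataFinK ι A a) x = w := by
  haveI : CharZero K := algebraRat.charZero K
  haveI := finiteDimensional_adjoin_jFK ι N
  have hrank := finrank_adjoin_jFK ι N
  rcases sub_exists_point (jFK K N) w with h | ⟨a, ha⟩
  · left
    have h' : 0 < w.ord (jFK K N)⁻¹ := by
      rw [Place.ord_inv]; omega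
    exact H117.exists_placeOf_eq (dataInfK ι A) K⟮jFK K N⟯ adjoin_jFK_le_inv hrank w h'
  · right
    exact ⟨a, H117.exists_placeOf_eq (dataFinK ι A a) K⟮jFK K N⟯ (adjoin_jFK_le_sub a) hrank w ha⟩

omit [Algebra ℚ K] [IsAlgClosed K] in
theorem isSpecialElt_epsAt_pow (a : K) (e : ℕ) : IsSpecialElt (epsAt ι a ^ e) := by
  classical
  unfold epsAt
  split_ifs
  · exact isSpecialElt_ST_pow e
  · exact isSpecialElt_S_pow e
  · exact isSpecialElt_one_pow e

variable {ι A}

/-- **DICT-hard.**  Let `f` be an element of the function field of `X₀(N)` over `K` whose analytic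
avatar is `h ^ M`, where `h : Hol` is invariant under all special elements (finite order or
trace `2`) of `Γ₀(N)`.  Then `M ∣ ord_w f` for every place `w` of the function field. -/
theorem dvd_ord_of_isAvatar_pow {h : A.Hol} (hinv : IsUnramified A.toHolBase h)
    {f : FFK K N} {M : ℕ} (hav : IsAvatar ι A.toHolBase f (h ^ M))
    (w : Place K (FFK K N)) : (M : ℤ) ∣ w.ord f := by
  haveI := finiteDimensional_adjoin_jFK ι N
  have hrank := finrank_adjoin_jFK ι N
  rcases exists_placeOf_eqK ι A w with ⟨x, rfl⟩ | ⟨a, x, rfl⟩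
  · exact dvd_ord_placeOf_mkLocalDataK ι A.toHolBase.qexpExpansion ModularGroup.T A.infRot
      (jFK K N)⁻¹ (A.qexp (A.toHolBase.JH 1 (one_dvd N)))⁻¹
      (fun g => by rw [map_inv₀, sigmaGK_jFK]; rfl)
      (by
        rw [RotRel.order_inv' A.toHolBase.qexp_J_one_ne_zero, A.toHolBase.order_qexp_J_one,
          neg_neg]
        rfl)
      K⟮jFK K N⟯ adjoin_jFK_le_inv hrank isSpecialElt_T_pow hinv hav x
  · exact dvd_ord_placeOf_mkLocalDataK ι (pointAt ι A a).X (epsAt ι a) (pointAt ι A a).R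
      (jFK K N - algebraMap K (FFK K N) a) _
      (fun g => sigmaGK_sub ι A (pointAt ι A a) g) (pointAt ι A a).order_J
      K⟮jFK K N⟯ (adjoin_jFK_le_sub a) hrank (isSpecialElt_epsAt_pow ι a) hinv hav x

end Dict

end Fermat.Agent.S29.H282

end
end
-- ===== PACK-END S29/H282/Dict.lean

-- ===== PACK-BEGIN S29/H282/DictEasy.lean
section


/-!
# S29 / M4b-K2 (helper282) — the places dictionary, easy direction (DICT-easy)

For every `τ ∈ ℍ` with `j(τ) ∈ ι(K)` the Taylor expansion at `τ` of the avatar defines a place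
`placeAtTau` of `FFK K N / K`, and `ord_τ (avatar of f) = k · ord_w f` with `k > 0`.
Hence: if `m ∣ ord_w f` for every place `w`, then `m ∣ ord_τ h` for the avatar `h` of `f`, at
every such `τ` (for `K = ℂ`: at every `τ ∈ ℍ`).
-/

set_option autoImplicit false

noncomputable section

open ModularCurve HahnSeries UpperHalfPlane AlgebraicCurve IntermediateField
open scoped MatrixGroups Manifold

namespace Fermat.Agent.S29.H282

open Fermat.Agent.S24 Fermat.Agent.S24.H997 Fermat.Agent.S24.Deg457 Fermat.Agent.S24.H624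

variable {K : Type*} [Field K] [Algebra ℚ K] (ι : K →+* ℂ)
variable {N : ℕ} [NeZero N] (B : HolBase N) (hB : B.IsHolo)

/-- the embedding "Taylor expansion at `τ` of the avatar" -/
def sigmaTau (τ : ℍ) : FFK K N →+* LaurentSeries ℂ :=
  sigmaGK ι B (B.taylorExpansion hB τ) 1

variable {ι B}

theorem IsAvatar.sigmaTau_eq {f : FFK K N} {h : B.Hol} (hav : IsAvatar ι B f h) (τ : ℍ) :
    sigmaTau ι B hB τ f = (B.taylorExpansion hB τ).E h := by
  rw [sigmaTau, hav.sigmaGK_eq, inv_one, B.compH_one]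

theorem order_taylorExpansion {h : B.Hol} (hh : h ≠ 0) (τ : ℍ) :
    ((B.taylorExpansion hB τ).E h).order = ((ordAt τ (h : ℍ → ℂ)).toNat : ℤ) := by
  have h0 : B.toHolo hB h ≠ 0 := fun h1 =>
    hh (B.toHolo_injective hB (h1.trans (map_zero _).symm))
  rw [HolBase.taylorExpansion_E, order_laurentAt_algebraMap τ h0]
  rfl

theorem IsAvatar.order_sigmaTau {f : FFK K N} {h : B.Hol} (hav : IsAvatar ι B f h)
    (hh : h ≠ 0) (τ : ℍ) :
    (sigmaTau ι B hB τ f).order = ((ordAt τ (h : ℍ → ℂ)).toNat : ℤ) := by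
  rw [hav.sigmaTau_eq hB τ, order_taylorExpansion hB hh τ]

variable (ι B)

theorem eord_sigmaTau_const (τ : ℍ) (c : K) :
    0 ≤ H117.eord (sigmaTau ι B hB τ) (algebraMap K (FFK K N) c) := by
  show 0 ≤ (sigmaGK ι B (B.taylorExpansion hB τ) 1 (algebraMap K (FFK K N) c)).order
  rw [sigmaGK_algebraMap, HahnSeries.order_C]

theorem JH_one_sub_constH_ne_zero (c : ℂ) : B.JH 1 (one_dvd N) - B.constH c ≠ 0 := by
  intro h0
  have h1 : B.JH 1 (one_dvd N) = B.constH c := sub_eq_zero.mp h0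
  have h2 := B.order_qexp_J_one
  rw [h1] at h2
  have h3 : (B.qexp (B.constH c)).order = 0 := by
    show (B.qexp ⟨_, B.const_mem c⟩).order = 0
    rw [B.qexp_const, HahnSeries.order_C]
  rw [h3] at h2
  have hN : (0 : ℤ) < N := by exact_mod_cast Nat.pos_of_ne_zero (NeZero.ne N)
  omega

theorem sigmaTau_jFK_sub (τ : ℍ) (a : K) :
    sigmaTau ι B hB τ (jFK K N - algebraMap K (FFK K N) a)
      = (B.taylorExpansion hB τ).E (B.JH 1 (one_dvd N) - B.constH (ι a)) := by
  rw [sigmaTau, map_sub, sigmaGK_jFK, sigmaGK_algebraMap, map_sub, (B.taylorExpansion hB τ).const]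

theorem exists_eord_sigmaTau_ne_zero (τ : ℍ) (a : K) (ha : ι a = B.J 1 τ) :
    ∃ t : FFK K N, H117.eord (sigmaTau ι B hB τ) t ≠ 0 := by
  refine ⟨jFK K N - algebraMap K (FFK K N) a, ?_⟩
  show (sigmaTau ι B hB τ (jFK K N - algebraMap K (FFK K N) a)).order ≠ 0
  rw [sigmaTau_jFK_sub, order_taylorExpansion hB (JH_one_sub_constH_ne_zero B (ι a)) τ]
  have hne := JH_one_sub_constH_ne_zero B (ι a)
  set g : B.Hol := B.JH 1 (one_dvd N) - B.constH (ι a) with hg
  have hmd : MDiff (g : ℍ → ℂ) := hB.mdiff _ g.2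
  have hg0 : (g : ℍ → ℂ) ≠ 0 := fun h => hne (Subtype.ext h)
  have htop : ordAt τ (g : ℍ → ℂ) ≠ ⊤ := ordAt_ne_top hmd hg0 τ
  have hval : (g : ℍ → ℂ) τ = 0 := by
    show B.J 1 τ - ι a = 0
    rw [ha, sub_self]
  have hz : ordAt τ (g : ℍ → ℂ) ≠ 0 := fun h => (ordAt_eq_zero_iff hmd τ).mp h hval
  intro h0
  have h1 : (ordAt τ (g : ℍ → ℂ)).toNat = 0 := by exact_mod_cast h0
  rcases (ENat.toNat_eq_zero).mp h1 with h | h
  · exact hz h
  · exact htop h

/-- **The place of `FFK K N / K` at a point `τ ∈ ℍ`** with `j(τ) = ι a`. -/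
def placeAtTau (τ : ℍ) (a : K) (ha : ι a = B.J 1 τ) : Place K (FFK K N) :=
  H117.placeOfEmb (sigmaTau ι B hB τ) (eord_sigmaTau_const ι B hB τ)
    (exists_eord_sigmaTau_ne_zero ι B hB τ a ha)

theorem exists_mult_placeAtTau (τ : ℍ) (a : K) (ha : ι a = B.J 1 τ) :
    ∃ k : ℕ, 0 < k ∧ ∀ f : FFK K N,
      (sigmaTau ι B hB τ f).order = k * (placeAtTau ι B hB τ a ha).ord f :=
  H117.exists_mult (sigmaTau ι B hB τ) _ _

variable {ι B}

/-- `ord_τ h = k · ord_w f` for the avatar `h` of `f`. -/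
theorem IsAvatar.exists_ordAt_eq {f : FFK K N} {h : B.Hol} (hav : IsAvatar ι B f h)
    (hh : h ≠ 0) (τ : ℍ) (a : K) (ha : ι a = B.J 1 τ) :
    ∃ k : ℕ, 0 < k ∧
      ((ordAt τ (h : ℍ → ℂ)).toNat : ℤ) = k * (placeAtTau ι B hB τ a ha).ord f := by
  obtain ⟨k, hk, hkf⟩ := exists_mult_placeAtTau ι B hB τ a ha
  exact ⟨k, hk, by rw [← hkf f, hav.order_sigmaTau hB hh τ]⟩

include hB in
/-- **DICT-easy.**  If `m ∣ ord_w f` at every place `w` of `FFK K N / K`, then `m` divides the
order of vanishing of the avatar `h` of `f` at every `τ ∈ ℍ` with `j(τ) ∈ ι(K)`. -/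
theorem IsAvatar.exists_ordAt_eq_mul {f : FFK K N} {h : B.Hol} (hav : IsAvatar ι B f h)
    (hh : h ≠ 0) {m : ℕ} (hdvd : ∀ w : Place K (FFK K N), (m : ℤ) ∣ w.ord f)
    (τ : ℍ) (a : K) (ha : ι a = B.J 1 τ) :
    ∃ k : ℕ, ordAt τ (h : ℍ → ℂ) = ((m * k : ℕ) : ℕ∞) := by
  obtain ⟨k, -, hk⟩ := hav.exists_ordAt_eq hB hh τ a ha
  have hmd : MDiff (h : ℍ → ℂ) := hB.mdiff _ h.2
  have hh0 : (h : ℍ → ℂ) ≠ 0 := fun h0 => hh (Subtype.ext h0)
  have htop : ordAt τ (h : ℍ → ℂ) ≠ ⊤ := ordAt_ne_top hmd hh0 τ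
  have h1 : (m : ℤ) ∣ ((ordAt τ (h : ℍ → ℂ)).toNat : ℤ) := by
    rw [hk]
    exact Dvd.dvd.mul_left (hdvd _) _
  obtain ⟨l, hl⟩ := Int.natCast_dvd_natCast.mp h1
  refine ⟨l, ?_⟩
  rw [← hl, ENat.natCast_toNat htop]

end Fermat.Agent.S29.H282

end
end
-- ===== PACK-END S29/H282/DictEasy.lean

-- ===== PACK-BEGIN S29/H282/DictC.lean
section




/-!
# S29 / M4b / K3 (helper282) — the dictionary over `ℂ` (and any alg. closed `K ⊆ ℂ`), K3 language

Sub-pieces (F1) and (F4) of helper42's K3 sub-skeleton (`coord/S29-K3.md`):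

* `mem_holN_of_mem_goodRing`       : a good function lies in the S24 ring `holN N`;
* `isAvatar_of_hasQExp`            : `G ∈ holN N` with `q`-expansion `coeffMap ι f` is an avatar of `f`;
* `dvd_ord_of_isTwisted` (**F1**, generic `K`) and `dvd_ord_of_isTwisted_complex` (**F1**, `K = ℂ`):
  `U` twisted of a parabolic+elliptic-trivial character, `f = qexp (U ^ p) ∈ F_K`
  ⟹ `p ∣ ord_w f` at EVERY place `w` of `F_K / K`;
* `exists_ordAt_eq_mul_of_forall_dvd_ord` (**DICT-easy**, `K = ℂ`) and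
  `exists_pow_eq_of_forall_dvd_ord` (**F4** = DICT-easy + ROOT): `G` good, `G ≢ 0`,
  `m ∣ ord_w (qexp G)` at every place `w` of `F_ℂ / ℂ` ⟹ `G = V ^ m`, `V` holomorphic on `ℍ`.
-/

set_option autoImplicit false

noncomputable section

open ModularCurve AlgebraicCurve CongruenceSubgroup UpperHalfPlane
open scoped MatrixGroups Manifold Real

namespace Fermat.Agent.S29.H282

open Fermat.Agent.S24 Fermat.Agent.S24.H997 Fermat.Agent.S24.H648 Fermat.Agent.S24.H708
open Fermat.Agent.S24.H624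
open Fermat.Agent.S29 Fermat.Agent.S29.M4b Fermat.Agent.S29.H332

variable {N : ℕ} [NeZero N]

/-- the translates of a `Γ₀(N)`-invariant function are `N`-periodic -/
theorem periodic_compSL_of_invariant {G : ℍ → ℂ}
    (hinv : ∀ γ ∈ Gamma0 N, ∀ τ : ℍ, G (γ • τ) = G τ) (g : SL(2, ℤ)) :
    Function.Periodic (compSL g G ∘ ofComplex) (N : ℝ) := by
  have hh : HasCharacter (1 : CongruenceSubgroup.Gamma0 N →* ℂˣ) G := by
    intro γ τ
    rw [hinv γ γ.2 τ]
    simp
  have hχ : ParTrivial (1 : CongruenceSubgroup.Gamma0 N →* ℂˣ) := fun _ _ => rfl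
  exact hh.periodic hχ g N (by simpa using conj_T_zpow_mem_Gamma0 N g 1)

/-- **A good function lies in `holN N`.** -/
theorem mem_holN_of_mem_goodRing {G : ℍ → ℂ} (hG : G ∈ goodRing N) : G ∈ holN N := by
  obtain ⟨hmd, hinv, hgr⟩ := hG
  refine ⟨hmd, fun g => ?_⟩
  have hhol : MDiff (compSL g G) := (precompSL g ⟨G, hmd⟩).2
  have hmer : IsMerInf N (compSL g G) :=
    ⟨hhol, periodic_compSL_of_invariant hinv g, isBounded_mul_qh_pow_level N (hgr g)⟩
  have hq := HasQExp.of_isMerInf hmer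
  have hinf : InfExp N (compSL g G) (qexpFun N (compSL g G)) := fun τ => hq.hasSum τ
  exact hinf.mem_expRing

section Generic

variable {K : Type*} [Field K] [Algebra ℚ K] (ι : K →+* ℂ)

/-- a function of `holN N` whose `q`-expansion is `coeffMap ι f` is an avatar of `f` -/
theorem isAvatar_of_hasQExp {G : ℍ → ℂ} (hG : G ∈ holN N) {f : FFK K N}
    (hq : HasQExp 1 G (coeffMap ι (f : LaurentSeries K))) :
    IsAvatar ι (analyticCore N).toHolBase f (⟨G, hG⟩ : (analyticCore N).Hol) := by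
  have hinf : InfExp N G (qExpand ℂ N (coeffMap ι (f : LaurentSeries K))) :=
    infExp_level_of_hasQExp hq
  exact (expInf_spec (holToExp N (⟨G, hG⟩ : holN N))).unique hinf

theorem isAvatar_of_mem_goodRing {G : ℍ → ℂ} (hG : G ∈ goodRing N) {f : FFK K N}
    (hq : qexpFun 1 G = coeffMap ι (f : LaurentSeries K)) :
    IsAvatar ι (analyticCore N).toHolBase f
      (⟨G, mem_holN_of_mem_goodRing hG⟩ : (analyticCore N).Hol) :=
  isAvatar_of_hasQExp ι _ (hq ▸ Fermat.Agent.S29.H882.hasQExp_of_mem_goodRing hG)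

variable {p : ℕ} [NeZero p]

/-- **(F1), generic `K`**: DICT-hard for twisted functions. -/
theorem dvd_ord_of_isTwisted [IsAlgClosed K] {c : G0 N → ZMod p} (hc : IsParHom c)
    {U : ℍ → ℂ} (hU : IsTwisted N p c U) {f : FFK K N}
    (hq : qexpFun 1 (fun τ => U τ ^ p) = coeffMap ι (f : LaurentSeries K))
    (w : Place K (FFK K N)) : (p : ℤ) ∣ w.ord f := by
  have hav : IsAvatar ι (analyticCore N).toHolBase f
      ((⟨U, mem_holN_of_isTwisted hc hU⟩ : (analyticCore N).Hol) ^ p) :=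
    isAvatar_of_hasQExp ι (G := fun τ => U τ ^ p)
      (pow_mem (mem_holN_of_isTwisted hc hU) p)
      (hq ▸ Fermat.Agent.S29.H882.hasQExp_of_mem_goodRing hU.pow_mem)
  have hinv : IsUnramified (analyticCore N).toHolBase
      (⟨U, mem_holN_of_isTwisted hc hU⟩ : (analyticCore N).Hol) := by
    intro γ hγ hsp
    apply Subtype.ext
    funext τ
    show U (γ • τ) = U τ
    have h := hU.hasChar ⟨γ, hγ⟩ τ
    have h0 : c ⟨γ, hγ⟩ = 0 := by
      rcases hsp with ⟨n, hn, h⟩ | h
      · exact hc.elliptic ⟨γ, hγ⟩ n hn (Subtype.ext (by simpa using h))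
      · exact hc.parabolic ⟨γ, hγ⟩ (Or.inl h)
    rw [h0] at h
    simpa using h
  exact dvd_ord_of_isAvatar_pow hinv hav w

/-- **DICT-easy, generic `K`**, for good functions: at every `τ` with `j(τ) ∈ ι(K)`. -/
theorem exists_ordAt_eq_mul_of_forall_dvd_ord_at {G : ℍ → ℂ} (hG : G ∈ goodRing N)
    (hG0 : G ≠ 0) {f : FFK K N} (hq : qexpFun 1 G = coeffMap ι (f : LaurentSeries K))
    {m : ℕ} (hdvd : ∀ w : Place K (FFK K N), (m : ℤ) ∣ w.ord f)
    (τ : ℍ) (a : K) (ha : ι a = JFun.jFun τ) :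
    ∃ k : ℕ, analyticOrderAt (G ∘ ofComplex) (τ : ℂ) = ((m * k : ℕ) : ℕ∞) := by
  have hav := isAvatar_of_mem_goodRing ι hG hq
  have hh : (⟨G, mem_holN_of_mem_goodRing hG⟩ : (analyticCore N).Hol) ≠ 0 := fun h0 =>
    hG0 (congrArg Subtype.val h0)
  have ha' : ι a = (analyticCore N).toHolBase.J 1 τ := by
    rw [ha]
    show JFun.jFun τ = Jd 1 τ
    rw [Jd_one]
    rfl
  exact hav.exists_ordAt_eq_mul (holBase_isHolo N) hh hdvd τ a ha'

end Generic

/-! ### `K = ℂ` -/

section Complex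

variable {p : ℕ} [NeZero p]

/-- **(F1)**: DICT-hard over `ℂ`.  `f = qexp (U ^ p)` as an element of `F_ℂ`. -/
theorem dvd_ord_of_isTwisted_complex {c : G0 N → ZMod p} (hc : IsParHom c)
    {U : ℍ → ℂ} (hU : IsTwisted N p c U)
    (hf : qexpFun 1 (fun τ => U τ ^ p) ∈ laurentBaseChange ℂ (modularFunctionFieldFull N))
    (w : Place ℂ ↥(laurentBaseChange ℂ (modularFunctionFieldFull N))) :
    (p : ℤ) ∣ w.ord ⟨qexpFun 1 (fun τ => U τ ^ p), hf⟩ :=
  dvd_ord_of_isTwisted (K := ℂ) (RingHom.id ℂ) hc hU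
    (f := ⟨qexpFun 1 (fun τ => U τ ^ p), hf⟩) (coeffMap_id _).symm w

/-- **DICT-easy over `ℂ`**: `G` good, `m ∣ ord_w (qexp G)` at every place of `F_ℂ/ℂ` ⟹
`m ∣ ord_τ G` at every `τ ∈ ℍ` (the exact hypothesis of `H751.exists_pow_eq_UHP`). -/
theorem exists_ordAt_eq_mul_of_forall_dvd_ord {G : ℍ → ℂ} (hG : G ∈ goodRing N) (hG0 : G ≠ 0)
    (hf : qexpFun 1 G ∈ laurentBaseChange ℂ (modularFunctionFieldFull N)) {m : ℕ}
    (hdvd : ∀ w : Place ℂ ↥(laurentBaseChange ℂ (modularFunctionFieldFull N)),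
      (m : ℤ) ∣ w.ord ⟨qexpFun 1 G, hf⟩) (τ : ℍ) :
    ∃ k : ℕ, analyticOrderAt (G ∘ ofComplex) (τ : ℂ) = ((m * k : ℕ) : ℕ∞) :=
  exists_ordAt_eq_mul_of_forall_dvd_ord_at (K := ℂ) (RingHom.id ℂ) hG hG0
    (f := ⟨qexpFun 1 G, hf⟩) (coeffMap_id _).symm hdvd τ (JFun.jFun τ) rfl

/-- **(F4)** = DICT-easy + ROOT: a good function all of whose orders at the places of `F_ℂ/ℂ`
are divisible by `m` is the `m`-th power of a holomorphic function on `ℍ`. -/
theorem exists_pow_eq_of_forall_dvd_ord {G : ℍ → ℂ} (hG : G ∈ goodRing N) (hG0 : G ≠ 0)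
    (hf : qexpFun 1 G ∈ laurentBaseChange ℂ (modularFunctionFieldFull N)) {m : ℕ} (hm : m ≠ 0)
    (hdvd : ∀ w : Place ℂ ↥(laurentBaseChange ℂ (modularFunctionFieldFull N)),
      (m : ℤ) ∣ w.ord ⟨qexpFun 1 G, hf⟩) :
    ∃ V : ℍ → ℂ, MDifferentiable 𝓘(ℂ) 𝓘(ℂ) V ∧ ∀ τ : ℍ, V τ ^ m = G τ :=
  Fermat.Agent.S29.H751.exists_pow_eq_UHP hG.1 m hm
    (fun τ => exists_ordAt_eq_mul_of_forall_dvd_ord hG hG0 hf hdvd τ)

end Complex

end Fermat.Agent.S29.H282

end
end
-- ===== PACK-END S29/H282/DictC.lean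

-- ===== PACK-BEGIN S29/H942/K3Fin.lean
section





/-!
# S29 / M4b / K3 : the sub-piece `K3-FIN` (helper942)

`finStatement N p : K3.FinStatement N p` — for a twisted function `U` of a parabolic character, the
`Aut(ℂ/ℚ̄)`-orbit of the class of `f = qexp (U ^ p)` in `F_ℂˣ / (F_ℂˣ) ^ p` is finite.

Assembly of helper42's decomposition (`coord/S29-K3.md`):
* (F1) DICT-hard over `ℂ`          : landed `H282.dvd_ord_of_isTwisted_complex`;
* (F2) transport along `σ`         : `dvd_ord_smul` (Prelude `SemilinearAut.ord_smul`);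
* pole clearing                    : `K3.exists_div_goodQ`;
* (F4) DICT-easy + ROOT            : landed `H282.exists_pow_eq_of_forall_dvd_ord`;
* (F5) character of the root       : `H942.exists_kummerChar`;
* (F6) finitely many characters    : `finite_monoidHom_of_fg`, `fg_Gamma0`;
* (F7) same character ⟹ same class : `exists_pow_mul_eq_of_sameChar`;
* (F8) one representative per character.
-/

set_option autoImplicit false

noncomputable section

open ModularCurve AlgebraicCurve CongruenceSubgroup UpperHalfPlane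
open scoped MatrixGroups Manifold

namespace Fermat.Agent.S29.H942

open Fermat.Agent.S24 Fermat.Agent.S24.H648 Fermat.Agent.S24.H708 Fermat.Agent.S24.Deg457
open Fermat.Agent.S29 Fermat.Agent.S29.M4b

/-! ### (F6) finitely many characters -/

/-- A finitely generated group has finitely many homomorphisms to a finite group. -/
theorem finite_monoidHom_of_fg (G H : Type*) [Group G] [Group.FG G] [Group H] [Finite H] :
    Finite (G →* H) := by
  obtain ⟨S, hS, hSfin⟩ := Group.fg_iff.mp (inferInstance : Group.FG G)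
  haveI : Finite S := Set.finite_coe_iff.mpr hSfin
  refine Finite.of_injective (fun (χ : G →* H) (s : S) => χ (s : G)) ?_
  intro χ χ' h
  refine MonoidHom.eq_of_eqOn_dense hS fun s hs => ?_
  exact congrFun h ⟨s, hs⟩

/-- `Γ₀(N)` is finitely generated. -/
theorem fg_Gamma0 (N : ℕ) [NeZero N] : Group.FG (Gamma0 N) := by
  haveI : Group.FG SL(2, ℤ) :=
    Group.fg_iff.mpr ⟨{ModularGroup.S, ModularGroup.T}, _root_.SpecialLinearGroup.SL2Z_generators,
      Set.toFinite _⟩
  infer_instance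

/-! ### (F2) transport of divisibility along a semilinear automorphism -/

/-- If `m ∣ ord_w f` at every place, the same holds for `g • f`. -/
theorem dvd_ord_smul {K F : Type*} [Field K] [Field F] [Algebra K F] (g : SemilinearAut K F)
    (f : F) (m : ℤ) (h : ∀ w : Place K F, m ∣ w.ord f) (w : Place K F) : m ∣ w.ord (g • f) := by
  have h1 := SemilinearAut.ord_smul g (g⁻¹ • w) f
  rw [smul_inv_smul] at h1
  rw [h1]
  exact h _

/-- An automorphism of `ℂ` as a `ℚ`-algebra automorphism. -/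
def autQ (σ : ℂ ≃+* ℂ) : ℂ ≃ₐ[ℚ] ℂ :=
  AlgEquiv.ofRingEquiv (f := σ) (fun r => by simp)

theorem autQ_apply (σ : ℂ ≃+* ℂ) (z : ℂ) : autQ σ z = σ z := rfl

/-! ### (F7) same character ⟹ same class, for arbitrary characters -/

/-- If `V`, `V'` are holomorphic with good `p`-th powers and transform under `Γ₀(N)` by the same
`p`-torsion multiplier system `ζ`, then `qexp (V ^ p) = g ^ p * qexp (V' ^ p)` with `g ∈ F_ℂ`. -/
theorem exists_pow_mul_eq_of_sameChar (N : ℕ) [NeZero N] {p : ℕ} (hp : p ≠ 0) {V V' : ℍ → ℂ}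
    (hV : MDifferentiable 𝓘(ℂ) 𝓘(ℂ) V) (hV' : MDifferentiable 𝓘(ℂ) 𝓘(ℂ) V') (hV'0 : V' ≠ 0)
    (hVp : (fun τ => V τ ^ p) ∈ goodRing N) (hV'p : (fun τ => V' τ ^ p) ∈ goodRing N)
    (ζ : Gamma0 N → ℂ) (hζ : ∀ γ, ζ γ ^ p = 1)
    (h1 : ∀ (γ : Gamma0 N) (τ : ℍ), V ((γ : SL(2, ℤ)) • τ) = ζ γ * V τ)
    (h2 : ∀ (γ : Gamma0 N) (τ : ℍ), V' ((γ : SL(2, ℤ)) • τ) = ζ γ * V' τ) :
    ∃ g : LaurentSeries ℂ, g ∈ H882.FC N ∧
      qexpFun 1 (fun τ => V τ ^ p) = g ^ p * qexpFun 1 (fun τ => V' τ ^ p) := by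
  have hp1 : p - 1 + 1 = p := Nat.sub_add_cancel (Nat.one_le_iff_ne_zero.mpr hp)
  set W : ℍ → ℂ := fun τ => V τ * V' τ ^ (p - 1) with hWdef
  have hfun : W ^ p = (fun τ => V τ ^ p) * (fun τ => V' τ ^ p) ^ (p - 1) := by
    funext τ
    simp only [hWdef, Pi.mul_apply, Pi.pow_apply]
    rw [mul_pow, ← pow_mul, ← pow_mul, mul_comm (p - 1) p]
  have hW : W ∈ goodRing N := by
    refine mem_goodRing_of_pow_mem N hp (hV.mul (hV'.pow (p - 1))) (fun γ hγ τ => ?_) ?_
    · show V (γ • τ) * V' (γ • τ) ^ (p - 1) = V τ * V' τ ^ (p - 1)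
      have e1 := h1 ⟨γ, hγ⟩ τ
      have e2 := h2 ⟨γ, hγ⟩ τ
      simp only at e1 e2
      rw [e1, e2, mul_pow]
      have hz : ζ ⟨γ, hγ⟩ * ζ ⟨γ, hγ⟩ ^ (p - 1) = 1 := by
        rw [← pow_succ', hp1, hζ]
      calc ζ ⟨γ, hγ⟩ * V τ * (ζ ⟨γ, hγ⟩ ^ (p - 1) * V' τ ^ (p - 1))
          = (ζ ⟨γ, hγ⟩ * ζ ⟨γ, hγ⟩ ^ (p - 1)) * (V τ * V' τ ^ (p - 1)) := by ring
        _ = V τ * V' τ ^ (p - 1) := by rw [hz, one_mul]
    · have : (fun τ => W τ ^ p) = W ^ p := rfl
      rw [this, hfun]
      exact (goodRing N).mul_mem hVp ((goodRing N).pow_mem hV'p _)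
  have hWm := H882.isMerInf_of_mem_goodRing hW
  have hVm := H882.isMerInf_of_mem_goodRing hVp
  have hV'm := H882.isMerInf_of_mem_goodRing hV'p
  set w := qexpFun 1 W with hw
  set a := qexpFun 1 (fun τ => V τ ^ p) with ha
  set b := qexpFun 1 (fun τ => V' τ ^ p) with hb
  have hwFC : w ∈ H882.FC N := H882.qexpFun_mem_FC hW
  have hbFC : b ∈ H882.FC N := H882.qexpFun_mem_FC hV'p
  have hb0 : b ≠ 0 := by
    intro h0
    have h3 := (qexpFun_eq_zero_iff hV'm).mp h0
    apply hV'0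
    funext τ
    exact pow_eq_zero_iff hp |>.mp (congrFun h3 τ)
  have hwp : w ^ p = a * b ^ (p - 1) := by
    rw [hw, ← qexpFun_pow' hWm p, hfun, qexpFun_mul hVm (hV'm.pow (p - 1)),
      qexpFun_pow' hV'm (p - 1)]
  refine ⟨w * b⁻¹, mul_mem hwFC (inv_mem hbFC), ?_⟩
  rw [mul_pow, hwp, inv_pow]
  have hbp : b ^ p = b ^ (p - 1) * b := by rw [← pow_succ, hp1]
  rw [hbp, mul_inv]
  field_simp

/-! ### The class of `σ f` -/

section Fin

variable (N : ℕ) [NeZero N] (p : ℕ) [NeZero p]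

/-- `x : F_ℂ` has the Kummer character `χ`: after clearing poles by a `p`-th power, `x` is the
`q`-expansion of the `p`-th power of a holomorphic function of character `χ`. -/
def HasKummerChar (x : LaurentSeries ℂ) (χ : Gamma0 N →* rootsOfUnity p ℂ) : Prop :=
  ∃ s ∈ H882.FC N, s ≠ 0 ∧ ∃ V : ℍ → ℂ, MDifferentiable 𝓘(ℂ) 𝓘(ℂ) V ∧ V ≠ 0 ∧
    (fun τ => V τ ^ p) ∈ goodRing N ∧
    (∀ (γ : Gamma0 N) (τ : ℍ), V ((γ : SL(2, ℤ)) • τ) = (((χ γ : rootsOfUnity p ℂ) : ℂˣ) : ℂ) * V τ) ∧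
    qexpFun 1 (fun τ => V τ ^ p) = x * s ^ p

/-- (F7)+(F8) two elements with the same Kummer character differ by a `p`-th power. -/
theorem exists_eq_mul_pow_of_hasKummerChar {x x' : LaurentSeries ℂ}
    {χ : Gamma0 N →* rootsOfUnity p ℂ} (hx : HasKummerChar N p x χ)
    (hx' : HasKummerChar N p x' χ) :
    ∃ u ∈ H882.FC N, u ≠ 0 ∧ x = x' * u ^ p := by
  have hp : p ≠ 0 := NeZero.ne p
  obtain ⟨s, hs, hs0, V, hV, hV0, hVp, hVχ, hq⟩ := hx
  obtain ⟨s', hs', hs'0, V', hV', hV'0, hV'p, hV'χ, hq'⟩ := hx'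
  obtain ⟨g, hg, hgeq⟩ := exists_pow_mul_eq_of_sameChar N hp hV hV' hV'0 hVp hV'p
    (fun γ => (((χ γ : rootsOfUnity p ℂ) : ℂˣ) : ℂ))
    (fun γ => by
      have h := (χ γ).2
      rw [mem_rootsOfUnity] at h
      have h2 := congrArg (fun z : ℂˣ => (z : ℂ)) h
      simpa using h2)
    hVχ hV'χ
  have hqne : qexpFun 1 (fun τ => V τ ^ p) ≠ 0 := by
    intro h0
    have h3 := (qexpFun_eq_zero_iff (H882.isMerInf_of_mem_goodRing hVp)).mp h0
    apply hV0
    funext τ
    exact pow_eq_zero_iff hp |>.mp (congrFun h3 τ)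
  have hg0 : g ≠ 0 := by
    intro h0
    rw [h0, zero_pow hp, zero_mul] at hgeq
    exact hqne hgeq
  refine ⟨g * s' * s⁻¹, mul_mem (mul_mem hg hs') (inv_mem hs),
    mul_ne_zero (mul_ne_zero hg0 hs'0) (inv_ne_zero hs0), ?_⟩
  rw [hq, hq'] at hgeq
  have hsp : s ^ p ≠ 0 := pow_ne_zero _ hs0
  rw [mul_pow, mul_pow, inv_pow]
  field_simp
  rw [hgeq]
  ring

/-- (F1)–(F5): every element of `F_ℂ`, nonzero, all of whose orders at the places of `F_ℂ/ℂ` are
divisible by `p`, has a Kummer character. -/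
theorem exists_hasKummerChar {x : LaurentSeries ℂ} (hx : x ∈ H882.FC N) (hx0 : x ≠ 0)
    (hdvd : ∀ w : Place ℂ ↥(laurentBaseChange ℂ (modularFunctionFieldFull N)),
      (p : ℤ) ∣ w.ord ⟨x, hx⟩) :
    ∃ χ : Gamma0 N →* rootsOfUnity p ℂ, HasKummerChar N p x χ := by
  have hp : p ≠ 0 := NeZero.ne p
  have hp1 : p - 1 + 1 = p := Nat.sub_add_cancel (Nat.one_le_iff_ne_zero.mpr hp)
  -- pole clearing
  obtain ⟨a, ha, b, hb, hb0, hab⟩ := K3.exists_div_goodQ (N := N) hx
  obtain ⟨A, hA, hqA⟩ := ha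
  obtain ⟨B, hB, hqB⟩ := hb
  have ha0 : a ≠ 0 := by
    intro h0
    rw [h0, zero_div] at hab
    exact hx0 hab
  set G : ℍ → ℂ := A * B ^ (p - 1) with hGdef
  have hG : G ∈ goodRing N := (goodRing N).mul_mem hA ((goodRing N).pow_mem hB _)
  have hqG : HasQExp 1 G (a * b ^ (p - 1)) := hqA.mul (hqB.pow _)
  have hxb : a * b ^ (p - 1) = x * b ^ p := by
    rw [hab]
    have hbp : b ^ p = b ^ (p - 1) * b := by rw [← pow_succ, hp1]
    rw [hbp]
    field_simp
  have hG0 : G ≠ 0 := by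
    intro h0
    have := hqG.eq_zero_iff.mpr h0
    exact mul_ne_zero ha0 (pow_ne_zero _ hb0) this
  have hbFC : b ∈ H882.FC N := H882.mem_FC_of_mem_goodQ ⟨B, hB, hqB⟩
  have hqGeq : qexpFun 1 G = x * b ^ p := by rw [hqG.qexpFun_eq, hxb]
  have hGFC : qexpFun 1 G ∈ laurentBaseChange ℂ (modularFunctionFieldFull N) :=
    H882.qexpFun_mem_FC hG
  -- divisibility for `qexp G`
  have hdvdG : ∀ w : Place ℂ ↥(laurentBaseChange ℂ (modularFunctionFieldFull N)),
      (p : ℤ) ∣ w.ord ⟨qexpFun 1 G, hGFC⟩ := by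
    intro w
    have he : (⟨qexpFun 1 G, hGFC⟩ : ↥(laurentBaseChange ℂ (modularFunctionFieldFull N)))
        = ⟨x, hx⟩ * ⟨b, hbFC⟩ ^ (p : ℤ) := by
      apply Subtype.ext
      rw [zpow_natCast]
      exact hqGeq
    have hx0' : (⟨x, hx⟩ : ↥(laurentBaseChange ℂ (modularFunctionFieldFull N))) ≠ 0 := by
      intro h0
      exact hx0 (congrArg Subtype.val h0)
    have hb0' : (⟨b, hbFC⟩ : ↥(laurentBaseChange ℂ (modularFunctionFieldFull N))) ≠ 0 := by
      intro h0
      exact hb0 (congrArg Subtype.val h0)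
    rw [he, Place.ord_mul w hx0' (zpow_ne_zero _ hb0'), Place.ord_zpow]
    exact dvd_add (hdvd w) (dvd_mul_right _ _)
  -- ROOT
  obtain ⟨V, hV, hVG⟩ := H282.exists_pow_eq_of_forall_dvd_ord hG hG0 hGFC hp hdvdG
  have hVfun : (fun τ => V τ ^ p) = G := funext hVG
  have hV0 : V ≠ 0 := by
    intro h0
    apply hG0
    rw [← hVfun, h0]
    funext τ
    simp [hp]
  -- character
  obtain ⟨κ, hκ, hκV⟩ := exists_kummerChar (Gamma0 N) hV hV0 hp (fun γ hγ z => by
    rw [hVG, hVG]
    exact hG.2.1 γ hγ z)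
  refine ⟨MonoidHom.codRestrict κ (rootsOfUnity p ℂ) (fun γ => by
      rw [mem_rootsOfUnity]
      exact hκ γ), b, hbFC, hb0, V, hV, hV0, ?_, ?_, ?_⟩
  · rw [hVfun]
    exact hG
  · intro γ τ
    exact hκV γ τ
  · rw [hVfun]
    exact hqGeq

/-- **Sub-piece `K3-FIN`** of helper42's K3 sub-skeleton. -/
theorem finStatement : K3.FinStatement N p := by
  letI : Algebra Kbar ℂ := K3.algKC
  intro c hc U hU
  classical
  set f := qexpFun 1 (fun τ => U τ ^ p) with hf
  have hfFC : f ∈ laurentBaseChange ℂ (modularFunctionFieldFull N) :=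
    H882.qexpFun_mem_FC hU.pow_mem
  have hf0 : f ≠ 0 := qexpFun_pow_ne_zero_of_isTwisted N p hU
  have hF1 : ∀ w : Place ℂ ↥(laurentBaseChange ℂ (modularFunctionFieldFull N)),
      (p : ℤ) ∣ w.ord ⟨f, hfFC⟩ :=
    fun w => H282.dvd_ord_of_isTwisted_complex hc hU hfFC w
  haveI := fg_Gamma0 N
  haveI : Finite (Gamma0 N →* rootsOfUnity p ℂ) := finite_monoidHom_of_fg _ _
  -- every `σ f` has a Kummer character
  have hex : ∀ σ : ℂ ≃ₐ[Kbar] ℂ,
      ∃ χ : Gamma0 N →* rootsOfUnity p ℂ, HasKummerChar N p (coeffMap (σ : ℂ →+* ℂ) f) χ := by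
    intro σ
    set g := arithmeticGalois (modularFunctionFieldFull N) (autQ σ.toRingEquiv) with hg
    have hcoe : ((g • (⟨f, hfFC⟩ : ↥(laurentBaseChange ℂ (modularFunctionFieldFull N))) :
        ↥(laurentBaseChange ℂ (modularFunctionFieldFull N))) : LaurentSeries ℂ)
        = coeffMap (σ : ℂ →+* ℂ) f := by
      rw [hg, coe_arithmeticGalois_smul]
      exact coeffMap_congr (RingHom.ext fun _ => rfl) _
    have hmem : coeffMap (σ : ℂ →+* ℂ) f ∈ laurentBaseChange ℂ (modularFunctionFieldFull N) := by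
      rw [← hcoe]
      exact Subtype.property _
    have hne : coeffMap (σ : ℂ →+* ℂ) f ≠ 0 := by
      intro h0
      apply hf0
      have hinj : Function.Injective (coeffMap (σ : ℂ →+* ℂ)) := RingHom.injective _
      exact hinj (by rw [h0, map_zero])
    refine exists_hasKummerChar N p hmem hne fun w => ?_
    have h2 := dvd_ord_smul g ⟨f, hfFC⟩ (p : ℤ) hF1 w
    have he : (⟨coeffMap (σ : ℂ →+* ℂ) f, hmem⟩ :
        ↥(laurentBaseChange ℂ (modularFunctionFieldFull N))) = g • ⟨f, hfFC⟩ :=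
      Subtype.ext hcoe.symm
    rw [he]
    exact h2
  -- one representative per character
  let t : (Gamma0 N →* rootsOfUnity p ℂ) → LaurentSeries ℂ := fun χ =>
    if h : ∃ σ : ℂ ≃ₐ[Kbar] ℂ, HasKummerChar N p (coeffMap (σ : ℂ →+* ℂ) f) χ then
      coeffMap ((h.choose : ℂ ≃ₐ[Kbar] ℂ) : ℂ →+* ℂ) f
    else 0
  refine ⟨Set.range t, Set.finite_range t, fun σ => ?_⟩
  obtain ⟨χ, hχ⟩ := hex σ
  have h : ∃ σ : ℂ ≃ₐ[Kbar] ℂ, HasKummerChar N p (coeffMap (σ : ℂ →+* ℂ) f) χ := ⟨σ, hχ⟩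
  have ht : t χ = coeffMap ((h.choose : ℂ ≃ₐ[Kbar] ℂ) : ℂ →+* ℂ) f := dif_pos h
  refine ⟨t χ, ⟨χ, rfl⟩, ?_⟩
  rw [ht]
  exact exists_eq_mul_pow_of_hasKummerChar N p hχ h.choose_spec

end Fin

end Fermat.Agent.S29.H942

end
end
-- ===== PACK-END S29/H942/K3Fin.lean

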