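import Fermat.Agent.Pack.S34.G0E10L0
import Fermat.Agent.Pack.S34.G0E10L2
import Fermat.Agent.Pack.S34.G0E10L1
import Fermat.Agent.Pack.S34.G0E11L0
import Fermat.Agent.Pack.S34.G0E12L3
import Fermat.Agent.Pack.S34.G0E11L2
import Fermat.Agent.Pack.S34.G0E10L3
import Fermat.Agent.Pack.S34.G0E12L1
import Fermat.Agent.Pack.S34.G0E11L1
import Fermat.Agent.Pack.S34.G0E8L1

-- ===== PACK-BEGIN S18/Mod/H216/NodeMod.lean
section








/-!
# S18 / MOD-ASM (helper216): **node_mod** — `Mod.GoodModelStatement M ℓ A`, UNCONDITIONAL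

`node_mod (M) [NeZero M] {ℓ} [Fact ℓ.Prime] (hℓM : ¬ ℓ ∣ M) (A) (hA : A.LiesOverPrime ℓ) :
  Mod.GoodModelStatement M ℓ A` — exact type of `Integ.node_mod` (Skeleton v4c).

Wiring of the six parts at the concrete objects of `Mod/Defs.lean`:

| part | source |
|---|---|
| G-R   | `H456.IsUnif`, `H456.field_residue_perfect`, `H602.isDiscreteValuationRing_RE` |
| G-FLD | `H456.field_*`, `H24.field_finite_j` |
| G-V   | `H216.partVStatement_j` (coordinate `j`), `H24.gv_fields_of_isCoordinate` (`t₂, t₃`) |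
| G-QEP | `H216.partQepStatement_j` |
| G-SEP | `H264.separable_jOm` |
| G-BR  | `H558.br_of_isCoordinate` |
| M3-T  | `H107.goodModel_of_isCoordinate107` (transfer `j ↦ t₂, t₃` for `ℓ = 3, 2`) |
-/

set_option autoImplicit false
set_option linter.unusedSectionVars false

noncomputable section

namespace Fermat.Agent.S18.Mod.H216

open ModularCurve AlgebraicCurve HahnSeries Fermat.Agent.S18 Fermat.Agent.S18.Mod
open Fermat.Agent.S18.Alg

variable (M : ℕ) [NeZero M] {ℓ : ℕ} [Fact ℓ.Prime] (A : ValuationSubring Qb)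

/-- **G-R** at the concrete objects. -/
theorem partRStatement (hA : A.LiesOverPrime ℓ) : PartRStatement M A := by
  intro E hE
  have := hE
  have hℓ : ℓ.Prime := Fact.out
  have : IsDiscreteValuationRing (H602.RE A E) :=
    H602.isDiscreteValuationRing_RE A E hℓ.ne_zero hA
  obtain ⟨w, hw⟩ := H456.exists_isUnif M A E
  exact ⟨w, H456.field_R_le M A E, H456.field_R_total M A E, hw.mem, hw.ne_zero, hw.inv_not_mem,
    hw.gen, hw.discrete, H456.field_residue_perfect A E M hℓ hA hw⟩

/-- **G-FLD** for the coordinate `j`. -/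
theorem partFldStatement_j : PartFldStatement M (jOm M) := by
  intro E _
  exact ⟨H456.field_E_le_L M E, H456.field_E_le_F M E, H456.field_L_algebraic M E,
    H456.field_L_algClosed M, H456.field_E_closed_in_F M E, H456.field_compositum M E,
    H456.mem_Fc_of_hasIntExp M E (H456.hasIntExp_jOm M),
    H456.transcendental_of_hasIntExp M (H456.hasIntExp_jOm M), H24.field_finite_j M E⟩

/-- **G-SEP** for the coordinate `j`. -/
theorem partSepStatement_j (hℓM : ¬ ℓ ∣ M) (hA : A.LiesOverPrime ℓ) :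
    PartSepStatement M A (jOm M) :=
  fun E _ w hw => ⟨H264.separable_jOm M hℓM A hA E (Vc M A E) (coe_Vc M A E) w hw.w_mem
    hw.w_ne_zero hw.w_gen⟩

/-- **G-BR** for every admissible coordinate. -/
theorem partBrStatement_of_isCoordinate (hA : A.LiesOverPrime ℓ) (x : Om M) (S : Finset (Om M))
    (hx : IsCoordinate M ℓ x S) : PartBrStatement M A x S := by
  intro E _
  obtain ⟨h1, h2, h3, h4⟩ := H558.br_of_isCoordinate M A hA E x S hx
  exact ⟨h1, h2, h3, h4⟩

/-- The `j`-model without its branch fields, for every `ℓ ∤ M` (input of the transfer M3-T). -/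
theorem baseModel_j (hℓM : ¬ ℓ ∣ M) (hA : A.LiesOverPrime ℓ) (E : IntermediateField ℚ Qb)
    (hE : FiniteDimensional ℚ E) {w : Om M} (hw : PartR (Ec M E) (Rc M A E) w) :
    H107.BaseModel107 (Lc M) (Ec M E) (Fc M E) (Rc M A E) (Vc M A E) w (jOm M) := by
  have hF := partFldStatement_j M E hE
  have hV := partVStatement_j A hℓM hA E hE w hw
  have hQ := partQepStatement_j A hℓM hA E hE w hw
  have hS := partSepStatement_j M A hℓM hA E hE w hw
  exact
    { charZero := charZero_Om M
      R_le := hw.R_le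
      R_total := hw.R_total
      w_mem := hw.w_mem
      w_ne_zero := hw.w_ne_zero
      w_inv_not_mem := hw.w_inv_not_mem
      w_gen := hw.w_gen
      w_discrete := hw.w_discrete
      residue_perfect := hw.residue_perfect
      E_le_L := hF.E_le_L
      E_le_F := hF.E_le_F
      L_algebraic := hF.L_algebraic
      L_algClosed := hF.L_algClosed
      E_closed_in_F := hF.E_closed_in_F
      compositum := hF.compositum
      x_mem := hF.x_mem
      x_transcendental := hF.x_transcendental
      finite := hF.finite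
      V_le := hV.V_le
      V_total := hV.V_total
      R_le_V := hV.R_le_V
      w_inv_not_mem_V := hV.w_inv_not_mem_V
      V_gen := hV.V_gen
      x_mem_V := hV.x_mem_V
      gauss := hV.gauss
      qep_fin := hQ.qep_fin
      qep_inf := hQ.qep_inf
      separable := hS.separable }

/-- **M3-T**: for `ℓ ∈ {2, 3}` every admissible coordinate is good. -/
theorem goodAt_of_lt_five (hℓM : ¬ ℓ ∣ M) (hA : A.LiesOverPrime ℓ) (h5 : ¬ 5 ≤ ℓ) (x : Om M)
    (S : Finset (Om M)) (hx : IsCoordinate M ℓ x S) : GoodAt M A x S := by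
  intro E hE
  obtain ⟨w, hw⟩ := partRStatement M A hA E hE
  obtain ⟨-, -, -, hxV, -, -, hgauss⟩ :=
    H24.gv_fields_of_isCoordinate (M := M) (A := A) (E := E) (Vc M A E) (coe_Vc M A E)
      hw.w_mem hw.w_ne_zero hw.w_inv_not_mem hw.w_gen hw.w_discrete hx
  exact ⟨Vc M A E, w, coe_Vc M A E,
    H107.goodModel_of_isCoordinate107 M A hA h5 hx E (baseModel_j M A hℓM hA E hE hw)
      (H456.field_x_mem M E hx) hxV hgauss⟩

/-- **NODE MOD**: the concrete objects at level `M` form a good model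
(exact type of `Integ.node_mod`, Skeleton v4c). -/
theorem node_mod (M : ℕ) [NeZero M] {ℓ : ℕ} [Fact ℓ.Prime] (hℓM : ¬ ℓ ∣ M)
    (A : ValuationSubring Qb) (hA : A.LiesOverPrime ℓ) : Mod.GoodModelStatement M ℓ A :=
  goodModelStatement_of_parts M ℓ A
    (fun _ => partRStatement M A hA)
    (fun _ => partFldStatement_j M)
    (fun _ => partVStatement_j A hℓM hA)
    (fun _ => partQepStatement_j A hℓM hA)
    (fun _ => partSepStatement_j M A hℓM hA)
    (fun h5 S hS => partBrStatement_of_isCoordinate M A hA (jOm M) S (Or.inl ⟨h5, rfl, hS⟩))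
    (fun h5 x S hx => goodAt_of_lt_five M A hℓM hA h5 x S hx)

end Fermat.Agent.S18.Mod.H216

end
end
-- ===== PACK-END S18/Mod/H216/NodeMod.lean

-- ===== PACK-BEGIN S18/Mod/H216/GoodLevel.lean
section


/-!
# S18 / MOD (helper216): the good model over an ARBITRARY level `E` (for A2 / GOODRED)

`node_mod` quantifies over number fields `E`, but finiteness of `E / ℚ` is used ONLY to produce the
uniformiser (`PartR`).  Here the same wiring is stated for EVERY intermediate field `E ⊆ Q̄`
(e.g. a good level `E ⊇ Q̄^{I}` of A2, infinite over `ℚ`), with `PartR` as the hypothesis: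

* `partR_of_dvr`        : `PartR` from `[IsDiscreteValuationRing (H602.RE A E)]` + Frobenius
                          surjective on the residue field (`∀ r, ∃ s, r - s ^ ℓ ∈ 𝔪`);
* `partR_of_dvr_of_isAlgClosed` : the same when the residue field is algebraically closed;
* `baseModel_j_of_partR`: the `j`-model without branch fields, every `ℓ ∤ M` (also `ℓ = 2, 3`);
* `goodModel_of_partR`  : `Alg.GoodModel (Lc M) (Ec M E) (Fc M E) (Rc M A E) (Vc M A E) w x S`
                          for every admissible coordinate (`x = j` if `ℓ ≥ 5`, Hauptmoduln else).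
-/

set_option autoImplicit false
set_option linter.unusedSectionVars false

noncomputable section

namespace Fermat.Agent.S18.Mod.H216

open ModularCurve AlgebraicCurve HahnSeries Fermat.Agent.S18 Fermat.Agent.S18.Mod
open Fermat.Agent.S18.Alg

variable (M : ℕ) [NeZero M] {ℓ : ℕ} [Fact ℓ.Prime] (A : ValuationSubring Qb)
  (E : IntermediateField ℚ Qb)

/-- **G-R over an arbitrary level**: `PartR` from the DVR property of `R_E = A ∩ E` and the
surjectivity of Frobenius on its residue field. -/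
theorem partR_of_dvr [IsDiscreteValuationRing (H602.RE A E)] (hA : A.LiesOverPrime ℓ)
    (hperf : ∀ r : H602.RE A E,
      ∃ s : H602.RE A E, r - s ^ ℓ ∈ IsLocalRing.maximalIdeal (H602.RE A E)) :
    ∃ w : Om M, H456.IsUnif M A E w ∧ PartR (Ec M E) (Rc M A E) w := by
  have hℓ : ℓ.Prime := Fact.out
  obtain ⟨w, hw⟩ := H456.exists_isUnif M A E
  refine ⟨w, hw, H456.field_R_le M A E, H456.field_R_total M A E, hw.mem, hw.ne_zero,
    hw.inv_not_mem, hw.gen, hw.discrete, ℓ, hℓ, ?_, ?_⟩
  · rw [← H456.cstR_natCast M A E, hw.mul_inv_mem_iff, IsLocalRing.mem_maximalIdeal,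
      mem_nonunits_iff]
    exact H602.natCast_not_isUnit_RE A E hA
  · intro r hr
    obtain ⟨r₀, rfl⟩ := (H456.mem_Rc_iff_cstR M A E).1 hr
    obtain ⟨s, hs⟩ := hperf r₀
    refine ⟨H456.cstR M A E s, H456.cstR_mem_Rc M A E s, ?_⟩
    rw [← H456.cstR_pow, ← H456.cstR_sub, hw.mul_inv_mem_iff]
    exact hs

/-- Frobenius is surjective modulo the maximal ideal when the residue field is algebraically
closed. -/
theorem exists_pow_sub_mem_of_isAlgClosed [IsDiscreteValuationRing (H602.RE A E)]
    [IsAlgClosed (IsLocalRing.ResidueField (H602.RE A E))] (r : H602.RE A E) :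
    ∃ s : H602.RE A E, r - s ^ ℓ ∈ IsLocalRing.maximalIdeal (H602.RE A E) := by
  have hℓ : ℓ.Prime := Fact.out
  obtain ⟨y, hy⟩ := IsAlgClosed.exists_pow_nat_eq (IsLocalRing.residue (H602.RE A E) r) hℓ.pos
  obtain ⟨s, rfl⟩ := IsLocalRing.residue_surjective y
  refine ⟨s, ?_⟩
  rw [← IsLocalRing.residue_eq_zero_iff, map_sub, map_pow, sub_eq_zero]
  exact hy.symm

/-- **G-R over a good level**: `R_E` a DVR with algebraically closed residue field. -/
theorem partR_of_dvr_of_isAlgClosed [IsDiscreteValuationRing (H602.RE A E)]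
    [IsAlgClosed (IsLocalRing.ResidueField (H602.RE A E))] (hA : A.LiesOverPrime ℓ) :
    ∃ w : Om M, H456.IsUnif M A E w ∧ PartR (Ec M E) (Rc M A E) w :=
  partR_of_dvr M A E hA (exists_pow_sub_mem_of_isAlgClosed A E)

/-- **G-FLD** for the coordinate `j`, arbitrary level. -/
theorem partFld_j_any : PartFld (Lc M) (Ec M E) (Fc M E) (jOm M) :=
  ⟨H456.field_E_le_L M E, H456.field_E_le_F M E, H456.field_L_algebraic M E,
    H456.field_L_algClosed M, H456.field_E_closed_in_F M E, H456.field_compositum M E,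
    H456.mem_Fc_of_hasIntExp M E (H456.hasIntExp_jOm M),
    H456.transcendental_of_hasIntExp M (H456.hasIntExp_jOm M), H24.field_finite_j M E⟩

/-- **G-FLD** for every admissible coordinate, arbitrary level. -/
theorem partFld_of_isCoordinate {x : Om M} {S : Finset (Om M)} (hx : IsCoordinate M ℓ x S) :
    PartFld (Lc M) (Ec M E) (Fc M E) x :=
  ⟨H456.field_E_le_L M E, H456.field_E_le_F M E, H456.field_L_algebraic M E,
    H456.field_L_algClosed M, H456.field_E_closed_in_F M E, H456.field_compositum M E,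
    H456.field_x_mem M E hx, H456.field_x_transcendental M hx, H24.field_finite M E hx⟩

/-- The `j`-model without its branch fields over an arbitrary level, for every `ℓ ∤ M`
(including `ℓ = 2, 3`). -/
theorem baseModel_j_of_partR (hℓM : ¬ ℓ ∣ M) (hA : A.LiesOverPrime ℓ) {w : Om M}
    (hw : PartR (Ec M E) (Rc M A E) w) :
    H107.BaseModel107 (Lc M) (Ec M E) (Fc M E) (Rc M A E) (Vc M A E) w (jOm M) := by
  have hF := partFld_j_any M E
  have hV := partV_j A E (coreData_residue A hℓM hA) hw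
  have hQ := partQep_j A E (coreData_residue A hℓM hA) hw
  have hS : PartSep (Rc M A E) (Vc M A E) w (jOm M) :=
    ⟨H264.separable_jOm M hℓM A hA E (Vc M A E) (coe_Vc M A E) w hw.w_mem hw.w_ne_zero hw.w_gen⟩
  exact
    { charZero := charZero_Om M
      R_le := hw.R_le
      R_total := hw.R_total
      w_mem := hw.w_mem
      w_ne_zero := hw.w_ne_zero
      w_inv_not_mem := hw.w_inv_not_mem
      w_gen := hw.w_gen
      w_discrete := hw.w_discrete
      residue_perfect := hw.residue_perfect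
      E_le_L := hF.E_le_L
      E_le_F := hF.E_le_F
      L_algebraic := hF.L_algebraic
      L_algClosed := hF.L_algClosed
      E_closed_in_F := hF.E_closed_in_F
      compositum := hF.compositum
      x_mem := hF.x_mem
      x_transcendental := hF.x_transcendental
      finite := hF.finite
      V_le := hV.V_le
      V_total := hV.V_total
      R_le_V := hV.R_le_V
      w_inv_not_mem_V := hV.w_inv_not_mem_V
      V_gen := hV.V_gen
      x_mem_V := hV.x_mem_V
      gauss := hV.gauss
      qep_fin := hQ.qep_fin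
      qep_inf := hQ.qep_inf
      separable := hS.separable }

/-- **The good model over an arbitrary level `E`** (`R_E = A ∩ E` a DVR with uniformiser `w` and
perfect residue field, packaged as `PartR`), for every admissible coordinate. -/
theorem goodModel_of_partR (hℓM : ¬ ℓ ∣ M) (hA : A.LiesOverPrime ℓ) {w : Om M}
    (hw : PartR (Ec M E) (Rc M A E) w) {x : Om M} {S : Finset (Om M)}
    (hx : IsCoordinate M ℓ x S) :
    GoodModel (Lc M) (Ec M E) (Fc M E) (Rc M A E) (Vc M A E) w x S := by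
  by_cases h5 : 5 ≤ ℓ
  · obtain ⟨h1, h2, h3, h4⟩ := H558.br_of_isCoordinate M A hA E x S hx
    have hB : PartBr (Lc M) (Rc M A E) x S := ⟨h1, h2, h3, h4⟩
    rcases hx with ⟨-, rfl, -⟩ | ⟨h | h, -⟩
    · exact goodModel_of_parts (charZero_Om M) hw (partFld_j_any M E)
        (partV_j A E (coreData_residue A hℓM hA) hw)
        (partQep_j A E (coreData_residue A hℓM hA) hw)
        ⟨H264.separable_jOm M hℓM A hA E (Vc M A E) (coe_Vc M A E) w hw.w_mem hw.w_ne_zero
          hw.w_gen⟩ hB
    · exact absurd h.1 (by omega)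
    · exact absurd h.1 (by omega)
  · obtain ⟨-, -, -, hxV, -, -, hgauss⟩ :=
      H24.gv_fields_of_isCoordinate (M := M) (A := A) (E := E) (Vc M A E) (coe_Vc M A E)
        hw.w_mem hw.w_ne_zero hw.w_inv_not_mem hw.w_gen hw.w_discrete hx
    exact H107.goodModel_of_isCoordinate107 M A hA h5 hx E (baseModel_j_of_partR M A E hℓM hA hw)
      (H456.field_x_mem M E hx) hxV hgauss

end Fermat.Agent.S18.Mod.H216

end
end
-- ===== PACK-END S18/Mod/H216/GoodLevel.lean

-- ===== PACK-BEGIN A2/Mod/H216/GoodRed.lean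
section






/-!
# A2 / GOODRED (helper216): the level-`M` hypothesis `GoodRedAt` of MODASM, DISCHARGED

For `q ≥ 5` prime, `q ∤ M`, `P` over `q`, ANY intermediate field `E ⊆ Q̄` with `R_E = P ∩ E` a
discrete valuation ring, uniformiser `w`, Gauss valuation ring `VM` (`IsVinf`):

    goodRedAt_j     : GoodRedAt P E M w VM j
    goodRedAt_j_inv : GoodRedAt P E M w VM j⁻¹
    goodRedHyp      : GoodRedHyp P E M                       (`A2/Mod/Asm.lean`)

Proof: `S18.Mod.H216.goodModel_of_partR` (good model of row S18 over the level `E`),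
`normalAbs_chart` (normality of its special fibre; S37 `H383.exists_chart_lift`), and the
bridge `FE E M ≃ Fc M E` of `Bridge.lean`.

`goodRedAt_of_goodModel` is the general adapter (any coordinate `y`, any good model).
-/

set_option autoImplicit false
set_option linter.unusedSectionVars false
set_option linter.style.haveILetI false
set_option synthInstance.maxHeartbeats 400000
set_option maxHeartbeats 1600000

noncomputable section

namespace Fermat.Agent.A2.Mod.H216

open ModularCurve Polynomial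

variable (P : ValuationSubring _root_.Fermat.Agent.A2.Mod.Qb) (E : IntermediateField ℚ _root_.Fermat.Agent.A2.Mod.Qb) (M : ℕ)

/-! ### The chart as a subring -/

section ChartSub

variable {Ω : Type*} [Field Ω]

/-- `S18.Alg.chart Fc R x` is (the carrier of) a subring. -/
def chartSub (Fc : Subfield Ω) (R : Subring Ω) (x : Ω) : Subring Ω :=
  Fc.toSubring ⊓ (integralClosure ↥(S18.Alg.polyRing R x) Ω).toSubring

theorem mem_chartSub {Fc : Subfield Ω} {R : Subring Ω} {x b : Ω} :
    b ∈ chartSub Fc R x ↔ b ∈ S18.Alg.chart Fc R x := Iff.rfl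

/-- The monic polynomial `X ^ n + ∑ aᵢ X ^ i`. -/
def monicOf {n : ℕ} (a : Fin n → Ω) : Polynomial Ω :=
  X ^ n + ∑ i : Fin n, C (a i) * X ^ (i : ℕ)

theorem monicOf_monic {n : ℕ} (a : Fin n → Ω) : (monicOf a).Monic :=
  Polynomial.monic_X_pow_add (Polynomial.degree_sum_fin_lt a)

theorem monicOf_eval {n : ℕ} (a : Fin n → Ω) (z : Ω) :
    (monicOf a).eval z = z ^ n + ∑ i : Fin n, a i * z ^ (i : ℕ) := by
  simp [monicOf, Polynomial.eval_finsetSum]

theorem monicOf_coeff_mem {n : ℕ} (a : Fin n → Ω) (T : Subring Ω) (ha : ∀ i, a i ∈ T) (k : ℕ) :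
    (monicOf a).coeff k ∈ T := by
  rw [monicOf, Polynomial.coeff_add, Polynomial.coeff_X_pow, Polynomial.finsetSum_coeff]
  refine add_mem ?_ (sum_mem fun i _ => ?_)
  · split_ifs
    · exact one_mem T
    · exact zero_mem T
  · rw [Polynomial.coeff_C_mul_X_pow]
    split_ifs
    · exact ha i
    · exact zero_mem T

end ChartSub

/-! ### The adapter -/

variable {P E M}

/-- **GOODRED adapter**: a good model of row S18 at the concrete objects over `E`, with
uniformiser `w` and coordinate `y`, gives `GoodRedAt` in the language of `A2/Mod/Spec.lean`. -/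
theorem goodRedAt_of_goodModel {w : _root_.Fermat.Agent.A2.Mod.RE P E} {VM : ValuationSubring (_root_.Fermat.Agent.A2.Mod.FE E M)}
    (hV : IsVinf P E M VM) (y : _root_.Fermat.Agent.A2.Mod.FE E M) {x : S18.Mod.Om M} (hx : bridge E M y = x)
    {S : Finset (S18.Mod.Om M)}
    (G : S18.Alg.GoodModel (S18.Mod.Lc M) (S18.Mod.Ec M E) (S18.Mod.Fc M E) (S18.Mod.Rc M P E)
      (S18.Mod.H216.Vc M P E) (bridge E M (cE P E M w)) x S) :
    GoodRedAt P E M w VM y := by
  subst hx
  have hinv : ∀ g : _root_.Fermat.Agent.A2.Mod.FE E M, bridge E M (g * (cE P E M w)⁻¹) =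
      bridge E M g * (bridge E M (cE P E M w))⁻¹ := fun g => by
    rw [map_mul, map_inv₀]
  constructor
  · intro b hb hbw
    rw [bridge_mem_chart_iff] at hb ⊢
    rw [hinv]
    refine G.qep_fin _ hb ?_
    rw [← hinv]
    exact (mem_iff_bridge_mem_Vc P hV _).1 hbw
  · rintro f hf ⟨n, c, hc, hcw⟩
    have hfV : bridge E M f ∈ S18.Mod.H216.Vc M P E := (mem_iff_bridge_mem_Vc P hV _).1 hf
    have hPc : ∀ i, (monicOf fun i => bridge E M (c i)).coeff i ∈
        S18.Alg.chart (S18.Mod.Fc M E) (S18.Mod.Rc M P E) (bridge E M y) := fun k =>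
      mem_chartSub.1 (monicOf_coeff_mem _ (chartSub _ _ _)
        (fun i => mem_chartSub.2 ((bridge_mem_chart_iff P y (c i)).1 (hc i))) k)
    have hPv : (monicOf fun i => bridge E M (c i)).eval (bridge E M f) *
        (bridge E M (cE P E M w))⁻¹ ∈ S18.Mod.H216.Vc M P E := by
      have h1 : (monicOf fun i => bridge E M (c i)).eval (bridge E M f) =
          bridge E M (f ^ n + ∑ i : Fin n, c i * f ^ (i : ℕ)) := by
        rw [monicOf_eval, map_add, map_pow, map_sum]
        simp only [map_mul, map_pow]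
      rw [h1, ← hinv]
      exact (mem_iff_bridge_mem_Vc P hV _).1 hcw
    obtain ⟨b', hb', hbv⟩ := normalAbs_chart G (bridge E M f) hfV _ (monicOf_monic _) hPc hPv
    obtain ⟨b, rfl⟩ := exists_bridge_eq hb'.1
    refine ⟨b, (bridge_mem_chart_iff P y b).2 hb', ?_⟩
    show (f - b) * (cE P E M w)⁻¹ ∈ VM
    rw [mem_iff_bridge_mem_Vc P hV, hinv, map_sub]
    exact hbv

/-- The same on the chart at infinity. -/
theorem goodRedAt_inv_of_goodModel {w : _root_.Fermat.Agent.A2.Mod.RE P E} {VM : ValuationSubring (_root_.Fermat.Agent.A2.Mod.FE E M)}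
    (hV : IsVinf P E M VM) (y : _root_.Fermat.Agent.A2.Mod.FE E M) {x : S18.Mod.Om M} (hx : bridge E M y = x)
    {S : Finset (S18.Mod.Om M)}
    (G : S18.Alg.GoodModel (S18.Mod.Lc M) (S18.Mod.Ec M E) (S18.Mod.Fc M E) (S18.Mod.Rc M P E)
      (S18.Mod.H216.Vc M P E) (bridge E M (cE P E M w)) x S) :
    GoodRedAt P E M w VM y⁻¹ := by
  classical
  exact goodRedAt_of_goodModel hV y⁻¹ (by rw [map_inv₀, hx])
    (Fermat.Agent.S18.H425.goodModel_inv G)

/-! ### `PartR` for a given uniformiser, over an arbitrary level -/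

variable (P E M)

theorem isUnif_bridge_cE {w : _root_.Fermat.Agent.A2.Mod.RE P E} (hw : Irreducible w) :
    S18.H456.IsUnif M P E (bridge E M (cE P E M w)) :=
  ⟨w, hw, bridge_algebraMap (w : E)⟩

/-- `PartR` of row S18 for the image of a given uniformiser `w` of `R_E` (`E` arbitrary). -/
theorem partR_bridge_cE {q : ℕ} (hq : q.Prime) (hP : P.LiesOverPrime q)
    [IsDiscreteValuationRing (_root_.Fermat.Agent.A2.Mod.RE P E)] {w : _root_.Fermat.Agent.A2.Mod.RE P E} (hw : Irreducible w) :
    S18.Mod.H216.PartR (S18.Mod.Ec M E) (S18.Mod.Rc M P E) (bridge E M (cE P E M w)) := by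
  haveI : IsDiscreteValuationRing (S18.H602.RE P E) :=
    (inferInstance : IsDiscreteValuationRing (_root_.Fermat.Agent.A2.Mod.RE P E))
  have hu := isUnif_bridge_cE P E M hw
  refine ⟨S18.H456.field_R_le M P E, S18.H456.field_R_total M P E, hu.mem, hu.ne_zero,
    hu.inv_not_mem, hu.gen, hu.discrete, q, hq, ?_, ?_⟩
  · rw [← S18.H456.cstR_natCast M P E, hu.mul_inv_mem_iff, IsLocalRing.mem_maximalIdeal,
      mem_nonunits_iff]
    exact S18.H602.natCast_not_isUnit_RE P E hP
  · have hperf : ∀ r : S18.H602.RE P E, ∃ s : S18.H602.RE P E,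
        r - s ^ q ∈ IsLocalRing.maximalIdeal (S18.H602.RE P E) := by
      intro r
      have key : ∀ r : _root_.Fermat.Agent.A2.Mod.RE P E, ∃ s : _root_.Fermat.Agent.A2.Mod.RE P E, r - s ^ q ∈ IsLocalRing.maximalIdeal (_root_.Fermat.Agent.A2.Mod.RE P E) := by
        intro r
        obtain ⟨c', hc'⟩ := H96.exists_pow_eq_residue P E hq hP
          (IsLocalRing.residue (_root_.Fermat.Agent.A2.Mod.RE P E) r)
        obtain ⟨s, rfl⟩ := IsLocalRing.residue_surjective c'
        refine ⟨s, ?_⟩
        have h1 : IsLocalRing.residue (_root_.Fermat.Agent.A2.Mod.RE P E) (r - s ^ q) = 0 := by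
          rw [map_sub, map_pow, hc', sub_self]
        exact (IsLocalRing.residue_eq_zero_iff _).1 h1
      exact key r
    intro r hr
    obtain ⟨r₀, rfl⟩ := (S18.H456.mem_Rc_iff_cstR M P E).1 hr
    obtain ⟨s, hs⟩ := hperf r₀
    refine ⟨S18.H456.cstR M P E s, S18.H456.cstR_mem_Rc M P E s, ?_⟩
    rw [← S18.H456.cstR_pow, ← S18.H456.cstR_sub, hu.mul_inv_mem_iff]
    exact hs

/-! ### GOODRED for `q ≥ 5` -/

variable [NeZero M]

/-- The good model of row S18 with coordinate `j` over the level `E`, for the uniformiser `w`. -/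
theorem goodModel_j {q : ℕ} (hq : q.Prime) (h5 : 5 ≤ q) (hqM : ¬ q ∣ M)
    (hP : P.LiesOverPrime q) [IsDiscreteValuationRing (_root_.Fermat.Agent.A2.Mod.RE P E)] {w : _root_.Fermat.Agent.A2.Mod.RE P E}
    (hw : Irreducible w) :
    ∃ S : Finset (S18.Mod.Om M),
      S18.Alg.GoodModel (S18.Mod.Lc M) (S18.Mod.Ec M E) (S18.Mod.Fc M E) (S18.Mod.Rc M P E)
        (S18.Mod.H216.Vc M P E) (bridge E M (cE P E M w)) (S18.Mod.jOm M) S := by
  classical
  haveI : Fact q.Prime := ⟨hq⟩
  refine ⟨{0, 1728}, ?_⟩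
  exact S18.Mod.H216.goodModel_of_partR M P E hqM hP (partR_bridge_cE P E M hq hP hw)
    (Or.inl ⟨h5, rfl, fun s => by simp⟩)

/-- **GOODRED**, chart of `j`. -/
theorem goodRedAt_j {q : ℕ} (hq : q.Prime) (h5 : 5 ≤ q) (hqM : ¬ q ∣ M)
    (hP : P.LiesOverPrime q) [IsDiscreteValuationRing (_root_.Fermat.Agent.A2.Mod.RE P E)] (w : _root_.Fermat.Agent.A2.Mod.RE P E)
    (hw : Irreducible w) (VM : ValuationSubring (_root_.Fermat.Agent.A2.Mod.FE E M)) (hV : IsVinf P E M VM) :
    GoodRedAt P E M w VM (jE E M 1 (one_dvd _)) := by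
  obtain ⟨S, G⟩ := goodModel_j P E M hq h5 hqM hP hw
  exact goodRedAt_of_goodModel hV _ (bridge_jE 1 (one_dvd M)) G

/-- **GOODRED**, chart of `j⁻¹`. -/
theorem goodRedAt_j_inv {q : ℕ} (hq : q.Prime) (h5 : 5 ≤ q) (hqM : ¬ q ∣ M)
    (hP : P.LiesOverPrime q) [IsDiscreteValuationRing (_root_.Fermat.Agent.A2.Mod.RE P E)] (w : _root_.Fermat.Agent.A2.Mod.RE P E)
    (hw : Irreducible w) (VM : ValuationSubring (_root_.Fermat.Agent.A2.Mod.FE E M)) (hV : IsVinf P E M VM) :
    GoodRedAt P E M w VM (jE E M 1 (one_dvd _))⁻¹ := by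
  obtain ⟨S, G⟩ := goodModel_j P E M hq h5 hqM hP hw
  exact goodRedAt_inv_of_goodModel hV _ (bridge_jE 1 (one_dvd M)) G

/-- **GOODRED**: the level-`M` hypothesis `GoodRedHyp` of MODASM (`A2/Mod/Asm.lean`), `q ≥ 5`. -/
theorem goodRedHyp {q : ℕ} (hq : q.Prime) (h5 : 5 ≤ q) (hqM : ¬ q ∣ M)
    (hP : P.LiesOverPrime q) (hdvr : IsDiscreteValuationRing (_root_.Fermat.Agent.A2.Mod.RE P E)) :
    GoodRedHyp P E M :=
  fun w VM hw hV =>
    ⟨goodRedAt_j P E M hq h5 hqM hP w hw VM hV, goodRedAt_j_inv P E M hq h5 hqM hP w hw VM hV⟩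

end Fermat.Agent.A2.Mod.H216

end
end
-- ===== PACK-END A2/Mod/H216/GoodRed.lean

-- ===== PACK-BEGIN A2/Mod/H216/GoodRedAll.lean
section




/-!
# A2 / GOODRED (helper216): `Top.H994.GoodRedStatement` — CLOSED (all primes `q`)

    goodRedStatement : Top.H994.GoodRedStatement

i.e. for every prime `q ∤ M` (with `2 ∣ M` if `q = 3`, `3 ∣ M` if `q = 2`), `P` over `q` and every
good level `E`: `Mod.GoodRedHyp P E M` (good reduction at level `M` in the charts of `j`, `1/j`).

* `q ≥ 5` : `goodRedHyp` (`GoodRed.lean`), coordinate `j` of row S18;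
* `q = 3` : the good model of row S18 in the coordinate `t₂` (`S18.Mod.H216.goodModel_of_partR`),
  the adapter `goodRedAt_of_goodModel`, and helper189's chart change `H189.goodRedHyp_of_t2`;
* `q = 2` : the same with `t₃`, `H189.goodRedHyp_of_t3`.

Only `GoodField.dvr` is used (no henselian / algebraically closed residue field hypothesis).
-/

set_option autoImplicit false
set_option linter.unusedSectionVars false
set_option linter.style.haveILetI false
set_option synthInstance.maxHeartbeats 400000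
set_option maxHeartbeats 1600000

noncomputable section

namespace Fermat.Agent.A2.Mod.H216

open ModularCurve Polynomial

variable (P : ValuationSubring _root_.Fermat.Agent.A2.Mod.Qb) (E : IntermediateField ℚ _root_.Fermat.Agent.A2.Mod.Qb) (M : ℕ)

theorem bridge_t2E (hM : 2 ∣ M) :
    bridge E M (H189.t2E E M hM) = S18.H333.t2Om M hM := by
  apply Subtype.ext
  rw [coe_bridge]
  exact S18.H602.coeffMap_coeffEmb' (algebraMap E _root_.Fermat.Agent.A2.Mod.Qb) _

theorem bridge_t3E (hM : 3 ∣ M) :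
    bridge E M (H189.t3E E M hM) = S18.H333.t3Om M hM := by
  apply Subtype.ext
  rw [coe_bridge]
  exact S18.H602.coeffMap_coeffEmb' (algebraMap E _root_.Fermat.Agent.A2.Mod.Qb) _

theorem isCoordinate_t2Om (hM : 2 ∣ M) :
    ∃ S : Finset (S18.Mod.Om M), S18.Mod.IsCoordinate M 3 (S18.H333.t2Om M hM) S := by
  classical
  refine ⟨{0, -64}, Or.inr ⟨Or.inl ⟨rfl, S18.H333.t2Om_rel M hM, ?_⟩, ?_⟩⟩
  · intro s; simp
  · exact ⟨S18.H333.t2Z, S18.H333.t2Z_coeff_neg_one, fun k hk => S18.H333.t2Z_coeff_of_lt hk,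
      S18.H333.omOf_coe M S18.H333.t2Z _, S18.H333.t2Q_mem M hM⟩

theorem isCoordinate_t3Om (hM : 3 ∣ M) :
    ∃ S : Finset (S18.Mod.Om M), S18.Mod.IsCoordinate M 2 (S18.H333.t3Om M hM) S := by
  classical
  refine ⟨{0, -27}, Or.inr ⟨Or.inr ⟨rfl, S18.H333.t3Om_rel M hM, ?_⟩, ?_⟩⟩
  · intro s; simp
  · exact ⟨S18.H333.t3Z, S18.H333.t3Z_coeff_neg_one, fun k hk => S18.H333.t3Z_coeff_of_lt hk,
      S18.H333.omOf_coe M S18.H333.t3Z _, S18.H333.t3Q_mem M hM⟩

variable [NeZero M]

/-- **GOODRED for `q = 3`** (`2 ∣ M`). -/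
theorem goodRedHyp_three (hqM : ¬ 3 ∣ M) (hM : 2 ∣ M) (hP : P.LiesOverPrime 3)
    (hdvr : IsDiscreteValuationRing (_root_.Fermat.Agent.A2.Mod.RE P E)) : GoodRedHyp P E M := by
  haveI := hdvr
  haveI : Fact (Nat.Prime 3) := ⟨Nat.prime_three⟩
  refine H189.goodRedHyp_of_t2 P E M hP (NeZero.ne M) hM hdvr fun w VM hw hV => ?_
  obtain ⟨S, hS⟩ := isCoordinate_t2Om M hM
  have G := S18.Mod.H216.goodModel_of_partR M P E hqM hP
    (partR_bridge_cE P E M Nat.prime_three hP hw) hS
  exact ⟨goodRedAt_of_goodModel hV _ (bridge_t2E E M hM) G,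
    goodRedAt_inv_of_goodModel hV _ (bridge_t2E E M hM) G⟩

/-- **GOODRED for `q = 2`** (`3 ∣ M`). -/
theorem goodRedHyp_two (hqM : ¬ 2 ∣ M) (hM : 3 ∣ M) (hP : P.LiesOverPrime 2)
    (hdvr : IsDiscreteValuationRing (_root_.Fermat.Agent.A2.Mod.RE P E)) : GoodRedHyp P E M := by
  haveI := hdvr
  haveI : Fact (Nat.Prime 2) := ⟨Nat.prime_two⟩
  refine H189.goodRedHyp_of_t3 P E M hP (NeZero.ne M) hM hdvr fun w VM hw hV => ?_
  obtain ⟨S, hS⟩ := isCoordinate_t3Om M hM
  have G := S18.Mod.H216.goodModel_of_partR M P E hqM hP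
    (partR_bridge_cE P E M Nat.prime_two hP hw) hS
  exact ⟨goodRedAt_of_goodModel hV _ (bridge_t3E E M hM) G,
    goodRedAt_inv_of_goodModel hV _ (bridge_t3E E M hM) G⟩

/-- **GOODRED, all primes**: any level `E` with `R_E` a discrete valuation ring. -/
theorem goodRedHyp_of_dvr {q : ℕ} (hq : q.Prime) (hqM : ¬ q ∣ M) (h3 : q = 3 → 2 ∣ M)
    (h2 : q = 2 → 3 ∣ M) (hP : P.LiesOverPrime q) (hdvr : IsDiscreteValuationRing (_root_.Fermat.Agent.A2.Mod.RE P E)) :
    GoodRedHyp P E M := by
  by_cases h5 : 5 ≤ q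
  · exact goodRedHyp P E M hq h5 hqM hP hdvr
  · have hq2 := hq.two_le
    have hcases : q = 2 ∨ q = 3 := by
      by_contra hne
      have : q = 4 := by omega
      subst this
      exact absurd hq (by norm_num)
    rcases hcases with rfl | rfl
    · exact goodRedHyp_two P E M hqM (h2 rfl) hP hdvr
    · exact goodRedHyp_three P E M hqM (h3 rfl) hP hdvr

end Fermat.Agent.A2.Mod.H216

namespace Fermat.Agent.A2.Top.H216

open Fermat.Agent.A2

/-- **`Top.H994.GoodRedStatement`** (exact target of the GOODRED owners, `Top/H994/ModTop.lean`). -/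
theorem goodRedStatement : Top.H994.GoodRedStatement :=
  fun P E M q _ _ hq hqM h3 h2 hP hE =>
    Mod.H216.goodRedHyp_of_dvr P E M hq hqM h3 h2 hP hE.dvr

end Fermat.Agent.A2.Top.H216

end
end
-- ===== PACK-END A2/Mod/H216/GoodRedAll.lean

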