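import Fermat.Agent.Pack.S34.G0E12L2
import Fermat.Agent.Pack.S34.G0E11L0
import Fermat.Agent.Pack.S34.G0E11L3
import Fermat.Agent.Pack.S34.G0E10L2
import Fermat.Agent.Pack.S34.G0E12L1
import Fermat.Agent.Pack.S34.G0E12L3

-- ===== PACK-BEGIN A2/Top/H96/WallNoSep.lean
section











/-!
# WALL A2 — the wall WITHOUT `SepCoord` (helper96; insurance against MODASM S4)

`Top.H994.wall` needs `AlgSSStatement` + `IFStatement` + `ModSSGoodStatement` + `D2Statement`,
and `ModSSGoodStatement` (frozen `ModSSData`) contains the two `SepCoord` fields, i.e. MODASM S4.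
Route S of ALG never uses `SepCoord`.  This file closes the wall from

* `S2` (`Mod.S2Statement`, components normal),
* `S3` (`Mod.S3Statement`, ordinary double points),
* `GOODRED` (`Top.H994.GoodRedStatement`)

ONLY; everything else is plugged in from main: ALG (`algSS_noSep`), IF (`IF.H429.ifStatement`),
D2 (`H876.d2Statement`), L1/L2/L4/L6 (`Mod.H553`, `Mod.H751`), L8 (`Mod.H31.deg`),
L9/L10 (`Mod.H753`), S1 (`Mod.H13.s1`), Sτ (`Mod.H751.stau_of_s1`), T0 (`T0.H669`).

* `ModelNoSep P E N`     : the semistable two-chart model without `SepCoord`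
                           (= conclusion of `Mod.exists_model_of_parts`);
* `t1_perN_noSep`        : IF + (`ModelNoSep` at the level `N`) ⟹ `KummerTarget N q m`;
* `modelNoSep_of_parts`  : S2 + S3 + GOODRED ⟹ `ModelNoSep` at the levels with the auxiliary
                           prime;
* `kummerTarget_noSep`, `wall_noSep` : S2 + S3 + GOODRED ⟹ `KummerTarget N q m`, `Target N q m`
                           for all `q ‖ N`, `q ∤ m`.
-/

set_option autoImplicit false
set_option linter.unusedSectionVars false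
set_option linter.style.haveILetI false
set_option synthInstance.maxHeartbeats 400000
set_option maxHeartbeats 1600000

noncomputable section

namespace Fermat.Agent.A2.Top.H96

open ModularCurve AlgebraicCurve Fermat.Agent.A2 Fermat.Agent.A2.T1.H669
  Fermat.Agent.A2.Top.H994

/-- The semistable two-chart model of `X₀(N)` over `R_E` WITHOUT separating coordinate
(`ModSSData` minus the fields `sf`, `si`; the inertia hypotheses are stated for ANY automorphism
`τE` of `E` compatible with `τ`).  This is the conclusion of `Mod.exists_model_of_parts`. -/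
def ModelNoSep (P : ValuationSubring _root_.Fermat.Agent.A2.Qb) (E : IntermediateField ℚ _root_.Fermat.Agent.A2.Qb) (N : ℕ) : Prop :=
  ∃ (x : FE E N) (Bf Bi : Subalgebra (RE P E) (FE E N)),
    Transcendental E x ∧
    FiniteDimensional (IntermediateField.adjoin E ({x} : Set (FE E N))) (FE E N) ∧
    (∀ f : FE E N, IsAlgebraic E f → f ∈ (algebraMap E (FE E N)).range) ∧
    (∀ f : FE E N, f ∈ Bf ↔
      IsIntegral (Algebra.adjoin (RE P E) ({x} : Set (FE E N))) f) ∧
    (∀ f : FE E N, f ∈ Bi ↔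
      IsIntegral (Algebra.adjoin (RE P E) ({x⁻¹} : Set (FE E N))) f) ∧
    (∀ w : RE P E, Irreducible w → Nonempty (SSChart w Bf)) ∧
    (∀ w : RE P E, Irreducible w → Nonempty (SSChart w Bi)) ∧
    (∀ τ ∈ P.inertiaSubgroupIn ℚ, ∀ τE : E ≃ₐ[ℚ] E,
      (∀ e : E, ((τE e : E) : _root_.Fermat.Agent.A2.Qb) = τ (e : _root_.Fermat.Agent.A2.Qb)) →
      arithmeticRingAut (modularFunctionFieldFull N) τE x = x) ∧
    (∀ τ ∈ P.inertiaSubgroupIn ℚ, ∀ τE : E ≃ₐ[ℚ] E,
      (∀ e : E, ((τE e : E) : _root_.Fermat.Agent.A2.Qb) = τ (e : _root_.Fermat.Agent.A2.Qb)) →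
      ∀ w : RE P E, Irreducible w → ∀ b ∈ Bf, ∃ c ∈ Bf,
        arithmeticRingAut (modularFunctionFieldFull N) τE b - b =
          algebraMap (RE P E) (FE E N) w * c) ∧
    (∀ τ ∈ P.inertiaSubgroupIn ℚ, ∀ τE : E ≃ₐ[ℚ] E,
      (∀ e : E, ((τE e : E) : _root_.Fermat.Agent.A2.Qb) = τ (e : _root_.Fermat.Agent.A2.Qb)) →
      ∀ w : RE P E, Irreducible w → ∀ b ∈ Bi, ∃ c ∈ Bi,
        arithmeticRingAut (modularFunctionFieldFull N) τE b - b =
          algebraMap (RE P E) (FE E N) w * c)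

/-- A `ModSSData` gives a `ModelNoSep` (forget the separating coordinate). -/
theorem modelNoSep_of_modSSData {P : ValuationSubring _root_.Fermat.Agent.A2.Qb} {E : IntermediateField ℚ _root_.Fermat.Agent.A2.Qb} {N : ℕ}
    (hE : GoodField P E) (D : ModSSData P E N)
    (hτ : ∀ τ ∈ P.inertiaSubgroupIn ℚ, ∀ τE : E ≃ₐ[ℚ] E,
      (∀ e : E, ((τE e : E) : _root_.Fermat.Agent.A2.Qb) = τ (e : _root_.Fermat.Agent.A2.Qb)) → ∀ hτ' : τ ∈ P.inertiaSubgroupIn ℚ,
        τE = hE.res τ hτ') :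
    ModelNoSep P E N :=
  ⟨D.x, D.Bf, D.Bi, D.hx, D.hfin, D.hconst, D.hBf, D.hBi, D.cf, D.ci,
    fun τ h τE hc => by rw [hτ τ h τE hc h]; exact D.hτx hE τ h,
    fun τ h τE hc => by rw [hτ τ h τE hc h]; exact D.hτf hE τ h,
    fun τ h τE hc => by rw [hτ τ h τE hc h]; exact D.hτi hE τ h⟩

/-- **T1 for one level, without `SepCoord`.**  `IF + (model at the level N) ⟹ KummerTarget`. -/
theorem t1_perN_noSep (hIF : IFStatement) (N q m : ℕ) (hq : q.Prime)
    (hm : 0 < m) (hqm : ¬ q ∣ m)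
    (hMOD : ∀ (P : ValuationSubring _root_.Fermat.Agent.A2.Qb) (E : IntermediateField ℚ _root_.Fermat.Agent.A2.Qb),
      P.LiesOverPrime q → GoodField P E → ModelNoSep P E N) :
    KummerTarget N q m := by
  intro P hP τ hτ f hf hdiv
  refine kummer_of_levels (modularFunctionFieldFull N) m τ (fun S => ?_) f hf hdiv
  obtain ⟨E, hSE, hE⟩ := hIF q hq P hP S
  refine ⟨E, hSE, hE.res τ hτ, fun e => rfl, fun y hy0 hdd => ?_⟩
  obtain ⟨x, Bf, Bi, hx, hfin, hconst, hBf, hBi, cf, ci, -, hτf, hτi⟩ := hMOD P E hP hE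
  haveI : IsDiscreteValuationRing ↥(RE P E) := hE.dvr
  haveI : HenselianLocalRing ↥(RE P E) := hE.henselian
  haveI : IsAlgClosed (IsLocalRing.ResidueField ↥(RE P E)) := hE.algClosed
  obtain ⟨w, hw⟩ := IsDiscreteValuationRing.exists_irreducible ↥(RE P E)
  obtain ⟨cf⟩ := cf w hw
  obtain ⟨ci⟩ := ci w hw
  have hconcl : AlgSSConclusion E m
      (arithmeticRingAut (modularFunctionFieldFull N) (hE.res τ hτ)) :=
    algSS_noSep (R := ↥(RE P E)) (E := E) (F := ↥(FE E N)) w hw q m hq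
      (natCast_mem_maximalIdeal_RE E hP) hm hqm x hx hfin hconst Bf Bi hBf hBi cf ci
      (arithmeticRingAut (modularFunctionFieldFull N) (hE.res τ hτ))
      (hE.res τ hτ).toRingEquiv (resR hE τ hτ)
      (fun e => arithmeticRingAut_algebraMap (modularFunctionFieldFull N) (hE.res τ hτ) e)
      (fun r => rfl)
      (hτf τ hτ (hE.res τ hτ) (fun _ => rfl) w hw)
      (hτi τ hτ (hE.res τ hτ) (fun _ => rfl) w hw)
  exact hconcl y hy0 hdd

/-- **MOD without `SepCoord`, final assembly**: S2 + S3 + GOODRED give the model at every level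
`N`, `q ‖ N`, carrying the auxiliary prime.  (L1, L2, L4, L6, L8, L9, L10, S1, Sτ from main.) -/
theorem modelNoSep_of_parts
    (hS2 : ∀ (P : ValuationSubring _root_.Fermat.Agent.A2.Qb) (E : IntermediateField ℚ _root_.Fermat.Agent.A2.Qb) (M q : ℕ) [NeZero M]
      [NeZero q] (w : RE P E), Mod.S2Statement P E M q w)
    (hS3 : ∀ (P : ValuationSubring _root_.Fermat.Agent.A2.Qb) (E : IntermediateField ℚ _root_.Fermat.Agent.A2.Qb) (M q : ℕ) [NeZero M]
      [NeZero q] (w : RE P E), Mod.S3Statement P E M q w)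
    (hGood : GoodRedStatement)
    (P : ValuationSubring _root_.Fermat.Agent.A2.Qb) (E : IntermediateField ℚ _root_.Fermat.Agent.A2.Qb) (N q : ℕ)
    (hq : q.Prime) (hqN : q ∣ N) (hq2 : ¬ q ^ 2 ∣ N) (hN : N ≠ 0)
    (h3 : q = 3 → 2 ∣ N) (h2 : q = 2 → 3 ∣ N)
    (hP : P.LiesOverPrime q) (hE : GoodField P E) : ModelNoSep P E N := by
  obtain ⟨M, hM⟩ := hqN
  have hNM : N = M * q := by rw [hM, mul_comm]
  subst hNM
  have hM0 : M ≠ 0 := fun h => hN (by rw [h, zero_mul])
  haveI : NeZero M := ⟨hM0⟩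
  haveI : NeZero q := ⟨hq.ne_zero⟩
  have hqM : ¬ q ∣ M := by
    rintro ⟨c, hc⟩
    exact hq2 ⟨c, by rw [hc]; ring⟩
  have h3' : q = 3 → 2 ∣ M := by
    intro h
    have h2N := h3 h
    subst h
    exact (Nat.Coprime.dvd_mul_right (by norm_num : Nat.Coprime 2 3)).1 h2N
  have h2' : q = 2 → 3 ∣ M := by
    intro h
    have h3N := h2 h
    subst h
    exact (Nat.Coprime.dvd_mul_right (by norm_num : Nat.Coprime 3 2)).1 h3N
  have hS1 : ∀ w : RE P E, Mod.S1Statement P E M q w := fun w =>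
    Mod.H13.s1 (Mod.H553.vzeroNe P E M q w) (Mod.H31.deg E M q) (Mod.H753.indInf P E M q w)
      (Mod.H753.indZero P E M q w)
  exact Mod.exists_model_of_parts P E M q hq hqM hP hE.dvr
    (Mod.H553.vinfExists P E M hM0 hE.dvr)
    (Mod.H553.vinfExists P E (M * q) hN hE.dvr)
    (Mod.H751.frickeExists E (M * q) hN)
    (Mod.H31.deg E M q) hS1 (hS2 P E M q) (hS3 P E M q)
    (fun w => Mod.H751.stau_of_s1 P E M q w (hS1 w))
    (hGood P E M q hq hqM h3' h2' hP hE)

/-- **The Kummer form of the wall, all `q`, from S2 + S3 + GOODRED only.** -/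
theorem kummerTarget_noSep
    (hS2 : ∀ (P : ValuationSubring _root_.Fermat.Agent.A2.Qb) (E : IntermediateField ℚ _root_.Fermat.Agent.A2.Qb) (M q : ℕ) [NeZero M]
      [NeZero q] (w : RE P E), Mod.S2Statement P E M q w)
    (hS3 : ∀ (P : ValuationSubring _root_.Fermat.Agent.A2.Qb) (E : IntermediateField ℚ _root_.Fermat.Agent.A2.Qb) (M q : ℕ) [NeZero M]
      [NeZero q] (w : RE P E), Mod.S3Statement P E M q w)
    (hGood : GoodRedStatement)
    (N q m : ℕ) (hq : q.Prime) (hqN : q ∣ N) (hq2 : ¬ q ^ 2 ∣ N) (hN : N ≠ 0) (hm : 0 < m)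
    (hqm : ¬ q ∣ m) : KummerTarget N q m := by
  apply Fermat.Agent.A2.H876.d2Statement N q m hq hqN hq2 hN hm hqm
  apply t1_perN_noSep Fermat.Agent.A2.IF.H429.ifStatement (auxLevel N q) q m hq hm hqm
  intro P E hP hE
  exact modelNoSep_of_parts hS2 hS3 hGood P E (auxLevel N q) q hq
    (hqN.trans (dvd_auxLevel N q)) (not_sq_dvd_auxLevel hq hq2) (auxLevel_ne_zero q hN)
    aux_two_dvd aux_three_dvd hP hE

/-- **The wall A2, all `q`, from S2 + S3 + GOODRED only**: unipotent inertia on `J₀(N)[m]` at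
every `q ‖ N`, `q ∤ m`. -/
theorem wall_noSep
    (hS2 : ∀ (P : ValuationSubring _root_.Fermat.Agent.A2.Qb) (E : IntermediateField ℚ _root_.Fermat.Agent.A2.Qb) (M q : ℕ) [NeZero M]
      [NeZero q] (w : RE P E), Mod.S2Statement P E M q w)
    (hS3 : ∀ (P : ValuationSubring _root_.Fermat.Agent.A2.Qb) (E : IntermediateField ℚ _root_.Fermat.Agent.A2.Qb) (M q : ℕ) [NeZero M]
      [NeZero q] (w : RE P E), Mod.S3Statement P E M q w)
    (hGood : GoodRedStatement)
    (N q m : ℕ) (hq : q.Prime) (hqN : q ∣ N) (hq2 : ¬ q ^ 2 ∣ N) (hN : N ≠ 0) (hm : 0 < m)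
    (hqm : ¬ q ∣ m) : Target N q m :=
  Fermat.Agent.A2.T0.H669.target_of_kummerTarget N q m hm
    (kummerTarget_noSep hS2 hS3 hGood N q m hq hqN hq2 hN hm hqm)

end Fermat.Agent.A2.Top.H96

end

end
-- ===== PACK-END A2/Top/H96/WallNoSep.lean

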